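import Mathlib.NumberTheory.ModularForms.Derivative
import Mathlib.NumberTheory.ModularForms.LevelOne.DimensionFormula
import Mathlib.NumberTheory.ModularForms.LevelOne.GradedRing
import Mathlib.Analysis.Complex.Liouville
import Mathlib
import Fermat.Prelude.Def_ModularCurve_IgusaScheme
import Fermat.Prelude.Def_ModularCurve_X0ModL
import Fermat.Prelude.Def_ModularCurve_X0
import Fermat.Prelude.Def_ModularCurve_LaurentCoeff
import Fermat.Prelude.Def_ModularCurve_JqCoeff
import Mathlib.AlgebraicGeometry.EllipticCurve.Affine.Point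
import Mathlib.RingTheory.Valuation.ValuationSubring
import Mathlib.RingTheory.Valuation.RamificationGroup
import Mathlib.Tactic
import Fermat.Prelude.Def_FLTPrelim_GaloisRep
import Fermat.Prelude.Def_FLTPrelim_Modularity
import Fermat.Prelude.Def_FLTPrelim_ModularRep
import Fermat.Prelude.Def_FLTPrelim_Ramification
import Fermat.Prelude.Def_EllipticCurve_FrobeniusTrace

-- ===== PACK-BEGIN S20/L1/Ramanujan.lean
section





/-!
# Level-one input for S20: Ramanujan identities and simple zeros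

(helper140) Serre derivative of a level-one modular form is a level-one modular form;
Ramanujan identities for `E₄`, `E₆`, `Δ`; simple zeros.
-/

set_option autoImplicit false

open UpperHalfPlane ModularForm EisensteinSeries Derivative Filter Topology
open scoped MatrixGroups Manifold

noncomputable section

namespace Fermat.Agent.S20.L1

/-- If `F` is holomorphic on `ℍ` and bounded at `i∞`, then its derivative tends to zero
at `i∞` (Cauchy estimate on discs of growing radius). -/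
theorem isZeroAtImInfty_normalizedDeriv {F : ℍ → ℂ} (hF : MDiff F)
    (hb : IsBoundedAtImInfty F) : IsZeroAtImInfty (D F) := by
  rw [isBoundedAtImInfty_iff] at hb
  obtain ⟨M, A, hMA⟩ := hb
  rw [isZeroAtImInfty_iff]
  intro ε hε
  -- we may assume `M ≥ 0` and `A ≥ 1`
  set M' : ℝ := max M 0 with hM'
  set A' : ℝ := max A 1 with hA'
  have hM'0 : 0 ≤ M' := le_max_right _ _
  set R : ℝ := M' / ε + 1 with hR
  have hRpos : 0 < R := by positivity
  refine ⟨A' + R, fun z hz ↦ ?_⟩
  have hdiff : DifferentiableOn ℂ (F ∘ ofComplex) upperHalfPlaneSet :=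
    mdifferentiable_iff.mp hF
  have hsub : Metric.closedBall (z : ℂ) R ⊆ upperHalfPlaneSet := by
    intro w hw
    have h1 : |w.im - (z : ℂ).im| ≤ R := by
      have := Complex.abs_im_le_norm (w - z)
      rw [Complex.sub_im] at this
      exact this.trans (by simpa [dist_eq_norm] using hw)
    have h2 : (z : ℂ).im = z.im := rfl
    have h3 : A' + R ≤ (z : ℂ).im := by simpa using hz
    have h4 : (1 : ℝ) ≤ A' := le_max_right _ _
    have h5 := abs_le.mp h1
    show 0 < w.im
    linarith [h5.1]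
  have hd : DiffContOnCl ℂ (F ∘ ofComplex) (Metric.ball (z : ℂ) R) := by
    refine DifferentiableOn.diffContOnCl ?_
    rw [closure_ball _ hRpos.ne']
    exact hdiff.mono hsub
  have hC : ∀ w ∈ Metric.sphere (z : ℂ) R, ‖(F ∘ ofComplex) w‖ ≤ M' := by
    intro w hw
    have hwU : w ∈ upperHalfPlaneSet := hsub (Metric.sphere_subset_closedBall hw)
    have h1 : |w.im - (z : ℂ).im| ≤ R := by
      have := Complex.abs_im_le_norm (w - z)
      rw [Complex.sub_im] at this
      exact this.trans (by simpa [dist_eq_norm] using (Metric.sphere_subset_closedBall hw))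
    have h3 : A' + R ≤ (z : ℂ).im := by simpa using hz
    have h5 := abs_le.mp h1
    have hA : A ≤ (ofComplex w).im := by
      rw [ofComplex_apply_of_im_pos hwU]
      show A ≤ w.im
      have : A ≤ A' := le_max_left _ _
      linarith [h5.1]
    exact (hMA _ hA).trans (le_max_left _ _)
  have key := Complex.norm_deriv_le_of_forall_mem_sphere_norm_le hRpos hd hC
  have h2pi : ‖(2 * (Real.pi : ℂ) * Complex.I)‖ = 2 * Real.pi := by
    simp [abs_of_pos Real.pi_pos]
  rw [normalizedDerivOfComplex, norm_mul, norm_inv, h2pi]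
  have hpi : (1 : ℝ) ≤ 2 * Real.pi := by linarith [Real.two_le_pi]
  have hMR : M' / R ≤ ε := by
    rw [div_le_iff₀ hRpos, hR]
    have : M' = ε * (M' / ε) := by field_simp
    nlinarith
  calc (2 * Real.pi)⁻¹ * ‖deriv (F ∘ ofComplex) ↑z‖
      ≤ 1 * ‖deriv (F ∘ ofComplex) ↑z‖ := by
        gcongr
        exact inv_le_one_of_one_le₀ hpi
    _ ≤ ε := by rw [one_mul]; exact key.trans hMR

/-- Build a level-one modular form from function-level data. -/
def mkLevelOne (k : ℤ) (F : ℍ → ℂ) (hol : MDiff F) (inv : ∀ γ : SL(2, ℤ), F ∣[k] γ = F)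
    (bdd : IsBoundedAtImInfty F) : ModularForm 𝒮ℒ k where
  toFun := F
  slash_action_eq' A hA := by
    obtain ⟨A, rfl⟩ := hA
    exact inv A
  holo' := hol
  bdd_at_cusps' hc := by
    rw [Subgroup.IsArithmetic.isCusp_iff_isCusp_SL2Z] at hc
    rw [OnePoint.isBoundedAt_iff_forall_SL2Z hc]
    intro γ _
    rw [inv γ]
    exact bdd

@[simp]
lemma coe_mkLevelOne (k : ℤ) (F : ℍ → ℂ) (hol : MDiff F) (inv : ∀ γ : SL(2, ℤ), F ∣[k] γ = F)
    (bdd : IsBoundedAtImInfty F) : ⇑(mkLevelOne k F hol inv bdd) = F := rfl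

lemma levelOne_slash_eq {k : ℤ} (f : ModularForm 𝒮ℒ k) (γ : SL(2, ℤ)) :
    (f : ℍ → ℂ) ∣[k] γ = f :=
  SlashInvariantFormClass.slash_action_eq f _ ⟨γ, rfl⟩

lemma levelOne_isBoundedAtImInfty {k : ℤ} (f : ModularForm 𝒮ℒ k) :
    IsBoundedAtImInfty (f : ℍ → ℂ) := by
  have := ModularFormClass.bdd_at_infty_slash f (1 : SL(2, ℤ))
  simpa using this

/-- The Serre derivative of a level-one modular form is bounded at `i∞`. -/
lemma isBoundedAtImInfty_serreDerivative {k : ℤ} (f : ModularForm 𝒮ℒ k) :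
    IsBoundedAtImInfty (serreDerivative (k : ℂ) (f : ℍ → ℂ)) := by
  have h1 : IsBoundedAtImInfty (D (f : ℍ → ℂ)) :=
    (isZeroAtImInfty_normalizedDeriv f.holo' (levelOne_isBoundedAtImInfty f)).isBoundedAtImInfty
  have h2 : IsBoundedAtImInfty (fun z ↦ (k : ℂ) * 12⁻¹ * E2 z * f z) := by
    have h3 : IsBoundedAtImInfty (fun z ↦ E2 z * f z) :=
      isBoundedAtImInfty_E2.mul (levelOne_isBoundedAtImInfty f)
    have h4 := h3.const_mul_left ((k : ℂ) * 12⁻¹)
    refine h4.congr_left ?_ |>.trans (Asymptotics.isBigO_refl _ _) 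
    intro z
    simp [mul_assoc]
  rw [serreDerivative_eq]
  exact h1.sub h2

/-- The Serre derivative of a level-one modular form, as a modular form of weight `k + 2`. -/
def serreDerivativeForm {k : ℤ} (f : ModularForm 𝒮ℒ k) : ModularForm 𝒮ℒ (k + 2) :=
  mkLevelOne (k + 2) (serreDerivative (k : ℂ) (f : ℍ → ℂ))
    (serreDerivative_mdifferentiable _ f.holo')
    (fun γ ↦ serreDerivative_slash_invariant f.holo' (levelOne_slash_eq f γ))
    (isBoundedAtImInfty_serreDerivative f)

@[simp]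
lemma serreDerivativeForm_apply {k : ℤ} (f : ModularForm 𝒮ℒ k) (z : ℍ) :
    serreDerivativeForm f z = D (f : ℍ → ℂ) z - (k : ℂ) * 12⁻¹ * E2 z * f z := rfl

/-- A periodic holomorphic function bounded at `i∞` tends to the value of its cusp function
at `0`. -/
lemma tendsto_atImInfty_cuspFunction {f : ℍ → ℂ} {h : ℝ} (hh : 0 < h)
    (hfper : Function.Periodic (f ∘ ofComplex) h) (hfhol : MDiff f)
    (hfbdd : IsBoundedAtImInfty f) :
    Tendsto f atImInfty (𝓝 (cuspFunction h f 0)) := by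
  have han := analyticAt_cuspFunction_zero hh hfper hfhol hfbdd
  have : (cuspFunction h f ∘ fun τ : ℍ ↦ Function.Periodic.qParam h τ : ℍ → ℂ) = f := by
    funext τ
    simpa using eq_cuspFunction τ hh.ne' hfper
  simpa [this] using han.continuousAt.tendsto.comp (qParam_tendsto_atImInfty hh)

/-- A level-one modular form tends to its zeroth `q`-expansion coefficient at `i∞`. -/
lemma levelOne_tendsto_atImInfty {k : ℤ} (f : ModularForm 𝒮ℒ k) :
    Tendsto (f : ℍ → ℂ) atImInfty (𝓝 ((qExpansion 1 f).coeff 0)) := by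
  have hper := SlashInvariantFormClass.periodic_comp_ofComplex f one_mem_strictPeriods_SL
  have h1 := tendsto_atImInfty_cuspFunction one_pos hper f.holo' (levelOne_isBoundedAtImInfty f)
  have han := analyticAt_cuspFunction_zero one_pos hper f.holo' (levelOne_isBoundedAtImInfty f)
  rwa [qExpansion_coeff_zero one_pos han hper, ← cuspFunction_apply_zero one_pos han hper]

lemma tendsto_E₄ : Tendsto (E₄ : ℍ → ℂ) atImInfty (𝓝 1) := by
  simpa [E_qExpansion_coeff_zero (by norm_num : 3 ≤ 4) ⟨2, rfl⟩] using levelOne_tendsto_atImInfty E₄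

lemma tendsto_E₆ : Tendsto (E₆ : ℍ → ℂ) atImInfty (𝓝 1) := by
  simpa [E_qExpansion_coeff_zero (by norm_num : 3 ≤ 6) ⟨3, rfl⟩] using levelOne_tendsto_atImInfty E₆

lemma E2_periodic : Function.Periodic (E2 ∘ ofComplex) 1 := by
  intro w
  simp only [Function.comp_apply]
  by_cases hw : 0 < w.im
  · have hw' : 0 < (w + 1).im := by simpa using hw
    rw [ofComplex_apply_of_im_pos hw, ofComplex_apply_of_im_pos hw']
    have h1 := (hasSum_qExpansion_E2 (z := ⟨w + 1, hw'⟩)).tsum_eq
    have h2 := (hasSum_qExpansion_E2 (z := ⟨w, hw⟩)).tsum_eq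
    rw [← h1, ← h2]
    congr 1
    funext m
    congr 2
    rw [mul_add, Complex.exp_add]
    simp
  · have hw' : ¬ 0 < (w + 1).im := by simpa using hw
    rw [ofComplex_apply_of_im_nonpos (not_lt.mp hw), ofComplex_apply_of_im_nonpos (not_lt.mp hw')]

lemma tendsto_E2 : Tendsto E2 atImInfty (𝓝 1) := by
  have h1 := tendsto_atImInfty_cuspFunction one_pos E2_periodic E2_mdifferentiable
    isBoundedAtImInfty_E2
  have han := analyticAt_cuspFunction_zero one_pos E2_periodic E2_mdifferentiable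
    isBoundedAtImInfty_E2
  have hps := hasFPowerSeriesOnBall_cuspFunction (f := E2)
    (c := fun m : ℕ ↦ (if m = 0 then 1 else -24 * ArithmeticFunction.sigma 1 m : ℂ)) one_pos han
    (fun τ ↦ by
      simpa only [Function.Periodic.qParam, Complex.ofReal_one, div_one] using
        hasSum_qExpansion_E2 (z := τ))
  have h0 := hps.coeff_zero 1
  simp [FormalMultilinearSeries.ofScalars] at h0
  rwa [← h0] at h1

lemma tendsto_serreDerivativeForm {k : ℤ} (f : ModularForm 𝒮ℒ k) {a : ℂ}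
    (hf : Tendsto (f : ℍ → ℂ) atImInfty (𝓝 a)) :
    Tendsto (serreDerivativeForm f : ℍ → ℂ) atImInfty (𝓝 (-((k : ℂ) * 12⁻¹ * a))) := by
  have h1 : Tendsto (D (f : ℍ → ℂ)) atImInfty (𝓝 0) :=
    isZeroAtImInfty_normalizedDeriv f.holo' (levelOne_isBoundedAtImInfty f)
  have h2 : Tendsto (fun z ↦ (k : ℂ) * 12⁻¹ * E2 z * f z) atImInfty
      (𝓝 ((k : ℂ) * 12⁻¹ * 1 * a)) :=
    (tendsto_E2.const_mul _).mul hf
  have h3 := h1.sub h2
  simp only [mul_one, zero_sub] at h3
  exact h3

/-- If two level-one forms of the same weight are proportional and we know their limits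
at `i∞`, we can read off the constant. -/
lemma eq_smul_of_rank_one {k : ℤ} (hrank : Module.rank ℂ (ModularForm 𝒮ℒ k) = 1)
    (g f : ModularForm 𝒮ℒ k) {a b : ℂ} (hb : b ≠ 0)
    (hg : Tendsto (g : ℍ → ℂ) atImInfty (𝓝 a)) (hf : Tendsto (f : ℍ → ℂ) atImInfty (𝓝 b)) :
    ∀ z, g z = a / b * f z := by
  have hf0 : f ≠ 0 := by
    rintro rfl
    have : Tendsto (fun _ : ℍ ↦ (0 : ℂ)) atImInfty (𝓝 b) := hf
    exact hb (tendsto_nhds_unique this tendsto_const_nhds)
  obtain ⟨c, hc⟩ := (finrank_eq_one_iff_of_nonzero' f hf0).mp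
    (Module.rank_eq_one_iff_finrank_eq_one.mp hrank) g
  have hcz : ∀ z, g z = c * f z := fun z ↦ by rw [← hc]; rfl
  have hlim : Tendsto (g : ℍ → ℂ) atImInfty (𝓝 (c * b)) := by
    have := hf.const_mul c
    refine this.congr fun z ↦ (hcz z).symm
  have hab : a = c * b := tendsto_nhds_unique hg hlim
  intro z
  rw [hcz z, hab]
  field_simp

lemma levelOne_weight_eight_rank_one : Module.rank ℂ (ModularForm 𝒮ℒ 8) = 1 := by
  have := dimension_level_one 8 ⟨4, rfl⟩
  simpa [Nat.ModEq] using this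

/-- Ramanujan's identity for `E₄`: `D E₄ = (E₂ E₄ - E₆) / 3`. -/
theorem ramanujan_E₄ (z : ℍ) : D (E₄ : ℍ → ℂ) z = 3⁻¹ * (E2 z * E₄ z - E₆ z) := by
  have h := eq_smul_of_rank_one levelOne_weight_six_rank_one
    (mcast (by norm_num) (serreDerivativeForm E₄)) E₆ one_ne_zero
    (by simpa using tendsto_serreDerivativeForm E₄ tendsto_E₄) tendsto_E₆ z
  simp only [coe_mcast, serreDerivativeForm_apply] at h
  push_cast at h
  linear_combination h

/-- Ramanujan's identity for `E₆`: `D E₆ = (E₂ E₆ - E₄²) / 2`. -/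
theorem ramanujan_E₆ (z : ℍ) : D (E₆ : ℍ → ℂ) z = 2⁻¹ * (E2 z * E₆ z - E₄ z ^ 2) := by
  have hE4sq : Tendsto ((E₄.mul E₄ : ModularForm 𝒮ℒ (4 + 4)) : ℍ → ℂ) atImInfty (𝓝 (1 * 1)) :=
    tendsto_E₄.mul tendsto_E₄
  have h := eq_smul_of_rank_one levelOne_weight_eight_rank_one
    (mcast (by norm_num) (serreDerivativeForm E₆)) (mcast (by norm_num) (E₄.mul E₄))
    (b := 1) one_ne_zero
    (by simpa using tendsto_serreDerivativeForm E₆ tendsto_E₆) (by simpa using hE4sq) z
  simp only [coe_mcast, serreDerivativeForm_apply, ModularForm.coe_mul, Pi.mul_apply] at h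
  push_cast at h
  linear_combination h

/-- Ramanujan's identity for `Δ`: `D Δ = E₂ Δ`. -/
theorem ramanujan_discriminant (z : ℍ) :
    D ModularForm.discriminant z = E2 z * ModularForm.discriminant z := by
  have hη : DifferentiableAt ℂ ModularForm.eta (z : ℂ) :=
    ModularForm.differentiableAt_eta_of_mem_upperHalfPlaneSet z.2
  have hη0 : ModularForm.eta (z : ℂ) ≠ 0 := by
    have := ModularForm.discriminant_ne_zero z
    intro h
    exact this (by simp [ModularForm.discriminant, h])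
  have hlog := ModularForm.logDeriv_eta_eq_E2 z
  rw [logDeriv_apply, div_eq_iff hη0] at hlog
  have hev : (ModularForm.discriminant ∘ ofComplex) =ᶠ[𝓝 (z : ℂ)]
      fun w ↦ ModularForm.eta w ^ 24 := by
    filter_upwards [isOpen_upperHalfPlaneSet.mem_nhds z.im_pos] with w hw
    simp [ModularForm.discriminant, ofComplex_apply_of_im_pos hw]
  have hd : HasDerivAt (fun w ↦ ModularForm.eta w ^ 24)
      (24 * ModularForm.eta (z : ℂ) ^ 23 * deriv ModularForm.eta (z : ℂ)) (z : ℂ) := by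
    have := hη.hasDerivAt.fun_pow 24
    simpa using this
  have hderiv := (hd.congr_of_eventuallyEq hev).deriv
  simp only [normalizedDerivOfComplex, hderiv, hlog, ModularForm.discriminant]
  have hpi : (2 * (Real.pi : ℂ) * Complex.I) ≠ 0 := by
    simp [Real.pi_ne_zero]
  field_simp
  ring

local notation "Δ" => ModularForm.discriminant

lemma mdiff_discriminant : MDiff (Δ : ℍ → ℂ) := CuspForm.discriminant.holo'

lemma mdiff_E₄ : MDiff (E₄ : ℍ → ℂ) := ModularFormClass.holo E₄

lemma mdiff_E₆ : MDiff (E₆ : ℍ → ℂ) := ModularFormClass.holo E₆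

lemma E₄_cube_sub_E₆_sq (z : ℍ) : E₄ z ^ 3 - E₆ z ^ 2 = 1728 * Δ z := by
  rw [discriminant_eq_E₄_cube_sub_E₆_sq z]; ring

lemma E₆_ne_zero_of_E₄_eq_zero {z : ℍ} (h : E₄ z = 0) : E₆ z ≠ 0 := by
  intro h6
  have := E₄_cube_sub_E₆_sq z
  rw [h, h6] at this
  have hΔ := discriminant_ne_zero z
  apply hΔ
  have : (1728 : ℂ) * Δ z = 0 := by rw [← this]; ring
  simpa using this

lemma E₄_ne_zero_of_E₆_eq_zero {z : ℍ} (h : E₆ z = 0) : E₄ z ≠ 0 := by
  intro h4
  exact E₆_ne_zero_of_E₄_eq_zero h4 h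

/-- Zeros of `E₄` are simple. -/
theorem D_E₄_ne_zero {z : ℍ} (h : E₄ z = 0) : D (E₄ : ℍ → ℂ) z ≠ 0 := by
  rw [ramanujan_E₄, h]
  have := E₆_ne_zero_of_E₄_eq_zero h
  simpa using this

/-- Zeros of `E₆` are simple. -/
theorem D_E₆_ne_zero {z : ℍ} (h : E₆ z = 0) : D (E₆ : ℍ → ℂ) z ≠ 0 := by
  rw [ramanujan_E₆, h]
  have := E₄_ne_zero_of_E₆_eq_zero h
  simpa using this

/-- The numerator `E₄(z)³ Δ(z₀) − E₄(z₀)³ Δ(z)` of `j(z) − j(z₀)`, a level one form of
weight 12 in `z`. -/
def jDiff (z₀ : ℍ) : ℍ → ℂ := fun z ↦ E₄ z ^ 3 * Δ z₀ - E₄ z₀ ^ 3 * Δ z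

lemma jDiff_self (z₀ : ℍ) : jDiff z₀ z₀ = 0 := by simp [jDiff]

lemma jDiff_eq (z₀ : ℍ) :
    jDiff z₀ = (Δ z₀) • ((E₄ : ℍ → ℂ) ^ 3) - (E₄ z₀ ^ 3) • (Δ : ℍ → ℂ) := by
  funext z
  simp [jDiff, mul_comm]

lemma mdiff_jDiff (z₀ : ℍ) : MDiff (jDiff z₀) := by
  rw [jDiff_eq]
  exact ((mdiff_E₄.pow 3).const_smul _).sub (mdiff_discriminant.const_smul _)

theorem D_jDiff (z₀ z : ℍ) :
    D (jDiff z₀) z = E2 z * jDiff z₀ z - E₄ z ^ 2 * E₆ z * Δ z₀ := by
  have h1 : MDiff ((E₄ : ℍ → ℂ) ^ 3) := mdiff_E₄.pow 3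
  rw [jDiff_eq, normalizedDerivOfComplex_sub _ _ (h1.const_smul _)
    (mdiff_discriminant.const_smul _), normalizedDerivOfComplex_smul _ _ h1,
    normalizedDerivOfComplex_smul _ _ mdiff_discriminant,
    normalizedDerivOfComplex_pow _ _ mdiff_E₄]
  simp only [Pi.sub_apply, Pi.smul_apply, Pi.mul_apply, Pi.pow_apply, smul_eq_mul,
    ramanujan_E₄, ramanujan_discriminant, Nat.cast_ofNat, Pi.ofNat_apply]
  ring

/-- Zeros of `jDiff z₀` at points where `E₄ E₆ ≠ 0` are simple. -/
theorem D_jDiff_ne_zero {z₀ z : ℍ} (h : jDiff z₀ z = 0) (h4 : E₄ z ≠ 0) (h6 : E₆ z ≠ 0) :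
    D (jDiff z₀) z ≠ 0 := by
  rw [D_jDiff, h, mul_zero, zero_sub, neg_ne_zero]
  exact mul_ne_zero (mul_ne_zero (pow_ne_zero _ h4) h6) (discriminant_ne_zero z₀)

/-- The `j`-invariant `E₄³ / Δ` (normalised so that `j = 1/q + ...`). -/
def jFun (z : ℍ) : ℂ := E₄ z ^ 3 / Δ z

lemma jFun_eq_iff (z z' : ℍ) : jFun z = jFun z' ↔ jDiff z' z = 0 := by
  rw [jFun, jFun, div_eq_div_iff (discriminant_ne_zero z) (discriminant_ne_zero z'), jDiff,
    sub_eq_zero]

lemma jFun_eq_zero_iff (z : ℍ) : jFun z = 0 ↔ E₄ z = 0 := by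
  simp [jFun, discriminant_ne_zero z]

lemma jFun_eq_1728_iff (z : ℍ) : jFun z = 1728 ↔ E₆ z = 0 := by
  rw [jFun, div_eq_iff (discriminant_ne_zero z)]
  have := E₄_cube_sub_E₆_sq z
  constructor
  · intro h
    have : E₆ z ^ 2 = 0 := by linear_combination h - this
    simpa using this
  · intro h
    rw [h] at this
    linear_combination this

lemma mdiff_jFun : MDiff jFun :=
  (mdiff_E₄.pow 3).div mdiff_discriminant discriminant_ne_zero

theorem D_jFun (z : ℍ) : D jFun z = - (E₄ z ^ 2 * E₆ z / Δ z) := by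
  -- `jFun * Δ = E₄ ^ 3`
  have hmul : jFun * (Δ : ℍ → ℂ) = (E₄ : ℍ → ℂ) ^ 3 := by
    funext w
    simp [jFun, div_mul_cancel₀ _ (discriminant_ne_zero w)]
  have h := congrFun (congrArg D hmul) z
  rw [normalizedDerivOfComplex_mul _ _ mdiff_jFun mdiff_discriminant,
    normalizedDerivOfComplex_pow _ _ mdiff_E₄] at h
  simp only [Pi.add_apply, Pi.mul_apply, Pi.pow_apply, ramanujan_E₄, ramanujan_discriminant,
    Nat.cast_ofNat, Pi.ofNat_apply] at h
  have hΔ := discriminant_ne_zero z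
  have hj : jFun z = E₄ z ^ 3 / Δ z := rfl
  rw [hj] at h
  field_simp at h ⊢
  linear_combination h

theorem D_jFun_ne_zero {z : ℍ} (h4 : E₄ z ≠ 0) (h6 : E₆ z ≠ 0) : D jFun z ≠ 0 := by
  rw [D_jFun, neg_ne_zero]
  exact div_ne_zero (mul_ne_zero (pow_ne_zero _ h4) h6) (discriminant_ne_zero z)

end Fermat.Agent.S20.L1

end
end
-- ===== PACK-END S20/L1/Ramanujan.lean

-- ===== PACK-BEGIN S24/JFun/Basic.lean
section



/-!
# The analytic `j`-function on the upper half plane (shared analytic core for S24 / S28)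

`jFun τ = E₄ τ ^ 3 / Δ τ`.  Basic properties: holomorphy, `SL(2,ℤ)`-invariance, periodicity.
-/

set_option autoImplicit false

namespace Fermat.Agent.S24.JFun

open UpperHalfPlane ModularForm EisensteinSeries MatrixGroups Complex
open scoped Manifold

/-- The analytic `j`-function `E₄³ / Δ` on the upper half plane. -/
noncomputable def jFun (τ : ℍ) : ℂ := E₄ τ ^ 3 / ModularForm.discriminant τ

theorem jFun_def (τ : ℍ) : jFun τ = E₄ τ ^ 3 / ModularForm.discriminant τ := rfl

theorem jFun_mul_discriminant (τ : ℍ) : jFun τ * ModularForm.discriminant τ = E₄ τ ^ 3 := by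
  rw [jFun, div_mul_cancel₀ _ (discriminant_ne_zero τ)]

theorem E₄_smul (γ : SL(2, ℤ)) (τ : ℍ) : E₄ (γ • τ) = denom γ τ ^ (4 : ℤ) * E₄ τ := by
  have h := SlashInvariantForm.slash_action_eqn'' E₄
    (show ((γ : SL(2, ℤ)) : GL (Fin 2) ℝ) ∈ 𝒮ℒ from ⟨γ, rfl⟩) τ
  simpa using h

theorem E₆_smul (γ : SL(2, ℤ)) (τ : ℍ) : E₆ (γ • τ) = denom γ τ ^ (6 : ℤ) * E₆ τ := by
  have h := SlashInvariantForm.slash_action_eqn'' E₆
    (show ((γ : SL(2, ℤ)) : GL (Fin 2) ℝ) ∈ 𝒮ℒ from ⟨γ, rfl⟩) τ
  simpa using h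

theorem discriminant_smul (γ : SL(2, ℤ)) (τ : ℍ) :
    ModularForm.discriminant (γ • τ) = denom γ τ ^ (12 : ℤ) * ModularForm.discriminant τ := by
  have h := SlashInvariantForm.slash_action_eqn'' CuspForm.discriminant
    (show ((γ : SL(2, ℤ)) : GL (Fin 2) ℝ) ∈ 𝒮ℒ from ⟨γ, rfl⟩) τ
  simpa using h

/-- `j` is invariant under `SL(2,ℤ)`. -/
theorem jFun_smul (γ : SL(2, ℤ)) (τ : ℍ) : jFun (γ • τ) = jFun τ := by
  have hd : denom γ τ ≠ 0 := denom_ne_zero _ _
  rw [jFun, jFun, E₄_smul, discriminant_smul, mul_pow, ← zpow_natCast, ← zpow_mul]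
  have h12 : ((4 : ℤ) * ((3 : ℕ) : ℤ)) = 12 := by norm_num
  rw [h12, mul_div_mul_left _ _ (zpow_ne_zero _ hd)]

/-- `j` is holomorphic on the upper half plane. -/
theorem jFun_mdifferentiable : MDiff jFun := by
  have h4 : MDiff (fun τ : ℍ => E₄ τ ^ 3) := by
    have := (E₄.holo'.pow 3)
    exact this
  exact h4.div CuspForm.discriminant.holo' discriminant_ne_zero

theorem jFun_eq_zero_iff (τ : ℍ) : jFun τ = 0 ↔ E₄ τ = 0 := by
  rw [jFun, div_eq_zero_iff]
  simp [discriminant_ne_zero τ]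

theorem jFun_sub_1728 (τ : ℍ) :
    jFun τ - 1728 = E₆ τ ^ 2 / ModularForm.discriminant τ := by
  have hΔ := discriminant_ne_zero τ
  have h := discriminant_eq_E₄_cube_sub_E₆_sq τ
  rw [jFun]
  field_simp
  rw [h]
  ring

theorem jFun_eq_1728_iff (τ : ℍ) : jFun τ = 1728 ↔ E₆ τ = 0 := by
  rw [← sub_eq_zero, jFun_sub_1728, div_eq_zero_iff]
  simp [discriminant_ne_zero τ]

end Fermat.Agent.S24.JFun

end
-- ===== PACK-END S24/JFun/Basic.lean

-- ===== PACK-BEGIN S24/Deg/H457_Bound.lean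
section


/-!
# S24 / DEG-ALG (helper457), part 2: bounded degree ⇒ bounded dimension

If every element of a field extension `F/k` (char. 0) is algebraic of degree `≤ n`, then
`F/k` is finite of degree `≤ n` (primitive element theorem).
-/

set_option autoImplicit false

noncomputable section

open Polynomial Module

namespace Fermat.Agent.S24.Deg457

/-- In characteristic zero, an extension all of whose elements are algebraic of degree `≤ n`
is finite-dimensional of dimension `≤ n`. -/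
theorem finiteDimensional_and_finrank_le_of_forall_natDegree_minpoly_le
    {k F : Type*} [Field k] [Field F] [Algebra k F] [CharZero k] (n : ℕ)
    (h : ∀ x : F, IsIntegral k x ∧ (minpoly k x).natDegree ≤ n) :
    FiniteDimensional k F ∧ finrank k F ≤ n := by
  haveI : Algebra.IsAlgebraic k F := ⟨fun x => (h x).1.isAlgebraic⟩
  have key : ∀ L : IntermediateField k F, FiniteDimensional k L → finrank k L ≤ n := by
    intro L hL
    obtain ⟨α, hα⟩ := Field.exists_primitive_element k L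
    have h1 : finrank k L = (minpoly k α).natDegree := by
      rw [← IntermediateField.adjoin.finrank (IsIntegral.of_finite k α), hα]
      exact (IntermediateField.finrank_top').symm
    rw [h1]
    have h2 : minpoly k (α : F) = minpoly k α :=
      (minpoly.algebraMap_eq (algebraMap L F).injective α)
    rw [← h2]
    exact (h (α : F)).2
  have hfd : FiniteDimensional k F := by
    by_contra hnot
    obtain ⟨L, hL, hlt⟩ := IntermediateField.exists_lt_finrank_of_infinite_dimensional hnot n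
    exact absurd (key L hL) (not_le.mpr hlt)
  refine ⟨hfd, ?_⟩
  have := key ⊤ inferInstance
  rwa [IntermediateField.finrank_top'] at this

end Fermat.Agent.S24.Deg457

end
end
-- ===== PACK-END S24/Deg/H457_Bound.lean

-- ===== PACK-BEGIN S28/Defs.lean
section
/-
S28 (Igusa) long-shot -- shared definitions and the interface structure `CoreData`.
All S28 declarations live in namespace `Fermat.Agent.S28`.
-/




set_option autoImplicit false

noncomputable section

open ModularCurve HahnSeries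

namespace Fermat.Agent.S28

/-! ### Formal q-series over an arbitrary commutative ring -/

section Formal

variable (R : Type*) [CommRing R]

/-- Formal discriminant `Δ = q ∏ (1 - qⁿ)²⁴` as a Laurent series over `R`. -/
def deltaL : LaurentSeries R :=
  HahnSeries.single (1 : ℤ) 1 *
    HahnSeries.ofPowerSeries ℤ R (dedekindEtaUnit.map (Int.castRingHom R))

/-- Formal inverse of `Δ`: `q⁻¹ ∏ (1 - qⁿ)⁻²⁴`. -/
def deltaInvL : LaurentSeries R :=
  HahnSeries.single (-1 : ℤ) 1 *
    HahnSeries.ofPowerSeries ℤ R (dedekindEtaUnitInv.map (Int.castRingHom R))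

/-- `θ = q d/dq` on Laurent series: multiplies the coefficient of `qⁿ` by `n`. -/
def thetaL (f : LaurentSeries R) : LaurentSeries R where
  coeff n := (n : R) * f.coeff n
  isPWO_support' := f.isPWO_support.mono fun n hn => by
    simp only [Function.mem_support, ne_eq] at hn ⊢
    intro h
    exact hn (by rw [h, mul_zero])

@[simp] theorem thetaL_coeff (f : LaurentSeries R) (n : ℤ) :
    (thetaL R f).coeff n = (n : R) * f.coeff n := rfl

/-- The modular unit `u_p = Δ(q^p)/Δ(q)` as a formal Laurent series. -/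
def unitL (p : ℕ) [NeZero p] : LaurentSeries R :=
  qExpand R p (deltaL R) * deltaInvL R

end Formal

/-! ### Fields -/

/-- `k(j) ⊂ k((q))`. -/
def jField (k : Type*) [Field k] : IntermediateField k (LaurentSeries k) :=
  IntermediateField.adjoin k {jqModC k}

/-- The integral generators `j(q^d)`, `d ∣ N`, in `ℤ((q))`. -/
def intDivisorExpansions (N : ℕ) : Set (LaurentSeries ℤ) :=
  {x | ∃ (d : ℕ) (_ : NeZero d), d ∣ N ∧ x = qExpand ℤ d (jqModC ℤ)}

/-- Evaluation `ℤ[Y] → A((q))`, `Y ↦ y`. -/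
abbrev evalAt {A : Type*} [CommRing A] (y : LaurentSeries A) : Polynomial ℤ →+* LaurentSeries A :=
  (Polynomial.aeval (R := ℤ) y).toRingHom

/-- Prime-level input from the analytic team: the modular polynomial `Φ_p ∈ ℤ[Y][X]`
(monic of degree `p+1` in `X`) with the two vanishing properties
`Φ_p(j(q^p), j(q)) = 0` and `Φ_p(j(q), j(q^p)) = 0`. -/
structure ModPolyData (p : ℕ) [NeZero p] : Type where
  Φ : Polynomial (Polynomial ℤ)
  monic : Φ.Monic
  natDegree_eq : Φ.natDegree = p + 1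
  eval_jp : Φ.eval₂ (evalAt (jqModC ℤ)) (qExpand ℤ p (jqModC ℤ)) = 0
  eval_j : Φ.eval₂ (evalAt (qExpand ℤ p (jqModC ℤ))) (jqModC ℤ) = 0

/-- Prime-level input from the analytic team: `p¹² Δ(q^p)/Δ(q)` is integral over `ℤ[j]`. -/
structure UnitPolyData (p : ℕ) [NeZero p] : Type where
  W : Polynomial (Polynomial ℤ)
  monic : W.Monic
  eval_unit : W.eval₂ (evalAt (jqModC ℤ)) ((p : LaurentSeries ℤ) ^ 12 * unitL ℤ p) = 0

/-- The interface between the field-theory part [L] and the valuation part [V]: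
`n` integral "monomials" spanning `F` over `ℚ(j)` whose reductions to `K((q))`
are linearly independent over `K(j)`; plus integrality of the generators. -/
structure CoreData (N : ℕ) [NeZero N] (K : Type) [Field K] : Prop where
  exists_basis : ∃ (n : ℕ) (y : Fin n → LaurentSeries ℤ),
    (∀ i, y i ∈ Subring.closure (intDivisorExpansions N)) ∧
    (∀ x ∈ modularFunctionFieldFull N,
      x ∈ Submodule.span (jField ℚ)
        (Set.range fun i => coeffMap (Int.castRingHom ℚ) (y i))) ∧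
    LinearIndependent (jField K) (fun i => coeffMap (Int.castRingHom K) (y i))
  integral : ∀ (d : ℕ) [NeZero d], d ∣ N →
    ∃ P : Polynomial (Polynomial ℤ), P.Monic ∧
      P.eval₂ (evalAt (jqModC ℤ)) (qExpand ℤ d (jqModC ℤ)) = 0

end Fermat.Agent.S28

end

end
-- ===== PACK-END S28/Defs.lean

-- ===== PACK-BEGIN S28/H145/PowIndep.lean
section



/-!
# Leaf [L.I] of the S28 plan

If `x` is a Laurent series whose order is prime to `p`, then `1, x, …, x^(p-1)` are linearly
independent over (any subring of) the range of `V_p = qExpand k p`.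
-/

set_option autoImplicit false

noncomputable section

open ModularCurve HahnSeries

namespace Fermat.Agent.S28.H145

variable {k : Type*} [Field k]

/-- A finite sum of nonzero Laurent series with pairwise distinct orders is nonzero. -/
theorem sum_ne_zero_of_injOn_order {ι : Type*} (s : Finset ι) (t : ι → LaurentSeries k)
    (hs : s.Nonempty) (h0 : ∀ i ∈ s, t i ≠ 0)
    (hinj : Set.InjOn (fun i => (t i).order) (s : Set ι)) : ∑ i ∈ s, t i ≠ 0 := by
  classical
  obtain ⟨i₀, hi₀, hmin⟩ := Finset.exists_min_image s (fun i => (t i).order) hs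
  intro hsum
  have hc : (∑ i ∈ s, t i).coeff (t i₀).order = (t i₀).coeff (t i₀).order := by
    rw [HahnSeries.coeff_sum]
    refine Finset.sum_eq_single_of_mem i₀ hi₀ ?_
    intro i hi hne
    refine HahnSeries.coeff_eq_zero_of_lt_order ?_
    refine lt_of_le_of_ne (hmin i hi) ?_
    intro h
    exact hne (hinj hi hi₀ h.symm)
  rw [hsum] at hc
  exact h0 i₀ hi₀ (HahnSeries.coeff_order_eq_zero.mp hc.symm)

/-- The order of a nonzero element of the range of `qExpand k p` is divisible by `p`. -/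
theorem dvd_order_qExpand (p : ℕ) [NeZero p] (z : LaurentSeries k) :
    (p : ℤ) ∣ (qExpand k p z).order := by
  by_cases hz : qExpand k p z = 0
  · rw [hz, HahnSeries.order_zero]; exact dvd_zero _
  · by_contra h
    exact hz (HahnSeries.coeff_order_eq_zero.mp (qExpand_coeff_of_not_dvd p z h))

/-- **[L.I], core form.** If `p ∤ ord x`... more precisely if `ord x` is prime to `p`, a relation
`∑_{i<p} V_p(c i) * x^i = 0` forces all `c i = 0`. -/
theorem eq_zero_of_sum_qExpand_mul_pow_eq_zero (p : ℕ) [NeZero p] (x : LaurentSeries k)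
    (hx : x ≠ 0) (hord : IsCoprime x.order (p : ℤ)) (c : Fin p → LaurentSeries k)
    (h : ∑ i : Fin p, qExpand k p (c i) * x ^ (i : ℕ) = 0) : ∀ i, c i = 0 := by
  classical
  by_contra hne
  push Not at hne
  set s : Finset (Fin p) := Finset.univ.filter (fun i => c i ≠ 0) with hs
  have hsne : s.Nonempty := by
    obtain ⟨i, hi⟩ := hne
    exact ⟨i, by simp [hs, hi]⟩
  have hterm : ∀ i ∈ s, qExpand k p (c i) * x ^ (i : ℕ) ≠ 0 := by
    intro i hi
    have hci : c i ≠ 0 := by simpa [hs] using hi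
    exact mul_ne_zero (fun h0 => hci (qExpand_injective p (by rw [h0, map_zero])))
      (pow_ne_zero _ hx)
  have hordterm : ∀ i ∈ s, (qExpand k p (c i) * x ^ (i : ℕ)).order =
      (qExpand k p (c i)).order + (i : ℕ) * x.order := by
    intro i hi
    have hci : c i ≠ 0 := by simpa [hs] using hi
    have h1 : qExpand k p (c i) ≠ 0 := fun h0 => hci (qExpand_injective p (by rw [h0, map_zero]))
    rw [HahnSeries.order_mul h1 (pow_ne_zero _ hx), HahnSeries.order_pow, nsmul_eq_mul]
  have hsum : ∑ i ∈ s, qExpand k p (c i) * x ^ (i : ℕ) = 0 := by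
    rw [← h]
    refine Finset.sum_subset (Finset.subset_univ _) ?_
    intro i _ hi
    have hci : c i = 0 := by simpa [hs] using hi
    rw [hci, map_zero, zero_mul]
  refine sum_ne_zero_of_injOn_order s _ hsne hterm ?_ hsum
  intro i hi j hj hij
  simp only at hij
  rw [hordterm i hi, hordterm j hj] at hij
  -- reduce modulo `p`
  obtain ⟨a, ha⟩ := dvd_order_qExpand p (c i)
  obtain ⟨b, hb⟩ := dvd_order_qExpand p (c j)
  rw [ha, hb] at hij
  have hdvd : (p : ℤ) ∣ ((i : ℕ) - (j : ℕ) : ℤ) * x.order := ⟨b - a, by linear_combination hij⟩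
  have hdvd' : (p : ℤ) ∣ ((i : ℕ) : ℤ) - (j : ℕ) := hord.symm.dvd_of_dvd_mul_right hdvd
  have hi' : ((i : ℕ) : ℤ) < p := by exact_mod_cast i.2
  have hj' : ((j : ℕ) : ℤ) < p := by exact_mod_cast j.2
  have hi0 : (0 : ℤ) ≤ ((i : ℕ) : ℤ) := Int.natCast_nonneg _
  have hj0 : (0 : ℤ) ≤ ((j : ℕ) : ℤ) := Int.natCast_nonneg _
  have : ((i : ℕ) : ℤ) - (j : ℕ) = 0 := by
    apply Int.eq_zero_of_abs_lt_dvd hdvd'
    rw [abs_lt]
    constructor <;> linarith
  exact Fin.ext (by exact_mod_cast sub_eq_zero.mp this)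

/-- **[L.I].** If `B` is a subfield of `k((q))` contained in the range of `V_p` and `ord x` is
prime to `p`, then `1, x, …, x^(p-1)` are linearly independent over `B`. -/
theorem linearIndependent_pow_of_le_range (p : ℕ) [NeZero p] (B : Subfield (LaurentSeries k))
    (hB : ∀ b ∈ B, b ∈ (qExpand k p).range) (x : LaurentSeries k)
    (hx : x ≠ 0) (hord : IsCoprime x.order (p : ℤ)) :
    LinearIndependent B (fun i : Fin p => x ^ (i : ℕ)) := by
  rw [Fintype.linearIndependent_iff]
  intro g hg i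
  choose c hc using fun i => hB (g i) (g i).2
  have h : ∑ i : Fin p, qExpand k p (c i) * x ^ (i : ℕ) = 0 := by
    rw [← hg]
    refine Finset.sum_congr rfl fun i _ => ?_
    rw [hc i]
    rfl
  have := eq_zero_of_sum_qExpand_mul_pow_eq_zero p x hx hord c h i
  apply Subtype.ext
  rw [← hc i, this, map_zero]
  rfl

/-- Polynomial form of [L.I]: a polynomial of degree `< p` with coefficients in the range of
`V_p` that kills `x` (with `ord x` prime to `p`) is zero. -/
theorem eq_zero_of_eval_eq_zero_of_natDegree_lt (p : ℕ) [NeZero p] (x : LaurentSeries k)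
    (hx : x ≠ 0) (hord : IsCoprime x.order (p : ℤ)) (f : Polynomial (LaurentSeries k))
    (hf : ∀ n, f.coeff n ∈ (qExpand k p).range) (hdeg : f.natDegree < p)
    (h : f.eval x = 0) : f = 0 := by
  choose c hc using hf
  have hsum : ∑ i : Fin p, qExpand k p (c i) * x ^ (i : ℕ) = 0 := by
    rw [← h, Polynomial.eval_eq_sum_range' hdeg, ← Fin.sum_univ_eq_sum_range
      (fun i => f.coeff i * x ^ i) p]
    refine Finset.sum_congr rfl fun i _ => ?_
    rw [hc]
  have hall := eq_zero_of_sum_qExpand_mul_pow_eq_zero p x hx hord (fun i => c i) hsum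
  ext n
  by_cases hn : n < p
  · have := hall ⟨n, hn⟩
    simp only at this
    rw [← hc n, this, map_zero, Polynomial.coeff_zero]
  · rw [Polynomial.coeff_eq_zero_of_natDegree_lt (lt_of_lt_of_le hdeg (not_lt.mp hn)),
      Polynomial.coeff_zero]

end Fermat.Agent.S28.H145

end

end
-- ===== PACK-END S28/H145/PowIndep.lean

-- ===== PACK-BEGIN S28/H807/Section.lean
section
/-
S28 / helper807 — formal `p`-sections of Laurent series and the section matrix.

For `f ∈ R((T))` and `p ≥ 1`, the *section matrix* `secMat p f ∈ Mat_p(R((q)))` is the matrix of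
multiplication by `f` on `R((T))`, seen as a free module over `R((T^p)) = V_p(R((q)))` with
basis `1, T, …, T^{p-1}`.  Main result (`secMat_charpoly_eval`): the characteristic polynomial
of `secMat p f`, with coefficients pushed along `V_p = qExpand p`, kills `f`.
-/




set_option autoImplicit false

noncomputable section

open ModularCurve HahnSeries Polynomial Matrix

namespace Fermat.Agent.S28.H807

variable {R : Type*} [CommRing R]

/-- The `r`-th `p`-section `∑ₘ f_{pm+r} qᵐ` of a Laurent series `f`. -/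
def secL (p : ℕ) [NeZero p] (r : ℤ) (f : LaurentSeries R) : LaurentSeries R :=
  HahnSeries.ofSuppBddBelow (fun m : ℤ => f.coeff ((p : ℤ) * m + r))
    (HahnSeries.forallLTEqZero_supp_BddBelow _ ((f.order - r) / (p : ℤ)) (by
      intro m hm
      apply HahnSeries.coeff_eq_zero_of_lt_order
      have hp : (0 : ℤ) < (p : ℤ) := by exact_mod_cast Nat.pos_of_ne_zero (NeZero.ne p)
      have h1 : m + 1 ≤ (f.order - r) / (p : ℤ) := hm
      have h2 : (m + 1) * (p : ℤ) ≤ f.order - r := (Int.le_ediv_iff_mul_le hp).mp h1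
      nlinarith))

@[simp]
theorem secL_coeff (p : ℕ) [NeZero p] (r : ℤ) (f : LaurentSeries R) (m : ℤ) :
    (secL p r f).coeff m = f.coeff ((p : ℤ) * m + r) := by
  simp [secL]

theorem secL_coeffMap {S : Type*} [CommRing S] (φ : R →+* S) (p : ℕ) [NeZero p] (r : ℤ)
    (f : LaurentSeries R) : secL p r (coeffMap φ f) = coeffMap φ (secL p r f) := by
  ext m
  simp

/-- The section matrix of `f`: entry `(i', i)` is the `(i' - i)`-th section. -/
def secMat (p : ℕ) [NeZero p] (f : LaurentSeries R) :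
    Matrix (Fin p) (Fin p) (LaurentSeries R) :=
  fun i' i => secL p ((i' : ℤ) - (i : ℤ)) f

theorem secMat_apply (p : ℕ) [NeZero p] (f : LaurentSeries R) (i' i : Fin p) :
    secMat p f i' i = secL p ((i' : ℤ) - (i : ℤ)) f := rfl

theorem secMat_coeffMap {S : Type*} [CommRing S] (φ : R →+* S) (p : ℕ) [NeZero p]
    (f : LaurentSeries R) :
    secMat p (coeffMap φ f) = (secMat p f).map (coeffMap φ) := by
  ext i' i : 2
  simp [secMat_apply, Matrix.map_apply, secL_coeffMap]

/-- Key identity: `f · Tⁱ = ∑_{i'} V_p(M_{i',i}) · T^{i'}`. -/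
theorem mul_single_eq_sum_secMat (p : ℕ) [NeZero p] (f : LaurentSeries R) (i : Fin p) :
    f * HahnSeries.single ((i : ℕ) : ℤ) (1 : R) =
      ∑ i' : Fin p, qExpand R p (secMat p f i' i) * HahnSeries.single ((i' : ℕ) : ℤ) (1 : R) := by
  have hp : (0 : ℤ) < (p : ℤ) := by exact_mod_cast Nat.pos_of_ne_zero (NeZero.ne p)
  ext n
  rw [HahnSeries.coeff_mul_single, mul_one, HahnSeries.coeff_sum]
  -- the unique index i' with p ∣ n - i'
  have hlt : (n % (p : ℤ)).toNat < p := by
    have h1 : n % (p : ℤ) < p := Int.emod_lt_of_pos n hp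
    have h0 : 0 ≤ n % (p : ℤ) := Int.emod_nonneg n hp.ne'
    omega
  set i0 : Fin p := ⟨(n % (p : ℤ)).toNat, hlt⟩ with hi0
  have hi0v : ((i0 : ℕ) : ℤ) = n % (p : ℤ) := by
    simp only [hi0]
    exact Int.toNat_of_nonneg (Int.emod_nonneg n hp.ne')
  rw [Finset.sum_eq_single i0]
  · rw [HahnSeries.coeff_mul_single, mul_one]
    have hdvd : n - ((i0 : ℕ) : ℤ) = (p : ℤ) * (n / (p : ℤ)) := by
      rw [hi0v]; have := Int.emod_add_mul_ediv n (p : ℤ); linarith
    rw [hdvd, qExpand_coeff_mul, secMat_apply, secL_coeff]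
    congr 1
    rw [← hdvd]; ring
  · intro i' _ hne
    rw [HahnSeries.coeff_mul_single, mul_one]
    apply qExpand_coeff_of_not_dvd
    intro hdvd
    apply hne
    apply Fin.ext
    have h1 : n % (p : ℤ) = ((i' : ℕ) : ℤ) % (p : ℤ) := by
      have := (Int.emod_emod_of_dvd n (dvd_refl (p : ℤ)))
      exact (Int.emod_eq_emod_iff_emod_sub_eq_zero).mpr (Int.emod_eq_zero_of_dvd hdvd)
    have h2 : ((i' : ℕ) : ℤ) % (p : ℤ) = ((i' : ℕ) : ℤ) :=
      Int.emod_eq_of_lt (by positivity) (by exact_mod_cast i'.2)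
    have h3 : ((i0 : ℕ) : ℤ) = ((i' : ℕ) : ℤ) := by rw [hi0v, h1, h2]
    exact_mod_cast h3.symm
  · intro h; exact absurd (Finset.mem_univ _) h

/-- **Lemma F1** (Cayley–Hamilton for the section matrix): the characteristic polynomial of
`secMat p f`, with coefficients pushed along `V_p`, kills `f`. -/
theorem secMat_charpoly_eval (p : ℕ) [NeZero p] (f : LaurentSeries R) :
    (((secMat p f).charpoly).map (qExpand R p)).eval f = 0 := by
  set A : Matrix (Fin p) (Fin p) (LaurentSeries R) := (secMat p f).map (qExpand R p) with hA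
  set v : Fin p → LaurentSeries R := fun i => HahnSeries.single ((i : ℕ) : ℤ) (1 : R) with hv
  set B : Matrix (Fin p) (Fin p) (LaurentSeries R) := Matrix.scalar (Fin p) f - Aᵀ with hB
  have hBv : B *ᵥ v = 0 := by
    funext i
    simp only [hB, Matrix.sub_mulVec, Pi.sub_apply, Pi.zero_apply]
    rw [sub_eq_zero]
    have h1 : (Matrix.scalar (Fin p) f *ᵥ v) i = f * v i := by
      simp [Matrix.scalar_apply, Matrix.mulVec, dotProduct, Matrix.diagonal_apply]
    rw [h1]
    simp only [Matrix.mulVec, dotProduct, Matrix.transpose_apply, hA, Matrix.map_apply, hv]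
    exact mul_single_eq_sum_secMat p f i
  have hdet : B.det • v = 0 := by
    have h : (Matrix.adjugate B * B) *ᵥ v = (B.det • (1 : Matrix (Fin p) (Fin p) _)) *ᵥ v := by
      rw [Matrix.adjugate_mul]
    rw [← Matrix.mulVec_mulVec, hBv, Matrix.mulVec_zero] at h
    rw [Matrix.smul_mulVec, Matrix.one_mulVec] at h
    exact h.symm
  have h0 : B.det * v ⟨0, Nat.pos_of_ne_zero (NeZero.ne p)⟩ = 0 := by
    have := congrFun hdet ⟨0, Nat.pos_of_ne_zero (NeZero.ne p)⟩
    simpa using this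
  have hv0 : v ⟨0, Nat.pos_of_ne_zero (NeZero.ne p)⟩ = 1 := by
    simp only [hv]
    rfl
  rw [hv0, mul_one] at h0
  rw [← Matrix.charpoly_map, ← hA, ← Matrix.charpoly_transpose, Matrix.eval_charpoly]
  exact h0

end Fermat.Agent.S28.H807

end

end
-- ===== PACK-END S28/H807/Section.lean

-- ===== PACK-BEGIN S28/H807/IntLemma.lean
section
/-
S28 / helper807 — formal integrality: a complex polynomial in `j` whose `q`-expansion has
integer coefficients is an integer polynomial in `j`.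
-/




set_option autoImplicit false
set_option maxHeartbeats 400000

noncomputable section

open ModularCurve

namespace Fermat.Agent.S28.H807

variable (A : Type*) [CommRing A]

theorem jqModC_pow_eq (k : ℕ) :
    jqModC A ^ k = HahnSeries.single (-(k : ℤ)) (1 : A) *
      HahnSeries.ofPowerSeries ℤ A ((jNum.map (Int.castRingHom A)) ^ k) := by
  have h : k • (-1 : ℤ) = -(k : ℤ) := by simp
  rw [jqModC, mul_pow, HahnSeries.single_pow, one_pow, h, ← map_pow]

theorem jqModC_pow_coeff_of_lt (k : ℕ) {m : ℤ} (h : m < -(k : ℤ)) :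
    (jqModC A ^ k).coeff m = 0 := by
  rw [jqModC_pow_eq, HahnSeries.coeff_single_mul, one_mul]
  exact ofPowerSeries_coeff_of_neg _ (by linarith)

theorem jqModC_pow_coeff_self (k : ℕ) : (jqModC A ^ k).coeff (-(k : ℤ)) = 1 := by
  rw [jqModC_pow_eq, HahnSeries.coeff_single_mul, one_mul, sub_self]
  have h0 : ((0 : ℕ) : ℤ) = 0 := rfl
  rw [← h0, HahnSeries.ofPowerSeries_apply_coeff, PowerSeries.coeff_zero_eq_constantCoeff,
    map_pow]
  have : PowerSeries.constantCoeff (jNum.map (Int.castRingHom A)) = 1 := by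
    rw [← PowerSeries.coeff_zero_eq_constantCoeff, PowerSeries.coeff_map,
      PowerSeries.coeff_zero_eq_constantCoeff, constantCoeff_jNum]
    simp
  rw [this, one_pow]

/-- Evaluation of a polynomial at `j`, as `eval₂` along the constant embedding. -/
def evalJ (P : Polynomial A) : LaurentSeries A := P.eval₂ HahnSeries.C (jqModC A)

theorem evalJ_coeff_neg_natDegree (P : Polynomial A) (n : ℕ) (hn : P.natDegree ≤ n) :
    (evalJ A P).coeff (-(n : ℤ)) = P.coeff n := by
  unfold evalJ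
  rw [Polynomial.eval₂_eq_sum_range' (HahnSeries.C : A →+* LaurentSeries A)
    (Nat.lt_succ_of_le hn) (jqModC A), HahnSeries.coeff_sum]
  rw [Finset.sum_eq_single n]
  · rw [show (HahnSeries.C : A →+* LaurentSeries A) (P.coeff n)
        = HahnSeries.single (0 : ℤ) (P.coeff n) from rfl,
      HahnSeries.coeff_single_mul, sub_zero, jqModC_pow_coeff_self, mul_one]
  · intro i hi hne
    have hi' : i < n := by
      have := Finset.mem_range.mp hi
      omega
    have h0 : (jqModC A ^ i).coeff (-(n : ℤ)) = 0 :=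
      jqModC_pow_coeff_of_lt A i (by omega)
    rw [show (HahnSeries.C : A →+* LaurentSeries A) (P.coeff i)
        = HahnSeries.single (0 : ℤ) (P.coeff i) from rfl,
      HahnSeries.coeff_single_mul, sub_zero, h0, mul_zero]
  · intro h
    exact absurd (Finset.mem_range.mpr (Nat.lt_succ_self n)) h

theorem coeffMap_jqModC_int : coeffMap (Int.castRingHom A) (jqModC ℤ) = jqModC A :=
  (jqModC_eq_map_intCast A).symm

theorem coeffMap_intCast_injective [CharZero A] :
    Function.Injective (coeffMap (Int.castRingHom A)) := by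
  intro x y h
  ext n
  have := congrArg (fun z => z.coeff n) h
  simp only [coeffMap_coeff, eq_intCast] at this
  exact Int.cast_injective this

/-- Integer-polynomial evaluation at `j ∈ ℤ((q))`. -/
def evalJZ (Q : Polynomial ℤ) : LaurentSeries ℤ := Q.eval₂ (Int.castRingHom _) (jqModC ℤ)

/-- **Integrality lemma.** -/
theorem exists_int_poly_of_evalJ_eq :
    ∀ (P : Polynomial ℂ) (c : LaurentSeries ℤ),
      evalJ ℂ P = coeffMap (Int.castRingHom ℂ) c → ∃ Q : Polynomial ℤ, evalJZ Q = c := by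
  intro P
  induction' hcard : P.support.card using Nat.strong_induction_on with d ih generalizing P
  intro c h
  by_cases hP : P = 0
  · subst hP
    refine ⟨0, ?_⟩
    have h0 : coeffMap (Int.castRingHom ℂ) c = 0 := by
      rw [← h]; simp [evalJ]
    have : c = 0 := coeffMap_intCast_injective ℂ (by rw [h0, map_zero])
    rw [this]; simp [evalJZ]
  · set n := P.natDegree with hn
    have hlead : (c.coeff (-(n : ℤ)) : ℂ) = P.coeff n := by
      have := evalJ_coeff_neg_natDegree ℂ P n le_rfl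
      rw [h, coeffMap_coeff] at this
      simpa using this
    set z : ℤ := c.coeff (-(n : ℤ)) with hz
    set c' : LaurentSeries ℤ := c - (z : LaurentSeries ℤ) * jqModC ℤ ^ n with hc'
    have hP' : evalJ ℂ P.eraseLead = coeffMap (Int.castRingHom ℂ) c' := by
      have h1 : P = P.eraseLead + Polynomial.monomial n (P.coeff n) := by
        rw [hn]
        exact (Polynomial.eraseLead_add_monomial_natDegree_leadingCoeff P).symm
      have h2 : evalJ ℂ P = evalJ ℂ P.eraseLead + HahnSeries.C (P.coeff n) * jqModC ℂ ^ n := by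
        conv_lhs => rw [h1]
        simp [evalJ, Polynomial.eval₂_add, Polynomial.eval₂_monomial]
      rw [hc', map_sub, map_mul, map_pow, coeffMap_jqModC_int, ← h, h2, map_intCast]
      have h3 : HahnSeries.C (P.coeff n) = ((z : ℤ) : LaurentSeries ℂ) := by
        rw [← hlead]
        simp
      rw [h3]; ring
    have hlt : P.eraseLead.support.card < d := by
      rw [← hcard]
      exact Polynomial.eraseLead_support_card_lt hP
    obtain ⟨Q', hQ'⟩ := ih _ hlt P.eraseLead rfl c' hP'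
    refine ⟨Q' + Polynomial.C z * Polynomial.X ^ n, ?_⟩
    unfold evalJZ at *
    rw [Polynomial.eval₂_add, Polynomial.eval₂_mul, Polynomial.eval₂_C, Polynomial.eval₂_pow,
      Polynomial.eval₂_X, hQ', hc']
    simp

end Fermat.Agent.S28.H807

end

end
-- ===== PACK-END S28/H807/IntLemma.lean

-- ===== PACK-BEGIN S28/H685/QDict.lean
section


/-!
# S28 helper (helper685): dictionary between convergent `q`-series and functions on `ℍ`

`HasQExp h f A` : the function `f : ℍ → ℂ` is, at every point `τ`, the sum of the power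
series `A` evaluated at `q = exp (2 π i τ / h)`.

Closure under ring operations, uniqueness of the coefficients, holomorphy, boundedness at `i∞`,
and closure under inverses.
-/

set_option autoImplicit false

namespace Fermat.Agent.S28.H685

open UpperHalfPlane Function Complex Filter
open scoped Topology Manifold

noncomputable section

local notation "𝕢" => Periodic.qParam

/-- `f` is the sum of the power series `A` in the parameter `q = exp (2 π i τ / h)`. -/
def HasQExp (h : ℝ) (f : ℍ → ℂ) (A : PowerSeries ℂ) : Prop :=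
  ∀ τ : ℍ, HasSum (fun n : ℕ => PowerSeries.coeff n A * 𝕢 h τ ^ n) (f τ)

namespace HasQExp

variable {h : ℝ} {f g : ℍ → ℂ} {A B : PowerSeries ℂ}

theorem congr_fun (hf : HasQExp h f A) (hfg : ∀ τ, f τ = g τ) : HasQExp h g A :=
  fun τ => hfg τ ▸ hf τ

theorem zero : HasQExp h (fun _ => 0) 0 := fun τ => by
  simp [hasSum_zero]

theorem add (hf : HasQExp h f A) (hg : HasQExp h g B) :
    HasQExp h (fun τ => f τ + g τ) (A + B) := fun τ => by
  simpa [add_mul] using (hf τ).add (hg τ)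

theorem neg (hf : HasQExp h f A) : HasQExp h (fun τ => -f τ) (-A) := fun τ => by
  simpa using (hf τ).neg

theorem sub (hf : HasQExp h f A) (hg : HasQExp h g B) :
    HasQExp h (fun τ => f τ - g τ) (A - B) := fun τ => by
  simpa [sub_mul] using (hf τ).sub (hg τ)

theorem const_mul (c : ℂ) (hf : HasQExp h f A) :
    HasQExp h (fun τ => c * f τ) (PowerSeries.C c * A) := fun τ => by
  simpa [mul_assoc] using (hf τ).mul_left c

theorem const (c : ℂ) : HasQExp h (fun _ => c) (PowerSeries.C c) := fun τ => by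
  have h0 : ∀ n : ℕ, n ≠ 0 → PowerSeries.coeff n (PowerSeries.C c) * 𝕢 h τ ^ n = 0 := by
    intro n hn
    simp [PowerSeries.coeff_C, hn]
  have := hasSum_single (f := fun n : ℕ => PowerSeries.coeff n (PowerSeries.C c) * 𝕢 h τ ^ n) 0
    (fun n hn => h0 n hn)
  simpa using this

theorem one : HasQExp h (fun _ => 1) 1 := by
  simpa using const (h := h) 1

theorem X : HasQExp h (fun τ => 𝕢 h τ) PowerSeries.X := fun τ => by
  have h0 : ∀ n : ℕ, n ≠ 1 → PowerSeries.coeff n (PowerSeries.X : PowerSeries ℂ) * 𝕢 h τ ^ n = 0 := by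
    intro n hn
    simp [PowerSeries.coeff_X, hn]
  have := hasSum_single (f := fun n : ℕ => PowerSeries.coeff n (PowerSeries.X : PowerSeries ℂ)
    * 𝕢 h τ ^ n) 1 (fun n hn => h0 n hn)
  simpa using this

theorem summable_norm (hf : HasQExp h f A) (τ : ℍ) :
    Summable (fun n : ℕ => ‖PowerSeries.coeff n A * 𝕢 h τ ^ n‖) :=
  (hf τ).summable.norm

theorem mul (hf : HasQExp h f A) (hg : HasQExp h g B) :
    HasQExp h (fun τ => f τ * g τ) (A * B) := fun τ => by
  have h1 := hf.summable_norm τ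
  have h2 := hg.summable_norm τ
  have hs := summable_norm_sum_mul_antidiagonal_of_summable_norm h1 h2
  have ht := tsum_mul_tsum_eq_tsum_sum_antidiagonal_of_summable_norm h1 h2
  rw [(hf τ).tsum_eq, (hg τ).tsum_eq] at ht
  have hterm : ∀ n : ℕ, PowerSeries.coeff n (A * B) * 𝕢 h τ ^ n =
      ∑ kl ∈ Finset.HasAntidiagonal.antidiagonal n, (PowerSeries.coeff kl.1 A * 𝕢 h τ ^ kl.1) *
        (PowerSeries.coeff kl.2 B * 𝕢 h τ ^ kl.2) := by
    intro n
    rw [PowerSeries.coeff_mul, Finset.sum_mul]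
    refine Finset.sum_congr rfl fun kl hkl => ?_
    have : kl.1 + kl.2 = n := Finset.HasAntidiagonal.mem_antidiagonal.mp hkl
    rw [← this, pow_add]
    ring
  simp_rw [hterm]
  rw [ht]
  exact hs.of_norm.hasSum

theorem pow (hf : HasQExp h f A) (n : ℕ) : HasQExp h (fun τ => f τ ^ n) (A ^ n) := by
  induction n with
  | zero => simpa using one (h := h)
  | succ n ih => simpa [pow_succ] using ih.mul hf

theorem finset_sum {ι : Type*} (s : Finset ι) (F : ι → ℍ → ℂ) (P : ι → PowerSeries ℂ)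
    (hF : ∀ i ∈ s, HasQExp h (F i) (P i)) :
    HasQExp h (fun τ => ∑ i ∈ s, F i τ) (∑ i ∈ s, P i) := by
  classical
  induction s using Finset.induction_on with
  | empty => simpa using zero (h := h)
  | insert a s ha ih =>
    simp only [Finset.sum_insert ha]
    exact (hF a (Finset.mem_insert_self a s)).add
      (ih fun i hi => hF i (Finset.mem_insert_of_mem hi))

theorem finset_prod {ι : Type*} (s : Finset ι) (F : ι → ℍ → ℂ) (P : ι → PowerSeries ℂ)
    (hF : ∀ i ∈ s, HasQExp h (F i) (P i)) :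
    HasQExp h (fun τ => ∏ i ∈ s, F i τ) (∏ i ∈ s, P i) := by
  classical
  induction s using Finset.induction_on with
  | empty => simpa using one (h := h)
  | insert a s ha ih =>
    simp only [Finset.prod_insert ha]
    exact (hF a (Finset.mem_insert_self a s)).mul
      (ih fun i hi => hF i (Finset.mem_insert_of_mem hi))

end HasQExp

/-! ### Analytic consequences -/

/-- The formal multilinear series attached to a power series. -/
def pser (A : PowerSeries ℂ) : FormalMultilinearSeries ℂ ℂ ℂ :=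
  .ofScalars ℂ fun n => PowerSeries.coeff n A

/-- The sum of the power series `A`, as a function on `ℂ`. -/
def psum (A : PowerSeries ℂ) : ℂ → ℂ := (pser A).sum

theorem pser_apply (A : PowerSeries ℂ) (n : ℕ) (q : ℂ) :
    (pser A n fun _ => q) = PowerSeries.coeff n A * q ^ n := by
  simp [pser, mul_comm]

theorem pser_norm (A : PowerSeries ℂ) (n : ℕ) : ‖pser A n‖ = ‖PowerSeries.coeff n A‖ := by
  simp [pser]

theorem pser_coeff (A : PowerSeries ℂ) (n : ℕ) : (pser A).coeff n = PowerSeries.coeff n A := by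
  simp [pser, FormalMultilinearSeries.coeff_ofScalars]

theorem pser_injective : Function.Injective pser := by
  intro A B hAB
  ext n
  rw [← pser_coeff A, ← pser_coeff B, hAB]

/-- Every point of the punctured unit disc is `𝕢 h τ` for some `τ`. -/
theorem exists_qParam_eq {h : ℝ} (hh : 0 < h) {q : ℂ} (hq : ‖q‖ < 1) (hq0 : q ≠ 0) :
    ∃ τ : ℍ, 𝕢 h τ = q :=
  ⟨⟨Periodic.invQParam h q, Periodic.im_invQParam_pos_of_norm_lt_one hh hq hq0⟩,
    Periodic.qParam_right_inv hh.ne' hq0⟩

/-- Summability of `A` at every point of the open unit disc implies radius at least one. -/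
theorem one_le_radius_of_summable (A : PowerSeries ℂ)
    (hA : ∀ q : ℂ, ‖q‖ < 1 → Summable fun n : ℕ => PowerSeries.coeff n A * q ^ n) :
    1 ≤ (pser A).radius := by
  refine le_of_forall_lt_imp_le_of_dense fun r hr => ?_
  lift r to NNReal using hr.ne_top
  apply FormalMultilinearSeries.le_radius_of_summable
  have h1 : ‖((r : ℝ) : ℂ)‖ < 1 := by
    simpa using hr
  have h2 := (hA (r : ℝ) h1).norm
  refine h2.congr fun n => ?_
  rw [pser_norm, norm_mul, norm_pow, Complex.norm_real, Real.norm_of_nonneg r.coe_nonneg]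

theorem eball_zero_one : Metric.eball (0 : ℂ) 1 = Metric.ball 0 1 := by
  rw [← ENNReal.coe_one, Metric.eball_coe, NNReal.coe_one]

theorem hasFPowerSeriesOnBall_psum (A : PowerSeries ℂ) (hA : 1 ≤ (pser A).radius) :
    HasFPowerSeriesOnBall (psum A) (pser A) 0 1 :=
  ((pser A).hasFPowerSeriesOnBall (lt_of_lt_of_le one_pos hA)).mono one_pos hA

theorem hasSum_psum (A : PowerSeries ℂ) (hA : 1 ≤ (pser A).radius) {q : ℂ} (hq : ‖q‖ < 1) :
    HasSum (fun n : ℕ => PowerSeries.coeff n A * q ^ n) (psum A q) := by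
  have := (hasFPowerSeriesOnBall_psum A hA).hasSum (y := q)
    (by rw [eball_zero_one]; simpa using hq)
  simpa only [pser_apply, zero_add] using this

theorem psum_zero_eq (A : PowerSeries ℂ) (hA : 1 ≤ (pser A).radius) :
    psum A 0 = PowerSeries.coeff 0 A := by
  have h1 := hasSum_psum A hA (q := 0) (by simp)
  have h2 : HasSum (fun n : ℕ => PowerSeries.coeff n A * (0 : ℂ) ^ n) (PowerSeries.coeff 0 A) := by
    have := hasSum_single (f := fun n : ℕ => PowerSeries.coeff n A * (0 : ℂ) ^ n) 0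
      (fun n hn => by simp [hn])
    simpa using this
  exact h1.unique h2

theorem differentiableOn_psum (A : PowerSeries ℂ) (hA : 1 ≤ (pser A).radius) :
    DifferentiableOn ℂ (psum A) (Metric.ball 0 1) := by
  have := (hasFPowerSeriesOnBall_psum A hA).differentiableOn
  rwa [eball_zero_one] at this

/-- If two power series of radius at least one have sums that agree on the punctured disc,
they are equal. -/
theorem eq_of_psum_eq (A B : PowerSeries ℂ) (hA : 1 ≤ (pser A).radius)
    (hB : 1 ≤ (pser B).radius)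
    (hAB : ∀ q : ℂ, ‖q‖ < 1 → q ≠ 0 → psum A q = psum B q) : A = B := by
  have hAa := (hasFPowerSeriesOnBall_psum A hA).hasFPowerSeriesAt
  have hBa := (hasFPowerSeriesOnBall_psum B hB).hasFPowerSeriesAt
  have hne : psum A =ᶠ[𝓝[≠] (0 : ℂ)] psum B := by
    have hball : Metric.ball (0 : ℂ) 1 ∈ 𝓝[≠] (0 : ℂ) :=
      mem_nhdsWithin_of_mem_nhds (Metric.ball_mem_nhds 0 one_pos)
    filter_upwards [hball, self_mem_nhdsWithin] with q hq hq0
    exact hAB q (by simpa using hq) hq0
  have hnhds : psum A =ᶠ[𝓝 (0 : ℂ)] psum B :=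
    (hAa.continuousAt.eventuallyEq_nhds_iff_eventuallyEq_nhdsNE hBa.continuousAt).mp hne
  have hBa' : HasFPowerSeriesAt (psum A) (pser B) 0 := hBa.congr hnhds.symm
  exact pser_injective (hAa.eq_formalMultilinearSeries hBa')

namespace HasQExp

variable {h : ℝ} {f g : ℍ → ℂ} {A B : PowerSeries ℂ}

theorem summable_of_norm_lt (hh : 0 < h) (hf : HasQExp h f A) {q : ℂ} (hq : ‖q‖ < 1) :
    Summable fun n : ℕ => PowerSeries.coeff n A * q ^ n := by
  rcases eq_or_ne q 0 with rfl | hq0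
  · exact (hasSum_single (f := fun n : ℕ => PowerSeries.coeff n A * (0 : ℂ) ^ n) 0
      (fun n hn => by simp [hn])).summable
  · obtain ⟨τ, rfl⟩ := exists_qParam_eq hh hq hq0
    exact (hf τ).summable

theorem one_le_radius (hh : 0 < h) (hf : HasQExp h f A) : 1 ≤ (pser A).radius :=
  one_le_radius_of_summable A fun _ hq => hf.summable_of_norm_lt hh hq

theorem psum_qParam (hh : 0 < h) (hf : HasQExp h f A) (τ : ℍ) : psum A (𝕢 h τ) = f τ :=
  (hasSum_psum A (hf.one_le_radius hh) (Periodic.norm_qParam_lt_one hh τ.im_pos)).unique (hf τ)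

/-- Uniqueness of the coefficients. -/
theorem unique (hh : 0 < h) (hf : HasQExp h f A) (hg : HasQExp h f B) : A = B := by
  refine eq_of_psum_eq A B (hf.one_le_radius hh) (hg.one_le_radius hh) fun q hq hq0 => ?_
  obtain ⟨τ, rfl⟩ := exists_qParam_eq hh hq hq0
  rw [hf.psum_qParam hh, hg.psum_qParam hh]

theorem eq_zero (hh : 0 < h) (hf : HasQExp h (fun _ => 0) A) : A = 0 :=
  hf.unique hh zero

/-- A function given by a convergent `q`-series is holomorphic. -/
theorem mdifferentiable (hh : 0 < h) (hf : HasQExp h f A) : MDiff f := by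
  rw [UpperHalfPlane.mdifferentiable_iff]
  have hd : DifferentiableOn ℂ (fun z : ℂ => psum A (𝕢 h z)) {z | 0 < z.im} := by
    intro z hz
    have h1 : DifferentiableAt ℂ (psum A) (𝕢 h z) :=
      (differentiableOn_psum A (hf.one_le_radius hh)).differentiableAt
        (Metric.isOpen_ball.mem_nhds (by simpa using Periodic.norm_qParam_lt_one hh hz))
    have h2 : DifferentiableAt ℂ (𝕢 h) z := (Periodic.differentiable_qParam).differentiableAt
    exact (h1.comp z h2).differentiableWithinAt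
  refine hd.congr fun z hz => ?_
  simp only [Function.comp_apply]
  rw [ofComplex_apply_of_im_pos hz, ← hf.psum_qParam hh]

/-- A function given by a convergent `q`-series is bounded at `i∞`. -/
theorem isBoundedAtImInfty (hh : 0 < h) (hf : HasQExp h f A) : IsBoundedAtImInfty f :=
  isBoundedAtImInfty_of_hasSum_qExpansion (c := fun n => PowerSeries.coeff n A) hh
    (fun τ => by simpa [smul_eq_mul] using hf τ)

/-- The value at a translate by the period. -/
theorem vadd_period (hh : 0 < h) (hf : HasQExp h f A) (τ : ℍ) (τ' : ℍ) (hτ : (τ' : ℂ) = τ + h) :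
    f τ' = f τ := by
  have hq : 𝕢 h τ' = 𝕢 h τ := by
    rw [hτ]
    simp only [Periodic.qParam]
    rw [show 2 * (Real.pi : ℂ) * Complex.I * ((τ : ℂ) + h) / h =
      2 * Real.pi * Complex.I * τ / h + 2 * Real.pi * Complex.I by
        have : (h : ℂ) ≠ 0 := by exact_mod_cast hh.ne'
        field_simp]
    exact Complex.exp_periodic _
  have := hf τ'
  rw [hq] at this
  exact this.unique (hf τ)

/-- Closure under inverses. -/
theorem inv (hh : 0 < h) (hf : HasQExp h f A) (hf0 : ∀ τ, f τ ≠ 0)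
    (hA0 : PowerSeries.coeff 0 A ≠ 0) : HasQExp h (fun τ => (f τ)⁻¹) A⁻¹ := by
  have hA := hf.one_le_radius hh
  have hne : ∀ q ∈ Metric.ball (0 : ℂ) 1, psum A q ≠ 0 := by
    intro q hq
    have hq' : ‖q‖ < 1 := by simpa using hq
    rcases eq_or_ne q 0 with rfl | hq0
    · rwa [psum_zero_eq A hA]
    · obtain ⟨τ, rfl⟩ := exists_qParam_eq hh hq' hq0
      rw [hf.psum_qParam hh]
      exact hf0 τ
  have hdiff : DifferentiableOn ℂ (fun q => (psum A q)⁻¹) (Metric.ball 0 1) :=
    (differentiableOn_psum A hA).inv hne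
  -- Taylor series of the inverse
  let B : PowerSeries ℂ := PowerSeries.mk fun n =>
    (n.factorial : ℂ)⁻¹ * iteratedDeriv n (fun q => (psum A q)⁻¹) 0
  have hB : HasQExp h (fun τ => (f τ)⁻¹) B := by
    intro τ
    have hq : 𝕢 h τ ∈ Metric.ball (0 : ℂ) 1 := by
      simpa using Periodic.norm_qParam_lt_one hh τ.im_pos
    have := Complex.hasSum_taylorSeries_on_ball hdiff hq
    simp only [sub_zero, smul_eq_mul] at this
    rw [hf.psum_qParam hh] at this
    have hfun : (fun n : ℕ => PowerSeries.coeff n B * 𝕢 h τ ^ n) =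
        fun n : ℕ => ((n.factorial : ℂ))⁻¹ *
          (𝕢 h τ ^ n * iteratedDeriv n (fun q => (psum A q)⁻¹) 0) := by
      funext n
      simp only [B, PowerSeries.coeff_mk]
      ring
    rw [hfun]
    exact this
  have h1 : HasQExp h (fun _ => 1) (A * B) :=
    (hf.mul hB).congr_fun fun τ => mul_inv_cancel₀ (hf0 τ)
  have h2 : A * B = 1 := h1.unique hh one
  have hA0' : PowerSeries.constantCoeff A ≠ 0 := by
    rwa [← PowerSeries.coeff_zero_eq_constantCoeff]
  have h3 : B = A⁻¹ := by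
    rw [PowerSeries.eq_inv_iff_mul_eq_one hA0', mul_comm]
    exact h2
  rw [← h3]
  exact hB

end HasQExp

end

end Fermat.Agent.S28.H685

end
-- ===== PACK-END S28/H685/QDict.lean

-- ===== PACK-BEGIN Ribet/H52/Kummer.lean
section


/-!
# Row RIBET, wall at `p`: the resolvent criterion for "peu ramifiée"  (helper52)

Pure algebra, Mathlib only.  `F` a field with a valuation `v`, `H` a set of ring endomorphisms of
`F` (in the application: the elements of the inertia group at `A` fixing `ζ_p`, so that the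
`H`-fixed elements are the elements of `K₁ = ℚ̄^I(ζ_p)`), `ζ` a primitive `p`-th root of unity fixed
by `H`.

Let `g : ZMod p → F` be a family permuted by `H` through translations:
`τ (g k) = g (k + n τ)` for `τ ∈ H`.  (Application: `g k = x (P + k • t)`, `τ P = P + n τ • t`.)

**Criterion** (`kummer_criterion_h52`).  If `σ ∈ H` moves `g 0` and the valuation of
`g (n σ) - g 0 = σ (g 0) - g 0` is the valuation of an `H`-fixed element, then there is a unit `y`
(`v y = 1`) with `y ^ p` fixed by `H` and `σ y ≠ y`.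

So an element of inertia which fixes all `p`-th roots of units of `K₁` ("peu ramifiée" subgroup)
cannot move `g 0`.  Proof: Lagrange resolvents `y_i = ∑ ζ^{-ik} g k`; `τ y_i = ζ^{i n τ} y_i`;
if no `y_i` (`i ≠ 0`) has an `H`-rational valuation, the `y_i` have pairwise distinct valuations
modulo the `H`-rational ones, hence so does `p (g (n σ) - g 0) = ∑ (ζ^{i n σ} - 1) y_i`.
-/

set_option autoImplicit false

namespace Fermat.Agent.Ribet.H52

open Finset

section ultrametric

variable {F : Type*} [Field F] {Γ₀ : Type*} [LinearOrderedCommGroupWithZero Γ₀]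

/-- A finite sum of elements whose nonzero terms have pairwise distinct valuations is zero (all
terms vanish) or has the valuation of one of its nonzero terms. -/
theorem val_sum_of_distinct_h52 (v : Valuation F Γ₀) {ι : Type*} [DecidableEq ι] (s : Finset ι)
    (f : ι → F)
    (hdist : ∀ i ∈ s, ∀ j ∈ s, i ≠ j → f i ≠ 0 → f j ≠ 0 → v (f i) ≠ v (f j)) :
    (∀ i ∈ s, f i = 0) ∨ ∃ i ∈ s, f i ≠ 0 ∧ v (∑ j ∈ s, f j) = v (f i) := by
  induction s using Finset.induction_on with
  | empty => left; simp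
  | insert a s ha ih =>
    have hdist' : ∀ i ∈ s, ∀ j ∈ s, i ≠ j → f i ≠ 0 → f j ≠ 0 → v (f i) ≠ v (f j) :=
      fun i hi j hj => hdist i (Finset.mem_insert_of_mem hi) j (Finset.mem_insert_of_mem hj)
    rw [Finset.sum_insert ha]
    by_cases hfa : f a = 0
    · rcases ih hdist' with h0 | ⟨i, hi, hfi, hv⟩
      · left
        intro i hi
        rcases Finset.mem_insert.mp hi with rfl | hi
        · exact hfa
        · exact h0 i hi
      · right
        exact ⟨i, Finset.mem_insert_of_mem hi, hfi, by rw [hfa, zero_add, hv]⟩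
    · right
      rcases ih hdist' with h0 | ⟨i, hi, hfi, hv⟩
      · refine ⟨a, Finset.mem_insert_self a s, hfa, ?_⟩
        rw [Finset.sum_eq_zero h0, add_zero]
      · have hai : a ≠ i := fun h => ha (h ▸ hi)
        have hne : v (f a) ≠ v (∑ j ∈ s, f j) := by
          rw [hv]
          exact hdist a (Finset.mem_insert_self a s) i (Finset.mem_insert_of_mem hi) hai hfa hfi
        rw [Valuation.map_add_of_distinct_val v hne]
        rcases le_total (v (f a)) (v (∑ j ∈ s, f j)) with h | h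
        · exact ⟨i, Finset.mem_insert_of_mem hi, hfi, by rw [max_eq_right h, hv]⟩
        · exact ⟨a, Finset.mem_insert_self a s, hfa, by rw [max_eq_left h]⟩

end ultrametric

section rational

variable {F : Type*} [Field F] {Γ₀ : Type*} [LinearOrderedCommGroupWithZero Γ₀]

/-- `w` has the valuation of a nonzero `H`-fixed element. -/
def RatVal_h52 (v : Valuation F Γ₀) (H : Set (F →+* F)) (w : F) : Prop :=
  ∃ c : F, c ≠ 0 ∧ (∀ τ ∈ H, τ c = c) ∧ v w = v c

variable {v : Valuation F Γ₀} {H : Set (F →+* F)}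

theorem ratVal_of_fixed_h52 {c : F} (hc0 : c ≠ 0) (hc : ∀ τ ∈ H, τ c = c) :
    RatVal_h52 v H c :=
  ⟨c, hc0, hc, rfl⟩

theorem RatVal_h52.ne_zero {w : F} (h : RatVal_h52 v H w) : w ≠ 0 := by
  obtain ⟨c, hc0, -, hv⟩ := h
  intro h0
  rw [h0, map_zero] at hv
  exact hc0 ((map_eq_zero v).mp hv.symm)

theorem RatVal_h52.mul {w w' : F} (h : RatVal_h52 v H w) (h' : RatVal_h52 v H w') :
    RatVal_h52 v H (w * w') := by
  obtain ⟨c, hc0, hc, hv⟩ := h
  obtain ⟨c', hc0', hc', hv'⟩ := h'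
  exact ⟨c * c', mul_ne_zero hc0 hc0', fun τ hτ => by rw [map_mul, hc τ hτ, hc' τ hτ],
    by rw [map_mul, map_mul, hv, hv']⟩

theorem RatVal_h52.inv {w : F} (h : RatVal_h52 v H w) : RatVal_h52 v H w⁻¹ := by
  obtain ⟨c, hc0, hc, hv⟩ := h
  exact ⟨c⁻¹, inv_ne_zero hc0, fun τ hτ => by rw [map_inv₀, hc τ hτ],
    by rw [map_inv₀, map_inv₀, hv]⟩

theorem RatVal_h52.div {w w' : F} (h : RatVal_h52 v H w) (h' : RatVal_h52 v H w') :
    RatVal_h52 v H (w / w') := by
  rw [div_eq_mul_inv]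
  exact h.mul h'.inv

theorem RatVal_h52.pow {w : F} (h : RatVal_h52 v H w) (n : ℕ) : RatVal_h52 v H (w ^ n) := by
  induction n with
  | zero =>
    rw [pow_zero]
    exact ratVal_of_fixed_h52 one_ne_zero (fun τ _ => map_one τ)
  | succ n ih =>
    rw [pow_succ]
    exact ih.mul h

theorem RatVal_h52.zpow {w : F} (h : RatVal_h52 v H w) (n : ℤ) : RatVal_h52 v H (w ^ n) := by
  rcases Int.eq_nat_or_neg n with ⟨m, rfl | rfl⟩
  · rw [zpow_natCast]
    exact h.pow m
  · rw [zpow_neg, zpow_natCast]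
    exact (h.pow m).inv

theorem ratVal_congr_h52 {w w' : F} (hv : v w = v w') (h : RatVal_h52 v H w') :
    RatVal_h52 v H w := by
  obtain ⟨c, hc0, hc, hv'⟩ := h
  exact ⟨c, hc0, hc, hv.trans hv'⟩

/-- If `w ^ a` and `w ^ b` have `H`-rational valuations with `a`, `b` coprime, so has `w`. -/
theorem ratVal_of_pow_coprime_h52 {w : F} (hw : w ≠ 0) {a b : ℕ} (hab : Nat.Coprime a b)
    (ha : RatVal_h52 v H (w ^ a)) (hb : RatVal_h52 v H (w ^ b)) : RatVal_h52 v H w := by
  have hbez : (a : ℤ) * Nat.gcdA a b + (b : ℤ) * Nat.gcdB a b = 1 := by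
    have := Nat.gcd_eq_gcd_ab a b
    rw [hab.gcd_eq_one] at this
    rw [← this]
    rfl
  have hw1 : w = (w ^ a) ^ (Nat.gcdA a b) * (w ^ b) ^ (Nat.gcdB a b) := by
    rw [← zpow_natCast w a, ← zpow_natCast w b, ← zpow_mul, ← zpow_mul, ← zpow_add₀ hw, hbez,
      zpow_one]
  rw [hw1]
  exact (ha.zpow _).mul (hb.zpow _)

end rational

section criterion

variable {F : Type*} [Field F] {Γ₀ : Type*} [LinearOrderedCommGroupWithZero Γ₀]

/-- **The resolvent criterion.** -/
theorem kummer_criterion_h52 (v : Valuation F Γ₀) {p : ℕ} (hp : p.Prime) (H : Set (F →+* F))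
    {ζ : F} (hζ : IsPrimitiveRoot ζ p) (hζH : ∀ τ ∈ H, τ ζ = ζ)
    (g : ZMod p → F) (n : (F →+* F) → ZMod p)
    (hg : ∀ τ ∈ H, ∀ k, τ (g k) = g (k + n τ))
    (σ : F →+* F) (hσ : σ ∈ H) (hne : g (n σ) ≠ g 0)
    (hval : RatVal_h52 v H (g (n σ) - g 0)) :
    ∃ y : F, v y = 1 ∧ (∀ τ ∈ H, τ (y ^ p) = y ^ p) ∧ σ y ≠ y := by
  classical
  have : Fact p.Prime := ⟨hp⟩
  have : NeZero p := ⟨hp.ne_zero⟩
  have hζp : ζ ^ p = 1 := hζ.pow_eq_one
  have hpF : (p : F) ≠ 0 := (hζ.neZero' (R := F)).out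
  -- the additive character `ψ a = ζ ^ a`
  set ψ : AddChar (ZMod p) F := AddChar.zmodChar p hζp with hψ
  have hψprim : ψ.IsPrimitive := AddChar.zmodChar_primitive_of_primitive_root p hζ
  have hψ1 : ∀ a : ZMod p, ψ a = 1 ↔ a = 0 :=
    fun a => AddChar.IsPrimitive.zmod_char_eq_one_iff p hψprim a
  have hψH : ∀ τ ∈ H, ∀ a : ZMod p, τ (ψ a) = ψ a := by
    intro τ hτ a
    rw [hψ, AddChar.zmodChar_apply, map_pow, hζH τ hτ]
  have hψ0 : ∀ a : ZMod p, ψ a ≠ 0 := by
    intro a
    rw [hψ, AddChar.zmodChar_apply]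
    exact pow_ne_zero _ (hζ.ne_zero hp.ne_zero)
  -- the resolvents
  set y : ZMod p → F := fun i => ∑ k : ZMod p, ψ (-(i * k)) * g k with hy
  have hτy : ∀ τ ∈ H, ∀ i, τ (y i) = ψ (i * n τ) * y i := by
    intro τ hτ i
    simp only [hy]
    rw [map_sum, Finset.mul_sum]
    rw [← Equiv.sum_comp (Equiv.addRight (n τ)) (fun k => ψ (i * n τ) * (ψ (-(i * k)) * g k))]
    refine Finset.sum_congr rfl fun k _ => ?_
    rw [map_mul, hψH τ hτ, hg τ hτ, Equiv.coe_addRight, ← mul_assoc, ← AddChar.map_add_eq_mul]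
    congr 2
    ring
  -- Fourier inversion
  have hinv : ∀ a : ZMod p, ∑ i : ZMod p, ψ (i * a) * y i = (p : F) * g a := by
    intro a
    simp only [hy, Finset.mul_sum]
    rw [Finset.sum_comm]
    have h1 : ∀ k : ZMod p, ∑ i : ZMod p, ψ (i * a) * (ψ (-(i * k)) * g k) =
        (if a = k then (p : F) else 0) * g k := by
      intro k
      have hs := AddChar.sum_mulShift (a - k) hψprim
      have e : ∑ i : ZMod p, ψ (i * a) * (ψ (-(i * k)) * g k) =
          (∑ i : ZMod p, ψ (i * (a - k))) * g k := by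
        rw [Finset.sum_mul]
        refine Finset.sum_congr rfl fun i _ => ?_
        rw [← mul_assoc, ← AddChar.map_add_eq_mul]
        congr 2
        ring
      rw [e, hs]
      by_cases hak : a = k
      · rw [if_pos hak, if_pos (sub_eq_zero.mpr hak), ZMod.card]
      · rw [if_neg hak, if_neg (sub_ne_zero.mpr hak), Nat.cast_zero]
    simp_rw [h1]
    rw [Finset.sum_eq_single a]
    · rw [if_pos rfl]
    · intro k _ hk
      rw [if_neg (Ne.symm hk), zero_mul]
    · intro h
      exact absurd (Finset.mem_univ a) h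
  have ha0 : n σ ≠ 0 := by
    intro h
    rw [h] at hne
    exact hne rfl
  -- the difference as a sum of resolvents
  have hdiff : ∑ i : ZMod p, (ψ (i * n σ) - 1) * y i = (p : F) * (g (n σ) - g 0) := by
    have h0 := hinv 0
    simp only [mul_zero, AddChar.map_zero_eq_one, one_mul] at h0
    simp only [sub_mul, one_mul, Finset.sum_sub_distrib]
    rw [hinv (n σ), h0, mul_sub]
  by_cases hA : ∃ i : ZMod p, i ≠ 0 ∧ y i ≠ 0 ∧ RatVal_h52 v H (y i)
  · -- Case A: a resolvent with rational valuation gives the unit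
    obtain ⟨i, hi0, hyi0, c, hc0, hc, hv⟩ := hA
    refine ⟨y i / c, ?_, ?_, ?_⟩
    · rw [map_div₀, hv, div_self ((Valuation.ne_zero_iff v).mpr hc0)]
    · intro τ hτ
      rw [map_pow, map_div₀, hτy τ hτ, hc τ hτ, mul_div_assoc, mul_pow,
        ← AddChar.map_nsmul_eq_pow, nsmul_eq_mul]
      have : ((p : ℕ) : ZMod p) * (i * n τ) = 0 := by
        rw [ZMod.natCast_self, zero_mul]
      rw [this, AddChar.map_zero_eq_one, one_mul]
    · rw [map_div₀, hτy σ hσ, hc σ hσ, mul_div_assoc]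
      intro h
      have h1 : ψ (i * n σ) = 1 := by
        have hyc : y i / c ≠ 0 := div_ne_zero hyi0 hc0
        exact mul_right_cancel₀ hyc (by rw [h, one_mul])
      rcases mul_eq_zero.mp ((hψ1 _).mp h1) with h2 | h2
      · exact hi0 h2
      · exact ha0 h2
  · -- Case B: impossible
    exfalso
    push Not at hA
    set u : ZMod p → F := fun i => (ψ (i * n σ) - 1) * y i with hu
    have hψne : ∀ i : ZMod p, i ≠ 0 → ψ (i * n σ) - 1 ≠ 0 := by
      intro i hi h
      rcases mul_eq_zero.mp ((hψ1 _).mp (sub_eq_zero.mp h)) with h2 | h2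
      · exact hi h2
      · exact ha0 h2
    have hψfix : ∀ i : ZMod p, ∀ τ ∈ H, τ (ψ (i * n σ) - 1) = ψ (i * n σ) - 1 := by
      intro i τ hτ
      rw [map_sub, map_one, hψH τ hτ]
    have hψrat : ∀ i : ZMod p, i ≠ 0 → RatVal_h52 v H (ψ (i * n σ) - 1) :=
      fun i hi => ratVal_of_fixed_h52 (hψne i hi) (hψfix i)
    have hu0 : u 0 = 0 := by
      simp only [hu, zero_mul, AddChar.map_zero_eq_one, sub_self]
    have hui : ∀ i : ZMod p, u i ≠ 0 → i ≠ 0 ∧ y i ≠ 0 := by
      intro i hi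
      refine ⟨?_, ?_⟩
      · rintro rfl
        exact hi hu0
      · intro h
        apply hi
        simp only [hu, h, mul_zero]
    -- `y i ^ p` is `H`-fixed
    have hypow : ∀ i : ZMod p, y i ≠ 0 → RatVal_h52 v H (y i ^ p) := by
      intro i hyi
      refine ratVal_of_fixed_h52 (pow_ne_zero _ hyi) fun τ hτ => ?_
      rw [map_pow, hτy τ hτ, mul_pow, ← AddChar.map_nsmul_eq_pow, nsmul_eq_mul]
      have : ((p : ℕ) : ZMod p) * (i * n τ) = 0 := by
        rw [ZMod.natCast_self, zero_mul]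
      rw [this, AddChar.map_zero_eq_one, one_mul]
    -- pairwise distinct valuations
    have hdist : ∀ i ∈ (Finset.univ : Finset (ZMod p)), ∀ j ∈ (Finset.univ : Finset (ZMod p)),
        i ≠ j → u i ≠ 0 → u j ≠ 0 → v (u i) ≠ v (u j) := by
      intro i _ j _ hij hui0 huj0 hveq
      obtain ⟨hi0, hyi0⟩ := hui i hui0
      obtain ⟨hj0, hyj0⟩ := hui j huj0
      -- `y i / y j` has rational valuation
      have h1 : RatVal_h52 v H (y i / y j) := by
        have hq : v (y i / y j) = v ((ψ (j * n σ) - 1) / (ψ (i * n σ) - 1)) := by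
          simp only [hu, map_mul] at hveq
          rw [map_div₀, map_div₀]
          have hvi : v (ψ (i * n σ) - 1) ≠ 0 := (Valuation.ne_zero_iff v).mpr (hψne i hi0)
          have hvj : v (y j) ≠ 0 := (Valuation.ne_zero_iff v).mpr hyj0
          rw [div_eq_div_iff hvj hvi, mul_comm (v (y i)), hveq, mul_comm]
        exact ratVal_congr_h52 hq ((hψrat j hj0).div (hψrat i hi0))
      -- `y i ^ m / y j` is `H`-fixed, `m = j / i`
      set m : ℕ := (j / i).val with hm
      have hmi : (m : ZMod p) * i = j := by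
        rw [hm, ZMod.natCast_zmod_val, div_mul_cancel₀ j hi0]
      have h2 : RatVal_h52 v H (y i ^ m / y j) := by
        refine ratVal_of_fixed_h52 (div_ne_zero (pow_ne_zero _ hyi0) hyj0) fun τ hτ => ?_
        rw [map_div₀, map_pow, hτy τ hτ, hτy τ hτ, mul_pow, ← AddChar.map_nsmul_eq_pow,
          nsmul_eq_mul, ← mul_assoc, hmi, mul_div_mul_left _ _ (hψ0 _)]
      -- hence `y i ^ (m - 1)` has rational valuation
      have hm2 : 2 ≤ m := by
        have hm0 : m ≠ 0 := by
          intro h0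
          rw [h0, Nat.cast_zero, zero_mul] at hmi
          exact hj0 hmi.symm
        have hm1 : m ≠ 1 := by
          intro h1'
          rw [h1', Nat.cast_one, one_mul] at hmi
          exact hij hmi
        omega
      have hmp : m < p := ZMod.val_lt _
      have h3 : RatVal_h52 v H (y i ^ (m - 1)) := by
        have e : y i ^ (m - 1) = (y i ^ m / y j) / (y i / y j) := by
          have : y i ^ m = y i ^ (m - 1) * y i := by
            rw [← pow_succ]
            congr 1
            omega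
          rw [this]
          field_simp
        rw [e]
        exact h2.div h1
      have hcop : Nat.Coprime (m - 1) p := by
        rw [Nat.coprime_comm, hp.coprime_iff_not_dvd]
        intro hdvd
        have := Nat.le_of_dvd (by omega) hdvd
        omega
      exact (hA i hi0 hyi0) (ratVal_of_pow_coprime_h52 hyi0 hcop h3 (hypow i hyi0))
    rcases val_sum_of_distinct_h52 v Finset.univ u hdist with h0 | ⟨i, -, hui0, hv⟩
    · -- all terms vanish: the sum is zero
      have hs : ∑ i : ZMod p, u i = 0 := Finset.sum_eq_zero h0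
      rw [hdiff] at hs
      rcases mul_eq_zero.mp hs with h | h
      · exact hpF h
      · exact hne (sub_eq_zero.mp h)
    · obtain ⟨hi0, hyi0⟩ := hui i hui0
      apply hA i hi0 hyi0
      -- `v (y i) = v (p * (g (n σ) - g 0) / (ψ (i * n σ) - 1))`
      have hpr : RatVal_h52 v H ((p : F) * (g (n σ) - g 0) / (ψ (i * n σ) - 1)) :=
        ((ratVal_of_fixed_h52 hpF (fun τ _ => map_natCast τ p)).mul hval).div (hψrat i hi0)
      refine ratVal_congr_h52 ?_ hpr
      rw [hdiff] at hv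
      simp only [hu, map_mul] at hv
      have hvi : v (ψ (i * n σ) - 1) ≠ 0 := (Valuation.ne_zero_iff v).mpr (hψne i hi0)
      rw [map_div₀, map_mul, hv, mul_div_assoc, mul_comm, div_mul_cancel₀ _ hvi]

end criterion

end Fermat.Agent.Ribet.H52

end
-- ===== PACK-END Ribet/H52/Kummer.lean

-- ===== PACK-BEGIN S05/SameRed.lean
section





/-!
# S05, piece (C2): integral points with the same nonsingular reduction differ by a point of `E₁`

Abstract setting: `K` a field, `v : Valuation K Γ₀`, `W` a Weierstrass curve over `K` with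
`v`-integral coefficients.
-/

set_option autoImplicit false

namespace Fermat.Agent.S05.SameRed

open WeierstrassCurve WeierstrassCurve.Affine

set_option linter.unusedSectionVars false
set_option linter.unusedVariables false

variable {K : Type*} [Field K] [DecidableEq K]
  {Γ₀ : Type*} [LinearOrderedCommGroupWithZero Γ₀]

/-- The coefficients of `W` are `v`-integral. -/
structure IntegralCoeffs (W : Affine K) (v : Valuation K Γ₀) : Prop where
  a₁ : v W.a₁ ≤ 1
  a₂ : v W.a₂ ≤ 1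
  a₃ : v W.a₃ ≤ 1
  a₄ : v W.a₄ ≤ 1
  a₆ : v W.a₆ ≤ 1

/-- The "kernel of reduction" `E₁`: the point at infinity together with the affine points whose
`x`-coordinate is not `v`-integral. -/
def InKer (W : Affine K) (v : Valuation K Γ₀) : W.Point → Prop
  | .zero => True
  | .some x _ _ => 1 < v x

variable {W : Affine K} {v : Valuation K Γ₀}

@[simp] lemma inKer_zero : InKer W v 0 := trivial

@[simp] lemma inKer_some {x y : K} (h : W.Nonsingular x y) :
    InKer W v (Point.some x y h) ↔ 1 < v x := Iff.rfl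

lemma val_add_le_one {a b : K} (ha : v a ≤ 1) (hb : v b ≤ 1) : v (a + b) ≤ 1 :=
  (v.map_add a b).trans (max_le ha hb)

lemma val_sub_le_one {a b : K} (ha : v a ≤ 1) (hb : v b ≤ 1) : v (a - b) ≤ 1 :=
  (v.map_sub a b).trans (max_le ha hb)

lemma val_mul_le_one {a b : K} (ha : v a ≤ 1) (hb : v b ≤ 1) : v (a * b) ≤ 1 := by
  rw [map_mul]; exact mul_le_one' ha hb

lemma val_mul_lt_one_left {a b : K} (ha : v a < 1) (hb : v b ≤ 1) : v (a * b) < 1 := by
  rw [map_mul]; exact (mul_le_of_le_one_right' hb).trans_lt ha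

lemma val_mul_lt_one_right {a b : K} (ha : v a ≤ 1) (hb : v b < 1) : v (a * b) < 1 := by
  rw [map_mul]; exact (mul_le_of_le_one_left' ha).trans_lt hb

lemma val_add_lt_one {a b : K} (ha : v a < 1) (hb : v b < 1) : v (a + b) < 1 :=
  (v.map_add a b).trans_lt (max_lt ha hb)

lemma val_natCast_le_one (n : ℕ) : v (n : K) ≤ 1 := by
  induction n with
  | zero => simp
  | succ n ih => push_cast; exact val_add_le_one ih (by simp)

/-- If `a ≡ b mod 𝔪` and `v b = 1`-ness: `v a = 1 ↔ v b = 1` is what we need in the form: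
`v (a - b) < 1` and `v a = 1` imply `v b = 1`. -/
lemma val_eq_one_of_sub_lt {a b : K} (hab : v (a - b) < 1) (ha : v a = 1) : v b = 1 := by
  have : b = a + -(a - b) := by ring
  rw [this, v.map_add_eq_of_lt_left (by rwa [Valuation.map_neg, ha]), ha]

lemma val_lt_one_of_sub_lt {a b : K} (hab : v (a - b) < 1) (ha : v a < 1) : v b < 1 := by
  have : b = a + -(a - b) := by ring
  rw [this]
  exact val_add_lt_one ha (by rwa [Valuation.map_neg])

/-- If the slope is non-integral, then so is the `x`-coordinate of the sum. -/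
theorem one_lt_val_addX (hW : IntegralCoeffs W v) {x₁ x₂ ℓ : K} (hx₁ : v x₁ ≤ 1)
    (hx₂ : v x₂ ≤ 1) (hℓ : 1 < v ℓ) : 1 < v (W.addX x₁ x₂ ℓ) := by
  have hℓ0 : 0 < v ℓ := lt_trans zero_lt_one hℓ
  have h2 : v ℓ < v (ℓ ^ 2) := by
    rw [map_pow, pow_two]
    exact lt_mul_of_one_lt_left hℓ0 hℓ
  have h3 : v (W.a₁ * ℓ) ≤ v ℓ := by
    rw [map_mul]; exact mul_le_of_le_one_left' hW.a₁
  have h4 : v (ℓ ^ 2 + W.a₁ * ℓ) = v (ℓ ^ 2) :=
    v.map_add_eq_of_lt_left (h3.trans_lt h2)
  have h5 : v (W.a₂ + x₁ + x₂) ≤ 1 := val_add_le_one (val_add_le_one hW.a₂ hx₁) hx₂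
  have h6 : W.addX x₁ x₂ ℓ = (ℓ ^ 2 + W.a₁ * ℓ) + -(W.a₂ + x₁ + x₂) := by
    simp only [Affine.addX]; ring
  rw [h6, v.map_add_eq_of_lt_left (by
    rw [Valuation.map_neg, h4]; exact h5.trans_lt (hℓ.trans h2)), h4]
  exact hℓ.trans h2

/-- **(C2)** Two integral affine points whose coordinates are congruent modulo the maximal ideal
and whose common reduction is nonsingular differ by a point in the kernel of reduction. -/
theorem inKer_sub_of_same_reduction (hW : IntegralCoeffs W v) {x₁ y₁ x₂ y₂ : K}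
    (h₁ : W.Nonsingular x₁ y₁) (h₂ : W.Nonsingular x₂ y₂)
    (hx₁ : v x₁ ≤ 1) (hy₁ : v y₁ ≤ 1) (hx₂ : v x₂ ≤ 1) (hy₂ : v y₂ ≤ 1)
    (hx : v (x₁ - x₂) < 1) (hy : v (y₁ - y₂) < 1)
    (hns : v (W.a₁ * y₁ - (3 * x₁ ^ 2 + 2 * W.a₂ * x₁ + W.a₄)) = 1 ∨
      v (2 * y₁ + W.a₁ * x₁ + W.a₃) = 1) :
    InKer W v (Point.some x₁ y₁ h₁ - Point.some x₂ y₂ h₂) := by
  rw [sub_eq_add_neg, Point.neg_some]
  -- abbreviations
  set n : K := y₁ + y₂ + W.a₁ * x₂ + W.a₃ with hn
  set g : K := x₁ ^ 2 + x₁ * x₂ + x₂ ^ 2 + W.a₂ * (x₁ + x₂) + W.a₄ - W.a₁ * y₁ with hg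
  have hnegY : W.negY x₂ y₂ = -y₂ - W.a₁ * x₂ - W.a₃ := rfl
  have e₁ := (Affine.equation_iff x₁ y₁).mp h₁.1
  have e₂ := (Affine.equation_iff x₂ y₂).mp h₂.1
  -- the key identity
  have key : (y₁ - y₂) * n = (x₁ - x₂) * g := by
    simp only [hn, hg]; linear_combination e₁ - e₂
  -- congruences
  have hn_cong : v (n - (2 * y₁ + W.a₁ * x₁ + W.a₃)) < 1 := by
    have : n - (2 * y₁ + W.a₁ * x₁ + W.a₃) = -(y₁ - y₂) + -(W.a₁ * (x₁ - x₂)) := by
      simp only [hn]; ring
    rw [this]
    exact val_add_lt_one (by rwa [Valuation.map_neg])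
      (by rw [Valuation.map_neg]; exact val_mul_lt_one_right hW.a₁ hx)
  have hg_cong : v (g + (W.a₁ * y₁ - (3 * x₁ ^ 2 + 2 * W.a₂ * x₁ + W.a₄))) < 1 := by
    have : g + (W.a₁ * y₁ - (3 * x₁ ^ 2 + 2 * W.a₂ * x₁ + W.a₄)) =
        -((x₁ - x₂) * (x₁ + (x₁ + x₂) + W.a₂)) := by
      simp only [hg]; ring
    rw [this, Valuation.map_neg]
    exact val_mul_lt_one_left hx
      (val_add_le_one (val_add_le_one hx₁ (val_add_le_one hx₁ hx₂)) hW.a₂)
  by_cases hxx : x₁ = x₂
  · -- same `x`-coordinate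
    rcases Affine.Y_eq_of_X_eq h₁.1 h₂.1 hxx with hyy | hyy
    · -- `P₁ = P₂`
      subst hxx; subst hyy
      rw [Point.add_of_Y_eq rfl (by rw [Affine.negY_negY])]
      exact inKer_zero
    · -- `P₁ = -P₂`, so the difference is `2 P₁`
      subst hxx
      by_cases hyy' : y₁ = y₂
      · subst hyy'
        rw [Point.add_of_Y_eq rfl (by rw [Affine.negY_negY])]
        exact inKer_zero
      · have hne : y₁ ≠ W.negY x₁ (W.negY x₁ y₂) := by rwa [Affine.negY_negY]
        rw [Point.add_of_Y_ne hne, inKer_some]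
        apply one_lt_val_addX hW hx₁ hx₁
        rw [Affine.slope_of_Y_ne rfl hne]
        -- denominator: `y₁ - negY x₁ y₁ = 2 y₁ + a₁ x₁ + a₃ = y₁ - y₂`
        have hden : y₁ - W.negY x₁ y₁ = y₁ - y₂ := by
          rw [hyy, hnegY]; simp only [Affine.negY]; ring
        have hden' : 2 * y₁ + W.a₁ * x₁ + W.a₃ = y₁ - y₂ := by
          rw [hyy, hnegY]; ring
        have hY : v (2 * y₁ + W.a₁ * x₁ + W.a₃) < 1 := by rw [hden']; exact hy
        have hX : v (W.a₁ * y₁ - (3 * x₁ ^ 2 + 2 * W.a₂ * x₁ + W.a₄)) = 1 := by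
          rcases hns with h | h
          · exact h
          · exact absurd h hY.ne
        have hnum : v (3 * x₁ ^ 2 + 2 * W.a₂ * x₁ + W.a₄ - W.a₁ * y₁) = 1 := by
          rw [← Valuation.map_neg, neg_sub]; exact hX
        have hd0 : y₁ - y₂ ≠ 0 := sub_ne_zero.mpr hyy'
        rw [hden, map_div₀, hnum, one_div]
        exact (one_lt_inv₀ ((Valuation.pos_iff v).mpr hd0)).mpr hy
  · -- distinct `x`-coordinates
    rw [Point.add_of_X_ne hxx, inKer_some]
    apply one_lt_val_addX hW hx₁ hx₂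
    rw [Affine.slope_of_X_ne hxx]
    have hd0 : x₁ - x₂ ≠ 0 := sub_ne_zero.mpr hxx
    have hnum : y₁ - W.negY x₂ y₂ = n := by rw [hnegY]; simp only [hn]; ring
    rw [hnum, map_div₀, one_lt_div₀ ((Valuation.pos_iff v).mpr hd0)]
    by_cases hY : v (2 * y₁ + W.a₁ * x₁ + W.a₃) = 1
    · -- `n` is a unit
      have hn1 : v n = 1 := by
        have h := hn_cong
        rw [← Valuation.map_neg, neg_sub] at h
        exact val_eq_one_of_sub_lt h hY
      rw [hn1]; exact hx
    · have hX : v (W.a₁ * y₁ - (3 * x₁ ^ 2 + 2 * W.a₂ * x₁ + W.a₄)) = 1 :=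
        hns.resolve_right hY
      -- `g` is a unit
      have hg1 : v g = 1 := by
        have h : v (-(W.a₁ * y₁ - (3 * x₁ ^ 2 + 2 * W.a₂ * x₁ + W.a₄)) - g) < 1 := by
          rw [← Valuation.map_neg]
          convert hg_cong using 2; ring
        have h' : v (-(W.a₁ * y₁ - (3 * x₁ ^ 2 + 2 * W.a₂ * x₁ + W.a₄))) = 1 := by
          rw [Valuation.map_neg]; exact hX
        exact val_eq_one_of_sub_lt h h'
      have hvkey : v (y₁ - y₂) * v n = v (x₁ - x₂) := by
        rw [← map_mul, key, map_mul, hg1, mul_one]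
      have hn0 : n ≠ 0 := by
        intro h0
        rw [h0, mul_zero] at key
        rcases mul_eq_zero.mp key.symm with h | h
        · exact hd0 h
        · rw [h, map_zero] at hg1; exact zero_ne_one hg1
      have hvn : 0 < v n := (Valuation.pos_iff v).mpr hn0
      rw [← hvkey]
      exact mul_lt_of_lt_one_left hvn hy

end Fermat.Agent.S05.SameRed

end
-- ===== PACK-END S05/SameRed.lean

-- ===== PACK-BEGIN Lib/Cheb/H221/LogEuler.lean
section
/-
CHEB shared library, piece A (helper221): abstract Euler products and their logarithms.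

`P` is an index set of "primes", `N : P → ℝ` their norms (`2 ≤ N r`), `c : P → ℂ` unimodular
coefficients.  We study `Λ c s = ∑' r, log (1 - c r * N r ^ (-s))⁻¹`.
-/


set_option autoImplicit false

namespace Fermat.Agent.Lib.Cheb.H221

open Filter Topology Complex

variable {P : Type*}

/-- The basic quantity `N r ^ (-s)`. -/
noncomputable def xs (N : P → ℝ) (s : ℝ) (r : P) : ℝ := N r ^ (-s)

lemma xs_pos {N : P → ℝ} (hN : ∀ r, 2 ≤ N r) (s : ℝ) (r : P) : 0 < xs N s r :=
  Real.rpow_pos_of_pos (by linarith [hN r]) _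

lemma xs_le_half {N : P → ℝ} (hN : ∀ r, 2 ≤ N r) {s : ℝ} (hs : 1 ≤ s) (r : P) :
    xs N s r ≤ 1 / 2 := by
  unfold xs
  have h2 : (0 : ℝ) < 2 := by norm_num
  calc N r ^ (-s) ≤ (2 : ℝ) ^ (-s) :=
        Real.rpow_le_rpow_of_nonpos h2 (hN r) (by linarith)
    _ ≤ (2 : ℝ) ^ (-1 : ℝ) :=
        Real.rpow_le_rpow_of_exponent_le (by norm_num) (by linarith)
    _ = 1 / 2 := by rw [Real.rpow_neg_one]; norm_num

lemma xs_anti {N : P → ℝ} (hN : ∀ r, 2 ≤ N r) {s t : ℝ} (hst : s ≤ t) (r : P) :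
    xs N t r ≤ xs N s r := by
  unfold xs
  exact Real.rpow_le_rpow_of_exponent_le (by linarith [hN r]) (by linarith)

/-- The logarithmic Euler factor. -/
noncomputable def logFactor (N : P → ℝ) (c : P → ℂ) (s : ℝ) (r : P) : ℂ :=
  Complex.log (1 - c r * (xs N s r : ℂ))⁻¹

/-- The logarithm of the Euler product. -/
noncomputable def logEuler (N : P → ℝ) (c : P → ℂ) (s : ℝ) : ℂ :=
  ∑' r, logFactor N c s r

lemma norm_z_le {N : P → ℝ} (hN : ∀ r, 2 ≤ N r) {c : P → ℂ} (hc : ∀ r, ‖c r‖ ≤ 1)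
    (s : ℝ) (r : P) : ‖c r * (xs N s r : ℂ)‖ ≤ xs N s r := by
  rw [norm_mul, Complex.norm_real, Real.norm_of_nonneg (xs_pos hN s r).le]
  calc ‖c r‖ * xs N s r ≤ 1 * xs N s r :=
        mul_le_mul_of_nonneg_right (hc r) (xs_pos hN s r).le
    _ = xs N s r := one_mul _

lemma norm_z_lt_one {N : P → ℝ} (hN : ∀ r, 2 ≤ N r) {c : P → ℂ} (hc : ∀ r, ‖c r‖ ≤ 1)
    {s : ℝ} (hs : 1 ≤ s) (r : P) : ‖c r * (xs N s r : ℂ)‖ < 1 :=
  lt_of_le_of_lt (norm_z_le hN hc s r) (by linarith [xs_le_half hN hs r])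

/-- `‖log (1 - z)⁻¹ - z‖ ≤ x²` for the Euler factors. -/
lemma norm_logFactor_sub_le {N : P → ℝ} (hN : ∀ r, 2 ≤ N r) {c : P → ℂ} (hc : ∀ r, ‖c r‖ ≤ 1)
    {s : ℝ} (hs : 1 ≤ s) (r : P) :
    ‖logFactor N c s r - c r * (xs N s r : ℂ)‖ ≤ xs N s r ^ 2 := by
  have hz := norm_z_lt_one hN hc hs r
  have hzle := norm_z_le hN hc s r
  have hx := xs_le_half hN hs r
  have hxpos := xs_pos hN s r
  have h1 := Complex.norm_log_one_sub_inv_sub_self_le hz
  refine le_trans h1 ?_
  have hnn : 0 ≤ ‖c r * (xs N s r : ℂ)‖ := norm_nonneg _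
  have hinv : (1 - ‖c r * (xs N s r : ℂ)‖)⁻¹ ≤ 2 := by
    rw [inv_le_comm₀ (by linarith) (by norm_num)]
    linarith
  have hsq : ‖c r * (xs N s r : ℂ)‖ ^ 2 ≤ xs N s r ^ 2 :=
    pow_le_pow_left₀ hnn hzle 2
  calc ‖c r * (xs N s r : ℂ)‖ ^ 2 * (1 - ‖c r * (xs N s r : ℂ)‖)⁻¹ / 2
      ≤ xs N s r ^ 2 * 2 / 2 := by
        apply div_le_div_of_nonneg_right _ (by norm_num : (0 : ℝ) ≤ 2)
        exact mul_le_mul hsq hinv (inv_nonneg.mpr (by linarith)) (by positivity)
    _ = xs N s r ^ 2 := by ring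

lemma norm_logFactor_le {N : P → ℝ} (hN : ∀ r, 2 ≤ N r) {c : P → ℂ} (hc : ∀ r, ‖c r‖ ≤ 1)
    {s : ℝ} (hs : 1 ≤ s) (r : P) :
    ‖logFactor N c s r‖ ≤ 2 * xs N s r := by
  have h1 := norm_logFactor_sub_le hN hc hs r
  have h2 := norm_z_le hN hc s r
  have hx := xs_le_half hN hs r
  have hxpos := xs_pos hN s r
  have h3 : ‖logFactor N c s r‖ ≤ ‖logFactor N c s r - c r * (xs N s r : ℂ)‖
      + ‖c r * (xs N s r : ℂ)‖ := by
    have := norm_add_le (logFactor N c s r - c r * (xs N s r : ℂ)) (c r * (xs N s r : ℂ))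
    simpa using this
  have h4 : xs N s r ^ 2 ≤ xs N s r := by
    rw [pow_two]
    calc xs N s r * xs N s r ≤ 1 * xs N s r :=
          mul_le_mul_of_nonneg_right (by linarith) hxpos.le
      _ = xs N s r := one_mul _
  linarith


section summable

variable {N : P → ℝ} (hN : ∀ r, 2 ≤ N r) (hsum : ∀ s : ℝ, 1 < s → Summable (xs N s))
  {c : P → ℂ} (hc : ∀ r, ‖c r‖ ≤ 1)

include hN hsum hc

lemma summable_logFactor {s : ℝ} (hs : 1 < s) : Summable (logFactor N c s) := by
  refine Summable.of_norm_bounded ((hsum s hs).mul_left 2) ?_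
  intro r
  exact norm_logFactor_le hN hc hs.le r

lemma hasSum_logEuler {s : ℝ} (hs : 1 < s) :
    HasSum (logFactor N c s) (logEuler N c s) :=
  (summable_logFactor hN hsum hc hs).hasSum

/-- The Euler product is the exponential of `logEuler`. -/
lemma hasProd_exp_logEuler {s : ℝ} (hs : 1 < s) :
    HasProd (fun r => (1 - c r * (xs N s r : ℂ))⁻¹) (Complex.exp (logEuler N c s)) := by
  have h := (hasSum_logEuler hN hsum hc hs).cexp
  have e : (Complex.exp ∘ logFactor N c s) = fun r => (1 - c r * (xs N s r : ℂ))⁻¹ := by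
    funext r
    simp only [Function.comp, logFactor]
    apply Complex.exp_log
    apply inv_ne_zero
    intro h0
    have hz := norm_z_lt_one hN hc hs.le r
    have : c r * (xs N s r : ℂ) = 1 := by linear_combination -h0
    rw [this, norm_one] at hz
    exact lt_irrefl _ hz
  rwa [e] at h

/-- Uniqueness: any value of the Euler product is `exp (logEuler)`. -/
lemma exp_logEuler_eq {s : ℝ} (hs : 1 < s) {L : ℂ}
    (hL : HasProd (fun r => (1 - c r * (xs N s r : ℂ))⁻¹) L) :
    Complex.exp (logEuler N c s) = L :=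
  (hasProd_exp_logEuler hN hsum hc hs).unique hL

/-- Continuity of the logarithm of the Euler product on `(1, ∞)`. -/
lemma continuousOn_logEuler : ContinuousOn (logEuler N c) (Set.Ioi 1) := by
  intro s hs
  have hs1 : (1 : ℝ) < s := hs
  -- work on the neighbourhood `Ioi s₀`, `s₀ = (1 + s) / 2`
  obtain ⟨s₀, hs₀1, hs₀s⟩ : ∃ s₀ : ℝ, 1 < s₀ ∧ s₀ < s := ⟨(1 + s) / 2, by linarith, by linarith⟩
  have hcont : ContinuousOn (logEuler N c) (Set.Ioi s₀) := by
    unfold logEuler
    refine continuousOn_tsum (u := fun r => 2 * xs N s₀ r) ?_ ((hsum s₀ hs₀1).mul_left 2) ?_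
    · intro r
      -- continuity of each factor
      have hx : ContinuousOn (fun t : ℝ => (xs N t r : ℂ)) (Set.Ioi s₀) := by
        apply Continuous.continuousOn
        unfold xs
        have hpos : 0 < N r := by linarith [hN r]
        exact Complex.continuous_ofReal.comp
          ((Real.continuous_const_rpow hpos.ne').comp continuous_neg)
      have hw : ContinuousOn (fun t : ℝ => (1 - c r * (xs N t r : ℂ))⁻¹) (Set.Ioi s₀) := by
        refine ContinuousOn.inv₀ (continuousOn_const.sub (continuousOn_const.mul hx)) ?_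
        intro t ht h0
        have ht1 : (1 : ℝ) ≤ t := le_of_lt (lt_trans hs₀1 ht)
        have hz := norm_z_lt_one hN hc ht1 r
        have : c r * (xs N t r : ℂ) = 1 := by linear_combination -h0
        rw [this, norm_one] at hz
        exact lt_irrefl _ hz
      refine ContinuousOn.clog hw ?_
      intro t ht
      have ht1 : (1 : ℝ) ≤ t := le_of_lt (lt_trans hs₀1 ht)
      have hz := norm_z_lt_one hN hc ht1 r
      -- `(1 - z)⁻¹` lies in the slit plane: its real part is positive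
      have hre : 0 < (1 - c r * (xs N t r : ℂ)).re := by
        have h1 : (c r * (xs N t r : ℂ)).re ≤ ‖c r * (xs N t r : ℂ)‖ := Complex.re_le_norm _
        rw [Complex.sub_re, Complex.one_re]
        linarith
      have hne : (1 - c r * (xs N t r : ℂ)) ≠ 0 := by
        intro h0
        rw [h0] at hre
        simp at hre
      rw [Complex.mem_slitPlane_iff]
      left
      rw [Complex.inv_re]
      exact div_pos hre (Complex.normSq_pos.mpr hne)
    · intro r t ht
      have ht1 : (1 : ℝ) ≤ t := le_of_lt (lt_trans hs₀1 ht)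
      refine le_trans (norm_logFactor_le hN hc ht1 r) ?_
      have := xs_anti hN (le_of_lt ht) r
      linarith
  exact (hcont.continuousAt (Ioi_mem_nhds hs₀s)).continuousWithinAt

end summable

end Fermat.Agent.Lib.Cheb.H221

end
-- ===== PACK-END Lib/Cheb/H221/LogEuler.lean

-- ===== PACK-BEGIN Lib/Cheb/H223/Crossing.lean
section


/-!
# Chebotarev field crossing: the Galois-theoretic part (helper223, shared lib CHEB)

Let `L / ℚ` be a finite Galois extension inside `ℚ̄` and `σ ∈ Gal(ℚ̄/ℚ)`.  We produce a prime `ℓ`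
(as large as we like), a primitive `ℓ`-th root of unity `ζ` and `g ∈ Gal(ℚ̄/ℚ)` such that
`g = σ` on `L`, `g ζ = ζ ^ t`, and every power of `g` fixing `ζ` fixes `L` pointwise.
-/

set_option autoImplicit false
set_option linter.style.haveILetI false


namespace Fermat.Agent.Lib.Cheb.H223

open IntermediateField Polynomial

set_option backward.isDefEq.respectTransparency false in
/-- Two cyclotomic fields of distinct prime levels inside a field of characteristic zero
meet in `ℚ`. -/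
theorem cyclo_inf_eq_bot {K : Type*} [Field K] [CharZero K] [Algebra.IsAlgebraic ℚ K]
    {p₁ p₂ : ℕ} (hp₁ : p₁.Prime) (hp₂ : p₂.Prime) (hne : p₁ ≠ p₂) {ζ₁ ζ₂ : K}
    (h₁ : IsPrimitiveRoot ζ₁ p₁) (h₂ : IsPrimitiveRoot ζ₂ p₂) :
    ℚ⟮ζ₁⟯ ⊓ ℚ⟮ζ₂⟯ = ⊥ := by
  haveI : NeZero p₁ := ⟨hp₁.ne_zero⟩
  haveI : NeZero p₂ := ⟨hp₂.ne_zero⟩
  haveI : Algebra.IsIntegral ℚ K := Algebra.IsAlgebraic.isIntegral
  haveI c₁ : IsCyclotomicExtension {p₁} ℚ ℚ⟮ζ₁⟯ := h₁.intermediateField_adjoin_isCyclotomicExtension ℚ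
  haveI c₂ : IsCyclotomicExtension {p₂} ℚ ℚ⟮ζ₂⟯ := h₂.intermediateField_adjoin_isCyclotomicExtension ℚ
  haveI : FiniteDimensional ℚ ℚ⟮ζ₁⟯ := IsCyclotomicExtension.finiteDimensional {p₁} ℚ _
  haveI : FiniteDimensional ℚ ℚ⟮ζ₂⟯ := IsCyclotomicExtension.finiteDimensional {p₂} ℚ _
  have hcop : Nat.Coprime p₁ p₂ := (Nat.coprime_primes hp₁ hp₂).mpr hne
  haveI : NeZero (p₁.lcm p₂) := ⟨Nat.lcm_ne_zero hp₁.ne_zero hp₂.ne_zero⟩
  haveI c₃ : IsCyclotomicExtension {p₁.lcm p₂} ℚ ↥(ℚ⟮ζ₁⟯ ⊔ ℚ⟮ζ₂⟯) :=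
    IntermediateField.isCyclotomicExtension_lcm_sup ℚ K p₁ p₂ ℚ⟮ζ₁⟯ ℚ⟮ζ₂⟯
  have f₁ : Module.finrank ℚ ℚ⟮ζ₁⟯ = p₁.totient :=
    IsCyclotomicExtension.finrank _ (cyclotomic.irreducible_rat hp₁.pos)
  have f₂ : Module.finrank ℚ ℚ⟮ζ₂⟯ = p₂.totient :=
    IsCyclotomicExtension.finrank _ (cyclotomic.irreducible_rat hp₂.pos)
  have f₃ : Module.finrank ℚ ↥(ℚ⟮ζ₁⟯ ⊔ ℚ⟮ζ₂⟯) = (p₁.lcm p₂).totient :=
    IsCyclotomicExtension.finrank _ (cyclotomic.irreducible_rat (Nat.pos_of_ne_zero (NeZero.ne _)))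
  have hld : (ℚ⟮ζ₁⟯).LinearDisjoint ℚ⟮ζ₂⟯ := by
    apply LinearDisjoint.of_finrank_sup
    rw [f₁, f₂, f₃, hcop.lcm_eq_mul, Nat.totient_mul hcop]
  exact hld.inf_eq_bot

/-- For a finite extension `L / ℚ` inside `K` there are arbitrarily large primes `ℓ ≡ 1 (mod n)`
whose cyclotomic field meets `L` in `ℚ`. -/
theorem exists_prime_disjoint {K : Type*} [Field K] [CharZero K] [Algebra.IsAlgebraic ℚ K]
    (hroots : ∀ m : ℕ, m ≠ 0 → ∃ ζ : K, IsPrimitiveRoot ζ m)
    (L : IntermediateField ℚ K) [FiniteDimensional ℚ L] {n : ℕ} (hn : n ≠ 0) (B : ℕ) :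
    ∃ (ℓ : ℕ) (ζ : K), ℓ.Prime ∧ B < ℓ ∧ ℓ ≡ 1 [MOD n] ∧ IsPrimitiveRoot ζ ℓ ∧
      L ⊓ ℚ⟮ζ⟯ = ⊥ := by
  classical
  have hfin : Finite (IntermediateField ℚ L) :=
    Field.finite_intermediateField_of_exists_primitive_element ℚ L
      (Field.exists_primitive_element ℚ L)
  -- choose primitive roots
  have hroots' : ∀ m : ℕ, ∃ ζ : K, m ≠ 0 → IsPrimitiveRoot ζ m := fun m => by
    by_cases hm : m = 0
    · exact ⟨1, fun h => absurd hm h⟩
    · obtain ⟨ζ, hζ⟩ := hroots m hm
      exact ⟨ζ, fun _ => hζ⟩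
  choose z hz using hroots'
  let f : ℕ → IntermediateField ℚ L := fun p =>
    IntermediateField.restrict (inf_le_left : L ⊓ ℚ⟮z p⟯ ≤ L)
  have hinf : ({p : ℕ | p.Prime ∧ p ≡ 1 [MOD n]} \ Set.Iic B).Infinite :=
    (Nat.infinite_setOfPred_prime_modEq_one hn).sdiff (Set.finite_Iic B)
  obtain ⟨p₁, hp₁, p₂, hp₂, hne, hf⟩ :=
    hinf.exists_ne_map_eq_of_mapsTo (f := f) (t := Set.univ) (fun _ _ => Set.mem_univ _)
      Set.finite_univ
  have hf' : L ⊓ ℚ⟮z p₁⟯ = L ⊓ ℚ⟮z p₂⟯ := by
    have := congrArg IntermediateField.lift hf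
    simpa only [f, IntermediateField.lift_restrict] using this
  refine ⟨p₁, z p₁, hp₁.1.1, ?_, hp₁.1.2, hz p₁ hp₁.1.1.ne_zero, ?_⟩
  · have := hp₁.2
    simpa using this
  · have h1 : L ⊓ ℚ⟮z p₁⟯ ≤ ℚ⟮z p₁⟯ ⊓ ℚ⟮z p₂⟯ :=
      le_inf inf_le_right (hf' ▸ inf_le_right)
    rw [cyclo_inf_eq_bot hp₁.1.1 hp₂.1.1 hne (hz p₁ hp₁.1.1.ne_zero)
      (hz p₂ hp₂.1.1.ne_zero)] at h1
    exact le_bot_iff.mp h1

/-- `ℚ̄ / ℚ` is Galois. -/
theorem isGalois_Qb : IsGalois ℚ (AlgebraicClosure ℚ) := by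
  haveI : Algebra.IsAlgebraic ℚ (AlgebraicClosure ℚ) := AlgebraicClosure.isAlgebraic ℚ
  haveI : IsAlgClosure ℚ (AlgebraicClosure ℚ) := ⟨inferInstance, inferInstance⟩
  haveI : Normal ℚ (AlgebraicClosure ℚ) := IsAlgClosure.normal ℚ (AlgebraicClosure ℚ)
  exact isGalois_iff.mpr ⟨inferInstance, inferInstance⟩

/-- If `L ∩ C = ℚ` with `C / ℚ` finite Galois, every pair `(σ|_L, τ)` with `τ ∈ Gal(C/ℚ)` is
induced by an element of `Gal(ℚ̄/ℚ)`. -/
theorem exists_common_extension (L C : IntermediateField ℚ (AlgebraicClosure ℚ))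
    [FiniteDimensional ℚ C] [IsGalois ℚ C] (h : L ⊓ C = ⊥)
    (σ : AlgebraicClosure ℚ ≃ₐ[ℚ] AlgebraicClosure ℚ) (τ : C ≃ₐ[ℚ] C) :
    ∃ g : AlgebraicClosure ℚ ≃ₐ[ℚ] AlgebraicClosure ℚ,
      (∀ x ∈ L, g x = σ x) ∧ AlgEquiv.restrictNormalHom C g = τ := by
  haveI := isGalois_Qb
  set H : Subgroup (C ≃ₐ[ℚ] C) := L.fixingSubgroup.map (AlgEquiv.restrictNormalHom C) with hH
  have hfix : IntermediateField.fixedField H = ⊥ := by
    rw [eq_bot_iff]
    intro x hx
    rw [IntermediateField.mem_fixedField_iff] at hx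
    have hxL : (x : AlgebraicClosure ℚ) ∈ L := by
      rw [← InfiniteGalois.fixedField_fixingSubgroup L, IntermediateField.mem_fixedField_iff]
      intro f hf
      have := hx (AlgEquiv.restrictNormalHom C f) (Subgroup.mem_map_of_mem _ hf)
      have h2 := congrArg (Subtype.val) this
      exact (AlgEquiv.restrictNormal_commutes f C x).symm.trans h2
    have hxLC : (x : AlgebraicClosure ℚ) ∈ L ⊓ C := ⟨hxL, x.2⟩
    rw [h, IntermediateField.mem_bot] at hxLC
    obtain ⟨q, hq⟩ := hxLC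
    rw [IntermediateField.mem_bot]
    exact ⟨q, Subtype.ext hq⟩
  have htop : H = ⊤ := by
    rw [← IntermediateField.fixingSubgroup_fixedField H, hfix,
      IntermediateField.fixingSubgroup_bot]
  have hmem : (AlgEquiv.restrictNormalHom C σ)⁻¹ * τ ∈ H := htop ▸ Subgroup.mem_top _
  obtain ⟨f, hf, hfτ⟩ := Subgroup.mem_map.mp hmem
  refine ⟨σ * f, fun x hx => ?_, ?_⟩
  · rw [AlgEquiv.mul_apply, (IntermediateField.mem_fixingSubgroup_iff L f).mp hf x hx]
  · rw [map_mul, hfτ, mul_inv_cancel_left]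

/-- primitive roots of unity exist in `ℚ̄` -/
theorem exists_primitiveRoot_Qb (m : ℕ) (hm : m ≠ 0) :
    ∃ ζ : AlgebraicClosure ℚ, IsPrimitiveRoot ζ m := by
  haveI : NeZero m := ⟨hm⟩
  haveI : NeZero (m : AlgebraicClosure ℚ) := ⟨by exact_mod_cast hm⟩
  exact HasEnoughRootsOfUnity.exists_primitiveRoot _ m

/-- a unit of prescribed order dividing `ℓ - 1` modulo a prime `ℓ` -/
theorem exists_unit_orderOf {ℓ n : ℕ} (hℓ : ℓ.Prime) (h : ℓ ≡ 1 [MOD n]) :
    ∃ u : (ZMod ℓ)ˣ, orderOf u = n := by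
  haveI : Fact ℓ.Prime := ⟨hℓ⟩
  obtain ⟨r, hr⟩ := IsCyclic.exists_ofOrder_eq_natCard (α := (ZMod ℓ)ˣ)
  have hcard : Nat.card (ZMod ℓ)ˣ = ℓ - 1 := by
    rw [Nat.card_eq_fintype_card, ZMod.card_units_eq_totient, Nat.totient_prime hℓ]
  have hdvd : n ∣ ℓ - 1 := (Nat.modEq_iff_dvd' hℓ.one_lt.le).mp h.symm
  obtain ⟨c, hc⟩ := hdvd
  have hc0 : c ≠ 0 := by
    rintro rfl
    have := hℓ.one_lt
    omega
  refine ⟨r ^ c, ?_⟩
  rw [orderOf_pow_of_dvd hc0 (by rw [hr, hcard, hc]; exact dvd_mul_left c n), hr, hcard, hc]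
  exact Nat.mul_div_cancel _ (Nat.pos_of_ne_zero hc0)

set_option backward.isDefEq.respectTransparency false in
/-- **Field crossing.** -/
theorem exists_crossing (L : IntermediateField ℚ (AlgebraicClosure ℚ)) [FiniteDimensional ℚ L]
    [IsGalois ℚ L] (σ : AlgebraicClosure ℚ ≃ₐ[ℚ] AlgebraicClosure ℚ) (B : ℕ) :
    ∃ (ℓ : ℕ) (ζ : AlgebraicClosure ℚ) (g : AlgebraicClosure ℚ ≃ₐ[ℚ] AlgebraicClosure ℚ)
      (t : ℕ), ℓ.Prime ∧ B < ℓ ∧ IsPrimitiveRoot ζ ℓ ∧ (∀ x ∈ L, g x = σ x) ∧ g ζ = ζ ^ t ∧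
        ∀ k : ℕ, ζ ^ t ^ k = ζ → ∀ x ∈ L, (g ^ k) x = x := by
  haveI : Algebra.IsAlgebraic ℚ (AlgebraicClosure ℚ) := AlgebraicClosure.isAlgebraic ℚ
  haveI : Algebra.IsIntegral ℚ (AlgebraicClosure ℚ) := Algebra.IsAlgebraic.isIntegral
  set s₀ := AlgEquiv.restrictNormalHom L σ with hs₀
  set n := orderOf s₀
  have hn0 : n ≠ 0 := (orderOf_pos s₀).ne'
  obtain ⟨ℓ, ζ, hℓ, hB, hmod, hζ, hdisj⟩ := exists_prime_disjoint exists_primitiveRoot_Qb L hn0 B
  haveI : NeZero ℓ := ⟨hℓ.ne_zero⟩
  haveI : Fact ℓ.Prime := ⟨hℓ⟩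
  haveI hcyc : IsCyclotomicExtension {ℓ} ℚ ℚ⟮ζ⟯ :=
    hζ.intermediateField_adjoin_isCyclotomicExtension ℚ
  haveI : NumberField ℚ⟮ζ⟯ := IsCyclotomicExtension.numberField {ℓ} ℚ _
  haveI : IsGalois ℚ ℚ⟮ζ⟯ := IsCyclotomicExtension.isGalois {ℓ} ℚ _
  haveI : FiniteDimensional ℚ ℚ⟮ζ⟯ := IsCyclotomicExtension.finiteDimensional {ℓ} ℚ _
  obtain ⟨u, hu⟩ := exists_unit_orderOf hℓ hmod
  set τ := (IsCyclotomicExtension.Rat.galEquivZMod ℓ ℚ⟮ζ⟯).symm u with hτ
  obtain ⟨g, hgL, hgC⟩ := exists_common_extension L ℚ⟮ζ⟯ hdisj σ τ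
  set t := (u : ZMod ℓ).val with ht
  have hgζ : g ζ = ζ ^ t := by
    let ζC : ℚ⟮ζ⟯ := ⟨ζ, mem_adjoin_simple_self ℚ ζ⟩
    have h1 : ζC ^ ℓ = 1 := Subtype.ext (by simpa using hζ.pow_eq_one)
    have h2 := IsCyclotomicExtension.Rat.galEquivZMod_apply_of_pow_eq ℓ ℚ⟮ζ⟯ τ h1
    rw [hτ, MulEquiv.apply_symm_apply] at h2
    have h3 := congrArg Subtype.val h2
    rw [← hτ, ← hgC] at h3
    have h4 := AlgEquiv.restrictNormal_commutes g ℚ⟮ζ⟯ ζC
    have h3' : (((AlgEquiv.restrictNormalHom ↥ℚ⟮ζ⟯) g) ζC : AlgebraicClosure ℚ) = ζ ^ t := by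
      simpa using h3
    exact h4.symm.trans h3'
  refine ⟨ℓ, ζ, g, t, hℓ, hB, hζ, hgL, hgζ, ?_⟩
  intro k hk x hx
  -- `t ^ k ≡ 1 mod ℓ`
  have ht0 : t ≠ 0 := by
    intro h0
    have : (u : ZMod ℓ) = 0 := (ZMod.val_eq_zero _).mp h0
    exact u.ne_zero this
  have htk : 1 ≤ t ^ k := Nat.one_le_pow _ _ (Nat.pos_of_ne_zero ht0)
  have h1 : ζ ^ (t ^ k - 1) = 1 := by
    have : ζ * ζ ^ (t ^ k - 1) = ζ * 1 := by
      rw [← pow_succ', Nat.sub_add_cancel htk, mul_one, hk]
    exact mul_left_cancel₀ (hζ.ne_zero hℓ.ne_zero) this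
  have h2 : ℓ ∣ t ^ k - 1 := (hζ.pow_eq_one_iff_dvd _).mp h1
  have h3 : ((t : ZMod ℓ)) ^ k = 1 := by
    have : ((t ^ k - 1 : ℕ) : ZMod ℓ) = 0 := (ZMod.natCast_eq_zero_iff _ _).mpr h2
    rw [Nat.cast_sub htk] at this
    push_cast at this
    exact sub_eq_zero.mp this
  have h4 : u ^ k = 1 := by
    apply Units.ext
    rw [Units.val_pow_eq_pow_val, Units.val_one, ← h3, ht, ZMod.natCast_zmod_val]
  have h5 : n ∣ k := by rw [← hu]; exact orderOf_dvd_iff_pow_eq_one.mpr h4
  have h6 : s₀ ^ k = 1 := orderOf_dvd_iff_pow_eq_one.mp h5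
  have h7 : AlgEquiv.restrictNormalHom L g = s₀ := by
    apply AlgEquiv.ext
    intro y
    apply Subtype.ext
    have e1 := AlgEquiv.restrictNormal_commutes g L y
    have e2 := AlgEquiv.restrictNormal_commutes σ L y
    exact e1.trans ((hgL y y.2).trans e2.symm)
  have h8 : AlgEquiv.restrictNormalHom L (g ^ k) = 1 := by rw [map_pow, h7, h6]
  have e3 := AlgEquiv.restrictNormal_commutes (g ^ k) L ⟨x, hx⟩
  have e4 : (AlgEquiv.restrictNormalHom L (g ^ k)) ⟨x, hx⟩ = ⟨x, hx⟩ := by rw [h8]; rfl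
  exact e3.symm.trans (congrArg Subtype.val e4)

end Fermat.Agent.Lib.Cheb.H223

end
-- ===== PACK-END Lib/Cheb/H223/Crossing.lean

-- ===== PACK-BEGIN S54/FrobLift.lean
section


set_option autoImplicit false
set_option linter.style.haveILetI false

open scoped Pointwise

namespace Fermat.Agent.S54

/-- The absolute Galois group acts continuously on the (discrete) ring of all algebraic
integers. -/
theorem continuousSMul_integralClosure :
    letI : TopologicalSpace (integralClosure ℤ (AlgebraicClosure ℚ)) := ⊥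
    ContinuousSMul (AlgebraicClosure ℚ ≃ₐ[ℚ] AlgebraicClosure ℚ)
      (integralClosure ℤ (AlgebraicClosure ℚ)) := by
  letI : TopologicalSpace (integralClosure ℤ (AlgebraicClosure ℚ)) := ⊥
  haveI : DiscreteTopology (integralClosure ℤ (AlgebraicClosure ℚ)) := ⟨rfl⟩
  haveI : Algebra.IsAlgebraic ℚ (AlgebraicClosure ℚ) := AlgebraicClosure.isAlgebraic ℚ
  refine ⟨?_⟩
  rw [continuous_prod_of_discrete_right]
  intro b
  rw [continuous_discrete_rng]
  intro c
  rw [isOpen_iff_mem_nhds]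
  intro g hg
  let E : IntermediateField ℚ (AlgebraicClosure ℚ) :=
    IntermediateField.adjoin ℚ {(b : AlgebraicClosure ℚ)}
  haveI : FiniteDimensional ℚ E :=
    IntermediateField.adjoin.finiteDimensional (Algebra.IsIntegral.isIntegral _)
  have hopen : IsOpen ((g • (E.fixingSubgroup : Set (AlgebraicClosure ℚ ≃ₐ[ℚ] AlgebraicClosure ℚ)))) :=
    (E.fixingSubgroup_isOpen).smul g
  refine Filter.mem_of_superset (hopen.mem_nhds ⟨1, one_mem _, by simp⟩) ?_
  rintro _ ⟨h, hh, rfl⟩
  simp only [Set.mem_preimage, Set.mem_singleton_iff] at hg ⊢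
  rw [← hg]
  apply Subtype.ext
  have hb : h (b : AlgebraicClosure ℚ) = b := by
    have := (IntermediateField.mem_fixingSubgroup_iff E h).mp hh b
      (IntermediateField.subset_adjoin ℚ _ (Set.mem_singleton _))
    exact this
  show (g * h) (b : AlgebraicClosure ℚ) = g (b : AlgebraicClosure ℚ)
  rw [AlgEquiv.mul_apply, hb]

/-- `ℚ̄/ℚ` is Galois. -/
theorem isGalois_algebraicClosure_rat : IsGalois ℚ (AlgebraicClosure ℚ) := by
  haveI : Algebra.IsAlgebraic ℚ (AlgebraicClosure ℚ) := AlgebraicClosure.isAlgebraic ℚ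
  haveI : IsAlgClosure ℚ (AlgebraicClosure ℚ) := ⟨inferInstance, inferInstance⟩
  haveI : Normal ℚ (AlgebraicClosure ℚ) := IsAlgClosure.normal ℚ (AlgebraicClosure ℚ)
  exact isGalois_iff.mpr ⟨inferInstance, inferInstance⟩

/-- The algebraic integers fixed by the whole absolute Galois group are the rational
integers. -/
theorem isInvariant_integralClosure :
    Algebra.IsInvariant ℤ (integralClosure ℤ (AlgebraicClosure ℚ))
      (AlgebraicClosure ℚ ≃ₐ[ℚ] AlgebraicClosure ℚ) := by
  haveI := isGalois_algebraicClosure_rat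
  refine ⟨fun b hb => ?_⟩
  have hfix : (b : AlgebraicClosure ℚ) ∈
      IntermediateField.fixedField (⊤ : Subgroup (AlgebraicClosure ℚ ≃ₐ[ℚ] AlgebraicClosure ℚ)) := by
    rintro ⟨g, -⟩
    exact congrArg Subtype.val (hb g)
  rw [InfiniteGalois.fixedField_bot, IntermediateField.mem_bot] at hfix
  obtain ⟨q, hq⟩ := hfix
  have hint : IsIntegral ℤ (b : AlgebraicClosure ℚ) := b.2
  rw [← hq, isIntegral_algebraMap_iff (FaithfulSMul.algebraMap_injective ℚ (AlgebraicClosure ℚ))]
    at hint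
  obtain ⟨n, hn⟩ := IsIntegrallyClosed.algebraMap_eq_of_integral hint
  refine ⟨n, Subtype.ext ?_⟩
  rw [← hq, ← hn]
  simp

/-- Existence of Frobenius lifts on the ring of all algebraic integers: for every prime ideal
`Q` of `ℤ̄` containing the prime number `ℓ` there is `σ ∈ Gal(ℚ̄/ℚ)` stabilising `Q` and
inducing `x ↦ x ^ ℓ` on `ℤ̄ / Q`. -/
theorem exists_frob_integralClosure (ℓ : ℕ) (hℓ : ℓ.Prime)
    (Q : Ideal (integralClosure ℤ (AlgebraicClosure ℚ))) [Q.IsPrime]
    (hQ : (ℓ : integralClosure ℤ (AlgebraicClosure ℚ)) ∈ Q) :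
    ∃ σ : AlgebraicClosure ℚ ≃ₐ[ℚ] AlgebraicClosure ℚ,
      σ • Q = Q ∧
      ∀ x : integralClosure ℤ (AlgebraicClosure ℚ), σ • x - x ^ ℓ ∈ Q := by
  haveI := isGalois_algebraicClosure_rat
  haveI : Algebra.IsAlgebraic ℚ (AlgebraicClosure ℚ) := AlgebraicClosure.isAlgebraic ℚ
  letI : TopologicalSpace (integralClosure ℤ (AlgebraicClosure ℚ)) := ⊥
  haveI : DiscreteTopology (integralClosure ℤ (AlgebraicClosure ℚ)) := ⟨rfl⟩
  haveI := continuousSMul_integralClosure
  haveI := isInvariant_integralClosure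
  haveI hℓfact : Fact ℓ.Prime := ⟨hℓ⟩
  -- the prime `P = (ℓ)` of `ℤ`
  let P : Ideal ℤ := Ideal.span {(ℓ : ℤ)}
  haveI hPmax : P.IsMaximal :=
    PrincipalIdealRing.isMaximal_of_irreducible
      (Nat.prime_iff_prime_int.mp hℓ).irreducible
  haveI hlies : Q.LiesOver P := by
    refine ⟨?_⟩
    have hle : P ≤ Q.under ℤ := by
      rw [Ideal.span_le, Set.singleton_subset_iff]
      show algebraMap ℤ (integralClosure ℤ (AlgebraicClosure ℚ)) (ℓ : ℤ) ∈ Q
      simpa using hQ
    have hne : Q.under ℤ ≠ ⊤ := (Ideal.IsPrime.under ℤ Q).ne_top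
    exact (hPmax.eq_of_le hne hle)
  -- characteristic of the quotient
  haveI : IsDomain (integralClosure ℤ (AlgebraicClosure ℚ) ⧸ Q) := Ideal.Quotient.isDomain Q
  have hzero : ((ℓ : ℕ) : integralClosure ℤ (AlgebraicClosure ℚ) ⧸ Q) = 0 := by
    have : (Ideal.Quotient.mk Q) (ℓ : integralClosure ℤ (AlgebraicClosure ℚ)) = 0 :=
      Ideal.Quotient.eq_zero_iff_mem.mpr hQ
    simpa using this
  haveI hchar : CharP (integralClosure ℤ (AlgebraicClosure ℚ) ⧸ Q) ℓ :=
    (CharP.charP_iff_prime_eq_zero hℓ).mpr hzero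
  -- the Frobenius as an algebra automorphism
  let f : (integralClosure ℤ (AlgebraicClosure ℚ) ⧸ Q) →ₐ[ℤ ⧸ P]
      (integralClosure ℤ (AlgebraicClosure ℚ) ⧸ Q) :=
    { toRingHom := frobenius (integralClosure ℤ (AlgebraicClosure ℚ) ⧸ Q) ℓ
      commutes' := by
        intro y
        obtain ⟨n, rfl⟩ := Ideal.Quotient.mk_surjective y
        show frobenius _ ℓ (algebraMap (ℤ ⧸ P) _ (Ideal.Quotient.mk P n)) =
          algebraMap (ℤ ⧸ P) _ (Ideal.Quotient.mk P n)
        have h1 : algebraMap (ℤ ⧸ P) (integralClosure ℤ (AlgebraicClosure ℚ) ⧸ Q)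
            (Ideal.Quotient.mk P n) = ((n : ℤ) : integralClosure ℤ (AlgebraicClosure ℚ) ⧸ Q) := by
          rw [← Ideal.Quotient.algebraMap_eq, ← IsScalarTower.algebraMap_apply]
          simp
        rw [h1, map_intCast] }
  have hinj : Function.Injective f := frobenius_inj _ ℓ
  have hsurj : Function.Surjective f := by
    intro y
    obtain ⟨b, rfl⟩ := Ideal.Quotient.mk_surjective y
    obtain ⟨c, hc⟩ := IsAlgClosed.exists_pow_nat_eq (b : AlgebraicClosure ℚ) hℓ.pos
    have hcint : IsIntegral ℤ c := by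
      have hb : IsIntegral ℤ (c ^ ℓ) := hc ▸ b.2
      exact IsIntegral.of_pow hℓ.pos hb
    refine ⟨Ideal.Quotient.mk Q ⟨c, hcint⟩, ?_⟩
    show frobenius _ ℓ (Ideal.Quotient.mk Q ⟨c, hcint⟩) = _
    rw [frobenius_def, ← map_pow]
    congr 1
    exact Subtype.ext hc
  let e : (integralClosure ℤ (AlgebraicClosure ℚ) ⧸ Q) ≃ₐ[ℤ ⧸ P]
      (integralClosure ℤ (AlgebraicClosure ℚ) ⧸ Q) :=
    AlgEquiv.ofBijective f ⟨hinj, hsurj⟩
  obtain ⟨σ, hσ⟩ := Ideal.Quotient.stabilizerHom_surjective_of_profinite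
    (G := AlgebraicClosure ℚ ≃ₐ[ℚ] AlgebraicClosure ℚ) P Q e
  refine ⟨σ.1, σ.2, fun x => ?_⟩
  have h2 := congrArg (fun t => t (Ideal.Quotient.mk Q x)) hσ
  simp only [Ideal.Quotient.stabilizerHom_apply] at h2
  have h3 : e (Ideal.Quotient.mk Q x) = Ideal.Quotient.mk Q (x ^ ℓ) := by
    show frobenius _ ℓ (Ideal.Quotient.mk Q x) = _
    rw [frobenius_def, map_pow]
  rw [h3] at h2
  rw [← Ideal.Quotient.eq]
  exact h2

end Fermat.Agent.S54

end
-- ===== PACK-END S54/FrobLift.lean

-- ===== PACK-BEGIN Lib/Frob/Statement.lean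
section







/-!
# Shared library `Frob` — FROZEN INTERFACE (row S52, row-lead helper472)

`FrobRelation` is the statement "Frobenius satisfies `σ² − a_ℓ σ + ℓ = 0` on the
prime-to-`ℓ` torsion of `W(ℚ̄)`", for a prime `ℓ ≥ 5` of good reduction of the integral model `W`
and EVERY Frobenius element `σ` at EVERY valuation subring of `ℚ̄` above `ℓ`.

This file only contains definitions (no `sorry`).  The proof is delivered as
`theorem Fermat.Agent.Lib.Frob.frobRelation : FrobRelation` in `Fermat/Agent/Lib/Frob/Main.lean`.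
-/

set_option autoImplicit false

open WeierstrassCurve WeierstrassCurve.Affine WeierstrassCurve.Affine.Point

namespace Fermat.Agent.Lib.Frob

/-- `ℚ̄`. -/
abbrev Qb : Type := AlgebraicClosure ℚ

/-- The group of `ℚ̄`-points of the integral Weierstrass model `W` (exactly the type on which the
Prelude Galois action `instSMulAlgEquiv` and `ModRepIsIrreducible` are defined). -/
abbrev Pts (W : WeierstrassCurve ℤ) : Type :=
  ((W.map (Int.castRingHom ℚ))⁄Qb).Point

/-- **Frobenius relation (T1).**  For a prime `ℓ ≥ 5` with `ℓ ∤ Δ(W)`, a valuation subring `A` of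
`ℚ̄` above `ℓ`, a Frobenius element `σ` at `A`, and a point `P ∈ W(ℚ̄)` killed by some `n > 0`
prime to `ℓ`:  `σ²P − a_ℓ(W)·σP + ℓ·P = 0`,  where `a_ℓ(W) = W.apOfModel ℓ = ℓ + 1 − #W(𝔽_ℓ)`. -/
def FrobRelation : Prop :=
  ∀ (W : WeierstrassCurve ℤ) (ℓ : ℕ), ℓ.Prime → 5 ≤ ℓ → W.IsGoodPrimeFor ℓ →
    ∀ (A : ValuationSubring Qb) (σ : Qb ≃ₐ[ℚ] Qb), A.LiesOverPrime ℓ → A.IsFrobeniusAt σ ℓ →
      ∀ (n : ℕ), 0 < n → ¬ ℓ ∣ n → ∀ P : Pts W, n • P = 0 →
        σ • σ • P - W.apOfModel ℓ • σ • P + (ℓ : ℤ) • P = 0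

end Fermat.Agent.Lib.Frob

end
-- ===== PACK-END Lib/Frob/Statement.lean

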