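import Mathlib.Data.ZMod.QuotientGroup
import Mathlib.GroupTheory.GroupAction.FixedPoints
import Mathlib.GroupTheory.GroupAction.Quotient
import Mathlib.Dynamics.PeriodicPts.Defs
import Mathlib.SetTheory.Cardinal.Finite
import Mathlib.Tactic.Ring
import Mathlib.Data.Nat.Prime.Basic
import Mathlib
import Fermat.Prelude.Def_ModularCurve_GenusNumerics
import Fermat.Prelude.Def_AlgebraicCurve_DivisorClassGroup
import Fermat.Prelude.Def_ModularCurve_X0ModL
import Fermat.Prelude.Def_FLTPrelim_FreyPackage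
import Fermat.Prelude.Def_FLTPrelim_GaloisRep
import Fermat.Prelude.Def_FLTPrelim_Modularity
import Fermat.Prelude.Def_FLTPrelim_ModularRep
import Fermat.Prelude.Def_FLTPrelim_Ramification
import Fermat.Prelude.Def_FLTPrelim_CofixedLine
import Fermat.Prelude.Def_FreyPackage_IsConductorLevel
import Fermat.Prelude.Def_FreyPackage_LevelRaising
import Fermat.Prelude.Def_FreyPackage_EigenformResidualAttachment
import Fermat.Prelude.Def_WeierstrassCurve_PeuRamifiee
import Fermat.Prelude.Def_ModularCurve_HeckeModule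
import Mathlib.AlgebraicGeometry.EllipticCurve.Affine.Point
import Fermat.Prelude.Def_EllipticCurve_FrobeniusTrace
import Mathlib.RingTheory.Valuation.ValuationSubring
import Mathlib.Tactic

-- ===== PACK-BEGIN S20/Comb694/Orbits.lean
section








/-!
# Counting orbits of a cyclic group whose generator has prime order on a finite set

If `g ^ n` acts trivially on the finite set `X` and `n` is prime then
`n * #(X / ⟨g⟩) = #X + (n - 1) * #Fix(g)`.
-/

set_option autoImplicit false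

namespace Fermat.Agent.S20.Comb694

open MulAction Subgroup Function

variable {G X : Type*} [Group G] [MulAction G X]

lemma card_eq_sum_minimalPeriod [Fintype X] (g : G)
    [Fintype (orbitRel.Quotient (zpowers g) X)] :
    Fintype.card X
      = ∑ q : orbitRel.Quotient (zpowers g) X, minimalPeriod (g • ·) q.out := by
  have (q : orbitRel.Quotient (zpowers g) X) :
      Fintype (MulAction.orbit (zpowers g) q.out) := Fintype.ofFinite _
  simp only [MulAction.minimalPeriod_eq_card]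
  rw [← Fintype.card_sigma]
  exact Fintype.card_congr (MulAction.selfEquivSigmaOrbits (zpowers g) X)

lemma minimalPeriod_eq_of_prime (g : G) (n : ℕ) (hn : n.Prime) (hg : ∀ x : X, g ^ n • x = x)
    (x : X) [Decidable (g • x = x)] :
    minimalPeriod (g • ·) x = if g • x = x then 1 else n := by
  have hper : IsPeriodicPt (g • ·) n x := by
    rw [IsPeriodicPt, IsFixedPt, smul_iterate]
    exact hg x
  have hdvd := hper.minimalPeriod_dvd
  rcases (Nat.dvd_prime hn).mp hdvd with h1 | h2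
  · have hfix : g • x = x := minimalPeriod_eq_one_iff_isFixedPt.mp h1
    rw [h1, if_pos hfix]
  · have hfix : ¬ g • x = x := fun h => by
      have h1 : minimalPeriod (g • ·) x = 1 := minimalPeriod_eq_one_iff_isFixedPt.mpr h
      rw [h2] at h1
      exact hn.one_lt.ne' h1
    rw [h2, if_neg hfix]

lemma smul_eq_of_mem_orbit_zpowers_of_fixed (g : G) (x y : X) (hx : g • x = x)
    (hy : y ∈ MulAction.orbit (zpowers g) x) : y = x := by
  obtain ⟨⟨h, hh⟩, rfl⟩ := hy
  obtain ⟨k, rfl⟩ := Subgroup.mem_zpowers_iff.mp hh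
  exact fixedBy_subset_fixedBy_zpow X g k hx

/-- If `g ^ n` acts trivially on the finite set `X` (`n` prime), then
`n * #orbits = #X + (n - 1) * #Fix(g)`. -/
theorem prime_mul_card_orbits [Finite X] (g : G) (n : ℕ) (hn : n.Prime)
    (hg : ∀ x : X, g ^ n • x = x) :
    n * Nat.card (orbitRel.Quotient (zpowers g) X)
      = Nat.card X + (n - 1) * Nat.card (fixedBy X g) := by
  classical
  haveI := Fintype.ofFinite X
  haveI : Fintype (orbitRel.Quotient (zpowers g) X) := Fintype.ofFinite _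
  have h1 := card_eq_sum_minimalPeriod (X := X) g
  simp only [minimalPeriod_eq_of_prime g n hn hg] at h1
  rw [Finset.sum_ite, Finset.sum_const, Finset.sum_const, smul_eq_mul, mul_one,
    smul_eq_mul] at h1
  have h2 : (Finset.univ.filter
      (fun q : orbitRel.Quotient (zpowers g) X => g • q.out = q.out)).card
        = Nat.card (fixedBy X g) := by
    rw [← Fintype.card_subtype, ← Nat.card_eq_fintype_card]
    refine Nat.card_eq_of_bijective
      (fun q : {q : orbitRel.Quotient (zpowers g) X // g • q.out = q.out} =>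
        (⟨q.1.out, q.2⟩ : fixedBy X g)) ⟨?_, ?_⟩
    · intro q q' h
      have h' : q.1.out = q'.1.out := congrArg Subtype.val h
      exact Subtype.ext (Quotient.out_injective h')
    · rintro ⟨x, hx⟩
      have hx' : g • x = x := hx
      have hout : (Quotient.mk'' x : orbitRel.Quotient (zpowers g) X).out = x := by
        apply smul_eq_of_mem_orbit_zpowers_of_fixed g x _ hx'
        have := Quotient.exact (Quotient.out_eq (Quotient.mk'' x : orbitRel.Quotient (zpowers g) X))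
        exact (MulAction.orbitRel_apply).mp this
      refine ⟨⟨Quotient.mk'' x, ?_⟩, ?_⟩
      · rw [hout]; exact hx'
      · exact Subtype.ext hout
  have h3 := Finset.card_filter_add_card_filter_not (s := (Finset.univ :
      Finset (orbitRel.Quotient (zpowers g) X)))
      (fun q : orbitRel.Quotient (zpowers g) X => g • q.out = q.out)
  rw [Finset.card_univ] at h3
  rw [Nat.card_eq_fintype_card, Nat.card_eq_fintype_card, ← h3, h1, ← h2]
  obtain ⟨m, rfl⟩ : ∃ m, n = m + 1 := ⟨n - 1, (Nat.succ_pred_eq_of_pos hn.pos).symm⟩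
  simp only [Nat.add_sub_cancel]
  ring

end Fermat.Agent.S20.Comb694

end
-- ===== PACK-END S20/Comb694/Orbits.lean

-- ===== PACK-BEGIN S20/CuspCount360.lean
section



/-!
# Number of `T`-orbits on `SL(2,ℤ) ⧸ Γ₀(N)` equals `cuspCount N`

Pure group theory / elementary number theory (no analysis).
Main result: `Fermat.Agent.S20.CuspCount360.card_orbits_T`.
-/

set_option autoImplicit false

open scoped MatrixGroups
open CongruenceSubgroup Matrix

namespace Fermat.Agent.S20.CuspCount360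

/-! ## Arithmetic core -/

section Arith

/-- `→` part 1: the gcd of the lower-left entry with `N` is an invariant. -/
theorem gcd_eq_of_dvd {N : ℕ} {a c a' c' : ℤ} (hac : IsCoprime a c) (hac' : IsCoprime a' c')
    (h : (N : ℤ) ∣ a * c' - c * a') : Int.gcd c N = Int.gcd c' N := by
  apply Nat.dvd_antisymm
  · -- d ∣ c'
    apply Int.dvd_gcd _ (Int.gcd_dvd_right c N)
    have hd1 : ((Int.gcd c N : ℕ) : ℤ) ∣ c := Int.gcd_dvd_left c N
    have hd2 : ((Int.gcd c N : ℕ) : ℤ) ∣ a * c' - c * a' := (Int.gcd_dvd_right c N).trans h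
    have hd3 : ((Int.gcd c N : ℕ) : ℤ) ∣ a * c' := by
      have := dvd_add hd2 (hd1.mul_right a')
      simpa using this
    have hcop : IsCoprime ((Int.gcd c N : ℕ) : ℤ) a :=
      (IsCoprime.of_isCoprime_of_dvd_right hac hd1).symm
    exact hcop.dvd_of_dvd_mul_left hd3
  · apply Int.dvd_gcd _ (Int.gcd_dvd_right c' N)
    have hd1 : ((Int.gcd c' N : ℕ) : ℤ) ∣ c' := Int.gcd_dvd_left c' N
    have hd2 : ((Int.gcd c' N : ℕ) : ℤ) ∣ a * c' - c * a' := (Int.gcd_dvd_right c' N).trans h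
    have hd3 : ((Int.gcd c' N : ℕ) : ℤ) ∣ a' * c := by
      have := dvd_sub (hd1.mul_left a) hd2
      have e : a * c' - (a * c' - c * a') = a' * c := by ring
      rwa [e] at this
    have hcop : IsCoprime ((Int.gcd c' N : ℕ) : ℤ) a' :=
      (IsCoprime.of_isCoprime_of_dvd_right hac' hd1).symm
    exact hcop.dvd_of_dvd_mul_left hd3

/-- `→` part 2. Here `c = d * c₁`, `c' = d * c₁'`, `N = d * M`, and `e ∣ d`, `e ∣ M`. -/
theorem dvd_of_dvd {d M e a a' c₁ c₁' k : ℤ} (hd : d ≠ 0) (hed : e ∣ d) (heM : e ∣ M)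
    (h : d * M ∣ (a + k * (d * c₁)) * (d * c₁') - (d * c₁) * a') :
    e ∣ a * c₁' - a' * c₁ := by
  have h1 : d * M ∣ d * ((a + k * (d * c₁)) * c₁' - c₁ * a') := by
    have e1 : (a + k * (d * c₁)) * (d * c₁') - (d * c₁) * a'
        = d * ((a + k * (d * c₁)) * c₁' - c₁ * a') := by ring
    rwa [e1] at h
  have h2 : M ∣ (a + k * (d * c₁)) * c₁' - c₁ * a' := (mul_dvd_mul_iff_left hd).mp h1
  have h3 : e ∣ (a + k * (d * c₁)) * c₁' - c₁ * a' := heM.trans h2
  have h4 : e ∣ d * (k * c₁ * c₁') := hed.mul_right _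
  have := dvd_sub h3 h4
  have e2 : (a + k * (d * c₁)) * c₁' - c₁ * a' - d * (k * c₁ * c₁') = a * c₁' - a' * c₁ := by ring
  rwa [e2] at this

/-- `←`: solving the linear congruence. -/
theorem exists_k {d M a a' c₁ c₁' : ℤ} (h1 : IsCoprime c₁ M) (h1' : IsCoprime c₁' M)
    (h : ((Int.gcd d M : ℕ) : ℤ) ∣ a * c₁' - a' * c₁) :
    ∃ k : ℤ, d * M ∣ (a + k * (d * c₁)) * (d * c₁') - (d * c₁) * a' := by
  obtain ⟨t, ht⟩ := h
  obtain ⟨u, v, huv⟩ := h1
  obtain ⟨u', v', huv'⟩ := h1'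
  have hb := Int.gcd_eq_gcd_ab d M
  set x := Int.gcdA d M
  set y := Int.gcdB d M
  -- z := u * u' is an inverse of c₁ c₁' mod M
  refine ⟨-t * x * (u * u'), ?_⟩
  have e1 : (a + (-t * x * (u * u')) * (d * c₁)) * (d * c₁') - (d * c₁) * a'
      = d * ((a * c₁' - a' * c₁) - t * x * d * ((u * c₁) * (u' * c₁'))) := by ring
  rw [e1]
  apply mul_dvd_mul_left
  have e2 : u * c₁ = 1 - v * M := by linear_combination huv
  have e3 : u' * c₁' = 1 - v' * M := by linear_combination huv'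
  rw [e2, e3, ht]
  refine ⟨t * y + t * x * d * (v + v' - v * v' * M), ?_⟩
  linear_combination (t) * hb

/-- Comparison of the `r`-invariants inside a fixed `ZMod e`. -/
theorem val_mul_inv_eq_iff {e : ℕ} [NeZero e] {a a' c₁ c₁' : ℤ}
    (h1 : IsCoprime c₁ (e : ℤ)) (h1' : IsCoprime c₁' (e : ℤ)) :
    ((a : ZMod e) * (c₁ : ZMod e)⁻¹).val = ((a' : ZMod e) * (c₁' : ZMod e)⁻¹).val ↔
      (e : ℤ) ∣ a * c₁' - a' * c₁ := by
  have hu : IsUnit ((c₁ : ℤ) : ZMod e) := (ZMod.coe_int_isUnit_iff_isCoprime c₁ e).2 h1.symm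
  have hu' : IsUnit ((c₁' : ℤ) : ZMod e) := (ZMod.coe_int_isUnit_iff_isCoprime c₁' e).2 h1'.symm
  have hi : ((c₁ : ℤ) : ZMod e) * ((c₁ : ℤ) : ZMod e)⁻¹ = 1 := ZMod.mul_inv_of_unit _ hu
  have hi' : ((c₁' : ℤ) : ZMod e) * ((c₁' : ℤ) : ZMod e)⁻¹ = 1 := ZMod.mul_inv_of_unit _ hu'
  rw [(ZMod.val_injective e).eq_iff, ← ZMod.intCast_zmod_eq_zero_iff_dvd]
  push_cast
  constructor
  · intro h
    have : (a : ZMod e) * c₁' - a' * c₁
        = ((a : ZMod e) * (c₁ : ZMod e)⁻¹ - (a' : ZMod e) * (c₁' : ZMod e)⁻¹) * (c₁ * c₁')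
          + (a : ZMod e) * c₁' * (1 - c₁ * (c₁ : ZMod e)⁻¹)
          - (a' : ZMod e) * c₁ * (1 - c₁' * (c₁' : ZMod e)⁻¹) := by ring
    rw [this, h, hi, hi']; ring
  · intro h
    have : (a : ZMod e) * (c₁ : ZMod e)⁻¹ - (a' : ZMod e) * (c₁' : ZMod e)⁻¹
        = ((a : ZMod e) * c₁' - a' * c₁) * ((c₁ : ZMod e)⁻¹ * (c₁' : ZMod e)⁻¹)
          + (a : ZMod e) * (c₁ : ZMod e)⁻¹ * (1 - c₁' * (c₁' : ZMod e)⁻¹)
          - (a' : ZMod e) * (c₁' : ZMod e)⁻¹ * (1 - c₁ * (c₁ : ZMod e)⁻¹) := by ring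
    have h0 := sub_eq_zero.mp (by rw [this, h, hi, hi']; ring :
      (a : ZMod e) * (c₁ : ZMod e)⁻¹ - (a' : ZMod e) * (c₁' : ZMod e)⁻¹ = 0)
    exact h0

end Arith

/-! ## The invariant -/

section Invariant

variable (N : ℕ)

/-- `e(d) = gcd (d, N / d)`. -/
def eOf (d : ℕ) : ℕ := Nat.gcd d (N / d)

/-- The `r`-invariant computed with an explicit `d`. -/
noncomputable def rAux (d : ℕ) (a c : ℤ) : ℕ :=
  (((a : ℤ) : ZMod (eOf N d)) * (((c / (d : ℤ) : ℤ)) : ZMod (eOf N d))⁻¹).val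

/-- The `d`-invariant `gcd (c, N)` of `g = [a b; c d]`. -/
def dInv (g : SL(2, ℤ)) : ℕ := Int.gcd ((g : Matrix (Fin 2) (Fin 2) ℤ) 1 0) N

/-- The full invariant `(d, r)`. -/
noncomputable def cuspInv (g : SL(2, ℤ)) : (_ : ℕ) × ℕ :=
  ⟨dInv N g, rAux N (dInv N g) ((g : Matrix (Fin 2) (Fin 2) ℤ) 0 0)
    ((g : Matrix (Fin 2) (Fin 2) ℤ) 1 0)⟩

theorem isCoprime_col (g : SL(2, ℤ)) :
    IsCoprime ((g : Matrix (Fin 2) (Fin 2) ℤ) 0 0) ((g : Matrix (Fin 2) (Fin 2) ℤ) 1 0) := by
  have h := g.det_coe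
  rw [Matrix.det_fin_two] at h
  exact ⟨(g : Matrix (Fin 2) (Fin 2) ℤ) 1 1, -(g : Matrix (Fin 2) (Fin 2) ℤ) 0 1, by
    linear_combination h⟩

theorem mk_eq_mk_iff (g g' : SL(2, ℤ)) :
    ((g : SL(2, ℤ) ⧸ Gamma0 N) = (g' : SL(2, ℤ) ⧸ Gamma0 N)) ↔
      (N : ℤ) ∣ (g : Matrix (Fin 2) (Fin 2) ℤ) 0 0 * (g' : Matrix (Fin 2) (Fin 2) ℤ) 1 0
        - (g : Matrix (Fin 2) (Fin 2) ℤ) 1 0 * (g' : Matrix (Fin 2) (Fin 2) ℤ) 0 0 := by
  rw [QuotientGroup.eq, Gamma0_mem, ZMod.intCast_zmod_eq_zero_iff_dvd]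
  have : ((g⁻¹ * g' : SL(2, ℤ)) : Matrix (Fin 2) (Fin 2) ℤ) 1 0
      = (g : Matrix (Fin 2) (Fin 2) ℤ) 0 0 * (g' : Matrix (Fin 2) (Fin 2) ℤ) 1 0
        - (g : Matrix (Fin 2) (Fin 2) ℤ) 1 0 * (g' : Matrix (Fin 2) (Fin 2) ℤ) 0 0 := by
    rw [Matrix.SpecialLinearGroup.coe_mul, Matrix.SpecialLinearGroup.SL2_inv_expl]
    rw [Matrix.mul_apply, Fin.sum_univ_two]
    simp
    ring
  rw [this]

theorem T_zpow_mul_col (k : ℤ) (g : SL(2, ℤ)) :
    ((ModularGroup.T ^ k * g : SL(2, ℤ)) : Matrix (Fin 2) (Fin 2) ℤ) 0 0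
        = (g : Matrix (Fin 2) (Fin 2) ℤ) 0 0 + k * (g : Matrix (Fin 2) (Fin 2) ℤ) 1 0 ∧
    ((ModularGroup.T ^ k * g : SL(2, ℤ)) : Matrix (Fin 2) (Fin 2) ℤ) 1 0
        = (g : Matrix (Fin 2) (Fin 2) ℤ) 1 0 := by
  rw [Matrix.SpecialLinearGroup.coe_mul, ModularGroup.coe_T_zpow]
  constructor <;> rw [Matrix.mul_apply, Fin.sum_univ_two] <;> simp

/-- Data attached to `c` and `N ≠ 0`: `d = gcd (c, N)`, `c = d * c₁`, `N = d * M`,
`e = gcd (d, M)`, and `c₁` is coprime to `M` and to `e`. -/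
theorem gcd_data {N : ℕ} (hN : N ≠ 0) (c : ℤ) :
    Int.gcd c N ≠ 0 ∧ Int.gcd c N ∣ N ∧
    ((Int.gcd c N : ℕ) : ℤ) * (c / ((Int.gcd c N : ℕ) : ℤ)) = c ∧
    ((Int.gcd c N : ℕ) : ℤ) * ((N / Int.gcd c N : ℕ) : ℤ) = (N : ℤ) ∧
    IsCoprime (c / ((Int.gcd c N : ℕ) : ℤ)) ((N / Int.gcd c N : ℕ) : ℤ) ∧
    IsCoprime (c / ((Int.gcd c N : ℕ) : ℤ)) ((eOf N (Int.gcd c N) : ℕ) : ℤ) ∧
    eOf N (Int.gcd c N) ≠ 0 := by
  have hd0 : Int.gcd c N ≠ 0 := by
    intro h
    rw [Int.gcd_eq_zero_iff] at h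
    exact hN (by exact_mod_cast h.2)
  have hdN : Int.gcd c N ∣ N := Int.natCast_dvd_natCast.mp (Int.gcd_dvd_right c N)
  have hc : ((Int.gcd c N : ℕ) : ℤ) * (c / ((Int.gcd c N : ℕ) : ℤ)) = c :=
    Int.mul_ediv_cancel' (Int.gcd_dvd_left c N)
  have hNM : ((Int.gcd c N : ℕ) : ℤ) * ((N / Int.gcd c N : ℕ) : ℤ) = (N : ℤ) := by
    exact_mod_cast Nat.mul_div_cancel' hdN
  have hcop : IsCoprime (c / ((Int.gcd c N : ℕ) : ℤ)) ((N / Int.gcd c N : ℕ) : ℤ) := by
    rw [Int.isCoprime_iff_gcd_eq_one]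
    have := Int.gcd_div_gcd_div_gcd (i := c) (j := (N : ℤ)) (Nat.pos_of_ne_zero hd0)
    rwa [← Int.natCast_div] at this
  have heM : ((eOf N (Int.gcd c N) : ℕ) : ℤ) ∣ ((N / Int.gcd c N : ℕ) : ℤ) :=
    Int.natCast_dvd_natCast.mpr (Nat.gcd_dvd_right _ _)
  refine ⟨hd0, hdN, hc, hNM, hcop, IsCoprime.of_isCoprime_of_dvd_right hcop heM, ?_⟩
  exact Nat.gcd_ne_zero_left hd0

theorem arith_iff {N : ℕ} (hN : N ≠ 0) {a c a' c' : ℤ} (hac : IsCoprime a c)
    (hac' : IsCoprime a' c') :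
    (∃ k : ℤ, (N : ℤ) ∣ (a + k * c) * c' - c * a') ↔
      (Int.gcd c N = Int.gcd c' N ∧ rAux N (Int.gcd c N) a c = rAux N (Int.gcd c N) a' c') := by
  obtain ⟨hd0, hdN, hc, hNM, hcop, hcope, he0⟩ := gcd_data hN c
  obtain ⟨hd0', hdN', hc', hNM', hcop', hcope', he0'⟩ := gcd_data hN c'
  have : NeZero (eOf N (Int.gcd c N)) := ⟨he0⟩
  have hed : ((eOf N (Int.gcd c N) : ℕ) : ℤ) ∣ ((Int.gcd c N : ℕ) : ℤ) :=
    Int.natCast_dvd_natCast.mpr (Nat.gcd_dvd_left _ _)
  have heM : ((eOf N (Int.gcd c N) : ℕ) : ℤ) ∣ ((N / Int.gcd c N : ℕ) : ℤ) :=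
    Int.natCast_dvd_natCast.mpr (Nat.gcd_dvd_right _ _)
  constructor
  · rintro ⟨k, hk⟩
    have hcopk : IsCoprime (a + k * c) c := hac.add_mul_right_left k
    have hdd : Int.gcd c N = Int.gcd c' N := gcd_eq_of_dvd hcopk hac' hk
    refine ⟨hdd, ?_⟩
    rw [← hdd] at hc' hcope'
    unfold rAux
    rw [val_mul_inv_eq_iff hcope hcope']
    refine dvd_of_dvd (k := k) (by exact_mod_cast hd0) hed heM ?_
    rw [hNM, hc, hc']
    exact hk
  · rintro ⟨hdd, hr⟩
    rw [← hdd] at hc' hcope' hcop'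
    unfold rAux at hr
    rw [val_mul_inv_eq_iff hcope hcope'] at hr
    have hr' : ((Int.gcd ((Int.gcd c N : ℕ) : ℤ) ((N / Int.gcd c N : ℕ) : ℤ) : ℕ) : ℤ) ∣
        a * (c' / ((Int.gcd c N : ℕ) : ℤ)) - a' * (c / ((Int.gcd c N : ℕ) : ℤ)) := by
      rw [Int.gcd_natCast_natCast]
      exact hr
    obtain ⟨k, hk⟩ := exists_k (a := a) (a' := a') hcop hcop' hr'
    refine ⟨k, ?_⟩
    rw [hNM, hc, hc'] at hk
    exact hk

variable [NeZero N]

/-- Two cosets `gΓ₀(N)`, `g'Γ₀(N)` lie in the same `⟨T⟩`-orbit iff they have the same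
invariant. -/
theorem orbit_iff (g g' : SL(2, ℤ)) :
    (∃ k : ℤ, ((ModularGroup.T ^ k * g : SL(2, ℤ)) : SL(2, ℤ) ⧸ Gamma0 N)
        = (g' : SL(2, ℤ) ⧸ Gamma0 N)) ↔ cuspInv N g = cuspInv N g' := by
  have key := arith_iff (NeZero.ne N) (isCoprime_col g) (isCoprime_col g')
  constructor
  · rintro ⟨k, hk⟩
    rw [mk_eq_mk_iff, (T_zpow_mul_col k g).1, (T_zpow_mul_col k g).2] at hk
    obtain ⟨h1, h2⟩ := key.1 ⟨k, hk⟩
    unfold cuspInv dInv
    rw [← h1, h2]
  · intro h
    unfold cuspInv dInv at h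
    rw [Sigma.mk.injEq] at h
    obtain ⟨h1, h2⟩ := h
    have h2' := eq_of_heq h2
    rw [← h1] at h2'
    obtain ⟨k, hk⟩ := key.2 ⟨h1, h2'⟩
    refine ⟨k, ?_⟩
    rw [mk_eq_mk_iff, (T_zpow_mul_col k g).1, (T_zpow_mul_col k g).2]
    exact hk

/-- The finite set of possible invariants. -/
def cuspSet : Finset ((_ : ℕ) × ℕ) :=
  N.divisors.sigma fun d => (Finset.range (eOf N d)).filter fun r => (eOf N d).Coprime r

omit [NeZero N] in
theorem card_cuspSet : (cuspSet N).card = ModularCurve.cuspCount N := by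
  unfold cuspSet ModularCurve.cuspCount
  rw [Finset.card_sigma]
  refine Finset.sum_congr rfl fun d _ => ?_
  rw [Nat.totient_eq_card_coprime]
  rfl

theorem cuspInv_mem (g : SL(2, ℤ)) : cuspInv N g ∈ cuspSet N := by
  obtain ⟨hd0, hdN, hc, hNM, hcop, hcope, he0⟩ :=
    gcd_data (NeZero.ne N) ((g : Matrix (Fin 2) (Fin 2) ℤ) 1 0)
  have : NeZero (eOf N (Int.gcd ((g : Matrix (Fin 2) (Fin 2) ℤ) 1 0) N)) := ⟨he0⟩
  unfold cuspSet cuspInv dInv
  rw [Finset.mem_sigma, Nat.mem_divisors, Finset.mem_filter, Finset.mem_range]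
  refine ⟨⟨hdN, NeZero.ne N⟩, ZMod.val_lt _, ?_⟩
  -- the value is a unit
  have hed : ((eOf N (Int.gcd ((g : Matrix (Fin 2) (Fin 2) ℤ) 1 0) N) : ℕ) : ℤ) ∣
      (g : Matrix (Fin 2) (Fin 2) ℤ) 1 0 :=
    (Int.natCast_dvd_natCast.mpr (Nat.gcd_dvd_left _ _)).trans (Int.gcd_dvd_left _ _)
  have hae : IsCoprime ((g : Matrix (Fin 2) (Fin 2) ℤ) 0 0)
      ((eOf N (Int.gcd ((g : Matrix (Fin 2) (Fin 2) ℤ) 1 0) N) : ℕ) : ℤ) :=
    IsCoprime.of_isCoprime_of_dvd_right (isCoprime_col g) hed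
  have hua := (ZMod.coe_int_isUnit_iff_isCoprime _ _).2 hae.symm
  have huc := (ZMod.coe_int_isUnit_iff_isCoprime _ _).2 hcope.symm
  have hinv : IsUnit ((((g : Matrix (Fin 2) (Fin 2) ℤ) 1 0 /
      ((Int.gcd ((g : Matrix (Fin 2) (Fin 2) ℤ) 1 0) N : ℕ) : ℤ) : ℤ) :
        ZMod (eOf N (Int.gcd ((g : Matrix (Fin 2) (Fin 2) ℤ) 1 0) N)))⁻¹) :=
    IsUnit.of_mul_eq_one _ (by rw [mul_comm]; exact ZMod.mul_inv_of_unit _ huc)
  have hu := hua.mul hinv
  have := ZMod.val_coe_unit_coprime hu.unit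
  rw [IsUnit.unit_spec] at this
  exact this.symm

omit [NeZero N] in
/-- Every element of `cuspSet N` is the invariant of some `g`. -/
theorem exists_cuspInv_eq (p : (_ : ℕ) × ℕ) (hp : p ∈ cuspSet N) :
    ∃ g : SL(2, ℤ), cuspInv N g = p := by
  obtain ⟨d, r⟩ := p
  unfold cuspSet at hp
  rw [Finset.mem_sigma, Nat.mem_divisors, Finset.mem_filter, Finset.mem_range] at hp
  obtain ⟨⟨hdN, hN⟩, hr, hcop⟩ := hp
  dsimp only at hdN hr hcop
  have hd0 : d ≠ 0 := fun h => hN (by rw [h] at hdN; exact Nat.eq_zero_of_zero_dvd hdN)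
  have : NeZero d := ⟨hd0⟩
  have hed : eOf N d ∣ d := Nat.gcd_dvd_left _ _
  have he0 : eOf N d ≠ 0 := Nat.gcd_ne_zero_left hd0
  have : NeZero (eOf N d) := ⟨he0⟩
  -- lift the unit `r` mod `e` to a unit `v` mod `d`
  obtain ⟨v, hv⟩ := ZMod.unitsMap_surjective hed (ZMod.unitOfCoprime r hcop.symm)
  have hvcop : ((v : ZMod d).val).Coprime d := ZMod.val_coe_unit_coprime v
  have hcast : (((v : ZMod d).val : ℕ) : ZMod (eOf N d)) = (r : ZMod (eOf N d)) := by
    have h1 := congrArg (fun u : (ZMod (eOf N d))ˣ => (u : ZMod (eOf N d))) hv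
    simp only [ZMod.unitsMap_def, Units.coe_map, MonoidHom.coe_coe, ZMod.castHom_apply,
      ZMod.coe_unitOfCoprime] at h1
    rw [ZMod.natCast_val]
    exact h1
  -- Bézout
  have hco : IsCoprime (((v : ZMod d).val : ℕ) : ℤ) ((d : ℕ) : ℤ) :=
    Nat.isCoprime_iff_coprime.mpr hvcop
  obtain ⟨x, y, hxy⟩ := hco
  let g : SL(2, ℤ) := ⟨!![(((v : ZMod d).val : ℕ) : ℤ), -y; (d : ℤ), x], by
    rw [Matrix.det_fin_two_of]; linear_combination hxy⟩
  have hg00 : (g : Matrix (Fin 2) (Fin 2) ℤ) 0 0 = (((v : ZMod d).val : ℕ) : ℤ) := rfl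
  have hg10 : (g : Matrix (Fin 2) (Fin 2) ℤ) 1 0 = (d : ℤ) := rfl
  refine ⟨g, ?_⟩
  have hgcd : Int.gcd ((d : ℕ) : ℤ) (N : ℤ) = d := by
    rw [Int.gcd_natCast_natCast]; exact Nat.gcd_eq_left hdN
  unfold cuspInv dInv
  rw [hg00, hg10, hgcd]
  congr 1
  unfold rAux
  rw [Int.ediv_self (by exact_mod_cast hd0)]
  simp only [Int.cast_one, ZMod.inv_one, mul_one, Int.cast_natCast]
  rw [hcast, ZMod.val_natCast]
  exact Nat.mod_eq_of_lt hr

/-- **Main theorem**: the number of orbits of `⟨T⟩` acting by left multiplication on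
`SL(2,ℤ) ⧸ Γ₀(N)` is `cuspCount N = ∑_{d ∣ N} φ(gcd(d, N/d))`. -/
theorem card_orbits_T :
    Nat.card (MulAction.orbitRel.Quotient (Subgroup.zpowers ModularGroup.T)
      (SL(2, ℤ) ⧸ Gamma0 N)) = ModularCurve.cuspCount N := by
  rw [← card_cuspSet, ← Nat.card_eq_finsetCard]
  -- representative of an orbit
  let rep : MulAction.orbitRel.Quotient (Subgroup.zpowers ModularGroup.T)
      (SL(2, ℤ) ⧸ Gamma0 N) → SL(2, ℤ) := fun x => Quotient.out (Quotient.out x)
  have hrep : ∀ x, (Quotient.mk'' ((rep x : SL(2, ℤ)) : SL(2, ℤ) ⧸ Gamma0 N) :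
      MulAction.orbitRel.Quotient (Subgroup.zpowers ModularGroup.T)
      (SL(2, ℤ) ⧸ Gamma0 N)) = x := by
    intro x
    show Quotient.mk'' ((Quotient.out (Quotient.out x) : SL(2, ℤ)) : SL(2, ℤ) ⧸ Gamma0 N) = x
    rw [QuotientGroup.out_eq']
    exact Quotient.out_eq x
  -- orbit equivalence in terms of `T ^ k`
  have horb : ∀ g g' : SL(2, ℤ),
      (Quotient.mk'' (g : SL(2, ℤ) ⧸ Gamma0 N) :
        MulAction.orbitRel.Quotient (Subgroup.zpowers ModularGroup.T) (SL(2, ℤ) ⧸ Gamma0 N))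
        = Quotient.mk'' (g' : SL(2, ℤ) ⧸ Gamma0 N) ↔ cuspInv N g' = cuspInv N g := by
    intro g g'
    rw [Quotient.eq'', MulAction.orbitRel_apply, MulAction.mem_orbit_iff, ← orbit_iff]
    constructor
    · rintro ⟨⟨t, ht⟩, h⟩
      obtain ⟨k, rfl⟩ := Subgroup.mem_zpowers_iff.mp ht
      exact ⟨k, h⟩
    · rintro ⟨k, h⟩
      exact ⟨⟨ModularGroup.T ^ k, Subgroup.mem_zpowers_iff.mpr ⟨k, rfl⟩⟩, h⟩
  refine Nat.card_congr (Equiv.ofBijective
    (fun x => (⟨cuspInv N (rep x), cuspInv_mem N (rep x)⟩ : cuspSet N)) ⟨?_, ?_⟩)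
  · intro x y hxy
    have h := congrArg Subtype.val hxy
    dsimp only at h
    rw [← hrep x, ← hrep y]
    exact (horb _ _).2 h.symm
  · rintro ⟨p, hp⟩
    obtain ⟨g, hg⟩ := exists_cuspInv_eq N p hp
    refine ⟨Quotient.mk'' (g : SL(2, ℤ) ⧸ Gamma0 N), ?_⟩
    apply Subtype.ext
    dsimp only
    rw [← hg]
    exact (horb _ _).1 (hrep (Quotient.mk'' (g : SL(2, ℤ) ⧸ Gamma0 N))).symm

end Invariant

end Fermat.Agent.S20.CuspCount360

end
-- ===== PACK-END S20/CuspCount360.lean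

-- ===== PACK-BEGIN S24/H864/FF3a.lean
section



/-!
# S24 / ALG / FF1+FF3 (part a): the Dedekind domain `B = integralClosure K[t] F`
-/

set_option autoImplicit false

noncomputable section

open AlgebraicCurve IntermediateField IsDedekindDomain

namespace Fermat.Agent.S24.H864

variable {K F : Type*} [Field K] [Field F] [Algebra K F]

section Setup

variable (K) (t : F)

/-- `K[t] ⊆ F`. -/
abbrev polyRing : Subalgebra K F := Algebra.adjoin K {t}

/-- the element `t` of `K[t]` -/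
def tR : polyRing K t := ⟨t, Algebra.self_mem_adjoin_singleton K t⟩

/-- `K[X] ≃ K[t]` for transcendental `t`. -/
def polyEquiv (ht : Transcendental K t) : Polynomial K ≃ₐ[K] polyRing K t :=
  (AlgEquiv.ofInjective (Polynomial.aeval t) (transcendental_iff_injective.mp ht)).trans
    (Subalgebra.equivOfEq _ _ (Algebra.adjoin_singleton_eq_range_aeval K t).symm)

theorem polyEquiv_apply_coe (ht : Transcendental K t) (P : Polynomial K) :
    ((polyEquiv K t ht P : polyRing K t) : F) = Polynomial.aeval t P := rfl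

theorem polyEquiv_X (ht : Transcendental K t) : polyEquiv K t ht Polynomial.X = tR K t := by
  apply Subtype.ext
  rw [polyEquiv_apply_coe, Polynomial.aeval_X]
  rfl

end Setup

end Fermat.Agent.S24.H864

end
end
-- ===== PACK-END S24/H864/FF3a.lean

-- ===== PACK-BEGIN S28/H565/TExp.lean
section



/-!
# S28 analytic bridge, part 1: convergent `t`-expansions (helper565)

`HasTExp h f φ` says that the function `f : ℍ → ℂ` is given, at every point of the upper
half plane, by the (absolutely) convergent Laurent expansion `φ` in the local parameter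
`t = exp (2 π i τ / h)`.  We prove that this relation is compatible with the ring operations,
that `φ` is determined by `f`, and that it is compatible with `qExpand`.
-/

set_option autoImplicit false

noncomputable section

open UpperHalfPlane Complex Function
open scoped Real

namespace Fermat.Agent.S28.H565

local notation "𝕢" => Periodic.qParam

/-- `f` is given on all of `ℍ` by the convergent power series `P` in `t = exp (2πiτ/h)`. -/
def HasPExp (h : ℝ) (f : ℍ → ℂ) (P : PowerSeries ℂ) : Prop :=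
  ∀ τ : ℍ, HasSum (fun n : ℕ => PowerSeries.coeff n P * 𝕢 h τ ^ n) (f τ)

/-- `f` is given on all of `ℍ` by the convergent Laurent series `φ` in `t = exp (2πiτ/h)`. -/
def HasTExp (h : ℝ) (f : ℍ → ℂ) (φ : LaurentSeries ℂ) : Prop :=
  ∀ τ : ℍ, HasSum (fun n : ℤ => φ.coeff n * 𝕢 h τ ^ n) (f τ)

section PExp

variable {h : ℝ} {f g : ℍ → ℂ} {P Q : PowerSeries ℂ}

theorem HasPExp.congr (hf : HasPExp h f P) (hfg : ∀ τ, f τ = g τ) : HasPExp h g P :=
  fun τ => hfg τ ▸ hf τ

theorem HasPExp.add (hf : HasPExp h f P) (hg : HasPExp h g Q) : HasPExp h (f + g) (P + Q) := by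
  intro τ
  have := (hf τ).add (hg τ)
  simpa [add_mul] using this

theorem HasPExp.zero : HasPExp h 0 0 := by
  intro τ
  simp [hasSum_zero]

theorem HasPExp.const (c : ℂ) : HasPExp h (fun _ => c) (PowerSeries.C c) := by
  intro τ
  have := hasSum_ite_eq (0 : ℕ) c
  refine this.congr_fun ?_ |>.mono_left le_rfl
  intro n
  by_cases hn : n = 0
  · subst hn; simp
  · simp [PowerSeries.coeff_C, hn]

theorem HasPExp.smul (c : ℂ) (hf : HasPExp h f P) : HasPExp h (c • f) (c • P) := by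
  intro τ
  have := (hf τ).mul_left c
  simpa [mul_assoc] using this

theorem HasPExp.neg (hf : HasPExp h f P) : HasPExp h (-f) (-P) := by
  intro τ
  have := (hf τ).neg
  simpa using this

theorem HasPExp.sub (hf : HasPExp h f P) (hg : HasPExp h g Q) : HasPExp h (f - g) (P - Q) := by
  intro τ
  have := (hf τ).sub (hg τ)
  simpa [sub_mul] using this

theorem HasPExp.mul (hf : HasPExp h f P) (hg : HasPExp h g Q) : HasPExp h (f * g) (P * Q) := by
  intro τ
  have h1 := hf τ
  have h2 := hg τ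
  have n1 : Summable fun n : ℕ => ‖PowerSeries.coeff n P * 𝕢 h τ ^ n‖ := h1.summable.norm
  have n2 : Summable fun n : ℕ => ‖PowerSeries.coeff n Q * 𝕢 h τ ^ n‖ := h2.summable.norm
  have key := tsum_mul_tsum_eq_tsum_sum_antidiagonal_of_summable_norm n1 n2
  have hs := (summable_norm_sum_mul_antidiagonal_of_summable_norm n1 n2).of_norm
  rw [h1.tsum_eq, h2.tsum_eq] at key
  have hfun : (fun n : ℕ => PowerSeries.coeff n (P * Q) * 𝕢 h τ ^ n) =
      fun n => ∑ kl ∈ Finset.HasAntidiagonal.antidiagonal n,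
        (PowerSeries.coeff kl.1 P * 𝕢 h τ ^ kl.1) * (PowerSeries.coeff kl.2 Q * 𝕢 h τ ^ kl.2) := by
    funext n
    rw [PowerSeries.coeff_mul, Finset.sum_mul]
    refine Finset.sum_congr rfl fun kl hkl => ?_
    rw [Finset.HasAntidiagonal.mem_antidiagonal] at hkl
    rw [← hkl, pow_add]
    ring
  rw [hfun]
  simpa [Pi.mul_apply, key] using hs.hasSum

theorem HasPExp.X : HasPExp h (fun τ => 𝕢 h τ) PowerSeries.X := by
  intro τ
  have := hasSum_ite_eq (1 : ℕ) (𝕢 h τ)
  refine this.congr_fun ?_ |>.mono_left le_rfl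
  intro n
  by_cases hn : n = 1
  · subst hn; simp
  · simp [PowerSeries.coeff_X, hn]

theorem HasPExp.pow (hf : HasPExp h f P) (n : ℕ) : HasPExp h (f ^ n) (P ^ n) := by
  induction n with
  | zero =>
    have := HasPExp.const (h := h) 1
    rw [map_one] at this
    rw [pow_zero, pow_zero]
    exact this
  | succ n ih =>
    rw [pow_succ, pow_succ]
    exact ih.mul hf

theorem cuspFunction_zero_fun (h : ℝ) : cuspFunction h (0 : ℍ → ℂ) = 0 := by
  simpa [cuspFunction, Periodic.cuspFunction]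
      using! (tendsto_const_nhds.mono_left nhdsWithin_le_nhds).limUnder_eq

theorem coeff_eq_zero_of_hasSum_zero {h : ℝ} (hh : 0 < h) (c : ℕ → ℂ)
    (H : ∀ τ : ℍ, HasSum (fun n : ℕ => c n * 𝕢 h τ ^ n) 0) (m : ℕ) : c m = 0 := by
  have han : AnalyticAt ℂ (cuspFunction h (0 : ℍ → ℂ)) 0 := by
    rw [cuspFunction_zero_fun]; exact analyticAt_const
  have H' : ∀ τ : ℍ, HasSum (fun n : ℕ => c n • 𝕢 h τ ^ n) ((0 : ℍ → ℂ) τ) := fun τ => H τ
  have h1 := (hasFPowerSeriesOnBall_cuspFunction hh han H').hasFPowerSeriesAt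
  rw [cuspFunction_zero_fun] at h1
  have h2 := h1.eq_zero
  have h3 := congrArg (fun p => FormalMultilinearSeries.coeff p m) h2
  simp only [FormalMultilinearSeries.coeff_ofScalars] at h3
  rw [h3]
  rfl

theorem HasPExp.eq_zero (hh : 0 < h) (H : HasPExp h 0 P) : P = 0 := by
  ext m
  simpa using coeff_eq_zero_of_hasSum_zero hh (fun n => PowerSeries.coeff n P) (fun τ => H τ) m

theorem HasPExp.unique (hh : 0 < h) (hP : HasPExp h f P) (hQ : HasPExp h f Q) : P = Q := by
  have := (hP.sub hQ)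
  rw [sub_self] at this
  exact sub_eq_zero.mp (this.eq_zero hh)

/-- A function with a convergent power series expansion is bounded at `i∞`. -/
theorem HasPExp.isBoundedAtImInfty (hh : 0 < h) (hf : HasPExp h f P) :
    IsBoundedAtImInfty f :=
  UpperHalfPlane.isBoundedAtImInfty_of_hasSum_qExpansion (c := fun n => PowerSeries.coeff n P) hh
    (fun τ => by simpa using hf τ)

end PExp

section TExp

variable {h : ℝ} {f g : ℍ → ℂ} {φ ψ : LaurentSeries ℂ}

theorem HasTExp.congr (hf : HasTExp h f φ) (hfg : ∀ τ, f τ = g τ) : HasTExp h g φ :=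
  fun τ => hfg τ ▸ hf τ

theorem HasTExp.add (hf : HasTExp h f φ) (hg : HasTExp h g ψ) : HasTExp h (f + g) (φ + ψ) := by
  intro τ
  have := (hf τ).add (hg τ)
  simpa [add_mul] using this

theorem HasTExp.zero : HasTExp h 0 0 := by
  intro τ
  simp [hasSum_zero]

theorem HasTExp.neg (hf : HasTExp h f φ) : HasTExp h (-f) (-φ) := by
  intro τ
  have := (hf τ).neg
  simpa using this

theorem HasTExp.sub (hf : HasTExp h f φ) (hg : HasTExp h g ψ) : HasTExp h (f - g) (φ - ψ) := by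
  intro τ
  have := (hf τ).sub (hg τ)
  simpa [sub_mul] using this

theorem HasTExp.smul (c : ℂ) (hf : HasTExp h f φ) : HasTExp h (c • f) (c • φ) := by
  intro τ
  have := (hf τ).mul_left c
  simpa [mul_assoc] using this

/-- Key bridge between Laurent and power series expansions. -/
theorem hasTExp_single_mul_iff (m : ℤ) (P : PowerSeries ℂ) :
    HasTExp h f (HahnSeries.single m (1 : ℂ) * HahnSeries.ofPowerSeries ℤ ℂ P) ↔
      HasPExp h (fun τ => f τ * 𝕢 h τ ^ (-m)) P := by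
  have key : ∀ τ : ℍ,
      HasSum (fun n : ℤ =>
        (HahnSeries.single m (1 : ℂ) * HahnSeries.ofPowerSeries ℤ ℂ P).coeff n * 𝕢 h τ ^ n) (f τ) ↔
      HasSum (fun n : ℕ => PowerSeries.coeff n P * 𝕢 h τ ^ n) (f τ * 𝕢 h τ ^ (-m)) := by
    intro τ
    have hq : 𝕢 h τ ≠ 0 := Periodic.qParam_ne_zero _
    have hι : Function.Injective (fun k : ℕ => (k : ℤ) + m) := by
      intro a b hab
      simpa using hab
    have hzero : ∀ n ∉ Set.range (fun k : ℕ => (k : ℤ) + m),
        (HahnSeries.single m (1 : ℂ) * HahnSeries.ofPowerSeries ℤ ℂ P).coeff n * 𝕢 h τ ^ n = 0 := by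
      intro n hn
      have hlt : n - m < 0 := by
        by_contra hge
        rw [not_lt] at hge
        exact hn ⟨(n - m).toNat, by simp [Int.toNat_of_nonneg hge]⟩
      rw [HahnSeries.coeff_single_mul, ModularCurve.ofPowerSeries_coeff_of_neg _ hlt]
      simp
    rw [← hι.hasSum_iff hzero]
    have hfun : ((fun n : ℤ =>
        (HahnSeries.single m (1 : ℂ) * HahnSeries.ofPowerSeries ℤ ℂ P).coeff n * 𝕢 h τ ^ n) ∘
          fun k : ℕ => (k : ℤ) + m) =
        fun k : ℕ => (PowerSeries.coeff k P * 𝕢 h τ ^ k) * 𝕢 h τ ^ m := by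
      funext k
      simp only [Function.comp_apply]
      rw [HahnSeries.coeff_single_mul_add, HahnSeries.ofPowerSeries_apply_coeff, one_mul,
        zpow_add₀ hq, zpow_natCast, mul_assoc]
    rw [hfun]
    have hval : f τ = (f τ * 𝕢 h τ ^ (-m)) * 𝕢 h τ ^ m := by
      rw [mul_assoc, ← zpow_add₀ hq, neg_add_cancel, zpow_zero, mul_one]
    conv_lhs => rw [hval]
    exact hasSum_mul_right_iff (zpow_ne_zero m hq)
  exact ⟨fun H τ => (key τ).mp (H τ), fun H τ => (key τ).mpr (H τ)⟩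

/-- Any Laurent expansion can be rewritten as a power series expansion. -/
theorem HasTExp.hasPExp (hf : HasTExp h f φ) :
    HasPExp h (fun τ => f τ * 𝕢 h τ ^ (-φ.order)) φ.powerSeriesPart := by
  rw [← hasTExp_single_mul_iff, LaurentSeries.single_order_mul_powerSeriesPart]
  exact hf

theorem HasPExp.hasTExp {P : PowerSeries ℂ} (hf : HasPExp h f P) :
    HasTExp h f (HahnSeries.ofPowerSeries ℤ ℂ P) := by
  have := (hasTExp_single_mul_iff (h := h) (f := f) 0 P).mpr (by simpa using hf)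
  simpa using this

theorem HasTExp.mul (hf : HasTExp h f φ) (hg : HasTExp h g ψ) : HasTExp h (f * g) (φ * ψ) := by
  have h1 := hf.hasPExp
  have h2 := hg.hasPExp
  have h3 := h1.mul h2
  have hφψ : φ * ψ = HahnSeries.single (φ.order + ψ.order) (1 : ℂ) *
      HahnSeries.ofPowerSeries ℤ ℂ (φ.powerSeriesPart * ψ.powerSeriesPart) := by
    conv_lhs => rw [← LaurentSeries.single_order_mul_powerSeriesPart φ,
      ← LaurentSeries.single_order_mul_powerSeriesPart ψ]
    rw [map_mul, ← mul_one (1 : ℂ), ← HahnSeries.single_mul_single, mul_one]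
    ring
  rw [hφψ, hasTExp_single_mul_iff]
  refine h3.congr fun τ => ?_
  have hq : 𝕢 h τ ≠ 0 := Periodic.qParam_ne_zero _
  simp only [Pi.mul_apply]
  rw [neg_add, zpow_add₀ hq]
  ring

theorem HasTExp.const (c : ℂ) : HasTExp h (fun _ => c) (HahnSeries.C c) := by
  have := (HasPExp.const (h := h) c).hasTExp
  rwa [HahnSeries.ofPowerSeries_C] at this

theorem HasTExp.one : HasTExp h 1 1 := by
  have := HasTExp.const (h := h) 1
  rw [map_one] at this
  exact this

theorem HasTExp.pow (hf : HasTExp h f φ) (n : ℕ) : HasTExp h (f ^ n) (φ ^ n) := by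
  induction n with
  | zero =>
    rw [pow_zero, pow_zero]
    exact HasTExp.one
  | succ n ih =>
    rw [pow_succ, pow_succ]
    exact ih.mul hf

theorem HasTExp.single (m : ℤ) : HasTExp h (fun τ => 𝕢 h τ ^ m) (HahnSeries.single m (1 : ℂ)) := by
  have h1 : HasPExp h (fun τ => 𝕢 h τ ^ m * 𝕢 h τ ^ (-m)) 1 := by
    have := HasPExp.const (h := h) 1
    rw [map_one] at this
    refine this.congr fun τ => ?_
    have hq : 𝕢 h τ ≠ 0 := Periodic.qParam_ne_zero _
    rw [← zpow_add₀ hq, add_neg_cancel, zpow_zero]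
  have := (hasTExp_single_mul_iff (h := h) (f := fun τ => 𝕢 h τ ^ m) m 1).mpr h1
  simpa using this

theorem HasTExp.eq_zero (hh : 0 < h) (H : HasTExp h 0 φ) : φ = 0 := by
  have h1 := H.hasPExp
  have h2 : HasPExp h 0 φ.powerSeriesPart := h1.congr fun τ => by simp
  have h3 := h2.eq_zero hh
  rw [← LaurentSeries.single_order_mul_powerSeriesPart φ, h3]
  simp

theorem HasTExp.unique (hh : 0 < h) (hφ : HasTExp h f φ) (hψ : HasTExp h f ψ) : φ = ψ := by
  have := hφ.sub hψ
  rw [sub_self] at this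
  exact sub_eq_zero.mp (this.eq_zero hh)

/-- If a function has an expansion, the function is determined by the expansion. -/
theorem HasTExp.fun_unique (hf : HasTExp h f φ) (hg : HasTExp h g φ) : f = g :=
  funext fun τ => (hf τ).unique (hg τ)

/-- Polynomial expressions: if `f` has expansion `φ` then `Q ∘ f` has expansion `Q(φ)`. -/
theorem HasTExp.polynomial_aeval (hf : HasTExp h f φ) (Q : Polynomial ℂ) :
    HasTExp h (fun τ => Q.eval (f τ)) (Polynomial.aeval φ Q) := by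
  induction Q using Polynomial.induction_on' with
  | add p q hp hq =>
    rw [map_add]
    exact (hp.add hq).congr fun τ => by simp
  | monomial n a =>
    rw [Polynomial.aeval_monomial]
    have h1 := (HasTExp.const (h := h) a).mul (hf.pow n)
    have h2 : algebraMap ℂ (LaurentSeries ℂ) a = HahnSeries.C a := by
      rw [ModularCurve.algebraMap_laurentSeries_eq_single]; rfl
    rw [h2]
    exact h1.congr fun τ => by simp [Polynomial.eval_monomial]

theorem qParam_mul_pow (h : ℝ) (m : ℕ) (hm : m ≠ 0) (z : ℂ) (k : ℤ) :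
    𝕢 (h * m) z ^ ((m : ℤ) * k) = 𝕢 h z ^ k := by
  have hm' : (m : ℂ) ≠ 0 := by exact_mod_cast hm
  simp only [Periodic.qParam]
  rw [← Complex.exp_int_mul, ← Complex.exp_int_mul]
  congr 1
  push_cast
  rcases eq_or_ne (h : ℂ) 0 with h0 | h0
  · simp [h0]
  · field_simp

/-- Change of parameter `t ↦ t^m`: an expansion in `exp (2πiτ/h)` gives one in
`exp (2πiτ/(hm))`. -/
theorem HasTExp.qExpand (m : ℕ) [NeZero m] (hf : HasTExp h f φ) :
    HasTExp (h * m) f (ModularCurve.qExpand ℂ m φ) := by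
  intro τ
  have hm : (m : ℤ) ≠ 0 := by exact_mod_cast NeZero.ne m
  have hι : Function.Injective (fun k : ℤ => (m : ℤ) * k) := mul_right_injective₀ hm
  have hzero : ∀ n ∉ Set.range (fun k : ℤ => (m : ℤ) * k),
      (ModularCurve.qExpand ℂ m φ).coeff n * 𝕢 (h * m) τ ^ n = 0 := by
    intro n hn
    rw [ModularCurve.qExpand_coeff_of_not_dvd, zero_mul]
    rintro ⟨c, rfl⟩
    exact hn ⟨c, rfl⟩
  rw [← hι.hasSum_iff hzero]
  have hfun : ((fun n : ℤ => (ModularCurve.qExpand ℂ m φ).coeff n * 𝕢 (h * m) τ ^ n) ∘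
      fun k : ℤ => (m : ℤ) * k) = fun k : ℤ => φ.coeff k * 𝕢 h τ ^ k := by
    funext k
    simp only [Function.comp_apply]
    rw [ModularCurve.qExpand_coeff_mul, qParam_mul_pow h m (NeZero.ne m)]
  rw [hfun]
  exact hf τ

theorem HasTExp.qExpand_one (m : ℕ) [NeZero m] (hf : HasTExp 1 f φ) :
    HasTExp m f (ModularCurve.qExpand ℂ m φ) := by
  have := hf.qExpand m
  rwa [one_mul] at this

end TExp

end Fermat.Agent.S28.H565

end
end
-- ===== PACK-END S28/H565/TExp.lean

-- ===== PACK-BEGIN S24/Mod/H368Lift.lean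
section


/-!
# S24 / MOD glue (helper368): lifting a ring hom from polynomial generators to a generated field

`exists_lift`: if `F' = K(s i : i ∈ ι) ⊆ E` and `Φ : MvPolynomial ι K →+* L` has the same kernel as
evaluation at the generators `s`, then `Φ` induces a ring hom `σ : F' →+* L`.
-/

set_option autoImplicit false

noncomputable section

open MvPolynomial

namespace Fermat.Agent.S24.H368

variable {K E L ι : Type*} [Field K] [Field E] [Algebra K E] [Field L]

/-- The ring hom `Algebra.adjoin K (range s) →+* L` induced by `Φ`, when `ker (aeval s) ≤ ker Φ`. -/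
theorem exists_ringHom_adjoin (s : ι → E) (Φ : MvPolynomial ι K →+* L)
    (h : ∀ p, aeval s p = 0 → Φ p = 0) :
    ∃ g : Algebra.adjoin K (Set.range s) →+* L,
      ∀ (p : MvPolynomial ι K) (x : Algebra.adjoin K (Set.range s)),
        (x : E) = aeval s p → g x = Φ p := by
  classical
  have hrange : Algebra.adjoin K (Set.range s) = (aeval s : MvPolynomial ι K →ₐ[K] E).range :=
    Algebra.adjoin_range_eq_range_aeval K s
  -- a section of `aeval s` on the adjoin
  have hsec : ∀ x : Algebra.adjoin K (Set.range s), ∃ p : MvPolynomial ι K, aeval s p = (x : E) := by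
    intro x
    have hx : (x : E) ∈ (aeval s : MvPolynomial ι K →ₐ[K] E).range := hrange ▸ x.2
    exact hx
  choose sec hsec' using hsec
  have key : ∀ (p : MvPolynomial ι K) (x : Algebra.adjoin K (Set.range s)),
      (x : E) = aeval s p → Φ (sec x) = Φ p := by
    intro p x hx
    have : aeval s (sec x - p) = 0 := by rw [map_sub, hsec', hx, sub_self]
    have := h _ this
    rwa [map_sub, sub_eq_zero] at this
  refine ⟨{ toFun := fun x => Φ (sec x), map_one' := ?_, map_mul' := ?_, map_zero' := ?_,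
            map_add' := ?_ }, fun p x hx => key p x hx⟩
  · rw [key 1 1 (by simp), map_one]
  · intro x y
    rw [key (sec x * sec y) (x * y) (by simp [hsec']), map_mul]
  · rw [key 0 0 (by simp), map_zero]
  · intro x y
    rw [key (sec x + sec y) (x + y) (by simp [hsec']), map_add]

open scoped IntermediateField.algebraAdjoinAdjoin in
/-- **Lift.** If `Φ : MvPolynomial ι K →+* L` has the same kernel as evaluation at `s : ι → E`,
it induces a ring hom from the field `K(s)` to `L`. -/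
theorem exists_lift (s : ι → E) (F' : IntermediateField K E)
    (hF : F' = IntermediateField.adjoin K (Set.range s))
    (Φ : MvPolynomial ι K →+* L) (h : ∀ p, Φ p = 0 ↔ aeval s p = 0) :
    ∃ σ : F' →+* L, ∀ (p : MvPolynomial ι K) (x : F'), (x : E) = aeval s p → σ x = Φ p := by
  subst hF
  obtain ⟨g, hg⟩ := exists_ringHom_adjoin s Φ (fun p hp => (h p).2 hp)
  have hginj : Function.Injective g := by
    rw [injective_iff_map_eq_zero]
    intro x hx
    obtain ⟨p, hp⟩ : ∃ p : MvPolynomial ι K, aeval s p = (x : E) := by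
      have hx' : (x : E) ∈ (aeval s : MvPolynomial ι K →ₐ[K] E).range :=
        (Algebra.adjoin_range_eq_range_aeval K s) ▸ x.2
      exact hx'
    have h1 : Φ p = 0 := by rw [← hg p x hp.symm, hx]
    have h2 := (h p).1 h1
    exact Subtype.ext (by rw [← hp, h2]; rfl)
  refine ⟨IsFractionRing.lift (A := Algebra.adjoin K (Set.range s)) hginj, fun p x hx => ?_⟩
  have hxmem : (x : E) ∈ Algebra.adjoin K (Set.range s) := by
    rw [hx, Algebra.adjoin_range_eq_range_aeval]
    exact ⟨p, rfl⟩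
  have hx' : x = algebraMap (Algebra.adjoin K (Set.range s))
      (IntermediateField.adjoin K (Set.range s)) ⟨(x : E), hxmem⟩ := Subtype.ext rfl
  rw [hx', IsFractionRing.lift_algebraMap]
  exact hg p _ hx

end Fermat.Agent.S24.H368

end
end
-- ===== PACK-END S24/Mod/H368Lift.lean

-- ===== PACK-BEGIN Ribet/Spec.lean
section













/-!
# Row RIBET (S38/S43, S39/S40/S44, S45): interface statements

Row-lead file (helper943).  Everything here is a `Prop`-valued *definition*: no proofs, no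
`sorry`.  Owners prove `theorem foo : Spec.FooStatement`; glue consumes the statements as
hypotheses.  Plan, layers and owners: `coord/RIBET.md` on branch `origin/helper943`.

Layers
* L0  frozen statements of this row and of the rows it consumes, as `Prop`s;
* L1  eigenform-level interfaces (Frey form): model transport, Mazur principle at `q ≠ p`,
      Mazur-Ribet at `p`, auxiliary prime, old/new dichotomy, Ribet pivot;
* L3  geometric interfaces on `J₀(N)(ℚ̄)` requested from rows A2 / A3 / S29.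
-/

set_option autoImplicit false

open WeierstrassCurve WeierstrassCurve.Affine WeierstrassCurve.Affine.Point
open CuspForm ModularFormClass UpperHalfPlane

namespace Fermat.Agent.Ribet.Spec

/-- Absolute Galois group of `ℚ`. -/
abbrev GQ : Type := AlgebraicClosure ℚ ≃ₐ[ℚ] AlgebraicClosure ℚ

/-! ## L0. Frozen statements, as Props -/

/-- Frozen S43 (row 37, Frey form). -/
def S43Statement : Prop :=
  ∀ (P : FreyPackage) {N q : ℕ}, P.IsConductorLevel N → q.Prime → q ≠ 2 → q ≠ P.p → q ∣ N →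
    GaloisRepIsIrreducible (K := AlgebraicClosure ℚ) ℚ P.freyCurve P.p →
    P.ModularRepOfLevel N → P.GaloisRepUnramifiedAt q →
    ∃ M : ℕ, M ∣ N ∧ ¬ q ∣ M ∧ P.ModularRepOfLevel M

/-- Frozen S44 (row 38, Frey form). -/
def S44Statement : Prop :=
  ∀ (P : FreyPackage) {N : ℕ}, P.IsConductorLevel N → P.p ∣ N →
    GaloisRepIsIrreducible (K := AlgebraicClosure ℚ) ℚ P.freyCurve P.p →
    P.ModularRepOfLevel N →
    ∃ M : ℕ, M ∣ N ∧ ¬ P.p ∣ M ∧ P.ModularRepOfLevel M

/-- Frozen S39 (row 38, peu ramifié form). -/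
def S39Statement : Prop :=
  ∀ (W : WeierstrassCurve ℤ), W.Δ ≠ 0 → ∀ {p : ℕ}, p.Prime → p ≠ 2 →
    ((p : ℤ) ∣ W.Δ → ¬ (p : ℤ) ∣ W.c₄) → W.ModRepIsIrreducible p →
    (W.map (Int.castRingHom ℚ)).IsPeuRamifieeAt p p →
    ∀ {M : ℕ}, 0 < M → p ∣ M → ¬ p ^ 2 ∣ M → W.IsResiduallyModularOfLevel p M →
    W.IsResiduallyModularOfLevel p (M / p)

/-- Frozen S40 (row 38, good reduction form). -/
def S40Statement : Prop :=
  ∀ (W : WeierstrassCurve ℤ), W.Δ ≠ 0 → ∀ {p : ℕ}, p.Prime → p ≠ 2 →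
    W.IsGoodPrimeFor p → W.ModRepIsIrreducible p →
    ∀ {M : ℕ}, 0 < M → p ∣ M → ¬ p ^ 2 ∣ M → W.IsResiduallyModularOfLevel p M →
    W.IsResiduallyModularOfLevel p (M / p)

/-- Frozen S45. -/
def S45Statement : Prop :=
  ∀ (P : FreyPackage), P.freyCurve.IsModular →
    GaloisRepIsIrreducible (K := AlgebraicClosure ℚ) ℚ P.freyCurve P.p →
    ∃ f : CuspForm (CongruenceSubgroup.Gamma0 2) 2, f ≠ 0

/-- Frozen S05 (landed on main as `Fermat.Agent.S05.result`). -/
def S05Statement : Prop :=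
  ∀ (P : FreyPackage) {q : ℕ}, q.Prime → q ≠ 2 → q ≠ P.p → P.GaloisRepUnramifiedAt q

/-- Frozen S06 (glue row; consumed by S45). -/
def S06Statement : Prop :=
  ∀ (P : FreyPackage), ∃ N : ℕ, P.IsConductorLevel N ∧ P.ModularRepOfLevel N

/-- Frozen S42 (row S29/S42). -/
def S42Statement : Prop :=
  ∀ (P : FreyPackage) (M : ℕ), 0 < M → P.EigenformResidualAttachmentAt M

/-- Level raising in the Frey form of the Prelude (`FreyPackage.LevelRaising`); this is what
frozen S41 gives after unfolding `IsCongruentWitness` (adapter = piece G4). -/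
def LevelRaisingStatement : Prop :=
  ∀ (P : FreyPackage) (N q' : ℕ), P.LevelRaising N q'

/-! ## L1. Eigenform-level interfaces -/

/-- (G1a) ELEMENTARY.  When `p ∣ abc` the Frey curve has an integral model which is
semistable at `p` and peu ramifié at `p` (`v_p(Δ) = 2p·v_p(abc)`; take `P.freyCurveInt`). -/
def FreyModelAtPStatement : Prop :=
  ∀ (P : FreyPackage), (P.p : ℤ) ∣ P.a * P.b * P.c →
    ∃ W : WeierstrassCurve ℤ, W.IsIntegralModelOf P.freyCurve ∧ W.Δ ≠ 0 ∧
      ((P.p : ℤ) ∣ W.Δ → ¬ (P.p : ℤ) ∣ W.c₄) ∧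
      (W.map (Int.castRingHom ℚ)).IsPeuRamifieeAt P.p P.p

/-- (G1b) ELEMENTARY.  Irreducibility of the mod-`n` representation only depends on the
`ℚ`-isomorphism class. -/
def IrrTransportStatement : Prop :=
  ∀ (E : WeierstrassCurve ℚ) (W : WeierstrassCurve ℤ) (n : ℕ), W.IsIntegralModelOf E →
    GaloisRepIsIrreducible (K := AlgebraicClosure ℚ) ℚ E n → W.ModRepIsIrreducible n

/-- (G1c) ELEMENTARY.  An integral model of the Frey curve is bad at every odd prime
dividing `abc` (`j`-invariant is not `q`-integral). -/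
def FreyBadPrimeStatement : Prop :=
  ∀ (P : FreyPackage) (W : WeierstrassCurve ℤ) (q : ℕ), W.IsIntegralModelOf P.freyCurve →
    q.Prime → q ≠ 2 → (q : ℤ) ∣ P.a * P.b * P.c → ¬ W.IsGoodPrimeFor q

/-- (G2) MODEL TRANSPORT.  A congruence witness for one integral model of the Frey curve is
a congruence witness for every integral model.  Inputs: frozen S42 + `Lib/Cheb` Tier 1 + the
trace formula `a_ℓ(W) ≡ tr(Frob_ℓ | E[p])`. -/
def ModelTransportStatement : Prop :=
  ∀ (P : FreyPackage) (N : ℕ), 0 < N → P.ModularRepOfLevel N →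
    ∀ W : WeierstrassCurve ℤ, W.IsIntegralModelOf P.freyCurve →
      W.IsResiduallyModularOfLevel P.p N

/-- (TF) TRACE FORMULA.  For an integral model `W` of `E`, a prime `ℓ ≠ n` of good reduction
of `W` and any Frobenius `τ` at a place over `ℓ`, the trace of `τ` on `E[n]` is `a_ℓ(W)`.
(Shared with rows S52 / S29-S42.) -/
def TraceFormulaStatement : Prop :=
  ∀ (E : WeierstrassCurve ℚ) [E.IsElliptic] (W : WeierstrassCurve ℤ), W.IsIntegralModelOf E →
    ∀ (n ℓ : ℕ), n.Prime → ℓ.Prime → ℓ ≠ n → W.IsGoodPrimeFor ℓ →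
    ∀ A : ValuationSubring (AlgebraicClosure ℚ), A.LiesOverPrime ℓ →
    ∀ τ : GQ, A.IsFrobeniusAt τ ℓ →
      galoisTrace (S := ℚ) (K := AlgebraicClosure ℚ) E n τ = ((W.apOfModel ℓ : ℤ) : ZMod n)

/-- (MPq) MAZUR'S PRINCIPLE at `q ≠ p`, Frey form, general level `L` with `q ‖ L`,
for `q ≢ 1 mod p`. -/
def MazurPrincipleStatement : Prop :=
  ∀ (P : FreyPackage) {L q : ℕ}, 0 < L → q.Prime → q ≠ P.p → q ∣ L → ¬ q ^ 2 ∣ L →
    GaloisRepIsIrreducible (K := AlgebraicClosure ℚ) ℚ P.freyCurve P.p →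
    P.ModularRepOfLevel L → P.GaloisRepUnramifiedAt q → ¬ P.p ∣ q - 1 →
    P.ModularRepOfLevel (L / q)

/-- (MPq-weak) the same with the weaker exclusion `q ≢ ±1 mod p` (what the Prelude predicate
`ToricFrobeniusSq` gives). -/
def MazurPrincipleWeakStatement : Prop :=
  ∀ (P : FreyPackage) {L q : ℕ}, 0 < L → q.Prime → q ≠ P.p → q ∣ L → ¬ q ^ 2 ∣ L →
    GaloisRepIsIrreducible (K := AlgebraicClosure ℚ) ℚ P.freyCurve P.p →
    P.ModularRepOfLevel L → P.GaloisRepUnramifiedAt q → ¬ P.p ∣ q - 1 → ¬ P.p ∣ q + 1 →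
    P.ModularRepOfLevel (L / q)

/-- (AUX) AUXILIARY PRIME.  For every integral model `W` there is a prime `q'` of good
reduction of `W`, not dividing `N`, with `q' ≡ -1 mod p` and `a_{q'}(W) ≡ 0 mod p`
(Frobenius at `q'` = complex conjugation on `ℚ(E[p])`; `Lib/Cheb` Tier 1 + TF + det = cyclotomic). -/
def AuxPrimeStatement : Prop :=
  ∀ (P : FreyPackage) (N : ℕ) (W : WeierstrassCurve ℤ), 0 < N →
    W.IsIntegralModelOf P.freyCurve →
    GaloisRepIsIrreducible (K := AlgebraicClosure ℚ) ℚ P.freyCurve P.p →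
    ∃ q' : ℕ, q'.Prime ∧ ¬ q' ∣ N ∧ q' ≠ P.p ∧ q' ≠ 2 ∧ W.IsGoodPrimeFor q' ∧
      P.p ∣ q' + 1 ∧ (P.p : ℤ) ∣ W.apOfModel q'

/-- (ON) OLD/NEW DICHOTOMY (Atkin-Lehner; NEWFORM lib).  A normalised eigenform of level `L`
with `q ‖ L` either has `a_q² = 1` or its eigensystem away from `L` occurs at level `L / q`. -/
def OldNewStatement : Prop :=
  ∀ (L q : ℕ), 0 < L → q.Prime → q ∣ L → ¬ q ^ 2 ∣ L →
    ∀ g : CuspForm (CongruenceSubgroup.Gamma0 L) 2, g.IsNormalizedEigenform →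
      g.IsNewAt q ∨
      ∃ g' : CuspForm (CongruenceSubgroup.Gamma0 (L / q)) 2, g'.IsNormalizedEigenform ∧
        ∀ ℓ : ℕ, ℓ.Prime → ¬ ℓ ∣ L → qCoeff g' ℓ = qCoeff g ℓ

/-- (PIV) RIBET'S PIVOT = THE SHIMURA-CURVE WALL.  A witness of level `L` which is new at two
distinct primes `q, q' ‖ L` (both `≠ p`), with the representation unramified at `q`, gives a
witness of level `L / q`.  (Cerednik-Drinfeld + Ribet's exact sequence of character groups.) -/
def RibetPivotStatement : Prop :=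
  ∀ (P : FreyPackage) {L q q' : ℕ}, 0 < L → q.Prime → q'.Prime → q ≠ q' → q ≠ P.p → q' ≠ P.p →
    q ∣ L → ¬ q ^ 2 ∣ L → q' ∣ L → ¬ q' ^ 2 ∣ L →
    GaloisRepIsIrreducible (K := AlgebraicClosure ℚ) ℚ P.freyCurve P.p →
    P.GaloisRepUnramifiedAt q →
    ∀ (g : CuspForm (CongruenceSubgroup.Gamma0 L) 2) (W : WeierstrassCurve ℤ)
      (𝔪 : Ideal (integralClosure ℤ ℂ)),
      P.IsCongruentWitness L g W 𝔪 → g.IsNewAt q → g.IsNewAt q' →
      P.ModularRepOfLevel (L / q)

/-! ## L3. Geometric interfaces on `J₀(N)(ℚ̄)` (requests to rows A2, A3, S29)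

Conventions: `J₀(N) = ModularCurve.JZero N` with its Prelude Galois action; the Hecke operator
at a prime `ℓ` is `ModularCurve.heckeOperatorBar N ℓ`.  `E[p]` is
`Submodule.torsionBy ℤ (P.freyCurve⁄ℚ̄).Point P.p`.  All eigenvalues are integers acting by
`zsmul` (the eigensystem of `E[p]` is `𝔽_p`-valued, so no tensor products are needed). -/

open ModularCurve

/-- `E[p]` for the Frey curve. -/
abbrev FreyTorsion (P : FreyPackage) : Type :=
  Submodule.torsionBy ℤ (P.freyCurve⁄(AlgebraicClosure ℚ)).Point P.p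

/-- "The eigensystem `a` (integers, taken mod `p`) occurs in `J₀(N)[p]` away from `S`". -/
def OccursIn (N p : ℕ) [NeZero N] (S : Finset ℕ) (a : ℕ → ℤ) : Prop :=
  ∃ x : JZero N, x ≠ 0 ∧ p • x = 0 ∧
    ∀ ℓ : Nat.Primes, (ℓ : ℕ) ∉ S → heckeOperatorBar N ℓ x = a ℓ • x

/-- A Galois- and Hecke-equivariant embedding of `E[p]` into `J₀(N)`, away from `S`. -/
def FreyEmbedsIn (P : FreyPackage) (N : ℕ) [NeZero N] (S : Finset ℕ) (a : ℕ → ℤ) : Prop :=
  ∃ ι : FreyTorsion P →+ JZero N, Function.Injective ι ∧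
    (∀ (σ : GQ) (x : FreyTorsion P), ι (σ • x) = σ • ι x) ∧
    ∀ ℓ : Nat.Primes, (ℓ : ℕ) ∉ S → ∀ x : FreyTorsion P,
      heckeOperatorBar N ℓ (ι x) = a ℓ • ι x

/-- (BLR) [row S29/S42 + S37 + Tier 1]  Boston-Lenstra-Ribet: a congruence witness of level `N`
for an irreducible `E[p]` gives an equivariant embedding `E[p] ↪ J₀(N)[p]`, with `T_ℓ` acting
through `a_ℓ(W)` for all `ℓ` outside a finite set. -/
def EmbedStatement : Prop :=
  ∀ (P : FreyPackage) (N : ℕ) [NeZero N],
    GaloisRepIsIrreducible (K := AlgebraicClosure ℚ) ℚ P.freyCurve P.p →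
    ∀ (f : CuspForm (CongruenceSubgroup.Gamma0 N) 2) (W : WeierstrassCurve ℤ)
      (𝔪 : Ideal (integralClosure ℤ ℂ)), P.IsCongruentWitness N f W 𝔪 →
      ∃ S : Finset ℕ, FreyEmbedsIn P N S (fun ℓ => W.apOfModel ℓ)

/-- (R3) [row S29 dictionary + S21 + Deligne-Serre lifting]  An eigensystem occurring in
`J₀(M)[p]` away from a finite set `S` is the reduction of a normalised eigenform of level `M`
(congruence for the primes outside `S`). -/
def EigenformOfOccursStatement : Prop :=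
  ∀ (M p : ℕ) [NeZero M], p.Prime → ∀ (S : Finset ℕ) (a : ℕ → ℤ), OccursIn M p S a →
    ∃ (g : CuspForm (CongruenceSubgroup.Gamma0 M) 2) (𝔪 : Ideal (integralClosure ℤ ℂ)),
      g.IsNormalizedEigenform ∧ 𝔪.IsMaximal ∧ (p : integralClosure ℤ ℂ) ∈ 𝔪 ∧
      ∀ ℓ : ℕ, ℓ.Prime → ℓ ∉ S →
        ∃ b : integralClosure ℤ ℂ, (b : ℂ) = qCoeff g ℓ ∧
          b - ((a ℓ : ℤ) : integralClosure ℤ ℂ) ∈ 𝔪

/-- (R3') [S42 + Tier 1 + TF]  Upgrade "congruent outside a finite set `S`" to a congruence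
witness (all good primes not dividing `M·p`). -/
def AlmostAllToWitnessStatement : Prop :=
  ∀ (P : FreyPackage) (M : ℕ), 0 < M →
    ∀ (g : CuspForm (CongruenceSubgroup.Gamma0 M) 2) (W : WeierstrassCurve ℤ)
      (𝔪 : Ideal (integralClosure ℤ ℂ)) (S : Finset ℕ),
      g.IsNormalizedEigenform → W.IsIntegralModelOf P.freyCurve → 𝔪.IsMaximal →
      (P.p : integralClosure ℤ ℂ) ∈ 𝔪 →
      (∀ ℓ : ℕ, ℓ.Prime → ℓ ∉ S →
        ∃ b : integralClosure ℤ ℂ, (b : ℂ) = qCoeff g ℓ ∧
          b - ((W.apOfModel ℓ : ℤ) : integralClosure ℤ ℂ) ∈ 𝔪) →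
      P.IsCongruentWitness M g W 𝔪

/-- (A2+) TORIC PACKAGE at `q ‖ N = q·M'`, for `p`-torsion, `p ≠ q` [row A2, helper13].
At a place `A` over `q` there are subgroups `𝒯 ≤ 𝓕` of the inertia-fixed `p`-torsion of
`J₀(qM')` ("toric part" and "finite part") such that
* `J[p]^I / 𝓕` is Eisenstein (`T_ℓ - ℓ - 1` maps `J[p]^I` into `𝓕`; component group),
* `𝓕 / 𝒯` embeds Hecke-equivariantly (away from `q·M'·p`) in `J₀(M')²` ("abelian part"),
* Frobenius at `A` preserves `𝒯` and acts on it as `q·u` with `u` an involution commuting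
  with Galois and Hecke (`u = U_q`); in particular `φ² = q²` (`ToricFrobeniusSq`). -/
def ToricPackageStatement : Prop :=
  ∀ (M' q p : ℕ) [NeZero M'] [NeZero (q * M')], q.Prime → p.Prime → q ≠ p → ¬ q ∣ M' →
    ∀ A : ValuationSubring (AlgebraicClosure ℚ), A.LiesOverPrime q →
    ∃ (𝒯 𝓕 : AddSubgroup (JZero (q * M'))) (β : 𝓕 →+ JZero M' × JZero M')
      (u : JZero (q * M') →+ JZero (q * M')),
      𝒯 ≤ 𝓕 ∧
      (∀ x ∈ 𝓕, p • x = 0 ∧ ∀ σ ∈ A.inertiaSubgroupIn ℚ, σ • x = x) ∧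
      (∀ x : JZero (q * M'), p • x = 0 → (∀ σ ∈ A.inertiaSubgroupIn ℚ, σ • x = x) →
        ∀ ℓ : Nat.Primes, ¬ (ℓ : ℕ) ∣ q * M' * p →
          heckeOperatorBar (q * M') ℓ x - ((ℓ : ℕ) + 1) • x ∈ 𝓕) ∧
      (∀ ℓ : Nat.Primes, ¬ (ℓ : ℕ) ∣ q * M' * p → ∀ x : 𝓕,
        ∃ hx : heckeOperatorBar (q * M') ℓ (x : JZero (q * M')) ∈ 𝓕,
          β ⟨_, hx⟩ = (heckeOperatorBar M' ℓ (β x).1, heckeOperatorBar M' ℓ (β x).2)) ∧
      (∀ x : 𝓕, β x = 0 → (x : JZero (q * M')) ∈ 𝒯) ∧
      (∀ (σ : GQ) (x : JZero (q * M')), u (σ • x) = σ • u x) ∧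
      (∀ (ℓ : Nat.Primes) (x : JZero (q * M')),
        u (heckeOperatorBar (q * M') ℓ x) = heckeOperatorBar (q * M') ℓ (u x)) ∧
      (∀ x ∈ 𝒯, u (u x) = x) ∧
      (∀ φ : GQ, A.IsFrobeniusAt φ q → ∀ x ∈ 𝒯, φ • x = q • u x)

/-- (A3+) AT-`p` PACKAGE at `p ‖ N = p·M'` [rows A3 (helper15) + A2 (helper13)].
At a place `A` over `p` there are subgroups `𝒲 ≤ 𝓕 ≤ J₀(pM')[p]` ("multiplicative-type part"
and "finite part") such that
* inertia acts on `𝒲` through the mod-`p` cyclotomic character (`MultiplicativeType`),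
  encoded as: `σ x = c • x` whenever `σ ζ = ζ ^ c` for all `p`-th roots of unity `ζ`;
* `𝓕 / 𝒲` embeds Hecke-equivariantly (away from `M'·p`) in `J₀(M')²`;
* (FLAT ⇒ FINITE) the image of every Galois-equivariant map `E[p] → J₀(pM')[p]` lies in `𝓕`,
  when `E` is the Frey curve and `p ∣ abc` (Tate curve, peu ramifié). -/
def AtPPackageStatement : Prop :=
  ∀ (P : FreyPackage) (M' : ℕ) [NeZero M'] [NeZero (P.p * M')], ¬ P.p ∣ M' →
    (P.p : ℤ) ∣ P.a * P.b * P.c →
    ∀ A : ValuationSubring (AlgebraicClosure ℚ), A.LiesOverPrime P.p →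
    ∃ (𝒲 𝓕 : AddSubgroup (JZero (P.p * M'))) (β : 𝓕 →+ JZero M' × JZero M'),
      𝒲 ≤ 𝓕 ∧
      (∀ x ∈ 𝓕, P.p • x = 0) ∧
      (∀ σ ∈ A.inertiaSubgroupIn ℚ, ∀ c : ℕ,
        (∀ ζ : AlgebraicClosure ℚ, ζ ^ P.p = 1 → σ ζ = ζ ^ c) → ∀ x ∈ 𝒲, σ • x = c • x) ∧
      (∀ ℓ : Nat.Primes, ¬ (ℓ : ℕ) ∣ M' * P.p → ∀ x : 𝓕,
        ∃ hx : heckeOperatorBar (P.p * M') ℓ (x : JZero (P.p * M')) ∈ 𝓕,
          β ⟨_, hx⟩ = (heckeOperatorBar M' ℓ (β x).1, heckeOperatorBar M' ℓ (β x).2)) ∧
      (∀ x : 𝓕, β x = 0 → (x : JZero (P.p * M')) ∈ 𝒲) ∧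
      (∀ ι : FreyTorsion P →+ JZero (P.p * M'),
        (∀ (σ : GQ) (x : FreyTorsion P), ι (σ • x) = σ • ι x) → ∀ x, ι x ∈ 𝓕)

/-- (NMT) [Weil pairing: `det = cyclotomic`, Prelude `GaloisRepDetEqCyclotomic`]  `E[p]` is not
of multiplicative type at `p`: inertia at `p` does not act on all of `E[p]` through the
cyclotomic scalar (otherwise `det = χ²` on inertia, but `det = χ ≠ 1` there, `p ≥ 3`). -/
def NotMultiplicativeTypeStatement : Prop :=
  ∀ (P : FreyPackage) (A : ValuationSubring (AlgebraicClosure ℚ)), A.LiesOverPrime P.p →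
    ¬ ∀ σ ∈ A.inertiaSubgroupIn ℚ, ∀ c : ℕ,
      (∀ ζ : AlgebraicClosure ℚ, ζ ^ P.p = 1 → σ ζ = ζ ^ c) →
      ∀ x : FreyTorsion P, σ • x = c • x

/-- (DETF) [Weil pairing]  The determinant of a Frobenius at `q ≠ p` on `E[p]` is `q`. -/
def DetFrobStatement : Prop :=
  ∀ (P : FreyPackage) (q : ℕ), q.Prime → q ≠ P.p →
    ∀ A : ValuationSubring (AlgebraicClosure ℚ), A.LiesOverPrime q →
    ∀ φ : GQ, A.IsFrobeniusAt φ q →
      LinearMap.det (galoisRepModuleEnd (S := ℚ) (K := AlgebraicClosure ℚ) P.freyCurve P.p φ)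
        = (q : ZMod P.p)

/-- (DIM) `E[p]` has rank two over `𝔽_p` (landed libs only have `card ≤ p²`). -/
def TorsionRankStatement : Prop :=
  ∀ (P : FreyPackage), Module.finrank (ZMod P.p) (FreyTorsion P) = 2

/-- (NE) NON-EISENSTEIN [Tier 1 + TF + elementary group theory]  An irreducible `E[p]` has,
outside any finite set, a good prime `ℓ` with `a_ℓ(W) ≢ ℓ + 1 mod p`. -/
def NonEisensteinStatement : Prop :=
  ∀ (P : FreyPackage) (W : WeierstrassCurve ℤ), W.IsIntegralModelOf P.freyCurve →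
    GaloisRepIsIrreducible (K := AlgebraicClosure ℚ) ℚ P.freyCurve P.p →
    ∀ S : Finset ℕ, ∃ ℓ : ℕ, ℓ.Prime ∧ ℓ ∉ S ∧ W.IsGoodPrimeFor ℓ ∧
      ¬ (P.p : ℤ) ∣ W.apOfModel ℓ - (ℓ + 1)

/-- (PL) [Tier 1 lib / Mathlib]  Places and Frobenius elements exist. -/
def PlacesStatement : Prop :=
  ∀ q : ℕ, q.Prime → ∃ A : ValuationSubring (AlgebraicClosure ℚ), A.LiesOverPrime q ∧
    ∃ φ : GQ, A.IsFrobeniusAt φ q

end Fermat.Agent.Ribet.Spec

end
-- ===== PACK-END Ribet/Spec.lean

-- ===== PACK-BEGIN S05/XId.lean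
section


/-!
# x-coordinate identities for the affine group law (S05 helper library)

For nonsingular affine points `P = (x₁, y₁)`, `Q = (x₂, y₂)` with `x₁ ≠ x₂` on a Weierstrass
curve over a field, with `x₃ = x(P + Q)` and `x₄ = x(P - Q)`:

* `(x₁ - x₂)² (x₃ + x₄) = 2 x₁ x₂ (x₁ + x₂) + b₂ x₁ x₂ + b₄ (x₁ + x₂) + b₆`
* `(x₁ - x₂)² (x₃ x₄) = x₁² x₂² - b₄ x₁ x₂ - b₆ (x₁ + x₂) - b₈`

and the duplication formula
`x(2P) (4 x³ + b₂ x² + 2 b₄ x + b₆) = x⁴ - b₄ x² - 2 b₆ x - b₈`.
-/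

set_option autoImplicit false

namespace Fermat.Agent.S05.XId

open WeierstrassCurve WeierstrassCurve.Affine

variable {F : Type*} [Field F] (W : Affine F)

/-- numerator of `x(P+Q) + x(P-Q)` -/
def sumNum (x₁ x₂ : F) : F :=
  2 * x₁ * x₂ * (x₁ + x₂) + W.b₂ * x₁ * x₂ + W.b₄ * (x₁ + x₂) + W.b₆

/-- numerator of `x(P+Q) * x(P-Q)` -/
def prodNum (x₁ x₂ : F) : F :=
  x₁ ^ 2 * x₂ ^ 2 - W.b₄ * x₁ * x₂ - W.b₆ * (x₁ + x₂) - W.b₈

/-- denominator of the duplication formula, `ψ₂² = 4x³ + b₂x² + 2b₄x + b₆` -/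
def dblDen (x : F) : F :=
  4 * x ^ 3 + W.b₂ * x ^ 2 + 2 * W.b₄ * x + W.b₆

/-- numerator of the duplication formula -/
def dblNum (x : F) : F :=
  x ^ 4 - W.b₄ * x ^ 2 - 2 * W.b₆ * x - W.b₈

lemma addX_div (x₁ x₂ n d : F) (hd : d ≠ 0) :
    d ^ 2 * W.addX x₁ x₂ (n / d) = n ^ 2 + W.a₁ * d * n - (W.a₂ + x₁ + x₂) * d ^ 2 := by
  simp only [addX]
  field_simp
  ring

/-- `ψ₂(P)² = 4x³ + b₂x² + 2b₄x + b₆` on the curve, where `ψ₂(P) = y - negY x y = 2y + a₁x + a₃`. -/
lemma sub_negY_sq {x y : F} (h : W.Equation x y) :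
    (y - W.negY x y) ^ 2 = dblDen W x := by
  rw [Affine.equation_iff] at h
  simp only [negY, dblDen, WeierstrassCurve.b₂, WeierstrassCurve.b₄, WeierstrassCurve.b₆]
  linear_combination 4 * h

section

variable [DecidableEq F]

lemma addX_sum {x₁ x₂ y₁ y₂ : F} (h₁ : W.Equation x₁ y₁) (h₂ : W.Equation x₂ y₂)
    (hx : x₁ ≠ x₂) :
    (x₁ - x₂) ^ 2 * (W.addX x₁ x₂ (W.slope x₁ x₂ y₁ y₂) +
        W.addX x₁ x₂ (W.slope x₁ x₂ y₁ (W.negY x₂ y₂))) = sumNum W x₁ x₂ := by
  rw [Affine.equation_iff] at h₁ h₂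
  have hd : x₁ - x₂ ≠ 0 := sub_ne_zero.mpr hx
  rw [slope_of_X_ne hx, slope_of_X_ne hx, mul_add, addX_div W _ _ _ _ hd,
    addX_div W _ _ _ _ hd]
  simp only [negY, sumNum, WeierstrassCurve.b₂, WeierstrassCurve.b₄, WeierstrassCurve.b₆]
  linear_combination 2 * h₁ + 2 * h₂

lemma addX_prod {x₁ x₂ y₁ y₂ : F} (h₁ : W.Equation x₁ y₁) (h₂ : W.Equation x₂ y₂)
    (hx : x₁ ≠ x₂) :
    (x₁ - x₂) ^ 2 * (W.addX x₁ x₂ (W.slope x₁ x₂ y₁ y₂) *
        W.addX x₁ x₂ (W.slope x₁ x₂ y₁ (W.negY x₂ y₂))) = prodNum W x₁ x₂ := by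
  rw [Affine.equation_iff] at h₁ h₂
  have hd : x₁ - x₂ ≠ 0 := sub_ne_zero.mpr hx
  have hd2 : (x₁ - x₂) ^ 2 ≠ 0 := pow_ne_zero 2 hd
  apply mul_left_cancel₀ hd2
  have e3 := addX_div W x₁ x₂ (y₁ - y₂) (x₁ - x₂) hd
  have e4 := addX_div W x₁ x₂ (y₁ - W.negY x₂ y₂) (x₁ - x₂) hd
  rw [slope_of_X_ne hx, slope_of_X_ne hx]
  have key : (x₁ - x₂) ^ 2 * ((x₁ - x₂) ^ 2 * (W.addX x₁ x₂ ((y₁ - y₂) / (x₁ - x₂)) *
      W.addX x₁ x₂ ((y₁ - W.negY x₂ y₂) / (x₁ - x₂)))) =
      ((x₁ - x₂) ^ 2 * W.addX x₁ x₂ ((y₁ - y₂) / (x₁ - x₂))) *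
      ((x₁ - x₂) ^ 2 * W.addX x₁ x₂ ((y₁ - W.negY x₂ y₂) / (x₁ - x₂))) := by ring
  rw [key, e3, e4]
  simp only [negY, prodNum, WeierstrassCurve.b₄, WeierstrassCurve.b₆, WeierstrassCurve.b₈]
  linear_combination
    (y₁ ^ 2 + y₁ * x₁ * W.a₁ + y₁ * W.a₃ - 2 * y₂ ^ 2 - 2 * y₂ * x₂ * W.a₁ - 2 * y₂ * W.a₃
      - x₁ ^ 3 + 2 * x₁ ^ 2 * x₂ - x₁ ^ 2 * W.a₂ + 2 * x₁ * x₂ ^ 2 + x₁ * x₂ * W.a₁ ^ 2
      + 4 * x₁ * x₂ * W.a₂ + x₁ * W.a₁ * W.a₃ + x₁ * W.a₄ - 2 * x₂ ^ 3 - x₂ ^ 2 * W.a₁ ^ 2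
      - 2 * x₂ ^ 2 * W.a₂ - x₂ * W.a₁ * W.a₃ + W.a₆) * h₁ +
    (y₂ ^ 2 + y₂ * x₂ * W.a₁ + y₂ * W.a₃ - 4 * x₁ ^ 3 + 2 * x₁ ^ 2 * x₂ - x₁ ^ 2 * W.a₁ ^ 2
      - 4 * x₁ ^ 2 * W.a₂ + 2 * x₁ * x₂ ^ 2 + x₁ * x₂ * W.a₁ ^ 2 + 4 * x₁ * x₂ * W.a₂
      - x₁ * W.a₁ * W.a₃ - 2 * x₁ * W.a₄ - x₂ ^ 3 - x₂ ^ 2 * W.a₂ + x₂ * W.a₁ * W.a₃
      + x₂ * W.a₄ - W.a₆) * h₂

lemma addX_dbl {x y : F} (h : W.Equation x y) (hy : y ≠ W.negY x y) :
    W.addX x x (W.slope x x y y) * dblDen W x = dblNum W x := by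
  have hd : y - W.negY x y ≠ 0 := sub_ne_zero.mpr hy
  rw [slope_of_Y_ne rfl hy, ← sub_negY_sq W h, mul_comm, addX_div W _ _ _ _ hd]
  rw [Affine.equation_iff] at h
  simp only [negY, dblNum, WeierstrassCurve.b₄, WeierstrassCurve.b₆, WeierstrassCurve.b₈]
  linear_combination (-8 * x - W.a₁ ^ 2 - 4 * W.a₂) * h


variable {W}

/-- `P + Q` and `P - Q` for affine points with distinct `x`-coordinates, with the sum and product
formulas for their `x`-coordinates. -/
theorem add_sub_some {x₁ x₂ y₁ y₂ : F} (h₁ : W.Nonsingular x₁ y₁) (h₂ : W.Nonsingular x₂ y₂)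
    (hx : x₁ ≠ x₂) :
    ∃ (x₃ y₃ x₄ y₄ : F) (h₃ : W.Nonsingular x₃ y₃) (h₄ : W.Nonsingular x₄ y₄),
      Point.some x₁ y₁ h₁ + Point.some x₂ y₂ h₂ = Point.some x₃ y₃ h₃ ∧
      Point.some x₁ y₁ h₁ - Point.some x₂ y₂ h₂ = Point.some x₄ y₄ h₄ ∧
      (x₁ - x₂) ^ 2 * (x₃ + x₄) = sumNum W x₁ x₂ ∧
      (x₁ - x₂) ^ 2 * (x₃ * x₄) = prodNum W x₁ x₂ := by
  have h₂' : W.Nonsingular x₂ (W.negY x₂ y₂) := (nonsingular_neg ..).mpr h₂
  refine ⟨_, _, _, _, nonsingular_add h₁ h₂ fun hxy => hx hxy.left,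
    nonsingular_add h₁ h₂' fun hxy => hx hxy.left, Point.add_of_X_ne hx, ?_,
    addX_sum W h₁.1 h₂.1 hx, addX_prod W h₁.1 h₂.1 hx⟩
  rw [sub_eq_add_neg, Point.neg_some, Point.add_of_X_ne hx]

/-- Duplication: if `P = (x, y)` is not 2-torsion then `2P = (x', y')` with
`x' * (4x³ + b₂x² + 2b₄x + b₆) = x⁴ - b₄x² - 2b₆x - b₈`. -/
theorem add_self_some {x y : F} (h : W.Nonsingular x y) (hy : y ≠ W.negY x y) :
    ∃ (x' y' : F) (h' : W.Nonsingular x' y'),
      Point.some x y h + Point.some x y h = Point.some x' y' h' ∧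
      x' * dblDen W x = dblNum W x ∧ dblDen W x ≠ 0 := by
  refine ⟨_, _, nonsingular_add h h fun hxy => hy hxy.right, Point.add_self_of_Y_ne hy,
    addX_dbl W h.1 hy, ?_⟩
  rw [← sub_negY_sq W h.1]
  exact pow_ne_zero 2 (sub_ne_zero.mpr hy)

omit [DecidableEq F] in
/-- If `P = (x, y)` is 2-torsion then `4x³ + b₂x² + 2b₄x + b₆ = 0`. -/
theorem dblDen_eq_zero_of_Y_eq {x y : F} (h : W.Equation x y) (hy : y = W.negY x y) :
    dblDen W x = 0 := by
  rw [← sub_negY_sq W h, sub_eq_zero.mpr hy]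
  ring

end

end Fermat.Agent.S05.XId

end
-- ===== PACK-END S05/XId.lean

-- ===== PACK-BEGIN Ribet/H403/DetLin.lean
section


/-!
# RIBET / DETF (helper403): the determinant from quadratic relations, pure linear algebra

`V` a vector space of dimension `2` over a field `k`.

* `det_eq_of_quadratic_of_not_scalar` : if `f² - a f + c = 0` and `f` is not a scalar then
  `det f = c` (Cayley–Hamilton).
* `det_eq_of_forall_quadratic` : if `ρ : G →* End V`, `χ : G →* kˣ`, every `ρ g` satisfies a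
  relation `ρ(g)² - a ρ(g) + χ(g) = 0` (for some `a` depending on `g`) and SOME `ρ h` is not a
  scalar, then `det ρ(g) = χ(g)` for all `g`.
-/

set_option autoImplicit false

namespace Fermat.Agent.Ribet.H403

open Polynomial

section LinAlg

variable {k V : Type*} [Field k] [AddCommGroup V] [Module k V] [Module.Finite k V]

/-- Cayley–Hamilton in dimension two, applied to a vector. -/
theorem cayley_hamilton_two (h2 : Module.finrank k V = 2) (f : Module.End k V) (x : V) :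
    f (f x) + f.charpoly.coeff 1 • f x + f.charpoly.coeff 0 • x = 0 := by
  have hmon : f.charpoly.Monic := LinearMap.charpoly_monic f
  have hdeg : f.charpoly.natDegree = 2 := by rw [LinearMap.charpoly_natDegree, h2]
  have hsum := hmon.as_sum
  rw [hdeg] at hsum
  have hch := LinearMap.aeval_self_charpoly f
  rw [hsum] at hch
  simp only [Finset.sum_range_succ, Finset.sum_range_zero, zero_add, pow_zero, mul_one, pow_one,
    map_add, map_pow, map_mul, aeval_X, aeval_C] at hch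
  have := congrArg (fun g : Module.End k V => g x) hch
  simp only [LinearMap.add_apply, LinearMap.zero_apply, Module.algebraMap_end_apply,
    Module.End.mul_apply, pow_two] at this
  rw [← this]
  abel

/-- If `f² - a f + c = 0` on a 2-dimensional space and `f` is not a scalar, then `det f = c`. -/
theorem det_eq_of_quadratic_of_not_scalar (h2 : Module.finrank k V = 2) (f : Module.End k V)
    (a c : k) (hrel : ∀ x, f (f x) - a • f x + c • x = 0)
    (hns : ¬ ∃ s : k, ∀ x, f x = s • x) : LinearMap.det f = c := by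
  have hCH := cayley_hamilton_two h2 f
  set u := f.charpoly.coeff 1 with hu
  set d := f.charpoly.coeff 0 with hd
  have hdiff : ∀ x, (u + a) • f x + (d - c) • x = 0 := by
    intro x
    have h1 := hCH x
    have h2' := hrel x
    have : (u + a) • f x + (d - c) • x
        = (f (f x) + u • f x + d • x) - (f (f x) - a • f x + c • x) := by
      rw [add_smul, sub_smul]; abel
    rw [this, h1, h2', sub_zero]
  have hua : u + a = 0 := by
    by_contra hne
    apply hns
    refine ⟨-(d - c) / (u + a), fun x => ?_⟩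
    have h := hdiff x
    have h3 : (u + a) • f x = -((d - c) • x) := eq_neg_of_add_eq_zero_left h
    have h4 : f x = (u + a)⁻¹ • ((u + a) • f x) := by
      rw [smul_smul, inv_mul_cancel₀ hne, one_smul]
    rw [h4, h3, ← neg_smul, smul_smul]
    congr 1
    field_simp
  have hnt : Nontrivial V := by
    apply Module.nontrivial_of_finrank_pos (R := k)
    rw [h2]; norm_num
  obtain ⟨x, hx⟩ := exists_ne (0 : V)
  have hdc : d = c := by
    have h := hdiff x
    rw [hua, zero_smul, zero_add] at h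
    rcases smul_eq_zero.1 h with h | h
    · exact sub_eq_zero.1 h
    · exact absurd h hx
  rw [LinearMap.det_eq_sign_charpoly_coeff, h2, ← hd, hdc]
  norm_num

/-- The determinant is the multiplier `χ` as soon as every element satisfies a quadratic relation
with constant term `χ` and one element is not a scalar. -/
theorem det_eq_of_forall_quadratic {G : Type*} [Group G] (h2 : Module.finrank k V = 2)
    (ρ : G →* Module.End k V) (χ : G →* kˣ)
    (hrel : ∀ g, ∃ a : k, ∀ x, ρ g (ρ g x) - a • ρ g x + (χ g : k) • x = 0)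
    (hns : ∃ h, ¬ ∃ s : k, ∀ x, ρ h x = s • x) (g : G) :
    LinearMap.det (ρ g) = (χ g : k) := by
  have key : ∀ g, (¬ ∃ s : k, ∀ x, ρ g x = s • x) → LinearMap.det (ρ g) = (χ g : k) := by
    intro g hg
    obtain ⟨a, ha⟩ := hrel g
    exact det_eq_of_quadratic_of_not_scalar h2 (ρ g) a (χ g) ha hg
  by_cases hg : ∃ s : k, ∀ x, ρ g x = s • x
  · obtain ⟨s, hs⟩ := hg
    obtain ⟨h, hh⟩ := hns
    have hnt : Nontrivial V := by
      apply Module.nontrivial_of_finrank_pos (R := k)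
      rw [h2]; norm_num
    have hs0 : s ≠ 0 := by
      rintro rfl
      obtain ⟨x, hx⟩ := exists_ne (0 : V)
      have h1 : ρ (g * g⁻¹) x = x := by rw [mul_inv_cancel, map_one]; rfl
      rw [map_mul, Module.End.mul_apply, hs, zero_smul] at h1
      exact hx h1.symm
    have hgh : ¬ ∃ t : k, ∀ x, ρ (g * h) x = t • x := by
      rintro ⟨t, ht⟩
      apply hh
      refine ⟨s⁻¹ * t, fun x => ?_⟩
      have h1 := ht x
      rw [map_mul, Module.End.mul_apply, hs] at h1
      rw [← smul_smul, ← h1, smul_smul, inv_mul_cancel₀ hs0, one_smul]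
    have e1 := key (g * h) hgh
    have e2 := key h hh
    rw [map_mul, map_mul, map_mul, e2, Units.val_mul] at e1
    exact mul_right_cancel₀ (χ h).ne_zero e1
  · exact key g hg

end LinAlg

end Fermat.Agent.Ribet.H403

end
-- ===== PACK-END Ribet/H403/DetLin.lean

-- ===== PACK-BEGIN Lib/Cheb/H761/Sieve.lean
section


/-!
# Euler products over the prime ideals of a Dedekind domain, sieve form

Let `R` be a Dedekind domain and `f : Ideal R → 𝕜` a summable, completely multiplicative function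
(`f (I * J) = f I * f J`, `f ⊤ = 1`).  For a set `S` of nonzero primes let `sieveSet S` be the set
of nonzero ideals divisible by no prime of `S`.  Then

* `tsum_sieve_finset` : `∑_{I ∈ sieveSet T} f I = ∏_{𝔭 ∈ T} (1 - f 𝔭) * ∑_{I ≠ 0} f I`
  for every finite set `T` of primes;
* `tendsto_tsum_sieve` : `∑_{I ∈ sieveSet T} f I → 1` along `T → all primes`;
* `tendsto_prod_one_sub` : `∏_{𝔭 ∈ T} (1 - f 𝔭) → (∑_{I ≠ 0} f I)⁻¹`, and `∑_{I ≠ 0} f I ≠ 0`.
-/

set_option autoImplicit false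

namespace Fermat.Agent.Lib.Cheb.H761

open IsDedekindDomain Filter Topology

section Sieve

set_option linter.unusedSectionVars false

variable {R : Type*} [CommRing R] [IsDedekindDomain R]

/-- nonzero ideals not divisible by any prime of `S` -/
def sieveSet (S : Set (HeightOneSpectrum R)) : Set (Ideal R) :=
  {I | I ≠ ⊥ ∧ ∀ 𝔭 ∈ S, ¬ I ≤ 𝔭.asIdeal}

lemma mem_sieveSet {S : Set (HeightOneSpectrum R)} {I : Ideal R} :
    I ∈ sieveSet S ↔ I ≠ ⊥ ∧ ∀ 𝔭 ∈ S, ¬ I ≤ 𝔭.asIdeal := Iff.rfl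

lemma mem_sieveSet_empty {I : Ideal R} :
    I ∈ sieveSet (∅ : Set (HeightOneSpectrum R)) ↔ I ≠ ⊥ := by
  simp [sieveSet]

lemma top_mem_sieveSet (S : Set (HeightOneSpectrum R)) : (⊤ : Ideal R) ∈ sieveSet S := by
  refine ⟨top_ne_bot, fun 𝔭 _ h => ?_⟩
  exact 𝔭.isPrime.ne_top (top_le_iff.mp h)

lemma sieveSet_anti {S T : Set (HeightOneSpectrum R)} (h : S ⊆ T) : sieveSet T ⊆ sieveSet S :=
  fun _ hI => ⟨hI.1, fun 𝔭 h𝔭 => hI.2 𝔭 (h h𝔭)⟩

lemma mul_mem_sieveSet {S : Set (HeightOneSpectrum R)} {𝔭 : HeightOneSpectrum R} (h𝔭 : 𝔭 ∉ S)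
    {J : Ideal R} (hJ : J ∈ sieveSet S) : 𝔭.asIdeal * J ∈ sieveSet S := by
  refine ⟨?_, fun 𝔮 h𝔮 hle => ?_⟩
  · rw [← Ideal.zero_eq_bot]
    exact mul_ne_zero (by rw [Ideal.zero_eq_bot]; exact 𝔭.ne_bot)
      (by rw [Ideal.zero_eq_bot]; exact hJ.1)
  · rcases 𝔮.isPrime.mul_le.mp hle with h | h
    · have : 𝔭 = 𝔮 := by
        apply HeightOneSpectrum.ext
        exact (𝔭.isMaximal.eq_of_le 𝔮.isPrime.ne_top h)
      exact h𝔭 (this ▸ h𝔮)
    · exact hJ.2 𝔮 h𝔮 h

lemma sieveSet_eq_union (S : Set (HeightOneSpectrum R)) {𝔭 : HeightOneSpectrum R} (h𝔭 : 𝔭 ∉ S) :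
    sieveSet S = sieveSet (insert 𝔭 S) ∪ (fun I => 𝔭.asIdeal * I) '' sieveSet S := by
  ext I
  constructor
  · intro hI
    by_cases hle : I ≤ 𝔭.asIdeal
    · right
      obtain ⟨J, rfl⟩ := Ideal.dvd_iff_le.mpr hle
      refine ⟨J, ⟨?_, fun 𝔮 h𝔮 hJ => ?_⟩, rfl⟩
      · rintro rfl
        exact hI.1 (by simp)
      · exact hI.2 𝔮 h𝔮 (Ideal.mul_le_right.trans hJ)
    · left
      refine ⟨hI.1, fun 𝔮 h𝔮 => ?_⟩
      rcases Set.mem_insert_iff.mp h𝔮 with rfl | h
      · exact hle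
      · exact hI.2 𝔮 h
  · rintro (hI | ⟨J, hJ, rfl⟩)
    · exact sieveSet_anti (Set.subset_insert _ _) hI
    · exact mul_mem_sieveSet h𝔭 hJ

lemma disjoint_sieveSet_image (S : Set (HeightOneSpectrum R)) (𝔭 : HeightOneSpectrum R) :
    Disjoint (sieveSet (insert 𝔭 S)) ((fun I => 𝔭.asIdeal * I) '' sieveSet S) := by
  rw [Set.disjoint_left]
  rintro I hI ⟨J, -, rfl⟩
  exact hI.2 𝔭 (Set.mem_insert _ _) (show 𝔭.asIdeal * J ≤ 𝔭.asIdeal from Ideal.mul_le_left)

lemma injOn_mul (S : Set (HeightOneSpectrum R)) (𝔭 : HeightOneSpectrum R) :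
    Set.InjOn (fun I => 𝔭.asIdeal * I) (sieveSet S) := by
  intro I _ J _ h
  have h0 : 𝔭.asIdeal ≠ 0 := by rw [Ideal.zero_eq_bot]; exact 𝔭.ne_bot
  exact mul_left_cancel₀ h0 h

variable {𝕜 : Type*} [NormedField 𝕜] [CompleteSpace 𝕜] {f : Ideal R → 𝕜}

/-- One sieve step. -/
theorem tsum_sieve_insert (hf : Summable f) (hmul : ∀ I J, f (I * J) = f I * f J)
    (S : Set (HeightOneSpectrum R)) {𝔭 : HeightOneSpectrum R} (h𝔭 : 𝔭 ∉ S) :
    ∑' I : sieveSet (insert 𝔭 S), f I = (1 - f 𝔭.asIdeal) * ∑' I : sieveSet S, f I := by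
  have h1 : ∑' I : sieveSet S, f I =
      ∑' I : ↥(sieveSet (insert 𝔭 S) ∪ (fun I => 𝔭.asIdeal * I) '' sieveSet S), f I :=
    tsum_congr_set_coe f (sieveSet_eq_union S h𝔭)
  rw [(hf.subtype _).tsum_union_disjoint (disjoint_sieveSet_image S 𝔭) (hf.subtype _),
    tsum_image f (injOn_mul S 𝔭)] at h1
  simp only [hmul] at h1
  rw [tsum_mul_left] at h1
  linear_combination -h1

/-- Finitely many sieve steps. -/
theorem tsum_sieve_finset (hf : Summable f) (hmul : ∀ I J, f (I * J) = f I * f J)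
    (T : Finset (HeightOneSpectrum R)) :
    ∑' I : sieveSet (T : Set (HeightOneSpectrum R)), f I =
      (∏ 𝔭 ∈ T, (1 - f 𝔭.asIdeal)) * ∑' I : sieveSet (∅ : Set (HeightOneSpectrum R)), f I := by
  classical
  induction T using Finset.induction_on with
  | empty =>
    rw [Finset.prod_empty, one_mul]
    exact tsum_congr_set_coe f (by rw [Finset.coe_empty])
  | insert 𝔭 T h𝔭 ih =>
    rw [Finset.coe_insert, tsum_sieve_insert hf hmul _ (by simpa using h𝔭), ih,
      Finset.prod_insert h𝔭, mul_assoc]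

/-- Every nonzero proper ideal is contained in a nonzero prime. -/
lemma exists_le_heightOneSpectrum {I : Ideal R} (h0 : I ≠ ⊥) (h1 : I ≠ ⊤) :
    ∃ 𝔭 : HeightOneSpectrum R, I ≤ 𝔭.asIdeal := by
  obtain ⟨M, hM, hle⟩ := Ideal.exists_le_maximal I h1
  refine ⟨⟨M, hM.isPrime, ?_⟩, hle⟩
  rintro rfl
  exact h0 (le_bot_iff.mp hle)

/-- The sieved sums tend to `1`. -/
theorem tendsto_tsum_sieve (hf : Summable f) (h1 : f ⊤ = 1) :
    Tendsto (fun T : Finset (HeightOneSpectrum R) =>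
      ∑' I : sieveSet (T : Set (HeightOneSpectrum R)), f I) atTop (𝓝 1) := by
  classical
  rw [tendsto_nhds]
  intro e he_open he1
  have he0 : (fun x : 𝕜 => 1 + x) ⁻¹' e ∈ 𝓝 (0 : 𝕜) := by
    apply (continuous_const.add continuous_id).continuousAt.preimage_mem_nhds
    simpa using he_open.mem_nhds he1
  obtain ⟨A, hA⟩ := hf.tsum_vanishing he0
  -- a prime above each nonzero proper ideal of `A`
  let g : Ideal R → Finset (HeightOneSpectrum R) := fun I =>
    if h : I ≠ ⊥ ∧ I ≠ ⊤ then {(exists_le_heightOneSpectrum h.1 h.2).choose} else ∅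
  have hg : ∀ I, I ≠ ⊥ → I ≠ ⊤ → ∃ 𝔭 ∈ g I, I ≤ 𝔭.asIdeal := by
    intro I h0 h1
    refine ⟨(exists_le_heightOneSpectrum h0 h1).choose, ?_,
      (exists_le_heightOneSpectrum h0 h1).choose_spec⟩
    simp only [g, dif_pos (And.intro h0 h1), Finset.mem_singleton]
  rw [Filter.mem_atTop_sets]
  refine ⟨A.biUnion g, fun T hT => ?_⟩
  rw [Set.mem_preimage]
  -- split off the unit ideal
  have hsplit : sieveSet (T : Set (HeightOneSpectrum R)) =
      {⊤} ∪ (sieveSet (T : Set (HeightOneSpectrum R)) \ {⊤}) := by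
    rw [Set.union_sdiff_self, Set.union_eq_self_of_subset_left]
    exact Set.singleton_subset_iff.mpr (top_mem_sieveSet _)
  have hdisj : Disjoint ({⊤} : Set (Ideal R))
      (sieveSet (T : Set (HeightOneSpectrum R)) \ {⊤}) := Set.disjoint_sdiff_right
  have hsum : ∑' I : sieveSet (T : Set (HeightOneSpectrum R)), f I =
      1 + ∑' I : ↥(sieveSet (T : Set (HeightOneSpectrum R)) \ {⊤}), f I := by
    rw [tsum_congr_set_coe f hsplit,
      (hf.subtype _).tsum_union_disjoint hdisj (hf.subtype _), tsum_singleton (⊤ : Ideal R) f, h1]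
  rw [hsum]
  apply hA
  rw [Set.disjoint_left]
  rintro I ⟨hI, hItop⟩ hIA
  obtain ⟨𝔭, h𝔭, hle⟩ := hg I hI.1 (by simpa using hItop)
  exact hI.2 𝔭 (Finset.mem_coe.mpr (hT (Finset.mem_biUnion.mpr ⟨I, hIA, h𝔭⟩))) hle

/-- The sum over all nonzero ideals is nonzero. -/
theorem tsum_sieve_empty_ne_zero (hf : Summable f) (hmul : ∀ I J, f (I * J) = f I * f J)
    (h1 : f ⊤ = 1) : ∑' I : sieveSet (∅ : Set (HeightOneSpectrum R)), f I ≠ 0 := by
  intro h0
  have h := tendsto_tsum_sieve hf h1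
  simp only [tsum_sieve_finset hf hmul, h0, mul_zero] at h
  exact zero_ne_one (tendsto_nhds_unique tendsto_const_nhds h)

/-- **Euler product**: the finite products `∏_{𝔭 ∈ T} (1 - f 𝔭)` tend to the inverse of the sum of
`f` over all nonzero ideals. -/
theorem tendsto_prod_one_sub (hf : Summable f) (hmul : ∀ I J, f (I * J) = f I * f J)
    (h1 : f ⊤ = 1) :
    Tendsto (fun T : Finset (HeightOneSpectrum R) => ∏ 𝔭 ∈ T, (1 - f 𝔭.asIdeal)) atTop
      (𝓝 (∑' I : sieveSet (∅ : Set (HeightOneSpectrum R)), f I)⁻¹) := by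
  have hZ := tsum_sieve_empty_ne_zero hf hmul h1
  have h := (tendsto_tsum_sieve hf h1).mul_const
    (∑' I : sieveSet (∅ : Set (HeightOneSpectrum R)), f I)⁻¹
  simp only [tsum_sieve_finset hf hmul, one_mul] at h
  refine h.congr fun T => ?_
  rw [mul_assoc, mul_inv_cancel₀ hZ, mul_one]

/-- **Euler product**, `HasProd` form. -/
theorem hasProd_one_sub (hf : Summable f) (hmul : ∀ I J, f (I * J) = f I * f J)
    (h1 : f ⊤ = 1) :
    HasProd (fun 𝔭 : HeightOneSpectrum R => 1 - f 𝔭.asIdeal)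
      (∑' I : sieveSet (∅ : Set (HeightOneSpectrum R)), f I)⁻¹ := by
  simpa [HasProd] using tendsto_prod_one_sub hf hmul h1

end Sieve

end Fermat.Agent.Lib.Cheb.H761

end
-- ===== PACK-END Lib/Cheb/H761/Sieve.lean

-- ===== PACK-BEGIN Lib/Cheb/H764/Orbit.lean
section


/-!
# CHEB / piece A: decomposition groups and primes of a fixed field (orbit count)

Abstract setting: `R ⊆ T ⊆ S` Dedekind-like rings, `G` a finite Galois group of `S/R`,
`H ≤ G` a Galois group of `S/T`.
-/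

set_option autoImplicit false
set_option linter.unusedSectionVars false

namespace Fermat.Agent.Lib.Cheb.H764

open Ideal MulAction
open scoped Pointwise

section abstract

variable {R T S : Type*} [CommRing R] [CommRing T] [CommRing S]
  [IsDomain R] [IsDomain T] [IsDomain S]
  [Algebra R T] [Algebra T S] [Algebra R S] [IsScalarTower R T S]
  [Module.Finite R S] [Module.Finite T S]
  [Module.Flat R S] [Module.Flat T S]
  {G : Type*} [Group G] [Finite G] [MulSemiringAction G S] [IsGaloisGroup G R S]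
  (H : Subgroup G) [IsGaloisGroup H T S]

/-- the stabilizer in the subgroup is the intersection with the subgroup -/
lemma stabilizer_subgroup_eq (Q : Ideal S) :
    stabilizer H Q = (stabilizer G Q).subgroupOf H := by
  ext h
  simp [Subgroup.mem_subgroupOf, Subgroup.smul_def]

lemma card_stabilizer_eq_mul (p : Ideal R) [p.IsPrime] [PerfectField p.ResidueField]
    (Q : Ideal S) [Q.IsPrime] [Q.LiesOver p] :
    Nat.card (stabilizer G Q) = Q.ramificationIdx R * Q.inertiaDeg R := by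
  rw [Ideal.card_stabilizer_eq (G := G) p Q, ramificationIdxIn_eq_ramificationIdx p Q G,
    inertiaDegIn_eq_inertiaDeg p Q G]

/-- `|D_Q(G)| = e(𝔮|p) f(𝔮|p) |D_Q(H)|` for `𝔮 = Q ∩ T`. -/
lemma card_stabilizer_eq_mul_card_stabilizer (p : Ideal R) [p.IsPrime]
    [PerfectField p.ResidueField]
    (q : Ideal T) [q.IsPrime] [q.LiesOver p] [PerfectField q.ResidueField]
    (Q : Ideal S) [Q.IsPrime] [Q.LiesOver q] [Q.LiesOver p] :
    Nat.card (stabilizer G Q) =
      (q.ramificationIdx R * q.inertiaDeg R) * Nat.card (stabilizer H Q) := by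
  have h1 : Nat.card (stabilizer H Q) = Q.ramificationIdx T * Q.inertiaDeg T :=
    card_stabilizer_eq_mul (G := H) q Q
  rw [card_stabilizer_eq_mul (G := G) p Q, h1,
    ramificationIdx_tower (R := R) q Q, inertiaDeg_tower (R := R) q Q]
  ring

lemma card_subgroupOf_eq_iff (A B : Subgroup G) :
    Nat.card (A.subgroupOf B) = Nat.card A ↔ A ≤ B := by
  constructor
  · intro h
    have h1 : Nat.card (A.subgroupOf B) = Nat.card (A ⊓ B : Subgroup G) := by
      rw [← Subgroup.inf_subgroupOf_right]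
      exact Nat.card_congr (Subgroup.subgroupOfEquivOfLe inf_le_right).toEquiv
    rw [h1] at h
    have h2 : (A ⊓ B : Subgroup G) = A :=
      Subgroup.eq_of_le_of_card_ge inf_le_left h.ge
    rw [← h2]
    exact inf_le_right
  · intro h
    exact Nat.card_congr (Subgroup.subgroupOfEquivOfLe h).toEquiv

/-- `e(𝔮|p) f(𝔮|p) = 1` iff the decomposition group of `Q` is contained in `H`. -/
lemma ramificationIdx_mul_inertiaDeg_eq_one_iff (p : Ideal R) [p.IsPrime]
    [PerfectField p.ResidueField]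
    (q : Ideal T) [q.IsPrime] [q.LiesOver p] [PerfectField q.ResidueField]
    (Q : Ideal S) [Q.IsPrime] [Q.LiesOver q] [Q.LiesOver p] :
    q.ramificationIdx R * q.inertiaDeg R = 1 ↔ stabilizer G Q ≤ H := by
  have key := card_stabilizer_eq_mul_card_stabilizer H p q Q
  have hpos : 0 < Nat.card (stabilizer H Q) := Nat.card_pos
  rw [stabilizer_subgroup_eq H Q] at key hpos
  rw [← card_subgroupOf_eq_iff]
  constructor
  · intro h
    rw [key, h, one_mul]
  · intro h
    rw [← h] at key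
    have h3 : 1 * Nat.card ((stabilizer G Q).subgroupOf H) =
        (q.ramificationIdx R * q.inertiaDeg R) * Nat.card ((stabilizer G Q).subgroupOf H) := by
      rw [one_mul]; exact key
    exact (Nat.eq_of_mul_eq_mul_right hpos h3).symm

/-- orbit-stabilizer for the primes above `p` -/
lemma ncard_primesOver_mul_card_stabilizer_aux
    (p : Ideal R) [p.IsPrime] (P : Ideal S) [P.IsPrime] [P.LiesOver p] :
    (p.primesOver S).ncard * Nat.card (stabilizer G P) = Nat.card G := by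
  rw [← Algebra.IsInvariant.orbit_eq_primesOver R S G p P]
  simpa using Nat.card_congr (MulAction.orbitProdStabilizerEquivGroup G P)

/-- the number of primes of `S` above `𝔮` times the order of the decomposition group in `H` -/
lemma ncard_primesOver_mul_card_stabilizer
    (q : Ideal T) [q.IsPrime] (Q : Ideal S) [Q.IsPrime] [Q.LiesOver q] :
    (q.primesOver S).ncard * Nat.card (stabilizer H Q) = Nat.card H :=
  ncard_primesOver_mul_card_stabilizer_aux (G := H) q Q

/-- inner sum of the orbit count: the primes of `S` above a prime `𝔮` of `T` with `e f = 1`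
contribute `|H|`. -/
lemma finsum_card_stabilizer_primesOver (p : Ideal R) [p.IsPrime] [PerfectField p.ResidueField]
    (q : Ideal T) [q.IsPrime] [q.LiesOver p] [PerfectField q.ResidueField]
    (hq : q.ramificationIdx R * q.inertiaDeg R = 1) (hfin : (q.primesOver S).Finite)
    (hne : (q.primesOver S).Nonempty) :
    ∑ᶠ Q ∈ q.primesOver S, Nat.card (stabilizer G Q) = Nat.card H := by
  classical
  have key : ∀ Q ∈ q.primesOver S,
      (q.primesOver S).ncard * Nat.card (stabilizer G Q) = Nat.card H := by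
    intro Q hQ
    haveI : Q.IsPrime := hQ.1
    haveI : Q.LiesOver q := hQ.2
    haveI : Q.LiesOver p := LiesOver.trans Q q p
    rw [card_stabilizer_eq_mul_card_stabilizer H p q Q, hq, one_mul]
    exact ncard_primesOver_mul_card_stabilizer H q Q
  have hn : 0 < (q.primesOver S).ncard := (Set.ncard_pos hfin).mpr hne
  have hconst : ∀ Q ∈ q.primesOver S,
      Nat.card (stabilizer G Q) = Nat.card H / (q.primesOver S).ncard := by
    intro Q hQ
    rw [← key Q hQ, Nat.mul_div_cancel_left _ hn]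
  rw [finsum_mem_congr rfl hconst, finsum_mem_eq_finite_toFinset_sum _ hfin, Finset.sum_const,
    smul_eq_mul, ← Set.ncard_eq_toFinset_card _ hfin]
  obtain ⟨Q, hQ⟩ := hne
  rw [← hconst Q hQ]
  exact key Q hQ

end abstract

end Fermat.Agent.Lib.Cheb.H764

end
-- ===== PACK-END Lib/Cheb/H764/Orbit.lean

-- ===== PACK-BEGIN S54/ValRing.lean
section



set_option autoImplicit false

namespace Fermat.Agent.S54

open Polynomial

/-- Valuation subrings contain all algebraic integers. -/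
theorem isIntegral_mem_valuationSubring {K : Type*} [Field K] (A : ValuationSubring K)
    {b : K} (hb : IsIntegral ℤ b) : b ∈ A := by
  have h1 : IsIntegral A.toSubring b := by
    obtain ⟨p, hp, hpb⟩ := hb
    refine ⟨p.map (algebraMap ℤ A.toSubring), hp.map _, ?_⟩
    rw [Polynomial.eval₂_map]
    have : (algebraMap A.toSubring K).comp (algebraMap ℤ A.toSubring) = algebraMap ℤ K := by
      ext; simp
    rw [this]
    exact hpb
  have h2 := (IsIntegrallyClosed.isIntegral_iff (R := A) (K := K)).mp h1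
  obtain ⟨y, hy⟩ := h2
  rw [← hy]
  exact y.2

/-- An element lying in every valuation subring is integral over `ℤ`. -/
theorem isIntegral_of_forall_mem_valuationSubring {K : Type*} [Field K] (y : K)
    (H : ∀ V : ValuationSubring K, y ∈ V) : IsIntegral ℤ y := by
  by_contra hy
  let R : Subring K := (integralClosure ℤ K).toSubring
  have hyR : y ∉ R := hy
  have : IsIntegrallyClosedIn R K := inferInstanceAs (IsIntegrallyClosedIn (integralClosure ℤ K) K)
  obtain ⟨V, -, hV⟩ := R.exists_le_valuationSubring_of_isIntegrallyClosedIn hyR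
  exact hV (H V)

theorem aeval_mem_valuationSubring {K : Type*} [Field K] (V : ValuationSubring K) {x : K}
    (hx : x ∈ V) (q : ℤ[X]) : aeval x q ∈ V := by
  induction q using Polynomial.induction_on with
  | C a => simp
  | add p q hp hq => rw [map_add]; exact V.add_mem _ _ hp hq
  | monomial n a h =>
    rw [pow_succ, ← mul_assoc, map_mul, aeval_X]
    exact V.mul_mem _ _ h hx

theorem coeff_iterate_divX (p : ℤ[X]) (r n : ℕ) :
    ((divX^[r]) p).coeff n = p.coeff (n + r) := by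
  induction r generalizing n with
  | zero => simp
  | succ r ih =>
    rw [Function.iterate_succ_apply', coeff_divX, ih]
    congr 1
    ring

/-- The Horner recursion for the tails `divX^[r] p` of a polynomial. -/
theorem aeval_iterate_divX {K : Type*} [Field K] (x : K) (p : ℤ[X]) (r : ℕ) :
    aeval x ((divX^[r]) p) = aeval x ((divX^[r + 1]) p) * x + (p.coeff r : K) := by
  conv_lhs => rw [← divX_mul_X_add ((divX^[r]) p)]
  rw [map_add, map_mul, aeval_X, aeval_C, coeff_iterate_divX, zero_add,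
    Function.iterate_succ_apply']
  simp

/-- The Horner tails of an integer polynomial killing `x` lie in every valuation subring. -/
theorem horner_mem_valuationSubring {K : Type*} [Field K] (x : K) (p : ℤ[X])
    (hp : aeval x p = 0) (V : ValuationSubring K) (r : ℕ) :
    aeval x ((divX^[r]) p) ∈ V := by
  rcases V.mem_or_inv_mem x with hx | hx
  · exact aeval_mem_valuationSubring V hx _
  · induction r with
    | zero => simp [hp]
    | succ r ih =>
      have h := aeval_iterate_divX x p r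
      by_cases hx0 : x = 0
      · exact aeval_mem_valuationSubring V (hx0 ▸ V.zero_mem) _
      have : aeval x ((divX^[r + 1]) p) = x⁻¹ * (aeval x ((divX^[r]) p) - (p.coeff r : K)) := by
        rw [h]; field_simp; ring
      rw [this]
      exact V.mul_mem _ _ hx (sub_mem ih (intCast_mem V _))

theorem horner_isIntegral {K : Type*} [Field K] (x : K) (p : ℤ[X])
    (hp : aeval x p = 0) (r : ℕ) :
    IsIntegral ℤ (aeval x ((divX^[r]) p)) :=
  isIntegral_of_forall_mem_valuationSubring _ fun V => horner_mem_valuationSubring x p hp V r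

theorem horner_mul_isIntegral {K : Type*} [Field K] (x : K) (p : ℤ[X])
    (hp : aeval x p = 0) (r : ℕ) :
    IsIntegral ℤ (x * aeval x ((divX^[r + 1]) p)) := by
  have h := aeval_iterate_divX x p r
  have : x * aeval x ((divX^[r + 1]) p) = aeval x ((divX^[r]) p) - (p.coeff r : K) := by
    rw [h]; ring
  rw [this]
  exact (horner_isIntegral x p hp r).sub isIntegral_algebraMap

/-- An integer which is a non-unit of a valuation subring over `ℓ` is divisible by `ℓ`. -/
theorem dvd_of_intCast_mem_nonunits {K : Type*} [Field K] (A : ValuationSubring K) (ℓ : ℕ)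
    (hℓ : ℓ.Prime) (hA : A.LiesOverPrime ℓ) (a : ℤ) (ha : (a : K) ∈ A.nonunits) :
    (ℓ : ℤ) ∣ a := by
  by_contra hdvd
  have hcop : IsCoprime (ℓ : ℤ) a :=
    (Nat.prime_iff_prime_int.mp hℓ).coprime_iff_not_dvd.mpr hdvd
  obtain ⟨u, v, huv⟩ := hcop
  have h1 : ((u * ℓ + v * a : ℤ) : K) ∈ A.nonunits := by
    push_cast
    refine A.nonunits.add_mem ?_ ?_
    · obtain ⟨h1, h2⟩ := ValuationSubring.mem_nonunits_iff_exists_mem_maximalIdeal.mp hA
      have := Ideal.mul_mem_left _ (⟨(u : K), intCast_mem A u⟩ : A) h2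
      exact ValuationSubring.mem_nonunits_iff_exists_mem_maximalIdeal.mpr ⟨_, this⟩
    · obtain ⟨h1, h2⟩ := ValuationSubring.mem_nonunits_iff_exists_mem_maximalIdeal.mp ha
      have := Ideal.mul_mem_left _ (⟨(v : K), intCast_mem A v⟩ : A) h2
      exact ValuationSubring.mem_nonunits_iff_exists_mem_maximalIdeal.mpr ⟨_, this⟩
  rw [huv, ValuationSubring.mem_nonunits_iff] at h1
  simp at h1

/-- (4b) A valuation subring over `ℓ` of an algebraic extension of `ℚ` is the localisation of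
the ring of algebraic integers at the prime below it. -/
theorem mem_valuationSubring_iff {K : Type*} [Field K] [CharZero K] [Algebra.IsAlgebraic ℚ K]
    (A : ValuationSubring K) (ℓ : ℕ)
    (hℓ : ℓ.Prime) (hA : A.LiesOverPrime ℓ) (x : K) :
    x ∈ A ↔ ∃ b s, IsIntegral ℤ b ∧ IsIntegral ℤ s ∧ s ∉ A.nonunits ∧ x * s = b := by
  constructor
  · intro hx
    -- a primitive integer polynomial killing `x`
    have halg : IsAlgebraic ℤ x :=
      (IsFractionRing.isAlgebraic_iff ℤ ℚ K).mpr (Algebra.IsAlgebraic.isAlgebraic x)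
    obtain ⟨f, hf0, hfx⟩ := halg
    set p := f.primPart with hp
    have hpprim : p.IsPrimitive := f.isPrimitive_primPart
    have hpx : aeval x p = 0 := by
      have h1 : f = C f.content * p := f.eq_C_content_mul_primPart
      rw [h1, map_mul, aeval_C] at hfx
      rcases mul_eq_zero.mp hfx with h | h
      · exfalso
        have : f.content = 0 := by simpa using h
        exact hf0 (Polynomial.content_eq_zero_iff.mp this)
      · exact h
    -- some coefficient is not in the maximal ideal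
    have hcoeff : ∃ i, ((p.coeff i : ℤ) : K) ∉ A.nonunits := by
      by_contra hcon
      push Not at hcon
      have hdvd : C (ℓ : ℤ) ∣ p := by
        rw [Polynomial.C_dvd_iff_dvd_coeff]
        intro i
        exact dvd_of_intCast_mem_nonunits A ℓ hℓ hA _ (hcon i)
      have hu := hpprim _ hdvd
      rw [Int.isUnit_iff] at hu
      have := hℓ.one_lt
      omega
    -- some Horner tail is a unit
    have hex : ∃ r, aeval x ((divX^[r + 1]) p) ∉ A.nonunits := by
      by_contra hcon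
      push Not at hcon
      obtain ⟨i, hi⟩ := hcoeff
      apply hi
      have h := aeval_iterate_divX x p i
      have h2 : ((p.coeff i : ℤ) : K) =
          aeval x ((divX^[i]) p) - aeval x ((divX^[i + 1]) p) * x := by
        rw [h]; ring
      rw [h2]
      have hmul : aeval x ((divX^[i + 1]) p) * x ∈ A.nonunits := by
        obtain ⟨h1, h2⟩ := ValuationSubring.mem_nonunits_iff_exists_mem_maximalIdeal.mp (hcon i)
        have := Ideal.mul_mem_right (⟨x, hx⟩ : A) _ h2
        exact ValuationSubring.mem_nonunits_iff_exists_mem_maximalIdeal.mpr ⟨_, this⟩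
      refine A.nonunits.sub_mem ?_ hmul
      rcases i with _ | i
      · simp [hpx, A.nonunits.zero_mem]
      · exact hcon i
    obtain ⟨r, hr⟩ := hex
    exact ⟨x * aeval x ((divX^[r + 1]) p), aeval x ((divX^[r + 1]) p),
      horner_mul_isIntegral x p hpx r, horner_isIntegral x p hpx (r + 1), hr, rfl⟩
  · rintro ⟨b, s, hb, hs, hsA, hxs⟩
    have hbA : b ∈ A := isIntegral_mem_valuationSubring A hb
    have hs0 : s ≠ 0 := fun h => hsA (h ▸ A.nonunits.zero_mem)
    have hsinv : s⁻¹ ∈ A := by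
      by_contra h
      exact hsA (A.mem_nonunits_iff_or.mpr (Or.inr h))
    have : x = b * s⁻¹ := by
      rw [← hxs]; field_simp
    rw [this]
    exact A.mul_mem _ _ hbA hsinv

end Fermat.Agent.S54

end
-- ===== PACK-END S54/ValRing.lean

-- ===== PACK-BEGIN Lib/EulerProd/EulerUFM.lean
section


/-!
# Euler products over a unique factorization monoid with trivial units

`Fermat.Agent.Lib.EulerProd.hasProd_one_sub_inv`: if `M` is a commutative monoid with
zero which is a unique factorization monoid with trivial unit group (e.g. the ideals of a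
Dedekind domain), `F` is a complete normed field and `f : M → F` is completely multiplicative
(`f 0 = 0`, `f 1 = 1`, `f (a * b) = f a * f b`) and norm-summable, then
`∏ p prime, (1 - f p)⁻¹ = ∑ m, f m`.

The proof follows `Mathlib/NumberTheory/EulerProduct/Basic.lean` (the case `M = ℕ`).
-/

set_option autoImplicit false
set_option linter.unusedSectionVars false
set_option linter.overlappingInstances false

namespace Fermat.Agent.Lib.EulerProd

open Finset

variable {M : Type*} [CommMonoidWithZero M] [UniqueFactorizationMonoid M]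
  [Subsingleton Mˣ] [Nontrivial M]

/-- The nonzero elements of `M` all of whose prime divisors lie in `T`. -/
def smoothSet (T : Set M) : Set M := {m | m ≠ 0 ∧ ∀ p, Prime p → p ∣ m → p ∈ T}

theorem mem_smoothSet {T : Set M} {m : M} :
    m ∈ smoothSet T ↔ m ≠ 0 ∧ ∀ p, Prime p → p ∣ m → p ∈ T := Iff.rfl

theorem smoothSet_mono {T T' : Set M} (h : T ⊆ T') : smoothSet T ⊆ smoothSet T' :=
  fun _ hm => ⟨hm.1, fun p hp hpm => h (hm.2 p hp hpm)⟩

theorem zero_notMem_smoothSet (T : Set M) : (0 : M) ∉ smoothSet T := fun h => h.1 rfl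

theorem eq_one_of_forall_prime_not_dvd {m : M} (hm : m ≠ 0) (h : ∀ p, Prime p → ¬ p ∣ m) :
    m = 1 := by
  by_contra hne
  have hu : ¬ IsUnit m := fun hu => hne (by
    obtain ⟨u, rfl⟩ := hu
    rw [Subsingleton.elim u 1, Units.val_one])
  obtain ⟨i, hi, hdvd⟩ := WfDvdMonoid.exists_irreducible_factor hu hm
  exact h i (UniqueFactorizationMonoid.irreducible_iff_prime.mp hi) hdvd

theorem smoothSet_empty : smoothSet (∅ : Set M) = {1} := by
  ext m
  simp only [mem_smoothSet, Set.mem_empty_iff_false, imp_false, Set.mem_singleton_iff]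
  constructor
  · rintro ⟨hm, h⟩
    exact eq_one_of_forall_prime_not_dvd hm h
  · rintro rfl
    exact ⟨one_ne_zero, fun p hp hdvd => hp.not_isUnit (isUnit_of_dvd_one hdvd)⟩

/-- Inserting a non-prime does not change the smooth set. -/
theorem smoothSet_insert_of_not_prime {T : Set M} {p : M} (hp : ¬ Prime p) :
    smoothSet (insert p T) = smoothSet T := by
  ext m
  simp only [mem_smoothSet, Set.mem_insert_iff]
  refine and_congr_right fun _ => forall_congr' fun q => ?_
  constructor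
  · intro h hq hqm
    rcases h hq hqm with rfl | h'
    · exact absurd hq hp
    · exact h'
  · intro h hq hqm
    exact Or.inr (h hq hqm)

theorem pow_mul_mem_smoothSet {T : Set M} {p : M} (hp : Prime p) (e : ℕ) {m : M}
    (hm : m ∈ smoothSet T) : p ^ e * m ∈ smoothSet (insert p T) := by
  refine ⟨mul_ne_zero (pow_ne_zero _ hp.ne_zero) hm.1, fun q hq hqd => ?_⟩
  rcases hq.dvd_or_dvd hqd with h | h
  · have := hq.dvd_of_dvd_pow h
    exact Or.inl ((prime_dvd_prime_iff_eq hq hp).mp this)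
  · exact Or.inr (hm.2 q hq h)

/-- The bijection `(e, m) ↦ p ^ e * m`. -/
theorem bijective_pow_mul {T : Set M} {p : M} (hp : Prime p) (hpT : p ∉ T) :
    Function.Bijective (fun x : ℕ × smoothSet T =>
      (⟨p ^ x.1 * x.2.1, pow_mul_mem_smoothSet hp x.1 x.2.2⟩ : smoothSet (insert p T))) := by
  have hnd : ∀ m ∈ smoothSet T, ¬ p ∣ m := fun m hm hd => hpT (hm.2 p hp hd)
  have key : ∀ (e e' : ℕ) (m m' : M), m ∈ smoothSet T → m' ∈ smoothSet T → e ≤ e' →
      p ^ e * m = p ^ e' * m' → e = e' ∧ m = m' := by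
    intro e e' m m' hm hm' hle h
    obtain ⟨k, rfl⟩ := Nat.exists_eq_add_of_le hle
    rw [pow_add, mul_assoc] at h
    have h2 : m = p ^ k * m' := mul_left_cancel₀ (pow_ne_zero _ hp.ne_zero) h
    rcases Nat.eq_zero_or_pos k with rfl | hk
    · simpa using h2
    · exfalso
      apply hnd m hm
      rw [h2]
      exact Dvd.dvd.mul_right (dvd_pow_self p hk.ne') _
  constructor
  · rintro ⟨e, m, hm⟩ ⟨e', m', hm'⟩ h
    simp only [Subtype.mk.injEq] at h
    rcases le_total e e' with hle | hle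
    · obtain ⟨rfl, rfl⟩ := key e e' m m' hm hm' hle h
      rfl
    · obtain ⟨rfl, rfl⟩ := key e' e m' m hm' hm hle h.symm
      rfl
  · rintro ⟨m, hm⟩
    have hfin : FiniteMultiplicity p m := FiniteMultiplicity.of_not_isUnit hp.not_isUnit hm.1
    obtain ⟨c, hc, hnd'⟩ := hfin.exists_eq_pow_mul_and_not_dvd
    have hc0 : c ≠ 0 := by
      rintro rfl
      exact hm.1 (by rw [hc, mul_zero])
    have hcs : c ∈ smoothSet T := by
      refine ⟨hc0, fun q hq hqc => ?_⟩
      have hqm : q ∣ m := by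
        rw [hc]
        exact Dvd.dvd.mul_left hqc _
      rcases hm.2 q hq hqm with rfl | h
      · exact absurd hqc hnd'
      · exact h
    exact ⟨(multiplicity p m, ⟨c, hcs⟩), Subtype.ext hc.symm⟩

/-- The equivalence `ℕ × smoothSet T ≃ smoothSet (insert p T)`, `(e, m) ↦ p ^ e * m`. -/
noncomputable def equivProdNatSmooth {T : Set M} {p : M} (hp : Prime p) (hpT : p ∉ T) :
    ℕ × smoothSet T ≃ smoothSet (insert p T) :=
  Equiv.ofBijective _ (bijective_pow_mul hp hpT)

@[simp]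
theorem equivProdNatSmooth_apply {T : Set M} {p : M} (hp : Prime p) (hpT : p ∉ T)
    (x : ℕ × smoothSet T) : ((equivProdNatSmooth hp hpT x : smoothSet (insert p T)) : M) =
      p ^ x.1 * x.2.1 := rfl


/-! ### The analytic part -/

section Analytic

variable {F : Type*} [NormedField F] [CompleteSpace F] {f : M → F}

open Classical in
/-- A finite product over primes in `T` is the sum over `T`-smooth elements. -/
theorem summable_and_hasSum_smoothSet (hf₁ : f 1 = 1) (hmul : ∀ a b, f (a * b) = f a * f b)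
    (hlt : ∀ p, Prime p → ‖f p‖ < 1) (T : Finset M) :
    Summable (fun m : smoothSet (T : Set M) ↦ ‖f m‖) ∧
      HasSum (fun m : smoothSet (T : Set M) ↦ f m) (∏ p ∈ T with Prime p, (1 - f p)⁻¹) := by
  induction T using Finset.induction with
  | empty =>
    rw [Finset.coe_empty, smoothSet_empty]
    simp only [Finset.filter_empty, Finset.prod_empty]
    exact ⟨(Set.finite_singleton 1).summable (‖f ·‖), hf₁ ▸ hasSum_singleton 1 f⟩
  | insert p T hp ih =>
    rw [Finset.coe_insert, Finset.filter_insert]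
    split_ifs with hpp
    · have hpT : p ∉ (T : Set M) := by simpa using hp
      have hpow : ∀ e : ℕ, f (p ^ e) = f p ^ e := by
        intro e
        induction e with
        | zero => simp [hf₁]
        | succ e ihe => rw [pow_succ, hmul, ihe, pow_succ]
      have hgeo : Summable (fun e : ℕ => ‖f p ^ e‖) := by
        simp only [norm_pow]
        exact summable_geometric_of_lt_one (norm_nonneg _) (hlt p hpp)
      constructor
      · rw [← (equivProdNatSmooth hpp hpT).summable_iff]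
        simp only [Function.comp_def, equivProdNatSmooth_apply, hmul, hpow]
        refine Summable.of_nonneg_of_le (fun _ ↦ norm_nonneg _) (fun _ ↦ norm_mul_le ..) ?_
        apply Summable.mul_of_nonneg hgeo ih.1 <;> exact fun n ↦ norm_nonneg _
      · have hp' : p ∉ {p ∈ T | Prime p} := mt (Finset.mem_of_mem_filter p) hp
        rw [Finset.prod_insert hp', ← (equivProdNatSmooth hpp hpT).hasSum_iff, Function.comp_def]
        simp only [equivProdNatSmooth_apply, hmul, hpow]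
        apply (hasSum_geometric_of_norm_lt_one (hlt p hpp)).mul ih.2
        apply summable_mul_of_summable_norm hgeo ih.1
    · rwa [smoothSet_insert_of_not_prime hpp]


open Classical in
/-- Finitely many elements are simultaneously smooth for a finite set of primes. -/
theorem exists_finset_smooth (S : Finset M) :
    ∃ T : Finset M, ∀ m ∈ S, m ≠ 0 → m ∈ smoothSet (T : Set M) := by
  refine ⟨S.biUnion fun m => (UniqueFactorizationMonoid.factors m).toFinset, fun m hm hm0 => ?_⟩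
  refine ⟨hm0, fun p hp hpm => ?_⟩
  obtain ⟨q, hq, hpq⟩ := UniqueFactorizationMonoid.exists_mem_factors_of_dvd hm0 hp.irreducible hpm
  rw [associated_iff_eq] at hpq
  subst hpq
  simp only [Finset.coe_biUnion, Set.mem_iUnion, Finset.mem_coe, Multiset.mem_toFinset]
  exact ⟨m, hm, hq⟩

/-- Summing over `T`-smooth elements for `T` large gets arbitrarily close to the full sum. -/
theorem norm_tsum_smoothSet_sub_tsum_lt (hsum : Summable f) (hf₀ : f 0 = 0) {ε : ℝ}
    (εpos : 0 < ε) :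
    ∃ T₀ : Finset M, ∀ T : Finset M, T₀ ⊆ T →
      ‖(∑' m : M, f m) - ∑' m : smoothSet (T : Set M), f m‖ < ε := by
  obtain ⟨S, hS⟩ := hsum.tsum_vanishing (Metric.ball_mem_nhds 0 εpos)
  obtain ⟨T₀, hT₀⟩ := exists_finset_smooth S
  refine ⟨T₀, fun T hT => ?_⟩
  have hdisj : Disjoint ((smoothSet (T : Set M))ᶜ \ {0}) (S : Set M) := by
    rw [Set.disjoint_left]
    rintro m ⟨hm, hm0⟩ hmS
    exact hm (smoothSet_mono (by exact_mod_cast hT) (hT₀ m hmS hm0))
  have := hS _ hdisj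
  rw [mem_ball_zero_iff] at this
  rwa [← hsum.tsum_subtype_add_tsum_subtype_compl (smoothSet (T : Set M)),
    add_sub_cancel_left, tsum_eq_tsum_sdiff_singleton (smoothSet (T : Set M))ᶜ hf₀]

theorem norm_lt_one_of_summable (hf₁ : f 1 = 1) (hmul : ∀ a b, f (a * b) = f a * f b)
    (hsum : Summable (‖f ·‖)) {p : M} (hp : Prime p) : ‖f p‖ < 1 := by
  have hpow : ∀ e : ℕ, f (p ^ e) = f p ^ e := by
    intro e
    induction e with
    | zero => simp [hf₁]
    | succ e ihe => rw [pow_succ, hmul, ihe, pow_succ]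
  have h1 : Summable (fun e : ℕ => ‖f (p ^ e)‖) :=
    hsum.comp_injective (pow_injective_of_not_isUnit hp.not_isUnit hp.ne_zero)
  simp only [hpow, norm_pow] at h1
  have := summable_geometric_iff_norm_lt_one.mp h1
  simpa using this

open Classical in
/-- **Euler product** for a completely multiplicative norm-summable function on a unique
factorization monoid with trivial units. -/
theorem hasProd_one_sub_inv (hf₀ : f 0 = 0) (hf₁ : f 1 = 1)
    (hmul : ∀ a b, f (a * b) = f a * f b) (hsum : Summable (‖f ·‖)) :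
    HasProd (fun p : {p : M // Prime p} ↦ (1 - f p)⁻¹) (∑' m, f m) := by
  have hlt : ∀ p, Prime p → ‖f p‖ < 1 := fun p hp => norm_lt_one_of_summable hf₁ hmul hsum hp
  let G : M → F := fun p ↦ (1 - f p)⁻¹
  change HasProd (G ∘ Subtype.val (p := (· ∈ {x | Prime x}))) _
  rw [hasProd_subtype_iff_mulIndicator, HasProd, SummationFilter.unconditional,
    Metric.tendsto_atTop]
  intro ε hε
  obtain ⟨T₀, hT₀⟩ := norm_tsum_smoothSet_sub_tsum_lt hsum.of_norm hf₀ hε
  refine ⟨T₀, fun T hT ↦ ?_⟩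
  have : ∏ p ∈ T, {p | Prime p}.mulIndicator G p = ∏ p ∈ T with Prime p, G p :=
    Finset.prod_mulIndicator_eq_prod_filter T (fun _ ↦ G) _ id
  rw [this, dist_eq_norm, ← (summable_and_hasSum_smoothSet hf₁ hmul hlt T).2.tsum_eq,
    norm_sub_rev]
  exact hT₀ T hT

/-- Finite partial Euler products are sums over smooth elements. -/
theorem prod_one_sub_inv_eq_tsum_smoothSet (hf₁ : f 1 = 1)
    (hmul : ∀ a b, f (a * b) = f a * f b) (hsum : Summable (‖f ·‖)) (T : Finset M)
    (hT : ∀ p ∈ T, Prime p) :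
    ∏ p ∈ T, (1 - f p)⁻¹ = ∑' m : smoothSet (T : Set M), f m := by
  classical
  have hlt : ∀ p, Prime p → ‖f p‖ < 1 := fun p hp => norm_lt_one_of_summable hf₁ hmul hsum hp
  rw [(summable_and_hasSum_smoothSet hf₁ hmul hlt T).2.tsum_eq, Finset.filter_true_of_mem hT]

end Analytic

end Fermat.Agent.Lib.EulerProd

end
-- ===== PACK-END Lib/EulerProd/EulerUFM.lean

-- ===== PACK-BEGIN Lib/Red/H290/RedElt.lean
section



/-!
# Reduction of elements of a valuation ring (S52 piece A1b, part 1)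

`A : ValuationSubring K`, `φ : A →+* κ` a ring homomorphism to a field whose kernel is the
maximal ideal of `A` (stated as `hφ : ∀ a : A, φ a = 0 ↔ A.valuation a < 1`).

`rd A φ : K → κ` is the total function extending `φ` by `0` outside `A`.  It is additive and
multiplicative on `A`, kills exactly the non-units among the elements of `A`, and commutes with
division by units.
-/

set_option autoImplicit false

namespace Fermat.Agent.Lib.Red.H290

variable {K : Type*} [Field K] {κ : Type*} [Field κ]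

/-- The reduction `K → κ` extending `φ : A →+* κ` by zero outside `A`. -/
noncomputable def rd (A : ValuationSubring K) (φ : A →+* κ) (x : K) : κ :=
  open Classical in if h : x ∈ A then φ ⟨x, h⟩ else 0

section

variable {A : ValuationSubring K} {φ : A →+* κ}

lemma rd_of_mem {x : K} (h : x ∈ A) : rd A φ x = φ ⟨x, h⟩ := by
  simp only [rd, h, dite_true]

lemma rd_coe (a : A) : rd A φ (a : K) = φ a := by
  rw [rd_of_mem a.2]

lemma rd_of_not_mem {x : K} (h : x ∉ A) : rd A φ x = 0 := by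
  simp only [rd, h, dite_false]

@[simp] lemma rd_zero : rd A φ 0 = 0 := by
  rw [rd_of_mem A.zero_mem]; exact map_zero φ

@[simp] lemma rd_one : rd A φ 1 = 1 := by
  rw [rd_of_mem A.one_mem]; exact map_one φ

lemma rd_add {x y : K} (hx : x ∈ A) (hy : y ∈ A) : rd A φ (x + y) = rd A φ x + rd A φ y := by
  rw [rd_of_mem hx, rd_of_mem hy, rd_of_mem (A.add_mem _ _ hx hy), ← map_add]; rfl

lemma rd_mul {x y : K} (hx : x ∈ A) (hy : y ∈ A) : rd A φ (x * y) = rd A φ x * rd A φ y := by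
  rw [rd_of_mem hx, rd_of_mem hy, rd_of_mem (A.mul_mem _ _ hx hy), ← map_mul]; rfl

lemma rd_neg {x : K} (hx : x ∈ A) : rd A φ (-x) = - rd A φ x := by
  rw [rd_of_mem hx, rd_of_mem (A.neg_mem _ hx), ← map_neg]; rfl

lemma rd_sub {x y : K} (hx : x ∈ A) (hy : y ∈ A) : rd A φ (x - y) = rd A φ x - rd A φ y := by
  rw [rd_of_mem hx, rd_of_mem hy, rd_of_mem (A.sub_mem hx hy), ← map_sub]; rfl

lemma rd_pow {x : K} (hx : x ∈ A) (n : ℕ) : rd A φ (x ^ n) = rd A φ x ^ n := by
  rw [rd_of_mem hx, rd_of_mem (pow_mem hx n), ← map_pow]; rfl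

lemma rd_natCast (n : ℕ) : rd A φ (n : K) = (n : κ) := by
  rw [rd_of_mem (natCast_mem A n)]
  have : (⟨(n : K), natCast_mem A n⟩ : A) = (n : A) := rfl
  rw [this, map_natCast]

lemma rd_ofNat (n : ℕ) [n.AtLeastTwo] : rd A φ (OfNat.ofNat n : K) = (OfNat.ofNat n : κ) := by
  have := rd_natCast (A := A) (φ := φ) (OfNat.ofNat n)
  rwa [Nat.cast_ofNat, Nat.cast_ofNat] at this

lemma mem_of_val_le {x : K} (h : A.valuation x ≤ 1) : x ∈ A := (A.valuation_le_one_iff x).mp h

lemma val_le_of_mem {x : K} (h : x ∈ A) : A.valuation x ≤ 1 := (A.valuation_le_one_iff x).mpr h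

omit [Field κ] in
lemma inv_mem_of_val_eq_one {x : K} (hx : A.valuation x = 1) : x⁻¹ ∈ A := by
  apply (A.valuation_le_one_iff _).mp
  rw [map_inv₀, hx, inv_one]

omit [Field κ] in
lemma div_mem_of_val_eq_one {x y : K} (hx : x ∈ A) (hy : A.valuation y = 1) : x / y ∈ A := by
  rw [div_eq_mul_inv]; exact A.mul_mem _ _ hx (inv_mem_of_val_eq_one hy)

end

/-- The kernel of `φ` is the maximal ideal. -/
def KerMax (A : ValuationSubring K) (φ : A →+* κ) : Prop :=
  ∀ a : A, φ a = 0 ↔ A.valuation (a : K) < 1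

lemma kerMax_of_isLocalHom (A : ValuationSubring K) (φ : A →+* κ) [IsLocalHom φ] :
    KerMax A φ := by
  intro a
  rw [← A.valuation_lt_one_iff, IsLocalRing.mem_maximalIdeal, mem_nonunits_iff]
  constructor
  · intro h hu
    have := hu.map φ
    rw [h] at this
    exact not_isUnit_zero this
  · intro h
    by_contra h0
    exact h (IsLocalHom.map_nonunit a (isUnit_iff_ne_zero.mpr h0))

/-- The residue map of `A` has kernel the maximal ideal. -/
lemma kerMax_residue (A : ValuationSubring K) :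
    KerMax A (IsLocalRing.residue A) := by
  intro a
  rw [← A.valuation_lt_one_iff]
  exact IsLocalRing.residue_eq_zero_iff a

section

variable {A : ValuationSubring K} {φ : A →+* κ} (hφ : KerMax A φ)
include hφ

lemma rd_eq_zero_iff {x : K} (hx : x ∈ A) : rd A φ x = 0 ↔ A.valuation x < 1 := by
  rw [rd_of_mem hx]; exact hφ ⟨x, hx⟩

lemma rd_eq_zero_of_lt {x : K} (hx : A.valuation x < 1) : rd A φ x = 0 :=
  (rd_eq_zero_iff hφ (mem_of_val_le hx.le)).mpr hx

lemma rd_ne_zero_iff {x : K} (hx : x ∈ A) : rd A φ x ≠ 0 ↔ A.valuation x = 1 := by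
  rw [Ne, rd_eq_zero_iff hφ hx, not_lt]
  exact ⟨fun h => le_antisymm (val_le_of_mem hx) h, fun h => h.ge⟩

lemma rd_eq_iff {x y : K} (hx : x ∈ A) (hy : y ∈ A) :
    rd A φ x = rd A φ y ↔ A.valuation (x - y) < 1 := by
  rw [← rd_eq_zero_iff hφ (A.sub_mem hx hy), rd_sub hx hy, sub_eq_zero]

omit hφ in
lemma rd_inv {x : K} (hx : A.valuation x = 1) : rd A φ x⁻¹ = (rd A φ x)⁻¹ := by
  have hxA : x ∈ A := mem_of_val_le hx.le
  have hiA : x⁻¹ ∈ A := inv_mem_of_val_eq_one hx
  have hx0 : x ≠ 0 := by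
    rintro rfl; rw [map_zero] at hx; exact zero_ne_one hx
  have h1 : rd A φ x * rd A φ x⁻¹ = 1 := by
    rw [← rd_mul hxA hiA, mul_inv_cancel₀ hx0, rd_one]
  exact eq_inv_of_mul_eq_one_right h1

omit hφ in
lemma rd_div {x y : K} (hx : x ∈ A) (hy : A.valuation y = 1) :
    rd A φ (x / y) = rd A φ x / rd A φ y := by
  rw [div_eq_mul_inv, rd_mul hx (inv_mem_of_val_eq_one hy), rd_inv hy, div_eq_mul_inv]

end

end Fermat.Agent.Lib.Red.H290

end
-- ===== PACK-END Lib/Red/H290/RedElt.lean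

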