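import Mathlib.AlgebraicGeometry.EllipticCurve.Affine.Point
import Mathlib.AlgebraicGeometry.EllipticCurve.VariableChange
import Mathlib.Tactic.FieldSimp
import Mathlib.Tactic.LinearCombination
import Mathlib
import Mathlib.RingTheory.Valuation.Basic
import Mathlib.Tactic
import Fermat.Prelude.Def_CuspForm_HeckeAlgebra
import Fermat.Prelude.Def_CuspForm_IntegralStructure
import Fermat.Prelude.Thm_ModularFormClass_qCoeff_heckeT
import Fermat.Prelude.Thm_ModularFormClass_qCoeff_heckeU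
import Fermat.Prelude.Thm_CongruenceSubgroup_one_mem_strictPeriods_Gamma0
import Mathlib.Algebra.Polynomial.Degree.Lemmas
import Mathlib.Algebra.Polynomial.Eval.Degree
import Fermat.Prelude.Def_ModularForm_HeckeOperatorForms
import Fermat.Prelude.Thm_ModularForm_heckeT_slash_eq_self_of_mem_Gamma0
import Fermat.Prelude.Def_ModularCurve_PeriodMap
import Fermat.Prelude.Def_FLTPrelim_Modularity
import Fermat.Prelude.Thm_UpperHalfPlane_qCoeff_heckeT
import Fermat.Prelude.Thm_UpperHalfPlane_eq_of_forall_qCoeff_eq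
import Fermat.Prelude.Def_ModularCurve_X0
import Fermat.Prelude.Def_ModularCurve_LaurentCoeff

-- ===== PACK-BEGIN Lib/VC/Basic.lean
section





/-!
# Shared lib `VC`: admissible changes of variables act on POINTS

Mathlib defines the action of `WeierstrassCurve.VariableChange` on Weierstrass curves only.
Here we show that, over a field `F`, the change of variables
`(x, y) ↦ (u² x + r, u³ y + u² s x + t)` induces an isomorphism of groups
`(C • W).Point ≃+ W.Point`  (`vcPoint`), compatible with field homomorphisms (`Point.map`).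

(helper240)
-/

set_option autoImplicit false
set_option linter.unusedSectionVars false

namespace Fermat.Agent.Lib.VC

open WeierstrassCurve WeierstrassCurve.Affine

variable {F : Type*} [Field F]

/-- The `x`-coordinate of the image of `(x, y)` under the change of variables `C`. -/
def vcX (C : VariableChange F) (x : F) : F := (C.u : F) ^ 2 * x + C.r

/-- The `y`-coordinate of the image of `(x, y)` under the change of variables `C`. -/
def vcY (C : VariableChange F) (x y : F) : F := (C.u : F) ^ 3 * y + (C.u : F) ^ 2 * C.s * x + C.t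

theorem vcX_injective (C : VariableChange F) : Function.Injective (vcX C) := by
  intro x x' h
  have hu : (C.u : F) ^ 2 ≠ 0 := pow_ne_zero _ C.u.ne_zero
  unfold vcX at h
  exact mul_left_cancel₀ hu (add_right_cancel h)

theorem vcY_injective (C : VariableChange F) (x : F) : Function.Injective (vcY C x) := by
  intro y y' h
  have hu : (C.u : F) ^ 3 ≠ 0 := pow_ne_zero _ C.u.ne_zero
  unfold vcY at h
  exact mul_left_cancel₀ hu (add_right_cancel (add_right_cancel h))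

section formulas

variable (W : WeierstrassCurve F) (C : VariableChange F)

theorem a₁_smul : (C • W).a₁ = (C.u : F)⁻¹ * (W.a₁ + 2 * C.s) := by
  rw [variableChange_a₁, Units.val_inv_eq_inv_val]

theorem a₂_smul : (C • W).a₂ = (C.u : F)⁻¹ ^ 2 * (W.a₂ - C.s * W.a₁ + 3 * C.r - C.s ^ 2) := by
  rw [variableChange_a₂, Units.val_inv_eq_inv_val]

theorem a₃_smul : (C • W).a₃ = (C.u : F)⁻¹ ^ 3 * (W.a₃ + C.r * W.a₁ + 2 * C.t) := by
  rw [variableChange_a₃, Units.val_inv_eq_inv_val]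

theorem a₄_smul : (C • W).a₄ = (C.u : F)⁻¹ ^ 4 * (W.a₄ - C.s * W.a₃ + 2 * C.r * W.a₂
    - (C.t + C.r * C.s) * W.a₁ + 3 * C.r ^ 2 - 2 * C.s * C.t) := by
  rw [variableChange_a₄, Units.val_inv_eq_inv_val]

theorem a₆_smul : (C • W).a₆ = (C.u : F)⁻¹ ^ 6 * (W.a₆ + C.r * W.a₄ + C.r ^ 2 * W.a₂ + C.r ^ 3
    - C.t * W.a₃ - C.t ^ 2 - C.r * C.t * W.a₁) := by
  rw [variableChange_a₆, Units.val_inv_eq_inv_val]

/-- The Weierstrass polynomial transforms by the factor `u⁶`. -/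
theorem polynomial_eval_vc (x y : F) :
    (vcY C x y) ^ 2 + W.a₁ * (vcX C x) * (vcY C x y) + W.a₃ * (vcY C x y)
      - ((vcX C x) ^ 3 + W.a₂ * (vcX C x) ^ 2 + W.a₄ * (vcX C x) + W.a₆)
    = (C.u : F) ^ 6 * (y ^ 2 + (C • W).a₁ * x * y + (C • W).a₃ * y
      - (x ^ 3 + (C • W).a₂ * x ^ 2 + (C • W).a₄ * x + (C • W).a₆)) := by
  have hu : (C.u : F) ≠ 0 := C.u.ne_zero
  rw [a₁_smul, a₂_smul, a₃_smul, a₄_smul, a₆_smul]
  unfold vcX vcY
  field_simp
  ring

theorem equation_smul_iff (x y : F) :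
    (C • W).toAffine.Equation x y ↔ W.toAffine.Equation (vcX C x) (vcY C x y) := by
  have hu : (C.u : F) ^ 6 ≠ 0 := pow_ne_zero _ C.u.ne_zero
  rw [equation_iff, equation_iff, ← sub_eq_zero, ← sub_eq_zero (a := (vcY C x y) ^ 2 + _ + _)]
  show _ ↔ (vcY C x y) ^ 2 + W.a₁ * (vcX C x) * (vcY C x y) + W.a₃ * (vcY C x y)
      - ((vcX C x) ^ 3 + W.a₂ * (vcX C x) ^ 2 + W.a₄ * (vcX C x) + W.a₆) = 0
  rw [polynomial_eval_vc, mul_eq_zero]
  constructor
  · intro h; exact Or.inr h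
  · rintro (h | h)
    · exact absurd h hu
    · exact h

/-- Transformation of the partial derivative in `y`. -/
theorem polynomialY_eval_vc (x y : F) :
    2 * vcY C x y + W.a₁ * vcX C x + W.a₃
      = (C.u : F) ^ 3 * (2 * y + (C • W).a₁ * x + (C • W).a₃) := by
  have hu : (C.u : F) ≠ 0 := C.u.ne_zero
  rw [a₁_smul, a₃_smul]
  unfold vcX vcY
  field_simp
  ring

/-- Transformation of the partial derivative in `x`. -/
theorem polynomialX_eval_vc (x y : F) :
    W.a₁ * vcY C x y - (3 * vcX C x ^ 2 + 2 * W.a₂ * vcX C x + W.a₄)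
      = (C.u : F) ^ 4 * ((C • W).a₁ * y - (3 * x ^ 2 + 2 * (C • W).a₂ * x + (C • W).a₄))
        - C.s * ((C.u : F) ^ 3 * (2 * y + (C • W).a₁ * x + (C • W).a₃)) := by
  have hu : (C.u : F) ≠ 0 := C.u.ne_zero
  rw [a₁_smul, a₂_smul, a₃_smul, a₄_smul]
  unfold vcX vcY
  field_simp
  ring

theorem nonsingular_smul_iff (x y : F) :
    (C • W).toAffine.Nonsingular x y ↔ W.toAffine.Nonsingular (vcX C x) (vcY C x y) := by
  have hu3 : (C.u : F) ^ 3 ≠ 0 := pow_ne_zero _ C.u.ne_zero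
  have hu4 : (C.u : F) ^ 4 ≠ 0 := pow_ne_zero _ C.u.ne_zero
  rw [nonsingular_iff', nonsingular_iff', equation_smul_iff, polynomialX_eval_vc,
    polynomialY_eval_vc]
  refine and_congr_right fun _ => ?_
  by_cases hY : 2 * y + (C • W).a₁ * x + (C • W).a₃ = 0
  · rw [hY]
    simp only [mul_zero, sub_zero, ne_eq, not_true_eq_false, or_false, mul_eq_zero, hu4, false_or]
  · have : (C.u : F) ^ 3 * (2 * y + (C • W).a₁ * x + (C • W).a₃) ≠ 0 := mul_ne_zero hu3 hY
    simp only [ne_eq, hY, not_false_eq_true, or_true, this]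

theorem negY_vc (x y : F) :
    W.toAffine.negY (vcX C x) (vcY C x y) = vcY C x ((C • W).toAffine.negY x y) := by
  have hu : (C.u : F) ≠ 0 := C.u.ne_zero
  simp only [negY]
  rw [a₁_smul, a₃_smul]
  unfold vcX vcY
  field_simp
  ring

theorem addX_vc (x₁ x₂ ℓ : F) :
    W.toAffine.addX (vcX C x₁) (vcX C x₂) ((C.u : F) * ℓ + C.s)
      = vcX C ((C • W).toAffine.addX x₁ x₂ ℓ) := by
  have hu : (C.u : F) ≠ 0 := C.u.ne_zero
  simp only [addX]
  rw [a₁_smul, a₂_smul]
  unfold vcX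
  field_simp
  ring

theorem negAddY_vc (x₁ x₂ y₁ ℓ : F) :
    W.toAffine.negAddY (vcX C x₁) (vcX C x₂) (vcY C x₁ y₁) ((C.u : F) * ℓ + C.s)
      = vcY C ((C • W).toAffine.addX x₁ x₂ ℓ) ((C • W).toAffine.negAddY x₁ x₂ y₁ ℓ) := by
  rw [negAddY, addX_vc, negAddY]
  unfold vcX vcY
  ring

theorem addY_vc (x₁ x₂ y₁ ℓ : F) :
    W.toAffine.addY (vcX C x₁) (vcX C x₂) (vcY C x₁ y₁) ((C.u : F) * ℓ + C.s)
      = vcY C ((C • W).toAffine.addX x₁ x₂ ℓ) ((C • W).toAffine.addY x₁ x₂ y₁ ℓ) := by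
  rw [addY, negAddY_vc, addX_vc, negY_vc, addY]

variable [DecidableEq F]

theorem slope_vc {x₁ x₂ y₁ y₂ : F} (h₁ : (C • W).toAffine.Equation x₁ y₁)
    (h₂ : (C • W).toAffine.Equation x₂ y₂)
    (hxy : ¬(x₁ = x₂ ∧ y₁ = (C • W).toAffine.negY x₂ y₂)) :
    W.toAffine.slope (vcX C x₁) (vcX C x₂) (vcY C x₁ y₁) (vcY C x₂ y₂)
      = (C.u : F) * (C • W).toAffine.slope x₁ x₂ y₁ y₂ + C.s := by
  have hu : (C.u : F) ≠ 0 := C.u.ne_zero
  by_cases hx : x₁ = x₂
  · have hy : y₁ ≠ (C • W).toAffine.negY x₂ y₂ := fun h => hxy ⟨hx, h⟩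
    have hyy : y₁ = y₂ := Y_eq_of_Y_ne h₁ h₂ hx hy
    subst hx hyy
    have hy' : vcY C x₁ y₁ ≠ W.toAffine.negY (vcX C x₁) (vcY C x₁ y₁) := by
      rw [negY_vc]
      exact fun h => hy (vcY_injective C x₁ h)
    rw [slope_of_Y_ne rfl hy', slope_of_Y_ne rfl hy]
    have hd : y₁ - (C • W).toAffine.negY x₁ y₁ ≠ 0 := sub_ne_zero.mpr hy
    have hd' : vcY C x₁ y₁ - W.toAffine.negY (vcX C x₁) (vcY C x₁ y₁) ≠ 0 := sub_ne_zero.mpr hy'
    have e1 : vcY C x₁ y₁ - W.toAffine.negY (vcX C x₁) (vcY C x₁ y₁)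
        = (C.u : F) ^ 3 * (y₁ - (C • W).toAffine.negY x₁ y₁) := by
      have := polynomialY_eval_vc W C x₁ y₁
      simp only [negY]
      linear_combination this
    have e2 : 3 * vcX C x₁ ^ 2 + 2 * W.a₂ * vcX C x₁ + W.a₄ - W.a₁ * vcY C x₁ y₁
        = (C.u : F) ^ 4 * (3 * x₁ ^ 2 + 2 * (C • W).a₂ * x₁ + (C • W).a₄ - (C • W).a₁ * y₁)
          + C.s * ((C.u : F) ^ 3 * (y₁ - (C • W).toAffine.negY x₁ y₁)) := by
      have := polynomialX_eval_vc W C x₁ y₁
      simp only [negY]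
      linear_combination -this
    rw [e2, e1]
    field_simp
  · have hx' : vcX C x₁ ≠ vcX C x₂ := fun h => hx (vcX_injective C h)
    rw [slope_of_X_ne hx', slope_of_X_ne hx]
    have hd : x₁ - x₂ ≠ 0 := sub_ne_zero.mpr hx
    have hd' : vcX C x₁ - vcX C x₂ ≠ 0 := sub_ne_zero.mpr hx'
    have e1 : vcX C x₁ - vcX C x₂ = (C.u : F) ^ 2 * (x₁ - x₂) := by unfold vcX; ring
    have e2 : vcY C x₁ y₁ - vcY C x₂ y₂
        = (C.u : F) ^ 3 * (y₁ - y₂) + (C.u : F) ^ 2 * C.s * (x₁ - x₂) := by unfold vcY; ring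
    rw [e2, e1]
    field_simp

/-- The map on points induced by the change of variables `C`. -/
def toFun : (C • W).toAffine.Point → W.toAffine.Point
  | .zero => .zero
  | .some x y h => .some (vcX C x) (vcY C x y) ((nonsingular_smul_iff W C x y).mp h)

@[simp] theorem toFun_zero : toFun W C (0 : (C • W).toAffine.Point) = 0 := rfl

@[simp] theorem toFun_some {x y : F} (h : (C • W).toAffine.Nonsingular x y) :
    toFun W C (.some x y h) = .some (vcX C x) (vcY C x y) ((nonsingular_smul_iff W C x y).mp h) :=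
  rfl

theorem toFun_add (P Q : (C • W).toAffine.Point) :
    toFun W C (P + Q) = toFun W C P + toFun W C Q := by
  rcases P with _ | ⟨x₁, y₁, h₁⟩
  · change toFun W C (0 + Q) = 0 + toFun W C Q
    rw [zero_add, zero_add]
  rcases Q with _ | ⟨x₂, y₂, h₂⟩
  · change toFun W C (_ + 0) = _ + 0
    rw [add_zero, add_zero]
  by_cases hxy : x₁ = x₂ ∧ y₁ = (C • W).toAffine.negY x₂ y₂
  · rw [Point.add_of_Y_eq hxy.1 hxy.2, toFun_zero, toFun_some, toFun_some,
      Point.add_of_Y_eq (congrArg _ hxy.1) (by rw [negY_vc, hxy.2, hxy.1])]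
  · have hxy' : ¬(vcX C x₁ = vcX C x₂ ∧
        vcY C x₁ y₁ = W.toAffine.negY (vcX C x₂) (vcY C x₂ y₂)) := by
      rintro ⟨hx, hy⟩
      have hx0 := vcX_injective C hx
      subst hx0
      rw [negY_vc] at hy
      exact hxy ⟨rfl, vcY_injective C x₁ hy⟩
    rw [Point.add_some hxy, toFun_some, toFun_some, toFun_some, Point.add_some hxy']
    simp only [Point.some.injEq]
    rw [slope_vc W C h₁.1 h₂.1 hxy]
    exact ⟨(addX_vc W C _ _ _).symm, (addY_vc W C _ _ _ _).symm⟩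

theorem toFun_injective : Function.Injective (toFun W C) := by
  rintro (_ | ⟨x₁, y₁, h₁⟩) (_ | ⟨x₂, y₂, h₂⟩) h
  · rfl
  · simp [toFun] at h
  · simp [toFun] at h
  · simp only [toFun, Point.some.injEq] at h
    obtain ⟨hx, hy⟩ := h
    have hx0 := vcX_injective C hx
    subst hx0
    have hy0 := vcY_injective C x₁ hy
    subst hy0
    rfl

theorem toFun_surjective : Function.Surjective (toFun W C) := by
  have hu : (C.u : F) ≠ 0 := C.u.ne_zero
  rintro (_ | ⟨X, Y, h⟩)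
  · exact ⟨0, rfl⟩
  · set x : F := (X - C.r) / (C.u : F) ^ 2 with hx
    set y : F := (Y - (C.u : F) ^ 2 * C.s * x - C.t) / (C.u : F) ^ 3 with hy
    have eX : vcX C x = X := by
      rw [hx]; unfold vcX; field_simp; ring
    have eY : vcY C x y = Y := by
      rw [hy]; unfold vcY; field_simp; ring
    have h' : (C • W).toAffine.Nonsingular x y := by
      rw [nonsingular_smul_iff, eX, eY]; exact h
    refine ⟨.some x y h', ?_⟩
    simp only [toFun, Point.some.injEq]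
    exact ⟨eX, eY⟩

/-- **The change of variables on points**: `(C • W).Point ≃+ W.Point`,
`(x, y) ↦ (u² x + r, u³ y + u² s x + t)`. -/
noncomputable def vcPoint : (C • W).toAffine.Point ≃+ W.toAffine.Point :=
  AddEquiv.ofBijective
    ({ toFun := toFun W C
       map_zero' := rfl
       map_add' := toFun_add W C } : (C • W).toAffine.Point →+ W.toAffine.Point)
    ⟨toFun_injective W C, toFun_surjective W C⟩

@[simp] theorem vcPoint_zero : vcPoint W C 0 = 0 := rfl

@[simp] theorem vcPoint_some {x y : F} (h : (C • W).toAffine.Nonsingular x y) :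
    vcPoint W C (.some x y h)
      = .some (vcX C x) (vcY C x y) ((nonsingular_smul_iff W C x y).mp h) := rfl

end formulas

end Fermat.Agent.Lib.VC

end
-- ===== PACK-END Lib/VC/Basic.lean

-- ===== PACK-BEGIN S13/H891/LadderDef.lean
section


/-!
# S13 / T1: the binary `x`-ladder `(N_k : D_k)` for multiplication by `k`

Generic definitions over a commutative ring `R`: `b₂ b₄ b₆ b₈ x : R` are the `b`-invariants of a
Weierstrass curve and (the `x`-coordinate of) a point `P`; `lad k = (N_k, D_k)` is a projective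
representative of `x(kP)`.  Applied with `R = K` we get values, with `R = K[X]`, `x = X` we get
polynomials.
-/

namespace Fermat.Agent.S13.H891

variable {R : Type*} [CommRing R]

/-- homogenised numerator of the duplication map -/
def dblN (b₄ b₆ b₈ n d : R) : R := n^4 - b₄*n^2*d^2 - 2*b₆*n*d^3 - b₈*d^4

/-- homogenised denominator of the duplication map -/
def dblD (b₂ b₄ b₆ n d : R) : R := d*(4*n^3 + b₂*n^2*d + 2*b₄*n*d^2 + b₆*d^3)

/-- `x₁ - x₂`, homogenised -/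
def addW (n₁ d₁ n₂ d₂ : R) : R := n₁*d₂ - n₂*d₁

/-- `(x₁ - x₂)^2 (x(Q+R) + x(Q-R))`, homogenised -/
def addS (b₂ b₄ b₆ n₁ d₁ n₂ d₂ : R) : R :=
  2*n₁*n₂*(n₁*d₂ + n₂*d₁) + b₂*n₁*n₂*d₁*d₂ + b₄*d₁*d₂*(n₁*d₂ + n₂*d₁) + b₆*d₁^2*d₂^2

/-- numerator of the differential addition -/
def addN (b₂ b₄ b₆ x n₁ d₁ n₂ d₂ : R) : R :=
  addS b₂ b₄ b₆ n₁ d₁ n₂ d₂ - x * (addW n₁ d₁ n₂ d₂)^2

/-- denominator of the differential addition -/
def addD (n₁ d₁ n₂ d₂ : R) : R := (addW n₁ d₁ n₂ d₂)^2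

/-- the ladder: `lad k = (N_k, D_k)` -/
def lad (b₂ b₄ b₆ b₈ x : R) : ℕ → R × R
  | 0 => (1, 0)
  | 1 => (x, 1)
  | (n+2) =>
    if n % 2 = 0 then
      (dblN b₄ b₆ b₈ (lad b₂ b₄ b₆ b₈ x (n/2+1)).1 (lad b₂ b₄ b₆ b₈ x (n/2+1)).2,
       dblD b₂ b₄ b₆ (lad b₂ b₄ b₆ b₈ x (n/2+1)).1 (lad b₂ b₄ b₆ b₈ x (n/2+1)).2)
    else
      (addN b₂ b₄ b₆ x (lad b₂ b₄ b₆ b₈ x ((n+1)/2)).1 (lad b₂ b₄ b₆ b₈ x ((n+1)/2)).2
          (lad b₂ b₄ b₆ b₈ x ((n+1)/2+1)).1 (lad b₂ b₄ b₆ b₈ x ((n+1)/2+1)).2,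
       addD (lad b₂ b₄ b₆ b₈ x ((n+1)/2)).1 (lad b₂ b₄ b₆ b₈ x ((n+1)/2)).2
          (lad b₂ b₄ b₆ b₈ x ((n+1)/2+1)).1 (lad b₂ b₄ b₆ b₈ x ((n+1)/2+1)).2)
termination_by n => n
decreasing_by all_goals omega

/-- `N_k` -/
def ladN (b₂ b₄ b₆ b₈ x : R) (k : ℕ) : R := (lad b₂ b₄ b₆ b₈ x k).1
/-- `D_k` -/
def ladD (b₂ b₄ b₆ b₈ x : R) (k : ℕ) : R := (lad b₂ b₄ b₆ b₈ x k).2

variable (b₂ b₄ b₆ b₈ x : R)

@[simp] lemma ladN_zero : ladN b₂ b₄ b₆ b₈ x 0 = 1 := by simp [ladN, lad]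
@[simp] lemma ladD_zero : ladD b₂ b₄ b₆ b₈ x 0 = 0 := by simp [ladD, lad]
@[simp] lemma ladN_one : ladN b₂ b₄ b₆ b₈ x 1 = x := by simp [ladN, lad]
@[simp] lemma ladD_one : ladD b₂ b₄ b₆ b₈ x 1 = 1 := by simp [ladD, lad]

lemma lad_even (k : ℕ) (hk : 1 ≤ k) :
    lad b₂ b₄ b₆ b₈ x (2*k) =
      (dblN b₄ b₆ b₈ (ladN b₂ b₄ b₆ b₈ x k) (ladD b₂ b₄ b₆ b₈ x k),
       dblD b₂ b₄ b₆ (ladN b₂ b₄ b₆ b₈ x k) (ladD b₂ b₄ b₆ b₈ x k)) := by
  obtain ⟨j, rfl⟩ : ∃ j, k = j + 1 := ⟨k - 1, by omega⟩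
  have h : 2 * (j + 1) = 2 * j + 2 := by ring
  rw [h, lad]
  have h1 : (2 * j) % 2 = 0 := by omega
  have h2 : (2 * j) / 2 + 1 = j + 1 := by omega
  rw [if_pos h1, h2]
  rfl

lemma lad_odd (k : ℕ) (hk : 1 ≤ k) :
    lad b₂ b₄ b₆ b₈ x (2*k+1) =
      (addN b₂ b₄ b₆ x (ladN b₂ b₄ b₆ b₈ x k) (ladD b₂ b₄ b₆ b₈ x k)
          (ladN b₂ b₄ b₆ b₈ x (k+1)) (ladD b₂ b₄ b₆ b₈ x (k+1)),
       addD (ladN b₂ b₄ b₆ b₈ x k) (ladD b₂ b₄ b₆ b₈ x k)
          (ladN b₂ b₄ b₆ b₈ x (k+1)) (ladD b₂ b₄ b₆ b₈ x (k+1))) := by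
  obtain ⟨j, rfl⟩ : ∃ j, k = j + 1 := ⟨k - 1, by omega⟩
  have h : 2 * (j + 1) + 1 = (2 * j + 1) + 2 := by ring
  rw [h, lad]
  have h1 : ¬ (2 * j + 1) % 2 = 0 := by omega
  have h2 : (2 * j + 1 + 1) / 2 = j + 1 := by omega
  rw [if_neg h1, h2]
  rfl

lemma ladN_even (k : ℕ) (hk : 1 ≤ k) : ladN b₂ b₄ b₆ b₈ x (2*k) =
    dblN b₄ b₆ b₈ (ladN b₂ b₄ b₆ b₈ x k) (ladD b₂ b₄ b₆ b₈ x k) := by
  rw [ladN, lad_even _ _ _ _ _ k hk]

lemma ladD_even (k : ℕ) (hk : 1 ≤ k) : ladD b₂ b₄ b₆ b₈ x (2*k) =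
    dblD b₂ b₄ b₆ (ladN b₂ b₄ b₆ b₈ x k) (ladD b₂ b₄ b₆ b₈ x k) := by
  rw [ladD, lad_even _ _ _ _ _ k hk]

lemma ladN_odd (k : ℕ) (hk : 1 ≤ k) : ladN b₂ b₄ b₆ b₈ x (2*k+1) =
    addN b₂ b₄ b₆ x (ladN b₂ b₄ b₆ b₈ x k) (ladD b₂ b₄ b₆ b₈ x k)
      (ladN b₂ b₄ b₆ b₈ x (k+1)) (ladD b₂ b₄ b₆ b₈ x (k+1)) := by
  rw [ladN, lad_odd _ _ _ _ _ k hk]

lemma ladD_odd (k : ℕ) (hk : 1 ≤ k) : ladD b₂ b₄ b₆ b₈ x (2*k+1) =
    addD (ladN b₂ b₄ b₆ b₈ x k) (ladD b₂ b₄ b₆ b₈ x k)
      (ladN b₂ b₄ b₆ b₈ x (k+1)) (ladD b₂ b₄ b₆ b₈ x (k+1)) := by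
  rw [ladD, lad_odd _ _ _ _ _ k hk]

/-- binary induction principle adapted to the ladder -/
theorem ladder_induction {P : ℕ → Prop} (h1 : P 1)
    (heven : ∀ k, 1 ≤ k → P k → P (2*k))
    (hodd : ∀ k, 1 ≤ k → P k → P (k+1) → P (2*k+1)) : ∀ k, 1 ≤ k → P k := by
  intro k
  induction k using Nat.strong_induction_on with
  | _ k ih =>
    intro hk
    rcases Nat.even_or_odd' k with ⟨j, rfl | rfl⟩
    · have hj : 1 ≤ j := by omega
      exact heven j hj (ih j (by omega) hj)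
    · rcases Nat.eq_zero_or_pos j with rfl | hj
      · exact h1
      · exact hodd j hj (ih j (by omega) hj) (ih (j+1) (by omega) (by omega))

section map

variable {S : Type*} [CommRing S] (φ : R →+* S)

lemma map_lad (k : ℕ) :
    lad (φ b₂) (φ b₄) (φ b₆) (φ b₈) (φ x) k =
      (φ (lad b₂ b₄ b₆ b₈ x k).1, φ (lad b₂ b₄ b₆ b₈ x k).2) := by
  induction k using Nat.strong_induction_on with
  | _ k ih =>
    match k with
    | 0 => simp [lad]
    | 1 => simp [lad]
    | (n+2) =>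
      rw [lad, lad]
      split_ifs with h
      · rw [ih (n/2+1) (by omega)]
        simp only [dblN, dblD, map_sub, map_mul, map_pow, map_add, map_ofNat]
      · rw [ih ((n+1)/2) (by omega), ih ((n+1)/2+1) (by omega)]
        simp only [addN, addD, addS, addW, map_sub, map_mul, map_pow, map_add, map_ofNat]

lemma map_ladN (k : ℕ) :
    ladN (φ b₂) (φ b₄) (φ b₆) (φ b₈) (φ x) k = φ (ladN b₂ b₄ b₆ b₈ x k) := by
  rw [ladN, map_lad]; rfl

lemma map_ladD (k : ℕ) :
    ladD (φ b₂) (φ b₄) (φ b₆) (φ b₈) (φ x) k = φ (ladD b₂ b₄ b₆ b₈ x k) := by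
  rw [ladD, map_lad]; rfl

end map

end Fermat.Agent.S13.H891

end
-- ===== PACK-END S13/H891/LadderDef.lean

-- ===== PACK-BEGIN S13/Comp2Core.lean
section



/-!
# Core valuation lemmas for the component homomorphism at a node, any residue characteristic

Abstract setting: a field `K` with a valuation `v`, a cubic
`(y - γ₁ x) (y - γ₂ x) = x (x ^ 2 + a)` with `v a < 1`, `a ≠ 0`, `v (γ₁ - γ₂) = 1`
(no hypothesis on `v 2`).  Three collinear points `(xᵢ, yᵢ)` on the line `y = l x + n`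
satisfy Vieta's relations.

This is the analogue, valid in residue characteristic `2`, of the odd residue characteristic
development `Fermat.Agent.S05.Comp`.
-/

set_option autoImplicit false

namespace Fermat.Agent.S13.Comp2

variable {K : Type*} [Field K] {Γ₀ : Type*} [LinearOrderedCommGroupWithZero Γ₀]
  {v : Valuation K Γ₀}

/-- The data of three collinear points on the cubic `(y - γ₁ x) (y - γ₂ x) = x (x ^ 2 + a)`. -/
structure Coll2 (a γ₁ γ₂ : K) (x₁ y₁ x₂ y₂ x₃ y₃ l n : K) : Prop where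
  L1 : y₁ = l * x₁ + n
  L2 : y₂ = l * x₂ + n
  L3 : y₃ = l * x₃ + n
  E1 : (y₁ - γ₁ * x₁) * (y₁ - γ₂ * x₁) = x₁ * (x₁ ^ 2 + a)
  E2 : (y₂ - γ₁ * x₂) * (y₂ - γ₂ * x₂) = x₂ * (x₂ ^ 2 + a)
  E3 : (y₃ - γ₁ * x₃) * (y₃ - γ₂ * x₃) = x₃ * (x₃ ^ 2 + a)
  V1 : x₁ + x₂ + x₃ = (l - γ₁) * (l - γ₂)
  V2 : x₁ * x₂ + x₁ * x₃ + x₂ * x₃ = a - n * ((l - γ₁) + (l - γ₂))
  V3 : x₁ * x₂ * x₃ = n ^ 2

namespace Coll2

variable {a γ₁ γ₂ x₁ y₁ x₂ y₂ x₃ y₃ l n : K}

lemma swap12 (h : Coll2 a γ₁ γ₂ x₁ y₁ x₂ y₂ x₃ y₃ l n) :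
    Coll2 a γ₁ γ₂ x₂ y₂ x₁ y₁ x₃ y₃ l n where
  L1 := h.L2
  L2 := h.L1
  L3 := h.L3
  E1 := h.E2
  E2 := h.E1
  E3 := h.E3
  V1 := by rw [← h.V1]; ring
  V2 := by rw [← h.V2]; ring
  V3 := by rw [← h.V3]; ring

lemma swap23 (h : Coll2 a γ₁ γ₂ x₁ y₁ x₂ y₂ x₃ y₃ l n) :
    Coll2 a γ₁ γ₂ x₁ y₁ x₃ y₃ x₂ y₂ l n where
  L1 := h.L1
  L2 := h.L3
  L3 := h.L2
  E1 := h.E1
  E2 := h.E3
  E3 := h.E2
  V1 := by rw [← h.V1]; ring
  V2 := by rw [← h.V2]; ring
  V3 := by rw [← h.V3]; ring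

lemma swap13 (h : Coll2 a γ₁ γ₂ x₁ y₁ x₂ y₂ x₃ y₃ l n) :
    Coll2 a γ₁ γ₂ x₃ y₃ x₂ y₂ x₁ y₁ l n where
  L1 := h.L3
  L2 := h.L2
  L3 := h.L1
  E1 := h.E3
  E2 := h.E2
  E3 := h.E1
  V1 := by rw [← h.V1]; ring
  V2 := by rw [← h.V2]; ring
  V3 := by rw [← h.V3]; ring

lemma rot (h : Coll2 a γ₁ γ₂ x₁ y₁ x₂ y₂ x₃ y₃ l n) :
    Coll2 a γ₁ γ₂ x₂ y₂ x₃ y₃ x₁ y₁ l n :=
  h.swap12.swap23

lemma rot' (h : Coll2 a γ₁ γ₂ x₁ y₁ x₂ y₂ x₃ y₃ l n) :
    Coll2 a γ₁ γ₂ x₃ y₃ x₁ y₁ x₂ y₂ l n :=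
  h.swap23.swap12

/-- Exchanging the two branches. -/
lemma flip (h : Coll2 a γ₁ γ₂ x₁ y₁ x₂ y₂ x₃ y₃ l n) :
    Coll2 a γ₂ γ₁ x₁ y₁ x₂ y₂ x₃ y₃ l n where
  L1 := h.L1
  L2 := h.L2
  L3 := h.L3
  E1 := by rw [← h.E1]; ring
  E2 := by rw [← h.E2]; ring
  E3 := by rw [← h.E3]; ring
  V1 := by rw [h.V1]; ring
  V2 := by rw [h.V2]; ring
  V3 := h.V3

end Coll2

variable {a γ₁ γ₂ x₁ y₁ x₂ y₂ x₃ y₃ l n : K}

lemma val_add3_le {p q r : K} {g : Γ₀} (hp : v p ≤ g) (hq : v q ≤ g) (hr : v r ≤ g) :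
    v (p + q + r) ≤ g :=
  Valuation.map_add_le _ (Valuation.map_add_le _ hp hq) hr

lemma val_add3_lt {p q r : K} {g : Γ₀} (hp : v p < g) (hq : v q < g) (hr : v r < g) :
    v (p + q + r) < g :=
  Valuation.map_add_lt _ (Valuation.map_add_lt _ hp hq) hr

lemma val_two_le_one : v (2 : K) ≤ 1 := by
  have e : (2 : K) = 1 + 1 := by norm_num
  rw [e]
  exact Valuation.map_add_le _ (by rw [map_one]) (by rw [map_one])

lemma val_four_le_one : v (4 : K) ≤ 1 := by
  have e : (4 : K) = 2 * 2 := by norm_num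
  rw [e, map_mul]
  exact mul_le_one' val_two_le_one val_two_le_one

lemma val_swap_delta (hδ : v (γ₁ - γ₂) = 1) : v (γ₂ - γ₁) = 1 := by
  rw [← Valuation.map_neg, neg_sub]; exact hδ

lemma Coll2.vs_vn (h : Coll2 a γ₁ γ₂ x₁ y₁ x₂ y₂ x₃ y₃ l n) :
    v n * v ((l - γ₁) + (l - γ₂)) = v (a - (x₁ * x₂ + x₁ * x₃ + x₂ * x₃)) := by
  rw [h.V2]
  have e : a - (a - n * ((l - γ₁) + (l - γ₂))) = n * ((l - γ₁) + (l - γ₂)) := by ring
  rw [e, map_mul]

lemma Coll2.vn_sq (h : Coll2 a γ₁ γ₂ x₁ y₁ x₂ y₂ x₃ y₃ l n) :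
    v n ^ 2 = v x₁ * v x₂ * v x₃ := by
  rw [← map_pow, ← h.V3, map_mul, map_mul]

lemma Coll2.s_sq (h : Coll2 a γ₁ γ₂ x₁ y₁ x₂ y₂ x₃ y₃ l n) :
    ((l - γ₁) + (l - γ₂)) ^ 2 = (γ₁ - γ₂) ^ 2 + 4 * (x₁ + x₂ + x₃) := by
  rw [h.V1]; ring

/-- If all three points are at the node then exactly one of `l - γ₁`, `l - γ₂` is small. -/
lemma Coll2.kappa_dichotomy (h : Coll2 a γ₁ γ₂ x₁ y₁ x₂ y₂ x₃ y₃ l n)
    (hδ : v (γ₁ - γ₂) = 1) (h1 : v x₁ < 1) (h2 : v x₂ < 1) (h3 : v x₃ < 1) :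
    (v (l - γ₁) < 1 ∧ v (l - γ₂) = 1) ∨ (v (l - γ₁) = 1 ∧ v (l - γ₂) < 1) := by
  have hprod : v ((l - γ₁) * (l - γ₂)) < 1 := by
    rw [← h.V1]; exact val_add3_lt h1 h2 h3
  rcases lt_or_ge (v (l - γ₁)) 1 with hk | hk
  · left
    refine ⟨hk, ?_⟩
    have e : l - γ₂ = (l - γ₁) + (γ₁ - γ₂) := by ring
    rw [e, Valuation.map_add_eq_of_lt_right _ (by rw [hδ]; exact hk), hδ]
  · right
    have hk' : v (l - γ₂) < 1 := by
      by_contra hcon
      rw [not_lt] at hcon
      rw [map_mul] at hprod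
      exact absurd (one_le_mul_of_one_le_of_one_le hk hcon) (not_le.mpr hprod)
    refine ⟨?_, hk'⟩
    have e : l - γ₁ = (l - γ₂) + (γ₂ - γ₁) := by ring
    rw [e, Valuation.map_add_eq_of_lt_right _ (by rw [val_swap_delta hδ]; exact hk'),
      val_swap_delta hδ]

/-- If all three points are at the node then `v ((l - γ₁) + (l - γ₂)) = 1`. -/
lemma Coll2.vs_eq_one (h : Coll2 a γ₁ γ₂ x₁ y₁ x₂ y₂ x₃ y₃ l n)
    (hδ : v (γ₁ - γ₂) = 1) (h1 : v x₁ < 1) (h2 : v x₂ < 1) (h3 : v x₃ < 1) :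
    v ((l - γ₁) + (l - γ₂)) = 1 := by
  rcases h.kappa_dichotomy hδ h1 h2 h3 with ⟨hk, hk'⟩ | ⟨hk, hk'⟩
  · rw [Valuation.map_add_eq_of_lt_right _ (by rw [hk']; exact hk), hk']
  · rw [Valuation.map_add_eq_of_lt_left _ (by rw [hk]; exact hk'), hk]

/-- If all three points are at the node then `v (l - γ₁) ≤ 1`. -/
lemma Coll2.vk_le_one (h : Coll2 a γ₁ γ₂ x₁ y₁ x₂ y₂ x₃ y₃ l n)
    (hδ : v (γ₁ - γ₂) = 1) (h1 : v x₁ < 1) (h2 : v x₂ < 1) (h3 : v x₃ < 1) :
    v (l - γ₁) ≤ 1 := by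
  rcases h.kappa_dichotomy hδ h1 h2 h3 with ⟨hk, -⟩ | ⟨hk, -⟩
  · exact hk.le
  · exact hk.le

/-- Key inequality: if `x₁` is strictly smaller than `x₂, x₃`, `x₃` is not at the node and
`v a < v x₂ * v x₃`, contradiction. Covers "exactly one point at the node" and
"two at the node with different valuations". -/
lemma factD (h : Coll2 a γ₁ γ₂ x₁ y₁ x₂ y₂ x₃ y₃ l n) (hδ : v (γ₁ - γ₂) = 1)
    (h12 : v x₁ < v x₂) (h13 : v x₁ < v x₃) (h23 : v x₂ ≤ v x₃) (h3 : 1 ≤ v x₃)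
    (hμ : v a < v x₂ * v x₃) : False := by
  have hr2 : 0 < v x₂ := lt_of_le_of_lt zero_le h12
  have hr3 : 0 < v x₃ := lt_of_lt_of_le zero_lt_one h3
  have hne : v x₂ * v x₃ ≠ 0 := (mul_pos hr2 hr3).ne'
  have hd1 : v (x₁ * x₂) < v (x₂ * x₃) := by
    rw [map_mul, map_mul, mul_comm (v x₁)]
    exact mul_lt_mul_of_pos_left h13 hr2
  have hd2 : v (x₁ * x₃) < v (x₂ * x₃) := by
    rw [map_mul, map_mul]
    exact mul_lt_mul_of_pos_right h12 hr3
  have ha : v a < v (x₂ * x₃) := by rw [map_mul]; exact hμ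
  have hsn : v n * v ((l - γ₁) + (l - γ₂)) = v x₂ * v x₃ := by
    rw [h.vs_vn, ← map_mul]
    have e : a - (x₁ * x₂ + x₁ * x₃ + x₂ * x₃) = (a - (x₁ * x₂ + x₁ * x₃)) - x₂ * x₃ := by
      ring
    rw [e]
    apply Valuation.map_sub_eq_of_lt_right
    exact Valuation.map_sub_lt _ ha (Valuation.map_add_lt _ hd1 hd2)
  have hs2 : v ((l - γ₁) + (l - γ₂)) ^ 2 * v x₁ = v x₂ * v x₃ := by
    have e1 : (v n * v ((l - γ₁) + (l - γ₂))) ^ 2 = (v x₂ * v x₃) ^ 2 := by rw [hsn]
    rw [mul_pow, h.vn_sq] at e1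
    have e2 : (v ((l - γ₁) + (l - γ₂)) ^ 2 * v x₁) * (v x₂ * v x₃) =
        (v x₂ * v x₃) * (v x₂ * v x₃) := by
      rw [← pow_two, ← e1]; ac_rfl
    exact mul_right_cancel₀ hne e2
  have hs2le : v ((l - γ₁) + (l - γ₂)) ^ 2 ≤ v x₃ := by
    rw [← map_pow, h.s_sq]
    refine Valuation.map_add_le _ ?_ ?_
    · rw [map_pow, hδ, one_pow]; exact h3
    · rw [map_mul]
      calc v 4 * v (x₁ + x₂ + x₃) ≤ 1 * v (x₁ + x₂ + x₃) :=
            mul_le_mul' val_four_le_one le_rfl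
        _ = v (x₁ + x₂ + x₃) := one_mul _
        _ ≤ v x₃ := val_add3_le h13.le h23 le_rfl
  have : v ((l - γ₁) + (l - γ₂)) ^ 2 * v x₁ < v x₂ * v x₃ := by
    rcases eq_or_ne (v ((l - γ₁) + (l - γ₂)) ^ 2) 0 with h0 | h0
    · rw [h0, zero_mul]; exact mul_pos hr2 hr3
    · calc v ((l - γ₁) + (l - γ₂)) ^ 2 * v x₁
          < v ((l - γ₁) + (l - γ₂)) ^ 2 * v x₂ :=
            mul_lt_mul_of_pos_left h12 (zero_lt_iff.mpr h0)
        _ ≤ v x₃ * v x₂ := mul_le_mul' hs2le le_rfl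
        _ = v x₂ * v x₃ := mul_comm _ _
  exact absurd hs2 this.ne

/-- Exactly one point at the node is impossible. -/
lemma factC (h : Coll2 a γ₁ γ₂ x₁ y₁ x₂ y₂ x₃ y₃ l n) (hδ : v (γ₁ - γ₂) = 1)
    (ha : v a < 1) (h1 : v x₁ < 1) (h2' : 1 ≤ v x₂) (h3 : 1 ≤ v x₃) : False := by
  have h23 : 1 ≤ v x₂ * v x₃ := one_le_mul_of_one_le_of_one_le h2' h3
  rcases le_total (v x₂) (v x₃) with h' | h'
  · exact factD h hδ (lt_of_lt_of_le h1 h2') (lt_of_lt_of_le h1 h3) h' h3
      (lt_of_lt_of_le ha h23)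
  · exact factD h.swap23 hδ (lt_of_lt_of_le h1 h3) (lt_of_lt_of_le h1 h2') h' h2'
      (lt_of_lt_of_le ha (by rwa [mul_comm]))

/-- All three points in the `M`-range (`v x ≤ v a`) is impossible. -/
lemma factMMM (h : Coll2 a γ₁ γ₂ x₁ y₁ x₂ y₂ x₃ y₃ l n) (hδ : v (γ₁ - γ₂) = 1)
    (ha : v a < 1) (ha0 : a ≠ 0)
    (h1 : v x₁ ≤ v a) (h2' : v x₂ ≤ v a) (h3 : v x₃ ≤ v a) : False := by
  have hμ : 0 < v a := by rw [Valuation.pos_iff]; exact ha0
  have hs : v ((l - γ₁) + (l - γ₂)) = 1 :=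
    h.vs_eq_one hδ (h1.trans_lt ha) (h2'.trans_lt ha) (h3.trans_lt ha)
  have hn : v n < v a := by
    by_contra hcon
    rw [not_lt] at hcon
    have e1 : v a ^ 2 ≤ v n ^ 2 := pow_le_pow_left₀ zero_le hcon 2
    rw [h.vn_sq] at e1
    have e2 : v x₁ * v x₂ * v x₃ ≤ v a * v a * v a :=
      mul_le_mul' (mul_le_mul' h1 h2') h3
    have e3 : v a * v a * v a < v a ^ 2 := by
      rw [pow_two]
      calc v a * v a * v a < v a * v a * 1 := mul_lt_mul_of_pos_left ha (mul_pos hμ hμ)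
        _ = v a * v a := mul_one _
    exact absurd (e1.trans e2) (not_le.mpr e3)
  have hsn := h.vs_vn (v := v)
  rw [hs, mul_one] at hsn
  have hsum : v (x₁ * x₂ + x₁ * x₃ + x₂ * x₃) < v a := by
    have hh : ∀ p q : K, v p ≤ v a → v q ≤ v a → v (p * q) < v a := by
      intro p q hp hq
      rw [map_mul]
      calc v p * v q ≤ v a * v a := mul_le_mul' hp hq
        _ < v a * 1 := mul_lt_mul_of_pos_left ha hμ
        _ = v a := mul_one _
    exact val_add3_lt (hh _ _ h1 h2') (hh _ _ h1 h3) (hh _ _ h2' h3)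
  rw [Valuation.map_sub_eq_of_lt_left _ hsum] at hsn
  exact absurd hsn hn.ne

/-- Two points in the `M`-range and one at the node is impossible. -/
lemma factMMmid (h : Coll2 a γ₁ γ₂ x₁ y₁ x₂ y₂ x₃ y₃ l n) (hδ : v (γ₁ - γ₂) = 1)
    (ha : v a < 1) (ha0 : a ≠ 0)
    (h1 : v x₁ ≤ v a) (h2' : v x₂ ≤ v a) (h3 : v x₃ < 1) : False := by
  have hμ : 0 < v a := by rw [Valuation.pos_iff]; exact ha0
  have hs : v ((l - γ₁) + (l - γ₂)) = 1 :=
    h.vs_eq_one hδ (h1.trans_lt ha) (h2'.trans_lt ha) h3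
  have hsn := h.vs_vn (v := v)
  rw [hs, mul_one] at hsn
  have hh : ∀ p q : K, v p ≤ v a → v q < 1 → v (p * q) < v a := by
    intro p q hp hq
    rw [map_mul]
    calc v p * v q ≤ v a * v q := mul_le_mul' hp le_rfl
      _ < v a * 1 := mul_lt_mul_of_pos_left hq hμ
      _ = v a := mul_one _
  have hsum : v (x₁ * x₂ + x₁ * x₃ + x₂ * x₃) < v a :=
    val_add3_lt (hh _ _ h1 (h2'.trans_lt ha)) (hh _ _ h1 h3) (hh _ _ h2' h3)
  rw [Valuation.map_sub_eq_of_lt_left _ hsum] at hsn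
  have e1 := h.vn_sq (v := v)
  rw [hsn] at e1
  have e2 : v x₁ * v x₂ * v x₃ < v a ^ 2 := by
    rw [pow_two]
    calc v x₁ * v x₂ * v x₃ ≤ v a * v a * v x₃ := mul_le_mul' (mul_le_mul' h1 h2') le_rfl
      _ < v a * v a * 1 := mul_lt_mul_of_pos_left h3 (mul_pos hμ hμ)
      _ = v a * v a := mul_one _
  exact absurd e1.symm e2.ne

/-- In the middle range, one of the two branches of the node is chosen. -/
lemma sign_exists {x y : K}
    (hE : (y - γ₁ * x) * (y - γ₂ * x) = x * (x ^ 2 + a)) (hlo : v a < v x) (hhi : v x < 1) :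
    v (y - γ₁ * x) < v x ∨ v (y - γ₂ * x) < v x := by
  have hx : 0 < v x := lt_of_le_of_lt zero_le hlo
  have h1 : v (x ^ 2 + a) < v x := by
    apply Valuation.map_add_lt _ _ hlo
    rw [map_pow, pow_two]
    calc v x * v x < v x * 1 := mul_lt_mul_of_pos_left hhi hx
      _ = v x := mul_one _
  by_contra hcon
  rw [not_or, not_lt, not_lt] at hcon
  have h2 : v x * v x ≤ v ((y - γ₁ * x) * (y - γ₂ * x)) := by
    rw [map_mul]; exact mul_le_mul' hcon.1 hcon.2
  rw [hE, map_mul] at h2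
  exact absurd h2 (not_le.mpr (mul_lt_mul_of_pos_left h1 hx))

/-- In the middle range, the two branches of the node are exclusive. -/
lemma sign_exclusive {x y : K} (hδ : v (γ₁ - γ₂) = 1) :
    ¬ (v (y - γ₁ * x) < v x ∧ v (y - γ₂ * x) < v x) := by
  rintro ⟨h1, h3⟩
  have e : (γ₁ - γ₂) * x = (y - γ₂ * x) - (y - γ₁ * x) := by ring
  have h4 : v ((γ₁ - γ₂) * x) < v x := by
    rw [e]; exact Valuation.map_sub_lt _ h3 h1
  rw [map_mul, hδ, one_mul] at h4
  exact lt_irrefl _ h4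

/-- Two points at the node with the same valuation `< 1` and third point away from the
node cannot lie on the same branch. -/
lemma factBsign (h : Coll2 a γ₁ γ₂ x₁ y₁ x₂ y₂ x₃ y₃ l n) (hδ : v (γ₁ - γ₂) = 1)
    (h12 : v x₁ = v x₂) (h1 : v x₁ < 1) (hx1 : x₁ ≠ 0) (h3 : 1 ≤ v x₃)
    (hP1 : v (y₁ - γ₁ * x₁) < v x₁) (hP2 : v (y₂ - γ₁ * x₂) < v x₂) : False := by
  have hr : 0 < v x₁ := by rw [Valuation.pos_iff]; exact hx1
  set κ := l - γ₁ with hκ
  set θ₁ := y₁ - γ₁ * x₁ with hθ₁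
  set θ₂ := y₂ - γ₁ * x₂ with hθ₂
  set δ := -x₁ - x₂ with hδ'
  have hθ₁' : θ₁ = κ * x₁ + n := by rw [hθ₁, h.L1, hκ]; ring
  have hθ₂' : θ₂ = κ * x₂ + n := by rw [hθ₂, h.L2, hκ]; ring
  have hx3 : x₃ = κ ^ 2 + (γ₁ - γ₂) * κ + δ := by
    have := h.V1
    have e : x₃ = (l - γ₁) * (l - γ₂) - x₁ - x₂ := by rw [← this]; ring
    rw [e, hκ, hδ']; ring
  have hid : θ₁ * θ₂ - κ * (x₁ * θ₂ + x₂ * θ₁) = x₁ * x₂ * ((γ₁ - γ₂) * κ + δ) := by
    have e3 := h.V3
    rw [hx3] at e3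
    have : θ₁ * θ₂ - κ * (x₁ * θ₂ + x₂ * θ₁) = n ^ 2 - κ ^ 2 * (x₁ * x₂) := by
      rw [hθ₁', hθ₂']; ring
    rw [this, ← e3]; ring
  have hδ1 : v δ < 1 := by
    rw [hδ']
    exact Valuation.map_sub_lt _ (by rw [Valuation.map_neg]; exact h1) (h12 ▸ h1)
  -- v κ ≥ 1
  have hκ1 : 1 ≤ v κ := by
    by_contra hcon
    rw [not_le] at hcon
    have hn : v n < v x₁ := by
      have e : n = θ₁ - κ * x₁ := by rw [hθ₁']; ring
      rw [e]
      apply Valuation.map_sub_lt _ hP1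
      rw [map_mul]
      calc v κ * v x₁ < 1 * v x₁ := mul_lt_mul_of_pos_right hcon hr
        _ = v x₁ := one_mul _
    have e1 := h.vn_sq (v := v)
    have e2 : v n ^ 2 < v x₁ * v x₂ * v x₃ := by
      rw [← h12, pow_two]
      calc v n * v n ≤ v n * v x₁ := mul_le_mul' le_rfl hn.le
        _ < v x₁ * v x₁ := mul_lt_mul_of_pos_right hn hr
        _ = v x₁ * v x₁ * 1 := (mul_one _).symm
        _ ≤ v x₁ * v x₁ * v x₃ := mul_le_mul' le_rfl h3
    exact absurd e1 e2.ne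
  have hκpos : 0 < v κ := lt_of_lt_of_le zero_lt_one hκ1
  have hR : v (x₁ * x₂ * ((γ₁ - γ₂) * κ + δ)) = v x₁ * v x₁ * v κ := by
    rw [map_mul, map_mul, ← h12]
    congr 1
    have : v δ < v ((γ₁ - γ₂) * κ) := by
      rw [map_mul, hδ, one_mul]; exact lt_of_lt_of_le hδ1 hκ1
    rw [Valuation.map_add_eq_of_lt_left _ this, map_mul, hδ, one_mul]
  have hL : v (θ₁ * θ₂ - κ * (x₁ * θ₂ + x₂ * θ₁)) < v x₁ * v x₁ * v κ := by
    apply Valuation.map_sub_lt
    · rw [map_mul]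
      calc v θ₁ * v θ₂ ≤ v θ₁ * v x₁ := mul_le_mul' le_rfl (h12 ▸ hP2.le)
        _ < v x₁ * v x₁ := mul_lt_mul_of_pos_right hP1 hr
        _ = v x₁ * v x₁ * 1 := (mul_one _).symm
        _ ≤ v x₁ * v x₁ * v κ := mul_le_mul' le_rfl hκ1
    · rw [map_mul, mul_comm]
      apply mul_lt_mul_of_pos_right _ hκpos
      apply Valuation.map_add_lt
      · rw [map_mul]
        exact mul_lt_mul_of_pos_left (h12 ▸ hP2) hr
      · rw [map_mul, ← h12]
        exact mul_lt_mul_of_pos_left hP1 hr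
  rw [hid, hR] at hL
  exact lt_irrefl _ hL

/-- A point in the `M`-range has `v (y - γ₁ x) ≤ v a`. -/
lemma val_theta_le_of_M {x y : K} (hδ : v (γ₁ - γ₂) = 1) (ha : v a < 1)
    (hE : (y - γ₁ * x) * (y - γ₂ * x) = x * (x ^ 2 + a)) (hx : v x ≤ v a) :
    v (y - γ₁ * x) ≤ v a := by
  by_contra hcon
  rw [not_le] at hcon
  have hpos : 0 < v (y - γ₁ * x) := lt_of_le_of_lt zero_le hcon
  have h2 : v (y - γ₂ * x) = v (y - γ₁ * x) := by
    have e : y - γ₂ * x = (y - γ₁ * x) + (γ₁ - γ₂) * x := by ring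
    rw [e]
    apply Valuation.map_add_eq_of_lt_left
    rw [map_mul, hδ, one_mul]; exact hx.trans_lt hcon
  have h3 : v a * v a < v ((y - γ₁ * x) * (y - γ₂ * x)) := by
    rw [map_mul, h2]
    calc v a * v a ≤ v a * v (y - γ₁ * x) := mul_le_mul' le_rfl hcon.le
      _ < v (y - γ₁ * x) * v (y - γ₁ * x) := mul_lt_mul_of_pos_right hcon hpos
  have h4 : v (x * (x ^ 2 + a)) ≤ v a * v a := by
    rw [map_mul]
    apply mul_le_mul' hx
    apply Valuation.map_add_le _ _ le_rfl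
    rw [map_pow, pow_two]
    calc v x * v x ≤ v a * v a := mul_le_mul' hx hx
      _ ≤ v a * 1 := mul_le_mul' le_rfl ha.le
      _ = v a := mul_one _
  rw [hE] at h3
  exact absurd h4 (not_le.mpr h3)

/-- `M`, at the node, at the node: `v n ≤ v a`. -/
lemma Coll2.vn_le_of_M (h : Coll2 a γ₁ γ₂ x₁ y₁ x₂ y₂ x₃ y₃ l n) (hδ : v (γ₁ - γ₂) = 1)
    (ha : v a < 1) (h1 : v x₁ ≤ v a) (h2 : v x₂ < 1) (h3 : v x₃ < 1) : v n ≤ v a := by
  have hk : v (l - γ₁) ≤ 1 := h.vk_le_one hδ (h1.trans_lt ha) h2 h3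
  have ht : v (y₁ - γ₁ * x₁) ≤ v a := val_theta_le_of_M hδ ha h.E1 h1
  have e : n = (y₁ - γ₁ * x₁) - (l - γ₁) * x₁ := by rw [h.L1]; ring
  rw [e]
  apply Valuation.map_sub_le _ ht
  rw [map_mul]
  calc v (l - γ₁) * v x₁ ≤ 1 * v a := mul_le_mul' hk h1
    _ = v a := one_mul _

/-- `M`, mid, mid: the two middle points have `v x₂ * v x₃ = v a`. -/
lemma factA'_val (h : Coll2 a γ₁ γ₂ x₁ y₁ x₂ y₂ x₃ y₃ l n) (hδ : v (γ₁ - γ₂) = 1)
    (ha : v a < 1) (ha0 : a ≠ 0)
    (h1 : v x₁ ≤ v a) (h2hi : v x₂ < 1) (h3hi : v x₃ < 1) : v x₂ * v x₃ = v a := by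
  have hμ : 0 < v a := by rw [Valuation.pos_iff]; exact ha0
  have hs : v ((l - γ₁) + (l - γ₂)) = 1 := h.vs_eq_one hδ (h1.trans_lt ha) h2hi h3hi
  have hn : v n ≤ v a := h.vn_le_of_M hδ ha h1 h2hi h3hi
  have h12 : v (x₁ * x₂) < v a := by
    rw [map_mul]
    calc v x₁ * v x₂ ≤ v a * v x₂ := mul_le_mul' h1 le_rfl
      _ < v a * 1 := mul_lt_mul_of_pos_left h2hi hμ
      _ = v a := mul_one _
  have h13 : v (x₁ * x₃) < v a := by
    rw [map_mul]
    calc v x₁ * v x₃ ≤ v a * v x₃ := mul_le_mul' h1 le_rfl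
      _ < v a * 1 := mul_lt_mul_of_pos_left h3hi hμ
      _ = v a := mul_one _
  have hle : v x₂ * v x₃ ≤ v a := by
    have e : x₂ * x₃ = a - n * ((l - γ₁) + (l - γ₂)) - x₁ * x₂ - x₁ * x₃ := by
      rw [← h.V2]; ring
    rw [← map_mul, e]
    apply Valuation.map_sub_le _ (Valuation.map_sub_le _ (Valuation.map_sub_le _ le_rfl _)
      h12.le) h13.le
    rw [map_mul, hs, mul_one]; exact hn
  rcases hle.lt_or_eq with hlt | heq
  · exfalso
    have hsn := h.vs_vn (v := v)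
    rw [hs, mul_one] at hsn
    have hsum : v (x₁ * x₂ + x₁ * x₃ + x₂ * x₃) < v a :=
      val_add3_lt h12 h13 (by rw [map_mul]; exact hlt)
    rw [Valuation.map_sub_eq_of_lt_left _ hsum] at hsn
    have e1 := h.vn_sq (v := v)
    rw [hsn] at e1
    have e2 : v x₁ * v x₂ * v x₃ < v a ^ 2 := by
      rw [pow_two, mul_assoc]
      calc v x₁ * (v x₂ * v x₃) ≤ v a * (v x₂ * v x₃) := mul_le_mul' h1 le_rfl
        _ < v a * v a := mul_lt_mul_of_pos_left hlt hμ
    exact absurd e1.symm e2.ne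
  · exact heq

/-- `M`, mid, mid: the two middle points lie on the same branch. -/
lemma factA'_sign (h : Coll2 a γ₁ γ₂ x₁ y₁ x₂ y₂ x₃ y₃ l n) (hδ : v (γ₁ - γ₂) = 1)
    (ha : v a < 1)
    (h1 : v x₁ ≤ v a) (h2lo : v a < v x₂) (h2hi : v x₂ < 1) (h3lo : v a < v x₃)
    (h3hi : v x₃ < 1)
    (hP2 : v (y₂ - γ₁ * x₂) < v x₂) (hN3 : v (y₃ - γ₂ * x₃) < v x₃) : False := by
  have hr2 : 0 < v x₂ := lt_of_le_of_lt zero_le h2lo
  have hr3 : 0 < v x₃ := lt_of_le_of_lt zero_le h3lo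
  have hn : v n ≤ v a := h.vn_le_of_M hδ ha h1 h2hi h3hi
  have hk : v (l - γ₁) < 1 := by
    have e : (l - γ₁) * x₂ = (y₂ - γ₁ * x₂) - n := by rw [h.L2]; ring
    have : v ((l - γ₁) * x₂) < v x₂ := by
      rw [e]; exact Valuation.map_sub_lt _ hP2 (hn.trans_lt h2lo)
    rw [map_mul] at this
    by_contra hcon
    rw [not_lt] at hcon
    exact absurd (le_mul_of_one_le_left hr2.le hcon) (not_le.mpr this)
  have hk' : v (l - γ₂) < 1 := by
    have e : (l - γ₂) * x₃ = (y₃ - γ₂ * x₃) - n := by rw [h.L3]; ring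
    have : v ((l - γ₂) * x₃) < v x₃ := by
      rw [e]; exact Valuation.map_sub_lt _ hN3 (hn.trans_lt h3lo)
    rw [map_mul] at this
    by_contra hcon
    rw [not_lt] at hcon
    exact absurd (le_mul_of_one_le_left hr3.le hcon) (not_le.mpr this)
  have e : γ₁ - γ₂ = (l - γ₂) - (l - γ₁) := by ring
  have : v (γ₁ - γ₂) < 1 := by rw [e]; exact Valuation.map_sub_lt _ hk' hk
  rw [hδ] at this
  exact lt_irrefl _ this

/-- If `v κ < 1` and `v (κ x + n) < v x` then `v n < v x`. -/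
lemma val_n_lt_of_small {κ x n : K} (hκ : v κ < 1) (hx : 0 < v x)
    (h : v (κ * x + n) < v x) : v n < v x := by
  have e : n = (κ * x + n) - κ * x := by ring
  rw [e]
  apply Valuation.map_sub_lt _ h
  rw [map_mul]
  calc v κ * v x < 1 * v x := mul_lt_mul_of_pos_right hκ hx
    _ = v x := one_mul _

/-- If `v κ = 1` and `v (κ x + n) < v x` then `v n = v x`. -/
lemma val_n_eq_of_unit {κ x n : K} (hκ : v κ = 1)
    (h : v (κ * x + n) < v x) : v n = v x := by
  have e : n = (κ * x + n) - κ * x := by ring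
  have hκx : v (κ * x) = v x := by rw [map_mul, hκ, one_mul]
  rw [e, Valuation.map_sub_eq_of_lt_right _ (by rw [hκx]; exact h), hκx]

/-- mid, mid, mid, all on the same branch: `v x₁ * v x₂ * v x₃ = v a ^ 2`. -/
lemma factA_same (h : Coll2 a γ₁ γ₂ x₁ y₁ x₂ y₂ x₃ y₃ l n) (hδ : v (γ₁ - γ₂) = 1)
    (h1lo : v a < v x₁) (h1hi : v x₁ < 1)
    (h2lo : v a < v x₂) (h2hi : v x₂ < 1) (h3lo : v a < v x₃) (h3hi : v x₃ < 1)
    (hP1 : v (y₁ - γ₁ * x₁) < v x₁) (hP2 : v (y₂ - γ₁ * x₂) < v x₂)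
    (hP3 : v (y₃ - γ₁ * x₃) < v x₃) : v x₁ * v x₂ * v x₃ = v a ^ 2 := by
  have hr1 : 0 < v x₁ := lt_of_le_of_lt zero_le h1lo
  have hr2 : 0 < v x₂ := lt_of_le_of_lt zero_le h2lo
  have hr3 : 0 < v x₃ := lt_of_le_of_lt zero_le h3lo
  have hs : v ((l - γ₁) + (l - γ₂)) = 1 := h.vs_eq_one hδ h1hi h2hi h3hi
  have e1 : y₁ - γ₁ * x₁ = (l - γ₁) * x₁ + n := by rw [h.L1]; ring
  have e2 : y₂ - γ₁ * x₂ = (l - γ₁) * x₂ + n := by rw [h.L2]; ring
  have e3 : y₃ - γ₁ * x₃ = (l - γ₁) * x₃ + n := by rw [h.L3]; ring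
  rw [e1] at hP1
  rw [e2] at hP2
  rw [e3] at hP3
  rcases h.kappa_dichotomy hδ h1hi h2hi h3hi with ⟨hk, -⟩ | ⟨hk, -⟩
  · have hn1 := val_n_lt_of_small hk hr1 hP1
    have hn2 := val_n_lt_of_small hk hr2 hP2
    have hn3 := val_n_lt_of_small hk hr3 hP3
    have hnsq := h.vn_sq (v := v)
    have key : ∀ p q r : Γ₀, 0 < p → 0 < q → v n ^ 2 = p * q * r → v n < r → p * q < v n := by
      intro p q r hp hq hpqr hr
      by_contra hcon
      rw [not_lt] at hcon
      have : v n ^ 2 < p * q * r := by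
        rw [pow_two]
        calc v n * v n ≤ p * q * v n := mul_le_mul' hcon le_rfl
          _ < p * q * r := mul_lt_mul_of_pos_left hr (mul_pos hp hq)
      exact absurd hpqr this.ne
    have k12 : v (x₁ * x₂) < v n := by
      rw [map_mul]; exact key _ _ _ hr1 hr2 hnsq hn3
    have k13 : v (x₁ * x₃) < v n := by
      rw [map_mul]; exact key _ _ _ hr1 hr3 (by rw [hnsq]; exact mul_right_comm _ _ _) hn2
    have k23 : v (x₂ * x₃) < v n := by
      rw [map_mul]
      exact key _ _ _ hr2 hr3 (by rw [hnsq]; exact mul_rotate _ _ _) hn1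
    have hsum : v (x₁ * x₂ + x₁ * x₃ + x₂ * x₃) < v n := val_add3_lt k12 k13 k23
    have hns : v (n * ((l - γ₁) + (l - γ₂))) = v n := by rw [map_mul, hs, mul_one]
    have : v a = v (n * ((l - γ₁) + (l - γ₂))) := by
      have e : a = (a - n * ((l - γ₁) + (l - γ₂))) + n * ((l - γ₁) + (l - γ₂)) := by ring
      conv_lhs => rw [e]
      apply Valuation.map_add_eq_of_lt_right
      rw [← h.V2, hns]; exact hsum
    rw [hns] at this
    rw [← hnsq, this]
  · exfalso
    have hn1 := val_n_eq_of_unit hk hP1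
    have hn2 := val_n_eq_of_unit hk hP2
    have hn3 := val_n_eq_of_unit hk hP3
    have hnsq := h.vn_sq (v := v)
    rw [← hn1, ← hn2, ← hn3, pow_two] at hnsq
    have hnpos : 0 < v n := hn1 ▸ hr1
    have : v n * v n * 1 = v n * v n * v n := by rw [mul_one]; exact hnsq
    have := mul_left_cancel₀ (mul_pos hnpos hnpos).ne' this
    rw [← this] at hn1
    exact absurd hn1.symm h1hi.ne

/-- mid, mid, mid, two on one branch and the third on the other: `v x₃ = v x₁ * v x₂`. -/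
lemma factA_mixed (h : Coll2 a γ₁ γ₂ x₁ y₁ x₂ y₂ x₃ y₃ l n) (hδ : v (γ₁ - γ₂) = 1)
    (h1lo : v a < v x₁) (h1hi : v x₁ < 1)
    (h2lo : v a < v x₂) (h2hi : v x₂ < 1) (h3lo : v a < v x₃) (h3hi : v x₃ < 1)
    (hP1 : v (y₁ - γ₁ * x₁) < v x₁) (hP2 : v (y₂ - γ₁ * x₂) < v x₂)
    (hN3 : v (y₃ - γ₂ * x₃) < v x₃) : v x₃ = v x₁ * v x₂ := by
  have hr1 : 0 < v x₁ := lt_of_le_of_lt zero_le h1lo
  have hr2 : 0 < v x₂ := lt_of_le_of_lt zero_le h2lo
  have hr3 : 0 < v x₃ := lt_of_le_of_lt zero_le h3lo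
  have e1 : y₁ - γ₁ * x₁ = (l - γ₁) * x₁ + n := by rw [h.L1]; ring
  have e2 : y₂ - γ₁ * x₂ = (l - γ₁) * x₂ + n := by rw [h.L2]; ring
  have e3 : y₃ - γ₂ * x₃ = (l - γ₂) * x₃ + n := by rw [h.L3]; ring
  rw [e1] at hP1
  rw [e2] at hP2
  rw [e3] at hN3
  have hnsq := h.vn_sq (v := v)
  rcases h.kappa_dichotomy hδ h1hi h2hi h3hi with ⟨-, hk'⟩ | ⟨hk, hk'⟩
  · have hn3 := val_n_eq_of_unit hk' hN3
    rw [hn3, pow_two] at hnsq
    have : v x₃ * v x₃ = v x₁ * v x₂ * v x₃ := hnsq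
    exact mul_right_cancel₀ hr3.ne' this
  · exfalso
    have hn1 := val_n_eq_of_unit hk hP1
    have hn2 := val_n_eq_of_unit hk hP2
    rw [← hn1, ← hn2, pow_two] at hnsq
    have hnpos : 0 < v n := hn1 ▸ hr1
    have : v n * v n * 1 = v n * v n * v x₃ := by rw [mul_one]; exact hnsq
    have := mul_left_cancel₀ (mul_pos hnpos hnpos).ne' this
    exact absurd this.symm h3hi.ne

end Fermat.Agent.S13.Comp2

end
-- ===== PACK-END S13/Comp2Core.lean

-- ===== PACK-BEGIN S15/H242/NodalSing.lean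
section


/-!
# S15, piece P-LOC (helper242), part 1: the singular point of a nodal Weierstrass cubic

For a Weierstrass cubic `W` over a field (any characteristic) with `Δ = 0` and `c₄ ≠ 0`, the
point `(x₀, y₀)` with

* `x₀ = (18 b₆ - b₂ b₄) / c₄`,
* `y₀ = (b₂ (a₁ a₄ - 2 a₂ a₃) + 3 (a₁ (a₃² - 12 a₆) + 8 a₃ a₄)) / c₄`

lies on `W` and both partial derivatives vanish there.  Moreover for *any* singular point
`(x₀, y₀)` one has `c₄ = (b₂ + 12 x₀)²`.
-/

set_option autoImplicit false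

namespace Fermat.Agent.S15.H242

open WeierstrassCurve WeierstrassCurve.Affine

variable {k : Type*} [Field k] (W : Affine k)

/-- `x`-coordinate of the singular point. -/
noncomputable def singX : k := (18 * W.b₆ - W.b₂ * W.b₄) / W.c₄

/-- `y`-coordinate of the singular point. -/
noncomputable def singY : k :=
  (W.b₂ * (W.a₁ * W.a₄ - 2 * W.a₂ * W.a₃) +
    3 * (W.a₁ * (W.a₃ ^ 2 - 12 * W.a₆) + 8 * W.a₃ * W.a₄)) / W.c₄

theorem sing_Fy (hc : W.c₄ ≠ 0) : 2 * singY W + W.a₁ * singX W + W.a₃ = 0 := by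
  unfold singX singY
  field_simp
  simp only [WeierstrassCurve.c₄, WeierstrassCurve.b₂, WeierstrassCurve.b₄, WeierstrassCurve.b₆]
  ring

theorem sing_Fx (hc : W.c₄ ≠ 0) (hΔ : W.Δ = 0) :
    W.a₁ * singY W - (3 * singX W ^ 2 + 2 * W.a₂ * singX W + W.a₄) = 0 := by
  unfold singX singY
  field_simp
  simp only [WeierstrassCurve.Δ, WeierstrassCurve.b₈] at hΔ
  simp only [WeierstrassCurve.c₄, WeierstrassCurve.b₂, WeierstrassCurve.b₄, WeierstrassCurve.b₆]
    at hΔ ⊢
  linear_combination 36 * hΔ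

theorem sing_F (hc : W.c₄ ≠ 0) (hΔ : W.Δ = 0) : W.Equation (singX W) (singY W) := by
  rw [Affine.equation_iff]
  unfold singX singY
  field_simp
  simp only [WeierstrassCurve.Δ, WeierstrassCurve.b₈] at hΔ
  simp only [WeierstrassCurve.c₄, WeierstrassCurve.b₂, WeierstrassCurve.b₄, WeierstrassCurve.b₆]
    at hΔ ⊢
  linear_combination
    (864 * W.a₆ + 216 * W.a₃ ^ 2 - 288 * W.a₂ * W.a₄ + 64 * W.a₂ ^ 3
      - 144 * W.a₁ * W.a₂ * W.a₃ - 72 * W.a₁ ^ 2 * W.a₄ + 48 * W.a₁ ^ 2 * W.a₂ ^ 2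
      - 36 * W.a₁ ^ 3 * W.a₃ + 12 * W.a₁ ^ 4 * W.a₂ + W.a₁ ^ 6) * hΔ

/-- For any singular point, `c₄ = (b₂ + 12 x₀)²`. -/
theorem c₄_eq_of_singular {x₀ y₀ : k}
    (hFx : W.a₁ * y₀ - (3 * x₀ ^ 2 + 2 * W.a₂ * x₀ + W.a₄) = 0)
    (hFy : 2 * y₀ + W.a₁ * x₀ + W.a₃ = 0) :
    W.c₄ = (W.b₂ + 12 * x₀) ^ 2 := by
  simp only [WeierstrassCurve.c₄, WeierstrassCurve.b₂, WeierstrassCurve.b₄]
  linear_combination 48 * hFx - 24 * W.a₁ * hFy

end Fermat.Agent.S15.H242

end
-- ===== PACK-END S15/H242/NodalSing.lean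

-- ===== PACK-BEGIN S49/Glue.lean
section






set_option autoImplicit false
open CuspForm CongruenceSubgroup ModularFormClass

namespace Fermat.Agent.S49

variable {N : ℕ}

theorem one_mem_strictPeriods (N : ℕ) :
    (1 : ℝ) ∈ (Subgroup.map (Matrix.SpecialLinearGroup.mapGL ℝ) (Gamma0 N)).strictPeriods :=
  CongruenceSubgroup.one_mem_strictPeriods_Gamma0 N

theorem glue_qCoeff_add (f g : CuspForm (Gamma0 N) 2) (n : ℕ) :
    qCoeff ⇑(f + g) n = qCoeff ⇑f n + qCoeff ⇑g n := by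
  simp only [qCoeff, FunLike.coe_add]
  rw [ModularForm.qExpansion_add one_pos (one_mem_strictPeriods N) f g, map_add]

theorem glue_qCoeff_smul (c : ℂ) (f : CuspForm (Gamma0 N) 2) (n : ℕ) :
    qCoeff ⇑(c • f) n = c * qCoeff ⇑f n := by
  have h1 : ⇑(c • f) = c • ⇑f := by
    ext z
    simp
  simp only [qCoeff, h1]
  rw [ModularForm.qExpansion_smul one_pos (one_mem_strictPeriods N) c f]
  simp

theorem glue_qCoeff_neg (f : CuspForm (Gamma0 N) 2) (n : ℕ) :
    qCoeff ⇑(-f) n = - qCoeff ⇑f n := by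
  have : -f = (-1 : ℂ) • f := by simp
  rw [this, glue_qCoeff_smul]
  ring

theorem glue_qCoeff_sub (f g : CuspForm (Gamma0 N) 2) (n : ℕ) :
    qCoeff ⇑(f - g) n = qCoeff ⇑f n - qCoeff ⇑g n := by
  rw [sub_eq_add_neg, glue_qCoeff_add, glue_qCoeff_neg, sub_eq_add_neg]

theorem glue_qCoeff_zero_idx (f : CuspForm (Gamma0 N) 2) : qCoeff ⇑f 0 = 0 := by
  simp only [qCoeff]
  exact CuspFormClass.qExpansion_coeff_zero f one_pos (one_mem_strictPeriods N)

theorem glue_eq_zero_of_qCoeff (f : CuspForm (Gamma0 N) 2) (h : ∀ n, qCoeff ⇑f n = 0) :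
    f = 0 := by
  have h0 : UpperHalfPlane.qExpansion 1 ⇑f = 0 := by
    ext n
    simpa [qCoeff] using h n
  have hper := SlashInvariantFormClass.periodic_comp_ofComplex f (one_mem_strictPeriods N)
  haveI : Fact (IsCusp OnePoint.infty
      (Subgroup.map (Matrix.SpecialLinearGroup.mapGL ℝ) (Gamma0 N))) :=
    ⟨Subgroup.isCusp_of_mem_strictPeriods one_pos (one_mem_strictPeriods N)⟩
  have := (UpperHalfPlane.qExpansion_eq_zero_iff one_pos hper (ModularFormClass.holo f)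
    (ModularFormClass.bdd_at_infty f)).mp h0
  exact DFunLike.coe_injective (this.trans CuspForm.coe_zero.symm)

theorem glue_qCoeff_heckeTLin {p : ℕ} (hp : p.Prime) (hpN : ¬ p ∣ N)
    (f : CuspForm (Gamma0 N) 2) (n : ℕ) :
    qCoeff ⇑(CuspForm.heckeTLin 2 hp hpN f) n =
      qCoeff ⇑f (n * p) + if p ∣ n then (p : ℂ) * qCoeff ⇑f (n / p) else 0 := by
  rw [CuspForm.coe_heckeTLin_apply,
    ModularFormClass.qCoeff_heckeT f (one_mem_strictPeriods N) hp.ne_zero n,
    ModularForm.coeffHeckeT_apply]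
  norm_num

theorem glue_qCoeff_heckeULin [NeZero N] {p : ℕ} (hp : p.Prime) (hpN : p ∣ N)
    (f : CuspForm (Gamma0 N) 2) (n : ℕ) :
    qCoeff ⇑(CuspForm.heckeULin 2 hpN f) n = qCoeff ⇑f (n * p) := by
  rw [CuspForm.coe_heckeULin_apply,
    ModularFormClass.qCoeff_heckeU f (one_mem_strictPeriods N) hp.ne_zero n,
    ModularForm.coeffHeckeU_apply]

end Fermat.Agent.S49

end
-- ===== PACK-END S49/Glue.lean

-- ===== PACK-BEGIN S29/H642/EigenFunctional.lean
section


/-!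
# S29 / E2 (helper642): Nakayama eigen-functional

A finitely generated module `L` over a commutative ring `O`, a ring hom `θ : O → F` to a field with
maximal kernel such that every `r` killing `L` satisfies `θ r = 0`: there is a nonzero additive
`π : L → F` with `π (a • x) = θ a * π x`.
-/

set_option autoImplicit false

namespace Fermat.Agent.S29.H642

theorem exists_eigenfunctional {O : Type*} [CommRing O] {L : Type*} [AddCommGroup L] [Module O L]
    [Module.Finite O L] {F : Type*} [Field F] (θ : O →+* F) (hmax : (RingHom.ker θ).IsMaximal)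
    (hfaith : ∀ r : O, (∀ x : L, r • x = 0) → θ r = 0) :
    ∃ π : L →+ F, π ≠ 0 ∧ ∀ (a : O) (x : L), π (a • x) = θ a * π x := by
  classical
  set I : Ideal O := RingHom.ker θ with hI
  -- Nakayama: `I • ⊤ ≠ ⊤`
  have hne : (I • (⊤ : Submodule O L)) ≠ ⊤ := by
    intro htop
    obtain ⟨r, hr1, hr0⟩ := Submodule.exists_sub_one_mem_and_smul_eq_zero_of_fg_of_le_smul I
      (⊤ : Submodule O L) Module.Finite.fg_top (le_of_eq htop.symm)
    have h1 : θ r = 0 := hfaith r fun x => hr0 x Submodule.mem_top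
    have h2 : θ (r - 1) = 0 := (RingHom.mem_ker).mp hr1
    rw [map_sub, h1, map_one, zero_sub, neg_eq_zero] at h2
    exact one_ne_zero h2
  letI : Field (O ⧸ I) := Ideal.Quotient.field I
  -- a nonzero vector of the quotient
  obtain ⟨x₀, hx₀⟩ : ∃ x₀ : L, x₀ ∉ I • (⊤ : Submodule O L) := by
    by_contra hcon
    push_neg at hcon
    exact hne (eq_top_iff.mpr fun x _ => hcon x)
  set Q := L ⧸ I • (⊤ : Submodule O L)
  have hv : (Submodule.Quotient.mk x₀ : Q) ≠ 0 := by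
    rwa [Ne, Submodule.Quotient.mk_eq_zero]
  obtain ⟨φ, hφ⟩ : ∃ φ : Module.Dual (O ⧸ I) Q, φ (Submodule.Quotient.mk x₀) ≠ 0 := by
    by_contra hcon
    push_neg at hcon
    exact hv ((Module.forall_dual_apply_eq_zero_iff (O ⧸ I) _).mp hcon)
  let ι : O ⧸ I →+* F := RingHom.kerLift θ
  have hι : Function.Injective ι := RingHom.kerLift_injective θ
  refine ⟨ι.toAddMonoidHom.comp (φ.toAddMonoidHom.comp
    (I • (⊤ : Submodule O L)).mkQ.toAddMonoidHom), ?_, ?_⟩
  · intro h0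
    have := congrArg (fun f : L →+ F => f x₀) h0
    simp only [AddMonoidHom.coe_comp, Function.comp_apply, AddMonoidHom.zero_apply] at this
    apply hφ
    apply hι
    rw [map_zero]
    exact this
  · intro a x
    simp only [AddMonoidHom.coe_comp, Function.comp_apply]
    show ι (φ (Submodule.Quotient.mk (a • x))) = θ a * ι (φ (Submodule.Quotient.mk x))
    have h1 : (Submodule.Quotient.mk (a • x) : Q)
        = (Ideal.Quotient.mk I a) • (Submodule.Quotient.mk x : Q) := rfl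
    rw [h1, map_smul, smul_eq_mul, map_mul]
    rfl

end Fermat.Agent.S29.H642

end
-- ===== PACK-END S29/H642/EigenFunctional.lean

-- ===== PACK-BEGIN S41/H701/GenericFibre.lean
section


/-!
# Generic fibres of a rational function are separable (helper701, S41 piece D1)

Abstract polynomial input for `Nat.card E[n] = n ^ 2`.
-/

open Polynomial

set_option autoImplicit false

namespace Fermat.Agent.S41.H701

section GenericFibre

variable {K : Type*} [Field K] [IsAlgClosed K]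

/-- Over an algebraically closed field, polynomials without common root are coprime. -/
lemma isCoprime_of_no_common_root_h701 (p q : K[X])
    (h : ∀ x : K, ¬ (p.eval x = 0 ∧ q.eval x = 0)) : IsCoprime p q := by
  rw [Polynomial.isCoprime_iff_aeval_ne_zero_of_isAlgClosed K K]
  intro a
  by_contra hcon
  rw [not_or, not_not, not_not] at hcon
  exact h a ⟨by simpa using hcon.1, by simpa using hcon.2⟩

/-- **Generic fibre is separable.**  Let `N, D` be polynomials over an algebraically closed field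
of characteristic zero without common root, with `N` non-constant.  Then for all but finitely
many `t`, the polynomial `N - t D` is separable. -/
theorem exists_finset_separable_h701 [CharZero K] (N D : K[X]) (hN : 0 < N.natDegree)
    (hcop : ∀ x : K, ¬ (N.eval x = 0 ∧ D.eval x = 0)) :
    ∃ B : Finset K, ∀ t : K, t ∉ B → (N - C t * D).Separable := by
  classical
  set H : K[X] := N * derivative D - derivative N * D with hH
  have hND : IsCoprime N D := isCoprime_of_no_common_root_h701 N D hcop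
  have hN' : derivative N ≠ 0 := by
    intro h0
    have := Polynomial.derivative_eq_zero.mp h0
    omega
  have hH0 : H ≠ 0 := by
    intro h0
    have h1 : N * derivative D = derivative N * D := sub_eq_zero.mp h0
    have h2 : N ∣ derivative N * D := ⟨derivative D, h1.symm⟩
    have h3 : N ∣ derivative N := hND.dvd_of_dvd_mul_right h2
    have h4 := natDegree_le_of_dvd h3 hN'
    have h5 := natDegree_derivative_lt (p := N) (by omega)
    omega
  refine ⟨H.roots.toFinset.image (fun x => N.eval x / D.eval x), ?_⟩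
  intro t ht
  rw [separable_def]
  apply isCoprime_of_no_common_root_h701
  rintro x ⟨hx1, hx2⟩
  simp only [eval_sub, eval_mul, eval_C, derivative_sub, derivative_mul, derivative_C, zero_mul,
    zero_add] at hx1 hx2
  have hDx : D.eval x ≠ 0 := by
    intro hD
    rw [hD, mul_zero, sub_zero] at hx1
    exact hcop x ⟨hx1, hD⟩
  have ht' : t = N.eval x / D.eval x := by
    rw [eq_div_iff hDx]; linear_combination -hx1
  apply ht
  rw [Finset.mem_image]
  refine ⟨x, ?_, ht'.symm⟩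
  rw [Multiset.mem_toFinset, mem_roots hH0, IsRoot.def, hH]
  simp only [eval_sub, eval_mul]
  have e1 : N.eval x = t * D.eval x := by linear_combination hx1
  have e2 : (derivative N).eval x = t * (derivative D).eval x := by linear_combination hx2
  rw [e1, e2]; ring

/-- A separable polynomial over an algebraically closed field has `natDegree` roots. -/
theorem card_roots_of_separable_h701 (G : K[X]) (hG : G.Separable) :
    Nat.card {x : K // G.eval x = 0} = G.natDegree := by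
  classical
  have hG0 : G ≠ 0 := hG.ne_zero
  have h1 := card_rootSet_eq_natDegree (K := K) hG (IsAlgClosed.splits _)
  rw [← h1, ← Nat.card_eq_fintype_card]
  apply Nat.card_congr
  refine Equiv.subtypeEquivRight ?_
  intro x
  rw [mem_rootSet]
  simp [hG0]

end GenericFibre

end Fermat.Agent.S41.H701

end
-- ===== PACK-END S41/H701/GenericFibre.lean

-- ===== PACK-BEGIN S13/H164/Ladder.lean
section




/-!
# S13 / T1 (helper164): the `x`-ladder for multiplication by `n` on a Weierstrass curve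

For parameters `b₂ b₄ b₆ b₈ x` in a commutative ring `A` we define a sequence of pairs
`lad n = (N_n, D_n)` such that, on a Weierstrass curve with these `b`-invariants and for a point
`P` with `x`-coordinate `x`, the `x`-coordinate of `n • P` is `N_n / D_n` (projectively).

The recursion is the Montgomery ladder:
* `(N_{2k} : D_{2k})` is the duplication map applied to `(N_k : D_k)`;
* `(N_{2k+1} : D_{2k+1})` comes from `x(Q+R) + x(Q-R) = S(x_Q, x_R) / (x_Q - x_R)²`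
  with `Q = (k+1)P`, `R = kP`, `Q - R = P`.
-/

set_option autoImplicit false

namespace Fermat.Agent.S13.H164

section Generic

variable {A : Type*} [CommRing A]

/-- homogeneous numerator of the duplication map on `x`-coordinates -/
def dN (b₄ b₆ b₈ u v : A) : A :=
  u ^ 4 - b₄ * u ^ 2 * v ^ 2 - 2 * b₆ * u * v ^ 3 - b₈ * v ^ 4

/-- homogeneous denominator of the duplication map on `x`-coordinates -/
def dD (b₂ b₄ b₆ u v : A) : A :=
  v * (4 * u ^ 3 + b₂ * u ^ 2 * v + 2 * b₄ * u * v ^ 2 + b₆ * v ^ 3)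

/-- `x_R - x_Q` cleared of denominators -/
def oW (u₁ v₁ u₂ v₂ : A) : A := u₁ * v₂ - u₂ * v₁

/-- homogeneous numerator of `x(Q+R) + x(Q-R)` -/
def oS (b₂ b₄ b₆ u₁ v₁ u₂ v₂ : A) : A :=
  2 * u₁ * u₂ * (u₁ * v₂ + u₂ * v₁) + b₂ * u₁ * u₂ * v₁ * v₂
    + b₄ * (u₁ * v₂ + u₂ * v₁) * v₁ * v₂ + b₆ * v₁ ^ 2 * v₂ ^ 2

/-- numerator of the odd ladder step -/
def oN (b₂ b₄ b₆ x u₁ v₁ u₂ v₂ : A) : A :=
  oS b₂ b₄ b₆ u₁ v₁ u₂ v₂ - x * oW u₁ v₁ u₂ v₂ ^ 2

/-- denominator of the odd ladder step -/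
def oD (u₁ v₁ u₂ v₂ : A) : A := oW u₁ v₁ u₂ v₂ ^ 2

/-- The ladder: `lad n = (N_n, D_n)`. -/
def lad (b₂ b₄ b₆ b₈ x : A) : ℕ → A × A
  | 0 => (1, 0)
  | 1 => (x, 1)
  | (n + 2) =>
    if h : (n + 2) % 2 = 0 then
      (dN b₄ b₆ b₈ (lad b₂ b₄ b₆ b₈ x ((n + 2) / 2)).1 (lad b₂ b₄ b₆ b₈ x ((n + 2) / 2)).2,
        dD b₂ b₄ b₆ (lad b₂ b₄ b₆ b₈ x ((n + 2) / 2)).1 (lad b₂ b₄ b₆ b₈ x ((n + 2) / 2)).2)
    else
      (oN b₂ b₄ b₆ x (lad b₂ b₄ b₆ b₈ x ((n + 2) / 2)).1 (lad b₂ b₄ b₆ b₈ x ((n + 2) / 2)).2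
          (lad b₂ b₄ b₆ b₈ x ((n + 2) / 2 + 1)).1 (lad b₂ b₄ b₆ b₈ x ((n + 2) / 2 + 1)).2,
        oD (lad b₂ b₄ b₆ b₈ x ((n + 2) / 2)).1 (lad b₂ b₄ b₆ b₈ x ((n + 2) / 2)).2
          (lad b₂ b₄ b₆ b₈ x ((n + 2) / 2 + 1)).1 (lad b₂ b₄ b₆ b₈ x ((n + 2) / 2 + 1)).2)
termination_by n => n
decreasing_by all_goals omega

variable (b₂ b₄ b₆ b₈ x : A)

@[simp] lemma lad_zero : lad b₂ b₄ b₆ b₈ x 0 = (1, 0) := by
  rw [lad]

@[simp] lemma lad_one : lad b₂ b₄ b₆ b₈ x 1 = (x, 1) := by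
  rw [lad]

lemma lad_two_mul (k : ℕ) :
    lad b₂ b₄ b₆ b₈ x (2 * k) =
      (dN b₄ b₆ b₈ (lad b₂ b₄ b₆ b₈ x k).1 (lad b₂ b₄ b₆ b₈ x k).2,
        dD b₂ b₄ b₆ (lad b₂ b₄ b₆ b₈ x k).1 (lad b₂ b₄ b₆ b₈ x k).2) := by
  rcases k with _ | k
  · simp [dN, dD]
  · have e : 2 * (k + 1) = 2 * k + 2 := by ring
    rw [e, lad]
    have h1 : (2 * k + 2) % 2 = 0 := by omega
    have h2 : (2 * k + 2) / 2 = k + 1 := by omega
    rw [dif_pos h1, h2]

lemma lad_two_mul_add_one (k : ℕ) :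
    lad b₂ b₄ b₆ b₈ x (2 * k + 1) =
      (oN b₂ b₄ b₆ x (lad b₂ b₄ b₆ b₈ x k).1 (lad b₂ b₄ b₆ b₈ x k).2
          (lad b₂ b₄ b₆ b₈ x (k + 1)).1 (lad b₂ b₄ b₆ b₈ x (k + 1)).2,
        oD (lad b₂ b₄ b₆ b₈ x k).1 (lad b₂ b₄ b₆ b₈ x k).2
          (lad b₂ b₄ b₆ b₈ x (k + 1)).1 (lad b₂ b₄ b₆ b₈ x (k + 1)).2) := by
  rcases k with _ | k
  · simp [oN, oD, oS, oW]
    ring
  · have e : 2 * (k + 1) + 1 = (2 * k + 1) + 2 := by ring
    rw [e, lad]
    have h1 : ¬ (2 * k + 1 + 2) % 2 = 0 := by omega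
    have h2 : (2 * k + 1 + 2) / 2 = k + 1 := by omega
    rw [dif_neg h1, h2]

/-- The ladder commutes with ring homomorphisms. -/
lemma map_lad {B : Type*} [CommRing B] (f : A →+* B) (n : ℕ) :
    lad (f b₂) (f b₄) (f b₆) (f b₈) (f x) n =
      (f (lad b₂ b₄ b₆ b₈ x n).1, f (lad b₂ b₄ b₆ b₈ x n).2) := by
  induction n using Nat.strong_induction_on with
  | _ n ih =>
    rcases Nat.even_or_odd' n with ⟨k, rfl | rfl⟩
    · rcases k with _ | k
      · simp
      · have hk : k + 1 < 2 * (k + 1) := by omega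
        rw [lad_two_mul, lad_two_mul, ih _ hk]
        simp only [dN, dD, map_sub, map_mul, map_pow, map_add, map_ofNat]
    · rcases k with _ | k
      · simp
      · have hk : k + 1 < 2 * (k + 1) + 1 := by omega
        have hk' : k + 1 + 1 < 2 * (k + 1) + 1 := by omega
        rw [lad_two_mul_add_one, lad_two_mul_add_one, ih _ hk, ih _ hk']
        simp only [oN, oD, oS, oW, map_sub, map_mul, map_pow, map_add, map_ofNat]

end Generic

end Fermat.Agent.S13.H164

end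
-- ===== PACK-END S13/H164/Ladder.lean

-- ===== PACK-BEGIN S41/H701/LinAlg2.lean
section


/-!
# Linear algebra in dimension two (helper701, S41 piece D2)

* `ker_eq_of_unipotent_pair_h701`: two non-trivial unipotent endomorphisms of a plane whose
  product is unipotent have the same fixed line.
* `det_eq_of_quadratic_h701`: a non-scalar endomorphism `T` of a plane with `T² - aT + l = 0` has
  determinant `l`.
-/

set_option autoImplicit false

open Module

namespace Fermat.Agent.S41.H701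

section LinAlg2

variable {k V : Type*} [Field k] [AddCommGroup V] [Module k V]

/-- A nonzero square-zero endomorphism of a plane: its kernel is a line `k e`, equal to its
range. -/
lemma exists_ker_eq_span_h701 (hdim : finrank k V = 2) (A : End k V) (hA : A ≠ 0)
    (hA2 : A * A = 0) :
    ∃ e : V, e ≠ 0 ∧ A e = 0 ∧ (∀ x, A x = 0 → ∃ c : k, x = c • e) ∧ (∀ x, ∃ c : k, A x = c • e) := by
  have hfd : FiniteDimensional k V := FiniteDimensional.of_finrank_pos (by omega)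
  have hrk := LinearMap.finrank_range_add_finrank_ker A
  rw [hdim] at hrk
  have hle : LinearMap.range A ≤ LinearMap.ker A := by
    rintro _ ⟨y, rfl⟩
    rw [LinearMap.mem_ker]
    have := congrArg (fun f : End k V => f y) hA2
    simpa using this
  have hr0 : finrank k (LinearMap.range A) ≠ 0 := by
    intro h
    rw [Submodule.finrank_eq_zero, LinearMap.range_eq_bot] at h
    exact hA h
  have hle' := Submodule.finrank_mono hle
  have hk1 : finrank k (LinearMap.ker A) = 1 := by omega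
  have hr1 : finrank k (LinearMap.range A) = 1 := by omega
  have heq : LinearMap.range A = LinearMap.ker A :=
    Submodule.eq_of_le_of_finrank_eq hle (by rw [hk1, hr1])
  obtain ⟨⟨e, he⟩, he0, hspan⟩ := finrank_eq_one_iff'.mp hk1
  refine ⟨e, ?_, LinearMap.mem_ker.mp he, ?_, ?_⟩
  · intro h
    apply he0
    exact Subtype.ext h
  · intro x hx
    obtain ⟨c, hc⟩ := hspan ⟨x, LinearMap.mem_ker.mpr hx⟩
    exact ⟨c, (congrArg Subtype.val hc).symm⟩
  · intro x
    have hx : A x ∈ LinearMap.ker A := heq ▸ LinearMap.mem_range_self A x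
    obtain ⟨c, hc⟩ := hspan ⟨A x, hx⟩
    exact ⟨c, (congrArg Subtype.val hc).symm⟩

/-- Two non-trivial unipotent endomorphisms of a plane whose product is unipotent fix the same
vectors. -/
theorem ker_le_of_unipotent_pair_h701 (hdim : finrank k V = 2) (u v : End k V)
    (hu : (u - 1) * (u - 1) = 0) (hv : (v - 1) * (v - 1) = 0)
    (huv : (u * v - 1) * (u * v - 1) = 0) (hu1 : u ≠ 1) (hv1 : v ≠ 1)
    (x : V) (hx : u x = x) : v x = x := by
  set A : End k V := u - 1 with hAdef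
  set B : End k V := v - 1 with hBdef
  have hA0 : A ≠ 0 := sub_ne_zero.mpr hu1
  have hB0 : B ≠ 0 := sub_ne_zero.mpr hv1
  obtain ⟨e, he0, hAe, hkerA, hrangeA⟩ := exists_ker_eq_span_h701 hdim A hA0 hu
  obtain ⟨f, hf0, hBf, hkerB, hrangeB⟩ := exists_ker_eq_span_h701 hdim B hB0 hv
  have hw : u * v - 1 = A + B + A * B := by
    rw [hAdef, hBdef]; noncomm_ring
  rw [hw] at huv
  -- `A f = a e`, `B e = b f`
  obtain ⟨a, ha⟩ := hrangeA f
  obtain ⟨b, hb⟩ := hrangeB e
  have key := congrArg (fun T : End k V => A (T f)) huv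
  simp only [Module.End.mul_apply, LinearMap.add_apply, LinearMap.zero_apply, map_zero,
    hBf, ha, map_add, map_smul, hAe, hb, smul_zero, add_zero, zero_add, smul_smul] at key
  -- key : (a * b * a) • e = 0  (up to normalisation)
  have hab : a = 0 ∨ b = 0 := by
    by_contra hcon
    rw [not_or] at hcon
    rcases smul_eq_zero.mp key with h | h
    · simp [hcon.1, hcon.2] at h
    · exact he0 h
  have hAx : A x = 0 := by
    rw [hAdef, LinearMap.sub_apply, Module.End.one_apply, hx, sub_self]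
  obtain ⟨c, rfl⟩ := hkerA x hAx
  have hBe : B e = 0 := by
    rcases hab with h | h
    · -- `A f = 0`, so `f ∈ ker A = k e`
      rw [h, zero_smul] at ha
      obtain ⟨c', hc'⟩ := hkerA f ha
      have hc'0 : c' ≠ 0 := by
        rintro rfl
        rw [zero_smul] at hc'
        exact hf0 hc'
      have : e = c'⁻¹ • f := by rw [hc', smul_smul, inv_mul_cancel₀ hc'0, one_smul]
      rw [this, map_smul, hBf, smul_zero]
    · rw [hb, h, zero_smul]
  have : B (c • e) = 0 := by rw [map_smul, hBe, smul_zero]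
  rw [hBdef, LinearMap.sub_apply, Module.End.one_apply, sub_eq_zero] at this
  exact this

/-- Powers of a unipotent endomorphism are unipotent (any ring). -/
lemma sq_zero_pow_sub_one_h701 {R : Type*} [Ring R] (T : R) (hT : (T - 1) * (T - 1) = 0)
    (j : ℕ) : (T ^ j - 1) * (T ^ j - 1) = 0 := by
  have h1 : T ^ j - 1 = (∑ i ∈ Finset.range j, T ^ i) * (T - 1) := (geom_sum_mul T j).symm
  have h2 : T ^ j - 1 = (T - 1) * (∑ i ∈ Finset.range j, T ^ i) := (mul_geom_sum T j).symm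
  calc (T ^ j - 1) * (T ^ j - 1)
      = ((∑ i ∈ Finset.range j, T ^ i) * (T - 1)) * ((T - 1) * (∑ i ∈ Finset.range j, T ^ i)) := by
        rw [← h1, ← h2]
    _ = (∑ i ∈ Finset.range j, T ^ i) * ((T - 1) * (T - 1)) * (∑ i ∈ Finset.range j, T ^ i) := by
        noncomm_ring
    _ = 0 := by rw [hT, mul_zero, zero_mul]

/-- A `2 × 2` matrix satisfying `M² - aM + l = 0` is scalar or has determinant `l`. -/
lemma matrix_det_eq_of_quadratic_h701 (M : Matrix (Fin 2) (Fin 2) k) (a l : k)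
    (hrel : M * M - a • M + l • (1 : Matrix (Fin 2) (Fin 2) k) = 0)
    (hns : ∀ s : k, M ≠ s • (1 : Matrix (Fin 2) (Fin 2) k)) : M.det = l := by
  have h00 := congrFun (congrFun hrel 0) 0
  have h01 := congrFun (congrFun hrel 0) 1
  have h10 := congrFun (congrFun hrel 1) 0
  have h11 := congrFun (congrFun hrel 1) 1
  simp only [Matrix.add_apply, Matrix.sub_apply, Matrix.mul_apply, Fin.sum_univ_two,
    Matrix.smul_apply, Matrix.one_apply_eq, Matrix.zero_apply, smul_eq_mul, mul_one, ne_eq,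
    Matrix.one_apply_ne, mul_zero, add_zero, Fin.isValue, zero_ne_one, one_ne_zero,
    not_false_eq_true] at h00 h01 h10 h11
  rw [Matrix.det_fin_two]
  by_cases htr : M 0 0 + M 1 1 = a
  · linear_combination (-1 : k) * h00 + M 0 0 * htr
  · exfalso
    have htr' : M 0 0 + M 1 1 - a ≠ 0 := sub_ne_zero.mpr htr
    have e01 : M 0 1 = 0 := by
      have : M 0 1 * (M 0 0 + M 1 1 - a) = 0 := by linear_combination h01
      exact (mul_eq_zero.mp this).resolve_right htr'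
    have e10 : M 1 0 = 0 := by
      have : M 1 0 * (M 0 0 + M 1 1 - a) = 0 := by linear_combination h10
      exact (mul_eq_zero.mp this).resolve_right htr'
    have e : M 0 0 = M 1 1 := by
      have : (M 0 0 - M 1 1) * (M 0 0 + M 1 1 - a) = 0 := by
        linear_combination h00 - h11
      exact sub_eq_zero.mp ((mul_eq_zero.mp this).resolve_right htr')
    apply hns (M 0 0)
    ext i j
    fin_cases i <;> fin_cases j <;> simp [e01, e10, e]

/-- A non-scalar endomorphism `T` of a plane with `T² - aT + l = 0` has determinant `l`. -/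
theorem det_eq_of_quadratic_h701 (hdim : finrank k V = 2) (T : End k V) (a l : k)
    (hrel : T * T - a • T + l • (1 : End k V) = 0)
    (hns : ∀ s : k, T ≠ s • (1 : End k V)) : LinearMap.det T = l := by
  have hfd : FiniteDimensional k V := FiniteDimensional.of_finrank_pos (by omega)
  let b : Basis (Fin 2) k V := Module.finBasisOfFinrankEq k V hdim
  let φ := LinearMap.toMatrixAlgEquiv b
  have h1 : φ T * φ T - a • φ T + l • (1 : Matrix (Fin 2) (Fin 2) k) = 0 := by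
    have := congrArg φ hrel
    simpa using this
  have h2 : ∀ s : k, φ T ≠ s • (1 : Matrix (Fin 2) (Fin 2) k) := by
    intro s hs
    apply hns s
    apply φ.injective
    rw [hs, map_smul, map_one]
  have h3 := matrix_det_eq_of_quadratic_h701 (φ T) a l h1 h2
  rw [← h3]
  exact (LinearMap.det_toMatrix b T).symm

end LinAlg2

end Fermat.Agent.S41.H701

end
-- ===== PACK-END S41/H701/LinAlg2.lean

-- ===== PACK-BEGIN S29/H201/Transfer.lean
section





/-!
# S29 / P5-E2 (helper201) — the Hecke operator `T_p` on `Hom(Γ₀(N), A)` (transfer formula)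

For a prime `p ∤ N`, the Prelude's coset representatives `heckeRep p x`
(`x : OnePoint (ZMod p)`, i.e. `(1 j; 0 p)` and `(p 0; 0 1)`) satisfy
`heckeRep p x * γ = t * heckeRep p (redMatrix p γ • x)` with a unique `t ∈ Γ₀(N)`
(`heckeRep_mul` of the Prelude).  We call it `trf hpN γ x` and define
`(heckeHom p hpN A φ) γ = ∑ x, φ (trf hpN γ x)`.
-/

set_option autoImplicit false

open CongruenceSubgroup Matrix.SpecialLinearGroup
open scoped MatrixGroups
open P2MW.S_ModularForm_heckeT_slash_eq_self_of_mem_Gamma0.ModularForm.HeckeSlashInvariance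

namespace Fermat.Agent.S29.H201

variable {N : ℕ} {p : ℕ} [Fact p.Prime]

theorem dvd_of_mem_Gamma0 (γ : Gamma0 N) : (N : ℤ) ∣ (γ : SL(2, ℤ)) 1 0 :=
  (ZMod.intCast_zmod_eq_zero_iff_dvd _ _).mp (Gamma0_mem.mp γ.2)

theorem exists_trf (hpN : ¬ p ∣ N) (γ : Gamma0 N) (x : OnePoint (ZMod p)) :
    ∃ t : Gamma0 N, _root_.P2MW.S_ModularForm_heckeT_slash_eq_self_of_mem_Gamma0.ModularForm.HeckeSlashInvariance.heckeRep p x * mapGL ℝ (γ : SL(2, ℤ))
      = mapGL ℝ (t : SL(2, ℤ)) * _root_.P2MW.S_ModularForm_heckeT_slash_eq_self_of_mem_Gamma0.ModularForm.HeckeSlashInvariance.heckeRep p (redMatrix p (γ : SL(2, ℤ)) • x) := by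
  obtain ⟨g', hg', h⟩ := heckeRep_mul hpN (γ : SL(2, ℤ)) (dvd_of_mem_Gamma0 γ) x
  exact ⟨⟨g', Gamma0_mem.mpr ((ZMod.intCast_zmod_eq_zero_iff_dvd _ _).mpr hg')⟩, h⟩

/-- The transfer element: `heckeRep p x * γ = trf γ x * heckeRep p (redMatrix p γ • x)`. -/
noncomputable def trf (hpN : ¬ p ∣ N) (γ : Gamma0 N) (x : OnePoint (ZMod p)) : Gamma0 N :=
  (exists_trf hpN γ x).choose

theorem trf_spec (hpN : ¬ p ∣ N) (γ : Gamma0 N) (x : OnePoint (ZMod p)) :
    _root_.P2MW.S_ModularForm_heckeT_slash_eq_self_of_mem_Gamma0.ModularForm.HeckeSlashInvariance.heckeRep p x * mapGL ℝ (γ : SL(2, ℤ))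
      = mapGL ℝ ((trf hpN γ x : Gamma0 N) : SL(2, ℤ))
        * _root_.P2MW.S_ModularForm_heckeT_slash_eq_self_of_mem_Gamma0.ModularForm.HeckeSlashInvariance.heckeRep p (redMatrix p (γ : SL(2, ℤ)) • x) :=
  (exists_trf hpN γ x).choose_spec

theorem trf_unique (hpN : ¬ p ∣ N) (γ t : Gamma0 N) (x : OnePoint (ZMod p))
    (h : _root_.P2MW.S_ModularForm_heckeT_slash_eq_self_of_mem_Gamma0.ModularForm.HeckeSlashInvariance.heckeRep p x * mapGL ℝ (γ : SL(2, ℤ))
      = mapGL ℝ (t : SL(2, ℤ)) * _root_.P2MW.S_ModularForm_heckeT_slash_eq_self_of_mem_Gamma0.ModularForm.HeckeSlashInvariance.heckeRep p (redMatrix p (γ : SL(2, ℤ)) • x)) :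
    t = trf hpN γ x := by
  have h2 := trf_spec hpN γ x
  rw [h] at h2
  have h3 := mul_right_cancel h2
  exact Subtype.ext (mapGL_injective h3)

theorem redMatrix_mul (g g' : SL(2, ℤ)) :
    redMatrix p (g * g') = redMatrix p g' * redMatrix p g := by
  apply Matrix.GeneralLinearGroup.ext
  intro i j
  rw [Matrix.GeneralLinearGroup.coe_mul]
  fin_cases i <;> fin_cases j <;>
    simp [redMatrix, Matrix.mul_apply, Fin.sum_univ_two] <;> ring

theorem redMatrix_one : redMatrix p (1 : SL(2, ℤ)) = 1 := by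
  apply Matrix.GeneralLinearGroup.ext
  intro i j
  fin_cases i <;> fin_cases j <;> simp [redMatrix]

theorem trf_one (hpN : ¬ p ∣ N) (x : OnePoint (ZMod p)) : trf hpN (1 : Gamma0 N) x = 1 := by
  symm
  apply trf_unique
  simp [redMatrix_one]

theorem trf_mul (hpN : ¬ p ∣ N) (γ γ' : Gamma0 N) (x : OnePoint (ZMod p)) :
    trf hpN (γ * γ') x
      = trf hpN γ x * trf hpN γ' (redMatrix p (γ : SL(2, ℤ)) • x) := by
  symm
  apply trf_unique
  have h1 := trf_spec hpN γ x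
  have h2 := trf_spec hpN γ' (redMatrix p (γ : SL(2, ℤ)) • x)
  calc _root_.P2MW.S_ModularForm_heckeT_slash_eq_self_of_mem_Gamma0.ModularForm.HeckeSlashInvariance.heckeRep p x * mapGL ℝ ((γ * γ' : Gamma0 N) : SL(2, ℤ))
      = (_root_.P2MW.S_ModularForm_heckeT_slash_eq_self_of_mem_Gamma0.ModularForm.HeckeSlashInvariance.heckeRep p x * mapGL ℝ (γ : SL(2, ℤ))) * mapGL ℝ (γ' : SL(2, ℤ)) := by
        rw [Subgroup.coe_mul, map_mul, mul_assoc]
    _ = mapGL ℝ ((trf hpN γ x : Gamma0 N) : SL(2, ℤ)) *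
          (_root_.P2MW.S_ModularForm_heckeT_slash_eq_self_of_mem_Gamma0.ModularForm.HeckeSlashInvariance.heckeRep p (redMatrix p (γ : SL(2, ℤ)) • x) * mapGL ℝ (γ' : SL(2, ℤ))) := by
        rw [h1, mul_assoc]
    _ = mapGL ℝ ((trf hpN γ x : Gamma0 N) : SL(2, ℤ)) *
          (mapGL ℝ ((trf hpN γ' (redMatrix p (γ : SL(2, ℤ)) • x) : Gamma0 N) : SL(2, ℤ)) *
            _root_.P2MW.S_ModularForm_heckeT_slash_eq_self_of_mem_Gamma0.ModularForm.HeckeSlashInvariance.heckeRep p (redMatrix p (γ' : SL(2, ℤ)) • redMatrix p (γ : SL(2, ℤ)) • x)) := by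
        rw [h2]
    _ = _ := by
        rw [Subgroup.coe_mul, map_mul, Subgroup.coe_mul, redMatrix_mul, mul_smul, mul_assoc]

instance instNeZeroOfFactPrime : NeZero p := ⟨(Fact.out : p.Prime).ne_zero⟩

/-- The permutation of `ℙ¹(𝔽_p)` induced by `γ` (a right action). -/
noncomputable def permOf (γ : Gamma0 N) : Equiv.Perm (OnePoint (ZMod p)) :=
  MulAction.toPerm (redMatrix p (γ : SL(2, ℤ)))

theorem permOf_apply (γ : Gamma0 N) (x : OnePoint (ZMod p)) :
    permOf γ x = redMatrix p (γ : SL(2, ℤ)) • x := rfl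

/-- The Hecke operator `T_p` on `Hom(Γ₀(N), A)` defined by the transfer formula. -/
noncomputable def heckeHom (p : ℕ) [Fact p.Prime] (hpN : ¬ p ∣ N) (A : Type*) [AddCommGroup A] :
    (Additive (Gamma0 N) →+ A) →+ (Additive (Gamma0 N) →+ A) where
  toFun φ :=
    { toFun := fun γ => ∑ x : OnePoint (ZMod p), φ (Additive.ofMul (trf hpN (Additive.toMul γ) x))
      map_zero' := by
        show ∑ x : OnePoint (ZMod p), φ (Additive.ofMul (trf hpN (1 : Gamma0 N) x)) = 0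
        simp [trf_one]
      map_add' := fun γ γ' => by
        show ∑ x : OnePoint (ZMod p),
            φ (Additive.ofMul (trf hpN (Additive.toMul γ * Additive.toMul γ') x)) = _
        simp only [trf_mul, ofMul_mul, map_add, Finset.sum_add_distrib]
        congr 1
        exact Equiv.sum_comp (permOf (Additive.toMul γ))
          (fun y => φ (Additive.ofMul (trf hpN (Additive.toMul γ') y))) }
  map_zero' := by
    ext γ
    simp
  map_add' φ ψ := by
    ext γ
    simp [Finset.sum_add_distrib]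

theorem heckeHom_apply (hpN : ¬ p ∣ N) {A : Type*} [AddCommGroup A]
    (φ : Additive (Gamma0 N) →+ A) (γ : Gamma0 N) :
    heckeHom p hpN A φ (Additive.ofMul γ)
      = ∑ x : OnePoint (ZMod p), φ (Additive.ofMul (trf hpN γ x)) := rfl

/-- Functoriality of `heckeHom` in the coefficient group. -/
theorem heckeHom_comp (hpN : ¬ p ∣ N) {A B : Type*} [AddCommGroup A] [AddCommGroup B]
    (u : A →+ B) (φ : Additive (Gamma0 N) →+ A) :
    heckeHom p hpN B (u.comp φ) = u.comp (heckeHom p hpN A φ) := by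
  ext γ
  show ∑ x : OnePoint (ZMod p), u (φ _) = u (∑ x : OnePoint (ZMod p), φ _)
  rw [map_sum]

end Fermat.Agent.S29.H201

end
-- ===== PACK-END S29/H201/Transfer.lean

-- ===== PACK-BEGIN S29/H201/Eigen.lean
section







/-!
# S29 / P5-E2 (helper201) — a normalized eigenform (Prelude sense: multiplicative
`q`-coefficients) is an eigenvector of `T_p`, `p ∤ N`, with eigenvalue `a_p`.
-/

set_option autoImplicit false

open CongruenceSubgroup UpperHalfPlane
open scoped MatrixGroups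

namespace Fermat.Agent.S29.H201

variable {N : ℕ} {p : ℕ}

theorem periodic_cuspForm (f : CuspForm (Gamma0 N) 2) :
    Function.Periodic ((f : ℍ → ℂ) ∘ UpperHalfPlane.ofComplex) 1 := by
  have h := SlashInvariantFormClass.periodic_comp_ofComplex f
    (CongruenceSubgroup.one_mem_strictPeriods_Gamma0 N)
  exact_mod_cast h

theorem bdd_cuspForm (f : CuspForm (Gamma0 N) 2) :
    UpperHalfPlane.IsBoundedAtImInfty (f : ℍ → ℂ) :=
  haveI : Fact (IsCusp OnePoint.infty
      (Subgroup.map (Matrix.SpecialLinearGroup.mapGL ℝ) (Gamma0 N))) :=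
    ⟨Subgroup.isCusp_of_mem_strictPeriods one_pos
      (CongruenceSubgroup.one_mem_strictPeriods_Gamma0 N)⟩
  ModularFormClass.bdd_at_infty f

theorem qCoeff_zero_cuspForm (f : CuspForm (Gamma0 N) 2) :
    ModularFormClass.qCoeff (f : ℍ → ℂ) 0 = 0 :=
  CuspFormClass.qExpansion_coeff_zero f one_pos (CongruenceSubgroup.one_mem_strictPeriods_Gamma0 N)

theorem qCoeff_smul_cuspForm (c : ℂ) (f : CuspForm (Gamma0 N) 2) (n : ℕ) :
    ModularFormClass.qCoeff (c • (f : ℍ → ℂ)) n = c * ModularFormClass.qCoeff (f : ℍ → ℂ) n := by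
  unfold ModularFormClass.qCoeff
  rw [qExpansion_smul (ModularFormClass.analyticAt_cuspFunction_zero f one_pos
    (CongruenceSubgroup.one_mem_strictPeriods_Gamma0 N))]
  simp

/-- The Hecke relation on `q`-coefficients of a normalized eigenform. -/
theorem coeffHeckeT_eq_mul {g : CuspForm (Gamma0 N) 2}
    (hg : g.IsNormalizedEigenform) (hp : p.Prime) (hpN : ¬ p ∣ N) (n : ℕ) :
    ModularForm.coeffHeckeT 2 p (ModularFormClass.qCoeff g) n
      = ModularFormClass.qCoeff g p * ModularFormClass.qCoeff g n := by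
  have hpow : ((p : ℂ) ^ ((2 : ℤ) - 1)) = p := by norm_num
  rcases Nat.eq_zero_or_pos n with rfl | hn
  · rw [ModularForm.coeffHeckeT_of_dvd 2 (dvd_zero p)]
    simp [qCoeff_zero_cuspForm g]
  obtain ⟨r, m, hm, rfl⟩ := Nat.exists_eq_pow_mul_and_not_dvd hn.ne' p hp.ne_one
  have hcop : ∀ j : ℕ, (p ^ j).Coprime m := fun j =>
    Nat.Coprime.pow_left j ((Nat.Prime.coprime_iff_not_dvd hp).mpr hm)
  cases r with
  | zero =>
    rw [pow_zero, one_mul, ModularForm.coeffHeckeT_of_not_dvd 2 hm, mul_comm m p,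
      hg.qCoeff_mul_of_coprime p m (by simpa using hcop 1)]
  | succ r =>
    have hdvd : p ∣ p ^ (r + 1) * m := Dvd.dvd.mul_right (dvd_pow_self p (Nat.succ_ne_zero r)) m
    rw [ModularForm.coeffHeckeT_of_dvd 2 hdvd, hpow]
    have h1 : p ^ (r + 1) * m * p = p ^ (r + 2) * m := by ring
    have h2 : p ^ (r + 1) * m / p = p ^ r * m := by
      rw [pow_succ, mul_assoc, mul_comm p m, ← mul_assoc]
      exact Nat.mul_div_cancel _ hp.pos
    rw [h1, h2, hg.qCoeff_mul_of_coprime _ _ (hcop (r + 2)),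
      hg.qCoeff_mul_of_coprime _ _ (hcop r), hg.qCoeff_mul_of_coprime _ _ (hcop (r + 1)),
      hg.qCoeff_prime_pow_of_not_dvd p r hp hpN]
    ring

/-- **E2b** -/
theorem heckeTLin_eq_smul_of_isNormalizedEigenform {g : CuspForm (Gamma0 N) 2}
    (hg : g.IsNormalizedEigenform) (hp : p.Prime) (hpN : ¬ p ∣ N) :
    CuspForm.heckeTLin 2 hp hpN g = ModularFormClass.qCoeff g p • g := by
  apply DFunLike.coe_injective
  have hL := periodic_cuspForm (CuspForm.heckeTLin 2 hp hpN g)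
  have hR := periodic_cuspForm (ModularFormClass.qCoeff g p • g)
  refine UpperHalfPlane.eq_of_forall_qCoeff_eq hL
    (CuspFormClass.holo (CuspForm.heckeTLin 2 hp hpN g))
    (bdd_cuspForm _) hR (CuspFormClass.holo (ModularFormClass.qCoeff g p • g))
    (bdd_cuspForm _) ?_
  intro n
  rw [CuspForm.coe_heckeTLin_apply,
    UpperHalfPlane.qCoeff_heckeT (periodic_cuspForm g) (CuspFormClass.holo g) (bdd_cuspForm g) 2
      hp.ne_zero n, coeffHeckeT_eq_mul hg hp hpN n]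
  have : (⇑(ModularFormClass.qCoeff (⇑g) p • g) : ℍ → ℂ)
      = ModularFormClass.qCoeff (⇑g) p • (g : ℍ → ℂ) := rfl
  rw [this, qCoeff_smul_cuspForm]

end Fermat.Agent.S29.H201

end
-- ===== PACK-END S29/H201/Eigen.lean

-- ===== PACK-BEGIN S29/H201/Lattice.lean
section


/-!
# S29 / P5-E2 (helper201) — algebra: a finitely generated subgroup `L ≠ 0` of `ℂ`,
its multipliers are algebraic integers, and for every ring hom `ψ : ℤ̄ → F` (`F` a field of
characteristic `q > 0`) there is a nonzero additive `μ : L → F` with `μ (a x) = ψ a * μ x` for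
all multipliers `a` (Nakayama).
-/

set_option autoImplicit false

namespace Fermat.Agent.S29.H201

/-- multipliers of a nonzero f.g. subgroup of `ℂ` are algebraic integers -/
theorem isIntegral_of_mul_mem (L : AddSubgroup ℂ) (hL : L.FG) (hL0 : L ≠ ⊥) (a : ℂ)
    (ha : ∀ x ∈ L, a * x ∈ L) : IsIntegral ℤ a := by
  refine isIntegral_of_smul_mem_submodule (R := ℤ) (A := ℂ) (M := ℂ)
    (AddSubgroup.toIntSubmodule L) ?_ ?_ a ?_
  · intro h
    apply hL0
    have := congrArg Submodule.toAddSubgroup h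
    simpa using this
  · rw [Submodule.fg_iff_addSubgroup_fg]
    simpa using hL
  · intro n hn
    exact ha n hn

/-- The multiplier ring of a subgroup of `ℂ`. -/
def multRing (L : AddSubgroup ℂ) : Subring ℂ where
  carrier := {a | ∀ x ∈ L, a * x ∈ L}
  mul_mem' := fun {a b} ha hb x hx => by rw [mul_assoc]; exact ha _ (hb _ hx)
  one_mem' := fun x hx => by rwa [one_mul]
  add_mem' := fun {a b} ha hb x hx => by rw [add_mul]; exact L.add_mem (ha _ hx) (hb _ hx)
  zero_mem' := fun x _ => by rw [zero_mul]; exact L.zero_mem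
  neg_mem' := fun {a} ha x hx => by rw [neg_mul]; exact L.neg_mem (ha _ hx)

theorem mem_multRing {L : AddSubgroup ℂ} {a : ℂ} : a ∈ multRing L ↔ ∀ x ∈ L, a * x ∈ L := Iff.rfl

/-- `L` as a module over its multiplier ring. -/
def multModule (L : AddSubgroup ℂ) : Submodule (multRing L) ℂ where
  carrier := L
  add_mem' := L.add_mem
  zero_mem' := L.zero_mem
  smul_mem' := fun a _ hx => a.2 _ hx

theorem mem_multModule {L : AddSubgroup ℂ} {x : ℂ} : x ∈ multModule L ↔ x ∈ L := Iff.rfl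

/-- **E2-alg** (Nakayama) -/
theorem exists_eigen_functional (L : AddSubgroup ℂ) (hL : L.FG) (hL0 : L ≠ ⊥)
    {F : Type*} [Field F] (q : ℕ) [Fact q.Prime] [CharP F q]
    (ψ : integralClosure ℤ ℂ →+* F) :
    ∃ μ : L →+ F, μ ≠ 0 ∧
      ∀ a : integralClosure ℤ ℂ, ∀ ha : (∀ y ∈ L, (a : ℂ) * y ∈ L), ∀ x : L,
        μ ⟨(a : ℂ) * (x : ℂ), ha x x.2⟩ = ψ a * μ x := by
  -- the multiplier ring and its character
  set R := multRing L with hR
  have hint : ∀ a : R, (a : ℂ) ∈ integralClosure ℤ ℂ := fun a =>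
    isIntegral_of_mul_mem L hL hL0 a a.2
  let ι : R →+* integralClosure ℤ ℂ := (R.subtype).codRestrict (integralClosure ℤ ℂ) hint
  let ψ' : R →+* F := ψ.comp ι
  set m : Ideal R := RingHom.ker ψ' with hm
  haveI hprime : m.IsPrime := RingHom.ker_isPrime ψ'
  -- `R` is integral over `ℤ`
  haveI hRint : Algebra.IsIntegral ℤ R := by
    refine ⟨fun a => ?_⟩
    have h1 : IsIntegral ℤ (a : ℂ) := hint a
    obtain ⟨P, hP, hPa⟩ := h1
    refine ⟨P, hP, ?_⟩
    apply Subtype.ext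
    have : ((Polynomial.eval₂ (algebraMap ℤ R) a P : R) : ℂ)
        = Polynomial.eval₂ (algebraMap ℤ ℂ) (a : ℂ) P := by
      rw [← Polynomial.aeval_def, ← Polynomial.aeval_def]
      exact (Polynomial.aeval_algHom_apply (R.subtype.toIntAlgHom) a P).symm ▸ rfl
    rw [this, hPa]
    rfl
  -- `m` is maximal
  haveI hmax : m.IsMaximal := by
    refine Ideal.isMaximal_of_isIntegral_of_isMaximal_comap (R := ℤ) m ?_
    have hq : ((q : ℤ) : R) ∈ m := by
      rw [hm, RingHom.mem_ker, map_intCast]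
      exact_mod_cast CharP.cast_eq_zero F q
    have hne : m.comap (algebraMap ℤ R) ≠ ⊥ := by
      intro h
      have h1 : (q : ℤ) ∈ m.comap (algebraMap ℤ R) := by
        rw [Ideal.mem_comap]
        exact hq
      rw [h, Ideal.mem_bot] at h1
      exact (Fact.out : q.Prime).ne_zero (by exact_mod_cast h1)
    exact Ideal.IsPrime.isMaximal (Ideal.comap_isPrime _ _) hne
  -- Nakayama
  set M := multModule L with hM
  have hfg : (⊤ : Submodule R M).FG := by
    haveI : Module.Finite ℤ L := by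
      rw [Module.Finite.iff_addGroup_fg]
      exact (AddGroup.fg_iff_addSubgroup_fg L).mpr hL
    have : Module.Finite ℤ M := ‹Module.Finite ℤ L›
    haveI : Module.Finite R M := Module.Finite.of_restrictScalars_finite ℤ R M
    exact Module.Finite.fg_top
  have hnak : ¬ ((⊤ : Submodule R M) ≤ m • ⊤) := by
    intro hle
    obtain ⟨r, hr1, hr0⟩ := Submodule.exists_sub_one_mem_and_smul_eq_zero_of_fg_of_le_smul m
      (⊤ : Submodule R M) hfg hle
    obtain ⟨x₀, hx₀, hx₀0⟩ : ∃ x ∈ L, x ≠ 0 := by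
      by_contra hcon
      push_neg at hcon
      exact hL0 ((AddSubgroup.eq_bot_iff_forall L).mpr hcon)
    have h2 := hr0 ⟨x₀, hx₀⟩ trivial
    have h3 : (r : ℂ) * x₀ = 0 := by
      have := congrArg Subtype.val h2
      simpa using this
    have h4 : (r : ℂ) = 0 := by
      rcases mul_eq_zero.mp h3 with h | h
      · exact h
      · exact absurd h hx₀0
    have h5 : r = 0 := Subtype.ext h4
    rw [h5, zero_sub, hm, RingHom.mem_ker, map_neg, map_one, neg_eq_zero] at hr1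
    exact one_ne_zero hr1
  obtain ⟨v, -, hv⟩ := SetLike.not_le_iff_exists.mp hnak
  -- a functional on the quotient
  letI : Field (R ⧸ m) := Ideal.Quotient.field m
  set Q := M ⧸ (m • ⊤ : Submodule R M) with hQ
  have hv0 : (Submodule.Quotient.mk v : Q) ≠ 0 := by
    rw [Ne, Submodule.Quotient.mk_eq_zero]
    exact hv
  obtain ⟨φ, hφ⟩ : ∃ φ : Module.Dual (R ⧸ m) Q, φ (Submodule.Quotient.mk v) ≠ 0 := by
    by_contra hcon
    push_neg at hcon
    exact hv0 ((Module.forall_dual_apply_eq_zero_iff (R ⧸ m) _).mp hcon)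
  let ψbar : (R ⧸ m) →+* F := RingHom.kerLift ψ'
  have hψbar : Function.Injective ψbar := RingHom.kerLift_injective ψ'
  let toM : L →+ M :=
    { toFun := fun x => ⟨x.1, x.2⟩
      map_zero' := rfl
      map_add' := fun _ _ => rfl }
  let μ : L →+ F :=
    ((ψbar : (R ⧸ m) →+ F).comp (φ : Q →+ (R ⧸ m))).comp
      (((Submodule.mkQ (m • ⊤ : Submodule R M)) : M →+ Q).comp toM)
  refine ⟨μ, ?_, ?_⟩
  · intro h0
    have h1 : μ ⟨v.1, v.2⟩ = 0 := by rw [h0]; rfl
    have h2 : ψbar (φ (Submodule.Quotient.mk v)) = 0 := h1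
    rw [← map_zero ψbar] at h2
    exact hφ (hψbar h2)
  · intro a ha x
    let a' : R := ⟨(a : ℂ), ha⟩
    have h1 : (toM ⟨(a : ℂ) * (x : ℂ), ha x x.2⟩ : M) = a' • toM x := rfl
    show ψbar (φ (Submodule.Quotient.mk (toM ⟨(a : ℂ) * (x : ℂ), ha x x.2⟩))) =
      ψ a * ψbar (φ (Submodule.Quotient.mk (toM x)))
    rw [h1, Submodule.Quotient.mk_smul]
    have h2 : (a' • (Submodule.Quotient.mk (toM x) : Q))
        = (Ideal.Quotient.mk m a') • (Submodule.Quotient.mk (toM x) : Q) := rfl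
    rw [h2, map_smul, smul_eq_mul, map_mul]
    congr 1

end Fermat.Agent.S29.H201

end
-- ===== PACK-END S29/H201/Lattice.lean

-- ===== PACK-BEGIN S37/H400/KronSection.lean
section
/-
S37 / helper400 — piece KRON, part (K1): `p`-sections of Laurent series and the section matrix.

For `f ∈ R((T))` the *section matrix* `secMat p f ∈ Mat_p(R((q)))` is the matrix of multiplication
by `f` on `R((T))`, seen as a free module over `V_p (R((q)))` (`V_p = qExpand R p : q ↦ T ^ p`) with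
basis `1, T, …, T^{p-1}`.  We prove that `secMat p` is multiplicative, sends `V_p a` to the scalar
matrix `a`, and satisfies Cayley–Hamilton in the form `(charpoly.map V_p).eval f = 0`.

(The section matrix idea is due to helper807, `S28/H807/Section.lean`; this file is an independent
self-contained development with the multiplicative structure needed for the Kronecker congruence.)
-/




set_option autoImplicit false

noncomputable section

open ModularCurve HahnSeries Polynomial Matrix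

namespace Fermat.Agent.S37.H400

variable {R : Type*} [CommRing R]

/-- The `r`-th `p`-section `∑ₘ f_{pm+r} qᵐ` of a Laurent series `f`. -/
def secL (p : ℕ) [NeZero p] (r : ℤ) (f : LaurentSeries R) : LaurentSeries R :=
  HahnSeries.ofSuppBddBelow (fun m : ℤ => f.coeff ((p : ℤ) * m + r))
    ⟨(f.order - r) / (p : ℤ), by
      intro m hm
      by_contra hlt
      apply hm
      apply HahnSeries.coeff_eq_zero_of_lt_order
      have hp : (0 : ℤ) < (p : ℤ) := by exact_mod_cast Nat.pos_of_ne_zero (NeZero.ne p)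
      have h1 : m + 1 ≤ (f.order - r) / (p : ℤ) := not_le.mp hlt
      have h2 : (m + 1) * (p : ℤ) ≤ f.order - r := (Int.le_ediv_iff_mul_le hp).mp h1
      nlinarith⟩

@[simp]
theorem secL_coeff (p : ℕ) [NeZero p] (r : ℤ) (f : LaurentSeries R) (m : ℤ) :
    (secL p r f).coeff m = f.coeff ((p : ℤ) * m + r) := rfl

theorem secL_coeffMap {S : Type*} [CommRing S] (φ : R →+* S) (p : ℕ) [NeZero p] (r : ℤ)
    (f : LaurentSeries R) : secL p r (coeffMap φ f) = coeffMap φ (secL p r f) := by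
  ext m
  simp

theorem secL_add (p : ℕ) [NeZero p] (r : ℤ) (f g : LaurentSeries R) :
    secL p r (f + g) = secL p r f + secL p r g := by
  ext m
  simp

theorem secL_zero (p : ℕ) [NeZero p] (r : ℤ) : secL p r (0 : LaurentSeries R) = 0 := by
  ext m
  simp

theorem secL_sum (p : ℕ) [NeZero p] (r : ℤ) {ι : Type*} (s : Finset ι)
    (F : ι → LaurentSeries R) : secL p r (∑ i ∈ s, F i) = ∑ i ∈ s, secL p r (F i) := by
  classical
  induction s using Finset.induction_on with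
  | empty => simp [secL_zero]
  | insert a s ha ih => rw [Finset.sum_insert ha, Finset.sum_insert ha, secL_add, ih]

/-- Shifting by `T ^ k` shifts the section index. -/
theorem secL_mul_single (p : ℕ) [NeZero p] (r k : ℤ) (f : LaurentSeries R) :
    secL p r (f * HahnSeries.single k (1 : R)) = secL p (r - k) f := by
  ext m
  rw [secL_coeff, secL_coeff]
  have : (p : ℤ) * m + r = ((p : ℤ) * m + (r - k)) + k := by ring
  rw [this, HahnSeries.coeff_mul_single_add, mul_one]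

/-- The recombination `∑ᵢ V_p(aᵢ) Tⁱ` of a family of sections. -/
def recomb (p : ℕ) [NeZero p] (a : Fin p → LaurentSeries R) : LaurentSeries R :=
  ∑ i : Fin p, qExpand R p (a i) * HahnSeries.single ((i : ℕ) : ℤ) (1 : R)

theorem coeff_qExpand_mul_single (p : ℕ) [NeZero p] (a : LaurentSeries R) (i : Fin p)
    (m : ℤ) (j : Fin p) :
    (qExpand R p a * HahnSeries.single ((i : ℕ) : ℤ) (1 : R)).coeff
        ((p : ℤ) * m + ((j : ℕ) : ℤ)) = if j = i then a.coeff m else 0 := by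
  have hi : ((i : ℕ) : ℤ) < p := by exact_mod_cast i.2
  have hj : ((j : ℕ) : ℤ) < p := by exact_mod_cast j.2
  have hi0 : (0 : ℤ) ≤ ((i : ℕ) : ℤ) := by positivity
  have hj0 : (0 : ℤ) ≤ ((j : ℕ) : ℤ) := by positivity
  have h : (p : ℤ) * m + ((j : ℕ) : ℤ) =
      ((p : ℤ) * m + ((j : ℕ) : ℤ) - ((i : ℕ) : ℤ)) + ((i : ℕ) : ℤ) := by ring
  rw [h, HahnSeries.coeff_mul_single_add, mul_one]
  split_ifs with hji
  · subst hji
    rw [add_sub_cancel_right, qExpand_coeff_mul]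
  · apply qExpand_coeff_of_not_dvd
    intro hd
    apply hji
    apply Fin.ext
    have h2 : (p : ℤ) ∣ ((j : ℕ) : ℤ) - ((i : ℕ) : ℤ) := by
      have : (p : ℤ) * m + ((j : ℕ) : ℤ) - ((i : ℕ) : ℤ)
          = (p : ℤ) * m + (((j : ℕ) : ℤ) - ((i : ℕ) : ℤ)) := by ring
      rw [this] at hd
      exact (Int.dvd_add_right (dvd_mul_right _ _)).mp hd
    obtain ⟨c, hc⟩ := h2
    have hc0 : c = 0 := by
      by_contra hne
      rcases lt_or_gt_of_ne hne with hlt | hgt
      · have : (p : ℤ) * c ≤ (p : ℤ) * (-1) := by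
          apply mul_le_mul_of_nonneg_left _ (by positivity)
          omega
        omega
      · have : (p : ℤ) * 1 ≤ (p : ℤ) * c := by
          apply mul_le_mul_of_nonneg_left _ (by positivity)
          omega
        omega
    rw [hc0, mul_zero] at hc
    have : ((j : ℕ) : ℤ) = ((i : ℕ) : ℤ) := by omega
    exact_mod_cast this

/-- Sections of a recombination. -/
theorem secL_recomb (p : ℕ) [NeZero p] (a : Fin p → LaurentSeries R) (j : Fin p) :
    secL p ((j : ℕ) : ℤ) (recomb p a) = a j := by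
  ext m
  rw [secL_coeff, recomb, HahnSeries.coeff_sum]
  simp_rw [coeff_qExpand_mul_single]
  simp

/-- Every Laurent series is the recombination of its sections. -/
theorem recomb_secL (p : ℕ) [NeZero p] (f : LaurentSeries R) :
    recomb p (fun i : Fin p => secL p ((i : ℕ) : ℤ) f) = f := by
  have hp : (0 : ℤ) < (p : ℤ) := by exact_mod_cast Nat.pos_of_ne_zero (NeZero.ne p)
  ext n
  have hlt : (n % (p : ℤ)).toNat < p := by
    have h1 : n % (p : ℤ) < p := Int.emod_lt_of_pos n hp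
    have h0 : 0 ≤ n % (p : ℤ) := Int.emod_nonneg n hp.ne'
    omega
  set j : Fin p := ⟨(n % (p : ℤ)).toNat, hlt⟩ with hj
  have hjv : ((j : ℕ) : ℤ) = n % (p : ℤ) := by
    simp only [hj]
    exact Int.toNat_of_nonneg (Int.emod_nonneg n hp.ne')
  have hn : n = (p : ℤ) * (n / (p : ℤ)) + ((j : ℕ) : ℤ) := by
    rw [hjv]; have := Int.emod_add_mul_ediv n (p : ℤ); linarith
  rw [recomb, HahnSeries.coeff_sum]
  conv_lhs =>
    enter [2, i]
    rw [hn, coeff_qExpand_mul_single]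
  simp only [Finset.sum_ite_eq, Finset.mem_univ, if_true, secL_coeff]
  rw [← hn]

/-- `V_p`-semilinearity of the sections. -/
theorem secL_qExpand_mul (p : ℕ) [NeZero p] (a h : LaurentSeries R) (j : Fin p) :
    secL p ((j : ℕ) : ℤ) (qExpand R p a * h) = a * secL p ((j : ℕ) : ℤ) h := by
  conv_lhs => rw [← recomb_secL p h]
  have : qExpand R p a * recomb p (fun i : Fin p => secL p ((i : ℕ) : ℤ) h)
      = recomb p (fun i : Fin p => a * secL p ((i : ℕ) : ℤ) h) := by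
    simp only [recomb, Finset.mul_sum, map_mul, mul_assoc]
  rw [this, secL_recomb]

/-- The section matrix of `f`: entry `(i', i)` is the `i'`-th section of `f · Tⁱ`,
i.e. the `(i' - i)`-th section of `f`. -/
def secMat (p : ℕ) [NeZero p] (f : LaurentSeries R) :
    Matrix (Fin p) (Fin p) (LaurentSeries R) :=
  fun i' i => secL p ((i' : ℕ) : ℤ) (f * HahnSeries.single ((i : ℕ) : ℤ) (1 : R))

theorem secMat_apply (p : ℕ) [NeZero p] (f : LaurentSeries R) (i' i : Fin p) :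
    secMat p f i' i = secL p ((i' : ℕ) : ℤ) (f * HahnSeries.single ((i : ℕ) : ℤ) (1 : R)) :=
  rfl

theorem secMat_apply' (p : ℕ) [NeZero p] (f : LaurentSeries R) (i' i : Fin p) :
    secMat p f i' i = secL p (((i' : ℕ) : ℤ) - ((i : ℕ) : ℤ)) f := by
  rw [secMat_apply, secL_mul_single]

theorem secMat_coeffMap {S : Type*} [CommRing S] (φ : R →+* S) (p : ℕ) [NeZero p]
    (f : LaurentSeries R) :
    secMat p (coeffMap φ f) = (secMat p f).map (coeffMap φ) := by
  ext i' i : 1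
  simp only [secMat_apply', Matrix.map_apply, secL_coeffMap]

/-- Key identity: `f · Tⁱ = ∑_{i'} V_p(M_{i',i}) · T^{i'}`. -/
theorem mul_single_eq_recomb (p : ℕ) [NeZero p] (f : LaurentSeries R) (i : Fin p) :
    f * HahnSeries.single ((i : ℕ) : ℤ) (1 : R) = recomb p (fun i' => secMat p f i' i) :=
  (recomb_secL p _).symm

/-- The section matrix is multiplicative. -/
theorem secMat_mul (p : ℕ) [NeZero p] (f g : LaurentSeries R) :
    secMat p (f * g) = secMat p f * secMat p g := by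
  ext i' i : 1
  have hmul : (secMat p f * secMat p g) i' i = ∑ j, secMat p f i' j * secMat p g j i :=
    Matrix.mul_apply
  rw [hmul, secMat_apply, mul_assoc, mul_single_eq_recomb p g i, recomb,
    Finset.mul_sum, secL_sum p _ Finset.univ]
  apply Finset.sum_congr rfl
  intro j _
  rw [← mul_assoc, mul_comm f, mul_assoc, secL_qExpand_mul, mul_comm]
  rfl

theorem secL_single_one (p : ℕ) [NeZero p] (i' i : Fin p) :
    secL p ((i' : ℕ) : ℤ) (HahnSeries.single ((i : ℕ) : ℤ) (1 : R)) =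
      if i' = i then 1 else 0 := by
  have h := secL_recomb p (fun j : Fin p => if j = i then (1 : LaurentSeries R) else 0) i'
  have h2 : recomb p (fun j : Fin p => if j = i then (1 : LaurentSeries R) else 0)
      = HahnSeries.single ((i : ℕ) : ℤ) (1 : R) := by
    rw [recomb, Finset.sum_eq_single i]
    · simp
    · intro b _ hb; simp [hb]
    · intro h; exact absurd (Finset.mem_univ _) h
  rw [h2] at h
  exact h

/-- The section matrix of `V_p a` is the scalar matrix `a`. -/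
theorem secMat_qExpand (p : ℕ) [NeZero p] (a : LaurentSeries R) :
    secMat p (qExpand R p a) = Matrix.scalar (Fin p) a := by
  ext i' i : 1
  rw [secMat_apply, secL_qExpand_mul, secL_single_one, Matrix.scalar_apply,
    Matrix.diagonal_apply]
  split_ifs <;> simp

theorem secMat_one (p : ℕ) [NeZero p] : secMat p (1 : LaurentSeries R) = 1 := by
  have := secMat_qExpand p (1 : LaurentSeries R)
  rwa [map_one, map_one] at this

theorem secMat_pow (p : ℕ) [NeZero p] (f : LaurentSeries R) (n : ℕ) :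
    secMat p (f ^ n) = secMat p f ^ n := by
  induction n with
  | zero => rw [pow_zero, pow_zero, secMat_one]
  | succ n ih => rw [pow_succ, pow_succ, secMat_mul, ih]

/-- **Cayley–Hamilton for the section matrix**: the characteristic polynomial of `secMat p f`,
with coefficients pushed along `V_p`, kills `f`. -/
theorem secMat_charpoly_eval (p : ℕ) [NeZero p] (f : LaurentSeries R) :
    (((secMat p f).charpoly).map (qExpand R p)).eval f = 0 := by
  set A : Matrix (Fin p) (Fin p) (LaurentSeries R) := (secMat p f).map (qExpand R p) with hA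
  set v : Fin p → LaurentSeries R := fun i => HahnSeries.single ((i : ℕ) : ℤ) (1 : R) with hv
  set B : Matrix (Fin p) (Fin p) (LaurentSeries R) := Matrix.scalar (Fin p) f - Aᵀ with hB
  have hBv : B *ᵥ v = 0 := by
    funext i
    simp only [hB, Matrix.sub_mulVec, Pi.sub_apply, Pi.zero_apply]
    rw [sub_eq_zero]
    have h1 : (Matrix.scalar (Fin p) f *ᵥ v) i = f * v i := by
      simp [Matrix.scalar_apply, Matrix.mulVec, dotProduct, Matrix.diagonal_apply]
    rw [h1]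
    simp only [Matrix.mulVec, dotProduct, Matrix.transpose_apply, hA, Matrix.map_apply, hv]
    exact mul_single_eq_recomb p f i
  have hdet : B.det • v = 0 := by
    have h : (Matrix.adjugate B * B) *ᵥ v = (B.det • (1 : Matrix (Fin p) (Fin p) _)) *ᵥ v := by
      rw [Matrix.adjugate_mul]
    rw [← Matrix.mulVec_mulVec, hBv, Matrix.mulVec_zero] at h
    rw [Matrix.smul_mulVec, Matrix.one_mulVec] at h
    exact h.symm
  have h0 : B.det * v ⟨0, Nat.pos_of_ne_zero (NeZero.ne p)⟩ = 0 := by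
    have := congrFun hdet ⟨0, Nat.pos_of_ne_zero (NeZero.ne p)⟩
    simpa using this
  have hv0 : v ⟨0, Nat.pos_of_ne_zero (NeZero.ne p)⟩ = 1 := by
    simp only [hv]
    rfl
  rw [hv0, mul_one] at h0
  rw [← Matrix.charpoly_map, ← hA, ← Matrix.charpoly_transpose, Matrix.eval_charpoly]
  exact h0

end Fermat.Agent.S37.H400

end

end
-- ===== PACK-END S37/H400/KronSection.lean

-- ===== PACK-BEGIN S37/H340/KronBasic.lean
section




/-!
# S37 / R3-K : the formal Kronecker polynomial (helper340)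

For a commutative ring `R`, `ℓ ≥ 1` and a Laurent series `f = ∑ aₙ qⁿ`, the ring `R((q))` is
free of rank `ℓ` over its subring `V (R((q))) = R((q^ℓ))` (`V = qExpand R ℓ`), with basis
`1, q, …, q^(ℓ-1)`.  `kronMat ℓ f` is the matrix of multiplication by `f` in this basis and
`kron ℓ f` its characteristic polynomial ("`∏_b (Y - f(ζ^b q^{1/ℓ}))`").

Main statements of this file
* `decomp` : `g = ∑ i, q^i * V (sect ℓ i g)`;
* `single_mul_eq_sum` : `q^j * f = ∑ i, q^i * V (kronMat ℓ f i j)`;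
* `kron_monic`, `kron_natDegree`;
* `kron_map` : compatibility with `coeffMap`;
* `kron_eval₂_self` : `(kron ℓ f).eval₂ V f = 0` (Cayley–Hamilton form).
-/

set_option autoImplicit false

noncomputable section

namespace Fermat.Agent.S37.H340

open ModularCurve HahnSeries Polynomial Matrix

variable {R : Type*} [CommRing R] (ℓ : ℕ) [NeZero ℓ]

omit [NeZero ℓ] in
lemma exists_coeff_eq_zero_of_lt (f : LaurentSeries R) : ∃ b : ℤ, ∀ m < b, f.coeff m = 0 := by
  by_cases hf : f = 0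
  · exact ⟨0, fun m _ => by simp [hf]⟩
  · exact ⟨f.order, fun m hm => HahnSeries.coeff_eq_zero_of_lt_order hm⟩

lemma sect_bdd (i : ℤ) (f : LaurentSeries R) :
    BddBelow (Function.support fun n : ℤ => f.coeff ((ℓ : ℤ) * n + i)) := by
  have hℓ : (1 : ℤ) ≤ ℓ := by exact_mod_cast Nat.pos_of_ne_zero (NeZero.ne ℓ)
  obtain ⟨b, hb⟩ := exists_coeff_eq_zero_of_lt f
  refine ⟨min 0 (b - i), fun m hm => ?_⟩
  by_contra hlt
  rw [not_le] at hlt
  refine hm (hb _ ?_)
  have h0 : m < 0 := lt_of_lt_of_le hlt (min_le_left _ _)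
  have h1 : m < b - i := lt_of_lt_of_le hlt (min_le_right _ _)
  nlinarith

/-- The `i`-th section: `sect ℓ i f = ∑ₙ f.coeff (ℓ n + i) qⁿ`. -/
def sect (i : ℤ) (f : LaurentSeries R) : LaurentSeries R :=
  HahnSeries.ofSuppBddBelow (fun n : ℤ => f.coeff ((ℓ : ℤ) * n + i)) (sect_bdd ℓ i f)

@[simp]
lemma sect_coeff (i : ℤ) (f : LaurentSeries R) (n : ℤ) :
    (sect ℓ i f).coeff n = f.coeff ((ℓ : ℤ) * n + i) := by
  simp [sect]

/-- the variable `q` -/
def qq : LaurentSeries R := HahnSeries.single (1 : ℤ) (1 : R)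

omit [NeZero ℓ] in
lemma qq_pow (n : ℕ) : (qq : LaurentSeries R) ^ n = HahnSeries.single (n : ℤ) (1 : R) := by
  rw [qq, HahnSeries.single_pow, one_pow]
  simp

omit [NeZero ℓ] in
lemma coeff_qq_pow_mul (n : ℕ) (g : LaurentSeries R) (k : ℤ) :
    ((qq : LaurentSeries R) ^ n * g).coeff k = g.coeff (k - n) := by
  rw [qq_pow, HahnSeries.coeff_single_mul, one_mul]

lemma qExpand_coeff (g : LaurentSeries R) (k : ℤ) :
    (qExpand R ℓ g).coeff k = if (ℓ : ℤ) ∣ k then g.coeff (k / ℓ) else 0 := by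
  have hℓ : (ℓ : ℤ) ≠ 0 := by exact_mod_cast NeZero.ne ℓ
  split_ifs with h
  · obtain ⟨m, rfl⟩ := h
    rw [qExpand_coeff_mul, Int.mul_ediv_cancel_left _ hℓ]
  · exact qExpand_coeff_of_not_dvd ℓ g h

/-- **Decomposition** of a Laurent series along the basis `1, q, …, q^(ℓ-1)` of `R((q))` over
`R((q^ℓ))`. -/
theorem decomp (g : LaurentSeries R) :
    g = ∑ i : Fin ℓ, (qq : LaurentSeries R) ^ (i : ℕ) * qExpand R ℓ (sect ℓ (i : ℕ) g) := by
  have hℓ : (0 : ℤ) < ℓ := by exact_mod_cast Nat.pos_of_ne_zero (NeZero.ne ℓ)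
  ext k
  rw [HahnSeries.coeff_sum]
  simp only [coeff_qq_pow_mul, qExpand_coeff, sect_coeff]
  -- the unique index `i ≡ k mod ℓ`
  have hr0 : 0 ≤ k % (ℓ : ℤ) := Int.emod_nonneg _ hℓ.ne'
  have hr1 : k % (ℓ : ℤ) < ℓ := Int.emod_lt_of_pos _ hℓ
  set r : ℕ := (k % (ℓ : ℤ)).toNat with hr
  have hrk : (r : ℤ) = k % (ℓ : ℤ) := Int.toNat_of_nonneg hr0
  have hrlt : r < ℓ := by
    have : (r : ℤ) < ℓ := hrk ▸ hr1
    exact_mod_cast this
  rw [Finset.sum_eq_single (⟨r, hrlt⟩ : Fin ℓ)]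
  · have hdvd : (ℓ : ℤ) ∣ k - (r : ℤ) := by
      rw [hrk]; exact Int.dvd_self_sub_emod
    simp only [hdvd, if_true]
    congr 1
    rw [Int.mul_ediv_cancel' hdvd]; ring
  · intro i _ hi
    rw [if_neg]
    intro hdvd
    apply hi
    ext
    simp only
    have h1 : (ℓ : ℤ) ∣ (i : ℕ) - (r : ℤ) := by
      have h2 : (ℓ : ℤ) ∣ k - (r : ℤ) := by rw [hrk]; exact Int.dvd_self_sub_emod
      have := dvd_sub h2 hdvd
      simpa using this
    have hi1 : ((i : ℕ) : ℤ) < ℓ := by exact_mod_cast i.2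
    have hi0 : (0 : ℤ) ≤ ((i : ℕ) : ℤ) := Int.natCast_nonneg _
    have hr0' : (0 : ℤ) ≤ (r : ℤ) := Int.natCast_nonneg _
    have hr1' : (r : ℤ) < ℓ := by exact_mod_cast hrlt
    obtain ⟨c, hc⟩ := h1
    have hc0 : c = 0 := by
      by_contra hne
      rcases lt_or_gt_of_ne hne with h | h
      · have : (ℓ : ℤ) * c ≤ -ℓ := by nlinarith
        omega
      · have : (ℓ : ℤ) ≤ (ℓ : ℤ) * c := by nlinarith
        omega
    rw [hc0, mul_zero] at hc
    omega
  · intro h; exact absurd (Finset.mem_univ _) h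

/-- The matrix of multiplication by `f` in the basis `1, q, …, q^(ℓ-1)`. -/
def kronMat (f : LaurentSeries R) : Matrix (Fin ℓ) (Fin ℓ) (LaurentSeries R) :=
  Matrix.of fun i j => sect ℓ ((i : ℕ) - (j : ℕ) : ℤ) f

@[simp]
lemma kronMat_apply (f : LaurentSeries R) (i j : Fin ℓ) :
    kronMat ℓ f i j = sect ℓ ((i : ℕ) - (j : ℕ) : ℤ) f := rfl

/-- `q^j * f = ∑ i, q^i * V (M i j)`. -/
theorem qq_pow_mul_eq_sum (f : LaurentSeries R) (j : Fin ℓ) :
    (qq : LaurentSeries R) ^ (j : ℕ) * f =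
      ∑ i : Fin ℓ, (qq : LaurentSeries R) ^ (i : ℕ) * qExpand R ℓ (kronMat ℓ f i j) := by
  conv_lhs => rw [decomp ℓ ((qq : LaurentSeries R) ^ (j : ℕ) * f)]
  refine Finset.sum_congr rfl fun i _ => ?_
  congr 2
  ext n
  simp only [sect_coeff, coeff_qq_pow_mul, kronMat_apply]
  congr 1
  ring

/-- The **Kronecker polynomial** of `f`: the characteristic polynomial of multiplication by
`f(q)` on `R((q))` over `R((q^ℓ))`, with coefficients transported to `R((q))`. -/
def kron (f : LaurentSeries R) : (LaurentSeries R)[X] := (kronMat ℓ f).charpoly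

theorem kron_monic (f : LaurentSeries R) : (kron ℓ f).Monic := Matrix.charpoly_monic _

theorem kron_natDegree [Nontrivial R] (f : LaurentSeries R) : (kron ℓ f).natDegree = ℓ := by
  rw [kron, Matrix.charpoly_natDegree_eq_dim, Fintype.card_fin]

/-- Compatibility with change of coefficients. -/
theorem kronMat_map {S : Type*} [CommRing S] (g : R →+* S) (f : LaurentSeries R) :
    kronMat ℓ (coeffMap g f) = (kronMat ℓ f).map (coeffMap g) := by
  ext i j n
  simp

theorem kron_map {S : Type*} [CommRing S] (g : R →+* S) (f : LaurentSeries R) :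
    kron ℓ (coeffMap g f) = (kron ℓ f).map (coeffMap g) := by
  rw [kron, kron, kronMat_map, Matrix.charpoly_map]

/-- **Cayley–Hamilton form**: `f` is a root of its Kronecker polynomial (coefficients pushed
to `R((q^ℓ))` by `V = qExpand R ℓ`). -/
theorem kron_eval₂_self (f : LaurentSeries R) :
    (kron ℓ f).eval₂ (qExpand R ℓ) f = 0 := by
  classical
  set M' : Matrix (Fin ℓ) (Fin ℓ) (LaurentSeries R) := (kronMat ℓ f).map (qExpand R ℓ) with hM'
  set v : Fin ℓ → LaurentSeries R := fun i => (qq : LaurentSeries R) ^ (i : ℕ) with hv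
  have hvM : Matrix.vecMul v M' = f • v := by
    funext j
    simp only [Matrix.vecMul, dotProduct, hM', Matrix.map_apply, hv, Pi.smul_apply, smul_eq_mul]
    rw [mul_comm f, qq_pow_mul_eq_sum ℓ f j]
  have h1 : Matrix.vecMul v (Matrix.scalar (Fin ℓ) f - M') = 0 := by
    rw [Matrix.vecMul_sub, hvM]
    funext j
    simp [Matrix.scalar_apply]
  have h2 : (Matrix.scalar (Fin ℓ) f - M').det • v = 0 := by
    have := congrArg (fun w => Matrix.vecMul w (Matrix.adjugate (Matrix.scalar (Fin ℓ) f - M'))) h1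
    simp only [Matrix.vecMul_vecMul, Matrix.mul_adjugate, Matrix.zero_vecMul] at this
    rw [Matrix.vecMul_smul, Matrix.vecMul_one] at this
    exact this
  have h3 : (Matrix.scalar (Fin ℓ) f - M').det = 0 := by
    have h0 : (0 : ℕ) < ℓ := Nat.pos_of_ne_zero (NeZero.ne ℓ)
    have := congrFun h2 ⟨0, h0⟩
    simpa [hv] using this
  rw [kron, Polynomial.eval₂_eq_eval_map, ← Matrix.charpoly_map, ← hM', Matrix.eval_charpoly]
  exact h3

end Fermat.Agent.S37.H340

end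
end
-- ===== PACK-END S37/H340/KronBasic.lean

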