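import Mathlib
import Fermat.Prelude.Def_GaloisRep_Residual
import Fermat.Prelude.Def_ModularCurve_PeriodHomPair
import Fermat.Prelude.Thm_ModularForm_heckeT_slash_eq_self_of_mem_Gamma0
import Fermat.Prelude.Def_ModularCurve_PeriodMap
import Mathlib.RingTheory.SimpleModule.Basic
import Mathlib.RepresentationTheory.AlgebraRepresentation.Basic
import Mathlib.LinearAlgebra.FiniteDimensional.Basic
import Mathlib.Algebra.Algebra.Subalgebra.Basic
import Fermat.Prelude.Def_FLTPrelim_GaloisRep

-- ===== PACK-BEGIN S13/H64/Gauss.lean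
section


/-!
# S13 / T5b: a Gauss-lemma bound for split polynomials with integral coefficients

`v : Valuation K Γ₀`.  If `f = C c * ∏_{r ∈ s} (X - C r)` has all coefficients `v`-integral then
`v c * ∏_{r ∈ s, 1 < v r} v r ≤ 1`.
-/

set_option autoImplicit false

namespace Fermat.Agent.S13.H64

open Polynomial

variable {K : Type*} [Field K] {Γ₀ : Type*} [LinearOrderedCommGroupWithZero Γ₀]
  (v : Valuation K Γ₀)

/-- Product of `X - C r` over integral `r` has integral coefficients. -/
lemma coeff_prod_X_sub_C_le_one (s : Multiset K) (hs : ∀ r ∈ s, v r ≤ 1) (n : ℕ) :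
    v ((s.map (fun r => X - C r)).prod.coeff n) ≤ 1 := by
  induction s using Multiset.induction_on generalizing n with
  | empty =>
    simp only [Multiset.map_zero, Multiset.prod_zero, coeff_one]
    split_ifs <;> simp
  | cons a s ih =>
    have ha : v a ≤ 1 := hs a (Multiset.mem_cons_self a s)
    have ih' := ih (fun r hr => hs r (Multiset.mem_cons_of_mem hr))
    rw [Multiset.map_cons, Multiset.prod_cons, sub_mul, coeff_sub, coeff_C_mul]
    refine (v.map_sub _ _).trans (max_le ?_ ?_)
    · cases n with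
      | zero => simp
      | succ m => rw [coeff_X_mul]; exact ih' m
    · rw [map_mul]; exact mul_le_one' ha (ih' n)

/-- Multiplying by `1 - C a * X` with `v a < 1` preserves integrality of coefficients and the
property that the `k`-th coefficient is a unit. -/
lemma coeff_mul_one_sub_CX (F : K[X]) (k : ℕ) (hF : ∀ n, v (F.coeff n) ≤ 1)
    (hk : v (F.coeff k) = 1) (a : K) (ha : v a < 1) :
    (∀ n, v (((1 - C a * X) * F).coeff n) ≤ 1) ∧ v (((1 - C a * X) * F).coeff k) = 1 := by
  have hcoeff : ∀ n, ((1 - C a * X) * F).coeff n =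
      F.coeff n - a * (if n = 0 then 0 else F.coeff (n - 1)) := by
    intro n
    rw [sub_mul, one_mul, coeff_sub, mul_assoc, coeff_C_mul]
    cases n with
    | zero => simp
    | succ m => rw [coeff_X_mul]; simp
  have hlt : ∀ n, v (a * (if n = 0 then 0 else F.coeff (n - 1))) < 1 := by
    intro n
    rw [map_mul]
    split_ifs
    · simp
    · exact (mul_le_of_le_one_right' (hF _)).trans_lt ha
  refine ⟨fun n => ?_, ?_⟩
  · rw [hcoeff]
    exact (v.map_sub _ _).trans (max_le (hF n) (hlt n).le)
  · rw [hcoeff, v.map_sub_eq_of_lt_left (by rw [hk]; exact hlt k), hk]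

/-- Product over non-integral `r` of `1 - C r⁻¹ * X`, times an integral `G` with unit `k`-th
coefficient. -/
lemma coeff_prod_one_sub_mul (s : Multiset K) (hs : ∀ r ∈ s, 1 < v r) (G : K[X]) (k : ℕ)
    (hG : ∀ n, v (G.coeff n) ≤ 1) (hk : v (G.coeff k) = 1) :
    (∀ n, v (((s.map (fun r => 1 - C r⁻¹ * X)).prod * G).coeff n) ≤ 1) ∧
      v (((s.map (fun r => 1 - C r⁻¹ * X)).prod * G).coeff k) = 1 := by
  induction s using Multiset.induction_on with
  | empty => simpa using ⟨hG, hk⟩
  | cons a s ih =>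
    have ha : 1 < v a := hs a (Multiset.mem_cons_self a s)
    obtain ⟨h1, h2⟩ := ih (fun r hr => hs r (Multiset.mem_cons_of_mem hr))
    rw [Multiset.map_cons, Multiset.prod_cons, mul_assoc]
    exact coeff_mul_one_sub_CX v _ k h1 h2 a⁻¹ (by
      rw [map_inv₀]; exact inv_lt_one_of_one_lt₀ ha)

/-- Rewriting `∏ (X - C r)` for nonzero `r`. -/
lemma prod_X_sub_C_eq (s : Multiset K) (hs : ∀ r ∈ s, r ≠ 0) :
    (s.map (fun r => X - C r)).prod =
      C (s.map (fun r => -r)).prod * (s.map (fun r => 1 - C r⁻¹ * X)).prod := by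
  induction s using Multiset.induction_on with
  | empty => simp
  | cons a s ih =>
    have ha : a ≠ 0 := hs a (Multiset.mem_cons_self a s)
    rw [Multiset.map_cons, Multiset.prod_cons, Multiset.map_cons, Multiset.prod_cons,
      Multiset.map_cons, Multiset.prod_cons, ih (fun r hr => hs r (Multiset.mem_cons_of_mem hr)),
      C_mul]
    have : (X - C a : K[X]) = C (-a) * (1 - C a⁻¹ * X) := by
      rw [mul_sub, mul_one, ← mul_assoc, ← C_mul, neg_mul, mul_inv_cancel₀ ha]
      simp only [C_neg, C_1, neg_mul, one_mul, sub_neg_eq_add]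
      ring
    rw [this]; ring

lemma val_prod_neg (s : Multiset K) :
    v (s.map (fun r => -r)).prod = (s.map v).prod := by
  induction s using Multiset.induction_on with
  | empty => simp
  | cons a s ih =>
    rw [Multiset.map_cons, Multiset.prod_cons, Multiset.map_cons, Multiset.prod_cons, map_mul,
      Valuation.map_neg, ih]

/-- **Gauss bound.** If `f = C c * ∏_{r ∈ s} (X - C r)` has `v`-integral coefficients, then
`v c * ∏_{r ∈ s, 1 < v r} v r ≤ 1`. -/
theorem gauss_bound (c : K) (s : Multiset K)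
    (hint : ∀ n, v ((C c * (s.map (fun r => X - C r)).prod).coeff n) ≤ 1) :
    v c * ((s.filter (fun r => 1 < v r)).map v).prod ≤ 1 := by
  classical
  set s1 := s.filter (fun r => 1 < v r) with hs1
  set s0 := s.filter (fun r => ¬ 1 < v r) with hs0
  have hsplit : s = s1 + s0 := (Multiset.filter_add_not _ s).symm
  have h1 : ∀ r ∈ s1, 1 < v r := fun r hr => (Multiset.mem_filter.mp hr).2
  have h0 : ∀ r ∈ s0, v r ≤ 1 := fun r hr => not_lt.mp (Multiset.mem_filter.mp hr).2
  have h1ne : ∀ r ∈ s1, r ≠ 0 := by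
    intro r hr h
    have := h1 r hr
    rw [h, map_zero] at this
    exact not_lt_zero this
  set G := (s0.map (fun r => X - C r)).prod with hG
  have hGint : ∀ n, v (G.coeff n) ≤ 1 := coeff_prod_X_sub_C_le_one v s0 h0
  have hGmonic : G.Monic := monic_multiset_prod_of_monic _ _ (fun r _ => monic_X_sub_C r)
  have hGdeg : G.natDegree = Multiset.card s0 := by
    rw [hG, natDegree_multiset_prod_of_monic _ (by
      intro p hp
      obtain ⟨r, -, rfl⟩ := Multiset.mem_map.mp hp
      exact monic_X_sub_C r)]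
    simp
  have hGk : v (G.coeff (Multiset.card s0)) = 1 := by
    rw [← hGdeg, ← leadingCoeff, hGmonic.leadingCoeff, map_one]
  obtain ⟨-, hunit⟩ := coeff_prod_one_sub_mul v s1 h1 G _ hGint hGk
  have hf : C c * (s.map (fun r => X - C r)).prod =
      C (c * (s1.map (fun r => -r)).prod) * ((s1.map (fun r => 1 - C r⁻¹ * X)).prod * G) := by
    conv_lhs => rw [hsplit]
    rw [Multiset.map_add, Multiset.prod_add, prod_X_sub_C_eq s1 h1ne, C_mul]
    ring
  have := hint (Multiset.card s0)
  rw [hf, coeff_C_mul, map_mul, hunit, mul_one, map_mul, val_prod_neg] at this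
  exact this

/-- Finset form of the Gauss bound: if `T` is a finite set of roots of `f`, all of valuation
`> 1`, `f` splits with leading coefficient `c` and has integral coefficients, then
`v c * ∏_{r ∈ T} v r ≤ 1`. -/
theorem gauss_bound_finset [DecidableEq K] (c : K) (s : Multiset K)
    (hint : ∀ n, v ((C c * (s.map (fun r => X - C r)).prod).coeff n) ≤ 1)
    (T : Finset K) (hT : ∀ r ∈ T, r ∈ s ∧ 1 < v r) :
    v c * ∏ r ∈ T, v r ≤ 1 := by
  classical
  have hle : T.val ≤ s.filter (fun r => 1 < v r) := by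
    rw [Multiset.le_iff_count]
    intro a
    by_cases ha : a ∈ T
    · rw [Multiset.count_eq_one_of_mem T.nodup ha]
      exact Multiset.one_le_count_iff_mem.mpr (Multiset.mem_filter.mpr (hT a ha))
    · rw [Multiset.count_eq_zero_of_notMem ha]; exact Nat.zero_le _
  obtain ⟨u, hu⟩ := Multiset.le_iff_exists_add.mp hle
  have hu1 : ∀ r ∈ u, 1 ≤ v r := by
    intro r hr
    have : r ∈ s.filter (fun r => 1 < v r) := by rw [hu]; exact Multiset.mem_add.mpr (Or.inr hr)
    exact (Multiset.mem_filter.mp this).2.le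
  have hprod_u : 1 ≤ (u.map v).prod := by
    apply Multiset.one_le_prod
    intro x hx
    obtain ⟨r, hr, rfl⟩ := Multiset.mem_map.mp hx
    exact hu1 r hr
  have hgb := gauss_bound v c s hint
  rw [hu, Multiset.map_add, Multiset.prod_add] at hgb
  have hTprod : (T.val.map v).prod = ∏ r ∈ T, v r := rfl
  rw [hTprod] at hgb
  calc v c * ∏ r ∈ T, v r ≤ v c * ((∏ r ∈ T, v r) * (u.map v).prod) := by
        gcongr
        exact le_mul_of_one_le_right zero_le hprod_u
    _ ≤ 1 := hgb

end Fermat.Agent.S13.H64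

end
-- ===== PACK-END S13/H64/Gauss.lean

-- ===== PACK-BEGIN Ribet/H523/StableLine.lean
section


/-!
# RIBET, piece NE (helper523): a stable line from "eigenvalues `1` and `χ`"

Pure linear algebra.  `V` is a vector space of dimension `2` over a field `k`, `G` a group acting
through `ρ : G →* End_k V`, `χ : G →* k` a multiplicative character, and every `g` satisfies
`(ρ g - 1) (ρ g - χ g) = 0`.  Then `V` has a `G`-stable line
(`exists_stable_line_of_character`).

This is the group-theoretic core of "an Eisenstein residual representation is reducible".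
-/

set_option autoImplicit false

namespace Fermat.Agent.Ribet.H523

open Module

variable {k : Type*} [Field k] {V : Type*} [AddCommGroup V] [Module k V]

/-- In a `2`-dimensional space a proper submodule containing a nonzero vector `v` is the line
spanned by `v`. -/
theorem eq_span_singleton_of_mem_of_ne_top (hV : finrank k V = 2) {L : Submodule k V}
    (hL : L ≠ ⊤) {v : V} (hv : v ≠ 0) (h : v ∈ L) : L = Submodule.span k {v} := by
  have : FiniteDimensional k V := FiniteDimensional.of_finrank_pos (by omega)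
  have hle : Submodule.span k {v} ≤ L := (Submodule.span_singleton_le_iff_mem v L).mpr h
  have h1 : finrank k (Submodule.span k {v}) = 1 := finrank_span_singleton hv
  have h2 : finrank k L < 2 := hV ▸ Submodule.finrank_lt hL
  have h3 : finrank k (Submodule.span k {v}) ≤ finrank k L := Submodule.finrank_mono hle
  exact (Submodule.eq_of_le_of_finrank_eq hle (by omega)).symm

/-- Two proper submodules of a `2`-dimensional space with a common nonzero vector are equal. -/
theorem eq_of_mem_of_mem_of_ne_top (hV : finrank k V = 2) {L L' : Submodule k V}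
    (hL : L ≠ ⊤) (hL' : L' ≠ ⊤) {v : V} (hv : v ≠ 0) (h : v ∈ L) (h' : v ∈ L') : L = L' := by
  rw [eq_span_singleton_of_mem_of_ne_top hV hL hv h,
    eq_span_singleton_of_mem_of_ne_top hV hL' hv h']

/-- A line in a `2`-dimensional space is neither `⊥` nor `⊤`. -/
theorem span_singleton_ne_bot_ne_top (hV : finrank k V = 2) {v : V} (hv : v ≠ 0) :
    Submodule.span k {v} ≠ ⊥ ∧ Submodule.span k {v} ≠ ⊤ := by
  refine ⟨fun h => hv ((Submodule.span_singleton_eq_bot).mp h), fun h => ?_⟩
  have h1 : finrank k (Submodule.span k {v}) = 1 := finrank_span_singleton hv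
  rw [h, finrank_top, hV] at h1
  omega

/-- A square-zero endomorphism of a nonzero space kills a nonzero vector. -/
theorem exists_ne_zero_apply_eq_zero_of_sq_zero [Nontrivial V] (m : Module.End k V)
    (hm : m * m = 0) : ∃ v : V, v ≠ 0 ∧ m v = 0 := by
  obtain ⟨w, hw⟩ := exists_ne (0 : V)
  by_cases h : m w = 0
  · exact ⟨w, hw, h⟩
  · refine ⟨m w, h, ?_⟩
    have := congrArg (fun f : Module.End k V => f w) hm
    simpa using this

/-- Two square-zero endomorphisms `n₀`, `n₁ ≠ 0` of a `2`-dimensional space such that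
`(1 + n₀)(1 + n₁) - 1` is square-zero as well have the same kernel. -/
theorem ker_eq_ker_of_sq_zero (hV : finrank k V = 2) (n₀ n₁ : Module.End k V)
    (h₀ : n₀ * n₀ = 0) (h₁ : n₁ * n₁ = 0) (hL₀ : LinearMap.ker n₀ ≠ ⊤)
    (hL₁ : LinearMap.ker n₁ ≠ ⊤)
    (hm : (n₀ + n₁ + n₀ * n₁) * (n₀ + n₁ + n₀ * n₁) = 0) :
    LinearMap.ker n₀ = LinearMap.ker n₁ := by
  have : Nontrivial V := Module.nontrivial_of_finrank_pos (R := k) (by omega)
  obtain ⟨v, hv, hv0⟩ := exists_ne_zero_apply_eq_zero_of_sq_zero _ hm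
  have hn₀' : ∀ w : V, n₀ (n₀ w) = 0 := fun w => by
    have := congrArg (fun f : Module.End k V => f w) h₀
    simpa using this
  have hn₁' : ∀ w : V, n₁ (n₁ w) = 0 := fun w => by
    have := congrArg (fun f : Module.End k V => f w) h₁
    simpa using this
  have hv1 : n₀ v + n₁ v + n₀ (n₁ v) = 0 := by
    simpa using hv0
  have hmem₁ : n₁ v ∈ LinearMap.ker n₁ := hn₁' v
  have hmem₀ : n₁ v ∈ LinearMap.ker n₀ := by
    have e0 : n₁ v + n₀ (v + n₁ v) = 0 := by
      rw [map_add, ← hv1]; abel
    have e : n₁ v = -(n₀ (v + n₁ v)) := eq_neg_of_add_eq_zero_left e0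
    rw [LinearMap.mem_ker, e, map_neg, hn₀', neg_zero]
  by_cases hz : n₁ v = 0
  · have hz0 : n₀ v = 0 := by
      rw [hz, map_zero, add_zero, add_zero] at hv1
      exact hv1
    exact eq_of_mem_of_mem_of_ne_top hV hL₀ hL₁ hv hz0 hz
  · exact eq_of_mem_of_mem_of_ne_top hV hL₀ hL₁ hz hmem₀ hmem₁

/-- **Stable line.**  If every `g` satisfies `(ρ g - 1)(ρ g - χ g) = 0` for a multiplicative
character `χ`, then the `2`-dimensional representation `ρ` has a stable line. -/
theorem exists_stable_line_of_character (hV : finrank k V = 2) {G : Type*} [Group G]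
    (ρ : G →* Module.End k V) (χ : G →* k)
    (h : ∀ g : G, (ρ g - 1) * (ρ g - χ g • (1 : Module.End k V)) = 0) :
    ∃ N : Submodule k V, N ≠ ⊥ ∧ N ≠ ⊤ ∧ ∀ g : G, ∀ x ∈ N, ρ g x ∈ N := by
  have : FiniteDimensional k V := FiniteDimensional.of_finrank_pos (by omega)
  have : Nontrivial V := Module.nontrivial_of_finrank_pos (R := k) (by omega)
  -- elements of the kernel of `χ` are unipotent
  have hsq : ∀ g : G, χ g = 1 → (ρ g - 1) * (ρ g - 1) = 0 := by
    intro g hg
    have := h g
    rwa [hg, one_smul] at this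
  have hinv : ∀ g : G, ρ g * ρ g⁻¹ = 1 := fun g => by rw [← map_mul, mul_inv_cancel, map_one]
  have hinv' : ∀ g : G, ρ g⁻¹ * ρ g = 1 := fun g => by rw [← map_mul, inv_mul_cancel, map_one]
  by_cases hcase : ∃ h₀ : G, χ h₀ = 1 ∧ ρ h₀ ≠ 1
  · -- Case 1: a nontrivial unipotent element in the kernel of `χ`
    obtain ⟨h₀, hχ₀, hρ₀⟩ := hcase
    have hn₀ : (ρ h₀ - 1) * (ρ h₀ - 1) = 0 := hsq h₀ hχ₀
    have hLtop : LinearMap.ker (ρ h₀ - 1) ≠ ⊤ := by
      intro htop
      exact hρ₀ (sub_eq_zero.mp (LinearMap.ker_eq_top.mp htop))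
    have hLbot : LinearMap.ker (ρ h₀ - 1) ≠ ⊥ := by
      intro hbot
      obtain ⟨v, hv, hv0⟩ := exists_ne_zero_apply_eq_zero_of_sq_zero (ρ h₀ - 1) hn₀
      have : v ∈ LinearMap.ker (ρ h₀ - 1) := hv0
      rw [hbot] at this
      exact hv this
    refine ⟨LinearMap.ker (ρ h₀ - 1), hLbot, hLtop, ?_⟩
    intro g x hx
    -- the conjugate `h₁ = g h₀ g⁻¹`
    have hχ₁ : χ (g * h₀ * g⁻¹) = 1 := by
      rw [map_mul, map_mul, hχ₀, mul_one, ← map_mul, mul_inv_cancel, map_one]
    have hρ₁ : ρ (g * h₀ * g⁻¹) - 1 = ρ g * (ρ h₀ - 1) * ρ g⁻¹ := by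
      rw [map_mul, map_mul, mul_sub, sub_mul, mul_one, hinv]
    have hn₁ : (ρ (g * h₀ * g⁻¹) - 1) * (ρ (g * h₀ * g⁻¹) - 1) = 0 := hsq _ hχ₁
    have hL₁top : LinearMap.ker (ρ (g * h₀ * g⁻¹) - 1) ≠ ⊤ := by
      intro htop
      have h0 : ρ g * (ρ h₀ - 1) * ρ g⁻¹ = 0 := by
        rw [← hρ₁]; exact LinearMap.ker_eq_top.mp htop
      have h1 : ρ h₀ - 1 = ρ g⁻¹ * (ρ g * (ρ h₀ - 1) * ρ g⁻¹) * ρ g := by
        rw [mul_assoc (ρ g), ← mul_assoc (ρ g⁻¹), hinv', one_mul, mul_assoc, hinv', mul_one]
      rw [h0, mul_zero, zero_mul] at h1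
      exact hρ₀ (sub_eq_zero.mp h1)
    -- the product `h₀ h₁` is unipotent as well
    have hχ₂ : χ (h₀ * (g * h₀ * g⁻¹)) = 1 := by rw [map_mul, hχ₀, hχ₁, one_mul]
    have hm : ρ (h₀ * (g * h₀ * g⁻¹)) - 1 =
        (ρ h₀ - 1) + (ρ (g * h₀ * g⁻¹) - 1) + (ρ h₀ - 1) * (ρ (g * h₀ * g⁻¹) - 1) := by
      rw [map_mul ρ h₀]
      noncomm_ring
    have hmm := hsq _ hχ₂
    rw [hm] at hmm
    have hLeq : LinearMap.ker (ρ h₀ - 1) = LinearMap.ker (ρ (g * h₀ * g⁻¹) - 1) :=
      ker_eq_ker_of_sq_zero hV _ _ hn₀ hn₁ hLtop hL₁top hmm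
    rw [hLeq, LinearMap.mem_ker, hρ₁]
    have hx0 : (ρ h₀ - 1) x = 0 := hx
    have hgx : ρ g⁻¹ (ρ g x) = x := by
      have := congrArg (fun f : Module.End k V => f x) (hinv' g)
      simp only [Module.End.mul_apply, Module.End.one_apply] at this
      exact this
    rw [Module.End.mul_apply, Module.End.mul_apply, hgx, hx0, map_zero]
  · -- Case 2: `ρ` is trivial on the kernel of `χ`, hence has commutative image
    have htriv : ∀ g : G, χ g = 1 → ρ g = 1 := by
      intro g hg
      by_contra hne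
      exact hcase ⟨g, hg, hne⟩
    have hcomm : ∀ g₁ g₂ : G, ρ g₁ * ρ g₂ = ρ g₂ * ρ g₁ := by
      intro g₁ g₂
      have h1 : χ (g₁ * g₂ * g₁⁻¹ * g₂⁻¹) = 1 := by
        have e1 : χ g₁ * χ g₁⁻¹ = 1 := by rw [← map_mul, mul_inv_cancel, map_one]
        have e2 : χ g₂ * χ g₂⁻¹ = 1 := by rw [← map_mul, mul_inv_cancel, map_one]
        rw [map_mul, map_mul, map_mul]
        calc χ g₁ * χ g₂ * χ g₁⁻¹ * χ g₂⁻¹ = (χ g₁ * χ g₁⁻¹) * (χ g₂ * χ g₂⁻¹) := by ring
          _ = 1 := by rw [e1, e2, one_mul]
      have h2 := htriv _ h1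
      have h3 : g₁ * g₂ = (g₁ * g₂ * g₁⁻¹ * g₂⁻¹) * (g₂ * g₁) := by group
      rw [← map_mul, ← map_mul, h3, map_mul, h2, one_mul]
    by_cases hcase2 : ∃ g : G, ρ g ≠ 1 ∧ LinearMap.ker (ρ g - 1) ≠ ⊥
    · obtain ⟨g, hg1, hgker⟩ := hcase2
      refine ⟨LinearMap.ker (ρ g - 1), hgker, ?_, ?_⟩
      · intro htop
        exact hg1 (sub_eq_zero.mp (LinearMap.ker_eq_top.mp htop))
      · intro g' x hx
        rw [LinearMap.mem_ker] at hx ⊢
        have hc : (ρ g - 1) * ρ g' = ρ g' * (ρ g - 1) := by
          rw [sub_mul, mul_sub, one_mul, mul_one, hcomm]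
        have := congrArg (fun f : Module.End k V => f x) hc
        simp only [Module.End.mul_apply] at this
        rw [this, hx, map_zero]
    · -- every `ρ g` is a scalar
      obtain ⟨v, hv⟩ := exists_ne (0 : V)
      refine ⟨Submodule.span k {v}, (span_singleton_ne_bot_ne_top hV hv).1,
        (span_singleton_ne_bot_ne_top hV hv).2, ?_⟩
      intro g x hx
      by_cases hg1 : ρ g = 1
      · rw [hg1]; exact hx
      · have hker : LinearMap.ker (ρ g - 1) = ⊥ := by
          by_contra hne
          exact hcase2 ⟨g, hg1, hne⟩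
        have h0 : (ρ g - 1) ((ρ g - χ g • (1 : Module.End k V)) x) = 0 := by
          have := congrArg (fun f : Module.End k V => f x) (h g)
          simpa using this
        have h1 : (ρ g - χ g • (1 : Module.End k V)) x ∈ LinearMap.ker (ρ g - 1) := h0
        rw [hker, Submodule.mem_bot] at h1
        have h2 : ρ g x = χ g • x := by
          have : ρ g x - χ g • x = 0 := by simpa using h1
          exact sub_eq_zero.mp this
        rw [h2]
        exact Submodule.smul_mem _ _ hx

end Fermat.Agent.Ribet.H523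

end
-- ===== PACK-END Ribet/H523/StableLine.lean

-- ===== PACK-BEGIN S29/Defs.lean
section
/-
S29 row — FROZEN interface definitions (row-lead helper269).
Namespace `Fermat.Agent.S29`.  Do not edit; propose changes via a note kind='question' stmt='S29'.
-/



set_option autoImplicit false

namespace Fermat.Agent.S29

open Polynomial

/-- The absolute Galois group of `ℚ`, as used by every frozen statement. -/
abbrev GQ : Type := AlgebraicClosure ℚ ≃ₐ[ℚ] AlgebraicClosure ℚ

/-- Valuation subrings of `ℚ̄` (the "places" of the frozen statements). -/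
abbrev VQ : Type := ValuationSubring (AlgebraicClosure ℚ)

section Module

variable {F : Type} [Field F] {M : Type} [AddCommGroup M] [Module F M]

/-- Every vector is fixed by an open subgroup `Gal(ℚ̄/L)`, `L/ℚ` finite. -/
def IsSmoothRep (ρ : GQ →* Module.End F M) : Prop :=
  ∀ x : M, ∃ L : IntermediateField ℚ (AlgebraicClosure ℚ), FiniteDimensional ℚ L ∧
    ∀ σ : GQ, (∀ y ∈ L, σ y = y) → ρ σ x = x

/-- Inertia at every prime `ℓ ∤ S` (all places above `ℓ`) acts trivially. -/
def IsUnramOutside (ρ : GQ →* Module.End F M) (S : ℕ) : Prop :=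
  ∀ ℓ : ℕ, ℓ.Prime → ¬ ℓ ∣ S → ∀ A : VQ, A.LiesOverPrime ℓ →
    ∀ σ ∈ A.inertiaSubgroupIn ℚ, ρ σ = 1

/-- Every Frobenius element at every place above every prime `ℓ ∤ S` satisfies
`σ² - a ℓ • σ + ℓ = 0` on the module. -/
def IsFrobQuadratic (ρ : GQ →* Module.End F M) (S : ℕ) (a : ℕ → F) : Prop :=
  ∀ ℓ : ℕ, ℓ.Prime → ¬ ℓ ∣ S → ∀ A : VQ, A.LiesOverPrime ℓ →
    ∀ σ : GQ, A.IsFrobeniusAt σ ℓ →
      ρ σ * ρ σ - a ℓ • ρ σ + (ℓ : F) • (1 : Module.End F M) = 0

end Module

/-- (UNUSED since skeleton v2: the assembly consumes CHEB Tier 1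
`Fermat.Agent.Lib.Cheb.Spec.FrobeniusDivisionStatement` instead.)  Qualitative Chebotarev:
every element of `Gal(L/ℚ)` (`L/ℚ` finite) is the restriction of a Frobenius element at a place over
some prime `ℓ ∤ S`. -/
def ChebStatement : Prop :=
  ∀ (L : IntermediateField ℚ (AlgebraicClosure ℚ)), FiniteDimensional ℚ L →
    ∀ (σ : GQ) (S : ℕ), S ≠ 0 →
      ∃ (ℓ : ℕ) (A : VQ) (τ : GQ), ℓ.Prime ∧ ¬ ℓ ∣ S ∧ A.LiesOverPrime ℓ ∧
        A.IsFrobeniusAt τ ℓ ∧ ∀ x ∈ L, τ x = σ x

/-- The conclusion of the assembly layer for a coefficient field `F` and a system `a`. -/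
def HasAttachedRep (F : Type) [Field F] (S : ℕ) (a : ℕ → F) : Prop :=
  ∃ r : ResidualGaloisRep F,
    (∀ ℓ : ℕ, ℓ.Prime → ¬ ℓ ∣ S → ∀ A : VQ, A.LiesOverPrime ℓ →
      ∀ σ : GQ, A.IsFrobeniusAt σ ℓ →
        LinearMap.charpoly (r.ρ σ) = X ^ 2 - C (a ℓ) * X + C ((ℓ : F))) ∧
    (∀ ℓ : ℕ, ℓ.Prime → ¬ ℓ ∣ S → r.IsUnramifiedAt ℓ)

/-- The output of the module layer ("torsion module"): a nonzero smooth `F[G_ℚ]`-module,
unramified outside `S`, on which all Frobenii at `ℓ ∤ S` satisfy the Eichler–Shimura relation. -/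
def HasFrobModule (F : Type) [Field F] (S : ℕ) (a : ℕ → F) : Prop :=
  ∃ (M : Type) (_ : AddCommGroup M) (_ : Module F M) (ρ : GQ →* Module.End F M),
    Nontrivial M ∧ IsSmoothRep ρ ∧ IsUnramOutside ρ S ∧ IsFrobQuadratic ρ S a

end Fermat.Agent.S29

end
-- ===== PACK-END S29/Defs.lean

-- ===== PACK-BEGIN S21/H381/Primitive.lean
section



/-!
# S21, piece A (part 1): decaying primitives of periodic holomorphic functions on `ℍ`

`exists_disc_primitive`: if `g : ℍ → ℂ` is holomorphic, `h`-periodic and tends to `0` at `i∞`,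
there is `Ψ` holomorphic on the open unit disc with `Ψ 0 = 0` such that `z ↦ Ψ (𝕢 h z)` is a
primitive of `g` on `ℍ`.
-/

set_option autoImplicit false

namespace Fermat.Agent.S21.H381

open Filter Topology Function Complex
open UpperHalfPlane hiding I
open scoped Manifold

/-- On the upper half plane, `G ∘ ofComplex` and `G' := fun z => Ψ (𝕢 h z)` agree near any point
as soon as `G τ = Ψ (𝕢 h τ)` on `ℍ`. -/
theorem comp_ofComplex_eventuallyEq {G : ℍ → ℂ} {P : ℂ → ℂ} (hGP : ∀ τ : ℍ, G τ = P ↑τ)
    (τ : ℍ) : G ∘ ofComplex =ᶠ[𝓝 (τ : ℂ)] P := by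
  have hopen : IsOpen {z : ℂ | 0 < z.im} := isOpen_lt continuous_const Complex.continuous_im
  filter_upwards [hopen.mem_nhds τ.2] with z hz
  simp only [Function.comp_apply, ofComplex_apply_of_im_pos hz, hGP]

/-- **One-step decaying primitive.** -/
theorem exists_disc_primitive {g : ℍ → ℂ} {h : ℝ} (hh : 0 < h)
    (hper : Periodic (g ∘ ofComplex) h) (hhol : MDiff g) (hzero : IsZeroAtImInfty g) :
    ∃ Ψ : ℂ → ℂ, DifferentiableOn ℂ Ψ (Metric.ball 0 1) ∧ Ψ 0 = 0 ∧
      ∀ τ : ℍ, HasDerivAt (fun z : ℂ => (h / (2 * Real.pi * I)) * Ψ (Periodic.qParam h z))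
        (g τ) ↑τ := by
  have hbdd : IsBoundedAtImInfty g := hzero.isBoundedAtImInfty
  set φ : ℂ → ℂ := cuspFunction h g with hφ
  have hφdiff : DifferentiableOn ℂ φ (Metric.ball 0 1) :=
    differentiableOn_cuspFunction_ball hh hper hhol hbdd
  have hφ0 : φ 0 = 0 := by
    have h1 := cuspFunction_apply_zero hh
      (analyticAt_cuspFunction_zero hh hper hhol hbdd) hper
    rw [hφ, h1]
    exact hzero.valueAtInfty_eq_zero
  have hball : Metric.ball (0 : ℂ) 1 ∈ 𝓝 (0 : ℂ) := Metric.ball_mem_nhds 0 one_pos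
  have hψdiff : DifferentiableOn ℂ (dslope φ 0) (Metric.ball 0 1) :=
    (Complex.differentiableOn_dslope hball).2 hφdiff
  obtain ⟨Ψ, hΨ0, hΨ⟩ := (hψdiff.isExactOn_ball).with_val_at 0 0
  refine ⟨Ψ, ?_, hΨ0, ?_⟩
  · intro z hz
    exact (hΨ z hz).differentiableAt.differentiableWithinAt
  · intro τ
    set q : ℂ := Periodic.qParam h ↑τ with hq
    have hqball : q ∈ Metric.ball (0 : ℂ) 1 := by
      rw [mem_ball_zero_iff]
      exact Periodic.norm_qParam_lt_one hh τ.2
    have hq0 : q ≠ 0 := Periodic.qParam_ne_zero _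
    have hqd : HasDerivAt (Periodic.qParam h) (q * (2 * Real.pi * I / h)) ↑τ := by
      have hs : HasStrictDerivAt (Periodic.qParam h) (q * (2 * Real.pi * I / h)) (τ : ℂ) := by
        simpa only [id_eq, mul_one] using!
          (((hasStrictDerivAt_id (τ : ℂ)).const_mul _).div_const _).cexp
      exact hs.hasDerivAt
    have hcomp := (hΨ q hqball).comp (τ : ℂ) hqd
    have hval : (h / (2 * Real.pi * I) : ℂ) * (dslope φ 0 q * (q * (2 * Real.pi * I / h)))
        = g τ := by
      have hφq : φ q = g τ := eq_cuspFunction τ hh.ne' hper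
      rw [dslope_of_ne _ hq0, slope_def_field, hφ0, sub_zero, sub_zero, hφq]
      have hh' : (h : ℂ) ≠ 0 := by exact_mod_cast hh.ne'
      have hpi : (2 * Real.pi * I : ℂ) ≠ 0 := Complex.two_pi_I_ne_zero
      field_simp
    have h3 := hcomp.const_mul (h / (2 * Real.pi * I) : ℂ)
    rw [hval] at h3
    exact h3

end Fermat.Agent.S21.H381

end
-- ===== PACK-END S21/H381/Primitive.lean

-- ===== PACK-BEGIN S29/H642/HeckeTransfer.lean
section




/-!
# S29 / E2 (helper642): the Hecke transfer on characters of `Γ₀(N)`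

For a prime `p ∤ N`, `γ ∈ Γ₀(N)` and `x ∈ ℙ¹(𝔽_p)` there is a unique `γ_x ∈ Γ₀(N)` with
`heckeRep p x * γ = γ_x * heckeRep p (π_γ x)` (Prelude: `heckeRep_mul`).  The *Hecke transfer* of an
additive character `χ : Γ₀(N) → A` is `(T_p χ)(γ) = ∑_x χ(γ_x)`.
-/

set_option autoImplicit false

namespace Fermat.Agent.S29.H642

open CongruenceSubgroup Matrix.SpecialLinearGroup
open P2MW.S_ModularForm_heckeT_slash_eq_self_of_mem_Gamma0.ModularForm.HeckeSlashInvariance
open scoped MatrixGroups

variable {p : ℕ} [Fact p.Prime] {N : ℕ}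

/-- `mapGL ℝ : SL(2, ℤ) → GL(2, ℝ)` is injective. -/
theorem mapGL_real_injective :
    Function.Injective (mapGL ℝ : SL(2, ℤ) →* GL (Fin 2) ℝ) := by
  intro g h hgh
  ext i j
  have h1 := congrArg (fun M : GL (Fin 2) ℝ => (M : Matrix (Fin 2) (Fin 2) ℝ) i j) hgh
  simp only [mapGL_coe_matrix, algebraMap_int_eq, map_apply_coe, RingHom.mapMatrix_apply,
    Int.coe_castRingHom, Matrix.map_apply] at h1
  exact_mod_cast h1

theorem dvd_of_mem_Gamma0 {g : SL(2, ℤ)} (hg : g ∈ Gamma0 N) : (N : ℤ) ∣ g 1 0 :=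
  (ZMod.intCast_zmod_eq_zero_iff_dvd _ _).mp (Gamma0_mem.mp hg)

theorem mem_Gamma0_of_dvd {g : SL(2, ℤ)} (hg : (N : ℤ) ∣ g 1 0) : g ∈ Gamma0 N :=
  Gamma0_mem.mpr ((ZMod.intCast_zmod_eq_zero_iff_dvd _ _).mpr hg)

/-- The permutation of `ℙ¹(𝔽_p)` attached to `g`. -/
noncomputable def hPerm (p : ℕ) [Fact p.Prime] (g : SL(2, ℤ)) :
    Equiv.Perm (OnePoint (ZMod p)) :=
  MulAction.toPerm (redMatrix p g)

@[simp] theorem hPerm_apply (g : SL(2, ℤ)) (x : OnePoint (ZMod p)) :
    hPerm p g x = redMatrix p g • x := rfl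

/-- The element `γ_x` of `Γ₀(N)` with `heckeRep p x * γ = γ_x * heckeRep p (π_γ x)`. -/
noncomputable def hElt (hpN : ¬ p ∣ N) (γ : Gamma0 N) (x : OnePoint (ZMod p)) : Gamma0 N :=
  ⟨(heckeRep_mul hpN (γ : SL(2, ℤ)) (dvd_of_mem_Gamma0 γ.2) x).choose,
    mem_Gamma0_of_dvd (heckeRep_mul hpN (γ : SL(2, ℤ)) (dvd_of_mem_Gamma0 γ.2) x).choose_spec.1⟩

theorem hElt_spec (hpN : ¬ p ∣ N) (γ : Gamma0 N) (x : OnePoint (ZMod p)) :
    _root_.P2MW.S_ModularForm_heckeT_slash_eq_self_of_mem_Gamma0.ModularForm.HeckeSlashInvariance.heckeRep p x * mapGL ℝ (γ : SL(2, ℤ)) =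
      mapGL ℝ ((hElt hpN γ x : Gamma0 N) : SL(2, ℤ)) * _root_.P2MW.S_ModularForm_heckeT_slash_eq_self_of_mem_Gamma0.ModularForm.HeckeSlashInvariance.heckeRep p (hPerm p (γ : SL(2, ℤ)) x) :=
  (heckeRep_mul hpN (γ : SL(2, ℤ)) (dvd_of_mem_Gamma0 γ.2) x).choose_spec.2

/-- Uniqueness of `γ_x`. -/
theorem hElt_unique (hpN : ¬ p ∣ N) (γ : Gamma0 N) (x : OnePoint (ZMod p)) (δ : Gamma0 N)
    (h : _root_.P2MW.S_ModularForm_heckeT_slash_eq_self_of_mem_Gamma0.ModularForm.HeckeSlashInvariance.heckeRep p x * mapGL ℝ (γ : SL(2, ℤ)) =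
      mapGL ℝ (δ : SL(2, ℤ)) * _root_.P2MW.S_ModularForm_heckeT_slash_eq_self_of_mem_Gamma0.ModularForm.HeckeSlashInvariance.heckeRep p (hPerm p (γ : SL(2, ℤ)) x)) :
    δ = hElt hpN γ x := by
  have h2 := hElt_spec hpN γ x
  rw [h] at h2
  have h3 := mul_right_cancel h2
  exact Subtype.ext (mapGL_real_injective h3)

theorem redMatrix_mul (g h : SL(2, ℤ)) : redMatrix p (g * h) = redMatrix p h * redMatrix p g := by
  ext i j
  fin_cases i <;> fin_cases j <;>
    simp [redMatrix, Matrix.mul_apply, Fin.sum_univ_two] <;> ring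

theorem redMatrix_one : redMatrix p (1 : SL(2, ℤ)) = 1 := by
  ext i j
  fin_cases i <;> fin_cases j <;> simp [redMatrix]

theorem hPerm_mul (g h : SL(2, ℤ)) (x : OnePoint (ZMod p)) :
    hPerm p (g * h) x = hPerm p h (hPerm p g x) := by
  simp only [hPerm_apply, redMatrix_mul, mul_smul]

theorem hElt_mul (hpN : ¬ p ∣ N) (γ δ : Gamma0 N) (x : OnePoint (ZMod p)) :
    hElt hpN (γ * δ) x = hElt hpN γ x * hElt hpN δ (hPerm p (γ : SL(2, ℤ)) x) := by
  symm
  apply hElt_unique
  have h1 := hElt_spec hpN γ x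
  have h2 := hElt_spec hpN δ (hPerm p (γ : SL(2, ℤ)) x)
  calc _root_.P2MW.S_ModularForm_heckeT_slash_eq_self_of_mem_Gamma0.ModularForm.HeckeSlashInvariance.heckeRep p x * mapGL ℝ ((γ * δ : Gamma0 N) : SL(2, ℤ))
      = (_root_.P2MW.S_ModularForm_heckeT_slash_eq_self_of_mem_Gamma0.ModularForm.HeckeSlashInvariance.heckeRep p x * mapGL ℝ (γ : SL(2, ℤ))) * mapGL ℝ (δ : SL(2, ℤ)) := by
        rw [Subgroup.coe_mul, map_mul, mul_assoc]
    _ = mapGL ℝ ((hElt hpN γ x : Gamma0 N) : SL(2, ℤ)) *
          (_root_.P2MW.S_ModularForm_heckeT_slash_eq_self_of_mem_Gamma0.ModularForm.HeckeSlashInvariance.heckeRep p (hPerm p (γ : SL(2, ℤ)) x) * mapGL ℝ (δ : SL(2, ℤ))) := by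
        rw [h1, mul_assoc]
    _ = mapGL ℝ ((hElt hpN γ x : Gamma0 N) : SL(2, ℤ)) *
          (mapGL ℝ ((hElt hpN δ (hPerm p (γ : SL(2, ℤ)) x) : Gamma0 N) : SL(2, ℤ)) *
            _root_.P2MW.S_ModularForm_heckeT_slash_eq_self_of_mem_Gamma0.ModularForm.HeckeSlashInvariance.heckeRep p (hPerm p (δ : SL(2, ℤ)) (hPerm p (γ : SL(2, ℤ)) x))) := by
        rw [h2]
    _ = _ := by
        rw [Subgroup.coe_mul, Subgroup.coe_mul, map_mul, hPerm_mul, mul_assoc]

section Transfer

variable {A : Type*} [AddCommGroup A]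

/-- The **Hecke transfer** `T_p` on additive characters of `Γ₀(N)` (`p ∤ N` prime). -/
noncomputable def heckeTransfer (hpN : ¬ p ∣ N) (χ : Additive (Gamma0 N) →+ A) :
    Additive (Gamma0 N) →+ A where
  toFun γ := ∑ x : OnePoint (ZMod p), χ (Additive.ofMul (hElt hpN (Additive.toMul γ) x))
  map_zero' := by
    have h : ∀ x : OnePoint (ZMod p), hElt hpN (1 : Gamma0 N) x = 1 := by
      intro x
      symm
      apply hElt_unique
      simp [hPerm_apply, redMatrix_one]
    simp only [toMul_zero, h, ofMul_one, map_zero, Finset.sum_const_zero]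
  map_add' γ δ := by
    simp only [toMul_add, hElt_mul, ofMul_mul, map_add, Finset.sum_add_distrib]
    congr 1
    exact Equiv.sum_comp (hPerm p ((Additive.toMul γ : Gamma0 N) : SL(2, ℤ)))
      (fun y => χ (Additive.ofMul (hElt hpN (Additive.toMul δ) y)))

theorem heckeTransfer_apply (hpN : ¬ p ∣ N) (χ : Additive (Gamma0 N) →+ A) (γ : Gamma0 N) :
    heckeTransfer hpN χ (Additive.ofMul γ) =
      ∑ x : OnePoint (ZMod p), χ (Additive.ofMul (hElt hpN γ x)) := rfl

/-- The transfer commutes with post-composition by an additive map. -/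
theorem heckeTransfer_comp {B : Type*} [AddCommGroup B] (hpN : ¬ p ∣ N) (π : A →+ B)
    (χ : Additive (Gamma0 N) →+ A) :
    heckeTransfer hpN (π.comp χ) = π.comp (heckeTransfer hpN χ) := by
  refine AddMonoidHom.ext fun γ => ?_
  simp only [heckeTransfer, AddMonoidHom.coe_mk, ZeroHom.coe_mk, AddMonoidHom.coe_comp,
    Function.comp_apply, map_sum]

theorem heckeTransfer_add (hpN : ¬ p ∣ N) (χ χ' : Additive (Gamma0 N) →+ A) :
    heckeTransfer hpN (χ + χ') = heckeTransfer hpN χ + heckeTransfer hpN χ' := by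
  refine AddMonoidHom.ext fun γ => ?_
  simp only [heckeTransfer, AddMonoidHom.coe_mk, ZeroHom.coe_mk, AddMonoidHom.add_apply,
    Finset.sum_add_distrib]

end Transfer

end Fermat.Agent.S29.H642

end
-- ===== PACK-END S29/H642/HeckeTransfer.lean

-- ===== PACK-BEGIN Lib/Ribet/H223/BLRCore.lean
section


/-!
# Boston–Lenstra–Ribet: quotients of group rings arising from two-dimensional representations
(helper223, row RIBET, piece P2 = (R1))

Let `k` be a field with `2 ≠ 0`, `G` a group, `ρ : G →* E` with `k[G] → E` surjective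
(`E = M₂(k)`: `ρ` absolutely irreducible), `τ : E → k` a linear "trace", `d : G →* k` a
"determinant" with `ρ g ^ 2 - τ (ρ g) ρ g + d g = 0`.  If `π : G →* B` satisfies the same quadratic
relations `π g ^ 2 - τ (ρ g) π g + d g = 0`, then `π` factors through `ρ`: there is an algebra
homomorphism `Ψ : E →ₐ[k] B` with `Ψ (ρ g) = π g`.
-/

set_option autoImplicit false

namespace Fermat.Agent.Lib.Ribet.H223

section abstract

variable {k : Type*} [Field k] {A E B : Type*} [Ring A] [Algebra k A] [Ring E] [Algebra k E]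
  [Ring B] [Algebra k B]

/-- **Abstract core.**  `A` carries an anti-multiplicative map `σ` which both `P` and `Q` turn
into `u ↦ T u - u`, the "trace" `T` factors through `P`, and `E` has two elements whose
commutator squares to `1`.  Then `ker P ⊆ ker Q`. -/
theorem ker_le_ker_of_antiInvolution (hk2 : (2 : k) ≠ 0) (P : A →ₐ[k] E) (Q : A →ₐ[k] B)
    (T : A → k) (σ : A → A) (hσmul : ∀ u v, σ (u * v) = σ v * σ u)
    (hσQ : ∀ u, Q (σ u) = algebraMap k B (T u) - Q u)
    (hT : ∀ u, P u = 0 → T u = 0) (hsurj : Function.Surjective P)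
    (hcomm : ∃ y z : E, (y * z - z * y) * (y * z - z * y) = 1) :
    ∀ u, P u = 0 → Q u = 0 := by
  -- Step 1
  have step1 : ∀ u, P u = 0 → ∀ v, Q u * Q v = Q (σ v) * Q u := by
    intro u hu v
    have huv : P (u * v) = 0 := by rw [map_mul, hu, zero_mul]
    have h1 : Q (σ (u * v)) = - (Q u * Q v) := by
      rw [hσQ, hT _ huv, map_zero, zero_sub, map_mul]
    have h2 : Q (σ (u * v)) = - (Q (σ v) * Q u) := by
      rw [hσmul, map_mul, hσQ u, hT u hu, map_zero, zero_sub, mul_neg]
    exact neg_injective (h1.symm.trans h2)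
  -- Step 2
  have step2 : ∀ u, P u = 0 → ∀ v w, Q u * Q (v * w - w * v) = 0 := by
    intro u hu v w
    have h1 : Q u * Q (v * w) = Q u * Q w * Q v := by
      rw [step1 u hu (v * w), hσmul, map_mul, mul_assoc, ← step1 u hu v, ← mul_assoc,
        ← step1 u hu w]
    have h2 : Q u * Q (w * v) = Q u * Q w * Q v := by rw [map_mul, mul_assoc]
    rw [map_sub, mul_sub, h1, h2, sub_self]
  obtain ⟨y, z, hyz⟩ := hcomm
  obtain ⟨v, rfl⟩ := hsurj y
  obtain ⟨w, rfl⟩ := hsurj z
  set c : A := (v * w - w * v) * (v * w - w * v) with hc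
  have hPc : P c = 1 := by
    rw [hc, map_mul, map_sub, map_mul, map_mul]
    exact hyz
  have hκ : P (c - 1) = 0 := by rw [map_sub, hPc, map_one, sub_self]
  have huc : ∀ u, P u = 0 → Q u * Q c = 0 := by
    intro u hu
    rw [hc, map_mul, ← mul_assoc, step2 u hu v w, zero_mul]
  -- `Q κ = 0`
  have h3 : Q (c - 1) * Q (c - 1) = - (Q (c - 1) * Q (c - 1)) := by
    have := step1 (c - 1) hκ (c - 1)
    rw [hσQ, hT _ hκ, map_zero, zero_sub, neg_mul] at this
    exact this
  have h4 : Q (c - 1) * Q (c - 1) = 0 := by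
    have h5 : (2 : k) • (Q (c - 1) * Q (c - 1)) = 0 := by
      rw [two_smul]
      nth_rewrite 1 [h3]
      exact neg_add_cancel _
    exact (smul_eq_zero.mp h5).resolve_left hk2
  have h6 : Q (c - 1) = 0 := by
    have h7 := huc (c - 1) hκ
    have h8 : Q c = Q (c - 1) + 1 := by rw [map_sub, map_one, sub_add_cancel]
    rw [h8, mul_add, h4, zero_add, mul_one] at h7
    exact h7
  have hQc : Q c = 1 := by
    have h8 : Q c = Q (c - 1) + 1 := by rw [map_sub, map_one, sub_add_cancel]
    rw [h8, h6, zero_add]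
  intro u hu
  have := huc u hu
  rwa [hQc, mul_one] at this

/-- A surjective algebra homomorphism `P` and an algebra homomorphism `Q` with
`ker P ⊆ ker Q` give an algebra homomorphism `E →ₐ[k] B`. -/
noncomputable def liftOfKerLe (P : A →ₐ[k] E) (Q : A →ₐ[k] B) (hsurj : Function.Surjective P)
    (hker : ∀ u, P u = 0 → Q u = 0) : E →ₐ[k] B :=
  have key : ∀ u v, P u = P v → Q u = Q v := fun u v h => by
    have := hker (u - v) (by rw [map_sub, h, sub_self])
    rwa [map_sub, sub_eq_zero] at this
  { toFun := fun e => Q (Function.surjInv hsurj e)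
    map_one' := by
      rw [← map_one Q]
      exact key _ _ (by rw [Function.surjInv_eq hsurj, map_one])
    map_mul' := fun x y => by
      rw [← map_mul Q]
      exact key _ _ (by rw [map_mul, Function.surjInv_eq hsurj, Function.surjInv_eq hsurj,
        Function.surjInv_eq hsurj])
    map_zero' := by
      rw [← map_zero Q]
      exact key _ _ (by rw [Function.surjInv_eq hsurj, map_zero])
    map_add' := fun x y => by
      rw [← map_add Q]
      exact key _ _ (by rw [map_add, Function.surjInv_eq hsurj, Function.surjInv_eq hsurj,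
        Function.surjInv_eq hsurj])
    commutes' := fun r => by
      rw [← AlgHom.commutes Q r]
      exact key _ _ (by rw [Function.surjInv_eq hsurj, AlgHom.commutes]) }

theorem liftOfKerLe_apply (P : A →ₐ[k] E) (Q : A →ₐ[k] B) (hsurj : Function.Surjective P)
    (hker : ∀ u, P u = 0 → Q u = 0) (u : A) : liftOfKerLe P Q hsurj hker (P u) = Q u := by
  have := hker (Function.surjInv hsurj (P u) - u)
    (by rw [map_sub, Function.surjInv_eq hsurj, sub_self])
  rw [map_sub, sub_eq_zero] at this
  exact this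

end abstract

section groupRing

variable {k : Type*} [Field k] {G : Type*} [Group G] {E B : Type*} [Ring E] [Algebra k E]
  [Ring B] [Algebra k B]

/-- `g ↦ d(g) g⁻¹`, as a monoid homomorphism into the opposite of the group algebra. -/
noncomputable def conjHom (d : G →* k) : G →* (MonoidAlgebra k G)ᵐᵒᵖ where
  toFun g := MulOpposite.op (MonoidAlgebra.single g⁻¹ (d g))
  map_one' := by
    rw [inv_one, map_one]
    rfl
  map_mul' g h := by
    rw [← MulOpposite.op_mul, MonoidAlgebra.single_mul_single, mul_inv_rev, map_mul, mul_comm]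

/-- The anti-involution `∑ a_g g ↦ ∑ a_g d(g) g⁻¹` of `k[G]`. -/
noncomputable def conj (d : G →* k) (u : MonoidAlgebra k G) : MonoidAlgebra k G :=
  MulOpposite.unop (MonoidAlgebra.lift k (MonoidAlgebra k G)ᵐᵒᵖ G (conjHom d) u)

theorem conj_mul (d : G →* k) (u v : MonoidAlgebra k G) :
    conj d (u * v) = conj d v * conj d u := by
  unfold conj
  rw [map_mul, MulOpposite.unop_mul]

theorem conj_add (d : G →* k) (u v : MonoidAlgebra k G) :
    conj d (u + v) = conj d u + conj d v := by
  unfold conj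
  rw [map_add, MulOpposite.unop_add]

theorem conj_smul (d : G →* k) (r : k) (u : MonoidAlgebra k G) :
    conj d (r • u) = r • conj d u := by
  unfold conj
  rw [map_smul, MulOpposite.unop_smul]

theorem conj_of (d : G →* k) (g : G) :
    conj d (MonoidAlgebra.of k G g) = MonoidAlgebra.single g⁻¹ (d g) := by
  unfold conj
  rw [MonoidAlgebra.lift_of]
  rfl

/-- `Q ∘ conj = T - Q` when the quadratic relations hold. -/
theorem lift_conj (π : G →* B) (d : G →* k) (t : G → k)
    (hπ : ∀ g, π g * π g - t g • π g + d g • 1 = 0)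
    (T : MonoidAlgebra k G →ₗ[k] k) (hT : ∀ g, T (MonoidAlgebra.of k G g) = t g)
    (u : MonoidAlgebra k G) :
    MonoidAlgebra.lift k B G π (conj d u) =
      algebraMap k B (T u) - MonoidAlgebra.lift k B G π u := by
  induction u using MonoidAlgebra.induction_on with
  | of g =>
    rw [conj_of, MonoidAlgebra.lift_single, MonoidAlgebra.lift_of, hT, Algebra.algebraMap_eq_smul_one]
    have h1 := hπ g
    have h2 : (π g * π g - t g • π g + d g • 1) * π g⁻¹ = 0 := by rw [h1, zero_mul]
    have h3 : π g * π g⁻¹ = 1 := by rw [← map_mul, mul_inv_cancel, map_one]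
    rw [add_mul, sub_mul, mul_assoc, h3, mul_one, smul_mul_assoc, h3, smul_mul_assoc,
      one_mul] at h2
    rw [← sub_eq_zero, ← h2]
    abel
  | add x y hx hy =>
    simp only [conj_add, map_add, hx, hy]
    abel
  | smul r x hx =>
    simp only [conj_smul, map_smul, hx, smul_sub, smul_eq_mul, map_mul]
    rw [Algebra.smul_def]

/-- **Boston–Lenstra–Ribet**, kernel form. -/
theorem blr_ker (hk2 : (2 : k) ≠ 0) (ρ : G →* E) (π : G →* B) (d : G →* k) (τ : E →ₗ[k] k)
    (hπ : ∀ g, π g * π g - τ (ρ g) • π g + d g • 1 = 0)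
    (hsurj : Function.Surjective (MonoidAlgebra.lift k E G ρ))
    (hcomm : ∃ y z : E, (y * z - z * y) * (y * z - z * y) = 1) :
    ∀ u, MonoidAlgebra.lift k E G ρ u = 0 → MonoidAlgebra.lift k B G π u = 0 := by
  have hT : ∀ g, (τ ∘ₗ (MonoidAlgebra.lift k E G ρ).toLinearMap) (MonoidAlgebra.of k G g) =
      τ (ρ g) := by
    intro g
    rw [LinearMap.comp_apply, AlgHom.toLinearMap_apply, MonoidAlgebra.lift_of]
  refine ker_le_ker_of_antiInvolution hk2 (MonoidAlgebra.lift k E G ρ)
    (MonoidAlgebra.lift k B G π)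
    (fun u => (τ ∘ₗ (MonoidAlgebra.lift k E G ρ).toLinearMap) u) (conj d) (conj_mul d)
    ?_ ?_ hsurj hcomm
  · intro u
    exact lift_conj π d (fun g => τ (ρ g)) hπ _ hT u
  · intro u hu
    rw [LinearMap.comp_apply, AlgHom.toLinearMap_apply, hu, map_zero]

/-- **Boston–Lenstra–Ribet**: `π` factors through `ρ`. -/
theorem blr_exists_algHom (hk2 : (2 : k) ≠ 0) (ρ : G →* E) (π : G →* B) (d : G →* k)
    (τ : E →ₗ[k] k) (hπ : ∀ g, π g * π g - τ (ρ g) • π g + d g • 1 = 0)
    (hsurj : Function.Surjective (MonoidAlgebra.lift k E G ρ))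
    (hcomm : ∃ y z : E, (y * z - z * y) * (y * z - z * y) = 1) :
    ∃ Ψ : E →ₐ[k] B, (∀ u, Ψ (MonoidAlgebra.lift k E G ρ u) = MonoidAlgebra.lift k B G π u) ∧
      ∀ g, Ψ (ρ g) = π g := by
  have hker := blr_ker hk2 ρ π d τ hπ hsurj hcomm
  refine ⟨liftOfKerLe _ _ hsurj hker, fun u => liftOfKerLe_apply _ _ hsurj hker u, fun g => ?_⟩
  have := liftOfKerLe_apply _ _ hsurj hker (MonoidAlgebra.of k G g)
  rwa [MonoidAlgebra.lift_of, MonoidAlgebra.lift_of] at this

end groupRing

section endo

variable {k : Type*} [Field k] {G : Type*} [Group G] {W₀ V : Type*} [AddCommGroup W₀]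
  [Module k W₀] [AddCommGroup V] [Module k V]

/-- In `M₂(k)` there are two elements whose commutator squares to `1`. -/
theorem exists_commutator_sq_eq_one_matrix :
    ∃ y z : Matrix (Fin 2) (Fin 2) k, (y * z - z * y) * (y * z - z * y) = 1 := by
  refine ⟨!![0, 1; 0, 0], !![0, 0; 1, 0], ?_⟩
  ext i j
  fin_cases i <;> fin_cases j <;> simp [Matrix.mul_apply, Fin.sum_univ_two]

/-- In `End(W₀)`, `dim W₀ = 2`, there are two elements whose commutator squares to `1`. -/
theorem exists_commutator_sq_eq_one (h : Module.finrank k W₀ = 2) :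
    ∃ y z : Module.End k W₀, (y * z - z * y) * (y * z - z * y) = 1 := by
  have : Module.Finite k W₀ := Module.finite_of_finrank_eq_succ h
  let b : Module.Basis (Fin 2) k W₀ := Module.finBasisOfFinrankEq k W₀ h
  let e := LinearMap.toMatrixAlgEquiv b
  obtain ⟨y, z, hyz⟩ := exists_commutator_sq_eq_one_matrix (k := k)
  refine ⟨e.symm y, e.symm z, ?_⟩
  rw [← map_mul, ← map_mul, ← map_sub, ← map_mul, hyz, map_one]

/-- **Boston–Lenstra–Ribet**, embedding form: if every `g` satisfies on `V ≠ 0` the
characteristic polynomial of `ρ g` (`ρ` two-dimensional with `k[G] → End W₀` surjective), then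
`ρ` embeds into `V`. -/
theorem blr_exists_embedding (hk2 : (2 : k) ≠ 0) (h2 : Module.finrank k W₀ = 2)
    (ρ : G →* Module.End k W₀) (π : G →* Module.End k V) (d : G →* k)
    (hsurj : Function.Surjective (MonoidAlgebra.lift k (Module.End k W₀) G ρ))
    (hπ : ∀ g, π g * π g - LinearMap.trace k W₀ (ρ g) • π g + d g • 1 = 0) [Nontrivial V] :
    ∃ φ : W₀ →ₗ[k] V, Function.Injective φ ∧ ∀ g w, φ (ρ g w) = π g (φ w) := by
  classical
  have hfin : Module.Finite k W₀ := Module.finite_of_finrank_eq_succ h2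
  obtain ⟨Ψ, hΨ, hΨg⟩ := blr_exists_algHom hk2 ρ π d (LinearMap.trace k W₀) hπ hsurj
    (exists_commutator_sq_eq_one h2)
  let b : Module.Basis (Fin 2) k W₀ := Module.finBasisOfFinrankEq k W₀ h2
  -- `a i w` is the endomorphism `x ↦ (i-th coordinate of x) • w`
  let a : Fin 2 → W₀ →ₗ[k] Module.End k W₀ := fun i =>
    { toFun := fun w => (b.coord i).smulRight w
      map_add' := fun w w' => by
        ext x
        simp only [LinearMap.smulRight_apply, LinearMap.add_apply, smul_add]
      map_smul' := fun r w => by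
        ext x
        simp only [LinearMap.smulRight_apply, LinearMap.smul_apply, RingHom.id_apply]
        exact smul_comm _ _ _ }
  have ha_apply : ∀ i w x, a i w x = b.coord i x • w := fun i w x => rfl
  have hsum : a 0 (b 0) + a 1 (b 1) = 1 := by
    apply b.ext
    intro j
    fin_cases j <;> simp [ha_apply]
  obtain ⟨v, hv⟩ := exists_ne (0 : V)
  have hex : ∃ i, Ψ (a i (b i)) v ≠ 0 := by
    by_contra hcon
    push Not at hcon
    apply hv
    have h1 : Ψ (a 0 (b 0) + a 1 (b 1)) v = v := by rw [hsum, map_one]; rfl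
    rw [map_add, LinearMap.add_apply, hcon 0, hcon 1, add_zero] at h1
    exact h1.symm
  obtain ⟨i, hi⟩ := hex
  set v₁ := Ψ (a i (b i)) v with hv₁
  let φ : W₀ →ₗ[k] V :=
    { toFun := fun w => Ψ (a i w) v₁
      map_add' := fun w w' => by rw [map_add, map_add, LinearMap.add_apply]
      map_smul' := fun r w => by
        rw [map_smul, map_smul, LinearMap.smul_apply, RingHom.id_apply] }
  have hφ : ∀ w, φ w = Ψ (a i w) v₁ := fun w => rfl
  have hidem : a i (b i) * a i (b i) = a i (b i) := by
    apply LinearMap.ext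
    intro x
    simp [ha_apply]
  have hφb : φ (b i) = v₁ := by
    rw [hφ, hv₁, ← Module.End.mul_apply, ← map_mul, hidem]
  have hcomp : ∀ (f : Module.End k W₀) (w : W₀), a i (f w) = f * a i w := by
    intro f w
    apply LinearMap.ext
    intro x
    simp [ha_apply]
  have hequiv : ∀ (f : Module.End k W₀) (w : W₀), φ (f w) = Ψ f (φ w) := by
    intro f w
    rw [hφ, hφ, hcomp, map_mul, Module.End.mul_apply]
  refine ⟨φ, ?_, fun g w => ?_⟩
  · rw [← LinearMap.ker_eq_bot, Submodule.eq_bot_iff]
    intro w hw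
    by_contra hw0
    rw [LinearMap.mem_ker] at hw
    -- some coordinate of `w` is nonzero
    have hcoord : ∃ j, b.coord j w ≠ 0 := by
      by_contra hcon
      push Not at hcon
      apply hw0
      apply b.ext_elem
      intro j
      rw [map_zero, Finsupp.zero_apply]
      exact hcon j
    obtain ⟨j, hj⟩ := hcoord
    have h1 : (a j ((b.coord j w)⁻¹ • b i)) w = b i := by
      rw [ha_apply, smul_smul, mul_inv_cancel₀ hj, one_smul]
    have h2 := hequiv (a j ((b.coord j w)⁻¹ • b i)) w
    rw [h1, hφb, hw, map_zero] at h2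
    exact hi h2
  · rw [hequiv, hΨg]

end endo

end Fermat.Agent.Lib.Ribet.H223

end
-- ===== PACK-END Lib/Ribet/H223/BLRCore.lean

-- ===== PACK-BEGIN S29/H872/Burnside.lean
section





/-!
# Burnside's theorem (from Mathlib's Schur lemma + Jacobson density)

A subalgebra of `End_K(U)` (`K` algebraically closed, `U` finite dimensional, nonzero) without
nontrivial invariant subspaces is everything.
-/

set_option autoImplicit false

namespace Fermat.Agent.S29.H872

open Module

variable {K : Type*} [Field K] {U : Type*} [AddCommGroup U] [Module K U]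

section Burnside

variable (A : Subalgebra K (Module.End K U))

theorem subalgebra_smul_def (a : A) (u : U) : a • u = (a : Module.End K U) u := rfl

instance instIsScalarTowerSubalgebraEnd : IsScalarTower K A U :=
  ⟨fun c a u => by
    rw [subalgebra_smul_def, subalgebra_smul_def]
    simp⟩

theorem isSimpleModule_of_irr [Nontrivial U]
    (hirr : ∀ W : Submodule K U, (∀ a ∈ A, W ≤ W.comap a) → W = ⊥ ∨ W = ⊤) :
    IsSimpleModule A U := by
  rw [isSimpleModule_iff]
  have : Nontrivial (Submodule A U) := inferInstance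
  refine ⟨fun W => ?_⟩
  have h := hirr (W.restrictScalars K) (fun a ha w hw => by
    change (a : Module.End K U) w ∈ W
    exact W.smul_mem (⟨a, ha⟩ : A) hw)
  rcases h with h | h
  · left
    exact Submodule.restrictScalars_injective K A U (by rw [h]; rfl)
  · right
    exact Submodule.restrictScalars_injective K A U (by rw [h]; rfl)

variable [IsAlgClosed K] [FiniteDimensional K U]

/-- **Burnside's theorem.** -/
theorem burnside [Nontrivial U]
    (hirr : ∀ W : Submodule K U, (∀ a ∈ A, W ≤ W.comap a) → W = ⊥ ∨ W = ⊤) :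
    A = ⊤ := by
  have : IsSimpleModule A U := isSimpleModule_of_irr A hirr
  have hschur : Function.Bijective (algebraMap K (Module.End A U)) :=
    IsSimpleModule.algebraMap_end_bijective_of_isAlgClosed K
  have : Module.Finite (Module.End A U) U :=
    Module.Finite.of_restrictScalars_finite K (Module.End A U) U
  have hdens := Module.Finite.toModuleEnd_moduleEnd_surjective (R := A) (M := U)
  rw [eq_top_iff]
  intro f _
  -- `f` is linear over `End_A(U) = K`
  let f' : Module.End (Module.End A U) U :=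
    { toFun := f
      map_add' := f.map_add
      map_smul' := fun e u => by
        obtain ⟨c, rfl⟩ := hschur.2 e
        simp }
  obtain ⟨a, ha⟩ := hdens f'
  have : (a : Module.End K U) = f := by
    ext u
    have := congrArg (fun g : Module.End (Module.End A U) U => g u) ha
    have h2 : a • u = f u := by simpa [f'] using this
    exact h2
  rw [← this]
  exact a.2

end Burnside

end Fermat.Agent.S29.H872

end
-- ===== PACK-END S29/H872/Burnside.lean

-- ===== PACK-BEGIN Lib/Ribet/H223/PowQuad.lean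
section


/-!
# Quadratic relations and powers (helper223, RIBET P2)

If `x ^ 2 - t x + d = 0` then `x ^ j` satisfies `X ^ 2 - T_j X + d ^ j`, where
`T_0 = 2, T_1 = t, T_{j+2} = t T_{j+1} - d T_j`; for an endomorphism `f` of a two-dimensional space
`tr (f ^ j) = T_j (tr f, det f)`.
-/

set_option autoImplicit false

namespace Fermat.Agent.Lib.Ribet.H223

/-- The power sums `α ^ j + β ^ j` of the roots of `X ^ 2 - t X + d`. -/
def lucasT {k : Type*} [CommRing k] (t d : k) : ℕ → k
  | 0 => 2
  | 1 => t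
  | (j + 2) => t * lucasT t d (j + 1) - d * lucasT t d j

section

variable {k : Type*} [CommRing k] {B : Type*} [Ring B] [Algebra k B]

theorem lucasT_zero (t d : k) : lucasT t d 0 = 2 := rfl

theorem lucasT_one (t d : k) : lucasT t d 1 = t := rfl

theorem lucasT_succ_succ (t d : k) (j : ℕ) :
    lucasT t d (j + 2) = t * lucasT t d (j + 1) - d * lucasT t d j := rfl

/-- `x ^ j + (t - x) ^ j = T_j`. -/
theorem pow_add_conj_pow {x : B} {t d : k} (h : x * x - t • x + d • 1 = 0) (j : ℕ) :
    x ^ j + (t • 1 - x) ^ j = lucasT t d j • (1 : B) := by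
  have hcomm : Commute x (t • 1 - x) :=
    ((Commute.one_right x).smul_right t).sub_right (Commute.refl x)
  have hprod : x * (t • 1 - x) = d • 1 := by
    rw [mul_sub, mul_smul_comm, mul_one]
    rw [eq_comm, ← sub_eq_zero, ← h]
    abel
  induction j using Nat.strong_induction_on with
  | _ j ih =>
    match j, ih with
    | 0, _ =>
      rw [pow_zero, pow_zero, lucasT_zero, two_smul]
    | 1, _ =>
      rw [pow_one, pow_one, lucasT_one]
      abel
    | (j + 2), ih =>
      have h1 := ih (j + 1) (by omega)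
      have h0 := ih j (by omega)
      -- `(x + x̄)(x^{j+1} + x̄^{j+1}) = x^{j+2} + x̄^{j+2} + x x̄ (x^j + x̄^j)`
      have key : (x + (t • 1 - x)) * (x ^ (j + 1) + (t • 1 - x) ^ (j + 1)) =
          x ^ (j + 2) + (t • 1 - x) ^ (j + 2) +
            (x * (t • 1 - x)) * (x ^ j + (t • 1 - x) ^ j) := by
        have e1 : x * (t • 1 - x) ^ (j + 1) = (x * (t • 1 - x)) * (t • 1 - x) ^ j := by
          rw [pow_succ', mul_assoc]
        have e2 : (t • 1 - x) * x ^ (j + 1) = (x * (t • 1 - x)) * x ^ j := by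
          rw [pow_succ', ← mul_assoc, hcomm.eq]
        rw [add_mul, mul_add, mul_add, e1, e2, mul_add, ← pow_succ', ← pow_succ']
        abel
      have hsum : x + (t • 1 - x) = t • (1 : B) := by abel
      rw [hsum, h1, hprod, h0] at key
      rw [smul_mul_smul_comm, smul_mul_smul_comm, one_mul] at key
      rw [lucasT_succ_succ, sub_smul, eq_sub_iff_add_eq]
      exact key.symm

/-- If `x ^ 2 - t x + d = 0` then `(x ^ j) ^ 2 - T_j x ^ j + d ^ j = 0`. -/
theorem pow_quadratic {x : B} {t d : k} (h : x * x - t • x + d • 1 = 0) (j : ℕ) :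
    x ^ j * x ^ j - lucasT t d j • x ^ j + (d ^ j) • 1 = 0 := by
  have hcomm : Commute x (t • 1 - x) :=
    ((Commute.one_right x).smul_right t).sub_right (Commute.refl x)
  have hprod : x * (t • 1 - x) = d • 1 := by
    rw [mul_sub, mul_smul_comm, mul_one]
    rw [eq_comm, ← sub_eq_zero, ← h]
    abel
  have h1 := pow_add_conj_pow h j
  have h2 : (t • 1 - x) ^ j * x ^ j = (d ^ j) • 1 := by
    rw [← (hcomm.symm.mul_pow j), hcomm.symm.eq, hprod, smul_pow, one_pow]
  have h3 : lucasT t d j • x ^ j = (x ^ j + (t • 1 - x) ^ j) * x ^ j := by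
    rw [h1, smul_mul_assoc, one_mul]
  rw [h3, add_mul, h2]
  abel

end

section dimTwo

variable {k : Type*} [Field k] {W : Type*} [AddCommGroup W] [Module k W]

/-- Cayley–Hamilton in dimension two. -/
theorem cayley_hamilton_two (h2 : Module.finrank k W = 2) (f : Module.End k W) :
    f * f - LinearMap.trace k W f • f + LinearMap.det f • 1 = 0 := by
  classical
  have hfin : Module.Finite k W := Module.finite_of_finrank_eq_succ h2
  let b : Module.Basis (Fin 2) k W := Module.finBasisOfFinrankEq k W h2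
  let e := LinearMap.toMatrixAlgEquiv b
  apply e.injective
  rw [map_zero, map_add, map_sub, map_mul, map_smul, map_smul, map_one]
  have htr : LinearMap.trace k W f = (e f).trace :=
    LinearMap.trace_eq_matrix_trace k b f
  have hdet : LinearMap.det f = (e f).det := (LinearMap.det_toMatrix b f).symm
  rw [htr, hdet]
  have hch := Matrix.aeval_self_charpoly (e f)
  rw [Matrix.charpoly_fin_two] at hch
  simp only [map_add, map_sub, map_mul, map_pow, Polynomial.aeval_X, Polynomial.aeval_C] at hch
  rw [← hch, pow_two, Algebra.algebraMap_eq_smul_one, Algebra.algebraMap_eq_smul_one,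
    smul_mul_assoc, one_mul]

/-- `tr (f ^ j) = T_j (tr f, det f)` in dimension two. -/
theorem trace_pow_two (hk2 : Module.finrank k W = 2) (f : Module.End k W) (j : ℕ) :
    LinearMap.trace k W (f ^ j) = lucasT (LinearMap.trace k W f) (LinearMap.det f) j := by
  have hfin : Module.Finite k W := Module.finite_of_finrank_eq_succ hk2
  have hch := cayley_hamilton_two hk2 f
  induction j using Nat.strong_induction_on with
  | _ j ih =>
    match j, ih with
    | 0, _ =>
      rw [pow_zero, lucasT_zero, LinearMap.trace_one, hk2]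
      norm_num
    | 1, _ =>
      rw [pow_one, lucasT_one]
    | (j + 2), ih =>
      have h1 := ih (j + 1) (by omega)
      have h0 := ih j (by omega)
      have key : f ^ (j + 2) =
          LinearMap.trace k W f • f ^ (j + 1) - LinearMap.det f • f ^ j := by
        have e1 : f ^ (j + 2) = (f * f) * f ^ j := by rw [← pow_two, ← pow_add, add_comm]
        have e2 : f * f = LinearMap.trace k W f • f - LinearMap.det f • 1 := by
          rw [eq_sub_iff_add_eq, ← sub_eq_zero]
          rw [← hch]
          abel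
        rw [e1, e2, sub_mul, smul_mul_assoc, smul_mul_assoc, one_mul, ← pow_succ']
      rw [key, map_sub, map_smul, map_smul, h1, h0, lucasT_succ_succ, smul_eq_mul, smul_eq_mul]

/-- `det (f ^ j) = (det f) ^ j`. -/
theorem det_pow_two (f : Module.End k W) (j : ℕ) :
    LinearMap.det (f ^ j) = LinearMap.det f ^ j := map_pow _ f j

end dimTwo

end Fermat.Agent.Lib.Ribet.H223

end
-- ===== PACK-END Lib/Ribet/H223/PowQuad.lean

-- ===== PACK-BEGIN Ribet/H52/LinAlg.lean
section


/-!
# Row RIBET, piece TF (helper52): linear algebra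

`trace_eq_of_quadratic_h52`: on a two-dimensional vector space, a nonzero endomorphism `f` with
`f² - a f + ℓ = 0` and `det f = ℓ` has trace `a` (Cayley-Hamilton in rank two).
-/

set_option autoImplicit false

namespace Fermat.Agent.Ribet.H52

/-- Cayley-Hamilton for `2 × 2` matrices, explicit form. -/
theorem matrix_two_cayley_h52 {R : Type*} [CommRing R] (M : Matrix (Fin 2) (Fin 2) R) :
    M * M - M.trace • M + M.det • (1 : Matrix (Fin 2) (Fin 2) R) = 0 := by
  ext i j
  fin_cases i <;> fin_cases j <;>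
    simp [Matrix.mul_apply, Fin.sum_univ_two, Matrix.det_fin_two, Matrix.trace_fin_two] <;> ring

/-- Cayley-Hamilton for endomorphisms of a free module of rank two, explicit form. -/
theorem linearMap_two_cayley_h52 {k V : Type*} [Field k] [AddCommGroup V] [Module k V]
    (hV : Module.finrank k V = 2) (f : V →ₗ[k] V) :
    f * f - LinearMap.trace k V f • f + LinearMap.det f • (1 : V →ₗ[k] V) = 0 := by
  have : Module.Finite k V := Module.finite_of_finrank_pos (by rw [hV]; norm_num)
  let b : Module.Basis (Fin 2) k V := Module.finBasisOfFinrankEq k V hV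
  have hM := matrix_two_cayley_h52 (LinearMap.toMatrix b b f)
  apply (LinearMap.toMatrix b b).injective
  rw [map_zero, map_add, map_sub, map_smul, map_smul, LinearMap.toMatrix_mul,
    LinearMap.toMatrix_one]
  rw [LinearMap.trace_eq_matrix_trace k b f, ← LinearMap.det_toMatrix b f]
  exact hM

/-- On a two-dimensional space, `f ≠ 0`, `f² - a f + ℓ = 0`, `det f = ℓ` imply `tr f = a`. -/
theorem trace_eq_of_quadratic_h52 {k V : Type*} [Field k] [AddCommGroup V] [Module k V]
    (hV : Module.finrank k V = 2) (f : V →ₗ[k] V) (a ℓ : k)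
    (hrel : f * f - a • f + ℓ • (1 : V →ₗ[k] V) = 0) (hdet : LinearMap.det f = ℓ)
    (hf : f ≠ 0) : LinearMap.trace k V f = a := by
  have hCH := linearMap_two_cayley_h52 hV f
  rw [hdet] at hCH
  have hsub : (LinearMap.trace k V f - a) • f = 0 := by
    have := congrArg₂ (· - ·) hrel hCH
    simp only [sub_zero] at this
    rw [sub_smul]
    rw [← this]
    abel
  rcases smul_eq_zero.mp hsub with h | h
  · exact sub_eq_zero.mp h
  · exact absurd h hf

end Fermat.Agent.Ribet.H52

end
-- ===== PACK-END Ribet/H52/LinAlg.lean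

-- ===== PACK-BEGIN S52/H545/FF.lean
section


/-!
# S52 Part A, generic point setup (helper545): the function field of a Weierstrass curve

For a Weierstrass curve `W` over a field `k` (any Weierstrass form), inside Mathlib's
`W.FunctionField = Frac (k[X][Y] / W)`:

* `xF`, `yF` : the coordinate functions, `ιP : k[X] →+* W.FunctionField`, `ιK : RatFunc k →+* _`;
* `conjF : W.FunctionField →ₐ[k] W.FunctionField`, the hyperelliptic involution
  `x ↦ x`, `y ↦ -y - a₁ x - a₃`;
* `exists_repr` : every element is `(p + q y) / n` with `p q n : k[X]`, `n ≠ 0`;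
* `mem_range_ιK_of_conjF_eq` : in characteristic `≠ 2` the elements fixed by `conjF` are exactly
  the rational functions of `x`.
-/

set_option autoImplicit false

namespace Fermat.Agent.S52.H545

open WeierstrassCurve WeierstrassCurve.Affine Polynomial
open scoped Polynomial.Bivariate

variable {k : Type*} [Field k] (W : WeierstrassCurve.Affine k)

/-- The function `x` in the function field. -/
noncomputable def xF : W.FunctionField := algebraMap k[X] W.FunctionField X

/-- The function `y` in the function field. -/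
noncomputable def yF : W.FunctionField :=
  algebraMap W.CoordinateRing W.FunctionField (CoordinateRing.mk W Y)

/-- The embedding of polynomials in `x`. -/
noncomputable def ιP : k[X] →+* W.FunctionField := algebraMap k[X] W.FunctionField

lemma ιP_injective : Function.Injective (ιP W) :=
  FaithfulSMul.algebraMap_injective _ _

lemma ιP_X : ιP W X = xF W := rfl

lemma ιP_C (a : k) : ιP W (C a) = algebraMap k W.FunctionField a := by
  rw [ιP, ← Polynomial.algebraMap_eq, ← IsScalarTower.algebraMap_apply]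

lemma ιP_eq (p : k[X]) : ιP W p =
    algebraMap W.CoordinateRing W.FunctionField (CoordinateRing.mk W (C p)) := by
  rw [ιP, IsScalarTower.algebraMap_apply k[X] W.CoordinateRing W.FunctionField]
  rfl

lemma ιP_eq_zero {p : k[X]} : ιP W p = 0 ↔ p = 0 :=
  map_eq_zero_iff _ (ιP_injective W)

lemma mkY_sq : CoordinateRing.mk W Y ^ 2 + CoordinateRing.mk W (C (C W.a₁ * X + C W.a₃)) *
    CoordinateRing.mk W Y =
      CoordinateRing.mk W (C (X ^ 3 + C W.a₂ * X ^ 2 + C W.a₄ * X + C W.a₆)) := by
  have h : CoordinateRing.mk W (W.polynomial) = 0 := AdjoinRoot.mk_self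
  rw [← sub_eq_zero, ← map_pow, ← map_mul, ← map_add, ← map_sub, ← h]
  congr 1

lemma yF_sq : yF W ^ 2 + ιP W (C W.a₁ * X + C W.a₃) * yF W
    = ιP W (X ^ 3 + C W.a₂ * X ^ 2 + C W.a₄ * X + C W.a₆) := by
  rw [ιP_eq, ιP_eq, yF, ← map_pow, ← map_mul, ← map_add, mkY_sq]

/-- The Weierstrass equation for the generic point. -/
lemma yF_equation : yF W ^ 2 + algebraMap k W.FunctionField W.a₁ * xF W * yF W
      + algebraMap k W.FunctionField W.a₃ * yF W
    = xF W ^ 3 + algebraMap k W.FunctionField W.a₂ * xF W ^ 2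
      + algebraMap k W.FunctionField W.a₄ * xF W + algebraMap k W.FunctionField W.a₆ := by
  have h := yF_sq W
  simp only [map_add, map_mul, map_pow, ιP_C, ιP_X] at h
  linear_combination h

/-! ### The hyperelliptic involution -/

lemma polynomial_comp_negPolynomial :
    W.polynomial.eval₂ (C : k[X] →+* k[X][Y]) W.negPolynomial = W.polynomial := by
  rw [Affine.polynomial, Affine.negPolynomial]
  simp only [eval₂_add, eval₂_sub, eval₂_mul, eval₂_pow, eval₂_X, eval₂_C]
  ring

/-- The involution on the coordinate ring. -/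
noncomputable def conjC : W.CoordinateRing →+* W.CoordinateRing :=
  AdjoinRoot.lift (AdjoinRoot.of W.polynomial) (CoordinateRing.mk W W.negPolynomial) (by
    have h := hom_eval₂ W.polynomial (C : k[X] →+* k[X][Y]) (CoordinateRing.mk W) W.negPolynomial
    rw [polynomial_comp_negPolynomial] at h
    rw [show AdjoinRoot.of W.polynomial = (CoordinateRing.mk W).comp C from rfl, ← h]
    exact AdjoinRoot.mk_self)

lemma conjC_mk_C (p : k[X]) : conjC W (CoordinateRing.mk W (C p)) = CoordinateRing.mk W (C p) := by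
  rw [conjC, AdjoinRoot.lift_mk, eval₂_C]; rfl

lemma conjC_mk_Y : conjC W (CoordinateRing.mk W Y) = CoordinateRing.mk W W.negPolynomial := by
  rw [conjC, AdjoinRoot.lift_mk, eval₂_X]

lemma conjC_conjC (z : W.CoordinateRing) : conjC W (conjC W z) = z := by
  obtain ⟨p, q, rfl⟩ := CoordinateRing.exists_smul_basis_eq z
  simp only [CoordinateRing.smul, map_add, map_mul, map_one, conjC_mk_C, conjC_mk_Y]
  rw [Affine.negPolynomial]
  simp only [map_neg, map_add, map_sub, conjC_mk_C, conjC_mk_Y, Affine.negPolynomial]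
  ring

lemma conjC_injective : Function.Injective (conjC W) :=
  Function.LeftInverse.injective (conjC_conjC W)

/-- The hyperelliptic involution as a ring homomorphism. -/
noncomputable def conjR : W.FunctionField →+* W.FunctionField :=
  IsFractionRing.lift (A := W.CoordinateRing) (K := W.FunctionField)
      (g := (algebraMap W.CoordinateRing W.FunctionField).comp (conjC W))
      ((IsFractionRing.injective W.CoordinateRing W.FunctionField).comp (conjC_injective W))

lemma conjR_algebraMap (z : W.CoordinateRing) :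
    conjR W (algebraMap W.CoordinateRing W.FunctionField z) =
      algebraMap W.CoordinateRing W.FunctionField (conjC W z) := by
  rw [conjR, IsFractionRing.lift_algebraMap, RingHom.comp_apply]

/-- The hyperelliptic involution `(x, y) ↦ (x, -y - a₁ x - a₃)` of the function field. -/
noncomputable def conjF : W.FunctionField →ₐ[k] W.FunctionField :=
  { conjR W with
    commutes' := fun a => by
      have h1 : algebraMap k W.FunctionField a = algebraMap W.CoordinateRing W.FunctionField
          (CoordinateRing.mk W (C (C a))) := by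
        rw [← ιP_eq, ιP_C]
      simp only [RingHom.toMonoidHom_eq_coe, OneHom.toFun_eq_coe, MonoidHom.toOneHom_coe,
        MonoidHom.coe_coe]
      rw [h1, conjR_algebraMap, conjC_mk_C] }

lemma conjF_algebraMap (z : W.CoordinateRing) :
    conjF W (algebraMap W.CoordinateRing W.FunctionField z) =
      algebraMap W.CoordinateRing W.FunctionField (conjC W z) :=
  conjR_algebraMap W z

@[simp] lemma conjF_ιP (p : k[X]) : conjF W (ιP W p) = ιP W p := by
  rw [ιP_eq, conjF_algebraMap, conjC_mk_C]

@[simp] lemma conjF_xF : conjF W (xF W) = xF W := conjF_ιP W X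

lemma conjF_yF : conjF W (yF W) = - yF W - ιP W (C W.a₁ * X + C W.a₃) := by
  rw [yF, conjF_algebraMap, conjC_mk_Y, ιP_eq, Affine.negPolynomial]
  simp only [map_neg, map_sub]

lemma conjF_conjF (z : W.FunctionField) : conjF W (conjF W z) = z := by
  obtain ⟨a, b, hb, rfl⟩ := IsFractionRing.div_surjective W.CoordinateRing z
  simp only [map_div₀, conjF_algebraMap, conjC_conjC]

/-! ### Normal form of elements -/

/-- Separability of the `y`-coordinate over `k(x)`: the characteristic is `≠ 2`, or
`a₁ x + a₃ ≠ 0` (automatic for nonsingular curves in characteristic `2`). -/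
def Sep : Prop := (2 : k) ≠ 0 ∨ W.a₁ ≠ 0 ∨ W.a₃ ≠ 0

lemma sep_of_two_ne_zero (h2 : (2 : k) ≠ 0) : Sep W := Or.inl h2

/-- `2 y + a₁ x + a₃` is nonzero (in characteristic `≠ 2`, or if `a₁ x + a₃ ≠ 0`). -/
lemma two_yF_add_ne_zero (hs : Sep W) :
    2 * yF W + ιP W (C W.a₁ * X + C W.a₃) ≠ 0 := by
  intro h
  have h' : algebraMap W.CoordinateRing W.FunctionField
      ((C W.a₁ * X + C W.a₃ : k[X]) • (1 : W.CoordinateRing) +
        (2 : k[X]) • CoordinateRing.mk W Y) = 0 := by
    rw [CoordinateRing.smul, CoordinateRing.smul, map_add, map_mul, map_mul, map_one, mul_one,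
      ← ιP_eq, ← ιP_eq, ← yF, ← h]
    simp only [map_ofNat]
    ring
  rw [map_eq_zero_iff _ (IsFractionRing.injective W.CoordinateRing W.FunctionField)] at h'
  have h0 := CoordinateRing.smul_basis_eq_zero h'
  rcases hs with h2 | h1 | h3
  · have := h0.2
    have h2' : (2 : k[X]) = C (2 : k) := (C_ofNat 2).symm
    rw [h2', C_eq_zero] at this
    exact h2 this
  · apply h1
    have := congrArg (fun p : k[X] => p.coeff 1) h0.1
    simpa using this
  · apply h3
    have := congrArg (fun p : k[X] => p.coeff 0) h0.1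
    simpa using this

/-- The norm form: `(r + s y)(r + s ȳ) ∈ k[X]`. -/
lemma mul_conjC (r s : k[X]) :
    (r • (1 : W.CoordinateRing) + s • CoordinateRing.mk W Y) *
      conjC W (r • (1 : W.CoordinateRing) + s • CoordinateRing.mk W Y) =
    CoordinateRing.mk W (C (r ^ 2 - r * s * (C W.a₁ * X + C W.a₃)
      - s ^ 2 * (X ^ 3 + C W.a₂ * X ^ 2 + C W.a₄ * X + C W.a₆))) := by
  have hY := mkY_sq W
  simp only [CoordinateRing.smul, map_add, map_mul, conjC_mk_C, conjC_mk_Y, mul_one,
    Affine.negPolynomial, map_neg, map_sub, map_pow] at hY ⊢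
  linear_combination (-(CoordinateRing.mk W (C s)) ^ 2) * hY

/-- Every element of the function field is of the form `(p + q y) / n`. -/
theorem exists_repr (z : W.FunctionField) :
    ∃ p q n : k[X], n ≠ 0 ∧ z * ιP W n = ιP W p + ιP W q * yF W := by
  obtain ⟨a, b, hb, rfl⟩ := IsFractionRing.div_surjective W.CoordinateRing z
  have hb0 : b ≠ 0 := nonZeroDivisors.ne_zero hb
  obtain ⟨r, s, hrs⟩ := CoordinateRing.exists_smul_basis_eq b
  obtain ⟨p, q, hpq⟩ := CoordinateRing.exists_smul_basis_eq (a * conjC W b)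
  set n : k[X] := r ^ 2 - r * s * (C W.a₁ * X + C W.a₃)
      - s ^ 2 * (X ^ 3 + C W.a₂ * X ^ 2 + C W.a₄ * X + C W.a₆) with hn
  have hbn : b * conjC W b = CoordinateRing.mk W (C n) := by
    rw [← hrs]; exact mul_conjC W r s
  have hcb : conjC W b ≠ 0 := fun h => hb0 (conjC_injective W (by rw [h, map_zero]))
  have hn0 : n ≠ 0 := by
    intro h0
    rw [h0, C_0, map_zero] at hbn
    exact (mul_ne_zero hb0 hcb) hbn
  refine ⟨p, q, n, hn0, ?_⟩
  have hb' : algebraMap W.CoordinateRing W.FunctionField b ≠ 0 := by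
    rwa [Ne, map_eq_zero_iff _ (IsFractionRing.injective W.CoordinateRing W.FunctionField)]
  rw [ιP_eq, ιP_eq, ιP_eq, yF, ← map_mul, ← map_add, ← hbn, map_mul, div_mul_eq_mul_div,
    div_eq_iff hb', ← map_mul, ← map_mul, ← map_mul]
  congr 1
  rw [CoordinateRing.smul, CoordinateRing.smul, mul_one] at hpq
  rw [hpq]
  ring

/-- The embedding of `RatFunc k` (rational functions in `x`) in the function field. -/
noncomputable def ιK : RatFunc k →+* W.FunctionField :=
  RatFunc.liftRingHom (ιP W) (fun p hp => by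
    rw [Submonoid.mem_comap]
    exact mem_nonZeroDivisors_of_ne_zero
      (fun h => nonZeroDivisors.ne_zero hp ((ιP_eq_zero W).mp h)))

lemma ιK_apply (r : RatFunc k) : ιK W r = ιP W r.num / ιP W r.denom :=
  RatFunc.liftRingHom_apply _ _ _

lemma ιK_div (p q : k[X]) :
    ιK W (algebraMap k[X] (RatFunc k) p / algebraMap k[X] (RatFunc k) q) = ιP W p / ιP W q :=
  RatFunc.liftRingHom_apply_div _ _ _ _

lemma ιK_algebraMap (p : k[X]) : ιK W (algebraMap k[X] (RatFunc k) p) = ιP W p := by
  have := ιK_div W p 1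
  simpa using this

lemma ιK_injective : Function.Injective (ιK W) :=
  RingHom.injective _

lemma ιK_X : ιK W RatFunc.X = xF W := by
  rw [← RatFunc.algebraMap_X, ιK_algebraMap, ιP_X]

lemma ιK_C (a : k) : ιK W (RatFunc.C a) = algebraMap k W.FunctionField a := by
  rw [← RatFunc.algebraMap_C, ιK_algebraMap, ιP_C]

@[simp] lemma conjF_ιK (r : RatFunc k) : conjF W (ιK W r) = ιK W r := by
  rw [ιK_apply, map_div₀, conjF_ιP, conjF_ιP]

/-- If `Sep W` (e.g. in characteristic `≠ 2`), the elements fixed by the hyperelliptic involution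
are the rational functions of `x`. -/
theorem mem_range_ιK_of_conjF_eq (hs : Sep W) {z : W.FunctionField}
    (hz : conjF W z = z) : ∃ r : RatFunc k, ιK W r = z := by
  obtain ⟨p, q, n, hn, h⟩ := exists_repr W z
  have hn' : ιP W n ≠ 0 := fun h0 => hn ((ιP_eq_zero W).mp h0)
  have h' := congrArg (conjF W) h
  rw [map_mul, map_add, map_mul, conjF_ιP, conjF_ιP, conjF_ιP, conjF_yF, hz] at h'
  have hq : ιP W q * (2 * yF W + ιP W (C W.a₁ * X + C W.a₃)) = 0 := by
    linear_combination h' - h
  have hq0 : ιP W q = 0 := by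
    rcases mul_eq_zero.mp hq with h0 | h0
    · exact h0
    · exact absurd h0 (two_yF_add_ne_zero W hs)
  refine ⟨algebraMap k[X] (RatFunc k) p / algebraMap k[X] (RatFunc k) n, ?_⟩
  rw [ιK_div, div_eq_iff hn', h, hq0]
  ring

end Fermat.Agent.S52.H545

end
-- ===== PACK-END S52/H545/FF.lean

-- ===== PACK-BEGIN S52/H545/Core.lean
section


/-!
# S52 Part A (helper545): exact heights of polynomial vectors under the add-sub map

Pure polynomial algebra over a field `k`.  For a vector `v : Fin n → k[X]` put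
`maxDeg v = max_i natDegree (v i)` and call `v` *primitive* if its entries generate the unit
ideal.  We show:

* `prim_asv`, `maxDeg_asv` : Mathlib's `addSubMap` of an elliptic curve `W/k` maps primitive
  vectors to primitive vectors and exactly doubles `maxDeg`;
* `prim_sv`, `maxDeg_sv` : (Gauss) the symmetric product `(a₀b₀, a₀b₁ + a₁b₀, a₁b₁)` of two
  primitive pairs is primitive and `maxDeg` is additive;
* `maxDeg_eq_of_cross` : two primitive vectors with vanishing cross products have the same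
  `maxDeg`.
-/

set_option autoImplicit false

namespace Fermat.Agent.S52.H545

open Polynomial

section Defs

variable {R : Type*} [CommRing R]

/-- The explicit add-sub vector (values of Mathlib's `WeierstrassCurve.addSubMap`). -/
def asv (W : WeierstrassCurve R) (v : Fin 3 → R) : Fin 3 → R :=
  ![v 0 ^ 2 - W.b₄ * v 0 * v 2 - W.b₆ * v 1 * v 2 - W.b₈ * v 2 ^ 2,
    2 * v 1 * v 0 + W.b₂ * v 0 * v 2 + W.b₄ * v 1 * v 2 + W.b₆ * v 2 ^ 2,
    v 1 ^ 2 - 4 * v 0 * v 2]

lemma asv_eq_eval (W : WeierstrassCurve R) (v : Fin 3 → R) :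
    asv W v = fun i => MvPolynomial.eval v (W.addSubMap i) := by
  funext i
  fin_cases i <;> simp [asv, WeierstrassCurve.addSubMap]

/-- The symmetric product of two pairs (as in Mathlib's `Point.sym2x`). -/
def sv (a b : Fin 2 → R) : Fin 3 → R :=
  ![a 0 * b 0, a 0 * b 1 + a 1 * b 0, a 1 * b 1]

lemma asv_smul (W : WeierstrassCurve R) (c : R) (v : Fin 3 → R) :
    asv W (c • v) = c ^ 2 • asv W v := by
  funext i
  fin_cases i <;> simp [asv] <;> ring

lemma sv_smul (c d : R) (a b : Fin 2 → R) : sv (c • a) (d • b) = (c * d) • sv a b := by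
  funext i
  fin_cases i <;> simp [sv] <;> ring

lemma asv_map {S : Type*} [CommRing S] (φ : R →+* S) (W : WeierstrassCurve R) (v : Fin 3 → R) :
    asv (W.map φ) (φ ∘ v) = φ ∘ asv W v := by
  funext i
  fin_cases i <;> simp [asv, map_ofNat]

lemma sv_map {S : Type*} [CommRing S] (φ : R →+* S) (a b : Fin 2 → R) :
    sv (φ ∘ a) (φ ∘ b) = φ ∘ sv a b := by
  funext i
  fin_cases i <;> simp [sv]

/-- A vector is primitive if its entries generate the unit ideal. -/
def Prim {n : ℕ} (v : Fin n → R) : Prop := Ideal.span (Set.range v) = ⊤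

lemma prim_iff {n : ℕ} (v : Fin n → R) : Prim v ↔ ∃ c : Fin n → R, ∑ i, c i * v i = 1 := by
  rw [Prim, Ideal.eq_top_iff_one, Ideal.mem_span_range_iff_exists_fun]

lemma Prim.ne_zero [Nontrivial R] {n : ℕ} {v : Fin n → R} (h : Prim v) : v ≠ 0 := by
  rintro rfl
  obtain ⟨c, hc⟩ := (prim_iff _).mp h
  simp at hc

lemma prim_pair_iff (a : Fin 2 → R) : Prim a ↔ IsCoprime (a 0) (a 1) := by
  rw [prim_iff]
  constructor
  · rintro ⟨c, hc⟩
    exact ⟨c 0, c 1, by simpa [Fin.sum_univ_two] using hc⟩
  · rintro ⟨x, y, h⟩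
    exact ⟨![x, y], by simpa [Fin.sum_univ_two] using h⟩

/-- If an ideal contains all entries of `asv W v` then it contains the fourth powers of the
entries of `v` (for `W` elliptic). -/
lemma pow_four_mem_of_asv_mem (W : WeierstrassCurve R) [W.IsElliptic] (v : Fin 3 → R)
    (I : Ideal R) (h : ∀ j, asv W v j ∈ I) (i : Fin 3) : v i ^ 4 ∈ I := by
  rw [← W.addSubMapCoeff_condition v i]
  refine Ideal.sum_mem _ fun j _ => Ideal.mul_mem_left _ _ ?_
  have := h j
  rwa [asv_eq_eval] at this

theorem prim_asv (W : WeierstrassCurve R) [W.IsElliptic] {v : Fin 3 → R} (hv : Prim v) :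
    Prim (asv W v) := by
  have h4 := Ideal.span_pow_eq_top _ hv 4
  rw [Prim, eq_top_iff, ← h4, Ideal.span_le]
  rintro _ ⟨_, ⟨i, rfl⟩, rfl⟩
  exact pow_four_mem_of_asv_mem W v (Ideal.span (Set.range (asv W v)))
    (fun j => Ideal.subset_span ⟨j, rfl⟩) i

theorem prim_sv {a b : Fin 2 → R} (ha : Prim a) (hb : Prim b) : Prim (sv a b) := by
  rw [prim_pair_iff] at ha hb
  by_contra hne
  obtain ⟨m, hm, hle⟩ := Ideal.exists_le_maximal _ hne
  have hp := hm.isPrime
  have h0 : a 0 * b 0 ∈ m := hle (Ideal.subset_span ⟨0, rfl⟩)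
  have h1 : a 0 * b 1 + a 1 * b 0 ∈ m := hle (Ideal.subset_span ⟨1, rfl⟩)
  have h2 : a 1 * b 1 ∈ m := hle (Ideal.subset_span ⟨2, rfl⟩)
  have hac : ¬ (a 0 ∈ m ∧ a 1 ∈ m) := by
    rintro ⟨x0, x1⟩
    obtain ⟨x, y, hxy⟩ := ha
    apply hp.ne_top
    rw [Ideal.eq_top_iff_one, ← hxy]
    exact Ideal.add_mem _ (Ideal.mul_mem_left _ _ x0) (Ideal.mul_mem_left _ _ x1)
  have hbc : ¬ (b 0 ∈ m ∧ b 1 ∈ m) := by
    rintro ⟨x0, x1⟩
    obtain ⟨x, y, hxy⟩ := hb
    apply hp.ne_top
    rw [Ideal.eq_top_iff_one, ← hxy]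
    exact Ideal.add_mem _ (Ideal.mul_mem_left _ _ x0) (Ideal.mul_mem_left _ _ x1)
  rcases hp.mem_or_mem h0 with ha0 | hb0
  · have ha1 : a 1 ∉ m := fun h => hac ⟨ha0, h⟩
    have hb1 : b 1 ∈ m := (hp.mem_or_mem h2).resolve_left ha1
    have : a 1 * b 0 ∈ m := by
      have := Ideal.sub_mem _ h1 (Ideal.mul_mem_left _ (a 0) hb1)
      simpa using this
    exact hbc ⟨(hp.mem_or_mem this).resolve_left ha1, hb1⟩
  · have hb1 : b 1 ∉ m := fun h => hbc ⟨hb0, h⟩
    have ha1 : a 1 ∈ m := (hp.mem_or_mem h2).resolve_right hb1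
    have : a 0 * b 1 ∈ m := by
      have := Ideal.sub_mem _ h1 (Ideal.mul_mem_right (b 0) _ ha1)
      simpa using this
    exact hac ⟨(hp.mem_or_mem this).resolve_right hb1, ha1⟩

end Defs

section Poly

variable {k : Type*} [Field k]

/-- The maximum of the degrees of the entries. -/
noncomputable def maxDeg {n : ℕ} (v : Fin n → k[X]) : ℕ :=
  Finset.univ.sup fun i => (v i).natDegree

lemma natDegree_le_maxDeg {n : ℕ} (v : Fin n → k[X]) (i : Fin n) :
    (v i).natDegree ≤ maxDeg v :=
  Finset.le_sup (f := fun i => (v i).natDegree) (Finset.mem_univ i)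

lemma maxDeg_le {n : ℕ} {v : Fin n → k[X]} {D : ℕ} (h : ∀ i, (v i).natDegree ≤ D) :
    maxDeg v ≤ D :=
  Finset.sup_le fun i _ => h i

/-- The vector of coefficients in degree `D`. -/
noncomputable def topc {n : ℕ} (D : ℕ) (v : Fin n → k[X]) : Fin n → k := fun i => (v i).coeff D

lemma topc_ne_zero {n : ℕ} {v : Fin n → k[X]} (hv : v ≠ 0) : topc (maxDeg v) v ≠ 0 := by
  have hn : (Finset.univ : Finset (Fin n)).Nonempty := by
    by_contra h
    rw [Finset.not_nonempty_iff_eq_empty, Finset.univ_eq_empty_iff] at h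
    exact hv (funext fun i => (h.false i).elim)
  obtain ⟨i₀, -, hi₀⟩ := Finset.exists_mem_eq_sup _ hn fun i => (v i).natDegree
  intro h0
  by_cases hz : v i₀ = 0
  · -- all degrees are zero
    have hD : maxDeg v = 0 := by rw [maxDeg, hi₀, hz, natDegree_zero]
    apply hv
    funext j
    have hj : (v j).natDegree = 0 := Nat.le_zero.mp (hD ▸ natDegree_le_maxDeg v j)
    have hc := congrFun h0 j
    rw [topc, hD] at hc
    rw [eq_C_of_natDegree_eq_zero hj, hc]
    simp
  · have hc := congrFun h0 i₀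
    rw [topc, maxDeg, hi₀, coeff_natDegree] at hc
    exact hz (leadingCoeff_eq_zero.mp hc)

lemma maxDeg_eq_of_topc_ne_zero {n : ℕ} {v : Fin n → k[X]} {D : ℕ}
    (hle : ∀ i, (v i).natDegree ≤ D) (h : topc D v ≠ 0) : maxDeg v = D := by
  apply le_antisymm (maxDeg_le hle)
  by_contra hlt
  push Not at hlt
  apply h
  funext i
  exact coeff_eq_zero_of_natDegree_lt (lt_of_le_of_lt (natDegree_le_maxDeg v i) hlt)

variable (W : WeierstrassCurve k)

/-- The curve with constant coefficients over `k[X]`. -/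
noncomputable abbrev polyCurve : WeierstrassCurve k[X] := W.map (C : k →+* k[X])

lemma nd_sub {p q : k[X]} {n : ℕ} (hp : p.natDegree ≤ n) (hq : q.natDegree ≤ n) :
    (p - q).natDegree ≤ n :=
  (natDegree_sub_le _ _).trans (max_le hp hq)

lemma natDegree_asv_le (v : Fin 3 → k[X]) {D : ℕ} (h : ∀ i, (v i).natDegree ≤ D) (j : Fin 3) :
    (asv (polyCurve W) v j).natDegree ≤ D + D := by
  have hC : ∀ (a : k) (i₁ i₂ : Fin 3), (C a * v i₁ * v i₂).natDegree ≤ D + D := fun a i₁ i₂ => by
    rw [mul_assoc]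
    exact (natDegree_C_mul_le _ _).trans (natDegree_mul_le_of_le (h i₁) (h i₂))
  have hsq : ∀ i : Fin 3, (v i ^ 2).natDegree ≤ D + D := fun i => by
    rw [sq]; exact natDegree_mul_le_of_le (h i) (h i)
  have hCsq : ∀ (a : k) (i : Fin 3), (C a * v i ^ 2).natDegree ≤ D + D := fun a i =>
    (natDegree_C_mul_le _ _).trans (hsq i)
  have h2 : ((2 : k[X]) * v 1 * v 0).natDegree ≤ D + D := by
    have := hC 2 1 0
    rwa [C_ofNat] at this
  have h4 : ((4 : k[X]) * v 0 * v 2).natDegree ≤ D + D := by
    have := hC 4 0 2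
    rwa [C_ofNat] at this
  fin_cases j
  · simp only [asv, polyCurve, WeierstrassCurve.map_b₄, WeierstrassCurve.map_b₆,
      WeierstrassCurve.map_b₈, Fin.zero_eta, Fin.isValue, Matrix.cons_val_zero]
    exact nd_sub (nd_sub (nd_sub (hsq 0) (hC _ 0 2)) (hC _ 1 2)) (hCsq _ 2)
  · simp only [asv, polyCurve, WeierstrassCurve.map_b₂, WeierstrassCurve.map_b₄,
      WeierstrassCurve.map_b₆, Fin.mk_one, Fin.isValue, Matrix.cons_val_one, Matrix.cons_val_zero]
    exact natDegree_add_le_of_degree_le (natDegree_add_le_of_degree_le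
      (natDegree_add_le_of_degree_le h2 (hC _ 0 2)) (hC _ 1 2)) (hCsq _ 2)
  · simp only [asv, Fin.reduceFinMk, Fin.isValue, Matrix.cons_val]
    exact nd_sub (hsq 1) h4

lemma topc_asv (v : Fin 3 → k[X]) {D : ℕ} (h : ∀ i, (v i).natDegree ≤ D) :
    topc (D + D) (asv (polyCurve W) v) = asv W (topc D v) := by
  have hm : ∀ i₁ i₂ : Fin 3, (v i₁ * v i₂).coeff (D + D) = (v i₁).coeff D * (v i₂).coeff D :=
    fun i₁ i₂ => coeff_mul_add_eq_of_natDegree_le (h i₁) (h i₂)
  have h2 : (2 : k[X]) = C 2 := (C_ofNat 2).symm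
  have h4 : (4 : k[X]) = C 4 := (C_ofNat 4).symm
  funext j
  fin_cases j
  · simp only [topc, asv, polyCurve, WeierstrassCurve.map_b₄, WeierstrassCurve.map_b₆,
      WeierstrassCurve.map_b₈, Fin.zero_eta, Fin.isValue, Matrix.cons_val_zero, sq, mul_assoc,
      coeff_sub, coeff_C_mul, hm]
  · simp only [topc, asv, polyCurve, WeierstrassCurve.map_b₂, WeierstrassCurve.map_b₄,
      WeierstrassCurve.map_b₆, Fin.mk_one, Fin.isValue, Matrix.cons_val_one,
      Matrix.cons_val_zero, sq, mul_assoc, coeff_add, coeff_C_mul, hm, h2]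
  · simp only [topc, asv, Fin.reduceFinMk, Fin.isValue, Matrix.cons_val, sq, mul_assoc,
      coeff_sub, coeff_C_mul, hm, h4]

/-- **Exactness**: the add-sub map of an elliptic curve doubles `maxDeg`. -/
theorem maxDeg_asv [W.IsElliptic] {v : Fin 3 → k[X]} (hv : v ≠ 0) :
    maxDeg (asv (polyCurve W) v) = 2 * maxDeg v := by
  rw [two_mul]
  apply maxDeg_eq_of_topc_ne_zero (natDegree_asv_le W v (natDegree_le_maxDeg v))
  rw [topc_asv W v (natDegree_le_maxDeg v), asv_eq_eval]
  exact W.addSubMap_ne_zero (topc_ne_zero hv)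

lemma natDegree_sv_le (a b : Fin 2 → k[X]) {D E : ℕ} (ha : ∀ i, (a i).natDegree ≤ D)
    (hb : ∀ i, (b i).natDegree ≤ E) (j : Fin 3) : (sv a b j).natDegree ≤ D + E := by
  fin_cases j
  · exact natDegree_mul_le_of_le (ha 0) (hb 0)
  · exact natDegree_add_le_of_degree_le (natDegree_mul_le_of_le (ha 0) (hb 1))
      (natDegree_mul_le_of_le (ha 1) (hb 0))
  · exact natDegree_mul_le_of_le (ha 1) (hb 1)

lemma topc_sv (a b : Fin 2 → k[X]) {D E : ℕ} (ha : ∀ i, (a i).natDegree ≤ D)
    (hb : ∀ i, (b i).natDegree ≤ E) : topc (D + E) (sv a b) = sv (topc D a) (topc E b) := by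
  have hm : ∀ i₁ i₂ : Fin 2, (a i₁ * b i₂).coeff (D + E) = (a i₁).coeff D * (b i₂).coeff E :=
    fun i₁ i₂ => coeff_mul_add_eq_of_natDegree_le (ha i₁) (hb i₂)
  funext j
  fin_cases j <;> simp [topc, sv, hm]

lemma sv_ne_zero {F : Type*} [Field F] {a b : Fin 2 → F} (ha : a ≠ 0) (hb : b ≠ 0) :
    sv a b ≠ 0 := by
  intro h
  have h0 : a 0 * b 0 = 0 := congrFun h 0
  have h1 : a 0 * b 1 + a 1 * b 0 = 0 := congrFun h 1
  have h2 : a 1 * b 1 = 0 := congrFun h 2
  have ha' : ¬ (a 0 = 0 ∧ a 1 = 0) := fun ⟨x, y⟩ => ha (by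
    funext i; fin_cases i
    · exact x
    · exact y)
  have hb' : ¬ (b 0 = 0 ∧ b 1 = 0) := fun ⟨x, y⟩ => hb (by
    funext i; fin_cases i
    · exact x
    · exact y)
  rcases mul_eq_zero.mp h0 with ha0 | hb0
  · have ha1 : a 1 ≠ 0 := fun h => ha' ⟨ha0, h⟩
    have hb1 : b 1 = 0 := (mul_eq_zero.mp h2).resolve_left ha1
    rw [ha0, zero_mul, zero_add] at h1
    exact hb' ⟨(mul_eq_zero.mp h1).resolve_left ha1, hb1⟩
  · have hb1 : b 1 ≠ 0 := fun h => hb' ⟨hb0, h⟩
    have ha1 : a 1 = 0 := (mul_eq_zero.mp h2).resolve_right hb1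
    rw [ha1, zero_mul, add_zero] at h1
    exact ha' ⟨(mul_eq_zero.mp h1).resolve_right hb1, ha1⟩

/-- **Gauss**: `maxDeg` is additive on symmetric products. -/
theorem maxDeg_sv {a b : Fin 2 → k[X]} (ha : a ≠ 0) (hb : b ≠ 0) :
    maxDeg (sv a b) = maxDeg a + maxDeg b := by
  apply maxDeg_eq_of_topc_ne_zero
    (natDegree_sv_le a b (natDegree_le_maxDeg a) (natDegree_le_maxDeg b))
  rw [topc_sv a b (natDegree_le_maxDeg a) (natDegree_le_maxDeg b)]
  exact sv_ne_zero (topc_ne_zero ha) (topc_ne_zero hb)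

/-- Two primitive vectors with vanishing cross products have the same `maxDeg`. -/
theorem maxDeg_eq_of_cross {n : ℕ} {v w : Fin n → k[X]} (hv : Prim v) (hw : Prim w)
    (h : ∀ i j, v i * w j = v j * w i) : maxDeg v = maxDeg w := by
  obtain ⟨c, hc⟩ := (prim_iff v).mp hv
  obtain ⟨d, hd⟩ := (prim_iff w).mp hw
  set u := ∑ j, c j * w j with hu
  set u' := ∑ j, d j * v j with hu'
  have h1 : ∀ i, w i = v i * u := fun i => by
    calc w i = w i * ∑ j, c j * v j := by rw [hc, mul_one]
      _ = ∑ j, c j * (v j * w i) := by rw [Finset.mul_sum]; congr 1; funext j; ring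
      _ = ∑ j, c j * (v i * w j) := by congr 1; funext j; rw [h i j]
      _ = v i * u := by rw [hu, Finset.mul_sum]; congr 1; funext j; ring
  have h2 : ∀ i, v i = w i * u' := fun i => by
    calc v i = v i * ∑ j, d j * w j := by rw [hd, mul_one]
      _ = ∑ j, d j * (v i * w j) := by rw [Finset.mul_sum]; congr 1; funext j; ring
      _ = ∑ j, d j * (v j * w i) := by congr 1; funext j; rw [h i j]
      _ = w i * u' := by rw [hu', Finset.mul_sum]; congr 1; funext j; ring
  have hv0 := hv.ne_zero
  obtain ⟨i₀, hi₀⟩ : ∃ i, v i ≠ 0 := by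
    by_contra hne
    push Not at hne
    exact hv0 (funext hne)
  have huu : u * u' = 1 := by
    have := h2 i₀
    rw [h1 i₀, mul_assoc] at this
    exact (mul_eq_left₀ hi₀).mp this.symm
  have hunit : IsUnit u := IsUnit.of_mul_eq_one _ huu
  obtain ⟨a, ha, hau⟩ : ∃ a : k, a ≠ 0 ∧ C a = u := by
    obtain ⟨a, ha, hau⟩ := Polynomial.isUnit_iff.mp hunit
    exact ⟨a, ha.ne_zero, hau⟩
  have hdeg : ∀ i, (w i).natDegree = (v i).natDegree := fun i => by
    rw [h1 i, ← hau, mul_comm, natDegree_C_mul ha]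
  simp only [maxDeg, hdeg]

end Poly

end Fermat.Agent.S52.H545

end
-- ===== PACK-END S52/H545/Core.lean

-- ===== PACK-BEGIN S52/H297/Hgt.lean
section


/-!
# Height (degree) of a rational function, and its multiplicativity under composition

`hgt g = max (natDegree g.num) (natDegree g.denom)`.

Main results:
* `hgt_div_of_isCoprime` : for coprime `p q`, `q ≠ 0`, `hgt (p / q) = max (deg p) (deg q)`.
* `hgt_eq_finrank` : `hgt g = [K(X) : K(g)]` (Mathlib's `RatFunc.finrank_eq_max_natDegree`).
* `subst S hS` : the `K`-algebra endomorphism `X ↦ S` of `K(X)` for a non-constant `S`.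
* `hgt_subst` : `hgt (subst S hS R) = hgt R * hgt S`.
* `hgt_aeval_div` : for coprime polynomials `N D`, `D ≠ 0` and non-constant `S`:
  `hgt (N(S) / D(S)) = max (deg N) (deg D) * hgt S`.
-/

set_option autoImplicit false

open Polynomial

namespace Fermat.Agent.S52.H297

variable {K : Type*} [Field K]

/-- The height of a rational function: the maximum of the degrees of numerator and denominator
(in lowest terms). -/
noncomputable def hgt (g : RatFunc K) : ℕ := max g.num.natDegree g.denom.natDegree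

lemma hgt_eq_finrank (g : RatFunc K) :
    hgt g = Module.finrank (IntermediateField.adjoin K {g}) (RatFunc K) :=
  (RatFunc.finrank_eq_max_natDegree g).symm

lemma hgt_C (c : K) : hgt (RatFunc.C c : RatFunc K) = 0 := by
  simp [hgt]

lemma hgt_X : hgt (RatFunc.X : RatFunc K) = 1 := by
  simp [hgt]

/-- Height of a quotient of coprime polynomials. -/
lemma hgt_div_of_isCoprime {p q : K[X]} (hq : q ≠ 0) (h : IsCoprime p q) :
    hgt (algebraMap K[X] (RatFunc K) p / algebraMap K[X] (RatFunc K) q) =
      max p.natDegree q.natDegree := by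
  classical
  have hg : gcd p q = 1 := by
    have h1 : IsUnit (gcd p q) := by
      rw [← gcd_isUnit_iff] at h
      exact h
    have h2 := normalize_gcd p q
    rw [← h2]
    exact normalize_eq_one.mpr h1
  have hlc : (q.leadingCoeff)⁻¹ ≠ 0 := inv_ne_zero (leadingCoeff_ne_zero.mpr hq)
  unfold hgt
  rw [RatFunc.num_div, RatFunc.denom_div _ hq, hg, EuclideanDomain.div_one,
    EuclideanDomain.div_one, natDegree_C_mul hlc, natDegree_C_mul hlc]

lemma transcendental_of_hgt_ne_zero {S : RatFunc K} (hS : hgt S ≠ 0) :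
    Transcendental K S := by
  apply RatFunc.transcendental_of_ne_C
  rintro ⟨c, rfl⟩
  exact hS (hgt_C c)

/-- Substitution `X ↦ S` as a `K`-algebra endomorphism of `K(X)` (for non-constant `S`). -/
noncomputable def subst (S : RatFunc K) (hS : hgt S ≠ 0) : RatFunc K →ₐ[K] RatFunc K :=
  RatFunc.liftAlgHom (Polynomial.aeval S)
    (nonZeroDivisors_le_comap_nonZeroDivisors_of_injective _
      ((transcendental_iff_injective).mp (transcendental_of_hgt_ne_zero hS)))

lemma subst_algebraMap (S : RatFunc K) (hS : hgt S ≠ 0) (p : K[X]) :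
    subst S hS (algebraMap K[X] (RatFunc K) p) = Polynomial.aeval S p := by
  have := RatFunc.liftAlgHom_apply_div (Polynomial.aeval S)
    (nonZeroDivisors_le_comap_nonZeroDivisors_of_injective _
      ((transcendental_iff_injective).mp (transcendental_of_hgt_ne_zero hS))) p 1
  simpa [subst] using this

lemma subst_X (S : RatFunc K) (hS : hgt S ≠ 0) : subst S hS RatFunc.X = S := by
  have := subst_algebraMap S hS (Polynomial.X)
  simpa using this

lemma subst_div (S : RatFunc K) (hS : hgt S ≠ 0) (p q : K[X]) :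
    subst S hS (algebraMap K[X] (RatFunc K) p / algebraMap K[X] (RatFunc K) q) =
      Polynomial.aeval S p / Polynomial.aeval S q := by
  rw [map_div₀, subst_algebraMap, subst_algebraMap]

/-- **Multiplicativity of the height under composition.** -/
theorem hgt_subst (R S : RatFunc K) (hS : hgt S ≠ 0) :
    hgt (subst S hS R) = hgt R * hgt S := by
  set φ := subst S hS with hφ
  -- the three intermediate fields `K(φ R) ≤ K(S) ≤ ⊤`
  have hmapR : (IntermediateField.adjoin K {R}).map φ = IntermediateField.adjoin K {φ R} := by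
    rw [IntermediateField.adjoin_map]; simp
  have hmapTop : (⊤ : IntermediateField K (RatFunc K)).map φ = IntermediateField.adjoin K {S} := by
    rw [← RatFunc.adjoin_X, IntermediateField.adjoin_map]; simp [hφ, subst_X]
  have hle : IntermediateField.adjoin K {φ R} ≤ IntermediateField.adjoin K {S} := by
    rw [← hmapR, ← hmapTop]
    exact IntermediateField.map_mono φ le_top
  have h1 : IntermediateField.relfinrank (IntermediateField.adjoin K {φ R})
      (IntermediateField.adjoin K {S}) = hgt R := by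
    rw [← hmapR, ← hmapTop, IntermediateField.relfinrank_map_map,
      IntermediateField.relfinrank_top_right, hgt_eq_finrank]
  have h2 : IntermediateField.relfinrank (IntermediateField.adjoin K {S}) ⊤ = hgt S := by
    rw [IntermediateField.relfinrank_top_right, hgt_eq_finrank]
  have h3 := IntermediateField.relfinrank_mul_relfinrank hle
    (le_top : IntermediateField.adjoin K {S} ≤ ⊤)
  rw [h1, h2, IntermediateField.relfinrank_top_right, ← hgt_eq_finrank] at h3
  exact h3.symm

/-- Height of `N(S)/D(S)` for coprime polynomials `N`, `D` and a non-constant `S`. -/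
theorem hgt_aeval_div {N D : K[X]} (hD : D ≠ 0) (hND : IsCoprime N D) (S : RatFunc K)
    (hS : hgt S ≠ 0) :
    hgt (Polynomial.aeval S N / Polynomial.aeval S D) =
      max N.natDegree D.natDegree * hgt S := by
  rw [← subst_div S hS, hgt_subst, hgt_div_of_isCoprime hD hND]

/-- General version: height of `N(S)/D(S)` for arbitrary polynomials `N`, `D ≠ 0`, in terms of the
height of the rational function `N/D`. -/
theorem hgt_aeval_div' (N D : K[X]) (S : RatFunc K) (hS : hgt S ≠ 0) :
    hgt (Polynomial.aeval S N / Polynomial.aeval S D) =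
      hgt (algebraMap K[X] (RatFunc K) N / algebraMap K[X] (RatFunc K) D) * hgt S := by
  rw [← subst_div S hS, hgt_subst]

end Fermat.Agent.S52.H297

end
-- ===== PACK-END S52/H297/Hgt.lean

-- ===== PACK-BEGIN S51/H780/Dup.lean
section



/-!
# S51 helper: the `x`-coordinate duplication map on a Weierstrass curve over a field

`x(2P) · Ψ₂Sq(x(P)) = Φ₂(x(P))`, stated with explicit polynomial expressions in the `b`-invariants.
-/

set_option autoImplicit false

namespace Fermat.Agent.S51.H780

open WeierstrassCurve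

section Dup

variable {K : Type*} [Field K] (W : WeierstrassCurve.Affine K)

/-- numerator of the `x`-coordinate duplication map -/
def dupNum (x : K) : K := x ^ 4 - W.b₄ * x ^ 2 - 2 * W.b₆ * x - W.b₈

/-- denominator of the `x`-coordinate duplication map, `= ψ₂²` -/
def dupDen (x : K) : K := 4 * x ^ 3 + W.b₂ * x ^ 2 + 2 * W.b₄ * x + W.b₆

/-- the `x`-coordinate of a point, with junk value `0` at infinity -/
def xc : W.Point → K
  | .zero => 0
  | .some x _ _ => x

@[simp] lemma xc_some {x y : K} (h : W.Nonsingular x y) : xc W (.some x y h) = x := rfl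

lemma xc_neg (P : W.Point) : xc W (-P) = xc W P := by
  cases P <;> rfl

lemma dupDen_eq {x y : K} (h : W.Equation x y) : dupDen W x = (y - W.negY x y) ^ 2 := by
  rw [Affine.equation_iff] at h
  simp only [dupDen, Affine.negY, WeierstrassCurve.b₂, WeierstrassCurve.b₄, WeierstrassCurve.b₆]
  linear_combination (-4 : K) * h

lemma dupDen_eq_zero_iff {x y : K} (h : W.Equation x y) : dupDen W x = 0 ↔ y = W.negY x y := by
  rw [dupDen_eq W h, sq_eq_zero_iff, sub_eq_zero]

/-- At a nonsingular point with `Ψ₂Sq(x) = 0`, we have `Φ₂(x) ≠ 0`. -/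
lemma dupNum_ne_zero_of_dupDen_eq_zero {x y : K} (h : W.Nonsingular x y)
    (hD : dupDen W x = 0) : dupNum W x ≠ 0 := by
  have hy : y = W.negY x y := (dupDen_eq_zero_iff W h.1).mp hD
  rw [Affine.nonsingular_iff] at h
  obtain ⟨he, hs⟩ := h
  rw [Affine.equation_iff] at he
  simp only [Affine.negY] at hy
  have hψ : 2 * y + W.a₁ * x + W.a₃ = 0 := by linear_combination hy
  have hX : W.a₁ * y - (3 * x ^ 2 + 2 * W.a₂ * x + W.a₄) ≠ 0 := by
    rcases hs with hs | hs
    · exact sub_ne_zero.mpr hs
    · exact absurd (by linear_combination hψ) hs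
  have key : dupNum W x = (W.a₁ * y - (3 * x ^ 2 + 2 * W.a₂ * x + W.a₄)) ^ 2 := by
    simp only [dupNum, WeierstrassCurve.b₄, WeierstrassCurve.b₆, WeierstrassCurve.b₈]
    linear_combination (8 * x + W.a₁ ^ 2 + 4 * W.a₂) * he +
      (W.a₁ * (3 * x ^ 2 + 2 * W.a₂ * x + W.a₄ - W.a₁ * y)
        - (W.a₂ + 2 * x) * (2 * y + W.a₁ * x + W.a₃)) * hψ
  rw [key]
  exact pow_ne_zero 2 hX

lemma eq_or_eq_neg_of_xc_eq {P Q : W.Point} (hP : P ≠ 0) (hQ : Q ≠ 0) (h : xc W P = xc W Q) :
    P = Q ∨ P = -Q := by
  match P, Q with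
  | .zero, _ => exact absurd rfl hP
  | _, .zero => exact absurd rfl hQ
  | .some x₁ y₁ h₁, .some x₂ y₂ h₂ =>
    simp only [xc_some] at h
    exact Affine.Point.X_eq_iff.mp h

variable [DecidableEq K]

lemma dup_addX {x y : K} (h : W.Equation x y) (hy : y ≠ W.negY x y) :
    W.addX x x (W.slope x x y y) * dupDen W x = dupNum W x := by
  have hne : y - W.negY x y ≠ 0 := sub_ne_zero.mpr hy
  rw [dupDen_eq W h, Affine.slope_of_Y_ne rfl hy]
  have h' := h
  rw [Affine.equation_iff] at h'
  set l := (3 * x ^ 2 + 2 * W.a₂ * x + W.a₄ - W.a₁ * y) / (y - W.negY x y) with hl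
  have hl' : l * (y - W.negY x y) = 3 * x ^ 2 + 2 * W.a₂ * x + W.a₄ - W.a₁ * y :=
    div_mul_cancel₀ _ hne
  simp only [Affine.addX, dupNum, Affine.negY, WeierstrassCurve.b₄, WeierstrassCurve.b₆,
    WeierstrassCurve.b₈] at hl' ⊢
  linear_combination (l * (y - (-y - W.a₁ * x - W.a₃)) + (3 * x ^ 2 + 2 * W.a₂ * x + W.a₄ - W.a₁ * y)
    + W.a₁ * (y - (-y - W.a₁ * x - W.a₃))) * hl' + (-8 * x - W.a₁ ^ 2 - 4 * W.a₂) * h'

lemma dupDen_xc_eq_zero_iff {P : W.Point} (hP : P ≠ 0) : dupDen W (xc W P) = 0 ↔ P + P = 0 := by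
  match P with
  | .zero => exact absurd rfl hP
  | .some x y h =>
    rw [xc_some, dupDen_eq_zero_iff W h.1]
    constructor
    · intro hy
      exact Affine.Point.add_self_of_Y_eq hy
    · intro h0
      by_contra hy
      rw [Affine.Point.add_self_of_Y_ne hy] at h0
      exact Affine.Point.some_ne_zero _ h0

lemma xc_add_self {P : W.Point} (hP : P ≠ 0) (h2 : P + P ≠ 0) :
    xc W (P + P) * dupDen W (xc W P) = dupNum W (xc W P) := by
  match P with
  | .zero => exact absurd rfl hP
  | .some x y h =>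
    have hy : y ≠ W.negY x y := by
      intro hy
      exact h2 (Affine.Point.add_self_of_Y_eq hy)
    rw [Affine.Point.add_self_of_Y_ne hy, xc_some, xc_some]
    exact dup_addX W h.1 hy

end Dup

end Fermat.Agent.S51.H780

end
-- ===== PACK-END S51/H780/Dup.lean

-- ===== PACK-BEGIN S24/H84/LaurentDeriv.lean
section


/-!
# `d/dz` on Laurent series as a derivation (helper84, S24 piece KD3)

Mathlib has `LaurentSeries.derivative` only as a linear map.  We prove the Leibniz rule,
package it as a `Derivation`, and compute orders.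
-/

set_option autoImplicit false

noncomputable section

namespace Fermat.Agent.S24.H84

open HahnSeries

section Ring

variable {C : Type*} [CommRing C]

theorem laurent_derivative_coeff (f : LaurentSeries C) (n : ℤ) :
    (LaurentSeries.derivative C f).coeff n = ((n + 1 : ℤ) : C) * f.coeff (n + 1) := by
  rw [LaurentSeries.derivative_apply, LaurentSeries.hasseDeriv_coeff]
  simp [zsmul_eq_mul]

theorem laurent_derivative_ofPowerSeries (P : PowerSeries C) :
    LaurentSeries.derivative C (P : LaurentSeries C) =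
      ((PowerSeries.derivative C P : PowerSeries C) : LaurentSeries C) := by
  ext n
  rw [laurent_derivative_coeff, PowerSeries.coeff_coe, PowerSeries.coeff_coe]
  by_cases hn : n < 0
  · rw [if_pos hn]
    by_cases hn1 : n + 1 < 0
    · rw [if_pos hn1, mul_zero]
    · have : n + 1 = 0 := by omega
      rw [this]; simp
  · rw [if_neg hn, if_neg (by omega)]
    obtain ⟨k, rfl⟩ := Int.eq_ofNat_of_zero_le (not_lt.mp hn)
    have h1 : ((k : ℤ) + 1).natAbs = k + 1 := by omega
    rw [h1, Int.natAbs_natCast, PowerSeries.coeff_derivative]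
    push_cast
    ring

theorem laurent_derivative_single_mul (n : ℤ) (h : LaurentSeries C) :
    LaurentSeries.derivative C (single n (1 : C) * h) =
      (n : C) • (single (n - 1) (1 : C) * h) + single n (1 : C) * LaurentSeries.derivative C h := by
  ext k
  rw [laurent_derivative_coeff, HahnSeries.coeff_add, HahnSeries.coeff_smul,
    coeff_single_mul, coeff_single_mul, coeff_single_mul, laurent_derivative_coeff]
  have e1 : k - (n - 1) = k + 1 - n := by ring
  have e2 : k - n + 1 = k + 1 - n := by ring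
  rw [e1, e2]
  simp only [one_mul, smul_eq_mul]
  push_cast
  ring

theorem laurent_derivative_mul (f g : LaurentSeries C) :
    LaurentSeries.derivative C (f * g) =
      f * LaurentSeries.derivative C g + g * LaurentSeries.derivative C f := by
  obtain ⟨a, P, rfl⟩ : ∃ (a : ℤ) (P : PowerSeries C), f = single a (1 : C) * (P : LaurentSeries C) :=
    ⟨_, _, (LaurentSeries.single_order_mul_powerSeriesPart f).symm⟩
  obtain ⟨b, Q, rfl⟩ : ∃ (b : ℤ) (Q : PowerSeries C), g = single b (1 : C) * (Q : LaurentSeries C) :=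
    ⟨_, _, (LaurentSeries.single_order_mul_powerSeriesPart g).symm⟩
  have hfg : single a (1 : C) * (P : LaurentSeries C) * (single b (1 : C) * (Q : LaurentSeries C))
      = single (a + b) (1 : C) * ((P * Q : PowerSeries C) : LaurentSeries C) := by
    have : single (a + b) (1 : C) = single a (1 : C) * single b (1 : C) := by
      rw [single_mul_single, one_mul]
    rw [this]
    push_cast
    ring
  rw [hfg, laurent_derivative_single_mul, laurent_derivative_single_mul,
    laurent_derivative_single_mul, laurent_derivative_ofPowerSeries,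
    laurent_derivative_ofPowerSeries, laurent_derivative_ofPowerSeries,
    Derivation.leibniz, smul_eq_mul, smul_eq_mul]
  have h1 : single (a + b - 1) (1 : C) = single (a - 1) (1 : C) * single b (1 : C) := by
    rw [single_mul_single, one_mul, show a - 1 + b = a + b - 1 by omega]
  have h2 : single (a + b - 1) (1 : C) = single a (1 : C) * single (b - 1) (1 : C) := by
    rw [single_mul_single, one_mul, show a + (b - 1) = a + b - 1 by omega]
  have h3 : single (a + b) (1 : C) = single a (1 : C) * single b (1 : C) := by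
    rw [single_mul_single, one_mul]
  simp only [← HahnSeries.C_mul_eq_smul, PowerSeries.coe_add, PowerSeries.coe_mul]
  push_cast
  rw [h3]
  have h4 : (HahnSeries.C ((a : C) + (b : C)) : LaurentSeries C) * single (a + b - 1) (1 : C)
      = HahnSeries.C (a : C) * (single (a - 1) (1 : C) * single b (1 : C))
        + HahnSeries.C (b : C) * (single a (1 : C) * single (b - 1) (1 : C)) := by
    rw [← h1, ← h2, map_add]; ring
  linear_combination ((P : LaurentSeries C) * (Q : LaurentSeries C)) * h4

theorem laurent_algebraMap_eq_C (c : C) :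
    algebraMap C (LaurentSeries C) c = HahnSeries.C c := by
  rw [HahnSeries.algebraMap_apply', ← HahnSeries.ofPowerSeries_C]
  rfl

/-- The two `C`-actions on `C((z))` (via `Algebra.toModule` and via `HahnSeries.instModule`)
agree. -/
theorem laurent_algebra_smul_eq (c : C) (f : LaurentSeries C) :
    (@HSMul.hSMul C (LaurentSeries C) _
      (@instHSMul C (LaurentSeries C) (Algebra.toModule.toSMul)) c f) = HahnSeries.C c * f := by
  rw [Algebra.smul_def, laurent_algebraMap_eq_C]

/-- `d/dz` on `C((z))` as a `C`-derivation. -/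
def laurentD (C : Type*) [CommRing C] : Derivation C (LaurentSeries C) (LaurentSeries C) where
  toFun f := LaurentSeries.derivative C f
  map_add' f g := map_add _ f g
  map_smul' c f := by
    ext n
    simp only [RingHom.id_apply, laurent_derivative_coeff]
    rw [laurent_algebra_smul_eq,
      HahnSeries.C_mul_eq_smul, HahnSeries.coeff_smul,
      HahnSeries.coeff_smul, laurent_derivative_coeff]
    simp only [smul_eq_mul]
    ring
  map_one_eq_zero' := by
    ext n
    show (LaurentSeries.derivative C (1 : LaurentSeries C)).coeff n = _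
    rw [laurent_derivative_coeff]
    by_cases hn : n + 1 = 0
    · rw [hn]; simp
    · rw [HahnSeries.coeff_one, if_neg hn]; simp
  leibniz' f g := by
    show LaurentSeries.derivative C (f * g) = _
    rw [laurent_derivative_mul]
    simp [smul_eq_mul]

@[simp] theorem laurentD_apply (f : LaurentSeries C) :
    laurentD C f = LaurentSeries.derivative C f := rfl

theorem laurentD_coeff (f : LaurentSeries C) (n : ℤ) :
    (laurentD C f).coeff n = ((n + 1 : ℤ) : C) * f.coeff (n + 1) :=
  laurent_derivative_coeff f n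

theorem laurentD_C (c : C) : laurentD C (HahnSeries.C c) = 0 := by
  ext n
  rw [laurentD_coeff, HahnSeries.C_apply, HahnSeries.coeff_single]
  by_cases hn : n + 1 = 0
  · rw [hn]; simp
  · rw [if_neg hn]; simp

end Ring

section Field

variable {C : Type*} [Field C] [CharZero C]

/-- In characteristic zero, `ord (df/dz) = ord f - 1` whenever `ord f ≠ 0`. -/
theorem laurentD_order {f : LaurentSeries C} (hf : f.order ≠ 0) :
    (laurentD C f).order = f.order - 1 := by
  have hf0 : f ≠ 0 := by rintro rfl; simp at hf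
  have hc : (laurentD C f).coeff (f.order - 1) ≠ 0 := by
    rw [laurentD_coeff, sub_add_cancel]
    refine mul_ne_zero (by exact_mod_cast hf) ?_
    rw [← HahnSeries.leadingCoeff_eq]
    exact HahnSeries.leadingCoeff_ne_zero.2 hf0
  have hne : laurentD C f ≠ 0 := by
    intro h; rw [h] at hc; simp at hc
  refine le_antisymm (HahnSeries.order_le_of_coeff_ne_zero hc) ?_
  by_contra hlt
  rw [not_le] at hlt
  have h2 : (laurentD C f).coeff (laurentD C f).order ≠ 0 := by
    rw [← HahnSeries.leadingCoeff_eq]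
    exact HahnSeries.leadingCoeff_ne_zero.2 hne
  apply h2
  rw [laurentD_coeff, HahnSeries.coeff_eq_zero_of_lt_order (by omega), mul_zero]

theorem laurentD_ne_zero {f : LaurentSeries C} (hf : f.order ≠ 0) : laurentD C f ≠ 0 := by
  have hf0 : f ≠ 0 := by rintro rfl; simp at hf
  intro h
  have hc : (laurentD C f).coeff (f.order - 1) ≠ 0 := by
    rw [laurentD_coeff, sub_add_cancel]
    refine mul_ne_zero (by exact_mod_cast hf) ?_
    rw [← HahnSeries.leadingCoeff_eq]
    exact HahnSeries.leadingCoeff_ne_zero.2 hf0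
  rw [h] at hc
  simp at hc

omit [CharZero C] in
/-- In general `ord (df/dz) ≥ ord f - 1` (when `df/dz ≠ 0`). -/
theorem laurentD_order_ge {f : LaurentSeries C} (hdf : laurentD C f ≠ 0) :
    f.order - 1 ≤ (laurentD C f).order := by
  by_contra hlt
  rw [not_le] at hlt
  have h2 : (laurentD C f).coeff (laurentD C f).order ≠ 0 := by
    rw [← HahnSeries.leadingCoeff_eq]
    exact HahnSeries.leadingCoeff_ne_zero.2 hdf
  apply h2
  rw [laurentD_coeff, HahnSeries.coeff_eq_zero_of_lt_order (by omega), mul_zero]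

/-- `df/dz = 0` iff `f` is constant (characteristic zero). -/
theorem laurentD_eq_zero_iff {f : LaurentSeries C} :
    laurentD C f = 0 ↔ f = HahnSeries.C (f.coeff 0) := by
  constructor
  · intro h
    ext n
    rw [HahnSeries.C_apply, HahnSeries.coeff_single]
    by_cases hn : n = 0
    · rw [if_pos hn, hn]
    · rw [if_neg hn]
      have := congrArg (fun g : LaurentSeries C => g.coeff (n - 1)) h
      simp only [laurentD_coeff, sub_add_cancel, HahnSeries.coeff_zero] at this
      rcases mul_eq_zero.1 this with h1 | h1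
      · exact absurd (by exact_mod_cast h1) hn
      · exact h1
  · intro h
    rw [h, laurentD_C]

end Field

end Fermat.Agent.S24.H84

end
end
-- ===== PACK-END S24/H84/LaurentDeriv.lean

-- ===== PACK-BEGIN S29/H32/AutOrbit.lean
section
/-
S29 row, helper32: automorphisms of an algebraically closed field over an algebraically closed
subfield.  Mathlib-only.

Main results (namespace `Fermat.Agent.S29.H32`):
* `exists_algEquiv_apply_eq_add` : a transcendental element `z` of an algebraically closed field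
  `Ω` over a field `k` can be moved to `z + c` (`c ∈ k`) by a `k`-automorphism of `Ω`.
* `mem_range_of_finite_orbit` : if `k` is algebraically closed and `z : Ω` has only finitely many
  conjugates under `Ω ≃ₐ[k] Ω`, then `z ∈ k`.
* `mem_range_of_fixed_of_finiteIndex` : the fixed field of a finite-index subgroup of
  `Ω ≃ₐ[k] Ω` is `k`.
-/


set_option autoImplicit false

namespace Fermat.Agent.S29.H32

open MvPolynomial

section Shift

variable {k : Type*} [CommRing k] {ι : Type*} [DecidableEq ι]

/-- The `k`-algebra endomorphism of `k[X_i]` sending `X_{i₀} ↦ X_{i₀} + c` and fixing the other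
variables. -/
noncomputable def shiftHom (i₀ : ι) (c : k) : MvPolynomial ι k →ₐ[k] MvPolynomial ι k :=
  aeval fun i => if i = i₀ then X i + C c else X i

theorem shiftHom_X (i₀ : ι) (c : k) (i : ι) :
    shiftHom i₀ c (X i) = if i = i₀ then X i + C c else X i := by
  simp [shiftHom]

theorem shiftHom_comp (i₀ : ι) (c d : k) :
    (shiftHom i₀ c).comp (shiftHom i₀ d) = shiftHom i₀ (c + d) := by
  apply MvPolynomial.algHom_ext
  intro i
  by_cases h : i = i₀
  · subst h
    simp only [shiftHom, AlgHom.comp_apply, aeval_X, if_true, map_add, algHom_C,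
      algebraMap_eq, map_add, add_assoc]
  · simp [shiftHom, h]

theorem shiftHom_zero (i₀ : ι) : shiftHom i₀ (0 : k) = AlgHom.id k (MvPolynomial ι k) := by
  apply MvPolynomial.algHom_ext
  intro i
  by_cases h : i = i₀ <;> simp [shiftHom, h]

/-- The shift as an algebra automorphism. -/
noncomputable def shiftEquiv (i₀ : ι) (c : k) : MvPolynomial ι k ≃ₐ[k] MvPolynomial ι k :=
  AlgEquiv.ofAlgHom (shiftHom i₀ c) (shiftHom i₀ (-c))
    (by rw [shiftHom_comp, add_neg_cancel, shiftHom_zero])
    (by rw [shiftHom_comp, neg_add_cancel, shiftHom_zero])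

theorem shiftEquiv_X_self (i₀ : ι) (c : k) : shiftEquiv i₀ c (X i₀) = X i₀ + C c := by
  simp [shiftEquiv, shiftHom_X]

end Shift

section Move

variable {k Ω : Type*} [Field k] [Field Ω] [Algebra k Ω] [IsAlgClosed Ω]

/-- A transcendental element of an algebraically closed field can be translated by any
constant by an automorphism. -/
theorem exists_algEquiv_apply_eq_add (z : Ω) (hz : Transcendental k z) (c : k) :
    ∃ σ : Ω ≃ₐ[k] Ω, σ z = z + algebraMap k Ω c := by
  classical
  have hs : AlgebraicIndepOn k id ({z} : Set Ω) := by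
    have : AlgebraicIndependent k (fun x : ({z} : Set Ω) => (x : Ω)) := by
      rw [algebraicIndependent_singleton_iff (⟨z, rfl⟩ : ({z} : Set Ω))]
      exact hz
    exact this
  obtain ⟨t, hzt, ht⟩ := exists_isTranscendenceBasis_superset hs
  set B : t → Ω := fun x => (x : Ω) with hB
  have hzmem : z ∈ t := hzt rfl
  let i₀ : t := ⟨z, hzmem⟩
  have hcl := IsAlgClosed.isAlgClosure_of_transcendence_basis B ht
  -- the automorphism of the polynomial subalgebra
  let e₀ : Algebra.adjoin k (Set.range B) ≃ₐ[k] Algebra.adjoin k (Set.range B) :=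
    (ht.1.aevalEquiv.symm.trans (shiftEquiv i₀ c)).trans ht.1.aevalEquiv
  have he₀ : ∀ x, (e₀ x : Ω) = aeval B (shiftEquiv i₀ c (ht.1.aevalEquiv.symm x)) := by
    intro x
    simp only [e₀, AlgEquiv.trans_apply]
    exact AlgebraicIndependent.algebraMap_aevalEquiv ht.1 _
  let σ₀ : Ω ≃+* Ω := IsAlgClosure.equivOfEquiv Ω Ω e₀.toRingEquiv
  have hσ₀ : ∀ r : Algebra.adjoin k (Set.range B),
      σ₀ (algebraMap _ Ω r) = algebraMap _ Ω (e₀ r) := fun r =>
    IsAlgClosure.equivOfEquiv_algebraMap Ω Ω e₀.toRingEquiv r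
  have hcomm : ∀ a : k, σ₀ (algebraMap k Ω a) = algebraMap k Ω a := by
    intro a
    have h1 : algebraMap k Ω a
        = algebraMap (Algebra.adjoin k (Set.range B)) Ω (algebraMap k _ a) := rfl
    rw [h1, hσ₀, e₀.commutes]
  refine ⟨AlgEquiv.ofRingEquiv (f := σ₀) hcomm, ?_⟩
  have hzB : z = algebraMap (Algebra.adjoin k (Set.range B)) Ω
      ⟨z, Algebra.subset_adjoin ⟨i₀, rfl⟩⟩ := rfl
  show σ₀ z = _
  conv_lhs => rw [hzB]
  rw [hσ₀]
  show (e₀ _ : Ω) = _
  rw [he₀]
  have hsymm : ht.1.aevalEquiv.symm ⟨z, Algebra.subset_adjoin ⟨i₀, rfl⟩⟩ = X i₀ := by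
    rw [AlgEquiv.symm_apply_eq]
    apply Subtype.ext
    show z = algebraMap (Algebra.adjoin k (Set.range B)) Ω (ht.1.aevalEquiv (X i₀))
    rw [AlgebraicIndependent.algebraMap_aevalEquiv, aeval_X]
  rw [hsymm, shiftEquiv_X_self]
  simp [B, i₀]

end Move

section Orbit

variable {k Ω : Type*} [Field k] [Field Ω] [Algebra k Ω] [IsAlgClosed k] [IsAlgClosed Ω]

omit [IsAlgClosed Ω] in
/-- Over an algebraically closed field, an element which is not a constant is transcendental. -/
theorem transcendental_of_not_mem_range {z : Ω} (hz : z ∉ Set.range (algebraMap k Ω)) :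
    Transcendental k z := by
  intro halg
  apply hz
  have hint : IsIntegral k z := halg.isIntegral
  have hdeg : (minpoly k z).degree = 1 :=
    IsAlgClosed.degree_eq_one_of_irreducible k (minpoly.irreducible hint)
  exact minpoly.mem_range_of_degree_eq_one k z hdeg

/-- An element with finitely many conjugates under `Aut(Ω/k)` lies in `k`
(`k`, `Ω` algebraically closed). -/
theorem mem_range_of_finite_orbit (z : Ω)
    (h : (Set.range fun σ : Ω ≃ₐ[k] Ω => σ z).Finite) : z ∈ Set.range (algebraMap k Ω) := by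
  by_contra hz
  have htr := transcendental_of_not_mem_range hz
  have hinj : Function.Injective fun c : k => z + algebraMap k Ω c := by
    intro c d hcd
    exact (algebraMap k Ω).injective (add_left_cancel hcd)
  have hsub : (Set.range fun c : k => z + algebraMap k Ω c)
      ⊆ Set.range fun σ : Ω ≃ₐ[k] Ω => σ z := by
    rintro _ ⟨c, rfl⟩
    obtain ⟨σ, hσ⟩ := exists_algEquiv_apply_eq_add z htr c
    exact ⟨σ, hσ⟩
  have : Infinite k := IsAlgClosed.instInfinite
  exact Set.infinite_range_of_injective hinj (h.subset hsub)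

/-- The fixed field of a finite-index subgroup of `Aut(Ω/k)` is `k`. -/
theorem mem_range_of_fixed_of_finiteIndex (H : Subgroup (Ω ≃ₐ[k] Ω)) [H.FiniteIndex] (z : Ω)
    (hfix : ∀ σ ∈ H, σ z = z) : z ∈ Set.range (algebraMap k Ω) := by
  apply mem_range_of_finite_orbit
  -- the orbit map factors through the finite quotient `G ⧸ H`
  let f : (Ω ≃ₐ[k] Ω) ⧸ H → Ω := Quotient.lift (fun σ : Ω ≃ₐ[k] Ω => σ z) (by
    intro a b hab
    have hab' : a⁻¹ * b ∈ H := QuotientGroup.leftRel_apply.mp hab
    have := hfix _ hab'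
    show a z = b z
    have h2 : b z = a ((a⁻¹ * b) z) := by
      simp [AlgEquiv.mul_apply, AlgEquiv.aut_inv]
    rw [h2, this])
  have : Finite ((Ω ≃ₐ[k] Ω) ⧸ H) := Subgroup.finite_quotient_of_finiteIndex
  have : (Set.range fun σ : Ω ≃ₐ[k] Ω => σ z) ⊆ Set.range f := by
    rintro _ ⟨σ, rfl⟩
    exact ⟨QuotientGroup.mk σ, rfl⟩
  exact (Set.finite_range f).subset this

end Orbit

end Fermat.Agent.S29.H32

end
-- ===== PACK-END S29/H32/AutOrbit.lean

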