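import Mathlib
import Mathlib.RingTheory.DiscreteValuationRing.TFAE
import Mathlib.RingTheory.Ideal.AssociatedPrime.Basic
import Mathlib.RingTheory.IntegralClosure.IntegrallyClosed
import Mathlib.RingTheory.Localization.AtPrime.Basic
import Mathlib.RingTheory.Ideal.Height
import Mathlib.RingTheory.Localization.Submodule
import Mathlib.RingTheory.Ideal.Maximal
import Mathlib.RingTheory.Ideal.Operations
import Mathlib.Tactic.LinearCombination
import Mathlib.Tactic.Ring
import Mathlib.RingTheory.Ideal.GoingUp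
import Mathlib.RingTheory.DedekindDomain.Basic
import Mathlib.RingTheory.Polynomial.Quotient
import Mathlib.RingTheory.PrincipalIdealDomain
import Mathlib.RingTheory.IntegralClosure.IsIntegralClosure.Basic
import Mathlib.RingTheory.DedekindDomain.PID
import Mathlib.Algebra.Polynomial.AlgebraMap
import Mathlib.RingTheory.Ideal.Quotient.Noetherian
import Fermat.Prelude.Def_ModularCurve_X0ModL
import Fermat.Prelude.Def_ModularCurve_ModularUnit
import Fermat.Prelude.Def_ModularCurve_LaurentCoeff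
import Fermat.Agent.Pack.S44.G0E0L3

-- ===== PACK-BEGIN S24/Mod/H997Frac.lean
section


/-!
# S24 / MOD — the polynomial ring `R_N = ℚ̄[j(q^d) : d ∣ N]` inside the function field `FF N`

* `RN N`   : the `ℚ̄`-subalgebra of `ℚ̄((q))` generated by the `j(q^d)`, `d ∣ N`;
* `inclRN` : the inclusion `RN N → FF N`;
* `liftF`  : every injective ring hom `RN N →+* L` into a field extends uniquely to `FF N →+* L`.
-/

set_option autoImplicit false

noncomputable section

open ModularCurve HahnSeries IntermediateField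

namespace Fermat.Agent.S24.H997

variable (N : ℕ)

/-- The generators `j(q^d)`, `d ∣ N`, as Laurent series over `ℚ̄`. -/
def gensBar : Set (LaurentSeries Kbar) := ⇑(coeffEmb Kbar) '' divisorExpansions N

/-- The function field of `X₀(N)` over `ℚ̄` is generated over `ℚ̄` by the `j(q^d)`, `d ∣ N`. -/
theorem modularFunctionFieldBar_eq_adjoin :
    modularFunctionFieldBar N = IntermediateField.adjoin Kbar (gensBar N) := by
  apply le_antisymm
  · show laurentBaseChange Kbar (modularFunctionFieldFull N) ≤ _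
    rw [laurentBaseChange, IntermediateField.adjoin_le_iff]
    rintro _ ⟨x, hx, rfl⟩
    have hx' : x ∈ IntermediateField.adjoin ℚ (divisorExpansions N) := hx
    induction hx' using IntermediateField.adjoin_induction with
    | mem y hy => exact IntermediateField.subset_adjoin Kbar _ ⟨y, hy, rfl⟩
    | algebraMap c =>
        have h : coeffEmb Kbar (algebraMap ℚ (LaurentSeries ℚ) c)
            = algebraMap Kbar (LaurentSeries Kbar) (algebraMap ℚ Kbar c) := by
          rw [algebraMap_apply_eq_single, algebraMap_laurentSeries_eq_single, coeffEmb,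
            coeffMap_single]
        show coeffEmb Kbar (algebraMap ℚ (LaurentSeries ℚ) c) ∈ _
        rw [h]
        exact IntermediateField.algebraMap_mem _ _
    | add y z _ _ hy hz =>
        show coeffEmb Kbar (y + z) ∈ _
        rw [map_add]
        exact add_mem (hy (by assumption)) (hz (by assumption))
    | inv y _ hy =>
        show coeffEmb Kbar (y⁻¹) ∈ _
        rw [map_inv₀]
        exact inv_mem (hy (by assumption))
    | mul y z _ _ hy hz =>
        show coeffEmb Kbar (y * z) ∈ _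
        rw [map_mul]
        exact mul_mem (hy (by assumption)) (hz (by assumption))
  · show _ ≤ laurentBaseChange Kbar (modularFunctionFieldFull N)
    rw [laurentBaseChange]
    exact IntermediateField.adjoin.mono _ _ _
      (Set.image_mono (IntermediateField.subset_adjoin ℚ _))

/-- The polynomial ring `ℚ̄[j(q^d) : d ∣ N] ⊆ ℚ̄((q))`. -/
def RN : Subalgebra Kbar (LaurentSeries Kbar) := Algebra.adjoin Kbar (gensBar N)

theorem RN_le : RN N ≤ (modularFunctionFieldBar N).toSubalgebra := by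
  rw [modularFunctionFieldBar_eq_adjoin]
  exact IntermediateField.algebra_adjoin_le_adjoin Kbar (gensBar N)

/-- The inclusion `R_N → FF N`. -/
def inclRN : RN N →ₐ[Kbar] FF N := Subalgebra.inclusion (RN_le N)

@[simp] theorem coe_inclRN (r : RN N) : ((inclRN N r : FF N) : LaurentSeries Kbar) = r := rfl

theorem inclRN_injective : Function.Injective (inclRN N) :=
  Subalgebra.inclusion_injective (RN_le N)

theorem exists_div_inclRN (f : FF N) :
    ∃ r t : RN N, t ≠ 0 ∧ f = inclRN N r / inclRN N t := by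
  have hf : (f : LaurentSeries Kbar) ∈ IntermediateField.adjoin Kbar (gensBar N) := by
    rw [← modularFunctionFieldBar_eq_adjoin]; exact f.2
  obtain ⟨r, hr, s, hs, h⟩ := IntermediateField.mem_adjoin_iff_div.mp hf
  by_cases hs0 : s = 0
  · refine ⟨0, 1, one_ne_zero, ?_⟩
    apply Subtype.ext
    rw [h, hs0, div_zero]
    simp
  · refine ⟨⟨r, hr⟩, ⟨s, hs⟩, fun h0 => hs0 (congrArg Subtype.val h0), ?_⟩
    apply Subtype.ext
    rw [h]
    simp

/-- The generator `j(q^d)` as an element of `R_N`. -/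
def jR (d : ℕ) [NeZero d] (hd : d ∣ N) : RN N :=
  ⟨coeffEmb Kbar (qExpand ℚ d jq),
    Algebra.subset_adjoin ⟨_, mem_divisorExpansions N hd, rfl⟩⟩

theorem inclRN_jR_one [NeZero N] : inclRN N (jR N 1 (one_dvd N)) = jF N := by
  apply Subtype.ext
  simp [jR, jF, qExpand_one_apply]

section Lift

variable {N}
variable {L : Type*} [Field L]

/-- Extension of an injective ring hom `R_N →+* L` to the fraction field `FF N`. -/
def liftF (s : RN N →+* L) (hs : Function.Injective s) : FF N →+* L :=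
  letI : Algebra (RN N) (FF N) := (inclRN N).toRingHom.toAlgebra
  haveI : FaithfulSMul (RN N) (FF N) :=
    (faithfulSMul_iff_algebraMap_injective _ _).mpr (inclRN_injective N)
  haveI : IsFractionRing (RN N) (FF N) :=
    IsFractionRing.of_field _ _ fun z => by
      obtain ⟨r, t, -, h⟩ := exists_div_inclRN N z
      exact ⟨r, t, h⟩
  IsFractionRing.lift hs

theorem liftF_inclRN (s : RN N →+* L) (hs : Function.Injective s) (r : RN N) :
    liftF s hs (inclRN N r) = s r := by
  let _ : Algebra (RN N) (FF N) := (inclRN N).toRingHom.toAlgebra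
  have : FaithfulSMul (RN N) (FF N) :=
    (faithfulSMul_iff_algebraMap_injective _ _).mpr (inclRN_injective N)
  have : IsFractionRing (RN N) (FF N) :=
    IsFractionRing.of_field _ _ fun z => by
      obtain ⟨r, t, -, h⟩ := exists_div_inclRN N z
      exact ⟨r, t, h⟩
  exact IsFractionRing.lift_algebraMap hs r

theorem liftF_div (s : RN N →+* L) (hs : Function.Injective s) (r t : RN N) :
    liftF s hs (inclRN N r / inclRN N t) = s r / s t := by
  rw [map_div₀, liftF_inclRN, liftF_inclRN]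

theorem liftF_algebraMap (s : RN N →+* L) (hs : Function.Injective s) (c : Kbar) :
    liftF s hs (algebraMap Kbar (FF N) c) = s (algebraMap Kbar (RN N) c) := by
  rw [← liftF_inclRN s hs]
  congr 1

end Lift

end Fermat.Agent.S24.H997

end
end
-- ===== PACK-END S24/Mod/H997Frac.lean

-- ===== PACK-BEGIN S35/H858/NormAbs.lean
section


/-!
# S35, cell FROB, leaf QNF (helper858) — norms and base change, abstract part (Mathlib only)

Setting: a commutative square of fields `K → L`, `K → K'`, `L → L'`, `K' → L'` (think of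
`K' = K ⊗ Ω`, `L' = L ⊗ Ω` for a constant field extension `Ω`), and a family `ε` which is at the
same time a `K`-basis of `K'` and (after `K' → L'`) an `L`-basis of `L'`.

* `norm_map_of_basis` : if a `K`-basis `b` of `L` is mapped to a `K'`-basis of `L'`, then
  `ιK (N_{L/K} y) = N_{L'/K'} (ιL y)`;
* `linearIndependent_of_smul_basis` : converse of `linearIndependent_smul` for a basis;
* `linearIndependent_algebraMap_of_common_basis` : `K`-linearly independent families of `L` stay
  linearly independent over `K'` in `L'` (linear disjointness);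
* `exists_basis_of_common_basis` : a `K`-basis of `L` is a `K'`-basis of `L'`;
* `finite_of_common_basis` : `L' / K'` finite ⟹ `L / K` finite;
* `norm_algebraMap_of_common_basis` : `N_{L'/K'} (y) = N_{L/K} (y)` for `y ∈ L`.
-/

set_option autoImplicit false

noncomputable section

namespace Fermat.Agent.S35.H858

open Module

/-- Norms commute with a base change which maps a basis to a basis. -/
theorem norm_map_of_basis {K L K' L' : Type*} [Field K] [Field L] [Field K'] [Field L']
    [Algebra K L] [Algebra K' L'] (ιK : K →+* K') (ιL : L →+* L')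
    (hι : ∀ a : K, ιL (algebraMap K L a) = algebraMap K' L' (ιK a))
    {n : Type*} [Fintype n] [DecidableEq n] (b : Basis n K L) (b' : Basis n K' L')
    (hb : ∀ i, b' i = ιL (b i)) (y : L) :
    ιK (Algebra.norm K y) = Algebra.norm K' (ιL y) := by
  rw [Algebra.norm_eq_matrix_det b y, Algebra.norm_eq_matrix_det b' (ιL y), RingHom.map_det]
  congr 1
  ext i j
  rw [RingHom.mapMatrix_apply, Matrix.map_apply, Algebra.leftMulMatrix_eq_repr_mul,
    Algebra.leftMulMatrix_eq_repr_mul]
  -- `y * b j = ∑ i, c i • b i`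
  have h1 : y * b j = ∑ i, b.repr (y * b j) i • b i := (b.sum_repr (y * b j)).symm
  have h2 : ιL y * b' j = ∑ i, ιK (b.repr (y * b j) i) • b' i := by
    rw [hb j, ← map_mul, h1, map_sum]
    refine Finset.sum_congr rfl fun i _ => ?_
    rw [Algebra.smul_def, map_mul, hι, hb i, Algebra.smul_def]
    congr 2
    rw [← h1]
  rw [h2, map_sum]
  simp only [map_smul, Basis.repr_self, Finsupp.coe_finsetSum, Finsupp.coe_smul,
    Finset.sum_apply, Pi.smul_apply, smul_eq_mul]
  rw [Finset.sum_eq_single i]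
  · simp
  · intro k _ hk
    simp [hk]
  · intro h
    exact absurd (Finset.mem_univ i) h

/-- Converse of `linearIndependent_smul` when the first family is a basis. -/
theorem linearIndependent_of_smul_basis {R S A : Type*} [CommRing R] [Ring S] [AddCommGroup A]
    [Module R S] [Module S A] [Module R A] [IsScalarTower R S A] {J I : Type*}
    (b : Basis J R S) {c : I → A}
    (h : LinearIndependent R fun p : I × J => b p.2 • c p.1) : LinearIndependent S c := by
  rw [LinearIndependent, Finsupp.linearCombination_smul] at h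
  have hsurj : Function.Surjective
      (Finsupp.mapRange.linearMap (Finsupp.linearCombination R b) ∘ₗ
        (Finsupp.curryLinearEquiv R).toLinearMap : (I × J →₀ R) →ₗ[R] (I →₀ S)) := by
    rw [LinearMap.coe_comp]
    refine Function.Surjective.comp ?_ (Finsupp.curryLinearEquiv R).surjective
    intro l
    refine ⟨Finsupp.mapRange b.repr (map_zero _) l, ?_⟩
    ext i
    simp [Finsupp.mapRange.linearMap_apply, Finsupp.mapRange_apply, b.linearCombination_repr]
  have h2 : Function.Injective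
      ((⇑(Finsupp.linearCombination S c)) ∘
        ⇑(Finsupp.mapRange.linearMap (Finsupp.linearCombination R b) ∘ₗ
          (Finsupp.curryLinearEquiv R).toLinearMap : (I × J →₀ R) →ₗ[R] (I →₀ S))) := h
  exact Function.Injective.of_comp_right h2 hsurj

section CommonBasis

variable {K L K' L' : Type*} [Field K] [Field L] [Field K'] [Field L']
  [Algebra K L] [Algebra K K'] [Algebra K' L'] [Algebra L L'] [Algebra K L']
  [IsScalarTower K L L'] [IsScalarTower K K' L']
  {J : Type*} (ε : Basis J K K') (ε' : Basis J L L')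

include ε ε' in
/-- Linear disjointness: `K`-linearly independent families of `L` stay linearly independent
over `K'`. -/
theorem linearIndependent_algebraMap_of_common_basis
    (hε : ∀ j, ε' j = algebraMap K' L' (ε j)) {I : Type*} {v : I → L}
    (hv : LinearIndependent K v) :
    LinearIndependent K' fun i => algebraMap L L' (v i) := by
  apply linearIndependent_of_smul_basis (R := K) ε
  have h1 : LinearIndependent K fun p : I × J => v p.1 • ε' p.2 :=
    linearIndependent_smul hv ε'.linearIndependent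
  have h2 : (fun p : I × J => ε p.2 • algebraMap L L' (v p.1)) =
      fun p : I × J => v p.1 • ε' p.2 := by
    funext p
    rw [Algebra.smul_def, Algebra.smul_def, hε, mul_comm]
  rw [h2]
  exact h1

include ε ε' in
/-- A `K`-basis of `L` is a `K'`-basis of `L'`. -/
theorem exists_basis_of_common_basis (hε : ∀ j, ε' j = algebraMap K' L' (ε j))
    {n : Type*} (b : Basis n K L) :
    ∃ b' : Basis n K' L', ∀ i, b' i = algebraMap L L' (b i) := by
  have hli := linearIndependent_algebraMap_of_common_basis ε ε' hε b.linearIndependent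
  have hsp : ⊤ ≤ Submodule.span K' (Set.range fun i => algebraMap L L' (b i)) := by
    have h1 : Submodule.span K (Set.range ⇑(b.smulTower ε')) ≤
        (Submodule.span K' (Set.range fun i => algebraMap L L' (b i))).restrictScalars K := by
      rw [Submodule.span_le]
      rintro _ ⟨⟨i, j⟩, rfl⟩
      rw [Basis.smulTower_apply]
      show b i • ε' j ∈ Submodule.span K' (Set.range fun i => algebraMap L L' (b i))
      have h3 : b i • ε' j = ε j • algebraMap L L' (b i) := by
        rw [Algebra.smul_def, Algebra.smul_def, hε, mul_comm]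
      rw [h3]
      exact Submodule.smul_mem _ _ (Submodule.subset_span ⟨i, rfl⟩)
    rw [(b.smulTower ε').span_eq] at h1
    intro z _
    exact h1 (Submodule.mem_top (x := z))
  exact ⟨Basis.mk hli hsp, fun i => Basis.mk_apply hli hsp i⟩

include ε ε' in
/-- `L' / K'` finite ⟹ `L / K` finite. -/
theorem finite_of_common_basis (hε : ∀ j, ε' j = algebraMap K' L' (ε j))
    [Module.Finite K' L'] : Module.Finite K L := by
  rw [← Module.rank_lt_aleph0_iff]
  have h : Module.rank K L ≤ (Module.finrank K' L' : ℕ) := by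
    apply rank_le
    intro s hs
    have h1 := linearIndependent_algebraMap_of_common_basis ε ε' hε hs
    have h2 := h1.fintype_card_le_finrank
    simpa using h2
  exact lt_of_le_of_lt h Cardinal.natCast_lt_aleph0

include ε ε' in
/-- Norms commute with the base change. -/
theorem norm_algebraMap_of_common_basis (hε : ∀ j, ε' j = algebraMap K' L' (ε j))
    [Module.Finite K L] (y : L) :
    algebraMap K K' (Algebra.norm K y) = Algebra.norm K' (algebraMap L L' y) := by
  classical
  obtain ⟨b', hb'⟩ := exists_basis_of_common_basis ε ε' hε (Module.finBasis K L)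
  refine norm_map_of_basis (algebraMap K K') (algebraMap L L') (fun a => ?_)
    (Module.finBasis K L) b' hb' y
  rw [← IsScalarTower.algebraMap_apply K L L', ← IsScalarTower.algebraMap_apply K K' L']

end CommonBasis

end Fermat.Agent.S35.H858

end
end
-- ===== PACK-END S35/H858/NormAbs.lean

-- ===== PACK-BEGIN A2/Mod/H31/Biv.lean
section


/-!
# A2 / MOD leaf L8 (helper31) — part 1: bivariate degree lemmas (Mathlib only)

`k ⊆ L` fields, `a b : L`, `a` transcendental over `k`.  For an irreducible `P ∈ k[X][Y]` of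
positive `Y`-degree with `P(a, b) = 0` we have `[k(a)(b) : k(a)] = deg_Y P`
(`finrank_adjoin_of_irreducible`).  For a polynomial `A`, monic of degree `n` in `Y`, with
`A(a, b) = A(b, a) = 0` and `[k(a)(b) : k(a)] = n`, the polynomial `A` is symmetric up to a constant
(`exists_swap_eq`) and `[k(ab)(a) : k(ab)] = 2 n` (`finrank_adjoin_mul`).
-/

set_option autoImplicit false

noncomputable section

namespace Fermat.Agent.A2.Mod.H31

open Polynomial IntermediateField
open scoped Polynomial.Bivariate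

section Biv

variable {k L : Type*} [Field k] [Field L] [Algebra k L]

/-- The image of a bivariate polynomial over `k` in `k(a)[Y]`, `X ↦ a`. -/
def bivMap (a : L) : k[X][Y] →+* (k⟮a⟯)[X] :=
  mapRingHom (aeval (AdjoinSimple.gen k a)).toRingHom

theorem transcendental_gen {a : L} (ha : Transcendental k a) :
    Transcendental k (AdjoinSimple.gen k a) := by
  intro h
  apply ha
  have := h.algebraMap (A := L)
  simpa using this

theorem aeval_gen_injective {a : L} (ha : Transcendental k a) :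
    Function.Injective (aeval (R := k) (AdjoinSimple.gen k a)).toRingHom :=
  transcendental_iff_injective.mp (transcendental_gen ha)

theorem bivMap_injective {a : L} (ha : Transcendental k a) :
    Function.Injective (bivMap (k := k) a) :=
  Polynomial.map_injective _ (aeval_gen_injective ha)

theorem aevalAeval_eq_eval₂ (a b : L) (P : k[X][Y]) :
    aevalAeval a b P = eval₂ (aeval (R := k) a).toRingHom b P := by
  induction P using Polynomial.induction_on' with
  | add p q hp hq => simp only [eval₂_add, map_add, hp, hq]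
  | monomial n c =>
    rw [eval₂_monomial, ← C_mul_X_pow_eq_monomial, map_mul, map_pow, aevalAeval_C, aevalAeval_Y]
    rfl

theorem aeval_bivMap (a b : L) (P : k[X][Y]) :
    aeval b (bivMap a P) = aevalAeval a b P := by
  have h : (algebraMap k⟮a⟯ L).comp (aeval (R := k) (AdjoinSimple.gen k a)).toRingHom
      = (aeval (R := k) a).toRingHom := by
    apply Polynomial.ringHom_ext
    · intro r; simp
    · simp
  rw [bivMap, coe_mapRingHom, aeval_def, eval₂_map, h, aevalAeval_eq_eval₂]

/-- The algebra structure `k[X] → k(a)`, `X ↦ a`. -/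
@[reducible] def algPoly (a : L) : Algebra k[X] k⟮a⟯ :=
  (aeval (R := k) (AdjoinSimple.gen k a)).toRingHom.toAlgebra

theorem isFractionRing_poly {a : L} (ha : Transcendental k a) :
    letI := algPoly (k := k) a
    IsFractionRing k[X] k⟮a⟯ := by
  letI := algPoly (k := k) a
  haveI : FaithfulSMul k[X] k⟮a⟯ :=
    (faithfulSMul_iff_algebraMap_injective _ _).mpr (aeval_gen_injective ha)
  refine IsFractionRing.of_field _ _ fun x => ?_
  obtain ⟨r, s, hrs⟩ := (mem_adjoin_simple_iff k (x : L)).mp x.2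
  refine ⟨r, s, Subtype.ext ?_⟩
  rw [hrs]
  have h1 : ∀ p : k[X], ((algebraMap k[X] k⟮a⟯ p : k⟮a⟯) : L) = aeval a p := by
    intro p
    show ((aeval (R := k) (AdjoinSimple.gen k a) p : k⟮a⟯) : L) = aeval a p
    rw [← IntermediateField.algebraMap_apply, ← aeval_algebraMap_apply, AdjoinSimple.algebraMap_gen]
  push_cast
  rw [h1, h1]

theorem irreducible_bivMap {a : L} (ha : Transcendental k a) {P : k[X][Y]}
    (hP : Irreducible P) (hdeg : P.natDegree ≠ 0) : Irreducible (bivMap a P) := by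
  letI := algPoly (k := k) a
  haveI := isFractionRing_poly ha
  exact (IsPrimitive.irreducible_iff_irreducible_map_fraction_map (K := k⟮a⟯)
    (hP.isPrimitive hdeg)).mp hP

theorem natDegree_bivMap {a : L} (ha : Transcendental k a) (P : k[X][Y]) :
    (bivMap a P).natDegree = P.natDegree :=
  natDegree_map_eq_of_injective (aeval_gen_injective ha) P

/-- **Degree from an irreducible relation.** -/
theorem minpoly_eq_of_irreducible {a b : L} (ha : Transcendental k a) {P : k[X][Y]}
    (hP : Irreducible P) (hdeg : P.natDegree ≠ 0) (h0 : aevalAeval a b P = 0) :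
    minpoly k⟮a⟯ b = bivMap a P * C (bivMap a P).leadingCoeff⁻¹ :=
  (minpoly.eq_of_irreducible (irreducible_bivMap ha hP hdeg)
    ((aeval_bivMap a b P).trans h0)).symm

theorem isIntegral_of_irreducible {a b : L} (ha : Transcendental k a) {P : k[X][Y]}
    (hP : Irreducible P) (hdeg : P.natDegree ≠ 0) (h0 : aevalAeval a b P = 0) :
    IsIntegral k⟮a⟯ b := by
  have hne : bivMap a P ≠ 0 := (irreducible_bivMap ha hP hdeg).ne_zero
  exact (isAlgebraic_iff_isIntegral).mp ⟨bivMap a P, hne, (aeval_bivMap a b P).trans h0⟩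

theorem finrank_adjoin_of_irreducible {a b : L} (ha : Transcendental k a) {P : k[X][Y]}
    (hP : Irreducible P) (hdeg : P.natDegree ≠ 0) (h0 : aevalAeval a b P = 0) :
    Module.finrank k⟮a⟯ (k⟮a⟯)⟮b⟯ = P.natDegree := by
  have hne : bivMap a P ≠ 0 := (irreducible_bivMap ha hP hdeg).ne_zero
  rw [adjoin.finrank (isIntegral_of_irreducible ha hP hdeg h0),
    minpoly_eq_of_irreducible ha hP hdeg h0,
    natDegree_mul_C (inv_ne_zero (leadingCoeff_ne_zero.mpr hne)), natDegree_bivMap ha]

/-- A monic relation of the right degree is irreducible, and is the minimal polynomial. -/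
theorem irreducible_of_monic_of_finrank {a b : L} (ha : Transcendental k a) {P : k[X][Y]}
    (hP : P.Monic) (h0 : aevalAeval a b P = 0)
    (hfr : Module.finrank k⟮a⟯ (k⟮a⟯)⟮b⟯ = P.natDegree) :
    Irreducible P ∧ bivMap a P = minpoly k⟮a⟯ b := by
  have hmon : (bivMap a P).Monic := hP.map _
  have hroot : aeval b (bivMap a P) = 0 := (aeval_bivMap a b P).trans h0
  have hint : IsIntegral k⟮a⟯ b := ⟨_, hmon, hroot⟩
  have hdeg : (minpoly k⟮a⟯ b).natDegree = (bivMap a P).natDegree := by
    rw [← adjoin.finrank hint, hfr, natDegree_bivMap ha]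
  have heq : bivMap a P = minpoly k⟮a⟯ b :=
    Polynomial.eq_of_monic_of_dvd_of_natDegree_le (minpoly.monic hint) hmon
      (minpoly.dvd k⟮a⟯ b hroot) hdeg.ge
  refine ⟨?_, heq⟩
  apply Monic.irreducible_of_irreducible_map (aeval (R := k) (AdjoinSimple.gen k a)).toRingHom P hP
  show Irreducible (bivMap a P)
  rw [heq]
  exact minpoly.irreducible hint

/-- **Symmetry of the modular equation** (up to a constant). -/
theorem exists_swap_eq {a b : L} (ha : Transcendental k a) {A : k[X][Y]}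
    (hA : A.Monic) (h0 : aevalAeval a b A = 0) (h0' : aevalAeval b a A = 0)
    (hfr : Module.finrank k⟮a⟯ (k⟮a⟯)⟮b⟯ = A.natDegree) :
    ∃ c : k, c ≠ 0 ∧ Bivariate.swap A = C (C c) * A := by
  obtain ⟨-, heq⟩ := irreducible_of_monic_of_finrank ha hA h0 hfr
  have hdvd : A ∣ Bivariate.swap A := by
    rw [← Polynomial.modByMonic_eq_zero_iff_dvd hA]
    apply bivMap_injective ha
    rw [map_zero]
    show (Bivariate.swap A %ₘ A).map _ = 0
    rw [Polynomial.map_modByMonic _ hA]
    show bivMap a (Bivariate.swap A) %ₘ bivMap a A = 0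
    have hmon : (bivMap a A).Monic := hA.map _
    rw [Polynomial.modByMonic_eq_zero_iff_dvd hmon, heq]
    apply minpoly.dvd
    rw [aeval_bivMap, Bivariate.aevalAeval_swap]
    exact h0'
  obtain ⟨C₁, hC₁⟩ := hdvd
  have h2 : A * (C₁ * Bivariate.swap C₁) = A * 1 := by
    have := congrArg Bivariate.swap hC₁
    rw [Bivariate.swap_swap_apply, map_mul, hC₁] at this
    rw [mul_one, ← mul_assoc]
    exact this.symm
  have h3 : C₁ * Bivariate.swap C₁ = 1 := mul_left_cancel₀ hA.ne_zero h2
  have hu : IsUnit C₁ := IsUnit.of_mul_eq_one _ h3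
  obtain ⟨r, hr, rfl⟩ := Polynomial.isUnit_iff.mp hu
  obtain ⟨c, hc, rfl⟩ := Polynomial.isUnit_iff.mp hr
  exact ⟨c, hc.ne_zero, by rw [hC₁, mul_comm]⟩

theorem coeff_coeff_swap {R : Type*} [CommSemiring R] (P : R[X][Y]) (i m : ℕ) :
    ((Bivariate.swap P).coeff i).coeff m = (P.coeff m).coeff i := by
  induction P using Polynomial.induction_on' with
  | add p q hp hq => simp only [map_add, coeff_add, hp, hq]
  | monomial n c =>
    induction c using Polynomial.induction_on' with
    | add p q hp hq => simp only [map_add, coeff_add, hp, hq]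
    | monomial j r =>
      rw [Bivariate.swap_monomial_monomial, coeff_monomial, coeff_monomial]
      by_cases h1 : j = i <;> by_cases h2 : n = m <;> simp [h1, h2, coeff_monomial]

/-- Inner degree bound from the symmetry. -/
theorem coeff_coeff_eq_zero_of_swap {A : k[X][Y]} {c : k}
    (hsw : Bivariate.swap A = C (C c) * A) (m i : ℕ) (hi : A.natDegree < i) :
    (A.coeff m).coeff i = 0 := by
  rw [← coeff_coeff_swap, hsw, coeff_C_mul, coeff_C_mul, coeff_eq_zero_of_natDegree_lt hi,
    coeff_zero, mul_zero]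

theorem coeff_coeff_natDegree_of_swap {A : k[X][Y]} {c : k} (hA : A.Monic)
    (hsw : Bivariate.swap A = C (C c) * A) :
    (A.coeff 0).coeff A.natDegree = c := by
  rw [← coeff_coeff_swap, hsw, coeff_C_mul, coeff_C_mul, coeff_natDegree, hA.leadingCoeff,
    coeff_one_zero, mul_one]

/-- The `Y`-degree of `swap (Xⁿ A(X, Y/X))` is `2 n`. -/
theorem natDegree_swap_scaleRoots {A : k[X][Y]} {c : k} (hc : c ≠ 0) (hA : A.Monic)
    (hsw : Bivariate.swap A = C (C c) * A) :
    (Bivariate.swap (scaleRoots A (X : k[X]))).natDegree = 2 * A.natDegree := by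
  have key : ∀ i m : ℕ, ((Bivariate.swap (scaleRoots A (X : k[X]))).coeff i).coeff m
      = (A.coeff m * X ^ (A.natDegree - m)).coeff i := by
    intro i m
    rw [coeff_coeff_swap, coeff_scaleRoots]
  apply le_antisymm
  · rw [natDegree_le_iff_coeff_eq_zero]
    intro N hN
    ext m
    rw [key, coeff_zero, coeff_mul_X_pow']
    split_ifs with h
    · by_cases hm : m ≤ A.natDegree
      · apply coeff_coeff_eq_zero_of_swap hsw
        omega
      · rw [coeff_eq_zero_of_natDegree_lt (not_le.mp hm), coeff_zero]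
    · rfl
  · apply le_natDegree_of_ne_zero
    intro h
    have h1 : ((Bivariate.swap (scaleRoots A (X : k[X]))).coeff (2 * A.natDegree)).coeff 0
        = 0 := by rw [h, coeff_zero]
    rw [key, Nat.sub_zero, coeff_mul_X_pow', if_pos (by omega)] at h1
    have h2 : 2 * A.natDegree - A.natDegree = A.natDegree := by omega
    rw [h2, coeff_coeff_natDegree_of_swap hA hsw] at h1
    exact hc h1

theorem aevalAeval_scaleRoots (a b : L) (A : k[X][Y]) :
    aevalAeval a (a * b) (scaleRoots A (X : k[X])) = a ^ A.natDegree * aevalAeval a b A := by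
  rw [aevalAeval_eq_eval₂, aevalAeval_eq_eval₂]
  have := scaleRoots_eval₂_mul (p := A) (aeval (R := k) a).toRingHom b (X : k[X])
  simpa using this

/-- **The degree of `k(a, b)` over `k(ab)`** for a pair `(a, b)` satisfying a symmetric monic
relation of degree `n = [k(a,b) : k(a)]`: it is `2 n`. -/
theorem finrank_adjoin_mul {a b : L} (ha : Transcendental k a) (hx : Transcendental k (a * b))
    {A : k[X][Y]} (hA : A.Monic) (h0 : aevalAeval a b A = 0) (h0' : aevalAeval b a A = 0)
    (hfr : Module.finrank k⟮a⟯ (k⟮a⟯)⟮b⟯ = A.natDegree) :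
    Module.finrank k⟮a * b⟯ (k⟮a * b⟯)⟮a⟯ = 2 * A.natDegree := by
  have ha0 : a ≠ 0 := by
    rintro rfl
    exact ha isAlgebraic_zero
  have hn : A.natDegree ≠ 0 := by
    intro hn
    have h1 : A = 1 := by
      exact hA.natDegree_eq_zero.mp hn
    rw [h1, map_one] at h0
    exact one_ne_zero h0
  -- `k(a)(ab) = k(a)(b)`
  have hfields : (k⟮a⟯)⟮a * b⟯ = (k⟮a⟯)⟮b⟯ := by
    have hamem : ∀ F : IntermediateField k⟮a⟯ L, a ∈ F := fun F =>
      F.algebraMap_mem (⟨a, mem_adjoin_simple_self k a⟩ : k⟮a⟯)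
    apply le_antisymm
    · rw [adjoin_simple_le_iff]
      exact mul_mem (hamem _) (mem_adjoin_simple_self _ b)
    · rw [adjoin_simple_le_iff]
      have h1 : a⁻¹ * (a * b) = b := by field_simp
      have h2 : a⁻¹ * (a * b) ∈ (k⟮a⟯)⟮a * b⟯ :=
        mul_mem (inv_mem (hamem _)) (mem_adjoin_simple_self _ (a * b))
      rwa [h1] at h2
  obtain ⟨c, hc, hsw⟩ := exists_swap_eq ha hA h0 h0' hfr
  -- the scaled polynomial
  have hG'mon : (scaleRoots A (X : k[X])).Monic := (monic_scaleRoots_iff _).mpr hA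
  have hG'0 : aevalAeval a (a * b) (scaleRoots A (X : k[X])) = 0 := by
    rw [aevalAeval_scaleRoots, h0, mul_zero]
  have hG'fr : Module.finrank k⟮a⟯ (k⟮a⟯)⟮a * b⟯ = (scaleRoots A (X : k[X])).natDegree := by
    rw [natDegree_scaleRoots, hfields, hfr]
  obtain ⟨hG'irr, -⟩ := irreducible_of_monic_of_finrank ha hG'mon hG'0 hG'fr
  have hGirr : Irreducible (Bivariate.swap (scaleRoots A (X : k[X]))) :=
    (MulEquiv.irreducible_iff (Bivariate.swap (R := k))).mpr hG'irr
  have hGdeg := natDegree_swap_scaleRoots hc hA hsw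
  have hG0 : aevalAeval (a * b) a (Bivariate.swap (scaleRoots A (X : k[X]))) = 0 := by
    rw [Bivariate.aevalAeval_swap]
    exact hG'0
  rw [finrank_adjoin_of_irreducible hx hGirr (by rw [hGdeg]; omega) hG0, hGdeg]

end Biv

end Fermat.Agent.A2.Mod.H31

end

end
-- ===== PACK-END A2/Mod/H31/Biv.lean

-- ===== PACK-BEGIN A2/H969/Krull.lean
section







/-!
# A2 / KRULL: divisorial behaviour of principal ideals in a noetherian normal domain
(Mathlib only; supports the node purity lemma (P) of `origin/helper609:coord/A2-helper609.md`)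

`R` a noetherian integrally closed domain, `u ≠ 0`.

* `isPrincipal_maximalIdeal_of_colon` : local case.  If `b ∉ (a)` and `b • 𝔪 ⊆ (a)` then `𝔪` is
  principal.
* `isDiscreteValuationRing_of_isAssociatedPrime` : for every associated prime `P` of `R ⧸ (u)`,
  `Localization.AtPrime P` is a discrete valuation ring.
* `mem_span_singleton_of_forall_isAssociatedPrime` : (any noetherian ring) if `x` lies in
  `u R_P` for every associated prime `P` of `R ⧸ (u)`, then `x ∈ (u)`.
* `isSMulRegular_quotient_of_not_mem` / `mul_mem_span_singleton_cancel` :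
  if `π` lies in no associated prime of `R ⧸ (u)` then `π * x ∈ (u) → x ∈ (u)`.
-/

set_option autoImplicit false
set_option linter.style.haveILetI false

namespace Fermat.Agent.A2.H969

open IsLocalRing

section Local

variable {R : Type*} [CommRing R] [IsDomain R] [IsLocalRing R] [IsNoetherianRing R]
  [IsIntegrallyClosed R]

/-- In a noetherian integrally closed local domain: if `b ∉ (a)` and `b • 𝔪 ⊆ (a)`, then the
maximal ideal is principal.  (The key step of "normal of dimension one ⇒ DVR", isolated.) -/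
theorem isPrincipal_maximalIdeal_of_colon (a b : R) (ha : a ≠ 0) (ha₁ : a ∈ maximalIdeal R)
    (hb₂ : b ∉ Ideal.span {a})
    (hb₃ : ∀ m ∈ maximalIdeal R, ∃ k : R, k * a = b * m) :
    (maximalIdeal R).IsPrincipal := by
  classical
  have hb₄ : b ≠ 0 := by rintro rfl; apply hb₂; exact zero_mem _
  let K := FractionRing R
  let x : K := algebraMap R K b / algebraMap R K a
  let M := Submodule.map (Algebra.linearMap R K) (maximalIdeal R)
  have ha₃ : algebraMap R K a ≠ 0 := IsFractionRing.to_map_eq_zero_iff.not.mpr ha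
  by_cases hx : ∀ y ∈ M, x * y ∈ M
  · have := isIntegral_of_smul_mem_submodule M ?_ ?_ x hx
    · obtain ⟨y, e⟩ := IsIntegrallyClosed.algebraMap_eq_of_integral this
      refine (hb₂ (Ideal.mem_span_singleton'.mpr ⟨y, ?_⟩)).elim
      apply IsFractionRing.injective R K
      rw [map_mul, e, div_mul_cancel₀ _ ha₃]
    · rw [Submodule.ne_bot_iff]; refine ⟨_, ⟨a, ha₁, rfl⟩, ?_⟩
      exact (IsFractionRing.to_map_eq_zero_iff (K := K)).not.mpr ha
    · apply Submodule.FG.map; exact IsNoetherian.noetherian _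
  · have :
        (M.map (DistribSMul.toLinearMap R K x)).comap (Algebra.linearMap R K) = ⊤ := by
      contrapose! hx with h
      rintro m' ⟨m, hm, rfl : algebraMap R K m = m'⟩
      obtain ⟨k, hk⟩ := hb₃ m hm
      have hk' : x * algebraMap R K m = algebraMap R K k := by
        rw [← mul_div_right_comm, ← map_mul, ← hk, map_mul, mul_div_cancel_right₀ _ ha₃]
      exact ⟨k, le_maximalIdeal h ⟨_, ⟨_, hm, rfl⟩, hk'⟩, hk'.symm⟩
    obtain ⟨y, hy₁, hy₂⟩ : ∃ y ∈ maximalIdeal R, b * y = a := by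
      rw [Ideal.eq_top_iff_one, Submodule.mem_comap] at this
      obtain ⟨_, ⟨y, hy, rfl⟩, hy' : x * algebraMap R K y = algebraMap R K 1⟩ := this
      rw [map_one, ← mul_div_right_comm, div_eq_one_iff_eq ha₃, ← map_mul] at hy'
      exact ⟨y, hy, IsFractionRing.injective R K hy'⟩
    refine ⟨⟨y, ?_⟩⟩
    apply le_antisymm
    · intro m hm; obtain ⟨k, hk⟩ := hb₃ m hm; rw [← hy₂, mul_comm, mul_assoc] at hk
      rw [← mul_left_cancel₀ hb₄ hk, mul_comm]; exact Ideal.mem_span_singleton'.mpr ⟨_, rfl⟩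
    · rwa [Submodule.span_le, Set.singleton_subset_iff]

end Local

section Colon

variable {R : Type*} [CommRing R]

/-- Membership in the annihilator of the class of `x` in `R ⧸ (u)`. -/
theorem mem_colon_bot_mk_iff (u x r : R) :
    r ∈ (⊥ : Submodule R (R ⧸ Ideal.span {u})).colon {Ideal.Quotient.mk (Ideal.span {u}) x} ↔
      r * x ∈ Ideal.span {u} := by
  rw [Submodule.mem_colon_singleton, Submodule.mem_bot, ← Ideal.Quotient.eq_zero_iff_mem,
    map_mul]
  rfl

/-- **Krull intersection property, associated-prime form** (any noetherian ring):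
if for every associated prime `P` of `R ⧸ (u)` there is `s ∉ P` with `s * x ∈ (u)`,
then `x ∈ (u)`. -/
theorem mem_span_singleton_of_forall_isAssociatedPrime [IsNoetherianRing R] (u x : R)
    (h : ∀ P : Ideal R, IsAssociatedPrime P (R ⧸ Ideal.span {u}) →
      ∃ s : R, s ∉ P ∧ s * x ∈ Ideal.span {u}) : x ∈ Ideal.span {u} := by
  by_contra hx
  have hx' : Ideal.Quotient.mk (Ideal.span {u}) x ≠ 0 := by
    rwa [Ne, Ideal.Quotient.eq_zero_iff_mem]
  obtain ⟨P, hP, hle⟩ := exists_le_isAssociatedPrime_of_isNoetherianRing R _ hx'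
  obtain ⟨s, hs, hsx⟩ := h P hP
  exact hs (hle ((mem_colon_bot_mk_iff u x s).2 hsx))

/-- If `π` lies in no associated prime of `R ⧸ (u)`, then `π` is a nonzerodivisor modulo `u`. -/
theorem mem_span_singleton_of_mul_mem [IsNoetherianRing R] (u π x : R)
    (hπ : ∀ P : Ideal R, IsAssociatedPrime P (R ⧸ Ideal.span {u}) → π ∉ P)
    (hx : π * x ∈ Ideal.span {u}) : x ∈ Ideal.span {u} := by
  refine mem_span_singleton_of_forall_isAssociatedPrime u x fun P hP => ⟨π, hπ P hP, hx⟩

end Colon

section Global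

variable {R : Type*} [CommRing R] [IsDomain R] [IsNoetherianRing R] [IsIntegrallyClosed R]

/-- **KRULL.**  In a noetherian integrally closed domain, the localisation at an associated prime
of a nonzero principal ideal is a discrete valuation ring. -/
theorem isDiscreteValuationRing_of_isAssociatedPrime (u : R) (hu : u ≠ 0) (P : Ideal R)
    [hPp : P.IsPrime] (hP : IsAssociatedPrime P (R ⧸ Ideal.span {u})) :
    IsDiscreteValuationRing (Localization.AtPrime P) := by
  classical
  obtain ⟨-, xb, hPx⟩ := isAssociatedPrime_iff.1 hP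
  obtain ⟨x, rfl⟩ := Ideal.Quotient.mk_surjective xb
  have hmem : ∀ r : R, r ∈ P ↔ r * x ∈ Ideal.span {u} := fun r => by
    rw [hPx]; exact mem_colon_bot_mk_iff u x r
  set S := Localization.AtPrime P
  have hle : P.primeCompl ≤ nonZeroDivisors R := by
    intro s hs
    exact mem_nonZeroDivisors_of_ne_zero (fun h => hs (h ▸ P.zero_mem))
  haveI : IsDomain S := IsLocalization.isDomain_localization hle
  haveI : IsIntegrallyClosed S := isIntegrallyClosed_of_isLocalization S P.primeCompl hle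
  haveI : IsNoetherianRing S := IsLocalization.isNoetherianRing P.primeCompl S inferInstance
  have hinj : Function.Injective (algebraMap R S) := IsLocalization.injective S hle
  have huP : u ∈ P := (hmem u).2 (Ideal.mem_span_singleton'.2 ⟨x, mul_comm _ _⟩)
  have ha : algebraMap R S u ≠ 0 := by rwa [Ne, map_eq_zero_iff _ hinj]
  have ha₁ : algebraMap R S u ∈ maximalIdeal S :=
    (IsLocalization.AtPrime.to_map_mem_maximal_iff S P u).2 huP
  have hb₂ : algebraMap R S x ∉ Ideal.span {algebraMap R S u} := by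
    intro hmemb
    obtain ⟨c, hc⟩ := Ideal.mem_span_singleton'.1 hmemb
    obtain ⟨r, s, rfl⟩ := IsLocalization.exists_mk'_eq P.primeCompl c
    have h1 : algebraMap R S (r * u) = algebraMap R S (s * x) := by
      rw [map_mul, map_mul, ← hc, ← mul_assoc, IsLocalization.mk'_spec' (M := P.primeCompl)]
    have h2 : (s : R) * x ∈ Ideal.span {u} := by
      rw [← hinj h1]
      exact Ideal.mem_span_singleton'.2 ⟨r, rfl⟩
    exact s.2 ((hmem s).2 h2)
  have hb₃ : ∀ m ∈ maximalIdeal S, ∃ k : S, k * algebraMap R S u = algebraMap R S x * m := by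
    intro m hm
    obtain ⟨p, s, rfl⟩ := IsLocalization.exists_mk'_eq P.primeCompl m
    have hp : p ∈ P := by
      have := (IsLocalization.AtPrime.mk'_mem_maximal_iff S P p s).1 hm
      exact this
    obtain ⟨k, hk⟩ := Ideal.mem_span_singleton'.1 ((hmem p).1 hp)
    refine ⟨IsLocalization.mk' S k s, ?_⟩
    rw [mul_comm _ (algebraMap R S u), IsLocalization.mul_mk'_eq_mk'_of_mul,
      IsLocalization.mul_mk'_eq_mk'_of_mul, mul_comm u k, hk, mul_comm p x]
  have hprin : (maximalIdeal S).IsPrincipal :=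
    isPrincipal_maximalIdeal_of_colon _ _ ha ha₁ hb₂ hb₃
  have hnf : ¬ IsField S := by
    rw [IsLocalRing.isField_iff_maximalIdeal_eq]
    intro h
    rw [h] at ha₁
    exact ha ha₁
  exact ((IsDiscreteValuationRing.TFAE S hnf).out 0 4).2 hprin

/-- Associated primes of nonzero principal ideals have height one. -/
theorem height_eq_one_of_isAssociatedPrime (u : R) (hu : u ≠ 0) (P : Ideal R)
    [hPp : P.IsPrime] (hP : IsAssociatedPrime P (R ⧸ Ideal.span {u})) : P.height = 1 := by
  haveI := isDiscreteValuationRing_of_isAssociatedPrime u hu P hP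
  have h1 := IsLocalization.AtPrime.ringKrullDim_eq_height P (Localization.AtPrime P)
  rw [IsDiscreteValuationRing.ringKrullDim_eq_one] at h1
  exact_mod_cast h1.symm

omit [IsDomain R] [IsIntegrallyClosed R] in
/-- An associated prime of `R ⧸ (u ^ j)` contains `u`. -/
theorem mem_of_isAssociatedPrime_pow (u : R) (j : ℕ) (P : Ideal R)
    (hP : IsAssociatedPrime P (R ⧸ Ideal.span {u ^ j})) : u ∈ P := by
  haveI := hP.isPrime
  obtain ⟨-, xb, hPx⟩ := isAssociatedPrime_iff.1 hP
  obtain ⟨x, rfl⟩ := Ideal.Quotient.mk_surjective xb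
  have : u ^ j ∈ P := by
    rw [hPx, mem_colon_bot_mk_iff]
    exact Ideal.mem_span_singleton'.2 ⟨x, mul_comm _ _⟩
  exact Ideal.IsPrime.mem_of_pow_mem inferInstance j this

/-- **Regularity criterion.**  If no prime `P` with `u, π ∈ P` has `R_P` a DVR (e.g. `u` lies in
no height-one prime containing `π`), then `π` is a nonzerodivisor modulo `u ^ j`. -/
theorem dvd_of_dvd_mul_of_forall_not_dvr (u : R) (hu : u ≠ 0) (π : R)
    (h : ∀ (P : Ideal R) [P.IsPrime], u ∈ P → π ∈ P →
      ¬ IsDiscreteValuationRing (Localization.AtPrime P))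
    (j : ℕ) (x : R) (hx : u ^ j ∣ π * x) : u ^ j ∣ x := by
  rw [← Ideal.mem_span_singleton] at hx ⊢
  refine mem_span_singleton_of_mul_mem (u ^ j) π x (fun P hP hπP => ?_) hx
  haveI := hP.isPrime
  exact h P (mem_of_isAssociatedPrime_pow u j P hP) hπP
    (isDiscreteValuationRing_of_isAssociatedPrime (u ^ j) (pow_ne_zero j hu) P hP)

/-- **Krull intersection property** (`R = ⋂ R_P` over the primes `P` with `R_P` a DVR):
if `y` is divisible by `u` in `R_P` for every prime `P` such that `R_P` is a DVR, then `u ∣ y`. -/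
theorem dvd_of_forall_dvr (u : R) (hu : u ≠ 0) (y : R)
    (h : ∀ (P : Ideal R) [P.IsPrime], IsDiscreteValuationRing (Localization.AtPrime P) →
      ∃ s : R, s ∉ P ∧ u ∣ s * y) : u ∣ y := by
  rw [← Ideal.mem_span_singleton]
  refine mem_span_singleton_of_forall_isAssociatedPrime u y fun P hP => ?_
  haveI := hP.isPrime
  obtain ⟨s, hs, hsy⟩ := h P (isDiscreteValuationRing_of_isAssociatedPrime u hu P hP)
  exact ⟨s, hs, Ideal.mem_span_singleton.2 hsy⟩

/-- **Unit criterion.**  An element lying in no prime `P` with `R_P` a DVR is a unit. -/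
theorem isUnit_of_forall_dvr_not_mem (u : R) (hu : u ≠ 0)
    (h : ∀ (P : Ideal R) [P.IsPrime], IsDiscreteValuationRing (Localization.AtPrime P) → u ∉ P) :
    IsUnit u := by
  have : u ∣ 1 := by
    refine dvd_of_forall_dvr u hu 1 fun P _ hdvr => ⟨u, h P hdvr, ?_⟩
    rw [mul_one]
  exact isUnit_of_dvd_one this

end Global

end Fermat.Agent.A2.H969

end
-- ===== PACK-END A2/H969/Krull.lean

-- ===== PACK-BEGIN A2/H852/Thickness.lean
section
/-
A2 / piece THICK (helper852): FINITE THICKNESS at a crossing point, pure algebra, Mathlib only.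

Setting: `R` a domain (in the application: the local ring of the normal model of `X₀(qM)` at a
point where the two components of the special fibre meet), `ℓ ∈ R` (the uniformiser of the base),
`𝔭₁ 𝔭₂` the two branches (`𝔭₁ ∩ 𝔭₂ ⊆ ℓR`, `𝔭₁ + 𝔭₂ ≠ R`), `S ∉ 𝔭₁`, `T ∉ 𝔭₂` with
`S * T = ℓ ^ n * h`.  If there are `D D' : R` with `D * D' = ℓ ^ c`, `D ∉ 𝔭₁` and
`D ≡ ε * S ^ k (mod 𝔭₁)`, then `k * n ≤ c`.

In the application `D = Δ(t)/Δ(t^q)`, `D' = q¹² Δ(t^q)/Δ(t)` (integral over `ℤ[j]` by the landed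
S28 `UnitPolyData`), `c = 12`, and `k ≥ 1` is the order of vanishing of `D mod 𝔭₁` at the crossing
point.  So the node iteration `node_normal_form_or` of `A2/H189/NodeAlg.lean` stops after at most
`12` steps: the thickness of every node of `X₀(qM)` at `q` is finite (and `≤ 12`), with NO
completion, NO excellence, NO analytic normality.
-/





set_option autoImplicit false

namespace Fermat.Agent.A2.H852

open Ideal

variable {R : Type*} [CommRing R] [IsDomain R]

/-- Divisibility step: under the hypotheses, `ℓ ^ j ∣ S ^ k * D'` for all `j ≤ c`, provided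
`c ≤ k * n`. -/
theorem pow_dvd_mul_of_le (𝔭₁ 𝔭₂ : Ideal R) [𝔭₁.IsPrime] [𝔭₂.IsPrime] (ℓ S T h D D' : R)
    (n c k : ℕ) (hℓ0 : ℓ ≠ 0) (hℓ₁ : ℓ ∈ 𝔭₁) (hℓ₂ : ℓ ∈ 𝔭₂)
    (hcap : ∀ z, z ∈ 𝔭₁ → z ∈ 𝔭₂ → ℓ ∣ z)
    (hT : T ∉ 𝔭₂) (hST : S * T = ℓ ^ n * h) (hDD : D * D' = ℓ ^ c) (hD : D ∉ 𝔭₁)
    (hkn : c ≤ k * n) :
    ∀ j, j ≤ c → ℓ ^ j ∣ S ^ k * D' := by
  intro j
  induction j with
  | zero => intro _; simp
  | succ j ih =>
    intro hj
    obtain ⟨z, hz⟩ := ih (Nat.le_of_succ_le hj)
    have hjc : j < c := hj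
    have hℓj : ℓ ^ j ≠ 0 := pow_ne_zero _ hℓ0
    -- `z ∈ 𝔭₁`
    have h1 : z * D = ℓ ^ (c - j) * S ^ k := by
      apply mul_left_cancel₀ hℓj
      calc ℓ ^ j * (z * D) = (ℓ ^ j * z) * D := by ring
        _ = (S ^ k * D') * D := by rw [hz]
        _ = S ^ k * (D * D') := by ring
        _ = S ^ k * ℓ ^ c := by rw [hDD]
        _ = S ^ k * (ℓ ^ j * ℓ ^ (c - j)) := by
            rw [← pow_add, Nat.add_sub_cancel' hjc.le]
        _ = ℓ ^ j * (ℓ ^ (c - j) * S ^ k) := by ring
    have hz1 : z ∈ 𝔭₁ := by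
      have hmem : z * D ∈ 𝔭₁ := by
        rw [h1]
        apply Ideal.mul_mem_right
        exact Ideal.pow_mem_of_mem _ hℓ₁ _ (Nat.sub_pos_of_lt hjc)
      rcases (Ideal.IsPrime.mem_or_mem ‹𝔭₁.IsPrime› hmem) with h | h
      · exact h
      · exact absurd h hD
    -- `z ∈ 𝔭₂`
    have hjkn : j < k * n := lt_of_lt_of_le hjc hkn
    have h2 : z * T ^ k = ℓ ^ (k * n - j) * (h ^ k * D') := by
      apply mul_left_cancel₀ hℓj
      calc ℓ ^ j * (z * T ^ k) = (ℓ ^ j * z) * T ^ k := by ring
        _ = (S ^ k * D') * T ^ k := by rw [hz]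
        _ = (S * T) ^ k * D' := by ring
        _ = (ℓ ^ n * h) ^ k * D' := by rw [hST]
        _ = ℓ ^ (k * n) * (h ^ k * D') := by
            rw [mul_pow, ← pow_mul, mul_comm n k]; ring
        _ = (ℓ ^ j * ℓ ^ (k * n - j)) * (h ^ k * D') := by
            rw [← pow_add, Nat.add_sub_cancel' hjkn.le]
        _ = ℓ ^ j * (ℓ ^ (k * n - j) * (h ^ k * D')) := by ring
    have hz2 : z ∈ 𝔭₂ := by
      have hmem : z * T ^ k ∈ 𝔭₂ := by
        rw [h2]
        apply Ideal.mul_mem_right
        exact Ideal.pow_mem_of_mem _ hℓ₂ _ (Nat.sub_pos_of_lt hjkn)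
      rcases (Ideal.IsPrime.mem_or_mem ‹𝔭₂.IsPrime› hmem) with h | h
      · exact h
      · exact absurd (Ideal.IsPrime.mem_of_pow_mem ‹𝔭₂.IsPrime› k h) hT
    obtain ⟨z', hz'⟩ := hcap z hz1 hz2
    exact ⟨z', by rw [hz, hz', pow_succ]; ring⟩

/-- **Thickness bound.**  `k * n ≤ c`. -/
theorem mul_le_of_unit_pair (𝔭₁ 𝔭₂ : Ideal R) [𝔭₁.IsPrime] [𝔭₂.IsPrime] (ℓ S T h D D' ε : R)
    (n c k : ℕ) (hℓ0 : ℓ ≠ 0) (hℓ₁ : ℓ ∈ 𝔭₁) (hℓ₂ : ℓ ∈ 𝔭₂)
    (hcap : ∀ z, z ∈ 𝔭₁ → z ∈ 𝔭₂ → ℓ ∣ z) (hsup : 𝔭₁ ⊔ 𝔭₂ ≠ ⊤)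
    (hS : S ∉ 𝔭₁) (hT : T ∉ 𝔭₂) (hST : S * T = ℓ ^ n * h) (hDD : D * D' = ℓ ^ c) (hD : D ∉ 𝔭₁)
    (hDS : D - ε * S ^ k ∈ 𝔭₁) :
    k * n ≤ c := by
  by_contra hlt
  rw [not_le] at hlt
  obtain ⟨G, hG⟩ := pow_dvd_mul_of_le 𝔭₁ 𝔭₂ ℓ S T h D D' n c k hℓ0 hℓ₁ hℓ₂ hcap hT hST hDD hD
    hlt.le c le_rfl
  have hℓc : ℓ ^ c ≠ 0 := pow_ne_zero _ hℓ0
  -- `G ∈ 𝔭₂`
  have h2 : G * T ^ k = ℓ ^ (k * n - c) * (h ^ k * D') := by
    apply mul_left_cancel₀ hℓc
    calc ℓ ^ c * (G * T ^ k) = (ℓ ^ c * G) * T ^ k := by ring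
      _ = (S ^ k * D') * T ^ k := by rw [hG]
      _ = (S * T) ^ k * D' := by ring
      _ = (ℓ ^ n * h) ^ k * D' := by rw [hST]
      _ = ℓ ^ (k * n) * (h ^ k * D') := by
          rw [mul_pow, ← pow_mul, mul_comm n k]; ring
      _ = (ℓ ^ c * ℓ ^ (k * n - c)) * (h ^ k * D') := by
          rw [← pow_add, Nat.add_sub_cancel' hlt.le]
      _ = ℓ ^ c * (ℓ ^ (k * n - c) * (h ^ k * D')) := by ring
  have hG2 : G ∈ 𝔭₂ := by
    have hmem : G * T ^ k ∈ 𝔭₂ := by
      rw [h2]
      apply Ideal.mul_mem_right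
      exact Ideal.pow_mem_of_mem _ hℓ₂ _ (Nat.sub_pos_of_lt hlt)
    rcases (Ideal.IsPrime.mem_or_mem ‹𝔭₂.IsPrime› hmem) with h | h
    · exact h
    · exact absurd (Ideal.IsPrime.mem_of_pow_mem ‹𝔭₂.IsPrime› k h) hT
  -- `G * D = S ^ k`
  have hGD : G * D = S ^ k := by
    apply mul_left_cancel₀ hℓc
    calc ℓ ^ c * (G * D) = (ℓ ^ c * G) * D := by ring
      _ = (S ^ k * D') * D := by rw [hG]
      _ = S ^ k * (D * D') := by ring
      _ = ℓ ^ c * S ^ k := by rw [hDD]; ring
  -- `G * ε - 1 ∈ 𝔭₁`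
  have h1 : S ^ k * (G * ε - 1) ∈ 𝔭₁ := by
    have : S ^ k * (G * ε - 1) = - (G * (D - ε * S ^ k)) := by
      linear_combination hGD
    rw [this]
    exact 𝔭₁.neg_mem (Ideal.mul_mem_left _ _ hDS)
  have hGε : G * ε - 1 ∈ 𝔭₁ := by
    rcases (Ideal.IsPrime.mem_or_mem ‹𝔭₁.IsPrime› h1) with h | h
    · exact absurd (Ideal.IsPrime.mem_of_pow_mem ‹𝔭₁.IsPrime› k h) hS
    · exact h
  -- contradiction: `1 ∈ 𝔭₁ + 𝔭₂`
  apply hsup
  rw [Ideal.eq_top_iff_one]
  have : (1 : R) = -(G * ε - 1) + G * ε := by ring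
  rw [this]
  exact Submodule.add_mem_sup (𝔭₁.neg_mem hGε) (Ideal.mul_mem_right _ _ hG2)

omit [IsDomain R] in
/-- The exponent `k` is positive as soon as `c > 0`, `D' ∉ 𝔭₂` and `ε` is a unit. -/
theorem one_le_exponent (𝔭₁ 𝔭₂ : Ideal R) [𝔭₁.IsPrime] [𝔭₂.IsPrime] (ℓ S D D' ε : R)
    (c k : ℕ) (hℓ₂ : ℓ ∈ 𝔭₂) (hsup : 𝔭₁ ⊔ 𝔭₂ ≠ ⊤) (hc : 0 < c)
    (hDD : D * D' = ℓ ^ c) (hD' : D' ∉ 𝔭₂) (hε : IsUnit ε)
    (hDS : D - ε * S ^ k ∈ 𝔭₁) : 1 ≤ k := by
  by_contra hk
  have hk0 : k = 0 := by omega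
  subst hk0
  rw [pow_zero, mul_one] at hDS
  have hD2 : D ∈ 𝔭₂ := by
    have hmem : D * D' ∈ 𝔭₂ := by rw [hDD]; exact Ideal.pow_mem_of_mem _ hℓ₂ _ hc
    rcases (Ideal.IsPrime.mem_or_mem ‹𝔭₂.IsPrime› hmem) with h | h
    · exact h
    · exact absurd h hD'
  apply hsup
  have hεmem : ε ∈ 𝔭₁ ⊔ 𝔭₂ := by
    have : ε = -(D - ε) + D := by ring
    rw [this]
    exact Submodule.add_mem_sup (𝔭₁.neg_mem hDS) hD2
  exact Ideal.eq_top_of_isUnit_mem _ hεmem hε

/-- **Finite thickness.**  `n ≤ c`: if `S * T ∈ ℓ ^ n R` then `n ≤ c`. -/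
theorem thickness_le (𝔭₁ 𝔭₂ : Ideal R) [𝔭₁.IsPrime] [𝔭₂.IsPrime] (ℓ S T h D D' ε : R)
    (n c k : ℕ) (hℓ0 : ℓ ≠ 0) (hℓ₁ : ℓ ∈ 𝔭₁) (hℓ₂ : ℓ ∈ 𝔭₂)
    (hcap : ∀ z, z ∈ 𝔭₁ → z ∈ 𝔭₂ → ℓ ∣ z) (hsup : 𝔭₁ ⊔ 𝔭₂ ≠ ⊤)
    (hS : S ∉ 𝔭₁) (hT : T ∉ 𝔭₂) (hST : S * T = ℓ ^ n * h) (hc : 0 < c)
    (hDD : D * D' = ℓ ^ c) (hD : D ∉ 𝔭₁) (hD' : D' ∉ 𝔭₂) (hε : IsUnit ε)
    (hDS : D - ε * S ^ k ∈ 𝔭₁) :
    n ≤ c := by
  have h1 := mul_le_of_unit_pair 𝔭₁ 𝔭₂ ℓ S T h D D' ε n c k hℓ0 hℓ₁ hℓ₂ hcap hsup hS hT hST hDD hD hDS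
  have h2 := one_le_exponent 𝔭₁ 𝔭₂ ℓ S D D' ε c k hℓ₂ hsup hc hDD hD' hε hDS
  calc n = 1 * n := (one_mul n).symm
    _ ≤ k * n := Nat.mul_le_mul_right n h2
    _ ≤ c := h1

end Fermat.Agent.A2.H852

end
-- ===== PACK-END A2/H852/Thickness.lean

-- ===== PACK-BEGIN A2/Alg/H609/DimOne.lean
section









/-!
# WALL A2 / ALG (helper609): components of the special fibre have dimension one

`R` a ring, `w ∈ R` generating a maximal ideal, `B` an `R`-algebra integral over `R[X]` via
`X ↦ x`, `p` a prime of `B` containing `w`.  Then every nonzero prime of `B ⧸ p` is maximal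
(`dimensionLEOne_quotient`): `B ⧸ p` is integral over `(R/w)[X]`.  Mathlib only.
-/

set_option autoImplicit false

namespace Fermat.Agent.A2.Alg.H609

open Polynomial

/-- A domain integral over `k[X]` (`k` a field) has dimension at most one. -/
theorem dimensionLEOne_of_isIntegral_polynomial {k D : Type*} [Field k] [CommRing D]
    [IsDomain D] (ψ : k[X] →+* D) (hψ : ψ.IsIntegral) : Ring.DimensionLEOne D := by
  refine ⟨fun {𝔮} h𝔮0 h𝔮 => ?_⟩
  let _ : Algebra k[X] D := ψ.toAlgebra
  obtain ⟨d, hd𝔮, hd0⟩ := Submodule.exists_mem_ne_zero_of_ne_bot h𝔮0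
  have h1 : 𝔮.comap (algebraMap k[X] D) ≠ ⊥ :=
    Ideal.comap_ne_bot_of_integral_mem hd0 hd𝔮 (hψ d)
  have h2 : (𝔮.comap (algebraMap k[X] D)).IsPrime := Ideal.comap_isPrime _ 𝔮
  have h3 : (𝔮.comap (algebraMap k[X] D)).IsMaximal := h2.isMaximal h1
  exact Ideal.isMaximal_of_isIntegral_of_isMaximal_comap' ψ hψ 𝔮 h3

variable {R B : Type*} [CommRing R] [CommRing B] [Algebra R B]

/-- **Components have dimension one.** -/
theorem dimensionLEOne_quotient {w : R} (hw : (Ideal.span {w}).IsMaximal) (x : B)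
    (hint : (aeval (R := R) x).toRingHom.IsIntegral)
    (p : Ideal B) [p.IsPrime] (hwp : algebraMap R B w ∈ p) : Ring.DimensionLEOne (B ⧸ p) := by
  let _ : Field (R ⧸ Ideal.span {w}) := Ideal.Quotient.field _
  let ψ₀ : R ⧸ Ideal.span {w} →+* B ⧸ p :=
    Ideal.Quotient.lift (Ideal.span {w}) ((Ideal.Quotient.mk p).comp (algebraMap R B)) (by
      intro a ha
      obtain ⟨c, rfl⟩ := Ideal.mem_span_singleton'.mp ha
      rw [RingHom.comp_apply, map_mul, map_mul, Ideal.Quotient.eq_zero_iff_mem.mpr hwp,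
        mul_zero])
  let ψ : (R ⧸ Ideal.span {w})[X] →+* B ⧸ p := eval₂RingHom ψ₀ (Ideal.Quotient.mk p x)
  let π : R[X] →+* (R ⧸ Ideal.span {w})[X] := mapRingHom (Ideal.Quotient.mk (Ideal.span {w}))
  have hcomp : ψ.comp π = (Ideal.Quotient.mk p).comp (aeval (R := R) x).toRingHom := by
    refine Polynomial.ringHom_ext (fun r => ?_) ?_
    · simp only [RingHom.comp_apply, ψ, π, ψ₀, coe_mapRingHom, map_C, coe_eval₂RingHom, eval₂_C,
        Ideal.Quotient.lift_mk, AlgHom.toRingHom_eq_coe, RingHom.coe_coe, aeval_C]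
    · simp only [RingHom.comp_apply, ψ, π, coe_mapRingHom, map_X, coe_eval₂RingHom, eval₂_X,
        AlgHom.toRingHom_eq_coe, RingHom.coe_coe, aeval_X]
  have h1 : ((Ideal.Quotient.mk p).comp (aeval (R := R) x).toRingHom).IsIntegral :=
    RingHom.IsIntegral.trans _ _ hint
      (RingHom.isIntegral_of_surjective _ Ideal.Quotient.mk_surjective)
  have h2 : ψ.IsIntegral := RingHom.IsIntegral.tower_top π ψ (by rw [hcomp]; exact h1)
  exact dimensionLEOne_of_isIntegral_polynomial ψ h2

/-- The components of the special fibre are Dedekind. -/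
theorem isDedekindDomain_quotient [IsNoetherianRing B] {w : R}
    (hw : (Ideal.span {w}).IsMaximal) (x : B)
    (hint : (aeval (R := R) x).toRingHom.IsIntegral)
    (p : Ideal B) [p.IsPrime] (hwp : algebraMap R B w ∈ p) [IsIntegrallyClosed (B ⧸ p)] :
    IsDedekindDomain (B ⧸ p) := by
  have hdim : Ring.DimensionLEOne (B ⧸ p) := dimensionLEOne_quotient hw x hint p hwp
  have hded : IsDedekindRing (B ⧸ p) :=
    { toIsNoetherian := inferInstance
      toDimensionLEOne := hdim
      toIsIntegralClosure := inferInstance }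
  exact { toIsDomain := inferInstance, toIsDedekindRing := hded }

end Fermat.Agent.A2.Alg.H609

end
-- ===== PACK-END A2/Alg/H609/DimOne.lean

-- ===== PACK-BEGIN S28/H205/Conv.lean
section




/-!
# S28 analytic toolkit, part 1: convergent Laurent series on the upper half plane

`ConvTo N φ f` : the formal Laurent series `φ ∈ ℂ((t))` converges on all of `ℍ`, in the local
parameter `t = t_N(τ) = exp(2πiτ/N)`, to the function `f : ℍ → ℂ`.

Main API: closure under ring operations, uniqueness of the series, holomorphy of the limit,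
inverses, substitutions `τ ↦ (aτ+b)/d`, descent along `τ ↦ τ + 1`.
-/

set_option autoImplicit false

noncomputable section

open UpperHalfPlane Complex HahnSeries
open scoped Real Manifold

namespace Fermat.Agent.S28.H205

section Twist

variable {R : Type*} [CommRing R]

/-- The substitution `t ↦ u t` on Laurent series, for a unit `u`. -/
def twistFun (u : Rˣ) (φ : LaurentSeries R) : LaurentSeries R where
  coeff n := φ.coeff n * ((u ^ n : Rˣ) : R)
  isPWO_support' := φ.isPWO_support.mono (fun n hn => by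
    simp only [Function.mem_support, ne_eq] at hn ⊢
    exact fun h => hn (by rw [h, zero_mul]))

@[simp] theorem twistFun_coeff (u : Rˣ) (φ : LaurentSeries R) (n : ℤ) :
    (_root_.Fermat.Agent.S28.H205.twistFun u φ).coeff n = φ.coeff n * ((u ^ n : Rˣ) : R) := rfl

theorem support_twistFun (u : Rˣ) (φ : LaurentSeries R) :
    (_root_.Fermat.Agent.S28.H205.twistFun u φ).support = φ.support := by
  ext n
  simp only [HahnSeries.mem_support, _root_.Fermat.Agent.S28.H205.twistFun_coeff, ne_eq]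
  constructor
  · exact fun h h0 => h (by rw [h0, zero_mul])
  · intro h h0
    exact h ((Units.mul_left_eq_zero _).mp h0)

theorem twistFun_mul (u : Rˣ) (φ ψ : LaurentSeries R) :
    _root_.Fermat.Agent.S28.H205.twistFun u (φ * ψ) = _root_.Fermat.Agent.S28.H205.twistFun u φ * _root_.Fermat.Agent.S28.H205.twistFun u ψ := by
  ext n
  rw [_root_.Fermat.Agent.S28.H205.twistFun_coeff, HahnSeries.coeff_mul, HahnSeries.coeff_mul, Finset.sum_mul]
  have hfin : Finset.antidiagonal (_root_.Fermat.Agent.S28.H205.twistFun u φ).isPWO_support (_root_.Fermat.Agent.S28.H205.twistFun u ψ).isPWO_support n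
      = Finset.antidiagonal φ.isPWO_support ψ.isPWO_support n := by
    ext ⟨i, j⟩
    simp only [Finset.mem_antidiagonal, support_twistFun]
  rw [hfin]
  refine Finset.sum_congr rfl fun ij hij => ?_
  obtain ⟨-, -, hsum⟩ := Finset.mem_antidiagonal.mp hij
  rw [_root_.Fermat.Agent.S28.H205.twistFun_coeff, _root_.Fermat.Agent.S28.H205.twistFun_coeff, ← hsum, zpow_add, Units.val_mul]
  ring

/-- The substitution `t ↦ u t` on Laurent series, as a ring homomorphism. -/
def twist (u : Rˣ) : LaurentSeries R →+* LaurentSeries R where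
  toFun := _root_.Fermat.Agent.S28.H205.twistFun u
  map_zero' := by ext n; simp
  map_one' := by
    ext n
    rw [_root_.Fermat.Agent.S28.H205.twistFun_coeff, HahnSeries.coeff_one]
    split_ifs with h
    · subst h; simp
    · simp
  map_add' φ ψ := by ext n; simp [add_mul]
  map_mul' := twistFun_mul u

@[simp] theorem twist_coeff (u : Rˣ) (φ : LaurentSeries R) (n : ℤ) :
    (_root_.Fermat.Agent.S28.H205.twist u φ).coeff n = φ.coeff n * ((u ^ n : Rˣ) : R) := rfl

theorem twist_one (φ : LaurentSeries R) : _root_.Fermat.Agent.S28.H205.twist (1 : Rˣ) φ = φ := by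
  ext n; simp

theorem twist_mul_apply (u v : Rˣ) (φ : LaurentSeries R) :
    _root_.Fermat.Agent.S28.H205.twist (u * v) φ = _root_.Fermat.Agent.S28.H205.twist u (_root_.Fermat.Agent.S28.H205.twist v φ) := by
  ext n
  simp only [_root_.Fermat.Agent.S28.H205.twist_coeff, mul_zpow, Units.val_mul]
  ring

theorem twist_single (u : Rˣ) (n : ℤ) (r : R) :
    _root_.Fermat.Agent.S28.H205.twist u (HahnSeries.single n r) = HahnSeries.single n (r * ((u ^ n : Rˣ) : R)) := by
  ext k
  rw [_root_.Fermat.Agent.S28.H205.twist_coeff, HahnSeries.coeff_single, HahnSeries.coeff_single]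
  split_ifs with h
  · subst h; rfl
  · simp

theorem twist_C (u : Rˣ) (r : R) : _root_.Fermat.Agent.S28.H205.twist u (HahnSeries.C r) = HahnSeries.C r := by
  have h := twist_single u 0 r
  simpa [HahnSeries.C] using h

end Twist

/-- The local parameter `t_N(τ) = exp(2πiτ/N)` at the cusp `∞`. -/
def tPar (N : ℕ) (τ : ℍ) : ℂ := Function.Periodic.qParam (N : ℝ) (τ : ℂ)

theorem tPar_ne_zero (N : ℕ) (τ : ℍ) : tPar N τ ≠ 0 :=
  Function.Periodic.qParam_ne_zero _

theorem norm_tPar_lt_one (N : ℕ) [NeZero N] (τ : ℍ) : ‖tPar N τ‖ < 1 :=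
  Function.Periodic.norm_qParam_lt_one (by exact_mod_cast Nat.pos_of_ne_zero (NeZero.ne N)) τ.im_pos

theorem exists_tPar_eq (N : ℕ) [NeZero N] {q : ℂ} (hq : ‖q‖ < 1) (hq0 : q ≠ 0) :
    ∃ τ : ℍ, tPar N τ = q := by
  have hN : (0 : ℝ) < N := by exact_mod_cast Nat.pos_of_ne_zero (NeZero.ne N)
  exact ⟨⟨Function.Periodic.invQParam N q,
    Function.Periodic.im_invQParam_pos_of_norm_lt_one hN hq hq0⟩,
    Function.Periodic.qParam_right_inv hN.ne' hq0⟩

/-- Power-series level convergence. -/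
def PConv (N : ℕ) (p : PowerSeries ℂ) (F : ℍ → ℂ) : Prop :=
  ∀ τ : ℍ, HasSum (fun k : ℕ => PowerSeries.coeff k p * tPar N τ ^ k) (F τ)

/-- The sum of a power series as a function on `ℂ`. -/
def psSum (p : PowerSeries ℂ) (q : ℂ) : ℂ := ∑' k : ℕ, PowerSeries.coeff k p * q ^ k

namespace PConv

variable {N : ℕ} {p p' : PowerSeries ℂ} {F G : ℍ → ℂ}

theorem mul (hp : PConv N p F) (hq : PConv N p' G) : PConv N (p * p') (F * G) := by
  intro τ
  have h1 := hp τ
  have h2 := hq τ
  have hn1 : Summable (fun k => ‖PowerSeries.coeff k p * tPar N τ ^ k‖) := h1.summable.norm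
  have hn2 : Summable (fun k => ‖PowerSeries.coeff k p' * tPar N τ ^ k‖) := h2.summable.norm
  have hs := (summable_norm_sum_mul_antidiagonal_of_summable_norm hn1 hn2).of_norm.hasSum
  rw [← tsum_mul_tsum_eq_tsum_sum_antidiagonal_of_summable_norm hn1 hn2, h1.tsum_eq,
    h2.tsum_eq] at hs
  have hfun : (fun n : ℕ => PowerSeries.coeff n (p * p') * tPar N τ ^ n) =
      fun n => ∑ kl ∈ Finset.HasAntidiagonal.antidiagonal n,
        PowerSeries.coeff kl.1 p * tPar N τ ^ kl.1 *
          (PowerSeries.coeff kl.2 p' * tPar N τ ^ kl.2) := by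
    funext n
    rw [PowerSeries.coeff_mul, Finset.sum_mul]
    refine Finset.sum_congr rfl fun kl hkl => ?_
    rw [← Finset.HasAntidiagonal.mem_antidiagonal.mp hkl, _root_.pow_add]
    ring
  rw [hfun]
  exact hs

theorem add (hp : PConv N p F) (hq : PConv N p' G) : PConv N (p + p') (F + G) := by
  intro τ
  simpa [add_mul] using (hp τ).add (hq τ)

theorem sub (hp : PConv N p F) (hq : PConv N p' G) : PConv N (p - p') (F - G) := by
  intro τ
  simpa [sub_mul] using (hp τ).sub (hq τ)

theorem summable_ball [NeZero N] (hp : PConv N p F) {q : ℂ} (hq : ‖q‖ < 1) :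
    Summable (fun k : ℕ => PowerSeries.coeff k p * q ^ k) := by
  rcases eq_or_ne q 0 with rfl | hq0
  · refine summable_of_ne_finset_zero (s := {0}) fun k hk => ?_
    have : k ≠ 0 := by simpa using hk
    simp [this]
  · obtain ⟨τ, rfl⟩ := exists_tPar_eq N hq hq0
    exact (hp τ).summable

theorem eq_psSum (hp : PConv N p F) (τ : ℍ) : F τ = psSum p (tPar N τ) :=
  (hp τ).tsum_eq.symm

theorem hasFPowerSeriesOnBall [NeZero N] (hp : PConv N p F) :
    HasFPowerSeriesOnBall (psSum p) (.ofScalars ℂ (fun k => PowerSeries.coeff k p)) 0 1 := by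
  constructor
  · refine le_of_forall_lt_imp_le_of_dense fun r hr ↦ ?_
    lift r to NNReal using hr.ne_top
    apply FormalMultilinearSeries.le_radius_of_summable
    have hr1 : ‖((r : ℝ) : ℂ)‖ < 1 := by
      simpa using hr
    simpa [norm_mul, mul_comm, mul_left_comm, mul_assoc] using
      (hp.summable_ball hr1).norm
  · simp
  · intro y hy
    rw [← ENNReal.coe_one, Metric.eball_coe, NNReal.coe_one, mem_ball_zero_iff] at hy
    simpa [psSum, mul_comm] using (hp.summable_ball hy).hasSum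

theorem psSum_zero (p : PowerSeries ℂ) : psSum p 0 = PowerSeries.coeff 0 p := by
  rw [psSum, tsum_eq_single 0]
  · simp
  · intro k hk
    simp [hk]

theorem psSum_eq_zero_of_zero [NeZero N] (hp : PConv N p 0) {q : ℂ} (hq : ‖q‖ < 1)
    (hq0 : q ≠ 0) : psSum p q = 0 := by
  obtain ⟨τ, rfl⟩ := exists_tPar_eq N hq hq0
  exact (hp.eq_psSum τ).symm

theorem eq_zero_of_zero [NeZero N] (hp : PConv N p 0) : p = 0 := by
  have hfp := hp.hasFPowerSeriesOnBall
  have han : AnalyticAt ℂ (psSum p) 0 := hfp.analyticAt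
  rcases han.eventually_eq_zero_or_eventually_ne_zero with h | h
  · have h1 : HasFPowerSeriesAt (0 : ℂ → ℂ)
        (.ofScalars ℂ (fun k => PowerSeries.coeff k p)) 0 :=
      hfp.hasFPowerSeriesAt.congr h
    have h2 := h1.eq_zero
    have h3 := (FormalMultilinearSeries.ofScalars_series_eq_zero (E := ℂ)
      (c := fun k => PowerSeries.coeff k p)).mp h2
    ext k
    simpa using congrFun h3 k
  · exfalso
    have h2 : ∀ᶠ z in nhdsWithin (0 : ℂ) {0}ᶜ, psSum p z = 0 := by
      filter_upwards [self_mem_nhdsWithin,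
        nhdsWithin_le_nhds (Metric.ball_mem_nhds (0 : ℂ) one_pos)] with z hz hz'
      exact hp.psSum_eq_zero_of_zero (by simpa using hz') hz
    obtain ⟨z, hz1, hz2⟩ := (h.and h2).exists
    exact hz1 hz2

theorem unique [NeZero N] (hp : PConv N p F) (hp' : PConv N p' F) : p = p' := by
  have h := hp.sub hp'
  rw [sub_self] at h
  exact sub_eq_zero.mp h.eq_zero_of_zero

theorem differentiableOn_psSum [NeZero N] (hp : PConv N p F) :
    DifferentiableOn ℂ (psSum p) (Metric.ball 0 1) := by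
  have h := hp.hasFPowerSeriesOnBall.differentiableOn
  rwa [← ENNReal.ofReal_one, Metric.eball_ofReal] at h

theorem mdiff [NeZero N] (hp : PConv N p F) : MDiff F := by
  rw [UpperHalfPlane.mdifferentiable_iff]
  have hN : (0 : ℝ) < N := by exact_mod_cast Nat.pos_of_ne_zero (NeZero.ne N)
  have hG := hp.differentiableOn_psSum
  have hcomp : DifferentiableOn ℂ (psSum p ∘ Function.Periodic.qParam (N : ℝ)) {z | 0 < z.im} :=
    hG.comp (Function.Periodic.differentiable_qParam.differentiableOn) (fun z hz => by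
      simpa using Function.Periodic.norm_qParam_lt_one hN hz)
  refine hcomp.congr fun z hz => ?_
  simp only [Function.comp_apply, ofComplex_apply_of_im_pos hz]
  exact hp.eq_psSum ⟨z, hz⟩

theorem inv [NeZero N] (hp : PConv N p F) (hF : ∀ τ, F τ ≠ 0)
    (h0 : PowerSeries.coeff 0 p ≠ 0) : PConv N p⁻¹ (fun τ => (F τ)⁻¹) := by
  have hG := hp.differentiableOn_psSum
  have hne : ∀ q ∈ Metric.ball (0 : ℂ) 1, psSum p q ≠ 0 := by
    intro q hq
    rcases eq_or_ne q 0 with rfl | hq0
    · rwa [psSum_zero]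
    · obtain ⟨τ, rfl⟩ := exists_tPar_eq N (by simpa using hq) hq0
      rw [← hp.eq_psSum τ]
      exact hF τ
  have hH : DifferentiableOn ℂ (fun q => (psSum p q)⁻¹) (Metric.ball 0 1) := hG.inv hne
  set d : PowerSeries ℂ :=
    PowerSeries.mk fun n => (n.factorial : ℂ)⁻¹ * iteratedDeriv n (fun q => (psSum p q)⁻¹) 0
    with hd
  have hdconv : PConv N d (fun τ => (F τ)⁻¹) := by
    intro τ
    have hmem : tPar N τ ∈ Metric.ball (0 : ℂ) ((1 : NNReal) : ℝ) := by
      simpa using norm_tPar_lt_one N τ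
    have h := Complex.hasSum_taylorSeries_on_ball (r := 1) (by simpa using hH) hmem
    show HasSum _ ((F τ)⁻¹)
    rw [hp.eq_psSum τ]
    have hfun : (fun k : ℕ => PowerSeries.coeff k d * tPar N τ ^ k) =
        fun n : ℕ => (n.factorial : ℂ)⁻¹ • (tPar N τ - 0) ^ n •
          iteratedDeriv n (fun q => (psSum p q)⁻¹) 0 := by
      funext n
      simp only [hd, PowerSeries.coeff_mk, sub_zero, smul_eq_mul]
      ring
    rw [hfun]
    exact h
  have hmul := hp.mul hdconv
  have hone : PConv N 1 (F * fun τ => (F τ)⁻¹) := by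
    intro τ
    have : (F * fun τ => (F τ)⁻¹) τ = 1 := by simp [hF τ]
    rw [this]
    have h := hasSum_single (f := fun k : ℕ => PowerSeries.coeff k (1 : PowerSeries ℂ) *
      tPar N τ ^ k) 0 (fun k hk => by simp [PowerSeries.coeff_one, hk])
    simpa using h
  have hpd : p * d = 1 := hmul.unique hone
  have hd' : d = p⁻¹ := by
    rw [PowerSeries.eq_inv_iff_mul_eq_one (by simpa using h0), mul_comm]
    exact hpd
  rw [← hd']
  exact hdconv

end PConv

/-- `φ` converges on `ℍ` to `f` in the parameter `t_N`. -/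
def ConvTo (N : ℕ) (φ : LaurentSeries ℂ) (f : ℍ → ℂ) : Prop :=
  ∀ τ : ℍ, HasSum (fun n : ℤ => φ.coeff n * tPar N τ ^ n) (f τ)

theorem coeff_single_mul_ofPS_add (e : ℤ) (p : PowerSeries ℂ) (k : ℕ) :
    (HahnSeries.single e (1 : ℂ) * HahnSeries.ofPowerSeries ℤ ℂ p).coeff ((k : ℤ) + e) =
      PowerSeries.coeff k p := by
  rw [HahnSeries.coeff_single_mul, one_mul, add_sub_cancel_right,
    HahnSeries.ofPowerSeries_apply_coeff]

theorem coeff_single_mul_ofPS_of_lt (e : ℤ) (p : PowerSeries ℂ) {n : ℤ} (hn : n < e) :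
    (HahnSeries.single e (1 : ℂ) * HahnSeries.ofPowerSeries ℤ ℂ p).coeff n = 0 := by
  rw [HahnSeries.coeff_single_mul, one_mul,
    ModularCurve.ofPowerSeries_coeff_of_neg _ (by omega)]

/-- Reduction of Laurent-level convergence to power-series-level convergence. -/
theorem convTo_single_mul_ofPS_iff (N : ℕ) (e : ℤ) (p : PowerSeries ℂ) (f : ℍ → ℂ) :
    ConvTo N (HahnSeries.single e (1 : ℂ) * HahnSeries.ofPowerSeries ℤ ℂ p) f ↔
      PConv N p (fun τ => tPar N τ ^ (-e) * f τ) := by
  have hinj : Function.Injective (fun k : ℕ => (k : ℤ) + e) := fun a b h => by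
    simpa using h
  have hrange : ∀ (τ : ℍ) (n : ℤ), n ∉ Set.range (fun k : ℕ => (k : ℤ) + e) →
      (HahnSeries.single e (1 : ℂ) * HahnSeries.ofPowerSeries ℤ ℂ p).coeff n *
        tPar N τ ^ n = 0 := by
    intro τ n hn
    have hlt : n < e := by
      by_contra hge
      push Not at hge
      exact hn ⟨(n - e).toNat, by simp [Int.toNat_of_nonneg (sub_nonneg.mpr hge)]⟩
    rw [coeff_single_mul_ofPS_of_lt e p hlt, zero_mul]
  have key : ∀ τ : ℍ, HasSum (fun n : ℤ =>
      (HahnSeries.single e (1 : ℂ) * HahnSeries.ofPowerSeries ℤ ℂ p).coeff n * tPar N τ ^ n)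
        (f τ) ↔
      HasSum (fun k : ℕ => PowerSeries.coeff k p * tPar N τ ^ k) (tPar N τ ^ (-e) * f τ) := by
    intro τ
    have ht := tPar_ne_zero N τ
    rw [← hinj.hasSum_iff (hrange τ)]
    have hfun : ((fun n : ℤ =>
        (HahnSeries.single e (1 : ℂ) * HahnSeries.ofPowerSeries ℤ ℂ p).coeff n * tPar N τ ^ n) ∘
          fun k : ℕ => (k : ℤ) + e) =
        fun k : ℕ => tPar N τ ^ e * (PowerSeries.coeff k p * tPar N τ ^ k) := by
      funext k
      simp only [Function.comp_apply, coeff_single_mul_ofPS_add, zpow_add₀ ht, zpow_natCast]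
      ring
    rw [hfun]
    constructor
    · intro h
      have h' := h.mul_left (tPar N τ ^ (-e))
      have hfun2 : (fun k : ℕ => tPar N τ ^ (-e) *
          (tPar N τ ^ e * (PowerSeries.coeff k p * tPar N τ ^ k))) =
          fun k : ℕ => PowerSeries.coeff k p * tPar N τ ^ k := by
        funext k
        rw [← mul_assoc, ← zpow_add₀ ht, neg_add_cancel, zpow_zero, one_mul]
      rwa [hfun2] at h'
    · intro h
      have h' := h.mul_left (tPar N τ ^ e)
      rwa [← mul_assoc, ← zpow_add₀ ht, add_neg_cancel, zpow_zero, one_mul] at h'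
  exact ⟨fun h τ => (key τ).mp (h τ), fun h τ => (key τ).mpr (h τ)⟩

theorem convTo_iff (N : ℕ) (φ : LaurentSeries ℂ) (f : ℍ → ℂ) :
    ConvTo N φ f ↔ PConv N φ.powerSeriesPart (fun τ => tPar N τ ^ (-φ.order) * f τ) := by
  conv_lhs => rw [← LaurentSeries.single_order_mul_powerSeriesPart φ]
  exact convTo_single_mul_ofPS_iff N φ.order φ.powerSeriesPart f

theorem single_mul_ofPS_mul (e₁ e₂ : ℤ) (p₁ p₂ : PowerSeries ℂ) :
    (HahnSeries.single e₁ (1 : ℂ) * HahnSeries.ofPowerSeries ℤ ℂ p₁) *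
      (HahnSeries.single e₂ (1 : ℂ) * HahnSeries.ofPowerSeries ℤ ℂ p₂) =
      HahnSeries.single (e₁ + e₂) (1 : ℂ) * HahnSeries.ofPowerSeries ℤ ℂ (p₁ * p₂) := by
  rw [map_mul, ← one_mul (1 : ℂ), ← HahnSeries.single_mul_single, one_mul]
  ring

namespace ConvTo

variable {N : ℕ} {φ ψ : LaurentSeries ℂ} {f g : ℍ → ℂ}

theorem congr_fun (h : ConvTo N φ f) (hfg : ∀ τ, f τ = g τ) : ConvTo N φ g :=
  fun τ => hfg τ ▸ h τ

theorem fun_unique (h : ConvTo N φ f) (h' : ConvTo N φ g) : f = g :=
  funext fun τ => (h τ).unique (h' τ)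

theorem add (hf : ConvTo N φ f) (hg : ConvTo N ψ g) : ConvTo N (φ + ψ) (f + g) := by
  intro τ
  simpa [add_mul] using (hf τ).add (hg τ)

theorem neg (hf : ConvTo N φ f) : ConvTo N (-φ) (-f) := by
  intro τ
  simpa using (hf τ).neg

theorem sub (hf : ConvTo N φ f) (hg : ConvTo N ψ g) : ConvTo N (φ - ψ) (f - g) := by
  intro τ
  simpa [sub_mul] using (hf τ).sub (hg τ)

theorem mul (hf : ConvTo N φ f) (hg : ConvTo N ψ g) : ConvTo N (φ * ψ) (f * g) := by
  rw [convTo_iff] at hf hg
  have h := hf.mul hg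
  rw [← LaurentSeries.single_order_mul_powerSeriesPart φ,
    ← LaurentSeries.single_order_mul_powerSeriesPart ψ, single_mul_ofPS_mul,
    convTo_single_mul_ofPS_iff]
  intro τ
  have := h τ
  have ht := tPar_ne_zero N τ
  convert this using 1
  simp only [Pi.mul_apply, neg_add, zpow_add₀ ht]
  ring

theorem zero_fun [NeZero N] (h : ConvTo N φ 0) : φ = 0 := by
  rw [convTo_iff] at h
  have h' : PConv N φ.powerSeriesPart 0 := fun τ => by simpa using h τ
  exact (LaurentSeries.powerSeriesPart_eq_zero φ).mp h'.eq_zero_of_zero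

/-- Uniqueness of the expansion. -/
theorem series_unique [NeZero N] (h : ConvTo N φ f) (h' : ConvTo N ψ f) : φ = ψ := by
  have hsub := h.sub h'
  rw [sub_self] at hsub
  exact sub_eq_zero.mp hsub.zero_fun

theorem mdiff_tPar_zpow (N : ℕ) (e : ℤ) : MDiff (fun τ : ℍ => tPar N τ ^ e) := by
  rw [UpperHalfPlane.mdifferentiable_iff]
  have hd : DifferentiableOn ℂ (fun z : ℂ => Function.Periodic.qParam (N : ℝ) z ^ e)
      {z | 0 < z.im} := fun z _ =>
    ((Function.Periodic.differentiable_qParam z).zpow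
      (Or.inl (Function.Periodic.qParam_ne_zero z))).differentiableWithinAt
  refine hd.congr fun z hz => ?_
  simp [tPar, ofComplex_apply_of_im_pos hz]

/-- The limit of a convergent expansion is holomorphic on `ℍ`. -/
theorem mdiff [NeZero N] (h : ConvTo N φ f) : MDiff f := by
  rw [convTo_iff] at h
  have h1 := h.mdiff
  have h2 := mdiff_tPar_zpow N φ.order
  have h3 : MDiff ((fun τ : ℍ => tPar N τ ^ φ.order) * fun τ => tPar N τ ^ (-φ.order) * f τ) :=
    h2.mul h1
  have heq : ((fun τ : ℍ => tPar N τ ^ φ.order) * fun τ => tPar N τ ^ (-φ.order) * f τ) = f := by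
    funext τ
    have ht := tPar_ne_zero N τ
    simp only [Pi.mul_apply]
    rw [← mul_assoc, ← zpow_add₀ ht, add_neg_cancel, zpow_zero, one_mul]
  rwa [heq] at h3

/-- Inverses: if `f` vanishes nowhere then `φ⁻¹` converges to `f⁻¹`. -/
theorem inv [NeZero N] (h : ConvTo N φ f) (hf : ∀ τ, f τ ≠ 0) :
    ConvTo N φ⁻¹ (fun τ => (f τ)⁻¹) := by
  have hφ : φ ≠ 0 := by
    rintro rfl
    have h0 : f UpperHalfPlane.I = 0 :=
      (h UpperHalfPlane.I).unique (by simp)
    exact hf _ h0
  have hp := (convTo_iff N φ f).mp h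
  have hc0 : PowerSeries.coeff 0 φ.powerSeriesPart ≠ 0 := by
    rw [LaurentSeries.powerSeriesPart_coeff]
    intro h0
    rw [Nat.cast_zero, add_zero] at h0
    exact hφ (HahnSeries.coeff_order_eq_zero.mp h0)
  have hcc : PowerSeries.constantCoeff φ.powerSeriesPart ≠ 0 := by
    rw [← PowerSeries.coeff_zero_eq_constantCoeff_apply]
    exact hc0
  have hF : ∀ τ, (fun τ => tPar N τ ^ (-φ.order) * f τ) τ ≠ 0 := fun τ =>
    mul_ne_zero (zpow_ne_zero _ (tPar_ne_zero N τ)) (hf τ)
  have hinv := hp.inv hF hc0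
  have hφinv : φ⁻¹ = HahnSeries.single (-φ.order) (1 : ℂ) *
      HahnSeries.ofPowerSeries ℤ ℂ (φ.powerSeriesPart)⁻¹ := by
    apply inv_eq_of_mul_eq_one_right
    have hrep := LaurentSeries.single_order_mul_powerSeriesPart φ
    calc φ * (HahnSeries.single (-φ.order) (1 : ℂ) *
          HahnSeries.ofPowerSeries ℤ ℂ (φ.powerSeriesPart)⁻¹)
        = (HahnSeries.single φ.order (1 : ℂ) * HahnSeries.ofPowerSeries ℤ ℂ φ.powerSeriesPart) *
          (HahnSeries.single (-φ.order) (1 : ℂ) *
            HahnSeries.ofPowerSeries ℤ ℂ (φ.powerSeriesPart)⁻¹) := by rw [hrep]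
      _ = 1 := by
        rw [single_mul_ofPS_mul, add_neg_cancel, PowerSeries.mul_inv_cancel _ hcc]
        simp
  rw [hφinv, convTo_single_mul_ofPS_iff]
  intro τ
  have := hinv τ
  have ht := tPar_ne_zero N τ
  convert this using 1
  simp only [neg_neg, mul_inv, zpow_neg, inv_inv]

end ConvTo

/-- `exp(2πi b / M)` as a unit of `ℂ`. -/
def zetaU (M : ℕ) (b : ℤ) : ℂˣ :=
  Units.mk0 (Complex.exp (2 * π * Complex.I * b / M)) (Complex.exp_ne_zero _)

@[simp] theorem coe_zetaU (M : ℕ) (b : ℤ) :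
    (zetaU M b : ℂ) = Complex.exp (2 * π * Complex.I * b / M) := rfl

theorem twist_coeff' (u : ℂˣ) (φ : LaurentSeries ℂ) (n : ℤ) :
    (_root_.Fermat.Agent.S28.H205.twist u φ).coeff n = φ.coeff n * (u : ℂ) ^ n := by
  rw [_root_.Fermat.Agent.S28.H205.twist_coeff, Units.val_zpow_eq_zpow_val]

theorem hasSum_qExpand_iff (a : ℕ) [NeZero a] (φ : LaurentSeries ℂ) (t s : ℂ) :
    HasSum (fun k : ℤ => (ModularCurve.qExpand ℂ a φ).coeff k * t ^ k) s ↔
      HasSum (fun n : ℤ => φ.coeff n * (t ^ a) ^ n) s := by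
  have ha : (a : ℤ) ≠ 0 := by exact_mod_cast NeZero.ne a
  have hinj : Function.Injective (fun n : ℤ => (a : ℤ) * n) := fun x y h =>
    mul_left_cancel₀ ha h
  rw [← hinj.hasSum_iff (f := fun k : ℤ => (ModularCurve.qExpand ℂ a φ).coeff k * t ^ k)]
  · have hfun : ((fun k : ℤ => (ModularCurve.qExpand ℂ a φ).coeff k * t ^ k) ∘
        fun n : ℤ => (a : ℤ) * n) = fun n : ℤ => φ.coeff n * (t ^ a) ^ n := by
      funext n
      simp only [Function.comp_apply, ModularCurve.qExpand_coeff_mul]
      rw [zpow_mul, zpow_natCast]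
    rw [hfun]
  · intro k hk
    rw [ModularCurve.qExpand_coeff_of_not_dvd a φ (fun ⟨m, hm⟩ => hk ⟨m, hm.symm⟩), zero_mul]

theorem tPar_subst (N : ℕ) (a d : ℕ) (b : ℤ) (τ σ : ℍ) (hσ : (σ : ℂ) = (a * τ + b) / d) :
    tPar N σ = (zetaU (N * d) b : ℂ) * tPar (N * d) τ ^ a := by
  simp only [tPar, Function.Periodic.qParam, coe_zetaU, hσ]
  rw [← Complex.exp_nat_mul, ← Complex.exp_add]
  congr 1
  push_cast
  by_cases hd : (d : ℂ) = 0
  · simp [hd]
  by_cases hN : (N : ℂ) = 0
  · simp [hN]
  field_simp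
  ring

namespace ConvTo

variable {N : ℕ} {φ ψ : LaurentSeries ℂ} {f g : ℍ → ℂ}

/-- General substitution `τ ↦ (a τ + b) / d`. -/
theorem subst (h : ConvTo N φ f) (a d : ℕ) [NeZero a] (b : ℤ)
    (σ : ℍ → ℍ) (hσ : ∀ τ, (σ τ : ℂ) = (a * τ + b) / d) :
    ConvTo (N * d) (ModularCurve.qExpand ℂ a (H205.twist (zetaU (N * d) b) φ)) (f ∘ σ) := by
  intro τ
  rw [hasSum_qExpand_iff]
  have h1 := h (σ τ)
  rw [tPar_subst N a d b τ (σ τ) (hσ τ)] at h1
  have hfun : (fun n : ℤ => (H205.twist (zetaU (N * d) b) φ).coeff n *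
      (tPar (N * d) τ ^ a) ^ n) =
      fun n : ℤ => φ.coeff n * ((zetaU (N * d) b : ℂ) * tPar (N * d) τ ^ a) ^ n := by
    funext n
    rw [twist_coeff', mul_zpow]
    ring
  rw [hfun]
  exact h1

/-- Translation `τ ↦ τ + b` corresponds to the twist `t ↦ exp(2πi b/N) t`. -/
theorem twist (h : ConvTo N φ f) (b : ℤ) (σ : ℍ → ℍ)
    (hσ : ∀ τ, (σ τ : ℂ) = τ + b) :
    ConvTo N (H205.twist (zetaU N b) φ) (f ∘ σ) := by
  have h1 := h.subst 1 1 b σ (fun τ => by simp [hσ τ])
  rw [mul_one] at h1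
  simpa [ModularCurve.qExpand_one_apply] using h1

/-- `τ ↦ a τ` corresponds to `t ↦ t ^ a`. -/
theorem qExpand (h : ConvTo N φ f) (a : ℕ) [NeZero a] (σ : ℍ → ℍ)
    (hσ : ∀ τ, (σ τ : ℂ) = a * τ) :
    ConvTo N (ModularCurve.qExpand ℂ a φ) (f ∘ σ) := by
  have h1 := h.subst a 1 0 σ (fun τ => by simp [hσ τ])
  rw [mul_one] at h1
  have hz : zetaU N 0 = 1 := by
    ext
    simp
  rwa [hz, twist_one] at h1

/-- `τ ↦ τ / d` corresponds to passing from the parameter `t_N` to `t_{N d}`. -/
theorem scale (h : ConvTo N φ f) (d : ℕ) (σ : ℍ → ℍ)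
    (hσ : ∀ τ, (σ τ : ℂ) = τ / d) :
    ConvTo (N * d) φ (f ∘ σ) := by
  have h1 := h.subst 1 d 0 σ (fun τ => by simp [hσ τ])
  have hz : zetaU (N * d) 0 = 1 := by
    ext
    simp
  rwa [hz, twist_one, ModularCurve.qExpand_one_apply] at h1

/-- Change of parameter: `t_N = t_{N d} ^ d`. -/
theorem changeLevel (h : ConvTo N φ f) (d : ℕ) [NeZero d] :
    ConvTo (N * d) (ModularCurve.qExpand ℂ d φ) f := by
  have h1 := h.subst d d 0 id (fun τ => by
    have hd : (d : ℂ) ≠ 0 := by exact_mod_cast NeZero.ne d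
    simp only [id, Int.cast_zero, add_zero]
    field_simp)
  have hz : zetaU (N * d) 0 = 1 := by
    ext
    simp
  rwa [hz, twist_one] at h1

end ConvTo

theorem zetaU_one_zpow_eq_one_iff (N : ℕ) [NeZero N] (n : ℤ) :
    (zetaU N 1 : ℂ) ^ n = 1 ↔ (N : ℤ) ∣ n := by
  have hN : (N : ℂ) ≠ 0 := by exact_mod_cast NeZero.ne N
  rw [coe_zetaU, ← Complex.exp_int_mul, Complex.exp_eq_one_iff]
  constructor
  · rintro ⟨m, hm⟩
    refine ⟨m, ?_⟩
    have h2 : (2 * (π : ℂ) * Complex.I) ≠ 0 := by
      simp [Real.pi_ne_zero]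
    have h3 : (n : ℂ) = (N : ℂ) * m := by
      field_simp at hm
      simpa using hm
    exact_mod_cast h3
  · rintro ⟨m, rfl⟩
    refine ⟨m, ?_⟩
    push_cast
    field_simp

/-- Descent: an expansion in `t_N` of a function invariant under `τ ↦ τ + 1` is an expansion
in `q = t_N ^ N`. -/
theorem ConvTo.descend {N : ℕ} {φ : LaurentSeries ℂ} {f : ℍ → ℂ} [NeZero N] (h : ConvTo N φ f)
    (hT : ∀ τ σ : ℍ, (σ : ℂ) = τ + 1 → f σ = f τ) :
    ∃ φ₁ : LaurentSeries ℂ, φ = ModularCurve.qExpand ℂ N φ₁ ∧ ConvTo 1 φ₁ f := by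
  have hNpos : (0 : ℤ) < N := by exact_mod_cast Nat.pos_of_ne_zero (NeZero.ne N)
  -- invariance under the twist
  have htw : H205.twist (zetaU N 1) φ = φ := by
    have h1 := h.twist 1 (fun τ => (1 : ℝ) +ᵥ τ) (fun τ => by
      rw [UpperHalfPlane.coe_vadd]; push_cast; ring)
    have h2 : (f ∘ fun τ => (1 : ℝ) +ᵥ τ) = f := by
      funext τ
      exact hT τ _ (by rw [UpperHalfPlane.coe_vadd]; push_cast; ring)
    rw [h2] at h1
    exact h1.series_unique h
  have hvan : ∀ n : ℤ, ¬ (N : ℤ) ∣ n → φ.coeff n = 0 := by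
    intro n hn
    have h1 := congrArg (fun x => x.coeff n) htw
    simp only [twist_coeff'] at h1
    by_contra hne
    have h2 : (zetaU N 1 : ℂ) ^ n = 1 := by
      have := mul_left_cancel₀ hne (h1.trans (mul_one _).symm)
      exact this
    exact hn ((zetaU_one_zpow_eq_one_iff N n).mp h2)
  -- the descended series
  have hbdd : BddBelow (Function.support fun k : ℤ => φ.coeff ((N : ℤ) * k)) := by
    refine ⟨min φ.order 0, fun k hk => ?_⟩
    simp only [Function.mem_support, ne_eq] at hk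
    have h1 : φ.order ≤ (N : ℤ) * k := HahnSeries.order_le_of_coeff_ne_zero hk
    rcases le_or_gt 0 k with hk0 | hk0
    · exact le_trans (min_le_right _ _) hk0
    · refine le_trans (min_le_left _ _) (le_trans h1 ?_)
      nlinarith
  refine ⟨HahnSeries.ofSuppBddBelow _ hbdd, ?_, ?_⟩
  · ext n
    by_cases hn : (N : ℤ) ∣ n
    · obtain ⟨k, rfl⟩ := hn
      rw [ModularCurve.qExpand_coeff_mul]
      rfl
    · rw [hvan n hn, ModularCurve.qExpand_coeff_of_not_dvd N _ hn]
  · intro τ
    have h1 := h τ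
    have hinj : Function.Injective (fun k : ℤ => (N : ℤ) * k) := fun x y hxy =>
      mul_left_cancel₀ hNpos.ne' hxy
    rw [← hinj.hasSum_iff (fun n hn => by
      rw [hvan n (fun ⟨m, hm⟩ => hn ⟨m, hm.symm⟩), zero_mul])] at h1
    have hfun : ((fun n : ℤ => φ.coeff n * tPar N τ ^ n) ∘ fun k : ℤ => (N : ℤ) * k) =
        fun k : ℤ => (HahnSeries.ofSuppBddBelow _ hbdd).coeff k * tPar 1 τ ^ k := by
      funext k
      have ht : tPar 1 τ = tPar N τ ^ N := by
        have := tPar_subst 1 N N 0 τ τ (by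
          have hN : (N : ℂ) ≠ 0 := by exact_mod_cast NeZero.ne N
          field_simp
          simp)
        rw [this, one_mul]
        simp
      simp only [Function.comp_apply, ht]
      rw [zpow_mul, zpow_natCast]
      rfl
    rw [hfun] at h1
    exact h1

theorem convTo_zero (N : ℕ) : ConvTo N 0 0 := by
  intro τ
  simp [hasSum_zero]

theorem convTo_single (N : ℕ) (k : ℤ) (c : ℂ) :
    ConvTo N (HahnSeries.single k c) (fun τ => c * tPar N τ ^ k) := by
  intro τ
  have h := hasSum_single (f := fun n : ℤ => (HahnSeries.single k c).coeff n * tPar N τ ^ n) k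
    (fun n hn => by simp [HahnSeries.coeff_single_of_ne hn])
  simpa using h

theorem convTo_C (N : ℕ) (c : ℂ) : ConvTo N (HahnSeries.C c) (fun _ => c) := by
  have h := convTo_single N 0 c
  simpa [HahnSeries.C] using h

theorem convTo_one (N : ℕ) : ConvTo N 1 1 := by
  have h := convTo_C N 1
  rw [map_one] at h
  exact h

theorem ConvTo.pow {N : ℕ} {φ : LaurentSeries ℂ} {f : ℍ → ℂ} (hf : ConvTo N φ f) (k : ℕ) :
    ConvTo N (φ ^ k) (f ^ k) := by
  induction k with
  | zero => simpa using convTo_one N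
  | succ k ih => rw [_root_.pow_succ, _root_.pow_succ]; exact ih.mul hf

theorem ConvTo.const_mul {N : ℕ} {φ : LaurentSeries ℂ} {f : ℍ → ℂ} (hf : ConvTo N φ f) (c : ℂ) :
    ConvTo N (HahnSeries.C c * φ) (fun τ => c * f τ) :=
  (convTo_C N c).mul hf

theorem ConvTo.sum {N : ℕ} {ι : Type*} (s : Finset ι) {φ : ι → LaurentSeries ℂ}
    {f : ι → ℍ → ℂ} (h : ∀ i ∈ s, ConvTo N (φ i) (f i)) :
    ConvTo N (∑ i ∈ s, φ i) (∑ i ∈ s, f i) := by
  classical
  induction s using Finset.induction_on with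
  | empty => simpa using convTo_zero N
  | insert a s ha ih =>
    rw [Finset.sum_insert ha, Finset.sum_insert ha]
    exact (h a (Finset.mem_insert_self a s)).add
      (ih fun i hi => h i (Finset.mem_insert_of_mem hi))

theorem ConvTo.prod {N : ℕ} {ι : Type*} (s : Finset ι) {φ : ι → LaurentSeries ℂ}
    {f : ι → ℍ → ℂ} (h : ∀ i ∈ s, ConvTo N (φ i) (f i)) :
    ConvTo N (∏ i ∈ s, φ i) (∏ i ∈ s, f i) := by
  classical
  induction s using Finset.induction_on with
  | empty => simpa using convTo_one N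
  | insert a s ha ih =>
    rw [Finset.prod_insert ha, Finset.prod_insert ha]
    exact (h a (Finset.mem_insert_self a s)).mul
      (ih fun i hi => h i (Finset.mem_insert_of_mem hi))

end Fermat.Agent.S28.H205

end
end
-- ===== PACK-END S28/H205/Conv.lean

-- ===== PACK-BEGIN S36/H756/DescAbs.lean
section


/-!
# S36 engine, leaf DESC (owner helper756) — abstract part

`poincareDescent` : an abstract "multiplicative Hilbert 90 with finite orbits".

Let `K` be a field, `act : G → K ≃+* K` a multiplicative family of automorphisms, and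
`ℓ : K →*₀ K` an equivariant multiplicative "leading coefficient" such that the only `m`-th root
of unity `x` with `ℓ x = 1` is `1`.  If `f ≠ 0` has a finite orbit and `act σ f = h_σ ^ m * f`
with `ℓ h_σ = 1` for every `σ`, then there is `b ≠ 0` such that `b ^ m * f` is fixed by all
`act σ`.  (Proof: the normalised `h_σ` only depends on `act σ f`, it is a cocycle, and a
Poincaré sum `∑_{a ∈ orbit} h_a a ^ k` is nonzero for some `k` by Vandermonde.)
-/

set_option autoImplicit false

namespace Fermat.Agent.S36.H756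

section Abstract

variable {K : Type*} [Field K] {G : Type*} [Mul G]

/-- Uniqueness of normalised `m`-th roots. -/
theorem normalised_root_unique (ℓ : K →*₀ K) (m : ℕ)
    (huniq : ∀ x : K, x ^ m = 1 → ℓ x = 1 → x = 1) {f : K} (hf : f ≠ 0)
    {h h' : K} (hh : ℓ h = 1) (hh' : ℓ h' = 1) (e : h ^ m * f = h' ^ m * f) : h = h' := by
  have h'0 : h' ≠ 0 := by
    rintro rfl
    rw [map_zero] at hh'
    exact zero_ne_one hh'
  have e1 : h ^ m = h' ^ m := mul_right_cancel₀ hf e
  have e2 : (h / h') ^ m = 1 := by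
    rw [div_pow, e1, div_self (pow_ne_zero m h'0)]
  have e3 : ℓ (h / h') = 1 := by
    rw [map_div₀, hh, hh', div_one]
  have e4 := huniq _ e2 e3
  rwa [div_eq_one_iff_eq h'0] at e4

/-- Abstract Poincaré-series descent, case `m`-th roots are rigid. -/
theorem poincareDescent_rigid [Nonempty G]
    (act : G → K ≃+* K) (hmul : ∀ σ τ x, act (σ * τ) x = act σ (act τ x))
    (ℓ : K →*₀ K) (hℓ : ∀ σ x, ℓ (act σ x) = act σ (ℓ x))
    (m : ℕ) (huniq : ∀ x : K, x ^ m = 1 → ℓ x = 1 → x = 1)
    (f : K) (hf : f ≠ 0)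
    (hfin : (Set.range fun σ : G => act σ f).Finite)
    (hcoc : ∀ σ : G, ∃ h : K, ℓ h = 1 ∧ act σ f = h ^ m * f) :
    ∃ b : K, b ≠ 0 ∧ ∀ σ : G, act σ (b ^ m * f) = b ^ m * f := by
  classical
  -- the orbit
  set A : Finset K := hfin.toFinset with hA
  have memA : ∀ a, a ∈ A ↔ ∃ σ, act σ f = a := by
    intro a
    rw [hA, Set.Finite.mem_toFinset]
    rfl
  have Ane : A.Nonempty := by
    obtain ⟨σ⟩ := ‹Nonempty G›
    exact ⟨act σ f, (memA _).2 ⟨σ, rfl⟩⟩
  have stab : ∀ σ, ∀ a ∈ A, act σ a ∈ A := by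
    intro σ a ha
    obtain ⟨τ, rfl⟩ := (memA a).1 ha
    exact (memA _).2 ⟨σ * τ, hmul σ τ f⟩
  -- the normalised root attached to a point of the orbit
  have exH : ∀ a ∈ A, ∃ h, ℓ h = 1 ∧ a = h ^ m * f := by
    intro a ha
    obtain ⟨τ, rfl⟩ := (memA a).1 ha
    exact hcoc τ
  let H : K → K := fun a => if ha : ∃ h, ℓ h = 1 ∧ a = h ^ m * f then ha.choose else 0
  have hH : ∀ a ∈ A, ℓ (H a) = 1 ∧ a = H a ^ m * f := by
    intro a ha
    have hex := exH a ha
    simp only [H, dif_pos hex]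
    exact hex.choose_spec
  have hH0 : ∀ a ∈ A, H a ≠ 0 := by
    intro a ha h0
    have := (hH a ha).1
    rw [h0, map_zero] at this
    exact zero_ne_one this
  -- the cocycle relation
  have coc : ∀ σ h, ℓ h = 1 → act σ f = h ^ m * f →
      ∀ a ∈ A, H (act σ a) = h * act σ (H a) := by
    intro σ h hh hσ a ha
    obtain ⟨h1, h2⟩ := hH a ha
    obtain ⟨h3, h4⟩ := hH _ (stab σ a ha)
    refine normalised_root_unique ℓ m huniq hf h3 ?_ ?_
    · rw [map_mul, hh, hℓ, h1, map_one, one_mul]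
    · have e : (h * act σ (H a)) ^ m * f = act σ a := by
        calc (h * act σ (H a)) ^ m * f = act σ (H a) ^ m * (h ^ m * f) := by ring
          _ = act σ (H a ^ m * f) := by rw [← hσ, map_mul, map_pow]
          _ = act σ a := by rw [← h2]
      rw [e, ← h4]
  -- `act σ` permutes the orbit
  have himg : ∀ σ, A.image (act σ) = A := by
    intro σ
    refine Finset.eq_of_subset_of_card_le (Finset.image_subset_iff.2 (stab σ)) ?_
    rw [Finset.card_image_of_injective _ (act σ).injective]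
  -- Poincaré sums
  let B : ℕ → K := fun k => ∑ a ∈ A, H a * a ^ k
  have actB : ∀ σ h, ℓ h = 1 → act σ f = h ^ m * f → ∀ k, h * act σ (B k) = B k := by
    intro σ h hh hσ k
    simp only [B]
    rw [map_sum, Finset.mul_sum]
    conv_rhs => rw [← himg σ]
    rw [Finset.sum_image (fun x _ y _ hxy => (act σ).injective hxy)]
    refine Finset.sum_congr rfl fun a ha => ?_
    rw [coc σ h hh hσ a ha, map_mul, map_pow, mul_assoc]
  -- some Poincaré sum does not vanish
  have exk : ∃ k, B k ≠ 0 := by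
    by_contra hcon
    push Not at hcon
    let e := A.equivFin
    have key := Matrix.eq_zero_of_forall_pow_sum_mul_pow_eq_zero (R := K) (n := A.card)
      (f := fun i => ((e.symm i : A) : K)) (v := fun i => H ((e.symm i : A) : K))
      (fun i j hij => e.symm.injective (Subtype.ext hij))
      (by
        intro i
        have h1 : (∑ j, H ((e.symm j : A) : K) * ((e.symm j : A) : K) ^ (i : ℕ))
            = ∑ a : A, H (a : K) * (a : K) ^ (i : ℕ) :=
          Equiv.sum_comp e.symm (fun a : A => H (a : K) * (a : K) ^ (i : ℕ))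
        rw [h1, Finset.sum_coe_sort A (fun a => H a * a ^ (i : ℕ))]
        exact hcon i)
    obtain ⟨a, ha⟩ := Ane
    have := congrFun key (e ⟨a, ha⟩)
    simp only [Equiv.symm_apply_apply, Pi.zero_apply] at this
    exact hH0 a ha this
  obtain ⟨k, hk⟩ := exk
  refine ⟨B k, hk, fun σ => ?_⟩
  obtain ⟨h, hh, hσ⟩ := hcoc σ
  have h0 : h ≠ 0 := by
    rintro rfl
    rw [map_zero] at hh
    exact zero_ne_one hh
  have e1 : act σ (B k) = h⁻¹ * B k := by
    rw [eq_inv_mul_iff_mul_eq₀ h0]
    exact actB σ h hh hσ k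
  rw [map_mul, map_pow, e1, hσ, mul_pow, inv_pow]
  field_simp

/-- Abstract Poincaré-series descent (the rigidity hypothesis is only needed for `m > 0`). -/
theorem poincareDescent [Nonempty G]
    (act : G → K ≃+* K) (hmul : ∀ σ τ x, act (σ * τ) x = act σ (act τ x))
    (ℓ : K →*₀ K) (hℓ : ∀ σ x, ℓ (act σ x) = act σ (ℓ x))
    (m : ℕ) (huniq : 0 < m → ∀ x : K, x ^ m = 1 → ℓ x = 1 → x = 1)
    (f : K) (hf : f ≠ 0)
    (hfin : (Set.range fun σ : G => act σ f).Finite)
    (hcoc : ∀ σ : G, ∃ h : K, ℓ h = 1 ∧ act σ f = h ^ m * f) :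
    ∃ b : K, b ≠ 0 ∧ ∀ σ : G, act σ (b ^ m * f) = b ^ m * f := by
  rcases Nat.eq_zero_or_pos m with rfl | hm
  · refine ⟨1, one_ne_zero, fun σ => ?_⟩
    obtain ⟨h, -, e⟩ := hcoc σ
    simpa using e
  · exact poincareDescent_rigid act hmul ℓ hℓ m (huniq hm) f hf hfin hcoc

/-- Normalisation of a Kummer cocycle: if `act₁ f = c * h ^ m * f` with a "constant" `c`
(`ℓ c = c`), then for the normalised `f₁ = (ℓ f)⁻¹ * f`, `h₁ = (ℓ h)⁻¹ * h` one has
`act₁ f₁ = h₁ ^ m * f₁`. -/
theorem normalise_cocycle (act₁ : K ≃+* K) (ℓ : K →*₀ K)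
    (hℓ : ∀ x, ℓ (act₁ x) = act₁ (ℓ x)) (hidem : ∀ x, ℓ (ℓ x) = ℓ x)
    (hℓ0 : ∀ x, x ≠ 0 → ℓ x ≠ 0) (m : ℕ) {f c h : K} (hf : f ≠ 0) (hc : ℓ c = c) (hh : h ≠ 0)
    (e : act₁ f = c * h ^ m * f) :
    act₁ ((ℓ f)⁻¹ * f) = ((ℓ h)⁻¹ * h) ^ m * ((ℓ f)⁻¹ * f) := by
  have hA : ℓ f ≠ 0 := hℓ0 f hf
  have hB : ℓ h ≠ 0 := hℓ0 h hh
  have hA' : act₁ (ℓ f) ≠ 0 := by simpa using hA
  obtain ⟨u, hu⟩ : ∃ u : K, u = (act₁ (ℓ f))⁻¹ * c * (ℓ h) ^ m * ℓ f := ⟨_, rfl⟩
  have e1 : act₁ ((ℓ f)⁻¹ * f) = u * (((ℓ h)⁻¹ * h) ^ m * ((ℓ f)⁻¹ * f)) := by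
    rw [map_mul, map_inv₀, e, hu, mul_pow, inv_pow]
    have hBm : ℓ h ^ m ≠ 0 := pow_ne_zero m hB
    field_simp
  have hlu : ℓ u = u := by
    rw [hu, map_mul, map_mul, map_mul, map_pow, map_inv₀, hℓ, hidem, hidem, hc]
  have e2 : ℓ (act₁ ((ℓ f)⁻¹ * f)) = 1 := by
    rw [hℓ, map_mul, map_inv₀, hidem, inv_mul_cancel₀ hA, map_one]
  have e3 : u = 1 := by
    rw [e1, map_mul, map_mul, map_pow, map_mul, map_inv₀, hidem, inv_mul_cancel₀ hB,
      one_pow, one_mul, map_mul, map_inv₀, hidem, inv_mul_cancel₀ hA, mul_one, hlu] at e2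
    exact e2
  rw [e1, e3, one_mul]

/-- Abstract descent, un-normalised form: if `act σ f ∈ (constants) · (m-th powers) · f` for all
`σ`, then `(ℓ f)⁻¹ * b ^ m * f` is fixed for a suitable `b ≠ 0`. -/
theorem poincareDescent' [Nonempty G]
    (act : G → K ≃+* K) (hmul : ∀ σ τ x, act (σ * τ) x = act σ (act τ x))
    (ℓ : K →*₀ K) (hℓ : ∀ σ x, ℓ (act σ x) = act σ (ℓ x)) (hidem : ∀ x, ℓ (ℓ x) = ℓ x)
    (hℓ0 : ∀ x, x ≠ 0 → ℓ x ≠ 0)
    (m : ℕ) (huniq : 0 < m → ∀ x : K, x ^ m = 1 → ℓ x = 1 → x = 1)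
    (hfin : ∀ x : K, (Set.range fun σ : G => act σ x).Finite)
    (f : K) (hf : f ≠ 0)
    (hcoc : ∀ σ : G, ∃ c h : K, ℓ c = c ∧ h ≠ 0 ∧ act σ f = c * h ^ m * f) :
    ∃ b : K, b ≠ 0 ∧ ∀ σ : G, act σ ((ℓ f)⁻¹ * b ^ m * f) = (ℓ f)⁻¹ * b ^ m * f := by
  have hA : ℓ f ≠ 0 := hℓ0 f hf
  have hf₁ : (ℓ f)⁻¹ * f ≠ 0 := mul_ne_zero (inv_ne_zero hA) hf
  obtain ⟨b, hb, hfix⟩ := poincareDescent act hmul ℓ hℓ m huniq ((ℓ f)⁻¹ * f) hf₁ (hfin _)
    (fun σ => by
      obtain ⟨c, h, hc, hh, e⟩ := hcoc σ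
      refine ⟨(ℓ h)⁻¹ * h, ?_, normalise_cocycle (act σ) ℓ (hℓ σ) hidem hℓ0 m hf hc hh e⟩
      rw [map_mul, map_inv₀, hidem, inv_mul_cancel₀ (hℓ0 h hh)])
  refine ⟨b, hb, fun σ => ?_⟩
  have e : (ℓ f)⁻¹ * b ^ m * f = b ^ m * ((ℓ f)⁻¹ * f) := by ring
  rw [e]
  exact hfix σ

end Abstract

end Fermat.Agent.S36.H756

end
-- ===== PACK-END S36/H756/DescAbs.lean

-- ===== PACK-BEGIN S36/H756/DescSpan.lean
section



/-!
# S36 engine, leaf DESC (owner helper756) — `laurentBaseChange L F₀` is the `L`-span of `F₀`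

For a field `L` algebraic over `ℚ`, the compositum `L · F₀ ⊆ L((q))` is the `L`-linear span of
(the image of) `F₀` : `mem_span_coeffEmb`.
-/

set_option autoImplicit false

noncomputable section

namespace Fermat.Agent.S36.H756

open ModularCurve HahnSeries IntermediateField

section Span

variable {L : Type*} [Field L] [Algebra ℚ L]
variable (F₀ : IntermediateField ℚ (LaurentSeries ℚ))

/-- The image of `F₀` in `L((q))`. -/
def imgF₀ (L : Type*) [Field L] [Algebra ℚ L] (F₀ : IntermediateField ℚ (LaurentSeries ℚ)) :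
    Set (LaurentSeries L) :=
  ⇑(coeffEmb L) '' (F₀ : Set (LaurentSeries ℚ))

variable {F₀}

omit [Algebra ℚ L] in
/-- Scalar multiplication by a constant is multiplication by the constant series. -/
theorem smul_eq_algebraMap_mul (a : L) (y : LaurentSeries L) :
    a • y = algebraMap L (LaurentSeries L) a * y := by
  rw [algebraMap_laurentSeries_eq_single]
  ext n
  simp

theorem one_mem_imgF₀ : (1 : LaurentSeries L) ∈ imgF₀ L F₀ :=
  ⟨1, F₀.one_mem, map_one _⟩

theorem mul_mem_imgF₀ {x y : LaurentSeries L} (hx : x ∈ imgF₀ L F₀) (hy : y ∈ imgF₀ L F₀) :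
    x * y ∈ imgF₀ L F₀ := by
  obtain ⟨a, ha, rfl⟩ := hx
  obtain ⟨b, hb, rfl⟩ := hy
  exact ⟨a * b, F₀.mul_mem ha hb, map_mul _ _ _⟩

/-- The span of `F₀` is stable under multiplication by elements of `F₀`. -/
theorem mul_mem_span_imgF₀ {u x : LaurentSeries L} (hu : u ∈ imgF₀ L F₀)
    (hx : x ∈ Submodule.span L (imgF₀ L F₀)) : u * x ∈ Submodule.span L (imgF₀ L F₀) := by
  induction hx using Submodule.span_induction with
  | mem y hy => exact Submodule.subset_span (mul_mem_imgF₀ hu hy)
  | zero => simp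
  | add y z _ _ hy hz =>
      rw [mul_add]
      exact Submodule.add_mem _ hy hz
  | smul a y _ hy =>
      have : u * (a • y) = a • (u * y) := by
        rw [smul_eq_algebraMap_mul, smul_eq_algebraMap_mul]
        ring
      rw [this]
      exact Submodule.smul_mem _ a hy

variable [Algebra.IsAlgebraic ℚ L]

/-- **Span lemma.** The compositum `L · F₀` inside `L((q))` is the `L`-span of `F₀`. -/
theorem mem_span_coeffEmb {x : LaurentSeries L} (hx : x ∈ laurentBaseChange L F₀) :
    x ∈ Submodule.span L (imgF₀ L F₀) := by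
  let algF : Algebra F₀ (LaurentSeries L) :=
    ((coeffEmb L).comp (algebraMap F₀ (LaurentSeries ℚ))).toAlgebra
  have hmap : ∀ a : F₀, algebraMap F₀ (LaurentSeries L) a = coeffEmb L (a : LaurentSeries ℚ) :=
    fun _ => rfl
  set S : Set (LaurentSeries L) := Set.range (algebraMap L (LaurentSeries L)) with hS
  have halg : ∀ y ∈ S, IsAlgebraic F₀ y := by
    rintro _ ⟨e, rfl⟩
    obtain ⟨p, hp0, hp⟩ : IsAlgebraic ℚ e := Algebra.IsAlgebraic.isAlgebraic e
    refine ⟨p.map (algebraMap ℚ F₀), ?_, ?_⟩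
    · exact (Polynomial.map_ne_zero_iff (algebraMap ℚ F₀).injective).2 hp0
    · rw [Polynomial.aeval_def, Polynomial.eval₂_map]
      have hcomp : (algebraMap F₀ (LaurentSeries L)).comp (algebraMap ℚ F₀)
          = (algebraMap L (LaurentSeries L)).comp (algebraMap ℚ L) := Subsingleton.elim _ _
      rw [hcomp, ← Polynomial.hom_eval₂, ← Polynomial.aeval_def, hp, map_zero]
  have hW : (IntermediateField.adjoin F₀ S).toSubalgebra = Algebra.adjoin F₀ S :=
    IntermediateField.adjoin_toSubalgebra_of_isAlgebraic halg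
  have hxW : x ∈ IntermediateField.adjoin F₀ S := by
    rw [mem_laurentBaseChange_iff] at hx
    have hle : Subfield.closure
        (Set.range (algebraMap L (LaurentSeries L)) ∪
          (⇑(coeffEmb L) '' (F₀ : Set (LaurentSeries ℚ))))
        ≤ (IntermediateField.adjoin F₀ S).toSubfield := by
      rw [Subfield.closure_le]
      rintro y (hy | ⟨a, ha, rfl⟩)
      · exact IntermediateField.subset_adjoin F₀ S hy
      · exact (IntermediateField.adjoin F₀ S).algebraMap_mem ⟨a, ha⟩
    exact hle hx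
  have hx2 : x ∈ Algebra.adjoin F₀ S := by
    rw [← hW]
    exact hxW
  rw [← Subalgebra.mem_toSubmodule, Algebra.adjoin_eq_span] at hx2
  have hclos : (Submonoid.closure S : Set (LaurentSeries L)) = S := by
    have : S = ((MonoidHom.mrange (algebraMap L (LaurentSeries L) : L →* LaurentSeries L) :
        Submonoid (LaurentSeries L)) : Set (LaurentSeries L)) := by
      rw [MonoidHom.coe_mrange]
      rfl
    rw [this, Submonoid.closure_eq]
  rw [hclos] at hx2
  clear hxW hx
  induction hx2 using Submodule.span_induction with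
  | mem y hy =>
      obtain ⟨e, rfl⟩ := hy
      have : algebraMap L (LaurentSeries L) e = e • (1 : LaurentSeries L) := by
        rw [smul_eq_algebraMap_mul, mul_one]
      rw [this]
      exact Submodule.smul_mem _ e (Submodule.subset_span one_mem_imgF₀)
  | zero => simp
  | add y z _ _ hy hz => exact Submodule.add_mem _ hy hz
  | smul a y _ hy =>
      have : a • y = coeffEmb L (a : LaurentSeries ℚ) * y := by
        rw [Algebra.smul_def, hmap]
      rw [this]
      exact mul_mem_span_imgF₀ ⟨a, a.2, rfl⟩ hy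

end Span

end Fermat.Agent.S36.H756

end
end
-- ===== PACK-END S36/H756/DescSpan.lean

-- ===== PACK-BEGIN Ribet/H819/PerFieldAbs.lean
section


/-!
# Row 38, WALL-p, crux (I6), leaf INST-D, FIELD part — abstract lemmas (helper819)

Mathlib only.  `Ω` a field, `Φ : Ω ≃+* Ω` an automorphism, `B ≤ Ω` a subfield fixed by `Φ`
pointwise, `ζ ∈ B` a primitive `p`-th root of unity, `p` prime.

* `mem_of_fixed_h819` : if `Φ x = ζ x`, `x ^ p ∈ B`, then every `Φ`-fixed element of `B(x)` lies
  in `B` (averaging over the powers of `Φ`);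
* `exists_deck_h819`  : if `h ^ p ∈ B`, `h ∉ B`, there is an automorphism `τ` of `B(h)` over `B`
  with `τ h = ζ h` (Kummer theory).
-/

set_option autoImplicit false
set_option linter.unusedSectionVars false
set_option linter.style.haveILetI false

noncomputable section

namespace Fermat.Agent.Ribet.H819

open Polynomial

section Fixed

variable {Ω : Type*} [Field Ω]

/-- `Φ^[j]` of a polynomial expression in an eigenvector `x` of `Φ`. -/
theorem iterate_aeval_h819 (B : Subfield Ω) (Φ : Ω ≃+* Ω) (hΦ : ∀ z ∈ B, Φ z = z) {ζ x : Ω}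
    (hx : Φ x = ζ * x) (hζ : Φ ζ = ζ) (q : Polynomial ↥B) (j : ℕ) :
    (⇑Φ)^[j] (aeval x q) = aeval (ζ ^ j * x) q := by
  induction j with
  | zero => simp
  | succ j ih =>
    rw [Function.iterate_succ_apply', ih]
    let ΦA : Ω →ₐ[↥B] Ω :=
      { (Φ : Ω →+* Ω) with
        commutes' := fun b => hΦ _ b.2 }
    have h1 : Φ (aeval (ζ ^ j * x) q) = ΦA (aeval (ζ ^ j * x) q) := rfl
    rw [h1, ← aeval_algHom_apply]
    have h2 : ΦA (ζ ^ j * x) = ζ ^ (j + 1) * x := by
      show Φ (ζ ^ j * x) = _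
      rw [map_mul, map_pow, hζ, hx]
      ring
    rw [h2]

/-- **Fixed elements of a Kummer extension.** -/
theorem mem_of_fixed_h819 (B : Subfield Ω) (Φ : Ω ≃+* Ω) (hΦ : ∀ z ∈ B, Φ z = z) {p : ℕ}
    (hp : p.Prime) {ζ : Ω} (hζ : IsPrimitiveRoot ζ p) (hζB : ζ ∈ B) {x : Ω}
    (hx : Φ x = ζ * x) (hxp : x ^ p ∈ B) {z : Ω}
    (hz : z ∈ Subfield.closure ((B : Set Ω) ∪ {x})) (hfix : Φ z = z) : z ∈ B := by
  classical
  -- `x` is integral over `B`
  have hint : IsIntegral ↥B x := by
    refine ⟨X ^ p - C ⟨x ^ p, hxp⟩, monic_X_pow_sub_C _ hp.ne_zero, ?_⟩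
    rw [← aeval_def, map_sub, map_pow, aeval_X, aeval_C]
    exact sub_self (x ^ p)
  -- `z` is a polynomial in `x`
  have hz' : z ∈ IntermediateField.adjoin ↥B ({x} : Set Ω) := by
    have : z ∈ (IntermediateField.adjoin ↥B ({x} : Set Ω)).toSubfield := by
      rw [IntermediateField.adjoin_toSubfield]
      have hr : Set.range (algebraMap ↥B Ω) = (B : Set Ω) := by
        ext y
        constructor
        · rintro ⟨b, rfl⟩
          exact b.2
        · intro hy
          exact ⟨⟨y, hy⟩, rfl⟩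
      rw [hr]
      exact hz
    exact this
  have hz'' : z ∈ Algebra.adjoin ↥B ({x} : Set Ω) := by
    rw [← IntermediateField.adjoin_simple_toSubalgebra_of_isAlgebraic hint.isAlgebraic]
    exact hz'
  rw [Algebra.adjoin_singleton_eq_range_aeval] at hz''
  obtain ⟨q, hq⟩ := hz''
  have hq' : aeval x q = z := hq
  subst hq'
  -- the sum of the conjugates
  have hζΦ : Φ ζ = ζ := hΦ ζ hζB
  have hiter : ∀ j : ℕ, (⇑Φ)^[j] (aeval x q) = aeval x q := by
    intro j
    induction j with
    | zero => rfl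
    | succ j ih => rw [Function.iterate_succ_apply', ih, hfix]
  have hsum : ∑ j ∈ Finset.range p, aeval (ζ ^ j * x) q = (p : Ω) * aeval x q := by
    have : ∀ j ∈ Finset.range p, aeval (ζ ^ j * x) q = aeval x q := by
      intro j _
      rw [← iterate_aeval_h819 B Φ hΦ hx hζΦ q j, hiter j]
    rw [Finset.sum_congr rfl this, Finset.sum_const, Finset.card_range, nsmul_eq_mul]
  have hp0 : (p : Ω) ≠ 0 := by
    haveI : NeZero p := ⟨hp.ne_zero⟩
    exact (hζ.neZero').ne
  -- each monomial contributes an element of `B`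
  have hmono : ∀ i : ℕ, ∑ j ∈ Finset.range p, (ζ ^ j * x) ^ i ∈ B := by
    intro i
    have e : ∑ j ∈ Finset.range p, (ζ ^ j * x) ^ i =
        x ^ i * ∑ j ∈ Finset.range p, (ζ ^ i) ^ j := by
      rw [Finset.mul_sum]
      refine Finset.sum_congr rfl fun j _ => ?_
      rw [mul_pow, ← pow_mul, ← pow_mul, mul_comm j i]
      ring
    rw [e]
    by_cases hi : p ∣ i
    · obtain ⟨k, rfl⟩ := hi
      refine B.mul_mem ?_ (B.sum_mem fun j _ => B.pow_mem (B.pow_mem hζB _) _)
      rw [pow_mul]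
      exact B.pow_mem hxp k
    · have hcop : Nat.Coprime i p := (Nat.Coprime.symm ((Nat.Prime.coprime_iff_not_dvd hp).mpr hi))
      have hprim : IsPrimitiveRoot (ζ ^ i) p := hζ.pow_of_coprime i hcop
      rw [hprim.geom_sum_eq_zero hp.one_lt, mul_zero]
      exact B.zero_mem
  have hS : ∑ j ∈ Finset.range p, aeval (ζ ^ j * x) q ∈ B := by
    have e : ∀ j : ℕ, aeval (ζ ^ j * x) q =
        ∑ i ∈ Finset.range (q.natDegree + 1), (q.coeff i : Ω) * (ζ ^ j * x) ^ i := by
      intro j
      rw [aeval_eq_sum_range]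
      refine Finset.sum_congr rfl fun i _ => ?_
      rw [Algebra.smul_def]
      rfl
    simp only [e]
    rw [Finset.sum_comm]
    refine B.sum_mem fun i _ => ?_
    rw [← Finset.mul_sum]
    exact B.mul_mem (q.coeff i).2 (hmono i)
  rw [hsum] at hS
  have : aeval x q = (p : Ω)⁻¹ * ((p : Ω) * aeval x q) := by
    rw [← mul_assoc, inv_mul_cancel₀ hp0, one_mul]
  rw [this]
  exact B.mul_mem (B.inv_mem (natCast_mem B p)) hS

end Fixed

section Deck

variable {Ω : Type*} [Field Ω]

/-- **The deck transformation of a Kummer extension of prime degree.** -/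
theorem exists_deck_h819 (B : Subfield Ω) {p : ℕ} (hp : p.Prime) {ζ : Ω}
    (hζ : IsPrimitiveRoot ζ p) (hζB : ζ ∈ B) {h : Ω} (hhp : h ^ p ∈ B) (hhB : h ∉ B) :
    ∃ τ : ↥(IntermediateField.adjoin ↥B ({h} : Set Ω)) ≃ₐ[↥B]
        ↥(IntermediateField.adjoin ↥B ({h} : Set Ω)),
      ((τ (IntermediateField.AdjoinSimple.gen ↥B h) :
        ↥(IntermediateField.adjoin ↥B ({h} : Set Ω))) : Ω) = ζ * h := by
  classical
  set a : ↥B := ⟨h ^ p, hhp⟩ with ha
  have hh0 : h ≠ 0 := fun h0 => hhB (h0 ▸ B.zero_mem)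
  -- `X ^ p - a` is irreducible over `B`
  have hirr : Irreducible (X ^ p - C a : Polynomial ↥B) := by
    apply X_pow_sub_C_irreducible_of_prime hp
    intro b hb
    have hb' : (b : Ω) ^ p = h ^ p := by
      have := congrArg (fun z : ↥B => (z : Ω)) hb
      simpa [ha] using this
    have hb0 : (b : Ω) ≠ 0 := by
      intro h0
      rw [h0, zero_pow hp.ne_zero] at hb'
      exact pow_ne_zero p hh0 hb'.symm
    have h1 : (h / (b : Ω)) ^ p = 1 := by
      rw [div_pow, hb', div_self (pow_ne_zero p hh0)]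
    haveI : NeZero p := ⟨hp.ne_zero⟩
    obtain ⟨i, -, hi⟩ := hζ.eq_pow_of_pow_eq_one h1
    apply hhB
    have : h = ζ ^ i * (b : Ω) := by
      rw [hi]
      field_simp
    rw [this]
    exact B.mul_mem (B.pow_mem hζB i) b.2
  have hroot : aeval h (X ^ p - C a : Polynomial ↥B) = 0 := by
    rw [map_sub, map_pow, aeval_X, aeval_C]
    exact sub_self (h ^ p)
  have hint : IsIntegral ↥B h := ⟨X ^ p - C a, monic_X_pow_sub_C _ hp.ne_zero, hroot⟩
  have hmin : minpoly ↥B h = X ^ p - C a :=
    (minpoly.eq_of_irreducible_of_monic hirr hroot (monic_X_pow_sub_C _ hp.ne_zero)).symm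
  let pb := IntermediateField.adjoin.powerBasis hint
  have hgen : pb.gen = IntermediateField.AdjoinSimple.gen ↥B h := rfl
  -- the second root `ζ h`
  have hζh : ζ * h ∈ IntermediateField.adjoin ↥B ({h} : Set Ω) := by
    refine mul_mem ?_ (IntermediateField.mem_adjoin_simple_self ↥B h)
    exact (IntermediateField.adjoin ↥B ({h} : Set Ω)).algebraMap_mem ⟨ζ, hζB⟩
  let y : ↥(IntermediateField.adjoin ↥B ({h} : Set Ω)) := ⟨ζ * h, hζh⟩
  have hy : aeval y (minpoly ↥B pb.gen) = 0 := by
    have hm : minpoly ↥B pb.gen = X ^ p - C a := by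
      rw [hgen, IntermediateField.minpoly_gen, hmin]
    rw [hm]
    apply Subtype.ext
    have hcoe : ((aeval y (X ^ p - C a : Polynomial ↥B) :
        ↥(IntermediateField.adjoin ↥B ({h} : Set Ω))) : Ω) =
        aeval (y : Ω) (X ^ p - C a : Polynomial ↥B) := by
      have := Polynomial.aeval_algHom_apply
        (IntermediateField.val (IntermediateField.adjoin ↥B ({h} : Set Ω))) y
        (X ^ p - C a : Polynomial ↥B)
      exact this.symm
    rw [hcoe]
    show aeval (ζ * h) (X ^ p - C a : Polynomial ↥B) = 0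
    rw [map_sub, map_pow, aeval_X, aeval_C, mul_pow, hζ.pow_eq_one, one_mul]
    exact sub_self (h ^ p)
  let φ : ↥(IntermediateField.adjoin ↥B ({h} : Set Ω)) →ₐ[↥B]
      ↥(IntermediateField.adjoin ↥B ({h} : Set Ω)) := pb.lift y hy
  haveI : FiniteDimensional ↥B ↥(IntermediateField.adjoin ↥B ({h} : Set Ω)) :=
    IntermediateField.adjoin.finiteDimensional hint
  refine ⟨AlgEquiv.ofBijective φ (AlgHom.bijective φ), ?_⟩
  show ((φ (IntermediateField.AdjoinSimple.gen ↥B h) : _) : Ω) = ζ * h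
  rw [← hgen]
  have : φ pb.gen = y := pb.lift_gen y hy
  rw [this]

end Deck

end Fermat.Agent.Ribet.H819

end

end
-- ===== PACK-END Ribet/H819/PerFieldAbs.lean

-- ===== PACK-BEGIN Ribet/H819/BaseIsoAbs.lean
section


/-!
# Change of the base field along an isomorphism (helper819; Mathlib only)

`L` a field which is an algebra over two fields `F₁` and `K₁`, `e : K₁ →+* F₁` a SURJECTIVE ring
homomorphism compatible with the structure maps (`algebraMap K₁ L = algebraMap F₁ L ∘ e`).
(Typical use: `K₁` an abstract function field, `F₁` its image in a field of Laurent series,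
`L` a Kummer extension of `F₁` inside the Laurent series.)

* `algEquivOfBase_h819 : (L ≃ₐ[F₁] L) →* (L ≃ₐ[K₁] L)` (same underlying map), `algEquivToBase_h819`;
* `isGalois_of_base_h819`, `finiteDimensional_of_base_h819`, `finrank_of_base_h819`;
* `adjoin_eq_top_of_base_h819`;
* `mem_zpowers_of_base_h819` : a generator of `Gal(L/F₁)` gives a generator of `Gal(L/K₁)`.
-/

set_option autoImplicit false
set_option linter.unusedSectionVars false
set_option linter.style.haveILetI false

noncomputable section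

namespace Fermat.Agent.Ribet.H819

section BaseIso

variable {F₁ K₁ L : Type*} [Field F₁] [Field K₁] [Field L] [Algebra F₁ L] [Algebra K₁ L]
  (e : K₁ →+* F₁) (he : ∀ x, algebraMap K₁ L x = algebraMap F₁ L (e x))
  (hsurj : Function.Surjective e)

/-- An `F₁`-automorphism, as a `K₁`-automorphism. -/
def algEquivOfBase_h819 : (L ≃ₐ[F₁] L) →* (L ≃ₐ[K₁] L) where
  toFun g := AlgEquiv.ofRingEquiv (f := g.toRingEquiv) (fun x => by
    rw [he]
    exact g.commutes _)
  map_one' := AlgEquiv.ext fun _ => rfl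
  map_mul' _ _ := AlgEquiv.ext fun _ => rfl

@[simp]
theorem algEquivOfBase_apply_h819 (g : L ≃ₐ[F₁] L) (z : L) :
    algEquivOfBase_h819 e he g z = g z := rfl

/-- A `K₁`-automorphism, as an `F₁`-automorphism. -/
def algEquivToBase_h819 (g : L ≃ₐ[K₁] L) : L ≃ₐ[F₁] L :=
  AlgEquiv.ofRingEquiv (f := g.toRingEquiv) (fun y => by
    obtain ⟨x, rfl⟩ := hsurj y
    rw [← he]
    exact g.commutes x)

@[simp]
theorem algEquivToBase_apply_h819 (g : L ≃ₐ[K₁] L) (z : L) :
    algEquivToBase_h819 e he hsurj g z = g z := rfl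

theorem algEquivOfBase_toBase_h819 (g : L ≃ₐ[K₁] L) :
    algEquivOfBase_h819 e he (algEquivToBase_h819 e he hsurj g) = g :=
  AlgEquiv.ext fun _ => rfl

include he hsurj in
/-- The tower `F₁ → K₁ → L` (via `e⁻¹`) used for the transport. -/
theorem exists_tower_h819 :
    ∃ (_ : Algebra F₁ K₁), IsScalarTower F₁ K₁ L := by
  let ee : K₁ ≃+* F₁ := RingEquiv.ofBijective e ⟨e.injective, hsurj⟩
  letI : Algebra F₁ K₁ := ee.symm.toRingHom.toAlgebra
  refine ⟨inferInstance, IsScalarTower.of_algebraMap_eq fun y => ?_⟩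
  show algebraMap F₁ L y = algebraMap K₁ L (ee.symm y)
  rw [he]
  congr 1
  exact (ee.apply_symm_apply y).symm

include he hsurj in
theorem isGalois_of_base_h819 [IsGalois F₁ L] : IsGalois K₁ L := by
  obtain ⟨_, _⟩ := exists_tower_h819 e he hsurj
  exact IsGalois.tower_top_of_isGalois F₁ K₁ L

include he hsurj in
theorem finiteDimensional_of_base_h819 [FiniteDimensional F₁ L] : FiniteDimensional K₁ L := by
  obtain ⟨_, _⟩ := exists_tower_h819 e he hsurj
  exact FiniteDimensional.right F₁ K₁ L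

include he hsurj in
theorem adjoin_eq_top_of_base_h819 {S : Set L} (h : IntermediateField.adjoin F₁ S = ⊤) :
    IntermediateField.adjoin K₁ S = ⊤ := by
  obtain ⟨_, _⟩ := exists_tower_h819 e he hsurj
  rw [eq_top_iff]
  intro z _
  have h1 : IntermediateField.adjoin F₁ S ≤
      (IntermediateField.adjoin K₁ S).restrictScalars F₁ := by
    rw [IntermediateField.adjoin_le_iff]
    intro s hs
    exact IntermediateField.subset_adjoin K₁ S hs
  have h2 : z ∈ IntermediateField.adjoin F₁ S := by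
    rw [h]
    exact IntermediateField.mem_top
  exact h1 h2

include hsurj in
/-- A generator of `Gal(L/F₁)` gives a generator of `Gal(L/K₁)`. -/
theorem mem_zpowers_of_base_h819 (τ : L ≃ₐ[F₁] L)
    (hgen : ∀ g : L ≃ₐ[F₁] L, g ∈ Subgroup.zpowers τ) (g : L ≃ₐ[K₁] L) :
    g ∈ Subgroup.zpowers (algEquivOfBase_h819 e he τ) := by
  obtain ⟨k, hk⟩ := Subgroup.mem_zpowers_iff.mp (hgen (algEquivToBase_h819 e he hsurj g))
  refine Subgroup.mem_zpowers_iff.mpr ⟨k, ?_⟩
  rw [← map_zpow, hk]
  exact algEquivOfBase_toBase_h819 e he hsurj g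

include he hsurj in
theorem finrank_of_base_h819 : Module.finrank K₁ L = Module.finrank F₁ L := by
  refine Algebra.finrank_eq_of_equiv_equiv (RingEquiv.ofBijective e ⟨e.injective, hsurj⟩)
    (RingEquiv.refl L) ?_
  ext x
  exact (he x).symm

end BaseIso

end Fermat.Agent.Ribet.H819

end

end
-- ===== PACK-END Ribet/H819/BaseIsoAbs.lean

-- ===== PACK-BEGIN Ribet/H703/SplitConstCore.lean
section
/-
# RIBET row 38, WALL-p, (S4)/EIS: leaf SPLIT-CONST, Mathlib-only core   (helper703)

`u ^ (2 n) = w ^ p` with `p` an odd prime not dividing `n`  ⟹  `u` is a `p`-th power of an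
element of the multiplicative group generated by `u` and `w` (Bezout).  Used with
`u = lc (w_N f) / lc f`, `n = ℓ + 1 - a_ℓ`.

Also: the leading coefficient of Laurent series over a field as a monoid-with-zero
homomorphism, and its behaviour under coefficient maps.
-/


set_option autoImplicit false

namespace Fermat.Agent.Ribet.H703

/-- Bezout in a commutative group with zero: `u ^ m = w ^ p`, `gcd(m, p) = 1` ⟹
`u = (w ^ α * u ^ β) ^ p`. -/
theorem exists_zpow_eq_of_coprime {E : Type*} [CommGroupWithZero E] {u w : E} (hu : u ≠ 0)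
    {m p : ℤ} (hcop : IsCoprime m p) (h : u ^ m = w ^ p) :
    ∃ α β : ℤ, u = (w ^ α * u ^ β) ^ p := by
  obtain ⟨α, β, hαβ⟩ := hcop
  refine ⟨α, β, ?_⟩
  have h1 : u = u ^ (α * m + β * p) := by rw [hαβ, zpow_one]
  rw [mul_zpow, ← zpow_mul, ← zpow_mul]
  calc u = u ^ (α * m + β * p) := h1
    _ = u ^ (m * α) * u ^ (β * p) := by rw [zpow_add₀ hu, mul_comm α m]
    _ = (u ^ m) ^ α * u ^ (β * p) := by rw [zpow_mul]
    _ = (w ^ p) ^ α * u ^ (β * p) := by rw [h]
    _ = w ^ (α * p) * u ^ (β * p) := by rw [← zpow_mul, mul_comm p α]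

/-- The form used by SPLIT-CONST: `p` an odd prime, `p ∤ n`, `u ^ (2 n) = w ^ p`. -/
theorem exists_zpow_eq_of_two_mul {E : Type*} [CommGroupWithZero E] {u w : E} (hu : u ≠ 0)
    {p : ℕ} (hp : p.Prime) (hp2 : p ≠ 2) {n : ℤ} (hn : ¬ (p : ℤ) ∣ n)
    (h : u ^ (2 * n) = w ^ (p : ℤ)) :
    ∃ α β : ℤ, u = (w ^ α * u ^ β) ^ p := by
  have hpp : Prime (p : ℤ) := Nat.prime_iff_prime_int.mp hp
  have h2n : ¬ (p : ℤ) ∣ 2 * n := by
    intro hd
    rcases hpp.dvd_or_dvd hd with h2 | h2
    · have : p ∣ 2 := by exact_mod_cast h2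
      exact hp2 ((Nat.prime_dvd_prime_iff_eq hp Nat.prime_two).mp this)
    · exact hn h2
  have hcop : IsCoprime (2 * n) (p : ℤ) :=
    (IsCoprime.symm ((Prime.coprime_iff_not_dvd hpp).mpr h2n))
  obtain ⟨α, β, hαβ⟩ := exists_zpow_eq_of_coprime hu hcop h
  exact ⟨α, β, by rw [← zpow_natCast]; exact hαβ⟩

section LC

open HahnSeries

variable {K : Type*} [Field K]

/-- The leading coefficient of a Laurent series over a field, as a monoid-with-zero hom. -/
noncomputable def lcHom : LaurentSeries K →*₀ K where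
  toFun x := x.leadingCoeff
  map_zero' := leadingCoeff_zero
  map_one' := leadingCoeff_one
  map_mul' x y := leadingCoeff_mul x y

@[simp] theorem lcHom_apply (x : LaurentSeries K) : lcHom x = x.leadingCoeff := rfl

theorem lcHom_C (c : K) : lcHom (HahnSeries.C c : LaurentSeries K) = c := by
  rw [lcHom_apply]
  exact leadingCoeff_of_single

theorem lcHom_ne_zero {x : LaurentSeries K} (hx : x ≠ 0) : lcHom x ≠ 0 :=
  leadingCoeff_ne_zero.mpr hx

/-- The leading coefficient commutes with an injective map on the coefficients. -/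
theorem leadingCoeff_map_of_injective {L : Type*} [Field L] (σ : K →+* L)
    (x : LaurentSeries K) :
    (x.map σ : LaurentSeries L).leadingCoeff = σ x.leadingCoeff := by
  rcases eq_or_ne x 0 with rfl | hx
  · have h0 : ((0 : LaurentSeries K).map σ : LaurentSeries L) = 0 := by
      ext n
      simp
    rw [h0, leadingCoeff_zero, leadingCoeff_zero, map_zero]
  · have hinj : Function.Injective σ := σ.injective
    have hsupp : (x.map σ : LaurentSeries L).support = x.support := by
      ext n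
      simp only [mem_support, HahnSeries.map_coeff, ne_eq]
      rw [← map_zero σ, hinj.eq_iff]
    have hne : (x.map σ : LaurentSeries L) ≠ 0 := by
      intro h0
      apply hx
      ext n
      have := congrArg (fun y : LaurentSeries L => y.coeff n) h0
      simp only [HahnSeries.map_coeff, coeff_zero] at this
      rw [← map_zero σ] at this
      simpa using hinj this
    have hord : (x.map σ : LaurentSeries L).order = x.order := by
      rw [order_of_ne hne, order_of_ne hx]
      congr 1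
    rw [leadingCoeff_eq, leadingCoeff_eq, hord, HahnSeries.map_coeff]

end LC

end Fermat.Agent.Ribet.H703

end
-- ===== PACK-END Ribet/H703/SplitConstCore.lean

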