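import Mathlib
import Fermat.Prelude.Def_FLTPrelim_GaloisRep
import Mathlib.AlgebraicGeometry.EllipticCurve.Affine.AddSubMap
import Fermat.Prelude.Def_FLTPrelim_Ramification
import Fermat.Prelude.Def_ModularCurve_PeriodHomPair
import Fermat.Prelude.Thm_Subgroup_IsArithmetic_exists_nat_mem_strictPeriods_conj
import Fermat.Agent.Pack.S44.G0E0L1
import Fermat.Agent.Pack.S44.G0E0L2
import Fermat.Agent.Pack.S44.G0E0L3
import Fermat.Agent.Pack.S44.G0E0L0
import Fermat.Agent.Pack.S44.G0E1L1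
import Fermat.Agent.Pack.S44.G0E1L3

-- ===== PACK-BEGIN S28/H867/Leaves.lean
section
/-
S28 [L] (helper867): leaf interface for the degree bookkeeping behind `coreData`.
Only definitions and `Prop`-valued leaf statements live here (no proofs needed).
-/



set_option autoImplicit false

noncomputable section

open ModularCurve HahnSeries IntermediateField

namespace Fermat.Agent.S28.H867

variable (k : Type*) [Field k]

/-- `j(q^p)` as a Laurent series over `k`. -/
abbrev jp (p : ℕ) [NeZero p] : LaurentSeries k := qExpand k p (jqModC k)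

/-- `k(j(q^p)) ⊂ k((q))`. -/
def jpField (p : ℕ) [NeZero p] : IntermediateField k (LaurentSeries k) :=
  IntermediateField.adjoin k {jp k p}

/-- `E_M = k(j(q^d) : d ∣ M)`. -/
abbrev EF (M : ℕ) : IntermediateField k (LaurentSeries k) := modularFunctionFieldFullC k M

/-- `[E_M : k(j)]` (zero if infinite). -/
def degE (M : ℕ) : ℕ := (jField k).relfinrank (EF k M)

/-- The expected degree `ψ(N) = ∏_{p ∣ N} (p + 1) p^{v_p(N) - 1}`. -/
def gFun (N : ℕ) : ℕ := ∏ p ∈ N.primeFactors, (p + 1) * p ^ (N.factorization p - 1)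

/-- Leaf [L.I]: `1, j, …, j^{p-1}` are linearly independent over every subfield of
`k((q^p)) = range V_p`. True for every field `k` and every `p ≥ 1`. -/
def LeafI (p : ℕ) [NeZero p] : Prop :=
  ∀ B : IntermediateField k (LaurentSeries k),
    B ≤ (qExpandAlgHomC k p).fieldRange →
    LinearIndependent B (fun i : Fin p => (jqModC k) ^ (i : ℕ))

/-- Leaf [L.B1]: `j(q^p) ∉ k(j)`. True when `p` is prime and `(p : k) ≠ 0`. -/
def LeafB1 (p : ℕ) [NeZero p] : Prop := jp k p ∉ jField k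

/-- Leaf [L.UP]: upper bound in characteristic zero. -/
def LeafUP (N : ℕ) : Prop := ∀ M : ℕ, M ∣ N → degE ℚ M ≤ gFun M

/-- Prime-level degrees: `[k(j, j_p) : k(j)] = p + 1 = [k(j, j_p) : k(j_p)]`. -/
structure PrimeLevel (p : ℕ) [NeZero p] : Prop where
  deg_j : (jField k).relfinrank (jField k ⊔ jpField k p) = p + 1
  deg_jp : (jpField k p).relfinrank (jField k ⊔ jpField k p) = p + 1

end Fermat.Agent.S28.H867

end

end
-- ===== PACK-END S28/H867/Leaves.lean

-- ===== PACK-BEGIN S28/H685/QLaurent.lean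
section



/-!
# S28 helper (helper685): convergent Laurent `q`-series

`HasQLaurent h f φ` : the function `f : ℍ → ℂ` is, at every point `τ`, the sum of the Laurent
series `φ` evaluated at `q = exp (2 π i τ / h)`.
-/

set_option autoImplicit false

namespace Fermat.Agent.S28.H685

open UpperHalfPlane Function Complex Filter HahnSeries
open scoped Topology Manifold

noncomputable section

local notation "𝕢" => Periodic.qParam

/-- `f` is the sum of the Laurent series `φ` in the parameter `q = exp (2 π i τ / h)`. -/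
def HasQLaurent (h : ℝ) (f : ℍ → ℂ) (φ : LaurentSeries ℂ) : Prop :=
  ∀ τ : ℍ, HasSum (fun n : ℤ => φ.coeff n * 𝕢 h τ ^ n) (f τ)

theorem ofPS_coeff_of_neg (A : PowerSeries ℂ) {k : ℤ} (hk : k < 0) :
    (HahnSeries.ofPowerSeries ℤ ℂ A).coeff k = 0 := by
  rw [HahnSeries.ofPowerSeries_apply]
  refine HahnSeries.embDomain_of_notMem_range ?_
  rintro ⟨m, rfl⟩
  exact absurd hk (not_lt.mpr (Int.natCast_nonneg m))

theorem coeff_single_mul_ofPS (k : ℤ) (A : PowerSeries ℂ) (m : ℕ) :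
    (HahnSeries.single k (1 : ℂ) * HahnSeries.ofPowerSeries ℤ ℂ A).coeff (m + k) =
      PowerSeries.coeff m A := by
  rw [HahnSeries.coeff_single_mul, one_mul, add_sub_cancel_right,
    HahnSeries.ofPowerSeries_apply_coeff]

theorem coeff_single_mul_ofPS_of_lt (k : ℤ) (A : PowerSeries ℂ) {n : ℤ} (hn : n < k) :
    (HahnSeries.single k (1 : ℂ) * HahnSeries.ofPowerSeries ℤ ℂ A).coeff n = 0 := by
  rw [HahnSeries.coeff_single_mul, one_mul]
  exact ofPS_coeff_of_neg A (by omega)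

/-- The basic shift lemma relating Laurent expansions and power series expansions. -/
theorem hasQLaurent_single_mul_iff (h : ℝ) (f : ℍ → ℂ) (k : ℤ) (A : PowerSeries ℂ) :
    HasQLaurent h f (HahnSeries.single k (1 : ℂ) * HahnSeries.ofPowerSeries ℤ ℂ A) ↔
      HasQExp h (fun τ => f τ * 𝕢 h τ ^ (-k)) A := by
  have hg : Function.Injective (fun m : ℕ => (m : ℤ) + k) := by
    intro a b hab
    simpa using hab
  refine forall_congr' fun τ => ?_
  have hq : 𝕢 h τ ≠ 0 := Periodic.qParam_ne_zero _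
  set φ := HahnSeries.single k (1 : ℂ) * HahnSeries.ofPowerSeries ℤ ℂ A with hφ
  have h0 : ∀ n ∉ Set.range (fun m : ℕ => (m : ℤ) + k), φ.coeff n * 𝕢 h τ ^ n = 0 := by
    intro n hn
    have hlt : n < k := by
      by_contra hge
      rw [not_lt] at hge
      exact hn ⟨(n - k).toNat, by simp; omega⟩
    rw [hφ, coeff_single_mul_ofPS_of_lt k A hlt, zero_mul]
  rw [← hg.hasSum_iff h0]
  have hfun : ((fun n : ℤ => φ.coeff n * 𝕢 h τ ^ n) ∘ fun m : ℕ => (m : ℤ) + k) =
      fun m : ℕ => (PowerSeries.coeff m A * 𝕢 h τ ^ m) * 𝕢 h τ ^ k := by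
    funext m
    simp only [Function.comp_apply, hφ, coeff_single_mul_ofPS]
    rw [zpow_add₀ hq, zpow_natCast]
    ring
  rw [hfun]
  have hk : 𝕢 h τ ^ k ≠ 0 := zpow_ne_zero _ hq
  have hval : f τ = (f τ * 𝕢 h τ ^ (-k)) * 𝕢 h τ ^ k := by
    rw [mul_assoc, ← zpow_add₀ hq]
    simp
  conv_lhs => rw [hval]
  exact hasSum_mul_right_iff hk

theorem algebraMap_eq_C (c : ℂ) :
    algebraMap ℂ (LaurentSeries ℂ) c = HahnSeries.C c := by
  have h1 : algebraMap ℂ (PowerSeries ℂ) c = PowerSeries.C c := by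
    simp
  rw [HahnSeries.algebraMap_apply', h1, HahnSeries.ofPowerSeries_C]

/-- Every Laurent series is a monomial times a power series. -/
theorem laurent_decomp (φ : LaurentSeries ℂ) :
    φ = HahnSeries.single φ.order (1 : ℂ) * HahnSeries.ofPowerSeries ℤ ℂ φ.powerSeriesPart :=
  (LaurentSeries.single_order_mul_powerSeriesPart φ).symm

namespace HasQLaurent

variable {h : ℝ} {f g : ℍ → ℂ} {φ ψ : LaurentSeries ℂ}

theorem congr_fun (hf : HasQLaurent h f φ) (hfg : ∀ τ, f τ = g τ) : HasQLaurent h g φ :=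
  fun τ => hfg τ ▸ hf τ

theorem congr_series (hf : HasQLaurent h f φ) (hφ : φ = ψ) : HasQLaurent h f ψ := hφ ▸ hf

theorem zero : HasQLaurent h (fun _ => 0) 0 := fun τ => by
  simp [hasSum_zero]

theorem add (hf : HasQLaurent h f φ) (hg : HasQLaurent h g ψ) :
    HasQLaurent h (fun τ => f τ + g τ) (φ + ψ) := fun τ => by
  simpa [add_mul] using (hf τ).add (hg τ)

theorem neg (hf : HasQLaurent h f φ) : HasQLaurent h (fun τ => -f τ) (-φ) := fun τ => by
  simpa using (hf τ).neg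

theorem sub (hf : HasQLaurent h f φ) (hg : HasQLaurent h g ψ) :
    HasQLaurent h (fun τ => f τ - g τ) (φ - ψ) := fun τ => by
  simpa [sub_mul] using (hf τ).sub (hg τ)

theorem const_mul (c : ℂ) (hf : HasQLaurent h f φ) :
    HasQLaurent h (fun τ => c * f τ) (HahnSeries.C c * φ) := fun τ => by
  simpa [mul_assoc] using (hf τ).mul_left c

/-- Power series expansions are Laurent expansions. -/
theorem of_hasQExp {A : PowerSeries ℂ} (hf : HasQExp h f A) :
    HasQLaurent h f (HahnSeries.ofPowerSeries ℤ ℂ A) := by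
  have := (hasQLaurent_single_mul_iff h f 0 A).mpr (by simpa using hf)
  simpa using this

theorem hasQExp_of_ofPowerSeries {A : PowerSeries ℂ}
    (hf : HasQLaurent h f (HahnSeries.ofPowerSeries ℤ ℂ A)) : HasQExp h f A := by
  have h1 : HasQLaurent h f (HahnSeries.single 0 (1 : ℂ) * HahnSeries.ofPowerSeries ℤ ℂ A) := by
    simpa using hf
  simpa using (hasQLaurent_single_mul_iff h f 0 A).mp h1

theorem const (c : ℂ) : HasQLaurent h (fun _ => c) (HahnSeries.C c) := by
  have := of_hasQExp (HasQExp.const (h := h) c)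
  simpa using this

theorem one : HasQLaurent h (fun _ => 1) 1 := by
  have := of_hasQExp (HasQExp.one (h := h))
  simpa using this

/-- The monomial `q ^ k`. -/
theorem single (k : ℤ) : HasQLaurent h (fun τ => 𝕢 h τ ^ k) (HahnSeries.single k (1 : ℂ)) := by
  have h1 : HasQExp h (fun τ => 𝕢 h τ ^ k * 𝕢 h τ ^ (-k)) 1 := by
    refine HasQExp.one.congr_fun fun τ => ?_
    rw [← zpow_add₀ (Periodic.qParam_ne_zero _)]
    simp
  have := (hasQLaurent_single_mul_iff h _ k 1).mpr h1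
  simpa using this

/-- The power series part of a Laurent expansion. -/
theorem hasQExp_powerSeriesPart (hf : HasQLaurent h f φ) :
    HasQExp h (fun τ => f τ * 𝕢 h τ ^ (-φ.order)) φ.powerSeriesPart :=
  (hasQLaurent_single_mul_iff h f φ.order φ.powerSeriesPart).mp
    (hf.congr_series (laurent_decomp φ))

theorem mul (hf : HasQLaurent h f φ) (hg : HasQLaurent h g ψ) :
    HasQLaurent h (fun τ => f τ * g τ) (φ * ψ) := by
  have h1 := hf.hasQExp_powerSeriesPart
  have h2 := hg.hasQExp_powerSeriesPart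
  have h3 := h1.mul h2
  have h4 : HasQExp h (fun τ => (f τ * g τ) * 𝕢 h τ ^ (-(φ.order + ψ.order)))
      (φ.powerSeriesPart * ψ.powerSeriesPart) := by
    refine h3.congr_fun fun τ => ?_
    rw [neg_add, zpow_add₀ (Periodic.qParam_ne_zero _)]
    ring
  have h5 := (hasQLaurent_single_mul_iff h _ (φ.order + ψ.order) _).mpr h4
  refine h5.congr_series ?_
  conv_rhs => rw [laurent_decomp φ, laurent_decomp ψ]
  have hs : HahnSeries.single (φ.order + ψ.order) (1 : ℂ) =
      HahnSeries.single φ.order (1 : ℂ) * HahnSeries.single ψ.order (1 : ℂ) := by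
    rw [HahnSeries.single_mul_single, one_mul]
  rw [map_mul, hs]
  exact mul_mul_mul_comm _ _ _ _

theorem pow (hf : HasQLaurent h f φ) (n : ℕ) : HasQLaurent h (fun τ => f τ ^ n) (φ ^ n) := by
  induction n with
  | zero => simpa using one (h := h)
  | succ n ih => simpa [pow_succ] using ih.mul hf

theorem finset_sum {ι : Type*} (s : Finset ι) (F : ι → ℍ → ℂ) (P : ι → LaurentSeries ℂ)
    (hF : ∀ i ∈ s, HasQLaurent h (F i) (P i)) :
    HasQLaurent h (fun τ => ∑ i ∈ s, F i τ) (∑ i ∈ s, P i) := by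
  classical
  induction s using Finset.induction_on with
  | empty => simpa using zero (h := h)
  | insert a s ha ih =>
    simp only [Finset.sum_insert ha]
    exact (hF a (Finset.mem_insert_self a s)).add
      (ih fun i hi => hF i (Finset.mem_insert_of_mem hi))

theorem finset_prod {ι : Type*} (s : Finset ι) (F : ι → ℍ → ℂ) (P : ι → LaurentSeries ℂ)
    (hF : ∀ i ∈ s, HasQLaurent h (F i) (P i)) :
    HasQLaurent h (fun τ => ∏ i ∈ s, F i τ) (∏ i ∈ s, P i) := by
  classical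
  induction s using Finset.induction_on with
  | empty => simpa using one (h := h)
  | insert a s ha ih =>
    simp only [Finset.prod_insert ha]
    exact (hF a (Finset.mem_insert_self a s)).mul
      (ih fun i hi => hF i (Finset.mem_insert_of_mem hi))

/-- Uniqueness of the Laurent coefficients. -/
theorem eq_zero (hh : 0 < h) (hf : HasQLaurent h (fun _ => 0) φ) : φ = 0 := by
  have h1 := hf.hasQExp_powerSeriesPart
  have h2 : φ.powerSeriesPart = 0 := by
    refine HasQExp.eq_zero hh (h1.congr_fun fun τ => ?_)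
    simp
  exact (LaurentSeries.powerSeriesPart_eq_zero φ).mp h2

theorem unique (hh : 0 < h) (hf : HasQLaurent h f φ) (hg : HasQLaurent h f ψ) : φ = ψ := by
  have h1 : HasQLaurent h (fun _ => 0) (φ - ψ) :=
    (hf.sub hg).congr_fun fun τ => sub_self _
  exact sub_eq_zero.mp (h1.eq_zero hh)

/-- If the function vanishes identically then so does the series; pointwise version. -/
theorem eq_of_forall_eq (hh : 0 < h) (hf : HasQLaurent h f φ) (hg : HasQLaurent h g ψ)
    (hfg : ∀ τ, f τ = g τ) : φ = ψ :=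
  (hf.congr_fun hfg).unique hh hg

theorem mdifferentiable (hh : 0 < h) (hf : HasQLaurent h f φ) : MDiff f := by
  have h1 := (hf.hasQExp_powerSeriesPart).mdifferentiable hh
  have h2 : MDiff (fun τ : ℍ => 𝕢 h τ ^ φ.order) := by
    rw [UpperHalfPlane.mdifferentiable_iff]
    have hd : DifferentiableOn ℂ (fun z : ℂ => 𝕢 h z ^ φ.order) {z | 0 < z.im} := by
      intro z _
      exact ((Periodic.differentiable_qParam (h := h)).differentiableAt.zpow
        (Or.inl (Periodic.qParam_ne_zero _))).differentiableWithinAt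
    refine hd.congr fun z hz => ?_
    simp only [Function.comp_apply]
    rw [ofComplex_apply_of_im_pos hz]
  have h3 : f = fun τ => (f τ * 𝕢 h τ ^ (-φ.order)) * 𝕢 h τ ^ φ.order := by
    funext τ
    rw [mul_assoc, ← zpow_add₀ (Periodic.qParam_ne_zero _)]
    simp
  rw [h3]
  exact h1.mul h2

theorem vadd_period (hh : 0 < h) (hf : HasQLaurent h f φ) (τ : ℍ) (τ' : ℍ)
    (hτ : (τ' : ℂ) = τ + h) : f τ' = f τ := by
  have h1 := (hf.hasQExp_powerSeriesPart).vadd_period hh τ τ' hτ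
  have h2 := (HasQExp.X (h := h)).vadd_period hh τ τ' hτ
  beta_reduce at h1 h2
  rw [h2] at h1
  exact mul_right_cancel₀ (zpow_ne_zero _ (Periodic.qParam_ne_zero _)) h1

/-- Closure under inverses. -/
theorem inv (hh : 0 < h) (hf : HasQLaurent h f φ) (hf0 : ∀ τ, f τ ≠ 0) (hφ : φ ≠ 0) :
    HasQLaurent h (fun τ => (f τ)⁻¹) φ⁻¹ := by
  have h1 := hf.hasQExp_powerSeriesPart
  have hA0 : PowerSeries.coeff 0 φ.powerSeriesPart ≠ 0 := by
    rw [LaurentSeries.powerSeriesPart_coeff]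
    simpa using (HahnSeries.coeff_order_eq_zero (x := φ)).not.mpr hφ
  have h2 := h1.inv hh (fun τ => mul_ne_zero (hf0 τ)
    (zpow_ne_zero _ (Periodic.qParam_ne_zero _))) hA0
  have h3 : HasQExp h (fun τ => (f τ)⁻¹ * 𝕢 h τ ^ (-(-φ.order))) (φ.powerSeriesPart)⁻¹ := by
    refine h2.congr_fun fun τ => ?_
    rw [mul_inv, ← zpow_neg]
  have h4 := (hasQLaurent_single_mul_iff h _ (-φ.order) _).mpr h3
  refine h4.congr_series ?_
  have hA0' : PowerSeries.constantCoeff φ.powerSeriesPart ≠ 0 := by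
    rwa [← PowerSeries.coeff_zero_eq_constantCoeff]
  symm
  apply inv_eq_of_mul_eq_one_left
  have hs : HahnSeries.single (-φ.order) (1 : ℂ) * HahnSeries.single φ.order (1 : ℂ) = 1 := by
    rw [HahnSeries.single_mul_single, one_mul, neg_add_cancel]
    rfl
  calc HahnSeries.single (-φ.order) (1 : ℂ) * HahnSeries.ofPowerSeries ℤ ℂ (φ.powerSeriesPart)⁻¹ * φ
      = HahnSeries.single (-φ.order) (1 : ℂ) * HahnSeries.ofPowerSeries ℤ ℂ (φ.powerSeriesPart)⁻¹ *
        (HahnSeries.single φ.order (1 : ℂ) * HahnSeries.ofPowerSeries ℤ ℂ φ.powerSeriesPart) := by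
        rw [← laurent_decomp φ]
    _ = (HahnSeries.single (-φ.order) (1 : ℂ) * HahnSeries.single φ.order (1 : ℂ)) *
        HahnSeries.ofPowerSeries ℤ ℂ ((φ.powerSeriesPart)⁻¹ * φ.powerSeriesPart) := by
        rw [map_mul]
        exact mul_mul_mul_comm _ _ _ _
    _ = 1 := by
        rw [hs, PowerSeries.inv_mul_cancel _ hA0', map_one, one_mul]

theorem div (hh : 0 < h) (hf : HasQLaurent h f φ) (hg : HasQLaurent h g ψ)
    (hg0 : ∀ τ, g τ ≠ 0) (hψ : ψ ≠ 0) :
    HasQLaurent h (fun τ => f τ / g τ) (φ / ψ) := by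
  simpa [div_eq_mul_inv] using hf.mul (hg.inv hh hg0 hψ)

/-- Evaluation of polynomials. -/
theorem aeval (hf : HasQLaurent h f φ) (P : Polynomial ℂ) :
    HasQLaurent h (fun τ => P.eval (f τ)) (Polynomial.aeval φ P) := by
  induction P using Polynomial.induction_on' with
  | add p q hp hq =>
    simpa using hp.add hq
  | monomial n a =>
    have := (hf.pow n).const_mul a
    refine (this.congr_fun fun τ => ?_).congr_series ?_
    · simp
    · rw [Polynomial.aeval_monomial, algebraMap_eq_C]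

/-- Evaluation of multivariate polynomials. -/
theorem mvAeval {σ : Type*} (F : σ → ℍ → ℂ) (Φ : σ → LaurentSeries ℂ)
    (hF : ∀ i, HasQLaurent h (F i) (Φ i)) (P : MvPolynomial σ ℂ) :
    HasQLaurent h (fun τ => MvPolynomial.eval (fun i => F i τ) P) (MvPolynomial.aeval Φ P) := by
  induction P using MvPolynomial.induction_on with
  | C a =>
    have := (one (h := h)).const_mul a
    refine (this.congr_fun fun τ => ?_).congr_series ?_
    · simp
    · rw [MvPolynomial.aeval_C, algebraMap_eq_C, mul_one]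
  | add p q hp hq =>
    simpa using hp.add hq
  | mul_X p i hp =>
    simpa using hp.mul (hF i)

end HasQLaurent

end

end Fermat.Agent.S28.H685

end
-- ===== PACK-END S28/H685/QLaurent.lean

-- ===== PACK-BEGIN Ribet/Spec2.lean
section


/-!
# Row RIBET: interface statements, second instalment (board v2, helper943)

`Spec.lean` is frozen on main.  This file adds the corrected / weakened forms agreed with the
rows that deliver them.  All definitions are `Prop`s; no proofs.

* `EigenformOfOccursAwayStatement` (R3S): R3 only for `S ⊇ {primes dividing M·p}` (the Kummer-Hecke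
  dictionary of the S29 tower exists only away from `M·p`).
* `TraceFormulaFreyStatement` (TF-Frey): the trace formula for the Frey curve and `n = p` only
  (the general form needs `det = cyclotomic` for all curves).
* `AtPOccursStatement`, `AtQOccursStatement`: the two Mazur walls in SUPPORT form (no embedding
  of the abelian part is asked for).  `AtPOccursStatement` is verbatim the statement
  `Fermat.Agent.Ribet.H884.AtPOccursStatement`.
-/

set_option autoImplicit false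

open WeierstrassCurve WeierstrassCurve.Affine WeierstrassCurve.Affine.Point
open CuspForm ModularFormClass UpperHalfPlane ModularCurve

namespace Fermat.Agent.Ribet.Spec

/-- (R3S) [row S29: architect helper201]  An eigensystem occurring in `J₀(M)[p]` away from a
finite set `S` **containing all primes dividing `M·p`** is the reduction of a normalised
eigenform of level `M` (congruence for the primes outside `S`). -/
def EigenformOfOccursAwayStatement : Prop :=
  ∀ (M p : ℕ) [NeZero M], p.Prime → ∀ (S : Finset ℕ) (a : ℕ → ℤ),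
    (∀ ℓ : ℕ, ℓ.Prime → ℓ ∣ M * p → ℓ ∈ S) → OccursIn M p S a →
    ∃ (g : CuspForm (CongruenceSubgroup.Gamma0 M) 2) (𝔪 : Ideal (integralClosure ℤ ℂ)),
      g.IsNormalizedEigenform ∧ 𝔪.IsMaximal ∧ (p : integralClosure ℤ ℂ) ∈ 𝔪 ∧
      ∀ ℓ : ℕ, ℓ.Prime → ℓ ∉ S →
        ∃ b : integralClosure ℤ ℂ, (b : ℂ) = qCoeff g ℓ ∧
          b - ((a ℓ : ℤ) : integralClosure ℤ ℂ) ∈ 𝔪

/-- (TF-Frey)  Trace formula for the Frey curve at `n = p`. -/
def TraceFormulaFreyStatement : Prop :=
  ∀ (P : FreyPackage) (W : WeierstrassCurve ℤ), W.IsIntegralModelOf P.freyCurve →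
    ∀ (ℓ : ℕ), ℓ.Prime → ℓ ≠ P.p → W.IsGoodPrimeFor ℓ →
    ∀ A : ValuationSubring (AlgebraicClosure ℚ), A.LiesOverPrime ℓ →
    ∀ τ : GQ, A.IsFrobeniusAt τ ℓ →
      galoisTrace (S := ℚ) (K := AlgebraicClosure ℚ) P.freyCurve P.p τ
        = ((W.apOfModel ℓ : ℤ) : ZMod P.p)

/-- (WALL-p)  Mazur-Ribet at `p`, support form: `p ‖ pM'`, `p ∣ abc`, `E[p]` irreducible and
embedded Galois- and Hecke-equivariantly in `J₀(pM')`; then its eigensystem occurs in
`J₀(M')[p]` away from a finite set. -/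
def AtPOccursStatement : Prop :=
  ∀ (P : FreyPackage) (M' : ℕ) [NeZero M'] [NeZero (P.p * M')], ¬ P.p ∣ M' →
    (P.p : ℤ) ∣ P.a * P.b * P.c →
    GaloisRepIsIrreducible (K := AlgebraicClosure ℚ) ℚ P.freyCurve P.p →
    ∀ (S : Finset ℕ) (a : ℕ → ℤ), FreyEmbedsIn P (P.p * M') S a →
      ∃ S' : Finset ℕ, S ⊆ S' ∧ OccursIn M' P.p S' a

/-- (WALL-q)  Mazur's principle at `q ≠ p`, support form: `q ‖ qM'`, `E[p]` irreducible,
unramified at `q`, `q ≢ 1 mod p`, embedded in `J₀(qM')`; then its eigensystem occurs in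
`J₀(M')[p]` away from a finite set. -/
def AtQOccursStatement : Prop :=
  ∀ (P : FreyPackage) (M' q : ℕ) [NeZero M'] [NeZero (q * M')], q.Prime → q ≠ P.p →
    ¬ q ∣ M' →
    GaloisRepIsIrreducible (K := AlgebraicClosure ℚ) ℚ P.freyCurve P.p →
    P.GaloisRepUnramifiedAt q → ¬ P.p ∣ q - 1 →
    ∀ (S : Finset ℕ) (a : ℕ → ℤ), FreyEmbedsIn P (q * M') S a →
      ∃ S' : Finset ℕ, S ⊆ S' ∧ OccursIn M' P.p S' a

/-- `OccursIn` is monotone in the excluded set. -/
theorem OccursIn.mono {N p : ℕ} [NeZero N] {S S' : Finset ℕ} {a : ℕ → ℤ} (h : S ⊆ S')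
    (hocc : OccursIn N p S a) : OccursIn N p S' a := by
  obtain ⟨x, hx, hp, hT⟩ := hocc
  exact ⟨x, hx, hp, fun ℓ hℓ => hT ℓ (fun hS => hℓ (h hS))⟩

/-- `FreyEmbedsIn` is monotone in the excluded set. -/
theorem FreyEmbedsIn.mono {P : FreyPackage} {N : ℕ} [NeZero N] {S S' : Finset ℕ} {a : ℕ → ℤ}
    (h : S ⊆ S') (hemb : FreyEmbedsIn P N S a) : FreyEmbedsIn P N S' a := by
  obtain ⟨ι, hinj, hgal, hT⟩ := hemb
  exact ⟨ι, hinj, hgal, fun ℓ hℓ => hT ℓ (fun hS => hℓ (h hS))⟩

/-- R3 (all `S`) implies R3S. -/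
theorem eigenformOfOccursAway_of (h : EigenformOfOccursStatement) :
    EigenformOfOccursAwayStatement :=
  fun M p _ hp S a _ hocc => h M p hp S a hocc

/-- Use of R3S with an arbitrary `S`: enlarge `S` by the primes dividing `M·p`. -/
theorem exists_eigenform_of_occursIn (h : EigenformOfOccursAwayStatement) {M p : ℕ} [NeZero M]
    (hp : p.Prime) {S : Finset ℕ} {a : ℕ → ℤ} (hocc : OccursIn M p S a) :
    ∃ (g : CuspForm (CongruenceSubgroup.Gamma0 M) 2) (𝔪 : Ideal (integralClosure ℤ ℂ)),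
      g.IsNormalizedEigenform ∧ 𝔪.IsMaximal ∧ (p : integralClosure ℤ ℂ) ∈ 𝔪 ∧
      ∀ ℓ : ℕ, ℓ.Prime → ℓ ∉ S ∪ (M * p).primeFactors →
        ∃ b : integralClosure ℤ ℂ, (b : ℂ) = qCoeff g ℓ ∧
          b - ((a ℓ : ℤ) : integralClosure ℤ ℂ) ∈ 𝔪 := by
  refine h M p hp (S ∪ (M * p).primeFactors) a ?_ (hocc.mono Finset.subset_union_left)
  intro ℓ hℓ hdvd
  apply Finset.mem_union_right
  rw [Nat.mem_primeFactors]
  exact ⟨hℓ, hdvd, Nat.mul_ne_zero (NeZero.ne M) hp.ne_zero⟩

/-- Row 38 from the support-form wall: `S44 ⇐ BLR + WALL-p + R3S + R3'`. -/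
theorem S44_of_walls (hE : EmbedStatement) (hWall : AtPOccursStatement)
    (hR3 : EigenformOfOccursAwayStatement) (hR3' : AlmostAllToWitnessStatement) :
    S44Statement := by
  intro P N hcond hpN hirr hmod
  have hsq : ¬ P.p ^ 2 ∣ N := hcond.sq_not_dvd P.pp
  have hpabc := hcond.p_dvd_abc hpN
  have hNpos := hcond.pos
  obtain ⟨M', rfl⟩ := hpN
  have hM'pos : 0 < M' := by
    rcases Nat.eq_zero_or_pos M' with h0 | h0
    · subst h0; simp at hNpos
    · exact h0
  have hpM' : ¬ P.p ∣ M' := by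
    rintro ⟨k, rfl⟩
    exact hsq ⟨k, by ring⟩
  haveI : NeZero M' := ⟨hM'pos.ne'⟩
  haveI : NeZero (P.p * M') := ⟨hNpos.ne'⟩
  obtain ⟨f, W, 𝔪, hwit⟩ := hmod
  have hwit' : P.IsCongruentWitness (P.p * M') f W 𝔪 := hwit
  obtain ⟨S, hemb⟩ := hE P (P.p * M') hirr f W 𝔪 hwit'
  obtain ⟨S', -, hocc⟩ := hWall P M' hpM' hpabc hirr S _ hemb
  obtain ⟨g, 𝔪', hg, hmax, hp, hc⟩ := exists_eigenform_of_occursIn hR3 P.pp hocc
  exact ⟨M', Dvd.intro_left _ rfl, hpM', g, W, 𝔪',
    hR3' P M' hM'pos g W 𝔪' _ hg hwit.2.1 hmax hp hc⟩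

/-- Mazur's principle (L1) from the support-form wall at `q`:
`MPq ⇐ BLR + WALL-q + R3S + R3'`. -/
theorem mazurPrinciple_of_walls (hE : EmbedStatement) (hWall : AtQOccursStatement)
    (hR3 : EigenformOfOccursAwayStatement) (hR3' : AlmostAllToWitnessStatement) :
    MazurPrincipleStatement := by
  intro P L q hLpos hq hqp hqL hsq hirr hmod hunr hq1
  obtain ⟨M', rfl⟩ := hqL
  have hM'pos : 0 < M' := by
    rcases Nat.eq_zero_or_pos M' with h0 | h0
    · subst h0; simp at hLpos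
    · exact h0
  rw [Nat.mul_div_cancel_left M' hq.pos]
  have hqM' : ¬ q ∣ M' := by
    rintro ⟨k, rfl⟩
    exact hsq ⟨k, by ring⟩
  haveI : NeZero M' := ⟨hM'pos.ne'⟩
  haveI : NeZero (q * M') := ⟨hLpos.ne'⟩
  obtain ⟨f, W, 𝔪, hwit⟩ := hmod
  have hwit' : P.IsCongruentWitness (q * M') f W 𝔪 := hwit
  obtain ⟨S, hemb⟩ := hE P (q * M') hirr f W 𝔪 hwit'
  obtain ⟨S', -, hocc⟩ := hWall P M' q hq hqp hqM' hirr hunr hq1 S _ hemb
  obtain ⟨g, 𝔪', hg, hmax, hp, hc⟩ := exists_eigenform_of_occursIn hR3 P.pp hocc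
  exact ⟨g, W, 𝔪', hR3' P M' hM'pos g W 𝔪' _ hg hwit.2.1 hmax hp hc⟩

end Fermat.Agent.Ribet.Spec

end
-- ===== PACK-END Ribet/Spec2.lean

-- ===== PACK-BEGIN Lib/Red/H382/Ker.lean
section




/-!
# Good reduction, part 2 (helper382): the kernel of reduction is a subgroup

`K` a field, `v` a valuation, `W` a Weierstrass curve over `K` with `v`-integral coefficients.
`InKer W v P` (from S05) says `P = 0` or `1 < v (x P)`.  We show that it is closed under
negation and addition (any residue characteristic), using only the `x`-coordinate identities of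
`S05/XId.lean`.
-/

set_option autoImplicit false
set_option linter.unusedSectionVars false
set_option linter.unusedVariables false

open WeierstrassCurve WeierstrassCurve.Affine WeierstrassCurve.Affine.Point

namespace Fermat.Agent.Lib.Red.H382

open Fermat.Agent.S05.SameRed Fermat.Agent.S05.XId

variable {K : Type*} [Field K] [DecidableEq K]
  {Γ₀ : Type*} [LinearOrderedCommGroupWithZero Γ₀]
  {W : Affine K} {v : Valuation K Γ₀}

lemma vle_b₂ (hW : IntegralCoeffs W v) : v W.b₂ ≤ 1 := by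
  simp only [WeierstrassCurve.b₂]
  exact val_add_le_one (by rw [pow_two]; exact val_mul_le_one hW.a₁ hW.a₁)
    (val_mul_le_one (val_natCast_le_one (v := v) 4) hW.a₂)

lemma vle_two : v (2 : K) ≤ 1 := val_natCast_le_one (v := v) 2

lemma vle_four : v (4 : K) ≤ 1 := val_natCast_le_one (v := v) 4

lemma vle_b₄ (hW : IntegralCoeffs W v) : v W.b₄ ≤ 1 := by
  simp only [WeierstrassCurve.b₄]
  exact val_add_le_one (val_mul_le_one vle_two hW.a₄) (val_mul_le_one hW.a₁ hW.a₃)

lemma vle_b₆ (hW : IntegralCoeffs W v) : v W.b₆ ≤ 1 := by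
  simp only [WeierstrassCurve.b₆]
  exact val_add_le_one (by rw [pow_two]; exact val_mul_le_one hW.a₃ hW.a₃)
    (val_mul_le_one vle_four hW.a₆)

lemma vle_b₈ (hW : IntegralCoeffs W v) : v W.b₈ ≤ 1 := by
  simp only [WeierstrassCurve.b₈]
  refine val_sub_le_one (val_add_le_one (val_sub_le_one (val_add_le_one ?_ ?_) ?_) ?_) ?_
  · exact val_mul_le_one (by rw [pow_two]; exact val_mul_le_one hW.a₁ hW.a₁) hW.a₆
  · exact val_mul_le_one (val_mul_le_one vle_four hW.a₂) hW.a₆
  · exact val_mul_le_one (val_mul_le_one hW.a₁ hW.a₃) hW.a₄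
  · exact val_mul_le_one hW.a₂ (by rw [pow_two]; exact val_mul_le_one hW.a₃ hW.a₃)
  · rw [pow_two]; exact val_mul_le_one hW.a₄ hW.a₄

/-- `v (1 - t) = 1` if `v t < 1`. -/
lemma val_one_sub_eq_one {t : K} (ht : v t < 1) : v (1 - t) = 1 := by
  have h : v (1 - t) = v (1 : K) := by
    rw [sub_eq_add_neg]
    exact v.map_add_eq_of_lt_left (by rw [Valuation.map_neg, map_one]; exact ht)
  rw [h, map_one]

lemma inv_val_lt_one {x : K} (hx : 1 < v x) : v x⁻¹ < 1 := by
  rw [map_inv₀]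
  exact inv_lt_one_of_one_lt₀ hx

lemma ne_zero_of_one_lt_val {x : K} (hx : 1 < v x) : x ≠ 0 := by
  rintro rfl
  rw [_root_.map_zero] at hx
  exact not_lt_zero hx

/-- abstract core of the chord case -/
lemma one_lt_of_sum_prod {E T U x₃ x₄ : K} (hE : v E < 1) (hT : v T < 1) (hU : v U = 1)
    (hsum : E * (x₃ + x₄) = T) (hprod : E * (x₃ * x₄) = U) : 1 < v x₃ := by
  by_contra hcon
  rw [not_lt] at hcon
  have e : U = x₃ * (T - E * x₃) := by
    rw [← hsum, ← hprod]; ring
  have h1 : v (T - E * x₃) < 1 := by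
    have : v (E * x₃) < 1 := val_mul_lt_one_left hE hcon
    rw [sub_eq_add_neg]
    exact val_add_lt_one hT (by rwa [Valuation.map_neg])
  have h2 : v U < 1 := by
    rw [e]
    exact val_mul_lt_one_right hcon h1
  rw [hU] at h2
  exact lt_irrefl _ h2

/-- chord case: if `1 < v x₁`, `1 < v x₂`, `x₁ ≠ x₂`, then `1 < v x(P₁ + P₂)`. -/
theorem one_lt_val_of_chord (hW : IntegralCoeffs W v) {x₁ x₂ x₃ x₄ : K}
    (hx₁ : 1 < v x₁) (hx₂ : 1 < v x₂)
    (hsum : (x₁ - x₂) ^ 2 * (x₃ + x₄) = sumNum W x₁ x₂)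
    (hprod : (x₁ - x₂) ^ 2 * (x₃ * x₄) = prodNum W x₁ x₂) : 1 < v x₃ := by
  have h10 := ne_zero_of_one_lt_val hx₁
  have h20 := ne_zero_of_one_lt_val hx₂
  set s₁ := x₁⁻¹ with hs₁
  set s₂ := x₂⁻¹ with hs₂
  have hv₁ : v s₁ < 1 := inv_val_lt_one hx₁
  have hv₂ : v s₂ < 1 := inv_val_lt_one hx₂
  have hv₁' : v s₁ ≤ 1 := hv₁.le
  have hv₂' : v s₂ ≤ 1 := hv₂.le
  have e₁ : x₁ * s₁ = 1 := mul_inv_cancel₀ h10
  have e₂ : x₂ * s₂ = 1 := mul_inv_cancel₀ h20
  have hb2 := vle_b₂ hW
  have hb4 := vle_b₄ hW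
  have hb6 := vle_b₆ hW
  have hb8 := vle_b₈ hW
  have hss : v (s₁ * s₂) < 1 := val_mul_lt_one_left hv₁ hv₂'
  have hsps : v (s₁ + s₂) < 1 := val_add_lt_one hv₁ hv₂
  apply one_lt_of_sum_prod (v := v) (E := (s₂ - s₁) ^ 2)
    (T := 2 * (s₁ + s₂) + W.b₂ * (s₁ * s₂) + W.b₄ * ((s₁ + s₂) * (s₁ * s₂)) +
      W.b₆ * (s₁ * s₂) ^ 2)
    (U := 1 - (W.b₄ * (s₁ * s₂) + W.b₆ * ((s₁ + s₂) * (s₁ * s₂)) + W.b₈ * (s₁ * s₂) ^ 2))
    (x₄ := x₄)
  · rw [pow_two]
    have : v (s₂ - s₁) < 1 := by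
      rw [sub_eq_add_neg]
      exact val_add_lt_one hv₂ (by rwa [Valuation.map_neg])
    exact val_mul_lt_one_left this this.le
  · refine val_add_lt_one (val_add_lt_one (val_add_lt_one ?_ ?_) ?_) ?_
    · exact val_mul_lt_one_right vle_two hsps
    · exact val_mul_lt_one_right hb2 hss
    · exact val_mul_lt_one_right hb4 (val_mul_lt_one_left hsps hss.le)
    · exact val_mul_lt_one_right hb6 (by rw [pow_two]; exact val_mul_lt_one_left hss hss.le)
  · apply val_one_sub_eq_one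
    refine val_add_lt_one (val_add_lt_one ?_ ?_) ?_
    · exact val_mul_lt_one_right hb4 hss
    · exact val_mul_lt_one_right hb6 (val_mul_lt_one_left hsps hss.le)
    · exact val_mul_lt_one_right hb8 (by rw [pow_two]; exact val_mul_lt_one_left hss hss.le)
  · have : (s₂ - s₁) ^ 2 = (x₁ - x₂) ^ 2 * (s₁ * s₂) ^ 2 := by
      have h : s₂ - s₁ = (x₁ - x₂) * (s₁ * s₂) := by
        calc s₂ - s₁ = (x₁ * s₁) * s₂ - (x₂ * s₂) * s₁ := by rw [e₁, e₂]; ring
          _ = (x₁ - x₂) * (s₁ * s₂) := by ring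
      rw [h]; ring
    rw [this, mul_right_comm, hsum]
    simp only [sumNum]
    have e₁' : x₁ = s₁⁻¹ := by rw [hs₁, inv_inv]
    have e₂' : x₂ = s₂⁻¹ := by rw [hs₂, inv_inv]
    have hs10 : s₁ ≠ 0 := inv_ne_zero h10
    have hs20 : s₂ ≠ 0 := inv_ne_zero h20
    rw [e₁', e₂']
    field_simp
    ring
  · have : (s₂ - s₁) ^ 2 = (x₁ - x₂) ^ 2 * (s₁ * s₂) ^ 2 := by
      have h : s₂ - s₁ = (x₁ - x₂) * (s₁ * s₂) := by
        calc s₂ - s₁ = (x₁ * s₁) * s₂ - (x₂ * s₂) * s₁ := by rw [e₁, e₂]; ring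
          _ = (x₁ - x₂) * (s₁ * s₂) := by ring
      rw [h]; ring
    rw [this, mul_right_comm, hprod]
    simp only [prodNum]
    have e₁' : x₁ = s₁⁻¹ := by rw [hs₁, inv_inv]
    have e₂' : x₂ = s₂⁻¹ := by rw [hs₂, inv_inv]
    have hs10 : s₁ ≠ 0 := inv_ne_zero h10
    have hs20 : s₂ ≠ 0 := inv_ne_zero h20
    rw [e₁', e₂']
    field_simp
    ring

/-- tangent case: if `1 < v x` and `x' * dblDen x = dblNum x` then `1 < v x'`. -/
theorem one_lt_val_of_dbl (hW : IntegralCoeffs W v) {x x' : K} (hx : 1 < v x)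
    (h : x' * dblDen W x = dblNum W x) : 1 < v x' := by
  have h0 := ne_zero_of_one_lt_val hx
  set s := x⁻¹ with hs
  have hv : v s < 1 := inv_val_lt_one hx
  have hv' : v s ≤ 1 := hv.le
  have hs0 : s ≠ 0 := inv_ne_zero h0
  have e' : x = s⁻¹ := by rw [hs, inv_inv]
  have hb2 := vle_b₂ hW
  have hb4 := vle_b₄ hW
  have hb6 := vle_b₆ hW
  have hb8 := vle_b₈ hW
  have hs2 : v (s ^ 2) < 1 := by rw [pow_two]; exact val_mul_lt_one_left hv hv'
  have hs3 : v (s ^ 3) < 1 := by
    rw [pow_succ]; exact val_mul_lt_one_left hs2 hv'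
  have hs4 : v (s ^ 4) < 1 := by
    rw [pow_succ]; exact val_mul_lt_one_left hs3 hv'
  -- `x' * C * s = U`
  have key : x' * ((4 + W.b₂ * s + 2 * W.b₄ * s ^ 2 + W.b₆ * s ^ 3) * s) =
      1 - (W.b₄ * s ^ 2 + 2 * W.b₆ * s ^ 3 + W.b₈ * s ^ 4) := by
    have h1 : (4 + W.b₂ * s + 2 * W.b₄ * s ^ 2 + W.b₆ * s ^ 3) * s = dblDen W x * s ^ 4 := by
      simp only [dblDen]
      rw [e']
      field_simp
    have h2 : 1 - (W.b₄ * s ^ 2 + 2 * W.b₆ * s ^ 3 + W.b₈ * s ^ 4) = dblNum W x * s ^ 4 := by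
      simp only [dblNum]
      rw [e']
      field_simp
      ring
    rw [h1, h2, ← mul_assoc, h]
  have hU : v (1 - (W.b₄ * s ^ 2 + 2 * W.b₆ * s ^ 3 + W.b₈ * s ^ 4)) = 1 := by
    apply val_one_sub_eq_one
    refine val_add_lt_one (val_add_lt_one ?_ ?_) ?_
    · exact val_mul_lt_one_right hb4 hs2
    · exact val_mul_lt_one_right (val_mul_le_one vle_two hb6) hs3
    · exact val_mul_lt_one_right hb8 hs4
  have hC : v (4 + W.b₂ * s + 2 * W.b₄ * s ^ 2 + W.b₆ * s ^ 3) ≤ 1 := by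
    refine val_add_le_one (val_add_le_one (val_add_le_one vle_four ?_) ?_) ?_
    · exact val_mul_le_one hb2 hv'
    · exact val_mul_le_one (val_mul_le_one vle_two hb4) hs2.le
    · exact val_mul_le_one hb6 hs3.le
  by_contra hcon
  rw [not_lt] at hcon
  have : v (x' * ((4 + W.b₂ * s + 2 * W.b₄ * s ^ 2 + W.b₆ * s ^ 3) * s)) < 1 :=
    val_mul_lt_one_right hcon (val_mul_lt_one_right hC hv)
  rw [key, hU] at this
  exact lt_irrefl _ this

lemma inKer_neg {P : W.Point} (hP : InKer W v P) : InKer W v (-P) := by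
  rcases P with _ | ⟨x, y, h⟩
  · exact hP
  · rw [Point.neg_some]
    exact hP

/-- **The kernel of reduction is closed under addition.** -/
theorem inKer_add (hW : IntegralCoeffs W v) {P Q : W.Point} (hP : InKer W v P)
    (hQ : InKer W v Q) : InKer W v (P + Q) := by
  rcases P with _ | ⟨x₁, y₁, h₁⟩
  · change InKer W v (0 + Q)
    rwa [zero_add]
  rcases Q with _ | ⟨x₂, y₂, h₂⟩
  · change InKer W v (_ + 0)
    rwa [add_zero]
  have hx₁ : 1 < v x₁ := hP
  have hx₂ : 1 < v x₂ := hQ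
  by_cases hx : x₁ = x₂
  · by_cases hy : y₁ = W.negY x₂ y₂
    · rw [Point.add_of_Y_eq hx hy]
      exact inKer_zero
    · have hyy : y₁ = y₂ := Affine.Y_eq_of_Y_ne h₁.1 h₂.1 hx hy
      subst hx
      subst hyy
      obtain ⟨x', y', h', hadd, hdbl, -⟩ := add_self_some h₁ hy
      rw [hadd, inKer_some]
      exact one_lt_val_of_dbl hW hx₁ hdbl
  · obtain ⟨x₃, y₃, x₄, y₄, h₃, h₄, hadd, -, hsum, hprod⟩ := add_sub_some h₁ h₂ hx
    rw [hadd, inKer_some]
    exact one_lt_val_of_chord hW hx₁ hx₂ hsum hprod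

theorem inKer_sub (hW : IntegralCoeffs W v) {P Q : W.Point} (hP : InKer W v P)
    (hQ : InKer W v Q) : InKer W v (P - Q) := by
  rw [sub_eq_add_neg]
  exact inKer_add hW hP (inKer_neg hQ)

end Fermat.Agent.Lib.Red.H382

end
-- ===== PACK-END Lib/Red/H382/Ker.lean

-- ===== PACK-BEGIN Lib/Cheb/H221/CycSpec.lean
section



/-!
# CYC (helper221): internal interface statements for
`PrimeSum + Count + Frob + FrobFinite + DirichletLimit ⇒ CycStatement`

Definitions and `Prop`s only.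
-/

set_option autoImplicit false

open NumberField IsDedekindDomain Filter Topology
open Fermat.Agent.Lib.Cheb

namespace Fermat.Agent.Lib.Cheb.H221

/-- (EP) twisted Euler product -/
def EulerProductStatement : Prop :=
  ∀ (F : Type) [Field F] [NumberField F] (m : ℕ) [NeZero m] (χ : DirichletCharacter ℂ m)
    (s : ℝ), 1 < s →
    HasProd (fun 𝔭 : HeightOneSpectrum (𝓞 F) =>
      (1 - χ (Ideal.absNorm 𝔭.asIdeal : ZMod m) *
        (((Ideal.absNorm 𝔭.asIdeal : ℝ) ^ (-s) : ℝ) : ℂ))⁻¹)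
      (LSeries (fun n => χ (n : ZMod m) * (Spec.idealCount F n : ℂ)) (s : ℂ))

/-- (DEG) twisted prime-ideal sums versus twisted sums over rational primes -/
def TwistedPrimeSumStatement : Prop :=
  Spec.PrimeSumStatement →
  ∀ (F : Type) [Field F] [NumberField F] (m : ℕ) [NeZero m] (χ : DirichletCharacter ℂ m),
    ∃ C : ℝ, ∀ s : ℝ, 1 < s → s ≤ 2 →
      Summable (fun p : Nat.Primes => (Spec.primeCount F p : ℝ) * (p : ℝ) ^ (-s)) ∧
      ‖(∑' 𝔭 : HeightOneSpectrum (𝓞 F), χ (Ideal.absNorm 𝔭.asIdeal : ZMod m) *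
          (((Ideal.absNorm 𝔭.asIdeal : ℝ) ^ (-s) : ℝ) : ℂ)) -
        ∑' p : Nat.Primes, χ ((p : ℕ) : ZMod m) *
          (((Spec.primeCount F p : ℝ) * (p : ℝ) ^ (-s) : ℝ) : ℂ)‖ ≤ C

/-- (ABS) abstract Dirichlet lemma -/
def AbstractDirichletStatement : Prop :=
  ∀ (m : ℕ) [NeZero m] (c : Nat.Primes → ℝ), (∀ p, 0 ≤ c p) →
    (∀ s : ℝ, 1 < s → s ≤ 2 → Summable (fun p : Nat.Primes => c p * (p : ℝ) ^ (-s))) →
    ∀ A : Subgroup (ZMod m)ˣ,
    (∃ B : Finset ℕ, ∀ p : Nat.Primes, (p : ℕ) ∉ B → c p ≠ 0 →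
      ∃ u ∈ A, ((u : (ZMod m)ˣ) : ZMod m) = ((p : ℕ) : ZMod m)) →
    (∃ C : ℝ, ∀ s : ℝ, 1 < s → s ≤ 2 →
      |(∑' p : Nat.Primes, c p * (p : ℝ) ^ (-s)) - Real.log (1 / (s - 1))| ≤ C) →
    (∃ C : ℝ, ∀ s : ℝ, 1 < s → s ≤ 2 →
      (Nat.card A : ℝ)⁻¹ * Real.log (1 / (s - 1)) - C ≤
        ∑' p : Nat.Primes, if ((p : ℕ) : ZMod m) = 1 then c p * (p : ℝ) ^ (-s) else 0) →
    (∀ χ : DirichletCharacter ℂ m, (∃ u ∈ A, χ ((u : (ZMod m)ˣ) : ZMod m) ≠ 1) →
      ∃ (Λ : ℝ → ℂ) (ℓ : ℂ) (C : ℝ), ContinuousOn Λ (Set.Ioi 1) ∧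
        Tendsto (fun s => Complex.exp (Λ s)) (𝓝[>] 1) (𝓝 ℓ) ∧
        ∀ s : ℝ, 1 < s → s ≤ 2 →
          ‖Λ s - ∑' p : Nat.Primes, χ ((p : ℕ) : ZMod m) * ((c p * (p : ℝ) ^ (-s) : ℝ) : ℂ)‖ ≤ C) →
    ∀ a ∈ A, ∀ S : Finset ℕ, ∃ p : Nat.Primes, (p : ℕ) ∉ S ∧
      ((p : ℕ) : ZMod m) = ((a : (ZMod m)ˣ) : ZMod m) ∧ c p ≠ 0

section alg

variable (L : Type) [Field L] [NumberField L] [IsGalois ℚ L]

/-- the fixed field of `⟨g⟩` -/
abbrev fixM (g : L ≃ₐ[ℚ] L) : IntermediateField ℚ L :=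
  IntermediateField.fixedField (Subgroup.zpowers g)

/-- the fixed field of the trivial group (a copy of `L`) -/
abbrev fixBot : IntermediateField ℚ L :=
  IntermediateField.fixedField (⊥ : Subgroup (L ≃ₐ[ℚ] L))

/-- (ALG) the algebraic input of CYC, in the situation of `Spec.CycStatement` -/
def CycAlgStatement : Prop :=
  Spec.CountStatement → Spec.FrobStatement → Spec.FrobFiniteStatement →
  ∀ (L : Type) [Field L] [NumberField L] [IsGalois ℚ L] (m : ℕ) [NeZero m] (ζ : L)
    (hζ : IsPrimitiveRoot ζ m) (g : L ≃ₐ[ℚ] L), (∀ k : ℕ, (g ^ k) ζ = ζ → g ^ k = 1) →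
    Nat.card (Subgroup.zpowers (hζ.autToPow ℚ g)) = orderOf g ∧
    ∃ B : Finset ℕ,
      -- (SUPP)
      (∀ p : ℕ, p.Prime → p ∉ B → Spec.primeCount (fixM L g) p ≠ 0 →
        ∃ u ∈ Subgroup.zpowers (hζ.autToPow ℚ g), ((u : (ZMod m)ˣ) : ZMod m) = (p : ZMod m)) ∧
      -- (SPLIT)
      (∀ p : ℕ, p.Prime → p ∉ B →
        Spec.primeCount (fixBot L) p =
          if (p : ZMod m) = 1 then orderOf g * Spec.primeCount (fixM L g) p else 0) ∧
      -- (NT)
      (∀ χ : DirichletCharacter ℂ m, χ ((hζ.autToPow ℚ g : (ZMod m)ˣ) : ZMod m) ≠ 1 →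
        ∃ I : Ideal (𝓞 (fixM L g)), χ (Ideal.absNorm I : ZMod m) ≠ 0 ∧
          χ (Ideal.absNorm I : ZMod m) ≠ 1) ∧
      -- (FIN)
      (∀ p : ℕ, p.Prime → p ∉ B → Spec.primeCount (fixM L g) p ≠ 0 →
        (p : ZMod m) = ((hζ.autToPow ℚ g : (ZMod m)ˣ) : ZMod m) →
        ∃ P : Ideal (𝓞 L), P.IsPrime ∧ (p : 𝓞 L) ∈ P ∧ Spec.InertiaTrivial L P ∧
          IsArithFrobAt ℤ g P)

end alg

end Fermat.Agent.Lib.Cheb.H221

end
-- ===== PACK-END Lib/Cheb/H221/CycSpec.lean

-- ===== PACK-BEGIN Lib/Cheb/H341/Main.lean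
section



/-!
# CHEB piece M (helper341): `FrobFiniteStatement` from `Z`, `B0`, `A`, `D`

`frobFinite : PrimeSumStatement → PrimeCountBoundStatement → CountStatement → FrobStatement →
FrobFiniteStatement`, in the exact shapes of `Fermat/Agent/Lib/Cheb/Spec.lean`.
-/

set_option autoImplicit false

namespace Fermat.Agent.Lib.Cheb.H341

open NumberField Finset
open Fermat.Agent.Lib.Cheb

section

variable (L : Type) [Field L] [NumberField L]

/-- The primes of `𝓞 L` containing `p` with decomposition group exactly `X`. -/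
def primesEq (X : Subgroup (L ≃ₐ[ℚ] L)) (p : ℕ) : Set (Ideal (𝓞 L)) :=
  {P | P.IsPrime ∧ (p : 𝓞 L) ∈ P ∧ Spec.decomp L P = X}

theorem primesAbove_finite {p : ℕ} (hp : p.Prime) :
    {P : Ideal (𝓞 L) | P.IsPrime ∧ (p : 𝓞 L) ∈ P}.Finite := by
  have : Fact p.Prime := ⟨hp⟩
  have := Int.ideal_span_isMaximal_of_prime p
  refine (IsDedekindDomain.primesOver_finite (Ideal.span {(p : ℤ)}) (𝓞 L)).subset ?_
  rintro P ⟨hP, hpP⟩
  refine ⟨hP, ?_⟩
  rw [Ideal.liesOver_iff]
  refine Ideal.IsMaximal.eq_of_le inferInstance ?_ ?_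
  · have := hP
    exact (Ideal.IsPrime.under ℤ P).ne_top
  · rw [Ideal.span_le, Set.singleton_subset_iff]
    change (p : ℤ) ∈ Ideal.comap (algebraMap ℤ (𝓞 L)) P
    rw [Ideal.mem_comap]
    simpa using hpP

theorem primesEq_finite (X : Subgroup (L ≃ₐ[ℚ] L)) {p : ℕ} (hp : p.Prime) :
    (primesEq L X p).Finite :=
  (primesAbove_finite L hp).subset (fun _ hP => ⟨hP.1, hP.2.1⟩)

/-- `a_X(p) = ∑_{P ∣ p, D_P = X} |D_P|`. -/
noncomputable def aCoef (X : Subgroup (L ≃ₐ[ℚ] L)) (p : ℕ) : ℕ :=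
  ∑ᶠ P ∈ primesEq L X p, Nat.card (Spec.decomp L P)

theorem decompWeight_eq_sum (H : Subgroup (L ≃ₐ[ℚ] L)) {p : ℕ} (hp : p.Prime) :
    Spec.decompWeight L H p = ∑ X ∈ subLe H, aCoef L X p := by
  unfold Spec.decompWeight aCoef
  rw [finsum_set_coe_eq_finsum_mem (f := fun P : Ideal (𝓞 L) => Nat.card (Spec.decomp L P))
    (Spec.primesLe L H p)]
  have hU : Spec.primesLe L H p = ⋃ X ∈ (subLe H : Set (Subgroup (L ≃ₐ[ℚ] L))), primesEq L X p := by
    ext P
    simp only [Spec.primesLe, primesEq, Set.mem_ofPred_eq, Set.mem_iUnion, Finset.mem_coe,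
      mem_subLe, exists_prop]
    constructor
    · rintro ⟨h1, h2, h3⟩
      exact ⟨Spec.decomp L P, h3, h1, h2, rfl⟩
    · rintro ⟨X, hX, h1, h2, rfl⟩
      exact ⟨h1, h2, hX⟩
  rw [hU, finsum_mem_biUnion]
  · rw [finsum_mem_coe_finset]
  · intro X _ Y _ hXY
    rw [Function.onFun, Set.disjoint_left]
    intro P hPX hPY
    exact hXY (hPX.2.2.symm.trans hPY.2.2)
  · exact (subLe H).finite_toSet
  · intro X _
    exact primesEq_finite L X hp

theorem exists_of_aCoef_ne_zero {X : Subgroup (L ≃ₐ[ℚ] L)} {p : ℕ} (h : aCoef L X p ≠ 0) :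
    ∃ P : Ideal (𝓞 L), P.IsPrime ∧ (p : 𝓞 L) ∈ P ∧ Spec.decomp L P = X := by
  by_contra hcon
  push Not at hcon
  apply h
  unfold aCoef
  refine finsum_mem_eq_zero_of_forall_eq_zero (fun P hP => ?_)
  exact absurd hP.2.2 (hcon P hP.1 hP.2.1)

end

/-- **Piece M.** -/
theorem frobFinite (hZ : Spec.PrimeSumStatement) (hB0 : Spec.PrimeCountBoundStatement)
    (hA : Spec.CountStatement) (hD : Spec.FrobStatement) : Spec.FrobFiniteStatement := by
  classical
  intro L _ _ _ σ S
  -- the bad sets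
  obtain ⟨BD, hBD⟩ := hD L
  choose BA hBA using hA L
  set B : Finset ℕ := S ∪ BD ∪ (subLe (⊤ : Subgroup (L ≃ₐ[ℚ] L))).biUnion BA with hB
  have hBS : ∀ p, p ∉ B → p ∉ S := fun p hp hpS =>
    hp (mem_union_left _ (mem_union_left _ hpS))
  have hBBD : ∀ p, p ∉ B → p ∉ BD := fun p hp hpS =>
    hp (mem_union_left _ (mem_union_right _ hpS))
  have hBBA : ∀ p, p ∉ B → ∀ H, p ∉ BA H := fun p hp H hpS =>
    hp (mem_union_right _ (mem_biUnion.mpr ⟨H, by simp, hpS⟩))
  -- coefficient functions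
  set g : Subgroup (L ≃ₐ[ℚ] L) → Nat.Primes → ℝ :=
    fun X p => if (p : ℕ) ∈ B then 0 else (aCoef L X p : ℝ) with hg
  set f : Subgroup (L ≃ₐ[ℚ] L) → Nat.Primes → ℝ :=
    fun H p => if (p : ℕ) ∈ B then 0
      else (Spec.primeCount (IntermediateField.fixedField H) p : ℝ) with hf
  -- (i)
  have hi : ∀ H p, ∑ X ∈ subLe H, g X p = (Nat.card H : ℝ) * f H p := by
    intro H p
    by_cases hp : (p : ℕ) ∈ B
    · simp [hg, hf, hp]
    · simp only [hg, hf, hp, if_false]
      have h1 := hBA H p p.2 (hBBA p hp H)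
      rw [decompWeight_eq_sum L H p.2] at h1
      have h2 : ((∑ X ∈ subLe H, aCoef L X p : ℕ) : ℝ) =
          ((Spec.primeCount (IntermediateField.fixedField H) p * Nat.card H : ℕ) : ℝ) := by
        rw [h1]
      push_cast at h2
      rw [h2]
      ring
  -- (ii)
  have hfb : ∀ H, Bdd (f H) := by
    intro H
    refine ⟨(Module.finrank ℚ (IntermediateField.fixedField H) : ℝ), fun p => ?_⟩
    simp only [hf]
    split_ifs
    · simp
    · rw [abs_of_nonneg (Nat.cast_nonneg _)]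
      exact_mod_cast hB0 (IntermediateField.fixedField H) p
  -- (iii)
  have hfn : ∀ H, Near (f H) 1 := by
    intro H
    obtain ⟨C, hC⟩ := hZ (IntermediateField.fixedField H)
    have hb0 : Bdd (fun p : Nat.Primes =>
        (Spec.primeCount (IntermediateField.fixedField H) p : ℝ)) := by
      refine ⟨(Module.finrank ℚ (IntermediateField.fixedField H) : ℝ), fun p => ?_⟩
      beta_reduce
      rw [abs_of_nonneg (Nat.cast_nonneg _)]
      exact_mod_cast hB0 (IntermediateField.fixedField H) p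
    have hn0 : Near (fun p : Nat.Primes =>
        (Spec.primeCount (IntermediateField.fixedField H) p : ℝ)) 1 := by
      refine ⟨C, fun s hs hs2 => ?_⟩
      have := hC s hs hs2
      simpa [pSum, ell] using this
    refine Near.congr_off_finite hb0 hn0 (Finset.subtype Nat.Prime B) (fun p hp => ?_)
    have hp' : (p : ℕ) ∉ B := by
      intro h
      exact hp (Finset.mem_subtype.mpr h)
    simp [hf, hp']
  -- (iv)
  have hgnn : ∀ X p, 0 ≤ g X p := by
    intro X p
    simp only [hg]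
    split_ifs
    · exact le_refl _
    · exact Nat.cast_nonneg _
  have hgb : ∀ X, Bdd (g X) := by
    intro X
    obtain ⟨K, hK⟩ := hfb ⊤
    refine ⟨(Nat.card (⊤ : Subgroup (L ≃ₐ[ℚ] L)) : ℝ) * K, fun p => ?_⟩
    rw [abs_of_nonneg (hgnn X p)]
    have h1 : g X p ≤ ∑ Y ∈ subLe (⊤ : Subgroup (L ≃ₐ[ℚ] L)), g Y p :=
      single_le_sum (f := fun Y => g Y p) (fun Y _ => hgnn Y p) (by simp)
    rw [hi] at h1
    refine h1.trans ?_
    exact mul_le_mul_of_nonneg_left ((le_abs_self _).trans (hK p)) (Nat.cast_nonneg _)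
  -- (v)
  have hv : ∀ H : Subgroup (L ≃ₐ[ℚ] L),
      Near (fun p => ∑ X ∈ subLe H, g X p) (Nat.card H) := by
    intro H
    have := (hfn H).const_mul (Nat.card H : ℝ)
    rw [mul_one] at this
    have e : (fun p => ∑ X ∈ subLe H, g X p) = fun p => (Nat.card H : ℝ) * f H p := by
      funext p
      exact hi H p
    rw [e]
    exact this
  -- (vi)
  have hmain := near_psi_of_near_card g hgb hv (Subgroup.zpowers σ)
  have hpos : ((psi (Subgroup.zpowers σ) : ℕ) : ℝ) ≠ 0 := by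
    have := psi_zpowers_pos σ
    positivity
  obtain ⟨p, hp⟩ := hmain.exists_ne_zero hpos
  have hpB : (p : ℕ) ∉ B := by
    intro h
    apply hp
    simp [hg, h]
  have hne : aCoef L (Subgroup.zpowers σ) p ≠ 0 := by
    intro h
    apply hp
    simp [hg, hpB, h]
  obtain ⟨P, hP, hpP, hDP⟩ := exists_of_aCoef_ne_zero L hne
  obtain ⟨hin, τ, hτ, hτD⟩ := hBD p p.2 (hBBD p hpB) P hP hpP
  exact ⟨p, P, τ, p.2, hBS p hpB, hP, hpP, hin, hτ, by rw [← hτD, hDP]⟩

end Fermat.Agent.Lib.Cheb.H341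

end
-- ===== PACK-END Lib/Cheb/H341/Main.lean

-- ===== PACK-BEGIN Lib/EulerProd/IdealSum.lean
section



/-!
# Sums over the ideals of the ring of integers of a number field

* `summable_absNorm_rpow`: `∑ I, N(I)^(-s)` converges for real `s > 1`.
* `zetaR`: the real Dedekind zeta function as a sum over ideals, `zetaR_eq_dedekindZeta`.
* `exists_zetaR_bounds`: `c / (s - 1) ≤ zetaR K s ≤ C / (s - 1)` on `(1, 2]`.
-/

set_option autoImplicit false
set_option linter.style.haveILetI false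

namespace Fermat.Agent.Lib.EulerProd

open NumberField Ideal Filter Topology Finset

variable (K : Type*) [Field K] [NumberField K]

/-- Partial sums of the coefficients of the Dedekind zeta function (from Mathlib's proof of the
class number formula). -/
theorem tendsto_sum_card_div :
    Tendsto (fun n : ℕ ↦ (∑ k ∈ Icc 1 n,
      (Nat.card {I : Ideal (𝓞 K) // absNorm I = k} : ℝ)) / (n : ℝ)) atTop
      (𝓝 (dedekindZeta_residue K)) := by
  refine ((Ideal.tendsto_norm_le_div_atTop₀ K).comp tendsto_natCast_atTop_atTop).congr fun n ↦ ?_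
  simp only [Function.comp_apply, Nat.cast_le, ← Nat.cast_sum]
  congr
  rw [← add_left_inj 1, ← card_norm_le_eq_card_norm_le_add_one,
    show Finset.Icc 1 n = Finset.Ioc 0 n from Finset.Icc_succ_left_eq_Ioc _ _,
    show 1 = Nat.card {I : Ideal (𝓞 K) // absNorm I = 0} by simp [Ideal.absNorm_eq_zero_iff],
    Finset.sum_Ioc_add_eq_sum_Icc (n.zero_le),
    ← Finset.card_preimage_eq_sum_card_image_eq (fun k _ ↦ finite_setOfPred_absNorm_eq k)]
  simp [Set.coe_eq_subtype]

theorem lseriesSummable_card {s : ℝ} (hs : 1 < s) :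
    LSeriesSummable (fun n ↦ ((Nat.card {I : Ideal (𝓞 K) // absNorm I = n} : ℝ) : ℂ)) (s : ℂ) := by
  refine LSeriesSummable_of_sum_norm_bigO_and_nonneg ?_ (fun _ ↦ Nat.cast_nonneg _) zero_le_one
    (by simpa using hs)
  exact Asymptotics.isBigO_atTop_natCast_rpow_of_tendsto_div_rpow
    (by simpa using tendsto_sum_card_div K)


/-- The fibre sums of `N(I)^(-s)` over the norm map. -/
theorem tsum_fiber_absNorm_rpow (s : ℝ) (n : ℕ) :
    ∑' I : {I : Ideal (𝓞 K) // absNorm I = n}, ((absNorm I.1 : ℕ) : ℝ) ^ (-s) =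
      (Nat.card {I : Ideal (𝓞 K) // absNorm I = n} : ℝ) * (n : ℝ) ^ (-s) := by
  haveI : Finite {I : Ideal (𝓞 K) // absNorm I = n} := finite_setOfPred_absNorm_eq n
  haveI : Fintype {I : Ideal (𝓞 K) // absNorm I = n} := Fintype.ofFinite _
  rw [tsum_fintype, Finset.sum_congr rfl (fun I _ => by rw [I.2]), Finset.sum_const,
    Finset.card_univ, Nat.card_eq_fintype_card, nsmul_eq_mul]

theorem summable_card_mul_rpow {s : ℝ} (hs : 1 < s) :
    Summable (fun n : ℕ ↦
      (Nat.card {I : Ideal (𝓞 K) // absNorm I = n} : ℝ) * (n : ℝ) ^ (-s)) := by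
  have h := (lseriesSummable_card K hs).norm
  refine h.congr fun n => ?_
  rw [LSeries.norm_term_eq]
  split_ifs with hn
  · subst hn
    have hs0 : -s ≠ 0 := by linarith
    simp [Real.zero_rpow hs0]
  · simp only [Complex.ofReal_re, Complex.norm_real, Real.norm_eq_abs, Nat.abs_cast]
    rw [Real.rpow_neg (Nat.cast_nonneg _), div_eq_mul_inv]

/-- `∑ I, N(I)^(-s)` converges for `s > 1`. -/
theorem summable_absNorm_rpow {s : ℝ} (hs : 1 < s) :
    Summable (fun I : Ideal (𝓞 K) ↦ ((absNorm I : ℕ) : ℝ) ^ (-s)) := by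
  rw [← (Equiv.sigmaFiberEquiv (fun I : Ideal (𝓞 K) => absNorm I)).summable_iff]
  rw [summable_sigma_of_nonneg (fun _ => by
    simp only [Function.comp_apply]
    positivity)]
  refine ⟨fun n => ?_, ?_⟩
  · haveI : Finite {I : Ideal (𝓞 K) // absNorm I = n} := finite_setOfPred_absNorm_eq n
    exact Summable.of_finite
  · refine (summable_card_mul_rpow K hs).congr fun n => ?_
    simp only [Function.comp_apply, Equiv.sigmaFiberEquiv_apply]
    exact (tsum_fiber_absNorm_rpow K s n).symm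

/-- The Dedekind zeta function at a real argument, as a sum over all ideals (the zero ideal
contributes `0`). -/
noncomputable def zetaR (s : ℝ) : ℝ := ∑' I : Ideal (𝓞 K), ((absNorm I : ℕ) : ℝ) ^ (-s)

theorem zetaR_eq_tsum_nat {s : ℝ} (hs : 1 < s) :
    zetaR K s = ∑' n : ℕ,
      (Nat.card {I : Ideal (𝓞 K) // absNorm I = n} : ℝ) * (n : ℝ) ^ (-s) := by
  have hsum := summable_absNorm_rpow K hs
  rw [zetaR, ← (Equiv.sigmaFiberEquiv (fun I : Ideal (𝓞 K) => absNorm I)).tsum_eq]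
  rw [← (Equiv.sigmaFiberEquiv (fun I : Ideal (𝓞 K) => absNorm I)).summable_iff] at hsum
  have hfib : ∀ n : ℕ, Summable fun c : {I : Ideal (𝓞 K) // absNorm I = n} =>
      ((fun I : Ideal (𝓞 K) => ((absNorm I : ℕ) : ℝ) ^ (-s)) ∘
        (Equiv.sigmaFiberEquiv (fun I : Ideal (𝓞 K) => absNorm I))) ⟨n, c⟩ := by
    intro n
    haveI : Finite {I : Ideal (𝓞 K) // absNorm I = n} := finite_setOfPred_absNorm_eq n
    exact Summable.of_finite
  have := Summable.tsum_sigma' hfib hsum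
  simp only [Function.comp_apply] at this
  rw [this]
  refine tsum_congr fun n => ?_
  simp only [Equiv.sigmaFiberEquiv_apply]
  exact tsum_fiber_absNorm_rpow K s n

theorem zetaR_eq_dedekindZeta {s : ℝ} (hs : 1 < s) :
    ((zetaR K s : ℝ) : ℂ) = dedekindZeta K (s : ℂ) := by
  rw [zetaR_eq_tsum_nat K hs, dedekindZeta, LSeries, Complex.ofReal_tsum]
  refine tsum_congr fun n => ?_
  rw [LSeries.term_def]
  split_ifs with hn
  · subst hn
    have hs0 : -s ≠ 0 := by linarith
    simp [Real.zero_rpow hs0]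
  · rw [Complex.ofReal_mul, Complex.ofReal_natCast, Complex.ofReal_cpow (Nat.cast_nonneg _),
      Complex.ofReal_neg, Complex.cpow_neg, Complex.ofReal_natCast, div_eq_mul_inv]


theorem tendsto_sub_one_mul_zetaR :
    Tendsto (fun s : ℝ ↦ (s - 1) * zetaR K s) (𝓝[>] 1) (𝓝 (dedekindZeta_residue K)) := by
  have h := tendsto_sub_one_mul_dedekindZeta_nhdsGT K
  have h2 : Tendsto (fun s : ℝ ↦ (((s - 1) * zetaR K s : ℝ) : ℂ)) (𝓝[>] 1)
      (𝓝 ((dedekindZeta_residue K : ℝ) : ℂ)) := by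
    refine h.congr' ?_
    filter_upwards [self_mem_nhdsWithin] with s hs
    rw [Complex.ofReal_mul, zetaR_eq_dedekindZeta K hs]
    push_cast
    rfl
  have h3 := (Complex.continuous_re.tendsto _).comp h2
  rw [Complex.ofReal_re] at h3
  refine h3.congr fun s => ?_
  simp only [Function.comp_apply, Complex.ofReal_re]

theorem one_le_zetaR {s : ℝ} (hs : 1 < s) : 1 ≤ zetaR K s := by
  have hsum := summable_absNorm_rpow K hs
  have := hsum.le_tsum (⊤ : Ideal (𝓞 K)) (fun _ _ => by positivity)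
  simpa [zetaR] using this

theorem zetaR_pos {s : ℝ} (hs : 1 < s) : 0 < zetaR K s :=
  lt_of_lt_of_le one_pos (one_le_zetaR K hs)

/-- Upper bound near `1`. -/
theorem eventually_zetaR_le :
    ∃ C : ℝ, 0 < C ∧ ∀ᶠ s in 𝓝[>] (1 : ℝ), zetaR K s ≤ C / (s - 1) := by
  refine ⟨dedekindZeta_residue K + 1, by linarith [dedekindZeta_residue_pos K], ?_⟩
  have h := (tendsto_order.1 (tendsto_sub_one_mul_zetaR K)).2 (dedekindZeta_residue K + 1)
    (by linarith)
  filter_upwards [h, self_mem_nhdsWithin] with s hs hs1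
  have hs1' : (0 : ℝ) < s - 1 := by
    have : (1 : ℝ) < s := hs1
    linarith
  rw [le_div_iff₀ hs1']
  linarith

/-- Lower bound near `1`. -/
theorem eventually_le_zetaR :
    ∃ c : ℝ, 0 < c ∧ ∀ᶠ s in 𝓝[>] (1 : ℝ), c / (s - 1) ≤ zetaR K s := by
  refine ⟨dedekindZeta_residue K / 2, by linarith [dedekindZeta_residue_pos K], ?_⟩
  have h := (tendsto_order.1 (tendsto_sub_one_mul_zetaR K)).1 (dedekindZeta_residue K / 2)
    (by linarith [dedekindZeta_residue_pos K])
  filter_upwards [h, self_mem_nhdsWithin] with s hs hs1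
  have hs1' : (0 : ℝ) < s - 1 := by
    have : (1 : ℝ) < s := hs1
    linarith
  rw [div_le_iff₀ hs1']
  linarith

end Fermat.Agent.Lib.EulerProd

end
-- ===== PACK-END Lib/EulerProd/IdealSum.lean

-- ===== PACK-BEGIN S05/GoodRed.lean
section



/-!
# S05: inertia fixes torsion points with nonsingular reduction (abstract form)
-/

set_option autoImplicit false
set_option linter.unusedSectionVars false
set_option linter.unusedVariables false

namespace Fermat.Agent.S05.GoodRed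

open WeierstrassCurve WeierstrassCurve.Affine Fermat.Agent.S05.SameRed

section general

variable {K : Type*} [Field K] [DecidableEq K]
  {Γ₀ : Type*} [LinearOrderedCommGroupWithZero Γ₀]
  {W : Affine K} {v : Valuation K Γ₀}

/-- On a curve with integral coefficients, a point with integral `x` has integral `y`. -/
lemma val_y_le_one (hW : IntegralCoeffs W v) {x y : K} (h : W.Equation x y) (hx : v x ≤ 1) :
    v y ≤ 1 := by
  by_contra hy
  rw [not_le] at hy
  have e := (Affine.equation_iff x y).mp h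
  have hy0 : 0 < v y := lt_trans zero_lt_one hy
  have h2 : v y < v (y ^ 2) := by
    rw [map_pow, pow_two]; exact lt_mul_of_one_lt_left hy0 hy
  have h3 : v (W.a₁ * x * y + W.a₃ * y) ≤ v y := by
    have : W.a₁ * x * y + W.a₃ * y = (W.a₁ * x + W.a₃) * y := by ring
    rw [this, map_mul]
    exact mul_le_of_le_one_left' (val_add_le_one (val_mul_le_one hW.a₁ hx) hW.a₃)
  have h4 : v (y ^ 2 + W.a₁ * x * y + W.a₃ * y) = v (y ^ 2) := by
    rw [add_assoc]; exact v.map_add_eq_of_lt_left (h3.trans_lt h2)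
  have h5 : v (x ^ 3 + W.a₂ * x ^ 2 + W.a₄ * x + W.a₆) ≤ 1 := by
    have hx2 : v (x ^ 2) ≤ 1 := by rw [pow_two]; exact val_mul_le_one hx hx
    have hx3 : v (x ^ 3) ≤ 1 := by
      have : x ^ 3 = x ^ 2 * x := by ring
      rw [this]; exact val_mul_le_one hx2 hx
    exact val_add_le_one (val_add_le_one (val_add_le_one hx3 (val_mul_le_one hW.a₂ hx2))
      (val_mul_le_one hW.a₄ hx)) hW.a₆
  rw [e] at h4
  rw [h4] at h5
  exact absurd (hy.trans h2) (not_lt.mpr h5)

/-- The discriminant lies in the ideal generated by `a₃, a₄, a₆`. -/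
lemma Δ_eq_a₃_a₄_a₆ {R : Type*} [CommRing R] (W : WeierstrassCurve R) :
    W.Δ = W.a₃ * (-W.b₂ ^ 2 * (-W.a₁ * W.a₄ + W.a₂ * W.a₃) - 8 * W.b₄ ^ 2 * W.a₁
        - 27 * W.a₃ * W.b₆ + 9 * W.b₂ * W.b₆ * W.a₁)
      + W.a₄ * (W.b₂ ^ 2 * W.a₄ - 16 * W.b₄ ^ 2 + 18 * W.b₂ * W.b₆)
      + W.a₆ * (-W.b₂ ^ 3 - 108 * W.b₆) := by
  simp only [WeierstrassCurve.Δ, WeierstrassCurve.b₂, WeierstrassCurve.b₄, WeierstrassCurve.b₆,
    WeierstrassCurve.b₈]
  ring

/-- If the discriminant is a unit, every integral point has nonsingular reduction. -/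
theorem nonsingular_reduction_of_val_Δ (hW : IntegralCoeffs W v) (hΔ : v W.Δ = 1) {x y : K}
    (h : W.Equation x y) (hx : v x ≤ 1) :
    v (W.a₁ * y - (3 * x ^ 2 + 2 * W.a₂ * x + W.a₄)) = 1 ∨
      v (2 * y + W.a₁ * x + W.a₃) = 1 := by
  have hy : v y ≤ 1 := val_y_le_one hW h hx
  -- work in the subring of integers
  let O : Subring K := v.integer
  have mO : ∀ {t : K}, t ∈ O ↔ v t ≤ 1 := Iff.rfl
  have hxO : x ∈ O := hx
  have hyO : y ∈ O := hy
  have h1O : W.a₁ ∈ O := hW.a₁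
  have h2O : W.a₂ ∈ O := hW.a₂
  have h3O : W.a₃ ∈ O := hW.a₃
  have h4O : W.a₄ ∈ O := hW.a₄
  have h6O : W.a₆ ∈ O := hW.a₆
  have hX : v (W.a₁ * y - (3 * x ^ 2 + 2 * W.a₂ * x + W.a₄)) ≤ 1 := by
    change _ ∈ O
    exact sub_mem (mul_mem h1O hyO) (add_mem (add_mem (mul_mem (ofNat_mem O 3) (pow_mem hxO 2))
      (mul_mem (mul_mem (ofNat_mem O 2) h2O) hxO)) h4O)
  have hY : v (2 * y + W.a₁ * x + W.a₃) ≤ 1 := by
    change _ ∈ O
    exact add_mem (add_mem (mul_mem (ofNat_mem O 2) hyO) (mul_mem h1O hxO)) h3O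
  by_contra hcon
  rw [not_or] at hcon
  have hX' : v (W.a₁ * y - (3 * x ^ 2 + 2 * W.a₂ * x + W.a₄)) < 1 := lt_of_le_of_ne hX hcon.1
  have hY' : v (2 * y + W.a₁ * x + W.a₃) < 1 := lt_of_le_of_ne hY hcon.2
  -- translated curve
  set W' : WeierstrassCurve K := VariableChange.mk 1 x 0 y • W with hW'
  have hΔ' : W'.Δ = W.Δ := by
    rw [hW', variableChange_Δ]; simp
  have ha₁ : W'.a₁ = W.a₁ := by rw [hW', variableChange_a₁]; simp
  have ha₂ : W'.a₂ = W.a₂ + 3 * x := by rw [hW', variableChange_a₂]; simp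
  have ha₃ : W'.a₃ = 2 * y + W.a₁ * x + W.a₃ := by rw [hW', variableChange_a₃]; simp; ring
  have ha₄ : W'.a₄ = -(W.a₁ * y - (3 * x ^ 2 + 2 * W.a₂ * x + W.a₄)) := by
    rw [hW', variableChange_a₄]; simp; ring
  have ha₆ : W'.a₆ = 0 := by
    rw [hW', variableChange_a₆]; simp
    have e := (Affine.equation_iff x y).mp h
    linear_combination -e
  have h1O' : W'.a₁ ∈ O := by rw [ha₁]; exact h1O
  have h2O' : W'.a₂ ∈ O := by rw [ha₂]; exact add_mem h2O (mul_mem (ofNat_mem O 3) hxO)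
  have h3O' : W'.a₃ ∈ O := by rw [ha₃]; exact hY
  have h4O' : W'.a₄ ∈ O := by rw [ha₄]; exact neg_mem hX
  have hb₂ : W'.b₂ ∈ O := by
    simp only [WeierstrassCurve.b₂]
    exact add_mem (pow_mem h1O' 2) (mul_mem (ofNat_mem O 4) h2O')
  have hb₄ : W'.b₄ ∈ O := by
    simp only [WeierstrassCurve.b₄]
    exact add_mem (mul_mem (ofNat_mem O 2) h4O') (mul_mem h1O' h3O')
  have hb₆ : W'.b₆ ∈ O := by
    simp only [WeierstrassCurve.b₆, ha₆]
    exact add_mem (pow_mem h3O' 2) (mul_mem (ofNat_mem O 4) (zero_mem O))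
  have hP : (-W'.b₂ ^ 2 * (-W'.a₁ * W'.a₄ + W'.a₂ * W'.a₃) - 8 * W'.b₄ ^ 2 * W'.a₁
        - 27 * W'.a₃ * W'.b₆ + 9 * W'.b₂ * W'.b₆ * W'.a₁) ∈ O := by
    refine add_mem (sub_mem (sub_mem (mul_mem (neg_mem (pow_mem hb₂ 2))
      (add_mem (mul_mem (neg_mem h1O') h4O') (mul_mem h2O' h3O')))
      (mul_mem (mul_mem (ofNat_mem O 8) (pow_mem hb₄ 2)) h1O'))
      (mul_mem (mul_mem (ofNat_mem O 27) h3O') hb₆))
      (mul_mem (mul_mem (mul_mem (ofNat_mem O 9) hb₂) hb₆) h1O')
  have hQ : (W'.b₂ ^ 2 * W'.a₄ - 16 * W'.b₄ ^ 2 + 18 * W'.b₂ * W'.b₆) ∈ O := by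
    refine add_mem (sub_mem (mul_mem (pow_mem hb₂ 2) h4O')
      (mul_mem (ofNat_mem O 16) (pow_mem hb₄ 2)))
      (mul_mem (mul_mem (ofNat_mem O 18) hb₂) hb₆)
  have hlt : v W'.Δ < 1 := by
    rw [Δ_eq_a₃_a₄_a₆ W', ha₆, zero_mul, add_zero]
    refine val_add_lt_one (val_mul_lt_one_left ?_ hP) (val_mul_lt_one_left ?_ hQ)
    · rw [ha₃]; exact hY'
    · rw [ha₄, Valuation.map_neg]; exact hX'
  rw [hΔ', hΔ] at hlt
  exact lt_irrefl _ hlt

end general

section galois

variable {R S K : Type*} [CommRing R] [CommRing S] [Field K] [DecidableEq K]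
  [Algebra R S] [Algebra R K] [Algebra S K] [IsScalarTower R S K]
  {Γ₀ : Type*} [LinearOrderedCommGroupWithZero Γ₀]
  {W' : Affine R} {v : Valuation K Γ₀}

lemma smul_some (σ : K ≃ₐ[S] K) {x y : K} (h : (W'⁄K).Nonsingular x y) :
    σ • Point.some x y h = Point.some (σ x) (σ y)
      ((W'.baseChange_nonsingular σ.toAlgHom.injective x y).mpr h) :=
  rfl

lemma val_apply_le_one {σ : K ≃ₐ[S] K} (hσ : ∀ t : K, v t ≤ 1 → v (σ t - t) < 1) {t : K}
    (ht : v t ≤ 1) : v (σ t) ≤ 1 := by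
  have : σ t = (σ t - t) + t := by ring
  rw [this]
  exact val_add_le_one (hσ t ht).le ht

/-- **Inertia fixes torsion points with nonsingular reduction.**
`hσ` says that `σ` acts trivially on the residue field; `hC1` says that the kernel of reduction
has no `n`-torsion. -/
theorem smul_eq_self_of_nonsingular_reduction (hW : IntegralCoeffs (W'⁄K) v)
    (σ : K ≃ₐ[S] K) (hσ : ∀ t : K, v t ≤ 1 → v (σ t - t) < 1) (n : ℤ)
    (hC1 : ∀ Q : (W'⁄K).Point, InKer (W'⁄K) v Q → n • Q = 0 → Q = 0)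
    {x y : K} (h : (W'⁄K).Nonsingular x y) (hx : v x ≤ 1)
    (hns : v ((W'⁄K).a₁ * y - (3 * x ^ 2 + 2 * (W'⁄K).a₂ * x + (W'⁄K).a₄)) = 1 ∨
      v (2 * y + (W'⁄K).a₁ * x + (W'⁄K).a₃) = 1)
    (hP : n • Point.some x y h = 0) :
    σ • Point.some x y h = Point.some x y h := by
  have hy : v y ≤ 1 := val_y_le_one hW h.1 hx
  have hker : InKer (W'⁄K) v (Point.some x y h - σ • Point.some x y h) := by
    rw [smul_some]
    refine inKer_sub_of_same_reduction hW h _ hx hy (val_apply_le_one hσ hx)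
      (val_apply_le_one hσ hy) ?_ ?_ hns
    · rw [← Valuation.map_neg, neg_sub]; exact hσ x hx
    · rw [← Valuation.map_neg, neg_sub]; exact hσ y hy
  have hn : n • (Point.some x y h - σ • Point.some x y h) = 0 := by
    rw [smul_sub, ← Point.algEquiv_smul_zsmul, hP, smul_zero, sub_zero]
  have := hC1 _ hker hn
  exact (sub_eq_zero.mp this).symm

/-- **Good reduction case**: if the discriminant is a `v`-unit, `σ` acts trivially on the residue
field and the kernel of reduction has no `n`-torsion, then `σ` fixes every `n`-torsion point. -/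
theorem smul_eq_self_of_good_reduction (hW : IntegralCoeffs (W'⁄K) v)
    (hΔ : v (W'⁄K).Δ = 1)
    (σ : K ≃ₐ[S] K) (hσ : ∀ t : K, v t ≤ 1 → v (σ t - t) < 1) (n : ℤ)
    (hC1 : ∀ Q : (W'⁄K).Point, InKer (W'⁄K) v Q → n • Q = 0 → Q = 0)
    (P : (W'⁄K).Point) (hP : n • P = 0) : σ • P = P := by
  rcases P with _ | ⟨x, y, h⟩
  · exact smul_zero σ
  · have hx : v x ≤ 1 := by
      by_contra hx
      rw [not_le] at hx
      exact Point.some_ne_zero h (hC1 _ ((inKer_some h).mpr hx) hP)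
    exact smul_eq_self_of_nonsingular_reduction hW σ hσ n hC1 h hx
      (nonsingular_reduction_of_val_Δ hW hΔ h.1 hx) hP

end galois

end Fermat.Agent.S05.GoodRed

end
-- ===== PACK-END S05/GoodRed.lean

-- ===== PACK-BEGIN S52/H311/AddSub.lean
section



/-!
# `sym2x (P + Q) (P - Q)` is projectively `addSubMap (sym2x P Q)`  (S52, piece A2a-points)

For nonsingular points `P`, `Q` on a Weierstrass curve over a field (no ellipticity needed)
the Mathlib map `WeierstrassCurve.addSubMap` sends the coordinate vector `P.sym2x Q` of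
`(x(P) x(Q) : x(P) + x(Q) : 1)` to a nonzero multiple of `(P + Q).sym2x (P - Q)`.
-/

set_option autoImplicit false

namespace Fermat.Agent.S52.H311

open WeierstrassCurve WeierstrassCurve.Affine MvPolynomial
open Fermat.Agent.S05

variable {F : Type*} [Field F] (W : Affine F)

/-- the three coordinates of `addSubMap` evaluated at a vector -/
lemma eval_addSubMap (v : Fin 3 → F) :
    (fun i => (addSubMap W i).eval v) =
      ![v 0 ^ 2 - W.b₄ * v 0 * v 2 - W.b₆ * v 1 * v 2 - W.b₈ * v 2 ^ 2,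
        2 * v 1 * v 0 + W.b₂ * v 0 * v 2 + W.b₄ * v 1 * v 2 + W.b₆ * v 2 ^ 2,
        v 1 ^ 2 - 4 * v 0 * v 2] := by
  funext i
  fin_cases i <;> simp [addSubMap]

/-- on the curve, `dblNum = n² + a₁ d n - (a₂ + 2x) d²` with `n` the numerator of the tangent
slope and `d = y - negY x y`. -/
lemma dblNum_eq {x y : F} (h : W.Equation x y) :
    XId.dblNum W x = (3 * x ^ 2 + 2 * W.a₂ * x + W.a₄ - W.a₁ * y) ^ 2 +
      W.a₁ * (y - W.negY x y) * (3 * x ^ 2 + 2 * W.a₂ * x + W.a₄ - W.a₁ * y) -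
      (W.a₂ + x + x) * (y - W.negY x y) ^ 2 := by
  rw [Affine.equation_iff] at h
  simp only [negY, XId.dblNum, WeierstrassCurve.b₄, WeierstrassCurve.b₆, WeierstrassCurve.b₈]
  linear_combination (8 * x + W.a₁ ^ 2 + 4 * W.a₂) * h

/-- at a nonsingular 2-torsion point the duplication numerator does not vanish -/
lemma dblNum_ne_zero_of_Y_eq {x y : F} (h : W.Nonsingular x y) (hy : y = W.negY x y) :
    XId.dblNum W x ≠ 0 := by
  have hd : y - W.negY x y = 0 := sub_eq_zero.mpr hy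
  rw [dblNum_eq W h.1, hd]
  have hn : 3 * x ^ 2 + 2 * W.a₂ * x + W.a₄ - W.a₁ * y ≠ 0 := by
    rcases (Affine.nonsingular_iff' ..).mp h with ⟨_, h1 | h2⟩
    · intro h0; apply h1; linear_combination -h0
    · exfalso; apply h2; simp only [negY] at hd; linear_combination hd
  simpa using pow_ne_zero 2 hn

variable [DecidableEq F]
variable {W}

/-- **Addition–subtraction on `x`-coordinates.**  For all nonsingular points `P`, `Q` of a
Weierstrass curve over a field, `addSubMap` maps `P.sym2x Q` to a nonzero multiple of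
`(P + Q).sym2x (P - Q)`. -/
theorem sym2x_add_sub (P Q : W.Point) :
    ∃ c : F, c ≠ 0 ∧
      (fun i => (addSubMap W i).eval (P.sym2x Q)) = c • (P + Q).sym2x (P - Q) := by
  rw [eval_addSubMap]
  rcases P with _ | ⟨x₁, y₁, h₁⟩ <;> rcases Q with _ | ⟨x₂, y₂, h₂⟩
  · -- `0, 0`
    refine ⟨1, one_ne_zero, ?_⟩
    simp [← Point.zero_def]
  · -- `0, Q`
    refine ⟨1, one_ne_zero, ?_⟩
    rw [← Point.zero_def, zero_add, zero_sub, Point.sym2x_neg_right]
    simp only [Point.sym2x_zero_some, Point.sym2x_some_some, one_smul]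
    funext i; fin_cases i <;> simp <;> ring
  · -- `P, 0`
    refine ⟨1, one_ne_zero, ?_⟩
    rw [← Point.zero_def, add_zero, sub_zero]
    simp only [Point.sym2x_some_zero, Point.sym2x_some_some, one_smul]
    funext i; fin_cases i <;> simp <;> ring
  · by_cases hx : x₁ = x₂
    · subst hx
      by_cases hy : y₁ = W.negY x₁ y₂
      · -- `Q = -P`
        have hPQ : Point.some x₁ y₁ h₁ + Point.some x₁ y₂ h₂ = 0 := Point.add_of_Y_eq rfl hy
        have hQ : Point.some x₁ y₂ h₂ = -Point.some x₁ y₁ h₁ := by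
          rw [eq_neg_iff_add_eq_zero, add_comm]; exact hPQ
        rw [hPQ, hQ, sub_neg_eq_add]
        by_cases h2 : y₁ = W.negY x₁ y₁
        · -- `P` is 2-torsion
          have h2P : Point.some x₁ y₁ h₁ + Point.some x₁ y₁ h₁ = 0 := Point.add_of_Y_eq rfl h2
          refine ⟨XId.dblNum W x₁, dblNum_ne_zero_of_Y_eq W h₁ h2, ?_⟩
          rw [h2P, Point.sym2x_neg_right]
          have hden := XId.dblDen_eq_zero_of_Y_eq h₁.1 h2
          simp only [Point.sym2x_some_some, Point.sym2x_zero_zero]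
          simp only [XId.dblNum, XId.dblDen] at hden ⊢
          funext i; fin_cases i
          · simp; ring
          · simp; linear_combination hden
          · simp; ring
        · obtain ⟨x', y', h', hadd, hmul, hne⟩ := XId.add_self_some h₁ h2
          refine ⟨XId.dblDen W x₁, hne, ?_⟩
          rw [hadd, Point.sym2x_neg_right]
          simp only [Point.sym2x_some_some, Point.sym2x_zero_some]
          simp only [XId.dblNum, XId.dblDen] at hmul ⊢
          funext i; fin_cases i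
          · simp; linear_combination -hmul
          · simp; ring
          · simp; ring
      · -- `Q = P`, not 2-torsion
        have hyy : y₁ = y₂ := by
          rcases Affine.Y_eq_of_X_eq h₁.1 h₂.1 rfl with h | h
          · exact h
          · exact absurd h hy
        subst hyy
        obtain ⟨x', y', h', hadd, hmul, hne⟩ := XId.add_self_some h₁ hy
        refine ⟨XId.dblDen W x₁, hne, ?_⟩
        rw [hadd, sub_self]
        simp only [Point.sym2x_some_some, Point.sym2x_some_zero]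
        simp only [XId.dblNum, XId.dblDen] at hmul ⊢
        funext i; fin_cases i
        · simp; linear_combination -hmul
        · simp; ring
        · simp; ring
    · obtain ⟨x₃, y₃, x₄, y₄, h₃, h₄, hadd, hsub, hsum, hprod⟩ := XId.add_sub_some h₁ h₂ hx
      refine ⟨(x₁ - x₂) ^ 2, pow_ne_zero 2 (sub_ne_zero.mpr hx), ?_⟩
      rw [hadd, hsub]
      simp only [Point.sym2x_some_some]
      simp only [XId.sumNum, XId.prodNum] at hsum hprod
      funext i; fin_cases i
      · simp; linear_combination -hprod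
      · simp; linear_combination -hsum
      · simp; ring

end Fermat.Agent.S52.H311

end
-- ===== PACK-END S52/H311/AddSub.lean

-- ===== PACK-BEGIN S13/H64/RatProd.lean
section





/-!
# S13 / T5b2: the product of a Galois-stable finite set of non-integral algebraic numbers

For a valuation subring `A` of `ℚ̄` over `p` with valuation `v`: a rational number `q` with
`1 < v q` satisfies `(v p)⁻¹ ≤ v q`; the product of a Galois-stable finset is rational.
-/

set_option autoImplicit false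

namespace Fermat.Agent.S13.H64

open Polynomial

section rat

variable {K : Type*} [Field K] [CharZero K]

omit [CharZero K] in
/-- Integers are integral for every valuation subring. -/
lemma valuation_intCast_le_one (A : ValuationSubring K) (a : ℤ) : A.valuation (a : K) ≤ 1 :=
  (A.valuation_le_one_iff _).mpr (intCast_mem A a)

/-- An integer prime to `p` is a unit of every valuation subring over `p`. -/
lemma valuation_intCast_eq_one (A : ValuationSubring K) (p : ℕ) (hp : p.Prime)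
    (hA : A.LiesOverPrime p) (a : ℤ) (ha : ¬ (p : ℤ) ∣ a) : A.valuation (a : K) = 1 := by
  refine le_antisymm (valuation_intCast_le_one A a) (not_lt.mp fun h => ha ?_)
  exact Fermat.Agent.S54.dvd_of_intCast_mem_nonunits A p hp hA a
    ((ValuationSubring.mem_nonunits_iff A).mpr h)

/-- A rational number of valuation `> 1` at a valuation subring over `p` has valuation at least
`(v p)⁻¹`. -/
theorem inv_valuation_prime_le_of_one_lt (A : ValuationSubring K) (p : ℕ) (hp : p.Prime)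
    (hA : A.LiesOverPrime p) (q : ℚ) (hq : 1 < A.valuation ((q : ℚ) : K)) :
    (A.valuation (p : K))⁻¹ ≤ A.valuation ((q : ℚ) : K) := by
  have hp0 : (p : K) ≠ 0 := by exact_mod_cast hp.ne_zero
  have hden0 : ((q.den : ℤ) : K) ≠ 0 := by
    have := q.den_pos
    exact_mod_cast this.ne'
  have hqe : ((q : ℚ) : K) = (q.num : K) / ((q.den : ℤ) : K) := by
    conv_lhs => rw [← Rat.num_div_den q]
    push_cast
    rfl
  rw [hqe, map_div₀] at hq ⊢
  have hnum : A.valuation (q.num : K) ≤ 1 := valuation_intCast_le_one A _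
  have hdenpos : 0 < A.valuation ((q.den : ℤ) : K) := (Valuation.pos_iff _).mpr hden0
  -- the denominator is a non-unit
  have hden_lt : A.valuation ((q.den : ℤ) : K) < 1 := by
    by_contra h
    have h1 : A.valuation ((q.den : ℤ) : K) = 1 :=
      le_antisymm (valuation_intCast_le_one A _) (not_lt.mp h)
    rw [h1, div_one] at hq
    exact absurd hq (not_lt.mpr hnum)
  have hpd : (p : ℤ) ∣ (q.den : ℤ) :=
    Fermat.Agent.S54.dvd_of_intCast_mem_nonunits A p hp hA _
      ((ValuationSubring.mem_nonunits_iff A).mpr hden_lt)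
  -- hence the numerator is a unit
  have hpn : ¬ (p : ℤ) ∣ q.num := by
    intro h
    have h1 : p ∣ q.num.natAbs := Int.natCast_dvd.mp h
    have h2 : p ∣ q.den := Int.natCast_dvd_natCast.mp hpd
    have := Nat.dvd_gcd h1 h2
    rw [q.reduced] at this
    exact hp.one_lt.ne' (Nat.dvd_one.mp this)
  have hnum1 : A.valuation (q.num : K) = 1 := valuation_intCast_eq_one A p hp hA _ hpn
  obtain ⟨b', hb'⟩ := hpd
  have hden_le : A.valuation ((q.den : ℤ) : K) ≤ A.valuation (p : K) := by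
    rw [hb']
    push_cast
    rw [map_mul]
    exact mul_le_of_le_one_right' (valuation_intCast_le_one A b')
  have hppos : 0 < A.valuation (p : K) := (Valuation.pos_iff _).mpr hp0
  rw [hnum1, one_div]
  exact (inv_le_inv₀ hppos hdenpos).mpr hden_le

end rat

section galois

variable {K : Type*} [Field K] [Algebra ℚ K] [IsGalois ℚ K]

/-- An element fixed by the whole Galois group is rational. -/
theorem exists_rat_of_forall_fixed (c : K) (h : ∀ σ : K ≃ₐ[ℚ] K, σ c = c) :
    ∃ q : ℚ, algebraMap ℚ K q = c := by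
  have hfix : c ∈ IntermediateField.fixedField (⊤ : Subgroup (K ≃ₐ[ℚ] K)) := by
    rintro ⟨g, -⟩
    exact h g
  rw [InfiniteGalois.fixedField_bot, IntermediateField.mem_bot] at hfix
  exact hfix

/-- The product of a Galois-stable finset is rational. -/
theorem exists_rat_prod_of_stable [DecidableEq K] (T : Finset K)
    (hT : ∀ σ : K ≃ₐ[ℚ] K, ∀ r ∈ T, σ r ∈ T) :
    ∃ q : ℚ, algebraMap ℚ K q = ∏ r ∈ T, r := by
  apply exists_rat_of_forall_fixed
  intro σ
  rw [map_prod]
  have himg : T.image σ = T := by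
    apply Finset.eq_of_subset_of_card_le
    · intro x hx
      obtain ⟨r, hr, rfl⟩ := Finset.mem_image.mp hx
      exact hT σ r hr
    · rw [Finset.card_image_of_injective _ σ.injective]
  conv_rhs => rw [← himg]
  rw [Finset.prod_image (fun x _ y _ hxy => σ.injective hxy)]

end galois

section main

variable {K : Type*} [Field K] [CharZero K] [Algebra ℚ K] [IsGalois ℚ K] [DecidableEq K]

/-- **(T5b2)** A nonempty Galois-stable finset of elements of valuation `> 1` (at a valuation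
subring over `p`) has product of valuation at least `(v p)⁻¹`. -/
theorem inv_valuation_prime_le_prod (A : ValuationSubring K) (p : ℕ) (hp : p.Prime)
    (hA : A.LiesOverPrime p) (T : Finset K) (hne : T.Nonempty)
    (hT : ∀ σ : K ≃ₐ[ℚ] K, ∀ r ∈ T, σ r ∈ T) (hv : ∀ r ∈ T, 1 < A.valuation r) :
    (A.valuation (p : K))⁻¹ ≤ ∏ r ∈ T, A.valuation r := by
  obtain ⟨q, hq⟩ := exists_rat_prod_of_stable T hT
  have hq' : ((q : ℚ) : K) = ∏ r ∈ T, r := by rw [← hq]; simp
  have hprod : A.valuation (∏ r ∈ T, r) = ∏ r ∈ T, A.valuation r := map_prod _ _ _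
  have hgt : 1 < ∏ r ∈ T, A.valuation r := by
    obtain ⟨r0, hr0⟩ := hne
    rw [← Finset.mul_prod_erase T _ hr0]
    have h1 : 1 ≤ ∏ r ∈ T.erase r0, A.valuation r :=
      Finset.one_le_prod' (fun r hr => (hv r (Finset.mem_of_mem_erase hr)).le)
    calc (1 : _) < A.valuation r0 := hv r0 hr0
      _ ≤ A.valuation r0 * ∏ r ∈ T.erase r0, A.valuation r :=
        le_mul_of_one_le_right zero_le h1
  rw [← hprod, ← hq'] at hgt ⊢
  exact inv_valuation_prime_le_of_one_lt A p hp hA q hgt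

end main

end Fermat.Agent.S13.H64

end
-- ===== PACK-END S13/H64/RatProd.lean

-- ===== PACK-BEGIN S13/H175/InertiaMem.lean
section




set_option autoImplicit false

/-!
# Membership criteria for the Prelude inertia subgroup `A.inertiaSubgroupIn K`
-/

open scoped Pointwise

namespace Fermat.Agent.S13.H175

/-- An automorphism stabilising `A` and acting trivially on the residue field of `A` lies in
the inertia subgroup. -/
theorem mem_inertiaSubgroupIn_of {K L : Type*} [Field K] [Field L] [Algebra K L]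
    (A : ValuationSubring L) (σ : L ≃ₐ[K] L) (hstab : σ • A = A)
    (h : ∀ x : L, x ∈ A → σ x - x ∈ A.nonunits) : σ ∈ A.inertiaSubgroupIn K := by
  unfold ValuationSubring.inertiaSubgroupIn
  rw [Subgroup.mem_map]
  refine ⟨⟨σ, hstab⟩, ?_, rfl⟩
  unfold ValuationSubring.inertiaSubgroup
  rw [MonoidHom.mem_ker]
  ext r
  obtain ⟨x, rfl⟩ := IsLocalRing.residue_surjective r
  show (⟨σ, hstab⟩ : A.decompositionSubgroup K) • IsLocalRing.residue A x = IsLocalRing.residue A x
  rw [← IsLocalRing.ResidueField.residue_smul]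
  rw [← sub_eq_zero, ← map_sub, IsLocalRing.residue_eq_zero_iff]
  have h1 := h x x.2
  rw [ValuationSubring.mem_nonunits_iff_exists_mem_maximalIdeal] at h1
  obtain ⟨h2, h3⟩ := h1
  convert h3 using 1
  exact Subtype.ext rfl

/-- Over an algebraic extension of `ℚ`: an automorphism acting trivially modulo the maximal
ideal of `A` on all algebraic integers lies in the inertia subgroup of `A`. -/
theorem mem_inertiaSubgroupIn_of_integral
    (A : ValuationSubring (AlgebraicClosure ℚ)) (ℓ : ℕ) (hℓ : ℓ.Prime) (hA : A.LiesOverPrime ℓ)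
    (σ : AlgebraicClosure ℚ ≃ₐ[ℚ] AlgebraicClosure ℚ)
    (h : ∀ x : AlgebraicClosure ℚ, IsIntegral ℤ x → σ x - x ∈ A.nonunits) :
    σ ∈ A.inertiaSubgroupIn ℚ := by
  have : Algebra.IsAlgebraic ℚ (AlgebraicClosure ℚ) := AlgebraicClosure.isAlgebraic ℚ
  -- `σ` maps integral elements to integral elements
  have hint : ∀ (τ : AlgebraicClosure ℚ ≃ₐ[ℚ] AlgebraicClosure ℚ) (x : AlgebraicClosure ℚ),
      IsIntegral ℤ x → IsIntegral ℤ (τ x) := by
    intro τ x hx
    exact hx.map τ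
  -- the same hypothesis holds for `σ⁻¹`
  have h' : ∀ x : AlgebraicClosure ℚ, IsIntegral ℤ x → σ.symm x - x ∈ A.nonunits := by
    intro x hx
    have h1 := h (σ.symm x) (hint σ.symm x hx)
    rw [AlgEquiv.apply_symm_apply] at h1
    have := A.nonunits.neg_mem h1
    simpa using this
  -- key: such a `τ` maps `A` into `A` and acts trivially on the residue field
  have key : ∀ (τ : AlgebraicClosure ℚ ≃ₐ[ℚ] AlgebraicClosure ℚ),
      (∀ x : AlgebraicClosure ℚ, IsIntegral ℤ x → τ x - x ∈ A.nonunits) →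
      ∀ x : AlgebraicClosure ℚ, x ∈ A → τ x ∈ A ∧ τ x - x ∈ A.nonunits := by
    intro τ hτ x hx
    obtain ⟨b, s, hb, hs, hsA, hxs⟩ := (Fermat.Agent.S54.mem_valuationSubring_iff A ℓ hℓ hA x).mp hx
    have hbA : b ∈ A := Fermat.Agent.S54.isIntegral_mem_valuationSubring A hb
    have hsmem : s ∈ A := Fermat.Agent.S54.isIntegral_mem_valuationSubring A hs
    have hτs_mem : τ s ∈ A := Fermat.Agent.S54.isIntegral_mem_valuationSubring A (hint τ s hs)
    have hτb_mem : τ b ∈ A := Fermat.Agent.S54.isIntegral_mem_valuationSubring A (hint τ b hb)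
    have hs0 : s ≠ 0 := fun h0 => hsA (h0 ▸ A.nonunits.zero_mem)
    have hτs0 : τ s ≠ 0 := fun h0 => hs0 (by simpa using h0)
    -- `τ s` is a unit of `A`
    have hτsA : τ s ∉ A.nonunits := by
      intro hcon
      have h1 := hτ s hs
      have h2 : s = τ s - (τ s - s) := by ring
      apply hsA
      rw [h2]
      exact A.nonunits.sub_mem hcon h1
    have hsinv : s⁻¹ ∈ A := by
      by_contra hc
      exact hsA (A.mem_nonunits_iff_or.mpr (Or.inr hc))
    have hτsinv : (τ s)⁻¹ ∈ A := by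
      by_contra hc
      exact hτsA (A.mem_nonunits_iff_or.mpr (Or.inr hc))
    have hx_eq : x = b * s⁻¹ := by
      rw [← hxs]; field_simp
    have hτx_eq : τ x = τ b * (τ s)⁻¹ := by
      rw [hx_eq, map_mul, map_inv₀]
    refine ⟨?_, ?_⟩
    · rw [hτx_eq]
      exact A.mul_mem _ _ hτb_mem hτsinv
    · have hdiff : τ x - x = ((τ b - b) * s - b * (τ s - s)) * ((τ s)⁻¹ * s⁻¹) := by
        rw [hτx_eq, hx_eq]
        field_simp
        ring
      rw [hdiff]
      -- nonunits form an ideal-like subset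
      have hmul : ∀ u v : AlgebraicClosure ℚ, u ∈ A.nonunits → v ∈ A → u * v ∈ A.nonunits := by
        intro u v hu hv
        obtain ⟨h1, h2⟩ := ValuationSubring.mem_nonunits_iff_exists_mem_maximalIdeal.mp hu
        have := Ideal.mul_mem_right (⟨v, hv⟩ : A) _ h2
        exact ValuationSubring.mem_nonunits_iff_exists_mem_maximalIdeal.mpr ⟨_, this⟩
      apply hmul _ _ _ (A.mul_mem _ _ hτsinv hsinv)
      apply A.nonunits.sub_mem
      · exact hmul _ _ (hτ b hb) hsmem
      · rw [mul_comm]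
        exact hmul _ _ (hτ s hs) hbA
  apply mem_inertiaSubgroupIn_of A σ
  · -- `σ • A = A`
    apply le_antisymm
    · intro y hy
      obtain ⟨x, hx, rfl⟩ := (ValuationSubring.mem_smul_pointwise_iff_exists σ y A).mp hy
      exact (key σ h x hx).1
    · intro y hy
      rw [ValuationSubring.mem_smul_pointwise_iff_exists]
      refine ⟨σ.symm y, (key σ.symm h' y hy).1, ?_⟩
      simp
  · intro x hx
    exact (key σ h x hx).2

end Fermat.Agent.S13.H175

end
-- ===== PACK-END S13/H175/InertiaMem.lean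

-- ===== PACK-BEGIN S59/H127/TateEnd.lean
section



/-!
# E-side foundation, part 4: the `p`-adic Tate module of a `p`-divisible group, in coordinates

Abstract algebra (Mathlib only).  Let `cb : CompatBasis A p h` be a compatible system of bases of
the `p^k`-torsion of an abelian group `A`.  We realise the Tate module `T_p A = lim A[p^k]` as
`V = Fin h → ℤ_[p]` via the comparison map

  `cb.Φ : (Fin h → ℤ_[p]) → ℕ → A`,   `Φ a k = ∑ i, (a i mod p^k) • B k i`

which is an additive bijection onto the compatible sequences (`Φ_injective`, `Φ_surjective`), and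
construct the **ring homomorphism**

  `cb.tateEnd : AddMonoid.End A →+* Module.End ℤ_[p] (Fin h → ℤ_[p])`

characterised by `Φ (tateEnd f a) k = f (Φ a k)` (`Φ_tateEnd`).  If `f` kills `A[p^n]` then
`tateEnd f` has image in `p^n V` (`tateEnd_mem_smul_top`).  For a group `G` acting on `A` by
additive automorphisms this gives `cb.tateRep : G →* Module.End ℤ_[p] (Fin h → ℤ_[p])`.
-/

open PadicInt

namespace Fermat.Agent.S59.H127

variable {A : Type*} [AddCommGroup A] {p h : ℕ} [hp : Fact p.Prime]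

section padic

/-- an integer `n` represents `x mod p^k` iff `x - n ∈ (p^k)` -/
lemma intCast_eq_toZModPow_iff (k : ℕ) (n : ℤ) (x : ℤ_[p]) :
    ((n : ℤ) : ZMod (p ^ k)) = toZModPow k x ↔ x - (n : ℤ_[p]) ∈ Ideal.span {(p : ℤ_[p]) ^ k} := by
  rw [← ker_toZModPow, RingHom.mem_ker, map_sub, map_intCast, sub_eq_zero, eq_comm]

lemma appr_cast_eq_toZModPow (k : ℕ) (x : ℤ_[p]) :
    (((x.appr k : ℕ) : ℤ) : ZMod (p ^ k)) = toZModPow k x := by
  rw [intCast_eq_toZModPow_iff, Int.cast_natCast]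
  exact appr_spec k x

lemma intCast_eq_toZModPow_of_le {k m : ℕ} (hkm : k ≤ m) {n : ℤ} {x : ℤ_[p]}
    (hn : ((n : ℤ) : ZMod (p ^ m)) = toZModPow m x) :
    ((n : ℤ) : ZMod (p ^ k)) = toZModPow k x := by
  rw [intCast_eq_toZModPow_iff] at hn ⊢
  have hle : Ideal.span {(p : ℤ_[p]) ^ m} ≤ Ideal.span {(p : ℤ_[p]) ^ k} := by
    rw [Ideal.span_singleton_le_span_singleton]
    exact pow_dvd_pow _ hkm
  exact hle hn

end padic

namespace CompatBasis

variable (cb : CompatBasis A p h)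

omit hp in
lemma pow_smul (j k : ℕ) (i : Fin h) : p ^ j • cb.B (k + j) i = cb.B k i :=
  pow_smul_of_succ cb.succ j k i

omit hp in
lemma pow_smul_self (k : ℕ) (i : Fin h) : p ^ k • cb.B k i = 0 := by
  have := cb.pow_smul k 0 i
  rw [zero_add] at this
  rw [this, cb.zero]

omit hp in
/-- integer combinations of `B k` only depend on the coefficients modulo `p^k` -/
lemma sum_eq_iff (k : ℕ) (c c' : Fin h → ℤ) :
    ∑ i, c i • cb.B k i = ∑ i, c' i • cb.B k i ↔ ∀ i, ((p : ℤ) ^ k) ∣ c i - c' i := by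
  constructor
  · intro hcc
    apply cb.indep k
    rw [← sub_eq_zero, ← Finset.sum_sub_distrib] at hcc
    rw [← hcc]
    exact Finset.sum_congr rfl fun j _ => sub_smul _ _ _
  · intro hcc
    rw [← sub_eq_zero, ← Finset.sum_sub_distrib]
    apply Finset.sum_eq_zero
    intro j _
    obtain ⟨d, hd⟩ := hcc j
    rw [← sub_smul, hd, mul_comm, mul_smul, ← Nat.cast_pow, natCast_zsmul, cb.pow_smul_self,
      smul_zero]

omit hp in
lemma sum_mem_torsion (k : ℕ) (c : Fin h → ℤ) : p ^ k • ∑ i, c i • cb.B k i = 0 := by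
  rw [Finset.smul_sum]
  apply Finset.sum_eq_zero
  intro j _
  rw [smul_comm, cb.pow_smul_self, smul_zero]

/-- the comparison map from `ℤ_p^h` to sequences in `A` -/
noncomputable def Φ (a : Fin h → ℤ_[p]) (k : ℕ) : A :=
  ∑ i, (((a i).appr k : ℕ) : ℤ) • cb.B k i

/-- `Φ a k` can be computed with any integer representatives of `a i mod p^k` -/
lemma Φ_eq_of_cast (a : Fin h → ℤ_[p]) (k : ℕ) (c : Fin h → ℤ)
    (hc : ∀ i, ((c i : ℤ) : ZMod (p ^ k)) = toZModPow k (a i)) :
    cb.Φ a k = ∑ i, c i • cb.B k i := by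
  unfold Φ
  rw [cb.sum_eq_iff]
  intro i
  have h1 := appr_cast_eq_toZModPow k (a i)
  rw [← hc i, ZMod.intCast_eq_intCast_iff_dvd_sub] at h1
  rw [← Nat.cast_pow]
  have := (dvd_neg.mpr h1)
  rwa [neg_sub] at this

lemma Φ_torsion (a : Fin h → ℤ_[p]) (k : ℕ) : p ^ k • cb.Φ a k = 0 :=
  cb.sum_mem_torsion k _

lemma Φ_zero_right (a : Fin h → ℤ_[p]) : cb.Φ a 0 = 0 := by
  have := cb.Φ_torsion a 0
  rwa [pow_zero, one_smul] at this

lemma Φ_succ (a : Fin h → ℤ_[p]) (k : ℕ) : p • cb.Φ a (k + 1) = cb.Φ a k := by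
  have h1 : cb.Φ a k = ∑ i, (((a i).appr (k + 1) : ℕ) : ℤ) • cb.B k i :=
    cb.Φ_eq_of_cast a k _ fun i =>
      intCast_eq_toZModPow_of_le (Nat.le_succ k) (appr_cast_eq_toZModPow (k + 1) (a i))
  rw [h1, Φ, Finset.smul_sum]
  refine Finset.sum_congr rfl fun j _ => ?_
  rw [smul_comm, cb.succ]

lemma Φ_add (a b : Fin h → ℤ_[p]) (k : ℕ) : cb.Φ (a + b) k = cb.Φ a k + cb.Φ b k := by
  rw [cb.Φ_eq_of_cast (a + b) k (fun i => (((a i).appr k : ℕ) : ℤ) + (((b i).appr k : ℕ) : ℤ))]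
  · rw [Φ, Φ, ← Finset.sum_add_distrib]
    exact Finset.sum_congr rfl fun j _ => add_smul _ _ _
  · intro i
    rw [Int.cast_add, appr_cast_eq_toZModPow, appr_cast_eq_toZModPow, Pi.add_apply, map_add]

lemma Φ_smul (c : ℤ_[p]) (a : Fin h → ℤ_[p]) (k : ℕ) :
    cb.Φ (c • a) k = (c.appr k) • cb.Φ a k := by
  rw [cb.Φ_eq_of_cast (c • a) k (fun i => ((c.appr k : ℕ) : ℤ) * (((a i).appr k : ℕ) : ℤ))]
  · rw [Φ, Finset.smul_sum]
    refine Finset.sum_congr rfl fun j _ => ?_
    rw [mul_smul, natCast_zsmul]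
  · intro i
    rw [Int.cast_mul, appr_cast_eq_toZModPow, appr_cast_eq_toZModPow, Pi.smul_apply, smul_eq_mul,
      map_mul]

lemma Φ_zero_left (k : ℕ) : cb.Φ (0 : Fin h → ℤ_[p]) k = 0 := by
  have := cb.Φ_add 0 0 k
  rw [add_zero] at this
  exact left_eq_add.mp this

/-- `Φ a k = 0` iff all coordinates of `a` are divisible by `p^k` -/
lemma Φ_eq_zero_iff (a : Fin h → ℤ_[p]) (k : ℕ) :
    cb.Φ a k = 0 ↔ ∀ i, a i ∈ Ideal.span {(p : ℤ_[p]) ^ k} := by
  have h0 : (0 : A) = ∑ i, (fun _ => (0 : ℤ)) i • cb.B k i := by simp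
  rw [Φ, h0, cb.sum_eq_iff]
  refine forall_congr' fun i => ?_
  rw [sub_zero, ← ker_toZModPow, RingHom.mem_ker, ← appr_cast_eq_toZModPow, ← Nat.cast_pow,
    ZMod.intCast_zmod_eq_zero_iff_dvd]

lemma Φ_eq_iff (a b : Fin h → ℤ_[p]) (k : ℕ) :
    cb.Φ a k = cb.Φ b k ↔ ∀ i, toZModPow k (a i) = toZModPow k (b i) := by
  rw [Φ, Φ, cb.sum_eq_iff]
  refine forall_congr' fun i => ?_
  rw [← appr_cast_eq_toZModPow, ← appr_cast_eq_toZModPow, ← Nat.cast_pow,
    ZMod.intCast_eq_intCast_iff_dvd_sub, ← dvd_neg, neg_sub]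

theorem Φ_injective {a b : Fin h → ℤ_[p]} (hab : ∀ k, cb.Φ a k = cb.Φ b k) : a = b := by
  funext i
  apply ext_of_toZModPow.mp
  intro k
  exact (cb.Φ_eq_iff a b k).mp (hab k) i

/-- every element of `A[p^k]` is of the form `Φ a k` -/
theorem Φ_surjective_level (k : ℕ) (x : A) (hx : p ^ k • x = 0) :
    ∃ a : Fin h → ℤ_[p], cb.Φ a k = x := by
  obtain ⟨c, hc⟩ := cb.span k x hx
  refine ⟨fun i => (c i : ℤ_[p]), ?_⟩
  rw [hc]
  apply cb.Φ_eq_of_cast
  intro i
  rw [map_intCast]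

/-- `Φ` of a standard basis vector is the corresponding basis element -/
lemma Φ_single (j : Fin h) (k : ℕ) : cb.Φ (Pi.single j (1 : ℤ_[p])) k = cb.B k j := by
  classical
  rw [cb.Φ_eq_of_cast (Pi.single j (1 : ℤ_[p])) k (Pi.single j (1 : ℤ))]
  · rw [Finset.sum_eq_single j]
    · rw [Pi.single_eq_same, one_smul]
    · intro i _ hij
      rw [Pi.single_eq_of_ne hij, zero_smul]
    · intro hj
      exact absurd (Finset.mem_univ j) hj
  · intro i
    by_cases hij : i = j
    · subst hij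
      rw [Pi.single_eq_same, Pi.single_eq_same, Int.cast_one, map_one]
    · rw [Pi.single_eq_of_ne hij, Pi.single_eq_of_ne hij, Int.cast_zero, map_zero]

/-- every compatible sequence is of the form `Φ a` -/
theorem Φ_surjective (x : ℕ → A) (hx0 : x 0 = 0) (hx : ∀ k, p • x (k + 1) = x k) :
    ∃ a : Fin h → ℤ_[p], ∀ k, cb.Φ a k = x k := by
  have hxk : ∀ k, p ^ k • x k = 0 := by
    intro k
    induction k with
    | zero => rw [pow_zero, one_smul, hx0]
    | succ k ih => rw [pow_succ, mul_smul, hx, ih]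
  choose c hc using fun k => cb.span k (x k) (hxk k)
  have hcompat : ∀ i k, ((p : ℤ) ^ k) ∣ c (k + 1) i - c k i := by
    intro i k
    revert i
    rw [← cb.sum_eq_iff, ← hc k, ← hx k, hc (k + 1), Finset.smul_sum]
    refine Finset.sum_congr rfl fun j _ => ?_
    rw [smul_comm, cb.succ]
  refine ⟨fun i => PadicInt.ofIntSeq _
    (isCauSeq_padicNorm_of_pow_dvd_sub (fun k => c k i) p (hcompat i)), fun k => ?_⟩
  rw [hc k]
  apply cb.Φ_eq_of_cast
  intro i
  rw [toZModPow_ofIntSeq_of_pow_dvd_sub (fun k => c k i) p (hcompat i) k]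

section endo

/-- the action of an additive endomorphism on the coordinates: existence -/
lemma exists_tateFun (f : AddMonoid.End A) (a : Fin h → ℤ_[p]) :
    ∃ b : Fin h → ℤ_[p], ∀ k, cb.Φ b k = f (cb.Φ a k) := by
  apply cb.Φ_surjective
  · rw [cb.Φ_zero_right, map_zero]
  · intro k
    rw [← map_nsmul, cb.Φ_succ]

/-- the action of an additive endomorphism of `A` on `ℤ_p^h` -/
noncomputable def tateFun (f : AddMonoid.End A) (a : Fin h → ℤ_[p]) : Fin h → ℤ_[p] :=
  Classical.choose (cb.exists_tateFun f a)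

lemma Φ_tateFun (f : AddMonoid.End A) (a : Fin h → ℤ_[p]) (k : ℕ) :
    cb.Φ (cb.tateFun f a) k = f (cb.Φ a k) :=
  Classical.choose_spec (cb.exists_tateFun f a) k

/-- the action of an additive endomorphism of `A` on `ℤ_p^h`, as a `ℤ_p`-linear map -/
noncomputable def tateLin (f : AddMonoid.End A) : (Fin h → ℤ_[p]) →ₗ[ℤ_[p]] (Fin h → ℤ_[p]) where
  toFun := cb.tateFun f
  map_add' a b := by
    apply cb.Φ_injective
    intro k
    rw [cb.Φ_tateFun, cb.Φ_add, cb.Φ_add, map_add, cb.Φ_tateFun, cb.Φ_tateFun]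
  map_smul' c a := by
    apply cb.Φ_injective
    intro k
    rw [cb.Φ_tateFun, RingHom.id_apply, cb.Φ_smul, cb.Φ_smul, map_nsmul, cb.Φ_tateFun]

lemma Φ_tateLin (f : AddMonoid.End A) (a : Fin h → ℤ_[p]) (k : ℕ) :
    cb.Φ (cb.tateLin f a) k = f (cb.Φ a k) :=
  cb.Φ_tateFun f a k

/-- **the Tate-module functor on endomorphisms**: a ring homomorphism
`End(A) → End_{ℤ_p}(ℤ_p^h)` -/
noncomputable def tateEnd : AddMonoid.End A →+* Module.End ℤ_[p] (Fin h → ℤ_[p]) where
  toFun f := cb.tateLin f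
  map_one' := by
    apply LinearMap.ext
    intro a
    apply cb.Φ_injective
    intro k
    rw [cb.Φ_tateLin]
    rfl
  map_mul' f g := by
    apply LinearMap.ext
    intro a
    apply cb.Φ_injective
    intro k
    rw [cb.Φ_tateLin, Module.End.mul_apply, cb.Φ_tateLin, cb.Φ_tateLin]
    rfl
  map_zero' := by
    apply LinearMap.ext
    intro a
    apply cb.Φ_injective
    intro k
    rw [cb.Φ_tateLin, LinearMap.zero_apply, cb.Φ_zero_left]
    rfl
  map_add' f g := by
    apply LinearMap.ext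
    intro a
    apply cb.Φ_injective
    intro k
    rw [cb.Φ_tateLin, LinearMap.add_apply, cb.Φ_add, cb.Φ_tateLin, cb.Φ_tateLin]
    rfl

@[simp] lemma Φ_tateEnd (f : AddMonoid.End A) (a : Fin h → ℤ_[p]) (k : ℕ) :
    cb.Φ (cb.tateEnd f a) k = f (cb.Φ a k) :=
  cb.Φ_tateFun f a k

/-- if `f` kills `A[p^n]` then `tateEnd f` maps into `p^n ℤ_p^h` (coordinatewise) -/
theorem tateEnd_apply_mem_span (f : AddMonoid.End A) (n : ℕ)
    (hf : ∀ x : A, p ^ n • x = 0 → f x = 0) (a : Fin h → ℤ_[p]) (i : Fin h) :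
    cb.tateEnd f a i ∈ Ideal.span {(p : ℤ_[p]) ^ n} := by
  have h1 : cb.Φ (cb.tateEnd f a) n = 0 := by
    rw [cb.Φ_tateEnd]
    exact hf _ (cb.Φ_torsion a n)
  exact (cb.Φ_eq_zero_iff _ n).mp h1 i

/-- conversely, if `tateEnd f` maps into `p^n ℤ_p^h` then `f` kills `A[p^n]` -/
theorem eq_zero_of_tateEnd_apply_mem_span (f : AddMonoid.End A) (n : ℕ)
    (hf : ∀ (a : Fin h → ℤ_[p]) (i : Fin h), cb.tateEnd f a i ∈ Ideal.span {(p : ℤ_[p]) ^ n})
    (x : A) (hx : p ^ n • x = 0) : f x = 0 := by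
  obtain ⟨a, rfl⟩ := cb.Φ_surjective_level n x hx
  rw [← cb.Φ_tateEnd]
  exact (cb.Φ_eq_zero_iff _ n).mpr (hf a)

/-- `tateEnd f = 0` iff `f` kills all `p`-power torsion -/
theorem tateEnd_eq_zero_iff (f : AddMonoid.End A) :
    cb.tateEnd f = 0 ↔ ∀ (n : ℕ) (x : A), p ^ n • x = 0 → f x = 0 := by
  constructor
  · intro hf n x hx
    apply cb.eq_zero_of_tateEnd_apply_mem_span f n _ x hx
    intro a i
    rw [hf]
    exact Ideal.zero_mem _
  · intro hf
    apply LinearMap.ext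
    intro a
    apply cb.Φ_injective
    intro k
    rw [cb.Φ_tateEnd, LinearMap.zero_apply, cb.Φ_zero_left]
    exact hf k _ (cb.Φ_torsion a k)

/-- if `f` kills `A[p^n]` then `tateEnd f` maps into `𝔪^n • ⊤` -/
theorem tateEnd_mem_smul_top (f : AddMonoid.End A) (n : ℕ)
    (hf : ∀ x : A, p ^ n • x = 0 → f x = 0) (a : Fin h → ℤ_[p]) :
    cb.tateEnd f a ∈
      (IsLocalRing.maximalIdeal ℤ_[p] ^ n) • (⊤ : Submodule ℤ_[p] (Fin h → ℤ_[p])) := by
  have h1 := cb.tateEnd_apply_mem_span f n hf a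
  have h2 : ∀ i, ∃ d : ℤ_[p], cb.tateEnd f a i = (p : ℤ_[p]) ^ n * d := fun i => by
    obtain ⟨d, hd⟩ := Ideal.mem_span_singleton.mp (h1 i)
    exact ⟨d, hd⟩
  choose d hd using h2
  have h3 : cb.tateEnd f a = ((p : ℤ_[p]) ^ n) • d := by
    funext i
    rw [hd i, Pi.smul_apply, smul_eq_mul]
  rw [h3]
  apply Submodule.smul_mem_smul _ Submodule.mem_top
  rw [maximalIdeal_eq_span_p, Ideal.span_singleton_pow]
  exact Ideal.mem_span_singleton_self _

end endo

section rep

variable {G : Type*} [Group G] [DistribMulAction G A]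

/-- the `p`-adic representation of a group acting on `A` by additive automorphisms -/
noncomputable def tateRep (G : Type*) [Group G] [DistribMulAction G A] :
    G →* Module.End ℤ_[p] (Fin h → ℤ_[p]) :=
  (cb.tateEnd.toMonoidHom).comp (DistribMulAction.toAddMonoidEnd G A)

@[simp] lemma Φ_tateRep (g : G) (a : Fin h → ℤ_[p]) (k : ℕ) :
    cb.Φ (cb.tateRep G g a) k = g • cb.Φ a k :=
  cb.Φ_tateEnd _ a k

lemma tateRep_eq_tateEnd (g : G) :
    cb.tateRep G g = cb.tateEnd (DistribMulAction.toAddMonoidEnd G A g) := rfl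

/-- if `g` fixes `A[p^n]` pointwise then `ρ(g) ≡ 1 mod 𝔪^n` -/
theorem tateRep_sub_mem (g : G) (n : ℕ) (hg : ∀ x : A, p ^ n • x = 0 → g • x = x)
    (a : Fin h → ℤ_[p]) :
    cb.tateRep G g a - a ∈
      (IsLocalRing.maximalIdeal ℤ_[p] ^ n) • (⊤ : Submodule ℤ_[p] (Fin h → ℤ_[p])) := by
  have h1 := cb.tateEnd_mem_smul_top (DistribMulAction.toAddMonoidEnd G A g - 1) n
    (fun x hx => by
      change g • x - x = 0
      rw [sub_eq_zero]
      exact hg x hx) a
  rw [map_sub, map_one, LinearMap.sub_apply, Module.End.one_apply] at h1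
  exact h1

/-- `ρ(g) = 1` iff `g` fixes all `p`-power torsion -/
theorem tateRep_eq_one_iff (g : G) :
    cb.tateRep G g = 1 ↔ ∀ (n : ℕ) (x : A), p ^ n • x = 0 → g • x = x := by
  rw [tateRep_eq_tateEnd, ← sub_eq_zero, ← map_one cb.tateEnd, ← map_sub, cb.tateEnd_eq_zero_iff]
  refine forall_congr' fun n => forall_congr' fun x => ?_
  change (p ^ n • x = 0 → g • x - x = 0) ↔ _
  rw [sub_eq_zero]

/-- an integral quadratic relation satisfied by `g` on the `p`-power torsion is satisfied by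
`ρ(g)` -/
theorem tateRep_quadratic (g : G) (a b : ℤ)
    (hg : ∀ (n : ℕ) (x : A), p ^ n • x = 0 → g • g • x - a • g • x + b • x = 0) :
    cb.tateRep G g * cb.tateRep G g - (a : ℤ_[p]) • cb.tateRep G g
      + (b : ℤ_[p]) • (1 : Module.End ℤ_[p] (Fin h → ℤ_[p])) = 0 := by
  have h1 : cb.tateEnd (DistribMulAction.toAddMonoidEnd G A g * DistribMulAction.toAddMonoidEnd G A g
      - a • DistribMulAction.toAddMonoidEnd G A g + b • (1 : AddMonoid.End A)) = 0 := by
    rw [cb.tateEnd_eq_zero_iff]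
    intro n x hx
    exact hg n x hx
  rw [map_add, map_sub, map_mul, map_zsmul, map_zsmul, map_one] at h1
  rw [tateRep_eq_tateEnd, ← h1]
  have e1 : ∀ (z : ℤ) (T : Module.End ℤ_[p] (Fin h → ℤ_[p])), (z : ℤ_[p]) • T = z • T := by
    intro z T
    exact Int.cast_smul_eq_zsmul ℤ_[p] z T
  rw [e1, e1]

end rep

end CompatBasis

end Fermat.Agent.S59.H127

end
-- ===== PACK-END S59/H127/TateEnd.lean

-- ===== PACK-BEGIN S21/H381/PeriodMap.lean
section





/-!
# S21, piece A: existence of the equivariant primitive, linearity of the period map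
-/

set_option autoImplicit false

namespace Fermat.Agent.S21.H381

open CongruenceSubgroup ModularCurve ModularCurve.Period Filter Topology Function Complex
open UpperHalfPlane hiding I
open scoped Manifold MatrixGroups ModularForm

/-- determinant of the image of `γ : SL(2, ℤ)` in `GL (Fin 2) ℝ` is `1`. -/
theorem det_coe_SL (γ : SL(2, ℤ)) : ((γ : GL (Fin 2) ℝ) : Matrix (Fin 2) (Fin 2) ℝ).det = 1 := by
  rw [← Matrix.GeneralLinearGroup.val_det_apply]; simp

/-- **Chain rule for the Möbius action**: if `F` is a primitive of `f` on `ℍ`, then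
`F ∘ γ` is a primitive of `f ∣[2] γ`. -/
theorem hasDerivAt_comp_smul {F f : ℍ → ℂ}
    (hF : ∀ τ : ℍ, HasDerivAt (F ∘ ofComplex) (f τ) ↑τ) (γ : SL(2, ℤ)) (τ : ℍ) :
    HasDerivAt ((fun w : ℍ => F (γ • w)) ∘ ofComplex) ((f ∣[(2 : ℤ)] γ) τ) ↑τ := by
  have hdet := det_coe_SL γ
  have hpos : 0 < ((γ : GL (Fin 2) ℝ) : Matrix (Fin 2) (Fin 2) ℝ).det := by
    rw [hdet]; exact one_pos
  have h_smul : HasDerivAt (fun w ↦ ↑((γ : GL (Fin 2) ℝ) • ofComplex w) : ℂ → ℂ)
      ((((γ : GL (Fin 2) ℝ) : Matrix (Fin 2) (Fin 2) ℝ).det : ℂ)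
        / denom (γ : GL (Fin 2) ℝ) τ ^ 2) ↑τ :=
    (hasStrictDerivAt_smul hpos τ).hasDerivAt
  have h_F : HasDerivAt (F ∘ ofComplex) (f (γ • τ))
      ↑((γ : GL (Fin 2) ℝ) • ofComplex (τ : ℂ)) := by
    rw [ofComplex_apply]
    exact hF (γ • τ)
  have hcomp := h_F.comp (τ : ℂ) h_smul
  have heq : ((fun w : ℍ => F (γ • w)) ∘ ofComplex)
      = (F ∘ ofComplex) ∘ (fun w ↦ ↑((γ : GL (Fin 2) ℝ) • ofComplex w) : ℂ → ℂ) := by
    funext z
    simp only [Function.comp_apply, ofComplex_apply]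
    rfl
  rw [heq]
  refine hcomp.congr_deriv ?_
  rw [ModularForm.SL_slash_apply, hdet]
  have hz := denom_ne_zero (γ : GL (Fin 2) ℝ) τ
  simp only [Complex.ofReal_one]
  rw [zpow_neg, div_eq_mul_inv, one_mul]
  norm_cast

/-- Two primitives (on `ℍ`) of the same function differ by a constant. -/
theorem sub_const_of_hasDerivAt {A B g : ℍ → ℂ}
    (hA : ∀ τ : ℍ, HasDerivAt (A ∘ ofComplex) (g τ) ↑τ)
    (hB : ∀ τ : ℍ, HasDerivAt (B ∘ ofComplex) (g τ) ↑τ) (z w : ℍ) :
    A z - B z = A w - B w := by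
  set D : ℂ → ℂ := fun x => (A ∘ ofComplex) x - (B ∘ ofComplex) x with hD
  have hopen : IsOpen {x : ℂ | 0 < x.im} := isOpen_lt continuous_const Complex.continuous_im
  have hconn : IsPreconnected {x : ℂ | 0 < x.im} := (convex_halfSpace_im_gt 0).isPreconnected
  have hder : ∀ x ∈ {x : ℂ | 0 < x.im}, HasDerivAt D 0 x := by
    intro x hx
    have h1 := (hA ⟨x, hx⟩).sub (hB ⟨x, hx⟩)
    rw [sub_self] at h1
    exact h1
  have hdiff : DifferentiableOn ℂ D {x : ℂ | 0 < x.im} := fun x hx =>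
    (hder x hx).differentiableAt.differentiableWithinAt
  have hderiv : Set.EqOn (deriv D) 0 {x : ℂ | 0 < x.im} := fun x hx => (hder x hx).deriv
  have := hopen.is_const_of_deriv_eq_zero hconn hdiff hderiv (x := (z : ℂ)) (y := (w : ℂ)) z.2 w.2
  simpa [hD, ofComplex_apply] using this

section CuspFormFacts

variable {N : ℕ} [NeZero N] (f : CuspForm (Gamma0 N) 2) (δ : SL(2, ℤ))

omit [NeZero N] in
/-- `f ∣[2] δ` is holomorphic. -/
theorem mdiff_slash : MDiff ((f : ℍ → ℂ) ∣[(2 : ℤ)] δ) := by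
  rw [← CuspForm.coe_translate f δ]
  exact CuspFormClass.holo _

/-- `f ∣[2] δ` vanishes at `i∞`. -/
theorem isZeroAtImInfty_slash : IsZeroAtImInfty ((f : ℍ → ℂ) ∣[(2 : ℤ)] δ) :=
  CuspFormClass.zero_at_infty_slash f δ

/-- There is a common positive integer period for all `f ∣[2] δ`. -/
theorem exists_period_slash :
    ∃ M : ℕ, 0 < M ∧ ∀ δ : SL(2, ℤ), Periodic (((f : ℍ → ℂ) ∣[(2 : ℤ)] δ) ∘ ofComplex) (M : ℝ) := by
  obtain ⟨M, hM, hper⟩ := Subgroup.IsArithmetic.exists_nat_mem_strictPeriods_conj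
    ((Gamma0 N : Subgroup SL(2, ℤ)) : Subgroup (GL (Fin 2) ℝ))
  refine ⟨M, hM, fun δ => ?_⟩
  have h1 := hper δ⁻¹
  rw [map_inv] at h1
  have h2 := SlashInvariantFormClass.periodic_comp_ofComplex
    (CuspForm.translate f (δ : GL (Fin 2) ℝ)) h1
  rw [CuspForm.coe_translate f δ] at h2
  exact_mod_cast h2

end CuspFormFacts

/-- Packaged one-step primitive on `ℍ`: derivative `g`, limit `0` at `i∞`. -/
theorem exists_primitive_tendsto_zero {g : ℍ → ℂ} {h : ℝ} (hh : 0 < h)
    (hper : Periodic (g ∘ ofComplex) h) (hhol : MDiff g) (hzero : IsZeroAtImInfty g) :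
    ∃ G : ℍ → ℂ, (∀ τ : ℍ, HasDerivAt (G ∘ ofComplex) (g τ) ↑τ) ∧
      Tendsto G atImInfty (𝓝 0) := by
  obtain ⟨Ψ, hΨd, hΨ0, hΨ⟩ := exists_disc_primitive hh hper hhol hzero
  refine ⟨fun τ => (h / (2 * Real.pi * I)) * Ψ (Periodic.qParam h ↑τ), fun τ => ?_, ?_⟩
  · exact (hΨ τ).congr_of_eventuallyEq
      (comp_ofComplex_eventuallyEq (P := fun z : ℂ => (h / (2 * Real.pi * I)) *
        Ψ (Periodic.qParam h z)) (fun _ => rfl) τ)
  · have hcont : ContinuousAt Ψ 0 :=
      (hΨd.differentiableAt (Metric.ball_mem_nhds 0 one_pos)).continuousAt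
    have h1 : Tendsto (fun τ : ℍ => Ψ (Periodic.qParam h ↑τ)) atImInfty (𝓝 (Ψ 0)) :=
      hcont.tendsto.comp (qParam_tendsto_atImInfty hh)
    rw [hΨ0] at h1
    simpa using h1.const_mul (h / (2 * Real.pi * I) : ℂ)

section Main

variable {N : ℕ} [NeZero N] (f : CuspForm (Gamma0 N) 2)

omit [NeZero N] in
theorem slash_eq_self_of_mem (γ : Gamma0 N) :
    ((f : ℍ → ℂ) ∣[(2 : ℤ)] (γ : SL(2, ℤ))) = f := by
  have hmem : ((γ : SL(2, ℤ)) : GL (Fin 2) ℝ) ∈
      ((Gamma0 N : Subgroup SL(2, ℤ)) : Subgroup (GL (Fin 2) ℝ)) :=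
    Subgroup.mem_map_of_mem _ γ.2
  exact SlashInvariantForm.slash_action_eqn f _ hmem

/-- **Piece A1**: every weight-2 cusp form on `Γ₀(N)` has an equivariant primitive. -/
theorem exists_hasEquivariantPrimitive : ∃ F : ℍ → ℂ, HasEquivariantPrimitive N f F := by
  obtain ⟨M, hM, hper⟩ := exists_period_slash f
  have hMpos : (0 : ℝ) < (M : ℝ) := by exact_mod_cast hM
  -- primitive of `f = f ∣[2] 1`
  have hone : ((f : ℍ → ℂ) ∣[(2 : ℤ)] (1 : SL(2, ℤ))) = f := by
    rw [SlashAction.slash_one]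
  obtain ⟨F, hFd, hF0⟩ := exists_primitive_tendsto_zero hMpos (hper 1)
    (mdiff_slash f 1) (isZeroAtImInfty_slash f 1)
  have hFd' : ∀ τ : ℍ, HasDerivAt (F ∘ ofComplex) (f τ) ↑τ := by
    intro τ; have := hFd τ; rwa [hone] at this
  refine ⟨F, hFd', hF0, ?_, ?_⟩
  · intro γ
    refine ⟨F ((γ : SL(2, ℤ)) • UpperHalfPlane.I) - F UpperHalfPlane.I, fun z => ?_⟩
    have hγ : ∀ τ : ℍ, HasDerivAt ((fun w : ℍ => F ((γ : SL(2, ℤ)) • w)) ∘ ofComplex) (f τ) ↑τ := by
      intro τ
      have := hasDerivAt_comp_smul hFd' (γ : SL(2, ℤ)) τ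
      rwa [slash_eq_self_of_mem f γ] at this
    exact sub_const_of_hasDerivAt hγ hFd' z UpperHalfPlane.I
  · intro δ
    obtain ⟨G, hGd, hG0⟩ := exists_primitive_tendsto_zero hMpos (hper δ)
      (mdiff_slash f δ) (isZeroAtImInfty_slash f δ)
    have hδ : ∀ τ : ℍ, HasDerivAt ((fun w : ℍ => F (δ • w)) ∘ ofComplex)
        (((f : ℍ → ℂ) ∣[(2 : ℤ)] δ) τ) ↑τ := fun τ => hasDerivAt_comp_smul hFd' δ τ
    set c : ℂ := F (δ • UpperHalfPlane.I) - G UpperHalfPlane.I with hc
    refine ⟨c, ?_⟩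
    have hEq : (fun w : ℍ => F (δ • w)) = fun w => G w + c := by
      funext w
      have := sub_const_of_hasDerivAt hδ hGd w UpperHalfPlane.I
      rw [hc, ← this]; ring
    rw [hEq]
    simpa using hG0.add_const c

variable {f}

omit [NeZero N] in
/-- **Piece A2 (uniqueness)**. -/
theorem hasEquivariantPrimitive_unique {F G : ℍ → ℂ} (hF : HasEquivariantPrimitive N f F)
    (hG : HasEquivariantPrimitive N f G) : F = G := by
  funext z
  have hconst : ∀ w : ℍ, F w - G w = F z - G z := fun w =>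
    sub_const_of_hasDerivAt hF.1 hG.1 w z
  have h1 : Tendsto (fun w : ℍ => F w - G w) atImInfty (𝓝 (0 - 0)) := hF.2.1.sub hG.2.1
  have h2 : Tendsto (fun w : ℍ => F w - G w) atImInfty (𝓝 (F z - G z)) := by
    have : (fun w : ℍ => F w - G w) = fun _ => F z - G z := funext hconst
    rw [this]; exact tendsto_const_nhds
  have := tendsto_nhds_unique h1 h2
  rw [sub_zero] at this
  exact sub_eq_zero.mp this.symm

omit [NeZero N] in
/-- **Piece A2 (formula)**: the period map is computed by any equivariant primitive. -/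
theorem periodMap_apply {F : ℍ → ℂ} (hF : HasEquivariantPrimitive N f F) (γ : Gamma0 N)
    (z : ℍ) : periodMap N f (Additive.ofMul γ) = F ((γ : SL(2, ℤ)) • z) - F z := by
  obtain ⟨F₀, h₀, hP⟩ := periodMap_def N f hF
  have hFF : F₀ = F := hasEquivariantPrimitive_unique h₀ hF
  subst hFF
  rw [hP, IsEquivariantPrimitive.periodHom_apply, ← h₀.2.2.1.sub_eq_period γ z]

omit [NeZero N] in
theorem hasEquivariantPrimitive_add {f g : CuspForm (Gamma0 N) 2} {F G : ℍ → ℂ}
    (hF : HasEquivariantPrimitive N f F) (hG : HasEquivariantPrimitive N g G) :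
    HasEquivariantPrimitive N (f + g) (F + G) := by
  refine ⟨fun τ => ?_, ?_, fun γ => ?_, fun δ => ?_⟩
  · have := (hF.1 τ).add (hG.1 τ)
    exact this
  · have h := hF.2.1.add hG.2.1
    rw [add_zero] at h
    exact h
  · obtain ⟨c, hc⟩ := hF.2.2.1 γ
    obtain ⟨d, hd⟩ := hG.2.2.1 γ
    refine ⟨c + d, fun z => ?_⟩
    simp only [Pi.add_apply]
    rw [← hc z, ← hd z]; ring
  · obtain ⟨L, hL⟩ := hF.2.2.2 δ
    obtain ⟨L', hL'⟩ := hG.2.2.2 δ
    exact ⟨L + L', hL.add hL'⟩

omit [NeZero N] in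
theorem hasEquivariantPrimitive_smul {f : CuspForm (Gamma0 N) 2} {F : ℍ → ℂ} (a : ℂ)
    (hF : HasEquivariantPrimitive N f F) :
    HasEquivariantPrimitive N (a • f) (a • F) := by
  refine ⟨fun τ => ?_, ?_, fun γ => ?_, fun δ => ?_⟩
  · have := (hF.1 τ).const_smul a
    exact this
  · have h := hF.2.1.const_smul a
    rw [smul_zero] at h
    exact h
  · obtain ⟨c, hc⟩ := hF.2.2.1 γ
    refine ⟨a * c, fun z => ?_⟩
    simp only [Pi.smul_apply, smul_eq_mul]
    rw [← hc z]; ring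
  · obtain ⟨L, hL⟩ := hF.2.2.2 δ
    exact ⟨a • L, hL.const_smul a⟩

theorem periodMap_add (f g : CuspForm (Gamma0 N) 2) :
    periodMap N (f + g) = periodMap N f + periodMap N g := by
  obtain ⟨F, hF⟩ := exists_hasEquivariantPrimitive f
  obtain ⟨G, hG⟩ := exists_hasEquivariantPrimitive g
  refine AddMonoidHom.ext fun γ => ?_
  obtain ⟨γ, rfl⟩ : ∃ γ' : Gamma0 N, Additive.ofMul γ' = γ := ⟨Additive.toMul γ, rfl⟩
  rw [AddMonoidHom.add_apply, _root_.Fermat.Agent.S21.H381.periodMap_apply (_root_.Fermat.Agent.S21.H381.hasEquivariantPrimitive_add hF hG) γ UpperHalfPlane.I,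
    _root_.Fermat.Agent.S21.H381.periodMap_apply hF γ UpperHalfPlane.I, _root_.Fermat.Agent.S21.H381.periodMap_apply hG γ UpperHalfPlane.I]
  simp only [Pi.add_apply]; ring

theorem periodMap_smul (a : ℂ) (f : CuspForm (Gamma0 N) 2) :
    periodMap N (a • f) = a • periodMap N f := by
  obtain ⟨F, hF⟩ := exists_hasEquivariantPrimitive f
  refine AddMonoidHom.ext fun γ => ?_
  obtain ⟨γ, rfl⟩ : ∃ γ' : Gamma0 N, Additive.ofMul γ' = γ := ⟨Additive.toMul γ, rfl⟩
  rw [AddMonoidHom.smul_apply, _root_.Fermat.Agent.S21.H381.periodMap_apply (_root_.Fermat.Agent.S21.H381.hasEquivariantPrimitive_smul a hF) γ UpperHalfPlane.I,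
    _root_.Fermat.Agent.S21.H381.periodMap_apply hF γ UpperHalfPlane.I]
  simp only [Pi.smul_apply, smul_eq_mul]; ring

variable (N) in
/-- The period map as a `ℂ`-linear map. -/
noncomputable def periodMapLin : CuspForm (Gamma0 N) 2 →ₗ[ℂ] (Additive (Gamma0 N) →+ ℂ) where
  toFun := periodMap N
  map_add' := _root_.Fermat.Agent.S21.H381.periodMap_add
  map_smul' := _root_.Fermat.Agent.S21.H381.periodMap_smul

@[simp] theorem periodMapLin_apply (f : CuspForm (Gamma0 N) 2) :
    periodMapLin N f = periodMap N f := rfl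

variable (N) in
/-- **Piece A3**: the period map is linear. -/
theorem existsPeriodMapLinear : ExistsPeriodMapLinear N :=
  ⟨periodMapLin N, fun _ => rfl⟩

variable (N) in
/-- Unfolding of `periodHomPair`. -/
theorem periodHomPair_eq :
    periodHomPair N = LinearMap.coprod
      ((LinearMap.id + charInvolution N ℂ ℂ) ∘ₗ periodMapLin N)
      ((LinearMap.id - charInvolution N ℂ ℂ) ∘ₗ periodMapLin N) := by
  obtain ⟨pml, hpml, h⟩ := periodHomPair_def N (_root_.Fermat.Agent.S21.H381.existsPeriodMapLinear N)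
  have : pml = periodMapLin N := LinearMap.ext fun f => by rw [hpml, periodMapLin_apply]
  rw [h, this]

theorem periodHomPair_apply (f g : CuspForm (Gamma0 N) 2) :
    periodHomPair N (f, g) = (periodMap N f + charInvolution N ℂ ℂ (periodMap N f))
      + (periodMap N g - charInvolution N ℂ ℂ (periodMap N g)) := by
  rw [_root_.Fermat.Agent.S21.H381.periodHomPair_eq]
  simp [LinearMap.coprod_apply]

end Main

end Fermat.Agent.S21.H381

end
-- ===== PACK-END S21/H381/PeriodMap.lean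

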