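import Mathlib
import Fermat.Prelude.Def_ModularCurve_ArithmeticGalois
import Fermat.Prelude.Def_AlgebraicCurve_BaseChangeGalois
import Fermat.Prelude.Def_EllipticCurve_FrobeniusTrace
import Mathlib.GroupTheory.QuotientGroup.Basic
import Mathlib.Algebra.Group.Subgroup.ZPowers.Basic
import Fermat.Agent.Pack.S44.G0E0L1
import Fermat.Agent.Pack.S44.G0E0L0
import Fermat.Agent.Pack.S44.G0E0L2
import Fermat.Agent.Pack.S44.G0E0L3
import Fermat.Agent.Pack.S44.G0E1L0
import Fermat.Agent.Pack.S44.G0E1L2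
import Fermat.Agent.Pack.S44.G0E1L1

-- ===== PACK-BEGIN S28/H25/ThetaAnalytic.lean
section




/-!
# The `θ`-identity for `j`, analytic part (helper25, S28 piece [A-θ])

In `ℂ⟦q⟧`, with `e4, e6, δ` the `q`-expansions of `E₄, E₆, Δ` and `θ = q d/dq`:
* `e4 ^ 3 - e6 ^ 2 = 1728 * δ`;
* `3 * e4 ^ 2 * θ e4 * δ - e4 ^ 3 * θ δ = - (e4 ^ 2 * e6 * δ)`.
-/

set_option autoImplicit false

open UpperHalfPlane hiding I
open Function Derivative Complex ModularForm EisensteinSeries
open scoped Manifold MatrixGroups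

noncomputable section

namespace Fermat.Agent.S28.H25

/-- Functions on `ℍ` whose cusp function (period `1`) is analytic at `0`. -/
def qAnalytic : Subring (ℍ → ℂ) where
  carrier := {F | AnalyticAt ℂ (cuspFunction 1 F) 0}
  mul_mem' {f g} hf hg := by
    simp only [Set.mem_ofPred_eq] at hf hg ⊢
    rw [cuspFunction_mul hf.continuousAt hg.continuousAt]
    exact hf.mul hg
  one_mem' := by
    simp only [Set.mem_ofPred_eq]
    have h1 : cuspFunction 1 (1 : ℍ → ℂ) = 1 := by
      ext q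
      rcases eq_or_ne q 0 with rfl | hq
      · simpa [cuspFunction, Function.Periodic.cuspFunction] using!
          tendsto_const_nhds.limUnder_eq
      · simp [cuspFunction, Function.Periodic.cuspFunction_eq_of_nonzero 1 _ hq]
    rw [h1]
    exact analyticAt_const
  add_mem' {f g} hf hg := by
    simp only [Set.mem_ofPred_eq] at hf hg ⊢
    rw [cuspFunction_add hf.continuousAt hg.continuousAt]
    exact hf.add hg
  zero_mem' := by
    simp only [Set.mem_ofPred_eq]
    have h0 : cuspFunction 1 (0 : ℍ → ℂ) = 0 := by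
      ext q
      rcases eq_or_ne q 0 with rfl | hq
      · simpa [cuspFunction, Function.Periodic.cuspFunction] using!
          tendsto_const_nhds.limUnder_eq
      · simp [cuspFunction, Function.Periodic.cuspFunction_eq_of_nonzero 1 _ hq]
    rw [h0]
    exact analyticAt_const
  neg_mem' {f} hf := by
    simp only [Set.mem_ofPred_eq] at hf ⊢
    rw [cuspFunction_neg hf.continuousAt]
    exact hf.neg

theorem mem_qAnalytic_iff {F : ℍ → ℂ} :
    F ∈ qAnalytic ↔ AnalyticAt ℂ (cuspFunction 1 F) 0 := Iff.rfl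

/-- The `q`-expansion, as a ring homomorphism on `qAnalytic`. -/
def qExpRingHom : qAnalytic →+* PowerSeries ℂ where
  toFun F := qExpansion 1 (F : ℍ → ℂ)
  map_one' := qExpansion_one 1
  map_mul' F G := qExpansion_mul F.2 G.2
  map_zero' := qExpansion_zero 1
  map_add' F G := qExpansion_add F.2 G.2

@[simp] theorem qExpRingHom_apply (F : qAnalytic) :
    qExpRingHom F = qExpansion 1 (F : ℍ → ℂ) := rfl

theorem mem_qAnalytic_of_modularForm {k : ℤ} (f : ModularForm 𝒮ℒ k) :
    (f : ℍ → ℂ) ∈ qAnalytic :=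
  ModularFormClass.analyticAt_cuspFunction_zero f one_pos one_mem_strictPeriods_SL

theorem periodic_of_modularForm {k : ℤ} (f : ModularForm 𝒮ℒ k) :
    Periodic ((f : ℍ → ℂ) ∘ ofComplex) (1 : ℝ) :=
  SlashInvariantFormClass.periodic_comp_ofComplex f one_mem_strictPeriods_SL

theorem mem_qAnalytic_D_of_modularForm {k : ℤ} (f : ModularForm 𝒮ℒ k) :
    D (f : ℍ → ℂ) ∈ qAnalytic :=
  analyticAt_cuspFunction_D one_pos (periodic_of_modularForm f) (ModularFormClass.holo f)
    (ModularFormClass.bdd_at_infty f)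

theorem qExpansion_D_of_modularForm {k : ℤ} (f : ModularForm 𝒮ℒ k) :
    qExpansion 1 (D (f : ℍ → ℂ)) = thetaP (qExpansion 1 (f : ℍ → ℂ)) :=
  qExpansion_D (periodic_of_modularForm f) (ModularFormClass.holo f)
    (ModularFormClass.bdd_at_infty f)

/-- `Δ` as a modular form of weight 12 -/
def discForm : ModularForm 𝒮ℒ 12 := (CuspForm.discriminant : CuspForm 𝒮ℒ 12)

theorem coe_discForm : (discForm : ℍ → ℂ) = ModularForm.discriminant := rfl

/-- `e4 ^ 3 - e6 ^ 2 = 1728 δ` in `ℂ⟦q⟧`. -/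
theorem qExp_E4_cube_sub_E6_sq :
    qExpansion 1 E₄ ^ 3 - qExpansion 1 E₆ ^ 2 =
      1728 * qExpansion 1 ModularForm.discriminant := by
  let a4 : qAnalytic := ⟨E₄, mem_qAnalytic_of_modularForm E₄⟩
  let a6 : qAnalytic := ⟨E₆, mem_qAnalytic_of_modularForm E₆⟩
  let aΔ : qAnalytic := ⟨ModularForm.discriminant, mem_qAnalytic_of_modularForm discForm⟩
  have key : a4 ^ 3 - a6 ^ 2 = 1728 * aΔ := by
    apply Subtype.ext
    funext z
    have := Fermat.Agent.S20.L1.E₄_cube_sub_E₆_sq z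
    have h3 : ((1728 : qAnalytic) : ℍ → ℂ) z = 1728 := rfl
    push_cast
    simp only [a4, a6, aΔ, Pi.sub_apply, Pi.mul_apply, Pi.pow_apply]
    rw [h3]
    exact this
  have := congrArg qExpRingHom key
  simpa only [map_sub, map_pow, map_mul, map_ofNat, qExpRingHom_apply] using this

/-- `3 e4² θ(e4) δ - e4³ θ(δ) = - e4² e6 δ` in `ℂ⟦q⟧`. -/
theorem qExp_theta_relation :
    3 * qExpansion 1 E₄ ^ 2 * thetaP (qExpansion 1 E₄) * qExpansion 1 ModularForm.discriminant
      - qExpansion 1 E₄ ^ 3 * thetaP (qExpansion 1 ModularForm.discriminant) =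
      - (qExpansion 1 E₄ ^ 2 * qExpansion 1 E₆ * qExpansion 1 ModularForm.discriminant) := by
  let a4 : qAnalytic := ⟨E₄, mem_qAnalytic_of_modularForm E₄⟩
  let a6 : qAnalytic := ⟨E₆, mem_qAnalytic_of_modularForm E₆⟩
  let aΔ : qAnalytic := ⟨ModularForm.discriminant, mem_qAnalytic_of_modularForm discForm⟩
  let d4 : qAnalytic := ⟨D (E₄ : ℍ → ℂ), mem_qAnalytic_D_of_modularForm E₄⟩
  let dΔ : qAnalytic := ⟨D (ModularForm.discriminant : ℍ → ℂ),
    mem_qAnalytic_D_of_modularForm discForm⟩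
  have key : 3 * a4 ^ 2 * d4 * aΔ - a4 ^ 3 * dΔ = - (a4 ^ 2 * a6 * aΔ) := by
    apply Subtype.ext
    funext z
    have h4 := Fermat.Agent.S20.L1.ramanujan_E₄ z
    have hΔ := Fermat.Agent.S20.L1.ramanujan_discriminant z
    have h3 : ((3 : qAnalytic) : ℍ → ℂ) z = 3 := rfl
    push_cast
    simp only [a4, a6, aΔ, d4, dΔ, Pi.sub_apply, Pi.mul_apply, Pi.pow_apply, Pi.neg_apply]
    rw [h3, h4, hΔ]
    ring
  have := congrArg qExpRingHom key
  simp only [map_sub, map_pow, map_mul, map_neg, map_ofNat, qExpRingHom_apply] at this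
  have e1 : qExpansion 1 (D (E₄ : ℍ → ℂ)) = thetaP (qExpansion 1 E₄) :=
    qExpansion_D_of_modularForm E₄
  have e2 : qExpansion 1 (D (ModularForm.discriminant : ℍ → ℂ)) =
      thetaP (qExpansion 1 ModularForm.discriminant) :=
    qExpansion_D_of_modularForm discForm
  simpa only [a4, a6, aΔ, d4, dΔ, e1, e2] using this

end Fermat.Agent.S28.H25

end
end
-- ===== PACK-END S28/H25/ThetaAnalytic.lean

-- ===== PACK-BEGIN S24/Mod/H368Gens.lean
section



/-!
# S24 / MOD glue (helper368): generators of the function field of `X₀(N)`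

The Prelude defines `modularFunctionFieldBar N` as the field generated over `ℚ̄` by the image
of the whole field `ℚ(j(q^d) : d ∣ N)`.  Here we show it is generated by the finitely many
series `j(q^d)`, `d ∣ N`, and deduce the `MvPolynomial` presentation used to construct
embeddings.
-/

set_option autoImplicit false
set_option linter.style.haveILetI false

noncomputable section

open ModularCurve IntermediateField MvPolynomial

namespace Fermat.Agent.S24.H368

variable (L : Type*) [Field L] [Algebra ℚ L]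

/-- `j(q^d)` with coefficients in `L`, for a divisor `d` of `N`. -/
def gen (N : ℕ) (d : N.divisors) : LaurentSeries L :=
  haveI : NeZero d.1 := ⟨(Nat.pos_of_mem_divisors d.2).ne'⟩
  coeffEmb L (qExpand ℚ d.1 jq)

theorem gen_eq (N : ℕ) (d : ℕ) [NeZero d] (hd : d ∈ N.divisors) :
    gen L N ⟨d, hd⟩ = coeffEmb L (qExpand ℚ d jq) := rfl

theorem gen_one (N : ℕ) [NeZero N] :
    gen L N ⟨1, Nat.one_mem_divisors.2 (NeZero.ne N)⟩ = coeffEmb L jq := by
  rw [gen_eq, qExpand_one_apply]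

/-- The image under `coeffEmb` of the field generated by a set lies in the field generated by
the image of the set. -/
theorem coeffEmb_mem_adjoin_image (T : Set (LaurentSeries ℚ)) {x : LaurentSeries ℚ}
    (hx : x ∈ IntermediateField.adjoin ℚ T) :
    coeffEmb L x ∈ IntermediateField.adjoin L (⇑(coeffEmb L) '' T) := by
  induction hx using IntermediateField.adjoin_induction with
  | mem y hy => exact subset_adjoin L _ ⟨y, hy, rfl⟩
  | algebraMap c =>
    have : coeffEmb L (algebraMap ℚ (LaurentSeries ℚ) c)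
        = algebraMap L (LaurentSeries L) (algebraMap ℚ L c) := by
      rw [algebraMap_apply_eq_single, algebraMap_laurentSeries_eq_single]
      exact coeffMap_single _ _ _
    rw [this]
    exact (IntermediateField.adjoin L _).algebraMap_mem _
  | add x y _ _ hx hy => rw [map_add]; exact add_mem hx hy
  | inv x _ hx => rw [map_inv₀]; exact inv_mem hx
  | mul x y _ _ hx hy => rw [map_mul]; exact mul_mem hx hy

theorem laurentBaseChange_adjoin (T : Set (LaurentSeries ℚ)) :
    laurentBaseChange L (IntermediateField.adjoin ℚ T)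
      = IntermediateField.adjoin L (⇑(coeffEmb L) '' T) := by
  apply le_antisymm
  · rw [laurentBaseChange, adjoin_le_iff]
    rintro _ ⟨x, hx, rfl⟩
    exact coeffEmb_mem_adjoin_image L T hx
  · rw [laurentBaseChange]
    exact IntermediateField.adjoin.mono L _ _ (Set.image_mono (subset_adjoin ℚ T))

theorem image_divisorExpansions (N : ℕ) [NeZero N] :
    ⇑(coeffEmb L) '' divisorExpansions N = Set.range (gen L N) := by
  ext x
  constructor
  · rintro ⟨y, ⟨d, hne, hd, rfl⟩, rfl⟩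
    exact ⟨⟨d, Nat.mem_divisors.2 ⟨hd, NeZero.ne N⟩⟩, rfl⟩
  · rintro ⟨⟨d, hd⟩, rfl⟩
    exact ⟨_, ⟨d, ⟨(Nat.pos_of_mem_divisors hd).ne'⟩, Nat.dvd_of_mem_divisors hd, rfl⟩, rfl⟩

/-- The function field of `X₀(N)` over `L` is generated over `L` by the `j(q^d)`, `d ∣ N`. -/
theorem laurentBaseChange_full_eq_adjoin (N : ℕ) [NeZero N] :
    laurentBaseChange L (modularFunctionFieldFull N)
      = IntermediateField.adjoin L (Set.range (gen L N)) := by
  rw [modularFunctionFieldFull, laurentBaseChange_adjoin, image_divisorExpansions]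

theorem modularFunctionFieldBar_eq_adjoin (N : ℕ) [NeZero N] :
    modularFunctionFieldBar N
      = IntermediateField.adjoin (AlgebraicClosure ℚ) (Set.range (gen (AlgebraicClosure ℚ) N)) :=
  laurentBaseChange_full_eq_adjoin _ N

/-- Every element of `K(s)` is a quotient of two polynomial expressions in the generators. -/
theorem exists_aeval_div {K E ι : Type*} [Field K] [Field E] [Algebra K E] (s : ι → E)
    {x : E} (hx : x ∈ IntermediateField.adjoin K (Set.range s)) :
    ∃ p q : MvPolynomial ι K, aeval s q ≠ 0 ∧ x = aeval s p / aeval s q := by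
  obtain ⟨a, ha, b, hb, rfl⟩ := IntermediateField.mem_adjoin_iff_div.1 hx
  rw [Algebra.adjoin_range_eq_range_aeval] at ha hb
  obtain ⟨p, rfl⟩ := ha
  obtain ⟨q, rfl⟩ := hb
  by_cases hq : aeval s q = 0
  · refine ⟨0, 1, by simp, ?_⟩
    simp [hq]
  · exact ⟨p, q, hq, rfl⟩

end Fermat.Agent.S24.H368

end
end
-- ===== PACK-END S24/Mod/H368Gens.lean

-- ===== PACK-BEGIN A2/H129/Kummer.lean
section



/-!
# A2 / K1: the Kummer dictionary (Prelude language, any `K`, `F`)

`x ∈ Pic0 K F` with `m • x = 0`, `x = [D]`, `m D = div f`.  For a semilinear automorphism `g`: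
`(g - 1)² x = 0` as soon as `(g - 1)² f = c · y ^ m` for a constant `c` and a function `y`
(multiplicative notation `tauSubOne`).

* `KummerTwice g m` : the Kummer-side statement (what K2 + K3 have to prove).
* `unipotent_of_kummerTwice` : `KummerTwice g m → ∀ x, m • x = 0 → g • (g • x - x) = g • x - x`.
-/

set_option autoImplicit false

namespace Fermat.Agent.A2.H129

open AlgebraicCurve

variable {K F : Type*} [Field K] [Field F] [Algebra K F]

/-- **Kummer-side statement.** For every `f ≠ 0` whose divisor is divisible by `m`, the function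
`(g - 1)² f = g(g f / f) / (g f / f)` is a constant times an `m`-th power. -/
def KummerTwice (g : SemilinearAut K F) (m : ℕ) : Prop :=
  ∀ f : F, f ≠ 0 → (∀ v : Place K F, (m : ℤ) ∣ v.ord f) →
    ∃ y : F, ∃ c : K, c ≠ 0 ∧
      tauSubOne (SemilinearAut.toRingAut g) (tauSubOne (SemilinearAut.toRingAut g) f)
        = algebraMap K F c * y ^ m

theorem ord_algebraMap_eq_zero (v : Place K F) (c : K) : v.ord (algebraMap K F c) = 0 := by
  rcases eq_or_ne c 0 with rfl | hc
  · simp
  have h1 : algebraMap K F c ∈ v.toValuationSubring := v.algebraMap_mem' c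
  have h2 : algebraMap K F c⁻¹ ∈ v.toValuationSubring := v.algebraMap_mem' c⁻¹
  have hu : IsUnit (⟨algebraMap K F c, h1⟩ : v.toValuationSubring) := by
    refine IsUnit.of_mul_eq_one (⟨algebraMap K F c⁻¹, h2⟩ : v.toValuationSubring) ?_
    ext
    show algebraMap K F c * algebraMap K F c⁻¹ = 1
    rw [← map_mul, mul_inv_cancel₀ hc, map_one]
  exact v.ord_coe_unit hu.unit

theorem ord_smul_eq (g : SemilinearAut K F) (w : Place K F) (f : F) :
    w.ord (SemilinearAut.toRingAut g f) = (g⁻¹ • w).ord f := by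
  have h := SemilinearAut.ord_smul g (g⁻¹ • w) f
  rw [smul_inv_smul] at h
  exact h

theorem ord_div (v : Place K F) {f h : F} (hf : f ≠ 0) (hh : h ≠ 0) :
    v.ord (f * h⁻¹) = v.ord f - v.ord h := by
  rw [v.ord_mul hf (inv_ne_zero hh), v.ord_inv, sub_eq_add_neg]

theorem ord_pow (v : Place K F) (y : F) (m : ℕ) : v.ord (y ^ m) = m * v.ord y := by
  have := v.ord_zpow y (m : ℤ)
  simpa using this

/-- **K1.**  The Kummer-side statement implies `(g - 1)² = 0` on the `m`-torsion of `Pic0`. -/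
theorem unipotent_of_kummerTwice (g : SemilinearAut K F) (m : ℕ) (hm : m ≠ 0)
    (H : KummerTwice g m) (x : Pic0 K F) (hx : m • x = 0) :
    g • (g • x - x) = g • x - x := by
  obtain ⟨D, rfl⟩ := Pic0.mk_surjective x
  -- the Kummer generator
  have hprin : ((m • D : Divisor.degZero (K := K) (F := F)) : Divisor K F) ∈
      Divisor.principal (K := K) (F := F) := by
    have h0 : Pic0.mk (m • D) = 0 := hx
    have := (QuotientAddGroup.eq_zero_iff (m • D)).1 h0
    simpa [AddSubgroup.mem_addSubgroupOf] using this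
  obtain ⟨f, hf, hfD⟩ := hprin
  have hfD' : ∀ v : Place K F, v.ord f = (m : ℤ) * (D : Divisor K F) v := by
    intro v
    rw [← hfD v]
    simp [Finsupp.smul_apply]
  obtain ⟨y, c, hc, hyc⟩ := H f hf (fun v => ⟨_, hfD' v⟩)
  set τ := SemilinearAut.toRingAut g with hτ
  have hτf : τ f ≠ 0 := by simpa using hf
  have h1 : tauSubOne τ f ≠ 0 := tauSubOne_ne_zero τ hf
  have h2 : tauSubOne τ (tauSubOne τ f) ≠ 0 := tauSubOne_ne_zero τ h1
  have hy : y ≠ 0 := by
    rintro rfl
    rw [zero_pow hm, mul_zero] at hyc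
    exact h2 hyc
  have hcF : algebraMap K F c ≠ 0 := by simpa using hc
  -- the divisor `E = (g-1)² D`
  set E : Divisor.degZero (K := K) (F := F) :=
    SemilinearAut.degZeroSMulHom g (SemilinearAut.degZeroSMulHom g D - D)
      - (SemilinearAut.degZeroSMulHom g D - D) with hE
  have hgoal : g • (g • Pic0.mk D - Pic0.mk D) - (g • Pic0.mk D - Pic0.mk D) = Pic0.mk E := by
    rw [SemilinearAut.pic0_smul_mk]
    rfl
  rw [← sub_eq_zero, hgoal]
  refine (QuotientAddGroup.eq_zero_iff E).2 ?_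
  rw [AddSubgroup.mem_addSubgroupOf]
  refine ⟨y, hy, fun w => ?_⟩
  -- compare `m * E w` and `m * ord_w y`
  have hEw : (E : Divisor K F) w =
      (D : Divisor K F) (g⁻¹ • (g⁻¹ • w)) - (D : Divisor K F) (g⁻¹ • w)
        - ((D : Divisor K F) (g⁻¹ • w) - (D : Divisor K F) w) := by
    simp only [hE, AddSubgroupClass.coe_sub, SemilinearAut.coe_degZeroSMulHom, smul_sub,
      Finsupp.sub_apply, SemilinearAut.divisor_smul_apply]
  have e1 : ∀ (h : F), h ≠ 0 → ∀ v : Place K F,
      v.ord (tauSubOne τ h) = (g⁻¹ • v).ord h - v.ord h := by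
    intro h hh v
    have hτh : τ h ≠ 0 := by simpa using hh
    show v.ord (τ h * h⁻¹) = _
    rw [ord_div v hτh hh, hτ, ord_smul_eq]
  have hord : w.ord (tauSubOne τ (tauSubOne τ f)) =
      (g⁻¹ • (g⁻¹ • w)).ord f - (g⁻¹ • w).ord f - ((g⁻¹ • w).ord f - w.ord f) := by
    rw [e1 _ h1 w, e1 f hf (g⁻¹ • w), e1 f hf w]
  have hord2 : w.ord (tauSubOne τ (tauSubOne τ f)) = (m : ℤ) * w.ord y := by
    rw [hyc, w.ord_mul hcF (pow_ne_zero m hy), ord_algebraMap_eq_zero, zero_add, ord_pow]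
  have hmE : (m : ℤ) * (E : Divisor K F) w = (m : ℤ) * w.ord y := by
    rw [← hord2, hord, hEw, hfD', hfD', hfD']
    ring
  have hm' : (m : ℤ) ≠ 0 := by exact_mod_cast hm
  exact mul_left_cancel₀ hm' hmE

end Fermat.Agent.A2.H129

end
-- ===== PACK-END A2/H129/Kummer.lean

-- ===== PACK-BEGIN Lib/Cheb/H943/Frob.lean
section


/-!
# CHEB piece D: `Spec.FrobStatement` (helper943)

Outside the finite set of prime divisors of the absolute norm of the different ideal of a Galois
number field `L/ℚ`, every prime `P` of `𝓞 L` has trivial inertia group, an arithmetic Frobenius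
`τ`, and decomposition group `zpowers τ`.

Ingredients (all Mathlib): `not_dvd_differentIdeal_iff` (unramified ⇔ not dividing the
different), `AlgHom.IsArithFrobAt.eq_of_isUnramifiedAt` (uniqueness of Frobenius),
`IsArithFrobAt.exists_of_isInvariant` (existence), `Ideal.Quotient.stabilizerHom` and
`FiniteField.bijective_frobeniusAlgEquivOfAlgebraic_pow` (Galois groups of finite fields are
generated by Frobenius).
-/

set_option autoImplicit false
set_option linter.unusedSectionVars false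
set_option linter.style.haveILetI false

open NumberField
open scoped Pointwise

namespace Fermat.Agent.Lib.Cheb.H943

section Bad

attribute [local instance] FractionRing.liftAlgebra

variable (L : Type) [Field L] [NumberField L]

/-- The bad number: the absolute norm of the different ideal (`= |discr L|`). -/
noncomputable def badNat : ℕ := Ideal.absNorm (differentIdeal ℤ (𝓞 L))

lemma badNat_ne_zero : badNat L ≠ 0 := by
  unfold badNat
  rw [Ne, Ideal.absNorm_eq_zero_iff]
  exact differentIdeal_ne_bot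

variable {L}

/-- A rational prime contained in a prime ideal divides its absolute norm. -/
lemma prime_dvd_absNorm {p : ℕ} (hp : p.Prime) {P : Ideal (𝓞 L)} (hP : P.IsPrime)
    (hpP : (p : 𝓞 L) ∈ P) : p ∣ Ideal.absNorm P := by
  by_contra h
  have hcop : Nat.Coprime p (Ideal.absNorm P) := (Nat.Prime.coprime_iff_not_dvd hp).mpr h
  have h1 : ((Nat.gcd p (Ideal.absNorm P) : ℤ) : 𝓞 L) ∈ P := by
    rw [Nat.gcd_eq_gcd_ab]
    push_cast
    exact P.add_mem (P.mul_mem_right _ hpP) (P.mul_mem_right _ (Ideal.absNorm_mem P))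
  rw [hcop] at h1
  simp only [Nat.cast_one, Int.cast_one] at h1
  exact hP.ne_top ((Ideal.eq_top_iff_one P).mpr h1)

/-- Primes not dividing `badNat L` are unramified in `L`. -/
lemma isUnramifiedAt_of_not_dvd_badNat {p : ℕ} (hp : p.Prime) (hpB : ¬ p ∣ badNat L)
    {P : Ideal (𝓞 L)} [hP : P.IsPrime] (hpP : (p : 𝓞 L) ∈ P) :
    Algebra.IsUnramifiedAt ℤ P := by
  rw [← not_dvd_differentIdeal_iff]
  intro hdvd
  apply hpB
  exact (prime_dvd_absNorm hp hP hpP).trans
    (Ideal.absNorm_dvd_absNorm_of_le (Ideal.le_of_dvd hdvd))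

end Bad

variable {L : Type} [Field L] [NumberField L] [IsGalois ℚ L]

lemma faithful_gal : FaithfulSMul (L ≃ₐ[ℚ] L) (𝓞 L) :=
  IsGaloisGroup.faithful ℤ

lemma prime_ne_bot {p : ℕ} (hp : p.Prime) {P : Ideal (𝓞 L)} (hpP : (p : 𝓞 L) ∈ P) : P ≠ ⊥ := by
  rintro rfl
  rw [Ideal.mem_bot] at hpP
  exact hp.ne_zero (by exact_mod_cast hpP)

lemma finite_quot {p : ℕ} (hp : p.Prime) {P : Ideal (𝓞 L)} (hpP : (p : 𝓞 L) ∈ P) :
    Finite (𝓞 L ⧸ P) :=
  Ideal.finiteQuotientOfFreeOfNeBot P (prime_ne_bot hp hpP)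

/-- Existence of an arithmetic Frobenius at every prime above `p`. -/
lemma exists_isArithFrobAt {p : ℕ} (hp : p.Prime) {P : Ideal (𝓞 L)} [hP : P.IsPrime]
    (hpP : (p : 𝓞 L) ∈ P) : ∃ τ : L ≃ₐ[ℚ] L, IsArithFrobAt ℤ τ P := by
  haveI := finite_quot hp hpP
  exact IsArithFrobAt.exists_of_isInvariant ℤ (L ≃ₐ[ℚ] L) P

/-- Inertia is trivial at an unramified prime. -/
lemma inertiaTrivial_of_isUnramifiedAt {p : ℕ} (hp : p.Prime) {P : Ideal (𝓞 L)} [hP : P.IsPrime]
    (hpP : (p : 𝓞 L) ∈ P) [Algebra.IsUnramifiedAt ℤ P] : Spec.InertiaTrivial L P := by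
  intro ι hι
  obtain ⟨τ, hτ⟩ := exists_isArithFrobAt hp hpP
  have hιτ : IsArithFrobAt ℤ (ι * τ) P := by
    intro x
    have h1 := hι (τ • x)
    have h2 := hτ x
    have : (MulSemiringAction.toAlgHom ℤ (𝓞 L) (ι * τ)) x - x ^ Nat.card (ℤ ⧸ P.under ℤ)
        = (ι • (τ • x) - τ • x) + ((MulSemiringAction.toAlgHom ℤ (𝓞 L) τ) x
            - x ^ Nat.card (ℤ ⧸ P.under ℤ)) := by
      simp [mul_smul]
    rw [this]
    exact P.add_mem h1 h2
  have heq := AlgHom.IsArithFrobAt.eq_of_isUnramifiedAt hιτ hτ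
    (by intro x hx; exact mem_nonZeroDivisors_of_ne_zero (by rintro rfl; exact hx P.zero_mem))
  haveI := faithful_gal (L := L)
  have h3 : ι * τ = τ := by
    apply FaithfulSMul.eq_of_smul_eq_smul (α := 𝓞 L)
    intro x
    exact DFunLike.congr_fun heq x
  simpa using h3

attribute [local instance] Ideal.Quotient.field in
/-- If the inertia group is trivial, the decomposition group is generated by any Frobenius. -/
lemma decomp_eq_zpowers {p : ℕ} (hp : p.Prime) {P : Ideal (𝓞 L)} [hP : P.IsPrime]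
    (hpP : (p : 𝓞 L) ∈ P) (hI : Spec.InertiaTrivial L P) {τ : L ≃ₐ[ℚ] L}
    (hτ : IsArithFrobAt ℤ τ P) : Spec.decomp L P = Subgroup.zpowers τ := by
  have hne : P ≠ ⊥ := prime_ne_bot hp hpP
  haveI hmax : P.IsMaximal := Ideal.IsPrime.isMaximal hP hne
  haveI : Finite (𝓞 L ⧸ P) := Ideal.finiteQuotientOfFreeOfNeBot P hne
  haveI hmax' : (P.under ℤ).IsMaximal := Ideal.IsMaximal.under ℤ P
  haveI : Finite (ℤ ⧸ P.under ℤ) := hτ.finite_quotient
  letI : Fintype (ℤ ⧸ P.under ℤ) := Fintype.ofFinite _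
  have hτmem : τ ∈ MulAction.stabilizer (L ≃ₐ[ℚ] L) P := hτ.mem_stabilizer
  apply le_antisymm
  · intro σ hσ
    obtain ⟨n, hn⟩ := (FiniteField.bijective_frobeniusAlgEquivOfAlgebraic_pow
      (ℤ ⧸ P.under ℤ) (𝓞 L ⧸ P)).2
      (Ideal.Quotient.stabilizerHom P (P.under ℤ) (L ≃ₐ[ℚ] L) ⟨σ, hσ⟩)
    have hfrob : Ideal.Quotient.stabilizerHom P (P.under ℤ) (L ≃ₐ[ℚ] L) ⟨τ, hτmem⟩
        = FiniteField.frobeniusAlgEquivOfAlgebraic (ℤ ⧸ P.under ℤ) (𝓞 L ⧸ P) := by
      ext x
      obtain ⟨y, rfl⟩ := Ideal.Quotient.mk_surjective x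
      rw [FiniteField.coe_frobeniusAlgEquivOfAlgebraic]
      simp only [Ideal.Quotient.stabilizerHom_apply]
      rw [← Nat.card_eq_fintype_card]
      exact hτ.mk_apply y
    have hker : Ideal.Quotient.stabilizerHom P (P.under ℤ) (L ≃ₐ[ℚ] L)
        (⟨σ, hσ⟩ * (⟨τ, hτmem⟩ ^ n.1)⁻¹) = 1 := by
      rw [map_mul, map_inv, map_pow, hfrob]
      simp only at hn
      rw [hn, mul_inv_cancel]
    have h1 : σ * (τ ^ n.1)⁻¹ = 1 := by
      apply hI
      intro x
      have := DFunLike.congr_fun hker (Ideal.Quotient.mk P x)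
      simp only [Ideal.Quotient.stabilizerHom_apply, AlgEquiv.one_apply] at this
      rw [Ideal.Quotient.eq] at this
      exact this
    rw [mul_inv_eq_one] at h1
    rw [h1]
    exact Subgroup.pow_mem _ (Subgroup.mem_zpowers τ) _
  · rw [Subgroup.zpowers_le]
    exact hτmem

/-- Piece D with an explicit bad set: all conclusions at every prime not dividing `badNat L`. -/
theorem frob_of_not_dvd_badNat {p : ℕ} (hp : p.Prime) (hpB : ¬ p ∣ badNat L)
    (P : Ideal (𝓞 L)) (hP : P.IsPrime) (hpP : (p : 𝓞 L) ∈ P) :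
    Algebra.IsUnramifiedAt ℤ P ∧ Spec.InertiaTrivial L P ∧
      ∃ τ : L ≃ₐ[ℚ] L, IsArithFrobAt ℤ τ P ∧ Spec.decomp L P = Subgroup.zpowers τ := by
  haveI := hP
  haveI hU : Algebra.IsUnramifiedAt ℤ P := isUnramifiedAt_of_not_dvd_badNat hp hpB hpP
  have hI := inertiaTrivial_of_isUnramifiedAt hp hpP
  obtain ⟨τ, hτ⟩ := exists_isArithFrobAt hp hpP
  exact ⟨hU, hI, τ, hτ, decomp_eq_zpowers hp hpP hI hτ⟩

/-- **Piece D** of row CHEB: `Spec.FrobStatement`. -/
theorem frobStatement : Spec.FrobStatement := by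
  intro L _ _ _
  refine ⟨(badNat L).primeFactors, fun p hp hpB P hP hpP => ?_⟩
  have hpB' : ¬ p ∣ badNat L := fun h =>
    hpB (Nat.mem_primeFactors.mpr ⟨hp, h, badNat_ne_zero L⟩)
  obtain ⟨-, hI, hτ⟩ := frob_of_not_dvd_badNat hp hpB' P hP hpP
  exact ⟨hI, hτ⟩

end Fermat.Agent.Lib.Cheb.H943

end
-- ===== PACK-END Lib/Cheb/H943/Frob.lean

-- ===== PACK-BEGIN Lib/Cheb/H764/Count.lean
section



/-!
# CHEB / piece A: `Spec.CountStatement`

For a Galois number field `L/ℚ`, a subgroup `H ≤ Gal(L/ℚ)`, `F = L^H` and a prime `p` not dividing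
the discriminant of `L`:
`#{primes of 𝓞 F of norm p} * |H| = ∑_{P ∣ p, D_P ≤ H} |D_P|`.
-/

set_option autoImplicit false
set_option linter.unusedSectionVars false
set_option linter.unusedVariables false
set_option linter.style.haveILetI false

open NumberField Ideal MulAction
open scoped Pointwise

namespace Fermat.Agent.Lib.Cheb.H764

open Fermat.Agent.Lib.Cheb.Spec

section

variable (L : Type) [Field L] [NumberField L] [IsGalois ℚ L]

/-- the bad set: primes dividing the discriminant -/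
noncomputable def badPrimes : Finset ℕ := (NumberField.discr L).natAbs.primeFactors

lemma not_dvd_discr_of_not_mem_badPrimes {p : ℕ} (hp : p.Prime) (hpB : p ∉ badPrimes L) :
    ¬ (p : ℤ) ∣ NumberField.discr L := by
  intro h
  apply hpB
  rw [badPrimes, Nat.mem_primeFactors]
  refine ⟨hp, ?_, ?_⟩
  · exact Int.natCast_dvd.mp h
  · exact Int.natAbs_ne_zero.mpr (NumberField.discr_ne_zero L)

lemma liesOver_of_mem {F : Type} [Field F] [NumberField F] {p : ℕ} (hp : p.Prime)
    (P : Ideal (𝓞 F)) [P.IsPrime] (hP : (p : 𝓞 F) ∈ P) :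
    P.LiesOver (Ideal.span {(p : ℤ)}) := by
  have hp' : Prime (p : ℤ) := Nat.prime_iff_prime_int.mp hp
  rw [Ideal.liesOver_span_iff (IsPrime.ne_top inferInstance) hp']
  simpa using hP

lemma mem_of_liesOver {F : Type} [Field F] [NumberField F] {p : ℕ} (hp : p.Prime)
    (P : Ideal (𝓞 F)) [P.IsPrime] [hP : P.LiesOver (Ideal.span {(p : ℤ)})] :
    (p : 𝓞 F) ∈ P := by
  have hp' : Prime (p : ℤ) := Nat.prime_iff_prime_int.mp hp
  have := (Ideal.liesOver_span_iff (IsPrime.ne_top inferInstance) hp').mp hP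
  simpa using this

lemma ramificationIdx_eq_one_of_not_mem_badPrimes {p : ℕ} (hp : p.Prime) (hpB : p ∉ badPrimes L)
    (P : Ideal (𝓞 L)) [P.IsPrime] (hP : (p : 𝓞 L) ∈ P) : P.ramificationIdx ℤ = 1 := by
  have hp' : Prime (p : ℤ) := Nat.prime_iff_prime_int.mp hp
  have h := (NumberField.not_dvd_discr_iff_forall_mem L (𝓞 L) hp').mp
    (not_dvd_discr_of_not_mem_badPrimes L hp hpB) P inferInstance (by simpa using hP)
  exact Ideal.ramificationIdx_eq_one_of_isUnramifiedAt

end

section main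

variable (L : Type) [Field L] [NumberField L] [IsGalois ℚ L] (H : Subgroup (L ≃ₐ[ℚ] L))

lemma isGaloisGroup_fixedField :
    IsGaloisGroup H (IntermediateField.fixedField H) L :=
  IsGaloisGroup.subgroup (L ≃ₐ[ℚ] L) ℚ L H

lemma isGaloisGroup_ringOfIntegers :
    IsGaloisGroup H (𝓞 (IntermediateField.fixedField H)) (𝓞 L) := by
  haveI := isGaloisGroup_fixedField L H
  exact IsGaloisGroup.of_isFractionRing H (𝓞 (IntermediateField.fixedField H)) (𝓞 L)
    (IntermediateField.fixedField H) L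

lemma span_isPrime {p : ℕ} (hp : p.Prime) : (Ideal.span {(p : ℤ)}).IsPrime :=
  (Ideal.span_singleton_prime (by exact_mod_cast hp.ne_zero)).mpr (Nat.prime_iff_prime_int.mp hp)

/-- data attached to a prime `𝔮` of `𝓞 F` of norm `p` -/
lemma ef_eq_one_of_absNorm_eq {p : ℕ} (hp : p.Prime) (hpB : p ∉ badPrimes L)
    (q : Ideal (𝓞 (IntermediateField.fixedField H))) [q.IsPrime] (hq : absNorm q = p) :
    q.LiesOver (Ideal.span {(p : ℤ)}) ∧ q.ramificationIdx ℤ * q.inertiaDeg ℤ = 1 := by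
  have hmem : (p : 𝓞 (IntermediateField.fixedField H)) ∈ q := by
    have := Ideal.absNorm_mem q
    rwa [hq] at this
  haveI hlo : q.LiesOver (Ideal.span {(p : ℤ)}) := liesOver_of_mem hp q hmem
  refine ⟨hlo, ?_⟩
  have hf : q.inertiaDeg ℤ = 1 := by
    have h1 := Ideal.pow_inertiaDeg p q
    rw [hq] at h1
    exact Nat.pow_right_injective hp.two_le (by simpa using h1)
  obtain ⟨⟨P, hP1, hP2⟩⟩ := (inferInstance : Nonempty (q.primesOver (𝓞 L)))
  haveI := hP1
  haveI := hP2
  have hPmem : (p : 𝓞 L) ∈ P := by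
    have h2 : algebraMap (𝓞 (IntermediateField.fixedField H)) (𝓞 L)
        (p : 𝓞 (IntermediateField.fixedField H)) ∈ P := by
      rw [← Ideal.mem_comap, ← Ideal.under_def, ← Ideal.over_def P q]
      exact hmem
    simpa using h2
  have he := ramificationIdx_eq_one_of_not_mem_badPrimes L hp hpB P hPmem
  rw [Ideal.ramificationIdx_tower (R := ℤ) q P] at he
  rw [hf, mul_one]
  exact Nat.eq_one_of_mul_eq_one_right he

/-- a prime `P` of `𝓞 L` over `p` with `D_P ≤ H` restricts to a prime of `𝓞 F` of norm `p` -/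
lemma absNorm_under_eq {p : ℕ} (hp : p.Prime)
    (P : Ideal (𝓞 L)) [P.IsPrime] (hP : (p : 𝓞 L) ∈ P)
    (hle : stabilizer (L ≃ₐ[ℚ] L) P ≤ H) :
    (P.under (𝓞 (IntermediateField.fixedField H))).IsPrime ∧
      absNorm (P.under (𝓞 (IntermediateField.fixedField H))) = p := by
  haveI := isGaloisGroup_ringOfIntegers L H
  haveI := span_isPrime hp
  haveI : P.LiesOver (Ideal.span {(p : ℤ)}) := liesOver_of_mem hp P hP
  haveI hqp : (P.under (𝓞 (IntermediateField.fixedField H))).IsPrime := inferInstance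
  haveI : (P.under (𝓞 (IntermediateField.fixedField H))).LiesOver (Ideal.span {(p : ℤ)}) :=
    LiesOver.tower_bot P _ _
  refine ⟨hqp, ?_⟩
  have h1 := (ramificationIdx_mul_inertiaDeg_eq_one_iff (G := L ≃ₐ[ℚ] L) H
    (Ideal.span {(p : ℤ)}) (P.under (𝓞 (IntermediateField.fixedField H))) P).mpr hle
  have hf : (P.under (𝓞 (IntermediateField.fixedField H))).inertiaDeg ℤ = 1 :=
    Nat.eq_one_of_mul_eq_one_left h1
  have h2 := Ideal.pow_inertiaDeg p (P.under (𝓞 (IntermediateField.fixedField H)))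
  rw [hf, pow_one] at h2
  exact h2.symm

/-- **Piece A**, for primes not dividing the discriminant. -/
theorem count_of_not_mem_badPrimes {p : ℕ} (hp : p.Prime) (hpB : p ∉ badPrimes L) :
    primeCount (IntermediateField.fixedField H) p * Nat.card H = decompWeight L H p := by
  classical
  haveI := isGaloisGroup_ringOfIntegers L H
  haveI := span_isPrime hp
  have hfinT : {q : Ideal (𝓞 (IntermediateField.fixedField H)) |
      q.IsPrime ∧ absNorm q = p}.Finite :=
    (Ideal.finite_setOf_absNorm_eq p).subset (fun q h => h.2)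
  have hfinS : (primesLe L H p).Finite := by
    refine Set.Finite.subset
      (Algebra.QuasiFinite.finite_primesOver (S := 𝓞 L) (Ideal.span {(p : ℤ)})) ?_
    rintro P ⟨hP1, hP2, -⟩
    haveI := hP1
    exact ⟨hP1, liesOver_of_mem hp P hP2⟩
  -- the left-hand side
  have hL : primeCount (IntermediateField.fixedField H) p = hfinT.toFinset.card := by
    rw [← Set.ncard_eq_toFinset_card _ hfinT, ← Nat.card_coe_set_eq]
    rfl
  -- the right-hand side
  have hR : decompWeight L H p = ∑ P ∈ hfinS.toFinset, Nat.card (decomp L P) := by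
    rw [decompWeight, finsum_set_coe_eq_finsum_mem (f := fun P => Nat.card (decomp L P)),
      finsum_mem_eq_finite_toFinset_sum _ hfinS]
  rw [hL, hR]
  have hmaps : ∀ P ∈ hfinS.toFinset,
      P.under (𝓞 (IntermediateField.fixedField H)) ∈ hfinT.toFinset := by
    intro P hP
    rw [Set.Finite.mem_toFinset] at hP ⊢
    obtain ⟨hP1, hP2, hP3⟩ := hP
    haveI := hP1
    exact absNorm_under_eq L H hp P hP2 hP3
  rw [← Finset.sum_fiberwise_of_maps_to hmaps, Finset.card_eq_sum_ones, Finset.sum_mul]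
  refine Finset.sum_congr rfl fun q hq => ?_
  rw [Set.Finite.mem_toFinset] at hq
  obtain ⟨hq1, hq2⟩ := hq
  haveI := hq1
  obtain ⟨hlo, hef⟩ := ef_eq_one_of_absNorm_eq L H hp hpB q hq2
  haveI := hlo
  rw [one_mul, ← finsum_card_stabilizer_primesOver (G := L ≃ₐ[ℚ] L) H (Ideal.span {(p : ℤ)}) q hef
    (Algebra.QuasiFinite.finite_primesOver (S := 𝓞 L) q) Set.Nonempty.of_subtype,
    ← finsum_mem_coe_finset]
  refine finsum_mem_congr ?_ (fun _ _ => rfl)
  ext P
  rw [Finset.coe_filter, Set.mem_setOf_eq, Set.Finite.mem_toFinset]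
  constructor
  · intro hP
    have hP1 : P.IsPrime := hP.1
    have hP2 : P.LiesOver q := hP.2
    haveI := hP1
    haveI := hP2
    haveI : P.LiesOver (Ideal.span {(p : ℤ)}) := LiesOver.trans P q _
    refine ⟨⟨hP1, mem_of_liesOver hp P, ?_⟩, (Ideal.over_def P q).symm⟩
    exact (ramificationIdx_mul_inertiaDeg_eq_one_iff (G := L ≃ₐ[ℚ] L) H
      (Ideal.span {(p : ℤ)}) q P).mp hef
  · rintro ⟨hP, hP4⟩
    exact ⟨hP.1, ⟨hP4.symm⟩⟩

/-- **Piece A** of the CHEB library: `Spec.CountStatement`. -/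
theorem count : Spec.CountStatement := by
  intro L _ _ _ H
  exact ⟨badPrimes L, fun p hp hpB => count_of_not_mem_badPrimes L H hp hpB⟩

end main

end Fermat.Agent.Lib.Cheb.H764

end
-- ===== PACK-END Lib/Cheb/H764/Count.lean

-- ===== PACK-BEGIN S54/FrobExists.lean
section




set_option autoImplicit false

namespace Fermat.Agent.S54

open scoped Pointwise

/-- The prime of the ring of algebraic integers below a valuation subring. -/
def primeBelow (A : ValuationSubring (AlgebraicClosure ℚ)) :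
    Ideal (integralClosure ℤ (AlgebraicClosure ℚ)) where
  carrier := {b | (b : AlgebraicClosure ℚ) ∈ A.nonunits}
  add_mem' := fun {a b} ha hb => A.nonunits.add_mem ha hb
  zero_mem' := A.nonunits.zero_mem
  smul_mem' := fun c b hb => by
    obtain ⟨hb1, hb2⟩ := ValuationSubring.mem_nonunits_iff_exists_mem_maximalIdeal.mp hb
    have hc : (c : AlgebraicClosure ℚ) ∈ A := isIntegral_mem_valuationSubring A c.2
    have := Ideal.mul_mem_left _ (⟨c, hc⟩ : A) hb2
    exact ValuationSubring.mem_nonunits_iff_exists_mem_maximalIdeal.mpr ⟨_, this⟩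

theorem mem_primeBelow (A : ValuationSubring (AlgebraicClosure ℚ))
    (b : integralClosure ℤ (AlgebraicClosure ℚ)) :
    b ∈ primeBelow A ↔ (b : AlgebraicClosure ℚ) ∈ A.nonunits := Iff.rfl

theorem primeBelow_isPrime (A : ValuationSubring (AlgebraicClosure ℚ)) :
    (primeBelow A).IsPrime := by
  constructor
  · intro h
    have : (1 : integralClosure ℤ (AlgebraicClosure ℚ)) ∈ primeBelow A := by
      rw [h]; trivial
    rw [mem_primeBelow, ValuationSubring.mem_nonunits_iff] at this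
    simp at this
  · intro a b hab
    rw [mem_primeBelow, ValuationSubring.mem_nonunits_iff] at hab ⊢
    rw [mem_primeBelow, ValuationSubring.mem_nonunits_iff]
    have ha : A.valuation (a : AlgebraicClosure ℚ) ≤ 1 :=
      (A.valuation_le_one_iff _).mpr (isIntegral_mem_valuationSubring A a.2)
    have hb : A.valuation (b : AlgebraicClosure ℚ) ≤ 1 :=
      (A.valuation_le_one_iff _).mpr (isIntegral_mem_valuationSubring A b.2)
    by_contra hcon
    rw [not_or, not_lt, not_lt] at hcon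
    have ha1 : A.valuation (a : AlgebraicClosure ℚ) = 1 := le_antisymm ha hcon.1
    have hb1 : A.valuation (b : AlgebraicClosure ℚ) = 1 := le_antisymm hb hcon.2
    have : A.valuation ((a * b : integralClosure ℤ (AlgebraicClosure ℚ)) : AlgebraicClosure ℚ)
        = 1 := by
      push_cast
      rw [map_mul, ha1, hb1, mul_one]
    exact absurd hab (by rw [this]; exact lt_irrefl _)

/-- There is a valuation subring of `ℚ̄` over every prime number. -/
theorem exists_valuationSubring_liesOver (ℓ : ℕ) (hℓ : ℓ.Prime) :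
    ∃ A : ValuationSubring (AlgebraicClosure ℚ), A.LiesOverPrime ℓ := by
  let A₀ : Subring (AlgebraicClosure ℚ) := (algebraMap ℤ (AlgebraicClosure ℚ)).range
  let l₀ : A₀ := ⟨(ℓ : AlgebraicClosure ℚ), ⟨(ℓ : ℤ), by simp⟩⟩
  have hI : Ideal.span {l₀} ≠ ⊤ := by
    intro h
    rw [Ideal.span_singleton_eq_top] at h
    obtain ⟨⟨m, n, rfl⟩, hm⟩ := h.exists_right_inv
    have h1 : ((ℓ : ℤ) : AlgebraicClosure ℚ) * ((n : ℤ) : AlgebraicClosure ℚ) = 1 := by
      have := congrArg Subtype.val hm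
      simpa [l₀] using this
    have h2 : (ℓ : ℤ) * n = 1 := by exact_mod_cast h1
    have h3 : (ℓ : ℤ) ∣ 1 := ⟨n, h2.symm⟩
    have h4 : ℓ ∣ 1 := by exact_mod_cast h3
    exact hℓ.one_lt.ne' (Nat.dvd_one.mp h4)
  obtain ⟨A, -, hA⟩ := Ideal.image_subset_nonunits_valuationSubring _ hI
  refine ⟨A, ?_⟩
  apply hA
  exact ⟨l₀, Ideal.subset_span rfl, rfl⟩

/-- Existence of Frobenius elements in the absolute Galois group of `ℚ`: for every prime
number `ℓ` there are a valuation subring `A` of `ℚ̄` over `ℓ` and `σ ∈ Gal(ℚ̄/ℚ)` which is a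
Frobenius element at `A`. -/
theorem exists_frobenius (ℓ : ℕ) (hℓ : ℓ.Prime) :
    ∃ (A : ValuationSubring (AlgebraicClosure ℚ))
      (σ : AlgebraicClosure ℚ ≃ₐ[ℚ] AlgebraicClosure ℚ),
      A.LiesOverPrime ℓ ∧ A.IsFrobeniusAt σ ℓ := by
  have : Algebra.IsAlgebraic ℚ (AlgebraicClosure ℚ) := AlgebraicClosure.isAlgebraic ℚ
  obtain ⟨A, hA⟩ := exists_valuationSubring_liesOver ℓ hℓ
  have := primeBelow_isPrime A
  have hℓQ : (ℓ : integralClosure ℤ (AlgebraicClosure ℚ)) ∈ primeBelow A := by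
    rw [mem_primeBelow]
    exact hA
  obtain ⟨σ, hσQ', hσF⟩ := exists_frob_integralClosure ℓ hℓ (primeBelow A) hℓQ
  have hσQ : ∀ x, σ • x ∈ primeBelow A ↔ x ∈ primeBelow A := by
    intro x
    conv_lhs => rw [← hσQ']
    exact Ideal.smul_mem_pointwise_smul_iff
  have key : ∀ τ : AlgebraicClosure ℚ ≃ₐ[ℚ] AlgebraicClosure ℚ,
      (∀ x, τ • x ∈ primeBelow A ↔ x ∈ primeBelow A) → ∀ x ∈ A, τ x ∈ A := by
    intro τ hτ x hx
    obtain ⟨b, s, hb, hs, hsA, hxs⟩ := (mem_valuationSubring_iff A ℓ hℓ hA x).mp hx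
    refine (mem_valuationSubring_iff A ℓ hℓ hA (τ x)).mpr
      ⟨τ b, τ s, hb.map τ, hs.map τ, ?_, ?_⟩
    · exact (hτ ⟨s, hs⟩).not.mpr hsA
    · rw [← map_mul, hxs]
  have hσA : σ ∈ A.decompositionSubgroup ℚ := by
    rw [MulAction.mem_stabilizer_iff]
    ext x
    rw [ValuationSubring.mem_smul_pointwise_iff_exists]
    constructor
    · rintro ⟨s, hs, rfl⟩
      exact key σ hσQ s hs
    · intro hx
      refine ⟨σ⁻¹ • x, key σ⁻¹ ?_ x hx, by simp⟩
      intro y
      rw [← hσQ (σ⁻¹ • y)]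
      simp
  refine ⟨A, σ, hA, hσA, ?_⟩
  intro x
  obtain ⟨a, rfl⟩ := IsLocalRing.residue_surjective x
  obtain ⟨b, s, hb, hs, hsA, hxs⟩ := (mem_valuationSubring_iff A ℓ hℓ hA a).mp a.2
  have hbA : b ∈ A := isIntegral_mem_valuationSubring A hb
  have hsA' : s ∈ A := isIntegral_mem_valuationSubring A hs
  have hint : ∀ (y : AlgebraicClosure ℚ) (hy : IsIntegral ℤ y),
      (⟨σ, hσA⟩ : A.decompositionSubgroup ℚ) •
        IsLocalRing.residue A ⟨y, isIntegral_mem_valuationSubring A hy⟩ =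
      (IsLocalRing.residue A ⟨y, isIntegral_mem_valuationSubring A hy⟩) ^ ℓ := by
    intro y hy
    rw [← IsLocalRing.ResidueField.residue_smul, ← map_pow, ← sub_eq_zero, ← map_sub,
      IsLocalRing.residue_eq_zero_iff, ← ValuationSubring.coe_mem_nonunits_iff]
    exact hσF ⟨y, hy⟩
  have h1 : IsLocalRing.residue A a * IsLocalRing.residue A ⟨s, hsA'⟩ =
      IsLocalRing.residue A ⟨b, hbA⟩ := by
    rw [← map_mul]
    congr 1
    exact Subtype.ext hxs
  have h2 : IsLocalRing.residue A ⟨s, hsA'⟩ ≠ 0 := by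
    rw [Ne, IsLocalRing.residue_eq_zero_iff, ← ValuationSubring.coe_mem_nonunits_iff]
    exact hsA
  have h3 := congrArg (fun z => (⟨σ, hσA⟩ : A.decompositionSubgroup ℚ) • z) h1
  simp only [smul_mul'] at h3
  rw [hint s hs, hint b hb, ← h1, mul_pow] at h3
  exact mul_right_cancel₀ (pow_ne_zero _ h2) h3

end Fermat.Agent.S54

end
-- ===== PACK-END S54/FrobExists.lean

-- ===== PACK-BEGIN S52/H621/Manin.lean
section



/-!
# S52 / Part A: Manin's count (piece A2c)

For an odd prime `p`, `F = ZMod p` and `f = X³ + A X + B` with `4A³ + 27B² ≠ 0`, the rational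
function

  `R = f (f^((p-1)/2) + 1)² / (X^p - X)² - X^p - X`

(the `x`-coordinate of `Frob(P₀) - P₀` for the generic point `P₀ = (x, y)`) has degree exactly
`#{(x, y) ∈ F² | y² = f(x)} + 1 = #E(F_p)`.
-/

set_option autoImplicit false

open Polynomial

namespace Fermat.Agent.S52.H621

section Generalities

variable (p : ℕ) [Fact p.Prime]

theorem X_pow_sub_X_eq_prod : (X ^ p - X : (ZMod p)[X]) = ∏ c : ZMod p, (X - C c) := by
  have hmonic : (X ^ p - X : (ZMod p)[X]).Monic := by
    apply monic_X_pow_sub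
    rw [degree_X]
    exact_mod_cast (Fact.out : p.Prime).one_lt
  have hroots : (X ^ p - X : (ZMod p)[X]).roots = Finset.univ.val := by
    have := FiniteField.roots_X_pow_card_sub_X (ZMod p)
    rwa [ZMod.card] at this
  have hcard : Multiset.card (X ^ p - X : (ZMod p)[X]).roots
      = (X ^ p - X : (ZMod p)[X]).natDegree := by
    rw [hroots, FiniteField.X_pow_card_sub_X_natDegree_eq _ (Fact.out : p.Prime).one_lt]
    simp [ZMod.card]
  have := prod_multiset_X_sub_C_of_monic_of_roots_card_eq hmonic hcard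
  rw [← this, hroots]
  rfl

/-- number of square roots in `ZMod p`, `p` odd -/
theorem card_sqrt (hp2 : p ≠ 2) (a : ZMod p) :
    (Finset.univ.filter fun y : ZMod p => y ^ 2 = a).card
      = if a = 0 then 1 else if IsSquare a then 2 else 0 := by
  classical
  by_cases ha : a = 0
  · subst ha
    rw [if_pos rfl]
    have : (Finset.univ.filter fun y : ZMod p => y ^ 2 = 0) = {0} := by
      ext y
      simp
    rw [this, Finset.card_singleton]
  · rw [if_neg ha]
    by_cases hsq : IsSquare a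
    · rw [if_pos hsq]
      obtain ⟨b, rfl⟩ := hsq
      have hb : b ≠ 0 := by rintro rfl; simp at ha
      have hbb : b ≠ -b := by
        intro h
        have h2 : (2 : ZMod p) * b = 0 := by
          have : b + b = 0 := by nth_rewrite 1 [h]; simp
          rw [two_mul]; exact this
        rcases mul_eq_zero.mp h2 with h3 | h3
        · have : ((2 : ℕ) : ZMod p) = 0 := by exact_mod_cast h3
          rw [ZMod.natCast_eq_zero_iff] at this
          have := (Nat.prime_dvd_prime_iff_eq (Fact.out : p.Prime) Nat.prime_two).mp this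
          exact hp2 this
        · exact hb h3
      have : (Finset.univ.filter fun y : ZMod p => y ^ 2 = b * b) = {b, -b} := by
        ext y
        simp only [Finset.mem_filter, Finset.mem_univ, true_and, Finset.mem_insert,
          Finset.mem_singleton]
        rw [← sq, sq_eq_sq_iff_eq_or_eq_neg]
      rw [this, Finset.card_pair hbb]
    · rw [if_neg hsq]
      rw [Finset.card_eq_zero, Finset.filter_eq_empty_iff]
      intro y _ hy
      exact hsq ⟨y, by rw [← hy, sq]⟩

end Generalities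

section Manin

variable (p : ℕ) [Fact p.Prime] (A B : ZMod p)

/-- the cubic `X³ + A X + B` -/
noncomputable def cubic : (ZMod p)[X] := X ^ 3 + C A * X + C B

/-- numerator of Manin's function -/
noncomputable def maninNum : (ZMod p)[X] :=
  cubic p A B * (cubic p A B ^ ((p - 1) / 2) + 1) ^ 2 - (X ^ p + X) * (X ^ p - X) ^ 2

/-- denominator of Manin's function -/
noncomputable def maninDen : (ZMod p)[X] := (X ^ p - X) ^ 2

/-- Manin's rational function `x(Frob P₀ - P₀)`. -/
noncomputable def maninFun : RatFunc (ZMod p) :=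
  algebraMap _ _ (maninNum p A B) / algebraMap _ _ (maninDen p)

/-- the local cancellation exponent at `c` -/
noncomputable def cancelExp (c : ZMod p) : ℕ :=
  open Classical in
  if (cubic p A B).eval c = 0 then 1 else if IsSquare ((cubic p A B).eval c) then 0 else 2

theorem cancelExp_le (c : ZMod p) : cancelExp p A B c ≤ 2 := by
  unfold cancelExp
  split_ifs <;> omega

theorem eval_cubic (c : ZMod p) : (cubic p A B).eval c = c ^ 3 + A * c + B := by
  simp [cubic]

theorem natDegree_cubic : (cubic p A B).natDegree = 3 := by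
  unfold cubic
  compute_degree!

theorem cubic_monic : (cubic p A B).Monic := by
  unfold cubic
  monicity!

theorem cubic_ne_zero : cubic p A B ≠ 0 := (cubic_monic p A B).ne_zero

theorem maninDen_eq_prod : maninDen p = ∏ c : ZMod p, (X - C c) ^ 2 := by
  rw [maninDen, X_pow_sub_X_eq_prod, Finset.prod_pow]

/-- the common factor of numerator and denominator -/
noncomputable def cancelPoly : (ZMod p)[X] := ∏ c : ZMod p, (X - C c) ^ cancelExp p A B c

/-- the reduced denominator -/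
noncomputable def redDen : (ZMod p)[X] := ∏ c : ZMod p, (X - C c) ^ (2 - cancelExp p A B c)

theorem maninDen_eq : maninDen p = cancelPoly p A B * redDen p A B := by
  rw [maninDen_eq_prod, cancelPoly, redDen, ← Finset.prod_mul_distrib]
  refine Finset.prod_congr rfl fun c _ => ?_
  rw [← pow_add, Nat.add_sub_cancel' (cancelExp_le p A B c)]

theorem cancelPoly_monic : (cancelPoly p A B).Monic :=
  monic_prod_of_monic _ _ fun c _ => (monic_X_sub_C c).pow _

theorem redDen_monic : (redDen p A B).Monic :=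
  monic_prod_of_monic _ _ fun c _ => (monic_X_sub_C c).pow _

theorem natDegree_cancelPoly :
    (cancelPoly p A B).natDegree = ∑ c : ZMod p, cancelExp p A B c := by
  rw [cancelPoly, natDegree_prod_of_monic _ _ fun c _ => (monic_X_sub_C c).pow _]
  refine Finset.sum_congr rfl fun c _ => ?_
  rw [natDegree_pow, natDegree_X_sub_C, mul_one]

theorem natDegree_redDen :
    (redDen p A B).natDegree = ∑ c : ZMod p, (2 - cancelExp p A B c) := by
  rw [redDen, natDegree_prod_of_monic _ _ fun c _ => (monic_X_sub_C c).pow _]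
  refine Finset.sum_congr rfl fun c _ => ?_
  rw [natDegree_pow, natDegree_X_sub_C, mul_one]

theorem eval_maninNum (c : ZMod p) :
    (maninNum p A B).eval c
      = (cubic p A B).eval c * ((cubic p A B).eval c ^ ((p - 1) / 2) + 1) ^ 2 := by
  simp [maninNum, ZMod.pow_card]

variable {p} in
theorem half_spec (hp2 : p ≠ 2) : 2 * ((p - 1) / 2) + 1 = p ∧ (p - 1) / 2 = p / 2 ∧
    1 ≤ (p - 1) / 2 := by
  have h1 := (Fact.out : p.Prime).two_le
  have h2 : p % 2 = 1 := (Fact.out : p.Prime).eq_two_or_odd.resolve_left hp2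
  omega

/-- divisibility of the numerator by the local factors -/
theorem pow_cancelExp_dvd_maninNum (hp2 : p ≠ 2) (c : ZMod p) :
    (X - C c) ^ cancelExp p A B c ∣ maninNum p A B := by
  classical
  obtain ⟨-, hm, -⟩ := half_spec hp2
  unfold cancelExp
  by_cases h0 : (cubic p A B).eval c = 0
  · rw [if_pos h0, pow_one, dvd_iff_isRoot, IsRoot.def, eval_maninNum, h0, zero_mul]
  · rw [if_neg h0]
    by_cases hsq : IsSquare ((cubic p A B).eval c)
    · rw [if_pos hsq, pow_zero]; exact one_dvd _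
    · rw [if_neg hsq]
      have hneg : (cubic p A B).eval c ^ ((p - 1) / 2) = -1 := by
        rw [hm]
        rcases ZMod.pow_div_two_eq_neg_one_or_one p h0 with h | h
        · exact absurd ((ZMod.euler_criterion p h0).mpr h) hsq
        · exact h
      have h1 : (X - C c) ∣ cubic p A B ^ ((p - 1) / 2) + 1 := by
        rw [dvd_iff_isRoot, IsRoot.def, eval_add, eval_pow, hneg, eval_one]
        ring
      have h2 : (X - C c) ∣ (X ^ p - X : (ZMod p)[X]) := by
        rw [dvd_iff_isRoot, IsRoot.def, eval_sub, eval_pow, eval_X, ZMod.pow_card, sub_self]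
      unfold maninNum
      exact dvd_sub (dvd_mul_of_dvd_right (pow_dvd_pow_of_dvd h1 2) _)
        (dvd_mul_of_dvd_right (pow_dvd_pow_of_dvd h2 2) _)

theorem cancelPoly_dvd_maninNum (hp2 : p ≠ 2) : cancelPoly p A B ∣ maninNum p A B := by
  unfold cancelPoly
  refine Finset.prod_dvd_of_coprime ?_ fun c _ => pow_cancelExp_dvd_maninNum p A B hp2 c
  intro c _ c' _ hcc'
  exact (pairwise_coprime_X_sub_C (K := ZMod p) (s := id) Function.injective_id hcc').pow

/-- Frobenius on the cubic -/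
theorem cubic_pow_p : cubic p A B ^ p = X ^ (3 * p) + C A * X ^ p + C B := by
  unfold cubic
  rw [add_pow_char, add_pow_char, mul_pow, ← C_pow, ← C_pow, ZMod.pow_card, ZMod.pow_card,
    ← pow_mul]

theorem maninNum_eq (hp2 : p ≠ 2) :
    maninNum p A B = X ^ (2 * p + 1)
      + (X ^ (p + 2) - X ^ 3 + C A * X ^ p + C B
          + 2 * cubic p A B ^ ((p - 1) / 2 + 1) + cubic p A B) := by
  obtain ⟨hm, -, -⟩ := half_spec hp2
  have h1 : cubic p A B * (cubic p A B ^ ((p - 1) / 2) + 1) ^ 2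
      = cubic p A B ^ (2 * ((p - 1) / 2) + 1) + 2 * cubic p A B ^ ((p - 1) / 2 + 1)
        + cubic p A B := by ring
  rw [hm, cubic_pow_p] at h1
  rw [maninNum, h1]
  ring

theorem natDegree_maninNum (hp2 : p ≠ 2) : (maninNum p A B).natDegree = 2 * p + 1 := by
  obtain ⟨hm, -, -⟩ := half_spec hp2
  have hp1 := (Fact.out : p.Prime).one_lt
  rw [maninNum_eq p A B hp2]
  have hlow : (X ^ (p + 2) - X ^ 3 + C A * X ^ p + C B
          + 2 * cubic p A B ^ ((p - 1) / 2 + 1) + cubic p A B : (ZMod p)[X]).natDegree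
        < 2 * p + 1 := by
    have e1 : (X ^ (p + 2) : (ZMod p)[X]).natDegree ≤ 2 * p := by
      rw [natDegree_X_pow]; omega
    have e2 : (X ^ 3 : (ZMod p)[X]).natDegree ≤ 2 * p := by
      rw [natDegree_X_pow]; omega
    have e3 : (C A * X ^ p : (ZMod p)[X]).natDegree ≤ 2 * p :=
      (natDegree_C_mul_le _ _).trans (by rw [natDegree_X_pow]; omega)
    have e4 : (C B : (ZMod p)[X]).natDegree ≤ 2 * p := by
      rw [natDegree_C]; omega
    have e5 : (2 * cubic p A B ^ ((p - 1) / 2 + 1) : (ZMod p)[X]).natDegree ≤ 2 * p := by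
      rw [two_mul]
      have e5' : (cubic p A B ^ ((p - 1) / 2 + 1)).natDegree ≤ 2 * p := by
        refine natDegree_pow_le.trans ?_
        rw [natDegree_cubic]
        omega
      exact natDegree_add_le_of_degree_le e5' e5'
    have e6 : (cubic p A B).natDegree ≤ 2 * p := by
      rw [natDegree_cubic]; omega
    have e12 : (X ^ (p + 2) - X ^ 3 : (ZMod p)[X]).natDegree ≤ 2 * p :=
      (natDegree_sub_le _ _).trans (max_le e1 e2)
    have := natDegree_add_le_of_degree_le (natDegree_add_le_of_degree_le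
      (natDegree_add_le_of_degree_le (natDegree_add_le_of_degree_le e12 e3) e4) e5) e6
    omega
  rw [natDegree_add_eq_left_of_natDegree_lt (by rwa [natDegree_X_pow]), natDegree_X_pow]

theorem maninNum_ne_zero (hp2 : p ≠ 2) : maninNum p A B ≠ 0 := by
  intro h
  have := natDegree_maninNum p A B hp2
  rw [h, natDegree_zero] at this
  omega

/-- the derivative of the numerator at a root of the cubic -/
theorem eval_derivative_maninNum (hp2 : p ≠ 2) (c : ZMod p)
    (hc : (cubic p A B).eval c = 0) :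
    (derivative (maninNum p A B)).eval c = (derivative (cubic p A B)).eval c := by
  obtain ⟨-, -, hm1⟩ := half_spec hp2
  have hW : (X ^ p - X : (ZMod p)[X]).eval c = 0 := by
    rw [eval_sub, eval_pow, eval_X, ZMod.pow_card, sub_self]
  have hm0 : (p - 1) / 2 ≠ 0 := by omega
  unfold maninNum
  rw [derivative_sub, derivative_mul, derivative_mul, eval_sub, eval_add, eval_add, eval_mul,
    eval_mul, eval_mul, eval_mul, hc, zero_mul, add_zero, eval_pow (n := 2), eval_pow (n := 2), hW,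
    derivative_pow (p := X ^ p - X), eval_mul, eval_mul, eval_pow, hW]
  simp [hc, hm0]

/-- the cubic has simple roots -/
theorem eval_derivative_cubic_ne_zero (hΔ : 4 * A ^ 3 + 27 * B ^ 2 ≠ 0) (c : ZMod p)
    (hc : (cubic p A B).eval c = 0) : (derivative (cubic p A B)).eval c ≠ 0 := by
  intro hd
  apply hΔ
  have h1 : c ^ 3 + A * c + B = 0 := by rw [← eval_cubic]; exact hc
  have h2 : 3 * c ^ 2 + A = 0 := by
    have : (derivative (cubic p A B)).eval c = 3 * c ^ 2 + A := by
      simp [cubic, derivative_pow]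
    rw [← this]; exact hd
  linear_combination (4 * (3 * c ^ 2 + A) ^ 2 - 9 * (3 * c ^ 2 + A) * c ^ 2
    - 54 * (c ^ 3 + A * c + B) * c) * h2 + (27 * (c ^ 3 + A * c + B) + 108 * c ^ 3) * h1

theorem eval_cancelPoly_eq_zero (c : ZMod p) (hc : cancelExp p A B c ≠ 0) :
    (cancelPoly p A B).eval c = 0 := by
  rw [cancelPoly, eval_prod]
  refine Finset.prod_eq_zero (Finset.mem_univ c) ?_
  rw [eval_pow, eval_sub, eval_X, eval_C, sub_self, zero_pow hc]

theorem two_ne_zero_zmod (hp2 : p ≠ 2) : (2 : ZMod p) ≠ 0 := by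
  intro h
  have : ((2 : ℕ) : ZMod p) = 0 := by exact_mod_cast h
  rw [ZMod.natCast_eq_zero_iff] at this
  exact hp2 ((Nat.prime_dvd_prime_iff_eq (Fact.out : p.Prime) Nat.prime_two).mp this)

/-- the reduced numerator does not vanish at the roots of the reduced denominator -/
theorem eval_redNum_ne_zero (hp2 : p ≠ 2) (hΔ : 4 * A ^ 3 + 27 * B ^ 2 ≠ 0)
    (N' : (ZMod p)[X]) (hN' : maninNum p A B = cancelPoly p A B * N') (c : ZMod p)
    (hc : cancelExp p A B c < 2) : N'.eval c ≠ 0 := by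
  classical
  obtain ⟨-, hm, -⟩ := half_spec hp2
  intro h0
  by_cases hf : (cubic p A B).eval c = 0
  · -- simple root: derivative argument
    have he : cancelExp p A B c ≠ 0 := by
      unfold cancelExp; rw [if_pos hf]; exact one_ne_zero
    have h1 := eval_derivative_maninNum p A B hp2 c hf
    rw [hN', derivative_mul, eval_add, eval_mul, eval_mul, h0, mul_zero, zero_add,
      eval_cancelPoly_eq_zero p A B c he, zero_mul] at h1
    exact eval_derivative_cubic_ne_zero p A B hΔ c hf h1.symm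
  · have hsq : IsSquare ((cubic p A B).eval c) := by
      by_contra hsq
      unfold cancelExp at hc
      rw [if_neg hf, if_neg hsq] at hc
      omega
    have h1 : (cubic p A B).eval c ^ ((p - 1) / 2) = 1 := by
      rw [hm]; exact (ZMod.euler_criterion p hf).mp hsq
    have h2 := eval_maninNum p A B c
    rw [hN', eval_mul, h0, mul_zero, h1] at h2
    have h3 : (1 + 1 : ZMod p) = 2 := by norm_num
    rw [h3] at h2
    exact (mul_ne_zero hf (pow_ne_zero 2 (two_ne_zero_zmod p hp2))) h2.symm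

theorem isCoprime_redNum_redDen (hp2 : p ≠ 2) (hΔ : 4 * A ^ 3 + 27 * B ^ 2 ≠ 0)
    (N' : (ZMod p)[X]) (hN' : maninNum p A B = cancelPoly p A B * N') :
    IsCoprime N' (redDen p A B) := by
  unfold redDen
  refine IsCoprime.prod_right fun c _ => ?_
  by_cases hc : cancelExp p A B c < 2
  · refine IsCoprime.pow_right ?_
    refine ((irreducible_X_sub_C c).coprime_iff_not_dvd.mpr ?_).symm
    rw [dvd_iff_isRoot]
    exact eval_redNum_ne_zero p A B hp2 hΔ N' hN' c hc
  · have : 2 - cancelExp p A B c = 0 := by omega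
    rw [this, pow_zero]
    exact isCoprime_one_right

/-- the number of affine points, fibrewise -/
theorem card_affine (hp2 : p ≠ 2) :
    Nat.card {q : ZMod p × ZMod p // q.2 ^ 2 = q.1 ^ 3 + A * q.1 + B}
      = ∑ c : ZMod p, (2 - cancelExp p A B c) := by
  classical
  rw [Nat.card_eq_fintype_card, Fintype.card_subtype, Finset.card_filter,
    Fintype.sum_prod_type]
  refine Finset.sum_congr rfl fun c _ => ?_
  rw [← Finset.card_filter]
  have := card_sqrt p hp2 (c ^ 3 + A * c + B)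
  simp only at this ⊢
  rw [this, cancelExp, eval_cubic]
  split_ifs <;> rfl

/-- **A2c (Manin's count)**: the degree of `x(Frob P₀ - P₀)` is the number of points of the
curve `y² = x³ + A x + B` over `F_p` (including the point at infinity). -/
theorem ratDeg_maninFun (hp2 : p ≠ 2) (hΔ : 4 * A ^ 3 + 27 * B ^ 2 ≠ 0) :
    ratDeg (maninFun p A B)
      = Nat.card {q : ZMod p × ZMod p // q.2 ^ 2 = q.1 ^ 3 + A * q.1 + B} + 1 := by
  obtain ⟨N', hN'⟩ := cancelPoly_dvd_maninNum p A B hp2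
  have hDen : maninDen p ≠ 0 := by
    rw [maninDen_eq p A B]
    exact mul_ne_zero (cancelPoly_monic p A B).ne_zero (redDen_monic p A B).ne_zero
  have hcop := isCoprime_redNum_redDen p A B hp2 hΔ N' hN'
  rw [maninFun, ratDeg_div_of_eq_mul _ _ (cancelPoly p A B) N' (redDen p A B) hDen hN'
    (maninDen_eq p A B) hcop, card_affine p A B hp2]
  -- degrees
  have hN0 : N' ≠ 0 := by
    rintro rfl
    exact maninNum_ne_zero p A B hp2 (by rw [hN', mul_zero])
  have hdN : (cancelPoly p A B).natDegree + N'.natDegree = 2 * p + 1 := by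
    rw [← natDegree_mul (cancelPoly_monic p A B).ne_zero hN0, ← hN', natDegree_maninNum p A B hp2]
  have hdD : (cancelPoly p A B).natDegree + (redDen p A B).natDegree = 2 * p := by
    rw [← natDegree_mul (cancelPoly_monic p A B).ne_zero (redDen_monic p A B).ne_zero,
      ← maninDen_eq, maninDen, natDegree_pow,
      FiniteField.X_pow_card_sub_X_natDegree_eq _ (Fact.out : p.Prime).one_lt]
  rw [← natDegree_redDen]
  omega

end Manin

end Fermat.Agent.S52.H621

end
-- ===== PACK-END S52/H621/Manin.lean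

-- ===== PACK-BEGIN Lib/VC/BaseChange.lean
section


/-!
# Shared lib `VC`: change of variables on points, base-changed version and naturality

For `W : WeierstrassCurve k`, `C : VariableChange k` and a field `F` over `k` we get
`vcPointBC : ((C • W)⁄F).Point ≃+ (W⁄F).Point`, natural in `F` (`Point.map`).
Consequences: equality of point counts, and transfer of any relation between `Point.map f`'s
(e.g. the Frobenius relation `Φ² − aΦ + ℓ = 0`) from `C • W` to `W`.

(helper240)
-/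

set_option autoImplicit false
set_option linter.unusedSectionVars false

namespace Fermat.Agent.Lib.VC

open WeierstrassCurve WeierstrassCurve.Affine

section congr

variable {F : Type*} [Field F] [DecidableEq F]

/-- Transport of points along an equality of curves. -/
def pointCongr {W₁ W₂ : WeierstrassCurve F} (h : W₁ = W₂) :
    W₁.toAffine.Point ≃+ W₂.toAffine.Point := by
  subst h
  exact AddEquiv.refl _

theorem pointCongr_zero {W₁ W₂ : WeierstrassCurve F} (h : W₁ = W₂) :
    pointCongr h (0 : W₁.toAffine.Point) = 0 := by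
  subst h; rfl

theorem pointCongr_some {W₁ W₂ : WeierstrassCurve F} (h : W₁ = W₂) {x y : F}
    (hxy : W₁.toAffine.Nonsingular x y) :
    pointCongr h (Point.some x y hxy) = Point.some x y (h ▸ hxy) := by
  subst h; rfl

end congr

section baseChange

variable {k : Type*} [CommRing k] (W : WeierstrassCurve k) (C : VariableChange k)
variable (F : Type*) [Field F] [Algebra k F] [DecidableEq F]
variable (K : Type*) [Field K] [Algebra k K] [DecidableEq K]

theorem baseChange_smul :
    (C.baseChange F) • (W.baseChange F) = (C • W).baseChange F :=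
  map_variableChange W C (algebraMap k F)

/-- The change of variables on `F`-points, for a curve and a change of variables defined
over `k`. -/
noncomputable def vcPointBC : ((C • W)⁄F).Point ≃+ (W⁄F).Point :=
  (pointCongr (baseChange_smul W C F).symm).trans (vcPoint (W.baseChange F) (C.baseChange F))

theorem vcPointBC_zero : vcPointBC W C F 0 = 0 := by
  simp [vcPointBC, pointCongr_zero]

theorem vcPointBC_some {x y : F} (h : ((C • W)⁄F).Nonsingular x y) :
    ∃ h' : (W⁄F).Nonsingular (vcX (C.baseChange F) x) (vcY (C.baseChange F) x y),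
      vcPointBC W C F (Point.some x y h) = Point.some _ _ h' := by
  refine ⟨?_, ?_⟩
  · exact (nonsingular_smul_iff (W.baseChange F) (C.baseChange F) x y).mp
      ((baseChange_smul W C F).symm ▸ h)
  · simp only [vcPointBC, AddEquiv.trans_apply, pointCongr_some, vcPoint_some]

variable {F K}

theorem map_vcX (f : F →ₐ[k] K) (x : F) :
    f (vcX (C.baseChange F) x) = vcX (C.baseChange K) (f x) := by
  simp only [vcX, VariableChange.baseChange, VariableChange.map, Units.coe_map,
    MonoidHom.coe_coe, map_add, map_mul, map_pow, AlgHom.commutes]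

theorem map_vcY (f : F →ₐ[k] K) (x y : F) :
    f (vcY (C.baseChange F) x y) = vcY (C.baseChange K) (f x) (f y) := by
  simp only [vcY, VariableChange.baseChange, VariableChange.map, Units.coe_map,
    MonoidHom.coe_coe, map_add, map_mul, map_pow, AlgHom.commutes]

/-- **Naturality** of the change of variables on points. -/
theorem map_vcPointBC (f : F →ₐ[k] K) (P : ((C • W)⁄F).Point) :
    Point.map (W' := W) f (vcPointBC W C F P)
      = vcPointBC W C K (Point.map (W' := C • W) f P) := by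
  rcases P with _ | ⟨x, y, h⟩
  · change Point.map (W' := W) f (vcPointBC W C F 0)
      = vcPointBC W C K (Point.map (W' := C • W) f 0)
    rw [vcPointBC_zero, map_zero, map_zero, vcPointBC_zero]
  · obtain ⟨h', e⟩ := vcPointBC_some W C F h
    rw [e, Point.map_some, Point.map_some]
    obtain ⟨h'', e'⟩ := vcPointBC_some W C K
      ((WeierstrassCurve.Affine.baseChange_nonsingular (C • W) f.injective x y).mpr h)
    rw [e']
    simp only [Point.some.injEq]
    exact ⟨map_vcX C f x, map_vcY C f x y⟩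

/-- The inverse direction of naturality. -/
theorem map_vcPointBC_symm (f : F →ₐ[k] K) (Q : (W⁄F).Point) :
    Point.map (W' := C • W) f ((vcPointBC W C F).symm Q)
      = (vcPointBC W C K).symm (Point.map (W' := W) f Q) := by
  apply (vcPointBC W C K).injective
  rw [← map_vcPointBC, AddEquiv.apply_symm_apply, AddEquiv.apply_symm_apply]

variable (F)

/-- Point counts agree. -/
theorem natCard_point_smul :
    Nat.card ((C • W)⁄F).Point = Nat.card (W⁄F).Point :=
  Nat.card_congr (vcPointBC W C F).toEquiv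

variable {F}

/-- **Transfer of a quadratic relation** for an endomorphism of the form `Point.map f`
(e.g. Frobenius) from `C • W` to `W`. -/
theorem relation_transfer (f : F →ₐ[k] F) (a b : ℤ)
    (h : ∀ P : ((C • W)⁄F).Point,
      Point.map (W' := C • W) f (Point.map (W' := C • W) f P)
        - a • Point.map (W' := C • W) f P + b • P = 0)
    (Q : (W⁄F).Point) :
    Point.map (W' := W) f (Point.map (W' := W) f Q)
      - a • Point.map (W' := W) f Q + b • Q = 0 := by
  obtain ⟨P, rfl⟩ := (vcPointBC W C F).surjective Q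
  have := congrArg (vcPointBC W C F) (h P)
  rw [map_zero, map_add, map_sub, map_zsmul, map_zsmul, ← map_vcPointBC, ← map_vcPointBC] at this
  exact this

end baseChange

end Fermat.Agent.Lib.VC

end
-- ===== PACK-END Lib/VC/BaseChange.lean

-- ===== PACK-BEGIN S51/FiveTorsion.lean
section



/-!
# S51, the `5`-side: points of order `5` on a Weierstrass curve
-/

open WeierstrassCurve WeierstrassCurve.Affine

namespace Fermat.Agent.S51.Five

variable {K : Type*} [Field K] [DecidableEq K] {E : WeierstrassCurve.Affine K}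

/-- the `x`-coordinate of a point, with junk value `0` at infinity -/
def xc : E.Point → K
  | .zero => 0
  | .some x _ _ => x

@[simp] lemma xc_some {x y : K} (h : E.Nonsingular x y) : xc (Point.some x y h) = x := rfl

lemma xc_neg (P : E.Point) : xc (-P) = xc P := by
  cases P <;> rfl

lemma eq_or_eq_neg_of_xc_eq {P Q : E.Point} (hP : P ≠ 0) (hQ : Q ≠ 0) (h : xc P = xc Q) :
    P = Q ∨ P = -Q := by
  match P, Q with
  | .zero, _ => exact absurd rfl hP
  | _, .zero => exact absurd rfl hQ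
  | .some x₁ y₁ h₁, .some x₂ y₂ h₂ => exact Point.X_eq_iff.mp h

/-- doubling formula for `x`-coordinates -/
lemma xc_add_self {P : E.Point} (hP : P ≠ 0) (h2 : P + P ≠ 0) :
    dD E.b₂ E.b₄ E.b₆ (xc P) ≠ 0 ∧
      xc (P + P) * dD E.b₂ E.b₄ E.b₆ (xc P) = dN E.b₄ E.b₆ E.b₈ (xc P) := by
  match P with
  | .zero => exact absurd rfl hP
  | .some x y h =>
    have hy : y ≠ E.negY x y := fun hy => h2 (Point.add_self_of_Y_eq hy)
    constructor
    · rw [xc_some, dD_eq E h.1]; exact pow_ne_zero 2 (sub_ne_zero.mpr hy)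
    · rw [Point.add_self_of_Y_ne hy, xc_some, xc_some]; exact dup_X E h.1 hy

/-- if `D (x P) ≠ 0` then `2P ≠ 0` -/
lemma add_self_ne_zero_of_dD_ne_zero {P : E.Point} (hP : P ≠ 0)
    (hD : dD E.b₂ E.b₄ E.b₆ (xc P) ≠ 0) : P + P ≠ 0 := by
  match P with
  | .zero => exact absurd rfl hP
  | .some x y h =>
    have hy : y ≠ E.negY x y := by
      intro hy
      apply hD
      rw [xc_some, dD_eq E h.1, ← hy, sub_self]; ring
    rw [Point.add_self_of_Y_ne hy]
    exact Point.some_ne_zero _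

section order5

lemma nsmul_eq_zero_iff_of_order5 {P : E.Point} (hP : P ≠ 0) (h5 : 5 • P = 0) (k : ℕ) :
    k • P = 0 ↔ 5 ∣ k := by
  haveI : Fact (Nat.Prime 5) := ⟨by norm_num⟩
  have ho : addOrderOf P = 5 := addOrderOf_eq_prime h5 hP
  rw [← ho]
  exact addOrderOf_dvd_iff_nsmul_eq_zero.symm

/-- the relations satisfied by `u = x(P)`, `v = x(2P)` for a point `P` of order `5` -/
lemma order5_rel {P : E.Point} (hP : P ≠ 0) (h5 : 5 • P = 0) :
    dD E.b₂ E.b₄ E.b₆ (xc P) ≠ 0 ∧ dD E.b₂ E.b₄ E.b₆ (xc (2 • P)) ≠ 0 ∧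
    xc (2 • P) * dD E.b₂ E.b₄ E.b₆ (xc P) = dN E.b₄ E.b₆ E.b₈ (xc P) ∧
    xc P * dD E.b₂ E.b₄ E.b₆ (xc (2 • P)) = dN E.b₄ E.b₆ E.b₈ (xc (2 • P)) ∧
    xc P ≠ xc (2 • P) := by
  have key := nsmul_eq_zero_iff_of_order5 hP h5
  have h2 : 2 • P ≠ 0 := fun h => by have := (key 2).mp h; omega
  have h3 : 3 • P ≠ 0 := fun h => by have := (key 3).mp h; omega
  have h4 : 4 • P ≠ 0 := fun h => by have := (key 4).mp h; omega
  have e2 : P + P = 2 • P := (two_nsmul P).symm
  have e4 : 2 • P + 2 • P = 4 • P := by rw [← add_nsmul]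
  have e4' : 4 • P = -P := by
    rw [eq_neg_iff_add_eq_zero, ← succ_nsmul]; exact h5
  obtain ⟨hD1, hX1⟩ := xc_add_self hP (e2 ▸ h2)
  obtain ⟨hD2, hX2⟩ := xc_add_self h2 (e4 ▸ h4)
  rw [e2] at hX1
  rw [e4, e4', xc_neg] at hX2
  refine ⟨hD1, hD2, hX1, hX2, ?_⟩
  intro huv
  rcases eq_or_eq_neg_of_xc_eq hP h2 huv with h | h
  · apply hP
    have : P + P = P + 0 := by rw [e2, add_zero]; exact h.symm
    exact (add_left_cancel this)
  · apply h3
    have h' : 2 • P + P = 0 := by
      nth_rewrite 2 [h]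
      exact add_neg_cancel _
    rw [succ_nsmul]; exact h'

/-- the `x`-coordinate of a point of order `5` is a root of the `5`-division polynomial -/
lemma dPsi5_eq_zero_of_order5 [CharZero K] {P : E.Point} (hP : P ≠ 0) (h5 : 5 • P = 0) :
    dPsi5 E.b₂ E.b₄ E.b₆ E.b₈ (xc P) = 0 := by
  obtain ⟨hD1, hD2, hX1, hX2, huv⟩ := order5_rel hP h5
  have h4 : (4:K) ≠ 0 := by norm_num
  have hb := E.b_relation
  set u := xc P with hu
  set v := xc (2 • P) with hv
  have hv' : v = dN E.b₄ E.b₆ E.b₈ u / dD E.b₂ E.b₄ E.b₆ u := by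
    rw [eq_div_iff hD1]; exact hX1
  have e1 := dD_div E.b₂ E.b₄ E.b₆ E.b₈ u hD1
  have e2 := dN_div E.b₂ E.b₄ E.b₆ E.b₈ u hD1
  rw [← hv'] at e1 e2
  have e3 := id3 E.b₂ E.b₄ E.b₆ E.b₈ u hb h4
  have e0 := id1 E.b₂ E.b₄ E.b₆ E.b₈ u
  have hpsi3 : dPsi3 E.b₂ E.b₄ E.b₆ E.b₈ u ≠ 0 := by
    intro h0
    rw [h0, neg_zero, sub_eq_zero, ← hX1] at e0
    exact huv (mul_right_cancel₀ hD1 e0).symm
  have : dPsi3 E.b₂ E.b₄ E.b₆ E.b₈ u * dPsi5 E.b₂ E.b₄ E.b₆ E.b₈ u = 0 := by
    have : dN2 E.b₂ E.b₄ E.b₆ E.b₈ u = u * dD E.b₂ E.b₄ E.b₆ u * dD2 E.b₂ E.b₄ E.b₆ E.b₈ u := by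
      rw [← e1, ← e2, ← hX2]; ring
    rw [this, sub_self] at e3
    linear_combination e3
  exact (mul_eq_zero.mp this).resolve_left hpsi3

end order5

section existence

lemma eval_preΨ'_five (E : WeierstrassCurve.Affine K) (x : K) :
    (E.preΨ' 5).eval x = dPsi5 E.b₂ E.b₄ E.b₆ E.b₈ x := by
  have h := E.preΨ'_odd 0
  simp only [zero_add, Nat.reduceMul, Nat.reduceAdd, preΨ'_four, preΨ'_two, one_pow, mul_one,
    Even.zero, if_true, preΨ'_one, preΨ'_three, one_mul] at h
  rw [h]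
  simp only [dPsi5, dPre4, dD, dPsi3, WeierstrassCurve.preΨ₄, WeierstrassCurve.Ψ₂Sq,
    WeierstrassCurve.Ψ₃, Polynomial.eval_sub, Polynomial.eval_mul, Polynomial.eval_pow,
    Polynomial.eval_add, Polynomial.eval_C, Polynomial.eval_X, Polynomial.eval_ofNat]

/-- every point on the curve: existence of `y` for a given `x` over an algebraically closed
field -/
lemma exists_equation [IsAlgClosed K] [CharZero K] (E : WeierstrassCurve.Affine K) (x : K) :
    ∃ y : K, E.Equation x y := by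
  obtain ⟨s, hs⟩ := IsAlgClosed.exists_pow_nat_eq (dD E.b₂ E.b₄ E.b₆ x) (n := 2) (by norm_num)
  refine ⟨(s - E.a₁ * x - E.a₃) / 2, ?_⟩
  rw [Affine.equation_iff]
  simp only [dD, WeierstrassCurve.b₂, WeierstrassCurve.b₄, WeierstrassCurve.b₆] at hs
  field_simp
  linear_combination hs

/-- key nonvanishing statements at a root of the `5`-division polynomial -/
lemma nonvanishing_of_dPsi5 [CharZero K] {x y : K} (h : E.Nonsingular x y)
    (h5 : dPsi5 E.b₂ E.b₄ E.b₆ E.b₈ x = 0) :
    dD E.b₂ E.b₄ E.b₆ x ≠ 0 ∧ dPsi3 E.b₂ E.b₄ E.b₆ E.b₈ x ≠ 0 ∧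
      dPre4 E.b₂ E.b₄ E.b₆ E.b₈ x ≠ 0 := by
  have h4 : (4:K) ≠ 0 := by norm_num
  have hb := E.b_relation
  have e0 := id1 E.b₂ E.b₄ E.b₆ E.b₈ x
  have e2 := id2 E.b₂ E.b₄ E.b₆ E.b₈ x hb h4
  rw [dPsi5, sub_eq_zero] at h5
  have hD : dD E.b₂ E.b₄ E.b₆ x ≠ 0 := by
    intro hD
    rw [hD] at h5
    have h3 : dPsi3 E.b₂ E.b₄ E.b₆ E.b₈ x = 0 := by
      have : (dPsi3 E.b₂ E.b₄ E.b₆ E.b₈ x)^3 = 0 := by rw [← h5]; ring
      exact pow_eq_zero_iff (by norm_num) |>.mp this
    rw [h3, hD] at e0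
    have hN : dN E.b₄ E.b₆ E.b₈ x = 0 := by linear_combination e0
    have hy : y - E.negY x y = 0 := by
      have := dD_eq E h.1
      rw [hD] at this
      exact pow_eq_zero_iff (by norm_num) |>.mp this.symm
    have hn := dN_eq E h.1
    rw [hN, hy] at hn
    have hn' : 3 * x ^ 2 + 2 * E.a₂ * x + E.a₄ - E.a₁ * y = 0 := by
      have : (3 * x ^ 2 + 2 * E.a₂ * x + E.a₄ - E.a₁ * y)^2 = 0 := by linear_combination -hn
      exact pow_eq_zero_iff (by norm_num) |>.mp this
    rcases (Affine.nonsingular_iff x y).mp h with ⟨-, h' | h'⟩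
    · exact h' (by linear_combination -hn')
    · exact h' (by simp only [Affine.negY] at hy; linear_combination hy)
  have h3 : dPsi3 E.b₂ E.b₄ E.b₆ E.b₈ x ≠ 0 := by
    intro h3
    rw [h3] at h5 e0
    have hp : dPre4 E.b₂ E.b₄ E.b₆ E.b₈ x = 0 := by
      have : dPre4 E.b₂ E.b₄ E.b₆ E.b₈ x * dD E.b₂ E.b₄ E.b₆ x ^ 2 = 0 := by rw [h5]; ring
      exact (mul_eq_zero.mp this).resolve_right (pow_ne_zero 2 hD)
    rw [hp] at e2
    have hN : dN E.b₄ E.b₆ E.b₈ x = x * dD E.b₂ E.b₄ E.b₆ x := by linear_combination e0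
    have : dD2 E.b₂ E.b₄ E.b₆ E.b₈ x = (dD E.b₂ E.b₄ E.b₆ x)^4 := by
      rw [dD2, hN]
      generalize hd : dD E.b₂ E.b₄ E.b₆ x = d
      simp only [dD] at hd
      rw [← hd]; ring
    rw [this] at e2
    exact pow_ne_zero 4 hD (by rw [e2]; ring)
  refine ⟨hD, h3, ?_⟩
  intro hp
  rw [hp] at h5
  apply h3
  have : (dPsi3 E.b₂ E.b₄ E.b₆ E.b₈ x)^3 = 0 := by rw [← h5]; ring
  exact pow_eq_zero_iff (by norm_num) |>.mp this

/-- a root of the `5`-division polynomial is the `x`-coordinate of a point of order `5` -/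
lemma order5_of_dPsi5 [CharZero K] {x y : K} (h : E.Nonsingular x y)
    (h5 : dPsi5 E.b₂ E.b₄ E.b₆ E.b₈ x = 0) :
    5 • (Point.some x y h) = 0 := by
  obtain ⟨hD, h3, hp⟩ := nonvanishing_of_dPsi5 h h5
  have h4 : (4:K) ≠ 0 := by norm_num
  have hb := E.b_relation
  have e0 := id1 E.b₂ E.b₄ E.b₆ E.b₈ x
  have e2 := id2 E.b₂ E.b₄ E.b₆ E.b₈ x hb h4
  have e3 := id3 E.b₂ E.b₄ E.b₆ E.b₈ x hb h4
  set P : E.Point := Point.some x y h with hPdef
  have hP : P ≠ 0 := Point.some_ne_zero _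
  have hxP : xc P = x := rfl
  have h2P : P + P ≠ 0 := add_self_ne_zero_of_dD_ne_zero hP (by rw [hxP]; exact hD)
  obtain ⟨-, hX1⟩ := xc_add_self hP h2P
  rw [hxP] at hX1
  set v := xc (P + P) with hv
  have hv' : v = dN E.b₄ E.b₆ E.b₈ x / dD E.b₂ E.b₄ E.b₆ x := by
    rw [eq_div_iff hD]; exact hX1
  have e1' := dD_div E.b₂ E.b₄ E.b₆ E.b₈ x hD
  have e2' := dN_div E.b₂ E.b₄ E.b₆ E.b₈ x hD
  rw [← hv'] at e1' e2'
  have hDv : dD E.b₂ E.b₄ E.b₆ v ≠ 0 := by
    intro h0
    rw [h0, zero_mul, e2] at e1'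
    exact hp (pow_eq_zero_iff (by norm_num) |>.mp e1'.symm)
  have h4P : (P + P) + (P + P) ≠ 0 := add_self_ne_zero_of_dD_ne_zero h2P hDv
  obtain ⟨-, hX2⟩ := xc_add_self h2P h4P
  rw [← hv] at hX2
  have hx4 : xc ((P + P) + (P + P)) = xc P := by
    rw [hxP]
    have hD3 : dD E.b₂ E.b₄ E.b₆ x ^ 3 ≠ 0 := pow_ne_zero 3 hD
    apply mul_right_cancel₀ hDv
    apply mul_right_cancel₀ (pow_ne_zero 4 hD)
    rw [hX2, e2']
    rw [h5, mul_zero, sub_eq_zero] at e3
    rw [e3, ← e1']; ring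
  rcases eq_or_eq_neg_of_xc_eq h4P hP hx4 with h' | h'
  · -- 4P = P, so 3P = 0, so 2P = -P
    exfalso
    have h3P : P + P = -P := by
      have e : (P + P + P) + P = 0 + P := by
        rw [zero_add]
        exact (by abel : P + P + P + P = P + P + (P + P)).trans h'
      have := add_right_cancel e
      exact eq_neg_of_add_eq_zero_left this
    have : v = x := by rw [hv, h3P, xc_neg, hxP]
    rw [this] at hX1
    rw [← hX1, sub_self] at e0
    exact h3 (by linear_combination e0)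
  · have : 5 • P = (P + P) + (P + P) + P := by
      simp only [succ_nsmul, zero_nsmul, zero_add]; abel
    rw [this, h', neg_add_cancel]

/-- over an algebraically closed field of characteristic `0`, an elliptic curve has a point of
order `5` -/
theorem exists_order5 [IsAlgClosed K] [CharZero K] (E : WeierstrassCurve.Affine K)
    [E.IsElliptic] : ∃ P : E.Point, P ≠ 0 ∧ 5 • P = 0 := by
  have h5K : ((5 : ℕ) : K) ≠ 0 := by norm_num
  have hdeg : (E.preΨ' 5).degree ≠ 0 := by
    have := E.natDegree_preΨ' h5K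
    have hne := E.preΨ'_ne_zero h5K
    rw [Polynomial.degree_eq_natDegree hne, this]
    norm_num [Nat.not_even_iff_odd.mpr (by decide : Odd 5)]
  obtain ⟨x, hx⟩ := IsAlgClosed.exists_root (E.preΨ' 5) hdeg
  rw [Polynomial.IsRoot.def, eval_preΨ'_five] at hx
  obtain ⟨y, hy⟩ := exists_equation E x
  have hns : E.Nonsingular x y := Affine.equation_iff_nonsingular.mp hy
  exact ⟨Point.some x y hns, Point.some_ne_zero _, order5_of_dPsi5 hns hx⟩

end existence

section counting

variable [CharZero K]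

lemma isRoot_of_order5 {P : E.Point} (hP : P ≠ 0) (h5 : 5 • P = 0) :
    (E.preΨ' 5).IsRoot (xc P) := by
  rw [Polynomial.IsRoot.def, eval_preΨ'_five]
  exact dPsi5_eq_zero_of_order5 hP h5

open Classical in
/-- a finite set containing all nonzero points with a given set of `x`-coordinates -/
noncomputable def pointsOver (E : WeierstrassCurve.Affine K) (R : Finset K) : Finset E.Point :=
  R.biUnion fun a =>
    if h : ∃ Q : E.Point, Q ≠ 0 ∧ xc Q = a then {Classical.choose h, -Classical.choose h} else ∅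

lemma card_pointsOver_le (E : WeierstrassCurve.Affine K) (R : Finset K) :
    (pointsOver E R).card ≤ R.card * 2 := by
  classical
  unfold pointsOver
  apply Finset.card_biUnion_le_card_mul
  intro a _
  split_ifs with h
  · exact Finset.card_le_two
  · simp

lemma mem_pointsOver {R : Finset K} {P : E.Point} (hP : P ≠ 0) (hx : xc P ∈ R) :
    P ∈ pointsOver E R := by
  classical
  unfold pointsOver
  rw [Finset.mem_biUnion]
  refine ⟨xc P, hx, ?_⟩
  have h : ∃ Q : E.Point, Q ≠ 0 ∧ xc Q = xc P := ⟨P, hP, rfl⟩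
  rw [dif_pos h]
  obtain ⟨hQ0, hQx⟩ := Classical.choose_spec h
  rcases eq_or_eq_neg_of_xc_eq hP hQ0 hQx.symm with h' | h'
  · rw [Finset.mem_insert]; exact Or.inl h'
  · rw [Finset.mem_insert, Finset.mem_singleton]; exact Or.inr h'

/-- the finite set of candidates for the `5`-torsion points -/
noncomputable def fiveCandidates (E : WeierstrassCurve.Affine K) : Finset E.Point :=
  insert 0 (pointsOver E (E.preΨ' 5).roots.toFinset)

lemma card_fiveCandidates_le (E : WeierstrassCurve.Affine K) : (fiveCandidates E).card ≤ 25 := by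
  classical
  have h5K : ((5 : ℕ) : K) ≠ 0 := by norm_num
  have hdeg : (E.preΨ' 5).natDegree = 12 := by
    rw [E.natDegree_preΨ' h5K]
    norm_num [Nat.not_even_iff_odd.mpr (by decide : Odd 5)]
  have h1 : (E.preΨ' 5).roots.toFinset.card ≤ 12 := by
    calc (E.preΨ' 5).roots.toFinset.card ≤ Multiset.card (E.preΨ' 5).roots :=
          Multiset.toFinset_card_le _
      _ ≤ (E.preΨ' 5).natDegree := Polynomial.card_roots' _
      _ = 12 := hdeg
  calc (fiveCandidates E).card ≤ (pointsOver E (E.preΨ' 5).roots.toFinset).card + 1 :=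
        Finset.card_insert_le _ _
    _ ≤ (E.preΨ' 5).roots.toFinset.card * 2 + 1 :=
        Nat.add_le_add_right (card_pointsOver_le E _) 1
    _ ≤ 25 := by omega

lemma mem_fiveCandidates {P : E.Point} (h5 : 5 • P = 0) : P ∈ fiveCandidates E := by
  classical
  have h5K : ((5 : ℕ) : K) ≠ 0 := by norm_num
  unfold fiveCandidates
  by_cases hP : P = 0
  · rw [hP]; exact Finset.mem_insert_self _ _
  · apply Finset.mem_insert_of_mem
    apply mem_pointsOver hP
    rw [Multiset.mem_toFinset, Polynomial.mem_roots (E.preΨ'_ne_zero h5K)]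
    exact isRoot_of_order5 hP h5

end counting

end Fermat.Agent.S51.Five

end
-- ===== PACK-END S51/FiveTorsion.lean

-- ===== PACK-BEGIN S13/H891/LadderDeg.lean
section



/-!
# S13 / T1: degrees and leading coefficients of the ladder polynomials
-/

open Polynomial

namespace Fermat.Agent.S13.H891

variable {R : Type*} [CommRing R]

/-- `DC p n c`: `p` has degree at most `n` and its `n`-th coefficient is `c` -/
def DC (p : R[X]) (n : ℕ) (c : R) : Prop := p.natDegree ≤ n ∧ p.coeff n = c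

namespace DC

variable {p q : R[X]} {n m : ℕ} {a b : R}

lemma mul (hp : DC p n a) (hq : DC q m b) : DC (p * q) (n + m) (a * b) :=
  ⟨natDegree_mul_le_of_le hp.1 hq.1, by
    rw [coeff_mul_add_eq_of_natDegree_le hp.1 hq.1, hp.2, hq.2]⟩

lemma pow (hp : DC p n a) (e : ℕ) : DC (p ^ e) (e * n) (a ^ e) :=
  ⟨natDegree_pow_le_of_le e hp.1, by rw [coeff_pow_of_natDegree_le hp.1, hp.2]⟩

lemma add (hp : DC p n a) (hq : DC q n b) : DC (p + q) n (a + b) :=
  ⟨natDegree_add_le_of_degree_le hp.1 hq.1, by rw [coeff_add, hp.2, hq.2]⟩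

lemma sub (hp : DC p n a) (hq : DC q n b) : DC (p - q) n (a - b) :=
  ⟨(natDegree_sub_le_of_le hp.1 hq.1).trans (by simp), by rw [coeff_sub, hp.2, hq.2]⟩

lemma of_lt (hp : p.natDegree ≤ m) (h : m < n) : DC p n 0 :=
  ⟨hp.trans h.le, coeff_eq_zero_of_natDegree_lt (lt_of_le_of_lt hp h)⟩

lemma congr (hp : DC p n a) (hn : n = m) (ha : a = b) : DC p m b := by
  subst hn; subst ha; exact hp

lemma C_mul (r : R) (hp : DC p n a) : DC (C r * p) n (r * a) :=
  ⟨(natDegree_C_mul_le r p).trans hp.1, by rw [coeff_C_mul, hp.2]⟩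

lemma natCast_mul (r : ℕ) (hp : DC p n a) : DC ((r : R[X]) * p) n ((r : R) * a) := by
  have : ((r : R[X])) = C (r : R) := by simp
  rw [this]; exact hp.C_mul _

lemma X : DC (Polynomial.X : R[X]) 1 1 := ⟨natDegree_X_le, coeff_X_one⟩

end DC

variable (b₂ b₄ b₆ b₈ : R)

/-- the ladder polynomial `N_k` -/
noncomputable def polyN (k : ℕ) : R[X] := ladN (C b₂) (C b₄) (C b₆) (C b₈) Polynomial.X k
/-- the ladder polynomial `D_k` -/
noncomputable def polyD (k : ℕ) : R[X] := ladD (C b₂) (C b₄) (C b₆) (C b₈) Polynomial.X k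
/-- the polynomial `W_k = N_k D_{k+1} - N_{k+1} D_k`; for `n = 2k+1` this is the `n`-division
polynomial up to sign -/
noncomputable def polyW (k : ℕ) : R[X] :=
  addW (polyN b₂ b₄ b₆ b₈ k) (polyD b₂ b₄ b₆ b₈ k) (polyN b₂ b₄ b₆ b₈ (k+1))
    (polyD b₂ b₄ b₆ b₈ (k+1))

lemma eval_polyN (x : R) (k : ℕ) : (polyN b₂ b₄ b₆ b₈ k).eval x = ladN b₂ b₄ b₆ b₈ x k := by
  have := map_ladN (C b₂) (C b₄) (C b₆) (C b₈) (Polynomial.X : R[X]) (evalRingHom x) k
  simp only [coe_evalRingHom, eval_C, eval_X] at this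
  rw [polyN, this]

lemma eval_polyD (x : R) (k : ℕ) : (polyD b₂ b₄ b₆ b₈ k).eval x = ladD b₂ b₄ b₆ b₈ x k := by
  have := map_ladD (C b₂) (C b₄) (C b₆) (C b₈) (Polynomial.X : R[X]) (evalRingHom x) k
  simp only [coe_evalRingHom, eval_C, eval_X] at this
  rw [polyD, this]

lemma eval_polyW (x : R) (k : ℕ) : (polyW b₂ b₄ b₆ b₈ k).eval x =
    addW (ladN b₂ b₄ b₆ b₈ x k) (ladD b₂ b₄ b₆ b₈ x k) (ladN b₂ b₄ b₆ b₈ x (k+1))
      (ladD b₂ b₄ b₆ b₈ x (k+1)) := by
  simp only [polyW, addW, eval_sub, eval_mul, eval_polyN, eval_polyD]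

section map

variable {S : Type*} [CommRing S] (φ : R →+* S)

lemma map_polyN (k : ℕ) :
    (polyN b₂ b₄ b₆ b₈ k).map φ = polyN (φ b₂) (φ b₄) (φ b₆) (φ b₈) k := by
  have := map_ladN (C b₂) (C b₄) (C b₆) (C b₈) (Polynomial.X : R[X]) (mapRingHom φ) k
  simp only [coe_mapRingHom, map_C, map_X] at this
  rw [polyN, polyN, this]

lemma map_polyD (k : ℕ) :
    (polyD b₂ b₄ b₆ b₈ k).map φ = polyD (φ b₂) (φ b₄) (φ b₆) (φ b₈) k := by
  have := map_ladD (C b₂) (C b₄) (C b₆) (C b₈) (Polynomial.X : R[X]) (mapRingHom φ) k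
  simp only [coe_mapRingHom, map_C, map_X] at this
  rw [polyD, polyD, this]

lemma map_polyW (k : ℕ) :
    (polyW b₂ b₄ b₆ b₈ k).map φ = polyW (φ b₂) (φ b₄) (φ b₆) (φ b₈) k := by
  simp only [polyW, addW, Polynomial.map_sub, Polynomial.map_mul, map_polyN, map_polyD]

end map

/-- degree and leading coefficient of `N_k`, `D_k` -/
theorem dc_poly (k : ℕ) (hk : 1 ≤ k) :
    DC (polyN b₂ b₄ b₆ b₈ k) (k^2) 1 ∧ DC (polyD b₂ b₄ b₆ b₈ k) (k^2 - 1) ((k : R)^2) := by
  revert hk
  refine ladder_induction (P := fun k => DC (polyN b₂ b₄ b₆ b₈ k) (k^2) 1 ∧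
    DC (polyD b₂ b₄ b₆ b₈ k) (k^2 - 1) ((k : R)^2)) ?_ ?_ ?_ k
  · constructor
    · simp only [polyN, ladN_one]
      exact DC.X.congr (by norm_num) rfl
    · simp only [polyD, ladD_one]
      exact ⟨by simp, by simp⟩
  · -- doubling
    intro k hk ⟨hN, hD⟩
    have ha : 1 ≤ k^2 := Nat.one_le_pow _ _ hk
    have e2 : (2*k)^2 = 4 * k^2 := by ring
    generalize hA : k^2 = A at hN hD ha e2
    set N := polyN b₂ b₄ b₆ b₈ k with hNdef
    set D := polyD b₂ b₄ b₆ b₈ k with hDdef
    constructor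
    · have e : polyN b₂ b₄ b₆ b₈ (2*k) = N^4 - C b₄ * N^2 * D^2 - 2 * C b₆ * N * D^3
          - C b₈ * D^4 := by
        rw [polyN, ladN_even _ _ _ _ _ k hk]; rfl
      rw [e, e2]
      have t1 : DC (N^4) (4*A) 1 := (hN.pow 4).congr rfl (by simp)
      have t2 : DC (C b₄ * N^2 * D^2) (4*A) 0 := by
        refine DC.of_lt (m := 2*A + 2*(A-1)) ?_ (by omega)
        exact natDegree_mul_le_of_le ((natDegree_C_mul_le _ _).trans (hN.pow 2).1) (hD.pow 2).1
      have t3 : DC (2 * C b₆ * N * D^3) (4*A) 0 := by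
        refine DC.of_lt (m := A + 3*(A-1)) ?_ (by omega)
        have : (2 : R[X]) * C b₆ = C (2 * b₆) := by rw [map_mul, map_ofNat]
        rw [this]
        exact natDegree_mul_le_of_le ((natDegree_C_mul_le _ _).trans hN.1) (hD.pow 3).1
      have t4 : DC (C b₈ * D^4) (4*A) 0 := by
        refine DC.of_lt (m := 4*(A-1)) ?_ (by omega)
        exact (natDegree_C_mul_le _ _).trans (hD.pow 4).1
      exact (((t1.sub t2).sub t3).sub t4).congr rfl (by ring)
    · have e : polyD b₂ b₄ b₆ b₈ (2*k) = D * (4 * N^3 + C b₂ * N^2 * D + 2 * C b₄ * N * D^2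
          + C b₆ * D^3) := by
        rw [polyD, ladD_even _ _ _ _ _ k hk]; rfl
      rw [e, e2]
      have t1 : DC (4 * N^3) (3*A) 4 := by
        have : (4 : R[X]) = C 4 := (map_ofNat C 4).symm
        rw [this]
        exact ((hN.pow 3).C_mul 4).congr rfl (by simp)
      have t2 : DC (C b₂ * N^2 * D) (3*A) 0 := by
        refine DC.of_lt (m := 2*A + (A-1)) ?_ (by omega)
        exact natDegree_mul_le_of_le ((natDegree_C_mul_le _ _).trans (hN.pow 2).1) hD.1
      have t3 : DC (2 * C b₄ * N * D^2) (3*A) 0 := by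
        refine DC.of_lt (m := A + 2*(A-1)) ?_ (by omega)
        have : (2 : R[X]) * C b₄ = C (2 * b₄) := by rw [map_mul, map_ofNat]
        rw [this]
        exact natDegree_mul_le_of_le ((natDegree_C_mul_le _ _).trans hN.1) (hD.pow 2).1
      have t4 : DC (C b₆ * D^3) (3*A) 0 := by
        refine DC.of_lt (m := 3*(A-1)) ?_ (by omega)
        exact (natDegree_C_mul_le _ _).trans (hD.pow 3).1
      refine (hD.mul (((t1.add t2).add t3).add t4)).congr (by omega) ?_
      push_cast; ring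
  · -- differential addition
    intro k hk ⟨hN, hD⟩ ⟨hN', hD'⟩
    have ha : 1 ≤ k^2 := Nat.one_le_pow _ _ hk
    have e1 : (k+1)^2 = k^2 + 2*k + 1 := by ring
    have e2 : (2*k+1)^2 = 4 * k^2 + 4*k + 1 := by ring
    rw [e1] at hN' hD'
    generalize hA : k^2 = A at hN hD hN' hD' ha e1 e2
    set N := polyN b₂ b₄ b₆ b₈ k with hNdef
    set D := polyD b₂ b₄ b₆ b₈ k with hDdef
    set N' := polyN b₂ b₄ b₆ b₈ (k+1) with hN'def
    set D' := polyD b₂ b₄ b₆ b₈ (k+1) with hD'def
    have hW : DC (N * D' - N' * D) (2*A + 2*k) (((k:R)+1)^2 - (k:R)^2) := by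
      have t1 : DC (N * D') (2*A + 2*k) (((k:R)+1)^2) :=
        (hN.mul hD').congr (by omega) (by push_cast; ring)
      have t2 : DC (N' * D) (2*A + 2*k) ((k:R)^2) :=
        (hN'.mul hD).congr (by omega) (by ring)
      exact t1.sub t2
    have hV : DC (N * D' + N' * D) (2*A + 2*k) (((k:R)+1)^2 + (k:R)^2) := by
      have t1 : DC (N * D') (2*A + 2*k) (((k:R)+1)^2) :=
        (hN.mul hD').congr (by omega) (by push_cast; ring)
      have t2 : DC (N' * D) (2*A + 2*k) ((k:R)^2) :=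
        (hN'.mul hD).congr (by omega) (by ring)
      exact t1.add t2
    constructor
    · have e : polyN b₂ b₄ b₆ b₈ (2*k+1) =
          (2 * N * N' * (N * D' + N' * D) + C b₂ * N * N' * D * D'
            + C b₄ * D * D' * (N * D' + N' * D) + C b₆ * D^2 * D'^2)
          - Polynomial.X * (N * D' - N' * D)^2 := by
        rw [polyN, ladN_odd _ _ _ _ _ k hk]; rfl
      rw [e, e2]
      have t1 : DC (2 * N * N' * (N * D' + N' * D)) (4*A + 4*k + 1)
          (2 * (((k:R)+1)^2 + (k:R)^2)) := by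
        have h2 : (2 : R[X]) * N = C 2 * N := by rw [map_ofNat]
        rw [h2]
        refine (((hN.C_mul 2).mul hN').mul hV).congr (by omega) (by ring)
      have t2 : DC (C b₂ * N * N' * D * D') (4*A + 4*k + 1) 0 := by
        refine DC.of_lt (m := A + (A + 2*k + 1) + (A - 1) + (A + 2*k + 1 - 1)) ?_ (by omega)
        exact natDegree_mul_le_of_le (natDegree_mul_le_of_le (natDegree_mul_le_of_le
          ((natDegree_C_mul_le _ _).trans hN.1) hN'.1) hD.1) hD'.1
      have t3 : DC (C b₄ * D * D' * (N * D' + N' * D)) (4*A + 4*k + 1) 0 := by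
        refine DC.of_lt (m := (A - 1) + (A + 2*k + 1 - 1) + (2*A + 2*k)) ?_ (by omega)
        exact natDegree_mul_le_of_le (natDegree_mul_le_of_le
          ((natDegree_C_mul_le _ _).trans hD.1) hD'.1) hV.1
      have t4 : DC (C b₆ * D^2 * D'^2) (4*A + 4*k + 1) 0 := by
        refine DC.of_lt (m := 2*(A - 1) + 2*(A + 2*k + 1 - 1)) ?_ (by omega)
        exact natDegree_mul_le_of_le ((natDegree_C_mul_le _ _).trans (hD.pow 2).1) (hD'.pow 2).1
      have t5 : DC (Polynomial.X * (N * D' - N' * D)^2) (4*A + 4*k + 1)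
          ((((k:R)+1)^2 - (k:R)^2)^2) :=
        (DC.X.mul (hW.pow 2)).congr (by omega) (by ring)
      exact ((((t1.add t2).add t3).add t4).sub t5).congr rfl (by ring)
    · have e : polyD b₂ b₄ b₆ b₈ (2*k+1) = (N * D' - N' * D)^2 := by
        rw [polyD, ladD_odd _ _ _ _ _ k hk]; rfl
      rw [e, e2]
      exact (hW.pow 2).congr (by omega) (by push_cast; ring)

/-- degree and leading coefficient of `W_k` -/
theorem dc_polyW (k : ℕ) (hk : 1 ≤ k) :
    DC (polyW b₂ b₄ b₆ b₈ k) (2*k^2 + 2*k) ((2*k+1 : ℕ) : R) := by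
  obtain ⟨hN, hD⟩ := dc_poly b₂ b₄ b₆ b₈ k hk
  obtain ⟨hN', hD'⟩ := dc_poly b₂ b₄ b₆ b₈ (k+1) (by omega)
  have ha : 1 ≤ k^2 := Nat.one_le_pow _ _ hk
  have e1 : (k+1)^2 = k^2 + 2*k + 1 := by ring
  rw [e1] at hN' hD'
  generalize hA : k^2 = A at hN hD hN' hD' ha e1
  have t1 : DC (polyN b₂ b₄ b₆ b₈ k * polyD b₂ b₄ b₆ b₈ (k+1)) (2*A + 2*k) (((k:R)+1)^2) :=
    (hN.mul hD').congr (by omega) (by push_cast; ring)
  have t2 : DC (polyN b₂ b₄ b₆ b₈ (k+1) * polyD b₂ b₄ b₆ b₈ k) (2*A + 2*k) ((k:R)^2) :=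
    (hN'.mul hD).congr (by omega) (by ring)
  exact (t1.sub t2).congr rfl (by push_cast; ring)

end Fermat.Agent.S13.H891

end
-- ===== PACK-END S13/H891/LadderDeg.lean

-- ===== PACK-BEGIN S13/Comp2XY.lean
section




/-!
# The component map on coordinates (any residue characteristic), and its multiplicativity
on collinear triples
-/

set_option autoImplicit false

namespace Fermat.Agent.S13.Comp2

variable {K : Type*} [Field K] {Γ₀ : Type*} [LinearOrderedCommGroupWithZero Γ₀]

/-- The unit of `Γ₀` attached to a (possibly zero) element; junk value `1` at `0`. -/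
noncomputable def toU (g : Γ₀) : Γ₀ˣ := if h : g = 0 then 1 else Units.mk0 g h

lemma toU_coe {g : Γ₀} (h : g ≠ 0) : ((toU g : Γ₀ˣ) : Γ₀) = g := by
  simp [toU, h]

lemma toU_mul {p q : Γ₀} (hp : p ≠ 0) (hq : q ≠ 0) : toU (p * q) = toU p * toU q := by
  apply Units.ext
  rw [Units.val_mul, toU_coe hp, toU_coe hq, toU_coe (mul_ne_zero hp hq)]

lemma toU_pow {p : Γ₀} (hp : p ≠ 0) (k : ℕ) : toU (p ^ k) = toU p ^ k := by
  apply Units.ext
  rw [Units.val_pow_eq_pow_val, toU_coe hp, toU_coe (pow_ne_zero k hp)]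

lemma toU_one : toU (1 : Γ₀) = 1 := by
  apply Units.ext
  rw [toU_coe one_ne_zero, Units.val_one]

variable (v : Valuation K Γ₀)

/-- The component group `Γ₀ˣ / ⟨v(a)²⟩`. -/
abbrev CompGroup (a : K) : Type _ := Γ₀ˣ ⧸ Subgroup.zpowers (toU (v a) ^ 2)

/-- The class of an element of `Γ₀` in the component group. -/
noncomputable def cls (a : K) (g : Γ₀) : CompGroup v a := QuotientGroup.mk (toU g)

lemma cls_mul (a : K) {p q : Γ₀} (hp : p ≠ 0) (hq : q ≠ 0) :
    cls v a (p * q) = cls v a p * cls v a q := by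
  rw [cls, toU_mul hp hq]; rfl

lemma cls_pow (a : K) {p : Γ₀} (hp : p ≠ 0) (k : ℕ) :
    cls v a (p ^ k) = cls v a p ^ k := by
  rw [cls, toU_pow hp]; rfl

lemma cls_one (a : K) : cls v a 1 = 1 := by
  rw [cls, toU_one]; rfl

lemma cls_a_sq (a : K) (ha0 : a ≠ 0) : cls v a (v a ^ 2) = 1 := by
  have h0 : v a ≠ 0 := (Valuation.ne_zero_iff v).mpr ha0
  rw [cls, toU_pow h0]
  exact (QuotientGroup.eq_one_iff _).mpr (Subgroup.mem_zpowers _)

lemma cls_a_mul_self (a : K) (ha0 : a ≠ 0) : cls v a (v a) * cls v a (v a) = 1 := by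
  have h0 : v a ≠ 0 := (Valuation.ne_zero_iff v).mpr ha0
  rw [← cls_mul v a h0 h0, ← pow_two, cls_a_sq v a ha0]

lemma cls_a_inv (a : K) (ha0 : a ≠ 0) : (cls v a (v a))⁻¹ = cls v a (v a) :=
  inv_eq_of_mul_eq_one_left (cls_a_mul_self v a ha0)

/-- The component of a point with coordinates `(x, y)` on
`(y - γ₁ x) (y - γ₂ x) = x (x ^ 2 + a)`, relative to the branch `y ≡ γ₁ x`. -/
noncomputable def comp2XY (a γ₁ : K) (x y : K) : CompGroup v a :=
  if 1 ≤ v x then 1
  else if v x ≤ v a then cls v a (v a)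
  else if v (y - γ₁ * x) < v x then cls v a (v x)
  else (cls v a (v x))⁻¹

variable {v}
variable {a γ₁ γ₂ x₁ y₁ x₂ y₂ x₃ y₃ l n : K}

lemma comp2XY_of_Z {x y : K} (h : 1 ≤ v x) : comp2XY v a γ₁ x y = 1 := by
  simp [comp2XY, h]

lemma comp2XY_of_M {x y : K} (ha : v a < 1) (h : v x ≤ v a) :
    comp2XY v a γ₁ x y = cls v a (v a) := by
  have : ¬ 1 ≤ v x := not_le.mpr (h.trans_lt ha)
  simp [comp2XY, this, h]

lemma comp2XY_of_P {x y : K} (hlo : v a < v x) (hhi : v x < 1)
    (hP : v (y - γ₁ * x) < v x) : comp2XY v a γ₁ x y = cls v a (v x) := by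
  simp [comp2XY, not_le.mpr hhi, not_le.mpr hlo, hP]

lemma comp2XY_of_N {x y : K} (hδ : v (γ₁ - γ₂) = 1)
    (hlo : v a < v x) (hhi : v x < 1)
    (hN : v (y - γ₂ * x) < v x) : comp2XY v a γ₁ x y = (cls v a (v x))⁻¹ := by
  have hP : ¬ v (y - γ₁ * x) < v x := fun hP => sign_exclusive hδ ⟨hP, hN⟩
  simp [comp2XY, not_le.mpr hhi, not_le.mpr hlo, hP]

/-- The four types of points. -/
lemma comp2XY_cases {x y : K} (hδ : v (γ₁ - γ₂) = 1) (ha : v a < 1)
    (hE : (y - γ₁ * x) * (y - γ₂ * x) = x * (x ^ 2 + a)) :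
    (1 ≤ v x ∧ comp2XY v a γ₁ x y = 1) ∨
    (v x ≤ v a ∧ comp2XY v a γ₁ x y = cls v a (v a)) ∨
    (v a < v x ∧ v x < 1 ∧ v (y - γ₁ * x) < v x ∧ comp2XY v a γ₁ x y = cls v a (v x)) ∨
    (v a < v x ∧ v x < 1 ∧ v (y - γ₂ * x) < v x ∧
      comp2XY v a γ₁ x y = (cls v a (v x))⁻¹) := by
  rcases le_or_gt 1 (v x) with hZ | hhi
  · exact Or.inl ⟨hZ, comp2XY_of_Z hZ⟩
  rcases le_or_gt (v x) (v a) with hM | hlo
  · exact Or.inr (Or.inl ⟨hM, comp2XY_of_M ha hM⟩)
  rcases sign_exists hE hlo hhi with hP | hN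
  · exact Or.inr (Or.inr (Or.inl ⟨hlo, hhi, hP, comp2XY_of_P hlo hhi hP⟩))
  · exact Or.inr (Or.inr (Or.inr ⟨hlo, hhi, hN, comp2XY_of_N hδ hlo hhi hN⟩))

/-- Exchanging the branches inverts the component. -/
lemma comp2XY_flip {x y : K} (hδ : v (γ₁ - γ₂) = 1) (ha : v a < 1) (ha0 : a ≠ 0)
    (hE : (y - γ₁ * x) * (y - γ₂ * x) = x * (x ^ 2 + a)) :
    comp2XY v a γ₂ x y = (comp2XY v a γ₁ x y)⁻¹ := by
  have hδ' : v (γ₂ - γ₁) = 1 := val_swap_delta hδ
  rcases comp2XY_cases hδ ha hE with ⟨hZ, e⟩ | ⟨hM, e⟩ | ⟨hlo, hhi, hP, e⟩ | ⟨hlo, hhi, hN, e⟩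
  · rw [e, comp2XY_of_Z hZ, inv_one]
  · rw [e, comp2XY_of_M ha hM, cls_a_inv v a ha0]
  · rw [e]; exact comp2XY_of_N hδ' hlo hhi hP
  · rw [e, inv_inv]; exact comp2XY_of_P hlo hhi hN

/-- Two points at the node, third away: the components cancel. -/
lemma core_two (h : Coll2 a γ₁ γ₂ x₁ y₁ x₂ y₂ x₃ y₃ l n) (hδ : v (γ₁ - γ₂) = 1)
    (ha : v a < 1) (ha0 : a ≠ 0)
    (h1 : v x₁ < 1) (h2' : v x₂ < 1) (h3 : 1 ≤ v x₃) :
    comp2XY v a γ₁ x₁ y₁ * comp2XY v a γ₁ x₂ y₂ = 1 := by
  have hμ : 0 < v a := by rw [Valuation.pos_iff]; exact ha0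
  have hδ' : v (γ₂ - γ₁) = 1 := val_swap_delta hδ
  rcases comp2XY_cases hδ ha h.E1 with ⟨hZ, -⟩ | ⟨hM1, e1⟩ | ⟨hlo1, hhi1, hP1, e1⟩ |
    ⟨hlo1, hhi1, hN1, e1⟩
  · exact absurd hZ (not_le.mpr h1)
  · rcases comp2XY_cases hδ ha h.E2 with ⟨hZ, -⟩ | ⟨hM2, e2⟩ | ⟨hlo2, hhi2, hP2, e2⟩ |
      ⟨hlo2, hhi2, hN2, e2⟩
    · exact absurd hZ (not_le.mpr h2')
    · rw [e1, e2]; exact cls_a_mul_self v a ha0
    · exact (factD h hδ (hM1.trans_lt hlo2) (h1.trans_le h3) (hhi2.le.trans h3) h3
        (hlo2.trans_le (le_mul_of_one_le_right (hμ.trans hlo2).le h3))).elim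
    · exact (factD h hδ (hM1.trans_lt hlo2) (h1.trans_le h3) (hhi2.le.trans h3) h3
        (hlo2.trans_le (le_mul_of_one_le_right (hμ.trans hlo2).le h3))).elim
  all_goals
    rcases comp2XY_cases hδ ha h.E2 with ⟨hZ, -⟩ | ⟨hM2, e2⟩ | ⟨hlo2, hhi2, hP2, e2⟩ |
      ⟨hlo2, hhi2, hN2, e2⟩
    · exact absurd hZ (not_le.mpr h2')
    · exact (factD h.swap12 hδ (hM2.trans_lt hlo1) (h2'.trans_le h3) (hhi1.le.trans h3) h3
        (hlo1.trans_le (le_mul_of_one_le_right (hμ.trans hlo1).le h3))).elim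
  all_goals
    have h12 : v x₁ = v x₂ := by
      rcases lt_trichotomy (v x₁) (v x₂) with hlt | heq | hgt
      · exact (factD h hδ hlt (h1.trans_le h3) (hhi2.le.trans h3) h3
          (hlo2.trans_le (le_mul_of_one_le_right (hμ.trans hlo2).le h3))).elim
      · exact heq
      · exact (factD h.swap12 hδ hgt (h2'.trans_le h3) (hhi1.le.trans h3) h3
          (hlo1.trans_le (le_mul_of_one_le_right (hμ.trans hlo1).le h3))).elim
    have hx1 : x₁ ≠ 0 := (Valuation.ne_zero_iff v).mp (hμ.trans hlo1).ne'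
  · exact (factBsign h hδ h12 h1 hx1 h3 hP1 hP2).elim
  · rw [e1, e2, h12]; exact mul_inv_cancel _
  · rw [e1, e2, h12]; exact inv_mul_cancel _
  · exact (factBsign h.flip hδ' h12 h1 hx1 h3 hN1 hN2).elim

/-- All three points at the node, the first one in the `M`-range. -/
lemma core_three_M (h : Coll2 a γ₁ γ₂ x₁ y₁ x₂ y₂ x₃ y₃ l n) (hδ : v (γ₁ - γ₂) = 1)
    (ha : v a < 1) (ha0 : a ≠ 0)
    (h1 : v x₁ ≤ v a) (h2' : v x₂ < 1) (h3 : v x₃ < 1) :
    comp2XY v a γ₁ x₁ y₁ * comp2XY v a γ₁ x₂ y₂ * comp2XY v a γ₁ x₃ y₃ = 1 := by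
  have hμ : 0 < v a := by rw [Valuation.pos_iff]; exact ha0
  have hδ' : v (γ₂ - γ₁) = 1 := val_swap_delta hδ
  have e1 : comp2XY v a γ₁ x₁ y₁ = cls v a (v a) := comp2XY_of_M ha h1
  rcases comp2XY_cases hδ ha h.E2 with ⟨hZ, -⟩ | ⟨hM2, e2⟩ | ⟨hlo2, hhi2, hP2, e2⟩ |
    ⟨hlo2, hhi2, hN2, e2⟩
  · exact absurd hZ (not_le.mpr h2')
  · exact (factMMmid h hδ ha ha0 h1 hM2 h3).elim
  all_goals
    rcases comp2XY_cases hδ ha h.E3 with ⟨hZ, -⟩ | ⟨hM3, e3⟩ | ⟨hlo3, hhi3, hP3, e3⟩ |
      ⟨hlo3, hhi3, hN3, e3⟩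
    · exact absurd hZ (not_le.mpr h3)
    · exact (factMMmid h.swap23 hδ ha ha0 h1 hM3 h2').elim
  all_goals
    have hval := factA'_val h hδ ha ha0 h1 hhi2 hhi3
    have hne2 : v x₂ ≠ 0 := (hμ.trans hlo2).ne'
    have hne3 : v x₃ ≠ 0 := (hμ.trans hlo3).ne'
  · rw [e1, e2, e3, mul_assoc, ← cls_mul v a hne2 hne3, hval]
    exact cls_a_mul_self v a ha0
  · exact (factA'_sign h hδ ha h1 hlo2 hhi2 hlo3 hhi3 hP2 hN3).elim
  · exact (factA'_sign h.flip hδ' ha h1 hlo2 hhi2 hlo3 hhi3 hN2 hP3).elim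
  · rw [e1, e2, e3, mul_assoc, ← mul_inv, ← cls_mul v a hne2 hne3, hval]
    exact mul_inv_cancel _

/-- All three points in the middle range. -/
lemma core_three_mid (h : Coll2 a γ₁ γ₂ x₁ y₁ x₂ y₂ x₃ y₃ l n) (hδ : v (γ₁ - γ₂) = 1)
    (ha0 : a ≠ 0)
    (h1lo : v a < v x₁) (h1hi : v x₁ < 1)
    (h2lo : v a < v x₂) (h2hi : v x₂ < 1) (h3lo : v a < v x₃) (h3hi : v x₃ < 1) :
    comp2XY v a γ₁ x₁ y₁ * comp2XY v a γ₁ x₂ y₂ * comp2XY v a γ₁ x₃ y₃ = 1 := by
  have hμ : 0 < v a := by rw [Valuation.pos_iff]; exact ha0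
  have hδ' : v (γ₂ - γ₁) = 1 := val_swap_delta hδ
  have hne1 : v x₁ ≠ 0 := (hμ.trans h1lo).ne'
  have hne2 : v x₂ ≠ 0 := (hμ.trans h2lo).ne'
  have hne3 : v x₃ ≠ 0 := (hμ.trans h3lo).ne'
  rcases sign_exists h.E1 h1lo h1hi with hP1 | hN1 <;>
  rcases sign_exists h.E2 h2lo h2hi with hP2 | hN2 <;>
  rcases sign_exists h.E3 h3lo h3hi with hP3 | hN3
  · -- PPP
    rw [comp2XY_of_P h1lo h1hi hP1, comp2XY_of_P h2lo h2hi hP2, comp2XY_of_P h3lo h3hi hP3,
      ← cls_mul v a hne1 hne2, ← cls_mul v a (mul_ne_zero hne1 hne2) hne3,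
      factA_same h hδ h1lo h1hi h2lo h2hi h3lo h3hi hP1 hP2 hP3]
    exact cls_a_sq v a ha0
  · -- PPN
    rw [comp2XY_of_P h1lo h1hi hP1, comp2XY_of_P h2lo h2hi hP2,
      comp2XY_of_N hδ h3lo h3hi hN3,
      factA_mixed h hδ h1lo h1hi h2lo h2hi h3lo h3hi hP1 hP2 hN3,
      ← cls_mul v a hne1 hne2]
    exact mul_inv_cancel _
  · -- PNP
    rw [comp2XY_of_P h1lo h1hi hP1, comp2XY_of_N hδ h2lo h2hi hN2,
      comp2XY_of_P h3lo h3hi hP3,
      factA_mixed h.swap23 hδ h1lo h1hi h3lo h3hi h2lo h2hi hP1 hP3 hN2,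
      cls_mul v a hne1 hne3, mul_right_comm]
    exact mul_inv_cancel _
  · -- PNN
    have := factA_mixed h.rot.flip hδ' h2lo h2hi h3lo h3hi h1lo h1hi hN2 hN3 hP1
    rw [comp2XY_of_P h1lo h1hi hP1, comp2XY_of_N hδ h2lo h2hi hN2,
      comp2XY_of_N hδ h3lo h3hi hN3, this, cls_mul v a hne2 hne3, mul_assoc, ← mul_inv]
    exact mul_inv_cancel _
  · -- NPP
    have := factA_mixed h.rot hδ h2lo h2hi h3lo h3hi h1lo h1hi hP2 hP3 hN1
    rw [comp2XY_of_N hδ h1lo h1hi hN1, comp2XY_of_P h2lo h2hi hP2,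
      comp2XY_of_P h3lo h3hi hP3, this, cls_mul v a hne2 hne3, mul_assoc]
    exact inv_mul_cancel _
  · -- NPN
    have := factA_mixed h.swap23.flip hδ' h1lo h1hi h3lo h3hi h2lo h2hi hN1 hN3 hP2
    rw [comp2XY_of_N hδ h1lo h1hi hN1, comp2XY_of_P h2lo h2hi hP2,
      comp2XY_of_N hδ h3lo h3hi hN3, this, cls_mul v a hne1 hne3, mul_right_comm,
      ← mul_inv]
    exact inv_mul_cancel _
  · -- NNP
    have := factA_mixed h.flip hδ' h1lo h1hi h2lo h2hi h3lo h3hi hN1 hN2 hP3
    rw [comp2XY_of_N hδ h1lo h1hi hN1, comp2XY_of_N hδ h2lo h2hi hN2,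
      comp2XY_of_P h3lo h3hi hP3, this, cls_mul v a hne1 hne2, ← mul_inv]
    exact inv_mul_cancel _
  · -- NNN
    have := factA_same h.flip hδ' h1lo h1hi h2lo h2hi h3lo h3hi hN1 hN2 hN3
    rw [comp2XY_of_N hδ h1lo h1hi hN1, comp2XY_of_N hδ h2lo h2hi hN2,
      comp2XY_of_N hδ h3lo h3hi hN3, ← mul_inv, ← mul_inv,
      ← cls_mul v a hne1 hne2, ← cls_mul v a (mul_ne_zero hne1 hne2) hne3, this,
      cls_a_sq v a ha0, inv_one]

/-- **Core theorem**: the components of three collinear points multiply to `1`. -/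
theorem comp2XY_mul (h : Coll2 a γ₁ γ₂ x₁ y₁ x₂ y₂ x₃ y₃ l n) (hδ : v (γ₁ - γ₂) = 1)
    (ha : v a < 1) (ha0 : a ≠ 0) :
    comp2XY v a γ₁ x₁ y₁ * comp2XY v a γ₁ x₂ y₂ * comp2XY v a γ₁ x₃ y₃ = 1 := by
  rcases le_or_gt 1 (v x₁) with hZ1 | h1 <;>
  rcases le_or_gt 1 (v x₂) with hZ2 | h2' <;>
  rcases le_or_gt 1 (v x₃) with hZ3 | h3
  · rw [comp2XY_of_Z hZ1, comp2XY_of_Z hZ2, comp2XY_of_Z hZ3]; simp
  · exact (factC h.swap13 hδ ha h3 hZ2 hZ1).elim
  · exact (factC h.swap12 hδ ha h2' hZ1 hZ3).elim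
  · rw [comp2XY_of_Z hZ1, one_mul]
    exact core_two h.rot hδ ha ha0 h2' h3 hZ1
  · exact (factC h hδ ha h1 hZ2 hZ3).elim
  · rw [comp2XY_of_Z hZ2, mul_one]
    exact core_two h.swap23 hδ ha ha0 h1 h3 hZ2
  · rw [comp2XY_of_Z hZ3, mul_one]
    exact core_two h hδ ha ha0 h1 h2' hZ3
  · -- all three at the node
    rcases le_or_gt (v x₁) (v a) with hM1 | hlo1
    · exact core_three_M h hδ ha ha0 hM1 h2' h3
    rcases le_or_gt (v x₂) (v a) with hM2 | hlo2
    · have := core_three_M h.swap12 hδ ha ha0 hM2 h1 h3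
      rw [mul_comm (comp2XY v a γ₁ x₁ y₁)]; exact this
    rcases le_or_gt (v x₃) (v a) with hM3 | hlo3
    · have := core_three_M h.rot' hδ ha ha0 hM3 h1 h2'
      rw [mul_comm, ← mul_assoc]; exact this
    exact core_three_mid h hδ ha0 hlo1 h1 hlo2 h2' hlo3 h3

end Fermat.Agent.S13.Comp2

end
-- ===== PACK-END S13/Comp2XY.lean

-- ===== PACK-BEGIN S14/H937/Lift.lean
section



/-!
# Lifting decomposition-group elements along a closed normal subgroup of a profinite group

Companion of `Fermat.Agent.S13.H175.exists_inertia_lift` (helper175): `G` profinite acting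
continuously on a discrete commutative ring `B`, `N` a closed normal subgroup, `Q` a prime of `B`.
If `g₀ ∈ G` stabilises `Q ∩ B^N` then some `σ ∈ g₀ N` stabilises `Q`.
-/

set_option autoImplicit false

open scoped Pointwise

namespace Fermat.Agent.S14.H937

universe u

variable {B : Type*} [CommRing B]
variable {G : Type u} [Group G] [MulSemiringAction G B]
variable [TopologicalSpace G] [CompactSpace G] [TotallyDisconnectedSpace G]
variable [IsTopologicalGroup G] [TopologicalSpace B] [DiscreteTopology B] [ContinuousSMul G B]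

theorem exists_stabilizer_lift (N : Subgroup G) [hn : N.Normal] (hN : IsClosed (N : Set G))
    (Q : Ideal B) [hQ : Q.IsPrime] (g₀ : G)
    (h₀ : ∀ x : B, (∀ n ∈ N, n • x = x) → (g₀ • x ∈ Q ↔ x ∈ Q)) :
    ∃ σ : G, g₀⁻¹ * σ ∈ N ∧ σ • Q = Q := by
  have : CompactSpace N := isCompact_iff_compactSpace.mp hN.isCompact
  have := Fermat.Agent.S13.H175.isInvariant_fixedPoints (B := B) N
  have hunder : (g₀ • Q).under (FixedPoints.subalgebra ℤ B N) =
      Q.under (FixedPoints.subalgebra ℤ B N) := by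
    ext ⟨x, hx⟩
    have hx' : ∀ n ∈ N, n • x = x := fun n hn' => hx ⟨n, hn'⟩
    simp only [Ideal.mem_comap]
    show x ∈ g₀ • Q ↔ x ∈ Q
    rw [Ideal.mem_pointwise_smul_iff_inv_smul_mem]
    have hy : ∀ n ∈ N, n • (g₀⁻¹ • x) = g₀⁻¹ • x :=
      Fermat.Agent.S13.H175.smul_mem_fixedPoints N g₀⁻¹ hx'
    have h1 := h₀ _ hy
    rw [smul_inv_smul] at h1
    exact h1.symm
  obtain ⟨n, hn1⟩ := Algebra.IsInvariant.exists_smul_of_under_eq_of_profinite
    (A := FixedPoints.subalgebra ℤ B N) (G := N) (g₀ • Q) Q hunder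
  refine ⟨(n : G) * g₀, ?_, ?_⟩
  · have h2 := hn.conj_mem _ n.2 g₀⁻¹
    simpa [mul_assoc] using h2
  · rw [mul_smul]
    exact hn1.symm

end Fermat.Agent.S14.H937

end
-- ===== PACK-END S14/H937/Lift.lean

-- ===== PACK-BEGIN S15/H242/NodalCount.lean
section


/-!
# S15, piece P-LOC (helper242), part 2: counting the nonsingular points of a nodal cubic

Let `W` be a Weierstrass cubic over a finite field `k` with `Δ = 0` and `c₄ ≠ 0` (a nodal cubic).
Then the group `W.Point` of nonsingular points has `#k - 1` or `#k + 1` elements.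

Proof: the lines through the singular point `(x₀, y₀)` parametrise the nonsingular affine points:
`t ↦ (x₀ + g t, y₀ + t * g t)` with `g t = t² + a₁ t - (3 x₀ + a₂)`, for the slopes `t` with
`g t ≠ 0`; and `g` has `0` or `2` roots in `k` since its discriminant `b₂ + 12 x₀` is nonzero
(its square is `c₄`).
-/

set_option autoImplicit false

namespace Fermat.Agent.S15.H242

open WeierstrassCurve WeierstrassCurve.Affine

variable {k : Type*} [Field k] (W : Affine k)

/-- The quadratic whose roots are the slopes of the tangent lines at the singular point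
with `x`-coordinate `x₀`. -/
def nodeQuad (x₀ t : k) : k := t ^ 2 + W.a₁ * t - (3 * x₀ + W.a₂)

variable {W}
variable {x₀ y₀ : k}

/-- The Weierstrass equation in coordinates centred at a singular point. -/
theorem equation_translate (hF : W.Equation x₀ y₀)
    (hFx : W.a₁ * y₀ - (3 * x₀ ^ 2 + 2 * W.a₂ * x₀ + W.a₄) = 0)
    (hFy : 2 * y₀ + W.a₁ * x₀ + W.a₃ = 0) (X Y : k) :
    W.Equation (x₀ + X) (y₀ + Y) ↔ Y ^ 2 + W.a₁ * X * Y - (3 * x₀ + W.a₂) * X ^ 2 = X ^ 3 := by
  rw [Affine.equation_iff] at hF ⊢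
  constructor
  · intro h
    linear_combination h - hF - X * hFx - Y * hFy
  · intro h
    linear_combination h + hF + X * hFx + Y * hFy

/-- The point with slope parameter `t` is a nonsingular point of `W` as soon as `g t ≠ 0`. -/
theorem nonsingular_param (hF : W.Equation x₀ y₀)
    (hFx : W.a₁ * y₀ - (3 * x₀ ^ 2 + 2 * W.a₂ * x₀ + W.a₄) = 0)
    (hFy : 2 * y₀ + W.a₁ * x₀ + W.a₃ = 0) {t : k} (ht : nodeQuad W x₀ t ≠ 0) :
    W.Nonsingular (x₀ + nodeQuad W x₀ t) (y₀ + t * nodeQuad W x₀ t) := by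
  have hE : W.Equation (x₀ + nodeQuad W x₀ t) (y₀ + t * nodeQuad W x₀ t) := by
    rw [equation_translate hF hFx hFy]
    have hg : nodeQuad W x₀ t = t ^ 2 + W.a₁ * t - (3 * x₀ + W.a₂) := rfl
    linear_combination (-(nodeQuad W x₀ t) ^ 2) * hg
  rw [Affine.nonsingular_iff]
  refine ⟨hE, ?_⟩
  by_contra hcon
  push Not at hcon
  obtain ⟨h1, h2⟩ := hcon
  have hE' := (equation_translate hF hFx hFy _ _).mp hE
  have h3 : (nodeQuad W x₀ t) ^ 3 = 0 := by
    linear_combination (-(nodeQuad W x₀ t)) * h1 + (nodeQuad W x₀ t) * hFx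
      - (t * nodeQuad W x₀ t) * h2 + (t * nodeQuad W x₀ t) * hFy + 2 * hE'
  exact ht (pow_eq_zero_iff (by norm_num) |>.mp h3)

/-- Every nonsingular point of `W` is of the form `(x₀ + g t, y₀ + t * g t)` with `g t ≠ 0`. -/
theorem exists_param (hF : W.Equation x₀ y₀)
    (hFx : W.a₁ * y₀ - (3 * x₀ ^ 2 + 2 * W.a₂ * x₀ + W.a₄) = 0)
    (hFy : 2 * y₀ + W.a₁ * x₀ + W.a₃ = 0) {x y : k} (h : W.Nonsingular x y) :
    ∃ t : k, nodeQuad W x₀ t ≠ 0 ∧ x = x₀ + nodeQuad W x₀ t ∧ y = y₀ + t * nodeQuad W x₀ t := by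
  have hE : W.Equation (x₀ + (x - x₀)) (y₀ + (y - y₀)) := by
    have := h.1
    rwa [add_sub_cancel, add_sub_cancel]
  have hE' := (equation_translate hF hFx hFy _ _).mp hE
  have hX : x - x₀ ≠ 0 := by
    intro hX0
    rw [hX0] at hE'
    have hY : y - y₀ = 0 := by
      have : (y - y₀) ^ 2 = 0 := by linear_combination hE'
      exact pow_eq_zero_iff (by norm_num) |>.mp this
    have hx : x = x₀ := sub_eq_zero.mp hX0
    have hy : y = y₀ := sub_eq_zero.mp hY
    subst hx hy
    rw [Affine.nonsingular_iff] at h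
    rcases h.2 with h' | h'
    · exact h' (by linear_combination hFx)
    · exact h' (by linear_combination hFy)
  refine ⟨(y - y₀) / (x - x₀), ?_, ?_, ?_⟩
  all_goals
    have hg : nodeQuad W x₀ ((y - y₀) / (x - x₀)) = x - x₀ := by
      unfold nodeQuad
      field_simp
      linear_combination hE'
  · rw [hg]; exact hX
  · rw [hg]; ring
  · rw [hg]; field_simp; ring

/-- The tangent quadratic has no root or exactly two roots. -/
theorem ncard_roots_nodeQuad (hd : W.b₂ + 12 * x₀ ≠ 0) :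
    {t : k | nodeQuad W x₀ t = 0}.ncard = 0 ∨ {t : k | nodeQuad W x₀ t = 0}.ncard = 2 := by
  by_cases hex : ∃ r, nodeQuad W x₀ r = 0
  · right
    obtain ⟨r, hr⟩ := hex
    have hne : r ≠ -W.a₁ - r := by
      intro h
      apply hd
      have h' : 2 * r + W.a₁ = 0 := by linear_combination h
      simp only [WeierstrassCurve.b₂]
      unfold nodeQuad at hr
      linear_combination (2 * r + W.a₁) * h' - 4 * hr
    have hset : {t : k | nodeQuad W x₀ t = 0} = {r, -W.a₁ - r} := by
      ext t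
      simp only [Set.mem_ofPred_eq, Set.mem_insert_iff, Set.mem_singleton_iff]
      have hfac : nodeQuad W x₀ t = (t - r) * (t - (-W.a₁ - r)) := by
        unfold nodeQuad at hr ⊢
        linear_combination hr
      rw [hfac, mul_eq_zero, sub_eq_zero, sub_eq_zero]
    rw [hset]
    exact Set.ncard_pair hne
  · left
    have : {t : k | nodeQuad W x₀ t = 0} = ∅ := by
      ext t
      simp only [Set.mem_ofPred_eq, Set.mem_empty_iff_false, iff_false]
      exact fun h => hex ⟨t, h⟩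
    rw [this, Set.ncard_empty]

/-- The parametrisation of `W.Point` by `Option {t // g t ≠ 0}`. -/
noncomputable def nodeParam (hF : W.Equation x₀ y₀)
    (hFx : W.a₁ * y₀ - (3 * x₀ ^ 2 + 2 * W.a₂ * x₀ + W.a₄) = 0)
    (hFy : 2 * y₀ + W.a₁ * x₀ + W.a₃ = 0) : Option {t : k // nodeQuad W x₀ t ≠ 0} → W.Point
  | none => 0
  | some t => Point.some _ _ (nonsingular_param hF hFx hFy t.2)

theorem nodeParam_bijective (hF : W.Equation x₀ y₀)
    (hFx : W.a₁ * y₀ - (3 * x₀ ^ 2 + 2 * W.a₂ * x₀ + W.a₄) = 0)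
    (hFy : 2 * y₀ + W.a₁ * x₀ + W.a₃ = 0) : Function.Bijective (nodeParam hF hFx hFy) := by
  constructor
  · rintro (_ | ⟨t, ht⟩) (_ | ⟨t', ht'⟩) h
    · rfl
    · exact absurd h.symm (Point.some_ne_zero _)
    · exact absurd h (Point.some_ne_zero _)
    · simp only [nodeParam, Point.some.injEq] at h
      obtain ⟨h1, h2⟩ := h
      have hg : nodeQuad W x₀ t = nodeQuad W x₀ t' := add_left_cancel h1
      have h3 : t * nodeQuad W x₀ t = t' * nodeQuad W x₀ t := by
        have := add_left_cancel h2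
        rwa [← hg] at this
      have : t = t' := mul_right_cancel₀ ht h3
      subst this
      rfl
  · rintro (_ | ⟨x, y, h⟩)
    · exact ⟨none, rfl⟩
    · obtain ⟨t, ht, hx, hy⟩ := exists_param hF hFx hFy h
      refine ⟨some ⟨t, ht⟩, ?_⟩
      simp only [nodeParam, Point.some.injEq]
      exact ⟨hx.symm, hy.symm⟩

/-- **Point count of a nodal cubic**, given the singular point. -/
theorem natCard_point_of_singular [Finite k] (hF : W.Equation x₀ y₀)
    (hFx : W.a₁ * y₀ - (3 * x₀ ^ 2 + 2 * W.a₂ * x₀ + W.a₄) = 0)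
    (hFy : 2 * y₀ + W.a₁ * x₀ + W.a₃ = 0) (hc : W.c₄ ≠ 0) :
    Nat.card W.Point + 1 = Nat.card k ∨ Nat.card W.Point = Nat.card k + 1 := by
  have hd : W.b₂ + 12 * x₀ ≠ 0 := by
    intro h
    apply hc
    rw [c₄_eq_of_singular W hFx hFy, h]
    ring
  have hcard : Nat.card W.Point = Nat.card {t : k // nodeQuad W x₀ t ≠ 0} + 1 := by
    rw [← Nat.card_eq_of_bijective _ (nodeParam_bijective hF hFx hFy), Finite.card_option]
  have hcompl : {t : k | nodeQuad W x₀ t = 0}.ncard + {t : k | nodeQuad W x₀ t ≠ 0}.ncard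
      = Nat.card k := by
    have := Set.ncard_add_ncard_compl {t : k | nodeQuad W x₀ t = 0}
    rwa [show {t : k | nodeQuad W x₀ t = 0}ᶜ = {t : k | nodeQuad W x₀ t ≠ 0} from rfl] at this
  have hsub : Nat.card {t : k // nodeQuad W x₀ t ≠ 0} = {t : k | nodeQuad W x₀ t ≠ 0}.ncard :=
    Nat.card_coe_set_eq _
  rcases ncard_roots_nodeQuad (W := W) hd with h0 | h2
  · right
    rw [hcard, hsub]
    omega
  · left
    rw [hcard, hsub]
    omega

/-- **Point count of a nodal cubic** over a finite field: `#W.Point = #k - 1` or `#k + 1`. -/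
theorem natCard_point_nodal [Finite k] (hc : W.c₄ ≠ 0) (hΔ : W.Δ = 0) :
    Nat.card W.Point + 1 = Nat.card k ∨ Nat.card W.Point = Nat.card k + 1 :=
  natCard_point_of_singular (sing_F W hc hΔ) (sing_Fx W hc hΔ) (sing_Fy W hc) hc

/-- The order of a point on a nodal cubic over a finite field with `q` elements divides
`q - 1` or `q + 1`. -/
theorem addOrderOf_dvd_of_nodal [DecidableEq k] [Finite k] (hc : W.c₄ ≠ 0) (hΔ : W.Δ = 0) (P : W.Point) :
    addOrderOf P ∣ Nat.card k - 1 ∨ addOrderOf P ∣ Nat.card k + 1 := by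
  have h := addOrderOf_dvd_natCard P
  rcases natCard_point_nodal hc hΔ with h1 | h1
  · left
    have : Nat.card W.Point = Nat.card k - 1 := by omega
    rwa [this] at h
  · right
    rwa [h1] at h

end Fermat.Agent.S15.H242

end
-- ===== PACK-END S15/H242/NodalCount.lean

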