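import Mathlib
import Fermat.Prelude.Def_AlgebraicCurve_Correspondence
import Fermat.Prelude.Def_ModularCurve_X0ModL
import Mathlib.Data.Nat.Factorization.Induction
import Mathlib.Algebra.Squarefree.Basic
import Mathlib.Data.Nat.Squarefree
import Fermat.Prelude.Def_ModularCurve_JqCoeff
import Fermat.Prelude.Def_EllipticCurve_FrobeniusTrace
import Fermat.Prelude.Def_FLTPrelim_Modularity
import Fermat.Prelude.Def_ModularForm_HeckeOperatorForms
import Fermat.Prelude.Def_ModularCurve_LaurentCoeff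
import Fermat.Agent.Pack.S44.G0E5L1
import Fermat.Agent.Pack.S44.G0E5L2
import Fermat.Agent.Pack.S44.G0E0L1
import Fermat.Agent.Pack.S44.G0E5L3
import Fermat.Agent.Pack.S44.G0E6L1
import Fermat.Agent.Pack.S44.G0E6L2
import Fermat.Agent.Pack.S44.G0E0L3
import Fermat.Agent.Pack.S44.G0E1L0
import Fermat.Agent.Pack.S44.G0E6L0
import Fermat.Agent.Pack.S44.G0E1L3
import Fermat.Agent.Pack.S44.G0E5L0

-- ===== PACK-BEGIN S24/H624/Moebius.lean
section


/-!
# Order of vanishing under Möbius transformations; the rotation lemma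
-/

set_option autoImplicit false

namespace Fermat.Agent.S24.H624

open UpperHalfPlane Complex
open scoped Manifold Topology MatrixGroups

/-- The Möbius map of `g` on `ℂ` (junk where the denominator vanishes). -/
noncomputable def moeb (g : GL (Fin 2) ℝ) (z : ℂ) : ℂ := num g z / denom g z

theorem moeb_coe {g : GL (Fin 2) ℝ} (hg : 0 < g.det.val) (τ : ℍ) :
    moeb g (τ : ℂ) = ((g • τ : ℍ) : ℂ) :=
  (coe_smul_of_det_pos hg τ).symm

theorem hasDerivAt_num (g : GL (Fin 2) ℝ) (z : ℂ) :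
    HasDerivAt (num g) ((g 0 0 : ℝ) : ℂ) z := by
  have h : HasDerivAt (fun w : ℂ => ((g 0 0 : ℝ) : ℂ) * w + ((g 0 1 : ℝ) : ℂ))
      (((g 0 0 : ℝ) : ℂ) * 1) z :=
    ((hasDerivAt_id z).const_mul _).add_const _
  rw [mul_one] at h
  exact h

theorem hasDerivAt_denom (g : GL (Fin 2) ℝ) (z : ℂ) :
    HasDerivAt (denom g) ((g 1 0 : ℝ) : ℂ) z := by
  have h : HasDerivAt (fun w : ℂ => ((g 1 0 : ℝ) : ℂ) * w + ((g 1 1 : ℝ) : ℂ))
      (((g 1 0 : ℝ) : ℂ) * 1) z :=
    ((hasDerivAt_id z).const_mul _).add_const _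
  rw [mul_one] at h
  exact h

theorem det_eq (g : GL (Fin 2) ℝ) :
    ((g.det.val : ℝ) : ℂ) = (g 0 0 : ℂ) * (g 1 1 : ℂ) - (g 0 1 : ℂ) * (g 1 0 : ℂ) := by
  rw [Matrix.GeneralLinearGroup.val_det_apply, Matrix.det_fin_two]
  push_cast
  rfl

theorem hasDerivAt_moeb (g : GL (Fin 2) ℝ) {z : ℂ} (hz : denom g z ≠ 0) :
    HasDerivAt (moeb g) (((g.det.val : ℝ) : ℂ) / denom g z ^ 2) z := by
  have h := (hasDerivAt_num g z).div (hasDerivAt_denom g z) hz
  have e : (((g 0 0 : ℝ) : ℂ) * denom g z - num g z * ((g 1 0 : ℝ) : ℂ)) / denom g z ^ 2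
      = ((g.det.val : ℝ) : ℂ) / denom g z ^ 2 := by
    rw [det_eq]
    congr 1
    simp only [num, denom]
    ring
  rw [e] at h
  exact h

theorem analyticAt_moeb (g : GL (Fin 2) ℝ) {z : ℂ} (hz : denom g z ≠ 0) :
    AnalyticAt ℂ (moeb g) z := by
  have hn : AnalyticAt ℂ (num g) z := by
    have : num g = fun w : ℂ => ((g 0 0 : ℝ) : ℂ) * w + ((g 0 1 : ℝ) : ℂ) := by
      funext w; simp [num]
    rw [this]
    fun_prop
  have hd : AnalyticAt ℂ (denom g) z := by
    have : denom g = fun w : ℂ => ((g 1 0 : ℝ) : ℂ) * w + ((g 1 1 : ℝ) : ℂ) := by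
      funext w; simp [denom]
    rw [this]
    fun_prop
  exact hn.div hd hz

theorem deriv_moeb_ne_zero {g : GL (Fin 2) ℝ} (hg : 0 < g.det.val) {z : ℂ}
    (hz : denom g z ≠ 0) : deriv (moeb g) z ≠ 0 := by
  rw [(hasDerivAt_moeb g hz).deriv]
  refine div_ne_zero ?_ (pow_ne_zero _ hz)
  exact_mod_cast hg.ne'

theorem eventuallyEq_comp_smul {g : GL (Fin 2) ℝ} (hg : 0 < g.det.val) (f : ℍ → ℂ) (τ : ℍ) :
    ((fun z : ℍ => f (g • z)) ∘ ofComplex) =ᶠ[𝓝 (τ : ℂ)] ((f ∘ ofComplex) ∘ moeb g) := by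
  filter_upwards [isOpen_upperHalfPlaneSet.mem_nhds τ.im_pos] with z hz
  have hz' : 0 < z.im := hz
  simp only [Function.comp_apply]
  rw [ofComplex_apply_of_im_pos hz']
  have : moeb g z = ((g • (⟨z, hz'⟩ : ℍ) : ℍ) : ℂ) := moeb_coe hg ⟨z, hz'⟩
  rw [this, ofComplex_apply]

/-- Order of vanishing is invariant under Möbius transformations. -/
theorem ordAt_comp_smul {g : GL (Fin 2) ℝ} (hg : 0 < g.det.val) (f : ℍ → ℂ) (τ : ℍ) :
    ordAt τ (fun z : ℍ => f (g • z)) = ordAt (g • τ) f := by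
  have hd : denom g (τ : ℂ) ≠ 0 := denom_ne_zero g τ
  rw [ordAt_def, analyticOrderAt_congr (eventuallyEq_comp_smul hg f τ),
    analyticOrderAt_comp_of_deriv_ne_zero (analyticAt_moeb g hd) (deriv_moeb_ne_zero hg hd),
    moeb_coe hg, ordAt_def]

theorem mdiff_comp_smul {g : GL (Fin 2) ℝ} (hg : 0 < g.det.val) {f : ℍ → ℂ} (hf : MDiff f) :
    MDiff (fun z : ℍ => f (g • z)) :=
  hf.comp (mdifferentiable_smul hg)

/-- Key algebraic identity: `g z - g w = det g * (z - w) / (denom z * denom w)`. -/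
theorem moeb_sub_moeb (g : GL (Fin 2) ℝ) {z w : ℂ} (hz : denom g z ≠ 0) (hw : denom g w ≠ 0) :
    moeb g z - moeb g w = ((g.det.val : ℝ) : ℂ) * (z - w) / (denom g z * denom g w) := by
  rw [det_eq]
  unfold moeb
  rw [div_sub_div _ _ hz hw]
  congr 1
  simp only [num, denom]
  ring

/-- **Rotation lemma.** If `g` fixes `τ`, and the nonzero holomorphic function `f` is invariant
under `g`, then `(deriv of g at τ) ^ ord_τ f = 1`, i.e. `(det g / denom g τ ^ 2) ^ n = 1`. -/
theorem rotation_lemma {g : GL (Fin 2) ℝ} (hg : 0 < g.det.val) {f : ℍ → ℂ} (hf : MDiff f)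
    (hf0 : f ≠ 0) {τ : ℍ} (hτ : g • τ = τ) (hinv : ∀ z : ℍ, f (g • z) = f z) :
    (((g.det.val : ℝ) : ℂ) / denom g (τ : ℂ) ^ 2) ^ (ordAt τ f).toNat = 1 := by
  set n := (ordAt τ f).toNat with hn
  have hne := ordAt_ne_top hf hf0 τ
  have hord : analyticOrderAt (f ∘ ofComplex) (τ : ℂ) = (n : ℕ∞) := by
    rw [← ordAt_def, hn, ENat.natCast_toNat hne]
  obtain ⟨u, hu, hu0, hfu⟩ :=
    ((analyticAt_of_mdiff hf τ).analyticOrderAt_eq_natCast).mp hord
  have hd : denom g (τ : ℂ) ≠ 0 := denom_ne_zero g τ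
  have hmτ : moeb g (τ : ℂ) = (τ : ℂ) := by rw [moeb_coe hg, hτ]
  have hmcont : ContinuousAt (moeb g) (τ : ℂ) := (analyticAt_moeb g hd).continuousAt
  -- near τ: f ∘ ofComplex ∘ moeb = f ∘ ofComplex
  have h1 : ∀ᶠ z in 𝓝 (τ : ℂ), (f ∘ ofComplex) (moeb g z) = (f ∘ ofComplex) z := by
    filter_upwards [eventuallyEq_comp_smul hg f τ] with z hz
    have := hz
    simp only [Function.comp_apply] at this ⊢
    rw [← this, hinv]
  -- near τ: moeb z is near τ so factorization applies at moeb z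
  have h2 : ∀ᶠ z in 𝓝 (τ : ℂ), (f ∘ ofComplex) (moeb g z)
      = (moeb g z - (τ : ℂ)) ^ n • u (moeb g z) := by
    have : Filter.Tendsto (moeb g) (𝓝 (τ : ℂ)) (𝓝 (τ : ℂ)) := by
      have := hmcont.tendsto
      rwa [hmτ] at this
    exact this.eventually hfu
  have h3 : ∀ᶠ z in 𝓝 (τ : ℂ), denom g z ≠ 0 :=
    (hasDerivAt_denom g _).continuousAt.eventually_ne hd
  set c : ℂ := ((g.det.val : ℝ) : ℂ) with hc
  -- on a punctured neighbourhood: (c / (denom z * denom τ))^n * u (moeb z) = u z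
  have h4 : ∀ᶠ z in 𝓝[≠] (τ : ℂ),
      (c / (denom g z * denom g (τ : ℂ))) ^ n * u (moeb g z) = u z := by
    have hall := (h1.and (h2.and (h3.and hfu)))
    filter_upwards [hall.filter_mono nhdsWithin_le_nhds, self_mem_nhdsWithin] with z hz hzne
    obtain ⟨e1, e2, e3, e4⟩ := hz
    have hzne' : z - (τ : ℂ) ≠ 0 := sub_ne_zero.mpr hzne
    have e5 : moeb g z - (τ : ℂ) = c * (z - (τ : ℂ)) / (denom g z * denom g (τ : ℂ)) := by
      have := moeb_sub_moeb g e3 hd
      rwa [hmτ] at this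
    rw [e2, e4, e5] at e1
    simp only [smul_eq_mul] at e1
    have e6 : c * (z - (τ : ℂ)) / (denom g z * denom g (τ : ℂ))
        = (z - (τ : ℂ)) * (c / (denom g z * denom g (τ : ℂ))) := by ring
    rw [e6, mul_pow, mul_assoc] at e1
    exact mul_left_cancel₀ (pow_ne_zero n hzne') e1
  -- pass to the limit
  have hL : Filter.Tendsto (fun z => (c / (denom g z * denom g (τ : ℂ))) ^ n * u (moeb g z))
      (𝓝[≠] (τ : ℂ)) (𝓝 ((c / (denom g (τ : ℂ) * denom g (τ : ℂ))) ^ n * u (τ : ℂ))) := by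
    have hcd : ContinuousAt (fun z => (c / (denom g z * denom g (τ : ℂ))) ^ n) (τ : ℂ) := by
      have hden : ContinuousAt (fun z => denom g z * denom g (τ : ℂ)) (τ : ℂ) :=
        ((hasDerivAt_denom g _).continuousAt).mul continuousAt_const
      exact ((continuousAt_const.div hden (mul_ne_zero hd hd))).pow n
    have hu' : ContinuousAt (fun z => u (moeb g z)) (τ : ℂ) := by
      have : ContinuousAt u (moeb g (τ : ℂ)) := by rw [hmτ]; exact hu.continuousAt
      exact ContinuousAt.comp (f := moeb g) (g := u) this hmcont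
    have hmul : ContinuousAt
        (fun z => (c / (denom g z * denom g (τ : ℂ))) ^ n * u (moeb g z)) (τ : ℂ) := hcd.mul hu'
    have := hmul.tendsto
    simp only [hmτ] at this
    exact this.mono_left nhdsWithin_le_nhds
  have hR : Filter.Tendsto u (𝓝[≠] (τ : ℂ)) (𝓝 (u (τ : ℂ))) :=
    hu.continuousAt.tendsto.mono_left nhdsWithin_le_nhds
  have hlim := tendsto_nhds_unique (hL.congr' h4) hR
  have hfin : (c / (denom g (τ : ℂ) * denom g (τ : ℂ))) ^ n = 1 := by
    have := mul_right_cancel₀ hu0 (hlim.trans (one_mul _).symm)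
    exact this
  rw [← hfin, sq]

end Fermat.Agent.S24.H624

end
-- ===== PACK-END S24/H624/Moebius.lean

-- ===== PACK-BEGIN S24/Inf/Unique.lean
section


/-!
# S24 / MOD-INF — uniqueness of convergent Laurent expansions, the expansion ring
-/

set_option autoImplicit false

noncomputable section

open HahnSeries ModularCurve UpperHalfPlane Complex
open scoped Real

namespace Fermat.Agent.S24

/-- A power series converging to `0` on the punctured unit disc has zero constant coefficient. -/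
theorem inf_coeff_zero_eq_zero_of_hasSum_zero (a : ℕ → ℂ)
    (h : ∀ z : ℂ, z ≠ 0 → ‖z‖ < 1 → HasSum (fun n => a n * z ^ n) 0) : a 0 = 0 := by
  have hhalf : HasSum (fun n => a n * ((1 / 2 : ℝ) : ℂ) ^ n) 0 :=
    h _ (by norm_num) (by rw [Complex.norm_real]; norm_num)
  have hs1 : Summable (fun n => ‖a (n + 1)‖ * (1 / 2 : ℝ) ^ n) := by
    have h1 : Summable (fun n => ‖a n * ((1 / 2 : ℝ) : ℂ) ^ n‖) := hhalf.summable.norm
    have h2 := (summable_nat_add_iff 1).mpr h1
    have h3 := h2.mul_left 2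
    refine h3.congr fun n => ?_
    rw [norm_mul, norm_pow, Complex.norm_real, pow_succ]
    simp only [Real.norm_eq_abs]
    rw [abs_of_pos (by norm_num : (0 : ℝ) < 1 / 2)]
    ring
  set C : ℝ := ∑' n, ‖a (n + 1)‖ * (1 / 2 : ℝ) ^ n with hC
  have hC0 : 0 ≤ C := tsum_nonneg fun n => by positivity
  have key : ∀ t : ℝ, 0 < t → t ≤ 1 / 2 → ‖a 0‖ ≤ t * C := by
    intro t ht0 ht
    have hz : HasSum (fun n => a n * ((t : ℝ) : ℂ) ^ n) 0 :=
      h _ (by exact_mod_cast ht0.ne') (by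
        rw [Complex.norm_real, Real.norm_eq_abs, abs_of_pos ht0]; linarith)
    have hz' := (hasSum_nat_add_iff' 1).mpr hz
    simp only [Finset.range_one, Finset.sum_singleton, pow_zero, mul_one, zero_sub] at hz'
    have hb : HasSum (fun n => t * (‖a (n + 1)‖ * (1 / 2 : ℝ) ^ n)) (t * C) :=
      hs1.hasSum.mul_left t
    have := hz'.norm_le_of_bounded hb (fun n => by
      rw [norm_mul, norm_pow, Complex.norm_real, Real.norm_eq_abs, abs_of_pos ht0, pow_succ]
      have : t ^ n ≤ (1 / 2 : ℝ) ^ n := pow_le_pow_left₀ ht0.le ht n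
      have h0 : 0 ≤ ‖a (n + 1)‖ := norm_nonneg _
      calc ‖a (n + 1)‖ * (t ^ n * t) = t * (‖a (n + 1)‖ * t ^ n) := by ring
        _ ≤ t * (‖a (n + 1)‖ * (1 / 2 : ℝ) ^ n) := by gcongr)
    rwa [norm_neg] at this
  by_contra hne
  have hpos : 0 < ‖a 0‖ := norm_pos_iff.mpr hne
  set t : ℝ := min (1 / 2) (‖a 0‖ / (2 * (C + 1))) with ht
  have ht0 : 0 < t := lt_min (by norm_num) (by positivity)
  have ht1 : t ≤ 1 / 2 := min_le_left _ _
  have ht2 : t ≤ ‖a 0‖ / (2 * (C + 1)) := min_le_right _ _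
  have h1 := key t ht0 ht1
  have h2 : t * C ≤ ‖a 0‖ / (2 * (C + 1)) * C := by gcongr
  have h3 : ‖a 0‖ / (2 * (C + 1)) * C < ‖a 0‖ := by
    rw [div_mul_eq_mul_div, div_lt_iff₀ (by positivity)]
    nlinarith
  linarith

variable {N : ℕ} [NeZero N]

theorem InfPExp.coeff_zero_eq_zero {ψ : PowerSeries ℂ} (h : InfPExp N (fun _ => 0) ψ) :
    PowerSeries.coeff 0 ψ = 0 := by
  refine inf_coeff_zero_eq_zero_of_hasSum_zero (fun n => PowerSeries.coeff n ψ) ?_
  intro z hz hz1
  obtain ⟨τ, rfl⟩ := exists_infZ_eq N hz hz1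
  exact h τ

/-- Uniqueness of the expansion: only the zero series converges to the zero function. -/
theorem InfExp.eq_zero {φ : LaurentSeries ℂ} (h : InfExp N (fun _ => 0) φ) : φ = 0 := by
  by_contra hφ
  have h1 := h.powerSeriesPart
  simp only [mul_zero] at h1
  have h2 := h1.coeff_zero_eq_zero
  rw [LaurentSeries.powerSeriesPart_coeff] at h2
  simp only [Nat.cast_zero, add_zero] at h2
  exact hφ (coeff_order_eq_zero.mp h2)

theorem InfExp.unique {f : ℍ → ℂ} {φ ψ : LaurentSeries ℂ} (hφ : InfExp N f φ)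
    (hψ : InfExp N f ψ) : φ = ψ := by
  have h := hφ.sub hψ
  simp only [sub_self] at h
  exact sub_eq_zero.mp h.eq_zero

theorem InfExp.unique' {f g : ℍ → ℂ} {φ ψ : LaurentSeries ℂ} (hφ : InfExp N f φ)
    (hψ : InfExp N g ψ) (hfg : ∀ τ, f τ = g τ) : φ = ψ :=
  (hφ.congr hfg).unique hψ

variable (N) in
/-- The ring of functions on `ℍ` admitting a convergent Laurent expansion in
`z = exp (2πiτ/N)` (finitely many negative exponents). -/
def expRing : Subring (ℍ → ℂ) where
  carrier := {f | ∃ φ, InfExp N f φ}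
  mul_mem' := by
    rintro f g ⟨φ, hφ⟩ ⟨ψ, hψ⟩
    exact ⟨φ * ψ, hφ.mul hψ⟩
  one_mem' := ⟨1, InfExp.one⟩
  add_mem' := by
    rintro f g ⟨φ, hφ⟩ ⟨ψ, hψ⟩
    exact ⟨φ + ψ, hφ.add hψ⟩
  zero_mem' := ⟨0, InfExp.zero⟩
  neg_mem' := by
    rintro f ⟨φ, hφ⟩
    exact ⟨-φ, hφ.neg⟩

theorem mem_expRing {f : ℍ → ℂ} : f ∈ expRing N ↔ ∃ φ, InfExp N f φ := Iff.rfl

theorem InfExp.mem_expRing {f : ℍ → ℂ} {φ : LaurentSeries ℂ} (h : InfExp N f φ) :
    f ∈ expRing N := ⟨φ, h⟩

variable (N) in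
/-- The expansion at `∞` as a function. -/
def expInfFun (f : expRing N) : LaurentSeries ℂ := Classical.choose f.2

theorem expInfFun_spec (f : expRing N) : InfExp N (f : ℍ → ℂ) (expInfFun N f) :=
  Classical.choose_spec f.2

theorem InfExp.expInfFun_eq {f : ℍ → ℂ} {φ : LaurentSeries ℂ} (h : InfExp N f φ) :
    expInfFun N ⟨f, h.mem_expRing⟩ = φ :=
  (expInfFun_spec _).unique h

variable (N) in
/-- The expansion at `∞` as a ring homomorphism. -/
def expInf : expRing N →+* LaurentSeries ℂ where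
  toFun := expInfFun N
  map_one' := (expInfFun_spec (1 : expRing N)).unique InfExp.one
  map_mul' f g := (expInfFun_spec (f * g)).unique ((expInfFun_spec f).mul (expInfFun_spec g))
  map_zero' := (expInfFun_spec (0 : expRing N)).unique InfExp.zero
  map_add' f g := (expInfFun_spec (f + g)).unique ((expInfFun_spec f).add (expInfFun_spec g))

theorem expInf_spec (f : expRing N) : InfExp N (f : ℍ → ℂ) (expInf N f) :=
  expInfFun_spec f

theorem InfExp.expInf_eq {f : ℍ → ℂ} {φ : LaurentSeries ℂ} (h : InfExp N f φ) :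
    expInf N ⟨f, h.mem_expRing⟩ = φ :=
  h.expInfFun_eq

theorem expInf_injective : Function.Injective (expInf N) := by
  intro f g hfg
  apply Subtype.ext
  have hf := expInf_spec f
  have hg := expInf_spec g
  rw [hfg] at hf
  exact hf.fun_unique hg

instance expRing_isDomain : IsDomain (expRing N) :=
  Function.Injective.isDomain (expInf N) expInf_injective

end Fermat.Agent.S24

end
end
-- ===== PACK-END S24/Inf/Unique.lean

-- ===== PACK-BEGIN S29/H801/M1Norm.lean
section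
/-
S29 / M1 (helper801), part 4: norm compatibility of a commutative square of field extensions

      F  --a-->  F₁
      |i         |i₁
      v          v
      G  --a'->  G₁

from "linear disjointness": `i₁` maps `F`-linearly independent families of `F₁` to `G`-linearly
independent families of `G₁`, and `[G₁ : G] ≤ [F₁ : F]`.  (Generic; Mathlib + Prelude + H818.)
-/




set_option autoImplicit false
set_option linter.style.haveILetI false

noncomputable section

namespace Fermat.Agent.S29.H801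

open AlgebraicCurve Fermat.Agent.S37.H818

section Abstract

variable {F F₁ G G₁ : Type*} [Field F] [Field F₁] [Field G] [Field G₁]
  [Algebra F F₁] [Algebra G G₁]

/-- Norms commute with a map of extensions which sends a basis to a basis. -/
theorem norm_map_of_basis (i : F →+* G) (i₁ : F₁ →+* G₁)
    (hsq : ∀ x : F, i₁ (algebraMap F F₁ x) = algebraMap G G₁ (i x))
    {ι : Type*} [Fintype ι] [DecidableEq ι] (b : Module.Basis ι F F₁) (b' : Module.Basis ι G G₁)
    (hb : ∀ k, b' k = i₁ (b k)) (f : F₁) :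
    Algebra.norm G (i₁ f) = i (Algebra.norm F f) := by
  rw [Algebra.norm_eq_matrix_det b', Algebra.norm_eq_matrix_det b, RingHom.map_det]
  congr 1
  ext j k
  rw [RingHom.mapMatrix_apply, Matrix.map_apply, Algebra.leftMulMatrix_eq_repr_mul,
    Algebra.leftMulMatrix_eq_repr_mul]
  have h1 : f * b k = ∑ m, (b.repr (f * b k) m) • b m := (b.sum_repr (f * b k)).symm
  have h2 : i₁ f * b' k = ∑ m, (i (b.repr (f * b k) m)) • b' m := by
    rw [hb k, ← map_mul, h1, map_sum]
    refine Finset.sum_congr rfl fun m _ => ?_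
    rw [Algebra.smul_def, map_mul, hsq, hb m, Algebra.smul_def]
    congr 2
    rw [← h1]
  rw [h2, map_sum]
  simp only [map_smul, Module.Basis.repr_self, Finsupp.coe_finsetSum, Finsupp.coe_smul,
    Finset.sum_apply, Pi.smul_apply, Finsupp.single_apply, smul_eq_mul, mul_ite, mul_one,
    mul_zero, Finset.sum_ite_eq', Finset.mem_univ, if_true]

/-- Norm compatibility from preservation of linear independence and a rank bound. -/
theorem norm_map_of_linearIndependent [Module.Finite F F₁] [Module.Finite G G₁]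
    (i : F →+* G) (i₁ : F₁ →+* G₁)
    (hsq : ∀ x : F, i₁ (algebraMap F F₁ x) = algebraMap G G₁ (i x))
    (hrk : Module.finrank G G₁ ≤ Module.finrank F F₁)
    (hLD : ∀ (n : ℕ) (b : Fin n → F₁), LinearIndependent F b → LinearIndependent G (i₁ ∘ b))
    (f : F₁) :
    Algebra.norm G (i₁ f) = i (Algebra.norm F f) := by
  classical
  set n := Module.finrank F F₁ with hn
  let b : Module.Basis (Fin n) F F₁ := Module.finBasis F F₁
  have hli : LinearIndependent G (i₁ ∘ b) := hLD n b b.linearIndependent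
  have hcard : Fintype.card (Fin n) = Module.finrank G G₁ := by
    have h1 := hli.fintype_card_le_finrank
    rw [Fintype.card_fin] at h1 ⊢
    omega
  haveI : Nonempty (Fin n) := ⟨⟨0, by rw [hn]; exact Module.finrank_pos⟩⟩
  let b' : Module.Basis (Fin n) G G₁ := basisOfLinearIndependentOfCardEqFinrank hli hcard
  have hb : ∀ k, b' k = i₁ (b k) := fun k => by
    simp only [b', coe_basisOfLinearIndependentOfCardEqFinrank, Function.comp_apply]
  exact norm_map_of_basis i i₁ hsq b b' hb f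

/-- Norm compatibility from a rank bound and generation: the image of `i₁` spans `G₁` over `G`
and `[F₁ : F] ≤ [G₁ : G]`. -/
theorem norm_map_of_span [Module.Finite F F₁] [Module.Finite G G₁]
    (i : F →+* G) (i₁ : F₁ →+* G₁)
    (hsq : ∀ x : F, i₁ (algebraMap F F₁ x) = algebraMap G G₁ (i x))
    (hrk : Module.finrank F F₁ ≤ Module.finrank G G₁)
    (hspan : Submodule.span G (Set.range i₁) = ⊤) (f : F₁) :
    Algebra.norm G (i₁ f) = i (Algebra.norm F f) := by
  classical
  set n := Module.finrank F F₁ with hn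
  let b : Module.Basis (Fin n) F F₁ := Module.finBasis F F₁
  have hsp : ⊤ ≤ Submodule.span G (Set.range (i₁ ∘ b)) := by
    rw [← hspan, Submodule.span_le]
    rintro _ ⟨x, rfl⟩
    have hx : x = ∑ k, b.repr x k • b k := (b.sum_repr x).symm
    rw [hx, map_sum]
    refine Submodule.sum_mem _ fun k _ => ?_
    rw [Algebra.smul_def, map_mul, hsq, ← Algebra.smul_def]
    exact Submodule.smul_mem _ _ (Submodule.subset_span ⟨k, rfl⟩)
  have hcard : Fintype.card (Fin n) = Module.finrank G G₁ := by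
    have h1 : Module.finrank G G₁ ≤ Fintype.card (Fin n) := by
      have h2 := finrank_range_le_card (R := G) (i₁ ∘ b)
      have h3 : Submodule.span G (Set.range (i₁ ∘ b)) = ⊤ := top_le_iff.mp hsp
      rw [Set.finrank, h3, finrank_top] at h2
      exact h2
    rw [Fintype.card_fin] at h1 ⊢
    omega
  let b' : Module.Basis (Fin n) G G₁ := basisOfTopLeSpanOfCardEqFinrank (i₁ ∘ b) hsp hcard
  have hb : ∀ k, b' k = i₁ (b k) := fun k => by
    simp only [b', coe_basisOfTopLeSpanOfCardEqFinrank, Function.comp_apply]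
  exact norm_map_of_basis i i₁ hsq b b' hb f

end Abstract

section Along

variable {K F F₁ G G₁ : Type*} [Field K] [Field F] [Field F₁] [Field G] [Field G₁]
  [Algebra K F] [Algebra K F₁] [Algebra K G] [Algebra K G₁]

/-- **`NormCompat` from linear disjointness.** -/
theorem normCompat_of_linearIndependent
    (a : F →ₐ[K] F₁) (i : F →ₐ[K] G) (a' : G →ₐ[K] G₁) (i₁ : F₁ →ₐ[K] G₁)
    (hsq : i₁.comp a = a'.comp i)
    (hfin : FiniteAlong K a) (hfin' : FiniteAlong K a')
    (hrk : finrankAlong K a' ≤ finrankAlong K a)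
    (hLD : letI := algebraAlong a; letI := algebraAlong a';
      ∀ (n : ℕ) (b : Fin n → F₁), LinearIndependent F b → LinearIndependent G (i₁ ∘ b)) :
    NormCompat a i a' i₁ := by
  intro f
  letI := algebraAlong a
  letI := algebraAlong a'
  haveI : Module.Finite F F₁ := hfin
  haveI : Module.Finite G G₁ := hfin'
  exact norm_map_of_linearIndependent (i : F →+* G) (i₁ : F₁ →+* G₁)
    (fun x => by
      show i₁ (a x) = a' (i x)
      exact AlgHom.congr_fun hsq x)
    hrk hLD f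

/-- **`NormCompat` from generation and a rank bound.** -/
theorem normCompat_of_span
    (a : F →ₐ[K] F₁) (i : F →ₐ[K] G) (a' : G →ₐ[K] G₁) (i₁ : F₁ →ₐ[K] G₁)
    (hsq : i₁.comp a = a'.comp i)
    (hfin : FiniteAlong K a) (hfin' : FiniteAlong K a')
    (hrk : finrankAlong K a ≤ finrankAlong K a')
    (hspan : letI := algebraAlong a';
      Submodule.span G (Set.range i₁) = ⊤) :
    NormCompat a i a' i₁ := by
  intro f
  letI := algebraAlong a
  letI := algebraAlong a'
  haveI : Module.Finite F F₁ := hfin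
  haveI : Module.Finite G G₁ := hfin'
  exact norm_map_of_span (i : F →+* G) (i₁ : F₁ →+* G₁)
    (fun x => by
      show i₁ (a x) = a' (i x)
      exact AlgHom.congr_fun hsq x)
    hrk hspan f

end Along

section Sup

variable {K E : Type*} [Field K] [Field E] [Algebra K E]

/-- If `B` is algebraic over `A`, the compositum `A ⊔ B` is the `A`-span of `B`. -/
theorem mem_span_of_mem_sup (A B : IntermediateField K E)
    (halg : ∀ x ∈ B, IsAlgebraic A x) {t : E} (ht : t ∈ A ⊔ B) :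
    t ∈ Submodule.span A (B : Set E) := by
  have h1 : (IntermediateField.adjoin A (B : Set E)).restrictScalars K = A ⊔ B := by
    rw [IntermediateField.restrictScalars_adjoin_eq_sup, IntermediateField.adjoin_self]
  have h2 : t ∈ IntermediateField.adjoin A (B : Set E) := by
    have h : t ∈ (IntermediateField.adjoin A (B : Set E)).restrictScalars K := by
      rw [h1]; exact ht
    exact h
  have h3 := IntermediateField.adjoin_toSubalgebra_of_isAlgebraic halg
  have h4 : t ∈ Algebra.adjoin A (B : Set E) := by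
    rw [← h3]; exact h2
  have h5 : t ∈ Subalgebra.toSubmodule (Algebra.adjoin A (B : Set E)) := h4
  rw [Algebra.adjoin_eq_span] at h5
  have h6 : ((Submonoid.closure (B : Set E) : Submonoid E) : Set E) = (B : Set E) := by
    have := Submonoid.closure_eq B.toSubalgebra.toSubmonoid
    exact congrArg (fun S : Submonoid E => (S : Set E)) this
  rwa [h6] at h5

end Sup

end Fermat.Agent.S29.H801

end

end
-- ===== PACK-END S29/H801/M1Norm.lean

-- ===== PACK-BEGIN S24/Deg/H457_Alg.lean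
section




/-!
# S24 / DEG-ALG (helper457), part 3: the degree bound from relations over `ℂ`

Interface hypothesis `Hyp L N n` (to be proved analytically for `L = ℂ`, `n = |SL₂(ℤ)/Γ₀(N)|`):
every element of the `L`-subalgebra of `L((q))` generated by the `j(q^d)`, `d ∣ N`, is a root of a
monic polynomial of degree `n` with coefficients in `L[j]`.

Main result: `finiteDimensional_and_finrank_le`.
-/

set_option autoImplicit false

noncomputable section

open Polynomial ModularCurve IntermediateField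

namespace Fermat.Agent.S24.Deg457

section General

variable (K : Type*) [Field K] [Algebra ℚ K]

/-- `j` as a Laurent series over `K` -/
def JK : LaurentSeries K := coeffEmb K jq

theorem JK_eq : JK K = jqModC K := by
  rw [JK, coeffEmb, ← jqModC_rat, coeffMap_jqModC]

theorem aeval_JK_ne_zero {t : K[X]} (ht : t ≠ 0) : aeval (JK K) t ≠ 0 := by
  intro hp
  rw [JK_eq] at hp
  set n := t.natDegree with hn
  have hcoeff : (aeval (jqModC K) t).coeff (-(n : ℤ)) = t.coeff n := by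
    rw [aeval_def, eval₂_eq_sum_range, HahnSeries.coeff_sum, Finset.sum_eq_single n]
    · rw [algebraMap_laurentSeries_eq_single, HahnSeries.coeff_single_zero_mul,
        coeff_jqModC_pow_self, mul_one]
    · intro i hi hin
      have hilt : i < n := lt_of_le_of_ne (Nat.lt_succ_iff.mp (Finset.mem_range.mp hi)) hin
      rw [algebraMap_laurentSeries_eq_single, HahnSeries.coeff_single_zero_mul,
        coeff_jqModC_pow_of_lt, mul_zero]
      omega
    · intro hn'
      exact absurd (Finset.self_mem_range_succ n) hn'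
  rw [hp] at hcoeff
  simp only [HahnSeries.coeff_zero] at hcoeff
  exact ht (leadingCoeff_eq_zero.mp hcoeff.symm)

/-- the generators `j(q^d)`, `d ∣ N`, over `K` -/
def gens (N : ℕ) : Set (LaurentSeries K) := ⇑(coeffEmb K) '' divisorExpansions N

/-- the `K`-algebra generated by the `j(q^d)` -/
def AK (N : ℕ) : Subalgebra K (LaurentSeries K) := Algebra.adjoin K (gens K N)

theorem JK_mem_gens (N : ℕ) : JK K ∈ gens K N := by
  refine ⟨jq, ?_, rfl⟩
  have := mem_divisorExpansions N (d := 1) (one_dvd N)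
  rwa [qExpand_one_apply] at this

theorem JK_mem_AK (N : ℕ) : JK K ∈ AK K N := Algebra.subset_adjoin (JK_mem_gens K N)

theorem aeval_JK_mem_AK (N : ℕ) (t : K[X]) : aeval (JK K) t ∈ AK K N := by
  rw [aeval_def, eval₂_eq_sum_range]
  refine Subalgebra.sum_mem _ fun i _ => ?_
  exact Subalgebra.mul_mem _ (Subalgebra.algebraMap_mem _ _)
    (Subalgebra.pow_mem _ (JK_mem_AK K N) _)

/-- The interface hypothesis. -/
def Hyp (N n : ℕ) : Prop :=
  ∀ b ∈ AK K N, ∃ P : K[X][X], P.Monic ∧ P.natDegree = n ∧ P.eval₂ (evJ (JK K)) b = 0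

/-- `x` is a root of a nonzero polynomial of degree `≤ n` over `K[j]`. -/
def AlgDeg (n : ℕ) (x : LaurentSeries K) : Prop :=
  ∃ Q : K[X][X], Q ≠ 0 ∧ Q.natDegree ≤ n ∧ Q.eval₂ (evJ (JK K)) x = 0

variable {K}

theorem eval₂_mem_AK {N : ℕ} (Q : K[X][X]) {s : LaurentSeries K} (hs : s ∈ AK K N) :
    Q.eval₂ (evJ (JK K)) s ∈ AK K N := by
  rw [eval₂_eq_sum_range]
  refine Subalgebra.sum_mem _ fun i _ => ?_
  exact Subalgebra.mul_mem _ (aeval_JK_mem_AK K N _) (Subalgebra.pow_mem _ hs _)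

theorem AlgDeg.of_mul_eq {n : ℕ} {x a : LaurentSeries K} {t : K[X]} (ht : t ≠ 0)
    (hxa : x * aeval (JK K) t = a) (ha : AlgDeg K n a) : AlgDeg K n x := by
  obtain ⟨Q, hQ0, hQn, hQ⟩ := ha
  have hlin : (C t * X : K[X][X]) ≠ C ((C t * X : K[X][X]).coeff 0) := by
    intro h
    have h1 := congrArg (fun p : K[X][X] => p.coeff 1) h
    simp only [coeff_C_mul, coeff_X_one, mul_one, coeff_X_zero, mul_zero, map_zero,
      coeff_zero] at h1
    exact ht h1
  refine ⟨Q.comp (C t * X), ?_, ?_, ?_⟩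
  · intro h
    rcases (comp_eq_zero_iff.mp h) with h | ⟨_, h⟩
    · exact hQ0 h
    · exact hlin h
  · rw [natDegree_comp]
    have : (C t * X : K[X][X]).natDegree ≤ 1 := by
      refine (natDegree_C_mul_le _ _).trans ?_
      exact natDegree_X_le
    calc Q.natDegree * (C t * X : K[X][X]).natDegree ≤ Q.natDegree * 1 :=
          Nat.mul_le_mul_left _ this
      _ = Q.natDegree := mul_one _
      _ ≤ n := hQn
  · rw [eval₂_comp, eval₂_mul, eval₂_C, eval₂_X, evJ_apply, mul_comm, hxa]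
    exact hQ

/-- a nonzero algebraic element of `A` has an "inverse up to a polynomial in `j`" in `A`. -/
theorem exists_mul_eq_aeval {N n : ℕ} {s : LaurentSeries K} (hs : s ∈ AK K N) (hs0 : s ≠ 0)
    (ha : AlgDeg K n s) : ∃ g ∈ AK K N, ∃ t : K[X], t ≠ 0 ∧ s * g = aeval (JK K) t := by
  obtain ⟨Q, hQ0, -, hQ⟩ := ha
  -- strong induction on the degree to reach a nonzero constant coefficient
  have key : ∀ m : ℕ, ∀ Q : K[X][X], Q.natDegree ≤ m → Q ≠ 0 → Q.eval₂ (evJ (JK K)) s = 0 →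
      ∃ Q₁ : K[X][X], Q₁.coeff 0 ≠ 0 ∧ Q₁.eval₂ (evJ (JK K)) s = 0 := by
    intro m
    induction m with
    | zero =>
      intro Q hdeg hQ0 hQ
      refine ⟨Q, ?_, hQ⟩
      intro h0
      apply hQ0
      rw [eq_C_of_natDegree_le_zero hdeg, h0, map_zero]
    | succ m ih =>
      intro Q hdeg hQ0 hQ
      by_cases h0 : Q.coeff 0 = 0
      · have hdiv : Q = divX Q * X := by
          conv_lhs => rw [← divX_mul_X_add Q, h0, map_zero, add_zero]
        have hd0 : divX Q ≠ 0 := by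
          intro h; apply hQ0; rw [hdiv, h, zero_mul]
        have hev : (divX Q).eval₂ (evJ (JK K)) s = 0 := by
          rw [hdiv, eval₂_mul, eval₂_X] at hQ
          rcases mul_eq_zero.mp hQ with h | h
          · exact h
          · exact absurd h hs0
        refine ih (divX Q) ?_ hd0 hev
        rw [natDegree_divX_eq_natDegree_tsub_one]
        omega
      · exact ⟨Q, h0, hQ⟩
  obtain ⟨Q₁, h0, hQ₁⟩ := key Q.natDegree Q le_rfl hQ0 hQ
  refine ⟨-(divX Q₁).eval₂ (evJ (JK K)) s, Subalgebra.neg_mem _ (eval₂_mem_AK _ hs),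
    Q₁.coeff 0, h0, ?_⟩
  have hsplit : Q₁.eval₂ (evJ (JK K)) s
      = (divX Q₁).eval₂ (evJ (JK K)) s * s + aeval (JK K) (Q₁.coeff 0) := by
    conv_lhs => rw [← divX_mul_X_add Q₁]
    rw [eval₂_add, eval₂_mul, eval₂_X, eval₂_C, evJ_apply]
  rw [hQ₁] at hsplit
  linear_combination hsplit

end General

section Descent

variable {K L : Type*} [Field K] [Algebra ℚ K] [Field L] [Algebra ℚ L]

theorem coeffMap_coeffEmb' (ι : K →+* L) (y : LaurentSeries ℚ) :
    coeffMap ι (coeffEmb K y) = coeffEmb L y := by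
  rw [coeffEmb, coeffMap_coeffMap, coeffEmb]
  exact coeffMap_congr (Subsingleton.elim _ _) y

theorem coeffMap_JK (ι : K →+* L) : coeffMap ι (JK K) = JK L := coeffMap_coeffEmb' ι jq

theorem coeffMap_mem_AK (ι : K →+* L) {N : ℕ} {a : LaurentSeries K} (ha : a ∈ AK K N) :
    coeffMap ι a ∈ AK L N := by
  unfold AK at ha
  induction ha using Algebra.adjoin_induction with
  | mem x hx =>
    obtain ⟨y, hy, rfl⟩ := hx
    rw [coeffMap_coeffEmb']
    exact Algebra.subset_adjoin ⟨y, hy, rfl⟩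
  | algebraMap r =>
    rw [coeffMap_algebraMap']
    exact Subalgebra.algebraMap_mem _ _
  | add x y _ _ hx hy =>
    rw [map_add]; exact Subalgebra.add_mem _ hx hy
  | mul x y _ _ hx hy =>
    rw [map_mul]; exact Subalgebra.mul_mem _ hx hy

/-- Lemma B: elements of `A_K` are algebraic of degree `≤ n` over `K[j]`, given the hypothesis
over the bigger field `L`. -/
theorem algDeg_of_mem_AK (ι : K →+* L) {N n : ℕ} (hyp : Hyp L N n) {a : LaurentSeries K}
    (ha : a ∈ AK K N) : AlgDeg K n a := by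
  obtain ⟨P, hP, hn, h0⟩ := hyp _ (coeffMap_mem_AK ι ha)
  rw [← coeffMap_JK ι] at h0
  exact exists_relation_of_coeffMap_monic ι (JK K) a n P hP hn h0

end Descent

section Field

variable {K L : Type*} [Field K] [Algebra ℚ K] [Field L] [Algebra ℚ L]

theorem coeffEmb_mem_adjoin_gens (N : ℕ) {y : LaurentSeries ℚ}
    (hy : y ∈ IntermediateField.adjoin ℚ (divisorExpansions N)) :
    coeffEmb K y ∈ IntermediateField.adjoin K (gens K N) := by
  refine IntermediateField.adjoin_induction ℚ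
    (p := fun y _ => coeffEmb K y ∈ IntermediateField.adjoin K (gens K N)) ?_ ?_ ?_ ?_ ?_ hy
  · intro x hx
    exact IntermediateField.subset_adjoin K _ ⟨x, hx, rfl⟩
  · intro c
    have : coeffEmb K (algebraMap ℚ (LaurentSeries ℚ) c)
        = algebraMap K (LaurentSeries K) (algebraMap ℚ K c) := by
      rw [coeffEmb, coeffMap_algebraMap']
    rw [this]
    exact IntermediateField.algebraMap_mem _ _
  · intro x y _ _ hx hy
    rw [map_add]; exact add_mem hx hy
  · intro x _ hx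
    rw [map_inv₀]; exact inv_mem hx
  · intro x y _ _ hx hy
    rw [map_mul]; exact mul_mem hx hy

/-- the base-changed function field is generated over `K` by the `j(q^d)`. -/
theorem laurentBaseChange_full_le (N : ℕ) :
    laurentBaseChange K (modularFunctionFieldFull N) ≤ IntermediateField.adjoin K (gens K N) := by
  rw [laurentBaseChange, IntermediateField.adjoin_le_iff]
  rintro _ ⟨y, hy, rfl⟩
  exact coeffEmb_mem_adjoin_gens N hy

/-- Lemma H: every element of the function field is algebraic of degree `≤ n` over `K[j]`. -/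
theorem algDeg_of_mem_field (ι : K →+* L) {N n : ℕ} (hyp : Hyp L N n) {x : LaurentSeries K}
    (hx : x ∈ laurentBaseChange K (modularFunctionFieldFull N)) : AlgDeg K n x := by
  have hx' := laurentBaseChange_full_le (K := K) N hx
  rw [IntermediateField.mem_adjoin_iff_div] at hx'
  obtain ⟨r, hr, s, hs, rfl⟩ := hx'
  have hr' : r ∈ AK K N := hr
  have hs' : s ∈ AK K N := hs
  by_cases hs0 : s = 0
  · subst hs0
    rw [div_zero]
    exact algDeg_of_mem_AK ι hyp (Subalgebra.zero_mem _)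
  · obtain ⟨g, hg, t, ht, hst⟩ := exists_mul_eq_aeval hs' hs0 (algDeg_of_mem_AK ι hyp hs')
    refine AlgDeg.of_mul_eq (a := r * g) ht ?_ (algDeg_of_mem_AK ι hyp (Subalgebra.mul_mem _ hr' hg))
    rw [← hst]
    field_simp

end Field

end Fermat.Agent.S24.Deg457

end
end
-- ===== PACK-END S24/Deg/H457_Alg.lean

-- ===== PACK-BEGIN S20/Comb694/Index.lean
section





/-!
# The index of `Gamma0 N` in `SL(2,ℤ)` is the Dedekind psi function

* `index_Gamma0 : (Gamma0 N).index = ModularCurve.dedekindPsi N` (all `N`, including `N = 0`)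
* `card_quotient_Gamma0 : Nat.card (SL(2,ℤ) ⧸ Gamma0 N) = ModularCurve.dedekindPsi N`
-/

set_option autoImplicit false

namespace Fermat.Agent.S20.Comb694

open Matrix MatrixGroups CongruenceSubgroup

lemma dedekindPsi_prime_mul_of_dvd (p M : ℕ) (hp : p.Prime) (hM : M ≠ 0) (h : p ∣ M) :
    ModularCurve.dedekindPsi (p * M) = p * ModularCurve.dedekindPsi M := by
  unfold ModularCurve.dedekindPsi
  have hset : (p * M).divisors.filter Squarefree = M.divisors.filter Squarefree := by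
    ext d
    simp only [Finset.mem_filter, Nat.mem_divisors]
    constructor
    · rintro ⟨⟨hd, -⟩, hsq⟩
      refine ⟨⟨?_, hM⟩, hsq⟩
      by_cases hpd : p ∣ d
      · obtain ⟨d', rfl⟩ := hpd
        have hd' : d' ∣ M := (Nat.mul_dvd_mul_iff_left hp.pos).mp hd
        have hcop : Nat.Coprime p d' := by
          rw [Nat.Prime.coprime_iff_not_dvd hp]
          intro hpd'
          have h2 : p * p ∣ p * d' := Nat.mul_dvd_mul_left p hpd'
          have h3 := hsq p h2
          exact hp.one_lt.ne' (Nat.isUnit_iff.mp h3)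
        exact Nat.Coprime.mul_dvd_of_dvd_of_dvd hcop h hd'
      · exact Nat.Coprime.dvd_of_dvd_mul_left
          ((Nat.Prime.coprime_iff_not_dvd hp).mpr hpd).symm hd
    · rintro ⟨⟨hd, -⟩, hsq⟩
      exact ⟨⟨dvd_mul_of_dvd_right hd p, mul_ne_zero hp.ne_zero hM⟩, hsq⟩
  rw [hset, Finset.mul_sum]
  refine Finset.sum_congr rfl fun d hd => ?_
  have hd' : d ∣ M := (Nat.mem_divisors.mp (Finset.mem_filter.mp hd).1).1
  exact Nat.mul_div_assoc p hd'

lemma dedekindPsi_prime_mul_of_not_dvd (p M : ℕ) (hp : p.Prime) (hM : M ≠ 0) (h : ¬ p ∣ M) :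
    ModularCurve.dedekindPsi (p * M) = (p + 1) * ModularCurve.dedekindPsi M := by
  unfold ModularCurve.dedekindPsi
  rw [← Finset.sum_filter_add_sum_filter_not ((p * M).divisors.filter Squarefree) (fun d => p ∣ d)]
  have hset1 : ((p * M).divisors.filter Squarefree).filter (fun d => ¬ p ∣ d)
      = M.divisors.filter Squarefree := by
    ext d
    simp only [Finset.mem_filter, Nat.mem_divisors]
    constructor
    · rintro ⟨⟨⟨hd, -⟩, hsq⟩, hpd⟩
      exact ⟨⟨Nat.Coprime.dvd_of_dvd_mul_left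
        ((Nat.Prime.coprime_iff_not_dvd hp).mpr hpd).symm hd, hM⟩, hsq⟩
    · rintro ⟨⟨hd, -⟩, hsq⟩
      exact ⟨⟨⟨dvd_mul_of_dvd_right hd p, mul_ne_zero hp.ne_zero hM⟩, hsq⟩,
        fun hpd => h (dvd_trans hpd hd)⟩
  have hset2 : ((p * M).divisors.filter Squarefree).filter (fun d => p ∣ d)
      = (M.divisors.filter Squarefree).image (fun d => p * d) := by
    ext d
    simp only [Finset.mem_filter, Nat.mem_divisors, Finset.mem_image]
    constructor
    · rintro ⟨⟨⟨hd, -⟩, hsq⟩, ⟨d', rfl⟩⟩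
      exact ⟨d', ⟨⟨(Nat.mul_dvd_mul_iff_left hp.pos).mp hd, hM⟩, hsq.of_mul_right⟩, rfl⟩
    · rintro ⟨d', ⟨⟨hd', -⟩, hsq'⟩, rfl⟩
      have hcop : Nat.Coprime p d' :=
        (Nat.Prime.coprime_iff_not_dvd hp).mpr fun hpd => h (dvd_trans hpd hd')
      exact ⟨⟨⟨Nat.mul_dvd_mul_left p hd', mul_ne_zero hp.ne_zero hM⟩,
        (Nat.squarefree_mul hcop).mpr ⟨hp.prime.squarefree, hsq'⟩⟩, dvd_mul_right _ _⟩
  rw [hset1, hset2, Finset.sum_image (fun x _ y _ hxy => Nat.eq_of_mul_eq_mul_left hp.pos hxy),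
    add_mul, one_mul, Finset.mul_sum, add_comm]
  congr 1
  · refine Finset.sum_congr rfl fun d hd => ?_
    have hd' : d ∣ M := (Nat.mem_divisors.mp (Finset.mem_filter.mp hd).1).1
    exact Nat.mul_div_assoc p hd'
  · refine Finset.sum_congr rfl fun d hd => ?_
    exact Nat.mul_div_mul_left M d hp.pos

lemma Gamma0_one_eq_top : Gamma0 1 = ⊤ := by
  ext g
  simp only [Gamma0_mem, Subgroup.mem_top, iff_true]
  exact Subsingleton.elim _ _

lemma index_Gamma0_zero : (Gamma0 0).index = 0 := by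
  rw [Subgroup.index]
  haveI : Infinite (SL(2, ℤ) ⧸ Gamma0 0) := by
    refine Infinite.of_injective
      (fun t : ℤ => (QuotientGroup.mk (lowRep t) : SL(2, ℤ) ⧸ Gamma0 0)) ?_
    intro t t' h
    simp only at h
    rw [mk_eq_mk_iff] at h
    simp only [lowRep_apply_zero_zero, lowRep_apply_one_zero, Int.cast_one, one_mul,
      mul_one] at h
    have h' : ((t' - t : ℤ) : ZMod 0) = 0 := h
    have h'' := (ZMod.intCast_zmod_eq_zero_iff_dvd (t' - t) 0).mp h'
    simp only [Nat.cast_zero, zero_dvd_iff] at h''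
    exact (sub_eq_zero.mp h'').symm
  exact Nat.card_eq_zero_of_infinite

lemma dedekindPsi_zero : ModularCurve.dedekindPsi 0 = 0 := by
  simp [ModularCurve.dedekindPsi]

/-- **(I1)** The index of `Γ₀(N)` in `SL(2,ℤ)` is `ψ(N)` (for `N ≠ 0`). -/
theorem index_Gamma0_of_ne_zero (N : ℕ) (hN : N ≠ 0) :
    (Gamma0 N).index = ModularCurve.dedekindPsi N := by
  induction N using induction_on_primes with
  | zero => exact absurd rfl hN
  | one => rw [ModularCurve.dedekindPsi_one, Gamma0_one_eq_top, Subgroup.index_top]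
  | prime_mul p M hp ih =>
    have hM : M ≠ 0 := fun h => hN (by rw [h, mul_zero])
    rw [← Subgroup.relIndex_mul_index (Gamma0_mul_le p M), ih hM]
    by_cases h : p ∣ M
    · rw [relIndex_Gamma0_of_dvd p M hM hp h, dedekindPsi_prime_mul_of_dvd p M hp hM h]
    · rw [relIndex_Gamma0_of_not_dvd p M hM hp h, dedekindPsi_prime_mul_of_not_dvd p M hp hM h]

/-- **(I1)** The index of `Γ₀(N)` in `SL(2,ℤ)` is `ψ(N)` (all `N`; both sides are `0` for
`N = 0`). -/
theorem index_Gamma0 (N : ℕ) : (Gamma0 N).index = ModularCurve.dedekindPsi N := by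
  rcases eq_or_ne N 0 with rfl | hN
  · rw [index_Gamma0_zero, dedekindPsi_zero]
  · exact index_Gamma0_of_ne_zero N hN

/-- **(I1)** `#(SL(2,ℤ) ⧸ Γ₀(N)) = ψ(N)`. -/
theorem card_quotient_Gamma0 (N : ℕ) :
    Nat.card (SL(2, ℤ) ⧸ Gamma0 N) = ModularCurve.dedekindPsi N :=
  index_Gamma0 N

end Fermat.Agent.S20.Comb694

end
-- ===== PACK-END S20/Comb694/Index.lean

-- ===== PACK-BEGIN S28/H867/GFun.lean
section



set_option autoImplicit false
noncomputable section

namespace Fermat.Agent.S28.H867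

section GFun

theorem gFun_one : gFun 1 = 1 := by
  simp [gFun]

theorem gFun_pos (N : ℕ) : 0 < gFun N := by
  unfold gFun
  apply Finset.prod_pos
  intro p hp
  have hp' := Nat.prime_of_mem_primeFactors hp
  exact Nat.mul_pos (Nat.succ_pos _) (pow_pos hp'.pos _)

theorem gFun_mul_of_dvd {M p : ℕ} (hM : M ≠ 0) (hp : p.Prime) (hpM : p ∣ M) :
    gFun (M * p) = p * gFun M := by
  unfold gFun
  have hpf : (M * p).primeFactors = M.primeFactors := by
    rw [Nat.primeFactors_mul hM hp.ne_zero, hp.primeFactors, Finset.union_eq_left,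
      Finset.singleton_subset_iff]
    exact Nat.mem_primeFactors.mpr ⟨hp, hpM, hM⟩
  have hpmem : p ∈ M.primeFactors := Nat.mem_primeFactors.mpr ⟨hp, hpM, hM⟩
  rw [hpf, ← Finset.mul_prod_erase _ _ hpmem, ← Finset.mul_prod_erase _ _ hpmem]
  have hv : 1 ≤ M.factorization p := (hp.dvd_iff_one_le_factorization hM).mp hpM
  have h1 : (M * p).factorization p = M.factorization p + 1 := by
    rw [Nat.factorization_mul hM hp.ne_zero]
    simp [hp.factorization]
  have h2 : ∀ q ∈ M.primeFactors.erase p, (M * p).factorization q = M.factorization q := by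
    intro q hq
    rw [Nat.factorization_mul hM hp.ne_zero]
    have hqp : q ≠ p := Finset.ne_of_mem_erase hq
    simp [hp.factorization, Finsupp.single_apply, hqp.symm]
  rw [Finset.prod_congr rfl fun q hq => by rw [h2 q hq], h1]
  have h3 : M.factorization p + 1 - 1 = (M.factorization p - 1) + 1 := by omega
  rw [h3, pow_succ]
  ring

theorem gFun_mul_of_not_dvd {M p : ℕ} (hM : M ≠ 0) (hp : p.Prime) (hpM : ¬ p ∣ M) :
    gFun (M * p) = (p + 1) * gFun M := by
  unfold gFun
  have hpnmem : p ∉ M.primeFactors := fun h => hpM (Nat.dvd_of_mem_primeFactors h)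
  have hpf : (M * p).primeFactors = insert p M.primeFactors := by
    rw [Nat.primeFactors_mul hM hp.ne_zero, hp.primeFactors, Finset.union_comm]
    rfl
  rw [hpf, Finset.prod_insert hpnmem]
  have h1 : (M * p).factorization p = 1 := by
    rw [Nat.factorization_mul hM hp.ne_zero]
    simp [hp.factorization, Nat.factorization_eq_zero_of_not_dvd hpM]
  have h2 : ∀ q ∈ M.primeFactors, (M * p).factorization q = M.factorization q := by
    intro q hq
    rw [Nat.factorization_mul hM hp.ne_zero]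
    have hqp : q ≠ p := fun h => hpnmem (h ▸ hq)
    simp [hp.factorization, Finsupp.single_apply, hqp.symm]
  rw [Finset.prod_congr rfl fun q hq => by rw [h2 q hq], h1]
  simp

theorem gFun_prime {p : ℕ} (hp : p.Prime) : gFun p = p + 1 := by
  have := gFun_mul_of_not_dvd (M := 1) one_ne_zero hp (by simpa using hp.one_lt.ne')
  rwa [one_mul, gFun_one, mul_one] at this

end GFun

end Fermat.Agent.S28.H867

end
end
-- ===== PACK-END S28/H867/GFun.lean

-- ===== PACK-BEGIN S28/H25/ThetaFormal.lean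
section




/-!
# The `θ`-identity for `j`, formal part (helper25, S28 piece [A-θ])

`(θ j)⁶ = Δ · j⁴ · (j - 1728)³` in `ℤ((q))`, for the Prelude's formal `j = jqModC ℤ`,
`Δ = q · dedekindEtaUnit`, `θ = q d/dq`, assuming the two bridges
* `qExpansion 1 E₄ = eisenstein4` (proved here) and
* `qExpansion 1 Δ = X * dedekindEtaUnit` (hypothesis `DeltaBridge`).
-/

set_option autoImplicit false

open UpperHalfPlane hiding I
open ModularForm EisensteinSeries ModularCurve
open scoped MatrixGroups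

noncomputable section

namespace Fermat.Agent.S28.H25

section thetaP

variable {R : Type*} [CommRing R]

theorem thetaP_mul (f g : PowerSeries R) :
    thetaP (f * g) = thetaP f * g + f * thetaP g := by
  unfold thetaP
  rw [Derivation.leibniz]
  simp only [smul_eq_mul]
  ring

theorem thetaP_X : thetaP (PowerSeries.X : PowerSeries R) = PowerSeries.X := by
  unfold thetaP
  rw [PowerSeries.derivative_X, mul_one]

theorem thetaP_pow_three (f : PowerSeries R) :
    thetaP (f ^ 3) = 3 * f ^ 2 * thetaP f := by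
  have : f ^ 3 = f * (f * f) := by ring
  rw [this, thetaP_mul, thetaP_mul]
  ring

theorem thetaP_map {S : Type*} [CommRing S] (φ : R →+* S) (f : PowerSeries R) :
    thetaP (f.map φ) = (thetaP f).map φ := by
  ext n
  simp [coeff_thetaP]

end thetaP

/-- Pure algebra: the `θ`-identity from the two analytic relations, over a field. -/
theorem theta_identity_of_relations {K : Type*} [Field K]
    (E e6 et eti u : PowerSeries K) (h0 : et * eti = 1) (hu : u = E ^ 3 * eti)
    (hi : E ^ 3 - e6 ^ 2 = 1728 * (PowerSeries.X * et))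
    (hii : 3 * E ^ 2 * thetaP E * (PowerSeries.X * et) - E ^ 3 * thetaP (PowerSeries.X * et) =
      - (E ^ 2 * e6 * (PowerSeries.X * et))) :
    (thetaP u - u) ^ 6 = et * u ^ 4 * (u - 1728 * PowerSeries.X) ^ 3 := by
  have heta : et ≠ 0 := by
    rintro rfl
    simp at h0
  have hX : (PowerSeries.X : PowerSeries K) ≠ 0 := PowerSeries.X_ne_zero
  have hueta : u * et = E ^ 3 := by
    rw [hu]
    linear_combination E ^ 3 * h0
  have hθ : thetaP u * et + u * thetaP et = 3 * E ^ 2 * thetaP E := by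
    rw [← thetaP_mul, hueta, thetaP_pow_three]
  have hbr : 3 * E ^ 2 * thetaP E * et - E ^ 3 * et - E ^ 3 * thetaP et + E ^ 2 * e6 * et = 0 := by
    have h1 : PowerSeries.X * (3 * E ^ 2 * thetaP E * et - E ^ 3 * et - E ^ 3 * thetaP et
        + E ^ 2 * e6 * et) = 0 := by
      rw [thetaP_mul, thetaP_X] at hii
      linear_combination hii
    rcases mul_eq_zero.mp h1 with h | h
    · exact absurd h hX
    · exact h
  have h1 : (thetaP u - u) * et = - (E ^ 2 * e6) := by
    apply mul_right_cancel₀ heta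
    linear_combination et * hθ + hbr - (thetaP et + et) * hueta
  have h2 : e6 ^ 2 = et * (u - 1728 * PowerSeries.X) := by
    linear_combination -hi - hueta
  have h3 : ((thetaP u - u) * et) ^ 6 = et ^ 6 * (et * u ^ 4 * (u - 1728 * PowerSeries.X) ^ 3) := by
    calc ((thetaP u - u) * et) ^ 6 = (- (E ^ 2 * e6)) ^ 6 := by rw [h1]
      _ = (E ^ 3) ^ 4 * (e6 ^ 2) ^ 3 := by ring
      _ = (u * et) ^ 4 * (et * (u - 1728 * PowerSeries.X)) ^ 3 := by rw [hueta, h2]
      _ = et ^ 6 * (et * u ^ 4 * (u - 1728 * PowerSeries.X) ^ 3) := by ring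
  apply mul_left_cancel₀ (pow_ne_zero 6 heta)
  rw [← h3]
  ring

/-- Bridge B1: the `q`-expansion of `E₄` is the Prelude's `eisenstein4`. -/
theorem qExpansion_E4_eq_eisenstein4 :
    qExpansion 1 E₄ = eisenstein4.map (Int.castRingHom ℂ) := by
  ext m
  rw [E_qExpansion_coeff _ ⟨2, rfl⟩]
  simp only [eisenstein4, PowerSeries.coeff_map, PowerSeries.coeff_mk]
  split_ifs with h
  · simp
  · norm_num [show bernoulli 4 = -1 / 30 by decide +kernel, ArithmeticFunction.sigma_apply]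

/-- Bridge B2 (to be supplied): the `q`-expansion of `Δ` is `q ∏ (1 - qⁿ)²⁴`. -/
def DeltaBridge : Prop :=
  qExpansion 1 ModularForm.discriminant =
    PowerSeries.X * dedekindEtaUnit.map (Int.castRingHom ℂ)

/-- The `θ`-identity in `ℤ⟦q⟧`: with `u = q · j = E₄³ / ∏(1-qⁿ)²⁴`,
`(θ u - u)⁶ = ∏(1-qⁿ)²⁴ · u⁴ · (u - 1728 q)³`. -/
theorem theta_identity_powerSeries (hΔ : DeltaBridge) :
    (thetaP jNum - jNum) ^ 6 =
      dedekindEtaUnit * jNum ^ 4 * (jNum - 1728 * PowerSeries.X) ^ 3 := by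
  have hinj : Function.Injective (PowerSeries.map (Int.castRingHom ℂ)) := by
    intro f g hfg
    ext n
    have := congrArg (PowerSeries.coeff n) hfg
    simpa using this
  apply hinj
  have hΔ' : qExpansion 1 ModularForm.discriminant =
      PowerSeries.X * dedekindEtaUnit.map (Int.castRingHom ℂ) := hΔ
  have h := theta_identity_of_relations (K := ℂ) (eisenstein4.map (Int.castRingHom ℂ))
    (qExpansion 1 E₆) (dedekindEtaUnit.map (Int.castRingHom ℂ))
    (dedekindEtaUnitInv.map (Int.castRingHom ℂ)) (jNum.map (Int.castRingHom ℂ))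
    (by rw [← map_mul, dedekindEtaUnit_mul_inv, map_one])
    (by rw [jNum, map_mul, map_pow])
    (by rw [← qExpansion_E4_eq_eisenstein4, ← hΔ']; exact qExp_E4_cube_sub_E6_sq)
    (by rw [← qExpansion_E4_eq_eisenstein4, ← hΔ']; exact qExp_theta_relation)
  simp only [map_pow, map_mul, map_sub, map_ofNat, PowerSeries.map_X, ← thetaP_map]
  exact h

end Fermat.Agent.S28.H25

end
end
-- ===== PACK-END S28/H25/ThetaFormal.lean

-- ===== PACK-BEGIN Lib/Cheb/H476/FrobAt.lean
section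





/-!
# CHEB piece F6 (bridge), part 1: Frobenius elements at a GIVEN valuation subring of `ℚ̄`

`exists_frobenius_at`: for every valuation subring `A` of `ℚ̄` over a prime number `ℓ` there is
`σ ∈ Gal(ℚ̄/ℚ)` which is a Frobenius element at `A`, and which satisfies `σ x ≡ x ^ ℓ` modulo
the prime of `ℤ̄` below `A`.

Also: elementwise descriptions of Frobenius elements and of the inertia group.
-/

set_option autoImplicit false

open scoped Pointwise

namespace Fermat.Agent.Lib.Cheb.H476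

open Fermat.Agent.Lib.Cheb.Spec

/-- Frobenius elements exist at every valuation subring of `ℚ̄` over a prime number. -/
theorem exists_frobenius_at (ℓ : ℕ) (hℓ : ℓ.Prime) (A : ValuationSubring Qb)
    (hA : A.LiesOverPrime ℓ) :
    ∃ σ : GQ, A.IsFrobeniusAt σ ℓ ∧
      ∀ x : integralClosure ℤ Qb, σ • x - x ^ ℓ ∈ Fermat.Agent.S54.primeBelow A := by
  have : Algebra.IsAlgebraic ℚ (AlgebraicClosure ℚ) := AlgebraicClosure.isAlgebraic ℚ
  have := Fermat.Agent.S54.primeBelow_isPrime A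
  have hℓQ : (ℓ : integralClosure ℤ (AlgebraicClosure ℚ)) ∈ Fermat.Agent.S54.primeBelow A := by
    rw [Fermat.Agent.S54.mem_primeBelow]
    exact hA
  obtain ⟨σ, hσQ', hσF⟩ :=
    Fermat.Agent.S54.exists_frob_integralClosure ℓ hℓ (Fermat.Agent.S54.primeBelow A) hℓQ
  have hσQ : ∀ x, σ • x ∈ Fermat.Agent.S54.primeBelow A ↔
      x ∈ Fermat.Agent.S54.primeBelow A := by
    intro x
    conv_lhs => rw [← hσQ']
    exact Ideal.smul_mem_pointwise_smul_iff
  have key : ∀ τ : AlgebraicClosure ℚ ≃ₐ[ℚ] AlgebraicClosure ℚ,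
      (∀ x, τ • x ∈ Fermat.Agent.S54.primeBelow A ↔ x ∈ Fermat.Agent.S54.primeBelow A) →
      ∀ x ∈ A, τ x ∈ A := by
    intro τ hτ x hx
    obtain ⟨b, s, hb, hs, hsA, hxs⟩ :=
      (Fermat.Agent.S54.mem_valuationSubring_iff A ℓ hℓ hA x).mp hx
    refine (Fermat.Agent.S54.mem_valuationSubring_iff A ℓ hℓ hA (τ x)).mpr
      ⟨τ b, τ s, hb.map τ, hs.map τ, ?_, ?_⟩
    · exact (hτ ⟨s, hs⟩).not.mpr hsA
    · rw [← map_mul, hxs]
  have hσA : σ ∈ A.decompositionSubgroup ℚ := by
    rw [MulAction.mem_stabilizer_iff]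
    ext x
    rw [ValuationSubring.mem_smul_pointwise_iff_exists]
    constructor
    · rintro ⟨s, hs, rfl⟩
      exact key σ hσQ s hs
    · intro hx
      refine ⟨σ⁻¹ • x, key σ⁻¹ ?_ x hx, by simp⟩
      intro y
      rw [← hσQ (σ⁻¹ • y)]
      simp
  refine ⟨σ, ⟨hσA, ?_⟩, hσF⟩
  intro x
  obtain ⟨a, rfl⟩ := IsLocalRing.residue_surjective x
  obtain ⟨b, s, hb, hs, hsA, hxs⟩ :=
    (Fermat.Agent.S54.mem_valuationSubring_iff A ℓ hℓ hA a).mp a.2
  have hbA : b ∈ A := Fermat.Agent.S54.isIntegral_mem_valuationSubring A hb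
  have hsA' : s ∈ A := Fermat.Agent.S54.isIntegral_mem_valuationSubring A hs
  have hint : ∀ (y : AlgebraicClosure ℚ) (hy : IsIntegral ℤ y),
      (⟨σ, hσA⟩ : A.decompositionSubgroup ℚ) •
        IsLocalRing.residue A ⟨y, Fermat.Agent.S54.isIntegral_mem_valuationSubring A hy⟩ =
      (IsLocalRing.residue A ⟨y, Fermat.Agent.S54.isIntegral_mem_valuationSubring A hy⟩) ^ ℓ := by
    intro y hy
    rw [← IsLocalRing.ResidueField.residue_smul, ← map_pow, ← sub_eq_zero, ← map_sub,
      IsLocalRing.residue_eq_zero_iff, ← ValuationSubring.coe_mem_nonunits_iff]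
    exact hσF ⟨y, hy⟩
  have h1 : IsLocalRing.residue A a * IsLocalRing.residue A ⟨s, hsA'⟩ =
      IsLocalRing.residue A ⟨b, hbA⟩ := by
    rw [← map_mul]
    congr 1
    exact Subtype.ext hxs
  have h2 : IsLocalRing.residue A ⟨s, hsA'⟩ ≠ 0 := by
    rw [Ne, IsLocalRing.residue_eq_zero_iff, ← ValuationSubring.coe_mem_nonunits_iff]
    exact hsA
  have h3 := congrArg (fun z => (⟨σ, hσA⟩ : A.decompositionSubgroup ℚ) • z) h1
  simp only [smul_mul'] at h3
  rw [hint s hs, hint b hb, ← h1, mul_pow] at h3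
  exact mul_right_cancel₀ (pow_ne_zero _ h2) h3

/-- Elements of the inertia group move elements of the valuation ring by nonunits. -/
theorem sub_mem_nonunits_of_mem_inertia (A : ValuationSubring Qb) (ι : GQ)
    (hι : ι ∈ A.inertiaSubgroupIn ℚ) (a : Qb) (ha : a ∈ A) : ι a - a ∈ A.nonunits := by
  obtain ⟨ι', hι', rfl⟩ := hι
  have h1 : ι' • IsLocalRing.residue A ⟨a, ha⟩ = IsLocalRing.residue A ⟨a, ha⟩ := by
    have := congrArg (fun f => f (IsLocalRing.residue A ⟨a, ha⟩)) (MonoidHom.mem_ker.mp hι')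
    simpa using this
  rw [← IsLocalRing.ResidueField.residue_smul, ← sub_eq_zero, ← map_sub,
    IsLocalRing.residue_eq_zero_iff, ← ValuationSubring.coe_mem_nonunits_iff] at h1
  exact h1

end Fermat.Agent.Lib.Cheb.H476

end
-- ===== PACK-END Lib/Cheb/H476/FrobAt.lean

-- ===== PACK-BEGIN S52/H621/ManinCard.lean
section




/-!
# S52 / Part A: Manin's count in terms of `WeierstrassCurve.card` / `traceOfFrobenius`
-/

set_option autoImplicit false

open Polynomial

namespace Fermat.Agent.S52.H621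

section

variable {F : Type*} [Field F]

/-- points of a Weierstrass curve with `Δ ≠ 0` = solutions of the equation + the point at
infinity -/
noncomputable def pointEquivOption (W : WeierstrassCurve.Affine F) (hΔ : W.Δ ≠ 0) :
    W.Point ≃ Option {q : F × F // W.Equation q.1 q.2} where
  toFun
    | .zero => none
    | .some x y h => some ⟨(x, y), h.1⟩
  invFun
    | none => .zero
    | some q => .some q.1.1 q.1.2 ((W.equation_iff_nonsingular_of_Δ_ne_zero hΔ).mp q.2)
  left_inv := by rintro (_ | _) <;> rfl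
  right_inv := by rintro (_ | _) <;> rfl

theorem card_point_eq [Finite F] (W : WeierstrassCurve.Affine F) (hΔ : W.Δ ≠ 0) :
    Nat.card W.Point = Nat.card {q : F × F // W.Equation q.1 q.2} + 1 := by
  rw [Nat.card_congr (pointEquivOption W hΔ), Finite.card_option]

end

variable (p : ℕ) [Fact p.Prime]

/-- The short Weierstrass curve `y² = x³ + A x + B`. -/
def shortW (A B : ZMod p) : WeierstrassCurve (ZMod p) := ⟨0, 0, 0, A, B⟩

theorem shortW_Δ (A B : ZMod p) : (shortW p A B).Δ = -16 * (4 * A ^ 3 + 27 * B ^ 2) := by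
  simp only [shortW, WeierstrassCurve.Δ, WeierstrassCurve.b₂, WeierstrassCurve.b₄,
    WeierstrassCurve.b₆, WeierstrassCurve.b₈]
  ring

theorem shortW_equation (A B x y : ZMod p) :
    (shortW p A B).toAffine.Equation x y ↔ y ^ 2 = x ^ 3 + A * x + B := by
  rw [WeierstrassCurve.Affine.equation_iff]
  simp [shortW]

theorem shortW_card (A B : ZMod p) (hΔ : (shortW p A B).Δ ≠ 0) :
    (shortW p A B).card
      = Nat.card {q : ZMod p × ZMod p // q.2 ^ 2 = q.1 ^ 3 + A * q.1 + B} + 1 := by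
  rw [WeierstrassCurve.card, card_point_eq _ hΔ]
  congr 1
  apply Nat.card_congr
  exact Equiv.subtypeEquivRight fun q => shortW_equation p A B q.1 q.2

/-- **A2c**, curve form: `deg x(Frob P₀ - P₀) = #E(F_p)`. -/
theorem ratDeg_maninFun_eq_card (hp2 : p ≠ 2) (A B : ZMod p) (hΔ : (shortW p A B).Δ ≠ 0) :
    ratDeg (maninFun p A B) = (shortW p A B).card := by
  have h : 4 * A ^ 3 + 27 * B ^ 2 ≠ 0 := by
    intro h0
    apply hΔ
    rw [shortW_Δ, h0, mul_zero]
  rw [ratDeg_maninFun p A B hp2 h, shortW_card p A B hΔ]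

/-- **A2c**, trace form: `deg x(Frob P₀ - P₀) = p + 1 - a_p`. -/
theorem ratDeg_maninFun_eq_trace (hp2 : p ≠ 2) (A B : ZMod p) (hΔ : (shortW p A B).Δ ≠ 0) :
    (ratDeg (maninFun p A B) : ℤ) = p + 1 - (shortW p A B).traceOfFrobenius := by
  rw [ratDeg_maninFun_eq_card p hp2 A B hΔ, WeierstrassCurve.traceOfFrobenius, Nat.card_zmod]
  ring

end Fermat.Agent.S52.H621

end
-- ===== PACK-END S52/H621/ManinCard.lean

-- ===== PACK-BEGIN S13/H891/LadderValid.lean
section




/-!
# S13 / T1: projective validity of the `x`-ladder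
-/

open WeierstrassCurve WeierstrassCurve.Affine
open Fermat.Agent.S51.Five (xc dD dN dD_eq dN_eq xc_add_self add_self_ne_zero_of_dD_ne_zero
  eq_or_eq_neg_of_xc_eq xc_neg xc_some)

namespace Fermat.Agent.S13.H891

variable {K : Type*} [Field K]

lemma dblN_eq (b₄ b₆ b₈ n d : K) (hd : d ≠ 0) :
    dblN b₄ b₆ b₈ n d = d^4 * dN b₄ b₆ b₈ (n/d) := by
  simp only [dblN, dN]; field_simp

lemma dblD_eq (b₂ b₄ b₆ n d : K) (hd : d ≠ 0) :
    dblD b₂ b₄ b₆ n d = d^4 * dD b₂ b₄ b₆ (n/d) := by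
  simp only [dblD, dD]; field_simp

/-- the symmetric function `S(u,v) = (u-v)^2 (x(Q+R) + x(Q-R))` -/
def sS (b₂ b₄ b₆ u v : K) : K := 2*u*v*(u+v) + b₂*u*v + b₄*(u+v) + b₆

lemma addS_eq (b₂ b₄ b₆ n₁ d₁ n₂ d₂ : K) (h₁ : d₁ ≠ 0) (h₂ : d₂ ≠ 0) :
    addS b₂ b₄ b₆ n₁ d₁ n₂ d₂ = d₁^2 * d₂^2 * sS b₂ b₄ b₆ (n₁/d₁) (n₂/d₂) := by
  simp only [addS, sS]; field_simp

lemma addW_eq (n₁ d₁ n₂ d₂ : K) (h₁ : d₁ ≠ 0) (h₂ : d₂ ≠ 0) :
    addW n₁ d₁ n₂ d₂ = d₁ * d₂ * (n₁/d₁ - n₂/d₂) := by
  simp only [addW]; field_simp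

lemma sS_self (b₂ b₄ b₆ u : K) : sS b₂ b₄ b₆ u u = dD b₂ b₄ b₆ u := by
  simp only [sS, dD]; ring

variable [DecidableEq K] {E : WeierstrassCurve.Affine K}

/-- `N` and `D` have no common zero at the `x`-coordinate of a (nonsingular) point -/
lemma dN_ne_zero_of_dD_eq_zero {Q : E.Point} (hQ : Q ≠ 0)
    (hD : dD E.b₂ E.b₄ E.b₆ (xc Q) = 0) : dN E.b₄ E.b₆ E.b₈ (xc Q) ≠ 0 := by
  match Q with
  | .zero => exact absurd rfl hQ
  | .some x y h =>
    rw [xc_some] at hD ⊢
    intro hN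
    have hy : y - E.negY x y = 0 := by
      have := dD_eq E h.1
      rw [hD] at this
      exact pow_eq_zero_iff (by norm_num) |>.mp this.symm
    have hn := dN_eq E h.1
    rw [hN, hy] at hn
    have hn' : 3 * x ^ 2 + 2 * E.a₂ * x + E.a₄ - E.a₁ * y = 0 := by
      have : (3 * x ^ 2 + 2 * E.a₂ * x + E.a₄ - E.a₁ * y)^2 = 0 := by linear_combination -hn
      exact pow_eq_zero_iff (by norm_num) |>.mp this
    rcases (Affine.nonsingular_iff x y).mp h with ⟨-, h' | h'⟩
    · exact h' (by linear_combination -hn')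
    · exact h' (by simp only [Affine.negY] at hy; linear_combination hy)

/-- the sum formula `x(Q+R) + x(Q-R) = S(x_Q, x_R)/(x_Q - x_R)^2` -/
lemma xc_add_add_xc_sub {Q R : E.Point} (hQ : Q ≠ 0) (hR : R ≠ 0) (hx : xc Q ≠ xc R) :
    (xc (Q + R) + xc (Q - R)) * (xc Q - xc R)^2 = sS E.b₂ E.b₄ E.b₆ (xc Q) (xc R) := by
  match Q, R with
  | .zero, _ => exact absurd rfl hQ
  | _, .zero => exact absurd rfl hR
  | .some x₁ y₁ h₁, .some x₂ y₂ h₂ =>
    simp only [xc_some] at hx ⊢
    have hx' : x₁ - x₂ ≠ 0 := sub_ne_zero.mpr hx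
    rw [sub_eq_add_neg, Point.neg_some, Point.add_of_X_ne hx, Point.add_of_X_ne hx]
    simp only [xc_some]
    rw [Affine.slope_of_X_ne hx, Affine.slope_of_X_ne hx]
    have e₁ := (Affine.equation_iff x₁ y₁).mp h₁.1
    have e₂ := (Affine.equation_iff x₂ y₂).mp h₂.1
    simp only [Affine.addX, Affine.negY, sS, WeierstrassCurve.b₂, WeierstrassCurve.b₄,
      WeierstrassCurve.b₆]
    field_simp
    linear_combination (2 : K) * e₁ + (2 : K) * e₂

/-- `Rep Q n d`: `(n : d)` is a projective representative of `x(Q) ∈ ℙ¹` -/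
def Rep (Q : E.Point) (n d : K) : Prop :=
  (Q = 0 ∧ d = 0 ∧ n ≠ 0) ∨ (Q ≠ 0 ∧ d ≠ 0 ∧ xc Q * d = n)

lemma Rep.eq_zero_iff {Q : E.Point} {n d : K} (h : Rep Q n d) : Q = 0 ↔ d = 0 := by
  rcases h with ⟨h1, h2, -⟩ | ⟨h1, h2, -⟩
  · exact ⟨fun _ => h2, fun _ => h1⟩
  · exact ⟨fun h => absurd h h1, fun h => absurd h h2⟩

lemma Rep.xc_eq {Q : E.Point} {n d : K} (h : Rep Q n d) (hQ : Q ≠ 0) : xc Q = n / d := by
  rcases h with ⟨h1, -, -⟩ | ⟨-, h2, h3⟩
  · exact absurd h1 hQ
  · rw [eq_div_iff h2]; exact h3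

lemma rep_dbl {Q : E.Point} {n d : K} (h : Rep Q n d) :
    Rep (Q + Q) (dblN E.b₄ E.b₆ E.b₈ n d) (dblD E.b₂ E.b₄ E.b₆ n d) := by
  rcases h with ⟨h1, h2, h3⟩ | ⟨h1, h2, h3⟩
  · left
    refine ⟨by rw [h1, add_zero], by simp [dblD, h2], ?_⟩
    simp only [dblN, h2]
    ring_nf
    exact pow_ne_zero 4 h3
  · have hu : xc Q = n / d := by rw [eq_div_iff h2]; exact h3
    rw [dblN_eq _ _ _ _ _ h2, dblD_eq _ _ _ _ _ h2, ← hu]
    by_cases h2Q : Q + Q = 0
    · left
      have hD : dD E.b₂ E.b₄ E.b₆ (xc Q) = 0 := by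
        by_contra hD
        exact add_self_ne_zero_of_dD_ne_zero h1 hD h2Q
      refine ⟨h2Q, by rw [hD, mul_zero], ?_⟩
      exact mul_ne_zero (pow_ne_zero 4 h2) (dN_ne_zero_of_dD_eq_zero h1 hD)
    · right
      obtain ⟨hD, hX⟩ := xc_add_self h1 h2Q
      refine ⟨h2Q, mul_ne_zero (pow_ne_zero 4 h2) hD, ?_⟩
      rw [← hX]; ring

lemma rep_add {P Q R : E.Point} (hP : P ≠ 0) (hPQR : R = Q + P) {n₁ d₁ n₂ d₂ : K}
    (h₁ : Rep Q n₁ d₁) (h₂ : Rep R n₂ d₂) :
    Rep (Q + R) (addN E.b₂ E.b₄ E.b₆ (xc P) n₁ d₁ n₂ d₂) (addD n₁ d₁ n₂ d₂) := by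
  have hQR : Q ≠ R := by
    intro h
    rw [← h] at hPQR
    exact hP (by simpa using hPQR)
  rcases h₁ with ⟨hQ, hd₁, hn₁⟩ | ⟨hQ, hd₁, hn₁⟩
  · -- Q = 0, R = P
    have hRP : R = P := by rw [hPQR, hQ, zero_add]
    rcases h₂ with ⟨hR, -, -⟩ | ⟨hR, hd₂, hn₂⟩
    · exact absurd (hRP ▸ hR) hP
    · right
      rw [hRP] at hn₂
      refine ⟨by rw [hQ, zero_add]; exact hR, ?_, ?_⟩
      · simp only [addD, addW, hd₁]
        ring_nf
        exact mul_ne_zero (pow_ne_zero 2 hn₁) (pow_ne_zero 2 hd₂)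
      · rw [hQ, zero_add, hRP]
        simp only [addN, addD, addS, addW, hd₁, ← hn₂]
        ring
  · rcases h₂ with ⟨hR, hd₂, hn₂⟩ | ⟨hR, hd₂, hn₂⟩
    · -- R = 0, Q = -P
      have hQP : Q = -P := by
        rw [hR] at hPQR
        exact eq_neg_of_add_eq_zero_left hPQR.symm
      right
      refine ⟨by rw [hR, add_zero]; exact hQ, ?_, ?_⟩
      · simp only [addD, addW, hd₂]
        ring_nf
        exact mul_ne_zero (pow_ne_zero 2 hn₂) (pow_ne_zero 2 hd₁)
      · have hxQ : xc Q = xc P := by rw [hQP, xc_neg]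
        rw [hR, add_zero]
        simp only [addN, addD, addS, addW, hd₂, ← hn₁, ← hxQ]
        ring
    · -- both nonzero
      have hu : xc Q = n₁ / d₁ := by rw [eq_div_iff hd₁]; exact hn₁
      have hv : xc R = n₂ / d₂ := by rw [eq_div_iff hd₂]; exact hn₂
      have hW := addW_eq n₁ d₁ n₂ d₂ hd₁ hd₂
      have hS := addS_eq E.b₂ E.b₄ E.b₆ n₁ d₁ n₂ d₂ hd₁ hd₂
      rw [← hu, ← hv] at hW hS
      by_cases hx : xc Q = xc R
      · -- Q = -R
        left
        have hQR' : Q = -R := (eq_or_eq_neg_of_xc_eq hQ hR hx).resolve_left hQR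
        refine ⟨by rw [hQR', neg_add_cancel], ?_, ?_⟩
        · rw [addD, hW, hx, sub_self, mul_zero]; ring
        · rw [addN, hW, hS, hx, sub_self, mul_zero, sS_self]
          have h2R : R + R ≠ 0 := by
            intro h
            apply hQR
            rw [hQR']
            exact (eq_neg_of_add_eq_zero_left h).symm
          have hD := (xc_add_self hR h2R).1
          simp only [ne_eq, zero_pow, OfNat.ofNat_ne_zero, not_false_eq_true, mul_zero, sub_zero]
          exact mul_ne_zero (mul_ne_zero (pow_ne_zero 2 hd₁) (pow_ne_zero 2 hd₂)) hD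
      · right
        have hsum : Q + R ≠ 0 := by
          intro h
          apply hx
          rw [eq_neg_of_add_eq_zero_left h, xc_neg]
        have hdiff : xc (Q - R) = xc P := by
          have : Q - R = -P := by rw [hPQR]; abel
          rw [this, xc_neg]
        have key := xc_add_add_xc_sub hQ hR hx
        rw [hdiff] at key
        have hne : xc Q - xc R ≠ 0 := sub_ne_zero.mpr hx
        refine ⟨hsum, ?_, ?_⟩
        · rw [addD, hW]
          exact pow_ne_zero 2 (mul_ne_zero (mul_ne_zero hd₁ hd₂) hne)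
        · rw [addN, addD, hW, hS, ← key]; ring

/-- **projective validity of the ladder** -/
theorem rep_lad {P : E.Point} (hP : P ≠ 0) (k : ℕ) :
    Rep (k • P) (ladN E.b₂ E.b₄ E.b₆ E.b₈ (xc P) k) (ladD E.b₂ E.b₄ E.b₆ E.b₈ (xc P) k) := by
  rcases Nat.eq_zero_or_pos k with rfl | hk
  · left; simp
  revert hk
  refine ladder_induction (P := fun k => Rep (k • P) (ladN E.b₂ E.b₄ E.b₆ E.b₈ (xc P) k)
    (ladD E.b₂ E.b₄ E.b₆ E.b₈ (xc P) k)) ?_ ?_ ?_ k
  · right
    simp only [one_nsmul, ladN_one, ladD_one, mul_one]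
    exact ⟨hP, one_ne_zero, trivial⟩
  · intro k hk ih
    rw [ladN_even _ _ _ _ _ k hk, ladD_even _ _ _ _ _ k hk, two_mul, add_nsmul]
    exact rep_dbl ih
  · intro k hk ih ih'
    rw [ladN_odd _ _ _ _ _ k hk, ladD_odd _ _ _ _ _ k hk]
    have e : (2 * k + 1) • P = k • P + (k + 1) • P := by
      rw [← add_nsmul]; congr 1; ring
    rw [e]
    exact rep_add hP (by rw [succ_nsmul]) ih ih'

end Fermat.Agent.S13.H891

end
-- ===== PACK-END S13/H891/LadderValid.lean

-- ===== PACK-BEGIN S55/H414/CycloLevel.lean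
section


/-!
# S55, leaf CYC-INF (helper414), part 1: the cyclotomic levels `ℚ(ζ_N) ⊆ ℚ̄`

For `N ≠ 0` we define `cycloLevel N = ℚ(ζ_N)` as an intermediate field of `ℚ̄/ℚ`, show that it is
Galois with commutative Galois group, and that it is unramified at every prime not dividing `N`
(in the Prelude sense: inertia groups of valuation subrings of `ℚ̄` fix it pointwise).
-/

set_option autoImplicit false

namespace Fermat.Agent.S55.H414

open ExtCitation Fermat.Agent.S55.Bridge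

/-- A chosen primitive `N`-th root of unity in `ℚ̄`. -/
noncomputable def zetaBar (N : ℕ) [NeZero N] : AlgebraicClosure ℚ :=
  (HasEnoughRootsOfUnity.exists_primitiveRoot (AlgebraicClosure ℚ) N).choose

theorem zetaBar_spec (N : ℕ) [NeZero N] : IsPrimitiveRoot (zetaBar N) N :=
  (HasEnoughRootsOfUnity.exists_primitiveRoot (AlgebraicClosure ℚ) N).choose_spec

/-- The cyclotomic field `ℚ(ζ_N)` inside `ℚ̄`. -/
noncomputable def cycloLevel (N : ℕ) [NeZero N] : IntermediateField ℚ (AlgebraicClosure ℚ) :=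
  IntermediateField.adjoin ℚ {zetaBar N}

theorem zetaBar_mem_cycloLevel (N : ℕ) [NeZero N] : zetaBar N ∈ cycloLevel N :=
  IntermediateField.subset_adjoin ℚ _ rfl

instance isCyclotomicExtension_cycloLevel (N : ℕ) [NeZero N] :
    IsCyclotomicExtension {N} ℚ (cycloLevel N) :=
  haveI : Algebra.IsAlgebraic ℚ (AlgebraicClosure ℚ) := AlgebraicClosure.isAlgebraic ℚ
  haveI : Algebra.IsIntegral ℚ (AlgebraicClosure ℚ) := Algebra.IsAlgebraic.isIntegral
  (zetaBar_spec N).intermediateField_adjoin_isCyclotomicExtension ℚ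

instance finiteDimensional_cycloLevel (N : ℕ) [NeZero N] :
    FiniteDimensional ℚ (cycloLevel N) :=
  IsCyclotomicExtension.finiteDimensional {N} ℚ (cycloLevel N)

instance isGalois_cycloLevel (N : ℕ) [NeZero N] : IsGalois ℚ (cycloLevel N) :=
  IsCyclotomicExtension.isGalois {N} ℚ (cycloLevel N)

/-- An automorphism of `ℚ̄` fixes `ℚ(ζ_N)` pointwise iff it fixes `ζ_N`. -/
theorem mem_fixingSubgroup_cycloLevel_iff (N : ℕ) [NeZero N]
    (σ : AlgebraicClosure ℚ ≃ₐ[ℚ] AlgebraicClosure ℚ) :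
    σ ∈ (cycloLevel N).fixingSubgroup ↔ σ (zetaBar N) = zetaBar N := by
  constructor
  · intro h
    exact (IntermediateField.mem_fixingSubgroup_iff _ σ).1 h _ (zetaBar_mem_cycloLevel N)
  · intro h
    rw [IntermediateField.mem_fixingSubgroup_iff]
    intro x hx
    have hle : cycloLevel N ≤ IntermediateField.fixedField (Subgroup.zpowers σ) := by
      rw [cycloLevel, IntermediateField.adjoin_le_iff]
      rintro y rfl
      rw [SetLike.mem_coe, IntermediateField.mem_fixedField_iff]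
      intro τ hτ
      obtain ⟨k, rfl⟩ := Subgroup.mem_zpowers_iff.1 hτ
      have hfix : ∀ m : ℕ, (σ ^ m) (zetaBar N) = zetaBar N := by
        intro m
        induction m with
        | zero => simp
        | succ m ih => rw [pow_succ, AlgEquiv.mul_apply, h, ih]
      rcases Int.eq_nat_or_neg k with ⟨m, rfl | rfl⟩
      · rw [zpow_natCast]; exact hfix m
      · rw [zpow_neg, zpow_natCast]
        have := hfix m
        calc (σ ^ m)⁻¹ (zetaBar N) = (σ ^ m)⁻¹ ((σ ^ m) (zetaBar N)) := by rw [this]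
          _ = zetaBar N := by
            show ((σ ^ m)⁻¹ * (σ ^ m)) (zetaBar N) = zetaBar N
            rw [inv_mul_cancel]; rfl
    have := hle hx
    rw [IntermediateField.mem_fixedField_iff] at this
    exact this σ (Subgroup.mem_zpowers σ)

/-- Any `N`-th root of unity has valuation `1`. -/
theorem valuation_eq_one_of_pow_eq_one (A : ValuationSubring (AlgebraicClosure ℚ)) {N : ℕ}
    (hN : N ≠ 0) {a : AlgebraicClosure ℚ} (ha : a ^ N = 1) : A.valuation a = 1 := by
  have h : (A.valuation a) ^ N = 1 := by rw [← map_pow, ha, map_one]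
  exact (pow_eq_one_iff.1 h).resolve_right hN

/-- If `N` is a unit at `A` then `ℚ(ζ_N)` is fixed by the inertia group at `A`. -/
theorem inertia_le_fixingSubgroup_cycloLevel (N : ℕ) [NeZero N]
    (A : ValuationSubring (AlgebraicClosure ℚ))
    (hNv : A.valuation (N : AlgebraicClosure ℚ) = 1) :
    A.inertiaSubgroupIn ℚ ≤ (cycloLevel N).fixingSubgroup := by
  intro σ hσ
  rw [mem_fixingSubgroup_cycloLevel_iff]
  by_contra hne
  have hz : zetaBar N ^ N = 1 := (zetaBar_spec N).pow_eq_one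
  have hσz : (σ (zetaBar N)) ^ N = 1 := by rw [← map_pow, hz, map_one]
  have h1 := val_sub_roots_eq_one (A := A) (NeZero.ne N) hNv hσz hz hne
  have h2 := inertia_val_sub_lt_one A hσ (zetaBar N)
    (valuation_eq_one_of_pow_eq_one A (NeZero.ne N) hz).le
  rw [h1] at h2
  exact lt_irrefl _ h2

/-- `ℚ(ζ_{p^n})` is unramified outside every set of primes containing `p`. -/
theorem isUnramifiedOutside_cycloLevel (p : ℕ) [Fact p.Prime] (n : ℕ)
    (S : Finset Nat.Primes) (hpS : pPrime p ∈ S) :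
    (cycloLevel (p ^ n)).IsUnramifiedOutside S := by
  refine ⟨inferInstance, fun q hq A hA => ?_⟩
  apply inertia_le_fixingSubgroup_cycloLevel
  have hp : p.Prime := Fact.out
  have hqp : (q : ℕ) ≠ p := by
    rintro h
    apply hq
    have : q = pPrime p := Subtype.ext h
    rw [this]; exact hpS
  have := val_prime_eq_one (A := A) hA q.2 hp hqp
  rw [Nat.cast_pow, map_pow, this, one_pow]

end Fermat.Agent.S55.H414

end
-- ===== PACK-END S55/H414/CycloLevel.lean

-- ===== PACK-BEGIN S29/H642/PeriodHecke.lean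
section





/-!
# S29 / E2 (helper642): the period map intertwines `T_p` with the Hecke transfer
-/

set_option autoImplicit false

namespace Fermat.Agent.S29.H642

open CongruenceSubgroup ModularCurve ModularCurve.Period Matrix.SpecialLinearGroup
open P2MW.S_ModularForm_heckeT_slash_eq_self_of_mem_Gamma0.ModularForm.HeckeSlashInvariance
open UpperHalfPlane hiding I
open scoped MatrixGroups ModularForm Manifold

variable {p : ℕ} [Fact p.Prime] {N : ℕ}

omit [Fact p.Prime] in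
theorem det_heckeRep_pos (x : OnePoint (ZMod p)) :
    0 < ((_root_.P2MW.S_ModularForm_heckeT_slash_eq_self_of_mem_Gamma0.ModularForm.HeckeSlashInvariance.heckeRep p x : GL (Fin 2) ℝ) : Matrix (Fin 2) (Fin 2) ℝ).det := by
  induction x using OnePoint.rec with
  | infty =>
    have := ModularForm.det_heckeDiagMatrix_pos p
    rwa [Matrix.GeneralLinearGroup.val_det_apply] at this
  | coe j =>
    have := ModularForm.det_heckeMatrix_pos p j.val
    rwa [Matrix.GeneralLinearGroup.val_det_apply] at this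

/-- Chain rule for the action of an element of `GL(2, ℝ)` with positive determinant. -/
theorem hasDerivAt_comp_smul_GL {F f : ℍ → ℂ}
    (hF : ∀ τ : ℍ, HasDerivAt (F ∘ ofComplex) (f τ) ↑τ) (α : GL (Fin 2) ℝ)
    (hpos : 0 < (α : Matrix (Fin 2) (Fin 2) ℝ).det) (τ : ℍ) :
    HasDerivAt ((fun w : ℍ => F (α • w)) ∘ ofComplex) ((f ∣[(2 : ℤ)] α) τ) ↑τ := by
  have h_smul : HasDerivAt (fun w ↦ ↑(α • ofComplex w) : ℂ → ℂ)
      (((α : Matrix (Fin 2) (Fin 2) ℝ).det : ℂ) / denom α τ ^ 2) ↑τ :=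
    (hasStrictDerivAt_smul hpos τ).hasDerivAt
  have h_F : HasDerivAt (F ∘ ofComplex) (f (α • τ)) ↑(α • ofComplex (τ : ℂ)) := by
    rw [ofComplex_apply]
    exact hF (α • τ)
  have hcomp := h_F.comp (τ : ℂ) h_smul
  have heq : ((fun w : ℍ => F (α • w)) ∘ ofComplex)
      = (F ∘ ofComplex) ∘ (fun w ↦ ↑(α • ofComplex w) : ℂ → ℂ) := by
    funext z
    simp only [Function.comp_apply, ofComplex_apply]
  rw [heq]
  refine hcomp.congr_deriv ?_
  have hσ : UpperHalfPlane.σ α = .refl ℝ ℂ := by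
    rw [UpperHalfPlane.σ, if_pos]
    rwa [Matrix.GeneralLinearGroup.val_det_apply]
  rw [ModularForm.slash_apply, hσ]
  have hz := denom_ne_zero α τ
  have habs : |(α.det : ℝˣ).val| = (α : Matrix (Fin 2) (Fin 2) ℝ).det := by
    rw [Matrix.GeneralLinearGroup.val_det_apply]
    exact abs_of_pos hpos
  simp only [ContinuousAlgEquiv.refl_apply, habs]
  rw [show (2 : ℤ) - 1 = 1 by norm_num, zpow_one, zpow_neg]
  field_simp

variable [NeZero N]

/-- **Hecke equivariance of the period map** (`p ∤ N` prime): the periods of `T_p f` are the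
Hecke transfer of the periods of `f`. -/
theorem periodMap_heckeTLin (hp : p.Prime) (hpN : ¬ p ∣ N) (f : CuspForm (Gamma0 N) 2) :
    periodMap N (CuspForm.heckeTLin 2 hp hpN f) = heckeTransfer hpN (periodMap N f) := by
  obtain ⟨F, hF⟩ := Fermat.Agent.S21.H381.exists_hasEquivariantPrimitive f
  obtain ⟨G, hG⟩ := Fermat.Agent.S21.H381.exists_hasEquivariantPrimitive
    (CuspForm.heckeTLin 2 hp hpN f)
  haveI : NeZero p := ⟨hp.ne_zero⟩
  -- the explicit primitive of `T_p f`
  set FT : ℍ → ℂ := fun w => ∑ x : OnePoint (ZMod p), F (_root_.P2MW.S_ModularForm_heckeT_slash_eq_self_of_mem_Gamma0.ModularForm.HeckeSlashInvariance.heckeRep p x • w) with hFT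
  have hFTd : ∀ τ : ℍ, HasDerivAt (FT ∘ ofComplex) ((CuspForm.heckeTLin 2 hp hpN f) τ) ↑τ := by
    intro τ
    have h1 : (FT ∘ ofComplex) = fun z : ℂ => ∑ x : OnePoint (ZMod p),
        ((fun w : ℍ => F (_root_.P2MW.S_ModularForm_heckeT_slash_eq_self_of_mem_Gamma0.ModularForm.HeckeSlashInvariance.heckeRep p x • w)) ∘ ofComplex) z := by
      funext z
      simp [hFT]
    have h2 : (CuspForm.heckeTLin 2 hp hpN f) τ =
        ∑ x : OnePoint (ZMod p), ((f : ℍ → ℂ) ∣[(2 : ℤ)] _root_.P2MW.S_ModularForm_heckeT_slash_eq_self_of_mem_Gamma0.ModularForm.HeckeSlashInvariance.heckeRep p x) τ := by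
      rw [CuspForm.heckeTLin_apply_apply, heckeT_eq_sum_onePoint, Finset.sum_apply]
    rw [h1, h2]
    exact HasDerivAt.fun_sum fun x _ =>
      hasDerivAt_comp_smul_GL hF.1 (_root_.P2MW.S_ModularForm_heckeT_slash_eq_self_of_mem_Gamma0.ModularForm.HeckeSlashInvariance.heckeRep p x) (det_heckeRep_pos x) τ
  refine AddMonoidHom.ext fun γ' => ?_
  obtain ⟨γ, rfl⟩ : ∃ γ : Gamma0 N, Additive.ofMul γ = γ' := ⟨Additive.toMul γ', rfl⟩
  rw [Fermat.Agent.S21.H381.periodMap_apply hG γ UpperHalfPlane.I, heckeTransfer_apply]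
  -- `G - FT` is constant
  have hconst := Fermat.Agent.S21.H381.sub_const_of_hasDerivAt hG.1 hFTd
    ((γ : SL(2, ℤ)) • UpperHalfPlane.I) UpperHalfPlane.I
  have hGF : G ((γ : SL(2, ℤ)) • UpperHalfPlane.I) - G UpperHalfPlane.I
      = FT ((γ : SL(2, ℤ)) • UpperHalfPlane.I) - FT UpperHalfPlane.I := by
    linear_combination hconst
  rw [hGF, hFT]
  simp only
  -- termwise
  have hterm : ∀ x : OnePoint (ZMod p),
      F (_root_.P2MW.S_ModularForm_heckeT_slash_eq_self_of_mem_Gamma0.ModularForm.HeckeSlashInvariance.heckeRep p x • ((γ : SL(2, ℤ)) • UpperHalfPlane.I))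
        = periodMap N f (Additive.ofMul (hElt hpN γ x))
          + F (_root_.P2MW.S_ModularForm_heckeT_slash_eq_self_of_mem_Gamma0.ModularForm.HeckeSlashInvariance.heckeRep p (hPerm p (γ : SL(2, ℤ)) x) • UpperHalfPlane.I) := by
    intro x
    have hs := hElt_spec hpN γ x
    have e1 : _root_.P2MW.S_ModularForm_heckeT_slash_eq_self_of_mem_Gamma0.ModularForm.HeckeSlashInvariance.heckeRep p x • ((γ : SL(2, ℤ)) • UpperHalfPlane.I)
        = ((hElt hpN γ x : Gamma0 N) : SL(2, ℤ)) •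
            (_root_.P2MW.S_ModularForm_heckeT_slash_eq_self_of_mem_Gamma0.ModularForm.HeckeSlashInvariance.heckeRep p (hPerm p (γ : SL(2, ℤ)) x) • UpperHalfPlane.I) := by
      show _root_.P2MW.S_ModularForm_heckeT_slash_eq_self_of_mem_Gamma0.ModularForm.HeckeSlashInvariance.heckeRep p x • (mapGL ℝ (γ : SL(2, ℤ)) • UpperHalfPlane.I)
        = mapGL ℝ ((hElt hpN γ x : Gamma0 N) : SL(2, ℤ)) •
            (_root_.P2MW.S_ModularForm_heckeT_slash_eq_self_of_mem_Gamma0.ModularForm.HeckeSlashInvariance.heckeRep p (hPerm p (γ : SL(2, ℤ)) x) • UpperHalfPlane.I)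
      rw [← mul_smul, ← mul_smul, hs]
    rw [e1, Fermat.Agent.S21.H381.periodMap_apply hF (hElt hpN γ x)
      (_root_.P2MW.S_ModularForm_heckeT_slash_eq_self_of_mem_Gamma0.ModularForm.HeckeSlashInvariance.heckeRep p (hPerm p (γ : SL(2, ℤ)) x) • UpperHalfPlane.I)]
    ring
  rw [Finset.sum_congr rfl fun x _ => hterm x, Finset.sum_add_distrib,
    Equiv.sum_comp (hPerm p (γ : SL(2, ℤ))) (fun y => F (_root_.P2MW.S_ModularForm_heckeT_slash_eq_self_of_mem_Gamma0.ModularForm.HeckeSlashInvariance.heckeRep p y • UpperHalfPlane.I))]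
  ring

end Fermat.Agent.S29.H642

end
-- ===== PACK-END S29/H642/PeriodHecke.lean

-- ===== PACK-BEGIN Ribet/H819/PerField.lean
section



/-!
# Row 38, WALL-p, crux (I6), leaf INST-D, FIELD part (helper819)

The concrete field on which `H704.I6.PeriodStatement` is applied.

`K` the coefficient field (`ℚ̄`), `E₁ ≤ K` the tame level (`∋ ζ_p`), `σ₀ ∈ Aut(K / E₁)`,
`u ∈ K` with `u ^ p ∈ E₁`, `σ₀ u = ζ⁻¹ u` (the Kummer generator of the field of definition of `x`,
`H785.exists_kummer_gen`), `F₁ ≤ E₁((t))` the function field over `E₁` (`⊇ E₁`),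
`h ∈ E₁((t))` with `h ^ p ∈ F₁`, `h ∉ F₁` (`h ^ p = f_t`, the Kummer generator of `t`).

* `F₂ = F₁(u)`, `Fc = F₁(h)` (the function field of the cover), `L = F₂(h) = F₁(u, h)`;
* `sigma : L ≃+* L` the coefficientwise action of `σ₀`; `tau : L ≃ₐ[F₂] L` the deck transformation,
  `tau h = ζ h`; `lc : L →*₀ L` the leading coefficient;
* `sigma_tau`, `sigma_pow`, `sigma_ne_one`, `lc_lc`, `lc_sigma`, `tau_lc`, `lc_zeta`: the
  hypotheses of `PeriodStatement`;
* `mem_Fc_of_fixed` : `σ`-fixed elements of `L` lie in `Fc`; `tau_mem_Fc` : `τ` preserves `Fc`.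
-/

set_option autoImplicit false
set_option linter.unusedSectionVars false
set_option linter.style.haveILetI false

noncomputable section

namespace Fermat.Agent.Ribet.H819

open ModularCurve HahnSeries

section Coeff

variable {K : Type*} [Field K]

/-- Coefficientwise action of a ring automorphism on Laurent series. -/
def coeffEquiv (σ₀ : K ≃+* K) : LaurentSeries K ≃+* LaurentSeries K where
  toFun := coeffMap (σ₀ : K →+* K)
  invFun := coeffMap (σ₀.symm : K →+* K)
  left_inv z := by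
    ext n
    simp
  right_inv z := by
    ext n
    simp
  map_mul' := map_mul _
  map_add' := map_add _

@[simp]
theorem coeffEquiv_coeff (σ₀ : K ≃+* K) (z : LaurentSeries K) (n : ℤ) :
    (coeffEquiv σ₀ z).coeff n = σ₀ (z.coeff n) := rfl

@[simp]
theorem coeffEquiv_symm_coeff (σ₀ : K ≃+* K) (z : LaurentSeries K) (n : ℤ) :
    ((coeffEquiv σ₀).symm z).coeff n = σ₀.symm (z.coeff n) := rfl

theorem coeff_C_h819 (c : K) (n : ℤ) :
    (HahnSeries.C c : LaurentSeries K).coeff n = if n = 0 then c else 0 := by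
  rw [HahnSeries.C_apply]
  by_cases hn : n = 0
  · subst hn
    simp
  · rw [if_neg hn, HahnSeries.coeff_single_of_ne hn]

theorem coeffEquiv_C (σ₀ : K ≃+* K) (c : K) :
    coeffEquiv σ₀ (HahnSeries.C c : LaurentSeries K) = HahnSeries.C (σ₀ c) := by
  ext n
  rw [coeffEquiv_coeff, coeff_C_h819, coeff_C_h819]
  split_ifs
  · rfl
  · exact map_zero σ₀

theorem coeffEquiv_symm_C (σ₀ : K ≃+* K) (c : K) :
    (coeffEquiv σ₀).symm (HahnSeries.C c : LaurentSeries K) = HahnSeries.C (σ₀.symm c) := by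
  ext n
  rw [coeffEquiv_symm_coeff, coeff_C_h819, coeff_C_h819]
  split_ifs
  · rfl
  · exact map_zero σ₀.symm

theorem coeffEquiv_eq_self_of_coeff_mem (σ₀ : K ≃+* K) (E : Subfield K)
    (hσ : ∀ c ∈ E, σ₀ c = c) {z : LaurentSeries K} (hz : ∀ n : ℤ, z.coeff n ∈ E) :
    coeffEquiv σ₀ z = z := by
  ext n
  rw [coeffEquiv_coeff, hσ _ (hz n)]

theorem coeffEquiv_symm_eq_self_of_coeff_mem (σ₀ : K ≃+* K) (E : Subfield K)
    (hσ : ∀ c ∈ E, σ₀ c = c) {z : LaurentSeries K} (hz : ∀ n : ℤ, z.coeff n ∈ E) :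
    (coeffEquiv σ₀).symm z = z := by
  rw [RingEquiv.symm_apply_eq]
  exact (coeffEquiv_eq_self_of_coeff_mem σ₀ E hσ hz).symm

theorem leadingCoeff_coeffEquiv (σ₀ : K ≃+* K) (z : LaurentSeries K) :
    (coeffEquiv σ₀ z).leadingCoeff = σ₀ z.leadingCoeff := by
  by_cases hz : z = 0
  · subst hz
    simp
  · have hz' : coeffEquiv σ₀ z ≠ 0 := (map_ne_zero_iff _ (coeffEquiv σ₀).injective).mpr hz
    rw [HahnSeries.leadingCoeff_eq, HahnSeries.leadingCoeff_eq, coeffEquiv_coeff]
    congr 2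
    -- the orders agree
    have hsupp : (coeffEquiv σ₀ z).support = z.support := by
      ext n
      simp only [HahnSeries.mem_support, coeffEquiv_coeff, ne_eq]
      rw [map_eq_zero_iff σ₀ σ₀.injective]
    rw [HahnSeries.order_of_ne hz', HahnSeries.order_of_ne hz]
    congr 1

/-- The subfield of series with coefficients in a subfield `E` of `K`. -/
def coeffField (E : Subfield K) : Subfield (LaurentSeries K) :=
  (coeffMap E.subtype).fieldRange

theorem mem_coeffField_iff (E : Subfield K) (z : LaurentSeries K) :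
    z ∈ coeffField E ↔ ∀ n : ℤ, z.coeff n ∈ E := by
  constructor
  · rintro ⟨w, rfl⟩ n
    rw [coeffMap_coeff]
    exact (w.coeff n).2
  · intro hz
    refine ⟨⟨fun n => ⟨z.coeff n, hz n⟩, ?_⟩, ?_⟩
    · have : Function.support (fun n : ℤ => (⟨z.coeff n, hz n⟩ : E)) = z.support := by
        ext n
        simp only [Function.mem_support, ne_eq, HahnSeries.mem_support]
        rw [not_iff_not]
        constructor
        · intro h
          exact congrArg Subtype.val h
        · intro h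
          exact Subtype.ext h
      rw [this]
      exact z.isPWO_support
    · ext n
      rfl

theorem leadingCoeff_mem_of_mem_coeffField (E : Subfield K) {z : LaurentSeries K}
    (hz : z ∈ coeffField E) : z.leadingCoeff ∈ E := by
  rw [HahnSeries.leadingCoeff_eq]
  exact (mem_coeffField_iff E z).mp hz _

theorem C_mem_coeffField (E : Subfield K) {c : K} (hc : c ∈ E) :
    (HahnSeries.C c : LaurentSeries K) ∈ coeffField E := by
  rw [mem_coeffField_iff]
  intro n
  rw [coeff_C_h819]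
  split_ifs
  · exact hc
  · exact E.zero_mem

end Coeff

/-! ## The context -/

/-- The data of INST-D (field part). -/
structure PerCtx (K : Type) [Field K] where
  /-- the prime -/
  p : ℕ
  hp : p.Prime
  /-- the tame level -/
  E₁ : Subfield K
  ζ : K
  hζ : IsPrimitiveRoot ζ p
  hζE : ζ ∈ E₁
  /-- a generator of the Galois group of the field of definition of `x` over `E₁` -/
  σ₀ : K ≃+* K
  hσE : ∀ c ∈ E₁, σ₀ c = c
  /-- the Kummer generator of the field of definition of `x` -/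
  u : K
  hσu : σ₀ u = ζ⁻¹ * u
  hu0 : u ≠ 0
  hup : u ^ p ∈ E₁
  /-- the function field over `E₁` -/
  F₁ : Subfield (LaurentSeries K)
  hcoef : ∀ z ∈ F₁, ∀ n : ℤ, z.coeff n ∈ E₁
  hconst : ∀ c ∈ E₁, (HahnSeries.C c : LaurentSeries K) ∈ F₁
  /-- the `p`-th root of the Kummer generator of `t` -/
  h : LaurentSeries K
  hhcoef : ∀ n : ℤ, h.coeff n ∈ E₁
  hhp : h ^ p ∈ F₁
  hhF : h ∉ F₁

namespace PerCtx

variable {K : Type} [Field K] (c : PerCtx K)

/-- The coefficientwise action of `σ₀`. -/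
def Phi : LaurentSeries K ≃+* LaurentSeries K := coeffEquiv c.σ₀

/-- The constant `u`. -/
def uC : LaurentSeries K := HahnSeries.C c.u

/-- The constant `ζ`. -/
def zC : LaurentSeries K := HahnSeries.C c.ζ

/-- `F₂ = F₁(u)`: the function field over the field of definition of `x`. -/
def F₂ : Subfield (LaurentSeries K) := Subfield.closure ((c.F₁ : Set (LaurentSeries K)) ∪ {c.uC})

/-- `Fc = F₁(h)`: the function field of the cover. -/
def Fc : Subfield (LaurentSeries K) := Subfield.closure ((c.F₁ : Set (LaurentSeries K)) ∪ {c.h})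

/-- `L = F₂(h) = F₁(u, h)`. -/
def L : IntermediateField ↥c.F₂ (LaurentSeries K) :=
  IntermediateField.adjoin ↥c.F₂ ({c.h} : Set (LaurentSeries K))

/-- The field of definition `E' = E₁(u)` of `x`. -/
def E' : Subfield K := Subfield.closure ((c.E₁ : Set K) ∪ {c.u})

/-! ### Basic memberships -/

theorem F₁_le_F₂ : c.F₁ ≤ c.F₂ := fun _ hz => Subfield.subset_closure (Or.inl hz)

theorem uC_mem_F₂ : c.uC ∈ c.F₂ := Subfield.subset_closure (Or.inr rfl)

theorem F₁_le_Fc : c.F₁ ≤ c.Fc := fun _ hz => Subfield.subset_closure (Or.inl hz)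

theorem h_mem_Fc : c.h ∈ c.Fc := Subfield.subset_closure (Or.inr rfl)

theorem mem_L_of_mem_F₂ {z : LaurentSeries K} (hz : z ∈ c.F₂) : z ∈ c.L :=
  c.L.algebraMap_mem ⟨z, hz⟩

theorem mem_L_of_mem_F₁ {z : LaurentSeries K} (hz : z ∈ c.F₁) : z ∈ c.L :=
  c.mem_L_of_mem_F₂ (c.F₁_le_F₂ hz)

theorem h_mem_L : c.h ∈ c.L := IntermediateField.mem_adjoin_simple_self _ _

theorem uC_mem_L : c.uC ∈ c.L := c.mem_L_of_mem_F₂ c.uC_mem_F₂

theorem zC_mem_F₁ : c.zC ∈ c.F₁ := c.hconst _ c.hζE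

theorem Fc_le_L : c.Fc ≤ c.L.toSubfield := by
  rw [Fc, Subfield.closure_le]
  rintro z (hz | hz)
  · exact c.mem_L_of_mem_F₁ hz
  · rw [Set.mem_singleton_iff] at hz
    rw [hz]
    exact c.h_mem_L

theorem mem_L_of_mem_Fc {z : LaurentSeries K} (hz : z ∈ c.Fc) : z ∈ c.L := c.Fc_le_L hz

/-- `L` is the field generated by `F₁`, `u`, `h`. -/
theorem L_le {T : Subfield (LaurentSeries K)} (h1 : c.F₁ ≤ T) (h2 : c.uC ∈ T) (h3 : c.h ∈ T) :
    c.L.toSubfield ≤ T := by
  have hF₂ : c.F₂ ≤ T := by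
    rw [F₂, Subfield.closure_le]
    rintro z (hz | hz)
    · exact h1 hz
    · rw [Set.mem_singleton_iff] at hz
      rw [hz]
      exact h2
  rw [L, IntermediateField.adjoin_toSubfield, Subfield.closure_le]
  rintro z (⟨b, rfl⟩ | hz)
  · exact hF₂ b.2
  · rw [Set.mem_singleton_iff] at hz
    rw [hz]
    exact h3

theorem F₂_le {T : Subfield (LaurentSeries K)} (h1 : c.F₁ ≤ T) (h2 : c.uC ∈ T) : c.F₂ ≤ T := by
  rw [F₂, Subfield.closure_le]
  rintro z (hz | hz)
  · exact h1 hz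
  · rw [Set.mem_singleton_iff] at hz
    rw [hz]
    exact h2

theorem Fc_le {T : Subfield (LaurentSeries K)} (h1 : c.F₁ ≤ T) (h3 : c.h ∈ T) : c.Fc ≤ T := by
  rw [Fc, Subfield.closure_le]
  rintro z (hz | hz)
  · exact h1 hz
  · rw [Set.mem_singleton_iff] at hz
    rw [hz]
    exact h3

/-! ### Coefficients -/

theorem E₁_le_E' : c.E₁ ≤ c.E' := fun _ hz => Subfield.subset_closure (Or.inl hz)

theorem u_mem_E' : c.u ∈ c.E' := Subfield.subset_closure (Or.inr rfl)

theorem L_le_coeffField : c.L.toSubfield ≤ coeffField c.E' := by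
  apply c.L_le
  · intro z hz
    rw [mem_coeffField_iff]
    exact fun n => c.E₁_le_E' (c.hcoef z hz n)
  · exact C_mem_coeffField _ c.u_mem_E'
  · rw [mem_coeffField_iff]
    exact fun n => c.E₁_le_E' (c.hhcoef n)

theorem Fc_le_coeffField : c.Fc ≤ coeffField c.E₁ := by
  apply c.Fc_le
  · intro z hz
    rw [mem_coeffField_iff]
    exact c.hcoef z hz
  · rw [mem_coeffField_iff]
    exact c.hhcoef

theorem C_mem_F₂ {e : K} (he : e ∈ c.E') : (HahnSeries.C e : LaurentSeries K) ∈ c.F₂ := by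
  have : c.E' ≤ c.F₂.comap (HahnSeries.C : K →+* LaurentSeries K) := by
    rw [E', Subfield.closure_le]
    rintro z (hz | hz)
    · exact c.F₁_le_F₂ (c.hconst z hz)
    · rw [Set.mem_singleton_iff] at hz
      rw [hz]
      exact c.uC_mem_F₂
  exact this he

theorem leadingCoeff_mem {z : LaurentSeries K} (hz : z ∈ c.L) : z.leadingCoeff ∈ c.E' :=
  leadingCoeff_mem_of_mem_coeffField _ (c.L_le_coeffField hz)

/-! ### The action of `Φ` -/

theorem Phi_F₁ {z : LaurentSeries K} (hz : z ∈ c.F₁) : c.Phi z = z :=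
  coeffEquiv_eq_self_of_coeff_mem c.σ₀ c.E₁ c.hσE (c.hcoef z hz)

theorem Phi_h : c.Phi c.h = c.h :=
  coeffEquiv_eq_self_of_coeff_mem c.σ₀ c.E₁ c.hσE c.hhcoef

theorem Phi_Fc {z : LaurentSeries K} (hz : z ∈ c.Fc) : c.Phi z = z :=
  coeffEquiv_eq_self_of_coeff_mem c.σ₀ c.E₁ c.hσE
    ((mem_coeffField_iff _ _).mp (c.Fc_le_coeffField hz))

theorem Phi_symm_F₁ {z : LaurentSeries K} (hz : z ∈ c.F₁) : c.Phi.symm z = z :=
  coeffEquiv_symm_eq_self_of_coeff_mem c.σ₀ c.E₁ c.hσE (c.hcoef z hz)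

theorem Phi_symm_h : c.Phi.symm c.h = c.h :=
  coeffEquiv_symm_eq_self_of_coeff_mem c.σ₀ c.E₁ c.hσE c.hhcoef

theorem zeta_ne_zero : c.ζ ≠ 0 := c.hζ.ne_zero c.hp.ne_zero

theorem Phi_zC : c.Phi c.zC = c.zC := c.Phi_F₁ c.zC_mem_F₁

theorem Phi_uC : c.Phi c.uC = c.zC⁻¹ * c.uC := by
  show coeffEquiv c.σ₀ (HahnSeries.C c.u) = (HahnSeries.C c.ζ)⁻¹ * HahnSeries.C c.u
  rw [coeffEquiv_C, c.hσu, map_mul, map_inv₀]

theorem Phi_symm_uC : c.Phi.symm c.uC = c.zC * c.uC := by
  rw [RingEquiv.symm_apply_eq, map_mul, c.Phi_zC, c.Phi_uC, ← mul_assoc,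
    mul_inv_cancel₀ (HahnSeries.C_ne_zero c.zeta_ne_zero), one_mul]

/-! ### Roots of unity, `h ∉ F₂` -/

theorem zC_isPrimitiveRoot : IsPrimitiveRoot c.zC c.p :=
  c.hζ.map_of_injective (f := (HahnSeries.C : K →+* LaurentSeries K)) HahnSeries.C_injective

theorem zC_inv_isPrimitiveRoot : IsPrimitiveRoot c.zC⁻¹ c.p := c.zC_isPrimitiveRoot.inv

theorem uC_pow_mem_F₁ : c.uC ^ c.p ∈ c.F₁ := by
  show (HahnSeries.C c.u : LaurentSeries K) ^ c.p ∈ c.F₁
  rw [← map_pow]
  exact c.hconst _ c.hup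

theorem zC_mem_F₂ : c.zC ∈ c.F₂ := c.F₁_le_F₂ c.zC_mem_F₁

/-- `Φ`-fixed elements of `F₂ = F₁(u)` lie in `F₁`. -/
theorem mem_F₁_of_fixed {z : LaurentSeries K} (hz : z ∈ c.F₂) (hfix : c.Phi z = z) :
    z ∈ c.F₁ :=
  mem_of_fixed_h819 c.F₁ c.Phi (fun _ hw => c.Phi_F₁ hw) c.hp c.zC_inv_isPrimitiveRoot
    (c.F₁.inv_mem c.zC_mem_F₁) c.Phi_uC c.uC_pow_mem_F₁ hz hfix

theorem h_notMem_F₂ : c.h ∉ c.F₂ := fun hh => c.hhF (c.mem_F₁_of_fixed hh c.Phi_h)

theorem h_pow_mem_F₂ : c.h ^ c.p ∈ c.F₂ := c.F₁_le_F₂ c.hhp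

/-- `L = Fc(u)`. -/
theorem L_le_closure_Fc :
    c.L.toSubfield ≤ Subfield.closure ((c.Fc : Set (LaurentSeries K)) ∪ {c.uC}) :=
  c.L_le (fun _ hz => Subfield.subset_closure (Or.inl (c.F₁_le_Fc hz)))
    (Subfield.subset_closure (Or.inr rfl))
    (Subfield.subset_closure (Or.inl c.h_mem_Fc))

/-- **`Φ`-fixed elements of `L` lie in the function field `Fc = F₁(h)` of the cover.** -/
theorem mem_Fc_of_fixed {z : LaurentSeries K} (hz : z ∈ c.L) (hfix : c.Phi z = z) :
    z ∈ c.Fc :=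
  mem_of_fixed_h819 c.Fc c.Phi (fun _ hw => c.Phi_Fc hw) c.hp c.zC_inv_isPrimitiveRoot
    (c.Fc.inv_mem (c.F₁_le_Fc c.zC_mem_F₁)) c.Phi_uC (c.F₁_le_Fc c.uC_pow_mem_F₁)
    (c.L_le_closure_Fc hz) hfix

/-! ### The automorphism `σ` of `L` -/

theorem Phi_mem_F₂ {z : LaurentSeries K} (hz : z ∈ c.F₂) : c.Phi z ∈ c.F₂ := by
  have : c.F₂ ≤ c.F₂.comap (c.Phi : LaurentSeries K →+* LaurentSeries K) := by
    apply c.F₂_le
    · intro w hw
      show c.Phi w ∈ c.F₂
      rw [c.Phi_F₁ hw]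
      exact c.F₁_le_F₂ hw
    · show c.Phi c.uC ∈ c.F₂
      rw [c.Phi_uC]
      exact c.F₂.mul_mem (c.F₂.inv_mem c.zC_mem_F₂) c.uC_mem_F₂
  exact this hz

theorem Phi_symm_mem_F₂ {z : LaurentSeries K} (hz : z ∈ c.F₂) : c.Phi.symm z ∈ c.F₂ := by
  have : c.F₂ ≤ c.F₂.comap (c.Phi.symm : LaurentSeries K →+* LaurentSeries K) := by
    apply c.F₂_le
    · intro w hw
      show c.Phi.symm w ∈ c.F₂
      rw [c.Phi_symm_F₁ hw]
      exact c.F₁_le_F₂ hw
    · show c.Phi.symm c.uC ∈ c.F₂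
      rw [c.Phi_symm_uC]
      exact c.F₂.mul_mem c.zC_mem_F₂ c.uC_mem_F₂
  exact this hz

theorem Phi_mem_L {z : LaurentSeries K} (hz : z ∈ c.L) : c.Phi z ∈ c.L := by
  have : c.L.toSubfield ≤ c.L.toSubfield.comap (c.Phi : LaurentSeries K →+* LaurentSeries K) := by
    apply c.L_le
    · intro w hw
      show c.Phi w ∈ c.L
      rw [c.Phi_F₁ hw]
      exact c.mem_L_of_mem_F₁ hw
    · show c.Phi c.uC ∈ c.L
      exact c.mem_L_of_mem_F₂ (c.Phi_mem_F₂ c.uC_mem_F₂)
    · show c.Phi c.h ∈ c.L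
      rw [c.Phi_h]
      exact c.h_mem_L
  exact this hz

theorem Phi_symm_mem_L {z : LaurentSeries K} (hz : z ∈ c.L) : c.Phi.symm z ∈ c.L := by
  have : c.L.toSubfield ≤
      c.L.toSubfield.comap (c.Phi.symm : LaurentSeries K →+* LaurentSeries K) := by
    apply c.L_le
    · intro w hw
      show c.Phi.symm w ∈ c.L
      rw [c.Phi_symm_F₁ hw]
      exact c.mem_L_of_mem_F₁ hw
    · show c.Phi.symm c.uC ∈ c.L
      exact c.mem_L_of_mem_F₂ (c.Phi_symm_mem_F₂ c.uC_mem_F₂)
    · show c.Phi.symm c.h ∈ c.L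
      rw [c.Phi_symm_h]
      exact c.h_mem_L
  exact this hz

/-- **`σ`**: the coefficientwise action of `σ₀` on `L`. -/
def sigma : ↥c.L ≃+* ↥c.L where
  toFun z := ⟨c.Phi z, c.Phi_mem_L z.2⟩
  invFun z := ⟨c.Phi.symm z, c.Phi_symm_mem_L z.2⟩
  left_inv _ := Subtype.ext (c.Phi.symm_apply_apply _)
  right_inv _ := Subtype.ext (c.Phi.apply_symm_apply _)
  map_mul' _ _ := Subtype.ext (map_mul c.Phi _ _)
  map_add' _ _ := Subtype.ext (map_add c.Phi _ _)

@[simp]
theorem coe_sigma (z : ↥c.L) : ((c.sigma z : ↥c.L) : LaurentSeries K) = c.Phi z := rfl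

theorem coe_sigma_eq_coeffMap (z : ↥c.L) :
    ((c.sigma z : ↥c.L) : LaurentSeries K) =
      coeffMap (c.σ₀ : K →+* K) (z : LaurentSeries K) := rfl

/-! ### The deck transformation `τ` -/

/-- **`τ`**: the deck transformation of `L = F₂(h)` over `F₂`, `τ h = ζ h`. -/
def tau : ↥c.L ≃ₐ[↥c.F₂] ↥c.L :=
  (exists_deck_h819 c.F₂ c.hp c.zC_isPrimitiveRoot c.zC_mem_F₂ c.h_pow_mem_F₂
    c.h_notMem_F₂).choose

/-- `h` as an element of `L`. -/
def hL : ↥c.L := ⟨c.h, c.h_mem_L⟩

/-- `u` as an element of `L`. -/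
def uL : ↥c.L := ⟨c.uC, c.uC_mem_L⟩

/-- `ζ` as an element of `L`. -/
def zL : ↥c.L := ⟨c.zC, c.mem_L_of_mem_F₁ c.zC_mem_F₁⟩

theorem coe_tau_hL : ((c.tau c.hL : ↥c.L) : LaurentSeries K) = c.zC * c.h :=
  (exists_deck_h819 c.F₂ c.hp c.zC_isPrimitiveRoot c.zC_mem_F₂ c.h_pow_mem_F₂
    c.h_notMem_F₂).choose_spec

theorem tau_hL : c.tau c.hL = c.zL * c.hL := Subtype.ext c.coe_tau_hL

theorem tau_of_mem_F₂ (z : ↥c.L) (hz : (z : LaurentSeries K) ∈ c.F₂) : c.tau z = z := by
  have : z = algebraMap ↥c.F₂ ↥c.L ⟨z, hz⟩ := Subtype.ext rfl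
  rw [this]
  exact c.tau.commutes _

theorem tau_of_mem_F₁ (z : ↥c.L) (hz : (z : LaurentSeries K) ∈ c.F₁) : c.tau z = z :=
  c.tau_of_mem_F₂ z (c.F₁_le_F₂ hz)

theorem tau_uL : c.tau c.uL = c.uL := c.tau_of_mem_F₂ _ c.uC_mem_F₂

theorem tau_zL : c.tau c.zL = c.zL := c.tau_of_mem_F₁ _ c.zC_mem_F₁

theorem sigma_hL : c.sigma c.hL = c.hL := Subtype.ext c.Phi_h

theorem sigma_zL : c.sigma c.zL = c.zL := Subtype.ext c.Phi_zC

theorem sigma_uL : c.sigma c.uL = c.zL⁻¹ * c.uL := Subtype.ext c.Phi_uC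

theorem sigma_of_mem_Fc (z : ↥c.L) (hz : (z : LaurentSeries K) ∈ c.Fc) : c.sigma z = z :=
  Subtype.ext (c.Phi_Fc hz)

theorem mem_Fc_of_sigma_eq (z : ↥c.L) (hz : c.sigma z = z) : (z : LaurentSeries K) ∈ c.Fc :=
  c.mem_Fc_of_fixed z.2 (congrArg Subtype.val hz)

/-! ### Induction on `L` -/

/-- Two ring homomorphisms `L → A` which agree on `F₂` and at `h` are equal. -/
theorem ringHom_ext_L {A : Type*} [DivisionRing A] (f g : ↥c.L →+* A)
    (h2 : ∀ z : ↥c.L, (z : LaurentSeries K) ∈ c.F₂ → f z = g z) (hh : f c.hL = g c.hL) :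
    f = g := by
  ext z
  obtain ⟨z, hz⟩ := z
  induction hz using IntermediateField.adjoin_induction with
  | mem x hx =>
    rw [Set.mem_singleton_iff] at hx
    subst hx
    exact hh
  | algebraMap x => exact h2 _ x.2
  | add x y hx hy ihx ihy =>
    have : (⟨x + y, add_mem hx hy⟩ : ↥c.L) = ⟨x, hx⟩ + ⟨y, hy⟩ := rfl
    rw [this, map_add, map_add, ihx, ihy]
  | inv x hx ihx =>
    have : (⟨x⁻¹, inv_mem hx⟩ : ↥c.L) = (⟨x, hx⟩ : ↥c.L)⁻¹ := rfl
    rw [this, map_inv₀, map_inv₀, ihx]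
  | mul x y hx hy ihx ihy =>
    have : (⟨x * y, mul_mem hx hy⟩ : ↥c.L) = ⟨x, hx⟩ * ⟨y, hy⟩ := rfl
    rw [this, map_mul, map_mul, ihx, ihy]

/-- Two ring homomorphisms `L → A` which agree on `F₁`, at `u` and at `h` are equal. -/
theorem ringHom_ext_L' {A : Type*} [DivisionRing A] (f g : ↥c.L →+* A)
    (h1 : ∀ z : ↥c.L, (z : LaurentSeries K) ∈ c.F₁ → f z = g z) (hu : f c.uL = g c.uL)
    (hh : f c.hL = g c.hL) : f = g := by
  apply c.ringHom_ext_L f g _ hh
  intro z hz
  obtain ⟨z, hzL⟩ := z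
  have hz' : z ∈ c.F₂ := hz
  clear hz
  induction hz' using Subfield.closure_induction with
  | mem x hx =>
    rcases hx with hx | hx
    · exact h1 _ hx
    · rw [Set.mem_singleton_iff] at hx
      subst hx
      exact hu
  | one =>
    have : (⟨1, hzL⟩ : ↥c.L) = 1 := rfl
    rw [this, map_one, map_one]
  | add x y hx hy ihx ihy =>
    have hxL := c.mem_L_of_mem_F₂ hx
    have hyL := c.mem_L_of_mem_F₂ hy
    have : (⟨x + y, hzL⟩ : ↥c.L) = ⟨x, hxL⟩ + ⟨y, hyL⟩ := rfl
    rw [this, map_add, map_add, ihx hxL, ihy hyL]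
  | neg x hx ihx =>
    have hxL := c.mem_L_of_mem_F₂ hx
    have : (⟨-x, hzL⟩ : ↥c.L) = -⟨x, hxL⟩ := rfl
    rw [this, map_neg, map_neg, ihx hxL]
  | inv x hx ihx =>
    have hxL := c.mem_L_of_mem_F₂ hx
    have : (⟨x⁻¹, hzL⟩ : ↥c.L) = (⟨x, hxL⟩ : ↥c.L)⁻¹ := rfl
    rw [this, map_inv₀, map_inv₀, ihx hxL]
  | mul x y hx hy ihx ihy =>
    have hxL := c.mem_L_of_mem_F₂ hx
    have hyL := c.mem_L_of_mem_F₂ hy
    have : (⟨x * y, hzL⟩ : ↥c.L) = ⟨x, hxL⟩ * ⟨y, hyL⟩ := rfl
    rw [this, map_mul, map_mul, ihx hxL, ihy hyL]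

/-! ### `σ τ = τ σ`, `σ ^ p = 1 ≠ σ` -/

/-- `τ` as a ring automorphism. -/
def tauR : ↥c.L ≃+* ↥c.L := c.tau.toRingEquiv

@[simp]
theorem tauR_apply (z : ↥c.L) : c.tauR z = c.tau z := rfl

theorem sigma_tau (z : ↥c.L) : c.sigma (c.tauR z) = c.tauR (c.sigma z) := by
  have key : ((c.sigma : ↥c.L →+* ↥c.L).comp (c.tauR : ↥c.L →+* ↥c.L)) =
      ((c.tauR : ↥c.L →+* ↥c.L).comp (c.sigma : ↥c.L →+* ↥c.L)) := by
    apply c.ringHom_ext_L'
    · intro w hw
      show c.sigma (c.tau w) = c.tau (c.sigma w)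
      have h1 : c.sigma w = w := Subtype.ext (c.Phi_F₁ hw)
      rw [c.tau_of_mem_F₁ w hw, h1, c.tau_of_mem_F₁ w hw]
    · show c.sigma (c.tau c.uL) = c.tau (c.sigma c.uL)
      rw [c.tau_uL, c.sigma_uL, map_mul, map_inv₀, c.tau_zL, c.tau_uL]
    · show c.sigma (c.tau c.hL) = c.tau (c.sigma c.hL)
      rw [c.tau_hL, c.sigma_hL, map_mul, c.sigma_zL, c.sigma_hL, c.tau_hL]
  exact congrArg (fun f : ↥c.L →+* ↥c.L => f z) key

theorem sigma_pow_apply_uL (j : ℕ) : (c.sigma ^ j) c.uL = (c.zL⁻¹) ^ j * c.uL := by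
  induction j with
  | zero => simp
  | succ j ih =>
    rw [pow_succ', RingAut.mul_apply, ih, map_mul, map_pow, map_inv₀, c.sigma_zL, c.sigma_uL]
    ring

theorem zL_pow : c.zL ^ c.p = 1 := Subtype.ext (by
  show c.zC ^ c.p = 1
  exact c.zC_isPrimitiveRoot.pow_eq_one)

theorem zL_ne_zero : c.zL ≠ 0 := by
  intro h0
  have := congrArg Subtype.val h0
  exact HahnSeries.C_ne_zero c.zeta_ne_zero this

theorem uL_ne_zero : c.uL ≠ 0 := by
  intro h0
  have := congrArg Subtype.val h0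
  exact HahnSeries.C_ne_zero c.hu0 this

theorem sigma_pow : c.sigma ^ c.p = 1 := by
  have key : ((c.sigma ^ c.p : ↥c.L ≃+* ↥c.L) : ↥c.L →+* ↥c.L) = RingHom.id _ := by
    have hfix : ∀ (w : ↥c.L), c.sigma w = w → ∀ j : ℕ, (c.sigma ^ j) w = w := by
      intro w hw j
      induction j with
      | zero => rfl
      | succ j ih => rw [pow_succ', RingAut.mul_apply, ih, hw]
    apply c.ringHom_ext_L'
    · intro w hw
      exact hfix w (Subtype.ext (c.Phi_F₁ hw)) c.p
    · show (c.sigma ^ c.p) c.uL = c.uL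
      rw [c.sigma_pow_apply_uL, inv_pow, c.zL_pow, inv_one, one_mul]
    · exact hfix _ c.sigma_hL c.p
  exact RingEquiv.ext fun z => congrArg (fun f : ↥c.L →+* ↥c.L => f z) key

theorem sigma_ne_one : c.sigma ≠ 1 := by
  intro h1
  have h2 : c.sigma c.uL = c.uL := by rw [h1]; rfl
  rw [c.sigma_uL] at h2
  have h3 : c.zL⁻¹ = 1 := by
    have := mul_right_cancel₀ c.uL_ne_zero (h2.trans (one_mul _).symm)
    exact this
  have h4 : c.zC = 1 := by
    have : c.zL = 1 := by rw [← inv_inv c.zL, h3, inv_one]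
    exact congrArg Subtype.val this
  have h5 := c.zC_isPrimitiveRoot
  rw [h4] at h5
  exact c.hp.one_lt.ne' (IsPrimitiveRoot.unique h5 IsPrimitiveRoot.one)

/-! ### The leading coefficient -/

/-- **`lc`**: the leading coefficient, as a constant of `L`. -/
def lc : ↥c.L →*₀ ↥c.L where
  toFun z := ⟨HahnSeries.C (z : LaurentSeries K).leadingCoeff,
    c.mem_L_of_mem_F₂ (c.C_mem_F₂ (c.leadingCoeff_mem z.2))⟩
  map_zero' := Subtype.ext (by
    show (HahnSeries.C (0 : LaurentSeries K).leadingCoeff : LaurentSeries K) = 0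
    simp)
  map_one' := Subtype.ext (by
    show (HahnSeries.C (1 : LaurentSeries K).leadingCoeff : LaurentSeries K) = 1
    rw [HahnSeries.leadingCoeff_one, map_one])
  map_mul' x y := Subtype.ext (by
    show (HahnSeries.C ((x : LaurentSeries K) * (y : LaurentSeries K)).leadingCoeff :
      LaurentSeries K) = HahnSeries.C (x : LaurentSeries K).leadingCoeff *
        HahnSeries.C (y : LaurentSeries K).leadingCoeff
    rw [HahnSeries.leadingCoeff_mul, map_mul])

@[simp]
theorem coe_lc (z : ↥c.L) :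
    ((c.lc z : ↥c.L) : LaurentSeries K) = HahnSeries.C (z : LaurentSeries K).leadingCoeff := rfl

theorem leadingCoeff_C_h819 (e : K) : (HahnSeries.C e : LaurentSeries K).leadingCoeff = e := by
  rw [HahnSeries.C_apply, HahnSeries.leadingCoeff_of_single]

theorem lc_lc (z : ↥c.L) : c.lc (c.lc z) = c.lc z := Subtype.ext (by
  rw [coe_lc, coe_lc, leadingCoeff_C_h819])

theorem lc_sigma (z : ↥c.L) : c.lc (c.sigma z) = c.sigma (c.lc z) := Subtype.ext (by
  rw [coe_lc, coe_sigma, coe_sigma, coe_lc]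
  show HahnSeries.C (coeffEquiv c.σ₀ (z : LaurentSeries K)).leadingCoeff =
    coeffEquiv c.σ₀ (HahnSeries.C (z : LaurentSeries K).leadingCoeff)
  rw [leadingCoeff_coeffEquiv, coeffEquiv_C])

theorem lc_mem_F₂ (z : ↥c.L) : ((c.lc z : ↥c.L) : LaurentSeries K) ∈ c.F₂ :=
  c.C_mem_F₂ (c.leadingCoeff_mem z.2)

theorem tau_lc (z : ↥c.L) : c.tauR (c.lc z) = c.lc z := c.tau_of_mem_F₂ _ (c.lc_mem_F₂ z)

theorem lc_zL : c.lc c.zL = c.zL := Subtype.ext (by
  rw [coe_lc]
  show HahnSeries.C (HahnSeries.C c.ζ : LaurentSeries K).leadingCoeff = HahnSeries.C c.ζ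
  rw [leadingCoeff_C_h819])

theorem lc_of_const (e : K) (he : (HahnSeries.C e : LaurentSeries K) ∈ c.L) :
    c.lc ⟨HahnSeries.C e, he⟩ = ⟨HahnSeries.C e, he⟩ := Subtype.ext (by
  rw [coe_lc]
  show HahnSeries.C (HahnSeries.C e : LaurentSeries K).leadingCoeff = HahnSeries.C e
  rw [leadingCoeff_C_h819])

theorem zL_isPrimitiveRoot : IsPrimitiveRoot c.zL c.p := by
  have h := c.zC_isPrimitiveRoot
  refine IsPrimitiveRoot.of_map_of_injective (f := c.L.val) ?_ ?_
  · exact h
  · exact c.L.val.injective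

/-! ### `τ` preserves the function field of the cover -/

theorem tau_mem_Fc (z : ↥c.L) (hz : (z : LaurentSeries K) ∈ c.Fc) :
    ((c.tau z : ↥c.L) : LaurentSeries K) ∈ c.Fc := by
  obtain ⟨z, hzL⟩ := z
  have hz' : z ∈ c.Fc := hz
  clear hz
  induction hz' using Subfield.closure_induction with
  | mem x hx =>
    rcases hx with hx | hx
    · rw [c.tau_of_mem_F₁ _ hx]
      exact c.F₁_le_Fc hx
    · rw [Set.mem_singleton_iff] at hx
      subst hx
      have : (⟨c.h, hzL⟩ : ↥c.L) = c.hL := rfl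
      rw [this, c.coe_tau_hL]
      exact c.Fc.mul_mem (c.F₁_le_Fc c.zC_mem_F₁) c.h_mem_Fc
  | one =>
    have : (⟨1, hzL⟩ : ↥c.L) = 1 := rfl
    rw [this, map_one]
    exact c.Fc.one_mem
  | add x y hx hy ihx ihy =>
    have hxL := c.mem_L_of_mem_Fc hx
    have hyL := c.mem_L_of_mem_Fc hy
    have : (⟨x + y, hzL⟩ : ↥c.L) = ⟨x, hxL⟩ + ⟨y, hyL⟩ := rfl
    rw [this, map_add]
    exact c.Fc.add_mem (ihx hxL) (ihy hyL)
  | neg x hx ihx =>
    have hxL := c.mem_L_of_mem_Fc hx
    have : (⟨-x, hzL⟩ : ↥c.L) = -⟨x, hxL⟩ := rfl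
    rw [this, map_neg]
    exact c.Fc.neg_mem (ihx hxL)
  | inv x hx ihx =>
    have hxL := c.mem_L_of_mem_Fc hx
    have : (⟨x⁻¹, hzL⟩ : ↥c.L) = (⟨x, hxL⟩ : ↥c.L)⁻¹ := rfl
    rw [this, map_inv₀]
    exact c.Fc.inv_mem (ihx hxL)
  | mul x y hx hy ihx ihy =>
    have hxL := c.mem_L_of_mem_Fc hx
    have hyL := c.mem_L_of_mem_Fc hy
    have : (⟨x * y, hzL⟩ : ↥c.L) = ⟨x, hxL⟩ * ⟨y, hyL⟩ := rfl
    rw [this, map_mul]
    exact c.Fc.mul_mem (ihx hxL) (ihy hyL)

end PerCtx


end Fermat.Agent.Ribet.H819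

end

end
-- ===== PACK-END Ribet/H819/PerField.lean

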