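import Fermat.Prelude.Def_ModularCurve_HeckeModule
import Fermat.Prelude.Thm_ModularCurve_coeffMap_qExpand
import Mathlib
import Fermat.Prelude.Def_ModularCurve_X0ModL
import Fermat.Agent.Pack.S44.G0E0L3
import Fermat.Agent.Pack.S44.G0E0L0
import Fermat.Agent.Pack.S44.G0E0L1
import Fermat.Agent.Pack.S44.G0E0L2

-- ===== PACK-BEGIN S24/H117/PlaceBasic.lean
section


/-!
# S24 / H117 — basic API for `AlgebraicCurve.Place.ord`

Elementary facts about the order function of a place (membership, ultrametric inequality,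
constants), re-proved here because the Prelude versions are private.
-/

set_option autoImplicit false

noncomputable section

open AlgebraicCurve

namespace Fermat.Agent.S24.H117

variable {K F : Type*} [Field K] [Field F] [Algebra K F] (v : Place K F)

theorem ord_nonneg_of_mem {f : F} (hf : f ∈ v.toValuationSubring) : 0 ≤ v.ord f := by
  rcases eq_or_ne f 0 with rfl | hf0
  · simp
  obtain ⟨π, hπ⟩ := IsDiscreteValuationRing.exists_irreducible v.toValuationSubring
  obtain ⟨n, u, hu⟩ :=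
    IsDiscreteValuationRing.eq_unit_mul_pow_irreducible
      (x := (⟨f, hf⟩ : v.toValuationSubring)) (by simpa [Subtype.ext_iff] using hf0) hπ
  have hcoe : f = ((u : v.toValuationSubring) : F) * ((π : F) ^ (n : ℤ)) := by
    have h := congrArg (Subtype.val) hu
    push_cast at h
    rw [zpow_natCast]
    exact h
  rw [hcoe, v.ord_unit_smul_zpow u hπ (n : ℤ)]
  exact Int.natCast_nonneg n

theorem mem_of_ord_nonneg {f : F} (h : 0 ≤ v.ord f) : f ∈ v.toValuationSubring := by
  rcases eq_or_ne f 0 with rfl | hf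
  · exact zero_mem _
  obtain ⟨π, hπ⟩ := IsDiscreteValuationRing.exists_irreducible v.toValuationSubring
  obtain ⟨u, hu⟩ := v.exists_unit_mul_zpow hf hπ
  rw [hu, show v.ord f = (((v.ord f).toNat : ℕ) : ℤ) from (Int.toNat_of_nonneg h).symm,
    zpow_natCast]
  exact mul_mem (u : v.toValuationSubring).2 (pow_mem (π : v.toValuationSubring).2 _)

theorem mem_iff_ord_nonneg {f : F} : f ∈ v.toValuationSubring ↔ 0 ≤ v.ord f :=
  ⟨ord_nonneg_of_mem v, mem_of_ord_nonneg v⟩

theorem exists_ord_eq_one : ∃ π : F, π ≠ 0 ∧ v.ord π = 1 := by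
  obtain ⟨π, hπ⟩ := IsDiscreteValuationRing.exists_irreducible v.toValuationSubring
  refine ⟨(π : F), ?_, v.ord_coe_irreducible hπ⟩
  simpa [ne_eq, ZeroMemClass.coe_eq_zero] using hπ.ne_zero

theorem ord_algebraMap (c : K) : v.ord (algebraMap K F c) = 0 := by
  rcases eq_or_ne c 0 with rfl | hc
  · simp
  have h1 : 0 ≤ v.ord (algebraMap K F c) := ord_nonneg_of_mem v (v.algebraMap_mem' c)
  have h2 : 0 ≤ v.ord (algebraMap K F c⁻¹) := ord_nonneg_of_mem v (v.algebraMap_mem' c⁻¹)
  rw [map_inv₀, v.ord_inv] at h2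
  omega

theorem ord_neg (f : F) : v.ord (-f) = v.ord f := by
  simp [Place.ord, Valuation.map_neg]

theorem ord_add_ge {f g : F} (hfg : f + g ≠ 0) : min (v.ord f) (v.ord g) ≤ v.ord (f + g) := by
  rcases eq_or_ne f 0 with rfl | hf
  · simp
  rcases eq_or_ne g 0 with rfl | hg
  · simp
  -- wlog ord f ≤ ord g
  wlog hle : v.ord f ≤ v.ord g generalizing f g
  · have := this (f := g) (g := f) (by rwa [add_comm]) hg hf (le_of_not_ge hle)
    rwa [min_comm, add_comm]
  rw [min_eq_left hle]
  have hq : g / f ∈ v.toValuationSubring := by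
    apply mem_of_ord_nonneg
    rw [div_eq_mul_inv, v.ord_mul hg (inv_ne_zero hf), v.ord_inv]
    omega
  have h1 : (1 + g / f) ∈ v.toValuationSubring := add_mem (one_mem _) hq
  have h1ne : (1 + g / f) ≠ 0 := by
    intro h0
    apply hfg
    have : f * (1 + g / f) = f + g := by field_simp
    rw [← this, h0, mul_zero]
  have : f + g = f * (1 + g / f) := by field_simp
  rw [this, v.ord_mul hf h1ne]
  have := ord_nonneg_of_mem v h1
  omega

theorem ord_add_eq_of_lt {f g : F} (h : v.ord f < v.ord g) (hf : f ≠ 0) :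
    v.ord (f + g) = v.ord f := by
  rcases eq_or_ne g 0 with rfl | hg
  · simp
  have hfg : f + g ≠ 0 := by
    intro h0
    have : g = -f := eq_neg_of_add_eq_zero_right h0
    rw [this, _root_.Fermat.Agent.S24.H117.ord_neg] at h
    exact lt_irrefl _ h
  apply le_antisymm
  · by_contra hlt
    push Not at hlt
    have h2 : min (v.ord (f + g)) (v.ord (-g)) ≤ v.ord ((f + g) + -g) :=
      ord_add_ge v (by simpa using hf)
    rw [add_neg_cancel_right, _root_.Fermat.Agent.S24.H117.ord_neg] at h2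
    have : v.ord f < min (v.ord (f + g)) (v.ord g) := lt_min hlt h
    omega
  · have := ord_add_ge v hfg
    rwa [min_eq_left h.le] at this

theorem ord_pow (f : F) (n : ℕ) : v.ord (f ^ n) = n * v.ord f := by
  have := v.ord_zpow f (n : ℤ)
  rwa [zpow_natCast] at this

theorem ord_div {f g : F} (hf : f ≠ 0) (hg : g ≠ 0) : v.ord (f / g) = v.ord f - v.ord g := by
  rw [div_eq_mul_inv, v.ord_mul hf (inv_ne_zero hg), v.ord_inv]; ring

theorem ne_zero_of_ord_ne_zero {f : F} (h : v.ord f ≠ 0) : f ≠ 0 := by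
  rintro rfl
  exact h v.ord_zero

/-- Two places with the same non-negative-order elements are equal. -/
theorem place_ext_of_le {v w : Place K F}
    (h : ∀ f : F, 0 ≤ v.ord f → 0 ≤ w.ord f) : v = w := by
  apply Place.ext
  have hle : v.toValuationSubring ≤ w.toValuationSubring := fun f hf =>
    mem_of_ord_nonneg w (h f (ord_nonneg_of_mem v hf))
  refine le_antisymm hle ?_
  intro f hf
  by_contra hfv
  have hf0 : f ≠ 0 := fun h0 => hfv (h0 ▸ zero_mem _)
  have hvf : v.ord f < 0 := by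
    by_contra hge
    exact hfv (mem_of_ord_nonneg v (not_lt.mp hge))
  -- then `f⁻¹` has positive order at `v`, and every element is `u * (f⁻¹)^n`-bounded
  obtain ⟨g, hg0, hg⟩ : ∃ g : F, g ≠ 0 ∧ w.ord g < 0 := by
    by_contra hcon
    push Not at hcon
    apply w.ne_top'
    refine SetLike.ext fun x => ⟨fun _ => ValuationSubring.mem_top x, fun _ => ?_⟩
    rcases eq_or_ne x 0 with rfl | hx
    · exact zero_mem _
    · exact mem_of_ord_nonneg w (hcon x hx)
  -- choose n with ord_v (g * f⁻¹ ^ n) ≥ 0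
  have hfinv : 0 < v.ord f⁻¹ := by rw [v.ord_inv]; omega
  obtain ⟨n, hn⟩ : ∃ n : ℕ, 0 ≤ v.ord (g * f⁻¹ ^ n) := by
    refine ⟨(-v.ord g).toNat, ?_⟩
    rw [v.ord_mul hg0 (pow_ne_zero _ (inv_ne_zero hf0)), ord_pow]
    have : (0:ℤ) ≤ ((-v.ord g).toNat : ℤ) := Int.natCast_nonneg _
    have h2 : -v.ord g ≤ ((-v.ord g).toNat : ℤ) := Int.self_le_toNat _
    nlinarith
  have hw := h _ hn
  rw [w.ord_mul hg0 (pow_ne_zero _ (inv_ne_zero hf0)), ord_pow, w.ord_inv] at hw
  have hwf : 0 ≤ w.ord f := ord_nonneg_of_mem w hf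
  have : (n : ℤ) * -w.ord f ≤ 0 := by
    have : (0:ℤ) ≤ n := Int.natCast_nonneg _
    nlinarith
  omega

end Fermat.Agent.S24.H117

end
end
-- ===== PACK-END S24/H117/PlaceBasic.lean

-- ===== PACK-BEGIN S29/H571/HeckeGalois.lean
section




/-!
# Galois-equivariance of the Prelude Hecke operators on `JZero N`
(helper571, piece GEQ of the S29 route)

* `heckeOperatorAlong_smul` : `T_ℓ (σ • x) = σ • T_ℓ x` on
  `Pic0 L (laurentBaseChange L (modularFunctionFieldFull N))`, for every field `L ⊇ ℚ`,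
  UNCONDITIONALLY (if the Hecke inputs fail the operator is `0`).
* `heckeOperatorBar_smul` : the same for `heckeOperatorBar N ℓ` on `JZero N`.
* `smulCommClass_heckeModuleBar` :
  `letI := heckeModuleBar N; SMulCommClass Gal(ℚ̄/ℚ) HeckeAlg (JZero N)`,
  i.e. the second hypothesis of the frozen statement S37, unconditionally.
-/

set_option autoImplicit false
set_option linter.style.haveILetI false

noncomputable section

namespace Fermat.Agent.S29.H571

open AlgebraicCurve ModularCurve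

section General

variable {L : Type*} [Field L] [Algebra ℚ L]
variable (N ℓ : ℕ) [NeZero N] [NeZero ℓ]

theorem intertwines_heckeAlphaBar (σ : L ≃ₐ[ℚ] L) :
    SemilinearAut.IntertwinesAlong
      ((heckeAlphaBar L N ℓ : laurentBaseChange L (modularFunctionFieldFull N) →ₐ[L]
        laurentBaseChange L (modularFunctionFieldFull (N * ℓ))) : _ →+* _)
      (arithmeticGalois (modularFunctionFieldFull N) σ)
      (arithmeticGalois (modularFunctionFieldFull (N * ℓ)) σ) := by
  intro x
  apply Subtype.ext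
  rw [coe_arithmeticGalois_smul]
  show coeffMap (σ : L →+* L) ((heckeAlphaBar L N ℓ x : _) : LaurentSeries L) = _
  rw [coe_heckeAlphaBar]
  show _ = ((heckeAlphaBar L N ℓ (arithmeticGalois (modularFunctionFieldFull N) σ • x) : _) :
    LaurentSeries L)
  rw [coe_heckeAlphaBar, coe_arithmeticGalois_smul]

omit [NeZero N] in
theorem intertwines_heckeBetaBar (σ : L ≃ₐ[ℚ] L) :
    SemilinearAut.IntertwinesAlong
      ((heckeBetaBar L N ℓ : laurentBaseChange L (modularFunctionFieldFull N) →ₐ[L]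
        laurentBaseChange L (modularFunctionFieldFull (N * ℓ))) : _ →+* _)
      (arithmeticGalois (modularFunctionFieldFull N) σ)
      (arithmeticGalois (modularFunctionFieldFull (N * ℓ)) σ) := by
  intro x
  apply Subtype.ext
  rw [coe_arithmeticGalois_smul]
  show coeffMap (σ : L →+* L) ((heckeBetaBar L N ℓ x : _) : LaurentSeries L) = _
  rw [coe_heckeBetaBar]
  show _ = ((heckeBetaBar L N ℓ (arithmeticGalois (modularFunctionFieldFull N) σ • x) : _) :
    LaurentSeries L)
  rw [coe_heckeBetaBar, coe_arithmeticGalois_smul, coeffMap_qExpand]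

/-- Galois-equivariance of the Prelude Hecke operator `heckeOperatorAlong L N ℓ`. -/
theorem heckeOperatorAlong_smul (σ : L ≃ₐ[ℚ] L)
    (x : Pic0 L (laurentBaseChange L (modularFunctionFieldFull N))) :
    heckeOperatorAlong L N ℓ (σ • x) = σ • heckeOperatorAlong L N ℓ x := by
  by_cases h : HeckeInputsAlong L N ℓ
  · obtain ⟨hα, hβ, hP, hfin, hFI, hN⟩ := h
    rw [heckeOperatorAlong_eq hα hβ hFI hfin hN, galois_smul_pic0_def, galois_smul_pic0_def]
    exact pic0_correspondence_smul (heckeBetaBar L N ℓ) (heckeAlphaBar L N ℓ) hβ hα hFI hfin hN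
      (intertwines_heckeBetaBar N ℓ σ) (intertwines_heckeAlphaBar N ℓ σ) x
  · rw [heckeOperatorAlong_of_not h]
    simp

end General

section Bar

variable (N : ℕ) [NeZero N]

/-- Galois-equivariance of `heckeOperatorBar N ℓ` on `JZero N`. -/
theorem heckeOperatorBar_smul (ℓ : Nat.Primes)
    (σ : AlgebraicClosure ℚ ≃ₐ[ℚ] AlgebraicClosure ℚ) (x : JZero N) :
    heckeOperatorBar N ℓ (σ • x) = σ • heckeOperatorBar N ℓ x := by
  haveI : NeZero (ℓ : ℕ) := ⟨ℓ.2.ne_zero⟩
  rw [heckeOperatorBar_apply, heckeOperatorBar_apply]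
  exact heckeOperatorAlong_smul N (ℓ : ℕ) σ x

/-- Every element of the Hecke algebra acts Galois-equivariantly (commuting case). -/
theorem heckeEvalBar_smul (h : HeckeOperatorsCommuteBar N) (t : HeckeAlg)
    (σ : AlgebraicClosure ℚ ≃ₐ[ℚ] AlgebraicClosure ℚ) (x : JZero N) :
    heckeEvalBar h t (σ • x) = σ • heckeEvalBar h t x := by
  induction t using MvPolynomial.induction_on generalizing x with
  | C a =>
    rw [heckeEvalBar_C, Module.End.intCast_apply, Module.End.intCast_apply, smul_comm]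
  | add p q hp hq =>
    rw [map_add, LinearMap.add_apply, LinearMap.add_apply, hp, hq, smul_add]
  | mul_X p ℓ hp =>
    rw [map_mul, Module.End.mul_apply, Module.End.mul_apply,
      show (MvPolynomial.X ℓ : HeckeAlg) = heckeGen ℓ from rfl, heckeEvalBar_heckeGen,
      heckeOperatorBar_smul, hp]

/-- The Galois action on `JZero N` commutes with the `HeckeAlg`-module structure
`heckeModuleBar N`, unconditionally.  This is exactly the `SMulCommClass` hypothesis of the
frozen statement S37. -/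
theorem smulCommClass_heckeModuleBar :
    letI := heckeModuleBar N
    SMulCommClass (AlgebraicClosure ℚ ≃ₐ[ℚ] AlgebraicClosure ℚ) HeckeAlg (JZero N) := by
  letI := heckeModuleBar N
  refine ⟨fun σ t x => ?_⟩
  by_cases h : HeckeOperatorsCommuteBar N
  · rw [heckeModuleBar_smul_def h, heckeModuleBar_smul_def h, heckeEvalBar_smul]
  · rw [heckeModuleBar_smul_of_not h, heckeModuleBar_smul_of_not h]
    exact (smul_comm _ σ x).symm

end Bar

end Fermat.Agent.S29.H571


end
end
-- ===== PACK-END S29/H571/HeckeGalois.lean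

-- ===== PACK-BEGIN S28/H145/PrimeDegree.lean
section





/-!
# Leaf [L.B2] of the S28 plan: the prime-level degrees are `p + 1`

From the modular polynomial `Φ_p` (`ModPolyData p`) and `j(q^p) ∉ k(j)` we deduce that
`j(q^p)` has degree exactly `p + 1` over `k(j)` and `j` has degree exactly `p + 1` over
`k(j(q^p))`.
-/

set_option autoImplicit false

noncomputable section

open ModularCurve HahnSeries Polynomial

namespace Fermat.Agent.S28.H145

variable (k : Type*) [Field k]

/-! ### Basic facts on `j` -/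

theorem jqModC_ne_zero' : jqModC k ≠ 0 := jqModC_ne_zero_of_nontrivial k

theorem order_jqModC : (jqModC k).order = -1 := by
  have h1 : (jqModC k).coeff (-1) ≠ 0 := by
    rw [coeff_jqModC_neg_one]; exact one_ne_zero
  refine le_antisymm (HahnSeries.order_le_of_coeff_ne_zero h1) ?_
  by_contra hlt
  rw [not_le] at hlt
  exact (HahnSeries.coeff_order_eq_zero.not.mpr (jqModC_ne_zero' k)) (coeff_jqModC_of_lt k hlt)

theorem isCoprime_order_jqModC (p : ℕ) : IsCoprime (jqModC k).order (p : ℤ) := by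
  rw [order_jqModC]
  exact (isCoprime_one_left).neg_left

/-- `j ∉ range V_p` for `p ≥ 2`. -/
theorem jqModC_notMem_range (p : ℕ) [NeZero p] (hp : 2 ≤ p) :
    jqModC k ∉ (qExpand k p).range := by
  rintro ⟨z, hz⟩
  have h := dvd_order_qExpand (k := k) p z
  rw [hz, order_jqModC] at h
  have h1 : (p : ℤ) ∣ 1 := (dvd_neg.mp h)
  have h2 : (p : ℤ) ≤ 1 := Int.le_of_dvd one_pos h1
  have : (2 : ℤ) ≤ p := by exact_mod_cast hp
  omega

/-! ### Transfer of the modular equation to `k` -/

theorem coeffMap_comp_evalAt {A B : Type*} [CommRing A] [CommRing B] (f : A →+* B)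
    (y : LaurentSeries A) :
    (coeffMap f).comp (evalAt y) = evalAt (coeffMap f y) := by
  refine Polynomial.ringHom_ext' (Subsingleton.elim _ _) ?_
  simp [evalAt]

theorem qExpand_comp_evalAt {A : Type*} [CommRing A] (p : ℕ) [NeZero p] (y : LaurentSeries A) :
    (qExpand A p).comp (evalAt y) = evalAt (qExpand A p y) := by
  refine Polynomial.ringHom_ext' (Subsingleton.elim _ _) ?_
  simp [evalAt]

variable {k} in
theorem modPoly_eval_jp_field {p : ℕ} [NeZero p] (Φ : ModPolyData p) :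
    Φ.Φ.eval₂ (evalAt (jqModC k)) (qExpand k p (jqModC k)) = 0 := by
  have h := congrArg (coeffMap (Int.castRingHom k)) Φ.eval_jp
  rwa [Polynomial.hom_eval₂, coeffMap_comp_evalAt, coeffMap_qExpand, coeffMap_jqModC, map_zero]
    at h

variable {k} in
theorem modPoly_eval_j_field {p : ℕ} [NeZero p] (Φ : ModPolyData p) :
    Φ.Φ.eval₂ (evalAt (qExpand k p (jqModC k))) (jqModC k) = 0 := by
  have h := congrArg (coeffMap (Int.castRingHom k)) Φ.eval_j
  rwa [Polynomial.hom_eval₂, coeffMap_comp_evalAt, coeffMap_qExpand, coeffMap_jqModC, map_zero]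
    at h

variable {k} in
/-- `Φ_p(j(q^{p²}), j(q^p)) = 0`. -/
theorem modPoly_eval_jpp_field {p : ℕ} [NeZero p] (Φ : ModPolyData p) :
    Φ.Φ.eval₂ (evalAt (qExpand k p (jqModC k))) (qExpand k p (qExpand k p (jqModC k))) = 0 := by
  have h := congrArg (qExpand k p) (modPoly_eval_jp_field (k := k) Φ)
  rwa [Polynomial.hom_eval₂, qExpand_comp_evalAt, map_zero] at h

/-! ### Polynomials over intermediate fields -/

section Sub

variable {k}
variable (K : IntermediateField k (LaurentSeries k))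

/-- The ring hom `ℤ[Y] → K`, `Y ↦ y`, for `y ∈ K`. -/
def evalAtSub (y : LaurentSeries k) (hy : y ∈ K) : Polynomial ℤ →+* K :=
  Polynomial.eval₂RingHom (Int.castRingHom K) ⟨y, hy⟩

theorem algebraMap_comp_evalAtSub (y : LaurentSeries k) (hy : y ∈ K) :
    (algebraMap K (LaurentSeries k)).comp (evalAtSub K y hy) = evalAt y := by
  refine Polynomial.ringHom_ext' (Subsingleton.elim _ _) ?_
  simp [evalAtSub, evalAt]

theorem aeval_map_evalAtSub (y : LaurentSeries k) (hy : y ∈ K) (P : Polynomial (Polynomial ℤ))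
    (x : LaurentSeries k) :
    Polynomial.aeval x (P.map (evalAtSub K y hy)) = P.eval₂ (evalAt y) x := by
  rw [Polynomial.aeval_def, Polynomial.eval₂_map, algebraMap_comp_evalAtSub]

end Sub

/-! ### The fields `k(j)` and `k(j(q^p))` -/

section Fields

variable (p : ℕ) [NeZero p]

/-- `k(j(q^p)) = V_p(k(j))`. -/
def jpField : IntermediateField k (LaurentSeries k) :=
  (jField k).map (qExpandAlgHomC k p)

variable {k p}

theorem jqModC_mem_jField : jqModC k ∈ jField k :=
  IntermediateField.mem_adjoin_simple_self k _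

theorem jp_mem_jpField : qExpand k p (jqModC k) ∈ jpField k p :=
  (IntermediateField.mem_map _).mpr ⟨jqModC k, jqModC_mem_jField, rfl⟩

theorem jpField_eq_adjoin :
    jpField k p = IntermediateField.adjoin k {qExpand k p (jqModC k)} := by
  rw [jpField, jField, IntermediateField.adjoin_map]
  simp

theorem mem_range_of_mem_jpField {y : LaurentSeries k} (hy : y ∈ jpField k p) :
    y ∈ (qExpand k p).range := by
  obtain ⟨x, -, rfl⟩ := (IntermediateField.mem_map _).mp hy
  exact ⟨x, rfl⟩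

theorem jp_mem_jField_of_jpp_mem
    (h : qExpand k p (qExpand k p (jqModC k)) ∈ jpField k p) :
    qExpand k p (jqModC k) ∈ jField k := by
  obtain ⟨x, hx, hxe⟩ := (IntermediateField.mem_map _).mp h
  have : x = qExpand k p (jqModC k) := qExpand_injective p hxe
  rwa [← this]

end Fields

/-! ### The degree of `j` over `k(j(q^p))` -/

section Main

variable {k} {p : ℕ} [NeZero p]

/-- A monic polynomial of degree `p` with coefficients in the range of `V_p` cannot kill both
`j` and an element of the range of `V_p`. -/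
theorem false_of_monic_natDegree_eq_of_roots (hp : 2 ≤ p) (f : Polynomial (LaurentSeries k))
    (hf : f.Monic) (hdeg : f.natDegree = p) (hcoef : ∀ n, f.coeff n ∈ (qExpand k p).range)
    (hj : f.eval (jqModC k) = 0) (z : LaurentSeries k) (hz : f.eval (qExpand k p z) = 0) :
    False := by
  have hlift : f ∈ Polynomial.lifts (qExpand k p) :=
    (Polynomial.lifts_iff_coeff_lifts f).mpr fun n => by
      obtain ⟨c, hc⟩ := hcoef n
      exact ⟨c, hc⟩
  obtain ⟨m', hm'map, hm'deg, hm'monic⟩ := Polynomial.lifts_and_natDegree_eq_and_monic hlift hf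
  have hroot : m'.IsRoot z := by
    have h1 : (qExpand k p) (m'.eval z) = 0 := by
      rw [← Polynomial.eval₂_hom, ← Polynomial.eval_map, hm'map]; exact hz
    exact qExpand_injective p (by rw [h1, map_zero])
  have hfac : (X - Polynomial.C z) * (m' /ₘ (X - Polynomial.C z)) = m' := Polynomial.mul_divByMonic_eq_iff_isRoot.mpr hroot
  set m₂ := m' /ₘ (X - Polynomial.C z) with hm₂
  have hm₂deg : m₂.natDegree = p - 1 := by
    rw [hm₂, Polynomial.natDegree_divByMonic _ (Polynomial.monic_X_sub_C z), hm'deg, hdeg,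
      Polynomial.natDegree_X_sub_C]
  have hfmap : f = (X - Polynomial.C (qExpand k p z)) * m₂.map (qExpand k p) := by
    rw [← hm'map, ← hfac, Polynomial.map_mul, Polynomial.map_sub, Polynomial.map_X,
      Polynomial.map_C]
  have hne : jqModC k - qExpand k p z ≠ 0 := by
    intro h
    exact jqModC_notMem_range k p hp ⟨z, (sub_eq_zero.mp h).symm⟩
  have hj2 : (m₂.map (qExpand k p)).eval (jqModC k) = 0 := by
    have := hj
    rw [hfmap, Polynomial.eval_mul, Polynomial.eval_sub, Polynomial.eval_X, Polynomial.eval_C]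
      at this
    exact (mul_eq_zero.mp this).resolve_left hne
  have hzero : m₂.map (qExpand k p) = 0 := by
    refine eq_zero_of_eval_eq_zero_of_natDegree_lt p (jqModC k) (jqModC_ne_zero' k)
      (isCoprime_order_jqModC k p) _ (fun n => ?_) ?_ hj2
    · rw [Polynomial.coeff_map]; exact ⟨_, rfl⟩
    · calc (m₂.map (qExpand k p)).natDegree ≤ m₂.natDegree := Polynomial.natDegree_map_le
        _ = p - 1 := hm₂deg
        _ < p := by omega
  rw [hzero, mul_zero] at hfmap
  exact hf.ne_zero hfmap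

/-- **[L.B2], first half.** The minimal polynomial of `j` over `k(j(q^p))` is `Φ_p(X, j(q^p))`,
of degree `p + 1`. -/
theorem minpoly_j_over_jpField (Φ : ModPolyData p) (hp : 2 ≤ p)
    (hB1 : qExpand k p (jqModC k) ∉ jField k) :
    minpoly (jpField k p) (jqModC k) =
      Φ.Φ.map (evalAtSub (jpField k p) _ jp_mem_jpField) := by
  set K₁ := jpField k p with hK₁
  set P₁ : Polynomial K₁ := Φ.Φ.map (evalAtSub K₁ _ jp_mem_jpField) with hP₁
  have hP₁monic : P₁.Monic := Φ.monic.map _
  have hP₁deg : P₁.natDegree = p + 1 := by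
    rw [hP₁, Φ.monic.natDegree_map, Φ.natDegree_eq]
  have hroot_j : Polynomial.aeval (jqModC k) P₁ = 0 := by
    rw [hP₁, aeval_map_evalAtSub]; exact modPoly_eval_j_field Φ
  have hroot_jpp : Polynomial.aeval (qExpand k p (qExpand k p (jqModC k))) P₁ = 0 := by
    rw [hP₁, aeval_map_evalAtSub]; exact modPoly_eval_jpp_field Φ
  have hint : IsIntegral K₁ (jqModC k) := ⟨P₁, hP₁monic, by rwa [← Polynomial.aeval_def]⟩
  set m := minpoly K₁ (jqModC k) with hm
  have hm_dvd : m ∣ P₁ := minpoly.dvd K₁ _ hroot_j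
  have hm_monic : m.Monic := minpoly.monic hint
  have hm_le : m.natDegree ≤ p + 1 :=
    hP₁deg ▸ Polynomial.natDegree_le_of_dvd hm_dvd hP₁monic.ne_zero
  have hcoef : ∀ n, (m.map (algebraMap K₁ (LaurentSeries k))).coeff n ∈ (qExpand k p).range := by
    intro n
    rw [Polynomial.coeff_map]
    exact mem_range_of_mem_jpField (m.coeff n).2
  have hmj : (m.map (algebraMap K₁ (LaurentSeries k))).eval (jqModC k) = 0 := by
    rw [Polynomial.eval_map, ← Polynomial.aeval_def]; exact minpoly.aeval K₁ _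
  -- Claim A
  have hA : p ≤ m.natDegree := by
    by_contra hlt
    rw [not_le] at hlt
    have := eq_zero_of_eval_eq_zero_of_natDegree_lt p (jqModC k) (jqModC_ne_zero' k)
      (isCoprime_order_jqModC k p) (m.map (algebraMap K₁ (LaurentSeries k))) hcoef
      (by rwa [hm_monic.natDegree_map]) hmj
    exact (hm_monic.map _).ne_zero this
  -- Claim B
  have hB : m.natDegree ≠ p := by
    intro hdeg
    obtain ⟨r, hr⟩ := hm_dvd
    have hr_monic : r.Monic := hm_monic.of_mul_monic_left (hr ▸ hP₁monic)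
    have hr_deg : r.natDegree = 1 := by
      have := congrArg Polynomial.natDegree hr
      rw [hm_monic.natDegree_mul hr_monic, hP₁deg, hdeg] at this
      omega
    have hr_eq : r = X + Polynomial.C (r.coeff 0) := hr_monic.eq_X_add_C hr_deg
    have h0 : Polynomial.aeval (qExpand k p (qExpand k p (jqModC k))) m *
        Polynomial.aeval (qExpand k p (qExpand k p (jqModC k))) r = 0 := by
      rw [← map_mul, ← hr]; exact hroot_jpp
    rcases mul_eq_zero.mp h0 with h1 | h1
    · refine false_of_monic_natDegree_eq_of_roots hp (m.map (algebraMap K₁ (LaurentSeries k)))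
        (hm_monic.map _) (by rw [hm_monic.natDegree_map, hdeg]) hcoef hmj
        (qExpand k p (jqModC k)) ?_
      rw [Polynomial.eval_map, ← Polynomial.aeval_def]; exact h1
    · rw [hr_eq] at h1
      simp only [map_add, Polynomial.aeval_X, Polynomial.aeval_C] at h1
      have hmem : qExpand k p (qExpand k p (jqModC k)) ∈ K₁ := by
        have : qExpand k p (qExpand k p (jqModC k)) =
            -(algebraMap K₁ (LaurentSeries k) (r.coeff 0)) := eq_neg_of_add_eq_zero_left h1
        rw [this]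
        exact neg_mem (r.coeff 0).2
      exact hB1 (jp_mem_jField_of_jpp_mem hmem)
  have hdeg : m.natDegree = p + 1 := by omega
  exact (Polynomial.eq_of_monic_of_dvd_of_natDegree_le hm_monic hP₁monic hm_dvd
    (by rw [hP₁deg, hdeg])).symm

theorem natDegree_minpoly_j_over_jpField (Φ : ModPolyData p) (hp : 2 ≤ p)
    (hB1 : qExpand k p (jqModC k) ∉ jField k) :
    (minpoly (jpField k p) (jqModC k)).natDegree = p + 1 := by
  rw [minpoly_j_over_jpField Φ hp hB1, Φ.monic.natDegree_map, Φ.natDegree_eq]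

/-- The minimal polynomial of `j(q^{p²})` over `k(j(q^p))` is also `Φ_p(X, j(q^p))`. -/
theorem minpoly_jpp_over_jpField (Φ : ModPolyData p) (hp : 2 ≤ p)
    (hB1 : qExpand k p (jqModC k) ∉ jField k) :
    minpoly (jpField k p) (qExpand k p (qExpand k p (jqModC k))) =
      Φ.Φ.map (evalAtSub (jpField k p) _ jp_mem_jpField) := by
  have hP₁monic : (Φ.Φ.map (evalAtSub (jpField k p) _ jp_mem_jpField)).Monic := Φ.monic.map _
  have hroot_j : Polynomial.aeval (jqModC k)
      (Φ.Φ.map (evalAtSub (jpField k p) _ jp_mem_jpField)) = 0 := by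
    rw [aeval_map_evalAtSub]; exact modPoly_eval_j_field Φ
  have hint : IsIntegral (jpField k p) (jqModC k) :=
    ⟨_, hP₁monic, by rwa [← Polynomial.aeval_def]⟩
  have hirr : Irreducible (Φ.Φ.map (evalAtSub (jpField k p) _ jp_mem_jpField)) := by
    rw [← minpoly_j_over_jpField Φ hp hB1]
    exact minpoly.irreducible hint
  refine (minpoly.eq_of_irreducible_of_monic hirr ?_ hP₁monic).symm
  rw [aeval_map_evalAtSub]
  exact modPoly_eval_jpp_field Φ

/-- The ring isomorphism `k(j) ≃ k(j(q^p))` induced by `V_p`. -/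
def jFieldEquiv (k : Type*) [Field k] (p : ℕ) [NeZero p] : jField k ≃ₐ[k] jpField k p :=
  IntermediateField.equivMap (jField k) (qExpandAlgHomC k p)

theorem algebraMap_comp_jFieldEquiv :
    (algebraMap (jpField k p) (LaurentSeries k)).comp (jFieldEquiv k p : jField k →+* jpField k p)
      = (qExpand k p).comp (algebraMap (jField k) (LaurentSeries k)) := by
  ext x
  rfl

/-- **[L.B2], second half.** The minimal polynomial of `j(q^p)` over `k(j)` is `Φ_p(X, j)`. -/
theorem minpoly_jp_over_jField (Φ : ModPolyData p) (hp : 2 ≤ p)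
    (hB1 : qExpand k p (jqModC k) ∉ jField k) :
    minpoly (jField k) (qExpand k p (jqModC k)) =
      Φ.Φ.map (evalAtSub (jField k) _ jqModC_mem_jField) := by
  set K₀ := jField k with hK₀
  set P₀ : Polynomial K₀ := Φ.Φ.map (evalAtSub K₀ _ jqModC_mem_jField) with hP₀
  have hP₀monic : P₀.Monic := Φ.monic.map _
  have hP₀deg : P₀.natDegree = p + 1 := by
    rw [hP₀, Φ.monic.natDegree_map, Φ.natDegree_eq]
  have hroot : Polynomial.aeval (qExpand k p (jqModC k)) P₀ = 0 := by
    rw [hP₀, aeval_map_evalAtSub]; exact modPoly_eval_jp_field Φ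
  have hint : IsIntegral K₀ (qExpand k p (jqModC k)) :=
    ⟨P₀, hP₀monic, by rwa [← Polynomial.aeval_def]⟩
  set m₀ := minpoly K₀ (qExpand k p (jqModC k)) with hm₀
  have hm₀_dvd : m₀ ∣ P₀ := minpoly.dvd K₀ _ hroot
  have hm₀_monic : m₀.Monic := minpoly.monic hint
  -- transport to `k(j(q^p))`
  set g : Polynomial (jpField k p) := m₀.map (jFieldEquiv k p : jField k →+* jpField k p) with hg
  have hg_monic : g.Monic := hm₀_monic.map _
  have hg_deg : g.natDegree = m₀.natDegree := hm₀_monic.natDegree_map _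
  have hg_root : Polynomial.aeval (qExpand k p (qExpand k p (jqModC k))) g = 0 := by
    rw [hg, Polynomial.aeval_def, Polynomial.eval₂_map, algebraMap_comp_jFieldEquiv,
      ← Polynomial.hom_eval₂, ← Polynomial.aeval_def, minpoly.aeval, map_zero]
  have hdvd : minpoly (jpField k p) (qExpand k p (qExpand k p (jqModC k))) ∣ g :=
    minpoly.dvd _ _ hg_root
  rw [minpoly_jpp_over_jpField Φ hp hB1] at hdvd
  have hle : p + 1 ≤ m₀.natDegree := by
    have := Polynomial.natDegree_le_of_dvd hdvd hg_monic.ne_zero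
    rwa [Φ.monic.natDegree_map, Φ.natDegree_eq, hg_deg] at this
  exact (Polynomial.eq_of_monic_of_dvd_of_natDegree_le hm₀_monic hP₀monic hm₀_dvd
    (by rw [hP₀deg]; exact hle)).symm

theorem natDegree_minpoly_jp_over_jField (Φ : ModPolyData p) (hp : 2 ≤ p)
    (hB1 : qExpand k p (jqModC k) ∉ jField k) :
    (minpoly (jField k) (qExpand k p (jqModC k))).natDegree = p + 1 := by
  rw [minpoly_jp_over_jField Φ hp hB1, Φ.monic.natDegree_map, Φ.natDegree_eq]

theorem isIntegral_jp_over_jField (Φ : ModPolyData p) :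
    IsIntegral (jField k) (qExpand k p (jqModC k)) := by
  refine ⟨Φ.Φ.map (evalAtSub (jField k) _ jqModC_mem_jField), Φ.monic.map _, ?_⟩
  rw [← Polynomial.aeval_def, aeval_map_evalAtSub]
  exact modPoly_eval_jp_field Φ

theorem isIntegral_j_over_jpField (Φ : ModPolyData p) :
    IsIntegral (jpField k p) (jqModC k) := by
  refine ⟨Φ.Φ.map (evalAtSub (jpField k p) _ jp_mem_jpField), Φ.monic.map _, ?_⟩
  rw [← Polynomial.aeval_def, aeval_map_evalAtSub]
  exact modPoly_eval_j_field Φ

/-- `[k(j, j(q^p)) : k(j)] = p + 1`. -/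
theorem finrank_adjoin_jp_over_jField (Φ : ModPolyData p) (hp : 2 ≤ p)
    (hB1 : qExpand k p (jqModC k) ∉ jField k) :
    Module.finrank (jField k)
      (IntermediateField.adjoin (jField k) {qExpand k p (jqModC k)}) = p + 1 := by
  have h := IntermediateField.adjoin.finrank (isIntegral_jp_over_jField (k := k) Φ)
  rw [h, natDegree_minpoly_jp_over_jField Φ hp hB1]

/-- `[k(j(q^p), j) : k(j(q^p))] = p + 1`. -/
theorem finrank_adjoin_j_over_jpField (Φ : ModPolyData p) (hp : 2 ≤ p)
    (hB1 : qExpand k p (jqModC k) ∉ jField k) :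
    Module.finrank (jpField k p)
      (IntermediateField.adjoin (jpField k p) {jqModC k}) = p + 1 := by
  have h := IntermediateField.adjoin.finrank (isIntegral_j_over_jpField (k := k) Φ)
  rw [h, natDegree_minpoly_j_over_jpField Φ hp hB1]

end Main

end Fermat.Agent.S28.H145

end

end
-- ===== PACK-END S28/H145/PrimeDegree.lean

-- ===== PACK-BEGIN S28/H626/RootList.lean
section
/-
S28 helper (helper626): the family `j(ξ tⁿ)` and the root list of the modular polynomial
`Φ_p(j(η t^{np}), X)`.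
-/




set_option autoImplicit false

noncomputable section

open ModularCurve HahnSeries Polynomial

namespace Fermat.Agent.S28.H626

/-! ### Two-variable evaluation -/

section Ev2

variable {A B : Type*} [CommRing A] [CommRing B]

/-- Evaluation of `Φ ∈ ℤ[Y][X]` at `Y = y`, `X = x`. -/
def ev2 (Φ : Polynomial (Polynomial ℤ)) (y x : A) : A :=
  Φ.eval₂ (Polynomial.aeval (R := ℤ) y).toRingHom x

/-- The one-variable polynomial `Φ(y, X)`. -/
def spec (Φ : Polynomial (Polynomial ℤ)) (y : A) : Polynomial A :=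
  Φ.map (Polynomial.aeval (R := ℤ) y).toRingHom

theorem eval_spec (Φ : Polynomial (Polynomial ℤ)) (y x : A) :
    (spec Φ y).eval x = ev2 Φ y x := by
  rw [spec, ev2, Polynomial.eval_map]

theorem comp_aeval_toRingHom (φ : A →+* B) (y : A) :
    φ.comp (Polynomial.aeval (R := ℤ) y).toRingHom =
      (Polynomial.aeval (R := ℤ) (φ y)).toRingHom := by
  apply Polynomial.ringHom_ext
  · intro a
    simp
  · simp

theorem map_ev2 (φ : A →+* B) (Φ : Polynomial (Polynomial ℤ)) (y x : A) :
    φ (ev2 Φ y x) = ev2 Φ (φ y) (φ x) := by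
  rw [ev2, ev2, Polynomial.hom_eval₂, comp_aeval_toRingHom]

theorem map_spec (φ : A →+* B) (Φ : Polynomial (Polynomial ℤ)) (y : A) :
    (spec Φ y).map φ = spec Φ (φ y) := by
  rw [spec, spec, Polynomial.map_map, comp_aeval_toRingHom]

theorem spec_monic {Φ : Polynomial (Polynomial ℤ)} (h : Φ.Monic) (y : A) : (spec Φ y).Monic :=
  h.map _

theorem spec_natDegree [Nontrivial A] {Φ : Polynomial (Polynomial ℤ)} (h : Φ.Monic) (y : A) :
    (spec Φ y).natDegree = Φ.natDegree :=
  h.natDegree_map _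

end Ev2

/-- The (explicit-hypothesis form of the) prime-level analytic input: `Φ ∈ ℤ[Y][X]` is monic of
degree `p + 1` in `X` and `Φ(j, j_p) = 0`, `Φ(j_p, j) = 0` in `ℤ((q))`. -/
structure IsModPoly (p : ℕ) [NeZero p] (Φ : Polynomial (Polynomial ℤ)) : Prop where
  monic : Φ.Monic
  natDegree_eq : Φ.natDegree = p + 1
  eval_jp : ev2 Φ (jqModC ℤ) (qExpand ℤ p (jqModC ℤ)) = 0
  eval_j : ev2 Φ (qExpand ℤ p (jqModC ℤ)) (jqModC ℤ) = 0

/-! ### The family `j(ξ tⁿ)` -/

section JTw

variable (Ω : Type*) [CommRing Ω]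

/-- `j(ξ tⁿ)` as a Laurent series in `t`. -/
def jTw (ξ : Ωˣ) (n : ℕ) [NeZero n] : LaurentSeries Ω :=
  qExpand Ω n (_root_.Fermat.Agent.S28.H626.twist ξ (jqModC Ω))

theorem jTw_one (n : ℕ) [NeZero n] : jTw Ω 1 n = qExpand Ω n (jqModC Ω) := by
  rw [jTw, twist_one_apply]

theorem jTw_coeff_neg (ξ : Ωˣ) (n : ℕ) [NeZero n] :
    (jTw Ω ξ n).coeff (-(n : ℤ)) = ((ξ⁻¹ : Ωˣ) : Ω) := by
  have h : (-(n : ℤ)) = (n : ℤ) * (-1) := by ring
  rw [jTw, h, qExpand_coeff_mul, _root_.Fermat.Agent.S28.H626.twist_coeff, coeff_jqModC_neg_one, mul_one, zpow_neg_one]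

theorem jTw_coeff_of_lt (ξ : Ωˣ) (n : ℕ) [NeZero n] {k : ℤ} (hk : k < -(n : ℤ)) :
    (jTw Ω ξ n).coeff k = 0 := by
  by_cases hn : (n : ℤ) ∣ k
  · obtain ⟨m, rfl⟩ := hn
    have hn0 : (0 : ℤ) < n := by exact_mod_cast Nat.pos_of_ne_zero (NeZero.ne n)
    have hm : m < -1 := by
      by_contra hm
      have hm' := not_lt.mp hm
      nlinarith
    rw [jTw, qExpand_coeff_mul, _root_.Fermat.Agent.S28.H626.twist_coeff, coeff_jqModC_of_lt Ω hm, mul_zero]
  · rw [jTw, qExpand_coeff_of_not_dvd _ _ hn]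

variable {Ω}

theorem jTw_inj [Nontrivial Ω] {ξ ξ' : Ωˣ} {n n' : ℕ} [NeZero n] [NeZero n']
    (h : jTw Ω ξ n = jTw Ω ξ' n') : n = n' ∧ ξ = ξ' := by
  have key : ∀ (ξ ξ' : Ωˣ) (n n' : ℕ) [NeZero n] [NeZero n'],
      jTw Ω ξ n = jTw Ω ξ' n' → ¬ n < n' := by
    intro ξ ξ' n n' _ _ h hlt
    have h1 := jTw_coeff_neg Ω ξ' n'
    rw [← h, jTw_coeff_of_lt Ω ξ n (by exact_mod_cast (neg_lt_neg (Nat.cast_lt.mpr hlt) :
      (-(n' : ℤ)) < -(n : ℤ)))] at h1
    exact (Units.ne_zero _) h1.symm
  have hn : n = n' := le_antisymm (not_lt.mp (key ξ' ξ n' n h.symm)) (not_lt.mp (key ξ ξ' n n' h))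
  subst hn
  refine ⟨rfl, ?_⟩
  have h1 := jTw_coeff_neg Ω ξ n
  rw [h, jTw_coeff_neg] at h1
  exact inv_injective (Units.ext h1).symm

theorem jTw_ne_of_ne [Nontrivial Ω] {ξ ξ' : Ωˣ} {n n' : ℕ} [NeZero n] [NeZero n']
    (h : n ≠ n') : jTw Ω ξ n ≠ jTw Ω ξ' n' := fun he => h (jTw_inj he).1

end JTw

/-! ### Root relations -/

section Roots

variable (Ω : Type*) [CommRing Ω]

/-- the ring hom `ℤ((q)) → Ω((t))`, `q ↦ ξ tⁿ`. -/
def substHom (ξ : Ωˣ) (n : ℕ) [NeZero n] : LaurentSeries ℤ →+* LaurentSeries Ω :=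
  (qExpand Ω n).comp ((_root_.Fermat.Agent.S28.H626.twist ξ).comp (coeffMap (Int.castRingHom Ω)))

theorem substHom_j (ξ : Ωˣ) (n : ℕ) [NeZero n] :
    substHom Ω ξ n (jqModC ℤ) = jTw Ω ξ n := by
  simp only [substHom, RingHom.comp_apply, coeffMap_jqModC, jTw]

theorem substHom_jp (ξ : Ωˣ) (n : ℕ) [NeZero n] (p : ℕ) [NeZero p] :
    substHom Ω ξ n (qExpand ℤ p (jqModC ℤ)) = jTw Ω (ξ ^ p) (n * p) := by
  simp only [substHom, RingHom.comp_apply, coeffMap_qExpand, coeffMap_jqModC, jTw,
    twist_qExpand, qExpand_qExpand]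

variable {Ω}

theorem ev2_jTw_root {p : ℕ} [NeZero p] {Φ : Polynomial (Polynomial ℤ)} (hΦ : IsModPoly p Φ)
    (ξ : Ωˣ) (n : ℕ) [NeZero n] :
    ev2 Φ (jTw Ω (ξ ^ p) (n * p)) (jTw Ω ξ n) = 0 := by
  have h := congrArg (substHom Ω ξ n) hΦ.eval_j
  rwa [map_ev2, substHom_j, substHom_jp, map_zero] at h

theorem ev2_jTw_root' {p : ℕ} [NeZero p] {Φ : Polynomial (Polynomial ℤ)} (hΦ : IsModPoly p Φ)
    (ξ : Ωˣ) (n : ℕ) [NeZero n] :
    ev2 Φ (jTw Ω ξ n) (jTw Ω (ξ ^ p) (n * p)) = 0 := by
  have h := congrArg (substHom Ω ξ n) hΦ.eval_jp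
  rwa [map_ev2, substHom_j, substHom_jp, map_zero] at h

theorem jTw_congr (ξ : Ωˣ) {n n' : ℕ} [NeZero n] [NeZero n'] (h : n = n') :
    jTw Ω ξ n = jTw Ω ξ n' := by
  subst h; rfl

end Roots

/-! ### The root list -/

section RootList

variable {Ω : Type*} [Field Ω]

/-- The multiset of roots of `Φ_p(j(t^{np}), X)`. -/
def rootMultiset (p : ℕ) (ζ : Ωˣ) (n : ℕ) [NeZero n] [NeZero p] : Multiset (LaurentSeries Ω) :=
  jTw Ω 1 (n * p * p) ::ₘ (Multiset.range p).map (fun b => jTw Ω (ζ ^ b) n)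

theorem rootMultiset_nodup {p : ℕ} [NeZero p] (hp : 1 < p) {ζ : Ωˣ} (hζ : IsPrimitiveRoot ζ p)
    (n : ℕ) [NeZero n] : (rootMultiset p ζ n).Nodup := by
  rw [rootMultiset, Multiset.nodup_cons]
  constructor
  · intro h
    rw [Multiset.mem_map] at h
    obtain ⟨b, -, hb⟩ := h
    have h1 : n = n * p * p := (jTw_inj hb).1
    have hn : 0 < n := Nat.pos_of_ne_zero (NeZero.ne n)
    have : n * 1 < n * (p * p) := by
      apply Nat.mul_lt_mul_of_pos_left _ hn
      nlinarith
    rw [mul_one, ← mul_assoc] at this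
    omega
  · refine Multiset.Nodup.map_on ?_ (Multiset.nodup_range p)
    intro a ha b hb hab
    rw [Multiset.mem_range] at ha hb
    exact hζ.pow_inj ha hb (jTw_inj hab).2

theorem rootMultiset_card (p : ℕ) [NeZero p] (ζ : Ωˣ) (n : ℕ) [NeZero n] :
    Multiset.card (rootMultiset p ζ n) = p + 1 := by
  simp [rootMultiset]

theorem mem_rootMultiset {p : ℕ} [NeZero p] {ζ : Ωˣ} {n : ℕ} [NeZero n] {β : LaurentSeries Ω} :
    β ∈ rootMultiset p ζ n ↔ β = jTw Ω 1 (n * p * p) ∨ ∃ b < p, β = jTw Ω (ζ ^ b) n := by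
  rw [rootMultiset, Multiset.mem_cons, Multiset.mem_map]
  refine or_congr Iff.rfl ⟨?_, ?_⟩
  · rintro ⟨b, hb, rfl⟩
    exact ⟨b, Multiset.mem_range.mp hb, rfl⟩
  · rintro ⟨b, hb, rfl⟩
    exact ⟨b, Multiset.mem_range.mpr hb, rfl⟩

/-- **Root list.** `Φ_p(j(t^{np}), X) = (X - j(t^{np²})) ∏_{b<p} (X - j(ζ^b tⁿ))`. -/
theorem roots_spec {p : ℕ} [NeZero p] (hp : 1 < p) {Φ : Polynomial (Polynomial ℤ)}
    (hΦ : IsModPoly p Φ) {ζ : Ωˣ} (hζ : IsPrimitiveRoot ζ p) (n : ℕ) [NeZero n] :
    (spec Φ (jTw Ω 1 (n * p))).roots = rootMultiset p ζ n := by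
  have hmonic : (spec Φ (jTw Ω 1 (n * p))).Monic := spec_monic hΦ.monic _
  have hdeg : (spec Φ (jTw Ω 1 (n * p))).natDegree = p + 1 := by
    rw [spec_natDegree hΦ.monic, hΦ.natDegree_eq]
  have hle : rootMultiset p ζ n ≤ (spec Φ (jTw Ω 1 (n * p))).roots := by
    rw [Multiset.le_iff_subset (rootMultiset_nodup hp hζ n)]
    intro β hβ
    rw [Polynomial.mem_roots hmonic.ne_zero, Polynomial.IsRoot, eval_spec]
    rcases mem_rootMultiset.mp hβ with rfl | ⟨b, -, rfl⟩
    · have := ev2_jTw_root' hΦ (1 : Ωˣ) (n * p)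
      rwa [one_pow] at this
    · have := ev2_jTw_root hΦ (ζ ^ b) n
      rwa [← pow_mul, mul_comm b p, pow_mul, hζ.pow_eq_one, one_pow] at this
  refine (Multiset.eq_of_le_of_card_le hle ?_).symm
  rw [rootMultiset_card, ← hdeg]
  exact Polynomial.card_roots' _

theorem splits_spec {p : ℕ} [NeZero p] (hp : 1 < p) {Φ : Polynomial (Polynomial ℤ)}
    (hΦ : IsModPoly p Φ) {ζ : Ωˣ} (hζ : IsPrimitiveRoot ζ p) (n : ℕ) [NeZero n] :
    (spec Φ (jTw Ω 1 (n * p))).Splits := by
  rw [Polynomial.splits_iff_card_roots, roots_spec hp hΦ hζ, rootMultiset_card,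
    spec_natDegree hΦ.monic, hΦ.natDegree_eq]

end RootList

/-! ### The abstract gcd lemma -/

section AbstractGcd

/-- If `x` is a common root of `P, Q ∈ E[X]`, and over some extension `P` splits with distinct
roots, among which only (the image of) `x` is a root of `Q`, then `x ∈ E`. -/
theorem mem_range_of_unique_common_root {E L Ω' : Type*} [Field E] [Field L] [Algebra E L]
    [Field Ω'] (ι : L →+* Ω') (x : L) (P Q : Polynomial E) (hP0 : P ≠ 0)
    (hPx : Polynomial.aeval x P = 0) (hQx : Polynomial.aeval x Q = 0)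
    (hsplit : (P.map (ι.comp (algebraMap E L))).Splits)
    (hnodup : (P.map (ι.comp (algebraMap E L))).roots.Nodup)
    (huniq : ∀ β ∈ (P.map (ι.comp (algebraMap E L))).roots,
      (Q.map (ι.comp (algebraMap E L))).eval β = 0 → β = ι x) :
    x ∈ (algebraMap E L).range := by
  classical
  set f : E →+* Ω' := ι.comp (algebraMap E L) with hf
  have hint : IsIntegral E x := IsAlgebraic.isIntegral ⟨P, hP0, hPx⟩
  have hμP : minpoly E x ∣ P := minpoly.dvd E x hPx
  have hμQ : minpoly E x ∣ Q := minpoly.dvd E x hQx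
  have hP'0 : P.map f ≠ 0 := (Polynomial.map_ne_zero_iff f.injective).mpr hP0
  have hμ'P : (minpoly E x).map f ∣ P.map f := Polynomial.map_dvd f hμP
  have hμ'Q : (minpoly E x).map f ∣ Q.map f := Polynomial.map_dvd f hμQ
  have hsplit' : ((minpoly E x).map f).Splits := hsplit.of_dvd hP'0 hμ'P
  have hroots_le : ((minpoly E x).map f).roots ≤ (P.map f).roots :=
    Polynomial.roots.le_of_dvd hP'0 hμ'P
  have hnodup' : ((minpoly E x).map f).roots.Nodup := Multiset.nodup_of_le hroots_le hnodup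
  have hμ'0 : (minpoly E x).map f ≠ 0 :=
    (Polynomial.map_ne_zero_iff f.injective).mpr (minpoly.ne_zero hint)
  have hall : ∀ β ∈ ((minpoly E x).map f).roots, β = ι x := by
    intro β hβ
    refine huniq β (Multiset.mem_of_le hroots_le hβ) ?_
    have hβ0 : ((minpoly E x).map f).eval β = 0 := (Polynomial.mem_roots hμ'0).mp hβ
    exact Polynomial.eval_eq_zero_of_dvd_of_eval_eq_zero hμ'Q hβ0
  have hcard : Multiset.card ((minpoly E x).map f).roots ≤ 1 := by
    have hsub : ((minpoly E x).map f).roots ≤ {ι x} := by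
      rw [Multiset.le_iff_subset hnodup']
      intro β hβ
      rw [Multiset.mem_singleton]
      exact hall β hβ
    simpa using Multiset.card_le_card hsub
  have hdeg : (minpoly E x).natDegree ≤ 1 := by
    rw [← Polynomial.natDegree_map f, hsplit'.natDegree_eq_card_roots]
    exact hcard
  have hpos := minpoly.natDegree_pos hint
  exact minpoly.natDegree_eq_one_iff.mp (le_antisymm hdeg hpos)

end AbstractGcd

end Fermat.Agent.S28.H626

end

end
-- ===== PACK-END S28/H626/RootList.lean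

-- ===== PACK-BEGIN S28/H807/Conv.lean
section
/-
S28 / helper807 — pointwise convergent Laurent series: ring laws, `V_p`, sections.
-/



set_option autoImplicit false
set_option maxHeartbeats 400000

noncomputable section

open ModularCurve HahnSeries

namespace Fermat.Agent.S28.H807

/-- The Laurent series `c` converges at the point `z` with sum `A`. -/
def HasLSum (c : LaurentSeries ℂ) (z A : ℂ) : Prop :=
  HasSum (fun n : ℤ => c.coeff n * z ^ n) A

theorem HasLSum.unique {c : LaurentSeries ℂ} {z A B : ℂ} (h1 : HasLSum c z A)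
    (h2 : HasLSum c z B) : A = B :=
  HasSum.unique h1 h2

theorem hasLSum_zero (z : ℂ) : HasLSum 0 z 0 := by
  unfold HasLSum
  simpa using (hasSum_zero : HasSum (fun _ : ℤ => (0 : ℂ)) 0)

theorem hasLSum_single (z : ℂ) (k : ℤ) (a : ℂ) :
    HasLSum (HahnSeries.single k a) z (a * z ^ k) := by
  unfold HasLSum
  have h := hasSum_sum_of_ne_finset_zero (f := fun n : ℤ => (HahnSeries.single k a).coeff n * z ^ n)
    (s := {k}) (L := SummationFilter.unconditional ℤ) (by
      intro b hb
      have hb' : b ≠ k := by simpa using hb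
      simp [HahnSeries.coeff_single_of_ne hb'])
  simpa using h

theorem hasLSum_one (z : ℂ) : HasLSum 1 z 1 := by
  have h := hasLSum_single z 0 1
  simpa using h

theorem hasLSum_C (z : ℂ) (a : ℂ) : HasLSum (HahnSeries.C a) z a := by
  have h := hasLSum_single z 0 a
  simpa using h

theorem HasLSum.add {c d : LaurentSeries ℂ} {z A B : ℂ} (h1 : HasLSum c z A)
    (h2 : HasLSum d z B) : HasLSum (c + d) z (A + B) := by
  unfold HasLSum at *
  have := HasSum.add h1 h2
  simpa [add_mul] using this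

theorem HasLSum.neg {c : LaurentSeries ℂ} {z A : ℂ} (h1 : HasLSum c z A) :
    HasLSum (-c) z (-A) := by
  unfold HasLSum at *
  have := HasSum.neg h1
  simpa using this

theorem HasLSum.sub {c d : LaurentSeries ℂ} {z A B : ℂ} (h1 : HasLSum c z A)
    (h2 : HasLSum d z B) : HasLSum (c - d) z (A - B) := by
  rw [sub_eq_add_neg, sub_eq_add_neg]
  exact h1.add h2.neg

/-- Cauchy product for pointwise convergent Laurent series. -/
theorem HasLSum.mul {c d : LaurentSeries ℂ} {z A B : ℂ} (hz : z ≠ 0) (h1 : HasLSum c z A)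
    (h2 : HasLSum d z B) : HasLSum (c * d) z (A * B) := by
  unfold HasLSum at *
  -- the double family is summable
  have hn1 : Summable (fun n : ℤ => ‖c.coeff n * z ^ n‖) := h1.summable.norm
  have hn2 : Summable (fun n : ℤ => ‖d.coeff n * z ^ n‖) := h2.summable.norm
  have hs : Summable (fun x : ℤ × ℤ => (c.coeff x.1 * z ^ x.1) * (d.coeff x.2 * z ^ x.2)) :=
    summable_mul_of_summable_norm (f := fun n : ℤ => c.coeff n * z ^ n)
      (g := fun n : ℤ => d.coeff n * z ^ n) hn1 hn2
  have hprod : HasSum (fun x : ℤ × ℤ => (c.coeff x.1 * z ^ x.1) * (d.coeff x.2 * z ^ x.2))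
      (A * B) := HasSum.mul (f := fun n : ℤ => c.coeff n * z ^ n)
      (g := fun n : ℤ => d.coeff n * z ^ n) h1 h2 hs
  -- reindex by (n, i) ↦ (i, n - i)
  let e : ℤ × ℤ ≃ ℤ × ℤ :=
    { toFun := fun x => (x.2, x.1 - x.2)
      invFun := fun x => (x.1 + x.2, x.1)
      left_inv := fun x => by simp
      right_inv := fun x => by simp }
  have hprod' : HasSum (fun x : ℤ × ℤ =>
      (c.coeff x.2 * z ^ x.2) * (d.coeff (x.1 - x.2) * z ^ (x.1 - x.2))) (A * B) := by
    have := (e.hasSum_iff (f := fun x : ℤ × ℤ =>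
      (c.coeff x.1 * z ^ x.1) * (d.coeff x.2 * z ^ x.2)) (a := A * B)).mpr hprod
    exact this
  refine HasSum.prod_fiberwise hprod' ?_
  intro n
  -- the fibre over `n` is a finite sum
  set s : Finset ℤ := (Finset.antidiagonal c.isPWO_support d.isPWO_support n).image Prod.fst
    with hs_def
  have hfib := hasSum_sum_of_ne_finset_zero
    (f := fun i : ℤ => (c.coeff i * z ^ i) * (d.coeff (n - i) * z ^ (n - i)))
    (s := s) (L := SummationFilter.unconditional ℤ) (by
      intro i hi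
      by_cases hci : c.coeff i = 0
      · simp [hci]
      by_cases hdi : d.coeff (n - i) = 0
      · simp [hdi]
      exfalso
      apply hi
      rw [hs_def, Finset.mem_image]
      refine ⟨(i, n - i), ?_, rfl⟩
      rw [Finset.mem_antidiagonal]
      exact ⟨hci, hdi, by ring⟩)
  convert hfib using 1
  rw [HahnSeries.coeff_mul, Finset.sum_mul, hs_def, Finset.sum_image]
  · apply Finset.sum_congr rfl
    intro x hx
    rw [Finset.mem_antidiagonal] at hx
    obtain ⟨_, _, hx3⟩ := hx
    have hx2 : x.2 = n - x.1 := by linarith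
    rw [← hx2]
    have hzn : z ^ n = z ^ x.1 * z ^ x.2 := by rw [← zpow_add₀ hz, hx3]
    rw [hzn]; ring
  · intro x hx y hy hxy
    rw [Finset.mem_coe, Finset.mem_antidiagonal] at hx hy
    apply Prod.ext hxy
    have h3 := hx.2.2
    have h4 := hy.2.2
    rw [hxy] at h3
    linarith

theorem HasLSum.pow {c : LaurentSeries ℂ} {z A : ℂ} (hz : z ≠ 0) (h1 : HasLSum c z A)
    (k : ℕ) : HasLSum (c ^ k) z (A ^ k) := by
  induction k with
  | zero => simpa using hasLSum_one z
  | succ k ih => rw [pow_succ, pow_succ]; exact ih.mul hz h1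

/-- Substitution `q ↦ q^p`. -/
theorem HasLSum.expand {c : LaurentSeries ℂ} {z A : ℂ} (p : ℕ) [NeZero p]
    (h : HasLSum c (z ^ p) A) : HasLSum (ModularCurve.qExpand ℂ p c) z A := by
  unfold HasLSum at *
  have hinj : Function.Injective (fun m : ℤ => (p : ℤ) * m) :=
    mul_right_injective₀ (by exact_mod_cast NeZero.ne p)
  refine (hinj.hasSum_iff (f := fun n : ℤ => (ModularCurve.qExpand ℂ p c).coeff n * z ^ n) ?_).mp ?_
  · intro n hn
    have : ¬ (p : ℤ) ∣ n := by
      rintro ⟨m, rfl⟩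
      exact hn ⟨m, rfl⟩
    simp [qExpand_coeff_of_not_dvd p c this]
  · convert h using 2 with m
    simp only [Function.comp_apply, qExpand_coeff_mul]
    congr 1
    rw [zpow_mul, zpow_natCast]

/-- Sections of a convergent series converge. -/
theorem HasLSum.summable_secL {c : LaurentSeries ℂ} {y A : ℂ} (p : ℕ) [NeZero p] (hy : y ≠ 0)
    (h : HasLSum c y A) (r : ℤ) :
    Summable (fun m : ℤ => (secL p r c).coeff m * (y ^ p) ^ m) := by
  unfold HasLSum at h
  have hinj : Function.Injective (fun m : ℤ => (p : ℤ) * m + r) := by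
    intro a b hab
    have : (p : ℤ) * a = (p : ℤ) * b := by simpa using hab
    exact mul_right_injective₀ (by exact_mod_cast NeZero.ne p) this
  have h1 : Summable ((fun n : ℤ => c.coeff n * y ^ n) ∘ fun m : ℤ => (p : ℤ) * m + r) :=
    h.summable.comp_injective hinj
  have h2 := h1.mul_left (y ^ (-r))
  refine h2.congr ?_
  intro m
  simp only [Function.comp_apply, secL_coeff]
  have : y ^ ((p : ℤ) * m + r) = (y ^ p) ^ m * y ^ r := by
    rw [zpow_add₀ hy, zpow_mul, zpow_natCast]
  rw [this, zpow_neg]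
  field_simp

/-- Value of the `r`-th section at `y^p`. -/
def secVal (p : ℕ) [NeZero p] (c : LaurentSeries ℂ) (y : ℂ) (r : ℤ) : ℂ :=
  ∑' m : ℤ, (secL p r c).coeff m * (y ^ p) ^ m

theorem HasLSum.hasLSum_secL {c : LaurentSeries ℂ} {y A : ℂ} (p : ℕ) [NeZero p] (hy : y ≠ 0)
    (h : HasLSum c y A) (r : ℤ) : HasLSum (secL p r c) (y ^ p) (secVal p c y r) :=
  (h.summable_secL p hy r).hasSum

/-- The section values only depend on `y^p`. -/
theorem secVal_congr (p : ℕ) [NeZero p] (c : LaurentSeries ℂ) {y y' : ℂ} (h : y ^ p = y' ^ p)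
    (r : ℤ) : secVal p c y r = secVal p c y' r := by
  unfold secVal
  rw [h]

/-- Regrouping by residues mod `p`: `A · yⁱ = ∑_{i'} y^{i'} · S_{i'-i}(y^p)`. -/
theorem HasLSum.regroup {c : LaurentSeries ℂ} {y A : ℂ} (p : ℕ) [NeZero p] (hy : y ≠ 0)
    (h : HasLSum c y A) (i : Fin p) :
    ∑ i' : Fin p, y ^ (i' : ℕ) * secVal p c y ((i' : ℤ) - (i : ℤ)) = A * y ^ (i : ℕ) := by
  have hp0 : (p : ℤ) ≠ 0 := by exact_mod_cast NeZero.ne p
  -- the shifted family
  have h1 : HasSum (fun n : ℤ => c.coeff (n - i) * y ^ n) (A * y ^ (i : ℕ)) := by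
    have h0 : HasSum (fun n : ℤ => c.coeff n * y ^ n * y ^ (i : ℕ)) (A * y ^ (i : ℕ)) :=
      HasSum.mul_right _ h
    have := ((Equiv.subRight ((i : ℕ) : ℤ)).hasSum_iff
      (f := fun n : ℤ => c.coeff n * y ^ n * y ^ (i : ℕ)) (a := A * y ^ (i : ℕ))).mpr h0
    refine this.congr_fun ?_
    intro n
    simp only [Function.comp_apply, Equiv.subRight_apply]
    have : y ^ n = y ^ (n - (i : ℕ)) * y ^ (i : ℕ) := by
      rw [← zpow_natCast y (i : ℕ), ← zpow_add₀ hy]; congr 1; ring
    rw [this]; ring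
  -- split `n = m * p + i'`
  have h2 : HasSum (fun x : ℤ × Fin p =>
      c.coeff (x.1 * (p : ℤ) + ((x.2 : ℕ) : ℤ) - (i : ℕ)) * y ^ (x.1 * (p : ℤ) + ((x.2 : ℕ) : ℤ)))
      (A * y ^ (i : ℕ)) := by
    have := ((Int.divModEquiv p).symm.hasSum_iff
      (f := fun n : ℤ => c.coeff (n - i) * y ^ n) (a := A * y ^ (i : ℕ))).mpr h1
    refine this.congr_fun ?_
    intro x
    simp only [Function.comp_apply, Int.divModEquiv_symm_apply]
  have h3 : HasSum (fun m : ℤ => ∑ i' : Fin p,
      c.coeff (m * (p : ℤ) + ((i' : ℕ) : ℤ) - (i : ℕ)) * y ^ (m * (p : ℤ) + ((i' : ℕ) : ℤ)))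
      (A * y ^ (i : ℕ)) := by
    refine HasSum.prod_fiberwise h2 ?_
    intro m
    exact hasSum_fintype _
  have h4 : ∀ i' : Fin p, HasSum (fun m : ℤ =>
      c.coeff (m * (p : ℤ) + ((i' : ℕ) : ℤ) - (i : ℕ)) * y ^ (m * (p : ℤ) + ((i' : ℕ) : ℤ)))
      (y ^ (i' : ℕ) * secVal p c y ((i' : ℤ) - (i : ℤ))) := by
    intro i'
    have h5 := (h.hasLSum_secL p hy ((i' : ℤ) - (i : ℤ)))
    unfold HasLSum at h5
    have h6 := h5.mul_left (y ^ (i' : ℕ))
    refine h6.congr_fun ?_
    intro m
    simp only [secL_coeff]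
    have e1 : m * (p : ℤ) + ((i' : ℕ) : ℤ) - ((i : ℕ) : ℤ)
        = (p : ℤ) * m + (((i' : ℕ) : ℤ) - ((i : ℕ) : ℤ)) := by ring
    have e2 : y ^ (m * (p : ℤ) + ((i' : ℕ) : ℤ)) = y ^ (i' : ℕ) * (y ^ p) ^ m := by
      rw [zpow_add₀ hy, zpow_natCast, mul_comm m, zpow_mul, zpow_natCast, mul_comm]
    rw [e1, e2]; ring
  have h7 := hasSum_sum (s := Finset.univ) (fun i' _ => h4 i')
  exact (h7.unique h3)

end Fermat.Agent.S28.H807

end

end
-- ===== PACK-END S28/H807/Conv.lean

-- ===== PACK-BEGIN Lib/Cheb/H761/ZetaEuler.lean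
section


/-!
# Euler product and prime-ideal sum for the Dedekind zeta function

For a number field `K` and real `s > 1`:
* `zetaI K s = ∑_I N(I)^(-s)` (sum over all ideals; the zero ideal contributes `0`), equal to
  Mathlib's `dedekindZeta K s`;
* `tendsto_prod_zetaI` : `∏_{𝔭 ∈ T} (1 - N𝔭^(-s)) → (zetaI K s)⁻¹`;
* `primeSum K s = ∑_𝔭 N𝔭^(-s)` and `primeSum K s ≤ log (zetaI K s) ≤ primeSum K s + 2 primeSum K (2 s)`;
* `exists_primeSum_bound` : `|primeSum K s - log (1 / (s - 1))| ≤ C` for `1 < s ≤ 2`.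
-/

set_option autoImplicit false

namespace Fermat.Agent.Lib.Cheb.H761

open IsDedekindDomain Filter Topology NumberField Ideal Asymptotics

set_option linter.unusedSectionVars false
set_option linter.unusedVariables false

noncomputable section

variable (K : Type*) [Field K] [NumberField K]

/-- `N(I)^(-s)` -/
def normPow (s : ℝ) (I : Ideal (𝓞 K)) : ℝ := (absNorm I : ℝ) ^ (-s)

lemma normPow_nonneg (s : ℝ) (I : Ideal (𝓞 K)) : 0 ≤ normPow K s I :=
  Real.rpow_nonneg (Nat.cast_nonneg _) _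

lemma normPow_mul (s : ℝ) (I J : Ideal (𝓞 K)) :
    normPow K s (I * J) = normPow K s I * normPow K s J := by
  simp only [normPow, map_mul, Nat.cast_mul]
  exact Real.mul_rpow (Nat.cast_nonneg _) (Nat.cast_nonneg _)

lemma normPow_top (s : ℝ) : normPow K s ⊤ = 1 := by
  simp [normPow]

lemma normPow_bot {s : ℝ} (hs : s ≠ 0) : normPow K s ⊥ = 0 := by
  simp [normPow, Real.zero_rpow (neg_ne_zero.mpr hs)]

/-- number of ideals of norm `n` -/
def idealCount (n : ℕ) : ℕ := Nat.card {I : Ideal (𝓞 K) // absNorm I = n}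

/-- The sum of `N(I)^(-s)` over all ideals of norm `n`. -/
lemma tsum_fiber (s : ℝ) (n : ℕ) :
    ∑' I : {I : Ideal (𝓞 K) // absNorm I = n}, normPow K s I.1 =
      (idealCount K n : ℝ) * (n : ℝ) ^ (-s) := by
  have hfin : Finite {I : Ideal (𝓞 K) // absNorm I = n} :=
    (Ideal.finite_setOfPred_absNorm_eq n).to_subtype
  have : Fintype {I : Ideal (𝓞 K) // absNorm I = n} := Fintype.ofFinite _
  rw [tsum_fintype]
  have : ∀ I : {I : Ideal (𝓞 K) // absNorm I = n}, normPow K s I.1 = (n : ℝ) ^ (-s) := by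
    intro I
    simp only [normPow, I.2]
  simp only [this, Finset.sum_const, Finset.card_univ, nsmul_eq_mul, idealCount,
    Nat.card_eq_fintype_card]

lemma tendsto_sum_idealCount_div :
    Tendsto (fun n : ℕ ↦ (∑ k ∈ Finset.Icc 1 n, (idealCount K k : ℝ)) / (n : ℝ)) atTop
      (𝓝 (dedekindZeta_residue K)) := by
  refine ((Ideal.tendsto_norm_le_div_atTop₀ K).comp tendsto_natCast_atTop_atTop).congr fun n ↦ ?_
  simp only [Function.comp_apply, Nat.cast_le, idealCount, ← Nat.cast_sum]
  congr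
  rw [← add_left_inj 1, ← card_norm_le_eq_card_norm_le_add_one,
    show Finset.Icc 1 n = Finset.Ioc 0 n from Finset.Icc_succ_left_eq_Ioc _ _,
    show 1 = Nat.card {I : Ideal (𝓞 K) // absNorm I = 0} by simp [Ideal.absNorm_eq_zero_iff],
    Finset.sum_Ioc_add_eq_sum_Icc (n.zero_le),
    ← Finset.card_preimage_eq_sum_card_image_eq (fun k _ ↦ finite_setOfPred_absNorm_eq k)]
  simp [Set.coe_eq_subtype]

lemma lseriesSummable_idealCount {s : ℝ} (hs : 1 < s) :
    LSeriesSummable (fun n ↦ ((idealCount K n : ℝ) : ℂ)) (s : ℂ) := by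
  refine LSeriesSummable_of_sum_norm_bigO_and_nonneg ?_ (fun n => Nat.cast_nonneg _) zero_le_one
    (by simpa using hs)
  exact isBigO_atTop_natCast_rpow_of_tendsto_div_rpow
    (by simpa using tendsto_sum_idealCount_div K)

lemma term_eq {s : ℝ} (hs : 1 < s) (n : ℕ) :
    LSeries.term (fun n ↦ ((idealCount K n : ℝ) : ℂ)) (s : ℂ) n =
      (((idealCount K n : ℝ) * (n : ℝ) ^ (-s) : ℝ) : ℂ) := by
  rcases eq_or_ne n 0 with rfl | hn
  · have : (0 : ℝ) ^ (-s) = 0 := Real.zero_rpow (by linarith)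
    simp [this]
  · rw [LSeries.term_of_ne_zero hn, Complex.ofReal_mul,
      Complex.ofReal_cpow (Nat.cast_nonneg n), Complex.ofReal_neg, Complex.cpow_neg]
    simp [div_eq_mul_inv]

/-- the `ℕ`-indexed real series is summable for `s > 1` -/
lemma summable_idealCount {s : ℝ} (hs : 1 < s) :
    Summable (fun n : ℕ ↦ (idealCount K n : ℝ) * (n : ℝ) ^ (-s)) := by
  have h := lseriesSummable_idealCount K hs
  have h2 : Summable (fun n : ℕ ↦ (((idealCount K n : ℝ) * (n : ℝ) ^ (-s) : ℝ) : ℂ)) :=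
    h.congr fun n ↦ term_eq K hs n
  exact Complex.summable_ofReal.mp h2

/-- `N(I)^(-s)` is summable over all ideals, `s > 1`. -/
theorem summable_normPow {s : ℝ} (hs : 1 < s) : Summable (normPow K s) := by
  have key : Summable (fun x : Σ n : ℕ, {I : Ideal (𝓞 K) // absNorm I = n} =>
      normPow K s x.2.1) := by
    rw [summable_sigma_of_nonneg (fun x => normPow_nonneg K s _)]
    refine ⟨fun n => ?_, ?_⟩
    · have hfin : Finite {I : Ideal (𝓞 K) // absNorm I = n} :=
        (Ideal.finite_setOfPred_absNorm_eq n).to_subtype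
      exact Summable.of_finite
    · refine (summable_idealCount K hs).congr fun n => ?_
      exact (tsum_fiber K s n).symm
  exact ((Equiv.sigmaFiberEquiv (fun I : Ideal (𝓞 K) => absNorm I)).summable_iff
    (f := normPow K s)).mp key

/-- the Dedekind zeta function as a sum over ideals -/
def zetaI (s : ℝ) : ℝ := ∑' I : Ideal (𝓞 K), normPow K s I

lemma zetaI_eq_tsum_nat {s : ℝ} (hs : 1 < s) :
    zetaI K s = ∑' n : ℕ, (idealCount K n : ℝ) * (n : ℝ) ^ (-s) := by
  have hsum := summable_normPow K hs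
  have hsum' : Summable (fun x : Σ n : ℕ, {I : Ideal (𝓞 K) // absNorm I = n} =>
      normPow K s x.2.1) :=
    ((Equiv.sigmaFiberEquiv (fun I : Ideal (𝓞 K) => absNorm I)).summable_iff
      (f := normPow K s)).mpr hsum
  calc zetaI K s
      = ∑' x : Σ n : ℕ, {I : Ideal (𝓞 K) // absNorm I = n}, normPow K s x.2.1 :=
        ((Equiv.sigmaFiberEquiv (fun I : Ideal (𝓞 K) => absNorm I)).tsum_eq (normPow K s)).symm
    _ = ∑' n : ℕ, ∑' I : {I : Ideal (𝓞 K) // absNorm I = n}, normPow K s I.1 :=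
        hsum'.tsum_sigma
    _ = _ := tsum_congr fun n => tsum_fiber K s n

theorem dedekindZeta_eq_zetaI {s : ℝ} (hs : 1 < s) :
    dedekindZeta K (s : ℂ) = ((zetaI K s : ℝ) : ℂ) := by
  rw [zetaI_eq_tsum_nat K hs, dedekindZeta, LSeries, Complex.ofReal_tsum]
  refine tsum_congr fun n ↦ ?_
  rw [← term_eq K hs n]
  rcases eq_or_ne n 0 with rfl | hn
  · simp
  · rw [LSeries.term_of_ne_zero hn, LSeries.term_of_ne_zero hn]
    simp [idealCount]

theorem tendsto_sub_one_mul_zetaI :
    Tendsto (fun s : ℝ ↦ (s - 1) * zetaI K s) (𝓝[>] 1) (𝓝 (dedekindZeta_residue K)) := by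
  have h := tendsto_sub_one_mul_dedekindZeta_nhdsGT K
  have h2 : Tendsto (fun s : ℝ ↦ (((s - 1) * zetaI K s : ℝ) : ℂ)) (𝓝[>] 1)
      (𝓝 (dedekindZeta_residue K : ℂ)) := by
    refine h.congr' ?_
    filter_upwards [self_mem_nhdsWithin] with s hs
    rw [dedekindZeta_eq_zetaI K hs]
    push_cast
    ring
  have h3 := (Complex.continuous_re.tendsto _).comp h2
  simpa [Function.comp_def] using h3

/-- the sum over nonzero ideals is `zetaI` -/
lemma tsum_sieveSet_empty {s : ℝ} (hs : 1 < s) :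
    ∑' I : sieveSet (∅ : Set (HeightOneSpectrum (𝓞 K))), normPow K s I = zetaI K s := by
  have hsum := summable_normPow K hs
  have h : sieveSet (∅ : Set (HeightOneSpectrum (𝓞 K))) = ({⊥} : Set (Ideal (𝓞 K)))ᶜ := by
    ext I
    simp [mem_sieveSet_empty]
  rw [tsum_congr_set_coe _ h, zetaI,
    ← (hsum.subtype _).tsum_add_tsum_compl (s := ({⊥} : Set (Ideal (𝓞 K)))) (hsum.subtype _),
    tsum_singleton (⊥ : Ideal (𝓞 K)) (normPow K s), normPow_bot K (by linarith), zero_add]

theorem one_le_zetaI {s : ℝ} (hs : 1 < s) : 1 ≤ zetaI K s := by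
  have hsum := summable_normPow K hs
  have := hsum.sum_le_tsum {⊤} (fun I _ => normPow_nonneg K s I)
  simpa [normPow_top, zetaI] using this

theorem zetaI_pos {s : ℝ} (hs : 1 < s) : 0 < zetaI K s :=
  lt_of_lt_of_le one_pos (one_le_zetaI K hs)

/-- **Euler product** for the Dedekind zeta function. -/
theorem tendsto_prod_zetaI {s : ℝ} (hs : 1 < s) :
    Tendsto (fun T : Finset (HeightOneSpectrum (𝓞 K)) =>
      ∏ 𝔭 ∈ T, (1 - normPow K s 𝔭.asIdeal)) atTop (𝓝 (zetaI K s)⁻¹) := by
  have h := tendsto_prod_one_sub (summable_normPow K hs) (normPow_mul K s) (normPow_top K s)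
  rwa [tsum_sieveSet_empty K hs] at h

/-- the prime ideal sum `∑_𝔭 N𝔭^(-s)` -/
def primeSum (s : ℝ) : ℝ := ∑' 𝔭 : HeightOneSpectrum (𝓞 K), normPow K s 𝔭.asIdeal

lemma asIdeal_injective :
    Function.Injective (fun 𝔭 : HeightOneSpectrum (𝓞 K) => 𝔭.asIdeal) :=
  fun _ _ h => HeightOneSpectrum.ext h

theorem summable_primeSum {s : ℝ} (hs : 1 < s) :
    Summable (fun 𝔭 : HeightOneSpectrum (𝓞 K) => normPow K s 𝔭.asIdeal) :=
  (summable_normPow K hs).comp_injective (asIdeal_injective K)

lemma two_le_absNorm (𝔭 : HeightOneSpectrum (𝓞 K)) : 2 ≤ absNorm 𝔭.asIdeal := by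
  have h0 : absNorm 𝔭.asIdeal ≠ 0 := by
    rw [Ne, Ideal.absNorm_eq_zero_iff]; exact 𝔭.ne_bot
  have h1 : absNorm 𝔭.asIdeal ≠ 1 := by
    rw [Ne, Ideal.absNorm_eq_one_iff]; exact 𝔭.isPrime.ne_top
  omega

lemma normPow_le_half {s : ℝ} (hs : 1 ≤ s) (𝔭 : HeightOneSpectrum (𝓞 K)) :
    normPow K s 𝔭.asIdeal ≤ 1 / 2 := by
  have h2 : (2 : ℝ) ≤ absNorm 𝔭.asIdeal := by exact_mod_cast two_le_absNorm K 𝔭
  have h0 : (0 : ℝ) < absNorm 𝔭.asIdeal := by linarith
  rw [normPow, Real.rpow_neg h0.le, one_div]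
  apply inv_anti₀ (by norm_num)
  calc (2 : ℝ) ≤ absNorm 𝔭.asIdeal := h2
    _ = (absNorm 𝔭.asIdeal : ℝ) ^ (1 : ℝ) := (Real.rpow_one _).symm
    _ ≤ (absNorm 𝔭.asIdeal : ℝ) ^ s := Real.rpow_le_rpow_of_exponent_le (by linarith) hs

lemma normPow_sq (s : ℝ) (I : Ideal (𝓞 K)) : normPow K s I ^ 2 = normPow K (2 * s) I := by
  rw [normPow, normPow, ← Real.rpow_natCast, ← Real.rpow_mul (Nat.cast_nonneg _)]
  congr 1
  push_cast
  ring

/-- `-log (1 - x) ≥ x` and `≤ x + 2 x²` for `0 ≤ x ≤ 1/2`. -/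
lemma neg_log_one_sub_bounds {x : ℝ} (h0 : 0 ≤ x) (h1 : x ≤ 1 / 2) :
    x ≤ -Real.log (1 - x) ∧ -Real.log (1 - x) ≤ x + 2 * x ^ 2 := by
  have hpos : 0 < 1 - x := by linarith
  constructor
  · have := Real.log_le_sub_one_of_pos hpos
    linarith
  · have h := Real.log_le_sub_one_of_pos (inv_pos.mpr hpos)
    rw [Real.log_inv] at h
    have h2 : (1 - x)⁻¹ - 1 ≤ x + 2 * x ^ 2 := by
      rw [sub_le_iff_le_add, inv_le_iff_one_le_mul₀ hpos]
      nlinarith [mul_nonneg h0 h0, mul_nonneg (mul_nonneg h0 h0) h0]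
    linarith

/-- The sum of `log (1 - N𝔭^(-s))` over the primes is `-log ζ_K(s)`. -/
theorem hasSum_log_one_sub {s : ℝ} (hs : 1 < s) :
    HasSum (fun 𝔭 : HeightOneSpectrum (𝓞 K) => Real.log (1 - normPow K s 𝔭.asIdeal))
      (-Real.log (zetaI K s)) := by
  have h := tendsto_prod_zetaI K hs
  have hZ : (zetaI K s)⁻¹ ≠ 0 := inv_ne_zero (zetaI_pos K hs).ne'
  have h2 := (Real.continuousAt_log hZ).tendsto.comp h
  rw [Real.log_inv] at h2
  rw [HasSum]
  refine h2.congr fun T => ?_
  simp only [Function.comp_apply]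
  rw [Real.log_prod]
  intro 𝔭 _
  have := normPow_le_half K hs.le 𝔭
  linarith

/-- `∑_𝔭 N𝔭^(-s) ≤ log ζ_K(s) ≤ ∑_𝔭 N𝔭^(-s) + 2 ∑_𝔭 N𝔭^(-2s)`. -/
theorem primeSum_le_log_zetaI {s : ℝ} (hs : 1 < s) :
    primeSum K s ≤ Real.log (zetaI K s) ∧
      Real.log (zetaI K s) ≤ primeSum K s + 2 * primeSum K (2 * s) := by
  have hlog := (hasSum_log_one_sub K hs).neg
  rw [neg_neg] at hlog
  have hP := (summable_primeSum K hs).hasSum
  have hP2 := (summable_primeSum K (show 1 < 2 * s by linarith)).hasSum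
  constructor
  · refine hasSum_le (fun 𝔭 => ?_) hP hlog
    exact (neg_log_one_sub_bounds (normPow_nonneg K s _) (normPow_le_half K hs.le 𝔭)).1
  · refine hasSum_le (fun 𝔭 => ?_) hlog (hP.add (hP2.mul_left 2))
    have := (neg_log_one_sub_bounds (normPow_nonneg K s _) (normPow_le_half K hs.le 𝔭)).2
    rw [normPow_sq] at this
    exact this

lemma normPow_anti {s t : ℝ} (hst : s ≤ t) (I : Ideal (𝓞 K)) (h0 : 0 < s) :
    normPow K t I ≤ normPow K s I := by
  rcases eq_or_ne I ⊥ with rfl | hI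
  · rw [normPow_bot K h0.ne', normPow_bot K (h0.trans_le hst).ne']
  · have h1 : (1 : ℝ) ≤ absNorm I := by
      have : absNorm I ≠ 0 := by rwa [Ne, Ideal.absNorm_eq_zero_iff]
      exact_mod_cast Nat.one_le_iff_ne_zero.mpr this
    exact Real.rpow_le_rpow_of_exponent_le h1 (by linarith)

theorem zetaI_anti {s t : ℝ} (hs : 1 < s) (hst : s ≤ t) : zetaI K t ≤ zetaI K s :=
  (summable_normPow K (hs.trans_le hst)).tsum_le_tsum
    (fun I => normPow_anti K hst I (by linarith)) (summable_normPow K hs)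

theorem primeSum_nonneg (s : ℝ) : 0 ≤ primeSum K s :=
  tsum_nonneg fun _ => normPow_nonneg K s _

theorem primeSum_anti {s t : ℝ} (hs : 1 < s) (hst : s ≤ t) : primeSum K t ≤ primeSum K s :=
  (summable_primeSum K (hs.trans_le hst)).tsum_le_tsum
    (fun 𝔭 => normPow_anti K hst 𝔭.asIdeal (by linarith)) (summable_primeSum K hs)

/-- `(s - 1) ζ_K(s)` is bounded above and below by positive constants on `(1, 2]`. -/
theorem exists_bounds_sub_one_mul_zetaI :
    ∃ c₁ c₂ : ℝ, 0 < c₁ ∧ c₁ ≤ c₂ ∧ ∀ s : ℝ, 1 < s → s ≤ 2 →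
      c₁ ≤ (s - 1) * zetaI K s ∧ (s - 1) * zetaI K s ≤ c₂ := by
  have hρ := dedekindZeta_residue_pos K
  set ρ := dedekindZeta_residue K with hρdef
  have h := tendsto_sub_one_mul_zetaI K
  have hev : ∀ᶠ s : ℝ in 𝓝[>] 1, ρ / 2 < (s - 1) * zetaI K s ∧ (s - 1) * zetaI K s < 2 * ρ :=
    (h.eventually (lt_mem_nhds (show ρ / 2 < ρ by linarith))).and
      (h.eventually (gt_mem_nhds (show ρ < 2 * ρ by linarith)))
  rw [eventually_nhdsWithin_iff, Metric.eventually_nhds_iff] at hev
  obtain ⟨δ, hδ, hδ2⟩ := hev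
  set δ' := min δ 1 with hδ'
  have hδ'pos : 0 < δ' := lt_min hδ one_pos
  have hδ'le : δ' ≤ δ := min_le_left _ _
  set s₀ : ℝ := 1 + δ' / 2 with hs₀
  have hs₀1 : 1 < s₀ := by rw [hs₀]; linarith
  have hZ₀ := one_le_zetaI K hs₀1
  refine ⟨min (ρ / 2) (δ' / 2), max (2 * ρ) (zetaI K s₀), lt_min (by linarith) (by linarith),
    (min_le_left _ _).trans ((by linarith : ρ / 2 ≤ 2 * ρ).trans (le_max_left _ _)),
    fun s hs1 hs2 => ?_⟩
  rcases lt_or_ge s s₀ with hlt | hge
  · have hd : dist s 1 < δ := by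
      rw [Real.dist_eq, abs_of_pos (by linarith)]
      rw [hs₀] at hlt
      linarith
    have := hδ2 hd hs1
    exact ⟨(min_le_left _ _).trans this.1.le, this.2.le.trans (le_max_left _ _)⟩
  · have h1 := one_le_zetaI K hs1
    have h2 := zetaI_anti K hs₀1 hge
    have hs0 : 0 < s - 1 := by linarith
    constructor
    · calc min (ρ / 2) (δ' / 2) ≤ δ' / 2 := min_le_right _ _
        _ ≤ (s - 1) * 1 := by rw [hs₀] at hge; linarith
        _ ≤ (s - 1) * zetaI K s := by gcongr
    · calc (s - 1) * zetaI K s ≤ 1 * zetaI K s₀ := by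
            apply mul_le_mul (by linarith) h2 (by linarith) (by norm_num)
        _ ≤ max (2 * ρ) (zetaI K s₀) := by rw [one_mul]; exact le_max_right _ _

/-- **The prime ideal sum** `∑_𝔭 N𝔭^(-s)` is `log (1 / (s - 1)) + O(1)` on `(1, 2]`. -/
theorem exists_primeSum_bound :
    ∃ C : ℝ, ∀ s : ℝ, 1 < s → s ≤ 2 → |primeSum K s + Real.log (s - 1)| ≤ C := by
  obtain ⟨c₁, c₂, hc₁, hc₁₂, hb⟩ := exists_bounds_sub_one_mul_zetaI K
  have hc₂ : 0 < c₂ := hc₁.trans_le hc₁₂
  refine ⟨max |Real.log c₁| |Real.log c₂| + 2 * primeSum K 2, fun s hs1 hs2 => ?_⟩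
  obtain ⟨hlo, hhi⟩ := hb s hs1 hs2
  obtain ⟨hP1, hP2⟩ := primeSum_le_log_zetaI K hs1
  have hs0 : 0 < s - 1 := by linarith
  have hZ := zetaI_pos K hs1
  have hlog : Real.log ((s - 1) * zetaI K s) = Real.log (s - 1) + Real.log (zetaI K s) :=
    Real.log_mul hs0.ne' hZ.ne'
  have hl1 : Real.log c₁ ≤ Real.log ((s - 1) * zetaI K s) := Real.log_le_log hc₁ hlo
  have hl2 : Real.log ((s - 1) * zetaI K s) ≤ Real.log c₂ :=
    Real.log_le_log (hc₁.trans_le hlo) hhi
  have hB : primeSum K (2 * s) ≤ primeSum K 2 :=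
    primeSum_anti K (by norm_num) (by linarith)
  have hB0 := primeSum_nonneg K 2
  have hm1 : -max |Real.log c₁| |Real.log c₂| ≤ Real.log c₁ :=
    (neg_le_neg (le_max_left _ _)).trans (neg_abs_le _)
  have hm2 : Real.log c₂ ≤ max |Real.log c₁| |Real.log c₂| :=
    (le_abs_self _).trans (le_max_right _ _)
  rw [abs_le]
  constructor <;> linarith

end

end Fermat.Agent.Lib.Cheb.H761

end
-- ===== PACK-END Lib/Cheb/H761/ZetaEuler.lean

-- ===== PACK-BEGIN Lib/Cheb/H221/LogBound.lean
section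
/-
CHEB shared library, piece A (helper221): a continuous logarithm of a function with a nonzero
limit is bounded.
-/


set_option autoImplicit false

namespace Fermat.Agent.Lib.Cheb.H221

open Filter Topology Complex

/-- A continuous real function on a preconnected set taking only integer values, and vanishing at
one point, vanishes identically. -/
lemma eq_zero_of_int_valued {S : Set ℝ} (hS : IsPreconnected S) {h : ℝ → ℝ}
    (hc : ContinuousOn h S) (hint : ∀ s ∈ S, ∃ n : ℤ, h s = n) {s₀ : ℝ} (hs₀ : s₀ ∈ S)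
    (h0 : h s₀ = 0) {s : ℝ} (hs : s ∈ S) : h s = 0 := by
  obtain ⟨n, hn⟩ := hint s hs
  by_contra hne
  have hn0 : n ≠ 0 := by
    rintro rfl
    exact hne (by simpa using hn)
  rcases lt_or_gt_of_ne hn0 with hneg | hpos
  · -- `n ≤ -1`: the value `-1/2` is attained
    have hle : (n : ℝ) ≤ -1 := by exact_mod_cast Int.le_sub_one_of_lt hneg
    have hmem : (-1 / 2 : ℝ) ∈ Set.Icc (h s) (h s₀) := by
      rw [hn, h0]; constructor <;> linarith
    obtain ⟨t, ht, hval⟩ := hS.intermediate_value hs hs₀ hc hmem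
    obtain ⟨k, hk⟩ := hint t ht
    rw [hk] at hval
    have h2 : (2 * k : ℤ) = -1 := by
      have : (2 : ℝ) * k = -1 := by linarith
      exact_mod_cast this
    omega
  · have hge : (1 : ℝ) ≤ n := by exact_mod_cast Int.add_one_le_of_lt hpos
    have hmem : (1 / 2 : ℝ) ∈ Set.Icc (h s₀) (h s) := by
      rw [hn, h0]; constructor <;> linarith
    obtain ⟨t, ht, hval⟩ := hS.intermediate_value hs₀ hs hc hmem
    obtain ⟨k, hk⟩ := hint t ht
    rw [hk] at hval
    have h2 : (2 * k : ℤ) = 1 := by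
      have : (2 : ℝ) * k = 1 := by linarith
      exact_mod_cast this
    omega

/-- If `exp ∘ Λ` tends to a nonzero limit at `1⁺` and `Λ` is continuous on `(1,∞)`, then `Λ` is
bounded near `1⁺`. -/
lemma exists_bound_of_exp_tendsto {Λ : ℝ → ℂ} (hΛ : ContinuousOn Λ (Set.Ioi 1)) {ℓ : ℂ}
    (hℓ : ℓ ≠ 0) (h : Tendsto (fun s => Complex.exp (Λ s)) (𝓝[>] (1 : ℝ)) (𝓝 ℓ)) :
    ∃ B : ℝ, ∀ᶠ s in 𝓝[>] (1 : ℝ), ‖Λ s‖ ≤ B := by
  -- eventually `exp (Λ s) / ℓ` is within `1/2` of `1`
  have h1 : Tendsto (fun s => Complex.exp (Λ s) / ℓ - 1) (𝓝[>] (1 : ℝ)) (𝓝 0) := by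
    have := (h.div_const ℓ).sub_const 1
    simpa [div_self hℓ] using this
  have hev : ∀ᶠ s in 𝓝[>] (1 : ℝ), ‖Complex.exp (Λ s) / ℓ - 1‖ < 1 / 2 := by
    have := (tendsto_zero_iff_norm_tendsto_zero.mp h1).eventually
      (gt_mem_nhds (by norm_num : (0 : ℝ) < 1 / 2))
    exact this
  obtain ⟨u, hu1, hu⟩ := mem_nhdsGT_iff_exists_Ioo_subset.mp hev
  -- the set `S = Ioo 1 u`
  have hSsub : Set.Ioo (1 : ℝ) u ⊆ Set.Ioi 1 := fun s hs => hs.1
  obtain ⟨s₀, hs₀⟩ : ∃ s₀, s₀ ∈ Set.Ioo (1 : ℝ) u := ⟨(1 + u) / 2, by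
    constructor <;> linarith [Set.mem_Ioi.mp hu1]⟩
  -- the auxiliary function
  set w : ℝ → ℂ := fun s => Complex.exp (Λ s) / ℓ - 1 with hw
  set g : ℝ → ℂ := fun s => Λ s - Complex.log (1 + w s) with hg
  have hwlt : ∀ s ∈ Set.Ioo (1 : ℝ) u, ‖w s‖ < 1 / 2 := fun s hs => hu hs
  have hwcont : ContinuousOn w (Set.Ioo (1 : ℝ) u) := by
    have : ContinuousOn (fun s => Complex.exp (Λ s)) (Set.Ioo (1 : ℝ) u) :=
      (Complex.continuous_exp.comp_continuousOn (hΛ.mono hSsub))
    exact (this.div_const ℓ).sub continuousOn_const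
  have hgcont : ContinuousOn g (Set.Ioo (1 : ℝ) u) := by
    refine (hΛ.mono hSsub).sub ?_
    refine ContinuousOn.clog (continuousOn_const.add hwcont) ?_
    intro s hs
    exact Complex.mem_slitPlane_of_norm_lt_one (lt_trans (hwlt s hs) (by norm_num))
  have hexp : ∀ s ∈ Set.Ioo (1 : ℝ) u, Complex.exp (g s) = ℓ := by
    intro s hs
    have hne : (1 + w s) ≠ 0 := by
      intro h0
      have : w s = -1 := by linear_combination h0
      have hlt := hwlt s hs
      rw [this, norm_neg, norm_one] at hlt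
      norm_num at hlt
    simp only [hg, Complex.exp_sub, Complex.exp_log hne]
    simp only [hw]
    have : (1 + (Complex.exp (Λ s) / ℓ - 1)) = Complex.exp (Λ s) / ℓ := by ring
    rw [this]
    field_simp
  -- `g` is constant on `S`
  have hconst : ∀ s ∈ Set.Ioo (1 : ℝ) u, g s = g s₀ := by
    intro s hs
    have hint : ∀ t ∈ Set.Ioo (1 : ℝ) u, ∃ n : ℤ, g t - g s₀ = n * (2 * Real.pi * Complex.I) := by
      intro t ht
      apply Complex.exp_eq_one_iff.mp
      rw [Complex.exp_sub, hexp t ht, hexp s₀ hs₀, div_self hℓ]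
    have key := eq_zero_of_int_valued (isPreconnected_Ioo (a := (1 : ℝ)) (b := u))
      (h := fun t => (g t - g s₀).im / (2 * Real.pi))
      (by
        refine ContinuousOn.div_const ?_ _
        exact Complex.continuous_im.comp_continuousOn (hgcont.sub continuousOn_const))
      (by
        intro t ht
        obtain ⟨n, hn⟩ := hint t ht
        refine ⟨n, ?_⟩
        simp only [hn]
        have hpi : (2 * Real.pi) ≠ 0 := by positivity
        have : ((n : ℂ) * (2 * (Real.pi : ℂ) * Complex.I)).im = n * (2 * Real.pi) := by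
          simp [Complex.mul_im]
        rw [this]
        field_simp)
      hs₀ (by simp) hs
    obtain ⟨n, hn⟩ := hint s hs
    have hn0 : (n : ℝ) = 0 := by
      have hpi : (2 * Real.pi) ≠ 0 := by positivity
      have him : ((n : ℂ) * (2 * (Real.pi : ℂ) * Complex.I)).im = n * (2 * Real.pi) := by
        simp [Complex.mul_im]
      have : (g s - g s₀).im / (2 * Real.pi) = n := by
        rw [hn, him]; field_simp
      have key' : (g s - g s₀).im / (2 * Real.pi) = 0 := key
      rw [this] at key'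
      exact key'
    have hn0' : n = 0 := by exact_mod_cast hn0
    rw [hn0'] at hn
    simp only [Int.cast_zero, zero_mul] at hn
    exact sub_eq_zero.mp hn
  refine ⟨‖g s₀‖ + 1, ?_⟩
  have hmem : Set.Ioo (1 : ℝ) u ∈ 𝓝[>] (1 : ℝ) := Ioo_mem_nhdsGT hu1
  filter_upwards [hmem] with s hs
  have e : Λ s = g s₀ + Complex.log (1 + w s) := by
    have := hconst s hs
    simp only [hg] at this ⊢
    linear_combination this
  rw [e]
  have hlog : ‖Complex.log (1 + w s)‖ ≤ 1 := by
    have h2 := Complex.norm_log_one_add_half_le_self (le_of_lt (hwlt s hs))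
    have h3 := hwlt s hs
    linarith
  exact le_trans (norm_add_le _ _) (by linarith)

end Fermat.Agent.Lib.Cheb.H221

end
-- ===== PACK-END Lib/Cheb/H221/LogBound.lean

-- ===== PACK-BEGIN Lib/Cheb/H223/Cross.lean
section




/-!
# Chebotarev field crossing in the `Spec` shape (helper223, shared lib CHEB)

`cross : Spec.CrossStatement`, i.e. `FrobStatement → CycStatement → ChebFiniteStatement`.
-/

set_option autoImplicit false
set_option linter.style.haveILetI false

namespace Fermat.Agent.Lib.Cheb.H223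

open NumberField IntermediateField
open Fermat.Agent.Lib.Cheb.Spec

/-- Pulling back an arithmetic Frobenius along an equivariant embedding of number fields. -/
theorem isArithFrobAt_comap {L L' : Type} [Field L] [NumberField L] [Field L'] [NumberField L']
    (ψ : L →+* L') (σ : L ≃ₐ[ℚ] L) (g' : L' ≃ₐ[ℚ] L') (hcomm : ∀ x, ψ (σ x) = g' (ψ x))
    (P' : Ideal (𝓞 L')) (h : IsArithFrobAt ℤ g' P') :
    IsArithFrobAt ℤ σ (P'.comap (RingOfIntegers.mapRingHom ψ)) := by
  intro x
  have hx := h (RingOfIntegers.mapRingHom ψ x)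
  have e1 : RingOfIntegers.mapRingHom ψ (σ • x) = g' • (RingOfIntegers.mapRingHom ψ x) := by
    apply RingOfIntegers.ext
    exact hcomm x
  have e2 : (P'.comap (RingOfIntegers.mapRingHom ψ)).under ℤ = P'.under ℤ := by
    ext n
    simp [Ideal.under, Ideal.mem_comap]
  rw [Ideal.mem_comap, e2]
  change RingOfIntegers.mapRingHom ψ (σ • x - x ^ Nat.card (ℤ ⧸ P'.under ℤ)) ∈ P'
  rw [map_sub, map_pow, e1]
  exact hx

/-- powers of `g` act on `ζ` by powers of `t` -/
theorem pow_apply_of_apply_eq_pow {K : Type*} [Field K] [Algebra ℚ K] (g : K ≃ₐ[ℚ] K) {ζ : K}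
    {t : ℕ} (h : g ζ = ζ ^ t) (k : ℕ) : (g ^ k) ζ = ζ ^ t ^ k := by
  induction k with
  | zero => simp
  | succ k ih =>
    rw [pow_succ', AlgEquiv.mul_apply, ih, map_pow, h, ← pow_mul, ← pow_succ']

/-- an automorphism fixing `L` pointwise and `ζ` fixes `L ⊔ ℚ⟮ζ⟯` pointwise -/
theorem apply_eq_of_mem_sup {K : Type*} [Field K] [Algebra ℚ K] (f : K ≃ₐ[ℚ] K)
    (L : IntermediateField ℚ K) (ζ : K) (hL : ∀ x ∈ L, f x = x) (hζ : f ζ = ζ) :
    ∀ x ∈ L ⊔ ℚ⟮ζ⟯, f x = x := by
  let E : IntermediateField ℚ K :=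
    { carrier := {x | f x = x}
      mul_mem' := fun {a b} ha hb => by
        simp only [Set.mem_ofPred_eq] at ha hb ⊢
        rw [map_mul, ha, hb]
      one_mem' := map_one f
      add_mem' := fun {a b} ha hb => by
        simp only [Set.mem_ofPred_eq] at ha hb ⊢
        rw [map_add, ha, hb]
      zero_mem' := map_zero f
      algebraMap_mem' := fun r => f.commutes r
      inv_mem' := fun x hx => by
        simp only [Set.mem_ofPred_eq] at hx ⊢
        rw [map_inv₀, hx] }
  have h1 : L ≤ E := fun x hx => hL x hx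
  have h2 : ℚ⟮ζ⟯ ≤ E := by
    rw [IntermediateField.adjoin_simple_le_iff]
    exact hζ
  intro x hx
  exact (sup_le h1 h2) hx

set_option backward.isDefEq.respectTransparency false in
/-- **Field crossing** in the `Spec` shape. -/
theorem cross : CrossStatement := by
  intro hF hC L _ _ _ σ S
  haveI := isGalois_Qb
  haveI : Algebra.IsAlgebraic ℚ Qb := AlgebraicClosure.isAlgebraic ℚ
  obtain ⟨BL, hBL⟩ := hF L
  -- embed `L` into `ℚ̄`
  let φ : L →ₐ[ℚ] Qb := IsAlgClosed.lift
  let L₀ : IntermediateField ℚ Qb := φ.fieldRange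
  let e : L ≃ₐ[ℚ] L₀ := AlgEquiv.ofInjectiveField φ
  haveI : FiniteDimensional ℚ L₀ := e.toLinearEquiv.finiteDimensional
  haveI : IsGalois ℚ L₀ := IsGalois.of_algEquiv e
  have heφ : ∀ x : L, ((e x : L₀) : Qb) = φ x := fun x => rfl
  -- transport `σ` and lift it to `ℚ̄`
  let σ₀ : L₀ ≃ₐ[ℚ] L₀ := (e.symm.trans σ).trans e
  obtain ⟨σ', hσ'⟩ := AlgEquiv.restrictNormalHom_surjective (F := ℚ) (K₁ := L₀) Qb σ₀
  have hσφ : ∀ x : L, σ' (φ x) = φ (σ x) := by
    intro x
    have h1 := AlgEquiv.restrictNormal_commutes σ' L₀ (e x)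
    have h2 : (AlgEquiv.restrictNormalHom L₀ σ') (e x) = σ₀ (e x) := by rw [hσ']
    have h3 : σ₀ (e x) = e (σ x) := by
      simp [σ₀]
    have h4 := congrArg (Subtype.val) (h2.trans h3)
    exact h1.symm.trans h4
  -- crossing
  obtain ⟨ℓ, ζ, g, t, hℓ, -, hζ, hgL, hgζ, hkey⟩ := exists_crossing L₀ σ' 0
  haveI : Algebra.IsIntegral ℚ Qb := Algebra.IsAlgebraic.isIntegral
  haveI : NeZero ℓ := ⟨hℓ.ne_zero⟩
  haveI hcyc : IsCyclotomicExtension {ℓ} ℚ ℚ⟮ζ⟯ :=
    hζ.intermediateField_adjoin_isCyclotomicExtension ℚ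
  haveI : FiniteDimensional ℚ ℚ⟮ζ⟯ := IsCyclotomicExtension.finiteDimensional {ℓ} ℚ _
  haveI : IsGalois ℚ ℚ⟮ζ⟯ := IsCyclotomicExtension.isGalois {ℓ} ℚ _
  let L' : IntermediateField ℚ Qb := L₀ ⊔ ℚ⟮ζ⟯
  haveI : FiniteDimensional ℚ L' := IntermediateField.finiteDimensional_sup L₀ ℚ⟮ζ⟯
  haveI : NumberField L' := ⟨⟩
  haveI : Normal ℚ L' := IntermediateField.normal_sup ℚ Qb L₀ ℚ⟮ζ⟯
  haveI : IsGalois ℚ L' := isGalois_iff.mpr ⟨inferInstance, inferInstance⟩
  have hζL' : ζ ∈ L' := (le_sup_right : ℚ⟮ζ⟯ ≤ L') (mem_adjoin_simple_self ℚ ζ)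
  let ζ' : L' := ⟨ζ, hζL'⟩
  have hζ' : IsPrimitiveRoot ζ' ℓ :=
    IsPrimitiveRoot.of_map_of_injective (f := L'.val) (by simpa [ζ'] using hζ) L'.val.injective
  let g' : L' ≃ₐ[ℚ] L' := AlgEquiv.restrictNormalHom L' g
  have hg'val : ∀ (k : ℕ) (y : L'), (((g' ^ k) y : L') : Qb) = (g ^ k) (y : Qb) := by
    intro k y
    have h1 : g' ^ k = AlgEquiv.restrictNormalHom L' (g ^ k) := (map_pow _ g k).symm
    rw [h1]
    exact AlgEquiv.restrictNormal_commutes (g ^ k) L' y
  have hcond : ∀ k : ℕ, (g' ^ k) ζ' = ζ' → g' ^ k = 1 := by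
    intro k hk
    have h1 : (g ^ k) ζ = ζ := by
      have := congrArg Subtype.val hk
      rw [hg'val k ζ'] at this
      exact this
    have h2 : ζ ^ t ^ k = ζ := by rw [← pow_apply_of_apply_eq_pow g hgζ k]; exact h1
    have h3 := apply_eq_of_mem_sup (g ^ k) L₀ ζ (hkey k h2) h1
    apply AlgEquiv.ext
    intro y
    apply Subtype.ext
    rw [hg'val k y]
    exact h3 y y.2
  obtain ⟨p, P', hp, hpS, hP', hpP', -, hfrob⟩ := hC L' ℓ ζ' hℓ.pos hζ' g' hcond (S ∪ BL)
  -- pull back to `L`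
  have hφL' : ∀ x : L, φ x ∈ L' := fun x => (le_sup_left : L₀ ≤ L') (e x).2
  let ψ : L →+* L' := φ.toRingHom.codRestrict L'.toSubfield hφL'
  have hψval : ∀ x : L, ((ψ x : L') : Qb) = φ x := fun x => rfl
  have hcomm : ∀ x : L, ψ (σ x) = g' (ψ x) := by
    intro x
    apply Subtype.ext
    have h1 := hg'val 1 (ψ x)
    rw [pow_one, pow_one] at h1
    rw [h1, hψval, hψval, hgL (φ x) (e x).2, hσφ]
  have hpS' : p ∉ S := fun h => hpS (Finset.mem_union_left _ h)
  have hpB : p ∉ BL := fun h => hpS (Finset.mem_union_right _ h)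
  let P : Ideal (𝓞 L) := P'.comap (RingOfIntegers.mapRingHom ψ)
  have hP : P.IsPrime := Ideal.comap_isPrime _ _
  have hpP : (p : 𝓞 L) ∈ P := by
    rw [Ideal.mem_comap, map_natCast]
    exact hpP'
  exact ⟨p, P, hp, hpS', hP, hpP, (hBL p hp hpB P hP hpP).1,
    isArithFrobAt_comap ψ σ g' hcomm P' hfrob⟩

end Fermat.Agent.Lib.Cheb.H223

end
-- ===== PACK-END Lib/Cheb/H223/Cross.lean

-- ===== PACK-BEGIN S14/H74/Tent.lean
section


/-!
# S14/N1 (helper74): the tent function and its partition of unity (piece P1)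
-/

namespace Fermat.Agent.S14.H74

theorem tent_nonneg (c : ℝ) : 0 ≤ tent c := le_max_left _ _

theorem tent_le_one (c : ℝ) : tent c ≤ 1 := by
  unfold tent
  exact max_le zero_le_one (by linarith [abs_nonneg c])

theorem tent_eq_zero_of_one_le {c : ℝ} (h : 1 ≤ |c|) : tent c = 0 := by
  unfold tent
  exact max_eq_left (by linarith)

theorem tent_of_abs_le_one {c : ℝ} (h : |c| ≤ 1) : tent c = 1 - |c| := by
  unfold tent
  exact max_eq_right (by linarith)

theorem abs_lt_one_of_tent_ne_zero {c : ℝ} (h : tent c ≠ 0) : |c| < 1 := by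
  by_contra h'
  exact h (tent_eq_zero_of_one_le (not_lt.mp h'))

theorem tent_lipschitz (a b : ℝ) : |tent a - tent b| ≤ |a - b| := by
  unfold tent
  rw [max_comm 0 (1 - |a|), max_comm 0 (1 - |b|)]
  have h1 := abs_max_sub_max_le_abs (1 - |a|) (1 - |b|) 0
  have h2 : |(1 - |a|) - (1 - |b|)| ≤ |a - b| := by
    have : (1 - |a|) - (1 - |b|) = |b| - |a| := by ring
    rw [this, abs_sub_comm a b]
    exact abs_abs_sub_abs_le_abs_sub b a
  exact h1.trans h2

/-- `|∏ a - ∏ b| ≤ ∑ |a - b|` for families with values in `[0, 1]`. -/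
theorem abs_prod_sub_prod_le_sum {ι : Type*} (s : Finset ι) (a b : ι → ℝ)
    (ha0 : ∀ i, 0 ≤ a i) (ha1 : ∀ i, a i ≤ 1) (hb0 : ∀ i, 0 ≤ b i) (hb1 : ∀ i, b i ≤ 1) :
    |∏ i ∈ s, a i - ∏ i ∈ s, b i| ≤ ∑ i ∈ s, |a i - b i| := by
  classical
  induction s using Finset.induction_on with
  | empty => simp
  | insert i s hi ih =>
    rw [Finset.prod_insert hi, Finset.prod_insert hi, Finset.sum_insert hi]
    have hA0 : 0 ≤ ∏ j ∈ s, a j := Finset.prod_nonneg fun j _ ↦ ha0 j
    have hA1 : ∏ j ∈ s, a j ≤ 1 := Finset.prod_le_one (fun j _ ↦ ha0 j) fun j _ ↦ ha1 j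
    have key : a i * ∏ j ∈ s, a j - b i * ∏ j ∈ s, b j
        = (a i - b i) * ∏ j ∈ s, a j + b i * (∏ j ∈ s, a j - ∏ j ∈ s, b j) := by ring
    rw [key]
    refine (abs_add_le _ _).trans (add_le_add ?_ ?_)
    · rw [abs_mul, abs_of_nonneg hA0]
      exact mul_le_of_le_one_right (abs_nonneg _) hA1
    · rw [abs_mul, abs_of_nonneg (hb0 i)]
      exact (mul_le_of_le_one_left (abs_nonneg _) (hb1 i)).trans ih

/-- The integer translates of the tent function sum to `1`. -/
theorem tent_hasSum (c : ℝ) : HasSum (fun k : ℤ ↦ tent (c + k)) 1 := by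
  have hfl := Int.floor_le c
  have hlt := Int.lt_floor_add_one c
  set m : ℤ := ⌊c⌋ with hm
  have hne : (-m : ℤ) ≠ -m - 1 := by omega
  have hsupp : ∀ k : ℤ, k ∉ ({-m, -m - 1} : Finset ℤ) → tent (c + k) = 0 := by
    intro k hk
    simp only [Finset.mem_insert, Finset.mem_singleton, not_or] at hk
    apply tent_eq_zero_of_one_le
    rcases lt_or_gt_of_ne hk.1 with h | h
    · have h2 : k ≤ -m - 2 := by
        have : k ≠ -m - 1 := hk.2
        omega
      have h3 : (k : ℝ) ≤ -m - 2 := by exact_mod_cast h2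
      rw [abs_of_nonpos (by linarith)]
      linarith
    · have h2 : -m + 1 ≤ k := by omega
      have h3 : (-m : ℝ) + 1 ≤ k := by exact_mod_cast h2
      rw [abs_of_nonneg (by linarith)]
      linarith
  have h : HasSum (fun k : ℤ ↦ tent (c + k)) (∑ k ∈ ({-m, -m - 1} : Finset ℤ), tent (c + k)) :=
    hasSum_sum_of_ne_finset_zero hsupp
  convert h using 1
  rw [Finset.sum_pair hne]
  have e1 : tent (c + ((-m : ℤ) : ℝ)) = 1 - (c - m) := by
    rw [tent_of_abs_le_one]
    · rw [abs_of_nonneg] <;> push_cast <;> linarith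
    · rw [abs_of_nonneg] <;> push_cast <;> linarith
  have e2 : tent (c + ((-m - 1 : ℤ) : ℝ)) = c - m := by
    rw [tent_of_abs_le_one]
    · rw [abs_of_nonpos] <;> push_cast <;> linarith
    · rw [abs_of_nonpos] <;> push_cast <;> linarith
  rw [e1, e2]
  ring

/-- Product version of the partition of unity. -/
theorem tent_prod_hasSum {ι : Type*} [Fintype ι] (c : ι → ℝ) :
    HasSum (fun k : ι → ℤ ↦ ∏ j, tent (c j + k j)) 1 := by
  classical
  let S : ι → Finset ℤ := fun j ↦ {-⌊c j⌋, -⌊c j⌋ - 1}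
  have hS : ∀ j (k : ℤ), k ∉ S j → tent (c j + k) = 0 := by
    intro j k hk
    by_contra h
    have h1 := abs_lt_one_of_tent_ne_zero h
    have hfl := Int.floor_le (c j)
    have hlt := Int.lt_floor_add_one (c j)
    rw [abs_lt] at h1
    apply hk
    simp only [S, Finset.mem_insert, Finset.mem_singleton]
    have h2 : (-⌊c j⌋ - 2 : ℝ) < k := by linarith
    have h3 : (k : ℝ) < -⌊c j⌋ + 1 := by linarith
    have h2' : -⌊c j⌋ - 2 < k := by exact_mod_cast h2
    have h3' : k < -⌊c j⌋ + 1 := by exact_mod_cast h3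
    omega
  have hsum : ∀ j, ∑ k ∈ S j, tent (c j + k) = 1 := by
    intro j
    have h : HasSum (fun k : ℤ ↦ tent (c j + k)) (∑ k ∈ S j, tent (c j + k)) :=
      hasSum_sum_of_ne_finset_zero (hS j)
    exact h.unique (tent_hasSum (c j))
  have hsupp : ∀ k : ι → ℤ, k ∉ Fintype.piFinset S → ∏ j, tent (c j + k j) = 0 := by
    intro k hk
    rw [Fintype.mem_piFinset] at hk
    push Not at hk
    obtain ⟨j, hj⟩ := hk
    exact Finset.prod_eq_zero (Finset.mem_univ j) (hS j _ hj)
  have h : HasSum (fun k : ι → ℤ ↦ ∏ j, tent (c j + k j))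
      (∑ k ∈ Fintype.piFinset S, ∏ j, tent (c j + k j)) :=
    hasSum_sum_of_ne_finset_zero hsupp
  convert h using 1
  have := Finset.prod_univ_sum S (fun j (k : ℤ) ↦ tent (c j + k))
  rw [← this]
  simp [hsum]

end Fermat.Agent.S14.H74

end
-- ===== PACK-END S14/H74/Tent.lean

-- ===== PACK-BEGIN Lib/FrobRel/H230Frob.lean
section


/-!
# Frobenius relation: from the generic point to all points (helper230)

`F` a finite field with `q` elements, `W` a Weierstrass curve over `F` with `Δ ≠ 0`.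
For a field `L` over `F`, `frobPt W L` is the `q`-power Frobenius on `(W⁄L).Point` and
`frobPsi W L a = Φ² - a Φ + q`.

Main result `frobPsi_eq_zero_of_generic`: if `frobPsi` sends the generic point of `W` over the
function field of `W⁄κ` (`κ` algebraically closed) to a constant point, then
`frobPsi W κ a T = 0` for all `T : (W⁄κ).Point`; and `frobPsi_eq_zero` transports this to all
fields `L` over `F`.
-/

open WeierstrassCurve Polynomial
open scoped Polynomial.Bivariate WeierstrassCurve.Affine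

namespace Fermat.Agent.Lib.FrobRel.H230

universe u v w

variable {F : Type u} [Field F] [Fintype F] (W : WeierstrassCurve F)

section Defs

variable (L : Type v) [Field L] [Algebra F L] [DecidableEq L]

/-- The `#F`-power Frobenius endomorphism of the group of `L`-points of `W`. -/
noncomputable def frobPt : (W⁄L).Point →+ (W⁄L).Point :=
  Affine.Point.map (W' := W) (S := F) (FiniteField.frobeniusAlgHom F L)

/-- `Φ² - a Φ + #F` on the group of `L`-points of `W`. -/
noncomputable def frobPsi (a : ℤ) : (W⁄L).Point →+ (W⁄L).Point :=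
  (frobPt W L).comp (frobPt W L) - a • frobPt W L
    + (Fintype.card F : ℤ) • AddMonoidHom.id (W⁄L).Point

lemma frobPsi_apply (a : ℤ) (P : (W⁄L).Point) :
    frobPsi W L a P = frobPt W L (frobPt W L P) - a • frobPt W L P
      + (Fintype.card F : ℤ) • P :=
  rfl

lemma frobPt_zero : frobPt W L 0 = 0 := map_zero _

lemma frobPt_some {x y : L} (h : (W⁄L).Nonsingular x y) :
    frobPt W L (Affine.Point.some x y h)
      = Affine.Point.some (x ^ Fintype.card F) (y ^ Fintype.card F)
          ((Affine.baseChange_nonsingular (W := W) (f := FiniteField.frobeniusAlgHom F L)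
            (FiniteField.frobeniusAlgHom F L).injective x y).mpr h) :=
  rfl

end Defs

section Naturality

variable {L : Type v} [Field L] [Algebra F L] [DecidableEq L]
variable {L' : Type w} [Field L'] [Algebra F L'] [DecidableEq L']

/-- Frobenius commutes with `Point.map`. -/
lemma frobPt_map (g : L →ₐ[F] L') (P : (W⁄L).Point) :
    frobPt W L' (Affine.Point.map (W' := W) g P) = Affine.Point.map (W' := W) g (frobPt W L P) := by
  rw [frobPt, frobPt, Affine.Point.map_map, Affine.Point.map_map]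
  have hcomp : (FiniteField.frobeniusAlgHom F L').comp g
      = g.comp (FiniteField.frobeniusAlgHom F L) := by
    ext x
    simp [FiniteField.coe_frobeniusAlgHom]
  rw [hcomp]

/-- `Φ² - a Φ + q` commutes with `Point.map`. -/
lemma frobPsi_map (a : ℤ) (g : L →ₐ[F] L') (P : (W⁄L).Point) :
    frobPsi W L' a (Affine.Point.map (W' := W) g P)
      = Affine.Point.map (W' := W) g (frobPsi W L a P) := by
  simp only [frobPsi_apply, frobPt_map, map_add, map_sub, map_zsmul]

end Naturality

/-- `Point.map` only depends on the underlying function of the algebra homomorphism. -/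
lemma map_congr_fun {R : Type*} {S S' : Type*} {L L' : Type*} [CommRing R] [CommRing S]
    [CommRing S'] [Field L] [Field L'] {W' : WeierstrassCurve.Affine R} [DecidableEq L]
    [DecidableEq L'] [Algebra R S] [Algebra R L] [Algebra S L] [IsScalarTower R S L]
    [Algebra R L'] [Algebra S L'] [IsScalarTower R S L'] [Algebra R S'] [Algebra S' L]
    [IsScalarTower R S' L] [Algebra S' L'] [IsScalarTower R S' L']
    (f : L →ₐ[S] L') (f' : L →ₐ[S'] L') (hf : ∀ x, f x = f' x) (P : (W'⁄L).Point) :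
    Affine.Point.map (W' := W') f P = Affine.Point.map (W' := W') f' P := by
  rcases P with _ | ⟨x, y, h⟩
  · rfl
  · simp only [Affine.Point.map_some, hf]

omit [Fintype F] in
lemma baseChange_Δ_ne_zero' (hΔ : W.Δ ≠ 0) (L : Type v) [Field L] [Algebra F L] :
    (W⁄L).Δ ≠ 0 := by
  show (WeierstrassCurve.map W (algebraMap F L)).Δ ≠ 0
  rw [WeierstrassCurve.map_Δ]
  exact (map_ne_zero_iff _ (algebraMap F L).injective).mpr hΔ

section Main

variable (κ : Type v) [Field κ] [Algebra F κ] [IsAlgClosed κ] [DecidableEq κ]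
  [DecidableEq (FF W κ)]

/-- **Frobenius relation, generic to all points.** If `Φ² - a Φ + q` sends the generic point of
`W` over the function field of `W⁄κ` to a constant point, then it vanishes on all `κ`-points. -/
theorem frobPsi_eq_zero_of_generic (hΔ : (W⁄κ).Δ ≠ 0) (a : ℤ) (C : (W⁄κ).Point)
    (hC : frobPsi W (FF W κ) a (genericPoint W κ hΔ) = bc W κ C) (T : (W⁄κ).Point) :
    frobPsi W κ a T = 0 := by
  refine eq_zero_of_generic_const W κ hΔ (frobPsi W (FF W κ) a) (frobPsi W κ a) ?_ ?_ C hC T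
  · intro σ P
    rw [map_congr_fun σ (σ.restrictScalars F) (fun _ => rfl), frobPsi_map,
      map_congr_fun σ (σ.restrictScalars F) (fun _ => rfl)]
  · intro T
    show frobPsi W (FF W κ) a (Affine.Point.map (W' := W) (Algebra.ofId κ (FF W κ)) T)
      = Affine.Point.map (W' := W) (Algebra.ofId κ (FF W κ)) (frobPsi W κ a T)
    rw [map_congr_fun (Algebra.ofId κ (FF W κ)) ((Algebra.ofId κ (FF W κ)).restrictScalars F)
      (fun _ => rfl), frobPsi_map,
      map_congr_fun (Algebra.ofId κ (FF W κ)) ((Algebra.ofId κ (FF W κ)).restrictScalars F)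
      (fun _ => rfl)]

end Main

section Final

/-- A point is *constant* if it is zero or has `x`-coordinate algebraic over `F`. -/
def IsConstPt {K : Type v} [Field K] [Algebra F K] (P : (W⁄K).Point) : Prop :=
  P = 0 ∨ ∃ (x y : K) (h : (W⁄K).Nonsingular x y), P = Affine.Point.some x y h ∧ IsAlgebraic F x

omit [Fintype F] in
lemma isConstPt_baseChange {K : Type v} [Field K] [Algebra F K] [DecidableEq F] [DecidableEq K]
    (C : (W⁄F).Point) : IsConstPt W (Affine.Point.baseChange (W' := W) F K C) := by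
  rcases C with _ | ⟨c, d, hcd⟩
  · exact Or.inl rfl
  · exact Or.inr ⟨_, _, _, rfl, isAlgebraic_algebraMap c⟩

omit [Fintype F] in
/-- Constancy is reflected and preserved by `Point.map`. -/
lemma isConstPt_map_iff {K : Type v} [Field K] [Algebra F K] [DecidableEq K]
    {K' : Type w} [Field K'] [Algebra F K'] [DecidableEq K'] (g : K →ₐ[F] K')
    (P : (W⁄K).Point) : IsConstPt W (Affine.Point.map (W' := W) g P) ↔ IsConstPt W P := by
  rcases P with _ | ⟨x, y, h⟩
  · exact ⟨fun _ => Or.inl rfl, fun _ => Or.inl rfl⟩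
  · rw [Affine.Point.map_some]
    constructor
    · rintro (h0 | ⟨x₁, y₁, h₁, he, halg⟩)
      · exact absurd h0 (Affine.Point.some_ne_zero _)
      · have hx : g x = x₁ := ((Affine.Point.some.injEq ..).mp he).1
        refine Or.inr ⟨x, y, h, rfl, ?_⟩
        rw [← hx] at halg
        exact (isAlgebraic_algHom_iff g g.injective).mp halg
    · rintro (h0 | ⟨x₁, y₁, h₁, he, halg⟩)
      · exact absurd h0 (Affine.Point.some_ne_zero _)
      · have hx : x = x₁ := ((Affine.Point.some.injEq ..).mp he).1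
        refine Or.inr ⟨g x, g y, _, rfl, ?_⟩
        rw [← hx] at halg
        exact halg.algHom g

/-- **Frobenius relation from one generic point.** Let `F` be a finite field with `q` elements,
`W` a Weierstrass curve over `F` with `Δ ≠ 0`, `K` a field over `F` and `P = (x, y)` a point of
`W` over `K` with `x` transcendental over `F`. If `(Φ² - a Φ + q) P` is a constant point
(zero, or with `x`-coordinate algebraic over `F`), then `Φ² - a Φ + q = 0` on `(W⁄L).Point` for
every field `L` over `F`. -/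
theorem frobPsi_eq_zero (hΔ : W.Δ ≠ 0) {K : Type v} [Field K] [Algebra F K] [DecidableEq K]
    {x y : K} (h : (W⁄K).Nonsingular x y) (hx : Transcendental F x) (a : ℤ)
    (hC : IsConstPt W (frobPsi W K a (Affine.Point.some x y h)))
    {L : Type w} [Field L] [Algebra F L] [DecidableEq L] (T : (W⁄L).Point) :
    frobPsi W L a T = 0 := by
  classical
  -- the generic point over the function field of `W⁄F`
  have hΔF : (W⁄F).Δ ≠ 0 := baseChange_Δ_ne_zero' W hΔ F
  have hG : IsConstPt W (frobPsi W (FF W F) a (genericPoint W F hΔF)) := by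
    rw [← isConstPt_map_iff W (sigma F h.1 hx), ← frobPsi_map, map_sigma_genericPoint F hΔF h hx]
    exact hC
  -- the generic point over the function field of `W⁄κ`, `κ` an algebraic closure of `L`
  have hΔκ : (W⁄(AlgebraicClosure L)).Δ ≠ 0 := baseChange_Δ_ne_zero' W hΔ (AlgebraicClosure L)
  have hxκ : Transcendental F (gx W (AlgebraicClosure L)) :=
    (gx_transcendental W (AlgebraicClosure L)).restrictScalars
      (algebraMap F (AlgebraicClosure L)).injective
  have hGκ : IsConstPt W (frobPsi W (FF W (AlgebraicClosure L)) a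
      (genericPoint W (AlgebraicClosure L) hΔκ)) := by
    have hj : Affine.Point.map (W' := W)
        (sigma F (generic_nonsingular W (AlgebraicClosure L) hΔκ).1 hxκ) (genericPoint W F hΔF)
        = genericPoint W (AlgebraicClosure L) hΔκ :=
      map_sigma_genericPoint F hΔF (generic_nonsingular W (AlgebraicClosure L) hΔκ) hxκ
    rw [← hj, frobPsi_map, isConstPt_map_iff]
    exact hG
  obtain ⟨C, hCκ⟩ : ∃ C : (W⁄(AlgebraicClosure L)).Point,
      frobPsi W (FF W (AlgebraicClosure L)) a (genericPoint W (AlgebraicClosure L) hΔκ)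
        = bc W (AlgebraicClosure L) C := by
    rcases hGκ with h0 | ⟨x₁, y₁, h₁, he, halg⟩
    · exact ⟨0, h0.trans (map_zero _).symm⟩
    · have halg' : IsAlgebraic (AlgebraicClosure L) x₁ := halg.extendScalars
        (algebraMap F (AlgebraicClosure L)).injective
      obtain ⟨c, hc⟩ := mem_range_of_isAlgebraic (AlgebraicClosure L) halg'
      obtain ⟨C, hC'⟩ := exists_of_x_const W (AlgebraicClosure L) h₁ c hc
      exact ⟨C, he.trans hC'⟩
  have hκ := frobPsi_eq_zero_of_generic W (AlgebraicClosure L) hΔκ a C hCκ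
  -- descend to `L`
  have hL := hκ (Affine.Point.map (W' := W) (IsScalarTower.toAlgHom F L (AlgebraicClosure L)) T)
  rw [frobPsi_map] at hL
  exact Affine.Point.map_injective (W' := W) (IsScalarTower.toAlgHom F L (AlgebraicClosure L))
    (hL.trans (map_zero _).symm)

/-- Variant of `frobPsi_eq_zero` with the constant point given as an `F`-point. -/
theorem frobPsi_eq_zero' (hΔ : W.Δ ≠ 0) [DecidableEq F] {K : Type v} [Field K] [Algebra F K]
    [DecidableEq K] {x y : K} (h : (W⁄K).Nonsingular x y) (hx : Transcendental F x) (a : ℤ)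
    (C : (W⁄F).Point)
    (hC : frobPsi W K a (Affine.Point.some x y h) = Affine.Point.baseChange (W' := W) F K C)
    {L : Type w} [Field L] [Algebra F L] [DecidableEq L] (T : (W⁄L).Point) :
    frobPsi W L a T = 0 :=
  frobPsi_eq_zero W hΔ h hx a (hC ▸ isConstPt_baseChange W C) T

end Final

end Fermat.Agent.Lib.FrobRel.H230

end
-- ===== PACK-END Lib/FrobRel/H230Frob.lean

-- ===== PACK-BEGIN S52/H311/Gauss.lean
section


/-!
# Gauss lemma for products of two linear forms, and uniqueness of primitive representatives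
(S52, A2a core, continued)
-/

set_option autoImplicit false

namespace Fermat.Agent.S52.H311

open Polynomial

variable {F : Type*} [Field F]

/-- the coefficient triple of `(a₁ T + b₁)(a₂ T + b₂)` -/
noncomputable def prodTriple (a₁ b₁ a₂ b₂ : F[X]) : Fin 3 → F[X] :=
  ![a₁ * a₂, a₁ * b₂ + b₁ * a₂, b₁ * b₂]

/-- degree of a pair -/
noncomputable def pairDeg (a b : F[X]) : ℕ := max a.natDegree b.natDegree

theorem isPrim_prodTriple {a₁ b₁ a₂ b₂ : F[X]} (h₁ : IsCoprime a₁ b₁) (h₂ : IsCoprime a₂ b₂) :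
    IsPrim (prodTriple a₁ b₁ a₂ b₂) := by
  unfold IsPrim
  set I := Ideal.span (Set.range (prodTriple a₁ b₁ a₂ b₂)) with hI
  have m0 : a₁ * a₂ ∈ I := Ideal.subset_span ⟨0, rfl⟩
  have m1 : a₁ * b₂ + b₁ * a₂ ∈ I := Ideal.subset_span ⟨1, rfl⟩
  have m2 : b₁ * b₂ ∈ I := Ideal.subset_span ⟨2, rfl⟩
  have r0 : a₁ * a₂ ∈ I.radical := Ideal.le_radical m0
  have r2 : b₁ * b₂ ∈ I.radical := Ideal.le_radical m2
  have r1 : a₁ * b₂ ∈ I.radical := by
    refine ⟨2, ?_⟩
    have : (a₁ * b₂) ^ 2 = (a₁ * b₂) * (a₁ * b₂ + b₁ * a₂) - (a₁ * a₂) * (b₁ * b₂) := by ring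
    rw [this]
    exact I.sub_mem (I.mul_mem_left _ m1) (I.mul_mem_right _ m0)
  have r1' : b₁ * a₂ ∈ I.radical := by
    refine ⟨2, ?_⟩
    have : (b₁ * a₂) ^ 2 = (b₁ * a₂) * (a₁ * b₂ + b₁ * a₂) - (a₁ * a₂) * (b₁ * b₂) := by ring
    rw [this]
    exact I.sub_mem (I.mul_mem_left _ m1) (I.mul_mem_right _ m0)
  obtain ⟨u₂, v₂, e₂⟩ := h₂
  obtain ⟨u₁, v₁, e₁⟩ := h₁
  have ra : a₁ ∈ I.radical := by
    have : a₁ = u₂ * (a₁ * a₂) + v₂ * (a₁ * b₂) := by linear_combination -a₁ * e₂
    rw [this]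
    exact I.radical.add_mem (I.radical.mul_mem_left _ r0) (I.radical.mul_mem_left _ r1)
  have rb : b₁ ∈ I.radical := by
    have : b₁ = u₂ * (b₁ * a₂) + v₂ * (b₁ * b₂) := by linear_combination -b₁ * e₂
    rw [this]
    exact I.radical.add_mem (I.radical.mul_mem_left _ r1') (I.radical.mul_mem_left _ r2)
  have r1 : (1 : F[X]) ∈ I.radical := by
    rw [← e₁]
    exact I.radical.add_mem (I.radical.mul_mem_left _ ra) (I.radical.mul_mem_left _ rb)
  rw [← Ideal.radical_eq_top]
  exact (Ideal.eq_top_iff_one _).mpr r1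

lemma coeff_pairDeg_ne_zero {a b : F[X]} (h : IsCoprime a b) :
    a.coeff (pairDeg a b) ≠ 0 ∨ b.coeff (pairDeg a b) ≠ 0 := by
  by_contra hcon
  push Not at hcon
  obtain ⟨ha, hb⟩ := hcon
  have hne : ¬ (a = 0 ∧ b = 0) := by
    rintro ⟨rfl, rfl⟩
    exact not_isCoprime_zero_zero h
  unfold pairDeg at ha hb
  rcases max_cases a.natDegree b.natDegree with ⟨hm, hle⟩ | ⟨hm, hlt⟩
  · rw [hm] at ha hb
    have a0 : a = 0 := leadingCoeff_eq_zero.mp ha
    rw [a0, natDegree_zero] at hle
    have b0 : b = 0 := by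
      rw [eq_C_of_natDegree_le_zero hle]
      rw [a0, natDegree_zero] at hb
      simp [hb]
    exact hne ⟨a0, b0⟩
  · rw [hm] at ha hb
    have b0 : b = 0 := leadingCoeff_eq_zero.mp hb
    rw [b0, natDegree_zero] at hlt
    exact absurd hlt (Nat.not_lt_zero _)

theorem maxDeg_prodTriple {a₁ b₁ a₂ b₂ : F[X]} (h₁ : IsCoprime a₁ b₁) (h₂ : IsCoprime a₂ b₂) :
    maxDeg (prodTriple a₁ b₁ a₂ b₂) = pairDeg a₁ b₁ + pairDeg a₂ b₂ := by
  set d₁ := pairDeg a₁ b₁ with hd₁
  set d₂ := pairDeg a₂ b₂ with hd₂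
  have ha₁ : a₁.natDegree ≤ d₁ := le_max_left _ _
  have hb₁ : b₁.natDegree ≤ d₁ := le_max_right _ _
  have ha₂ : a₂.natDegree ≤ d₂ := le_max_left _ _
  have hb₂ : b₂.natDegree ≤ d₂ := le_max_right _ _
  refine le_antisymm (maxDeg_le fun i => ?_) ?_
  · fin_cases i
    · exact natDegree_mul_le.trans (Nat.add_le_add ha₁ ha₂)
    · refine (natDegree_add_le _ _).trans (max_le ?_ ?_)
      · exact natDegree_mul_le.trans (Nat.add_le_add ha₁ hb₂)
      · exact natDegree_mul_le.trans (Nat.add_le_add hb₁ ha₂)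
    · exact natDegree_mul_le.trans (Nat.add_le_add hb₁ hb₂)
  · have c0 : (a₁ * a₂).coeff (d₁ + d₂) = a₁.coeff d₁ * a₂.coeff d₂ :=
      coeff_mul_add_eq_of_natDegree_le ha₁ ha₂
    have c2 : (b₁ * b₂).coeff (d₁ + d₂) = b₁.coeff d₁ * b₂.coeff d₂ :=
      coeff_mul_add_eq_of_natDegree_le hb₁ hb₂
    have c1 : (a₁ * b₂ + b₁ * a₂).coeff (d₁ + d₂) =
        a₁.coeff d₁ * b₂.coeff d₂ + b₁.coeff d₁ * a₂.coeff d₂ := by
      rw [coeff_add, coeff_mul_add_eq_of_natDegree_le ha₁ hb₂, coeff_mul_add_eq_of_natDegree_le hb₁ ha₂]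
    have key : ∃ i, (prodTriple a₁ b₁ a₂ b₂ i).coeff (d₁ + d₂) ≠ 0 := by
      by_contra hcon
      push Not at hcon
      have e0 := hcon 0
      have e1 := hcon 1
      have e2 := hcon 2
      simp only [prodTriple, Matrix.cons_val_zero, Matrix.cons_val_one, Matrix.cons_val] at e0 e1 e2
      rw [c0] at e0
      rw [c1] at e1
      rw [c2] at e2
      rcases coeff_pairDeg_ne_zero h₁ with hα₁ | hβ₁
      · have hα₂ : a₂.coeff d₂ = 0 := by
          rcases mul_eq_zero.mp e0 with h | h
          · exact absurd h hα₁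
          · exact h
        have hβ₂ : b₂.coeff d₂ ≠ 0 := by
          rcases coeff_pairDeg_ne_zero h₂ with h | h
          · exact absurd hα₂ h
          · exact h
        rw [hα₂, mul_zero, add_zero] at e1
        rcases mul_eq_zero.mp e1 with h | h
        · exact hα₁ h
        · exact hβ₂ h
      · have hβ₂ : b₂.coeff d₂ = 0 := by
          rcases mul_eq_zero.mp e2 with h | h
          · exact absurd h hβ₁
          · exact h
        have hα₂ : a₂.coeff d₂ ≠ 0 := by
          rcases coeff_pairDeg_ne_zero h₂ with h | h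
          · exact h
          · exact absurd hβ₂ h
        rw [hβ₂, mul_zero, zero_add] at e1
        rcases mul_eq_zero.mp e1 with h | h
        · exact hβ₁ h
        · exact hα₂ h
    obtain ⟨i, hi⟩ := key
    exact (le_natDegree_of_ne_zero hi).trans (natDegree_le_maxDeg _ i)

/-- two primitive triples which are projectively equal have the same `maxDeg` -/
theorem maxDeg_eq_of_proportional {p p' : Fin 3 → F[X]} (hp : IsPrim p) (hp' : IsPrim p')
    (h : ∀ i j, p i * p' j = p j * p' i) : maxDeg p = maxDeg p' := by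
  have one_mem : (1 : F[X]) ∈ Ideal.span (Set.range p) := by rw [hp]; trivial
  have one_mem' : (1 : F[X]) ∈ Ideal.span (Set.range p') := by rw [hp']; trivial
  obtain ⟨r, hr⟩ := (Ideal.mem_span_range_iff_exists_fun).mp one_mem
  obtain ⟨r', hr'⟩ := (Ideal.mem_span_range_iff_exists_fun).mp one_mem'
  -- `p j = u * p' j`, `p' j = u' * p j`
  set u := ∑ i, r' i * p i with hu
  set u' := ∑ i, r i * p' i with hu'
  have e1 : ∀ j, p j = u * p' j := fun j => by
    calc p j = p j * ∑ i, r' i * p' i := by rw [hr', mul_one]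
      _ = ∑ i, r' i * (p j * p' i) := by
          rw [Finset.mul_sum]; exact Finset.sum_congr rfl fun i _ => by ring
      _ = ∑ i, r' i * (p i * p' j) := Finset.sum_congr rfl fun i _ => by rw [h i j]
      _ = u * p' j := by
          rw [hu, Finset.sum_mul]; exact Finset.sum_congr rfl fun i _ => by ring
  have e2 : ∀ j, p' j = u' * p j := fun j => by
    calc p' j = p' j * ∑ i, r i * p i := by rw [hr, mul_one]
      _ = ∑ i, r i * (p i * p' j) := by
          rw [Finset.mul_sum]; exact Finset.sum_congr rfl fun i _ => by ring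
      _ = ∑ i, r i * (p j * p' i) := Finset.sum_congr rfl fun i _ => by rw [h i j]
      _ = u' * p j := by
          rw [hu', Finset.sum_mul]; exact Finset.sum_congr rfl fun i _ => by ring
  refine le_antisymm (maxDeg_le fun j => ?_) (maxDeg_le fun j => ?_)
  · by_cases hj : p j = 0
    · simp [hj]
    · have hne : p' j ≠ 0 := fun h0 => hj (by rw [e1 j, h0, mul_zero])
      have hdeg : (p' j).natDegree = (u' * p j).natDegree := by rw [← e2 j]
      have hu0 : u' ≠ 0 := fun h0 => hne (by rw [e2 j, h0, zero_mul])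
      rw [natDegree_mul hu0 hj] at hdeg
      exact (by omega : (p j).natDegree ≤ (p' j).natDegree).trans (natDegree_le_maxDeg _ j)
  · by_cases hj : p' j = 0
    · simp [hj]
    · have hne : p j ≠ 0 := fun h0 => hj (by rw [e2 j, h0, mul_zero])
      have hdeg : (p j).natDegree = (u * p' j).natDegree := by rw [← e1 j]
      have hu0 : u ≠ 0 := fun h0 => hne (by rw [e1 j, h0, zero_mul])
      rw [natDegree_mul hu0 hj] at hdeg
      exact (by omega : (p' j).natDegree ≤ (p j).natDegree).trans (natDegree_le_maxDeg _ j)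

end Fermat.Agent.S52.H311

end
-- ===== PACK-END S52/H311/Gauss.lean

-- ===== PACK-BEGIN S05/AssembleB.lean
section
/-
S05 final assembly, part B (helper665): the slope lemma.
Two integral points `P = (x, y)`, `P' = (x', y')` with
`v (x' - x) < v η` and `v (η' - η) < v η` (`η = 2y + a₁x + a₃`) differ by a point of `E₁`.
-/


set_option autoImplicit false

namespace Fermat.Agent.S05.Assemble

open WeierstrassCurve WeierstrassCurve.Affine
open Fermat.Agent.S05.SameRed

set_option linter.unusedSectionVars false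
set_option linter.unusedVariables false

variable {K : Type*} [Field K] [DecidableEq K]
  {Γ₀ : Type*} [LinearOrderedCommGroupWithZero Γ₀]
variable {W : Affine K} {v : Valuation K Γ₀}

/-- **(B)** the slope lemma. -/
theorem inKer_sub_of_eta (hW : IntegralCoeffs W v) (h2 : v (2 : K) = 1) {x y x' y' : K}
    (h : W.Nonsingular x y) (h' : W.Nonsingular x' y') (hx : v x ≤ 1) (hx' : v x' ≤ 1)
    (hxx : v (x' - x) < v (2 * y + W.a₁ * x + W.a₃))
    (hηη : v ((2 * y' + W.a₁ * x' + W.a₃) - (2 * y + W.a₁ * x + W.a₃)) <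
      v (2 * y + W.a₁ * x + W.a₃)) :
    InKer W v (Point.some x' y' h' - Point.some x y h) := by
  rw [sub_eq_add_neg, Point.neg_some]
  set η : K := 2 * y + W.a₁ * x + W.a₃ with hη
  set η' : K := 2 * y' + W.a₁ * x' + W.a₃ with hη'
  have hnegY : W.negY x y = -y - W.a₁ * x - W.a₃ := rfl
  have hη0 : η ≠ 0 := by
    intro h0
    rw [h0, map_zero] at hxx
    exact not_lt_zero hxx
  have hvη : 0 < v η := (Valuation.pos_iff v).mpr hη0
  have hv2η : v (2 * η) = v η := by rw [map_mul, h2, one_mul]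
  by_cases hxe : x' = x
  · subst hxe
    rcases Affine.Y_eq_of_X_eq h'.1 h.1 rfl with hyy | hyy
    · subst hyy
      rw [Point.add_of_Y_eq rfl (by rw [Affine.negY_negY])]
      exact inKer_zero
    · exfalso
      have : η' - η = -(2 * η) := by
        simp only [hη, hη', hyy, hnegY]; ring
      rw [this, Valuation.map_neg, hv2η] at hηη
      exact lt_irrefl _ hηη
  · rw [Point.add_of_X_ne hxe, inKer_some]
    apply one_lt_val_addX hW hx' hx
    rw [Affine.slope_of_X_ne hxe]
    have hd0 : x' - x ≠ 0 := sub_ne_zero.mpr hxe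
    have hnum : y' - W.negY x y = ((2 * η + (η' - η)) + -(W.a₁ * (x' - x))) / 2 := by
      have h20 : (2 : K) ≠ 0 := by
        intro h0; rw [h0, map_zero] at h2; exact zero_ne_one h2
      rw [hnegY]; simp only [hη, hη']; field_simp; ring
    have hv1 : v (2 * η + (η' - η)) = v η := by
      rw [v.map_add_eq_of_lt_left (by rw [hv2η]; exact hηη), hv2η]
    have hv2 : v (W.a₁ * (x' - x)) < v η := by
      rw [map_mul]
      exact (mul_le_of_le_one_left' hW.a₁).trans_lt hxx
    have hv3 : v ((2 * η + (η' - η)) + -(W.a₁ * (x' - x))) = v η := by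
      rw [v.map_add_eq_of_lt_left (by rw [Valuation.map_neg, hv1]; exact hv2), hv1]
    rw [hnum, map_div₀, map_div₀, hv3, h2, div_one,
      one_lt_div₀ ((Valuation.pos_iff v).mpr hd0)]
    exact hxx

end Fermat.Agent.S05.Assemble

end
-- ===== PACK-END S05/AssembleB.lean

-- ===== PACK-BEGIN Ribet/H109/LineLin.lean
section


/-!
# Row 38, WALL-p, leaf ELOC-ord / LINE — linear algebra core (helper109), Mathlib-only

`V` a vector space of dimension `2` over a field `k`.

* `exists_generator_of_ne_top` : a proper subspace is spanned by one vector;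
* `apply_eq_det_smul_of_sub_mem` : if `L` is a proper subspace spanned by `t` and `f x - x ∈ L`
  for all `x`, then `f t = det f • t`.
-/

set_option autoImplicit false

namespace Fermat.Agent.Ribet.H109

section LinAlg

variable {k V : Type*} [Field k] [AddCommGroup V] [Module k V] [Module.Finite k V]

/-- A proper subspace of a two-dimensional space is spanned by one vector. -/
theorem exists_generator_of_ne_top (h2 : Module.finrank k V = 2) (L : Submodule k V)
    (hL : L ≠ ⊤) : ∃ t ∈ L, ∀ x ∈ L, ∃ c : k, x = c • t := by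
  have hlt : Module.finrank k L < 2 := by
    rw [← h2]
    exact Submodule.finrank_lt hL
  rcases Nat.lt_or_ge (Module.finrank k L) 1 with h0 | h1
  · have hbot : L = ⊥ := by
      apply Submodule.finrank_eq_zero.mp
      omega
    refine ⟨0, L.zero_mem, fun x hx => ⟨0, ?_⟩⟩
    rw [hbot] at hx
    rw [(Submodule.mem_bot k).mp hx, smul_zero]
  · have h1' : Module.finrank k L = 1 := by omega
    obtain ⟨v, -, hv⟩ := finrank_eq_one_iff'.mp h1'
    refine ⟨v, v.2, fun x hx => ?_⟩
    obtain ⟨c, hc⟩ := hv ⟨x, hx⟩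
    refine ⟨c, ?_⟩
    have := congrArg (fun w : L => (w : V)) hc
    exact this.symm

/-- If `f - 1` maps a two-dimensional space into a proper subspace spanned by `t`, then
`f t = det f • t`. -/
theorem apply_eq_det_smul_of_sub_mem (h2 : Module.finrank k V = 2) (f : Module.End k V)
    (L : Submodule k V) (hL : L ≠ ⊤) (t : V)
    (hgen : ∀ x ∈ L, ∃ c : k, x = c • t) (hf : ∀ x, f x - x ∈ L) :
    f t = LinearMap.det f • t := by
  by_cases ht0 : t = 0
  · rw [ht0, map_zero, smul_zero]
  -- `f t = a • t`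
  obtain ⟨c, hc⟩ := hgen _ (hf t)
  have hft : f t = (c + 1) • t := by
    rw [add_smul, one_smul, ← hc]; abel
  set a : k := c + 1 with ha
  by_cases hsc : ∃ s : k, ∀ x, f x = s • x
  · -- scalar case: `f = 1`
    obtain ⟨s, hs⟩ := hsc
    have hs1 : s = 1 := by
      by_contra hne
      apply hL
      rw [eq_top_iff]
      intro y _
      have hy := hf y
      rw [hs y] at hy
      have h2' : s • y - y = (s - 1) • y := by rw [sub_smul, one_smul]
      rw [h2'] at hy
      have h3 : y = (s - 1)⁻¹ • ((s - 1) • y) := by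
        rw [smul_smul, inv_mul_cancel₀ (sub_ne_zero.2 hne), one_smul]
      rw [h3]
      exact L.smul_mem _ hy
    have hfid : f = LinearMap.id := by
      ext x
      rw [hs x, hs1, one_smul]
      rfl
    rw [hfid, LinearMap.det_id, one_smul]
    rfl
  · -- non-scalar case: Cayley–Hamilton
    have hrel : ∀ x, f (f x) - (a + 1) • f x + a • x = 0 := by
      intro x
      obtain ⟨cx, hcx⟩ := hgen _ (hf x)
      have hfx : f x = x + cx • t := by rw [← hcx]; abel
      have hffx : f (f x) = f x + (cx * a) • t := by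
        conv_lhs => rw [hfx]
        rw [map_add, map_smul, hft, smul_smul]
      rw [hffx]
      have e : f x + (cx * a) • t - (a + 1) • f x + a • x = (cx * a) • t - a • (f x - x) := by
        rw [add_smul, one_smul, smul_sub]; abel
      rw [e, hcx, smul_smul, mul_comm a cx, sub_self]
    have hdet := Fermat.Agent.Ribet.H403.det_eq_of_quadratic_of_not_scalar h2 f (a + 1) a hrel hsc
    rw [hdet, hft]

end LinAlg

end Fermat.Agent.Ribet.H109

end
-- ===== PACK-END Ribet/H109/LineLin.lean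

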