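import Mathlib.AlgebraicGeometry.EllipticCurve.Affine.AddSubMap
import Mathlib.Tactic
import Mathlib.FieldTheory.PrimitiveElement
import Mathlib.FieldTheory.IsAlgClosed.AlgebraicClosure
import Mathlib.RingTheory.Norm.Transitivity
import Mathlib.Algebra.Polynomial.Lifts
import Mathlib
import Fermat.Prelude.Def_ModularCurve_X0ModL
import Fermat.Prelude.Def_ModularForm_HeckeOperator
import Mathlib.RingTheory.Finiteness.Basic
import Mathlib.LinearAlgebra.Quotient.Basic
import Fermat.Agent.Pack.S44.G0E0L2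
import Fermat.Agent.Pack.S44.G0E1L3
import Fermat.Agent.Pack.S44.G0E1L2
import Fermat.Agent.Pack.S44.G0E1L1
import Fermat.Agent.Pack.S44.G0E0L3
import Fermat.Agent.Pack.S44.G0E2L0
import Fermat.Agent.Pack.S44.G0E2L2
import Fermat.Agent.Pack.S44.G0E2L3
import Fermat.Agent.Pack.S44.G0E2L1

-- ===== PACK-BEGIN S52/H309/AddSubValid.lean
section




/-!
# S52, piece (A2a-point): validity of Mathlib's `addSubMap` on points

For nonsingular points `P`, `Q` of a Weierstrass curve over a field, the vector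
`addSubMap W (P.sym2x Q)` is a nonzero multiple of `(P + Q).sym2x (P - Q)`, i.e.
`(x(P)x(Q) : x(P)+x(Q) : 1) ↦ (x(P+Q)x(P-Q) : x(P+Q)+x(P-Q) : 1)` (all degenerate cases
included).  This is the TODO of `Mathlib.AlgebraicGeometry.EllipticCurve.Affine.AddSubMap`.
-/

set_option autoImplicit false
set_option linter.unusedSectionVars false

namespace Fermat.Agent.S52.H309

open WeierstrassCurve WeierstrassCurve.Affine MvPolynomial
open Fermat.Agent.S05

section Eval

variable {R : Type*} [CommRing R] (W : WeierstrassCurve R)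

lemma eval_addSubMap_zero (v : Fin 3 → R) :
    (addSubMap W 0).eval v =
      v 0 ^ 2 - W.b₄ * v 0 * v 2 - W.b₆ * v 1 * v 2 - W.b₈ * v 2 ^ 2 := by
  simp [addSubMap]

lemma eval_addSubMap_one (v : Fin 3 → R) :
    (addSubMap W 1).eval v =
      2 * v 1 * v 0 + W.b₂ * v 0 * v 2 + W.b₄ * v 1 * v 2 + W.b₆ * v 2 ^ 2 := by
  simp [addSubMap]

lemma eval_addSubMap_two (v : Fin 3 → R) :
    (addSubMap W 2).eval v = v 1 ^ 2 - 4 * v 0 * v 2 := by
  simp [addSubMap]

/-- The vector of values of `addSubMap`. -/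
noncomputable def addSubVec (v : Fin 3 → R) : Fin 3 → R := fun i => (addSubMap W i).eval v

lemma addSubVec_eq (v : Fin 3 → R) :
    addSubVec W v =
      ![v 0 ^ 2 - W.b₄ * v 0 * v 2 - W.b₆ * v 1 * v 2 - W.b₈ * v 2 ^ 2,
        2 * v 1 * v 0 + W.b₂ * v 0 * v 2 + W.b₄ * v 1 * v 2 + W.b₆ * v 2 ^ 2,
        v 1 ^ 2 - 4 * v 0 * v 2] := by
  funext i
  fin_cases i
  · exact eval_addSubMap_zero W v
  · exact eval_addSubMap_one W v
  · exact eval_addSubMap_two W v

end Eval

variable {F : Type*} [Field F] [DecidableEq F] {W : Affine F}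

/-- At a nonsingular point with `y = negY x y` (a 2-torsion point), the numerator of the
duplication formula is the square of the nonzero partial derivative. -/
lemma dblNum_eq_sq_of_Y_eq {x y : F} (h : W.Equation x y) (hy : y = W.negY x y) :
    XId.dblNum W x = (W.a₁ * y - (3 * x ^ 2 + 2 * W.a₂ * x + W.a₄)) ^ 2 := by
  have hη : 2 * y + W.a₁ * x + W.a₃ = 0 := by
    have : y - W.negY x y = 0 := sub_eq_zero.mpr hy
    simp only [negY] at this
    linear_combination this
  rw [Affine.equation_iff] at h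
  simp only [XId.dblNum, WeierstrassCurve.b₄, WeierstrassCurve.b₆, WeierstrassCurve.b₈]
  linear_combination (8 * x + W.a₁ ^ 2 + 4 * W.a₂) * h -
    (W.a₁ * (W.a₁ * y - (3 * x ^ 2 + 2 * W.a₂ * x + W.a₄)) +
      (W.a₂ + 2 * x) * (2 * y + W.a₁ * x + W.a₃)) * hη

lemma dblNum_ne_zero_of_Y_eq {x y : F} (h : W.Nonsingular x y) (hy : y = W.negY x y) :
    XId.dblNum W x ≠ 0 := by
  rw [dblNum_eq_sq_of_Y_eq h.1 hy]
  apply pow_ne_zero
  have hη : 2 * y + W.a₁ * x + W.a₃ = 0 := by
    have : y - W.negY x y = 0 := sub_eq_zero.mpr hy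
    simp only [negY] at this
    linear_combination this
  rcases (Affine.nonsingular_iff' x y).mp h with ⟨_, h1 | h1⟩
  · exact h1
  · exact absurd hη h1

/-- The doubling case: `addSubVec (x², 2x, 1)` is a nonzero multiple of `sym2x (2P) 0`. -/
lemma addSubVec_self {x y : F} (h : W.Nonsingular x y) :
    ∃ c : F, c ≠ 0 ∧ addSubVec W ![x * x, x + x, 1] =
      c • (Point.some x y h + Point.some x y h).sym2x 0 := by
  by_cases hy : y = W.negY x y
  · refine ⟨XId.dblNum W x, dblNum_ne_zero_of_Y_eq h hy, ?_⟩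
    rw [Point.add_self_of_Y_eq hy, Point.sym2x_zero_zero, addSubVec_eq]
    have hd := XId.dblDen_eq_zero_of_Y_eq h.1 hy
    simp only [XId.dblDen] at hd
    funext i
    fin_cases i
    · simp [XId.dblNum]; ring
    · simp; linear_combination hd
    · simp; ring
  · obtain ⟨x', y', h', hadd, hdup, hden⟩ := XId.add_self_some h hy
    refine ⟨XId.dblDen W x, hden, ?_⟩
    rw [hadd, Point.sym2x_some_zero, addSubVec_eq]
    simp only [XId.dblDen, XId.dblNum] at hdup ⊢
    funext i
    fin_cases i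
    · simp; linear_combination -hdup
    · simp; ring
    · simp; ring

/-- **Validity of `addSubMap`.** For all points `P`, `Q`, the image of `P.sym2x Q` under
`addSubMap` is a nonzero multiple of `(P + Q).sym2x (P - Q)`. -/
theorem addSubVec_sym2x (P Q : W.Point) :
    ∃ c : F, c ≠ 0 ∧ addSubVec W (P.sym2x Q) = c • (P + Q).sym2x (P - Q) := by
  cases P with
  | zero =>
    cases Q with
    | zero =>
      refine ⟨1, one_ne_zero, ?_⟩
      have e : (Point.zero : W.Point) = 0 := rfl
      rw [e, add_zero, sub_zero, Point.sym2x_zero_zero, addSubVec_eq, one_smul]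
      funext i
      fin_cases i <;> simp
    | some x y h =>
      refine ⟨1, one_ne_zero, ?_⟩
      have e : (Point.zero : W.Point) = 0 := rfl
      rw [e, zero_add, zero_sub, Point.sym2x_neg_right, Point.sym2x_zero_some,
        Point.sym2x_some_some, addSubVec_eq, one_smul]
      funext i
      fin_cases i <;> simp <;> ring
  | some x₁ y₁ h₁ =>
    cases Q with
    | zero =>
      refine ⟨1, one_ne_zero, ?_⟩
      have e : (Point.zero : W.Point) = 0 := rfl
      rw [e, add_zero, sub_zero, Point.sym2x_some_zero, Point.sym2x_some_some, addSubVec_eq,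
        one_smul]
      funext i
      fin_cases i <;> simp <;> ring
    | some x₂ y₂ h₂ =>
      rw [Point.sym2x_some_some]
      by_cases hx : x₁ = x₂
      · subst hx
        rcases Affine.Y_eq_of_X_eq h₁.1 h₂.1 rfl with hy | hy
        · -- `P = Q`
          subst hy
          rw [sub_self]
          exact addSubVec_self h₁
        · -- `P = -Q`
          have hPQ : Point.some x₁ y₁ h₁ = -Point.some x₁ y₂ h₂ := by
            rw [Point.neg_some]; congr
          obtain ⟨c, hc, hcv⟩ := addSubVec_self h₁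
          refine ⟨c, hc, ?_⟩
          rw [hcv]
          have e1 : Point.some x₁ y₁ h₁ + Point.some x₁ y₂ h₂ = 0 := by
            rw [hPQ, neg_add_cancel]
          have e2 : Point.some x₁ y₁ h₁ - Point.some x₁ y₂ h₂ =
              Point.some x₁ y₁ h₁ + Point.some x₁ y₁ h₁ := by
            rw [sub_eq_add_neg, ← hPQ]
          rw [e1, e2, Point.sym2x_comm]
      · obtain ⟨x₃, y₃, x₄, y₄, h₃, h₄, hadd, hsub, hsum, hprod⟩ := XId.add_sub_some h₁ h₂ hx
        refine ⟨(x₁ - x₂) ^ 2, pow_ne_zero 2 (sub_ne_zero.mpr hx), ?_⟩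
        rw [hadd, hsub, Point.sym2x_some_some, addSubVec_eq]
        simp only [XId.sumNum, XId.prodNum] at hsum hprod
        funext i
        fin_cases i
        · simp; linear_combination -hprod
        · simp; linear_combination -hsum
        · simp; ring

end Fermat.Agent.S52.H309

end
-- ===== PACK-END S52/H309/AddSubValid.lean

-- ===== PACK-BEGIN S52/H297/Manin.lean
section


/-!
# Manin's counting lemma

Let `F` be a finite field with `q` elements, `q` odd, and `f = X³ + a₂X² + a₄X + a₆` a cubic all of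
whose `F`-rational roots are simple.  For the curve `E : y² = f(x)` and the generic point
`P₀ = (x, y)`, the `x`-coordinate of `Frob(P₀) - P₀` is the rational function

  `R = f (f^((q-1)/2) + 1)² / (X^q - X)² - a₂ - X^q - X`.

We prove that the height of `R` (max of degrees of numerator and denominator in lowest terms)
is exactly `1 + #{(x,y) ∈ F² | y² = f(x)}`, i.e. the number of points of `E` over `F`.
-/

set_option autoImplicit false
set_option linter.unusedSectionVars false

open Polynomial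

namespace Fermat.Agent.S52.H297

section Manin

variable {F : Type*} [Field F] [Fintype F] [DecidableEq F]
variable (a₂ a₄ a₆ : F)

/-- the cubic `X³ + a₂X² + a₄X + a₆` -/
noncomputable def cubic : F[X] := X ^ 3 + C a₂ * X ^ 2 + C a₄ * X + C a₆

/-- `u = f^((q-1)/2) + 1` -/
noncomputable def uPoly : F[X] := cubic a₂ a₄ a₆ ^ (Fintype.card F / 2) + 1

/-- numerator of Manin's rational function (before cancellation) -/
noncomputable def maninNum : F[X] :=
  cubic a₂ a₄ a₆ * uPoly a₂ a₄ a₆ ^ 2
    - (C a₂ + X ^ Fintype.card F + X) * (X ^ Fintype.card F - X) ^ 2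

/-- denominator of Manin's rational function (before cancellation) -/
noncomputable def maninDen : F[X] := (X ^ Fintype.card F - X) ^ 2

/-- Manin's rational function: the `x`-coordinate of `Frob P₀ - P₀`. -/
noncomputable def maninR : RatFunc F :=
  algebraMap F[X] (RatFunc F) (maninNum a₂ a₄ a₆) / algebraMap F[X] (RatFunc F) (maninDen (F := F))

/-- the `F`-rational roots of `f` -/
noncomputable def rootSet : Finset F := Finset.univ.filter fun c => (cubic a₂ a₄ a₆).eval c = 0

/-- the `c ∈ F` with `f(c)` a nonzero square -/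
noncomputable def sqSet : Finset F :=
  Finset.univ.filter fun c => (cubic a₂ a₄ a₆).eval c ^ (Fintype.card F / 2) = 1

/-- the `c ∈ F` with `f(c)` a non-square -/
noncomputable def nsSet : Finset F :=
  Finset.univ.filter fun c => (cubic a₂ a₄ a₆).eval c ^ (Fintype.card F / 2) = -1

/-- product of `X - c` over a finset -/
noncomputable def linProd (s : Finset F) : F[X] := ∏ c ∈ s, (X - C c)

lemma linProd_monic (s : Finset F) : (linProd s).Monic :=
  monic_prod_of_monic _ _ fun c _ => monic_X_sub_C c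

lemma linProd_ne_zero (s : Finset F) : linProd s ≠ 0 := (linProd_monic s).ne_zero

lemma natDegree_linProd (s : Finset F) : (linProd s).natDegree = s.card := by
  unfold linProd
  rw [natDegree_prod_of_monic _ _ fun c _ => monic_X_sub_C c]
  simp

lemma eval_linProd_eq_zero {s : Finset F} {c : F} (hc : c ∈ s) : (linProd s).eval c = 0 := by
  unfold linProd
  rw [eval_prod]
  exact Finset.prod_eq_zero hc (by simp)

lemma eval_linProd_ne_zero {s : Finset F} {c : F} (hc : c ∉ s) : (linProd s).eval c ≠ 0 := by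
  unfold linProd
  rw [eval_prod]
  refine Finset.prod_ne_zero_iff.mpr fun d hd => ?_
  simp only [eval_sub, eval_X, eval_C]
  intro h
  exact hc (by rwa [sub_eq_zero.mp h])

lemma linProd_dvd_of_forall_root {s : Finset F} {p : F[X]} (h : ∀ c ∈ s, p.eval c = 0) :
    linProd s ∣ p := by
  unfold linProd
  apply Finset.prod_dvd_of_coprime
  · intro c _ d _ hcd
    exact pairwise_coprime_X_sub_C (Function.injective_id) hcd
  · intro c hc
    exact dvd_iff_isRoot.mpr (h c hc)

lemma linProd_univ : linProd (Finset.univ : Finset F) = X ^ Fintype.card F - X := by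
  have hmonic : (X ^ Fintype.card F - X : F[X]).Monic := by
    apply monic_X_pow_sub
    rw [degree_X]
    exact_mod_cast Fintype.one_lt_card
  have hroots := FiniteField.roots_X_pow_card_sub_X F
  have hcard : Multiset.card (roots (X ^ Fintype.card F - X : F[X]))
      = (X ^ Fintype.card F - X : F[X]).natDegree := by
    rw [hroots, FiniteField.X_pow_card_sub_X_natDegree_eq F Fintype.one_lt_card]
    simp
  have := prod_multiset_X_sub_C_of_monic_of_roots_card_eq hmonic hcard
  rw [hroots] at this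
  rw [← this]
  rfl


/-! ### The partition of `F` -/

variable {a₂ a₄ a₆}

lemma card_eq_two_mul_add_one (hF : ringChar F ≠ 2) :
    Fintype.card F = 2 * (Fintype.card F / 2) + 1 := by
  have := FiniteField.odd_card_of_char_ne_two hF
  omega

lemma half_card_pos (hF : ringChar F ≠ 2) : 0 < Fintype.card F / 2 := by
  have h1 := FiniteField.odd_card_of_char_ne_two hF
  have h2 : 1 < Fintype.card F := Fintype.one_lt_card
  omega

lemma two_ne_zero_of_char (hF : ringChar F ≠ 2) : (2 : F) ≠ 0 :=
  Ring.two_ne_zero hF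

lemma one_ne_neg_one_of_char (hF : ringChar F ≠ 2) : (1 : F) ≠ -1 := by
  intro h
  apply two_ne_zero_of_char hF
  have : (1 : F) + 1 = 0 := by nth_rewrite 2 [h]; simp
  rw [← this]; norm_num

lemma mem_rootSet {c : F} : c ∈ rootSet a₂ a₄ a₆ ↔ (cubic a₂ a₄ a₆).eval c = 0 := by
  simp [rootSet]

lemma mem_sqSet {c : F} :
    c ∈ sqSet a₂ a₄ a₆ ↔ (cubic a₂ a₄ a₆).eval c ^ (Fintype.card F / 2) = 1 := by
  simp [sqSet]

lemma mem_nsSet {c : F} :
    c ∈ nsSet a₂ a₄ a₆ ↔ (cubic a₂ a₄ a₆).eval c ^ (Fintype.card F / 2) = -1 := by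
  simp [nsSet]

lemma disjoint_root_sq (hF : ringChar F ≠ 2) :
    Disjoint (rootSet a₂ a₄ a₆) (sqSet a₂ a₄ a₆) := by
  rw [Finset.disjoint_left]
  intro c h1 h2
  rw [mem_rootSet] at h1
  rw [mem_sqSet, h1, zero_pow (half_card_pos hF).ne'] at h2
  exact zero_ne_one h2

lemma disjoint_root_ns (hF : ringChar F ≠ 2) :
    Disjoint (rootSet a₂ a₄ a₆) (nsSet a₂ a₄ a₆) := by
  rw [Finset.disjoint_left]
  intro c h1 h2
  rw [mem_rootSet] at h1
  rw [mem_nsSet, h1, zero_pow (half_card_pos hF).ne'] at h2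
  have : (1 : F) = 0 := by
    have := congrArg Neg.neg h2
    simpa using this.symm
  exact one_ne_zero this

lemma disjoint_sq_ns (hF : ringChar F ≠ 2) :
    Disjoint (sqSet a₂ a₄ a₆) (nsSet a₂ a₄ a₆) := by
  rw [Finset.disjoint_left]
  intro c h1 h2
  rw [mem_sqSet] at h1
  rw [mem_nsSet, h1] at h2
  exact one_ne_neg_one_of_char hF h2

lemma union_eq_univ (hF : ringChar F ≠ 2) :
    rootSet a₂ a₄ a₆ ∪ (sqSet a₂ a₄ a₆ ∪ nsSet a₂ a₄ a₆) = Finset.univ := by
  ext c
  simp only [Finset.mem_union, Finset.mem_univ, iff_true, mem_rootSet, mem_sqSet, mem_nsSet]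
  by_cases h : (cubic a₂ a₄ a₆).eval c = 0
  · exact Or.inl h
  · exact Or.inr (FiniteField.pow_dichotomy hF h)

lemma card_partition (hF : ringChar F ≠ 2) :
    (rootSet a₂ a₄ a₆).card + (sqSet a₂ a₄ a₆).card + (nsSet a₂ a₄ a₆).card
      = Fintype.card F := by
  rw [← Finset.card_univ, ← union_eq_univ (a₂ := a₂) (a₄ := a₄) (a₆ := a₆) hF,
    Finset.card_union_of_disjoint, Finset.card_union_of_disjoint (disjoint_sq_ns hF), add_assoc]
  rw [Finset.disjoint_union_right]
  exact ⟨disjoint_root_sq hF, disjoint_root_ns hF⟩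

lemma linProd_union {s t : Finset F} (h : Disjoint s t) :
    linProd (s ∪ t) = linProd s * linProd t := by
  unfold linProd
  exact Finset.prod_union h

lemma X_pow_card_sub_X_eq (hF : ringChar F ≠ 2) :
    (X ^ Fintype.card F - X : F[X]) =
      linProd (rootSet a₂ a₄ a₆) * (linProd (sqSet a₂ a₄ a₆) * linProd (nsSet a₂ a₄ a₆)) := by
  rw [← linProd_univ, ← union_eq_univ (a₂ := a₂) (a₄ := a₄) (a₆ := a₆) hF, linProd_union,
    linProd_union (disjoint_sq_ns hF)]
  rw [Finset.disjoint_union_right]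
  exact ⟨disjoint_root_sq hF, disjoint_root_ns hF⟩


/-! ### Degree of the numerator -/

variable (a₂ a₄ a₆)

lemma cubic_pow_card :
    cubic a₂ a₄ a₆ ^ Fintype.card F =
      X ^ (3 * Fintype.card F) + C a₂ * X ^ (2 * Fintype.card F) + C a₄ * X ^ Fintype.card F
        + C a₆ := by
  rw [← FiniteField.expand_card]
  simp only [cubic, map_add, map_mul, map_pow, expand_X, expand_C, ← pow_mul]
  ring_nf

/-- the lower order part of the numerator -/
noncomputable def maninLow : F[X] :=
  C a₂ * X ^ (2 * Fintype.card F) + C a₄ * X ^ Fintype.card F + C a₆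
    + 2 * cubic a₂ a₄ a₆ ^ (Fintype.card F / 2 + 1) + cubic a₂ a₄ a₆
    + X ^ (Fintype.card F + 2) - X ^ 3 - C a₂ * (X ^ Fintype.card F - X) ^ 2

lemma maninNum_eq (hF : ringChar F ≠ 2) :
    maninNum a₂ a₄ a₆ = X ^ (2 * Fintype.card F + 1) + maninLow a₂ a₄ a₆ := by
  have hfq := cubic_pow_card a₂ a₄ a₆
  have hq := card_eq_two_mul_add_one (F := F) hF
  obtain ⟨m, hm⟩ : ∃ m, Fintype.card F / 2 = m := ⟨_, rfl⟩
  rw [hm] at hq
  unfold maninNum maninLow uPoly
  rw [hm]
  rw [hq] at hfq ⊢
  linear_combination hfq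

lemma natDegree_maninLow_le (hF : ringChar F ≠ 2) :
    (maninLow a₂ a₄ a₆).natDegree ≤ 2 * Fintype.card F := by
  have hq := card_eq_two_mul_add_one (F := F) hF
  have hpos := half_card_pos (F := F) hF
  obtain ⟨m, hm⟩ : ∃ m, Fintype.card F / 2 = m := ⟨_, rfl⟩
  rw [hm] at hq hpos
  unfold maninLow cubic
  rw [hm, hq]
  compute_degree
  all_goals omega

lemma maninNum_monic (hF : ringChar F ≠ 2) : (maninNum a₂ a₄ a₆).Monic := by
  rw [maninNum_eq a₂ a₄ a₆ hF]
  apply monic_X_pow_add
  exact lt_of_le_of_lt (degree_le_of_natDegree_le (natDegree_maninLow_le a₂ a₄ a₆ hF))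
    (by exact_mod_cast Nat.lt_succ_self _)

lemma natDegree_maninNum (hF : ringChar F ≠ 2) :
    (maninNum a₂ a₄ a₆).natDegree = 2 * Fintype.card F + 1 := by
  rw [maninNum_eq a₂ a₄ a₆ hF]
  have h : (maninLow a₂ a₄ a₆).degree < (X ^ (2 * Fintype.card F + 1) : F[X]).degree := by
    rw [degree_X_pow]
    exact lt_of_le_of_lt (degree_le_of_natDegree_le (natDegree_maninLow_le a₂ a₄ a₆ hF))
      (by exact_mod_cast Nat.lt_succ_self _)
  rw [natDegree_add_eq_left_of_degree_lt h, natDegree_X_pow]


/-! ### Factorisation and coprimality -/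

variable {a₂ a₄ a₆}

lemma eval_uPoly (c : F) :
    (uPoly a₂ a₄ a₆).eval c = (cubic a₂ a₄ a₆).eval c ^ (Fintype.card F / 2) + 1 := by
  simp [uPoly]

lemma isCoprime_X_sub_C_of_eval_ne_zero {p : F[X]} {c : F} (h : p.eval c ≠ 0) :
    IsCoprime p (X - C c) := by
  rw [isCoprime_comm, (irreducible_X_sub_C c).coprime_iff_not_dvd, dvd_iff_isRoot]
  exact h

lemma isCoprime_linProd_of_forall_eval_ne_zero {p : F[X]} {s : Finset F}
    (h : ∀ c ∈ s, p.eval c ≠ 0) : IsCoprime p (linProd s) := by
  unfold linProd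
  exact IsCoprime.prod_right fun c hc => isCoprime_X_sub_C_of_eval_ne_zero (h c hc)

/-- The explicit factorisation `N = G N'`, `D = G D'` with `N'`, `D'` coprime. -/
theorem exists_factorization (hF : ringChar F ≠ 2)
    (hsimple : ∀ c : F, (cubic a₂ a₄ a₆).eval c = 0 →
      (derivative (cubic a₂ a₄ a₆)).eval c ≠ 0) :
    ∃ N' D' G : F[X], maninNum a₂ a₄ a₆ = G * N' ∧ maninDen (F := F) = G * D' ∧
      IsCoprime N' D' ∧ G ≠ 0 ∧ D' ≠ 0 ∧
      G.natDegree = (rootSet a₂ a₄ a₆).card + 2 * (nsSet a₂ a₄ a₆).card ∧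
      D'.natDegree = (rootSet a₂ a₄ a₆).card + 2 * (sqSet a₂ a₄ a₆).card := by
  obtain ⟨f₁, hf₁⟩ : linProd (rootSet a₂ a₄ a₆) ∣ cubic a₂ a₄ a₆ :=
    linProd_dvd_of_forall_root fun c hc => mem_rootSet.mp hc
  obtain ⟨u₁, hu₁⟩ : linProd (nsSet a₂ a₄ a₆) ∣ uPoly a₂ a₄ a₆ :=
    linProd_dvd_of_forall_root fun c hc => by
      rw [eval_uPoly, mem_nsSet.mp hc]; ring
  have hX := X_pow_card_sub_X_eq (a₂ := a₂) (a₄ := a₄) (a₆ := a₆) hF
  set PZ := linProd (rootSet a₂ a₄ a₆) with hPZ
  set PS := linProd (sqSet a₂ a₄ a₆) with hPS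
  set PN := linProd (nsSet a₂ a₄ a₆) with hPN
  refine ⟨f₁ * u₁ ^ 2 - (C a₂ + X ^ Fintype.card F + X) * PZ * PS ^ 2, PZ * PS ^ 2,
    PZ * PN ^ 2, ?_, ?_, ?_, ?_, ?_, ?_, ?_⟩
  · unfold maninNum
    rw [hX, hf₁, hu₁]
    ring
  · unfold maninDen
    rw [hX]
    ring
  · -- coprimality
    have hf₁c : ∀ c : F, (cubic a₂ a₄ a₆).eval c ≠ 0 → f₁.eval c ≠ 0 := by
      intro c hc h0
      apply hc
      rw [hf₁, eval_mul, h0, mul_zero]
    have hu₁c : ∀ c : F, (uPoly a₂ a₄ a₆).eval c ≠ 0 → u₁.eval c ≠ 0 := by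
      intro c hc h0
      apply hc
      rw [hu₁, eval_mul, h0, mul_zero]
    have hZ : ∀ c ∈ rootSet a₂ a₄ a₆,
        (f₁ * u₁ ^ 2 - (C a₂ + X ^ Fintype.card F + X) * PZ * PS ^ 2).eval c ≠ 0 := by
      intro c hc
      have hPZc : PZ.eval c = 0 := eval_linProd_eq_zero hc
      have hfc : (cubic a₂ a₄ a₆).eval c = 0 := mem_rootSet.mp hc
      have h1 : f₁.eval c ≠ 0 := by
        intro h0
        apply hsimple c hfc
        rw [hf₁, derivative_mul, eval_add, eval_mul, eval_mul, h0, hPZc]
        ring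
      have h2 : u₁.eval c ≠ 0 := by
        apply hu₁c
        rw [eval_uPoly, hfc, zero_pow (half_card_pos hF).ne', zero_add]
        exact one_ne_zero
      simp only [eval_sub, eval_mul, eval_pow, hPZc, mul_zero, zero_mul, sub_zero]
      exact mul_ne_zero h1 (pow_ne_zero _ h2)
    have hS : ∀ c ∈ sqSet a₂ a₄ a₆,
        (f₁ * u₁ ^ 2 - (C a₂ + X ^ Fintype.card F + X) * PZ * PS ^ 2).eval c ≠ 0 := by
      intro c hc
      have hPSc : PS.eval c = 0 := eval_linProd_eq_zero hc
      have hfc : (cubic a₂ a₄ a₆).eval c ^ (Fintype.card F / 2) = 1 := mem_sqSet.mp hc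
      have hfc0 : (cubic a₂ a₄ a₆).eval c ≠ 0 := by
        intro h0
        rw [h0, zero_pow (half_card_pos hF).ne'] at hfc
        exact zero_ne_one hfc
      have h1 : f₁.eval c ≠ 0 := hf₁c c hfc0
      have h2 : u₁.eval c ≠ 0 := by
        apply hu₁c
        rw [eval_uPoly, hfc]
        have := two_ne_zero_of_char hF
        intro h
        apply this
        rw [← h]; norm_num
      simp only [eval_sub, eval_mul, eval_pow, hPSc, mul_zero, sub_zero, ne_eq,
        OfNat.ofNat_ne_zero, not_false_eq_true, zero_pow]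
      exact mul_ne_zero h1 (pow_ne_zero _ h2)
    exact IsCoprime.mul_right (isCoprime_linProd_of_forall_eval_ne_zero hZ)
      (IsCoprime.pow_right (isCoprime_linProd_of_forall_eval_ne_zero hS))
  · exact mul_ne_zero (linProd_ne_zero _) (pow_ne_zero _ (linProd_ne_zero _))
  · exact mul_ne_zero (linProd_ne_zero _) (pow_ne_zero _ (linProd_ne_zero _))
  · rw [natDegree_mul (linProd_ne_zero _) (pow_ne_zero _ (linProd_ne_zero _)),
      natDegree_pow, natDegree_linProd, natDegree_linProd]
  · rw [natDegree_mul (linProd_ne_zero _) (pow_ne_zero _ (linProd_ne_zero _)),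
      natDegree_pow, natDegree_linProd, natDegree_linProd]

/-- **Manin's counting lemma**, combinatorial form. -/
theorem hgt_maninR (hF : ringChar F ≠ 2)
    (hsimple : ∀ c : F, (cubic a₂ a₄ a₆).eval c = 0 →
      (derivative (cubic a₂ a₄ a₆)).eval c ≠ 0) :
    hgt (maninR a₂ a₄ a₆) = 1 + (rootSet a₂ a₄ a₆).card + 2 * (sqSet a₂ a₄ a₆).card := by
  obtain ⟨N', D', G, hN, hD, hcop, hG, hD', hdG, hdD⟩ := exists_factorization hF hsimple
  have hNne : maninNum a₂ a₄ a₆ ≠ 0 := (maninNum_monic a₂ a₄ a₆ hF).ne_zero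
  have hN' : N' ≠ 0 := by
    rintro rfl
    exact hNne (by rw [hN, mul_zero])
  have hR : maninR a₂ a₄ a₆ =
      algebraMap F[X] (RatFunc F) N' / algebraMap F[X] (RatFunc F) D' := by
    unfold maninR
    rw [hN, hD, map_mul, map_mul]
    have hG' : algebraMap F[X] (RatFunc F) G ≠ 0 := by
      simpa using hG
    exact mul_div_mul_left _ _ hG'
  rw [hR, hgt_div_of_isCoprime hD' hcop]
  have hdeg : (maninNum a₂ a₄ a₆).natDegree = G.natDegree + N'.natDegree := by
    rw [hN, natDegree_mul hG hN']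
  rw [natDegree_maninNum a₂ a₄ a₆ hF] at hdeg
  have hpart := card_partition (a₂ := a₂) (a₄ := a₄) (a₆ := a₆) hF
  rw [hdD]
  omega

end Manin

end Fermat.Agent.S52.H297

end
-- ===== PACK-END S52/H297/Manin.lean

-- ===== PACK-BEGIN Lib/Frob/A2/H720/Gauss.lean
section


/-!
# S52 / piece A2a-core (helper720): uniqueness of primitive representatives and the Gauss lemma

* `IsPrim.exists_bezout` : a primitive vector has a Bezout combination equal to `1`.
* `exists_unit_mul_of_minors` : two primitive vectors with vanishing `2 × 2` minors differ by a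
  unit; `maxDeg_eq_of_minors` : hence they have the same maximal degree.
* `gaussVec n₁ d₁ n₂ d₂ = ![n₁ n₂, n₁ d₂ + n₂ d₁, d₁ d₂]` (the coefficient vector of
  `(d₁ Y + n₁)(d₂ Y + n₂)`); for coprime pairs it is primitive (`isPrim_gaussVec`) and
  `maxDeg = max (deg n₁) (deg d₁) + max (deg n₂) (deg d₂)` (`maxDeg_gaussVec`).
-/

set_option autoImplicit false

open Polynomial

namespace Fermat.Agent.Lib.Frob.A2.H720

variable {F : Type*} [Field F]

lemma IsPrim.exists_bezout {n : ℕ} {v : Fin n → F[X]} (hv : IsPrim v) :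
    ∃ c : Fin n → F[X], ∑ i, c i * v i = 1 := by
  have hprinc : (Ideal.span (Set.range v)).IsPrincipal := inferInstance
  obtain ⟨g, hg⟩ := hprinc
  have hgv : ∀ i, g ∣ v i := fun i => by
    have : v i ∈ Ideal.span (Set.range v) := Ideal.subset_span ⟨i, rfl⟩
    rw [hg] at this
    exact Ideal.mem_span_singleton.mp this
  have hu : IsUnit g := hv g hgv
  have h1 : (1 : F[X]) ∈ Ideal.span (Set.range v) := by
    rw [hg]
    exact Ideal.mem_span_singleton.mpr hu.dvd
  exact (Ideal.mem_span_range_iff_exists_fun).mp h1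

/-- Two primitive vectors which are proportional (all `2 × 2` minors vanish) differ by a unit. -/
theorem exists_unit_mul_of_minors {n : ℕ} {v w : Fin n → F[X]} (hv : IsPrim v) (hw : IsPrim w)
    (h : ∀ i j, v i * w j = v j * w i) : ∃ u : F[X]ˣ, ∀ i, w i = u * v i := by
  obtain ⟨c, hc⟩ := hv.exists_bezout
  obtain ⟨c', hc'⟩ := hw.exists_bezout
  set a : F[X] := ∑ i, c i * w i with ha
  set b : F[X] := ∑ i, c' i * v i with hb
  have hwa : ∀ j, w j = a * v j := fun j => by
    calc w j = (∑ i, c i * v i) * w j := by rw [hc, one_mul]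
      _ = ∑ i, c i * (v i * w j) := by rw [Finset.sum_mul]; simp only [mul_assoc]
      _ = ∑ i, c i * (v j * w i) := by simp only [h _ j]
      _ = a * v j := by rw [ha, Finset.sum_mul]; exact Finset.sum_congr rfl fun i _ => by ring
  have hvb : ∀ j, v j = b * w j := fun j => by
    calc v j = (∑ i, c' i * w i) * v j := by rw [hc', one_mul]
      _ = ∑ i, c' i * (v j * w i) := by
          rw [Finset.sum_mul]; exact Finset.sum_congr rfl fun i _ => by ring
      _ = ∑ i, c' i * (v i * w j) := by simp only [h _ j]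
      _ = b * w j := by rw [hb, Finset.sum_mul]; exact Finset.sum_congr rfl fun i _ => by ring
  obtain ⟨j, hj⟩ : ∃ j, w j ≠ 0 := by
    by_contra hcon
    rw [not_exists] at hcon
    exact hw.ne_zero (funext fun j => not_not.mp (hcon j))
  have hab : a * b = 1 := by
    have : a * b * w j = 1 * w j := by
      rw [one_mul, mul_assoc, ← hvb j, ← hwa j]
    exact mul_right_cancel₀ hj this
  exact ⟨⟨a, b, hab, by rw [mul_comm, hab]⟩, hwa⟩

lemma natDegree_unit_mul (u : F[X]ˣ) (p : F[X]) : ((u : F[X]) * p).natDegree = p.natDegree := by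
  obtain ⟨c, hc, hcu⟩ := Polynomial.isUnit_iff.mp u.isUnit
  rw [← hcu]
  exact natDegree_C_mul hc.ne_zero

theorem maxDeg_eq_of_minors {n : ℕ} {v w : Fin n → F[X]} (hv : IsPrim v) (hw : IsPrim w)
    (h : ∀ i j, v i * w j = v j * w i) : maxDeg w = maxDeg v := by
  obtain ⟨u, hu⟩ := exists_unit_mul_of_minors hv hw h
  unfold maxDeg
  congr 1
  funext i
  rw [hu i, natDegree_unit_mul]

/-! ### The Gauss lemma for products of two linear forms -/

/-- The coefficient vector of `(d₁ Y + n₁) (d₂ Y + n₂)`. -/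
noncomputable def gaussVec (n₁ d₁ n₂ d₂ : F[X]) : Fin 3 → F[X] :=
  ![n₁ * n₂, n₁ * d₂ + n₂ * d₁, d₁ * d₂]

/-- The height of a pair: the larger of the two degrees. -/
noncomputable def ht (n d : F[X]) : ℕ := max n.natDegree d.natDegree

theorem isPrim_gaussVec {n₁ d₁ n₂ d₂ : F[X]} (h₁ : IsCoprime n₁ d₁) (h₂ : IsCoprime n₂ d₂) :
    IsPrim (gaussVec n₁ d₁ n₂ d₂) := by
  intro d hd
  have h0 := hd 0
  have h1 := hd 1
  have h2 := hd 2
  simp only [gaussVec, Matrix.cons_val_zero, Matrix.cons_val_one, Matrix.cons_val] at h0 h1 h2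
  obtain ⟨a, b, hab⟩ := h₂
  -- `d ∣ n₁ ^ 2`
  have e1 : d ∣ n₁ ^ 2 * n₂ := by
    have : n₁ ^ 2 * n₂ = n₁ * (n₁ * n₂) := by ring
    rw [this]; exact Dvd.dvd.mul_left h0 _
  have e2 : d ∣ n₁ ^ 2 * d₂ := by
    have : n₁ ^ 2 * d₂ = n₁ * (n₁ * d₂ + n₂ * d₁) - d₁ * (n₁ * n₂) := by ring
    rw [this]; exact dvd_sub (Dvd.dvd.mul_left h1 _) (Dvd.dvd.mul_left h0 _)
  have hn : d ∣ n₁ ^ 2 := by
    have : n₁ ^ 2 = a * (n₁ ^ 2 * n₂) + b * (n₁ ^ 2 * d₂) := by
      linear_combination (-(n₁ ^ 2)) * hab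
    rw [this]; exact dvd_add (Dvd.dvd.mul_left e1 _) (Dvd.dvd.mul_left e2 _)
  -- `d ∣ d₁ ^ 2`
  have e3 : d ∣ d₁ ^ 2 * n₂ := by
    have : d₁ ^ 2 * n₂ = d₁ * (n₁ * d₂ + n₂ * d₁) - n₁ * (d₁ * d₂) := by ring
    rw [this]; exact dvd_sub (Dvd.dvd.mul_left h1 _) (Dvd.dvd.mul_left h2 _)
  have e4 : d ∣ d₁ ^ 2 * d₂ := by
    have : d₁ ^ 2 * d₂ = d₁ * (d₁ * d₂) := by ring
    rw [this]; exact Dvd.dvd.mul_left h2 _
  have hd' : d ∣ d₁ ^ 2 := by
    have : d₁ ^ 2 = a * (d₁ ^ 2 * n₂) + b * (d₁ ^ 2 * d₂) := by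
      linear_combination (-(d₁ ^ 2)) * hab
    rw [this]; exact dvd_add (Dvd.dvd.mul_left e3 _) (Dvd.dvd.mul_left e4 _)
  exact (h₁.pow (m := 2) (n := 2)).isUnit_of_dvd' hn hd'

lemma coeff_ht_ne_zero {n d : F[X]} (h : IsCoprime n d) :
    n.coeff (ht n d) ≠ 0 ∨ d.coeff (ht n d) ≠ 0 := by
  by_contra hcon
  rw [not_or, not_not, not_not] at hcon
  obtain ⟨hn, hd⟩ := hcon
  rcases le_total n.natDegree d.natDegree with hle | hle
  · have hht : ht n d = d.natDegree := max_eq_right hle
    rw [hht, coeff_natDegree, leadingCoeff_eq_zero] at hd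
    rw [hd, natDegree_zero] at hle
    have hn0 : n = 0 := by
      rw [hht, hd, natDegree_zero] at hn
      rw [eq_C_of_natDegree_le_zero hle, hn, C_0]
    exact not_isUnit_zero (h.isUnit_of_dvd' (hn0 ▸ dvd_refl (0 : F[X]))
      (hd ▸ dvd_refl (0 : F[X])))
  · have hht : ht n d = n.natDegree := max_eq_left hle
    rw [hht, coeff_natDegree, leadingCoeff_eq_zero] at hn
    rw [hn, natDegree_zero] at hle
    have hd0 : d = 0 := by
      rw [hht, hn, natDegree_zero] at hd
      rw [eq_C_of_natDegree_le_zero hle, hd, C_0]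
    exact not_isUnit_zero (h.isUnit_of_dvd' (hn ▸ dvd_refl (0 : F[X]))
      (hd0 ▸ dvd_refl (0 : F[X])))

theorem maxDeg_gaussVec {n₁ d₁ n₂ d₂ : F[X]} (h₁ : IsCoprime n₁ d₁) (h₂ : IsCoprime n₂ d₂) :
    maxDeg (gaussVec n₁ d₁ n₂ d₂) = ht n₁ d₁ + ht n₂ d₂ := by
  have hn₁ : n₁.natDegree ≤ ht n₁ d₁ := le_max_left _ _
  have hd₁ : d₁.natDegree ≤ ht n₁ d₁ := le_max_right _ _
  have hn₂ : n₂.natDegree ≤ ht n₂ d₂ := le_max_left _ _
  have hd₂ : d₂.natDegree ≤ ht n₂ d₂ := le_max_right _ _
  have hle : ∀ {p q : F[X]}, p.natDegree ≤ ht n₁ d₁ → q.natDegree ≤ ht n₂ d₂ →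
      (p * q).natDegree ≤ ht n₁ d₁ + ht n₂ d₂ := fun hp hq =>
    natDegree_mul_le.trans (Nat.add_le_add hp hq)
  have hle' : ∀ {p q : F[X]}, p.natDegree ≤ ht n₂ d₂ → q.natDegree ≤ ht n₁ d₁ →
      (p * q).natDegree ≤ ht n₁ d₁ + ht n₂ d₂ := fun hp hq => by
    rw [mul_comm]; exact hle hq hp
  refine le_antisymm (maxDeg_le fun i => ?_) ?_
  · fin_cases i
    · exact hle hn₁ hn₂
    · exact (natDegree_add_le _ _).trans (max_le (hle hn₁ hd₂) (hle' hn₂ hd₁))
    · exact hle hd₁ hd₂
  · -- some entry has a nonzero coefficient in degree `ht₁ + ht₂`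
    set D₁ := ht n₁ d₁
    set D₂ := ht n₂ d₂
    have c0 : (n₁ * n₂).coeff (D₁ + D₂) = n₁.coeff D₁ * n₂.coeff D₂ :=
      coeff_mul_add_eq_of_natDegree_le hn₁ hn₂
    have c2 : (d₁ * d₂).coeff (D₁ + D₂) = d₁.coeff D₁ * d₂.coeff D₂ :=
      coeff_mul_add_eq_of_natDegree_le hd₁ hd₂
    have c1 : (n₁ * d₂ + n₂ * d₁).coeff (D₁ + D₂)
        = n₁.coeff D₁ * d₂.coeff D₂ + n₂.coeff D₂ * d₁.coeff D₁ := by
      rw [coeff_add, coeff_mul_add_eq_of_natDegree_le hn₁ hd₂, add_comm D₁ D₂,
        coeff_mul_add_eq_of_natDegree_le hn₂ hd₁]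
    have hex : ∃ i, (gaussVec n₁ d₁ n₂ d₂ i).coeff (D₁ + D₂) ≠ 0 := by
      by_contra hcon
      rw [not_exists] at hcon
      have e0 := not_not.mp (hcon 0)
      have e1 := not_not.mp (hcon 1)
      have e2 := not_not.mp (hcon 2)
      simp only [gaussVec, Matrix.cons_val_zero, Matrix.cons_val_one, Matrix.cons_val] at e0 e1 e2
      rw [c0] at e0
      rw [c1] at e1
      rw [c2] at e2
      rcases coeff_ht_ne_zero h₁ with hA | hA <;> rcases coeff_ht_ne_zero h₂ with hB | hB
      · exact (mul_ne_zero hA hB) e0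
      · rcases mul_eq_zero.mp e0 with h | h
        · exact hA h
        · rw [h, zero_mul, add_zero] at e1
          exact (mul_ne_zero hA hB) e1
      · rcases mul_eq_zero.mp e0 with h | h
        · rw [h, zero_mul, zero_add] at e1
          exact (mul_ne_zero hB hA) e1
        · exact hB h
      · exact (mul_ne_zero hA hB) e2
    obtain ⟨i, hi⟩ := hex
    exact (le_natDegree_of_ne_zero hi).trans (natDegree_le_maxDeg _ i)

end Fermat.Agent.Lib.Frob.A2.H720

end
-- ===== PACK-END Lib/Frob/A2/H720/Gauss.lean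

-- ===== PACK-BEGIN S21/H81/Inj.lean
section


/-!
# S21, piece C: injectivity of `periodHomPair`, assuming existence of equivariant primitives
and linearity of the period map.
-/

set_option autoImplicit false

open UpperHalfPlane CongruenceSubgroup Filter Topology Complex ModularCurve ModularCurve.Period
open scoped MatrixGroups Manifold ComplexConjugate

namespace Fermat.Agent.S21.H81

/-- The reflection `J` intertwines `g` and `jConjSL g`. -/
theorem inj_J_smul_smul (g : SL(2, ℤ)) (z : ℍ) :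
    J • (g • z) = jConjSL g • (J • z) := by
  ext
  rw [coe_J_smul, coe_specialLinearGroup_apply, coe_specialLinearGroup_apply, coe_J_smul]
  have h00 : (jConjSL g) 0 0 = g 0 0 := by
    show ((jConjSL g : SL(2, ℤ)) : Matrix (Fin 2) (Fin 2) ℤ) 0 0 = _
    rw [jConjSL_coe, jConjMat_apply_zero_zero]
  have h01 : (jConjSL g) 0 1 = -g 0 1 := by
    show ((jConjSL g : SL(2, ℤ)) : Matrix (Fin 2) (Fin 2) ℤ) 0 1 = _
    rw [jConjSL_coe, jConjMat_apply_zero_one]
  have h10 : (jConjSL g) 1 0 = -g 1 0 := by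
    show ((jConjSL g : SL(2, ℤ)) : Matrix (Fin 2) (Fin 2) ℤ) 1 0 = _
    rw [jConjSL_coe, jConjMat_apply_one_zero]
  have h11 : (jConjSL g) 1 1 = g 1 1 := by
    show ((jConjSL g : SL(2, ℤ)) : Matrix (Fin 2) (Fin 2) ℤ) 1 1 = _
    rw [jConjSL_coe, jConjMat_apply_one_one]
  rw [h00, h01, h10, h11]
  simp only [map_div₀, map_add, map_mul, algebraMap_int_eq, eq_intCast,
    Complex.ofReal_intCast, Complex.ofReal_neg, map_intCast, map_neg]
  rw [← neg_div]
  congr 1 <;> ring


/-- The reflected function `z ↦ -conj (F (-conj z))`. -/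
noncomputable def injRefl (F : ℍ → ℂ) : ℍ → ℂ := fun z => -conj (F (J • z))

theorem injRefl_differentiableAt {F : ℍ → ℂ}
    (hol : ∀ τ : ℍ, DifferentiableAt ℂ (F ∘ ofComplex) (τ : ℂ)) (τ : ℍ) :
    DifferentiableAt ℂ (injRefl F ∘ ofComplex) (τ : ℂ) := by
  -- near `τ`, `injRefl F ∘ ofComplex` equals `z ↦ -(conj ∘ (F ∘ ofComplex) ∘ conj) (-z)`
  have h0 : DifferentiableAt ℂ (F ∘ ofComplex) (conj (-(τ : ℂ))) := by
    have := hol (J • τ)
    rwa [coe_J_smul, ← map_neg] at this
  have h1 : DifferentiableAt ℂ (conj ∘ (F ∘ ofComplex) ∘ conj) (-(τ : ℂ)) := by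
    have := h0.hasDerivAt.conj_conj
    rw [Complex.conj_conj] at this
    exact this.differentiableAt
  have h2 : DifferentiableAt ℂ (fun z : ℂ => -(conj ∘ (F ∘ ofComplex) ∘ conj) (-z)) (τ : ℂ) := by
    have h3 : DifferentiableAt ℂ (fun z : ℂ => -z) (τ : ℂ) := differentiableAt_id.neg
    exact (DifferentiableAt.comp (τ : ℂ) h1 h3).neg
  refine h2.congr_of_eventuallyEq ?_
  have hopen : {z : ℂ | 0 < z.im} ∈ 𝓝 (τ : ℂ) :=
    isOpen_upperHalfPlaneSet.mem_nhds τ.im_pos
  filter_upwards [hopen] with z hz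
  simp only [Function.comp_apply, injRefl]
  congr 3
  rw [ofComplex_apply_of_im_pos hz]
  have : (J • (⟨z, hz⟩ : ℍ) : ℍ) = ofComplex (conj (-z)) := by
    have h4 : 0 < (conj (-z)).im := by simpa using hz
    rw [ofComplex_apply_of_im_pos h4]
    ext
    rw [coe_J_smul]
    simp
  exact this

theorem injRefl_tendsto {F : ℍ → ℂ}
    (hcusp : ∀ δ : SL(2, ℤ), ∃ L : ℂ, Tendsto (fun w : ℍ => F (δ • w)) atImInfty (𝓝 L))
    (δ : SL(2, ℤ)) : ∃ L : ℂ, Tendsto (fun w : ℍ => injRefl F (δ • w)) atImInfty (𝓝 L) := by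
  obtain ⟨L, hL⟩ := hcusp (jConjSL δ)
  refine ⟨-conj L, ?_⟩
  have hJ : Tendsto (fun w : ℍ => J • w) atImInfty atImInfty :=
    tendsto_smul_atImInfty (by simp [J])
  have h1 : Tendsto (fun w : ℍ => F (jConjSL δ • (J • w))) atImInfty (𝓝 L) := hL.comp hJ
  have h2 : Tendsto (fun w : ℍ => -conj (F (jConjSL δ • (J • w)))) atImInfty (𝓝 (-conj L)) :=
    ((Complex.continuous_conj.tendsto L).comp h1).neg
  refine h2.congr ?_
  intro w
  simp only [injRefl, inj_J_smul_smul]

section half

variable {N : ℕ} [NeZero N] {f : CuspForm (Gamma0 N) 2} {F : ℍ → ℂ}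

/-- If the periods of `f` satisfy `p (jγj) = s * p γ` with `s = ±1` then `f = 0`. -/
theorem inj_half (hF : HasEquivariantPrimitive N f F) (s : ℝ) (hs : s * s = 1)
    (hsym : ∀ γ : Gamma0 N, hF.2.2.1.period (jConjGamma0 N γ) = s * hF.2.2.1.period γ) :
    f = 0 := by
  have hFd := hF.1
  have hFeq := hF.2.2.1
  have hFcusp := hF.2.2.2
  have hFhol : ∀ τ : ℍ, DifferentiableAt ℂ (F ∘ ofComplex) (τ : ℂ) :=
    fun τ => (hFd τ).differentiableAt
  have hHhol := injRefl_differentiableAt hFhol
  have hHcusp := injRefl_tendsto hFcusp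
  -- increments of the reflected function
  have hHinc : ∀ (γ : Gamma0 N) (z : ℍ),
      injRefl F ((γ : SL(2, ℤ)) • z) - injRefl F z = -(s * conj (hFeq.period γ)) := by
    intro γ z
    have h1 := hFeq.sub_eq_period (jConjGamma0 N γ) (J • z)
    rw [hsym γ, jConjGamma0_coe, ← inj_J_smul_smul] at h1
    simp only [injRefl]
    have h2 : conj (F (J • ((γ : SL(2, ℤ)) • z))) - conj (F (J • z))
        = conj ((s : ℂ) * hFeq.period γ) := by
      rw [← h1, map_sub]
    rw [map_mul, Complex.conj_ofReal] at h2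
    linear_combination -h2
  -- the two auxiliary functions
  let A₁ : ℍ → ℂ := fun z => F z + (s : ℂ) * injRefl F z
  let A₂ : ℍ → ℂ := fun z => Complex.I * (F z - (s : ℂ) * injRefl F z)
  have hs' : (s : ℂ) * (s : ℂ) = 1 := by exact_mod_cast hs
  have hA₁ : ∀ τ : ℍ, deriv (A₁ ∘ ofComplex) (τ : ℂ) = 0 := by
    refine injCore_deriv_eq_zero (N := N) ?_ ?_ ?_
    · intro τ
      exact (hFhol τ).add ((hHhol τ).const_mul (s : ℂ))
    · intro γ hγ
      refine ⟨hFeq.period ⟨γ, hγ⟩ - conj (hFeq.period ⟨γ, hγ⟩), ?_, ?_⟩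
      · simp
      · intro z
        have h1 := hFeq.sub_eq_period ⟨γ, hγ⟩ z
        have h2 := hHinc ⟨γ, hγ⟩ z
        simp only [A₁]
        simp only at h1 h2
        linear_combination h1 + (s : ℂ) * h2 - conj (hFeq.period ⟨γ, hγ⟩) * hs'
    · intro δ
      obtain ⟨L₁, hL₁⟩ := hFcusp δ
      obtain ⟨L₂, hL₂⟩ := hHcusp δ
      exact ⟨L₁ + (s : ℂ) * L₂, hL₁.add (hL₂.const_mul (s : ℂ))⟩
  have hA₂ : ∀ τ : ℍ, deriv (A₂ ∘ ofComplex) (τ : ℂ) = 0 := by
    refine injCore_deriv_eq_zero (N := N) ?_ ?_ ?_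
    · intro τ
      exact ((hFhol τ).sub ((hHhol τ).const_mul (s : ℂ))).const_mul Complex.I
    · intro γ hγ
      refine ⟨Complex.I * (hFeq.period ⟨γ, hγ⟩ + conj (hFeq.period ⟨γ, hγ⟩)), ?_, ?_⟩
      · simp [Complex.add_conj]
      · intro z
        have h1 := hFeq.sub_eq_period ⟨γ, hγ⟩ z
        have h2 := hHinc ⟨γ, hγ⟩ z
        simp only [A₂]
        simp only at h1 h2
        linear_combination Complex.I * h1 - Complex.I * (s : ℂ) * h2
          + Complex.I * conj (hFeq.period ⟨γ, hγ⟩) * hs'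
    · intro δ
      obtain ⟨L₁, hL₁⟩ := hFcusp δ
      obtain ⟨L₂, hL₂⟩ := hHcusp δ
      exact ⟨Complex.I * (L₁ - (s : ℂ) * L₂), (hL₁.sub (hL₂.const_mul (s : ℂ))).const_mul _⟩
  -- conclude
  ext τ
  have hH' := (hHhol τ).hasDerivAt
  set h := deriv (injRefl F ∘ ofComplex) (τ : ℂ) with hh
  have e₁ : HasDerivAt (A₁ ∘ ofComplex) (f τ + (s : ℂ) * h) (τ : ℂ) :=
    (hFd τ).add (hH'.const_mul (s : ℂ))
  have e₂ : HasDerivAt (A₂ ∘ ofComplex) (Complex.I * (f τ - (s : ℂ) * h)) (τ : ℂ) :=
    ((hFd τ).sub (hH'.const_mul (s : ℂ))).const_mul Complex.I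
  have z₁ : f τ + (s : ℂ) * h = 0 := by rw [← e₁.deriv]; exact hA₁ τ
  have z₂ : Complex.I * (f τ - (s : ℂ) * h) = 0 := by rw [← e₂.deriv]; exact hA₂ τ
  have z₃ : f τ - (s : ℂ) * h = 0 := (mul_eq_zero.mp z₂).resolve_left Complex.I_ne_zero
  have : f τ = 0 := by linear_combination (1 / 2 : ℂ) * z₁ + (1 / 2 : ℂ) * z₃
  simpa using this

end half

section final

variable (N : ℕ) [NeZero N]

omit [NeZero N] in
/-- Unfolding of `periodHomPair` at a pair, evaluated at `γ`. -/
theorem inj_periodHomPair_apply (hlin : ExistsPeriodMapLinear N)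
    (f g : CuspForm (Gamma0 N) 2) (γ : Gamma0 N) :
    periodHomPair N (f, g) (Additive.ofMul γ)
      = (periodMap N f (Additive.ofMul γ)
          + periodMap N f (Additive.ofMul (jConjGamma0 N γ)))
        + (periodMap N g (Additive.ofMul γ)
          - periodMap N g (Additive.ofMul (jConjGamma0 N γ))) := by
  obtain ⟨pml, hpml, hdef⟩ := periodHomPair_def N hlin
  rw [hdef]
  simp only [LinearMap.coprod_apply, LinearMap.coe_comp, Function.comp_apply,
    LinearMap.add_apply, LinearMap.sub_apply, LinearMap.id_coe, id_eq, hpml,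
    AddMonoidHom.add_apply, AddMonoidHom.sub_apply, charInvolution_apply, toMul_ofMul]

/-- **Injectivity of `periodHomPair`**, assuming that every cusp form has an equivariant
primitive and that the period map is linear. -/
theorem injective_periodHomPair_of (hlin : ExistsPeriodMapLinear N)
    (hA : ∀ f : CuspForm (Gamma0 N) 2, ∃ F : ℍ → ℂ, HasEquivariantPrimitive N f F) :
    Function.Injective (periodHomPair N) := by
  rw [injective_iff_map_eq_zero]
  rintro ⟨f, g⟩ hfg
  have key : ∀ γ : Gamma0 N,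
      (periodMap N f (Additive.ofMul γ)
          + periodMap N f (Additive.ofMul (jConjGamma0 N γ)))
        + (periodMap N g (Additive.ofMul γ)
          - periodMap N g (Additive.ofMul (jConjGamma0 N γ))) = 0 := by
    intro γ
    rw [← inj_periodHomPair_apply N hlin f g γ, hfg]
    rfl
  have keyf : ∀ γ : Gamma0 N, periodMap N f (Additive.ofMul (jConjGamma0 N γ))
      = ((-1 : ℝ) : ℂ) * periodMap N f (Additive.ofMul γ) := by
    intro γ
    have h1 := key γ
    have h2 := key (jConjGamma0 N γ)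
    rw [jConjGamma0_jConjGamma0] at h2
    push_cast
    linear_combination (1 / 2 : ℂ) * h1 + (1 / 2 : ℂ) * h2
  have keyg : ∀ γ : Gamma0 N, periodMap N g (Additive.ofMul (jConjGamma0 N γ))
      = ((1 : ℝ) : ℂ) * periodMap N g (Additive.ofMul γ) := by
    intro γ
    have h1 := key γ
    have h2 := key (jConjGamma0 N γ)
    rw [jConjGamma0_jConjGamma0] at h2
    push_cast
    linear_combination (-1 / 2 : ℂ) * h1 + (1 / 2 : ℂ) * h2
  have hf0 : f = 0 := by
    obtain ⟨F, hF⟩ := hA f
    obtain ⟨F₀, h₀, hP⟩ := periodMap_def N f hF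
    refine inj_half h₀ (-1) (by norm_num) ?_
    intro γ
    have := keyf γ
    rw [hP] at this
    exact this
  have hg0 : g = 0 := by
    obtain ⟨G, hG⟩ := hA g
    obtain ⟨G₀, h₀, hP⟩ := periodMap_def N g hG
    refine inj_half h₀ 1 (by norm_num) ?_
    intro γ
    have := keyg γ
    rw [hP] at this
    exact this
  rw [hf0, hg0]
  rfl

end final

end Fermat.Agent.S21.H81

end
-- ===== PACK-END S21/H81/Inj.lean

-- ===== PACK-BEGIN S24/Alg/H240Diff.lean
section


/-!
# S24 / ALG — the formal derivative on Laurent series is a derivation, and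
`Ω[F⁄K] ≠ 0` from one local embedding

* `lsD` : the derivative `d/dz` on `LaurentSeries C`, with the Leibniz rule `lsD_mul`;
* `lsD_ne_zero_of_order_ne_zero` : in characteristic zero, `d/dz f ≠ 0` if `ord f ≠ 0`;
* `embDerivation` : for a ring hom `σ : F →+* LaurentSeries C` sending `K` to constants,
  `f ↦ d/dz (σ f)` as a `K`-derivation of `F`;
* `exists_differential_ne_zero_of_nonempty` : the interface statement
  `exists_differential_ne_zero` of `Alg.lean`, with the (necessary) extra hypothesis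
  `[Nonempty X]`.
-/

set_option autoImplicit false

noncomputable section

open HahnSeries KaehlerDifferential

namespace Fermat.Agent.S24.H240

section Laurent

variable {C : Type*} [CommRing C]

/-- The formal derivative `d/dz` on Laurent series. -/
def lsD (f : LaurentSeries C) : LaurentSeries C := LaurentSeries.derivative C f

theorem lsD_coeff (f : LaurentSeries C) (n : ℤ) :
    (lsD f).coeff n = (n + 1) • f.coeff (n + 1) := by
  simp [lsD, LaurentSeries.hasseDeriv_coeff]

theorem lsD_add (f g : LaurentSeries C) : lsD (f + g) = lsD f + lsD g :=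
  map_add (LaurentSeries.derivative C) f g

theorem lsD_zero : lsD (0 : LaurentSeries C) = 0 :=
  map_zero (LaurentSeries.derivative C)

theorem lsD_C (c : C) : lsD (HahnSeries.C c : LaurentSeries C) = 0 := by
  ext n
  rw [lsD_coeff, HahnSeries.coeff_zero]
  by_cases h : n + 1 = 0
  · rw [h, zero_smul]
  · rw [HahnSeries.C_apply, HahnSeries.coeff_single_of_ne h, smul_zero]

/-- Derivative of `z^a * f`. -/
theorem lsD_single_mul (a : ℤ) (f : LaurentSeries C) :
    lsD ((single a (1 : C)) * f) =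
      a • ((single (a - 1) (1 : C)) * f) + (single a (1 : C)) * lsD f := by
  ext n
  rw [lsD_coeff, HahnSeries.coeff_add, HahnSeries.coeff_smul, HahnSeries.coeff_single_mul,
    HahnSeries.coeff_single_mul, HahnSeries.coeff_single_mul, lsD_coeff, one_mul, one_mul,
    one_mul]
  have h1 : n + 1 - a = n - (a - 1) := by ring
  have h2 : n - a + 1 = n - (a - 1) := by ring
  rw [h1, h2, ← add_smul]
  congr 1
  ring

/-- The derivative of (the image of) a power series is (the image of) its derivative. -/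
theorem lsD_ofPowerSeries (p : PowerSeries C) :
    lsD (HahnSeries.ofPowerSeries ℤ C p) =
      HahnSeries.ofPowerSeries ℤ C (PowerSeries.derivative C p) := by
  ext n
  rw [lsD_coeff]
  change _ • ((p : PowerSeries C) : LaurentSeries C).coeff (n + 1) =
    ((PowerSeries.derivative C p : PowerSeries C) : LaurentSeries C).coeff n
  rw [PowerSeries.coeff_coe, PowerSeries.coeff_coe]
  by_cases hn : n < 0
  · rw [if_pos hn]
    by_cases hn1 : n + 1 < 0
    · rw [if_pos hn1, smul_zero]
    · have : n + 1 = 0 := by omega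
      rw [this, zero_smul]
  · rw [if_neg hn, if_neg (by omega)]
    obtain ⟨k, rfl⟩ := Int.eq_ofNat_of_zero_le (not_lt.mp hn)
    have hk : ((k : ℤ) + 1).natAbs = k + 1 := by omega
    rw [hk, Int.natAbs_natCast]
    change _ = PowerSeries.coeff k (PowerSeries.derivative C p)
    rw [PowerSeries.coeff_derivative, zsmul_eq_mul, mul_comm]
    push_cast
    ring

theorem lsD_ofPowerSeries_mul (p q : PowerSeries C) :
    lsD (HahnSeries.ofPowerSeries ℤ C p * HahnSeries.ofPowerSeries ℤ C q) =
      HahnSeries.ofPowerSeries ℤ C p * lsD (HahnSeries.ofPowerSeries ℤ C q) +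
        HahnSeries.ofPowerSeries ℤ C q * lsD (HahnSeries.ofPowerSeries ℤ C p) := by
  rw [← map_mul, lsD_ofPowerSeries, lsD_ofPowerSeries, lsD_ofPowerSeries,
    Derivation.leibniz, map_add, smul_eq_mul, smul_eq_mul, map_mul, map_mul]

/-- **Leibniz rule** for the formal derivative of Laurent series. -/
theorem lsD_mul (f g : LaurentSeries C) : lsD (f * g) = f * lsD g + g * lsD f := by
  have hf := LaurentSeries.single_order_mul_powerSeriesPart f
  have hg := LaurentSeries.single_order_mul_powerSeriesPart g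
  set p := HahnSeries.ofPowerSeries ℤ C f.powerSeriesPart with hp
  set q := HahnSeries.ofPowerSeries ℤ C g.powerSeriesPart with hq
  set a := f.order with ha
  set b := g.order with hb
  have hfg : f * g = single (a + b) (1 : C) * (p * q) := by
    rw [← hf, ← hg]
    have : (single (a + b) (1 : C) : LaurentSeries C) = single a 1 * single b 1 := by
      rw [HahnSeries.single_mul_single, one_mul]
    rw [this]
    ring
  have hsa : (single a (1 : C) : LaurentSeries C) = single (a - 1) 1 * single 1 1 := by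
    rw [HahnSeries.single_mul_single, one_mul, sub_add_cancel]
  have hsb : (single b (1 : C) : LaurentSeries C) = single (b - 1) 1 * single 1 1 := by
    rw [HahnSeries.single_mul_single, one_mul, sub_add_cancel]
  have hsab : (single (a + b) (1 : C) : LaurentSeries C) =
      single (a - 1) 1 * single (b - 1) 1 * (single 1 1 * single 1 1) := by
    simp only [HahnSeries.single_mul_single, one_mul]
    have : a + b = a - 1 + (b - 1) + (1 + 1) := by ring
    rw [← this]
  have hsab1 : (single (a + b - 1) (1 : C) : LaurentSeries C) =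
      single (a - 1) 1 * single (b - 1) 1 * single 1 1 := by
    simp only [HahnSeries.single_mul_single, one_mul]
    have : a + b - 1 = a - 1 + (b - 1) + 1 := by ring
    rw [← this]
  have e1 : lsD f = a • (single (a - 1) (1 : C) * p) + single a (1 : C) * lsD p := by
    conv_lhs => rw [← hf]
    exact lsD_single_mul a p
  have e2 : lsD g = b • (single (b - 1) (1 : C) * q) + single b (1 : C) * lsD q := by
    conv_lhs => rw [← hg]
    exact lsD_single_mul b q
  rw [hfg, lsD_single_mul, lsD_ofPowerSeries_mul, e1, e2]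
  conv_rhs => rw [← hf, ← hg]
  rw [hsab, hsab1, hsa, hsb]
  simp only [zsmul_eq_mul]
  push_cast
  ring

theorem lsD_one : lsD (1 : LaurentSeries C) = 0 := by
  have := lsD_C (1 : C)
  rwa [map_one] at this

end Laurent

section CharZero

variable {C : Type*} [Field C] [CharZero C]

/-- In characteristic zero, a Laurent series of nonzero order has nonzero derivative. -/
theorem lsD_ne_zero_of_order_ne_zero (f : LaurentSeries C) (hf : f.order ≠ 0) : lsD f ≠ 0 := by
  have hf0 : f ≠ 0 := by
    rintro rfl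
    exact hf HahnSeries.order_zero
  intro h
  have hc := congrArg (fun g : LaurentSeries C => g.coeff (f.order - 1)) h
  simp only [lsD_coeff, sub_add_cancel, HahnSeries.coeff_zero] at hc
  rw [zsmul_eq_mul, mul_eq_zero] at hc
  rcases hc with hc | hc
  · exact hf (by exact_mod_cast hc)
  · exact hf0 (HahnSeries.coeff_order_eq_zero.mp hc)

end CharZero

section Derivation

variable {K F : Type*} [Field K] [Field F] [Algebra K F]
variable {C : Type*} [Field C]

/-- For a ring hom `σ : F →+* LaurentSeries C` mapping `K` to constants, the map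
`f ↦ d/dz (σ f)` is a `K`-derivation of `F` into `LaurentSeries C` (an `F`-module via `σ`). -/
theorem exists_embDerivation (σ : F →+* LaurentSeries C) (ι : K →+* C)
    (hσ : ∀ c : K, σ (algebraMap K F c) = HahnSeries.C (ι c)) (y : F)
    (hy : lsD (σ y) ≠ 0) : KaehlerDifferential.D K F y ≠ 0 := by
  let modF : Module F (LaurentSeries C) := Module.compHom (LaurentSeries C) σ
  let modK : Module K (LaurentSeries C) :=
    Module.compHom (LaurentSeries C) (σ.comp (algebraMap K F))
  have : IsScalarTower K F (LaurentSeries C) :=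
    ⟨fun c f g => by
      change σ (c • f) * g = σ (algebraMap K F c) * (σ f * g)
      rw [Algebra.smul_def, map_mul, mul_assoc]⟩
  have hsmulF : ∀ (f : F) (g : LaurentSeries C), f • g = σ f * g := fun _ _ => rfl
  have hsmulK : ∀ (c : K) (g : LaurentSeries C), c • g = σ (algebraMap K F c) * g :=
    fun _ _ => rfl
  let δ : Derivation K F (LaurentSeries C) :=
    { toFun := fun f => lsD (σ f)
      map_add' := fun f g => by simp only [map_add, lsD_add]
      map_smul' := fun c f => by
        simp only [RingHom.id_apply]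
        rw [hsmulK, Algebra.smul_def, map_mul, lsD_mul, hσ, lsD_C, mul_zero, add_zero]
      map_one_eq_zero' := by
        change lsD (σ 1) = 0
        rw [map_one, lsD_one]
      leibniz' := fun f g => by
        change lsD (σ (f * g)) = f • lsD (σ g) + g • lsD (σ f)
        rw [map_mul, lsD_mul, hsmulF, hsmulF] }
  intro h0
  apply hy
  have : δ.liftKaehlerDifferential (KaehlerDifferential.D K F y) = δ y :=
    Derivation.liftKaehlerDifferential_comp_D δ y
  rw [h0, map_zero] at this
  exact this.symm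

end Derivation

section Interface

variable {K F : Type*} [Field K] [Field F] [Algebra K F]
variable {C : Type*} [Field C] [CharZero C] {X : Type*}

/-- Interface theorem `exists_differential_ne_zero` of `Alg.lean`, with the necessary
hypothesis `[Nonempty X]` (it is false for empty `X`). -/
theorem exists_differential_ne_zero_of_nonempty [Nonempty X] (j : F)
    (dataInf : LocalData K F C X j⁻¹) :
    ∃ ω : Ω[F⁄K], ω ≠ 0 := by
  obtain ⟨x⟩ := ‹Nonempty X›
  refine ⟨KaehlerDifferential.D K F j⁻¹, ?_⟩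
  apply exists_embDerivation (dataInf.σ x) dataInf.ι (dataInf.σ_const x)
  apply lsD_ne_zero_of_order_ne_zero
  rw [dataInf.σ_t_order x]
  exact_mod_cast dataInf.m_pos.ne'

end Interface

end Fermat.Agent.S24.H240

end
end
-- ===== PACK-END S24/Alg/H240Diff.lean

-- ===== PACK-BEGIN S24/Alg/LocBasic.lean
section


/-!
# S24 / ALG-LOC, part 1: valuations induced by embeddings into Laurent series

`Induces σ v` : the place `v` of `F` is the one cut out by the embedding `σ : F → C((z))`.
Main result `loc_exists_mult`: then `ord_z ∘ σ = g * v.ord` for some `g ≥ 1`.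
-/

set_option autoImplicit false

noncomputable section

open AlgebraicCurve

namespace Fermat.Agent.S24.H144

variable {K F : Type*} [Field K] [Field F] [Algebra K F]
variable {C : Type*} [Field C]

/-- The embedding `σ` induces the place `v`: the valuation ring of `v` is the set of `f`
whose image has non-negative order. -/
def Induces (σ : F →+* LaurentSeries C) (v : Place K F) : Prop :=
  ∀ f : F, f ∈ v.toValuationSubring ↔ 0 ≤ (σ f).order

theorem loc_map_ne_zero (σ : F →+* LaurentSeries C) {f : F} (hf : f ≠ 0) : σ f ≠ 0 :=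
  (map_ne_zero σ).mpr hf

theorem loc_order_map_mul (σ : F →+* LaurentSeries C) {f g : F} (hf : f ≠ 0) (hg : g ≠ 0) :
    (σ (f * g)).order = (σ f).order + (σ g).order := by
  rw [map_mul]
  exact HahnSeries.order_mul (loc_map_ne_zero σ hf) (loc_map_ne_zero σ hg)

theorem loc_order_map_one (σ : F →+* LaurentSeries C) : (σ (1 : F)).order = 0 := by
  rw [map_one]; exact HahnSeries.order_one

theorem loc_order_map_inv (σ : F →+* LaurentSeries C) (f : F) :
    (σ f⁻¹).order = -(σ f).order := by
  rcases eq_or_ne f 0 with rfl | hf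
  · simp
  · have h := loc_order_map_mul σ hf (inv_ne_zero hf)
    rw [mul_inv_cancel₀ hf, loc_order_map_one] at h
    omega

theorem loc_order_map_pow (σ : F →+* LaurentSeries C) {f : F} (hf : f ≠ 0) (n : ℕ) :
    (σ (f ^ n)).order = n * (σ f).order := by
  induction n with
  | zero => simp
  | succ n ih =>
    rw [pow_succ, loc_order_map_mul σ (pow_ne_zero n hf) hf, ih]
    push_cast; ring

theorem loc_order_map_zpow (σ : F →+* LaurentSeries C) {f : F} (hf : f ≠ 0) (n : ℤ) :
    (σ (f ^ n)).order = n * (σ f).order := by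
  obtain ⟨k, rfl | rfl⟩ := Int.eq_nat_or_neg n
  · rw [zpow_natCast]; exact loc_order_map_pow σ hf k
  · rw [zpow_neg, zpow_natCast, loc_order_map_inv, loc_order_map_pow σ hf k]; ring

theorem loc_order_map_add_le (σ : F →+* LaurentSeries C) {f g : F} (hfg : f + g ≠ 0) :
    min (σ f).order (σ g).order ≤ (σ (f + g)).order := by
  rw [map_add]
  exact HahnSeries.min_order_le_order_add (by rw [← map_add]; exact loc_map_ne_zero σ hfg)

/-- A unit of the valuation ring has order `0`. -/
theorem loc_order_unit {σ : F →+* LaurentSeries C} {v : Place K F} (hσ : Induces σ v)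
    (u : v.toValuationSubringˣ) : (σ ((u : v.toValuationSubring) : F)).order = 0 := by
  have h1 : 0 ≤ (σ ((u : v.toValuationSubring) : F)).order :=
    (hσ _).mp (u : v.toValuationSubring).2
  have h2 : 0 ≤ (σ (((u⁻¹ : v.toValuationSubringˣ) : v.toValuationSubring) : F)).order :=
    (hσ _).mp ((u⁻¹ : v.toValuationSubringˣ) : v.toValuationSubring).2
  have h3 : (((u⁻¹ : v.toValuationSubringˣ) : v.toValuationSubring) : F)
      = (((u : v.toValuationSubring) : F))⁻¹ := by
    have hmul : ((u : v.toValuationSubring) : F)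
        * (((u⁻¹ : v.toValuationSubringˣ) : v.toValuationSubring) : F) = 1 := by
      have := congrArg (Subtype.val) (Units.mul_inv u)
      exact this
    exact eq_inv_of_mul_eq_one_right hmul
  rw [h3, loc_order_map_inv] at h2
  omega

/-- A non-unit of the valuation ring which is nonzero has positive order. -/
theorem loc_order_pos_of_not_isUnit {σ : F →+* LaurentSeries C} {v : Place K F}
    (hσ : Induces σ v) {a : v.toValuationSubring} (ha : a ≠ 0) (hu : ¬ IsUnit a) :
    0 < (σ (a : F)).order := by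
  have h1 : 0 ≤ (σ (a : F)).order := (hσ _).mp a.2
  have haF : (a : F) ≠ 0 := by simpa using ha
  have h2 : ¬ (0 ≤ (σ ((a : F)⁻¹)).order) := by
    intro h
    have hmem : (a : F)⁻¹ ∈ v.toValuationSubring := (hσ _).mpr h
    apply hu
    refine ⟨⟨a, ⟨(a : F)⁻¹, hmem⟩, ?_, ?_⟩, rfl⟩
    · ext; simp [haF]
    · ext; simp [haF]
  rw [loc_order_map_inv] at h2
  omega

/-- **LOC1.** If `σ` induces `v` then `ord_z ∘ σ = g * v.ord` for a positive integer `g`. -/
theorem loc_exists_mult (v : Place K F) (σ : F →+* LaurentSeries C) (hσ : Induces σ v) :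
    ∃ g : ℕ, 0 < g ∧ ∀ f : F, (σ f).order = g * v.ord f := by
  obtain ⟨π, hπ⟩ := IsDiscreteValuationRing.exists_irreducible v.toValuationSubring
  have hπ0 : π ≠ 0 := hπ.ne_zero
  have hπF : (π : F) ≠ 0 := by simpa using hπ0
  have hpos : 0 < (σ (π : F)).order := loc_order_pos_of_not_isUnit hσ hπ0 hπ.not_isUnit
  refine ⟨(σ (π : F)).order.toNat, by omega, fun f => ?_⟩
  rcases eq_or_ne f 0 with rfl | hf
  · simp
  obtain ⟨u, hu⟩ := v.exists_unit_mul_zpow hf hπ
  have huF : ((u : v.toValuationSubring) : F) ≠ 0 := by simp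
  conv_lhs => rw [hu]
  rw [loc_order_map_mul σ huF (zpow_ne_zero _ hπF), loc_order_unit hσ u,
    loc_order_map_zpow σ hπF, Int.toNat_of_nonneg hpos.le]
  ring

end Fermat.Agent.S24.H144

end
end
-- ===== PACK-END S24/Alg/LocBasic.lean

-- ===== PACK-BEGIN S24/Alg/LocEmb.lean
section






/-!
# S24 / ALG-LOC: a full set of embeddings

Let `F/F₀` be finite separable of degree `n` and let `σ x : F →+* E` (`x : X`, `|X| = n`) be
pairwise distinct ring homomorphisms into a field `E` which agree on `F₀`.  Then the `σ x`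
are *all* the `F₀`-embeddings of `F` into an algebraic closure of `E`.  Consequences:

* `loc_minpoly_coeff_mem`: if all `σ x u` lie in a subring `O` of `E`, then so do the images of
  the coefficients of the minimal polynomial of `u` over `F₀`;
* `loc_norm_eq_prod`: the image of the norm is the product of the conjugates `σ x f`.
-/

set_option autoImplicit false

noncomputable section

open Polynomial

namespace Fermat.Agent.S24.H144

section General

variable {F₀ F Ω : Type*} [Field F₀] [Field F] [Algebra F₀ F] [FiniteDimensional F₀ F]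
  [Algebra.IsSeparable F₀ F] [Field Ω] [IsAlgClosed Ω] [Algebra F₀ Ω]
variable {X : Type*} [Finite X]

/-- An injective family of `finrank` many embeddings into an algebraically closed field is the
family of all embeddings. -/
theorem loc_algHom_bijective (ψ : X → (F →ₐ[F₀] Ω)) (hψ : Function.Injective ψ)
    (hcard : Module.finrank F₀ F = Nat.card X) : Function.Bijective ψ := by
  apply hψ.bijective_of_nat_card_le
  rw [← hcard, ← AlgHom.card F₀ F Ω, Fintype.card_eq_nat_card]

end General

section Emb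

variable {F₀ F E : Type*} [Field F₀] [Field F] [Algebra F₀ F] [FiniteDimensional F₀ F]
  [Algebra.IsSeparable F₀ F] [Field E]
variable {X : Type*} [Finite X]

/-- If all conjugates `σ x u` lie in a subring `O ⊆ E`, then the images of the coefficients of
the minimal polynomial of `u` over `F₀` lie in `O`. -/
theorem loc_minpoly_coeff_mem (σ : X → (F →+* E)) (hinj : Function.Injective σ)
    (hagree : ∀ (x y : X) (c : F₀), σ x (algebraMap F₀ F c) = σ y (algebraMap F₀ F c))
    (hcard : Module.finrank F₀ F = Nat.card X)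
    (O : Subring E) (u : F) (hu : ∀ x, σ x u ∈ O) (x₀ : X) (i : ℕ) :
    σ x₀ (algebraMap F₀ F ((minpoly F₀ u).coeff i)) ∈ O := by
  classical
  let φ : F₀ →+* AlgebraicClosure E :=
    (algebraMap E (AlgebraicClosure E)).comp ((σ x₀).comp (algebraMap F₀ F))
  letI : Algebra F₀ (AlgebraicClosure E) := φ.toAlgebra
  have hφ : ∀ c : F₀, algebraMap F₀ (AlgebraicClosure E) c
      = algebraMap E (AlgebraicClosure E) (σ x₀ (algebraMap F₀ F c)) := fun c => rfl
  let ψ : X → (F →ₐ[F₀] AlgebraicClosure E) := fun x =>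
    { ((algebraMap E (AlgebraicClosure E)).comp (σ x)) with
      commutes' := fun c => by
        change algebraMap E (AlgebraicClosure E) (σ x (algebraMap F₀ F c))
          = algebraMap F₀ (AlgebraicClosure E) c
        rw [hφ, hagree x x₀] }
  have hψ_apply : ∀ x f, ψ x f = algebraMap E (AlgebraicClosure E) (σ x f) := fun _ _ => rfl
  have hψinj : Function.Injective ψ := by
    intro x y hxy
    apply hinj
    ext f
    have h := congrArg (fun τ : F →ₐ[F₀] AlgebraicClosure E => τ f) hxy
    exact (algebraMap E (AlgebraicClosure E)).injective h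
  have hbij := loc_algHom_bijective ψ hψinj hcard
  have hint : IsIntegral F₀ u := Algebra.IsIntegral.isIntegral u
  have hmonic : ((minpoly F₀ u).map (algebraMap F₀ (AlgebraicClosure E))).Monic :=
    (minpoly.monic hint).map _
  have hsplit : ((minpoly F₀ u).map (algebraMap F₀ (AlgebraicClosure E))).Splits :=
    IsAlgClosed.splits _
  let g : O →+* AlgebraicClosure E := (algebraMap E (AlgebraicClosure E)).comp O.subtype
  have hroots : ∀ r ∈ ((minpoly F₀ u).map (algebraMap F₀ (AlgebraicClosure E))).roots,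
      r ∈ g.range := by
    intro r hr
    have hr' : r ∈ (minpoly F₀ u).rootSet (AlgebraicClosure E) := by
      rw [Polynomial.rootSet_def, Finset.mem_coe, Multiset.mem_toFinset]
      exact hr
    rw [← Algebra.IsAlgebraic.range_eval_eq_rootSet_minpoly] at hr'
    obtain ⟨τ, rfl⟩ := hr'
    obtain ⟨x, rfl⟩ := hbij.2 τ
    exact ⟨⟨σ x u, hu x⟩, rfl⟩
  have hlift := hsplit.mem_lift_of_roots_mem_range hmonic g hroots
  obtain ⟨o, ho⟩ := (lifts_iff_coeff_lifts _).mp hlift i
  rw [coeff_map, hφ] at ho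
  have h := (algebraMap E (AlgebraicClosure E)).injective ho
  rw [← h]
  exact o.2

/-- The image of the norm is the product of the conjugates. -/
theorem loc_norm_eq_prod [Fintype X] (σ : X → (F →+* E)) (hinj : Function.Injective σ)
    (hagree : ∀ (x y : X) (c : F₀), σ x (algebraMap F₀ F c) = σ y (algebraMap F₀ F c))
    (hcard : Module.finrank F₀ F = Nat.card X) (f : F) (x₀ : X) :
    σ x₀ (algebraMap F₀ F (Algebra.norm F₀ f)) = ∏ x, σ x f := by
  classical
  let φ : F₀ →+* AlgebraicClosure E :=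
    (algebraMap E (AlgebraicClosure E)).comp ((σ x₀).comp (algebraMap F₀ F))
  letI : Algebra F₀ (AlgebraicClosure E) := φ.toAlgebra
  have hφ : ∀ c : F₀, algebraMap F₀ (AlgebraicClosure E) c
      = algebraMap E (AlgebraicClosure E) (σ x₀ (algebraMap F₀ F c)) := fun c => rfl
  let ψ : X → (F →ₐ[F₀] AlgebraicClosure E) := fun x =>
    { ((algebraMap E (AlgebraicClosure E)).comp (σ x)) with
      commutes' := fun c => by
        change algebraMap E (AlgebraicClosure E) (σ x (algebraMap F₀ F c))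
          = algebraMap F₀ (AlgebraicClosure E) c
        rw [hφ, hagree x x₀] }
  have hψ_apply : ∀ x f, ψ x f = algebraMap E (AlgebraicClosure E) (σ x f) := fun _ _ => rfl
  have hψinj : Function.Injective ψ := by
    intro x y hxy
    apply hinj
    ext f
    have h := congrArg (fun τ : F →ₐ[F₀] AlgebraicClosure E => τ f) hxy
    exact (algebraMap E (AlgebraicClosure E)).injective h
  have hbij := loc_algHom_bijective ψ hψinj hcard
  apply (algebraMap E (AlgebraicClosure E)).injective
  rw [← hφ, Algebra.norm_eq_prod_embeddings F₀ (AlgebraicClosure E) f, map_prod]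
  exact (Fintype.prod_bijective ψ hbij _ _ (fun x => hψ_apply x f)).symm

end Emb

end Fermat.Agent.S24.H144

end
end
-- ===== PACK-END S24/Alg/LocEmb.lean

-- ===== PACK-BEGIN S29/H942/MeroRootFinite.lean
section


/-!
# `p`-th roots of meromorphic functions with finitely many zeros and poles on simply connected
open sets
-/

set_option autoImplicit false

noncomputable section

open Filter Topology Set Complex MeromorphicOn Function

namespace Fermat.Agent.S29.H942

/-- The `p`-th power of the factorized rational function with exponents `e` is the factorized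
rational function with exponents `p * e`. -/
lemma factorizedRational_pow {e : ℂ → ℤ} (he : e.HasFiniteSupport) (p : ℕ) :
    (∏ᶠ u, ((· - u) : ℂ → ℂ) ^ e u) ^ p = ∏ᶠ u, ((· - u) : ℂ → ℂ) ^ ((p : ℤ) * e u) := by
  have h1 : (fun u => ((· - u) : ℂ → ℂ) ^ e u).HasFiniteMulSupport := by
    have := FactorizedRational.mulSupport e
    unfold Function.HasFiniteMulSupport
    rw [this]
    exact he
  rw [finprod_pow h1]
  refine finprod_congr fun u => ?_
  rw [← zpow_natCast, ← zpow_mul, mul_comm]

/-- **Finite case.** A meromorphic function on a simply connected open set with finitely many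
zeros and poles, all of order divisible by `p`, has a meromorphic `p`-th root. -/
theorem exists_meromorphicOn_pow_eq_of_finite {f : ℂ → ℂ} {U : Set ℂ}
    (hUc : IsSimplyConnected U) (hU : IsOpen U) (hf : MeromorphicOn f U)
    (h₂f : ∀ u : U, meromorphicOrderAt f u ≠ ⊤) (h₃f : (divisor f U).support.Finite)
    {p : ℕ} (hp : p ≠ 0) (hdiv : ∀ z, (p : ℤ) ∣ divisor f U z) :
    ∃ h : ℂ → ℂ, MeromorphicOn h U ∧ (h ^ p) =ᶠ[codiscreteWithin U] f := by
  obtain ⟨g, hg, hgne, hfg⟩ := hf.extract_zeros_poles h₂f h₃f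
  obtain ⟨r, hr, hrp⟩ := exists_analyticOnNhd_pow_eq hUc hU hp hg (fun z hz => hgne ⟨z, hz⟩)
  set e : ℂ → ℤ := fun u => divisor f U u / (p : ℤ) with he
  have hpe : ∀ u, (p : ℤ) * e u = divisor f U u := fun u => Int.mul_ediv_cancel' (hdiv u)
  have hesupp : e.HasFiniteSupport := by
    refine Set.Finite.subset h₃f ?_
    intro u hu
    simp only [Function.mem_support, ne_eq] at hu ⊢
    intro h0
    apply hu
    simp [he, h0]
  refine ⟨(∏ᶠ u, ((· - u) : ℂ → ℂ) ^ e u) * r, ?_, ?_⟩
  · exact ((FactorizedRational.meromorphicNFOn e U).meromorphicOn).mul hr.meromorphicOn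
  · have h1 : ((∏ᶠ u, ((· - u) : ℂ → ℂ) ^ e u) * r) ^ p =
        (∏ᶠ u, ((· - u) : ℂ → ℂ) ^ divisor f U u) • g := by
      rw [mul_pow, factorizedRational_pow hesupp]
      simp_rw [hpe]
      ext z
      simp [hrp z]
    rw [h1]
    exact hfg.symm

end Fermat.Agent.S29.H942

end
end
-- ===== PACK-END S29/H942/MeroRootFinite.lean

-- ===== PACK-BEGIN S28/H326/Integral.lean
section
/-
S28 / helper326: integrality bookkeeping for Laurent series over `ℂ`:
* `IntCoeff` : the subring of series all of whose coefficients are algebraic integers;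
* `jP p = j(t^p)` and the leading-coefficient lemma for `Q(j(t^p))`;
* `exists_int_poly_of_integral` : `Q ∈ ℚ[X]` with `Q(j(t^p))` having algebraic-integer
  coefficients has integer coefficients.
-/




set_option autoImplicit false
set_option linter.unusedSectionVars false

noncomputable section

namespace Fermat.Agent.S28.H326

open ModularCurve HahnSeries

/-- Laurent series over `ℂ` whose coefficients are all algebraic integers. -/
def IntCoeff : Subring (LaurentSeries ℂ) where
  carrier := {x | ∀ n, IsIntegral ℤ (x.coeff n)}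
  mul_mem' {x y} hx hy n := by
    rw [HahnSeries.coeff_mul]
    exact IsIntegral.sum _ fun ij _ => (hx _).mul (hy _)
  one_mem' n := by
    rw [HahnSeries.coeff_one]
    split_ifs
    · exact isIntegral_one
    · exact isIntegral_zero
  add_mem' {x y} hx hy n := by
    rw [HahnSeries.coeff_add]
    exact (hx n).add (hy n)
  zero_mem' n := by
    rw [HahnSeries.coeff_zero]
    exact isIntegral_zero
  neg_mem' {x} hx n := by
    rw [HahnSeries.coeff_neg]
    exact (hx n).neg

theorem mem_IntCoeff {x : LaurentSeries ℂ} : x ∈ IntCoeff ↔ ∀ n, IsIntegral ℤ (x.coeff n) :=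
  Iff.rfl

/-- coefficient cast `ℤ((q)) → ℂ((q))` -/
abbrev kap : LaurentSeries ℤ →+* LaurentSeries ℂ := coeffMap (Int.castRingHom ℂ)

theorem kap_injective : Function.Injective kap := by
  intro x y h
  ext n
  have := congrArg (fun z => z.coeff n) h
  simpa using this

theorem kap_mem_IntCoeff (x : LaurentSeries ℤ) : kap x ∈ IntCoeff := fun n => by
  rw [coeffMap_coeff]
  exact isIntegral_algebraMap (R := ℤ) (A := ℂ) (x := x.coeff n)

variable (p : ℕ) [NeZero p]

theorem qExpand_mem_IntCoeff {x : LaurentSeries ℂ} (hx : x ∈ IntCoeff) :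
    qExpand ℂ p x ∈ IntCoeff := fun n => by
  by_cases h : (p : ℤ) ∣ n
  · obtain ⟨m, rfl⟩ := h
    rw [qExpand_coeff_mul]
    exact hx m
  · rw [qExpand_coeff_of_not_dvd p _ h]
    exact isIntegral_zero

theorem zeta_isIntegral : IsIntegral ℤ (zeta p) :=
  (zeta_isPrimitiveRoot p).isIntegral (Nat.pos_of_ne_zero (NeZero.ne p))

theorem cB_mem_IntCoeff (b : ℕ) (g : PowerSeries ℤ) :
    cB p b (g.map (Int.castRingHom ℂ)) ∈ IntCoeff := fun n => by
  rcases lt_or_ge n 0 with hn | hn
  · rw [cB_coeff_neg p b _ hn]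
    exact isIntegral_zero
  · lift n to ℕ using hn
    rw [cB_coeff_nat, PowerSeries.coeff_map]
    exact (((zeta_isIntegral p).pow b).pow n).mul
      (isIntegral_algebraMap (R := ℤ) (A := ℂ) (x := g.coeff n))

/-- `j(t^p)` over `ℂ`. -/
def jP : LaurentSeries ℂ := qExpand ℂ p (jqModC ℂ)

theorem jP_pow_coeff_self (n : ℕ) : (jP p ^ n).coeff (-((p : ℤ) * n)) = 1 := by
  rw [jP, ← map_pow, show -((p : ℤ) * n) = (p : ℤ) * (-(n : ℤ)) by ring, qExpand_coeff_mul,
    coeff_jqModC_pow_self]

theorem jP_pow_coeff_of_lt {i n : ℕ} (h : i < n) : (jP p ^ i).coeff (-((p : ℤ) * n)) = 0 := by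
  rw [jP, ← map_pow, show -((p : ℤ) * n) = (p : ℤ) * (-(n : ℤ)) by ring, qExpand_coeff_mul]
  exact coeff_jqModC_pow_of_lt ℂ (by omega)

theorem jP_pow_mem_IntCoeff (n : ℕ) : jP p ^ n ∈ IntCoeff := by
  refine Subring.pow_mem _ ?_ n
  rw [jP, ← coeffMap_jqModC (Int.castRingHom ℂ)]
  exact qExpand_mem_IntCoeff p (kap_mem_IntCoeff _)

theorem ratCast_mul_coeff (c : ℚ) (x : LaurentSeries ℂ) (n : ℤ) :
    ((c : LaurentSeries ℂ) * x).coeff n = (c : ℂ) * x.coeff n := by
  have : (c : LaurentSeries ℂ) = HahnSeries.C (c : ℂ) := (map_ratCast HahnSeries.C c).symm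
  rw [this, HahnSeries.C_mul_eq_smul, HahnSeries.coeff_smul, smul_eq_mul]

theorem rat_algebraMap_mul_coeff (c : ℚ) (x : LaurentSeries ℂ) (n : ℤ) :
    (algebraMap ℚ (LaurentSeries ℂ) c * x).coeff n = (c : ℂ) * x.coeff n := by
  rw [eq_ratCast, ratCast_mul_coeff]

/-- leading coefficient of `Q(j(t^p))` -/
theorem aeval_jP_coeff (Q : Polynomial ℚ) {n : ℕ} (hn : Q.natDegree ≤ n) :
    (Polynomial.aeval (jP p) Q).coeff (-((p : ℤ) * n)) = (Q.coeff n : ℂ) := by
  rw [Polynomial.aeval_eq_sum_range' (Nat.lt_succ_of_le hn), HahnSeries.coeff_sum,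
    Finset.sum_range_succ]
  rw [Finset.sum_eq_zero, zero_add, Algebra.smul_def, rat_algebraMap_mul_coeff,
    jP_pow_coeff_self, mul_one]
  · intro i hi
    rw [Algebra.smul_def, rat_algebraMap_mul_coeff, jP_pow_coeff_of_lt p (Finset.mem_range.mp hi),
      mul_zero]

theorem rat_of_isIntegral {a : ℚ} (h : IsIntegral ℤ (a : ℂ)) : ∃ m : ℤ, (m : ℚ) = a := by
  have h1 : IsIntegral ℤ a := by
    have := (isIntegral_algebraMap_iff (R := ℤ) (A := ℚ) (B := ℂ)
      (algebraMap ℚ ℂ).injective (x := a)).mp (by simpa using h)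
    exact this
  obtain ⟨m, hm⟩ := IsIntegrallyClosed.isIntegral_iff.mp h1
  exact ⟨m, by simpa using hm⟩

/-- **Integrality by leading terms**: if `Q(j(t^p))` has algebraic-integer coefficients,
then `Q` has integer coefficients. -/
theorem exists_int_poly_of_integral (Q : Polynomial ℚ)
    (h : Polynomial.aeval (jP p) Q ∈ IntCoeff) :
    ∃ Q' : Polynomial ℤ, Q'.map (Int.castRingHom ℚ) = Q := by
  suffices H : ∀ d : ℕ, ∀ Q : Polynomial ℚ, Q.natDegree < d →
      Polynomial.aeval (jP p) Q ∈ IntCoeff → ∃ Q' : Polynomial ℤ,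
        Q'.map (Int.castRingHom ℚ) = Q from H (Q.natDegree + 1) Q (Nat.lt_succ_self _) h
  intro d
  induction d with
  | zero => intro Q hQ; omega
  | succ d ih =>
    intro Q hQ hint
    have hle : Q.natDegree ≤ d := Nat.lt_succ_iff.mp hQ
    have hlead := aeval_jP_coeff p Q hle
    obtain ⟨m, hm⟩ := rat_of_isIntegral (hlead ▸ hint _)
    set Q1 : Polynomial ℚ := Q - Polynomial.C (Q.coeff d) * Polynomial.X ^ d with hQ1
    have hdeg : Q1.natDegree < d ∨ Q1 = 0 := by
      by_cases h0 : Q1 = 0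
      · exact Or.inr h0
      left
      have h1 : Q1.natDegree ≤ d := by
        refine (Polynomial.natDegree_sub_le _ _).trans (max_le hle ?_)
        exact Polynomial.natDegree_C_mul_X_pow_le _ _
      rcases Nat.lt_or_ge Q1.natDegree d with h2 | h2
      · exact h2
      · have h3 : Q1.natDegree = d := le_antisymm h1 h2
        have h4 : Q1.coeff d = 0 := by
          simp [hQ1]
        have h5 : Q1.leadingCoeff = 0 := by
          rw [Polynomial.leadingCoeff, h3, h4]
        exact absurd (Polynomial.leadingCoeff_eq_zero.mp h5) h0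
    have hint1 : Polynomial.aeval (jP p) Q1 ∈ IntCoeff := by
      rw [hQ1, map_sub, map_mul, Polynomial.aeval_C, map_pow, Polynomial.aeval_X]
      refine Subring.sub_mem _ hint ?_
      rw [← hm]
      have : algebraMap ℚ (LaurentSeries ℂ) (m : ℚ) = ((m : ℤ) : LaurentSeries ℂ) := by
        simp
      rw [this]
      exact Subring.mul_mem _ (intCast_mem _ m) (jP_pow_mem_IntCoeff p d)
    have hQ1' : ∃ Q' : Polynomial ℤ, Q'.map (Int.castRingHom ℚ) = Q1 := by
      rcases hdeg with h1 | h1
      · rcases Nat.eq_zero_or_pos d with hd | hd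
        · omega
        · exact ih Q1 (by omega) hint1 |>.elim (fun Q' h' => ⟨Q', h'⟩) |> fun x => x
      · exact ⟨0, by simp [h1]⟩
    obtain ⟨Q', hQ'⟩ := hQ1'
    refine ⟨Q' + Polynomial.C m * Polynomial.X ^ d, ?_⟩
    rw [Polynomial.map_add, hQ', Polynomial.map_mul, Polynomial.map_pow, Polynomial.map_X,
      Polynomial.map_C, hQ1]
    simp [hm]

end Fermat.Agent.S28.H326

end
end
-- ===== PACK-END S28/H326/Integral.lean

-- ===== PACK-BEGIN S18/H333/Forms.lean
section




/-!
# S18 / c3 (helper333): level-one forms on `Γ₀(p)` — restriction and `V_p`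

* `restr p H` : a level-one modular form `H` viewed on `Γ₀(p)`;
* `raise p H` : `τ ↦ H (p τ)` as a modular form on `Γ₀(p)`;
* `qExpansion_raise` : the `q`-expansion of `raise p H` is `Vser p (qExpansion H)`.
-/

set_option autoImplicit false
set_option linter.unusedSectionVars false

noncomputable section

namespace Fermat.Agent.S18.H333

open UpperHalfPlane ModularForm CongruenceSubgroup MatrixGroups Matrix.SpecialLinearGroup

variable (p : ℕ) [NeZero p]

theorem det_eq_one' (g : SL(2, ℤ)) : g 0 0 * g 1 1 - g 0 1 * g 1 0 = 1 := by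
  have h := g.det_coe
  rwa [Matrix.det_fin_two] at h

theorem diag_mul_mapGL (g : SL(2, ℤ)) (e : ℤ) (he : g 1 0 = p * e) :
    ∃ g' : SL(2, ℤ), heckeDiagMatrix p * mapGL ℝ g = mapGL ℝ g' * heckeDiagMatrix p := by
  have hp := NeZero.ne p
  have hdet := det_eq_one' g
  obtain ⟨g', hg'⟩ : ∃ g' : SL(2, ℤ),
      (g' : Matrix (Fin 2) (Fin 2) ℤ) = !![g 0 0, p * g 0 1; e, g 1 1] := by
    refine ⟨⟨!![g 0 0, p * g 0 1; e, g 1 1], ?_⟩, rfl⟩
    rw [Matrix.det_fin_two_of]
    linear_combination hdet + (g 0 1) * he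
  refine ⟨g', ?_⟩
  apply Units.ext
  rw [Units.val_mul, Units.val_mul, val_heckeDiagMatrix hp, mapGL_coe_matrix, mapGL_coe_matrix]
  have he' : ((g 1 0 : ℤ) : ℝ) = p * e := by exact_mod_cast he
  ext i j
  fin_cases i <;> fin_cases j <;>
    simp [Matrix.mul_apply, Fin.sum_univ_two, he', hg'] <;> ring

open ConjAct Pointwise in
theorem Gamma0_le_conj_diag :
    (Gamma0 p : Subgroup (GL (Fin 2) ℝ)) ≤
      toConjAct (heckeDiagMatrix p)⁻¹ • (𝒮ℒ : Subgroup (GL (Fin 2) ℝ)) := by
  rintro _ ⟨g, hg, rfl⟩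
  obtain ⟨e, he⟩ : (p : ℤ) ∣ g 1 0 := by
    have hg' : g ∈ Gamma0 p := hg
    rwa [CongruenceSubgroup.Gamma0_mem, ZMod.intCast_zmod_eq_zero_iff_dvd] at hg'
  obtain ⟨g', hg'⟩ := diag_mul_mapGL p g e he
  rw [Subgroup.mem_pointwise_smul_iff_inv_smul_mem, ← toConjAct_inv, inv_inv, toConjAct_smul, hg',
    mul_inv_cancel_right]
  exact ⟨g', rfl⟩

omit [NeZero p] in
theorem Gamma0_le_top : (Gamma0 p : Subgroup (GL (Fin 2) ℝ)) ≤ (𝒮ℒ : Subgroup (GL (Fin 2) ℝ)) := by
  rintro _ ⟨g, -, rfl⟩
  exact ⟨g, rfl⟩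

/-- `H ∣[k] diag(p,1)`, i.e. `τ ↦ p^(k-1) H(p τ)`, as a modular form on `Γ₀(p)`. -/
def raise0 {k : ℤ} (H : ModularForm 𝒮ℒ k) : ModularForm (Gamma0 p) k where
  toFun := (⇑H : ℍ → ℂ) ∣[k] heckeDiagMatrix p
  slash_action_eq' γ hγ :=
    (ModularForm.translate H (heckeDiagMatrix p)).slash_action_eq' γ
      (Gamma0_le_conj_diag p hγ)
  holo' := (ModularForm.translate H (heckeDiagMatrix p)).holo'
  bdd_at_cusps' hc :=
    (ModularForm.translate H (heckeDiagMatrix p)).bdd_at_cusps'
      (hc.mono (Gamma0_le_conj_diag p))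

/-- a level-one form viewed on `Γ₀(p)` -/
def restr {k : ℤ} (H : ModularForm 𝒮ℒ k) : ModularForm (Gamma0 p) k where
  toFun := (⇑H : ℍ → ℂ)
  slash_action_eq' γ hγ := H.slash_action_eq' γ (Gamma0_le_top p hγ)
  holo' := H.holo'
  bdd_at_cusps' hc := H.bdd_at_cusps' (hc.mono (Gamma0_le_top p))

@[simp] theorem coe_restr {k : ℤ} (H : ModularForm 𝒮ℒ k) : (⇑(restr p H) : ℍ → ℂ) = ⇑H := rfl

/-- `τ ↦ H(p τ)` as a modular form on `Γ₀(p)`. -/
def raise {k : ℤ} (H : ModularForm 𝒮ℒ k) : ModularForm (Gamma0 p) k :=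
  ((p : ℂ) ^ (1 - k)) • raise0 p H

theorem raise_apply {k : ℤ} (H : ModularForm 𝒮ℒ k) (τ : ℍ) :
    raise p H τ = H (heckeDiagMatrix p • τ) := by
  have hp' : (p : ℂ) ≠ 0 := by exact_mod_cast NeZero.ne p
  show ((p : ℂ) ^ (1 - k)) • ((⇑H : ℍ → ℂ) ∣[k] heckeDiagMatrix p) τ = _
  rw [slash_heckeDiagMatrix_apply k (NeZero.ne p), smul_eq_mul, ← mul_assoc, ← zpow_add₀ hp']
  simp

theorem one_mem_strictPeriods_Gamma0 :
    (1 : ℝ) ∈ (Gamma0 p : Subgroup (GL (Fin 2) ℝ)).strictPeriods := by
  simp [CongruenceSubgroup.strictPeriods_Gamma0]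

theorem one_mem_strictPeriods_top :
    (1 : ℝ) ∈ (𝒮ℒ : Subgroup (GL (Fin 2) ℝ)).strictPeriods := by
  simp

theorem qParam_diag (τ : ℍ) :
    Function.Periodic.qParam 1 ((heckeDiagMatrix p • τ : ℍ) : ℂ) =
      Function.Periodic.qParam 1 (τ : ℂ) ^ p := by
  rw [coe_heckeDiagMatrix_smul (NeZero.ne p), Function.Periodic.qParam,
    Function.Periodic.qParam, ← Complex.exp_nat_mul]
  congr 1
  push_cast
  ring

theorem qExpansion_raise {k : ℤ} (H : ModularForm 𝒮ℒ k) :
    qExpansion 1 (raise p H) = Vser p (qExpansion 1 H) := by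
  ext n
  symm
  refine ModularFormClass.qExpansion_coeff_unique (h := 1)
    (c := fun n => PowerSeries.coeff n (Vser p (qExpansion 1 H))) one_pos
    (_root_.Fermat.Agent.S18.H333.one_mem_strictPeriods_Gamma0 p) (f := raise p H) (fun τ => ?_) n
  rw [raise_apply]
  have h1 := ModularForm.hasSum_qExpansion (f := H) one_pos one_mem_strictPeriods_top
    (heckeDiagMatrix p • τ)
  rw [qParam_diag] at h1
  have hinj : Function.Injective (fun m : ℕ => p * m) :=
    fun a b hab => Nat.eq_of_mul_eq_mul_left (Nat.pos_of_ne_zero (NeZero.ne p)) hab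
  refine (hinj.hasSum_iff ?_).mp ?_
  · intro n hn
    have : ¬ p ∣ n := fun ⟨m, hm⟩ => hn ⟨m, hm.symm⟩
    simp [this]
  · convert h1 using 2 with m
    simp only [Function.comp_apply, coeff_Vser, dvd_mul_right, if_true,
      Nat.mul_div_cancel_left m (Nat.pos_of_ne_zero (NeZero.ne p)), smul_eq_mul, pow_mul]

end Fermat.Agent.S18.H333

end
end
-- ===== PACK-END S18/H333/Forms.lean

-- ===== PACK-BEGIN S20/Comb/Fixed.lean
section


/-!
# Fixed points of `S` and `S * T` on `SL(2,ℤ) ⧸ Gamma0 N`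

* `card_fixedBy_S : Nat.card (MulAction.fixedBy (SL(2,ℤ) ⧸ Gamma0 N) S) = nuTwo N`
* `card_fixedBy_ST : Nat.card (MulAction.fixedBy (SL(2,ℤ) ⧸ Gamma0 N) (S * T)) = nuThree N`
-/

set_option autoImplicit false

namespace Fermat.Agent.S20.Comb

open Matrix MatrixGroups CongruenceSubgroup

variable (N : ℕ)

/-- From a root of `x² + 1` in `ZMod N` to a fixed point of `S`. -/
noncomputable def rootToFixedS (x : {x : ZMod N // x ^ 2 + 1 = 0}) :
    MulAction.fixedBy (SL(2, ℤ) ⧸ Gamma0 N) ModularGroup.S :=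
  ⟨QuotientGroup.mk (colRep (ZMod.cast x.1 : ℤ)), by
    rw [MulAction.mem_fixedBy, S_smul_mk_eq_mk_iff]
    simp only [colRep_apply_zero_zero, colRep_apply_one_zero, ZMod.intCast_zmod_cast,
      Int.cast_one, one_pow]
    exact x.2⟩

lemma rootToFixedS_bijective : Function.Bijective (rootToFixedS N) := by
  constructor
  · rintro ⟨x, hx⟩ ⟨y, hy⟩ h
    have h' := congrArg Subtype.val h
    simp only [rootToFixedS] at h'
    rw [mk_eq_mk_iff] at h'
    simp only [colRep_apply_zero_zero, colRep_apply_one_zero, ZMod.intCast_zmod_cast,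
      Int.cast_one, mul_one, one_mul] at h'
    exact Subtype.ext (sub_eq_zero.mp h')
  · rintro ⟨q, hq⟩
    obtain ⟨g, rfl⟩ := QuotientGroup.mk_surjective q
    rw [MulAction.mem_fixedBy, S_smul_mk_eq_mk_iff] at hq
    have hinv := c_mul_inv_eq_one N g (-((g 1 0 : ℤ) : ZMod N)) (by linear_combination hq)
    set a : ZMod N := ((g 0 0 : ℤ) : ZMod N) with ha
    set c : ZMod N := ((g 1 0 : ℤ) : ZMod N) with hc
    set i : ZMod N := (-c * ((g 1 1 : ℤ) : ZMod N) ^ 2
        - 2 * a * ((g 0 1 : ℤ) : ZMod N) * ((g 1 1 : ℤ) : ZMod N)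
        + ((g 0 1 : ℤ) : ZMod N) ^ 2 * c) with hi
    refine ⟨⟨a * i, ?_⟩, ?_⟩
    · linear_combination (i ^ 2) * hq - (c * i + 1) * hinv
    · apply Subtype.ext
      simp only [rootToFixedS]
      rw [mk_eq_mk_iff]
      simp only [colRep_apply_zero_zero, colRep_apply_one_zero, ZMod.intCast_zmod_cast,
        Int.cast_one, one_mul]
      linear_combination a * hinv

/-- **(I2)** The number of fixed points of `S` on `SL(2,ℤ) ⧸ Γ₀(N)` is `ν₂(N)`. -/
theorem card_fixedBy_S :
    Nat.card (MulAction.fixedBy (SL(2, ℤ) ⧸ Gamma0 N) ModularGroup.S) = ModularCurve.nuTwo N := by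
  rw [ModularCurve.nuTwo]
  exact (Nat.card_eq_of_bijective _ (rootToFixedS_bijective N)).symm

/-- From a root of `x² + x + 1` in `ZMod N` to a fixed point of `S * T`. -/
noncomputable def rootToFixedST (x : {x : ZMod N // x ^ 2 + x + 1 = 0}) :
    MulAction.fixedBy (SL(2, ℤ) ⧸ Gamma0 N) (ModularGroup.S * ModularGroup.T) :=
  ⟨QuotientGroup.mk (colRep (ZMod.cast x.1 : ℤ)), by
    rw [MulAction.mem_fixedBy, ST_smul_mk_eq_mk_iff]
    simp only [colRep_apply_zero_zero, colRep_apply_one_zero, ZMod.intCast_zmod_cast,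
      Int.cast_one, one_pow, mul_one]
    exact x.2⟩

lemma rootToFixedST_bijective : Function.Bijective (rootToFixedST N) := by
  constructor
  · rintro ⟨x, hx⟩ ⟨y, hy⟩ h
    have h' := congrArg Subtype.val h
    simp only [rootToFixedST] at h'
    rw [mk_eq_mk_iff] at h'
    simp only [colRep_apply_zero_zero, colRep_apply_one_zero, ZMod.intCast_zmod_cast,
      Int.cast_one, mul_one, one_mul] at h'
    exact Subtype.ext (sub_eq_zero.mp h')
  · rintro ⟨q, hq⟩
    obtain ⟨g, rfl⟩ := QuotientGroup.mk_surjective q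
    rw [MulAction.mem_fixedBy, ST_smul_mk_eq_mk_iff] at hq
    have hinv := c_mul_inv_eq_one N g (-((g 0 0 : ℤ) : ZMod N) - ((g 1 0 : ℤ) : ZMod N))
      (by linear_combination hq)
    set a : ZMod N := ((g 0 0 : ℤ) : ZMod N) with ha
    set c : ZMod N := ((g 1 0 : ℤ) : ZMod N) with hc
    set i : ZMod N := ((-a - c) * ((g 1 1 : ℤ) : ZMod N) ^ 2
        - 2 * a * ((g 0 1 : ℤ) : ZMod N) * ((g 1 1 : ℤ) : ZMod N)
        + ((g 0 1 : ℤ) : ZMod N) ^ 2 * c) with hi
    refine ⟨⟨a * i, ?_⟩, ?_⟩
    · linear_combination (i ^ 2) * hq - (c * i + 1 + a * i) * hinv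
    · apply Subtype.ext
      simp only [rootToFixedST]
      rw [mk_eq_mk_iff]
      simp only [colRep_apply_zero_zero, colRep_apply_one_zero, ZMod.intCast_zmod_cast,
        Int.cast_one, one_mul]
      linear_combination a * hinv

/-- **(I3)** The number of fixed points of `S * T` on `SL(2,ℤ) ⧸ Γ₀(N)` is `ν₃(N)`. -/
theorem card_fixedBy_ST :
    Nat.card (MulAction.fixedBy (SL(2, ℤ) ⧸ Gamma0 N) (ModularGroup.S * ModularGroup.T))
      = ModularCurve.nuThree N := by
  rw [ModularCurve.nuThree]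
  exact (Nat.card_eq_of_bijective _ (rootToFixedST_bijective N)).symm

end Fermat.Agent.S20.Comb

end
-- ===== PACK-END S20/Comb/Fixed.lean

-- ===== PACK-BEGIN S18/H138/ChartsConst.lean
section


/-!
# S18, Route K, ASM (helper138): constants and finiteness of the charts

* `mem_range_of_mem_adjoin_inter` : `R[x] ∩ R[x⁻¹] = R` for `x` transcendental over `R`.
* `isIntegral_of_mem_chart_inter` : an element of `F` integral over `R[x]` and over `R[x⁻¹]` is
  integral over `R` (for `R[X]` integrally closed, e.g. `R` a DVR).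
* `exists_finite_gens`            : `B_fin` is generated over `R` by finitely many `x ^ j * bs i`.
-/

set_option autoImplicit false
set_option linter.style.haveILetI false

namespace Fermat.Agent.S18.H138

open Polynomial

variable {R : Type*} [CommRing R] {F : Type*} [Field F] [Algebra R F]

theorem mem_adjoin_singleton_iff {x c : F} :
    c ∈ Algebra.adjoin R ({x} : Set F) ↔ ∃ P : R[X], aeval x P = c := by
  rw [Algebra.adjoin_singleton_eq_range_aeval]
  rfl

/-- `x ^ d * Q(x⁻¹) = (reflect d Q)(x)` for `natDegree Q ≤ d`. -/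
theorem pow_mul_aeval_inv {x : F} (hx : x ≠ 0) (Q : R[X]) {d : ℕ} (hd : Q.natDegree ≤ d) :
    x ^ d * aeval x⁻¹ Q = aeval x (reflect d Q) := by
  letI : Invertible x := invertibleOfNonzero hx
  have h := eval₂_reflect_mul_pow (algebraMap R F) x d (reflect d Q)
    (le_trans natDegree_reflect_le (by simp [hd]))
  rw [reflect_reflect] at h
  rw [invOf_eq_inv] at h
  rw [aeval_def, aeval_def, ← h, mul_comm]

theorem ne_zero_of_transcendental {x : F} (hx : Transcendental R x) : x ≠ 0 := by
  haveI : Nontrivial R := (algebraMap R F).domain_nontrivial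
  rintro rfl
  exact hx ⟨X, X_ne_zero, by simp⟩

theorem transcendental_inv {x : F} (hx : Transcendental R x) : Transcendental R x⁻¹ := by
  have hx0 : x ≠ 0 := ne_zero_of_transcendental hx
  rw [transcendental_iff] at hx ⊢
  intro Q hQ
  have h := pow_mul_aeval_inv (R := R) hx0 Q le_rfl
  rw [hQ, mul_zero] at h
  have h2 := hx _ h.symm
  have := congrArg (reflect Q.natDegree) h2
  rwa [reflect_reflect, reflect_zero] at this

/-- `R[x] ∩ R[x⁻¹] = R` inside `F`, for `x` transcendental over `R`. -/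
theorem mem_range_of_mem_adjoin_inter {x : F} (hx : Transcendental R x) {c : F}
    (h1 : c ∈ Algebra.adjoin R ({x} : Set F)) (h2 : c ∈ Algebra.adjoin R ({x⁻¹} : Set F)) :
    c ∈ Set.range (algebraMap R F) := by
  haveI : Nontrivial R := (algebraMap R F).domain_nontrivial
  have hx0 : x ≠ 0 := ne_zero_of_transcendental hx
  obtain ⟨P, rfl⟩ := mem_adjoin_singleton_iff.1 h1
  obtain ⟨Q, hQ⟩ := mem_adjoin_singleton_iff.1 h2
  have h := pow_mul_aeval_inv (R := R) hx0 Q le_rfl
  rw [hQ] at h
  have h3 : aeval x (X ^ Q.natDegree * P) = aeval x (reflect Q.natDegree Q) := by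
    rw [map_mul, map_pow, aeval_X, h]
  have h4 : X ^ Q.natDegree * P = reflect Q.natDegree Q := by
    have := (transcendental_iff.1 hx) (X ^ Q.natDegree * P - reflect Q.natDegree Q)
      (by rw [map_sub, h3, sub_self])
    exact sub_eq_zero.1 this
  by_cases hP : P = 0
  · subst hP
    exact ⟨0, by simp⟩
  have h5 : (X ^ Q.natDegree * P).natDegree = Q.natDegree + P.natDegree := by
    rw [natDegree_X_pow_mul _ hP, add_comm]
  have h6 : (reflect Q.natDegree Q).natDegree ≤ Q.natDegree :=
    le_trans natDegree_reflect_le (by simp)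
  rw [← h4, h5] at h6
  have h7 : P.natDegree = 0 := by omega
  obtain ⟨r, hr⟩ := natDegree_eq_zero.1 h7
  exact ⟨r, by rw [← hr]; simp⟩

section Integral

theorem isIntegrallyClosed_adjoin_singleton [IsIntegrallyClosed R[X]] {x : F}
    (hx : Transcendental R x) : IsIntegrallyClosed (Algebra.adjoin R ({x} : Set F)) := by
  have hinj : Function.Injective (aeval (R := R) x) :=
    (injective_iff_map_eq_zero _).2 (transcendental_iff.1 hx)
  let e : R[X] ≃ₐ[R] Algebra.adjoin R ({x} : Set F) :=
    (AlgEquiv.ofInjective (aeval (R := R) x) hinj).trans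
      (Subalgebra.equivOfEq _ _ (Algebra.adjoin_singleton_eq_range_aeval R x).symm)
  exact IsIntegrallyClosed.of_equiv e.toRingEquiv

theorem isNoetherianRing_adjoin_singleton [IsNoetherianRing R] {x : F}
    (hx : Transcendental R x) : IsNoetherianRing (Algebra.adjoin R ({x} : Set F)) := by
  have hinj : Function.Injective (aeval (R := R) x) :=
    (injective_iff_map_eq_zero _).2 (transcendental_iff.1 hx)
  let e : R[X] ≃ₐ[R] Algebra.adjoin R ({x} : Set F) :=
    (AlgEquiv.ofInjective (aeval (R := R) x) hinj).trans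
      (Subalgebra.equivOfEq _ _ (Algebra.adjoin_singleton_eq_range_aeval R x).symm)
  exact isNoetherianRing_of_ringEquiv _ e.toRingEquiv

/-- The field generated by `R` and `x` inside `F`. -/
def baseField (R : Type*) [CommRing R] {F : Type*} [Field F] [Algebra R F] (x : F) :
    Subfield F :=
  Subfield.closure (Set.range (algebraMap R F) ∪ {x})

theorem adjoin_le_baseField (x : F) {a : F} (ha : a ∈ Algebra.adjoin R ({x} : Set F)) :
    a ∈ baseField R x := by
  have : a ∈ (Algebra.adjoin R ({x} : Set F)).toSubring := ha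
  rw [Algebra.adjoin_eq_ring_closure] at this
  exact Subfield.subring_closure_le _ this

theorem inv_mem_baseField (x : F) : x⁻¹ ∈ baseField R x :=
  (baseField R x).inv_mem (Subfield.subset_closure (by simp))

theorem baseField_inv (x : F) : baseField R x⁻¹ = baseField R x := by
  apply le_antisymm
  · refine Subfield.closure_le.2 ?_
    rintro y (hy | hy)
    · exact Subfield.subset_closure (Or.inl hy)
    · rw [Set.mem_singleton_iff] at hy
      rw [hy]
      exact inv_mem_baseField x
  · refine Subfield.closure_le.2 ?_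
    rintro y (hy | hy)
    · exact Subfield.subset_closure (Or.inl hy)
    · rw [Set.mem_singleton_iff] at hy
      rw [hy]
      have := inv_mem_baseField (R := R) x⁻¹
      rwa [inv_inv] at this

theorem exists_div_of_mem_baseField (x : F) {z : F} (hz : z ∈ baseField R x) :
    ∃ a ∈ Algebra.adjoin R ({x} : Set F), ∃ b ∈ Algebra.adjoin R ({x} : Set F), z = a / b := by
  obtain ⟨a, ha, b, hb, rfl⟩ := Subfield.mem_closure_iff.1 hz
  rw [← Algebra.adjoin_eq_ring_closure] at ha hb
  exact ⟨a, ha, b, hb, rfl⟩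

/-- Coefficients of the minimal polynomial over the fraction field of an integrally closed
subalgebra `A` of `F` lie in `A`. -/
theorem minpoly_coeff_mem (A : Subalgebra R F) [IsIntegrallyClosed A] (K : Subfield F)
    (hAK : ∀ a ∈ A, a ∈ K) (hfrac : ∀ z ∈ K, ∃ a ∈ A, ∃ b ∈ A, z = a / b)
    {y : F} (hy : IsIntegral A y) (n : ℕ) :
    (((minpoly K y).coeff n : K) : F) ∈ A := by
  let φ : A →+* K :=
    { toFun := fun a => ⟨a, hAK a a.2⟩
      map_one' := rfl
      map_mul' := fun _ _ => rfl
      map_zero' := rfl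
      map_add' := fun _ _ => rfl }
  letI : Algebra A K := φ.toAlgebra
  haveI : IsScalarTower A K F := IsScalarTower.of_algebraMap_eq (fun _ => rfl)
  have hinj : Function.Injective (algebraMap A K) := by
    intro a b hab
    have : (a : F) = b := congrArg (fun t : K => (t : F)) hab
    exact Subtype.ext this
  haveI : FaithfulSMul A K := (faithfulSMul_iff_algebraMap_injective A K).2 hinj
  haveI : IsFractionRing A K := by
    refine IsFractionRing.of_field A K (fun z => ?_)
    obtain ⟨a, ha, b, hb, h⟩ := hfrac z z.2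
    exact ⟨⟨a, ha⟩, ⟨b, hb⟩, Subtype.ext h⟩
  have h := minpoly.isIntegrallyClosed_eq_field_fractions' (R := A) (S := F) K hy
  rw [h, coeff_map]
  exact ((minpoly A y).coeff n).2

/-- An element of `F` integral over `R[x]` and over `R[x⁻¹]` is integral over `R`. -/
theorem isIntegral_of_mem_chart_inter [IsIntegrallyClosed R[X]] {x : F}
    (hx : Transcendental R x) {y : F}
    (h1 : y ∈ chart R ({x} : Set F)) (h2 : y ∈ chart R ({x⁻¹} : Set F)) :
    IsIntegral R y := by
  have hx0 : x ≠ 0 := ne_zero_of_transcendental hx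
  have hxi : Transcendental R x⁻¹ := transcendental_inv hx
  haveI := isIntegrallyClosed_adjoin_singleton (R := R) hx
  haveI := isIntegrallyClosed_adjoin_singleton (R := R) hxi
  set K := baseField R x with hK
  have hc1 : ∀ n, (((minpoly K y).coeff n : K) : F) ∈ Algebra.adjoin R ({x} : Set F) :=
    minpoly_coeff_mem _ K (fun a ha => adjoin_le_baseField x ha)
      (fun z hz => exists_div_of_mem_baseField x hz) h1
  have hc2 : ∀ n, (((minpoly K y).coeff n : K) : F) ∈ Algebra.adjoin R ({x⁻¹} : Set F) :=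
    minpoly_coeff_mem _ K (fun a ha => by
        have := adjoin_le_baseField (R := R) x⁻¹ ha
        rwa [baseField_inv] at this)
      (fun z hz => by
        have hz' : z ∈ baseField R x⁻¹ := by rwa [baseField_inv]
        exact exists_div_of_mem_baseField x⁻¹ hz') h2
  have hc : ∀ n, (((minpoly K y).coeff n : K) : F) ∈ Set.range (algebraMap R F) := fun n =>
    mem_range_of_mem_adjoin_inter hx (hc1 n) (hc2 n)
  have hyK : IsIntegral K y := by
    obtain ⟨p, hp, hp0⟩ := h1
    refine ⟨p.map (⟨⟨⟨fun a => (⟨a, adjoin_le_baseField x a.2⟩ : K), rfl⟩, fun _ _ => rfl⟩,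
      rfl, fun _ _ => rfl⟩ : Algebra.adjoin R ({x} : Set F) →+* K), hp.map _, ?_⟩
    rw [eval₂_map]
    exact hp0
  have hmem : (minpoly K y).map (algebraMap K F) ∈ lifts (algebraMap R F) := by
    rw [lifts_iff_coeff_lifts]
    intro n
    rw [coeff_map]
    exact hc n
  obtain ⟨q, hq, -, hqm⟩ := lifts_and_natDegree_eq_and_monic hmem ((minpoly.monic hyK).map _)
  refine ⟨q, hqm, ?_⟩
  rw [← eval_map, hq, eval_map, ← aeval_def]
  exact minpoly.aeval K y

end Integral

end Fermat.Agent.S18.H138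

end
-- ===== PACK-END S18/H138/ChartsConst.lean

-- ===== PACK-BEGIN S18/H558/CechFG.lean
section




/-!
# S18 / piece b5 (continued): `H¹` of the two-chart cover is finitely generated

`B = B_mid`, `x ∈ B` a unit with inverse `y`, `Bfin ∋ x` finitely generated as a module over
`A[x]`, `Binf ∋ y`, `B = Bfin[1/x]`, and every generator of `Bfin` lies in `x ^ D • Binf`.
Then `B / (Bfin + Binf)` is a finitely generated `A`-module, hence (for noetherian `A`) its
`w`-power torsion is bounded, which is the hypothesis `hH1` of `cech_idempotent_trivial`.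
-/

namespace Fermat.Agent.S18.H558

variable {A B : Type*} [CommRing A] [CommRing B] [Algebra A B]

/-- The two charts together with finitely many explicit elements span `B` over `A`. -/
theorem cech_span_top {ι : Type*} [Finite ι] (x y : B) (hxy : x * y = 1)
    (Bfin Binf : Subalgebra A B) (hx : x ∈ Bfin) (hy : y ∈ Binf)
    (bs : ι → B) (hbs : ∀ i, bs i ∈ Bfin)
    (hgen : ∀ b ∈ Bfin, b ∈ Submodule.span A {z : B | ∃ (j : ℕ) (i : ι), z = x ^ j * bs i})
    (hloc : ∀ b : B, ∃ K : ℕ, x ^ K * b ∈ Bfin)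
    (hinf : ∀ i, ∃ D : ℕ, y ^ D * bs i ∈ Binf) :
    ∃ G : Set B, G.Finite ∧
      Bfin.toSubmodule ⊔ Binf.toSubmodule ⊔ Submodule.span A G = ⊤ := by
  classical
  cases nonempty_fintype ι
  choose Df hDf using hinf
  let D : ℕ := Finset.univ.sup Df
  have hD : ∀ i, Df i ≤ D := fun i => Finset.le_sup (f := Df) (Finset.mem_univ i)
  let G : Set B := (fun p : ι × ℕ => y ^ p.2 * bs p.1) '' ((Finset.univ ×ˢ Finset.range D : Finset (ι × ℕ)) : Set (ι × ℕ))
  refine ⟨G, (Finset.finite_toSet _).image _, ?_⟩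
  set T : Submodule A B := Bfin.toSubmodule ⊔ Binf.toSubmodule ⊔ Submodule.span A G with hT
  have hfinT : ∀ b ∈ Bfin, b ∈ T := fun b hb =>
    Submodule.mem_sup_left (Submodule.mem_sup_left hb)
  have hinfT : ∀ b ∈ Binf, b ∈ T := fun b hb =>
    Submodule.mem_sup_left (Submodule.mem_sup_right hb)
  have hGT : ∀ b ∈ G, b ∈ T := fun b hb =>
    Submodule.mem_sup_right (Submodule.subset_span hb)
  have hyx : ∀ n : ℕ, y ^ n * x ^ n = 1 := fun n => by
    rw [← mul_pow, mul_comm y x, hxy, one_pow]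
  -- the monomials
  have hmono : ∀ (K j : ℕ) (i : ι), y ^ K * (x ^ j * bs i) ∈ T := by
    intro K j i
    rcases le_or_gt K j with hKj | hjK
    · obtain ⟨d, rfl⟩ := Nat.exists_eq_add_of_le hKj
      have : y ^ K * (x ^ (K + d) * bs i) = x ^ d * bs i := by
        rw [pow_add, ← mul_assoc, ← mul_assoc, hyx, one_mul]
      rw [this]
      exact hfinT _ (Bfin.mul_mem (Bfin.pow_mem hx d) (hbs i))
    · obtain ⟨k, rfl⟩ := Nat.exists_eq_add_of_le hjK.le
      have : y ^ (j + k) * (x ^ j * bs i) = y ^ k * bs i := by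
        rw [pow_add, mul_comm (y ^ j) (y ^ k), mul_assoc, ← mul_assoc (y ^ j), hyx, one_mul]
      rw [this]
      rcases le_or_gt (Df i) k with hDk | hkD
      · obtain ⟨d, rfl⟩ := Nat.exists_eq_add_of_le hDk
        have : y ^ (Df i + d) * bs i = y ^ d * (y ^ Df i * bs i) := by
          rw [pow_add]; ring
        rw [this]
        exact hinfT _ (Binf.mul_mem (Binf.pow_mem hy d) (hDf i))
      · apply hGT
        refine ⟨(i, k), ?_, rfl⟩
        simp only [Finset.coe_product, Finset.coe_univ, Finset.coe_range, Set.mem_prod,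
          Set.mem_univ, Set.mem_Iio, true_and]
        exact lt_of_lt_of_le hkD (hD i)
  rw [eq_top_iff]
  rintro b -
  obtain ⟨K, hK⟩ := hloc b
  have hb : b = y ^ K * (x ^ K * b) := by rw [← mul_assoc, hyx, one_mul]
  rw [hb]
  have hspan := hgen _ hK
  refine Submodule.span_induction (p := fun z _ => y ^ K * z ∈ T) ?_ ?_ ?_ ?_ hspan
  · rintro z ⟨j, i, rfl⟩
    exact hmono K j i
  · simp
  · intro u v _ _ hu hv
    rw [mul_add]
    exact T.add_mem hu hv
  · intro a u _ hu
    rw [mul_smul_comm]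
    exact T.smul_mem a hu

/-- Bounded `w`-power torsion of `B / (Bfin + Binf)` from finite generation, for noetherian `A`. -/
theorem cech_h1_bound [IsNoetherianRing A] (w : A) (Bfin Binf : Subalgebra A B)
    (G : Set B) (hG : G.Finite)
    (htop : Bfin.toSubmodule ⊔ Binf.toSubmodule ⊔ Submodule.span A G = ⊤) :
    ∃ c : ℕ, ∀ (n : ℕ) (h : B),
      algebraMap A B w ^ n * h ∈ Bfin.toSubmodule ⊔ Binf.toSubmodule →
      algebraMap A B w ^ c * h ∈ Bfin.toSubmodule ⊔ Binf.toSubmodule := by
  set S : Submodule A B := Bfin.toSubmodule ⊔ Binf.toSubmodule with hS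
  have hfinG : Module.Finite A (Submodule.span A G) := Module.Finite.span_of_finite A hG
  let φ : Submodule.span A G →ₗ[A] B ⧸ S := S.mkQ.comp (Submodule.span A G).subtype
  have hφ : Function.Surjective φ := by
    intro m
    obtain ⟨b, rfl⟩ := S.mkQ_surjective m
    have hb : b ∈ S ⊔ Submodule.span A G := by rw [htop]; trivial
    obtain ⟨s, hs, g, hg, rfl⟩ := Submodule.mem_sup.1 hb
    refine ⟨⟨g, hg⟩, ?_⟩
    change S.mkQ g = S.mkQ (s + g)
    have hs0 : S.mkQ s = 0 := (Submodule.Quotient.mk_eq_zero S).2 hs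
    rw [map_add, hs0, zero_add]
  have hfinQ : Module.Finite A (B ⧸ S) := Module.Finite.of_surjective φ hφ
  obtain ⟨c, hc⟩ := exists_torsion_bound (A := A) (M := B ⧸ S) w
  refine ⟨c, fun n h hn => ?_⟩
  have e : ∀ k : ℕ, algebraMap A B w ^ k * h = w ^ k • h := fun k => by
    rw [Algebra.smul_def, map_pow]
  rw [e] at hn ⊢
  have h1 : w ^ n • (S.mkQ h) = 0 := by
    rw [← map_smul]
    exact (Submodule.Quotient.mk_eq_zero S).2 hn
  have h2 := hc n _ h1
  rw [← map_smul] at h2
  exact (Submodule.Quotient.mk_eq_zero S).1 h2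

/-- **Connectedness of the two-chart model (piece b5).**  Packaged form:
noetherian base `A`, `(w)` prime in `A`, two charts `Bfin ∋ x`, `Binf ∋ x⁻¹` of `B = Bfin[1/x]`
with `Bfin` finite over `A[x]`, `Bfin ∩ Binf = A` and `A / w → Bfin / w` injective.  Then every
compatible pair of idempotents modulo `w` on the two charts is `(0, 0)` or `(1, 1)`. -/
theorem cech_connected [IsNoetherianRing A] {ι : Type*} [Finite ι] (w : A) (x y : B)
    (hxy : x * y = 1) (Bfin Binf : Subalgebra A B) (hx : x ∈ Bfin) (hy : y ∈ Binf)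
    (bs : ι → B) (hbs : ∀ i, bs i ∈ Bfin)
    (hgen : ∀ b ∈ Bfin, b ∈ Submodule.span A {z : B | ∃ (j : ℕ) (i : ι), z = x ^ j * bs i})
    (hloc : ∀ b : B, ∃ K : ℕ, x ^ K * b ∈ Bfin)
    (hinf : ∀ i, ∃ D : ℕ, y ^ D * bs i ∈ Binf)
    (hH0 : ∀ b : B, b ∈ Bfin → b ∈ Binf → ∃ a : A, algebraMap A B a = b)
    (hinj : ∀ a : A, (∃ t ∈ Bfin, algebraMap A B a = algebraMap A B w * t) → w ∣ a)
    (hprime : ∀ a b : A, w ∣ a * b → w ∣ a ∨ w ∣ b)
    (e₁ e₂ : B) (he₁ : e₁ ∈ Bfin) (he₂ : e₂ ∈ Binf)
    (hi₁ : ∃ t ∈ Bfin, e₁ ^ 2 - e₁ = algebraMap A B w * t)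
    (hi₂ : ∃ t ∈ Binf, e₂ ^ 2 - e₂ = algebraMap A B w * t)
    (h₁₂ : ∃ t : B, e₁ - e₂ = algebraMap A B w * t) :
    ((∃ t ∈ Bfin, e₁ = algebraMap A B w * t) ∧ (∃ t ∈ Binf, e₂ = algebraMap A B w * t)) ∨
    ((∃ t ∈ Bfin, 1 - e₁ = algebraMap A B w * t) ∧ (∃ t ∈ Binf, 1 - e₂ = algebraMap A B w * t)) := by
  obtain ⟨G, hG, htop⟩ := cech_span_top x y hxy Bfin Binf hx hy bs hbs hgen hloc hinf
  obtain ⟨c, hc⟩ := cech_h1_bound w Bfin Binf G hG htop
  exact cech_idempotent_trivial w Bfin Binf c (fun h hh => hc (c + 1) h hh) hH0 hinj hprime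
    e₁ e₂ he₁ he₂ hi₁ hi₂ h₁₂

end Fermat.Agent.S18.H558

end
-- ===== PACK-END S18/H558/CechFG.lean

-- ===== PACK-BEGIN S18/H274/TraceNil.lean
section


/-!
# S18 / b2 (helper274) — the radical of the trace form consists of nilpotents (char 0)

Mathlib-only.  `C` a commutative `Λ`-algebra with a finite basis `β`, `φ : Λ →+* K` a ring
homomorphism to a field of characteristic zero.

* `exists_pow_leftMulMatrix_map_eq_zero` : if `φ (Tr (z c)) = 0` for all `c`, then the matrix of
  multiplication by some power `z ^ m` vanishes under `φ`.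
* `exists_pow_dvd_of_trace_dvd` : (`φ` = reduction mod `t`)  if `t ∣ Tr (z c)` for all `c` then
  `t ∣ z ^ m` in `C` for some `m`.
* `eq_zero_of_trace_eq_zero` : (`φ` = inclusion into the fraction field) if `Tr (z c) = 0` for all
  `c` and `C` is reduced, then `z = 0`.
* `discr_ne_zero_of_charZero` : the discriminant of a basis of a reduced finite free algebra over
  a domain of characteristic zero is nonzero.
-/

namespace Fermat.Agent.S18.H274

open Module

section basic

variable {Λ : Type*} [CommRing Λ] {C : Type*} [CommRing C] [Algebra Λ C]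
variable {ι : Type*} [Fintype ι] [DecidableEq ι] (β : Basis ι Λ C)

omit [DecidableEq ι] in
include β in
theorem dvd_of_forall_dvd_repr (t : Λ) (x : C) (h : ∀ i, t ∣ β.repr x i) :
    algebraMap Λ C t ∣ x := by
  choose e he using h
  refine ⟨∑ i, e i • β i, ?_⟩
  conv_lhs => rw [← β.sum_repr x]
  rw [Finset.mul_sum]
  refine Finset.sum_congr rfl fun i _ => ?_
  rw [he i, mul_smul, Algebra.smul_def t]

omit [Fintype ι] [DecidableEq ι] in
include β in
theorem dvd_repr_of_dvd (t : Λ) (x : C) (h : algebraMap Λ C t ∣ x) (i : ι) :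
    t ∣ β.repr x i := by
  obtain ⟨c, rfl⟩ := h
  rw [← Algebra.smul_def, map_smul]
  exact ⟨β.repr c i, rfl⟩

omit [DecidableEq ι] in
theorem trace_mul_dvd_of_basis (d : Λ) (y : C)
    (h : ∀ k, d ∣ Algebra.trace Λ C (y * β k)) (c : C) :
    d ∣ Algebra.trace Λ C (y * c) := by
  conv_rhs => rw [← β.sum_repr c]
  rw [Finset.mul_sum, map_sum]
  refine Finset.dvd_sum fun k _ => ?_
  rw [mul_smul_comm, map_smul, smul_eq_mul]
  exact Dvd.dvd.mul_left (h k) _

theorem exists_pow_leftMulMatrix_map_eq_zero {K : Type*} [Field K] [CharZero K]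
    (φ : Λ →+* K) (z : C) (hz : ∀ c, φ (Algebra.trace Λ C (z * c)) = 0) :
    ∃ m : ℕ, (Algebra.leftMulMatrix β (z ^ m)).map φ = 0 := by
  let A := Algebra.leftMulMatrix β z
  have hA : ∀ k, 1 ≤ k → ((φ.mapMatrix A) ^ k).trace = 0 := by
    intro k hk
    obtain ⟨k, rfl⟩ : ∃ j, k = j + 1 := ⟨k - 1, by omega⟩
    rw [← map_pow, RingHom.mapMatrix_apply, ← AddMonoidHom.map_trace, ← map_pow,
      ← Algebra.trace_eq_matrix_trace β, pow_succ']
    exact hz _
  obtain ⟨m, hm⟩ := matrix_isNilpotent_of_trace_pow_eq_zero (φ.mapMatrix A) hA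
  refine ⟨m, ?_⟩
  rw [map_pow, ← RingHom.mapMatrix_apply, map_pow]
  exact hm

end basic

section quotient

variable {Λ : Type*} [CommRing Λ] {C : Type*} [CommRing C] [Algebra Λ C]
variable {ι : Type*} [Fintype ι] [DecidableEq ι] (β : Basis ι Λ C)

include β in
/-- If `K` is a characteristic zero field, `π : Λ →+* K` has kernel contained in `(t)` and
`π (Tr (z c)) = 0` for all `c`, then `z` is nilpotent modulo `t C`. -/
theorem exists_pow_dvd_of_trace_map_eq_zero {K : Type*} [Field K] [CharZero K]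
    (π : Λ →+* K) (t : Λ) (hker : ∀ x, π x = 0 → t ∣ x)
    (z : C) (hz : ∀ c, π (Algebra.trace Λ C (z * c)) = 0) :
    ∃ m : ℕ, algebraMap Λ C t ∣ z ^ m := by
  classical
  obtain ⟨m, hm⟩ := exists_pow_leftMulMatrix_map_eq_zero β π z hz
  refine ⟨m, dvd_of_forall_dvd_repr β t _ fun i => ?_⟩
  have h1 := Algebra.leftMulMatrix_mulVec_repr β (z ^ m) 1
  rw [mul_one] at h1
  rw [← h1]
  simp only [Matrix.mulVec, dotProduct]
  refine Finset.dvd_sum fun j _ => ?_
  apply Dvd.dvd.mul_right
  apply hker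
  have := congrFun (congrFun hm i) j
  simpa using this

end quotient

section domain

variable {Λ : Type*} [CommRing Λ] [IsDomain Λ] [CharZero Λ]
variable {C : Type*} [CommRing C] [IsReduced C] [Algebra Λ C]
variable {ι : Type*} [Fintype ι] [DecidableEq ι] (β : Basis ι Λ C)

include β in
theorem eq_zero_of_trace_eq_zero (z : C) (hz : ∀ c, Algebra.trace Λ C (z * c) = 0) : z = 0 := by
  classical
  let K := FractionRing Λ
  have : CharZero K := charZero_of_injective_algebraMap (IsFractionRing.injective Λ K)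
  obtain ⟨m, hm⟩ := exists_pow_leftMulMatrix_map_eq_zero β (algebraMap Λ K) z
    (fun c => by rw [hz c, map_zero])
  have h0 : Algebra.leftMulMatrix β (z ^ m) = 0 := by
    ext i j
    have := congrFun (congrFun hm i) j
    simp only [Matrix.map_apply, Matrix.zero_apply] at this
    rw [Matrix.zero_apply]
    exact IsFractionRing.injective Λ K (by rw [this, map_zero])
  have h1 : z ^ m = 0 := Algebra.leftMulMatrix_injective β (by rw [h0, map_zero])
  exact IsReduced.eq_zero _ ⟨m, h1⟩

/-- The discriminant of a basis of a reduced finite free algebra over a domain of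
characteristic zero is nonzero. -/
theorem discr_ne_zero_of_charZero : Algebra.discr Λ β ≠ 0 := by
  classical
  intro hD
  rw [Algebra.discr_def] at hD
  obtain ⟨v, hv0, hv⟩ := Matrix.exists_mulVec_eq_zero_iff.mpr hD
  have hz : ∀ c, Algebra.trace Λ C ((∑ i, v i • β i) * c) = 0 := by
    intro c
    have hk : ∀ k, (0 : Λ) ∣ Algebra.trace Λ C ((∑ i, v i • β i) * β k) := by
      intro k
      rw [zero_dvd_iff]
      have := congrFun hv k
      simp only [Matrix.mulVec, dotProduct, Algebra.traceMatrix_apply, Algebra.traceForm_apply,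
        Pi.zero_apply] at this
      rw [Finset.sum_mul, map_sum, ← this]
      refine Finset.sum_congr rfl fun i _ => ?_
      rw [smul_mul_assoc, map_smul, smul_eq_mul, mul_comm (β i) (β k), mul_comm]
    exact zero_dvd_iff.mp (trace_mul_dvd_of_basis β 0 _ hk c)
  have h0 := eq_zero_of_trace_eq_zero β _ hz
  apply hv0
  funext i
  have h1 := congrArg (fun x => β.repr x i) h0
  simp only [β.repr_sum_self, map_zero, Finsupp.coe_zero, Pi.zero_apply] at h1
  exact h1

end domain

end Fermat.Agent.S18.H274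

end
-- ===== PACK-END S18/H274/TraceNil.lean

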