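import Mathlib
import Fermat.Prelude.Def_FreyPackage_EigenformResidualAttachment
import Fermat.Prelude.Def_GaloisRep_Residual
import Fermat.Prelude.Def_ModularCurve_ReductionModL
import Fermat.Prelude.Def_FLTPrelim_Ramification
import Mathlib.LinearAlgebra.FiniteDimensional.Defs
import Mathlib.LinearAlgebra.FiniteDimensional.Lemmas
import Mathlib.LinearAlgebra.Dimension.RankNullity
import Mathlib.LinearAlgebra.Isomorphisms
import Mathlib.RingTheory.Finiteness.Quotient
import Mathlib.LinearAlgebra.Matrix.SchurComplement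
import Mathlib.LinearAlgebra.Matrix.NonsingularInverse
import Mathlib.LinearAlgebra.Matrix.ToLin
import Mathlib.LinearAlgebra.Projection
import Mathlib.Analysis.Complex.RemovableSingularity
import Mathlib.NumberTheory.ModularForms.LevelOne.DimensionFormula

-- ===== PACK-BEGIN S42/Glue.lean
section
/-
S42 glue (helper42): the frozen statement S42 follows from
  * the frozen statement S29 (as a hypothesis `S29Statement`), and
  * the fact that the Galois action on the `p`-torsion of the Frey curve factors through a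
    finite level (hypothesis `hfin`; it follows from finiteness of the torsion, see
    `factorsThroughFiniteLevel_of_finite`).
Everything here is elementary glue; no analytic or arithmetic input.
-/




set_option autoImplicit false
set_option linter.style.haveILetI false

open WeierstrassCurve.Affine.Point Polynomial
open scoped WeierstrassCurve.Affine

noncomputable section

namespace Fermat.Agent.S42.Glue

/-- The frozen statement S29, as a proposition. -/
def S29Statement : Prop :=
  ∀ {N : ℕ} {g : CuspForm (CongruenceSubgroup.Gamma0 N) 2} (_ : g.IsNormalizedEigenform)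
    {p : ℕ} (_ : p.Prime) {k : Type} [Field k] [CharP k p]
    (φ : integralClosure ℤ ℂ →+* k),
    ∃ ρ : ResidualGaloisRep k, ρ.IsAttachedTo g φ ∧
      ∀ ℓ : ℕ, ℓ.Prime → ¬ ℓ ∣ N * p → ρ.IsUnramifiedAt ℓ

/-- In dimension two the characteristic polynomial determines trace and determinant. -/
theorem trace_det_of_charpoly {K V : Type*} [Field K] [AddCommGroup V] [Module K V]
    [Module.Finite K V] (h2 : Module.finrank K V = 2) (f : V →ₗ[K] V) (a d : K)
    (hf : f.charpoly = X ^ 2 - C a * X + C d) :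
    LinearMap.trace K V f = a ∧ LinearMap.det f = d := by
  let b : Module.Basis (Fin 2) K V := Module.finBasisOfFinrankEq K V h2
  have hM : (LinearMap.toMatrix b b f).charpoly = X ^ 2 - C a * X + C d := by
    rw [LinearMap.charpoly_toMatrix, hf]
  constructor
  · rw [LinearMap.trace_eq_matrix_trace K b f, Matrix.trace_eq_neg_charpoly_coeff, hM]
    simp [coeff_C]
  · rw [← LinearMap.det_toMatrix b f, Matrix.det_eq_sign_charpoly_coeff, hM]
    simp [coeff_X, coeff_C]

/-- The quotient of the ring of algebraic integers by a maximal ideal containing `p` has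
characteristic `p`. -/
theorem charP_quotient {R : Type*} [CommRing R] (𝔪 : Ideal R) [h𝔪 : 𝔪.IsMaximal] {p : ℕ}
    (hp : p.Prime) (hmem : (p : R) ∈ 𝔪) : CharP (R ⧸ 𝔪) p := by
  letI : Field (R ⧸ 𝔪) := Ideal.Quotient.field 𝔪
  obtain ⟨q, hq⟩ := CharP.exists (R ⧸ 𝔪)
  have h0 : ((p : ℕ) : R ⧸ 𝔪) = 0 := by
    have : (Ideal.Quotient.mk 𝔪) (p : R) = 0 := Ideal.Quotient.eq_zero_iff_mem.mpr hmem
    simpa using this
  have hdvd : q ∣ p := (CharP.cast_eq_zero_iff (R ⧸ 𝔪) q p).mp h0
  rcases (Nat.dvd_prime hp).mp hdvd with h1 | h1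
  · exact absurd h1 (CharP.char_ne_one (R ⧸ 𝔪) q)
  · exact h1 ▸ hq

/-- Number field attached to a finite-dimensional normal intermediate field of `ℚ̄`, packaged
with all the instances the frozen statement asks for. -/
theorem exists_numberField_of_normal (F : IntermediateField ℚ (AlgebraicClosure ℚ))
    [FiniteDimensional ℚ F] [Normal ℚ F] :
    ∃ (F' : Type) (_ : Field F') (_ : NumberField F') (_ : IsGalois ℚ F')
      (_ : Algebra F' (AlgebraicClosure ℚ)) (_ : IsScalarTower ℚ F' (AlgebraicClosure ℚ)),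
      ∀ σ : AlgebraicClosure ℚ ≃ₐ[ℚ] AlgebraicClosure ℚ,
        σ ∈ (AlgEquiv.restrictNormalHom (F := ℚ) (K₁ := AlgebraicClosure ℚ) F').ker →
          ∀ x ∈ F, σ x = x := by
  haveI : NumberField F := NumberField.mk
  haveI : IsGalois ℚ F := ⟨⟩
  refine ⟨F, inferInstance, inferInstance, inferInstance, inferInstance, inferInstance, ?_⟩
  intro σ hσ x hxF
  have h1 : AlgEquiv.restrictNormalHom (F := ℚ) (K₁ := AlgebraicClosure ℚ) F σ = 1 := hσ
  have h2 := AlgEquiv.restrictNormal_commutes σ F ⟨x, hxF⟩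
  have h3 : σ.restrictNormal F = 1 := h1
  rw [h3] at h2
  simpa using h2.symm

/-- Number field attached to a finite-dimensional intermediate field of `ℚ̄` (pass to the
normal closure). -/
theorem exists_numberField (L : IntermediateField ℚ (AlgebraicClosure ℚ))
    [FiniteDimensional ℚ L] :
    ∃ (F' : Type) (_ : Field F') (_ : NumberField F') (_ : IsGalois ℚ F')
      (_ : Algebra F' (AlgebraicClosure ℚ)) (_ : IsScalarTower ℚ F' (AlgebraicClosure ℚ)),
      ∀ σ : AlgebraicClosure ℚ ≃ₐ[ℚ] AlgebraicClosure ℚ,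
        σ ∈ (AlgEquiv.restrictNormalHom (F := ℚ) (K₁ := AlgebraicClosure ℚ) F').ker →
          ∀ x ∈ L, σ x = x := by
  haveI : Algebra.IsAlgebraic ℚ (AlgebraicClosure ℚ) := AlgebraicClosure.isAlgebraic ℚ
  haveI : IsAlgClosure ℚ (AlgebraicClosure ℚ) := ⟨inferInstance, inferInstance⟩
  haveI : Normal ℚ (AlgebraicClosure ℚ) := IsAlgClosure.normal ℚ (AlgebraicClosure ℚ)
  haveI : Normal ℚ ↥(IntermediateField.normalClosure ℚ (↥L) (AlgebraicClosure ℚ)) := by
    have h := normalClosure.normal ℚ L (AlgebraicClosure ℚ)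
    convert h
    exact Subsingleton.elim _ _
  haveI : FiniteDimensional ℚ
      ↥(IntermediateField.normalClosure ℚ (↥L) (AlgebraicClosure ℚ)) := by
    have h := normalClosure.is_finiteDimensional ℚ L (AlgebraicClosure ℚ)
    convert h
  obtain ⟨F', i1, i2, i3, i4, i5, h⟩ :=
    exists_numberField_of_normal (IntermediateField.normalClosure ℚ L (AlgebraicClosure ℚ))
  exact ⟨F', i1, i2, i3, i4, i5, fun σ hσ x hx =>
    h σ hσ x (IntermediateField.le_normalClosure L hx)⟩

/-- The coordinates of a point, as a finite set. -/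
def coords {W : WeierstrassCurve ℚ} :
    (W⁄(AlgebraicClosure ℚ)).Point → Set (AlgebraicClosure ℚ)
  | .zero => ∅
  | .some x y _ => {x, y}

theorem coords_finite {W : WeierstrassCurve ℚ} (Q : (W⁄(AlgebraicClosure ℚ)).Point) :
    (coords Q).Finite := by
  cases Q with
  | zero => exact Set.finite_empty
  | some x y h => exact Set.toFinite {x, y}

theorem smul_eq_self_of_coords {W : WeierstrassCurve ℚ}
    (σ : AlgebraicClosure ℚ ≃ₐ[ℚ] AlgebraicClosure ℚ) (Q : (W⁄(AlgebraicClosure ℚ)).Point)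
    (h : ∀ x ∈ coords Q, σ x = x) : σ • Q = Q := by
  cases Q with
  | zero => rfl
  | some x y hQ =>
    have hx : σ x = x := h x (by simp [coords])
    have hy : σ y = y := h y (by simp [coords])
    rw [algEquiv_smul_def]
    simp only [WeierstrassCurve.Affine.Point.map_some]
    congr 1

/-- If the `n`-torsion of `W(ℚ̄)` is finite, the Galois action on it factors through a finite
level. -/
theorem factorsThroughFiniteLevel_of_finite (W : WeierstrassCurve ℚ) (n : ℕ)
    [Finite (Submodule.torsionBy ℤ (W⁄(AlgebraicClosure ℚ)).Point n)] :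
    GaloisFactorsThroughFiniteLevel
      (galoisRepModuleEnd (S := ℚ) (K := AlgebraicClosure ℚ) W n) := by
  haveI : Algebra.IsAlgebraic ℚ (AlgebraicClosure ℚ) := AlgebraicClosure.isAlgebraic ℚ
  let S : Set (AlgebraicClosure ℚ) :=
    ⋃ Q : Submodule.torsionBy ℤ (W⁄(AlgebraicClosure ℚ)).Point n,
      coords (Q : (W⁄(AlgebraicClosure ℚ)).Point)
  have hS : S.Finite := Set.finite_iUnion fun Q => coords_finite _
  haveI : Finite ↑S := hS.to_subtype
  refine ⟨IntermediateField.adjoin ℚ S,
    IntermediateField.finiteDimensional_adjoin fun x _ => Algebra.IsIntegral.isIntegral x, ?_⟩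
  intro σ hσ
  apply LinearMap.ext
  intro Q
  apply Subtype.ext
  show σ • (Q : (W⁄(AlgebraicClosure ℚ)).Point) = Q
  apply smul_eq_self_of_coords
  intro x hx
  exact hσ x (IntermediateField.subset_adjoin ℚ S (Set.mem_iUnion.mpr ⟨Q, hx⟩))

/-- **S42 from S29.**  The frozen statement S42 follows from the frozen statement S29 and the
fact that the Galois action on the `p`-torsion of the Frey curve factors through a finite
level. -/
theorem eigenformResidualAttachmentAt_of_S29 (hS29 : S29Statement) (P : FreyPackage)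
    (hfin : GaloisFactorsThroughFiniteLevel
      (galoisRepModuleEnd (S := ℚ) (K := AlgebraicClosure ℚ) P.freyCurve P.p)) :
    ∀ M : ℕ, 0 < M → P.EigenformResidualAttachmentAt M := by
  intro M _ g hg 𝔪 h𝔪 hp𝔪
  letI : Field (integralClosure ℤ ℂ ⧸ 𝔪) := Ideal.Quotient.field 𝔪
  haveI : CharP (integralClosure ℤ ℂ ⧸ 𝔪) P.p := charP_quotient 𝔪 P.pp hp𝔪
  letI : Algebra (ZMod P.p) (integralClosure ℤ ℂ ⧸ 𝔪) := ZMod.algebra _ P.p
  obtain ⟨ρ, hatt, -⟩ := hS29 hg P.pp (Ideal.Quotient.mk 𝔪)
  obtain ⟨L1, hL1fin, hL1⟩ := ρ.factorsThroughFiniteLevel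
  obtain ⟨L2, hL2fin, hL2⟩ := hfin
  haveI : FiniteDimensional ℚ L1 := hL1fin
  haveI : FiniteDimensional ℚ L2 := hL2fin
  obtain ⟨F, iF, iNF, iGal, iAlg, iST, hF⟩ := exists_numberField (L1 ⊔ L2)
  have hne : ∀ ℓ : ℕ, ℓ.Prime → ℓ ≠ P.p → ((ℓ : ℕ) : integralClosure ℤ ℂ ⧸ 𝔪) ≠ 0 := by
    intro ℓ hℓ hℓp h0
    have hdvd : P.p ∣ ℓ := (CharP.cast_eq_zero_iff (integralClosure ℤ ℂ ⧸ 𝔪) P.p ℓ).mp h0
    rcases (Nat.dvd_prime hℓ).mp hdvd with h1 | h1
    · exact P.pp.one_lt.ne' h1
    · exact hℓp h1.symm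
  refine ⟨integralClosure ℤ ℂ ⧸ 𝔪, inferInstance, inferInstance, ρ.V, inferInstance,
    inferInstance, ρ.ρ, Ideal.Quotient.mk 𝔪, F, iF, iNF, iGal, iAlg, iST, ?_, ρ.finrank_eq,
    ?_, ?_, ?_⟩
  · intro x hx
    exact Ideal.Quotient.eq_zero_iff_mem.mpr hx
  · intro σ hσ
    have hfix := hF σ hσ
    refine ⟨?_, ?_⟩
    · exact hL2 σ fun x hx => hfix x (le_sup_right (a := L1) hx)
    · exact hL1 σ fun x hx => hfix x (le_sup_left (b := L2) hx)
  · intro ℓ hℓ hℓM hℓp A hA τ hτ
    obtain ⟨a, ha, hchar⟩ := hatt ℓ hℓ hℓM (hne ℓ hℓ hℓp) A hA τ hτ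
    exact ⟨a, ha, (trace_det_of_charpoly ρ.finrank_eq _ _ _ hchar).1⟩
  · intro ℓ hℓ hℓM hℓp A hA τ hτ
    obtain ⟨a, _, hchar⟩ := hatt ℓ hℓ hℓM (hne ℓ hℓ hℓp) A hA τ hτ
    exact (trace_det_of_charpoly ρ.finrank_eq _ _ _ hchar).2

/-- **S42 from S29 and finiteness of the Frey torsion.** -/
theorem eigenformResidualAttachmentAt_of_S29_of_finite (hS29 : S29Statement) (P : FreyPackage)
    (hfin : Finite (Submodule.torsionBy ℤ (P.freyCurve⁄(AlgebraicClosure ℚ)).Point P.p)) :
    ∀ M : ℕ, 0 < M → P.EigenformResidualAttachmentAt M :=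
  eigenformResidualAttachmentAt_of_S29 hS29 P
    (factorsThroughFiniteLevel_of_finite P.freyCurve P.p)

end Fermat.Agent.S42.Glue

end
end
-- ===== PACK-END S42/Glue.lean

-- ===== PACK-BEGIN S18/Sq05/Spec.lean
section




/-!
# S18 — squad S18/S05 (squad-lead helper5): frozen statements of the squad's pieces

Row plan: `origin/helper18:coord/S18.md` (v2).  This squad owns

* **T2** / **T3**: "a function without zeros and poles is constant" for the modular function
  fields in characteristic `0` and `ℓ` (`ConstStatement`, definitionally equal to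
  `Fermat.Agent.S18.H94.ConstOfOrdZero` of the adopted top layer),
* the residue-field facts needed to instantiate T3 at `k = A/𝔪`,
* **d1** (descent to a number field, see `coord/S18-squad05.md`).

Every statement below is FROZEN.  Proofs go to `Fermat/Agent/S18/H<seat>/…` (own namespace
`Fermat.Agent.S18.H<seat>`), importing Mathlib, Prelude and landed files only.
-/

set_option autoImplicit false

noncomputable section

namespace Fermat.Agent.S18.Sq05

open AlgebraicCurve ModularCurve IntermediateField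

/-- A function without zeros and poles (at the discrete valuation rings containing `K`) is a
constant.  Unfolded form of `H94.ConstOfOrdZero K F`. -/
def ConstStatement (K F : Type*) [Field K] [Field F] [Algebra K F] : Prop :=
  ∀ u : F, u ≠ 0 → (∀ v : Place K F, v.ord u = 0) → ∃ c : K, u = algebraMap K F c

/-- **FF.1 (DISC)**, Mathlib-only, characteristic-free.  A valuation subring of a finite
extension `F/E` whose restriction to `E` is a principal ideal ring is a principal ideal ring.
(Value group index `≤ [F:E]`; no separability, no Krull–Akizuki.) -/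
def DiscStatement : Prop :=
  ∀ (E F : Type) [Field E] [Field F] [Algebra E F] [FiniteDimensional E F]
    (V : ValuationSubring F),
    IsPrincipalIdealRing (V.comap (algebraMap E F)) → IsPrincipalIdealRing V

/-- **FF.2 (EXT)**, characteristic-free.  If `F` is finite over `K(u)`, `u` transcendental, then
`u` has a zero at some place of `F/K`. -/
def ExtStatement : Prop :=
  ∀ (K F : Type) [Field K] [Field F] [Algebra K F] (u : F), Transcendental K u →
    FiniteDimensional K⟮u⟯ F → ∃ v : Place K F, 0 < v.ord u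

/-- **FF.3 (CONST, generic)**: `K` algebraically closed, `F` finite over `K(x)`. -/
def ConstGenericStatement : Prop :=
  ∀ (K F : Type) [Field K] [Field F] [Algebra K F] [IsAlgClosed K] (x : F),
    Transcendental K x → FiniteDimensional K⟮x⟯ F → ConstStatement K F

/-- **RES.1**: the residue field of a valuation subring of an algebraically closed field is
algebraically closed. -/
def ResAlgClosedStatement : Prop :=
  ∀ (L : Type) [Field L] [IsAlgClosed L] (A : ValuationSubring L),
    IsAlgClosed (IsLocalRing.ResidueField A)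

/-- **RES.2**: primes different from the residue characteristic are invertible in the residue
field. -/
def ResCharStatement : Prop :=
  ∀ (L : Type) [Field L] (A : ValuationSubring L) (ℓ p : ℕ), ℓ.Prime → p.Prime →
    A.LiesOverPrime ℓ → p ≠ ℓ → ((p : ℕ) : IsLocalRing.ResidueField A) ≠ 0

/-- The `j`-function as an element of the function field `k(j(q^d) : d ∣ N)`. -/
def jC (k : Type*) [Field k] (N : ℕ) [NeZero N] : modularFunctionFieldFullC k N :=
  ⟨jqModC k, jqModC_mem_full k N⟩

/-- **MOD.1**: `j` is transcendental and `k(j(q^d) : d ∣ N)` is finite over `k(j)`, for every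
field `k` in which the primes dividing `N` are invertible.
(From landed S28: `H626.finiteDimensional_extendScalars`, `H867.hasModPolys`,
`H807.nonempty_modPolyData`.) -/
def ModFiniteStatement : Prop :=
  ∀ (k : Type) [Field k] (N : ℕ) [NeZero N], (∀ p : ℕ, p.Prime → p ∣ N → (p : k) ≠ 0) →
    Transcendental k (jC k N) ∧ FiniteDimensional k⟮jC k N⟯ (modularFunctionFieldFullC k N)

/-- **T3 (generic field)**. -/
def T3GenericStatement : Prop :=
  ∀ (k : Type) [Field k] [IsAlgClosed k] (N : ℕ) [NeZero N],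
    (∀ p : ℕ, p.Prime → p ∣ N → (p : k) ≠ 0) →
    ConstStatement k (modularFunctionFieldFullC k N)

/-- **T3** (as consumed by the top layer): `CONST_Fk` at `k = A/𝔪`. -/
def T3Statement : Prop :=
  ∀ (N : ℕ) [NeZero N] (ℓ : ℕ), ℓ.Prime → ¬ ℓ ∣ N →
    ∀ A : ValuationSubring (AlgebraicClosure ℚ), A.LiesOverPrime ℓ →
      ConstStatement (IsLocalRing.ResidueField A)
        (modularFunctionFieldFullC (IsLocalRing.ResidueField A) N)

/-- **T2**: `CONST_F` in characteristic zero (from landed S24: `open_fundamental_eq`,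
`ModularPackage.finiteDimensional`; or from FF.3 + MOD.1 and
`modularFunctionFieldBar N = modularFunctionFieldFullC ℚ̄ N`). -/
def T2Statement : Prop :=
  ∀ (N : ℕ) [NeZero N],
    ConstStatement (AlgebraicClosure ℚ) (modularFunctionFieldBar N)

/-- **HPD.k (hedge, for route H / `Lib.RR.FF1` in characteristic `ℓ`)**: the product formula,
characteristic-free. -/
def HpdStatement : Prop :=
  ∀ (K F : Type) [Field K] [Field F] [Algebra K F] [IsAlgClosed K] (x : F),
    Transcendental K x → FiniteDimensional K⟮x⟯ F → HasPrincipalDivisors K F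

/-- Assembly of T3 from the pieces (proved here so that the split is known to be sound). -/
theorem t3Generic_of_pieces (hC : ConstGenericStatement) (hM : ModFiniteStatement) :
    T3GenericStatement := by
  intro k _ _ N _ hchar
  obtain ⟨htr, hfin⟩ := hM k N hchar
  exact hC k _ (jC k N) htr hfin

theorem t3_of_pieces (hG : T3GenericStatement) (hA : ResAlgClosedStatement)
    (hR : ResCharStatement) : T3Statement := by
  intro N _ ℓ hℓ hℓN A hAℓ
  have := hA _ A
  refine hG _ N fun p hp hpN => hR _ A ℓ p hℓ hp hAℓ ?_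
  rintro rfl
  exact hℓN hpN

end Fermat.Agent.S18.Sq05

end
end
-- ===== PACK-END S18/Sq05/Spec.lean

-- ===== PACK-BEGIN S18/H278/NCVal.lean
section


/-!
# S18 / ALG-FRONT, piece hNC (helper278), part 1: the valuation-theoretic core

`Ω` a field, `Lc ≤ Ω` an algebraically closed subfield, `x : Ω`, `S` a finite set (branch values).
Hypothesis `Unramified Lc x S` = the field `unramified` of `Alg.GoodModel` (`Alg/Spec.lean`):
at a place `O ⊇ Lc` of `Ω` where `x` takes a value `c ∈ Lc`, `c ∉ S`, `x - c` is a uniformiser.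

`mul_inv_mem_of_unramified` : if `P ∈ Lc[X]` is separable without roots in `S` and `P(x)` is a
nonunit of `O`, then `P(x)` is a uniformiser of `O`: `t / P(x) ∈ O` for every nonunit `t` of `O`.
-/

set_option autoImplicit false
set_option linter.unusedSectionVars false

namespace Fermat.Agent.S18.H278

open Polynomial

section Val

variable {Ω : Type*} [Field Ω]

/-- The `unramified` field of `Alg.GoodModel`, as a standalone predicate. -/
def Unramified (Lc : Subfield Ω) (x : Ω) (S : Finset Ω) : Prop :=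
  ∀ O : ValuationSubring Ω, (∀ a ∈ Lc, a ∈ O) → ∀ c ∈ Lc, c ∉ S →
    x - c ∈ O → (x - c)⁻¹ ∉ O → ∀ t ∈ O, t⁻¹ ∉ O → t * (x - c)⁻¹ ∈ O

variable (O : ValuationSubring Ω) (Lc : Subfield Ω) (hLO : ∀ a ∈ Lc, a ∈ O)

/-- `t ∈ O`, `t⁻¹ ∉ O` means valuation `< 1`. -/
theorem valuation_lt_one_of_inv_not_mem {t : Ω} (ht : t ∈ O) (ht' : t⁻¹ ∉ O) :
    O.valuation t < 1 := by
  rcases eq_or_ne t 0 with rfl | h0
  · exact absurd (by rw [inv_zero]; exact O.zero_mem) ht'
  have h1 : O.valuation t ≤ 1 := (O.valuation_le_one_iff t).mpr ht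
  refine lt_of_le_of_ne h1 fun h => ht' ?_
  rw [← O.valuation_le_one_iff, map_inv₀, h, inv_one]

theorem inv_not_mem_of_valuation_lt_one {t : Ω} (h0 : t ≠ 0) (ht : O.valuation t < 1) :
    t⁻¹ ∉ O := by
  intro h
  have h1 : O.valuation t⁻¹ ≤ 1 := (O.valuation_le_one_iff _).mpr h
  have h2 : O.valuation (t * t⁻¹) < 1 := by
    rw [map_mul]
    exact mul_lt_one_of_lt_of_le ht h1
  rw [mul_inv_cancel₀ h0, map_one] at h2
  exact lt_irrefl _ h2

include hLO in
/-- A nonzero constant is a unit of `O`. -/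
theorem valuation_eq_one_of_mem {a : Ω} (ha : a ∈ Lc) (ha0 : a ≠ 0) : O.valuation a = 1 := by
  have h1 : O.valuation a ≤ 1 := (O.valuation_le_one_iff a).mpr (hLO a ha)
  refine le_antisymm h1 ?_
  by_contra h
  rw [not_le] at h
  exact inv_not_mem_of_valuation_lt_one O ha0 h (hLO _ (Lc.inv_mem ha))

include hLO in
/-- A polynomial with constant coefficients evaluated at an element of `O` lies in `O`. -/
theorem aeval_mem_of_mem (Q : Polynomial Lc) {y : Ω} (hy : y ∈ O) : aeval y Q ∈ O := by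
  induction Q using Polynomial.induction_on' with
  | add p q hp hq => rw [map_add]; exact O.add_mem _ _ hp hq
  | monomial n a =>
    rw [aeval_monomial]
    exact O.mul_mem _ _ (hLO _ a.2) (pow_mem hy n)

include hLO in
/-- `Q(y) ≡ Q(c)` modulo `y - c`. -/
theorem valuation_aeval_sub_le (Q : Polynomial Lc) {y : Ω} (hy : y ∈ O) (c : Lc) :
    O.valuation (aeval y Q - ((Q.eval c : Lc) : Ω)) ≤ O.valuation (y - (c : Ω)) := by
  obtain ⟨Q₁, hQ₁⟩ : (X - C c) ∣ Q - C (Q.eval c) := by
    rw [dvd_iff_isRoot]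
    simp
  have h1 : aeval y Q - ((Q.eval c : Lc) : Ω) = (y - (c : Ω)) * aeval y Q₁ := by
    have := congrArg (aeval y) hQ₁
    rw [map_sub, map_mul, map_sub, aeval_X, aeval_C, aeval_C] at this
    exact this
  rw [h1, map_mul]
  exact mul_le_of_le_one_right' ((O.valuation_le_one_iff _).mpr (aeval_mem_of_mem O Lc hLO Q₁ hy))

include hLO in
/-- **Uniformiser lemma.**  If `P ∈ Lc[X]` is separable with no root in `S` and `P(x)` is a
nonunit of the place `O ⊇ Lc`, then `P(x)` is a uniformiser of `O`. -/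
theorem mul_inv_mem_of_unramified [IsAlgClosed Lc] {x : Ω} {S : Finset Ω}
    (hunr : Unramified Lc x S)
    (P : Polynomial Lc) (hPsep : P.Separable) (hroots : ∀ c : Lc, P.IsRoot c → (c : Ω) ∉ S)
    (hπO : aeval x P ∈ O) (hπ : (aeval x P)⁻¹ ∉ O) :
    ∀ t ∈ O, t⁻¹ ∉ O → t * (aeval x P)⁻¹ ∈ O := by
  have hP0 : P ≠ 0 := hPsep.ne_zero
  have hvπ : O.valuation (aeval x P) < 1 := valuation_lt_one_of_inv_not_mem O hπO hπ
  have hlead : O.valuation ((P.leadingCoeff : Lc) : Ω) = 1 :=
    valuation_eq_one_of_mem O Lc hLO (P.leadingCoeff).2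
      (by simpa using leadingCoeff_ne_zero.mpr hP0)
  -- `x ∈ O`
  have hxO : x ∈ O := by
    by_contra hx
    have hx0 : x ≠ 0 := fun h => hx (h ▸ O.zero_mem)
    have hxinv : x⁻¹ ∈ O := (O.mem_or_inv_mem x).resolve_left hx
    have hvx : O.valuation x⁻¹ < 1 :=
      valuation_lt_one_of_inv_not_mem O hxinv (by rwa [inv_inv])
    let _inst := invertibleOfNonzero hx0
    have h1 := eval₂_reverse_mul_pow (algebraMap Lc Ω) x P
    rw [invOf_eq_inv] at h1
    have h2 : O.valuation (aeval x⁻¹ P.reverse) = 1 := by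
      have h3 := valuation_aeval_sub_le O Lc hLO P.reverse hxinv 0
      have h4 : P.reverse.eval 0 = P.leadingCoeff := by
        rw [← coeff_zero_eq_eval_zero, coeff_zero_reverse]
      rw [h4] at h3
      have h3' : O.valuation (aeval x⁻¹ P.reverse - ((P.leadingCoeff : Lc) : Ω)) ≤
          O.valuation x⁻¹ := by simpa using h3
      have h6 : O.valuation (aeval x⁻¹ P.reverse - ((P.leadingCoeff : Lc) : Ω)) <
          O.valuation ((P.leadingCoeff : Lc) : Ω) := by
        rw [hlead]; exact lt_of_le_of_lt h3' hvx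
      rw [Valuation.map_eq_of_sub_lt _ h6, hlead]
    have h7 : O.valuation (aeval x P) = O.valuation x ^ P.natDegree := by
      rw [aeval_def, ← h1, map_mul, map_pow, ← aeval_def, h2, one_mul]
    have h8 : 1 ≤ O.valuation x := by
      by_contra h
      rw [not_le] at h
      exact hx ((O.valuation_le_one_iff x).mp h.le)
    have h9 : 1 ≤ O.valuation x ^ P.natDegree := one_le_pow₀ h8
    rw [← h7] at h9
    exact absurd hvπ (not_lt.mpr h9)
  -- a root `c₀` with `x - c₀` a nonunit
  have hsplit := (IsAlgClosed.splits P).eq_prod_roots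
  have hprod : aeval x P =
      ((P.leadingCoeff : Lc) : Ω) * (P.roots.map (fun c : Lc => x - (c : Ω))).prod := by
    conv_lhs => rw [hsplit]
    rw [map_mul, aeval_C, map_multiset_prod, Multiset.map_map]
    congr 2
    refine Multiset.map_congr rfl fun c _ => ?_
    simp only [Function.comp_apply, map_sub, aeval_X, aeval_C]
    rfl
  obtain ⟨c₀, hc₀, hvc₀⟩ : ∃ c₀ ∈ P.roots, O.valuation (x - (c₀ : Ω)) < 1 := by
    by_contra hcon
    push Not at hcon
    have hall : ∀ c ∈ P.roots, O.valuation (x - (c : Ω)) = 1 := fun c hc =>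
      le_antisymm ((O.valuation_le_one_iff _).mpr (O.sub_mem hxO (hLO _ c.2))) (hcon c hc)
    have h1 : O.valuation (aeval x P) = 1 := by
      rw [hprod, map_mul, hlead, one_mul, map_multiset_prod, Multiset.map_map]
      apply Multiset.prod_eq_one
      intro a ha
      obtain ⟨c, hc, rfl⟩ := Multiset.mem_map.mp ha
      exact hall c hc
    rw [h1] at hvπ
    exact lt_irrefl _ hvπ
  have hroot : P.IsRoot c₀ := isRoot_of_mem_roots hc₀
  have hc₀S : (c₀ : Ω) ∉ S := hroots c₀ hroot
  have hxc₀ : x - (c₀ : Ω) ∈ O := O.sub_mem hxO (hLO _ c₀.2)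
  have hxc₀0 : x - (c₀ : Ω) ≠ 0 := by
    intro h
    have hx' : aeval x P = 0 := by
      rw [sub_eq_zero] at h
      have h2 : aeval (algebraMap Lc Ω c₀) P = algebraMap Lc Ω (P.eval c₀) :=
        aeval_algebraMap_apply_eq_algebraMap_eval c₀ P
      rw [h]
      show aeval (algebraMap Lc Ω c₀) P = 0
      rw [h2, hroot.eq_zero, map_zero]
    rw [hx', inv_zero] at hπ
    exact hπ O.zero_mem
  have hxc₀inv : (x - (c₀ : Ω))⁻¹ ∉ O := inv_not_mem_of_valuation_lt_one O hxc₀0 hvc₀
  -- `P = (X - c₀) Q` with `Q(c₀) ≠ 0`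
  set Q := P /ₘ (X - C c₀) with hQ
  have hPQ : (X - C c₀) * Q = P := mul_divByMonic_eq_iff_isRoot.mpr hroot
  have hQc₀ : Q.eval c₀ ≠ 0 := by
    have hder := hPsep.eval₂_derivative_ne_zero (RingHom.id Lc) (x := c₀)
      (by rw [eval₂_id]; exact hroot)
    rw [eval₂_id] at hder
    intro h0
    apply hder
    rw [← hPQ, derivative_mul, eval_add, eval_mul, eval_mul, derivative_sub, derivative_X,
      derivative_C, sub_zero, eval_one, one_mul, eval_sub, eval_X, eval_C, sub_self, zero_mul,
      add_zero, h0]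
  have hvQ : O.valuation (aeval x Q) = 1 := by
    have h3 := valuation_aeval_sub_le O Lc hLO Q hxO c₀
    have h5 : O.valuation ((Q.eval c₀ : Lc) : Ω) = 1 :=
      valuation_eq_one_of_mem O Lc hLO (Q.eval c₀).2 (by simpa using hQc₀)
    have h6 : O.valuation (aeval x Q - ((Q.eval c₀ : Lc) : Ω)) <
        O.valuation ((Q.eval c₀ : Lc) : Ω) := by
      rw [h5]; exact lt_of_le_of_lt h3 hvc₀
    rw [Valuation.map_eq_of_sub_lt _ h6, h5]
  have hvP : O.valuation (aeval x P) = O.valuation (x - (c₀ : Ω)) := by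
    rw [← hPQ, map_mul, map_mul, hvQ, mul_one, map_sub, aeval_X, aeval_C]
    rfl
  -- conclusion
  intro t ht ht'
  have h1 : t * (x - (c₀ : Ω))⁻¹ ∈ O := hunr O hLO c₀ c₀.2 hc₀S hxc₀ hxc₀inv t ht ht'
  rw [← O.valuation_le_one_iff] at h1 ⊢
  rwa [map_mul, map_inv₀, hvP, ← map_inv₀, ← map_mul]

/-- The branch values in the chart at infinity. -/
def invBranch [DecidableEq Ω] (S : Finset Ω) : Finset Ω := insert 0 (S.image fun s => s⁻¹)

/-- **Chart at infinity**: `Unramified` for `x` and `S` implies `Unramified` for `x⁻¹` and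
`{0} ∪ S⁻¹`. -/
theorem Unramified.inv [DecidableEq Ω] {Lc : Subfield Ω} {x : Ω} {S : Finset Ω}
    (hunr : Unramified Lc x S) : Unramified Lc x⁻¹ (invBranch S) := by
  intro O hLO c' hc'L hc'S hmem hinv t ht ht'
  have hc'0 : c' ≠ 0 := by
    rintro rfl
    exact hc'S (Finset.mem_insert_self _ _)
  have hcS : c'⁻¹ ∉ S := by
    intro h
    apply hc'S
    refine Finset.mem_insert_of_mem (Finset.mem_image.mpr ⟨c'⁻¹, h, inv_inv c'⟩)
  have hv1 : O.valuation (x⁻¹ - c') < 1 := valuation_lt_one_of_inv_not_mem O hmem hinv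
  have hvc' : O.valuation c' = 1 := valuation_eq_one_of_mem O Lc hLO hc'L hc'0
  have hvx' : O.valuation x⁻¹ = 1 := by
    rw [Valuation.map_eq_of_sub_lt _ (by rw [hvc']; exact hv1), hvc']
  have hx0 : x ≠ 0 := by
    rintro rfl
    rw [inv_zero, map_zero] at hvx'
    exact zero_ne_one hvx'
  have hvx : O.valuation x = 1 := by
    rw [map_inv₀] at hvx'
    exact inv_eq_one.mp hvx'
  have hkey : x - c'⁻¹ = -((x⁻¹ - c') * x * c'⁻¹) := by
    field_simp
    ring
  have hv2 : O.valuation (x - c'⁻¹) = O.valuation (x⁻¹ - c') := by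
    rw [hkey, Valuation.map_neg, map_mul, map_mul, hvx, map_inv₀, hvc', inv_one, mul_one, mul_one]
  have hxc0 : x - c'⁻¹ ≠ 0 := by
    intro h
    rw [h, map_zero] at hv2
    have h3 : x⁻¹ - c' = 0 := (Valuation.zero_iff _).mp hv2.symm
    rw [h3, inv_zero] at hinv
    exact hinv O.zero_mem
  have h1 : x - c'⁻¹ ∈ O := by
    rw [← O.valuation_le_one_iff, hv2]
    exact hv1.le
  have h2 : (x - c'⁻¹)⁻¹ ∉ O :=
    inv_not_mem_of_valuation_lt_one O hxc0 (by rw [hv2]; exact hv1)
  have h3 := hunr O hLO c'⁻¹ (Lc.inv_mem hc'L) hcS h1 h2 t ht ht'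
  rw [← O.valuation_le_one_iff] at h3 ⊢
  rwa [map_mul, map_inv₀, ← hv2, ← map_inv₀, ← map_mul]

end Val

end Fermat.Agent.S18.H278

end
-- ===== PACK-END S18/H278/NCVal.lean

-- ===== PACK-BEGIN S18/H213/DetRank.lean
section


/-!
# S18 / b2 — the determinant–rank lemma (helper213)

`O` a domain, `π` a prime element generating a maximal ideal, `κ = O/π`.  If the rows of a square
matrix `H` over `O` reduce into a subspace of `κⁿ` of codimension `≥ r`, then `π ^ r ∣ det H`.
-/

set_option autoImplicit false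

set_option linter.unusedSectionVars false

open Module

namespace Fermat.Agent.S18.H213

attribute [local instance] Ideal.Quotient.field

variable {O : Type*} [CommRing O] [IsDomain O] {π : O}

/-- Reduction of a row vector modulo `π`. -/
def redRow (π : O) {ι : Type*} (v : ι → O) : ι → O ⧸ Ideal.span {π} :=
  fun k => Ideal.Quotient.mk (Ideal.span {π}) (v k)

theorem redRow_add {ι : Type*} (v w : ι → O) : redRow π (v + w) = redRow π v + redRow π w := by
  funext k; simp [redRow]

theorem redRow_smul {ι : Type*} (c : O) (v : ι → O) :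
    redRow π (c • v) = Ideal.Quotient.mk (Ideal.span {π}) c • redRow π v := by
  funext k; simp [redRow]

theorem redRow_sum {ι α : Type*} (s : Finset α) (f : α → ι → O) :
    redRow π (∑ a ∈ s, f a) = ∑ a ∈ s, redRow π (f a) := by
  funext k
  simp only [redRow, Finset.sum_apply, map_sum]

theorem redRow_eq_zero_iff {ι : Type*} (v : ι → O) :
    redRow π v = 0 ↔ ∀ k, π ∣ v k := by
  constructor
  · intro h k
    have := congrFun h k
    simp only [redRow, Pi.zero_apply, Ideal.Quotient.eq_zero_iff_mem,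
      Ideal.mem_span_singleton] at this
    exact this
  · intro h
    funext k
    simp only [redRow, Pi.zero_apply, Ideal.Quotient.eq_zero_iff_mem, Ideal.mem_span_singleton]
    exact h k

/-- **DET–RANK**, subspace form. -/
theorem pow_dvd_det_of_rows_mem (hπ : Prime π) [hmax : (Ideal.span {π}).IsMaximal]
    {ι : Type*} [Fintype ι] [DecidableEq ι] :
    ∀ (r : ℕ) (H : Matrix ι ι O) (U : Submodule (O ⧸ Ideal.span {π}) (ι → O ⧸ Ideal.span {π})),
      finrank (O ⧸ Ideal.span {π}) U + r ≤ Fintype.card ι →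
      (∀ j, redRow π (H j) ∈ U) → π ^ r ∣ H.det := by
  intro r
  induction r with
  | zero => intro H U _ _; simp
  | succ r ih =>
    intro H U hU hH
    -- the rows are linearly dependent mod π
    have hdep : ¬ LinearIndependent (O ⧸ Ideal.span {π})
        (fun j : ι => (⟨redRow π (H j), hH j⟩ : U)) := by
      intro hli
      have := hli.fintype_card_le_finrank
      omega
    rw [Fintype.not_linearIndependent_iff] at hdep
    obtain ⟨g, hg, j0, hj0⟩ := hdep
    -- lift the coefficients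
    have hsurj := Ideal.Quotient.mk_surjective (I := Ideal.span {π})
    choose c hc using fun j => hsurj (g j)
    have hcj0 : ¬ π ∣ c j0 := by
      intro hdiv
      apply hj0
      rw [← hc j0, Ideal.Quotient.eq_zero_iff_mem, Ideal.mem_span_singleton]
      exact hdiv
    -- the combined row vanishes mod π
    have hR : redRow π (∑ j, c j • H j) = 0 := by
      rw [redRow_sum]
      have h1 : ∀ j, redRow π (c j • H j) = g j • redRow π (H j) := fun j => by
        rw [redRow_smul, hc]
      simp only [h1]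
      have := congrArg (Subtype.val) hg
      simpa using this
    rw [redRow_eq_zero_iff] at hR
    choose R' hR' using hR
    have hRR' : (∑ j, c j • H j) = π • R' := by
      funext k
      rw [hR' k]
      simp
    -- determinant identity
    have hdet : c j0 * H.det = π * (H.updateRow j0 R').det := by
      have h1 := Matrix.det_updateRow_sum H j0 c
      rw [hRR', Matrix.det_updateRow_smul] at h1
      rw [h1, smul_eq_mul]
    -- the new matrix has rows in `U ⊔ span {R'}`
    have hrows : ∀ j, redRow π ((H.updateRow j0 R') j) ∈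
        U ⊔ Submodule.span (O ⧸ Ideal.span {π}) {redRow π R'} := by
      intro j
      by_cases hj : j = j0
      · subst hj
        rw [Matrix.updateRow_self]
        exact Submodule.mem_sup_right (Submodule.mem_span_singleton_self _)
      · rw [Matrix.updateRow_ne hj]
        exact Submodule.mem_sup_left (hH j)
    have hfin : finrank (O ⧸ Ideal.span {π})
        ↥(U ⊔ Submodule.span (O ⧸ Ideal.span {π}) {redRow π R'}) + r ≤ Fintype.card ι := by
      have h1 := Submodule.finrank_add_le_finrank_add_finrank U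
        (Submodule.span (O ⧸ Ideal.span {π}) {redRow π R'})
      have h2 : finrank (O ⧸ Ideal.span {π})
          ↥(Submodule.span (O ⧸ Ideal.span {π}) {redRow π R'}) ≤ 1 := by
        have := finrank_span_le_card (R := O ⧸ Ideal.span {π}) ({redRow π R'} : Set _)
        simpa using this
      omega
    have hih := ih (H.updateRow j0 R') _ hfin hrows
    have hdvd : π ^ (r + 1) ∣ c j0 * H.det := by
      rw [hdet, pow_succ']
      exact mul_dvd_mul_left π hih
    exact hπ.pow_dvd_of_dvd_mul_left (r + 1) hcj0 hdvd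

/-- **DET–RANK**, quotient form: the rows are killed by a surjection onto a space of
dimension `≥ r`. -/
theorem pow_dvd_det_of_rows_ker (hπ : Prime π) [hmax : (Ideal.span {π}).IsMaximal]
    {ι : Type*} [Fintype ι] [DecidableEq ι] {Q : Type*} [AddCommGroup Q]
    [Module (O ⧸ Ideal.span {π}) Q]
    (g : (ι → O ⧸ Ideal.span {π}) →ₗ[O ⧸ Ideal.span {π}] Q) (hg : Function.Surjective g)
    (r : ℕ) (hr : r ≤ finrank (O ⧸ Ideal.span {π}) Q) (H : Matrix ι ι O)
    (hH : ∀ j, g (redRow π (H j)) = 0) : π ^ r ∣ H.det := by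
  refine pow_dvd_det_of_rows_mem hπ r H (LinearMap.ker g) ?_ (fun j => hH j)
  have h1 := LinearMap.finrank_range_add_finrank_ker g
  have h2 : finrank (O ⧸ Ideal.span {π}) (LinearMap.range g) = finrank (O ⧸ Ideal.span {π}) Q := by
    rw [LinearMap.range_eq_top.mpr hg]
    exact finrank_top _ _
  have h3 : finrank (O ⧸ Ideal.span {π}) (ι → O ⧸ Ideal.span {π}) = Fintype.card ι := by
    simp
  omega

end Fermat.Agent.S18.H213

end
-- ===== PACK-END S18/H213/DetRank.lean

-- ===== PACK-BEGIN S28/H988/Coprime.lean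
section
/-
S28 / [L.UP] upper bound, helper988.
Pure algebra (Mathlib only):
* `isCoprime_map_of_reduction`: two monic polynomials over `k⟦X⟧`, one with unit constant
  coefficient, the other congruent to `X ^ m` modulo the maximal ideal, are coprime over `k⸨X⸩`.
* `mem_range_of_common_root`: the "gcd lemma": a common root `x` of two polynomials over a
  subfield `F`, such that the two quotients by `X - x` are coprime, lies in `F`.
-/


set_option autoImplicit false

noncomputable section

open Polynomial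

namespace Fermat.Agent.S28.H988

section Reduction

variable {k : Type*} [Field k]

/-- A monic polynomial over `k⟦X⟧` all of whose lower coefficients lie in the maximal ideal
reduces to `X ^ natDegree`. -/
theorem map_constantCoeff_eq_X_pow (g : Polynomial (PowerSeries k)) (hg : g.Monic)
    (hc : ∀ i < g.natDegree, PowerSeries.constantCoeff (g.coeff i) = 0) :
    g.map (PowerSeries.constantCoeff (R := k)) = X ^ g.natDegree := by
  ext i
  rw [coeff_map, coeff_X_pow]
  rcases lt_trichotomy i g.natDegree with h | h | h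
  · rw [hc i h, if_neg (ne_of_lt h)]
  · rw [h, if_pos rfl, coeff_natDegree, hg.leadingCoeff, map_one]
  · rw [coeff_eq_zero_of_natDegree_lt h, map_zero, if_neg (ne_of_gt h)]

/-- Two monic polynomials over `k⟦X⟧`, one with unit constant coefficient, the other congruent
to `X ^ m` modulo the maximal ideal, are coprime over `k⸨X⸩`. -/
theorem isCoprime_map_of_reduction
    (g₁ g₂ : Polynomial (PowerSeries k)) (h₁ : g₁.Monic) (h₂ : g₂.Monic)
    (hc₁ : PowerSeries.constantCoeff (g₁.coeff 0) ≠ 0)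
    (hc₂ : ∀ i < g₂.natDegree, PowerSeries.constantCoeff (g₂.coeff i) = 0) :
    IsCoprime (g₁.map (algebraMap (PowerSeries k) (LaurentSeries k)))
      (g₂.map (algebraMap (PowerSeries k) (LaurentSeries k))) := by
  classical
  set φ := algebraMap (PowerSeries k) (LaurentSeries k) with hφ
  have hφinj : Function.Injective φ := IsFractionRing.injective _ _
  rw [← EuclideanDomain.gcd_isUnit_iff]
  set H := EuclideanDomain.gcd (g₁.map φ) (g₂.map φ) with hH
  have hHne : H ≠ 0 := by
    intro h0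
    have := (EuclideanDomain.gcd_eq_zero_iff.mp h0).1
    exact (h₁.map φ).ne_zero this
  have hH1 : H ∣ g₁.map φ := EuclideanDomain.gcd_dvd_left _ _
  have hH2 : H ∣ g₂.map φ := EuclideanDomain.gcd_dvd_right _ _
  -- normalise
  set H' := H * C (leadingCoeff H)⁻¹ with hH'
  have hH'monic : H'.Monic := monic_mul_leadingCoeff_inv hHne
  have hunit : IsUnit (C (leadingCoeff H)⁻¹ : Polynomial (LaurentSeries k)) :=
    isUnit_C.mpr (IsUnit.mk0 _ (inv_ne_zero (leadingCoeff_ne_zero.mpr hHne)))
  have hH'1 : H' ∣ g₁.map φ := (hunit.mul_right_dvd).mpr hH1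
  have hH'2 : H' ∣ g₂.map φ := (hunit.mul_right_dvd).mpr hH2
  obtain ⟨h', hh'⟩ := IsIntegrallyClosed.eq_map_mul_C_of_dvd (LaurentSeries k) h₁ hH'1
  rw [hH'monic.leadingCoeff, map_one, mul_one] at hh'
  have hh'monic : h'.Monic := monic_of_injective hφinj (by rw [hh']; exact hH'monic)
  have hd1 : h' ∣ g₁ := (map_dvd_map φ hφinj hh'monic).mp (by rw [hh']; exact hH'1)
  have hd2 : h' ∣ g₂ := (map_dvd_map φ hφinj hh'monic).mp (by rw [hh']; exact hH'2)
  -- reduce modulo the maximal ideal
  set ψ := PowerSeries.constantCoeff (R := k) with hψ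
  have hb1 : h'.map ψ ∣ g₁.map ψ := Polynomial.map_dvd ψ hd1
  have hb2 : h'.map ψ ∣ X ^ g₂.natDegree := by
    rw [← map_constantCoeff_eq_X_pow g₂ h₂ hc₂]
    exact Polynomial.map_dvd ψ hd2
  have hbmonic : (h'.map ψ).Monic := hh'monic.map ψ
  obtain ⟨i, _, hi⟩ := (dvd_prime_pow (prime_X (R := k)) _).mp hb2
  have hi0 : i = 0 := by
    by_contra hne
    have hX : (X : Polynomial k) ∣ h'.map ψ :=
      (dvd_pow_self X hne).trans hi.symm.dvd
    have := hX.trans hb1
    rw [X_dvd_iff, coeff_map] at this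
    exact hc₁ this
  rw [hi0, pow_zero] at hi
  have hdeg0 : (h'.map ψ).natDegree = 0 := by
    have := natDegree_eq_of_degree_eq (degree_eq_degree_of_associated hi)
    simpa using this
  have hh'deg : h'.natDegree = 0 := by
    rw [← hdeg0, hh'monic.natDegree_map]
  have hh'one : h' = 1 := by
    have := eq_C_of_natDegree_eq_zero hh'deg
    rw [this]
    have hc : h'.coeff 0 = 1 := by
      have := hh'monic.leadingCoeff
      rwa [leadingCoeff, hh'deg] at this
    rw [hc, C_1]
  have hH'one : H' = 1 := by rw [← hh', hh'one, Polynomial.map_one]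
  have : IsUnit H' := by rw [hH'one]; exact isUnit_one
  exact (IsUnit.mul_iff.mp this).1

end Reduction

section GcdLemma

variable {F K : Type*} [Field F] [Field K] [Algebra F K]

/-- The gcd lemma: if `x` is a common root of `A` and `B` (polynomials over the subfield `F`)
and the quotients of `A` and `B` by `X - x` are coprime over the big field, then `x ∈ F`. -/
theorem mem_range_of_common_root (A B : Polynomial F) (hA : A ≠ 0) (x : K)
    (hAx : (A.map (algebraMap F K)).IsRoot x) (hBx : (B.map (algebraMap F K)).IsRoot x)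
    (hcop : IsCoprime ((A.map (algebraMap F K)) /ₘ (X - C x))
      ((B.map (algebraMap F K)) /ₘ (X - C x))) :
    x ∈ (algebraMap F K).range := by
  have hAx' : aeval x A = 0 := by
    rw [aeval_def, eval₂_eq_eval_map]; exact hAx
  have hBx' : aeval x B = 0 := by
    rw [aeval_def, eval₂_eq_eval_map]; exact hBx
  have hint : IsIntegral F x := by
    refine ⟨A * C (leadingCoeff A)⁻¹, monic_mul_leadingCoeff_inv hA, ?_⟩
    rw [eval₂_mul, ← aeval_def, hAx', zero_mul]
  rw [← minpoly.natDegree_eq_one_iff]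
  set μ := minpoly F x with hμ
  have hμA : μ ∣ A := minpoly.dvd F x hAx'
  have hμB : μ ∣ B := minpoly.dvd F x hBx'
  set φ := algebraMap F K with hφ
  have hμroot : (μ.map φ).IsRoot x := by
    have := minpoly.aeval F x
    rw [aeval_def, eval₂_eq_eval_map] at this
    exact this
  have e1 := mul_divByMonic_eq_iff_isRoot.mpr hμroot
  have e2 := mul_divByMonic_eq_iff_isRoot.mpr hAx
  have e3 := mul_divByMonic_eq_iff_isRoot.mpr hBx
  have hne : (X - C x : Polynomial K) ≠ 0 := X_sub_C_ne_zero x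
  have d1 : (μ.map φ) /ₘ (X - C x) ∣ (A.map φ) /ₘ (X - C x) := by
    have : μ.map φ ∣ A.map φ := Polynomial.map_dvd φ hμA
    rw [← e1, ← e2] at this
    exact (mul_dvd_mul_iff_left hne).mp this
  have d2 : (μ.map φ) /ₘ (X - C x) ∣ (B.map φ) /ₘ (X - C x) := by
    have : μ.map φ ∣ B.map φ := Polynomial.map_dvd φ hμB
    rw [← e1, ← e3] at this
    exact (mul_dvd_mul_iff_left hne).mp this
  have hu : IsUnit ((μ.map φ) /ₘ (X - C x)) := hcop.isUnit_of_dvd' d1 d2
  have hdeg : (μ.map φ).natDegree = 1 := by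
    rw [← e1, natDegree_mul hne hu.ne_zero, natDegree_X_sub_C, natDegree_eq_zero_of_isUnit hu]
  rwa [natDegree_map] at hdeg

end GcdLemma

end Fermat.Agent.S28.H988

end

end
-- ===== PACK-END S28/H988/Coprime.lean

-- ===== PACK-BEGIN Lib/RR/H980/LinAlg.lean
section
/-
Shared library RR (Riemann–Roch for function fields), helper980:
abstract linear algebra of "relative quotients" `Y / X` of submodules of a vector space.
Mathlib only.  Sorry-free.
-/






set_option autoImplicit false

noncomputable section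

namespace Fermat.Agent.Lib.RR.H980

open Module

variable {K V : Type*} [Field K] [AddCommGroup V] [Module K V]

/-- The relative quotient `Y / (X ∩ Y)`. -/
abbrev Quo (X Y : Submodule K V) : Type _ := ↥Y ⧸ X.submoduleOf Y

/-- The relative index `dim Y / (X ∩ Y)` (junk value `0` if infinite). -/
def idx (X Y : Submodule K V) : ℕ := finrank K (Quo X Y)

/-- `Y / (X ∩ Y)` is finite-dimensional. -/
def FinIdx (X Y : Submodule K V) : Prop := Module.Finite K (Quo X Y)

/-! ### Tower law -/

lemma mem_submoduleOf_iff {X Y : Submodule K V} {y : ↥Y} :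
    y ∈ X.submoduleOf Y ↔ (y : V) ∈ X := Iff.rfl

section tower

variable {X Y Z : Submodule K V}

/-- The injection `Y/X → Z/X` for `Y ≤ Z`. -/
def quoIncl (X : Submodule K V) {Y Z : Submodule K V} (hYZ : Y ≤ Z) : Quo X Y →ₗ[K] Quo X Z :=
  Submodule.mapQ _ _ (Submodule.inclusion hYZ) (fun _ hy => hy)

/-- The surjection `Z/X → Z/Y` for `X ≤ Y`. -/
def quoProj {X Y : Submodule K V} (hXY : X ≤ Y) (Z : Submodule K V) : Quo X Z →ₗ[K] Quo Y Z :=
  Submodule.mapQ _ _ LinearMap.id (fun _ hz => hXY hz)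

@[simp] lemma quoIncl_mk (X : Submodule K V) {Y Z : Submodule K V} (hYZ : Y ≤ Z) (y : ↥Y) :
    quoIncl X hYZ (Submodule.Quotient.mk y) = Submodule.Quotient.mk (Submodule.inclusion hYZ y) :=
  rfl

@[simp] lemma quoProj_mk {X Y : Submodule K V} (hXY : X ≤ Y) (Z : Submodule K V) (z : ↥Z) :
    quoProj hXY Z (Submodule.Quotient.mk z) = Submodule.Quotient.mk z := rfl

lemma quoIncl_injective (X : Submodule K V) {Y Z : Submodule K V} (hYZ : Y ≤ Z) :
    Function.Injective (quoIncl X hYZ) := by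
  rw [← LinearMap.ker_eq_bot, LinearMap.ker_eq_bot']
  intro q hq
  induction q using Submodule.Quotient.induction_on with
  | _ y =>
    rw [quoIncl_mk, Submodule.Quotient.mk_eq_zero] at hq
    rw [Submodule.Quotient.mk_eq_zero]
    exact hq

lemma quoProj_surjective {X Y : Submodule K V} (hXY : X ≤ Y) (Z : Submodule K V) :
    Function.Surjective (quoProj hXY Z) := by
  intro q
  induction q using Submodule.Quotient.induction_on with
  | _ z => exact ⟨Submodule.Quotient.mk z, rfl⟩

lemma range_quoIncl_eq_ker_quoProj (hXY : X ≤ Y) (hYZ : Y ≤ Z) :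
    LinearMap.range (quoIncl X hYZ) = LinearMap.ker (quoProj hXY Z) := by
  ext q
  induction q using Submodule.Quotient.induction_on with
  | _ z =>
    rw [LinearMap.mem_ker, quoProj_mk, Submodule.Quotient.mk_eq_zero, mem_submoduleOf_iff]
    constructor
    · rintro ⟨q', hq'⟩
      induction q' using Submodule.Quotient.induction_on with
      | _ y =>
        rw [quoIncl_mk, Submodule.Quotient.eq, mem_submoduleOf_iff] at hq'
        have hq'' : (y : V) - (z : V) ∈ X := hq'
        have : (z : V) = y - (y - z) := by abel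
        rw [this]
        exact Y.sub_mem y.2 (hXY hq'')
    · intro hz
      exact ⟨Submodule.Quotient.mk ⟨z, hz⟩, rfl⟩

/-- Tower law for relative indices. -/
theorem idx_tower (hXY : X ≤ Y) (hYZ : Y ≤ Z) (hfin : FinIdx X Z) :
    idx X Z = idx X Y + idx Y Z := by
  have : Module.Finite K (Quo X Z) := hfin
  have h1 := (quoProj hXY Z).finrank_range_add_finrank_ker
  rw [LinearMap.range_eq_top.mpr (quoProj_surjective hXY Z), finrank_top,
    ← range_quoIncl_eq_ker_quoProj hXY hYZ,
    LinearMap.finrank_range_of_inj (quoIncl_injective X hYZ)] at h1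
  unfold idx
  omega

theorem FinIdx.left (hYZ : Y ≤ Z) (hfin : FinIdx X Z) : FinIdx X Y := by
  have : Module.Finite K (Quo X Z) := hfin
  exact Module.Finite.of_injective (quoIncl X hYZ) (quoIncl_injective X hYZ)

theorem FinIdx.right (hXY : X ≤ Y) (hfin : FinIdx X Z) : FinIdx Y Z := by
  have : Module.Finite K (Quo X Z) := hfin
  exact Module.Finite.of_surjective (quoProj hXY Z) (quoProj_surjective hXY Z)

theorem FinIdx.trans (hXY : X ≤ Y) (hYZ : Y ≤ Z) (h1 : FinIdx X Y) (h2 : FinIdx Y Z) :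
    FinIdx X Z := by
  have : Module.Finite K (Quo X Y) := h1
  have : Module.Finite K (Quo Y Z) := h2
  have : Module.Finite K (LinearMap.ker (quoProj hXY Z)) := by
    rw [← range_quoIncl_eq_ker_quoProj hXY hYZ]
    infer_instance
  have : Module.Finite K (Quo X Z ⧸ LinearMap.ker (quoProj hXY Z)) :=
    Module.Finite.equiv ((quoProj hXY Z).quotKerEquivOfSurjective
      (quoProj_surjective hXY Z)).symm
  exact Module.Finite.of_submodule_quotient (LinearMap.ker (quoProj hXY Z))

end tower

/-! ### Second isomorphism theorem, relative version -/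

section second

variable {A₁ A₂ : Submodule K V} (P : Submodule K V)

/-- The surjection `A₂/A₁ → (A₂ + P)/(A₁ + P)`. -/
def supMap (h : A₁ ≤ A₂) : Quo A₁ A₂ →ₗ[K] Quo (A₁ ⊔ P) (A₂ ⊔ P) :=
  Submodule.mapQ _ _ (Submodule.inclusion (le_sup_left : A₂ ≤ A₂ ⊔ P))
    (fun _ hy => Submodule.mem_sup_left hy)

/-- The injection `(A₂ ∩ P)/(A₁ ∩ P) → A₂/A₁`. -/
def infMap (A₁ A₂ : Submodule K V) : Quo (A₁ ⊓ P) (A₂ ⊓ P) →ₗ[K] Quo A₁ A₂ :=
  Submodule.mapQ _ _ (Submodule.inclusion (inf_le_left : A₂ ⊓ P ≤ A₂))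
    (fun _ hy => (Submodule.mem_inf.mp hy).1)

@[simp] lemma supMap_mk (h : A₁ ≤ A₂) (a : ↥A₂) :
    supMap P h (Submodule.Quotient.mk a) =
      Submodule.Quotient.mk (Submodule.inclusion (le_sup_left : A₂ ≤ A₂ ⊔ P) a) := rfl

@[simp] lemma infMap_mk (b : ↥(A₂ ⊓ P)) :
    infMap P A₁ A₂ (Submodule.Quotient.mk b) =
      Submodule.Quotient.mk (Submodule.inclusion (inf_le_left : A₂ ⊓ P ≤ A₂) b) := rfl

lemma supMap_surjective (h : A₁ ≤ A₂) : Function.Surjective (supMap P h) := by
  intro q
  induction q using Submodule.Quotient.induction_on with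
  | _ z =>
    obtain ⟨a, ha, p, hp, hz⟩ := Submodule.mem_sup.mp z.2
    refine ⟨Submodule.Quotient.mk ⟨a, ha⟩, ?_⟩
    rw [supMap_mk, Submodule.Quotient.eq, mem_submoduleOf_iff]
    have : ((Submodule.inclusion (le_sup_left : A₂ ≤ A₂ ⊔ P) ⟨a, ha⟩ - z : ↥(A₂ ⊔ P)) : V)
        = -p := by
      rw [Submodule.coe_sub, Submodule.coe_inclusion, ← hz]
      simp
    rw [this]
    exact Submodule.mem_sup_right (P.neg_mem hp)

lemma infMap_injective : Function.Injective (infMap P A₁ A₂) := by
  rw [← LinearMap.ker_eq_bot, LinearMap.ker_eq_bot']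
  intro q hq
  induction q using Submodule.Quotient.induction_on with
  | _ b =>
    rw [infMap_mk, Submodule.Quotient.mk_eq_zero, mem_submoduleOf_iff] at hq
    rw [Submodule.Quotient.mk_eq_zero, mem_submoduleOf_iff]
    exact Submodule.mem_inf.mpr ⟨hq, (Submodule.mem_inf.mp b.2).2⟩

lemma range_infMap_eq_ker_supMap (h : A₁ ≤ A₂) :
    LinearMap.range (infMap P A₁ A₂) = LinearMap.ker (supMap P h) := by
  ext q
  induction q using Submodule.Quotient.induction_on with
  | _ a =>
    rw [LinearMap.mem_ker, supMap_mk, Submodule.Quotient.mk_eq_zero, mem_submoduleOf_iff]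
    constructor
    · rintro ⟨q', hq'⟩
      induction q' using Submodule.Quotient.induction_on with
      | _ b =>
        rw [infMap_mk, Submodule.Quotient.eq, mem_submoduleOf_iff] at hq'
        have hq'' : (b : V) - (a : V) ∈ A₁ := hq'
        have : (a : V) = -((b : V) - a) + b := by abel
        show (a : V) ∈ A₁ ⊔ P
        rw [this]
        exact Submodule.add_mem_sup (A₁.neg_mem hq'') (Submodule.mem_inf.mp b.2).2
    · intro ha
      have ha' : (a : V) ∈ A₁ ⊔ P := ha
      obtain ⟨a₁, ha₁, p, hp, hap⟩ := Submodule.mem_sup.mp ha'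
      have hpA : p ∈ A₂ := by
        have : p = a - a₁ := by rw [← hap]; abel
        rw [this]
        exact A₂.sub_mem a.2 (h ha₁)
      refine ⟨Submodule.Quotient.mk ⟨p, Submodule.mem_inf.mpr ⟨hpA, hp⟩⟩, ?_⟩
      rw [infMap_mk, Submodule.Quotient.eq, mem_submoduleOf_iff]
      have : ((Submodule.inclusion (inf_le_left : A₂ ⊓ P ≤ A₂)
          ⟨p, Submodule.mem_inf.mpr ⟨hpA, hp⟩⟩ - a : ↥A₂) : V) = -a₁ := by
        rw [Submodule.coe_sub, Submodule.coe_inclusion, ← hap]
        simp
      rw [this]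
      exact A₁.neg_mem ha₁

theorem FinIdx.sup (h : A₁ ≤ A₂) (hfin : FinIdx A₁ A₂) : FinIdx (A₁ ⊔ P) (A₂ ⊔ P) := by
  have : Module.Finite K (Quo A₁ A₂) := hfin
  exact Module.Finite.of_surjective (supMap P h) (supMap_surjective P h)

theorem FinIdx.inf (hfin : FinIdx A₁ A₂) : FinIdx (A₁ ⊓ P) (A₂ ⊓ P) := by
  have : Module.Finite K (Quo A₁ A₂) := hfin
  exact Module.Finite.of_injective (infMap P A₁ A₂) (infMap_injective P)

/-- `dim (A₂ + P)/(A₁ + P) + dim (A₂ ∩ P)/(A₁ ∩ P) = dim A₂/A₁`. -/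
theorem idx_sup_add_idx_inf (h : A₁ ≤ A₂) (hfin : FinIdx A₁ A₂) :
    idx (A₁ ⊔ P) (A₂ ⊔ P) + idx (A₁ ⊓ P) (A₂ ⊓ P) = idx A₁ A₂ := by
  have : Module.Finite K (Quo A₁ A₂) := hfin
  have h1 := (supMap P h).finrank_range_add_finrank_ker
  rw [LinearMap.range_eq_top.mpr (supMap_surjective P h), finrank_top,
    ← range_infMap_eq_ker_supMap P h,
    LinearMap.finrank_range_of_inj (infMap_injective P)] at h1
  exact h1

end second

/-! ### Quotients of the whole space -/

section whole

variable {X Y : Submodule K V}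

/-- `⊤ / X ≃ V / X`. -/
def quoTopEquiv (X : Submodule K V) : Quo X ⊤ ≃ₗ[K] V ⧸ X :=
  Submodule.Quotient.equiv (X.submoduleOf ⊤) X Submodule.topEquiv (by
    ext x
    simp only [Submodule.mem_map]
    constructor
    · rintro ⟨y, hy, rfl⟩
      exact hy
    · intro hx
      exact ⟨⟨x, Submodule.mem_top⟩, hx, rfl⟩)

lemma idx_top (X : Submodule K V) : idx X ⊤ = finrank K (V ⧸ X) :=
  (quoTopEquiv X).finrank_eq

lemma finIdx_top_iff (X : Submodule K V) : FinIdx X ⊤ ↔ Module.Finite K (V ⧸ X) :=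
  ⟨fun h => by
    have : Module.Finite K (Quo X ⊤) := h
    exact Module.Finite.equiv (quoTopEquiv X),
   fun h => Module.Finite.equiv (quoTopEquiv X).symm⟩

/-- If `Y/X` and `V/Y` are finite-dimensional, so is `V/X`, and dimensions add. -/
theorem finrank_quotient_eq_add (hXY : X ≤ Y) (h1 : FinIdx X Y) (h2 : Module.Finite K (V ⧸ Y)) :
    Module.Finite K (V ⧸ X) ∧ finrank K (V ⧸ X) = finrank K (V ⧸ Y) + idx X Y := by
  have h3 : FinIdx X ⊤ := FinIdx.trans hXY le_top h1 ((finIdx_top_iff Y).mpr h2)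
  refine ⟨(finIdx_top_iff X).mp h3, ?_⟩
  rw [← idx_top, ← idx_top, idx_tower hXY le_top h3, add_comm]

end whole

/-! ### Further lemmas -/

section misc

variable {X Y : Submodule K V}

lemma finIdx_self (X : Submodule K V) : FinIdx X X := by
  unfold FinIdx Quo
  rw [Submodule.submoduleOf_self]
  infer_instance

lemma idx_self (X : Submodule K V) : idx X X = 0 := by
  unfold idx Quo
  rw [Submodule.submoduleOf_self]
  exact finrank_zero_of_subsingleton

/-- For `X ≤ Y` with `Y` finite-dimensional, `dim Y/X + dim X = dim Y`. -/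
lemma idx_add_finrank (hXY : X ≤ Y) [Module.Finite K ↥Y] :
    idx X Y + finrank K ↥X = finrank K ↥Y := by
  have h := Submodule.finrank_quotient_add_finrank (X.submoduleOf Y)
  rw [(Submodule.submoduleOfEquivOfLe hXY).finrank_eq] at h
  exact h

/-- If `Y/X` is zero-dimensional then `Y ≤ X`. -/
lemma le_of_idx_eq_zero (hfin : FinIdx X Y) (h0 : idx X Y = 0) : Y ≤ X := by
  have : Module.Finite K (Quo X Y) := hfin
  have hs : Subsingleton (Quo X Y) := Module.finrank_zero_iff.mp h0
  intro y hy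
  have h1 : (Submodule.Quotient.mk ⟨y, hy⟩ : Quo X Y) = 0 := Subsingleton.elim _ _
  rw [Submodule.Quotient.mk_eq_zero, mem_submoduleOf_iff] at h1
  exact h1

end misc

end Fermat.Agent.Lib.RR.H980

end

end
-- ===== PACK-END Lib/RR/H980/LinAlg.lean

-- ===== PACK-BEGIN S19/H495/Pivot.lean
section
/-
A3 / S19 — WP-W6alg (helper495): constant-rank linear algebra over a commutative ring.

A matrix `A` over a commutative ring `R` has *constant rank at the pivot `(p, q)`* when the
square block `A[p, q]` has unit determinant and every bordered minor (the block enlarged by one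
row and one column) vanishes.  Then `A = A[·, q] * A[p, q]⁻¹ * A[p, ·]`, the kernel and the image
of `A` are free direct summands with explicit bases whose entries are polynomials in the entries
of `A` divided by the pivot minor, and all of this is stable under arbitrary base change.
-/





set_option linter.unusedSectionVars false
set_option linter.unusedSimpArgs false
set_option linter.style.longLine false

namespace Fermat.Agent.S19.H495

open Matrix

variable {R : Type*} [CommRing R]
variable {m n ι : Type*} [Fintype m] [Fintype n] [Fintype ι] [DecidableEq m] [DecidableEq n]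
  [DecidableEq ι]

/-- The bordered minor of `A`: the determinant of the pivot block `A[p, q]` enlarged by the row
`i` and the column `j`. -/
noncomputable def borderedMinor (A : Matrix m n R) (p : ι → m) (q : ι → n) (i : m) (j : n) : R :=
  (A.submatrix (Sum.elim p (fun _ : Unit => i)) (Sum.elim q (fun _ : Unit => j))).det

/-- `A` has constant rank at the pivot `(p, q)`: the pivot minor is a unit and all bordered minors
vanish. -/
def ConstRankAt (A : Matrix m n R) (p : ι → m) (q : ι → n) : Prop :=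
  IsUnit (A.submatrix p q).det ∧ ∀ i j, borderedMinor A p q i j = 0

theorem borderedMinor_eq_fromBlocks (A : Matrix m n R) (p : ι → m) (q : ι → n) (i : m) (j : n) :
    borderedMinor A p q i j =
      (fromBlocks (A.submatrix p q) (A.submatrix p (fun _ : Unit => j))
        (A.submatrix (fun _ : Unit => i) q) (A.submatrix (fun _ : Unit => i) (fun _ : Unit => j))).det := by
  unfold borderedMinor
  congr 1
  ext (a | a) (b | b) <;> rfl

/-- Schur complement form of the bordered minor. -/
theorem borderedMinor_eq (A : Matrix m n R) (p : ι → m) (q : ι → n) (i : m) (j : n)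
    (h : IsUnit (A.submatrix p q).det) :
    borderedMinor A p q i j =
      (A.submatrix p q).det * (A i j - ∑ a, ∑ b, A i (q a) * (A.submatrix p q)⁻¹ a b * A (p b) j) := by
  rw [borderedMinor_eq_fromBlocks]
  let _ := invertibleOfIsUnitDet _ h
  rw [det_fromBlocks₁₁]
  congr 1
  rw [det_unique (n := Unit)]
  simp only [Matrix.sub_apply, submatrix_apply, Matrix.mul_apply, invOf_eq_nonsing_inv,
    Finset.sum_mul]
  rw [Finset.sum_comm]

section Core

variable (A : Matrix m n R) (p : ι → m) (q : ι → n)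

/-- The reduced row echelon matrix `A[p, q]⁻¹ * A[p, ·]` of `A` at the pivot `(p, q)`. -/
noncomputable def echelon : Matrix ι n R := (A.submatrix p q)⁻¹ * A.submatrix p id

/-- The reduced column echelon matrix `A[·, q] * A[p, q]⁻¹` of `A` at the pivot `(p, q)`. -/
noncomputable def coechelon : Matrix m ι R := A.submatrix id q * (A.submatrix p q)⁻¹

variable {A p q}

theorem ConstRankAt.isUnit_det (h : ConstRankAt A p q) : IsUnit (A.submatrix p q).det := h.1

theorem ConstRankAt.entry_eq (h : ConstRankAt A p q) (i : m) (j : n) :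
    A i j = ∑ a, ∑ b, A i (q a) * (A.submatrix p q)⁻¹ a b * A (p b) j := by
  have h1 := borderedMinor_eq A p q i j h.1
  rw [h.2 i j] at h1
  have h2 := h.1.mul_right_eq_zero.mp h1.symm
  exact sub_eq_zero.mp h2

/-- Rank factorisation of a matrix of constant rank. -/
theorem ConstRankAt.factorization (h : ConstRankAt A p q) :
    A = A.submatrix id q * (A.submatrix p q)⁻¹ * A.submatrix p id := by
  ext i j
  rw [h.entry_eq i j]
  simp only [Matrix.mul_apply, submatrix_apply, id_eq, Finset.sum_mul]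
  rw [Finset.sum_comm]

theorem ConstRankAt.eq_mul_echelon (h : ConstRankAt A p q) :
    A = A.submatrix id q * echelon A p q := by
  rw [echelon, ← Matrix.mul_assoc]; exact h.factorization

theorem ConstRankAt.eq_coechelon_mul (h : ConstRankAt A p q) :
    A = coechelon A p q * A.submatrix p id := h.factorization

theorem echelon_submatrix (h : IsUnit (A.submatrix p q).det) :
    (echelon A p q).submatrix id q = 1 := by
  have : (echelon A p q).submatrix id q = (A.submatrix p q)⁻¹ * A.submatrix p q := by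
    ext a b; simp [echelon, Matrix.mul_apply]
  rw [this, nonsing_inv_mul _ h]

theorem coechelon_submatrix (h : IsUnit (A.submatrix p q).det) :
    (coechelon A p q).submatrix p id = 1 := by
  have : (coechelon A p q).submatrix p id = A.submatrix p q * (A.submatrix p q)⁻¹ := by
    ext a b; simp [coechelon, Matrix.mul_apply]
  rw [this, mul_nonsing_inv _ h]

theorem echelon_apply_pivot (h : IsUnit (A.submatrix p q).det) (a b : ι) :
    echelon A p q a (q b) = if a = b then 1 else 0 := by
  have := congrFun (congrFun (echelon_submatrix h) a) b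
  simpa [Matrix.one_apply] using this

theorem coechelon_apply_pivot (h : IsUnit (A.submatrix p q).det) (a b : ι) :
    coechelon A p q (p a) b = if a = b then 1 else 0 := by
  have := congrFun (congrFun (coechelon_submatrix h) a) b
  simpa [Matrix.one_apply] using this

/-- In a nontrivial ring the column selector of a pivot is injective. -/
theorem injective_of_isUnit_det_right [Nontrivial R] (h : IsUnit (A.submatrix p q).det) :
    Function.Injective q := by
  intro a b hab
  by_contra hne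
  have h1 : echelon A p q a (q a) = 1 := by rw [echelon_apply_pivot h, if_pos rfl]
  have h2 : echelon A p q a (q b) = 0 := by rw [echelon_apply_pivot h, if_neg hne]
  rw [hab, h2] at h1
  exact zero_ne_one h1

/-- In a nontrivial ring the row selector of a pivot is injective. -/
theorem injective_of_isUnit_det_left [Nontrivial R] (h : IsUnit (A.submatrix p q).det) :
    Function.Injective p := by
  intro a b hab
  by_contra hne
  have h1 : coechelon A p q (p a) a = 1 := by rw [coechelon_apply_pivot h, if_pos rfl]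
  have h2 : coechelon A p q (p b) a = 0 := by
    rw [coechelon_apply_pivot h, if_neg (Ne.symm hne)]
  rw [hab, h2] at h1
  exact zero_ne_one h1

/-! ### The kernel -/

theorem submatrix_mulVec_eq (x : n → R) (a : ι) :
    (A.submatrix p id *ᵥ x) a = (A *ᵥ x) (p a) := rfl

theorem ConstRankAt.mulVec_eq_zero_iff_submatrix (h : ConstRankAt A p q) (x : n → R) :
    A *ᵥ x = 0 ↔ A.submatrix p id *ᵥ x = 0 := by
  constructor
  · intro hx
    ext a
    rw [submatrix_mulVec_eq, hx]; rfl
  · intro hx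
    rw [h.eq_coechelon_mul, ← Matrix.mulVec_mulVec, hx, Matrix.mulVec_zero]

theorem ConstRankAt.mulVec_eq_zero_iff_echelon (h : ConstRankAt A p q) (x : n → R) :
    A *ᵥ x = 0 ↔ echelon A p q *ᵥ x = 0 := by
  rw [h.mulVec_eq_zero_iff_submatrix]
  constructor
  · intro hx
    rw [echelon, ← Matrix.mulVec_mulVec, hx, Matrix.mulVec_zero]
  · intro hx
    have : A.submatrix p id = A.submatrix p q * echelon A p q := by
      rw [echelon, ← Matrix.mul_assoc, mul_nonsing_inv _ h.1, Matrix.one_mul]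
    rw [this, ← Matrix.mulVec_mulVec, hx, Matrix.mulVec_zero]

variable (A p q)

/-- The projector onto the kernel of `A` along the pivot coordinates:
`kerProj = 1 - S_q * echelon`, where `S_q` is the selection matrix of the pivot columns.
Its `j`-th column is `e_j - ∑ a, echelon a j • e_{q a}`. -/
noncomputable def kerProj : Matrix n n R :=
  1 - (1 : Matrix n n R).submatrix id q * echelon A p q

/-- The projector onto the image of `A` along the non-pivot coordinates:
`imgProj = coechelon * S_p`, where `S_p` is the selection matrix of the pivot rows. -/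
noncomputable def imgProj : Matrix m m R :=
  coechelon A p q * (1 : Matrix m m R).submatrix p id

variable {A p q}

theorem mul_one_submatrix_right {k : Type*} [Fintype k] (B : Matrix k n R) :
    B * (1 : Matrix n n R).submatrix id q = B.submatrix id q := by
  ext i a
  simp [Matrix.mul_apply, Matrix.one_apply]

theorem one_submatrix_mul_left {k : Type*} [Fintype k] (B : Matrix m k R) :
    (1 : Matrix m m R).submatrix p id * B = B.submatrix p id := by
  ext a j
  simp [Matrix.mul_apply, Matrix.one_apply]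

theorem echelon_mul_kerProj (h : IsUnit (A.submatrix p q).det) :
    echelon A p q * kerProj A p q = 0 := by
  rw [kerProj, Matrix.mul_sub, Matrix.mul_one, ← Matrix.mul_assoc, mul_one_submatrix_right,
    echelon_submatrix h, Matrix.one_mul, sub_self]

theorem ConstRankAt.mul_kerProj (h : ConstRankAt A p q) : A * kerProj A p q = 0 := by
  refine (congrArg (· * kerProj A p q) h.eq_mul_echelon).trans ?_
  rw [Matrix.mul_assoc, echelon_mul_kerProj h.1, Matrix.mul_zero]

theorem kerProj_mul_kerProj (h : IsUnit (A.submatrix p q).det) :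
    kerProj A p q * kerProj A p q = kerProj A p q := by
  nth_rewrite 1 [kerProj]
  rw [Matrix.sub_mul, Matrix.one_mul, Matrix.mul_assoc,
    echelon_mul_kerProj h, Matrix.mul_zero, sub_zero]

theorem kerProj_mulVec_of_echelon (x : n → R) (hx : echelon A p q *ᵥ x = 0) :
    kerProj A p q *ᵥ x = x := by
  rw [kerProj, Matrix.sub_mulVec, Matrix.one_mulVec, ← Matrix.mulVec_mulVec, hx,
    Matrix.mulVec_zero, sub_zero]

theorem ConstRankAt.kerProj_mulVec (h : ConstRankAt A p q) (x : n → R) (hx : A *ᵥ x = 0) :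
    kerProj A p q *ᵥ x = x :=
  kerProj_mulVec_of_echelon x ((h.mulVec_eq_zero_iff_echelon x).mp hx)

theorem kerProj_apply (i j : n) :
    kerProj A p q i j = (if i = j then 1 else 0) - ∑ a, (if i = q a then echelon A p q a j else 0) := by
  simp [kerProj, Matrix.mul_apply, Matrix.one_apply]

/-- The pivot columns of the kernel projector vanish. -/
theorem kerProj_submatrix_pivot (h : IsUnit (A.submatrix p q).det) :
    (kerProj A p q).submatrix id q = 0 := by
  rw [← mul_one_submatrix_right, kerProj, Matrix.sub_mul, Matrix.one_mul, Matrix.mul_assoc,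
    mul_one_submatrix_right (q := q) (echelon A p q), echelon_submatrix h, Matrix.mul_one, sub_self]

theorem kerProj_apply_pivot (h : IsUnit (A.submatrix p q).det) (i : n) (a : ι) :
    kerProj A p q i (q a) = 0 := by
  have := congrFun (congrFun (kerProj_submatrix_pivot h) i) a
  simpa using this

/-- Off the pivot rows, the kernel projector is the identity matrix. -/
theorem kerProj_apply_of_notMem (i j : n) (hi : i ∉ Set.range q) :
    kerProj A p q i j = if i = j then 1 else 0 := by
  rw [kerProj_apply]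
  have : ∀ a, (if i = q a then echelon A p q a j else 0) = 0 := by
    intro a
    rw [if_neg]
    rintro rfl
    exact hi ⟨a, rfl⟩
  simp [this]

theorem ConstRankAt.ker_eq_range_kerProj (h : ConstRankAt A p q) :
    LinearMap.ker A.mulVecLin = LinearMap.range (kerProj A p q).mulVecLin := by
  ext x
  simp only [LinearMap.mem_ker, Matrix.mulVecLin_apply, LinearMap.mem_range]
  constructor
  · intro hx
    exact ⟨x, h.kerProj_mulVec x hx⟩
  · rintro ⟨y, rfl⟩
    rw [Matrix.mulVec_mulVec, h.mul_kerProj, Matrix.zero_mulVec]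

/-- Every element of the kernel is the combination of the non-pivot columns of the kernel
projector with its own non-pivot coordinates as coefficients. -/
theorem ConstRankAt.eq_sum_kerProj (h : ConstRankAt A p q) (x : n → R) (hx : A *ᵥ x = 0) (i : n) :
    x i = ∑ j, kerProj A p q i j * x j := by
  have := congrFun (h.kerProj_mulVec x hx) i
  rw [← this]
  rfl

/-! ### The image -/

theorem ConstRankAt.imgProj_mul (h : ConstRankAt A p q) : imgProj A p q * A = A := by
  rw [imgProj, Matrix.mul_assoc, one_submatrix_mul_left]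
  exact h.eq_coechelon_mul.symm

theorem imgProj_mul_imgProj (h : IsUnit (A.submatrix p q).det) :
    imgProj A p q * imgProj A p q = imgProj A p q := by
  rw [imgProj, Matrix.mul_assoc, ← Matrix.mul_assoc ((1 : Matrix m m R).submatrix p id),
    one_submatrix_mul_left, coechelon_submatrix h, Matrix.one_mul]

theorem ConstRankAt.range_eq_range_submatrix (h : ConstRankAt A p q) :
    LinearMap.range A.mulVecLin = LinearMap.range (A.submatrix id q).mulVecLin := by
  ext y
  simp only [LinearMap.mem_range, Matrix.mulVecLin_apply]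
  constructor
  · rintro ⟨x, rfl⟩
    refine ⟨echelon A p q *ᵥ x, ?_⟩
    rw [Matrix.mulVec_mulVec, ← h.eq_mul_echelon]
  · rintro ⟨z, rfl⟩
    refine ⟨(1 : Matrix n n R).submatrix id q *ᵥ z, ?_⟩
    rw [Matrix.mulVec_mulVec, mul_one_submatrix_right]

theorem ConstRankAt.range_eq_range_imgProj (h : ConstRankAt A p q) :
    LinearMap.range A.mulVecLin = LinearMap.range (imgProj A p q).mulVecLin := by
  ext y
  simp only [LinearMap.mem_range, Matrix.mulVecLin_apply]
  constructor
  · rintro ⟨x, rfl⟩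
    refine ⟨A *ᵥ x, ?_⟩
    rw [Matrix.mulVec_mulVec, h.imgProj_mul]
  · rintro ⟨z, rfl⟩
    refine ⟨(1 : Matrix n n R).submatrix id q *ᵥ ((A.submatrix p q)⁻¹ *ᵥ
      ((1 : Matrix m m R).submatrix p id *ᵥ z)), ?_⟩
    rw [Matrix.mulVec_mulVec, Matrix.mulVec_mulVec, Matrix.mulVec_mulVec, imgProj, coechelon,
      mul_one_submatrix_right, Matrix.mul_assoc]

/-- The pivot columns of a matrix with unit pivot minor are linearly independent: the
coefficients are recovered from the pivot rows. -/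
theorem submatrix_mulVec_injective (h : IsUnit (A.submatrix p q).det) :
    Function.Injective (A.submatrix id q).mulVecLin := by
  intro x y hxy
  have h1 : ((A.submatrix p q)⁻¹ * (A.submatrix id q).submatrix p id) *ᵥ x =
      ((A.submatrix p q)⁻¹ * (A.submatrix id q).submatrix p id) *ᵥ y := by
    rw [← Matrix.mulVec_mulVec, ← Matrix.mulVec_mulVec]
    congr 1
    ext a
    exact congrFun hxy (p a)
  have h2 : (A.submatrix p q)⁻¹ * (A.submatrix id q).submatrix p id = 1 := by
    rw [show (A.submatrix id q).submatrix p id = A.submatrix p q from rfl, nonsing_inv_mul _ h]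
  rwa [h2, Matrix.one_mulVec, Matrix.one_mulVec] at h1

end Core

/-! ### Base change -/

section BaseChange

variable {S : Type*} [CommRing S] (f : R →+* S) {A : Matrix m n R} {p : ι → m} {q : ι → n}

theorem map_nonsing_inv (G : Matrix ι ι R) (h : IsUnit G.det) : (G⁻¹).map f = (G.map f)⁻¹ := by
  symm
  apply Matrix.inv_eq_right_inv
  rw [← Matrix.map_mul, mul_nonsing_inv _ h, Matrix.map_one _ f.map_zero f.map_one]

theorem borderedMinor_map (A : Matrix m n R) (p : ι → m) (q : ι → n) (i : m) (j : n) :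
    borderedMinor (A.map f) p q i j = f (borderedMinor A p q i j) := by
  unfold borderedMinor
  rw [RingHom.map_det]
  rfl

theorem det_submatrix_map (A : Matrix m n R) (p : ι → m) (q : ι → n) :
    ((A.map f).submatrix p q).det = f (A.submatrix p q).det := by
  rw [RingHom.map_det]
  rfl

/-- Constant rank at a pivot is stable under arbitrary base change. -/
theorem ConstRankAt.map (h : ConstRankAt A p q) : ConstRankAt (A.map f) p q := by
  refine ⟨?_, fun i j => ?_⟩
  · rw [det_submatrix_map]; exact h.1.map f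
  · rw [borderedMinor_map, h.2 i j, map_zero]

/-- Constant rank at a pivot descends along a local homomorphism (e.g. the reduction map of a
local ring, or an injective map from a valuation ring... with unit pivot) as soon as the
bordered minors vanish. -/
theorem ConstRankAt.of_map [IsLocalHom f] (h1 : IsUnit ((A.map f).submatrix p q).det)
    (h2 : ∀ i j, borderedMinor A p q i j = 0) : ConstRankAt A p q := by
  refine ⟨?_, h2⟩
  rw [det_submatrix_map] at h1
  exact isUnit_of_map_unit f _ h1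

theorem echelon_map (h : IsUnit (A.submatrix p q).det) :
    echelon (A.map f) p q = (echelon A p q).map f := by
  unfold echelon
  rw [Matrix.map_mul, map_nonsing_inv f _ h]
  rfl

theorem coechelon_map (h : IsUnit (A.submatrix p q).det) :
    coechelon (A.map f) p q = (coechelon A p q).map f := by
  unfold coechelon
  rw [Matrix.map_mul, map_nonsing_inv f _ h]
  rfl

theorem kerProj_map (h : IsUnit (A.submatrix p q).det) :
    kerProj (A.map f) p q = (kerProj A p q).map f := by
  unfold kerProj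
  rw [echelon_map f h]
  ext i j
  simp [Matrix.mul_apply, Matrix.one_apply, apply_ite f]

theorem imgProj_map (h : IsUnit (A.submatrix p q).det) :
    imgProj (A.map f) p q = (imgProj A p q).map f := by
  unfold imgProj
  rw [coechelon_map f h]
  ext i j
  simp [Matrix.mul_apply, Matrix.one_apply, apply_ite f]

end BaseChange

/-! ### Freeness of kernel and image -/

section Free

variable {A : Matrix m n R} {p : ι → m} {q : ι → n}

open Classical in
/-- Extension by zero of a vector indexed by the non-pivot columns. -/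
noncomputable def extendNonPivot (q : ι → n) (y : {j // j ∉ Set.range q} → R) : n → R :=
  fun j => if h : j ∉ Set.range q then y ⟨j, h⟩ else 0

theorem extendNonPivot_apply_of_notMem (y : {j // j ∉ Set.range q} → R) (j : n)
    (h : j ∉ Set.range q) : extendNonPivot q y j = y ⟨j, h⟩ := by
  unfold extendNonPivot; rw [dif_pos h]

theorem extendNonPivot_apply_pivot (y : {j // j ∉ Set.range q} → R) (a : ι) :
    extendNonPivot q y (q a) = 0 := by
  unfold extendNonPivot; rw [dif_neg]; exact fun h => h ⟨a, rfl⟩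

/-- Two vectors with the same non-pivot coordinates have the same image under the kernel
projector. -/
theorem kerProj_mulVec_congr (h : IsUnit (A.submatrix p q).det) (x y : n → R)
    (hxy : ∀ j, j ∉ Set.range q → x j = y j) : kerProj A p q *ᵥ x = kerProj A p q *ᵥ y := by
  ext i
  simp only [Matrix.mulVec, dotProduct]
  refine Finset.sum_congr rfl fun j _ => ?_
  by_cases hj : j ∈ Set.range q
  · obtain ⟨a, rfl⟩ := hj
    rw [kerProj_apply_pivot h, zero_mul, zero_mul]
  · rw [hxy j hj]

theorem kerProj_mulVec_apply_of_notMem (x : n → R) (i : n) (hi : i ∉ Set.range q) :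
    (kerProj A p q *ᵥ x) i = x i := by
  simp only [Matrix.mulVec, dotProduct, kerProj_apply_of_notMem i _ hi]
  simp

/-- The kernel of a matrix of constant rank is free on the non-pivot columns: the coordinates
of a kernel vector at the non-pivot columns are arbitrary and determine it. -/
noncomputable def ConstRankAt.kerEquiv (h : ConstRankAt A p q) :
    LinearMap.ker A.mulVecLin ≃ₗ[R] ({j // j ∉ Set.range q} → R) where
  toFun x := fun j => x.1 j.1
  map_add' _ _ := rfl
  map_smul' _ _ := rfl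
  invFun y := ⟨kerProj A p q *ᵥ extendNonPivot q y, by
    rw [LinearMap.mem_ker, Matrix.mulVecLin_apply, Matrix.mulVec_mulVec, h.mul_kerProj,
      Matrix.zero_mulVec]⟩
  left_inv x := by
    apply Subtype.ext
    have hx : A *ᵥ x.1 = 0 := x.2
    show kerProj A p q *ᵥ extendNonPivot q (fun j => x.1 j.1) = x.1
    rw [kerProj_mulVec_congr h.1 _ x.1 fun j hj => extendNonPivot_apply_of_notMem _ j hj]
    exact h.kerProj_mulVec x.1 hx
  right_inv y := by
    funext j
    show (kerProj A p q *ᵥ extendNonPivot q y) j.1 = y j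
    rw [kerProj_mulVec_apply_of_notMem _ _ j.2, extendNonPivot_apply_of_notMem _ _ j.2]

theorem ConstRankAt.kerEquiv_apply (h : ConstRankAt A p q) (x : LinearMap.ker A.mulVecLin)
    (j : {j // j ∉ Set.range q}) : h.kerEquiv x j = x.1 j.1 := rfl

theorem ConstRankAt.kerEquiv_symm_apply (h : ConstRankAt A p q)
    (y : {j // j ∉ Set.range q} → R) :
    ((h.kerEquiv.symm y : LinearMap.ker A.mulVecLin) : n → R) =
      kerProj A p q *ᵥ extendNonPivot q y := rfl

/-- The image of a matrix of constant rank is free on the pivot columns. -/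
noncomputable def ConstRankAt.rangeEquiv (h : ConstRankAt A p q) :
    (ι → R) ≃ₗ[R] LinearMap.range A.mulVecLin :=
  (LinearEquiv.ofInjective _ (submatrix_mulVec_injective h.1)).trans
    (LinearEquiv.ofEq _ _ h.range_eq_range_submatrix.symm)

theorem ConstRankAt.rangeEquiv_apply (h : ConstRankAt A p q) (c : ι → R) :
    ((h.rangeEquiv c : LinearMap.range A.mulVecLin) : m → R) = A.submatrix id q *ᵥ c := rfl

/-- The coefficients of an element of the image on the pivot columns are its coordinates at the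
pivot rows, transformed by the inverse pivot block. -/
theorem ConstRankAt.rangeEquiv_symm_apply (h : ConstRankAt A p q)
    (y : LinearMap.range A.mulVecLin) :
    h.rangeEquiv.symm y = (A.submatrix p q)⁻¹ *ᵥ (fun a => y.1 (p a)) := by
  obtain ⟨c, rfl⟩ := h.rangeEquiv.surjective y
  rw [LinearEquiv.symm_apply_apply, h.rangeEquiv_apply]
  have : (fun a => (A.submatrix id q *ᵥ c) (p a)) = A.submatrix p q *ᵥ c := rfl
  rw [this, Matrix.mulVec_mulVec, nonsing_inv_mul _ h.1, Matrix.one_mulVec]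

theorem ConstRankAt.free_ker (h : ConstRankAt A p q) :
    Module.Free R (LinearMap.ker A.mulVecLin) :=
  Module.Free.of_equiv h.kerEquiv.symm

theorem ConstRankAt.free_range (h : ConstRankAt A p q) :
    Module.Free R (LinearMap.range A.mulVecLin) :=
  Module.Free.of_equiv h.rangeEquiv

/-- The image of a matrix of constant rank is a direct summand: it is complemented by the
kernel of the image projector. -/
theorem ConstRankAt.isCompl_range (h : ConstRankAt A p q) :
    IsCompl (LinearMap.range A.mulVecLin) (LinearMap.ker (imgProj A p q).mulVecLin) := by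
  rw [h.range_eq_range_imgProj]
  apply LinearMap.IsIdempotentElem.isCompl
  show (imgProj A p q).mulVecLin * (imgProj A p q).mulVecLin = (imgProj A p q).mulVecLin
  rw [Module.End.mul_eq_comp, ← Matrix.mulVecLin_mul, imgProj_mul_imgProj h.1]

/-- The kernel of a matrix of constant rank is a direct summand: it is complemented by the
kernel of the kernel projector (the span of the pivot coordinate vectors). -/
theorem ConstRankAt.isCompl_ker (h : ConstRankAt A p q) :
    IsCompl (LinearMap.ker A.mulVecLin) (LinearMap.ker (kerProj A p q).mulVecLin) := by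
  rw [h.ker_eq_range_kerProj]
  apply LinearMap.IsIdempotentElem.isCompl
  show (kerProj A p q).mulVecLin * (kerProj A p q).mulVecLin = (kerProj A p q).mulVecLin
  rw [Module.End.mul_eq_comp, ← Matrix.mulVecLin_mul, kerProj_mul_kerProj h.1]

end Free

end Fermat.Agent.S19.H495

end
-- ===== PACK-END S19/H495/Pivot.lean

-- ===== PACK-BEGIN S20/B_helper980.lean
section
/-
S20 long shot, work package B (division lemmas) -- helper980.

Pure complex-analysis core: division of a holomorphic function by a holomorphic function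
with simple zeros, on an open subset of `ℂ`.
-/



set_option autoImplicit false

noncomputable section

namespace Fermat.Agent.S20.B980

open Filter Topology

/-- The quotient `f / P`, with the value `f' / P'` at the zeros of `P`. -/
def divFun (f P : ℂ → ℂ) (z : ℂ) : ℂ :=
  if P z = 0 then deriv f z / deriv P z else f z / P z

lemma divFun_of_ne {f P : ℂ → ℂ} {z : ℂ} (h : P z ≠ 0) : divFun f P z = f z / P z := by
  simp [divFun, h]

lemma divFun_of_eq {f P : ℂ → ℂ} {z : ℂ} (h : P z = 0) :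
    divFun f P z = deriv f z / deriv P z := by
  simp [divFun, h]

/-- Near a simple zero `z₀` of `P`, `P` does not vanish at `z ≠ z₀`. -/
lemma eventually_dslope_ne_zero {P : ℂ → ℂ} {U : Set ℂ} (hU : IsOpen U)
    (hP : DifferentiableOn ℂ P U) {z₀ : ℂ} (hz₀ : z₀ ∈ U) (hP' : deriv P z₀ ≠ 0) :
    ∀ᶠ z in 𝓝 z₀, dslope P z₀ z ≠ 0 := by
  have hd : DifferentiableOn ℂ (dslope P z₀) U :=
    (Complex.differentiableOn_dslope (hU.mem_nhds hz₀)).mpr hP
  have hc : ContinuousAt (dslope P z₀) z₀ :=
    (hd.differentiableAt (hU.mem_nhds hz₀)).continuousAt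
  have h0 : dslope P z₀ z₀ ≠ 0 := by rwa [dslope_same]
  exact hc.eventually_ne h0

lemma eventually_ne_zero_nhdsNE {P : ℂ → ℂ} {U : Set ℂ} (hU : IsOpen U)
    (hP : DifferentiableOn ℂ P U) {z₀ : ℂ} (hz₀ : z₀ ∈ U) (hPz : P z₀ = 0)
    (hP' : deriv P z₀ ≠ 0) :
    ∀ᶠ z in 𝓝[≠] z₀, P z ≠ 0 := by
  have h1 := (eventually_dslope_ne_zero hU hP hz₀ hP').filter_mono
    (nhdsWithin_le_nhds (s := {z₀}ᶜ))
  have h2 : ∀ᶠ z in 𝓝[≠] z₀, z ≠ z₀ := eventually_mem_nhdsWithin
  filter_upwards [h1, h2] with z hz hne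
  have := sub_smul_dslope P z₀ z
  rw [hPz, sub_zero, smul_eq_mul] at this
  rw [← this]
  exact mul_ne_zero (sub_ne_zero.mpr hne) hz

/-- Local form of `divFun` near a simple zero of `P` at which `f` vanishes. -/
lemma divFun_eventuallyEq_dslope {f P : ℂ → ℂ} {U : Set ℂ} (hU : IsOpen U)
    (hP : DifferentiableOn ℂ P U) {z₀ : ℂ} (hz₀ : z₀ ∈ U) (hPz : P z₀ = 0)
    (hP' : deriv P z₀ ≠ 0) (hfz : f z₀ = 0) :
    divFun f P =ᶠ[𝓝 z₀] fun z ↦ dslope f z₀ z / dslope P z₀ z := by
  filter_upwards [eventually_dslope_ne_zero hU hP hz₀ hP'] with z hz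
  rcases eq_or_ne z z₀ with rfl | hne
  · rw [divFun_of_eq hPz, dslope_same, dslope_same]
  · have hPeq := sub_smul_dslope P z₀ z
    rw [hPz, sub_zero, smul_eq_mul] at hPeq
    have hfeq := sub_smul_dslope f z₀ z
    rw [hfz, sub_zero, smul_eq_mul] at hfeq
    have hPne : P z ≠ 0 := by
      rw [← hPeq]; exact mul_ne_zero (sub_ne_zero.mpr hne) hz
    rw [divFun_of_ne hPne, ← hPeq, ← hfeq]
    exact mul_div_mul_left _ _ (sub_ne_zero.mpr hne)

/-- **Division lemma, analytic core.** If `f` and `P` are holomorphic on the open set `U`,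
all zeros of `P` in `U` are simple, and `f` vanishes at them, then `divFun f P` is holomorphic
on `U`. -/
theorem differentiableOn_divFun {f P : ℂ → ℂ} {U : Set ℂ} (hU : IsOpen U)
    (hf : DifferentiableOn ℂ f U) (hP : DifferentiableOn ℂ P U)
    (hsimple : ∀ z ∈ U, P z = 0 → deriv P z ≠ 0)
    (hvan : ∀ z ∈ U, P z = 0 → f z = 0) :
    DifferentiableOn ℂ (divFun f P) U := by
  intro z₀ hz₀
  refine DifferentiableAt.differentiableWithinAt ?_
  by_cases hPz : P z₀ = 0
  · have hd : DifferentiableAt ℂ (dslope P z₀) z₀ :=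
      ((Complex.differentiableOn_dslope (hU.mem_nhds hz₀)).mpr hP).differentiableAt
        (hU.mem_nhds hz₀)
    have hdf : DifferentiableAt ℂ (dslope f z₀) z₀ :=
      ((Complex.differentiableOn_dslope (hU.mem_nhds hz₀)).mpr hf).differentiableAt
        (hU.mem_nhds hz₀)
    have h0 : dslope P z₀ z₀ ≠ 0 := by rw [dslope_same]; exact hsimple z₀ hz₀ hPz
    exact (hdf.div hd h0).congr_of_eventuallyEq
      (divFun_eventuallyEq_dslope hU hP hz₀ hPz (hsimple z₀ hz₀ hPz) (hvan z₀ hz₀ hPz))
  · have hPd : DifferentiableAt ℂ P z₀ := hP.differentiableAt (hU.mem_nhds hz₀)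
    have hfd : DifferentiableAt ℂ f z₀ := hf.differentiableAt (hU.mem_nhds hz₀)
    have hev : divFun f P =ᶠ[𝓝 z₀] fun z ↦ f z / P z := by
      filter_upwards [hPd.continuousAt.eventually_ne hPz] with z hz
      exact divFun_of_ne hz
    exact (hfd.div hPd hPz).congr_of_eventuallyEq hev

theorem mul_divFun {f P : ℂ → ℂ} {z : ℂ} (hvan : P z = 0 → f z = 0) :
    P z * divFun f P z = f z := by
  by_cases hPz : P z = 0
  · rw [hPz, zero_mul, hvan hPz]
  · rw [divFun_of_ne hPz, mul_div_cancel₀ _ hPz]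

/-! ### Transfer to the upper half plane -/

open UpperHalfPlane ModularForm MatrixGroups Matrix.SpecialLinearGroup OnePoint Asymptotics

open scoped Manifold

/-- The quotient `f / P` on the upper half plane (value `f' / P'` at the zeros of `P`). -/
def divH (f P : ℍ → ℂ) (τ : ℍ) : ℂ := divFun (f ∘ ofComplex) (P ∘ ofComplex) (τ : ℂ)

lemma mul_divH {f P : ℍ → ℂ} (hvan : ∀ τ : ℍ, P τ = 0 → f τ = 0) (τ : ℍ) :
    P τ * divH f P τ = f τ := by
  have := mul_divFun (f := f ∘ ofComplex) (P := P ∘ ofComplex) (z := (τ : ℂ))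
    (by simpa [ofComplex_apply] using hvan τ)
  simpa [divH, ofComplex_apply] using this

lemma mul_divH_eq {f P : ℍ → ℂ} (hvan : ∀ τ : ℍ, P τ = 0 → f τ = 0) :
    P * divH f P = f := funext fun τ ↦ mul_divH hvan τ

lemma mdiff_divH {f P : ℍ → ℂ} (hf : MDiff f) (hP : MDiff P)
    (hsimple : ∀ τ : ℍ, P τ = 0 → deriv (P ∘ ofComplex) τ ≠ 0)
    (hvan : ∀ τ : ℍ, P τ = 0 → f τ = 0) : MDiff (divH f P) := by
  rw [mdifferentiable_iff] at hf hP ⊢
  have key := differentiableOn_divFun isOpen_upperHalfPlaneSet hf hP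
    (fun z hz hPz ↦ by
      have := hsimple ⟨z, hz⟩ (by simpa [ofComplex_apply_of_im_pos hz] using hPz)
      simpa using this)
    (fun z hz hPz ↦ by
      have := hvan ⟨z, hz⟩ (by simpa [ofComplex_apply_of_im_pos hz] using hPz)
      simpa [ofComplex_apply_of_im_pos hz] using this)
  refine key.congr fun z hz ↦ ?_
  simp [divH, ofComplex_apply_of_im_pos hz]

/-- Cancellation: if `P` is holomorphic with simple zeros and `P * h₁ = P * h₂` with `h₁`, `h₂`
holomorphic, then `h₁ = h₂`. -/
lemma eq_of_mul_eq {P h₁ h₂ : ℍ → ℂ} (hP : MDiff P) (hh₁ : MDiff h₁) (hh₂ : MDiff h₂)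
    (hsimple : ∀ τ : ℍ, P τ = 0 → deriv (P ∘ ofComplex) τ ≠ 0)
    (h : P * h₁ = P * h₂) : h₁ = h₂ := by
  funext τ₀
  have hmul : ∀ τ : ℍ, P τ * h₁ τ = P τ * h₂ τ := fun τ ↦ congrFun h τ
  by_cases hPz : P τ₀ = 0
  · rw [mdifferentiable_iff] at hP hh₁ hh₂
    have hU : {z : ℂ | 0 < z.im} ∈ 𝓝 (τ₀ : ℂ) := isOpen_upperHalfPlaneSet.mem_nhds τ₀.2
    have e : ∀ᶠ z in 𝓝[≠] (τ₀ : ℂ), (h₁ ∘ ofComplex) z = (h₂ ∘ ofComplex) z := by
      have h1 := eventually_ne_zero_nhdsNE isOpen_upperHalfPlaneSet hP τ₀.2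
        (by simpa [ofComplex_apply] using hPz) (hsimple τ₀ hPz)
      filter_upwards [h1] with z hz
      exact mul_left_cancel₀ hz (hmul (ofComplex z))
    have c₁ : ContinuousAt (h₁ ∘ ofComplex) (τ₀ : ℂ) := (hh₁.differentiableAt hU).continuousAt
    have c₂ : ContinuousAt (h₂ ∘ ofComplex) (τ₀ : ℂ) := (hh₂.differentiableAt hU).continuousAt
    have := tendsto_nhds_unique_of_eventuallyEq
      (c₁.tendsto.mono_left (nhdsWithin_le_nhds (s := {(τ₀ : ℂ)}ᶜ)))
      (c₂.tendsto.mono_left (nhdsWithin_le_nhds (s := {(τ₀ : ℂ)}ᶜ))) e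
    simpa [ofComplex_apply] using this
  · exact mul_left_cancel₀ hPz (hmul τ₀)

section modular

variable {w k : ℤ}

lemma slash_levelOne (P : ModularForm 𝒮ℒ w) (γ : SL(2, ℤ)) : (⇑P) ∣[w] γ = ⇑P := by
  have hγ : (γ : GL (Fin 2) ℝ) ∈ 𝒮ℒ := ⟨γ, rfl⟩
  rw [SL_slash]
  exact SlashInvariantFormClass.slash_action_eq P _ hγ

/-- Key identity: `P * (g ∣ γ) = f ∣ γ` for `g = f / P`, `P` of level one. -/
lemma mul_divH_slash (P : ModularForm 𝒮ℒ w) {f : ℍ → ℂ}
    (hvan : ∀ τ : ℍ, P τ = 0 → f τ = 0) (γ : SL(2, ℤ)) :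
    ⇑P * (divH f P ∣[k - w] γ) = f ∣[k] γ := by
  have h1 := mul_slash_SL2 w (k - w) γ (⇑P) (divH f P)
  rw [show w + (k - w) = k by ring, mul_divH_eq hvan, slash_levelOne] at h1
  exact h1.symm

/-- A level-one modular form tends to its value at infinity. -/
lemma tendsto_levelOne (P : ModularForm 𝒮ℒ w) :
    Tendsto (⇑P) atImInfty (𝓝 (cuspFunction 1 P 0)) := by
  have hanal := ModularFormClass.analyticAt_cuspFunction_zero P one_pos one_mem_strictPeriods_SL
  exact (hanal.continuousAt.tendsto.comp (qParam_tendsto_atImInfty one_pos)).congr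
    (fun τ ↦ SlashInvariantFormClass.eq_cuspFunction P τ one_mem_strictPeriods_SL one_ne_zero)

/-- A level-one modular form which is not zero at `i∞` is bounded away from zero near `i∞`. -/
lemma exists_le_norm_levelOne (P : ModularForm 𝒮ℒ w) (hPinf : ¬ IsZeroAtImInfty (⇑P)) :
    ∃ c : ℝ, 0 < c ∧ ∃ A : ℝ, ∀ τ : ℍ, A ≤ τ.im → c ≤ ‖P τ‖ := by
  have ht := tendsto_levelOne P
  have hv : cuspFunction 1 P 0 ≠ 0 := by
    intro h0
    rw [h0] at ht
    exact hPinf ht
  have hpos : 0 < ‖cuspFunction 1 P 0‖ / 2 := by positivity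
  refine ⟨‖cuspFunction 1 P 0‖ / 2, hpos, ?_⟩
  have hev : ∀ᶠ τ in atImInfty, ‖cuspFunction 1 P 0‖ / 2 ≤ ‖P τ‖ := by
    have := ht.norm
    have hlt : ‖cuspFunction 1 P 0‖ / 2 < ‖cuspFunction 1 P 0‖ := by linarith
    exact (this.eventually (lt_mem_nhds hlt)).mono fun τ hτ ↦ hτ.le
  exact (atImInfty_mem _).mp hev

variable {𝒢 : Subgroup (GL (Fin 2) ℝ)}

lemma divH_slash_eq (h𝒢 : 𝒢 ≤ 𝒮ℒ) (P : ModularForm 𝒮ℒ w)
    (hsimple : ∀ τ : ℍ, P τ = 0 → deriv (⇑P ∘ ofComplex) τ ≠ 0)
    {F : Type*} [FunLike F ℍ ℂ] [ModularFormClass F 𝒢 k] (f : F)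
    (hvan : ∀ τ : ℍ, P τ = 0 → f τ = 0) (γ : GL (Fin 2) ℝ) (hγ : γ ∈ 𝒢) :
    divH (⇑f) (⇑P) ∣[k - w] γ = divH (⇑f) (⇑P) := by
  obtain ⟨γ', rfl⟩ := h𝒢 hγ
  have hg : MDiff (divH (⇑f) (⇑P)) :=
    mdiff_divH (ModularFormClass.holo f) (ModularFormClass.holo P) hsimple hvan
  refine eq_of_mul_eq (ModularFormClass.holo P) (hg.slash _ _) hg hsimple ?_
  have h1 : ⇑P * (divH (⇑f) (⇑P) ∣[k - w] γ') = (⇑f) ∣[k] γ' :=
    mul_divH_slash (k := k) P hvan γ'
  have h2 : (⇑f) ∣[k] γ' = ⇑f := SlashInvariantFormClass.slash_action_eq f _ hγ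
  have h3 : ⇑P * divH (⇑f) (⇑P) = ⇑f := mul_divH_eq hvan
  exact (h1.trans h2).trans h3.symm

lemma isBoundedAtImInfty_divH_slash (P : ModularForm 𝒮ℒ w)
    (hPinf : ¬ IsZeroAtImInfty (⇑P)) {f : ℍ → ℂ}
    (hvan : ∀ τ : ℍ, P τ = 0 → f τ = 0) (γ : SL(2, ℤ))
    (hb : IsBoundedAtImInfty (f ∣[k] γ)) :
    IsBoundedAtImInfty (divH f (⇑P) ∣[k - w] γ) := by
  obtain ⟨c, hc, A, hA⟩ := exists_le_norm_levelOne P hPinf
  rw [isBoundedAtImInfty_iff] at hb ⊢
  obtain ⟨M, B, hB⟩ := hb
  refine ⟨M / c, max A B, fun τ hτ ↦ ?_⟩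
  have h1 := congrFun (mul_divH_slash (k := k) P hvan γ) τ
  rw [Pi.mul_apply] at h1
  have hPτ : c ≤ ‖P τ‖ := hA τ ((le_max_left _ _).trans hτ)
  have hFτ : ‖(f ∣[k] γ) τ‖ ≤ M := hB τ ((le_max_right _ _).trans hτ)
  have hM : 0 ≤ M := (norm_nonneg _).trans hFτ
  rw [← h1, norm_mul] at hFτ
  rw [le_div_iff₀ hc]
  calc ‖(divH f (⇑P) ∣[k - w] γ) τ‖ * c ≤ ‖(divH f (⇑P) ∣[k - w] γ) τ‖ * ‖P τ‖ :=
        mul_le_mul_of_nonneg_left hPτ (norm_nonneg _)
    _ = ‖P τ‖ * ‖(divH f (⇑P) ∣[k - w] γ) τ‖ := mul_comm _ _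
    _ ≤ M := hFτ

lemma isZeroAtImInfty_divH_slash (P : ModularForm 𝒮ℒ w)
    (hPinf : ¬ IsZeroAtImInfty (⇑P)) {f : ℍ → ℂ}
    (hvan : ∀ τ : ℍ, P τ = 0 → f τ = 0) (γ : SL(2, ℤ))
    (hb : IsZeroAtImInfty (f ∣[k] γ)) :
    IsZeroAtImInfty (divH f (⇑P) ∣[k - w] γ) := by
  obtain ⟨c, hc, A, hA⟩ := exists_le_norm_levelOne P hPinf
  rw [isZeroAtImInfty_iff] at hb ⊢
  intro ε hε
  obtain ⟨B, hB⟩ := hb (ε * c) (mul_pos hε hc)
  refine ⟨max A B, fun τ hτ ↦ ?_⟩
  have h1 := congrFun (mul_divH_slash (k := k) P hvan γ) τ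
  rw [Pi.mul_apply] at h1
  have hPτ : c ≤ ‖P τ‖ := hA τ ((le_max_left _ _).trans hτ)
  have hFτ : ‖(f ∣[k] γ) τ‖ ≤ ε * c := hB τ ((le_max_right _ _).trans hτ)
  rw [← h1, norm_mul] at hFτ
  have : ‖(divH f (⇑P) ∣[k - w] γ) τ‖ * c ≤ ε * c :=
    calc ‖(divH f (⇑P) ∣[k - w] γ) τ‖ * c ≤ ‖(divH f (⇑P) ∣[k - w] γ) τ‖ * ‖P τ‖ :=
          mul_le_mul_of_nonneg_left hPτ (norm_nonneg _)
      _ = ‖P τ‖ * ‖(divH f (⇑P) ∣[k - w] γ) τ‖ := mul_comm _ _
      _ ≤ ε * c := hFτ
  exact le_of_mul_le_mul_right this hc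

/-- **Division lemma (modular forms).** Division of a modular form for an arithmetic subgroup
`𝒢 ≤ 𝒮ℒ` by a level-one modular form `P` with simple zeros which does not vanish at `i∞`,
when `f` vanishes at all zeros of `P`. -/
def divModularForm [𝒢.IsArithmetic] (h𝒢 : 𝒢 ≤ 𝒮ℒ) (P : ModularForm 𝒮ℒ w)
    (hsimple : ∀ τ : ℍ, P τ = 0 → deriv (⇑P ∘ ofComplex) τ ≠ 0)
    (hPinf : ¬ IsZeroAtImInfty (⇑P)) (f : ModularForm 𝒢 k)
    (hvan : ∀ τ : ℍ, P τ = 0 → f τ = 0) : ModularForm 𝒢 (k - w) where
  toFun := divH (⇑f) (⇑P)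
  slash_action_eq' γ hγ := divH_slash_eq h𝒢 P hsimple f hvan γ hγ
  holo' := mdiff_divH (ModularFormClass.holo f) (ModularFormClass.holo P) hsimple hvan
  bdd_at_cusps' {c} hc := by
    rw [Subgroup.IsArithmetic.isCusp_iff_isCusp_SL2Z] at hc
    rw [isBoundedAt_iff_forall_SL2Z hc]
    intro γ _
    exact isBoundedAtImInfty_divH_slash P hPinf hvan γ (ModularFormClass.bdd_at_infty_slash f γ)

/-- **Division lemma (cusp forms).** -/
def divCuspForm [𝒢.IsArithmetic] (h𝒢 : 𝒢 ≤ 𝒮ℒ) (P : ModularForm 𝒮ℒ w)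
    (hsimple : ∀ τ : ℍ, P τ = 0 → deriv (⇑P ∘ ofComplex) τ ≠ 0)
    (hPinf : ¬ IsZeroAtImInfty (⇑P)) (f : CuspForm 𝒢 k)
    (hvan : ∀ τ : ℍ, P τ = 0 → f τ = 0) : CuspForm 𝒢 (k - w) where
  toFun := divH (⇑f) (⇑P)
  slash_action_eq' γ hγ := divH_slash_eq h𝒢 P hsimple f hvan γ hγ
  holo' := mdiff_divH (ModularFormClass.holo f) (ModularFormClass.holo P) hsimple hvan
  zero_at_cusps' {c} hc := by
    rw [Subgroup.IsArithmetic.isCusp_iff_isCusp_SL2Z] at hc
    rw [isZeroAt_iff_forall_SL2Z hc]
    intro γ _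
    exact isZeroAtImInfty_divH_slash P hPinf hvan γ (CuspFormClass.zero_at_infty_slash f γ)

@[simp]
lemma mul_divModularForm_apply [𝒢.IsArithmetic] (h𝒢 : 𝒢 ≤ 𝒮ℒ) (P : ModularForm 𝒮ℒ w)
    (hsimple : ∀ τ : ℍ, P τ = 0 → deriv (⇑P ∘ ofComplex) τ ≠ 0)
    (hPinf : ¬ IsZeroAtImInfty (⇑P)) (f : ModularForm 𝒢 k)
    (hvan : ∀ τ : ℍ, P τ = 0 → f τ = 0) (τ : ℍ) :
    P τ * divModularForm h𝒢 P hsimple hPinf f hvan τ = f τ :=
  mul_divH hvan τ

@[simp]
lemma mul_divCuspForm_apply [𝒢.IsArithmetic] (h𝒢 : 𝒢 ≤ 𝒮ℒ) (P : ModularForm 𝒮ℒ w)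
    (hsimple : ∀ τ : ℍ, P τ = 0 → deriv (⇑P ∘ ofComplex) τ ≠ 0)
    (hPinf : ¬ IsZeroAtImInfty (⇑P)) (f : CuspForm 𝒢 k)
    (hvan : ∀ τ : ℍ, P τ = 0 → f τ = 0) (τ : ℍ) :
    P τ * divCuspForm h𝒢 P hsimple hPinf f hvan τ = f τ :=
  mul_divH hvan τ

/-! ### Division by the discriminant -/

local notation "Δ" => ModularForm.discriminant

lemma discriminant_slash_SL (γ : SL(2, ℤ)) : (Δ ∣[(12 : ℤ)] γ) = Δ :=
  SlashInvariantFormClass.slash_action_eq CuspForm.discriminant _ ⟨γ, rfl⟩

lemma div_discriminant_slash (f : ℍ → ℂ) (γ : SL(2, ℤ)) :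
    (fun z ↦ f z / Δ z) ∣[k - 12] γ = fun z ↦ (f ∣[k] γ) z / Δ z := by
  change (f / Δ) ∣[k - 12] γ = (f ∣[k] γ) / Δ
  rw [div_slash_SL2, discriminant_slash_SL]

/-- **Division by `Δ`.** If all `SL(2, ℤ)`-translates of `f` are `O(exp (-2π Im τ))` at `i∞`,
then `f / Δ` is a modular form of weight `k - 12`. -/
def divDiscriminant [𝒢.IsArithmetic] (h𝒢 : 𝒢 ≤ 𝒮ℒ) (f : ModularForm 𝒢 k)
    (hf : ∀ γ : SL(2, ℤ),
      (⇑f ∣[k] γ) =O[atImInfty] fun τ ↦ Real.exp (-2 * Real.pi * τ.im)) :
    ModularForm 𝒢 (k - 12) where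
  toFun z := f z / Δ z
  slash_action_eq' γ hγ := by
    obtain ⟨γ', rfl⟩ := h𝒢 hγ
    have h1 := div_discriminant_slash (k := k) (⇑f) γ'
    have h2 : (⇑f) ∣[k] γ' = ⇑f := SlashInvariantFormClass.slash_action_eq f _ hγ
    rw [h2] at h1
    exact h1
  holo' := (ModularFormClass.holo f).div (ModularFormClass.holo CuspForm.discriminant)
    discriminant_ne_zero
  bdd_at_cusps' {c} hc := by
    rw [Subgroup.IsArithmetic.isCusp_iff_isCusp_SL2Z] at hc
    rw [isBoundedAt_iff_forall_SL2Z hc]
    intro γ _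
    rw [div_discriminant_slash (k := k) (⇑f) γ, IsBoundedAtImInfty, BoundedAtFilter]
    exact (div_isBoundedUnder_of_isBigO ((hf γ).trans exp_isBigO_discriminant)).isBigO_one ℝ

@[simp]
lemma discriminant_mul_divDiscriminant_apply [𝒢.IsArithmetic] (h𝒢 : 𝒢 ≤ 𝒮ℒ)
    (f : ModularForm 𝒢 k)
    (hf : ∀ γ : SL(2, ℤ),
      (⇑f ∣[k] γ) =O[atImInfty] fun τ ↦ Real.exp (-2 * Real.pi * τ.im)) (τ : ℍ) :
    Δ τ * divDiscriminant h𝒢 f hf τ = f τ :=
  mul_div_cancel₀ (f τ) (discriminant_ne_zero τ)

end modular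

/-! ### Statements in the form requested by the S20 plan (subtask B) -/

section statements

variable {Γ : Subgroup SL(2, ℤ)} [Γ.FiniteIndex] {w k : ℤ}

local notation "Δ" => ModularForm.discriminant

theorem exists_eq_mul_of_vanishing (P : ModularForm 𝒮ℒ w)
    (hP : ∀ z : ℍ, P z = 0 → deriv (⇑P ∘ ofComplex) z ≠ 0)
    (hPinf : ¬ IsZeroAtImInfty (⇑P))
    (f : ModularForm (Γ : Subgroup (GL (Fin 2) ℝ)) k) (hf : ∀ z : ℍ, P z = 0 → f z = 0) :
    ∃ g : ModularForm (Γ : Subgroup (GL (Fin 2) ℝ)) (k - w), ∀ z, f z = P z * g z :=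
  ⟨divModularForm (Subgroup.map_le_range _ _) P hP hPinf f hf,
    fun z ↦ (mul_divModularForm_apply _ P hP hPinf f hf z).symm⟩

theorem exists_eq_mul_of_vanishing_cuspForm (P : ModularForm 𝒮ℒ w)
    (hP : ∀ z : ℍ, P z = 0 → deriv (⇑P ∘ ofComplex) z ≠ 0)
    (hPinf : ¬ IsZeroAtImInfty (⇑P))
    (f : CuspForm (Γ : Subgroup (GL (Fin 2) ℝ)) k) (hf : ∀ z : ℍ, P z = 0 → f z = 0) :
    ∃ g : CuspForm (Γ : Subgroup (GL (Fin 2) ℝ)) (k - w), ∀ z, f z = P z * g z :=
  ⟨divCuspForm (Subgroup.map_le_range _ _) P hP hPinf f hf,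
    fun z ↦ (mul_divCuspForm_apply _ P hP hPinf f hf z).symm⟩

theorem exists_eq_discriminant_mul (f : ModularForm (Γ : Subgroup (GL (Fin 2) ℝ)) k)
    (hf : ∀ γ : SL(2, ℤ),
      (⇑f ∣[k] γ) =O[atImInfty] fun τ ↦ Real.exp (-2 * Real.pi * τ.im)) :
    ∃ g : ModularForm (Γ : Subgroup (GL (Fin 2) ℝ)) (k - 12), ∀ z, f z = Δ z * g z :=
  ⟨divDiscriminant (Subgroup.map_le_range _ _) f hf,
    fun z ↦ (discriminant_mul_divDiscriminant_apply _ f hf z).symm⟩

end statements

end Fermat.Agent.S20.B980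

end

end
-- ===== PACK-END S20/B_helper980.lean

-- ===== PACK-BEGIN S20/H800/EigenSplit.lean
section


/-!
# S20 / helper800 : splitting a linear relation between eigenvectors by eigenvalue
-/

set_option autoImplicit false

namespace Fermat.Agent.S20.H800

open Module

/-- If `∑_{j ∈ s} c j • v j = 0` and every `v j` is an eigenvector of `R` with eigenvalue `lam j`,
then for every `μ` the partial sum over the `j` with `lam j = μ` vanishes. -/
theorem sum_filter_eq_zero_of_eigen {V : Type*} [AddCommGroup V] [Module ℂ V]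
    (R : V →ₗ[ℂ] V) {J : Type*} (s : Finset J) (v : J → V) (lam : J → ℂ)
    (hv : ∀ j ∈ s, R (v j) = lam j • v j) (c : J → ℂ)
    (hsum : ∑ j ∈ s, c j • v j = 0) (μ : ℂ) :
    ∑ j ∈ s with lam j = μ, c j • v j = 0 := by
  classical
  set u : ℂ → V := fun ν => ∑ j ∈ s with lam j = ν, c j • v j with hu
  have hmem : ∀ ν, R (u ν) = ν • u ν := by
    intro ν
    simp only [hu, map_sum, map_smul, Finset.smul_sum]
    refine Finset.sum_congr rfl fun j hj => ?_
    rw [Finset.mem_filter] at hj
    rw [hv j hj.1, hj.2, smul_comm]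
  have htot : ∑ ν ∈ s.image lam, u ν = 0 := by
    rw [← hsum]
    simp only [hu]
    exact Finset.sum_fiberwise_of_maps_to (g := lam) (fun j hj => Finset.mem_image_of_mem lam hj) _
  by_contra hne
  set T : Finset ℂ := (s.image lam).filter fun ν => u ν ≠ 0 with hT
  have hμT : μ ∈ T := by
    rw [hT, Finset.mem_filter]
    refine ⟨?_, hne⟩
    by_contra hμ
    apply hne
    show u μ = 0
    simp only [hu]
    apply Finset.sum_eq_zero
    intro j hj
    rw [Finset.mem_filter] at hj
    exact absurd (hj.2 ▸ Finset.mem_image_of_mem lam hj.1) hμ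
  have hli : LinearIndependent ℂ (fun ν : T => u ν.1) := by
    refine Module.End.eigenvectors_linearIndependent' R (fun ν : T => ν.1)
      Subtype.coe_injective _ fun ν => ?_
    have h2 : ν.1 ∈ (s.image lam).filter fun ν => u ν ≠ 0 := ν.2
    rw [Finset.mem_filter] at h2
    exact ⟨Module.End.mem_eigenspace_iff.mpr (hmem ν.1), h2.2⟩
  have hsumT : ∑ ν : T, (1 : ℂ) • u ν.1 = 0 := by
    simp only [one_smul]
    rw [Finset.sum_coe_sort T u, hT, Finset.sum_filter_ne_zero, htot]
  have := (Fintype.linearIndependent_iff.mp hli) (fun _ => 1) hsumT ⟨μ, hμT⟩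
  exact one_ne_zero this

end Fermat.Agent.S20.H800

end
-- ===== PACK-END S20/H800/EigenSplit.lean

-- ===== PACK-BEGIN S20/T2_helper423.lean
section
/-
S20 / T2 (helper423): link between Mathlib's lattice Eisenstein sums `PeriodPair.G` and the
normalised level-one Eisenstein series `ModularForm.E`.
-/


set_option autoImplicit false

open UpperHalfPlane ModularForm EisensteinSeries
open scoped MatrixGroups

noncomputable section

namespace Fermat.Agent.S20.T2h423

/-- the period pair `(1, τ)` -/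
def pairOf (τ : ℍ) : PeriodPair where
  ω₁ := 1
  ω₂ := τ
  indep := by
    rw [LinearIndependent.pair_iff]
    intro s t h
    have him := congrArg Complex.im h
    have hre := congrArg Complex.re h
    simp only [Complex.real_smul, Complex.add_im, Complex.mul_im, Complex.ofReal_re,
      Complex.ofReal_im, zero_mul, add_zero,
      UpperHalfPlane.coe_im, UpperHalfPlane.coe_re, zero_add, Complex.zero_im, Complex.add_re,
      Complex.mul_re, mul_one, sub_zero, Complex.zero_re] at him hre
    have ht : t = 0 := by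
      rcases mul_eq_zero.mp him with h' | h'
      · exact h'
      · exact absurd h' τ.im_pos.ne'
    subst ht
    simp only [zero_mul, add_zero] at hre
    exact ⟨hre, rfl⟩

@[simp] lemma pairOf_ω₁ (τ : ℍ) : (pairOf τ).ω₁ = 1 := rfl
@[simp] lemma pairOf_ω₂ (τ : ℍ) : (pairOf τ).ω₂ = τ := rfl

lemma mem_lattice_pairOf {τ : ℍ} {x : ℂ} :
    x ∈ (pairOf τ).lattice ↔ ∃ m n : ℤ, (m : ℂ) * τ + n = x := by
  rw [PeriodPair.mem_lattice]
  constructor
  · rintro ⟨m, n, h⟩
    exact ⟨n, m, by rw [← h]; simp [add_comm]⟩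
  · rintro ⟨m, n, h⟩
    exact ⟨n, m, by rw [← h]; simp [add_comm]⟩

/-- The map `v ↦ v 0 * τ + v 1` from `Fin 2 → ℤ` to the lattice `ℤ + ℤ τ`. -/
def latticeMap (τ : ℍ) (v : Fin 2 → ℤ) : (pairOf τ).lattice :=
  ⟨(v 0 : ℂ) * τ + v 1, mem_lattice_pairOf.mpr ⟨v 0, v 1, rfl⟩⟩

lemma latticeMap_injective (τ : ℍ) : Function.Injective (latticeMap τ) := by
  intro v w h
  have h' : (v 0 : ℂ) * τ + v 1 = (w 0 : ℂ) * τ + w 1 := congrArg Subtype.val h
  have him := congrArg Complex.im h'
  have hre := congrArg Complex.re h'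
  simp only [Complex.add_im, Complex.mul_im, Complex.intCast_re, Complex.intCast_im,
    UpperHalfPlane.coe_im, UpperHalfPlane.coe_re, zero_mul, add_zero, Complex.add_re,
    Complex.mul_re, sub_zero] at him hre
  have h0 : v 0 = w 0 := by
    have := mul_right_cancel₀ τ.im_pos.ne' him
    exact_mod_cast this
  have h1 : v 1 = w 1 := by
    rw [h0] at hre
    have := add_left_cancel hre
    exact_mod_cast this
  funext i
  fin_cases i
  · exact h0
  · exact h1

lemma latticeMap_surjective (τ : ℍ) : Function.Surjective (latticeMap τ) := by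
  rintro ⟨x, hx⟩
  obtain ⟨m, n, h⟩ := mem_lattice_pairOf.mp hx
  refine ⟨![m, n], Subtype.ext ?_⟩
  simpa [latticeMap] using h

/-- The bijection `(Fin 2 → ℤ) ≃ ℤ + ℤ τ`. -/
def latticeEquiv (τ : ℍ) : (Fin 2 → ℤ) ≃ (pairOf τ).lattice :=
  Equiv.ofBijective (latticeMap τ) ⟨latticeMap_injective τ, latticeMap_surjective τ⟩

@[simp] lemma latticeEquiv_apply (τ : ℍ) (v : Fin 2 → ℤ) :
    ((latticeEquiv τ v : (pairOf τ).lattice) : ℂ) = (v 0 : ℂ) * τ + v 1 := rfl

/-- The lattice sum `G k` of `ℤ + ℤ τ` is the full Eisenstein sum. -/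
theorem G_pairOf_eq_tsum_eisSummand (τ : ℍ) (k : ℕ) :
    (pairOf τ).G k = ∑' v : Fin 2 → ℤ, eisSummand k v τ := by
  rw [PeriodPair.G, ← (latticeEquiv τ).tsum_eq]
  refine tsum_congr fun v ↦ ?_
  simp [eisSummand, zpow_neg]

/-- **T2**. `G_k(ℤ + ℤτ) = 2 ζ(k) E_k(τ)` for `k ≥ 3`. -/
theorem G_pairOf (τ : ℍ) {k : ℕ} (hk : 3 ≤ k) :
    (pairOf τ).G k = 2 * riemannZeta k * E hk τ := by
  rw [G_pairOf_eq_tsum_eisSummand, tsum_eisSummand_eq_riemannZeta_mul_eisensteinSeries hk τ,
    show E hk τ = (1 / 2 : ℂ) • eisensteinSeriesSIF (N := 1) 0 k τ from rfl,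
    eisensteinSeriesSIF_apply 0 k τ]
  simp only [smul_eq_mul]
  ring

/-! ### Explicit constants -/

lemma bernoulli'_five : bernoulli' 5 = 0 := by
  have h1 : Nat.choose 5 2 = 10 := by decide
  have h2 : Nat.choose 5 3 = 10 := by decide
  rw [bernoulli'_def]
  norm_num [Finset.sum_range_succ, Finset.sum_range_zero, h1, h2]

lemma bernoulli'_six : bernoulli' 6 = 1 / 42 := by
  have h1 : Nat.choose 6 2 = 15 := by decide
  have h2 : Nat.choose 6 3 = 20 := by decide
  have h3 : Nat.choose 6 4 = 15 := by decide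
  rw [bernoulli'_def]
  norm_num [Finset.sum_range_succ, Finset.sum_range_zero, h1, h2, h3, bernoulli'_five]

lemma riemannZeta_six : riemannZeta 6 = (Real.pi : ℂ) ^ 6 / 945 := by
  have h := riemannZeta_two_mul_nat (k := 3) (by norm_num)
  have hb : bernoulli 6 = 1 / 42 := by
    rw [bernoulli_eq_bernoulli'_of_ne_one (by decide : 6 ≠ 1), bernoulli'_six]
  norm_num at h
  rw [h, hb]
  norm_num [Nat.factorial]
  ring

/-- `g₂(ℤ + ℤτ) = (4/3) π⁴ E₄(τ)`. -/
theorem g₂_pairOf (τ : ℍ) : (pairOf τ).g₂ = 4 / 3 * (Real.pi : ℂ) ^ 4 * E₄ τ := by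
  have h := G_pairOf τ (k := 4) (by norm_num)
  have hz : riemannZeta ((4 : ℕ) : ℂ) = (Real.pi : ℂ) ^ 4 / 90 := by
    simpa using riemannZeta_four
  rw [PeriodPair.g₂, h, hz]
  ring

/-- `g₃(ℤ + ℤτ) = (8/27) π⁶ E₆(τ)`. -/
theorem g₃_pairOf (τ : ℍ) : (pairOf τ).g₃ = 8 / 27 * (Real.pi : ℂ) ^ 6 * E₆ τ := by
  have h := G_pairOf τ (k := 6) (by norm_num)
  have hz : riemannZeta ((6 : ℕ) : ℂ) = (Real.pi : ℂ) ^ 6 / 945 := by
    simpa using riemannZeta_six
  rw [PeriodPair.g₃, h, hz]
  ring

/-- `g₂³ - 27 g₃² = (2π)¹² Δ(τ)` for the lattice `ℤ + ℤτ`. -/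
theorem g₂_cube_sub_g₃_sq_pairOf (τ : ℍ) :
    (pairOf τ).g₂ ^ 3 - 27 * (pairOf τ).g₃ ^ 2 =
      (2 * (Real.pi : ℂ)) ^ 12 * discriminant τ := by
  rw [g₂_pairOf, g₃_pairOf, discriminant_eq_E₄_cube_sub_E₆_sq]
  ring

/-! ### Scaling a lattice -/

/-- The period pair `(c ω₁, c ω₂)` for `c ≠ 0`. -/
def scalePair (c : ℂ) (hc : c ≠ 0) (L : PeriodPair) : PeriodPair where
  ω₁ := c * L.ω₁
  ω₂ := c * L.ω₂
  indep := by
    have h := L.indep
    rw [LinearIndependent.pair_iff] at h ⊢
    intro s t hst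
    refine h s t ?_
    have : c * (s • L.ω₁ + t • L.ω₂) = 0 := by
      rw [← hst]
      simp only [Complex.real_smul]
      ring
    exact (mul_eq_zero.mp this).resolve_left hc

@[simp] lemma scalePair_ω₁ (c : ℂ) (hc : c ≠ 0) (L : PeriodPair) :
    (scalePair c hc L).ω₁ = c * L.ω₁ := rfl
@[simp] lemma scalePair_ω₂ (c : ℂ) (hc : c ≠ 0) (L : PeriodPair) :
    (scalePair c hc L).ω₂ = c * L.ω₂ := rfl

lemma mem_lattice_scalePair {c : ℂ} (hc : c ≠ 0) {L : PeriodPair} {x : ℂ} :
    x ∈ (scalePair c hc L).lattice ↔ ∃ y ∈ L.lattice, c * y = x := by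
  simp only [PeriodPair.mem_lattice, scalePair_ω₁, scalePair_ω₂]
  constructor
  · rintro ⟨m, n, h⟩
    exact ⟨m * L.ω₁ + n * L.ω₂, ⟨m, n, rfl⟩, by rw [← h]; ring⟩
  · rintro ⟨y, ⟨m, n, hy⟩, h⟩
    exact ⟨m, n, by rw [← h, ← hy]; ring⟩

/-- Multiplication by `c` as a bijection `L ≃ cL`. -/
def scaleEquiv (c : ℂ) (hc : c ≠ 0) (L : PeriodPair) :
    L.lattice ≃ (scalePair c hc L).lattice where
  toFun y := ⟨c * y, (mem_lattice_scalePair hc).mpr ⟨y, y.2, rfl⟩⟩
  invFun x := ⟨c⁻¹ * x, by
    obtain ⟨y, hy, h⟩ := (mem_lattice_scalePair hc).mp x.2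
    rw [← h, inv_mul_cancel_left₀ hc]
    exact hy⟩
  left_inv y := Subtype.ext (by simp [inv_mul_cancel_left₀ hc])
  right_inv x := Subtype.ext (by simp [mul_inv_cancel_left₀ hc])

/-- `G_k(cL) = c⁻ᵏ G_k(L)`. -/
theorem G_scalePair (c : ℂ) (hc : c ≠ 0) (L : PeriodPair) (k : ℕ) :
    (scalePair c hc L).G k = (c ^ k)⁻¹ * L.G k := by
  rw [PeriodPair.G, PeriodPair.G, ← (scaleEquiv c hc L).tsum_eq, ← tsum_mul_left]
  refine tsum_congr fun y ↦ ?_
  simp only [scaleEquiv, Equiv.coe_fn_mk, mul_pow, mul_inv]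

theorem g₂_scalePair (c : ℂ) (hc : c ≠ 0) (L : PeriodPair) :
    (scalePair c hc L).g₂ = (c ^ 4)⁻¹ * L.g₂ := by
  rw [PeriodPair.g₂, PeriodPair.g₂, G_scalePair]; ring

theorem g₃_scalePair (c : ℂ) (hc : c ≠ 0) (L : PeriodPair) :
    (scalePair c hc L).g₃ = (c ^ 6)⁻¹ * L.g₃ := by
  rw [PeriodPair.g₃, PeriodPair.g₃, G_scalePair]; ring

end Fermat.Agent.S20.T2h423

end
end
-- ===== PACK-END S20/T2_helper423.lean

-- ===== PACK-BEGIN S20/H920/Vandermonde.lean
section


/-!
# S20 long shot — the number of generators is at least the index (Vandermonde lower bound)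

Skeleton-independent, Mathlib-only.  Everything is at function level (`ℍ → ℂ`, slash action of
`SL(2, ℤ)`).

Main statement `card_quot_le_card_of_gen`: let `Γ ≤ SL(2, ℤ)`, let `F j` (`j : ι`) be functions of
weights `k j`, let `f₀` be a function of weight `w₀` whose conjugates `f₀ ∣[w₀] (q.out)⁻¹`
(`q : SL(2, ℤ) ⧸ Γ`) take pairwise distinct values at some point `z₀`, and assume that every power
`f₀ ^ b` is a combination `∑ j, a j * F j` with `SL(2, ℤ)`-invariant coefficients `a j` of weight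
`b * w₀ - k j`.  Then `Nat.card (SL(2, ℤ) ⧸ Γ) ≤ Fintype.card ι`; more precisely the vectors of
conjugates `q ↦ (F j ∣[k j] (q.out)⁻¹) z₀` span `(SL(2, ℤ) ⧸ Γ) → ℂ`.
-/

set_option autoImplicit false

open UpperHalfPlane ModularForm CongruenceSubgroup Matrix.SpecialLinearGroup
open scoped MatrixGroups ModularForm Manifold

namespace Fermat.Agent.S20.H920

/-- Slash of a power by an element of `SL(2, ℤ)`. -/
lemma h920_pow_slash (k : ℤ) (f : ℍ → ℂ) (g : SL(2, ℤ)) (b : ℕ) :
    (f ^ b) ∣[(b : ℤ) * k] g = (f ∣[k] g) ^ b := by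
  induction b with
  | zero =>
    simp only [pow_zero, Nat.cast_zero, zero_mul]
    exact ModularForm.is_invariant_one g
  | succ b ih =>
    have h : ((b + 1 : ℕ) : ℤ) * k = (b : ℤ) * k + k := by push_cast; ring
    rw [pow_succ, pow_succ, ← ih, h, ModularForm.mul_slash_SL2]

/-- Slash of `a * F` when `a` is invariant. -/
lemma h920_mul_slash_of_invariant (w k : ℤ) (a F : ℍ → ℂ) (g : SL(2, ℤ))
    (ha : a ∣[w - k] g = a) : (a * F) ∣[w] g = a * F ∣[k] g := by
  have h : w = (w - k) + k := by ring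
  conv_lhs => rw [h]
  rw [ModularForm.mul_slash_SL2, ha]

/-- Powers of an injective function on a finite type span all functions. -/
lemma h920_span_pow_eq_top {Q : Type*} [Finite Q] (u : Q → ℂ) (hu : Function.Injective u) :
    Submodule.span ℂ (Set.range fun b : ℕ => (fun q : Q => u q ^ b)) = ⊤ := by
  classical
  haveI : Fintype Q := Fintype.ofFinite Q
  rw [eq_top_iff]
  rintro φ -
  set p : Polynomial ℂ := Lagrange.interpolate Finset.univ u φ with hp
  have hφ : φ = ∑ b ∈ p.support, p.coeff b • (fun q : Q => u q ^ b) := by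
    funext q
    have h1 : p.eval (u q) = φ q :=
      Lagrange.eval_interpolate_at_node φ (hu.injOn) (Finset.mem_univ q)
    rw [← h1, Polynomial.eval_eq_sum, Polynomial.sum, Finset.sum_apply]
    simp [smul_eq_mul]
  rw [hφ]
  exact Submodule.sum_mem _ fun b _ =>
    Submodule.smul_mem _ _ (Submodule.subset_span ⟨b, rfl⟩)

variable (Γ : Subgroup SL(2, ℤ)) {ι : Type*} [Fintype ι]

/-- **Vandermonde, span form.** -/
theorem span_conj_eq_top_of_gen [Finite (SL(2, ℤ) ⧸ Γ)]
    (k : ι → ℤ) (F : ι → ℍ → ℂ) (w₀ : ℤ) (f₀ : ℍ → ℂ) (z₀ : ℍ)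
    (hinj : Function.Injective fun q : SL(2, ℤ) ⧸ Γ => (f₀ ∣[w₀] (q.out)⁻¹) z₀)
    (hgen : ∀ b : ℕ, ∃ a : ι → ℍ → ℂ,
      (∀ j (g : SL(2, ℤ)), a j ∣[(b : ℤ) * w₀ - k j] g = a j) ∧ f₀ ^ b = ∑ j, a j * F j) :
    Submodule.span ℂ
      (Set.range fun j : ι => fun q : SL(2, ℤ) ⧸ Γ => (F j ∣[k j] (q.out)⁻¹) z₀) = ⊤ := by
  rw [eq_top_iff, ← h920_span_pow_eq_top _ hinj, Submodule.span_le]
  rintro _ ⟨b, rfl⟩
  obtain ⟨a, ha, hab⟩ := hgen b
  have key : (fun q : SL(2, ℤ) ⧸ Γ => (f₀ ∣[w₀] (q.out)⁻¹) z₀ ^ b) =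
      ∑ j, a j z₀ • fun q : SL(2, ℤ) ⧸ Γ => (F j ∣[k j] (q.out)⁻¹) z₀ := by
    funext q
    have h1 : (f₀ ∣[w₀] (q.out)⁻¹) ^ b = ∑ j, a j * F j ∣[k j] (q.out)⁻¹ := by
      rw [← h920_pow_slash, hab, SlashAction.sum_slash]
      exact Finset.sum_congr rfl fun j _ =>
        h920_mul_slash_of_invariant _ _ _ _ _ (ha j _)
    have h2 := congrFun h1 z₀
    simp only [Pi.pow_apply, Finset.sum_apply, Pi.mul_apply] at h2
    rw [h2, Finset.sum_apply]
    simp [smul_eq_mul]
  change (fun q : SL(2, ℤ) ⧸ Γ => (f₀ ∣[w₀] (q.out)⁻¹) z₀ ^ b) ∈ _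
  rw [key]
  exact Submodule.sum_mem _ fun j _ =>
    Submodule.smul_mem _ _ (Submodule.subset_span ⟨j, rfl⟩)

/-- **Vandermonde, cardinality form**: the number of generators is at least the index. -/
theorem card_quot_le_card_of_gen [Finite (SL(2, ℤ) ⧸ Γ)]
    (k : ι → ℤ) (F : ι → ℍ → ℂ) (w₀ : ℤ) (f₀ : ℍ → ℂ) (z₀ : ℍ)
    (hinj : Function.Injective fun q : SL(2, ℤ) ⧸ Γ => (f₀ ∣[w₀] (q.out)⁻¹) z₀)
    (hgen : ∀ b : ℕ, ∃ a : ι → ℍ → ℂ,
      (∀ j (g : SL(2, ℤ)), a j ∣[(b : ℤ) * w₀ - k j] g = a j) ∧ f₀ ^ b = ∑ j, a j * F j) :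
    Nat.card (SL(2, ℤ) ⧸ Γ) ≤ Fintype.card ι := by
  classical
  haveI : Fintype (SL(2, ℤ) ⧸ Γ) := Fintype.ofFinite _
  have h := span_conj_eq_top_of_gen Γ k F w₀ f₀ z₀ hinj hgen
  have h1 := finrank_range_le_card (R := ℂ)
    (fun j : ι => fun q : SL(2, ℤ) ⧸ Γ => (F j ∣[k j] (q.out)⁻¹) z₀)
  rw [Set.finrank, h, finrank_top, Module.finrank_fintype_fun_eq_card] at h1
  rwa [Nat.card_eq_fintype_card]

end Fermat.Agent.S20.H920

end
-- ===== PACK-END S20/H920/Vandermonde.lean

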