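import Mathlib
import Fermat.Agent.Pack.S44.G0E2L0
import Fermat.Agent.Pack.S44.G0E1L1
import Fermat.Agent.Pack.S44.G0E2L2
import Fermat.Agent.Pack.S44.G0E3L2
import Fermat.Agent.Pack.S44.G0E3L0
import Fermat.Agent.Pack.S44.G0E3L3

-- ===== PACK-BEGIN S20/H270/Cocycle.lean
section


/-!
# Existence of 1-cocycles of `SL(2,ℤ)` with prescribed values on `S` and `U = S * T`

For a linear representation `ρ` of `SL(2,ℤ)` on `V` on which `-1` acts trivially, and `a b : V`
with `a + S a = 0`, `b + U b + U² b = 0`, there is a (unique) cocycle `c` with `c S = a`,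
`c U = b`.
-/

set_option autoImplicit false

open scoped MatrixGroups
open ModularGroup

namespace Fermat.Agent.S20.H270

variable {K V : Type*} [Semiring K] [AddCommGroup V] [Module K V]

/-- The affine permutation `v ↦ L v + a`. -/
def affPerm (L : V ≃ₗ[K] V) (a : V) : Equiv.Perm V where
  toFun v := L v + a
  invFun v := L.symm (v - a)
  left_inv v := by simp
  right_inv v := by simp

@[simp] theorem affPerm_apply (L : V ≃ₗ[K] V) (a v : V) : affPerm L a v = L v + a := rfl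

/-- A 1-cocycle of `SL(2,ℤ)` with values in the representation `ρ`. -/
def IsCocycle (ρ : SL(2, ℤ) →* (V ≃ₗ[K] V)) (c : SL(2, ℤ) → V) : Prop :=
  ∀ g h, c (g * h) = c g + ρ g (c h)

theorem rho_mul_apply (ρ : SL(2, ℤ) →* (V ≃ₗ[K] V)) (g h : SL(2, ℤ)) (v : V) :
    ρ (g * h) v = ρ g (ρ h v) := by
  rw [map_mul]; rfl

theorem rho_one_apply (ρ : SL(2, ℤ) →* (V ≃ₗ[K] V)) (v : V) : ρ 1 v = v := by
  rw [map_one]; rfl

theorem rho_inv_apply_apply (ρ : SL(2, ℤ) →* (V ≃ₗ[K] V)) (g : SL(2, ℤ)) (v : V) :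
    ρ g⁻¹ (ρ g v) = v := by
  rw [← rho_mul_apply, inv_mul_cancel, rho_one_apply]

theorem rho_apply_inv_apply (ρ : SL(2, ℤ) →* (V ≃ₗ[K] V)) (g : SL(2, ℤ)) (v : V) :
    ρ g (ρ g⁻¹ v) = v := by
  rw [← rho_mul_apply, mul_inv_cancel, rho_one_apply]

theorem rho_S_S (ρ : SL(2, ℤ) →* (V ≃ₗ[K] V)) (hneg : ρ (-1) = 1) (v : V) :
    ρ S (ρ S v) = v := by
  rw [← rho_mul_apply, ← pow_two, S_sq_eq_neg_one, hneg]; rfl

theorem rho_U_U_U (ρ : SL(2, ℤ) →* (V ≃ₗ[K] V)) (hneg : ρ (-1) = 1) (v : V) :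
    ρ Umat (ρ Umat (ρ Umat v)) = v := by
  have h3 : Umat * Umat * Umat = -1 := by decide
  rw [← rho_mul_apply, ← rho_mul_apply, h3, hneg]; rfl

/-- The affine homomorphism attached to `(a, b)`. -/
theorem exists_affine_hom (ρ : SL(2, ℤ) →* (V ≃ₗ[K] V)) (hneg : ρ (-1) = 1) (a b : V)
    (ha : a + ρ S a = 0) (hb : b + ρ Umat b + ρ Umat (ρ Umat b) = 0) :
    ∃ Ψ : SL(2, ℤ) →* Equiv.Perm V,
      (∀ g v, Ψ g v = ρ g v + Ψ g 0) ∧ Ψ S 0 = a ∧ Ψ Umat 0 = b := by
  have hx : affPerm (ρ S) a ^ 2 = 1 := by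
    refine Equiv.ext fun v => ?_
    rw [pow_two, Equiv.Perm.mul_apply, Equiv.Perm.one_apply]
    simp only [affPerm_apply, map_add, rho_S_S ρ hneg]
    rw [add_assoc, add_comm (ρ S a) a, ha, add_zero]
  have hy : affPerm (ρ Umat) b ^ 3 = 1 := by
    refine Equiv.ext fun v => ?_
    rw [pow_succ, pow_two, Equiv.Perm.mul_apply, Equiv.Perm.mul_apply, Equiv.Perm.one_apply]
    simp only [affPerm_apply, map_add, rho_U_U_U ρ hneg]
    have : ρ Umat (ρ Umat b) + ρ Umat b + b = 0 := by rw [← hb]; abel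
    rw [add_assoc, add_assoc, ← add_assoc (ρ Umat (ρ Umat b)), this, add_zero]
  obtain ⟨Ψ, hΨS, hΨU⟩ := exists_monoidHom_of_sq_of_cube _ _ hx hy
  have hΨU' : Ψ Umat = affPerm (ρ Umat) b := hΨU
  -- the subgroup of elements acting affinely with linear part `ρ`
  let H : Subgroup SL(2, ℤ) :=
    { carrier := {g | ∀ v, Ψ g v = ρ g v + Ψ g 0}
      one_mem' := fun v => by
        show Ψ 1 v = ρ 1 v + Ψ 1 0
        rw [map_one, rho_one_apply]; simp
      mul_mem' := fun {g h} hg hh v => by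
        show Ψ (g * h) v = ρ (g * h) v + Ψ (g * h) 0
        rw [map_mul, Equiv.Perm.mul_apply, Equiv.Perm.mul_apply, hh v, hg (ρ h v + Ψ h 0),
          hg (Ψ h 0), rho_mul_apply, map_add]
        abel
      inv_mem' := fun {g} hg v => by
        show Ψ g⁻¹ v = ρ g⁻¹ v + Ψ g⁻¹ 0
        apply (Ψ g).injective
        have h1 : ∀ w, Ψ g (Ψ g⁻¹ w) = w := fun w => by
          rw [← Equiv.Perm.mul_apply, ← map_mul, mul_inv_cancel, map_one]; rfl
        rw [h1, hg (ρ g⁻¹ v + Ψ g⁻¹ 0), map_add, rho_apply_inv_apply, add_assoc,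
          ← hg (Ψ g⁻¹ 0), h1, add_zero] }
  have hS : S ∈ H := fun v => by
    show Ψ S v = ρ S v + Ψ S 0
    rw [hΨS]; simp
  have hU : Umat ∈ H := fun v => by
    show Ψ Umat v = ρ Umat v + Ψ Umat 0
    rw [hΨU']; simp
  have hT : T ∈ H := by
    rw [T_eq_S_inv_mul_Umat]
    exact H.mul_mem (H.inv_mem hS) hU
  have htop : H = ⊤ := by
    rw [eq_top_iff, ← SpecialLinearGroup.SL2Z_generators, Subgroup.closure_le]
    rintro g (rfl | hg)
    · exact hS
    · rw [Set.mem_singleton_iff] at hg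
      subst hg
      exact hT
  refine ⟨Ψ, fun g v => ?_, ?_, ?_⟩
  · have : g ∈ H := by rw [htop]; trivial
    exact this v
  · rw [hΨS]; simp
  · rw [hΨU']; simp

/-- **Existence of cocycles** with prescribed values on the generators `S`, `U = S * T`. -/
theorem exists_cocycle (ρ : SL(2, ℤ) →* (V ≃ₗ[K] V)) (hneg : ρ (-1) = 1) (a b : V)
    (ha : a + ρ S a = 0) (hb : b + ρ Umat b + ρ Umat (ρ Umat b) = 0) :
    ∃ c : SL(2, ℤ) → V, IsCocycle ρ c ∧ c S = a ∧ c Umat = b := by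
  obtain ⟨Ψ, hΨ, hS, hU⟩ := exists_affine_hom ρ hneg a b ha hb
  refine ⟨fun g => Ψ g 0, fun g h => ?_, hS, hU⟩
  show Ψ (g * h) 0 = Ψ g 0 + ρ g (Ψ h 0)
  rw [map_mul, Equiv.Perm.mul_apply, hΨ g (Ψ h 0), add_comm]

namespace IsCocycle

variable {ρ : SL(2, ℤ) →* (V ≃ₗ[K] V)} {c : SL(2, ℤ) → V}

theorem map_one (hc : IsCocycle ρ c) : c 1 = 0 := by
  have h := hc 1 1
  rw [mul_one, rho_one_apply] at h
  have : c 1 + c 1 = c 1 + 0 := by rw [← h, add_zero]
  exact add_left_cancel this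

theorem map_inv (hc : IsCocycle ρ c) (g : SL(2, ℤ)) : c g⁻¹ = -ρ g⁻¹ (c g) := by
  have h := hc g⁻¹ g
  rw [inv_mul_cancel, hc.map_one] at h
  exact eq_neg_of_add_eq_zero_left h.symm

/-- The stabiliser of `v` under the affine action `g ⋆ v = ρ g v + c g`. -/
def stab (hc : IsCocycle ρ c) (v : V) : Subgroup SL(2, ℤ) where
  carrier := {g | ρ g v + c g = v}
  one_mem' := by
    show ρ 1 v + c 1 = v
    rw [rho_one_apply, hc.map_one, add_zero]
  mul_mem' := fun {g h} hg hh => by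
    show ρ (g * h) v + c (g * h) = v
    have hg' : ρ g v + c g = v := hg
    have hh' : ρ h v + c h = v := hh
    rw [hc g h, rho_mul_apply]
    calc ρ g (ρ h v) + (c g + ρ g (c h)) = ρ g (ρ h v + c h) + c g := by rw [map_add]; abel
      _ = v := by rw [hh', hg']
  inv_mem' := fun {g} hg => by
    show ρ g⁻¹ v + c g⁻¹ = v
    have hg' : ρ g v + c g = v := hg
    rw [hc.map_inv]
    calc ρ g⁻¹ v + -ρ g⁻¹ (c g) = ρ g⁻¹ (ρ g v + c g) + -ρ g⁻¹ (c g) := by rw [hg']
      _ = v := by rw [map_add, rho_inv_apply_apply]; abel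

theorem mem_stab (hc : IsCocycle ρ c) (v : V) (g : SL(2, ℤ)) :
    g ∈ hc.stab v ↔ ρ g v + c g = v := Iff.rfl

theorem conj_mem_stab (hc : IsCocycle ρ c) {v : V} {g : SL(2, ℤ)} (hg : g ∈ hc.stab v)
    (h : SL(2, ℤ)) : h * g * h⁻¹ ∈ hc.stab (ρ h v + c h) := by
  have hg' : ρ g v + c g = v := hg
  show ρ (h * g * h⁻¹) (ρ h v + c h) + c (h * g * h⁻¹) = ρ h v + c h
  have e1 : c (h * g * h⁻¹) = c h + ρ h (c g) - ρ (h * g * h⁻¹) (c h) := by
    rw [hc (h * g) h⁻¹, hc h g, hc.map_inv, map_neg, ← rho_mul_apply]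
    abel
  have e2 : ρ (h * g * h⁻¹) (ρ h v) = ρ h (ρ g v) := by
    rw [← rho_mul_apply, inv_mul_cancel_right, rho_mul_apply]
  rw [map_add, e1, e2]
  calc ρ h (ρ g v) + ρ (h * g * h⁻¹) (c h) + (c h + ρ h (c g) - ρ (h * g * h⁻¹) (c h))
      = ρ h (ρ g v + c g) + c h := by rw [map_add]; abel
    _ = ρ h v + c h := by rw [hg']

/-- A cocycle is determined by its values at `S` and `T`. -/
theorem eq_zero_of_S_T (hc : IsCocycle ρ c) (hS : c S = 0) (hT : c T = 0) (g : SL(2, ℤ)) :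
    c g = 0 := by
  have h0 : hc.stab 0 = ⊤ := by
    rw [eq_top_iff, ← SpecialLinearGroup.SL2Z_generators, Subgroup.closure_le]
    rintro g (rfl | hg)
    · show ρ S 0 + c S = 0
      rw [hS, map_zero, add_zero]
    · rw [Set.mem_singleton_iff] at hg
      subst hg
      show ρ T 0 + c T = 0
      rw [hT, map_zero, add_zero]
  have : g ∈ hc.stab 0 := by rw [h0]; trivial
  have h1 : ρ g 0 + c g = 0 := this
  rwa [map_zero, zero_add] at h1

theorem map_T (hc : IsCocycle ρ c) : c T = ρ S⁻¹ (c Umat - c S) := by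
  have h := hc S T
  have h2 : c Umat = c S + ρ S (c T) := h
  rw [h2, add_sub_cancel_left, rho_inv_apply_apply]

theorem eq_zero_of_S_U (hc : IsCocycle ρ c) (hS : c S = 0) (hU : c Umat = 0) (g : SL(2, ℤ)) :
    c g = 0 := by
  refine hc.eq_zero_of_S_T hS ?_ g
  rw [hc.map_T, hS, hU, sub_zero, map_zero]

end IsCocycle

end Fermat.Agent.S20.H270

end
-- ===== PACK-END S20/H270/Cocycle.lean

-- ===== PACK-BEGIN S21/H81/CPrime.lean
section


/-!
# S21, interface piece C' (helper201's exact statement): a cusp form all of whose periods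
have vanishing real part is zero.
-/

set_option autoImplicit false

open UpperHalfPlane CongruenceSubgroup Filter Topology Complex ModularCurve ModularCurve.Period
open scoped MatrixGroups Manifold

namespace Fermat.Agent.S21.H81

/-- **C'** If all periods of `f` have real part `0`, then `f = 0`. -/
theorem eq_zero_of_re_period_eq_zero (N : ℕ) [NeZero N] (f : CuspForm (Gamma0 N) 2)
    {F : ℍ → ℂ} (hF : HasEquivariantPrimitive N f F)
    (h : ∀ γ : Gamma0 N, (F ((γ : SL(2, ℤ)) • UpperHalfPlane.I) - F UpperHalfPlane.I).re = 0) :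
    f = 0 := by
  have hd : ∀ τ : ℍ, deriv (F ∘ ofComplex) (τ : ℂ) = 0 := by
    refine injCore_deriv_eq_zero (N := N) (fun τ => (hF.1 τ).differentiableAt) ?_ hF.2.2.2
    intro γ hγ
    exact ⟨hF.2.2.1.period ⟨γ, hγ⟩, h ⟨γ, hγ⟩, fun z => hF.2.2.1.sub_eq_period ⟨γ, hγ⟩ z⟩
  ext τ
  have := hd τ
  rw [(hF.1 τ).deriv] at this
  simpa using this

end Fermat.Agent.S21.H81

end
-- ===== PACK-END S21/H81/CPrime.lean

-- ===== PACK-BEGIN S21/Basic.lean
section


/-!
# S21 — basic lemmas about `dz`, `mob`, `cd`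
-/

set_option autoImplicit false

open UpperHalfPlane Filter Topology
open scoped MatrixGroups ContDiff

namespace Fermat.Agent.S21

theorem mob_coe (g : SL(2, ℤ)) (z : ℍ) : mob g (z : ℂ) = ((g • z : ℍ) : ℂ) := by
  simp [mob, ofComplex_apply]

theorem mob_mem_Uhp (g : SL(2, ℤ)) (z : ℂ) : mob g z ∈ Uhp :=
  (g • ofComplex z).im_pos

theorem ofComplex_coe_of_mem {z : ℂ} (hz : z ∈ Uhp) : ((ofComplex z : ℍ) : ℂ) = z := by
  rw [ofComplex_apply_of_im_pos hz]

theorem mob_eq_div (g : SL(2, ℤ)) {z : ℂ} (hz : z ∈ Uhp) :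
    mob g z = (((g 0 0 : ℤ) : ℂ) * z + ((g 0 1 : ℤ) : ℂ)) / cd g z := by
  have h := UpperHalfPlane.specialLinearGroup_apply g (ofComplex z)
  have h2 : ((g • ofComplex z : ℍ) : ℂ) = _ := congrArg UpperHalfPlane.coe h
  rw [mob, h2]
  simp [cd, ofComplex_coe_of_mem hz]

theorem cd_ne_zero (g : SL(2, ℤ)) {z : ℂ} (hz : z ∈ Uhp) : cd g z ≠ 0 := by
  have h := UpperHalfPlane.denom_ne_zero (Matrix.SpecialLinearGroup.toGL
    ((Matrix.SpecialLinearGroup.map (Int.castRingHom ℝ)) g)) (⟨z, hz⟩ : ℍ)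
  have h2 := ModularGroup.denom_apply g (⟨z, hz⟩ : ℍ)
  rw [h2] at h
  exact h

theorem continuousOn_cd (g : SL(2, ℤ)) (s : Set ℂ) : ContinuousOn (cd g) s := by
  unfold cd
  fun_prop

theorem continuous_cd (g : SL(2, ℤ)) : Continuous (cd g) := by
  unfold cd
  fun_prop

theorem continuousOn_mob (g : SL(2, ℤ)) : ContinuousOn (mob g) Uhp := by
  have : Set.EqOn (mob g)
      (fun z => (((g 0 0 : ℤ) : ℂ) * z + ((g 0 1 : ℤ) : ℂ)) / cd g z) Uhp :=
    fun z hz => mob_eq_div g hz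
  refine ContinuousOn.congr ?_ this
  refine ContinuousOn.div (by fun_prop) (continuousOn_cd g _) fun z hz => cd_ne_zero g hz

theorem mob_one (z : ℂ) (hz : z ∈ Uhp) : mob 1 z = z := by
  simp [mob, ofComplex_coe_of_mem hz]

theorem mob_mul (g h : SL(2, ℤ)) (z : ℂ) : mob (g * h) z = mob g (mob h z) := by
  simp only [mob, ofComplex_apply, mul_smul]

theorem continuousOn_dz {u : ℂ → ℝ} (hu : ContDiffOn ℝ 1 u Uhp) : ContinuousOn (dz u) Uhp := by
  have h1 : ContinuousOn (fderiv ℝ u) Uhp := hu.continuousOn_fderiv_of_isOpen isOpen_Uhp le_rfl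
  have h2 : ContinuousOn (fun z => fderiv ℝ u z 1) Uhp :=
    (ContinuousLinearMap.apply ℝ ℝ (1 : ℂ)).continuous.comp_continuousOn h1
  have h3 : ContinuousOn (fun z => fderiv ℝ u z Complex.I) Uhp :=
    (ContinuousLinearMap.apply ℝ ℝ Complex.I).continuous.comp_continuousOn h1
  unfold dz
  exact (Complex.continuous_ofReal.comp_continuousOn h2).sub
    (continuousOn_const.mul (Complex.continuous_ofReal.comp_continuousOn h3))

theorem dz_add {u v : ℂ → ℝ} {z : ℂ} (hu : DifferentiableAt ℝ u z) (hv : DifferentiableAt ℝ v z) :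
    dz (fun w => u w + v w) z = dz u z + dz v z := by
  unfold dz
  have : fderiv ℝ (fun w => u w + v w) z = fderiv ℝ u z + fderiv ℝ v z := fderiv_add hu hv
  rw [this]
  simp only [add_apply]
  push_cast
  ring

theorem dz_sub {u v : ℂ → ℝ} {z : ℂ} (hu : DifferentiableAt ℝ u z) (hv : DifferentiableAt ℝ v z) :
    dz (fun w => u w - v w) z = dz u z - dz v z := by
  unfold dz
  have : fderiv ℝ (fun w => u w - v w) z = fderiv ℝ u z - fderiv ℝ v z := fderiv_sub hu hv
  rw [this]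
  simp only [sub_apply]
  push_cast
  ring

theorem dz_congr {u v : ℂ → ℝ} {z : ℂ} (h : u =ᶠ[𝓝 z] v) : dz u z = dz v z := by
  unfold dz
  rw [h.fderiv_eq]

theorem dz_add_const (u : ℂ → ℝ) (c : ℝ) (z : ℂ) : dz (fun w => u w + c) z = dz u z := by
  unfold dz
  rw [fderiv_add_const]

/-- `dz` of the real part of a holomorphic function is its derivative. -/
theorem dz_re_of_hasDerivAt {Q : ℂ → ℂ} {q z : ℂ} (h : HasDerivAt Q q z) :
    dz (fun w => (Q w).re) z = q := by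
  have h1 : HasFDerivAt Q ((ContinuousLinearMap.smulRight (1 : ℂ →L[ℂ] ℂ) q).restrictScalars ℝ) z :=
    h.hasFDerivAt.restrictScalars ℝ
  have h2 : HasFDerivAt (fun w => (Q w).re)
      (Complex.reCLM.comp ((ContinuousLinearMap.smulRight (1 : ℂ →L[ℂ] ℂ) q).restrictScalars ℝ)) z :=
    Complex.reCLM.hasFDerivAt.comp z h1
  unfold dz
  rw [h2.fderiv]
  apply Complex.ext <;> simp

theorem norm_dz_sq (u : ℂ → ℝ) (z : ℂ) :
    ‖dz u z‖ ^ 2 = (fderiv ℝ u z 1) ^ 2 + (fderiv ℝ u z Complex.I) ^ 2 := by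
  rw [← Complex.normSq_eq_norm_sq, Complex.normSq_apply]
  simp [dz]
  ring

end Fermat.Agent.S21

end
-- ===== PACK-END S21/Basic.lean

-- ===== PACK-BEGIN S21/Small.lean
section


/-!
# S21 — small analytic lemmas for the Hodge part D'

* `integral_curl_eq_zero` (**Curl**): gradients are weakly curl-free;
* `setIntegral_mob` (**CV**): change of variables under a Möbius transformation;
* `dz_comp_mob` (**DzMob**): chain rule for `dz` under a Möbius transformation.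
-/

set_option autoImplicit false

open UpperHalfPlane MeasureTheory
open scoped MatrixGroups ContDiff Topology

namespace Fermat.Agent.S21

namespace SmallAux

/-- `cd g z` is Mathlib's `denom`. -/
theorem cd_eq_denom (g : SL(2, ℤ)) (z : ℂ) : cd g z = denom (g : GL (Fin 2) ℝ) z := by
  simp [cd, denom]

theorem cd_ne_zero (g : SL(2, ℤ)) {z : ℂ} (hz : z ∈ Uhp) : cd g z ≠ 0 := by
  rw [cd_eq_denom]
  exact denom_ne_zero (g : GL (Fin 2) ℝ) ⟨z, hz⟩

/-- The complex derivative of a Möbius transformation. -/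
theorem hasStrictDerivAt_mob (g : SL(2, ℤ)) {z : ℂ} (hz : z ∈ Uhp) :
    HasStrictDerivAt (mob g) (1 / (cd g z) ^ 2) z := by
  have hdet : ((g : GL (Fin 2) ℝ) : Matrix (Fin 2) (Fin 2) ℝ).det = 1 :=
    (Matrix.SpecialLinearGroup.map (Int.castRingHom ℝ) g).det_coe
  have h := UpperHalfPlane.hasStrictDerivAt_smul (g := (g : GL (Fin 2) ℝ))
    (by rw [hdet]; exact one_pos) ⟨z, hz⟩
  rw [hdet, Complex.ofReal_one] at h
  rw [cd_eq_denom]
  exact h

/-- A real-linear functional on `ℂ` in terms of its values at `1` and `I`. -/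
theorem clm_apply_eq (L : ℂ →L[ℝ] ℝ) (c : ℂ) : L c = c.re * L 1 + c.im * L Complex.I := by
  have hc : c = c.re • (1 : ℂ) + c.im • Complex.I := by
    apply Complex.ext <;> simp
  conv_lhs => rw [hc]
  simp only [map_add, map_smul, smul_eq_mul]

/-- A function continuous on the upper half plane times a continuous function with compact
support inside the upper half plane is integrable. -/
theorem integrable_mul_of_continuousOn {f g : ℂ → ℝ} (hf : ContinuousOn f Uhp)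
    (hg : Continuous g) (hc : HasCompactSupport g) (hs : tsupport g ⊆ Uhp) :
    Integrable (fun z => f z * g z) := by
  have hcont : Continuous (fun z => f z * g z) := by
    rw [continuous_iff_continuousAt]
    intro z
    by_cases hz : z ∈ tsupport g
    · exact (hf.continuousAt (isOpen_Uhp.mem_nhds (hs hz))).mul hg.continuousAt
    · have h0 : g =ᶠ[𝓝 z] 0 := notMem_tsupport_iff_eventuallyEq.mp hz
      have h1 : (fun z => f z * g z) =ᶠ[𝓝 z] fun _ => 0 := by
        filter_upwards [h0] with w hw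
        simp [hw]
      exact continuousAt_const.congr h1.symm
  exact hcont.integrable_of_hasCompactSupport hc.mul_left

end SmallAux

open SmallAux

/-- **Curl**: gradients are weakly curl-free. -/
theorem integral_curl_eq_zero (u : ℂ → ℝ) (hu : ContDiffOn ℝ 2 u Uhp) (η : ℂ → ℝ)
    (hη : ContDiff ℝ ∞ η) (hc : HasCompactSupport η) (hs : tsupport η ⊆ Uhp) :
    ∫ z, (fderiv ℝ u z 1 * fderiv ℝ η z Complex.I
        - fderiv ℝ u z Complex.I * fderiv ℝ η z 1) = 0 := by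
  have hcd : ∀ z ∈ Uhp, ContDiffAt ℝ 2 u z :=
    fun z hz => hu.contDiffAt (isOpen_Uhp.mem_nhds hz)
  have hfd : ∀ z ∈ Uhp, ContDiffAt ℝ 1 (fderiv ℝ u) z :=
    fun z hz => (hcd z hz).fderiv_right (by norm_num)
  have hfdiff : ∀ z ∈ Uhp, DifferentiableAt ℝ (fderiv ℝ u) z :=
    fun z hz => (hfd z hz).differentiableAt (by norm_num)
  have hv_diff : ∀ (v : ℂ), ∀ z ∈ Uhp, DifferentiableAt ℝ (fun w => fderiv ℝ u w v) z :=
    fun v z hz => (hfdiff z hz).clm_apply (differentiableAt_const v)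
  have hv_fderiv : ∀ (v w : ℂ), ∀ z ∈ Uhp,
      fderiv ℝ (fun x => fderiv ℝ u x v) z w = fderiv ℝ (fderiv ℝ u) z w v := by
    intro v w z hz
    rw [fderiv_clm_apply (hfdiff z hz) (differentiableAt_const v)]
    simp
  have hv_cont : ∀ v : ℂ, ContinuousOn (fun w => fderiv ℝ u w v) Uhp :=
    fun v => (hu.continuousOn_fderiv_of_isOpen isOpen_Uhp (by norm_num)).clm_apply
      continuousOn_const
  have hvw_cont : ∀ v w : ℂ,
      ContinuousOn (fun z => fderiv ℝ (fun x => fderiv ℝ u x v) z w) Uhp := by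
    intro v w
    have h2 : ContDiffOn ℝ 1 (fderiv ℝ u) Uhp := fun z hz => (hfd z hz).contDiffWithinAt
    have h3 := h2.continuousOn_fderiv_of_isOpen isOpen_Uhp le_rfl
    have h4 : ContinuousOn (fun z => fderiv ℝ (fderiv ℝ u) z w v) Uhp :=
      (h3.clm_apply continuousOn_const).clm_apply continuousOn_const
    exact h4.congr (fun z hz => hv_fderiv v w z hz)
  have hη_cont : ∀ w : ℂ, Continuous (fun z => fderiv ℝ η z w) :=
    fun w => (hη.continuous_fderiv (by simp)).clm_apply continuous_const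
  have hint : ∀ v w : ℂ, Integrable (fun z => fderiv ℝ u z v * fderiv ℝ η z w) :=
    fun v w => integrable_mul_of_continuousOn (hv_cont v) (hη_cont w) (hc.fderiv_apply ℝ w)
      ((tsupport_fderiv_apply_subset ℝ w).trans hs)
  have ibp : ∀ v w : ℂ, ∫ z, fderiv ℝ u z v * fderiv ℝ η z w
      = - ∫ z, fderiv ℝ (fun x => fderiv ℝ u x v) z w * η z := by
    intro v w
    refine integral_mul_fderiv_eq_neg_fderiv_mul_of_integrable
      (f := fun z => fderiv ℝ u z v) (g := η) ?_ (hint v w) ?_ ?_ ?_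
    · exact integrable_mul_of_continuousOn (hvw_cont v w) hη.continuous hc hs
    · exact integrable_mul_of_continuousOn (hv_cont v) hη.continuous hc hs
    · intro x hx
      exact hv_diff v x (hs hx)
    · intro x _
      exact (hη.differentiable (by simp)).differentiableAt
  have hsymm : ∀ z, fderiv ℝ (fun x => fderiv ℝ u x 1) z Complex.I * η z
      = fderiv ℝ (fun x => fderiv ℝ u x Complex.I) z 1 * η z := by
    intro z
    by_cases hz : z ∈ tsupport η
    · have hzU := hs hz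
      rw [hv_fderiv 1 Complex.I z hzU, hv_fderiv Complex.I 1 z hzU]
      have hsym : IsSymmSndFDerivAt ℝ u z := (hcd z hzU).isSymmSndFDerivAt (by simp)
      rw [hsym.eq]
    · simp [image_eq_zero_of_notMem_tsupport hz]
  rw [integral_sub (hint 1 Complex.I) (hint Complex.I 1), ibp 1 Complex.I, ibp Complex.I 1]
  simp only [hsymm]
  ring

/-- **DzMob**: chain rule for `dz` under a Möbius transformation. -/
theorem dz_comp_mob (u : ℂ → ℝ) (g : SL(2, ℤ)) (z : ℂ) (hz : z ∈ Uhp)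
    (hu : DifferentiableAt ℝ u (mob g z)) :
    dz (fun w => u (mob g w)) z = dz u (mob g z) / (cd g z) ^ 2 := by
  have hφ := ((hasStrictDerivAt_mob g hz).hasDerivAt.hasFDerivAt).restrictScalars ℝ
  have hcomp := (hu.hasFDerivAt.comp z hφ).fderiv
  have hcomp' : fderiv ℝ (fun w => u (mob g w)) z = _ := hcomp
  unfold dz
  rw [hcomp']
  set L := fderiv ℝ u (mob g z) with hL
  set c : ℂ := 1 / (cd g z) ^ 2 with hc
  have h1 : (L.comp ((ContinuousLinearMap.toSpanSingleton ℂ c).restrictScalars ℝ)) 1 = L c := by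
    simp
  have hI : (L.comp ((ContinuousLinearMap.toSpanSingleton ℂ c).restrictScalars ℝ)) Complex.I
      = L (Complex.I * c) := by
    simp
  rw [h1, hI, clm_apply_eq L c, clm_apply_eq L (Complex.I * c), div_eq_mul_one_div, ← hc]
  apply Complex.ext <;> simp <;> ring

/-- **CV**: change of variables under a Möbius transformation. -/
theorem setIntegral_mob (δ : SL(2, ℤ)) (K : Set ℂ) (hK : MeasurableSet K) (hKU : K ⊆ Uhp)
    (h : ℂ → ℝ) :
    ∫ z in K, h (mob δ z) / ‖cd δ z‖ ^ 4 = ∫ w in mob δ '' K, h w := by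
  have hinj : Set.InjOn (mob δ) K := by
    intro z hz w hw hzw
    have hz' : 0 < z.im := hKU hz
    have hw' : 0 < w.im := hKU hw
    have h1 : (δ • ofComplex z : ℍ) = δ • ofComplex w := UpperHalfPlane.ext hzw
    have h2 : ofComplex z = ofComplex w := MulAction.injective δ h1
    have h3 := congrArg UpperHalfPlane.coe h2
    rwa [ofComplex_apply_of_im_pos hz', ofComplex_apply_of_im_pos hw'] at h3
  have hd : ∀ z ∈ K, HasFDerivWithinAt (mob δ) (smulFDeriv (δ : GL (Fin 2) ℝ) z) K z :=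
    fun z hz =>
      (hasStrictFDerivAt_smul (δ : GL (Fin 2) ℝ) ⟨z, hKU hz⟩).hasFDerivAt.hasFDerivWithinAt
  rw [integral_image_eq_integral_abs_det_fderiv_smul volume hK hd hinj]
  refine setIntegral_congr_fun hK fun z hz => ?_
  simp only [det_smulFDeriv, smul_eq_mul, cd_eq_denom]
  have hpos : (0 : ℝ) < ‖denom (δ : GL (Fin 2) ℝ) z‖ ^ 4 :=
    pow_pos (norm_pos_iff.mpr (denom_ne_zero (δ : GL (Fin 2) ℝ) ⟨z, hKU hz⟩)) 4
  simp [abs_of_pos hpos, div_eq_inv_mul]

end Fermat.Agent.S21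

end
-- ===== PACK-END S21/Small.lean

-- ===== PACK-BEGIN S21/Per.lean
section


/-!
# S21 — piece `Per` of the Hodge route

If the gradients of `v n` tend to `0` in `L²_loc` and all `v n` have the same period `d` along
`γ`, then `d = 0`.

The proof is a Poincaré-type estimate on a closed rectangle `Q` of the upper half plane
containing a unit square `B` and its image `γ B`: everything is done with lower Lebesgue
integrals (`∫⁻`), so that no integrability bookkeeping is needed.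
-/

set_option autoImplicit false

open MeasureTheory Set Filter Topology UpperHalfPlane
open scoped ENNReal MatrixGroups ContDiff Interval

namespace Fermat.Agent.S21

/-! ### One-dimensional estimates -/

/-- Cauchy–Schwarz on an interval. -/
theorem per_sq_integral_le {f : ℝ → ℝ} {a b : ℝ} (hab : a ≤ b) (hf : ContinuousOn f (Icc a b)) :
    (∫ x in a..b, f x) ^ 2 ≤ (b - a) * ∫ x in a..b, (f x) ^ 2 := by
  have hfi : IntervalIntegrable f volume a b := by
    apply ContinuousOn.intervalIntegrable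
    rwa [uIcc_of_le hab]
  have hf2 : IntervalIntegrable (fun x => f x ^ 2) volume a b := by
    apply ContinuousOn.intervalIntegrable
    rw [uIcc_of_le hab]
    exact hf.pow 2
  have h : ∀ t : ℝ, 0 ≤ (b - a) * (t * t) + (2 * ∫ x in a..b, f x) * t
      + ∫ x in a..b, (f x) ^ 2 := by
    intro t
    have h0 := intervalIntegral.integral_nonneg (μ := volume) hab
      (fun x _ => sq_nonneg (t + f x))
    have e : ∫ x in a..b, (t + f x) ^ 2 = (b - a) * (t * t) + (2 * ∫ x in a..b, f x) * t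
        + ∫ x in a..b, (f x) ^ 2 := by
      have e1 : (fun x => (t + f x) ^ 2) = fun x => (t * t + (2 * t) * f x) + f x ^ 2 := by
        ext x; ring
      rw [e1, intervalIntegral.integral_add ((intervalIntegrable_const).add (hfi.const_mul _)) hf2,
        intervalIntegral.integral_add intervalIntegrable_const (hfi.const_mul _),
        intervalIntegral.integral_const, intervalIntegral.integral_const_mul]
      simp only [smul_eq_mul]
      ring
    linarith
  have := discrim_le_zero h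
  unfold discrim at this
  nlinarith

/-- One-dimensional estimate: FTC + Cauchy–Schwarz, in `ℝ≥0∞` form. -/
theorem per_sq_sub_le {g f : ℝ → ℝ} {a b : ℝ}
    (hderiv : ∀ s ∈ Icc a b, HasDerivAt g (f s) s) (hcont : ContinuousOn f (Icc a b))
    {x x' : ℝ} (hx : x ∈ Icc a b) (hx' : x' ∈ Icc a b) :
    ENNReal.ofReal ((g x - g x') ^ 2) ≤
      ENNReal.ofReal (b - a) * ∫⁻ s in Icc a b, ENNReal.ofReal ((f s) ^ 2) := by
  wlog hxx : x' ≤ x generalizing x x'
  · have := this hx' hx (le_of_not_ge hxx)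
    rwa [sub_sq_comm] at this
  have hsub : Icc x' x ⊆ Icc a b := Icc_subset_Icc hx'.1 hx.2
  have hsub' : Ioc x' x ⊆ Icc a b := Ioc_subset_Icc_self.trans hsub
  have hc : ContinuousOn f (Icc x' x) := hcont.mono hsub
  have hint : IntervalIntegrable f volume x' x := by
    apply ContinuousOn.intervalIntegrable
    rwa [uIcc_of_le hxx]
  have hftc : ∫ s in x'..x, f s = g x - g x' := by
    apply intervalIntegral.integral_eq_sub_of_hasDerivAt _ hint
    intro s hs
    rw [uIcc_of_le hxx] at hs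
    exact hderiv s (hsub hs)
  have hcs := per_sq_integral_le hxx hc
  rw [hftc] at hcs
  have hnn : 0 ≤ ∫ s in x'..x, (f s) ^ 2 :=
    intervalIntegral.integral_nonneg hxx (fun s _ => sq_nonneg _)
  have hle : (g x - g x') ^ 2 ≤ (b - a) * ∫ s in x'..x, (f s) ^ 2 := by
    refine hcs.trans (mul_le_mul_of_nonneg_right ?_ hnn)
    linarith [hx.2, hx'.1]
  have hba : 0 ≤ b - a := by linarith [hx.1, hx.2]
  calc ENNReal.ofReal ((g x - g x') ^ 2)
      ≤ ENNReal.ofReal ((b - a) * ∫ s in x'..x, (f s) ^ 2) := ENNReal.ofReal_le_ofReal hle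
    _ = ENNReal.ofReal (b - a) * ENNReal.ofReal (∫ s in x'..x, (f s) ^ 2) :=
        ENNReal.ofReal_mul hba
    _ = ENNReal.ofReal (b - a) * ∫⁻ s in Ioc x' x, ENNReal.ofReal ((f s) ^ 2) := by
        congr 1
        rw [intervalIntegral.integral_of_le hxx]
        apply ofReal_integral_eq_lintegral_ofReal
        · have : IntervalIntegrable (fun s => f s ^ 2) volume x' x := by
            apply ContinuousOn.intervalIntegrable
            rw [uIcc_of_le hxx]
            exact hc.pow 2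
          exact (intervalIntegrable_iff_integrableOn_Ioc_of_le hxx).mp this
        · exact Eventually.of_forall (fun s => sq_nonneg _)
    _ ≤ ENNReal.ofReal (b - a) * ∫⁻ s in Icc a b, ENNReal.ofReal ((f s) ^ 2) := by
        gcongr

/-! ### Points, lines and rectangles in `ℂ` -/

/-- The point `x + y i`. -/
def per_pt (x y : ℝ) : ℂ := ⟨x, y⟩

@[simp] theorem per_pt_re (x y : ℝ) : (per_pt x y).re = x := rfl

@[simp] theorem per_pt_im (x y : ℝ) : (per_pt x y).im = y := rfl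

theorem per_pt_mem_Uhp {x y : ℝ} (hy : 0 < y) : per_pt x y ∈ Uhp := hy

theorem per_pt_eta (z : ℂ) : per_pt z.re z.im = z := rfl

theorem per_continuous_pt_left (y : ℝ) : Continuous (fun s : ℝ => per_pt s y) := by
  have : (fun s : ℝ => per_pt s y) = fun s : ℝ => (s : ℂ) + per_pt 0 y := by
    funext s; apply Complex.ext <;> simp [per_pt]
  rw [this]
  exact Complex.continuous_ofReal.add continuous_const

theorem per_continuous_pt_right (x : ℝ) : Continuous (fun t : ℝ => per_pt x t) := by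
  have : (fun t : ℝ => per_pt x t) = fun t : ℝ => (t : ℂ) * Complex.I + per_pt x 0 := by
    funext t; apply Complex.ext <;> simp [per_pt]
  rw [this]
  exact (Complex.continuous_ofReal.mul continuous_const).add continuous_const

/-- Tonelli on a rectangle of `ℂ`. -/
theorem per_lintegral_rect (F : ℂ → ℝ≥0∞) (hF : Measurable F) (s t : Set ℝ) :
    ∫⁻ z in s ×ℂ t, F z = ∫⁻ x in s, ∫⁻ y in t, F (per_pt x y) := by
  have e := Complex.volume_preserving_equiv_real_prod.symm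
  rw [← e.setLIntegral_comp_preimage_emb
    (Complex.measurableEquivRealProd.symm.measurableEmbedding) F (s ×ℂ t)]
  have hpre : Complex.measurableEquivRealProd.symm ⁻¹' (s ×ℂ t) = s ×ˢ t := by
    ext p
    simp [Complex.mem_reProdIm, Complex.measurableEquivRealProd_symm_apply]
  rw [hpre, Measure.volume_eq_prod, ← Measure.prod_restrict, lintegral_prod]
  · rfl
  · exact (hF.comp Complex.measurableEquivRealProd.symm.measurable).aemeasurable

/-- Tonelli on a rectangle of `ℂ`, other order. -/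
theorem per_lintegral_rect_symm (F : ℂ → ℝ≥0∞) (hF : Measurable F) (s t : Set ℝ) :
    ∫⁻ z in s ×ℂ t, F z = ∫⁻ y in t, ∫⁻ x in s, F (per_pt x y) := by
  have e := Complex.volume_preserving_equiv_real_prod.symm
  rw [← e.setLIntegral_comp_preimage_emb
    (Complex.measurableEquivRealProd.symm.measurableEmbedding) F (s ×ℂ t)]
  have hpre : Complex.measurableEquivRealProd.symm ⁻¹' (s ×ℂ t) = s ×ˢ t := by
    ext p
    simp [Complex.mem_reProdIm, Complex.measurableEquivRealProd_symm_apply]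
  rw [hpre, Measure.volume_eq_prod, ← Measure.prod_restrict, lintegral_prod_symm]
  · rfl
  · exact (hF.comp Complex.measurableEquivRealProd.symm.measurable).aemeasurable

theorem per_measurable_comp_pt {F : ℂ → ℝ≥0∞} (hF : Measurable F) :
    Measurable (fun p : ℝ × ℝ => F (per_pt p.1 p.2)) := by
  have : (fun p : ℝ × ℝ => F (per_pt p.1 p.2)) = F ∘ Complex.measurableEquivRealProd.symm := by
    funext p
    simp only [Function.comp_apply, Complex.measurableEquivRealProd_symm_apply]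
    rfl
  rw [this]
  exact hF.comp Complex.measurableEquivRealProd.symm.measurable

theorem per_rect_subset_Uhp {a₁ b₁ a₂ b₂ : ℝ} (ha₂ : 0 < a₂) :
    Icc a₁ b₁ ×ℂ Icc a₂ b₂ ⊆ Uhp := fun _ hz => lt_of_lt_of_le ha₂ hz.2.1

/-! ### Calculus along horizontal and vertical lines -/

theorem per_differentiableAt {u : ℂ → ℝ} (hu : ContDiffOn ℝ 1 u Uhp) {z : ℂ} (hz : z ∈ Uhp) :
    DifferentiableAt ℝ u z :=
  (hu.differentiableOn (by norm_num)).differentiableAt (isOpen_Uhp.mem_nhds hz)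

theorem per_continuousOn_fderiv {u : ℂ → ℝ} (hu : ContDiffOn ℝ 1 u Uhp) (w : ℂ) :
    ContinuousOn (fun z => fderiv ℝ u z w) Uhp :=
  (hu.continuousOn_fderiv_of_isOpen isOpen_Uhp le_rfl).clm_apply continuousOn_const

theorem per_hasDerivAt_horiz {u : ℂ → ℝ} (hu : ContDiffOn ℝ 1 u Uhp) {y : ℝ} (hy : 0 < y)
    (s : ℝ) :
    HasDerivAt (fun s : ℝ => u (per_pt s y)) (fderiv ℝ u (per_pt s y) 1) s := by
  have h1 : HasDerivAt (fun s : ℝ => per_pt s y) 1 s := by
    have : (fun s : ℝ => per_pt s y) = fun s : ℝ => (s : ℂ) + per_pt 0 y := by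
      funext s; apply Complex.ext <;> simp [per_pt]
    rw [this]
    exact (Complex.ofRealCLM.hasDerivAt (x := s)).add_const _
  exact (per_differentiableAt hu (per_pt_mem_Uhp hy)).hasFDerivAt.comp_hasDerivAt s h1

theorem per_hasDerivAt_vert {u : ℂ → ℝ} (hu : ContDiffOn ℝ 1 u Uhp) (x : ℝ) {t : ℝ}
    (ht : 0 < t) :
    HasDerivAt (fun t : ℝ => u (per_pt x t)) (fderiv ℝ u (per_pt x t) Complex.I) t := by
  have h1 : HasDerivAt (fun t : ℝ => per_pt x t) Complex.I t := by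
    have : (fun t : ℝ => per_pt x t) = fun t : ℝ => (t : ℂ) * Complex.I + per_pt x 0 := by
      funext t; apply Complex.ext <;> simp [per_pt]
    rw [this]
    have := ((Complex.ofRealCLM.hasDerivAt (x := t)).mul_const Complex.I).add_const (per_pt x 0)
    simpa using this
  exact (per_differentiableAt hu (per_pt_mem_Uhp ht)).hasFDerivAt.comp_hasDerivAt t h1

/-- The two nonnegative integrands. -/
noncomputable def per_fx (u : ℂ → ℝ) (z : ℂ) : ℝ≥0∞ := ENNReal.ofReal ((fderiv ℝ u z 1) ^ 2)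

/-- The two nonnegative integrands. -/
noncomputable def per_fy (u : ℂ → ℝ) (z : ℂ) : ℝ≥0∞ :=
  ENNReal.ofReal ((fderiv ℝ u z Complex.I) ^ 2)

theorem per_measurable_fx (u : ℂ → ℝ) : Measurable (per_fx u) :=
  ENNReal.measurable_ofReal.comp ((measurable_fderiv_apply_const ℝ u 1).pow_const 2)

theorem per_measurable_fy (u : ℂ → ℝ) : Measurable (per_fy u) :=
  ENNReal.measurable_ofReal.comp ((measurable_fderiv_apply_const ℝ u Complex.I).pow_const 2)

/-- Horizontal energy on the line of height `y`. -/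
noncomputable def per_g (u : ℂ → ℝ) (a₁ b₁ : ℝ) (y : ℝ) : ℝ≥0∞ :=
  ∫⁻ s in Icc a₁ b₁, per_fx u (per_pt s y)

/-- Vertical energy on the line of abscissa `x`. -/
noncomputable def per_h (u : ℂ → ℝ) (a₂ b₂ : ℝ) (x : ℝ) : ℝ≥0∞ :=
  ∫⁻ t in Icc a₂ b₂, per_fy u (per_pt x t)

theorem per_measurable_g (u : ℂ → ℝ) (a₁ b₁ : ℝ) : Measurable (per_g u a₁ b₁) :=
  (per_measurable_comp_pt (per_measurable_fx u)).lintegral_prod_left'

theorem per_measurable_h (u : ℂ → ℝ) (a₂ b₂ : ℝ) : Measurable (per_h u a₂ b₂) :=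
  (per_measurable_comp_pt (per_measurable_fy u)).lintegral_prod_right'

/-- **Claim A**: pointwise Poincaré-type estimate on a rectangle. -/
theorem per_claimA {u : ℂ → ℝ} (hu : ContDiffOn ℝ 1 u Uhp) {a₁ b₁ a₂ b₂ : ℝ} (ha₂ : 0 < a₂)
    {z z' : ℂ} (hz : z ∈ Icc a₁ b₁ ×ℂ Icc a₂ b₂) (hz' : z' ∈ Icc a₁ b₁ ×ℂ Icc a₂ b₂) :
    ENNReal.ofReal ((u z - u z') ^ 2) ≤
      2 * (ENNReal.ofReal (b₁ - a₁) * per_g u a₁ b₁ z.im)
        + 2 * (ENNReal.ofReal (b₂ - a₂) * per_h u a₂ b₂ z'.re) := by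
  have hy : 0 < z.im := lt_of_lt_of_le ha₂ hz.2.1
  -- horizontal part
  have hp : ENNReal.ofReal ((u (per_pt z.re z.im) - u (per_pt z'.re z.im)) ^ 2) ≤
      ENNReal.ofReal (b₁ - a₁) * per_g u a₁ b₁ z.im := by
    refine per_sq_sub_le (g := fun s => u (per_pt s z.im))
      (f := fun s => fderiv ℝ u (per_pt s z.im) 1)
      (fun s _ => per_hasDerivAt_horiz hu hy s) ?_ hz.1 hz'.1
    refine Continuous.continuousOn ?_
    refine (per_continuousOn_fderiv hu 1).comp_continuous (per_continuous_pt_left z.im) ?_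
    intro s
    exact per_pt_mem_Uhp hy
  -- vertical part
  have hq : ENNReal.ofReal ((u (per_pt z'.re z.im) - u (per_pt z'.re z'.im)) ^ 2) ≤
      ENNReal.ofReal (b₂ - a₂) * per_h u a₂ b₂ z'.re := by
    refine per_sq_sub_le (g := fun t => u (per_pt z'.re t))
      (f := fun t => fderiv ℝ u (per_pt z'.re t) Complex.I)
      (fun t ht => per_hasDerivAt_vert hu z'.re (lt_of_lt_of_le ha₂ ht.1)) ?_ hz.2 hz'.2
    refine (per_continuousOn_fderiv hu Complex.I).comp
      (per_continuous_pt_right z'.re).continuousOn ?_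
    intro t ht
    exact per_pt_mem_Uhp (lt_of_lt_of_le ha₂ ht.1)
  set p := u (per_pt z.re z.im) - u (per_pt z'.re z.im) with hpdef
  set q := u (per_pt z'.re z.im) - u (per_pt z'.re z'.im) with hqdef
  have hsum : u z - u z' = p + q := by
    rw [hpdef, hqdef, per_pt_eta, per_pt_eta]; ring
  have hineq : (u z - u z') ^ 2 ≤ 2 * p ^ 2 + 2 * q ^ 2 := by
    rw [hsum]; nlinarith [sq_nonneg (p - q)]
  calc ENNReal.ofReal ((u z - u z') ^ 2)
      ≤ ENNReal.ofReal (2 * p ^ 2 + 2 * q ^ 2) := ENNReal.ofReal_le_ofReal hineq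
    _ = 2 * ENNReal.ofReal (p ^ 2) + 2 * ENNReal.ofReal (q ^ 2) := by
        rw [ENNReal.ofReal_add (by positivity) (by positivity),
          ENNReal.ofReal_mul (by norm_num), ENNReal.ofReal_mul (by norm_num),
          ENNReal.ofReal_ofNat]
    _ ≤ _ := by gcongr

theorem per_mob_eq {γ : SL(2, ℤ)} {z : ℂ} (hz : z ∈ Uhp) :
    mob γ z = ((γ • (⟨z, hz⟩ : ℍ) : ℍ) : ℂ) := by
  unfold mob
  rw [ofComplex_apply_of_im_pos hz]

theorem per_mob_mem_Uhp (γ : SL(2, ℤ)) (z : ℂ) : mob γ z ∈ Uhp := coe_mem_Uhp _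

/-- **Claim B**. -/
theorem per_claimB {u : ℂ → ℝ} (hu : ContDiffOn ℝ 1 u Uhp) (γ : SL(2, ℤ)) (d : ℝ)
    (hd : ∀ z : ℍ, u ↑(γ • z) = u ↑z + d)
    {a₁ b₁ a₂ b₂ : ℝ} (ha₂ : 0 < a₂)
    {z : ℂ} (hz : z ∈ Icc a₁ b₁ ×ℂ Icc a₂ b₂) (hγz : mob γ z ∈ Icc a₁ b₁ ×ℂ Icc a₂ b₂)
    {x' : ℝ} (hx' : x' ∈ Icc a₁ b₁) :
    ENNReal.ofReal (d ^ 2) ≤
      4 * ENNReal.ofReal (b₁ - a₁) * (per_g u a₁ b₁ (mob γ z).im + per_g u a₁ b₁ z.im)
        + 8 * (ENNReal.ofReal (b₂ - a₂) * per_h u a₂ b₂ x') := by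
  have hzU : z ∈ Uhp := per_rect_subset_Uhp ha₂ hz
  have hz' : per_pt x' a₂ ∈ Icc a₁ b₁ ×ℂ Icc a₂ b₂ :=
    ⟨hx', ⟨le_rfl, hz.2.1.trans hz.2.2⟩⟩
  have hper : u (mob γ z) = u z + d := by
    rw [per_mob_eq hzU]
    exact hd ⟨z, hzU⟩
  have A1 := per_claimA hu ha₂ hγz hz'
  have A2 := per_claimA hu ha₂ hz hz'
  rw [per_pt_re] at A1 A2
  set P := u (mob γ z) - u (per_pt x' a₂) with hP
  set R := u z - u (per_pt x' a₂) with hR
  have hdPR : d = P - R := by rw [hP, hR, hper]; ring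
  have hineq : d ^ 2 ≤ 2 * P ^ 2 + 2 * R ^ 2 := by
    rw [hdPR]; nlinarith [sq_nonneg (P + R)]
  calc ENNReal.ofReal (d ^ 2)
      ≤ ENNReal.ofReal (2 * P ^ 2 + 2 * R ^ 2) := ENNReal.ofReal_le_ofReal hineq
    _ = 2 * ENNReal.ofReal (P ^ 2) + 2 * ENNReal.ofReal (R ^ 2) := by
        rw [ENNReal.ofReal_add (by positivity) (by positivity),
          ENNReal.ofReal_mul (by norm_num), ENNReal.ofReal_mul (by norm_num),
          ENNReal.ofReal_ofNat]
    _ ≤ 2 * (2 * (ENNReal.ofReal (b₁ - a₁) * per_g u a₁ b₁ (mob γ z).im)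
          + 2 * (ENNReal.ofReal (b₂ - a₂) * per_h u a₂ b₂ x'))
        + 2 * (2 * (ENNReal.ofReal (b₁ - a₁) * per_g u a₁ b₁ z.im)
          + 2 * (ENNReal.ofReal (b₂ - a₂) * per_h u a₂ b₂ x')) := by
        gcongr
    _ = _ := by ring

/-- The vertical energy integrates to the `y`-part of the Dirichlet energy. -/
theorem per_lintegral_h (u : ℂ → ℝ) (a₁ b₁ a₂ b₂ : ℝ) :
    ∫⁻ x in Icc a₁ b₁, per_h u a₂ b₂ x = ∫⁻ z in Icc a₁ b₁ ×ℂ Icc a₂ b₂, per_fy u z := by
  rw [per_lintegral_rect (per_fy u) (per_measurable_fy u)]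
  rfl

/-- The horizontal energy integrates to the `x`-part of the Dirichlet energy. -/
theorem per_lintegral_g (u : ℂ → ℝ) (a₁ b₁ a₂ b₂ : ℝ) :
    ∫⁻ y in Icc a₂ b₂, per_g u a₁ b₁ y = ∫⁻ z in Icc a₁ b₁ ×ℂ Icc a₂ b₂, per_fx u z := by
  rw [per_lintegral_rect_symm (per_fx u) (per_measurable_fx u)]
  rfl

theorem per_measurable_G (u : ℂ → ℝ) (a₁ b₁ : ℝ) :
    Measurable (fun z : ℂ => per_g u a₁ b₁ z.im) :=
  (per_measurable_g u a₁ b₁).comp Complex.measurable_im

/-- **Claim E1**. -/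
theorem per_lintegral_G (u : ℂ → ℝ) (a₁ b₁ a₂ b₂ : ℝ) :
    ∫⁻ z in Icc a₁ b₁ ×ℂ Icc a₂ b₂, per_g u a₁ b₁ z.im =
      ENNReal.ofReal (b₁ - a₁) * ∫⁻ z in Icc a₁ b₁ ×ℂ Icc a₂ b₂, per_fx u z := by
  rw [per_lintegral_rect _ (per_measurable_G u a₁ b₁)]
  simp only [per_pt_im]
  rw [setLIntegral_const, Real.volume_Icc, per_lintegral_g, mul_comm]

/-- **Claim C**. -/
theorem per_claimC {u : ℂ → ℝ} (hu : ContDiffOn ℝ 1 u Uhp) (γ : SL(2, ℤ)) (d : ℝ)
    (hd : ∀ z : ℍ, u ↑(γ • z) = u ↑z + d)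
    {a₁ b₁ a₂ b₂ : ℝ} (ha₂ : 0 < a₂)
    {z : ℂ} (hz : z ∈ Icc a₁ b₁ ×ℂ Icc a₂ b₂) (hγz : mob γ z ∈ Icc a₁ b₁ ×ℂ Icc a₂ b₂) :
    ENNReal.ofReal (d ^ 2) * ENNReal.ofReal (b₁ - a₁) ≤
      4 * ENNReal.ofReal (b₁ - a₁) * (per_g u a₁ b₁ (mob γ z).im + per_g u a₁ b₁ z.im)
          * ENNReal.ofReal (b₁ - a₁)
        + 8 * (ENNReal.ofReal (b₂ - a₂) * ∫⁻ z in Icc a₁ b₁ ×ℂ Icc a₂ b₂, per_fy u z) := by
  calc ENNReal.ofReal (d ^ 2) * ENNReal.ofReal (b₁ - a₁)
      = ∫⁻ _ in Icc a₁ b₁, ENNReal.ofReal (d ^ 2) := by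
        rw [setLIntegral_const, Real.volume_Icc]
    _ ≤ ∫⁻ x' in Icc a₁ b₁,
          (4 * ENNReal.ofReal (b₁ - a₁) * (per_g u a₁ b₁ (mob γ z).im + per_g u a₁ b₁ z.im)
            + 8 * (ENNReal.ofReal (b₂ - a₂) * per_h u a₂ b₂ x')) :=
        setLIntegral_mono' measurableSet_Icc
          (fun x' hx' => per_claimB hu γ d hd ha₂ hz hγz hx')
    _ = _ := by
        rw [lintegral_add_left measurable_const, setLIntegral_const, Real.volume_Icc,
          lintegral_const_mul _ ((per_measurable_h u a₂ b₂).const_mul _),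
          lintegral_const_mul _ (per_measurable_h u a₂ b₂), per_lintegral_h]

/-- **Claim D**. -/
theorem per_claimD {u : ℂ → ℝ} (hu : ContDiffOn ℝ 1 u Uhp) (γ : SL(2, ℤ)) (d : ℝ)
    (hd : ∀ z : ℍ, u ↑(γ • z) = u ↑z + d)
    {a₁ b₁ a₂ b₂ : ℝ} (ha₂ : 0 < a₂)
    {B : Set ℂ} (hB : MeasurableSet B) (hBQ : B ⊆ Icc a₁ b₁ ×ℂ Icc a₂ b₂)
    (hγB : mob γ '' B ⊆ Icc a₁ b₁ ×ℂ Icc a₂ b₂) :
    ENNReal.ofReal (d ^ 2) * ENNReal.ofReal (b₁ - a₁) * volume B ≤
      4 * ENNReal.ofReal (b₁ - a₁) ^ 2 *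
          ((∫⁻ z in B, per_g u a₁ b₁ (mob γ z).im) + ∫⁻ z in B, per_g u a₁ b₁ z.im)
        + 8 * (ENNReal.ofReal (b₂ - a₂) * ∫⁻ z in Icc a₁ b₁ ×ℂ Icc a₂ b₂, per_fy u z)
          * volume B := by
  have hL : ENNReal.ofReal (b₁ - a₁) ≠ ⊤ := ENNReal.ofReal_ne_top
  calc ENNReal.ofReal (d ^ 2) * ENNReal.ofReal (b₁ - a₁) * volume B
      = ∫⁻ _ in B, ENNReal.ofReal (d ^ 2) * ENNReal.ofReal (b₁ - a₁) := by
        rw [setLIntegral_const]
    _ ≤ ∫⁻ z in B,
          (4 * ENNReal.ofReal (b₁ - a₁) * (per_g u a₁ b₁ (mob γ z).im + per_g u a₁ b₁ z.im)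
              * ENNReal.ofReal (b₁ - a₁)
            + 8 * (ENNReal.ofReal (b₂ - a₂) *
                ∫⁻ z in Icc a₁ b₁ ×ℂ Icc a₂ b₂, per_fy u z)) :=
        setLIntegral_mono' hB
          (fun z hz => per_claimC hu γ d hd ha₂ (hBQ hz) (hγB ⟨z, hz, rfl⟩))
    _ = _ := by
        rw [lintegral_add_right _ measurable_const, setLIntegral_const,
          lintegral_mul_const' _ _ hL,
          lintegral_const_mul' _ _ (ENNReal.mul_ne_top (by simp) hL),
          lintegral_add_right _ (per_measurable_G u a₁ b₁)]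
        ring

/-! ### Change of variables under a Möbius transformation (`∫⁻` form) -/

theorem per_mob_injOn (γ : SL(2, ℤ)) : InjOn (mob γ) Uhp := by
  intro z₁ h₁ z₂ h₂ h
  rw [per_mob_eq h₁, per_mob_eq h₂] at h
  have h' := MulAction.injective γ (UpperHalfPlane.ext h)
  exact congrArg UpperHalfPlane.coe h'

theorem per_cd_eq_denom (γ : SL(2, ℤ)) {z : ℂ} (hz : z ∈ Uhp) :
    cd γ z = denom (γ : GL (Fin 2) ℝ) z := by
  have := ModularGroup.denom_apply γ ⟨z, hz⟩
  simpa [cd] using this.symm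

theorem per_cd_ne_zero (γ : SL(2, ℤ)) {z : ℂ} (hz : z ∈ Uhp) : cd γ z ≠ 0 := by
  rw [per_cd_eq_denom γ hz]
  exact denom_ne_zero _ ⟨z, hz⟩

theorem per_hasFDerivAt_mob (γ : SL(2, ℤ)) {z : ℂ} (hz : z ∈ Uhp) :
    HasFDerivAt (mob γ) (smulFDeriv (γ : GL (Fin 2) ℝ) z) z :=
  (hasStrictFDerivAt_smul (γ : GL (Fin 2) ℝ) ⟨z, hz⟩).hasFDerivAt

theorem per_continuousOn_mob (γ : SL(2, ℤ)) : ContinuousOn (mob γ) Uhp :=
  fun _ hz => (per_hasFDerivAt_mob γ hz).continuousAt.continuousWithinAt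

theorem per_abs_det (γ : SL(2, ℤ)) {z : ℂ} (hz : z ∈ Uhp) :
    |(smulFDeriv (γ : GL (Fin 2) ℝ) z).det| = 1 / ‖cd γ z‖ ^ 4 := by
  rw [det_smulFDeriv, per_cd_eq_denom γ hz]
  have hdet : ((γ : GL (Fin 2) ℝ)).det = 1 := by simp
  rw [hdet]
  simp

/-- **CV** in `∫⁻` form: change of variables under a Möbius transformation. -/
theorem per_lintegral_mob (γ : SL(2, ℤ)) {B : Set ℂ} (hB : MeasurableSet B) (hBU : B ⊆ Uhp)
    (G : ℂ → ℝ≥0∞) :
    ∫⁻ w in mob γ '' B, G w = ∫⁻ z in B, ENNReal.ofReal (1 / ‖cd γ z‖ ^ 4) * G (mob γ z) := by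
  rw [lintegral_image_eq_lintegral_abs_det_fderiv_mul volume hB
    (fun z hz => (per_hasFDerivAt_mob γ (hBU hz)).hasFDerivWithinAt)
    ((per_mob_injOn γ).mono hBU) G]
  refine setLIntegral_congr_fun hB (fun z hz => ?_)
  rw [per_abs_det γ (hBU hz)]

/-- **Claim E3**. -/
theorem per_lintegral_comp_mob_le (γ : SL(2, ℤ)) {B Q : Set ℂ} (hB : MeasurableSet B)
    (hBU : B ⊆ Uhp) (hγB : mob γ '' B ⊆ Q) {m : ℝ} (hm : ∀ z ∈ B, ‖cd γ z‖ ≤ m)
    (G : ℂ → ℝ≥0∞) :
    ∫⁻ z in B, G (mob γ z) ≤ ENNReal.ofReal (m ^ 4) * ∫⁻ w in Q, G w := by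
  calc ∫⁻ z in B, G (mob γ z)
      ≤ ∫⁻ z in B, ENNReal.ofReal (m ^ 4) *
          (ENNReal.ofReal (1 / ‖cd γ z‖ ^ 4) * G (mob γ z)) := by
        refine setLIntegral_mono' hB (fun z hz => ?_)
        have hpos : 0 < ‖cd γ z‖ := norm_pos_iff.mpr (per_cd_ne_zero γ (hBU hz))
        have h4 : ‖cd γ z‖ ^ 4 ≤ m ^ 4 := pow_le_pow_left₀ hpos.le (hm z hz) 4
        have h1 : (1 : ℝ) ≤ m ^ 4 * (1 / ‖cd γ z‖ ^ 4) := by
          rw [mul_one_div, le_div_iff₀ (by positivity)]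
          linarith
        rw [← mul_assoc, ← ENNReal.ofReal_mul (by positivity)]
        calc G (mob γ z) = 1 * G (mob γ z) := (one_mul _).symm
          _ ≤ ENNReal.ofReal (m ^ 4 * (1 / ‖cd γ z‖ ^ 4)) * G (mob γ z) := by
              gcongr
              rw [← ENNReal.ofReal_one]
              exact ENNReal.ofReal_le_ofReal h1
    _ = ENNReal.ofReal (m ^ 4) * ∫⁻ w in mob γ '' B, G w := by
        rw [lintegral_const_mul' _ _ ENNReal.ofReal_ne_top, per_lintegral_mob γ hB hBU]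
    _ ≤ ENNReal.ofReal (m ^ 4) * ∫⁻ w in Q, G w := by
        gcongr

/-! ### The Dirichlet energy -/

theorem per_continuousOn_dz {u : ℂ → ℝ} (hu : ContDiffOn ℝ 1 u Uhp) :
    ContinuousOn (dz u) Uhp := by
  unfold dz
  exact (Complex.continuous_ofReal.comp_continuousOn (per_continuousOn_fderiv hu 1)).sub
    (continuousOn_const.mul
      (Complex.continuous_ofReal.comp_continuousOn (per_continuousOn_fderiv hu Complex.I)))

theorem per_norm_dz_sq (u : ℂ → ℝ) (z : ℂ) :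
    ‖dz u z‖ ^ 2 = (fderiv ℝ u z 1) ^ 2 + (fderiv ℝ u z Complex.I) ^ 2 := by
  rw [Complex.sq_norm, Complex.normSq_apply]
  simp [dz]
  ring

/-- **Claim F**. -/
theorem per_energy {u : ℂ → ℝ} (hu : ContDiffOn ℝ 1 u Uhp) {a₁ b₁ a₂ b₂ : ℝ} (ha₂ : 0 < a₂) :
    (∫⁻ z in Icc a₁ b₁ ×ℂ Icc a₂ b₂, per_fx u z) + ∫⁻ z in Icc a₁ b₁ ×ℂ Icc a₂ b₂, per_fy u z
      = ENNReal.ofReal (∫ z in Icc a₁ b₁ ×ℂ Icc a₂ b₂, ‖dz u z‖ ^ 2) := by
  have hQc : IsCompact (Icc a₁ b₁ ×ℂ Icc a₂ b₂) := isCompact_Icc.reProdIm isCompact_Icc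
  have hint : IntegrableOn (fun z => ‖dz u z‖ ^ 2) (Icc a₁ b₁ ×ℂ Icc a₂ b₂) volume := by
    apply ContinuousOn.integrableOn_compact hQc
    exact (((per_continuousOn_dz hu).mono (per_rect_subset_Uhp ha₂)).norm).pow 2
  rw [ofReal_integral_eq_lintegral_ofReal hint (Eventually.of_forall (fun z => sq_nonneg _)),
    ← lintegral_add_left (per_measurable_fx u)]
  refine lintegral_congr (fun z => ?_)
  rw [per_norm_dz_sq, ENNReal.ofReal_add (sq_nonneg _) (sq_nonneg _)]
  rfl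

/-- **Key estimate**: the period is controlled by the Dirichlet energy on a rectangle. -/
theorem per_key {u : ℂ → ℝ} (hu : ContDiffOn ℝ 1 u Uhp) (γ : SL(2, ℤ)) (d : ℝ)
    (hd : ∀ z : ℍ, u ↑(γ • z) = u ↑z + d)
    {a₁ b₁ a₂ b₂ : ℝ} (ha₂ : 0 < a₂)
    {B : Set ℂ} (hB : MeasurableSet B) (hBQ : B ⊆ Icc a₁ b₁ ×ℂ Icc a₂ b₂)
    (hγB : mob γ '' B ⊆ Icc a₁ b₁ ×ℂ Icc a₂ b₂) {m : ℝ} (hm : ∀ z ∈ B, ‖cd γ z‖ ≤ m) :
    ENNReal.ofReal (d ^ 2) * ENNReal.ofReal (b₁ - a₁) * volume B ≤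
      (4 * ENNReal.ofReal (b₁ - a₁) ^ 3 * (ENNReal.ofReal (m ^ 4) + 1)
        + 8 * ENNReal.ofReal (b₂ - a₂) * volume B) *
      ENNReal.ofReal (∫ z in Icc a₁ b₁ ×ℂ Icc a₂ b₂, ‖dz u z‖ ^ 2) := by
  have hBU : B ⊆ Uhp := hBQ.trans (per_rect_subset_Uhp ha₂)
  have hD := per_claimD hu γ d hd ha₂ hB hBQ hγB
  have hE3 := per_lintegral_comp_mob_le γ hB hBU hγB hm (fun z => per_g u a₁ b₁ z.im)
  have hE4 : ∫⁻ z in B, per_g u a₁ b₁ z.im ≤
      ∫⁻ z in Icc a₁ b₁ ×ℂ Icc a₂ b₂, per_g u a₁ b₁ z.im := lintegral_mono_set hBQ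
  rw [per_lintegral_G] at hE3 hE4
  rw [← per_energy hu ha₂]
  set Ex := ∫⁻ z in Icc a₁ b₁ ×ℂ Icc a₂ b₂, per_fx u z
  set Ey := ∫⁻ z in Icc a₁ b₁ ×ℂ Icc a₂ b₂, per_fy u z
  set L₁ := ENNReal.ofReal (b₁ - a₁)
  set L₂ := ENNReal.ofReal (b₂ - a₂)
  set M := ENNReal.ofReal (m ^ 4)
  calc ENNReal.ofReal (d ^ 2) * L₁ * volume B
      ≤ 4 * L₁ ^ 2 * ((∫⁻ z in B, per_g u a₁ b₁ (mob γ z).im)
          + ∫⁻ z in B, per_g u a₁ b₁ z.im) + 8 * (L₂ * Ey) * volume B := hD
    _ ≤ 4 * L₁ ^ 2 * (M * (L₁ * Ex) + L₁ * Ex) + 8 * (L₂ * Ey) * volume B := by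
        gcongr
    _ = 4 * L₁ ^ 3 * (M + 1) * Ex + 8 * L₂ * volume B * Ey := by ring
    _ ≤ 4 * L₁ ^ 3 * (M + 1) * (Ex + Ey) + 8 * L₂ * volume B * (Ex + Ey) := by
        gcongr
        · exact le_self_add
        · exact le_add_self
    _ = _ := by ring

/-! ### The theorem -/

theorem per_volume_unit_square : volume (Icc (0 : ℝ) 1 ×ℂ Icc (1 : ℝ) 2) = 1 := by
  rw [← setLIntegral_one, per_lintegral_rect _ measurable_const]
  simp only [setLIntegral_const, Real.volume_Icc, one_mul]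
  norm_num

/-- **Per**: if the gradients tend to `0` in `L²_loc` then the common period is `0`. -/
theorem period_eq_zero_of_tendsto (v : ℕ → ℂ → ℝ) (hv : ∀ n, ContDiffOn ℝ 1 (v n) Uhp)
    (hconv : ∀ K : Set ℂ, IsCompact K → K ⊆ Uhp →
      Tendsto (fun n => ∫ z in K, ‖dz (v n) z‖ ^ 2) atTop (𝓝 0))
    (γ : SL(2, ℤ)) (d : ℝ) (hd : ∀ n (z : ℍ), v n ↑(γ • z) = v n ↑z + d) : d = 0 := by
  -- the unit square `B` and its image
  have hBc : IsCompact (Icc (0 : ℝ) 1 ×ℂ Icc (1 : ℝ) 2) := isCompact_Icc.reProdIm isCompact_Icc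
  have hBU : Icc (0 : ℝ) 1 ×ℂ Icc (1 : ℝ) 2 ⊆ Uhp := per_rect_subset_Uhp one_pos
  have hBm : MeasurableSet (Icc (0 : ℝ) 1 ×ℂ Icc (1 : ℝ) 2) := hBc.measurableSet
  have hγBc : IsCompact (mob γ '' (Icc (0 : ℝ) 1 ×ℂ Icc (1 : ℝ) 2)) :=
    hBc.image_of_continuousOn ((per_continuousOn_mob γ).mono hBU)
  have hKc := hBc.union hγBc
  have hKU : (Icc (0 : ℝ) 1 ×ℂ Icc (1 : ℝ) 2) ∪ mob γ '' (Icc (0 : ℝ) 1 ×ℂ Icc (1 : ℝ) 2) ⊆ Uhp :=
    union_subset hBU (by rintro _ ⟨z, -, rfl⟩; exact per_mob_mem_Uhp γ z)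
  have hi : per_pt 0 1 ∈ Icc (0 : ℝ) 1 ×ℂ Icc (1 : ℝ) 2 :=
    ⟨⟨le_rfl, zero_le_one⟩, ⟨le_rfl, one_le_two⟩⟩
  -- a rectangle `Q` containing both
  obtain ⟨R, hR⟩ := hKc.isBounded.exists_norm_le
  obtain ⟨z₀, hz₀, hmin⟩ := hKc.exists_isMinOn ⟨per_pt 0 1, Or.inl hi⟩
    Complex.continuous_im.continuousOn
  have hε : 0 < z₀.im := hKU hz₀
  have hKQ : (Icc (0 : ℝ) 1 ×ℂ Icc (1 : ℝ) 2) ∪ mob γ '' (Icc (0 : ℝ) 1 ×ℂ Icc (1 : ℝ) 2) ⊆
      Icc (-R) R ×ℂ Icc z₀.im R := by
    intro z hz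
    have h1 := hR z hz
    have h2 : |z.re| ≤ ‖z‖ := Complex.abs_re_le_norm z
    have h3 : |z.im| ≤ ‖z‖ := Complex.abs_im_le_norm z
    refine ⟨⟨?_, ?_⟩, ⟨hmin hz, ?_⟩⟩
    · linarith [neg_abs_le z.re]
    · linarith [le_abs_self z.re]
    · linarith [le_abs_self z.im]
  have hRpos : 0 < R := by
    have h1 := hR _ (Or.inl hi)
    have h3 : |(per_pt 0 1).im| ≤ ‖per_pt 0 1‖ := Complex.abs_im_le_norm _
    rw [per_pt_im, abs_one] at h3
    linarith
  have hQc : IsCompact (Icc (-R) R ×ℂ Icc z₀.im R) := isCompact_Icc.reProdIm isCompact_Icc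
  have hQU : Icc (-R) R ×ℂ Icc z₀.im R ⊆ Uhp := per_rect_subset_Uhp hε
  -- bound for the automorphy factor on `B`
  have hm : ∀ z ∈ Icc (0 : ℝ) 1 ×ℂ Icc (1 : ℝ) 2,
      ‖cd γ z‖ ≤ ‖((γ 1 0 : ℤ) : ℂ)‖ * R + ‖((γ 1 1 : ℤ) : ℂ)‖ := by
    intro z hz
    unfold cd
    refine (norm_add_le _ _).trans ?_
    rw [norm_mul]
    gcongr
    exact hR z (Or.inl hz)
  -- the key estimate for every `n`
  have key := fun n => per_key (hv n) γ d (hd n) hε hBm (subset_union_left.trans hKQ)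
    (subset_union_right.trans hKQ) hm
  rw [per_volume_unit_square] at key
  set C : ℝ≥0∞ := 4 * ENNReal.ofReal (R - -R) ^ 3 *
      (ENNReal.ofReal ((‖((γ 1 0 : ℤ) : ℂ)‖ * R + ‖((γ 1 1 : ℤ) : ℂ)‖) ^ 4) + 1)
      + 8 * ENNReal.ofReal (R - z₀.im) * 1 with hCdef
  have hC : C ≠ ⊤ := by
    rw [hCdef]
    refine ENNReal.add_ne_top.mpr ⟨?_, ?_⟩
    · refine ENNReal.mul_ne_top (ENNReal.mul_ne_top (by simp) (by simp)) ?_
      exact ENNReal.add_ne_top.mpr ⟨ENNReal.ofReal_ne_top, ENNReal.one_ne_top⟩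
    · exact ENNReal.mul_ne_top (ENNReal.mul_ne_top (by simp) ENNReal.ofReal_ne_top)
        ENNReal.one_ne_top
  have hlim : Tendsto (fun n => C * ENNReal.ofReal
      (∫ z in Icc (-R) R ×ℂ Icc z₀.im R, ‖dz (v n) z‖ ^ 2)) atTop (𝓝 (C * ENNReal.ofReal 0)) :=
    ENNReal.Tendsto.const_mul (ENNReal.tendsto_ofReal (hconv _ hQc hQU)) (Or.inr hC)
  have hA := ge_of_tendsto' hlim key
  rw [ENNReal.ofReal_zero, mul_zero, nonpos_iff_eq_zero, mul_one, mul_eq_zero] at hA
  rcases hA with hA | hA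
  · have hd2 : d ^ 2 ≤ 0 := ENNReal.ofReal_eq_zero.mp hA
    exact pow_eq_zero_iff (two_ne_zero) |>.mp (le_antisymm hd2 (sq_nonneg d))
  · exfalso
    have : R - -R ≤ 0 := ENNReal.ofReal_eq_zero.mp hA
    linarith

end Fermat.Agent.S21

end
-- ===== PACK-END S21/Per.lean

-- ===== PACK-BEGIN S23/Cap/TForm.lean
section



/-!
# S23 / WP2 : the auxiliary form `t(τ) = N³ E₄(Nτ) = E₄ ∣[4] diag(N,1)` on `Γ₀(N)`.

`t` is a modular form of weight 4 on `Γ₀(N)`, has integral q-expansion, and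
`t ∣[4] γ ≠ t` for every `γ ∈ SL₂(ℤ) \ Γ₀(N)`.  (Adapter around `H143/PrimElt.lean`.)
-/

set_option autoImplicit false

namespace Fermat.Agent.S23.Cap

open UpperHalfPlane ModularForm ModularFormClass MatrixGroups CongruenceSubgroup

/-- **WP2 main statement.** -/
theorem exists_tForm (N : ℕ) [NeZero N] :
    ∃ (w : ℤ) (t : ℍ → ℂ), IsMF (G0 N) w t ∧ IsIntSeries (qx t) ∧
      ∀ γ : GL (Fin 2) ℝ, γ ∈ SLZ → γ ∉ G0 N → t ∣[w] γ ≠ t := by
  refine ⟨4, ⇑(H143.primElt N), ⟨H143.primElt N, rfl⟩, H143.primElt_qExpansion_coeff_int N, ?_⟩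
  intro γ hγ hγ'
  obtain ⟨g, rfl⟩ := MonoidHom.mem_range.mp hγ
  exact H143.primElt_slash_ne N g (fun hg ↦ hγ' ⟨g, hg, rfl⟩)

end Fermat.Agent.S23.Cap

end
-- ===== PACK-END S23/Cap/TForm.lean

-- ===== PACK-BEGIN S23/ConversePkg.lean
section



/-!
# S23, converse step (packaging as a cusp form)
-/

set_option autoImplicit false

namespace Fermat.Agent.S23.Conv

open Complex Filter Topology UpperHalfPlane ModularForm
open scoped MatrixGroups ModularForm Manifold

/-- The ring of holomorphic functions on `ℍ` has no zero divisors (pointwise form). -/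
theorem eq_zero_of_mul_eq_zero_of_mdiff {D h : ℍ → ℂ} (hD : MDiff D) (hh : MDiff h)
    (hne : ∃ τ, h τ ≠ 0) (hmul : ∀ τ, D τ * h τ = 0) : ∀ τ, D τ = 0 := by
  obtain ⟨τ₀, hτ₀⟩ := hne
  have hDo := UpperHalfPlane.mdifferentiable_iff.mp hD
  have hho := UpperHalfPlane.mdifferentiable_iff.mp hh
  have hU : IsOpen {z : ℂ | 0 < z.im} := isOpen_upperHalfPlaneSet
  have hUc : IsPreconnected {z : ℂ | 0 < z.im} := (convex_halfSpace_im_gt 0).isPreconnected
  have hDan : AnalyticOnNhd ℂ (D ∘ ofComplex) {z : ℂ | 0 < z.im} :=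
    fun z hz ↦ hDo.analyticAt (hU.mem_nhds hz)
  have hz₀ : (τ₀ : ℂ) ∈ {z : ℂ | 0 < z.im} := τ₀.im_pos
  have hcont : ContinuousAt (h ∘ ofComplex) (τ₀ : ℂ) :=
    (hho.continuousOn).continuousAt (hU.mem_nhds hz₀)
  have hne' : (h ∘ ofComplex) (τ₀ : ℂ) ≠ 0 := by simpa using hτ₀
  have hev : ∀ᶠ z in 𝓝 (τ₀ : ℂ), (h ∘ ofComplex) z ≠ 0 := hcont.eventually_ne hne'
  have hev0 : (D ∘ ofComplex) =ᶠ[𝓝 (τ₀ : ℂ)] 0 := by
    filter_upwards [hev] with z hz
    have := hmul (ofComplex z)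
    exact (mul_eq_zero.mp this).resolve_right hz
  have := hDan.eqOn_zero_of_preconnected_of_eventuallyEq_zero hUc hz₀ hev0
  intro τ
  have h1 := this τ.im_pos
  simpa using h1


/-- Function-level converse on `ℍ`. -/
theorem exists_mdiff_quotient {g h : ℍ → ℂ} (hg : MDiff g) (hh : MDiff h) (hne : ∃ τ, h τ ≠ 0)
    {n : ℕ} (hn : 0 < n) (b : ℕ → ℍ → ℂ) (hb : ∀ i < n, Continuous (b i))
    (heq : ∀ τ, g τ ^ n + ∑ i ∈ Finset.range n, b i τ * g τ ^ i * h τ ^ (n - i) = 0) :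
    ∃ F : ℍ → ℂ, MDiff F ∧ (∀ τ, F τ * h τ = g τ) ∧
      ∀ τ, F τ ^ n + ∑ i ∈ Finset.range n, b i τ * F τ ^ i = 0 := by
  have hU : IsOpen {z : ℂ | 0 < z.im} := isOpen_upperHalfPlaneSet
  have hUc : IsPreconnected {z : ℂ | 0 < z.im} := (convex_halfSpace_im_gt 0).isPreconnected
  obtain ⟨τ₀, hτ₀⟩ := hne
  have hb' : ∀ i < n, ContinuousOn ((b i) ∘ ofComplex) {z : ℂ | 0 < z.im} := by
    intro i hi
    refine (hb i hi).comp_continuousOn ?_
    intro z hz
    exact (mdifferentiableAt_ofComplex hz).continuousAt.continuousWithinAt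
  obtain ⟨F₀, hF₀d, hF₀h, hF₀eq⟩ := exists_holo_quotient hU hUc
    (UpperHalfPlane.mdifferentiable_iff.mp hg) (UpperHalfPlane.mdifferentiable_iff.mp hh) hn
    (fun i ↦ (b i) ∘ ofComplex) hb' ⟨(τ₀ : ℂ), τ₀.im_pos, by simpa using hτ₀⟩
    (fun z _ ↦ by simpa using heq (ofComplex z))
  refine ⟨fun τ ↦ F₀ τ, ?_, ?_, ?_⟩
  · rw [UpperHalfPlane.mdifferentiable_iff]
    refine hF₀d.congr fun z hz ↦ ?_
    simp [Function.comp, ofComplex_apply_of_im_pos hz]
  · intro τ
    simpa using hF₀h τ τ.im_pos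
  · intro τ
    simpa using hF₀eq τ τ.im_pos


/-- If `x` satisfies pointwise a monic equation whose coefficients tend to `0`, then `x` tends
to `0`. -/
theorem tendsto_zero_of_monic {α : Type*} {l : Filter α} {n : ℕ} (hn : 0 < n)
    (c : ℕ → α → ℂ) (x : α → ℂ) (hc : ∀ i < n, Tendsto (c i) l (𝓝 0))
    (hx : ∀ a, x a ^ n + ∑ i ∈ Finset.range n, c i a * x a ^ i = 0) :
    Tendsto x l (𝓝 0) := by
  -- the bound `M a = 1 + ∑ ‖c i a‖`
  set M : α → ℝ := fun a ↦ 1 + ∑ i ∈ Finset.range n, ‖c i a‖ with hM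
  have hxM : ∀ a, ‖x a‖ ≤ M a := fun a ↦ norm_le_of_monic_root (fun i ↦ c i a) (x a) (hx a)
  have hcn : ∀ i ∈ Finset.range n, Tendsto (fun a ↦ ‖c i a‖) l (𝓝 0) := fun i hi ↦ by
    simpa using (hc i (Finset.mem_range.mp hi)).norm
  have hMt : Tendsto M l (𝓝 1) := by
    have : Tendsto (fun a ↦ ∑ i ∈ Finset.range n, ‖c i a‖) l (𝓝 (∑ i ∈ Finset.range n, (0 : ℝ))) :=
      tendsto_finsetSum _ hcn
    simpa [hM] using this.const_add 1
  set R : α → ℝ := fun a ↦ ∑ i ∈ Finset.range n, ‖c i a‖ * M a ^ i with hR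
  have hRt : Tendsto R l (𝓝 0) := by
    have : Tendsto R l (𝓝 (∑ i ∈ Finset.range n, (0 : ℝ) * 1 ^ i)) :=
      tendsto_finsetSum _ fun i hi ↦ (hcn i hi).mul (hMt.pow i)
    simpa using this
  have hxR : ∀ a, ‖x a‖ ^ n ≤ R a := by
    intro a
    have hpow : x a ^ n = -∑ i ∈ Finset.range n, c i a * x a ^ i :=
      eq_neg_of_add_eq_zero_left (hx a)
    calc ‖x a‖ ^ n = ‖x a ^ n‖ := (norm_pow _ _).symm
      _ = ‖∑ i ∈ Finset.range n, c i a * x a ^ i‖ := by rw [hpow, norm_neg]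
      _ ≤ ∑ i ∈ Finset.range n, ‖c i a * x a ^ i‖ := norm_sum_le _ _
      _ ≤ ∑ i ∈ Finset.range n, ‖c i a‖ * M a ^ i := by
          refine Finset.sum_le_sum fun i _ ↦ ?_
          rw [norm_mul, norm_pow]
          exact mul_le_mul_of_nonneg_left (pow_le_pow_left₀ (norm_nonneg _) (hxM a) i)
            (norm_nonneg _)
  have h1 : Tendsto (fun a ↦ ‖x a‖ ^ n) l (𝓝 0) :=
    squeeze_zero (fun a ↦ by positivity) hxR hRt
  have hn' : (n : ℝ)⁻¹ ≠ 0 := by positivity
  have h2 : Tendsto (fun a ↦ (‖x a‖ ^ n) ^ ((n : ℝ)⁻¹)) l (𝓝 ((0 : ℝ) ^ ((n : ℝ)⁻¹))) :=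
    h1.rpow_const (Or.inr (by positivity))
  rw [Real.zero_rpow hn'] at h2
  have h3 : (fun a ↦ (‖x a‖ ^ n) ^ ((n : ℝ)⁻¹)) = fun a ↦ ‖x a‖ := by
    funext a
    exact Real.pow_rpow_inv_natCast (norm_nonneg _) hn.ne'
  rw [h3] at h2
  exact tendsto_zero_iff_norm_tendsto_zero.mpr h2

/-- Slash invariance of a holomorphic quotient. -/
theorem slash_eq_of_mul_eq {F g h : ℍ → ℂ} {k w m : ℤ} (hm : m = w + k) (γ : SL(2, ℤ))
    (hF : MDiff F) (hh : MDiff h) (hne : ∃ τ, h τ ≠ 0)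
    (hFh : ∀ τ, F τ * h τ = g τ) (hgγ : g ∣[m] γ = g) (hhγ : h ∣[w] γ = h) :
    F ∣[k] γ = F := by
  subst hm
  have hFh' : F * h = g := funext hFh
  have hD : MDiff (F ∣[k] γ - F) := (hF.slash k (γ : GL (Fin 2) ℝ)).sub hF
  have hmul : ∀ τ, (F ∣[k] γ - F) τ * h τ = 0 := by
    intro τ
    have h1 : (F * h) ∣[k + w] γ = F ∣[k] γ * h ∣[w] γ := mul_slash_SL2 k w γ F h
    rw [hFh', hhγ, add_comm k w, hgγ] at h1
    have h2 := congrFun h1 τ
    simp only [Pi.mul_apply, Pi.sub_apply] at h2 ⊢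
    rw [sub_mul, ← h2, hFh τ, sub_self]
  have := eq_zero_of_mul_eq_zero_of_mdiff hD hh hne hmul
  funext τ
  have h3 := this τ
  simp only [Pi.sub_apply] at h3
  exact sub_eq_zero.mp h3


/-- The monic equation is preserved by the slash action of `SL(2, ℤ)` when the coefficients are
level-one forms of the right weights. -/
theorem monic_eq_slash {F : ℍ → ℂ} {k : ℤ} {n : ℕ} (b : ℕ → ℍ → ℂ) (γ : SL(2, ℤ))
    (hbγ : ∀ i < n, ∀ τ : ℍ, b i (γ • τ) = (denom γ τ ^ k) ^ (n - i) * b i τ)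
    (hFeq : ∀ τ, F τ ^ n + ∑ i ∈ Finset.range n, b i τ * F τ ^ i = 0) (τ : ℍ) :
    (F ∣[k] γ) τ ^ n + ∑ i ∈ Finset.range n, b i τ * (F ∣[k] γ) τ ^ i = 0 := by
  rw [SL_slash_apply]
  set d : ℂ := denom γ τ with hd
  have hd0 : d ≠ 0 := denom_ne_zero γ τ
  set u : ℂ := d ^ k with hu
  have hu0 : u ≠ 0 := zpow_ne_zero k hd0
  have he : d ^ (-k) = u⁻¹ := by rw [hu, zpow_neg]
  rw [he]
  set X : ℂ := F (γ • τ) with hX
  have key : (X * u⁻¹) ^ n + ∑ i ∈ Finset.range n, b i τ * (X * u⁻¹) ^ i =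
      (u⁻¹) ^ n * (X ^ n + ∑ i ∈ Finset.range n, b i (γ • τ) * X ^ i) := by
    rw [mul_add, Finset.mul_sum, mul_pow]
    congr 1
    · ring
    · refine Finset.sum_congr rfl fun i hi ↦ ?_
      have hi' : i < n := Finset.mem_range.mp hi
      rw [hbγ i hi' τ, mul_pow]
      have : (u⁻¹) ^ n = (u⁻¹) ^ (n - i) * (u⁻¹) ^ i := by
        rw [← pow_add]; congr 1; omega
      rw [this]
      have h2 : (u⁻¹) ^ (n - i) * u ^ (n - i) = 1 := by
        rw [← mul_pow, inv_mul_cancel₀ hu0, one_pow]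
      calc b i τ * (X ^ i * u⁻¹ ^ i)
          = ((u⁻¹) ^ (n - i) * u ^ (n - i)) * (b i τ * (X ^ i * u⁻¹ ^ i)) := by rw [h2, one_mul]
        _ = u⁻¹ ^ (n - i) * u⁻¹ ^ i * (u ^ (n - i) * b i τ * X ^ i) := by ring
  rw [key, hFeq (γ • τ), mul_zero]

/-- **Converse step, function-level hypotheses.** `g, h : ℍ → ℂ` holomorphic, slash-invariant
under `Γ` (finite index in `SL(2, ℤ)`) of weights `w + k` and `w`, `h ≢ 0`, and `g / h` satisfies
a monic equation whose coefficients are level-one cusp forms (`b i` of weight `k * (n - i)`).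
Then `g / h` is a cusp form of weight `k` and level `Γ`. (No boundedness of `g, h` at the cusps
is needed.) -/
theorem exists_cuspForm_of_monic_eq_fun {Γ : Subgroup SL(2, ℤ)} [Γ.FiniteIndex]
    {k w m : ℤ} (hm : m = w + k) (g h : ℍ → ℂ) (hgd : MDiff g) (hhd : MDiff h)
    (hgΓ : ∀ γ ∈ Γ, g ∣[m] γ = g) (hhΓ : ∀ γ ∈ Γ, h ∣[w] γ = h) (hne : ∃ τ, h τ ≠ 0)
    {n : ℕ} (hn : 0 < n) (b : ℕ → ℍ → ℂ)
    (hb : ∀ i < n, ∃ (wi : ℤ) (B : CuspForm 𝒮ℒ wi), wi = k * ((n : ℤ) - i) ∧ ⇑B = b i)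
    (heq : ∀ τ, g τ ^ n + ∑ i ∈ Finset.range n, b i τ * g τ ^ i * h τ ^ (n - i) = 0) :
    ∃ F : CuspForm Γ k, ∀ τ, F τ * h τ = g τ := by
  have hbc : ∀ i < n, Continuous (b i) := by
    intro i hi
    obtain ⟨wi, B, -, hB⟩ := hb i hi
    rw [← hB]
    exact (CuspFormClass.holo B).continuous
  obtain ⟨F, hFd, hFh, hFeq⟩ := exists_mdiff_quotient hgd hhd hne hn b hbc heq
  -- transformation behaviour of the coefficients
  have hbγ : ∀ γ : SL(2, ℤ), ∀ i < n, ∀ τ : ℍ,
      b i (γ • τ) = (denom γ τ ^ k) ^ (n - i) * b i τ := by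
    intro γ i hi τ
    obtain ⟨wi, B, hwi, hB⟩ := hb i hi
    have hmem : (Matrix.SpecialLinearGroup.mapGL ℝ γ) ∈ 𝒮ℒ := ⟨γ, rfl⟩
    have h1 := SlashInvariantForm.slash_action_eqn'' B hmem τ
    rw [← hB]
    have h2 : (denom γ τ ^ k) ^ (n - i) = denom (Matrix.SpecialLinearGroup.mapGL ℝ γ) τ ^ wi := by
      rw [hwi, zpow_mul, ← zpow_natCast]
      congr 1
      have : i ≤ n := hi.le
      push_cast [Nat.cast_sub this]
      ring
    rw [h2]
    exact h1
  have hbz : ∀ i < n, IsZeroAtImInfty (b i) := by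
    intro i hi
    obtain ⟨wi, B, -, hB⟩ := hb i hi
    rw [← hB]
    exact CuspFormClass.zero_at_infty B
  refine ⟨{ toFun := F
            slash_action_eq' := ?_
            holo' := hFd
            zero_at_cusps' := ?_ }, hFh⟩
  · rintro γ ⟨γ', hγ', rfl⟩
    exact slash_eq_of_mul_eq hm γ' hFd hhd hne hFh (hgΓ γ' hγ') (hhΓ γ' hγ')
  · intro c hc
    rw [Subgroup.IsArithmetic.isCusp_iff_isCusp_SL2Z] at hc
    rw [OnePoint.isZeroAt_iff_forall_SL2Z hc]
    intro γ _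
    exact tendsto_zero_of_monic hn b (F ∣[k] γ) hbz
      (fun τ ↦ monic_eq_slash b γ (hbγ γ) hFeq τ)

/-- **Converse step.** If `g, h` are modular forms of level `Γ` (finite index in `SL(2, ℤ)`) of
weights `w + k` and `w`, `h ≠ 0`, and `g / h` satisfies a monic equation whose coefficients are
level-one cusp forms (`b i` of weight `k * (n - i)`), then `g / h` is a cusp form of weight `k`
and level `Γ`. -/
theorem exists_cuspForm_of_monic_eq {Γ : Subgroup SL(2, ℤ)} [Γ.FiniteIndex]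
    {k w m : ℤ} (hm : m = w + k) (g : ModularForm Γ m) (h : ModularForm Γ w) (hh : h ≠ 0)
    {n : ℕ} (hn : 0 < n) (b : ℕ → ℍ → ℂ)
    (hb : ∀ i < n, ∃ (wi : ℤ) (B : CuspForm 𝒮ℒ wi), wi = k * ((n : ℤ) - i) ∧ ⇑B = b i)
    (heq : ∀ τ, g τ ^ n + ∑ i ∈ Finset.range n, b i τ * g τ ^ i * h τ ^ (n - i) = 0) :
    ∃ F : CuspForm Γ k, ∀ τ, F τ * h τ = g τ := by
  have hne : ∃ τ, h τ ≠ 0 := by
    by_contra hcon
    push Not at hcon
    exact hh (ModularForm.ext hcon)
  refine exists_cuspForm_of_monic_eq_fun hm g h (ModularFormClass.holo g) (ModularFormClass.holo h)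
    (fun γ hγ ↦ ?_) (fun γ hγ ↦ ?_) hne hn b hb heq
  · exact SlashInvariantForm.slash_action_eqn g _ ⟨γ, hγ, rfl⟩
  · exact SlashInvariantForm.slash_action_eqn h _ ⟨γ, hγ, rfl⟩

end Fermat.Agent.S23.Conv

end
-- ===== PACK-END S23/ConversePkg.lean

-- ===== PACK-BEGIN S37/H217/NormRed.lean
section


/-!
# Norms commute with reduction (RED-A1), abstract form

`K ⊇ A` valuation subring, `π : A ↠ k`; `F/K`, `F_k/k` field extensions; `O ⊆ F` a valuation
subring containing `A`, with a surjective ring hom `ρ : O ↠ F_k` extending `π`; `t ∈ O` with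
`t̄ = ρ t` transcendental over `k`, and `[F : K(t)] = [F_k : k(t̄)] < ∞`.  Then for `y ∈ O`:

  `N_{F/K(t)} y ∈ O`  and  `ρ (N_{F/K(t)} y) = N_{F_k/k(t̄)} (ρ y)`.

(`norm_red`).  Intermediate results: `ρ` maps `O ∩ K(t)` into `k(t̄)` (`rho_mem_adjoin`),
`O ∩ K = A` (`mem_of_algebraMap_mem`), primitive scaling of polynomials (`exists_primitive`).
-/

namespace Fermat.Agent.S37.H217

open IntermediateField Polynomial

/-- An abstract Gauss reduction context. -/
structure RedCtx {K k : Type*} [Field K] [Field k] (A : ValuationSubring K) (π : A →+* k)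
    (F Fk : Type*) [Field F] [Field Fk] [Algebra K F] [Algebra k Fk] where
  π_surj : Function.Surjective π
  /-- the valuation ring of the function field -/
  O : ValuationSubring F
  /-- reduction of functions -/
  ρ : O →+* Fk
  ρ_surj : Function.Surjective ρ
  const_mem : ∀ a : A, algebraMap K F (a : K) ∈ O
  ρ_const : ∀ a : A, ρ ⟨algebraMap K F (a : K), const_mem a⟩ = algebraMap k Fk (π a)

namespace RedCtx

variable {K k : Type*} [Field K] [Field k] {A : ValuationSubring K} {π : A →+* k}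
  {F Fk : Type*} [Field F] [Field Fk] [Algebra K F] [Algebra k Fk] (G : RedCtx A π F Fk)

include G in
theorem π_eq_zero_iff (a : A) : π a = 0 ↔ a ∈ IsLocalRing.maximalIdeal A := by
  have h := IsLocalRing.eq_maximalIdeal (RingHom.ker_isMaximal_of_surjective π G.π_surj)
  rw [← h, RingHom.mem_ker]

theorem ρ_eq_zero_iff (f : G.O) : G.ρ f = 0 ↔ (f : F) ∈ G.O.nonunits := by
  have h := IsLocalRing.eq_maximalIdeal (RingHom.ker_isMaximal_of_surjective G.ρ G.ρ_surj)
  rw [ValuationSubring.coe_mem_nonunits_iff, ← h, RingHom.mem_ker]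

/-- the inclusion `A → O` -/
def const : A →+* G.O where
  toFun a := ⟨algebraMap K F (a : K), G.const_mem a⟩
  map_one' := Subtype.ext (by simp)
  map_mul' a b := Subtype.ext (by simp)
  map_zero' := Subtype.ext (by simp)
  map_add' a b := Subtype.ext (by simp)

@[simp] theorem coe_const (a : A) : ((G.const a : G.O) : F) = algebraMap K F (a : K) := rfl

theorem ρ_comp_const : G.ρ.comp G.const = (algebraMap k Fk).comp π :=
  RingHom.ext fun a => G.ρ_const a

/-- `O ∩ K = A`. -/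
theorem mem_of_algebraMap_mem {c : K} (hc : algebraMap K F c ∈ G.O) : c ∈ A := by
  by_contra hcA
  have hc0 : c ≠ 0 := fun h => hcA (h ▸ A.zero_mem)
  have hinv : c⁻¹ ∈ A := (A.mem_or_inv_mem c).resolve_left hcA
  have hnon : (⟨c⁻¹, hinv⟩ : A) ∈ IsLocalRing.maximalIdeal A := by
    rw [← ValuationSubring.coe_mem_nonunits_iff]
    exact (A.inv_mem_nonunits_iff).mpr (Or.inr hcA)
  have h1 : G.ρ (G.const ⟨c⁻¹, hinv⟩) = 0 := by
    have := G.ρ_const ⟨c⁻¹, hinv⟩
    rw [(G.π_eq_zero_iff _).mpr hnon, map_zero] at this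
    exact this
  have h2 : G.ρ (⟨algebraMap K F c, hc⟩ * G.const ⟨c⁻¹, hinv⟩) = 0 := by
    rw [map_mul, h1, mul_zero]
  have h3 : (⟨algebraMap K F c, hc⟩ * G.const ⟨c⁻¹, hinv⟩ : G.O) = 1 := by
    apply Subtype.ext
    show algebraMap K F c * algebraMap K F c⁻¹ = 1
    rw [← map_mul, mul_inv_cancel₀ hc0, map_one]
  rw [h3, map_one] at h2
  exact one_ne_zero h2

/-- evaluation at `t ∈ O` of polynomials over `A` -/
def evalO (t : G.O) : A[X] →+* G.O := Polynomial.eval₂RingHom G.const t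

theorem coe_evalO (t : G.O) (P : A[X]) :
    ((G.evalO t P : G.O) : F) = aeval (t : F) (P.map (algebraMap A K)) := by
  have h1 : ((G.evalO t P : G.O) : F) = G.O.subtype (Polynomial.eval₂ G.const t P) := rfl
  rw [h1, Polynomial.hom_eval₂, aeval_def, Polynomial.eval₂_map]
  rfl

theorem ρ_evalO (t : G.O) (P : A[X]) :
    G.ρ (G.evalO t P) = aeval (G.ρ t) (P.map π) := by
  have h1 : G.ρ (G.evalO t P) = G.ρ (Polynomial.eval₂ G.const t P) := rfl
  rw [h1, Polynomial.hom_eval₂, aeval_def, Polynomial.eval₂_map, G.ρ_comp_const]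

omit [Field Fk] [Algebra k Fk] [Algebra K F] [Field F] in
/-- Primitive scaling: a nonzero polynomial over `K` is a constant times a polynomial over `A`
with nonzero reduction. -/
theorem exists_primitive (π : A →+* k) (P : K[X]) (hP : P ≠ 0) :
    ∃ (c : K) (P₁ : A[X]), c ≠ 0 ∧ P = C c * P₁.map (algebraMap A K) ∧ P₁.map π ≠ 0 := by
  classical
  have hsupp : P.support.Nonempty := Polynomial.support_nonempty.mpr hP
  have hc0 : (fun i : P.support => P.coeff i) ≠ 0 := by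
    obtain ⟨i, hi⟩ := hsupp
    intro h
    have := congrFun h ⟨i, hi⟩
    exact (Polynomial.mem_support_iff.mp hi) this
  obtain ⟨m, hm0, hm⟩ := exists_scale A (fun i : P.support => P.coeff i) hc0
  have hcoeff : ∀ i, (C (P.coeff m)⁻¹ * P).coeff i ∈ A := by
    intro i
    rw [coeff_C_mul]
    by_cases hi : i ∈ P.support
    · have := hm ⟨i, hi⟩
      rw [div_eq_inv_mul] at this
      exact this
    · rw [Polynomial.notMem_support_iff.mp hi, mul_zero]
      exact A.zero_mem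
  have hl : (C (P.coeff m)⁻¹ * P) ∈ Polynomial.lifts (algebraMap A K) := by
    rw [Polynomial.lifts_iff_coeff_lifts]
    intro i
    exact ⟨⟨_, hcoeff i⟩, rfl⟩
  obtain ⟨P₁, hP₁⟩ := (Polynomial.mem_lifts _).mp hl
  refine ⟨P.coeff m, P₁, hm0, ?_, ?_⟩
  · rw [hP₁, ← mul_assoc, ← C_mul, mul_inv_cancel₀ hm0, C_1, one_mul]
  · intro h0
    have h1 : (P₁.map π).coeff m = 0 := by rw [h0, coeff_zero]
    rw [coeff_map] at h1
    have h2 : (P₁.coeff m : K) = 1 := by
      have := congrArg (fun Q : K[X] => Q.coeff m) hP₁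
      simp only [coeff_map, coeff_C_mul] at this
      rw [inv_mul_cancel₀ hm0] at this
      exact this
    have h3 : P₁.coeff m = 1 := Subtype.ext h2
    rw [h3, map_one] at h1
    exact one_ne_zero h1

variable {t : F} (ht : t ∈ G.O) (htr : Transcendental k (G.ρ ⟨t, ht⟩))

include htr in
/-- The value at `t` of a polynomial over `A` with nonzero reduction is a unit of `O`. -/
theorem evalO_notMem_nonunits {P : A[X]} (hP : P.map π ≠ 0) :
    ((G.evalO ⟨t, ht⟩ P : G.O) : F) ∉ G.O.nonunits := by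
  rw [← G.ρ_eq_zero_iff, G.ρ_evalO]
  intro h
  exact hP (transcendental_iff.mp htr _ h)

include htr in
/-- `ρ` maps `O ∩ K(t)` into `k(t̄)`. -/
theorem rho_mem_adjoin (f : G.O) (hf : (f : F) ∈ K⟮t⟯) : G.ρ f ∈ k⟮G.ρ ⟨t, ht⟩⟯ := by
  obtain ⟨r, s, hrs⟩ := (mem_adjoin_simple_iff K (f : F)).mp hf
  by_cases hf0 : (f : F) = 0
  · have : f = 0 := Subtype.ext hf0
    rw [this, map_zero]
    exact zero_mem _
  have hr0 : r ≠ 0 := by
    rintro rfl
    rw [map_zero, zero_div] at hrs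
    exact hf0 hrs
  have hs0 : s ≠ 0 := by
    rintro rfl
    rw [map_zero, div_zero] at hrs
    exact hf0 hrs
  obtain ⟨cr, r₁, hcr, hr, hr₁⟩ := exists_primitive π r hr0
  obtain ⟨cs, s₁, hcs, hs, hs₁⟩ := exists_primitive π s hs0
  set R₁ : G.O := G.evalO ⟨t, ht⟩ r₁ with hR₁
  set S₁ : G.O := G.evalO ⟨t, ht⟩ s₁ with hS₁
  have hRu : (R₁ : F) ∉ G.O.nonunits := G.evalO_notMem_nonunits ht htr hr₁
  have hSu : (S₁ : F) ∉ G.O.nonunits := G.evalO_notMem_nonunits ht htr hs₁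
  have hRρ : G.ρ R₁ ≠ 0 := fun h => hRu ((G.ρ_eq_zero_iff _).mp h)
  have hSρ : G.ρ S₁ ≠ 0 := fun h => hSu ((G.ρ_eq_zero_iff _).mp h)
  have hR0 : (R₁ : F) ≠ 0 := fun h => hRu (h ▸ G.O.nonunits.zero_mem)
  have hS0 : (S₁ : F) ≠ 0 := fun h => hSu (h ▸ G.O.nonunits.zero_mem)
  -- `f * S₁ = c * R₁` with `c = cr / cs`
  have hR : aeval t r = algebraMap K F cr * (R₁ : F) := by
    rw [hR₁, G.coe_evalO, hr, map_mul, aeval_C]
  have hS : aeval t s = algebraMap K F cs * (S₁ : F) := by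
    rw [hS₁, G.coe_evalO, hs, map_mul, aeval_C]
  have hcs' : algebraMap K F cs ≠ 0 := (_root_.map_ne_zero _).mpr hcs
  have hfc : algebraMap K F (cr / cs) = (f : F) * (S₁ : F) * (R₁ : F)⁻¹ := by
    rw [hrs, hR, hS, map_div₀]
    field_simp
  -- `R₁⁻¹ ∈ O`
  have hRinv : (R₁ : F)⁻¹ ∈ G.O := by
    rcases G.O.mem_or_inv_mem (R₁ : F) with h | h
    · by_contra hn
      apply hRu
      rw [ValuationSubring.mem_nonunits_iff_or]
      exact Or.inr hn
    · exact h
  have hcO : algebraMap K F (cr / cs) ∈ G.O := by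
    rw [hfc]
    exact G.O.mul_mem _ _ (G.O.mul_mem _ _ f.2 S₁.2) hRinv
  have hcA : cr / cs ∈ A := G.mem_of_algebraMap_mem hcO
  -- `f * S₁ = const c * R₁` in `O`
  have hmul : f * S₁ = G.const ⟨cr / cs, hcA⟩ * R₁ := by
    apply Subtype.ext
    show (f : F) * (S₁ : F) = algebraMap K F (cr / cs) * (R₁ : F)
    rw [hfc]
    field_simp
  have hρ := congrArg G.ρ hmul
  rw [map_mul, map_mul] at hρ
  have hρf : G.ρ f = G.ρ (G.const ⟨cr / cs, hcA⟩) * G.ρ R₁ * (G.ρ S₁)⁻¹ := by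
    rw [← hρ]
    field_simp
  rw [hρf]
  have h1 : G.ρ (G.const ⟨cr / cs, hcA⟩) ∈ k⟮G.ρ ⟨t, ht⟩⟯ := by
    have := G.ρ_const ⟨cr / cs, hcA⟩
    have h' : G.ρ (G.const ⟨cr / cs, hcA⟩) = algebraMap k Fk (π ⟨cr / cs, hcA⟩) := this
    rw [h']
    exact IntermediateField.algebraMap_mem _ _
  have h2 : ∀ P : A[X], G.ρ (G.evalO ⟨t, ht⟩ P) ∈ k⟮G.ρ ⟨t, ht⟩⟯ := by
    intro P
    rw [G.ρ_evalO]
    exact (mem_adjoin_simple_iff k _).mpr ⟨P.map π, 1, by simp⟩
  exact mul_mem (mul_mem h1 (h2 r₁)) (inv_mem (h2 s₁))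

/-- `V₀ = O ∩ K(t)`, a valuation subring of `K(t)`. -/
def V₀ (t : F) : ValuationSubring K⟮t⟯ := G.O.comap (algebraMap K⟮t⟯ F)

theorem valExtends (t : F) : ValExtends (G.V₀ t) G.O := fun _ => Iff.rfl

/-- the inclusion `V₀ → O` -/
def incl (t : F) : G.V₀ t →+* G.O where
  toFun a := ⟨algebraMap K⟮t⟯ F (a : K⟮t⟯), a.2⟩
  map_one' := Subtype.ext (by simp)
  map_mul' a b := Subtype.ext (by simp)
  map_zero' := Subtype.ext (by simp)
  map_add' a b := Subtype.ext (by simp)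

@[simp] theorem coe_incl (t : F) (a : G.V₀ t) :
    ((G.incl t a : G.O) : F) = ((a : K⟮t⟯) : F) := rfl

/-- the reduction `ρ₀ : O ∩ K(t) → k(t̄)` -/
def ρ₀ : G.V₀ t →+* k⟮G.ρ ⟨t, ht⟩⟯ :=
  RingHom.codRestrict (G.ρ.comp (G.incl t)) k⟮G.ρ ⟨t, ht⟩⟯
    (fun f => G.rho_mem_adjoin ht htr (G.incl t f) (by rw [coe_incl]; exact (f : K⟮t⟯).2))

theorem coe_ρ₀ (a : G.V₀ t) : ((G.ρ₀ ht htr a : k⟮G.ρ ⟨t, ht⟩⟯) : Fk) = G.ρ (G.incl t a) := rfl

include htr in
/-- **Norms commute with reduction** (RED-A1). -/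
theorem norm_red [FiniteDimensional K⟮t⟯ F] [FiniteDimensional k⟮G.ρ ⟨t, ht⟩⟯ Fk]
    (hfr : Module.finrank K⟮t⟯ F = Module.finrank k⟮G.ρ ⟨t, ht⟩⟯ Fk) (y : G.O) :
    ∃ h : ((Algebra.norm K⟮t⟯ (y : F) : K⟮t⟯) : F) ∈ G.O,
      G.ρ ⟨_, h⟩ = ((Algebra.norm k⟮G.ρ ⟨t, ht⟩⟯ (G.ρ y) : k⟮G.ρ ⟨t, ht⟩⟯) : Fk) := by
  classical
  set b₁ := Module.finBasis k⟮G.ρ ⟨t, ht⟩⟯ Fk with hb₁def
  choose e he using fun i => G.ρ_surj (b₁ i)
  have hR : ResidIndep (G.V₀ t) G.O (fun i => ((e i : G.O) : F)) := by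
    intro c hc hsum
    -- the element `s = ∑ incl (c i) * e i` of `O`
    set s : G.O := ∑ i, G.incl t ⟨c i, hc i⟩ * e i with hs
    have hsF : (s : F) = ∑ i, c i • ((e i : G.O) : F) := by
      rw [hs, ← ValuationSubring.subtype_apply, map_sum]
      refine Finset.sum_congr rfl fun i _ => ?_
      rw [map_mul, Algebra.smul_def]
      rfl
    have hρs : G.ρ s = 0 := by
      rw [G.ρ_eq_zero_iff, hsF]
      exact hsum
    have hρs' : ∑ i, G.ρ₀ ht htr ⟨c i, hc i⟩ • b₁ i = 0 := by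
      rw [← hρs, hs, map_sum]
      refine Finset.sum_congr rfl fun i _ => ?_
      rw [map_mul, he, Algebra.smul_def]
      rfl
    have hzero := Fintype.linearIndependent_iff.mp b₁.linearIndependent _ hρs'
    intro i
    have h1 : G.ρ (G.incl t ⟨c i, hc i⟩) = 0 := by
      have := congrArg (fun z : k⟮G.ρ ⟨t, ht⟩⟯ => (z : Fk)) (hzero i)
      simpa [coe_ρ₀] using this
    rw [G.ρ_eq_zero_iff, coe_incl] at h1
    exact ((G.valExtends t).mem_nonunits_iff (c i)).mp h1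
  have : Nonempty (Fin (Module.finrank k⟮G.ρ ⟨t, ht⟩⟯ Fk)) :=
    ⟨⟨0, Module.finrank_pos⟩⟩
  obtain ⟨b, hb⟩ := exists_basis_of_residIndep hR (by rw [Fintype.card_fin, hfr])
  have hbi : ∀ i, b i = ((e i : G.O) : F) := fun i => congrFun hb i
  have hR' : ResidIndep (G.V₀ t) G.O b := by rw [hb]; exact hR
  have hbO : ∀ i, b i ∈ G.O := fun i => by rw [hbi]; exact (e i).2
  have key := map_norm_eq_norm_map (G.valExtends t) b hR' hbO (G.ρ₀ ht htr) G.ρ
    (fun a => rfl) b₁ (fun i => by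
      have : (⟨b i, hbO i⟩ : G.O) = e i := Subtype.ext (hbi i)
      rw [this, he]) y
  refine ⟨norm_mem (G.valExtends t) b hR' hbO y.2, ?_⟩
  have := congrArg (fun z : k⟮G.ρ ⟨t, ht⟩⟯ => (z : Fk)) key
  exact this

include htr in
/-- **Traces commute with reduction.** -/
theorem trace_red [FiniteDimensional K⟮t⟯ F] [FiniteDimensional k⟮G.ρ ⟨t, ht⟩⟯ Fk]
    (hfr : Module.finrank K⟮t⟯ F = Module.finrank k⟮G.ρ ⟨t, ht⟩⟯ Fk) (y : G.O) :
    ∃ h : ((Algebra.trace K⟮t⟯ F (y : F) : K⟮t⟯) : F) ∈ G.O,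
      G.ρ ⟨_, h⟩ = ((Algebra.trace k⟮G.ρ ⟨t, ht⟩⟯ Fk (G.ρ y) : k⟮G.ρ ⟨t, ht⟩⟯) : Fk) := by
  classical
  set b₁ := Module.finBasis k⟮G.ρ ⟨t, ht⟩⟯ Fk with hb₁def
  choose e he using fun i => G.ρ_surj (b₁ i)
  have hR : ResidIndep (G.V₀ t) G.O (fun i => ((e i : G.O) : F)) := by
    intro c hc hsum
    set s : G.O := ∑ i, G.incl t ⟨c i, hc i⟩ * e i with hs
    have hsF : (s : F) = ∑ i, c i • ((e i : G.O) : F) := by
      rw [hs, ← ValuationSubring.subtype_apply, map_sum]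
      refine Finset.sum_congr rfl fun i _ => ?_
      rw [map_mul, Algebra.smul_def]
      rfl
    have hρs : G.ρ s = 0 := by
      rw [G.ρ_eq_zero_iff, hsF]
      exact hsum
    have hρs' : ∑ i, G.ρ₀ ht htr ⟨c i, hc i⟩ • b₁ i = 0 := by
      rw [← hρs, hs, map_sum]
      refine Finset.sum_congr rfl fun i _ => ?_
      rw [map_mul, he, Algebra.smul_def]
      rfl
    have hzero := Fintype.linearIndependent_iff.mp b₁.linearIndependent _ hρs'
    intro i
    have h1 : G.ρ (G.incl t ⟨c i, hc i⟩) = 0 := by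
      have := congrArg (fun z : k⟮G.ρ ⟨t, ht⟩⟯ => (z : Fk)) (hzero i)
      simpa [coe_ρ₀] using this
    rw [G.ρ_eq_zero_iff, coe_incl] at h1
    exact ((G.valExtends t).mem_nonunits_iff (c i)).mp h1
  have : Nonempty (Fin (Module.finrank k⟮G.ρ ⟨t, ht⟩⟯ Fk)) :=
    ⟨⟨0, Module.finrank_pos⟩⟩
  obtain ⟨b, hb⟩ := exists_basis_of_residIndep hR (by rw [Fintype.card_fin, hfr])
  have hbi : ∀ i, b i = ((e i : G.O) : F) := fun i => congrFun hb i
  have hR' : ResidIndep (G.V₀ t) G.O b := by rw [hb]; exact hR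
  have hbO : ∀ i, b i ∈ G.O := fun i => by rw [hbi]; exact (e i).2
  have key := map_trace_intMatrix_eq_trace_map (G.valExtends t) b hR' hbO (G.ρ₀ ht htr) G.ρ
    (fun a => rfl) b₁ (fun i => by
      have : (⟨b i, hbO i⟩ : G.O) = e i := Subtype.ext (hbi i)
      rw [this, he]) y
  have htr' := trace_eq_trace_intMatrix (G.valExtends t) b hR' hbO y
  have hmem : ((Algebra.trace K⟮t⟯ F (y : F) : K⟮t⟯) : F) ∈ G.O := by
    rw [htr']
    exact ((intMatrix (G.valExtends t) b hR' hbO y).trace).2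
  refine ⟨hmem, ?_⟩
  have h2 : (⟨((Algebra.trace K⟮t⟯ F (y : F) : K⟮t⟯) : F), hmem⟩ : G.O) =
      G.incl t (intMatrix (G.valExtends t) b hR' hbO y).trace := by
    apply Subtype.ext
    rw [coe_incl, ← htr']
  rw [h2, ← key]
  rfl

end RedCtx

end Fermat.Agent.S37.H217

end
-- ===== PACK-END S37/H217/NormRed.lean

-- ===== PACK-BEGIN S37/H217/Integral.lean
section


/-!
# Block ALG, lemma L2 (q-expansion principle from the degree equality)

Setting of `Lattice.lean`: `V ⊆ L` lies over `V₀ ⊆ L₀`, `b` a basis of `L/L₀` consisting of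
elements of `V`, residually independent.

* `minpoly_coeff_mem`: for `y ∈ V` the minimal polynomial of `y` over `L₀` has coefficients in
  `V₀`.
* `isIntegral_inf_of_isIntegral`: if `R ⊆ L₀` is an integrally closed domain with fraction field
  `L₀` and `y ∈ V` is integral over `R`, then `y` is integral over `V₀ ∩ R`.
  (Application: `R = K[x]`, `V₀` = Gauss valuation ring, `V₀ ∩ R = A[x]`: the integral closure
  of `A[x]` in `L` is `V ∩` (integral closure of `K[x]`).)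
* `exists_scalar_of_mem_nonunits`: if every nonzero element of `𝔪_{V₀}` is divisible in `V₀` by a
  "constant" of `𝔪_{V₀}` (predicate `P`), then every nonzero `y ∈ 𝔪_V` is divisible in `V` by
  such a constant.  (Application: QEP, `y ∈ B`, `ρ y = 0` implies `y ∈ 𝔪_A B`.)
-/

namespace Fermat.Agent.S37.H217

open Polynomial

section Integral

variable {L₀ L : Type*} [Field L₀] [Field L] [Algebra L₀ L]
variable {V₀ : ValuationSubring L₀} {V : ValuationSubring L}
variable {ι : Type*} [Fintype ι] [DecidableEq ι]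

theorem aeval_charpoly_intMatrix [FiniteDimensional L₀ L] (h : ValExtends V₀ V)
    (b : Module.Basis ι L₀ L) (hR : ResidIndep V₀ V b) (hb : ∀ i, b i ∈ V) (y : V) :
    aeval (y : L) ((intMatrix h b hR hb y).charpoly.map (algebraMap V₀ L₀)) = 0 := by
  rw [← charpoly_eq_map_charpoly_intMatrix h b hR hb y]
  have h1 := LinearMap.aeval_self_charpoly (Algebra.lmul L₀ L (y : L))
  rw [aeval_algHom_apply] at h1
  have h2 := congrArg (fun f : Module.End L₀ L => f 1) h1
  simpa using h2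

/-- For `y ∈ V`, the minimal polynomial of `y` over `L₀` has coefficients in `V₀`. -/
theorem minpoly_coeff_mem [FiniteDimensional L₀ L] (h : ValExtends V₀ V)
    (b : Module.Basis ι L₀ L) (hR : ResidIndep V₀ V b) (hb : ∀ i, b i ∈ V) (y : V) (i : ℕ) :
    (minpoly L₀ (y : L)).coeff i ∈ V₀ := by
  have hdvd : minpoly L₀ (y : L) ∣ (intMatrix h b hR hb y).charpoly.map (algebraMap V₀ L₀) :=
    minpoly.dvd L₀ (y : L) (aeval_charpoly_intMatrix h b hR hb y)
  have hmon : (minpoly L₀ (y : L)).Monic := minpoly.monic (IsIntegral.of_finite L₀ (y : L))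
  have hl := integralClosure.mem_lifts_of_monic_of_dvd_map L₀
    (Matrix.charpoly_monic (intMatrix h b hR hb y)) hmon hdvd
  rw [Polynomial.lifts_iff_coeff_lifts] at hl
  obtain ⟨c, hc⟩ := hl i
  have hint : IsIntegral V₀ ((minpoly L₀ (y : L)).coeff i) := by
    rw [← hc]
    exact c.2
  obtain ⟨a, ha⟩ := IsIntegrallyClosed.isIntegral_iff.mp hint
  rw [← ha]
  exact a.2

/-- If `y ∈ V` is integral over an integrally closed domain `R` with fraction field `L₀`, then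
the coefficients of its minimal polynomial over `R` land in `V₀`. -/
theorem minpoly_coeff_mem_of_isIntegral [FiniteDimensional L₀ L] (h : ValExtends V₀ V)
    (b : Module.Basis ι L₀ L) (hR : ResidIndep V₀ V b) (hb : ∀ i, b i ∈ V)
    {R : Type*} [CommRing R] [IsDomain R] [Algebra R L₀] [IsFractionRing R L₀]
    [IsIntegrallyClosed R] [Algebra R L] [IsScalarTower R L₀ L]
    (y : V) (hy : IsIntegral R (y : L)) (i : ℕ) :
    algebraMap R L₀ ((minpoly R (y : L)).coeff i) ∈ V₀ := by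
  have h1 := minpoly_coeff_mem h b hR hb y i
  rwa [minpoly.isIntegrallyClosed_eq_field_fractions' L₀ hy, coeff_map] at h1

/-- If `y ∈ V` is integral over an integrally closed domain `R` with fraction field `L₀`, then
`y` is integral over the subring `V₀ ∩ R` of `L₀`. -/
theorem isIntegral_inf_of_isIntegral [FiniteDimensional L₀ L] (h : ValExtends V₀ V)
    (b : Module.Basis ι L₀ L) (hR : ResidIndep V₀ V b) (hb : ∀ i, b i ∈ V)
    {R : Type*} [CommRing R] [IsDomain R] [Algebra R L₀] [IsFractionRing R L₀]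
    [IsIntegrallyClosed R] [Algebra R L] [IsScalarTower R L₀ L]
    (y : V) (hy : IsIntegral R (y : L)) :
    IsIntegral (↥(V₀.toSubring ⊓ (algebraMap R L₀).range)) (y : L) := by
  set S : Subring L₀ := V₀.toSubring ⊓ (algebraMap R L₀).range with hS
  have hmin : minpoly L₀ (y : L) = (minpoly R (y : L)).map (algebraMap R L₀) :=
    minpoly.isIntegrallyClosed_eq_field_fractions' L₀ hy
  have hl : minpoly L₀ (y : L) ∈ Polynomial.lifts (algebraMap S L₀) := by
    rw [Polynomial.lifts_iff_coeff_lifts]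
    intro i
    refine ⟨⟨(minpoly L₀ (y : L)).coeff i, ?_, ?_⟩, rfl⟩
    · exact minpoly_coeff_mem h b hR hb y i
    · rw [hmin, coeff_map]
      exact ⟨_, rfl⟩
  have hmon : (minpoly L₀ (y : L)).Monic := minpoly.monic (IsIntegral.of_finite L₀ (y : L))
  obtain ⟨q, hq, -, hqm⟩ := Polynomial.lifts_and_degree_eq_and_monic hl hmon
  refine ⟨q, hqm, ?_⟩
  have h1 : aeval (y : L) (q.map (algebraMap S L₀)) = 0 := by
    rw [hq]; exact minpoly.aeval L₀ (y : L)
  rw [aeval_map_algebraMap] at h1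
  exact h1

omit [DecidableEq ι] in
/-- QEP, abstract form: divisibility of elements of `𝔪_V` by constants. -/
theorem exists_scalar_of_mem_nonunits (h : ValExtends V₀ V)
    (b : Module.Basis ι L₀ L) (hR : ResidIndep V₀ V b) (hb : ∀ i, b i ∈ V)
    (P : L₀ → Prop)
    (hgen : ∀ c ∈ V₀.nonunits, c ≠ 0 → ∃ a : L₀, a ≠ 0 ∧ a ∈ V₀.nonunits ∧ P a ∧ c / a ∈ V₀)
    {y : L} (hy : y ∈ V.nonunits) (hy0 : y ≠ 0) :
    ∃ a : L₀, a ≠ 0 ∧ a ∈ V₀.nonunits ∧ P a ∧ (algebraMap L₀ L a)⁻¹ * y ∈ V := by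
  have hc0 : (fun i => b.repr y i) ≠ 0 := by
    intro h0
    apply hy0
    rw [← b.sum_repr y]
    refine Finset.sum_eq_zero fun i _ => ?_
    have := congrFun h0 i
    simp only [Pi.zero_apply] at this
    rw [this, zero_smul]
  obtain ⟨m, hm0, hm⟩ := exists_scale V₀ (fun i => b.repr y i) hc0
  obtain ⟨a, ha0, ha, hPa, hdiv⟩ := hgen _ (repr_mem_nonunits_of_mem h b hR hy m) hm0
  refine ⟨a, ha0, ha, hPa, ?_⟩
  have hsum : (algebraMap L₀ L a)⁻¹ * y = ∑ i, algebraMap L₀ L (b.repr y i / a) * b i := by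
    conv_lhs => rw [← b.sum_repr y]
    rw [Finset.mul_sum]
    refine Finset.sum_congr rfl fun i _ => ?_
    rw [Algebra.smul_def, ← mul_assoc, ← map_inv₀, ← map_mul, div_eq_inv_mul]
  rw [hsum]
  refine V.toSubring.sum_mem fun i _ => ?_
  refine V.mul_mem _ _ ((h _).mpr ?_) (hb i)
  have : b.repr y i / a = b.repr y i / b.repr y m * (b.repr y m / a) := by
    field_simp
  rw [this]
  exact V₀.mul_mem _ _ (hm i) hdiv

end Integral

end Fermat.Agent.S37.H217

end
-- ===== PACK-END S37/H217/Integral.lean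

-- ===== PACK-BEGIN S18/H213/Tame.lean
section



/-!
# S18 / b2.3 — the tame discriminant bound (helper213)

`O` a PID, `π` a prime element with residue field `κ = O/π` of characteristic zero, `C` a Dedekind
domain, finite and torsion-free over `O`, with `O`-basis `b` (`n` elements).  Then

  `ord_π (disc b) ≤ n - dim_κ (C/πC)_red`,

stated as: `r ≤ dim_κ (C/πC)_red → ¬ π ^ (n - r + 1) ∣ disc b`  (`tame_discr_bound`).

Proof.  For a prime `P ∣ πC`, `πC = P ^ e * Q`, the idempotent of `C/πC` cut out by `Q` has trace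
`e f ≠ 0` in `κ`, hence `P ^ e ∤ 𝔇` (Mathlib `not_dvd_differentIdeal_of_intTrace_not_mem`).
Ideal arithmetic then gives `s ∉ (π)` with `s π C^∨ ⊆ rad(πC)`, i.e. a matrix `H` over `O` with
`H * G = s π • 1` (`G` the Gram matrix of `b`) whose rows reduce into the coordinates of
`rad(πC)/πC`, a subspace of codimension `dim (C/πC)_red`.  The determinant–rank lemma
(`DetRank.lean`) gives `π ^ r ∣ det H`, and `det H * disc b = (s π) ^ n`.
-/

set_option autoImplicit false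
set_option linter.style.haveILetI false
set_option linter.unusedSectionVars false

open Module
open scoped nonZeroDivisors

namespace Fermat.Agent.S18.H213

attribute [local instance] FractionRing.liftAlgebra FractionRing.isScalarTower_liftAlgebra
  Ideal.Quotient.field

/-- The trace of a nonzero idempotent of a finite-dimensional algebra over a field of
characteristic zero is nonzero. -/
theorem trace_idempotent_ne_zero {κ V : Type*} [Field κ] [CharZero κ] [CommRing V] [Algebra κ V]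
    [Module.Finite κ V] (x : V) (hx : x * x = x) (hx0 : x ≠ 0) : Algebra.trace κ V x ≠ 0 := by
  rw [Algebra.trace_apply]
  have hid : IsIdempotentElem (Algebra.lmul κ V x) := by
    show Algebra.lmul κ V x * Algebra.lmul κ V x = Algebra.lmul κ V x
    rw [← map_mul, hx]
  have hproj := LinearMap.IsIdempotentElem.isProj_range _ hid
  rw [hproj.trace]
  have hpos : 0 < finrank κ (LinearMap.range (Algebra.lmul κ V x)) := by
    rw [Module.finrank_pos_iff_exists_ne_zero]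
    refine ⟨⟨x, ⟨1, by simp⟩⟩, ?_⟩
    intro h
    exact hx0 (congrArg Subtype.val h)
  exact_mod_cast hpos.ne'

section
variable {O C : Type*} [CommRing O] [IsDomain O] [IsPrincipalIdealRing O]
    [CommRing C] [IsDedekindDomain C] [Algebra O C] [Module.Finite O C] [IsTorsionFree O C]
    {π : O}

/-- **Tameness** (residue characteristic zero): if `π C = P ^ e * Q` with `P ^ e` and `Q`
comaximal and `P ^ e ≠ ⊤`, then `P ^ e` does not divide the different. -/
theorem not_pow_dvd_differentIdeal (hπ : Prime π) [CharZero (O ⧸ Ideal.span {π})]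
    [Algebra.IsSeparable (FractionRing O) (FractionRing C)]
    (Pe Q : Ideal C) (hPQ : Pe * Q = (Ideal.span {π}).map (algebraMap O C))
    (hcop : Pe ⊔ Q = ⊤) (hPe : Pe ≠ ⊤) : ¬ Pe ∣ differentIdeal O C := by
  have hmax : (Ideal.span {π}).IsMaximal :=
    PrincipalIdealRing.isMaximal_of_irreducible hπ.irreducible
  obtain ⟨a, ha, x, hxQ, hax⟩ := Submodule.mem_sup.mp (hcop ▸ Submodule.mem_top : (1 : C) ∈ Pe ⊔ Q)
  refine not_dvd_differentIdeal_of_intTrace_not_mem O Pe Q hPQ x hxQ ?_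
  rw [← Ideal.Quotient.eq_zero_iff_mem, ← Algebra.trace_quotient_eq_of_isDedekindDomain]
  apply trace_idempotent_ne_zero
  · rw [← map_mul, Ideal.Quotient.eq, ← hPQ]
    have : x * x - x = -(a * x) := by
      have : a = 1 - x := by rw [← hax]; ring
      rw [this]; ring
    rw [this]
    exact neg_mem (Ideal.mul_mem_mul ha hxQ)
  · intro h
    rw [Ideal.Quotient.eq_zero_iff_mem, ← hPQ] at h
    have hxP : x ∈ Pe := (Ideal.mul_le_left : Pe * Q ≤ Pe) h
    apply hPe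
    rw [Ideal.eq_top_iff_one, ← hax]
    exact add_mem ha hxP

/-- Key ideal arithmetic. -/
theorem exists_ideal_le_radical (hπ : Prime π) [CharZero (O ⧸ Ideal.span {π})]
    [Algebra.IsSeparable (FractionRing O) (FractionRing C)] :
    ∃ (I' : Ideal C) (s : O), ¬ π ∣ s ∧ I' ≤ ((Ideal.span {π}).map (algebraMap O C)).radical ∧
      algebraMap O C (s * π) ∈ differentIdeal O C * I' := by
  have hinj : Function.Injective (algebraMap O C) := FaithfulSMul.algebraMap_injective O C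
  set pC := (Ideal.span {π}).map (algebraMap O C) with hpC
  set D := differentIdeal O C with hD
  have hD0 : D ≠ ⊥ := differentIdeal_ne_bot
  have hπC : algebraMap O C π ∈ pC := Ideal.mem_map_of_mem _ (Ideal.mem_span_singleton_self π)
  have hpC0 : pC ≠ ⊥ := by
    intro h
    rw [h, Ideal.mem_bot] at hπC
    exact hπ.ne_zero (hinj (by rw [hπC, map_zero]))
  set a := D ⊔ pC with ha
  have ha0 : a ≠ ⊥ := fun h => hD0 (le_bot_iff.mp (h ▸ le_sup_left))
  obtain ⟨D', hD'⟩ : a ∣ D := Ideal.dvd_iff_le.mpr le_sup_left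
  obtain ⟨I', hI'⟩ : a ∣ pC := Ideal.dvd_iff_le.mpr le_sup_right
  have hcop : D' ⊔ I' = ⊤ := by
    have h1 : a * (D' ⊔ I') = a * ⊤ := by
      rw [Ideal.mul_sup, ← hD', ← hI', Ideal.mul_top]
    exact mul_left_cancel₀ ha0 h1
  -- key lemma
  have key : ∀ P : Ideal C, P.IsPrime → pC ≤ P → I' ≤ P := by
    intro P hP hle
    by_contra hnot
    have hPmax : P.IsMaximal := hP.isMaximal (ne_bot_of_le_ne_bot hpC0 hle)
    obtain ⟨Q, hPQ, hfac⟩ := Ideal.eq_prime_pow_mul_coprime hpC0 P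
    set e := Multiset.count P (UniqueFactorizationMonoid.normalizedFactors pC)
    have h1 : P ^ e ⊔ Q = ⊤ := Ideal.pow_sup_eq_top hPQ
    have h2 : P ^ e ≠ ⊤ := by
      intro h
      rw [h, Ideal.top_mul] at hfac
      rw [← hfac, sup_eq_left.mpr hle] at hPQ
      exact hPmax.ne_top hPQ
    have h3 := not_pow_dvd_differentIdeal hπ (P ^ e) Q hfac.symm h1 h2
    apply h3
    have h4 : P ^ e ∣ a := by
      have hc : IsCoprime (P ^ e) I' := by
        rw [Ideal.isCoprime_iff_sup_eq]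
        apply Ideal.pow_sup_eq_top
        by_contra hne
        apply hnot
        have := hPmax.eq_of_le hne le_sup_left
        rw [this]
        exact le_sup_right
      refine hc.dvd_of_dvd_mul_right ?_
      rw [← hI']
      exact ⟨Q, hfac⟩
    exact h4.trans ⟨D', hD'⟩
  -- the element `s`
  have hs : ∃ s : O, ¬ π ∣ s ∧ algebraMap O C s ∈ D' := by
    by_contra hcon
    push Not at hcon
    have hcomap : Ideal.comap (algebraMap O C) D' ≤ Ideal.span {π} := by
      intro s hs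
      rw [Ideal.mem_span_singleton]
      by_contra hdiv
      exact hcon s hdiv hs
    haveI : (Ideal.span {π}).IsPrime := (Ideal.span_singleton_prime hπ.ne_zero).mpr hπ
    obtain ⟨Q, hQD, hQp, hQc⟩ :=
      Ideal.exists_ideal_over_prime_of_isIntegral (Ideal.span {π}) D' hcomap
    have hle : pC ≤ Q := by
      rw [hpC, Ideal.map_le_iff_le_comap, hQc]
    have := key Q hQp hle
    have htop : (⊤ : Ideal C) ≤ Q := by
      rw [← hcop]
      exact sup_le hQD this
    exact hQp.ne_top (top_le_iff.mp htop)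
  obtain ⟨s, hsπ, hsD⟩ := hs
  refine ⟨I', s, hsπ, ?_, ?_⟩
  · rw [Ideal.radical_eq_sInf]
    exact le_sInf fun P hP => key P hP.2 hP.1
  · rw [map_mul, hD', mul_comm a D', mul_assoc, ← hI']
    exact Ideal.mul_mem_mul hsD hπC

/-- Multiples of the trace-dual basis land in the radical of `π C`. -/
theorem exists_dual_multiple (hπ : Prime π) [CharZero (O ⧸ Ideal.span {π})]
    {ι : Type*} [Fintype ι] [DecidableEq ι] (b : Basis ι O C) :
    ∃ (s : O) (z : ι → C), ¬ π ∣ s ∧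
      (∀ j, z j ∈ ((Ideal.span {π}).map (algebraMap O C)).radical) ∧
      ∀ j i, Algebra.trace O C (z j * b i) = if i = j then s * π else 0 := by
  haveI : CharZero O := RingHom.charZero (Ideal.Quotient.mk (Ideal.span {π}))
  let K := FractionRing O
  let L := FractionRing C
  haveI : CharZero K := charZero_of_injective_algebraMap (IsFractionRing.injective O K)
  haveI : IsLocalization (Algebra.algebraMapSubmonoid C O⁰) L :=
    IsIntegralClosure.isLocalization _ K _ _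
  haveI : FiniteDimensional K L := .of_isLocalization O C O⁰
  haveI : Algebra.IsSeparable K L := inferInstance
  obtain ⟨I', s, hsπ, hI', hmem⟩ := exists_ideal_le_radical (C := C) hπ
  let bL : Basis ι K L := b.localizationLocalization K O⁰ L
  have hspan := Submodule.traceDual_span_of_basis O (1 : Submodule C L) bL
    (by rw [Basis.localizationLocalization_span K O⁰ L]; ext; simp)
  have hz : ∀ j, ∃ z ∈ I', algebraMap C L z =
      algebraMap C L (algebraMap O C (s * π)) * bL.traceDual j := by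
    intro j
    have hdual : bL.traceDual j ∈ FractionalIdeal.dual O K (1 : FractionalIdeal C⁰ L) := by
      rw [← FractionalIdeal.mem_coe, FractionalIdeal.coe_dual_one]
      have : bL.traceDual j ∈ (Submodule.traceDual O K (1 : Submodule C L)).restrictScalars O := by
        rw [hspan]; exact Submodule.subset_span ⟨j, rfl⟩
      exact this
    have h1 : algebraMap C L (algebraMap O C (s * π)) ∈
        ((differentIdeal O C * I' : Ideal C) : FractionalIdeal C⁰ L) :=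
      (FractionalIdeal.mem_coeIdeal _).mpr ⟨_, hmem, rfl⟩
    have h2 := FractionalIdeal.mul_mem_mul h1 hdual
    have hne : FractionalIdeal.dual O K (1 : FractionalIdeal C⁰ L) ≠ 0 :=
      FractionalIdeal.dual_ne_zero O K one_ne_zero
    rw [FractionalIdeal.coeIdeal_mul, mul_comm (↑(differentIdeal O C) : FractionalIdeal C⁰ L) _,
      mul_assoc, coeIdeal_differentIdeal O K L C, inv_mul_cancel₀ hne, mul_one] at h2
    exact (FractionalIdeal.mem_coeIdeal _).mp h2
  choose z hzI hzeq using hz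
  refine ⟨s, z, hsπ, fun j => hI' (hzI j), ?_⟩
  intro j i
  apply IsFractionRing.injective O K
  rw [← Algebra.trace_localization O O⁰ (Rₘ := K) (Sₘ := L), map_mul, hzeq, mul_assoc,
    ← Basis.localizationLocalization_apply K O⁰ L b i]
  rw [← IsScalarTower.algebraMap_apply O C L, IsScalarTower.algebraMap_apply O K L,
    ← Algebra.smul_def, map_smul, Basis.trace_traceDual_mul, Algebra.smul_def]
  split_ifs <;> simp

/-- **Tame discriminant bound.** -/
theorem tame_discr_bound (hπ : Prime π) [CharZero (O ⧸ Ideal.span {π})]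
    {ι : Type*} [Fintype ι] [DecidableEq ι] (b : Basis ι O C) (r : ℕ)
    (hr : r ≤ Module.finrank (O ⧸ Ideal.span {π})
      ((C ⧸ (Ideal.span {π}).map (algebraMap O C)) ⧸
        nilradical (C ⧸ (Ideal.span {π}).map (algebraMap O C)))) :
    ¬ π ^ (Fintype.card ι - r + 1) ∣ Algebra.discr O b := by
  have hmax : (Ideal.span {π}).IsMaximal :=
    PrincipalIdealRing.isMaximal_of_irreducible hπ.irreducible
  obtain ⟨s, z, hsπ, hzJ, hztr⟩ := exists_dual_multiple hπ b
  set pC := (Ideal.span {π}).map (algebraMap O C) with hpC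
  -- the coordinate matrix of `z`
  let H : Matrix ι ι O := Matrix.of fun j k => b.repr (z j) k
  have hHz : ∀ j, ∑ k, H j k • b k = z j := fun j => b.sum_repr (z j)
  -- matrix identity
  have hHG : H * Algebra.traceMatrix O b = (s * π) • (1 : Matrix ι ι O) := by
    ext j i
    rw [Matrix.mul_apply]
    simp only [Algebra.traceMatrix_apply, Algebra.traceForm_apply]
    have h1 : ∑ k, H j k * Algebra.trace O C (b k * b i) = Algebra.trace O C (z j * b i) := by
      rw [← hHz j, Finset.sum_mul, map_sum]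
      refine Finset.sum_congr rfl fun k _ => ?_
      rw [smul_mul_assoc, map_smul, smul_eq_mul]
    rw [h1, hztr, Matrix.smul_apply, Matrix.one_apply]
    by_cases hij : j = i
    · subst hij; simp
    · rw [if_neg (Ne.symm hij), if_neg hij]; simp
  have hdet : H.det * Algebra.discr O b = (s * π) ^ Fintype.card ι := by
    rw [Algebra.discr_def, ← Matrix.det_mul, hHG, Matrix.det_smul, Matrix.det_one, mul_one]
  -- the reduction map
  let κ := O ⧸ Ideal.span {π}
  let V := C ⧸ pC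
  let Vred := V ⧸ nilradical V
  let v : ι → Vred := fun k => Ideal.Quotient.mk (nilradical V) (Ideal.Quotient.mk pC (b k))
  let g : (ι → κ) →ₗ[κ] Vred := Fintype.linearCombination κ v
  have hgred : ∀ w : ι → O, g (redRow π w) =
      Ideal.Quotient.mk (nilradical V) (Ideal.Quotient.mk pC (∑ k, w k • b k)) := by
    intro w
    simp only [g, Fintype.linearCombination_apply, redRow, v, map_sum]
    refine Finset.sum_congr rfl fun k _ => ?_
    rw [Algebra.smul_def, Algebra.smul_def, map_mul, map_mul]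
    rfl
  have hgsurj : Function.Surjective g := by
    intro x
    obtain ⟨y, rfl⟩ := Ideal.Quotient.mk_surjective x
    obtain ⟨c, rfl⟩ := Ideal.Quotient.mk_surjective y
    refine ⟨redRow π (fun k => b.repr c k), ?_⟩
    rw [hgred, b.sum_repr]
  have hgH : ∀ j, g (redRow π (H j)) = 0 := by
    intro j
    rw [hgred, hHz, Ideal.Quotient.eq_zero_iff_mem, mem_nilradical]
    obtain ⟨m, hm⟩ := hzJ j
    refine ⟨m, ?_⟩
    rw [← map_pow, Ideal.Quotient.eq_zero_iff_mem]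
    exact hm
  -- DET–RANK
  set n := Fintype.card ι with hn
  have hrank := pow_dvd_det_of_rows_ker hπ g hgsurj (min r n) ((min_le_left _ _).trans hr) H hgH
  intro hdvd
  have h1 : π ^ (min r n) * π ^ (n - r + 1) ∣ (s * π) ^ n := by
    rw [← hdet]
    exact mul_dvd_mul hrank hdvd
  have h2 : min r n + (n - r + 1) = n + 1 := by
    rcases le_total r n with h | h
    · rw [min_eq_left h]; omega
    · rw [min_eq_right h]; omega
  rw [← pow_add, h2, mul_pow, pow_succ, mul_comm (s ^ n)] at h1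
  have h3 : π ∣ s ^ n := (mul_dvd_mul_iff_left (pow_ne_zero n hπ.ne_zero)).mp h1
  exact hsπ (hπ.dvd_of_dvd_pow h3)

end

set_option linter.overlappingInstances false in
/-- **Tame discriminant bound, witness form** (the shape of `B12.TameDiscrStatement`). -/
theorem tame_discr_witness {Λ : Type*} [CommRing Λ] [IsDomain Λ] [IsPrincipalIdealRing Λ]
    [Algebra ℚ Λ] (t : Λ) (ht : Prime t)
    {C₀ : Type*} [CommRing C₀] [IsDomain C₀] [IsDedekindDomain C₀] [Algebra Λ C₀]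
    [Module.IsTorsionFree Λ C₀]
    (n : ℕ) (β : Module.Basis (Fin n) Λ C₀) (r : ℕ) (y : Fin r → C₀)
    (hy : ∀ a : Fin r → Λ,
        (∑ i, a i • y i) ∈ (Ideal.span {algebraMap Λ C₀ t}).radical → ∀ i, t ∣ a i) :
    ¬ t ^ (n - r + 1) ∣ Algebra.discr Λ β := by
  have hmax : (Ideal.span {t}).IsMaximal :=
    PrincipalIdealRing.isMaximal_of_irreducible ht.irreducible
  haveI : Module.Finite Λ C₀ := Module.Finite.of_basis β
  haveI : CharZero (Λ ⧸ Ideal.span {t}) := algebraRat.charZero _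
  have hmap : (Ideal.span {t}).map (algebraMap Λ C₀) = Ideal.span {algebraMap Λ C₀ t} := by
    rw [Ideal.map_span, Set.image_singleton]
  set pC := (Ideal.span {t}).map (algebraMap Λ C₀) with hpC
  have key : r ≤ Module.finrank (Λ ⧸ Ideal.span {t}) ((C₀ ⧸ pC) ⧸ nilradical (C₀ ⧸ pC)) := by
    let v : Fin r → (C₀ ⧸ pC) ⧸ nilradical (C₀ ⧸ pC) :=
      fun i => Ideal.Quotient.mk _ (Ideal.Quotient.mk pC (y i))
    have hli : LinearIndependent (Λ ⧸ Ideal.span {t}) v := by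
      rw [Fintype.linearIndependent_iff]
      intro g hg i
      choose a ha using fun i => Ideal.Quotient.mk_surjective (g i)
      have h1 : ∑ i, g i • v i =
          Ideal.Quotient.mk _ (Ideal.Quotient.mk pC (∑ i, a i • y i)) := by
        simp only [v, map_sum]
        refine Finset.sum_congr rfl fun k _ => ?_
        rw [← ha k, Algebra.smul_def, Algebra.smul_def, map_mul, map_mul]
        rfl
      rw [h1, Ideal.Quotient.eq_zero_iff_mem, mem_nilradical] at hg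
      obtain ⟨m, hm⟩ := hg
      rw [← map_pow, Ideal.Quotient.eq_zero_iff_mem] at hm
      have h2 : (∑ i, a i • y i) ∈ (Ideal.span {algebraMap Λ C₀ t}).radical := by
        rw [← hmap]; exact ⟨m, hm⟩
      have h3 := hy a h2 i
      rw [← ha i, Ideal.Quotient.eq_zero_iff_mem, Ideal.mem_span_singleton]
      exact h3
    simpa using hli.fintype_card_le_finrank
  have := tame_discr_bound ht β r key
  simpa using this

end Fermat.Agent.S18.H213

end
-- ===== PACK-END S18/H213/Tame.lean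

-- ===== PACK-BEGIN Lib/RR/H80/Res/Almost.lean
section


/-!
# Tate's residue symbol, abstract part 1: commensurability and the ideals `E₁`, `E₂`

`AlmostLE X Y` : `X ⊆ Y + (finite-dimensional)`.
For a subspace `A ⊆ V`: `EE A θ` (`θ A ≲ A`), `E1 A θ` (`θ V ≲ A`), `E2 A θ` (`θ A` finite-dimensional),
`E0 = E1 ∧ E2`.  The trace `fpTr` is additive on `E0` and kills commutators `[δ, g]`, `δ ∈ E0`,
`g ∈ EE`.
-/

set_option autoImplicit false

noncomputable section

namespace Fermat.Agent.Lib.RR.H80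

open LinearMap Module

variable {K V : Type*} [Field K] [AddCommGroup V] [Module K V]

/-- `X ⊆ Y + W` with `W` finite-dimensional. -/
def AlmostLE (X Y : Submodule K V) : Prop :=
  ∃ W : Submodule K V, FiniteDimensional K W ∧ X ≤ Y ⊔ W

theorem AlmostLE.of_le {X Y : Submodule K V} (h : X ≤ Y) : AlmostLE X Y :=
  ⟨⊥, inferInstance, h.trans le_sup_left⟩

theorem AlmostLE.refl (X : Submodule K V) : AlmostLE X X := AlmostLE.of_le le_rfl

theorem AlmostLE.trans {X Y Z : Submodule K V} (h1 : AlmostLE X Y) (h2 : AlmostLE Y Z) :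
    AlmostLE X Z := by
  obtain ⟨W₁, hW₁, h1⟩ := h1
  obtain ⟨W₂, hW₂, h2⟩ := h2
  refine ⟨W₂ ⊔ W₁, inferInstance, h1.trans ?_⟩
  rw [← sup_assoc]
  exact sup_le_sup_right h2 W₁

theorem AlmostLE.mono_left {X X' Y : Submodule K V} (h : X' ≤ X) (h1 : AlmostLE X Y) :
    AlmostLE X' Y :=
  (AlmostLE.of_le h).trans h1

theorem AlmostLE.map {X Y : Submodule K V} (h : AlmostLE X Y) (θ : Module.End K V) :
    AlmostLE (X.map θ) (Y.map θ) := by
  obtain ⟨W, hW, h⟩ := h
  refine ⟨W.map θ, inferInstance, ?_⟩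
  rw [← Submodule.map_sup]
  exact Submodule.map_mono h

theorem AlmostLE.sup {X X' Y : Submodule K V} (h : AlmostLE X Y) (h' : AlmostLE X' Y) :
    AlmostLE (X ⊔ X') Y := by
  obtain ⟨W, hW, h⟩ := h
  obtain ⟨W', hW', h'⟩ := h'
  refine ⟨W ⊔ W', inferInstance, sup_le (h.trans ?_) (h'.trans ?_)⟩
  · exact sup_le_sup_left le_sup_left Y
  · exact sup_le_sup_left le_sup_right Y

theorem AlmostLE.of_finiteDimensional (X Y : Submodule K V) [FiniteDimensional K X] :
    AlmostLE X Y :=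
  ⟨X, inferInstance, le_sup_right⟩

theorem almostLE_bot_iff {X : Submodule K V} : AlmostLE X ⊥ ↔ FiniteDimensional K X := by
  constructor
  · rintro ⟨W, hW, h⟩
    rw [bot_sup_eq] at h
    exact Submodule.finiteDimensional_of_le h
  · intro h
    exact AlmostLE.of_finiteDimensional X ⊥

theorem AlmostLE.finiteDimensional {X : Submodule K V} (h : AlmostLE X ⊥) :
    FiniteDimensional K X := almostLE_bot_iff.mp h

/-- `(Y + W₁) ∩ (Z + W₂) ⊆ (Y ∩ Z) + finite` is not needed; we only use sums. -/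
theorem AlmostLE.add_map {X Y : Submodule K V} {θ φ : Module.End K V}
    (h : AlmostLE (X.map θ) Y) (h' : AlmostLE (X.map φ) Y) : AlmostLE (X.map (θ + φ)) Y := by
  have : X.map (θ + φ) ≤ X.map θ ⊔ X.map φ := by
    rintro _ ⟨x, hx, rfl⟩
    rw [LinearMap.add_apply]
    exact Submodule.add_mem _ (Submodule.mem_sup_left ⟨x, hx, rfl⟩)
      (Submodule.mem_sup_right ⟨x, hx, rfl⟩)
  exact (h.sup h').mono_left this

theorem AlmostLE.neg_map {X Y : Submodule K V} {θ : Module.End K V}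
    (h : AlmostLE (X.map θ) Y) : AlmostLE (X.map (-θ)) Y := by
  have : X.map (-θ) ≤ X.map θ := by
    rintro _ ⟨x, hx, rfl⟩
    rw [LinearMap.neg_apply]
    exact Submodule.neg_mem _ ⟨x, hx, rfl⟩
  exact h.mono_left this

theorem AlmostLE.smul_map {X Y : Submodule K V} {θ : Module.End K V} (c : K)
    (h : AlmostLE (X.map θ) Y) : AlmostLE (X.map (c • θ)) Y := by
  have : X.map (c • θ) ≤ X.map θ := by
    rintro _ ⟨x, hx, rfl⟩
    rw [LinearMap.smul_apply]
    exact Submodule.smul_mem _ c ⟨x, hx, rfl⟩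
  exact h.mono_left this

/-! ### The classes `EE`, `E1`, `E2`, `E0` -/

variable (A : Submodule K V)

/-- `θ A ⊆ A + finite`. -/
def EE (θ : Module.End K V) : Prop := AlmostLE (A.map θ) A

/-- `θ V ⊆ A + finite`. -/
def E1 (θ : Module.End K V) : Prop := AlmostLE (LinearMap.range θ) A

/-- `θ A` is finite-dimensional. -/
def E2 (θ : Module.End K V) : Prop := AlmostLE (A.map θ) ⊥

/-- `E₀ = E₁ ∩ E₂`. -/
def E0 (θ : Module.End K V) : Prop := E1 A θ ∧ E2 A θ

variable {A}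

theorem E1.toEE {θ : Module.End K V} (h : E1 A θ) : EE A θ :=
  AlmostLE.mono_left (by rintro _ ⟨x, -, rfl⟩; exact ⟨x, rfl⟩) h

theorem E2.toEE {θ : Module.End K V} (h : E2 A θ) : EE A θ :=
  AlmostLE.trans h (AlmostLE.of_le bot_le)

theorem E0.toEE {θ : Module.End K V} (h : E0 A θ) : EE A θ := h.1.toEE

theorem EE.one : EE A (1 : Module.End K V) := by
  unfold EE
  rw [show A.map (1 : Module.End K V) = A from Submodule.map_id A]
  exact AlmostLE.refl A

theorem EE.of_map_le {θ : Module.End K V} (h : A.map θ ≤ A) : EE A θ := AlmostLE.of_le h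

theorem EE.add {θ φ : Module.End K V} (h : EE A θ) (h' : EE A φ) : EE A (θ + φ) :=
  AlmostLE.add_map h h'

theorem EE.neg {θ : Module.End K V} (h : EE A θ) : EE A (-θ) := AlmostLE.neg_map h

theorem EE.sub {θ φ : Module.End K V} (h : EE A θ) (h' : EE A φ) : EE A (θ - φ) := by
  rw [sub_eq_add_neg]; exact h.add h'.neg

theorem EE.smul {θ : Module.End K V} (c : K) (h : EE A θ) : EE A (c • θ) := AlmostLE.smul_map c h

theorem map_mul_eq (X : Submodule K V) (θ φ : Module.End K V) :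
    X.map (θ * φ) = (X.map φ).map θ := by
  rw [Module.End.mul_eq_comp, Submodule.map_comp]

theorem range_mul_eq (θ φ : Module.End K V) :
    LinearMap.range (θ * φ) = (LinearMap.range φ).map θ := by
  rw [Module.End.mul_eq_comp, LinearMap.range_comp]

theorem EE.mul {θ φ : Module.End K V} (h : EE A θ) (h' : EE A φ) : EE A (θ * φ) := by
  unfold EE
  rw [map_mul_eq]
  exact (AlmostLE.map h' θ).trans h

theorem E1.add {θ φ : Module.End K V} (h : E1 A θ) (h' : E1 A φ) : E1 A (θ + φ) := by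
  unfold E1 at *
  have : LinearMap.range (θ + φ) ≤ LinearMap.range θ ⊔ LinearMap.range φ := by
    rintro _ ⟨x, rfl⟩
    rw [LinearMap.add_apply]
    exact Submodule.add_mem _ (Submodule.mem_sup_left ⟨x, rfl⟩) (Submodule.mem_sup_right ⟨x, rfl⟩)
  exact (h.sup h').mono_left this

theorem E1.neg {θ : Module.End K V} (h : E1 A θ) : E1 A (-θ) := by
  unfold E1 at *
  have : LinearMap.range (-θ) ≤ LinearMap.range θ := by
    rintro _ ⟨x, rfl⟩
    rw [LinearMap.neg_apply]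
    exact Submodule.neg_mem _ ⟨x, rfl⟩
  exact h.mono_left this

theorem E1.sub {θ φ : Module.End K V} (h : E1 A θ) (h' : E1 A φ) : E1 A (θ - φ) := by
  rw [sub_eq_add_neg]; exact h.add h'.neg

theorem E1.smul {θ : Module.End K V} (c : K) (h : E1 A θ) : E1 A (c • θ) := by
  unfold E1 at *
  have : LinearMap.range (c • θ) ≤ LinearMap.range θ := by
    rintro _ ⟨x, rfl⟩
    rw [LinearMap.smul_apply]
    exact Submodule.smul_mem _ c ⟨x, rfl⟩
  exact h.mono_left this

theorem E1.mul_right {θ : Module.End K V} (h : E1 A θ) (φ : Module.End K V) : E1 A (θ * φ) := by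
  unfold E1 at *
  refine h.mono_left ?_
  rintro _ ⟨x, rfl⟩
  exact ⟨φ x, rfl⟩

theorem E1.mul_left {θ φ : Module.End K V} (h : E1 A θ) (h' : EE A φ) : E1 A (φ * θ) := by
  unfold E1 at *
  rw [range_mul_eq]
  exact (AlmostLE.map h φ).trans h'

theorem E2.add {θ φ : Module.End K V} (h : E2 A θ) (h' : E2 A φ) : E2 A (θ + φ) :=
  AlmostLE.add_map h h'

theorem E2.neg {θ : Module.End K V} (h : E2 A θ) : E2 A (-θ) := AlmostLE.neg_map h

theorem E2.sub {θ φ : Module.End K V} (h : E2 A θ) (h' : E2 A φ) : E2 A (θ - φ) := by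
  rw [sub_eq_add_neg]; exact h.add h'.neg

theorem E2.smul {θ : Module.End K V} (c : K) (h : E2 A θ) : E2 A (c • θ) :=
  AlmostLE.smul_map c h

theorem E2.mul_right {θ φ : Module.End K V} (h : E2 A θ) (h' : EE A φ) : E2 A (θ * φ) := by
  unfold E2 at *
  rw [map_mul_eq]
  exact (AlmostLE.map h' θ).trans h

theorem E2.mul_left {θ : Module.End K V} (h : E2 A θ) (φ : Module.End K V) : E2 A (φ * θ) := by
  unfold E2 at *
  rw [map_mul_eq]
  have := AlmostLE.map h φ
  rwa [Submodule.map_bot] at this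

theorem E0.add {θ φ : Module.End K V} (h : E0 A θ) (h' : E0 A φ) : E0 A (θ + φ) :=
  ⟨h.1.add h'.1, h.2.add h'.2⟩

theorem E0.neg {θ : Module.End K V} (h : E0 A θ) : E0 A (-θ) := ⟨h.1.neg, h.2.neg⟩

theorem E0.sub {θ φ : Module.End K V} (h : E0 A θ) (h' : E0 A φ) : E0 A (θ - φ) :=
  ⟨h.1.sub h'.1, h.2.sub h'.2⟩

theorem E0.smul {θ : Module.End K V} (c : K) (h : E0 A θ) : E0 A (c • θ) :=
  ⟨h.1.smul c, h.2.smul c⟩

theorem E0.mul_right {θ φ : Module.End K V} (h : E0 A θ) (h' : EE A φ) : E0 A (θ * φ) :=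
  ⟨h.1.mul_right φ, h.2.mul_right h'⟩

theorem E0.mul_left {θ φ : Module.End K V} (h : E0 A θ) (h' : EE A φ) : E0 A (φ * θ) :=
  ⟨h.1.mul_left h', h.2.mul_left φ⟩

/-- A product `θ₁ θ₂` with `θ₁ ∈ E₂`, `θ₂ ∈ E₁` has finite rank. -/
theorem finiteDimensional_range_mul {θ₁ θ₂ : Module.End K V} (h1 : E2 A θ₁) (h2 : E1 A θ₂) :
    FiniteDimensional K (LinearMap.range (θ₁ * θ₂)) := by
  rw [range_mul_eq]
  exact ((AlmostLE.map h2 θ₁).trans h1).finiteDimensional

theorem E0.finPot {θ : Module.End K V} (h : E0 A θ) : FinPot θ :=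
  ⟨2, by rw [pow_two]; exact finiteDimensional_range_mul h.2 h.1⟩

/-- **Additivity of the trace on `E₀`.** -/
theorem fpTr_add_of_E0 {θ φ : Module.End K V} (h : E0 A θ) (h' : E0 A φ) :
    fpTr (θ + φ) = fpTr θ + fpTr φ := by
  have f1 := finiteDimensional_range_mul h.2 h.1
  have f2 := finiteDimensional_range_mul h.2 h'.1
  have f3 := finiteDimensional_range_mul h'.2 h.1
  have f4 := finiteDimensional_range_mul h'.2 h'.1
  set W : Submodule K V := LinearMap.range (θ * θ) ⊔ LinearMap.range (θ * φ) ⊔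
    LinearMap.range (φ * θ) ⊔ LinearMap.range (φ * φ) with hW
  have hfin : FiniteDimensional K W := by rw [hW]; infer_instance
  have m1 : LinearMap.range (θ * θ) ≤ W := le_sup_of_le_left (le_sup_of_le_left le_sup_left)
  have m2 : LinearMap.range (θ * φ) ≤ W := le_sup_of_le_left (le_sup_of_le_left le_sup_right)
  have m3 : LinearMap.range (φ * θ) ≤ W := le_sup_of_le_left le_sup_right
  have m4 : LinearMap.range (φ * φ) ≤ W := le_sup_right
  -- images of `W` under `θ`, `φ`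
  have key : ∀ (a : Module.End K V), (LinearMap.range (a * θ) ≤ W) →
      (LinearMap.range (a * φ) ≤ W) → ∀ x ∈ W, a x ∈ W := by
    intro a ha1 ha2 x hx
    have hle : W ≤ LinearMap.range θ ⊔ LinearMap.range φ := by
      rw [hW]
      refine sup_le (sup_le (sup_le ?_ ?_) ?_) ?_
      · rintro _ ⟨y, rfl⟩; exact Submodule.mem_sup_left ⟨θ y, rfl⟩
      · rintro _ ⟨y, rfl⟩; exact Submodule.mem_sup_left ⟨φ y, rfl⟩
      · rintro _ ⟨y, rfl⟩; exact Submodule.mem_sup_right ⟨θ y, rfl⟩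
      · rintro _ ⟨y, rfl⟩; exact Submodule.mem_sup_right ⟨φ y, rfl⟩
    obtain ⟨u, ⟨y, rfl⟩, w, ⟨z, rfl⟩, rfl⟩ := Submodule.mem_sup.mp (hle hx)
    rw [map_add]
    exact Submodule.add_mem _ (ha1 ⟨y, rfl⟩) (ha2 ⟨z, rfl⟩)
  have hθ : ∀ x ∈ W, θ x ∈ W := key θ m1 m2
  have hφ : ∀ x ∈ W, φ x ∈ W := key φ m3 m4
  refine fpTr_add_of_stable θ φ W hθ hφ 2 (by rw [pow_two]; exact m1)
    (by rw [pow_two]; exact m4) ?_
  rw [pow_two]
  rintro _ ⟨x, rfl⟩
  have : ((θ + φ) * (θ + φ)) x = (θ * θ) x + (θ * φ) x + (φ * θ) x + (φ * φ) x := by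
    simp only [Module.End.mul_apply, LinearMap.add_apply, map_add]
    abel
  rw [this]
  exact Submodule.add_mem _ (Submodule.add_mem _ (Submodule.add_mem _ (m1 ⟨x, rfl⟩)
    (m2 ⟨x, rfl⟩)) (m3 ⟨x, rfl⟩)) (m4 ⟨x, rfl⟩)

theorem fpTr_sub_of_E0 {θ φ : Module.End K V} (h : E0 A θ) (h' : E0 A φ) :
    fpTr (θ - φ) = fpTr θ - fpTr φ := by
  rw [sub_eq_add_neg, fpTr_add_of_E0 h h'.neg, fpTr_neg, sub_eq_add_neg]

/-- The trace kills commutators `[δ, g]` with `δ ∈ E₀`, `g ∈ EE`. -/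
theorem fpTr_commutator_eq_zero {δ g : Module.End K V} (hδ : E0 A δ) (hg : EE A g) :
    fpTr (δ * g - g * δ) = 0 := by
  rw [fpTr_sub_of_E0 (hδ.mul_right hg) (hδ.mul_left hg)]
  have := fpTr_comp_comm δ g (hδ.mul_right hg).finPot
  rw [Module.End.mul_eq_comp, Module.End.mul_eq_comp, this, sub_self]

/-- **Independence of the lift.** -/
theorem fpTr_commutator_congr {f₁ f₁' g : Module.End K V} (hδ : E0 A (f₁ - f₁'))
    (hg : EE A g) (h' : E0 A (f₁' * g - g * f₁')) :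
    fpTr (f₁ * g - g * f₁) = fpTr (f₁' * g - g * f₁') := by
  have e : f₁ * g - g * f₁ = (f₁' * g - g * f₁') + ((f₁ - f₁') * g - g * (f₁ - f₁')) := by
    noncomm_ring
  rw [e, fpTr_add_of_E0 h' ((hδ.mul_right hg).sub (hδ.mul_left hg)),
    fpTr_commutator_eq_zero hδ hg, add_zero]

end Fermat.Agent.Lib.RR.H80

end
end
-- ===== PACK-END Lib/RR/H80/Res/Almost.lean

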