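import Mathlib
import Mathlib.LinearAlgebra.Matrix.Rank
import Fermat.Agent.Pack.S44.G0E2L3
import Fermat.Agent.Pack.S44.G0E2L2
import Fermat.Agent.Pack.S44.G0E0L0
import Fermat.Agent.Pack.S44.G0E0L3
import Fermat.Agent.Pack.S44.G0E3L0
import Fermat.Agent.Pack.S44.G0E3L1
import Fermat.Agent.Pack.S44.G0E3L3
import Fermat.Agent.Pack.S44.G0E3L2

-- ===== PACK-BEGIN S18/H498/CechFinite.lean
section



/-!
# S18, piece b5 (continued): the torsion bound and finiteness of `C / (B₁ + B₂)`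

* `exists_torsion_bound`: in a finite module over a noetherian ring, the `ϖ`-power torsion is
  killed by a fixed power `ϖ ^ c`.
* `finite_cech_quotient`: if `C = B₁[1/x]`, `B₁ ⊆ B₂[x]`, `x⁻¹ ∈ B₂` and `B₁` is a finite
  `R[x]`-module, then `C / (B₁ + B₂)` is a finite `R`-module (this is "H¹ of a projective curve
  over `R` is finite", by hand).
* `idem_trivial_of_cech_finite`: the connectedness statement with these inputs.
-/

set_option autoImplicit false
set_option linter.style.haveILetI false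

namespace Fermat.Agent.S18.H498

section Torsion

variable {R M : Type*} [CommRing R] [IsNoetherianRing R] [AddCommGroup M] [Module R M]
  [Module.Finite R M]

theorem exists_torsion_bound (ϖ : R) :
    ∃ c : ℕ, ∀ (n : ℕ) (m : M), ϖ ^ n • m = 0 → ϖ ^ c • m = 0 := by
  haveI : IsNoetherian R M := isNoetherian_of_isNoetherianRing_of_finite R M
  let T : ℕ →o Submodule R M :=
    { toFun := fun n => LinearMap.ker (LinearMap.lsmul R M (ϖ ^ n))
      monotone' := by
        intro a b hab m hm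
        simp only [LinearMap.mem_ker, LinearMap.lsmul_apply] at hm ⊢
        obtain ⟨k, rfl⟩ := Nat.exists_eq_add_of_le hab
        rw [pow_add, mul_comm, mul_smul, hm, smul_zero] }
  obtain ⟨c, hc⟩ := monotone_stabilizes_iff_noetherian.mpr ‹IsNoetherian R M› T
  have hT : ∀ (n : ℕ) (m : M), m ∈ T n ↔ ϖ ^ n • m = 0 := by
    intro n m
    change m ∈ LinearMap.ker (LinearMap.lsmul R M (ϖ ^ n)) ↔ _
    rw [LinearMap.mem_ker, LinearMap.lsmul_apply]
  refine ⟨c, fun n m hm => ?_⟩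
  rcases le_total c n with h | h
  · have hmem : m ∈ T n := (hT n m).mpr hm
    rw [← hc n h] at hmem
    exact (hT c m).mp hmem
  · obtain ⟨k, rfl⟩ := Nat.exists_eq_add_of_le h
    rw [pow_add, mul_comm, mul_smul, hm, smul_zero]

end Torsion

section Finite

variable {R C : Type*} [CommRing R] [CommRing C] [Algebra R C]

/-- Finiteness of the Čech `H¹` for two charts glued along `x ↦ x⁻¹`. -/
theorem finite_cech_quotient (B₁ B₂ : Subalgebra R C) (x x' : C) (hx : x ∈ B₁) (hx' : x' ∈ B₂)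
    (hxx' : x * x' = 1)
    (ι : Type*) [Finite ι] (g : ι → C) (hg : ∀ i, g i ∈ B₁)
    (hgen : ∀ b ∈ B₁, ∃ P : ι → Polynomial R, b = ∑ᶠ i, Polynomial.aeval x (P i) * g i)
    (hloc : ∀ y : C, ∃ n : ℕ, x ^ n * y ∈ B₁)
    (hinf : ∀ i, ∃ n : ℕ, x' ^ n * g i ∈ B₂) :
    Module.Finite R (C ⧸ (Subalgebra.toSubmodule B₁ ⊔ Subalgebra.toSubmodule B₂)) := by
  classical
  haveI : Fintype ι := Fintype.ofFinite ι
  choose N hN using hinf
  let Nmax : ℕ := Finset.univ.sup N
  have hNmax : ∀ i, ∀ a, Nmax ≤ a → x' ^ a * g i ∈ B₂ := by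
    intro i a ha
    have hle : N i ≤ a := le_trans (Finset.le_sup (f := N) (Finset.mem_univ i)) ha
    obtain ⟨k, rfl⟩ := Nat.exists_eq_add_of_le hle
    rw [pow_add, mul_comm (x' ^ N i), mul_assoc]
    exact B₂.mul_mem (B₂.pow_mem hx' k) (hN i)
  -- the finite generating family
  let W : Submodule R C := Submodule.span R
    (Set.range fun q : ι × Fin Nmax => x' ^ (q.2 : ℕ) * g q.1)
  let S : Submodule R C := Subalgebra.toSubmodule B₁ ⊔ Subalgebra.toSubmodule B₂
  have hkey : ∀ (i : ι) (n j : ℕ), x' ^ n * (x ^ j * g i) ∈ S ⊔ W := by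
    intro i n j
    rcases le_total n j with h | h
    · -- `x^(j-n) g i ∈ B₁`
      obtain ⟨k, rfl⟩ := Nat.exists_eq_add_of_le h
      have : x' ^ n * (x ^ (n + k) * g i) = x ^ k * g i := by
        rw [pow_add, ← mul_assoc, ← mul_assoc, ← mul_pow, mul_comm x' x, hxx', one_pow, one_mul]
      rw [this]
      exact Submodule.mem_sup_left (Submodule.mem_sup_left (B₁.mul_mem (B₁.pow_mem hx k) (hg i)))
    · obtain ⟨k, rfl⟩ := Nat.exists_eq_add_of_le h
      have : x' ^ (j + k) * (x ^ j * g i) = x' ^ k * g i := by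
        rw [pow_add, mul_comm (x' ^ j), mul_assoc, ← mul_assoc (x' ^ j), ← mul_pow,
          mul_comm x' x, hxx', one_pow, one_mul]
      rw [this]
      rcases lt_or_ge k Nmax with hk | hk
      · exact Submodule.mem_sup_right (Submodule.subset_span ⟨(i, ⟨k, hk⟩), rfl⟩)
      · exact Submodule.mem_sup_left (Submodule.mem_sup_right (hNmax i k hk))
  have hpoly : ∀ (i : ι) (n : ℕ) (P : Polynomial R),
      x' ^ n * (Polynomial.aeval x P * g i) ∈ S ⊔ W := by
    intro i n P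
    induction P using Polynomial.induction_on' with
    | add P Q hP hQ =>
      rw [map_add, add_mul, mul_add]
      exact Submodule.add_mem _ hP hQ
    | monomial j a =>
      rw [Polynomial.aeval_monomial, mul_assoc, ← Algebra.smul_def, mul_smul_comm]
      exact Submodule.smul_mem _ _ (hkey i n j)
  have htop : S ⊔ W = ⊤ := by
    rw [eq_top_iff]
    intro y _
    obtain ⟨n, hn⟩ := hloc y
    obtain ⟨P, hP⟩ := hgen _ hn
    have hy : y = x' ^ n * (x ^ n * y) := by
      rw [← mul_assoc, ← mul_pow, mul_comm x' x, hxx', one_pow, one_mul]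
    rw [hy, hP, finsum_eq_sum_of_fintype, Finset.mul_sum]
    exact Submodule.sum_mem _ fun i _ => hpoly i n (P i)
  have hWfg : W.FG := Submodule.fg_span (Set.finite_range _)
  -- `C ⧸ S` is the image of `W`
  have hsurj : Function.Surjective (S.mkQ.comp W.subtype) := by
    intro q
    obtain ⟨y, rfl⟩ := S.mkQ_surjective q
    have hy : y ∈ S ⊔ W := htop ▸ Submodule.mem_top
    obtain ⟨s, hs, w, hw, rfl⟩ := Submodule.mem_sup.mp hy
    refine ⟨⟨w, hw⟩, ?_⟩
    simp only [LinearMap.comp_apply, Submodule.subtype_apply, Submodule.mkQ_apply,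
      Submodule.Quotient.mk_add]
    rw [(Submodule.Quotient.mk_eq_zero S).mpr hs, zero_add]
  haveI : Module.Finite R W := Module.Finite.iff_fg.mpr hWfg
  exact Module.Finite.of_surjective _ hsurj

end Finite

section Main

variable {R C : Type*} [CommRing R] [IsLocalRing R] [IsNoetherianRing R] [CommRing C]
  [Algebra R C]

/-- Connectedness with the finiteness hypothesis on `C / (B₁ + B₂)`. -/
theorem idem_trivial_of_cech_finite (ϖ : R) (B₁ B₂ : Subalgebra R C)
    (hint : ∀ y : C, y ∈ B₁ → y ∈ B₂ → ∃ r : R, algebraMap R C r = y)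
    [Module.Finite R (C ⧸ (Subalgebra.toSubmodule B₁ ⊔ Subalgebra.toSubmodule B₂))]
    (e₁ e₂ : C) (he₁ : e₁ ∈ B₁) (he₂ : e₂ ∈ B₂)
    (h₁ : ∃ a ∈ B₁, e₁ ^ 2 - e₁ = algebraMap R C ϖ * a)
    (h₂ : ∃ a ∈ B₂, e₂ ^ 2 - e₂ = algebraMap R C ϖ * a)
    (h₁₂ : ∃ y : C, e₁ - e₂ = algebraMap R C ϖ * y) :
    (∃ a ∈ B₁, e₁ = algebraMap R C ϖ * a) ∨ (∃ a ∈ B₁, 1 - e₁ = algebraMap R C ϖ * a) := by
  obtain ⟨c, hc⟩ := exists_torsion_bound
    (M := C ⧸ (Subalgebra.toSubmodule B₁ ⊔ Subalgebra.toSubmodule B₂)) ϖ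
  refine idem_trivial_of_cech ϖ B₁ B₂ hint c ?_ e₁ e₂ he₁ he₂ h₁ h₂ h₁₂
  intro n y hy
  have hmem : ∀ k : ℕ, (∃ b₁ ∈ B₁, ∃ b₂ ∈ B₂, algebraMap R C ϖ ^ k * y = b₁ + b₂) ↔
      ϖ ^ k • (Submodule.Quotient.mk y :
        C ⧸ (Subalgebra.toSubmodule B₁ ⊔ Subalgebra.toSubmodule B₂)) = 0 := by
    intro k
    rw [← Submodule.Quotient.mk_smul, Submodule.Quotient.mk_eq_zero, Submodule.mem_sup,
      Algebra.smul_def, map_pow]
    constructor
    · rintro ⟨b₁, hb₁, b₂, hb₂, h⟩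
      exact ⟨b₁, hb₁, b₂, hb₂, h.symm⟩
    · rintro ⟨b₁, hb₁, b₂, hb₂, h⟩
      exact ⟨b₁, hb₁, b₂, hb₂, h.symm⟩
  exact (hmem c).mpr (hc n _ ((hmem n).mp hy))

end Main

end Fermat.Agent.S18.H498

end
-- ===== PACK-END S18/H498/CechFinite.lean

-- ===== PACK-BEGIN S21/Cusp.lean
section


/-!
# S21 — piece `Cusp`

A holomorphic function on the upper half plane which is weight-2 invariant under `Γ₀(N)` and has
bounded energy in the cusp strips (for every `SL(2,ℤ)`-translate) is a cusp form.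

Main steps (all in namespace `Fermat.Agent.S21.Cusp825`):
* `setIntegral_ball_eq_smul`: area mean value property of holomorphic functions (polar
  coordinates + circle mean value property);
* `norm_sq_mul_le_setIntegral_ball`: area mean value inequality `‖g c‖² π r² ≤ ∫_{B(c,r)} ‖g‖²`;
* `exists_tail_le`: tails of a bounded increasing family of strip integrals are small;
* `exists_bound_of_energy`: uniform decay on the central strip `|Re z| ≤ 1/2`;
* `isZeroAtImInfty_slash`: every slash translate is zero at `i∞` (periodicity under `T ^ N`);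
* `exists_cuspForm_of_zero`: packaging as a `CuspForm`.
-/

set_option autoImplicit false

open ModularCurve UpperHalfPlane CongruenceSubgroup Filter Topology
open MeasureTheory Metric Set Real
open scoped MatrixGroups ComplexConjugate ContDiff ModularForm Manifold

namespace Fermat.Agent.S21

namespace Cusp825

/-- Integral of a function over `Ioo (-π) π` against the circle map, for a holomorphic function. -/
theorem integral_Ioo_circleMap {G : ℂ → ℂ} {c : ℂ} {ρ : ℝ}
    (hG : DiffContOnCl ℂ G (ball c |ρ|)) :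
    ∫ θ in Ioo (-π) π, G (circleMap c ρ θ) = (2 * π) • G c := by
  have h1 := hG.circleAverage
  rw [circleAverage_eq_integral_add (-π)] at h1
  have h2 : ∫ θ in (0:ℝ)..2 * π, G (circleMap c ρ (θ + -π))
      = ∫ θ in (-π)..π, G (circleMap c ρ θ) := by
    rw [intervalIntegral.integral_comp_add_right (fun θ => G (circleMap c ρ θ)) (-π)]
    congr 1 <;> ring
  rw [h2, intervalIntegral.integral_of_le (by linarith [pi_pos]), integral_Ioc_eq_integral_Ioo]
    at h1
  rw [← h1, smul_smul, mul_inv_cancel₀ (by positivity), one_smul]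

theorem polarCoord_symm_eq_circleMap (p : ℝ × ℝ) :
    Complex.polarCoord.symm p = circleMap 0 p.1 p.2 := by
  rw [Complex.polarCoord_symm_apply, circleMap, zero_add, Complex.exp_mul_I]
  push_cast
  ring

/-- Polar coordinates for the integral over a ball. -/
theorem setIntegral_ball_eq_polar (G : ℂ → ℂ) (c : ℂ) (r : ℝ) :
    ∫ z in ball c r, G z
      = ∫ p in Ioo (0:ℝ) r ×ˢ Ioo (-π) π, p.1 • G (circleMap c p.1 p.2) := by
  have h1 : ∫ z in ball c r, G z
      = ∫ w, (ball (0:ℂ) r).indicator (fun w => G (c + w)) w := by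
    rw [← integral_indicator measurableSet_ball,
      ← integral_add_left_eq_self (fun z => (ball c r).indicator G z) c]
    congr 1
    ext w
    by_cases hw : w ∈ ball (0:ℂ) r
    · have : c + w ∈ ball c r := by
        simpa [mem_ball, dist_eq_norm] using hw
      rw [indicator_of_mem hw, indicator_of_mem this]
    · have : c + w ∉ ball c r := by
        simpa [mem_ball, dist_eq_norm] using hw
      rw [indicator_of_notMem hw, indicator_of_notMem this]
  rw [h1, ← Complex.integral_comp_polarCoord_symm, polarCoord_target]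
  have h2 : ∀ p ∈ Ioi (0:ℝ) ×ˢ Ioo (-π) π,
      p.1 • (ball (0:ℂ) r).indicator (fun w => G (c + w)) (Complex.polarCoord.symm p)
        = (Iio r ×ˢ (univ : Set ℝ)).indicator
            (fun p : ℝ × ℝ => p.1 • G (circleMap c p.1 p.2)) p := by
    rintro ⟨ρ, θ⟩ ⟨hρ, -⟩
    have hρ' : (0:ℝ) < ρ := hρ
    have hnorm : ‖Complex.polarCoord.symm (ρ, θ)‖ = ρ := by
      rw [Complex.norm_polarCoord_symm]; exact abs_of_pos hρ'
    by_cases hlt : ρ < r
    · have hm : Complex.polarCoord.symm (ρ, θ) ∈ ball (0:ℂ) r := by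
        rw [mem_ball_zero_iff, hnorm]; exact hlt
      have hm' : (ρ, θ) ∈ Iio r ×ˢ (univ : Set ℝ) := ⟨hlt, mem_univ _⟩
      rw [indicator_of_mem hm, indicator_of_mem hm', polarCoord_symm_eq_circleMap]
      simp [circleMap]
    · have hm : Complex.polarCoord.symm (ρ, θ) ∉ ball (0:ℂ) r := by
        rw [mem_ball_zero_iff, hnorm]; exact hlt
      have hm' : (ρ, θ) ∉ Iio r ×ˢ (univ : Set ℝ) := fun h => hlt h.1
      rw [indicator_of_notMem hm, indicator_of_notMem hm', smul_zero]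
  rw [setIntegral_congr_fun (measurableSet_Ioi.prod measurableSet_Ioo) h2,
    setIntegral_indicator (measurableSet_Iio.prod MeasurableSet.univ)]
  congr 2
  ext ⟨ρ, θ⟩
  simp only [mem_inter_iff, mem_prod, mem_Ioi, mem_Ioo, mem_Iio, mem_univ, and_true]
  tauto

/-- **Area mean value property** for holomorphic functions. -/
theorem setIntegral_ball_eq_smul {G : ℂ → ℂ} {c : ℂ} {r : ℝ} (hr : 0 < r)
    (hG : DiffContOnCl ℂ G (ball c r)) :
    ∫ z in ball c r, G z = (π * r ^ 2) • G c := by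
  rw [setIntegral_ball_eq_polar]
  have hcont : ContinuousOn (fun p : ℝ × ℝ => p.1 • G (circleMap c p.1 p.2))
      (Icc (0:ℝ) r ×ˢ Icc (-π) π) := by
    have hGc : ContinuousOn G (closedBall c r) := by
      have := hG.continuousOn
      rwa [closure_ball c hr.ne'] at this
    have hmap : MapsTo (fun p : ℝ × ℝ => circleMap c p.1 p.2)
        (Icc (0:ℝ) r ×ˢ Icc (-π) π) (closedBall c r) := by
      rintro ⟨ρ, θ⟩ ⟨⟨hρ0, hρr⟩, -⟩
      simp only [mem_closedBall, dist_eq_norm, circleMap, add_sub_cancel_left, norm_mul,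
        Complex.norm_real, Real.norm_eq_abs, Complex.norm_exp_ofReal_mul_I, mul_one]
      rw [abs_of_nonneg hρ0]; exact hρr
    have hcm : Continuous (fun p : ℝ × ℝ => circleMap c p.1 p.2) := by
      unfold circleMap
      fun_prop
    exact ContinuousOn.smul continuous_fst.continuousOn (hGc.comp hcm.continuousOn hmap)
  have hint : IntegrableOn (fun p : ℝ × ℝ => p.1 • G (circleMap c p.1 p.2))
      (Ioo (0:ℝ) r ×ˢ Ioo (-π) π) (volume.prod volume) := by
    have : IntegrableOn (fun p : ℝ × ℝ => p.1 • G (circleMap c p.1 p.2))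
        (Icc (0:ℝ) r ×ˢ Icc (-π) π) (volume.prod volume) :=
      hcont.integrableOn_compact (isCompact_Icc.prod isCompact_Icc)
    exact this.mono_set (prod_mono Ioo_subset_Icc_self Ioo_subset_Icc_self)
  rw [Measure.volume_eq_prod, setIntegral_prod _ hint]
  have hinner : ∀ ρ ∈ Ioo (0:ℝ) r,
      ∫ θ in Ioo (-π) π, ρ • G (circleMap c ρ θ) = ρ • ((2 * π) • G c) := by
    intro ρ hρ
    rw [integral_smul]
    congr 1
    apply integral_Ioo_circleMap
    rw [abs_of_pos hρ.1]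
    exact hG.mono (ball_subset_ball hρ.2.le)
  rw [setIntegral_congr_fun measurableSet_Ioo hinner, integral_smul_const]
  have hρint : ∫ ρ in Ioo (0:ℝ) r, ρ = r ^ 2 / 2 := by
    rw [← integral_Ioc_eq_integral_Ioo, ← intervalIntegral.integral_of_le hr.le, integral_id]
    ring
  rw [hρint, smul_smul]
  congr 1
  ring

/-- **Area mean value inequality**. -/
theorem norm_sq_mul_le_setIntegral_ball {g : ℂ → ℂ} {c : ℂ} {r : ℝ} (hr : 0 < r)
    (hg : DiffContOnCl ℂ g (ball c r)) :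
    ‖g c‖ ^ 2 * (π * r ^ 2) ≤ ∫ z in ball c r, ‖g z‖ ^ 2 := by
  have hg2 : DiffContOnCl ℂ (fun z => (g z) ^ 2) (ball c r) :=
    ⟨hg.differentiableOn.pow 2, hg.continuousOn.pow 2⟩
  have h1 := setIntegral_ball_eq_smul hr hg2
  have h2 : ‖∫ z in ball c r, (g z) ^ 2‖ ≤ ∫ z in ball c r, ‖(g z) ^ 2‖ :=
    norm_integral_le_integral_norm _
  have h3 : ‖(π * r ^ 2) • (g c) ^ 2‖ = ‖g c‖ ^ 2 * (π * r ^ 2) := by
    rw [norm_smul, norm_pow, Real.norm_eq_abs, abs_of_nonneg (by positivity)]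
    ring
  have h1' : ∫ z in ball c r, (g z) ^ 2 = (π * r ^ 2) • (g c) ^ 2 := h1
  rw [h1', h3] at h2
  simpa [norm_pow] using h2

theorem strip_eq (Y : ℝ) : strip Y = Icc (-1 : ℝ) 1 ×ℂ Icc (2 : ℝ) Y := by
  ext z
  simp only [strip, mem_ofPred_eq, Complex.mem_reProdIm, mem_Icc, abs_le]

theorem isCompact_strip (Y : ℝ) : IsCompact (strip Y) := by
  rw [strip_eq]
  exact isCompact_Icc.reProdIm isCompact_Icc

theorem measurableSet_strip (Y : ℝ) : MeasurableSet (strip Y) :=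
  (_root_.Fermat.Agent.S21.Cusp825.isCompact_strip Y).isClosed.measurableSet

theorem strip_subset_Uhp (Y : ℝ) : strip Y ⊆ Uhp := by
  intro z hz
  have : (2:ℝ) ≤ z.im := hz.2.1
  exact lt_of_lt_of_le two_pos this

theorem strip_mono {Y₁ Y₂ : ℝ} (h : Y₁ ≤ Y₂) : strip Y₁ ⊆ strip Y₂ :=
  fun _ hz => ⟨hz.1, hz.2.1, hz.2.2.trans h⟩

/-- Tail estimate for a nonnegative function with bounded integrals over the strips. -/
theorem exists_tail_le (u : ℂ → ℝ) (hu : ContinuousOn u Uhp)     (hE : ∃ C : ℝ, ∀ Y : ℝ, ∫ z in strip Y, u z ≤ C) {ε : ℝ} (hε : 0 < ε) :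
    ∃ Y₀ : ℝ, ∀ Y : ℝ, ∫ z in strip Y \ strip Y₀, u z ≤ ε := by
  obtain ⟨C, hC⟩ := hE
  have hint : ∀ Y, IntegrableOn u (strip Y) := fun Y =>
    (hu.mono (_root_.Fermat.Agent.S21.Cusp825.strip_subset_Uhp Y)).integrableOn_compact (_root_.Fermat.Agent.S21.Cusp825.isCompact_strip Y)
  set E : ℝ → ℝ := fun Y => ∫ z in strip Y, u z with hEdef
  have hbdd : BddAbove (range E) := ⟨C, by rintro _ ⟨Y, rfl⟩; exact hC Y⟩
  have hlt : sSup (range E) - ε < sSup (range E) := by linarith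
  obtain ⟨_, ⟨Y₀, rfl⟩, hY₀⟩ := exists_lt_of_lt_csSup (range_nonempty E) hlt
  refine ⟨Y₀, fun Y => ?_⟩
  rcases le_total Y Y₀ with h | h
  · have : strip Y \ strip Y₀ = ∅ := sdiff_eq_empty.mpr (strip_mono h)
    rw [this]
    simpa using hε.le
  · rw [setIntegral_sdiff (measurableSet_strip Y₀) (hint Y) (strip_mono h)]
    have h1 : E Y ≤ sSup (range E) := le_csSup hbdd ⟨Y, rfl⟩
    have h1' : ∫ z in strip Y, u z ≤ sSup (range E) := h1
    have h2 : sSup (range E) - ε < ∫ z in strip Y₀, u z := hY₀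
    linarith

/-- Decay on the central strip for a holomorphic function with bounded energy on strips. -/
theorem exists_bound_of_energy (H : ℂ → ℂ) (hH : DifferentiableOn ℂ H Uhp)
    (hE : ∃ C : ℝ, ∀ Y : ℝ, ∫ z in strip Y, ‖H z‖ ^ 2 ≤ C) {ε : ℝ} (hε : 0 < ε) :
    ∃ A : ℝ, ∀ z : ℂ, |z.re| ≤ 1 / 2 → A ≤ z.im → ‖H z‖ ≤ ε := by
  have hcont : ContinuousOn (fun z => ‖H z‖ ^ 2) Uhp := (hH.continuousOn.norm).pow 2
  have hε' : 0 < ε ^ 2 * (π * (1 / 2) ^ 2) := by positivity
  obtain ⟨Y₀, hY₀⟩ := exists_tail_le (fun z => ‖H z‖ ^ 2) hcont hE hε'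
  refine ⟨max Y₀ 2 + 1, fun z hzre hzim => ?_⟩
  have hY₀z : Y₀ + 1 ≤ z.im := le_trans (by gcongr; exact le_max_left _ _) hzim
  have h1z : 3 ≤ z.im := le_trans (by linarith [le_max_right Y₀ 2]) hzim
  -- the ball is inside the region
  have hsub : ball z (1 / 2) ⊆ strip (z.im + 1) \ strip Y₀ := by
    intro w hw
    rw [mem_ball, dist_eq_norm] at hw
    have hre : |w.re - z.re| ≤ ‖w - z‖ := by
      simpa using Complex.abs_re_le_norm (w - z)
    have him : |w.im - z.im| ≤ ‖w - z‖ := by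
      simpa using Complex.abs_im_le_norm (w - z)
    have hre' := abs_le.mp (hre.trans hw.le)
    have him' := abs_le.mp (him.trans hw.le)
    have hzre' := abs_le.mp hzre
    refine ⟨⟨abs_le.mpr ⟨by linarith, by linarith⟩, by linarith, by linarith⟩, ?_⟩
    intro hw0
    have : w.im ≤ Y₀ := hw0.2.2
    linarith
  have hcl : closedBall z (1 / 2) ⊆ Uhp := by
    intro w hw
    rw [mem_closedBall, dist_eq_norm] at hw
    have him : |w.im - z.im| ≤ ‖w - z‖ := by
      simpa using Complex.abs_im_le_norm (w - z)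
    have him' := abs_le.mp (him.trans hw)
    show 0 < w.im
    linarith
  have hD : DiffContOnCl ℂ H (ball z (1 / 2)) := hH.diffContOnCl_ball hcl
  have hmv := norm_sq_mul_le_setIntegral_ball (by norm_num : (0:ℝ) < 1 / 2) hD
  have hint : IntegrableOn (fun z => ‖H z‖ ^ 2) (strip (z.im + 1) \ strip Y₀) :=
    ((hcont.mono (_root_.Fermat.Agent.S21.Cusp825.strip_subset_Uhp _)).integrableOn_compact (_root_.Fermat.Agent.S21.Cusp825.isCompact_strip _)).mono_set
      sdiff_subset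
  have hmono : ∫ w in ball z (1 / 2), ‖H w‖ ^ 2 ≤ ∫ w in strip (z.im + 1) \ strip Y₀, ‖H w‖ ^ 2 :=
    setIntegral_mono_set hint (Eventually.of_forall fun w => by positivity)
      (Eventually.of_forall hsub)
  have hfin : ‖H z‖ ^ 2 * (π * (1 / 2) ^ 2) ≤ ε ^ 2 * (π * (1 / 2) ^ 2) :=
    hmv.trans (hmono.trans (hY₀ _))
  have hsq : ‖H z‖ ^ 2 ≤ ε ^ 2 := le_of_mul_le_mul_right hfin (by positivity)
  exact (pow_le_pow_iff_left₀ (norm_nonneg _) hε.le (by norm_num)).mp hsq

/-- The function on `ℍ` attached to `f`. -/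
noncomputable def toH (f : ℂ → ℂ) : ℍ → ℂ := fun z => f (z : ℂ)

theorem toH_mdiff (f : ℂ → ℂ) (hf : DifferentiableOn ℂ f Uhp) : MDiff (toH f) := by
  rw [UpperHalfPlane.mdifferentiable_iff]
  refine hf.congr ?_
  intro z hz
  simp [toH, Function.comp, ofComplex_apply_of_im_pos hz]

theorem cd_eq_denom (g : SL(2, ℤ)) (z : ℍ) : cd g z = denom g z := by
  simp [cd, denom]

theorem toH_slash_of_mem (N : ℕ) (f : ℂ → ℂ)
    (hinv : ∀ (γ : Gamma0 N) (z : ℍ),
      f ↑((γ : SL(2, ℤ)) • z) = (cd (γ : SL(2, ℤ)) z) ^ 2 * f ↑z)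
    (γ : SL(2, ℤ)) (hγ : γ ∈ Gamma0 N) : (toH f) ∣[(2:ℤ)] γ = toH f := by
  ext z
  rw [ModularForm.SL_slash_apply]
  have h := hinv ⟨γ, hγ⟩ z
  simp only [toH] at h ⊢
  rw [h, cd_eq_denom]
  have hne : denom γ z ≠ 0 := denom_ne_zero _ z
  field_simp

/-- The slashed function as a function on `ℂ`. -/
noncomputable def Hc (f : ℂ → ℂ) (γ : SL(2, ℤ)) : ℂ → ℂ :=
  fun z => ((toH f) ∣[(2:ℤ)] γ) (ofComplex z)

theorem Hc_differentiableOn (f : ℂ → ℂ) (hf : DifferentiableOn ℂ f Uhp) (γ : SL(2, ℤ)) :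
    DifferentiableOn ℂ (Hc f γ) Uhp := by
  have h := (toH_mdiff f hf).slash 2 (γ : GL (Fin 2) ℝ)
  rw [UpperHalfPlane.mdifferentiable_iff] at h
  exact h

theorem norm_Hc_sq (f : ℂ → ℂ) (γ : SL(2, ℤ)) (z : ℂ) (hz : z ∈ Uhp) :
    ‖Hc f γ z‖ ^ 2 = ‖f (mob γ z)‖ ^ 2 / ‖cd γ z‖ ^ 4 := by
  have hz' : 0 < z.im := hz
  have hd : denom γ (ofComplex z) = cd γ z := by
    simp [cd, denom, ofComplex_apply_of_im_pos hz']
  simp only [Hc, mob]
  rw [ModularForm.SL_slash_apply, hd, norm_mul, mul_pow, norm_zpow, div_eq_mul_inv]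
  congr 1
  rw [← zpow_natCast, ← zpow_mul, ← zpow_natCast, ← zpow_neg]
  norm_num

theorem energy_Hc (f : ℂ → ℂ)
    (hE : ∀ δ : SL(2, ℤ), ∃ C : ℝ, ∀ Y : ℝ,
      ∫ z in strip Y, ‖f (mob δ z)‖ ^ 2 / ‖cd δ z‖ ^ 4 ≤ C) (γ : SL(2, ℤ)) :
    ∃ C : ℝ, ∀ Y : ℝ, ∫ z in strip Y, ‖Hc f γ z‖ ^ 2 ≤ C := by
  obtain ⟨C, hC⟩ := hE γ
  refine ⟨C, fun Y => ?_⟩
  rw [setIntegral_congr_fun (measurableSet_strip Y)
    (fun z hz => norm_Hc_sq f γ z (_root_.Fermat.Agent.S21.Cusp825.strip_subset_Uhp Y hz))]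
  exact hC Y

theorem slash_apply_eq_Hc (f : ℂ → ℂ) (δ : SL(2, ℤ)) (n : ℤ) (z : ℍ) :
    ((toH f) ∣[(2:ℤ)] δ) z = Hc f (δ * ModularGroup.T ^ n) ((z : ℂ) - n) := by
  have him : 0 < ((z : ℂ) - n).im := by simpa using z.im_pos
  set w : ℍ := ofComplex ((z : ℂ) - n) with hw
  have hwc : (w : ℂ) = (z : ℂ) - n := by
    rw [hw, ofComplex_apply_of_im_pos him]
  have hTw : ModularGroup.T ^ n • w = z := by
    ext1
    rw [ModularGroup.coe_T_zpow_smul_eq, hwc]
    ring
  have hden : denom (ModularGroup.T ^ n : SL(2, ℤ)) w = 1 := by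
    rw [← cd_eq_denom]
    simp [cd, ModularGroup.coe_T_zpow]
  have key : ((toH f) ∣[(2:ℤ)] (δ * ModularGroup.T ^ n)) w = ((toH f) ∣[(2:ℤ)] δ) z := by
    rw [SlashAction.slash_mul, ModularForm.SL_slash_apply, hTw, hden]
    simp
  exact key.symm

theorem conj_T_zpow_mem_Gamma0 (N : ℕ) (δ : SL(2, ℤ)) (k : ℤ) :
    δ * ModularGroup.T ^ ((N : ℤ) * k) * δ⁻¹ ∈ Gamma0 N := by
  have h1 : ModularGroup.T ^ ((N : ℤ) * k) ∈ CongruenceSubgroup.Gamma N := by
    simpa using ModularGroup_T_pow_mem_Gamma (N : ℤ) ((N : ℤ) * k) (dvd_mul_right _ _)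
  have h2 : δ * ModularGroup.T ^ ((N : ℤ) * k) * δ⁻¹ ∈ CongruenceSubgroup.Gamma N :=
    (Gamma_normal N).conj_mem _ h1 δ
  rw [Gamma_mem] at h2
  rw [Gamma0_mem]
  exact h2.2.2.1

theorem slash_mul_T_zpow (N : ℕ) (f : ℂ → ℂ)
    (hinv : ∀ (γ : Gamma0 N) (z : ℍ),
      f ↑((γ : SL(2, ℤ)) • z) = (cd (γ : SL(2, ℤ)) z) ^ 2 * f ↑z)
    (δ : SL(2, ℤ)) (k m : ℤ) :
    (toH f) ∣[(2:ℤ)] (δ * ModularGroup.T ^ ((N : ℤ) * k + m))
      = (toH f) ∣[(2:ℤ)] (δ * ModularGroup.T ^ m) := by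
  have h : δ * ModularGroup.T ^ ((N : ℤ) * k + m)
      = (δ * ModularGroup.T ^ ((N : ℤ) * k) * δ⁻¹) * (δ * ModularGroup.T ^ m) := by
    rw [zpow_add]
    group
  rw [h, SlashAction.slash_mul, toH_slash_of_mem N f hinv _ (conj_T_zpow_mem_Gamma0 N δ k)]

theorem isZeroAtImInfty_slash (N : ℕ) [NeZero N] (f : ℂ → ℂ)
    (hf : DifferentiableOn ℂ f Uhp)
    (hinv : ∀ (γ : Gamma0 N) (z : ℍ),
      f ↑((γ : SL(2, ℤ)) • z) = (cd (γ : SL(2, ℤ)) z) ^ 2 * f ↑z)
    (hE : ∀ δ : SL(2, ℤ), ∃ C : ℝ, ∀ Y : ℝ,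
      ∫ z in strip Y, ‖f (mob δ z)‖ ^ 2 / ‖cd δ z‖ ^ 4 ≤ C)
    (δ : SL(2, ℤ)) : IsZeroAtImInfty ((toH f) ∣[(2:ℤ)] δ) := by
  rw [isZeroAtImInfty_iff]
  intro ε hε
  have hb : ∀ m : ℕ, ∃ A : ℝ, ∀ z : ℂ, |z.re| ≤ 1 / 2 → A ≤ z.im →
      ‖Hc f (δ * ModularGroup.T ^ (m : ℤ)) z‖ ≤ ε := fun m =>
    exists_bound_of_energy _ (Hc_differentiableOn f hf _) (energy_Hc f hE _) hε
  choose A hA using hb
  obtain ⟨B, hB⟩ : ∃ B : ℝ, ∀ m ∈ Finset.range N, A m ≤ B := by
    obtain ⟨B, hB⟩ := ((Finset.range N).image A).bddAbove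
    exact ⟨B, fun m hm => hB (Finset.mem_image_of_mem A hm)⟩
  refine ⟨B, fun z hz => ?_⟩
  set n : ℤ := round z.re with hn
  have hNpos : (0 : ℤ) < (N : ℤ) := by exact_mod_cast Nat.pos_of_ne_zero (NeZero.ne N)
  have hmod0 : 0 ≤ n % (N : ℤ) := Int.emod_nonneg _ hNpos.ne'
  have hmodlt : n % (N : ℤ) < N := Int.emod_lt_of_pos _ hNpos
  set m : ℕ := (n % (N : ℤ)).toNat with hm
  have hmcast : (m : ℤ) = n % (N : ℤ) := Int.toNat_of_nonneg hmod0
  have hmN : m ∈ Finset.range N := by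
    rw [Finset.mem_range]
    have : (m : ℤ) < N := by rw [hmcast]; exact hmodlt
    exact_mod_cast this
  have hdecomp : n = (N : ℤ) * (n / (N : ℤ)) + (m : ℤ) := by
    rw [hmcast]; exact (Int.mul_ediv_add_emod n N).symm
  rw [slash_apply_eq_Hc f δ n z]
  have hslash := slash_mul_T_zpow N f hinv δ (n / (N : ℤ)) (m : ℤ)
  rw [← hdecomp] at hslash
  have hHc : Hc f (δ * ModularGroup.T ^ n) = Hc f (δ * ModularGroup.T ^ (m : ℤ)) := by
    funext w
    simp only [Hc, hslash]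
  rw [hHc]
  apply hA m
  · have : ((z : ℂ) - (n : ℂ)).re = z.re - n := by simp
    rw [this, hn]
    exact (abs_sub_round z.re)
  · have : ((z : ℂ) - (n : ℂ)).im = z.im := by simp
    rw [this]
    exact (hB m hmN).trans hz

theorem exists_cuspForm_of_zero (N : ℕ) [NeZero N] (f : ℂ → ℂ)
    (hf : DifferentiableOn ℂ f Uhp)
    (hinv : ∀ (γ : Gamma0 N) (z : ℍ),
      f ↑((γ : SL(2, ℤ)) • z) = (cd (γ : SL(2, ℤ)) z) ^ 2 * f ↑z)
    (hzero : ∀ δ : SL(2, ℤ), IsZeroAtImInfty ((toH f) ∣[(2:ℤ)] δ)) :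
    ∃ F : CuspForm (Gamma0 N) 2, ∀ z : ℍ, F z = f ↑z := by
  refine ⟨{ toFun := toH f
            slash_action_eq' := ?_
            holo' := toH_mdiff f hf
            zero_at_cusps' := ?_ }, fun z => rfl⟩
  · intro γ hγ
    obtain ⟨γ₀, hγ₀, rfl⟩ := Subgroup.mem_map.mp hγ
    exact toH_slash_of_mem N f hinv γ₀ hγ₀
  · intro c hc
    have hc' : IsCusp c 𝒮ℒ :=
      (Subgroup.IsArithmetic.isCusp_iff_isCusp_SL2Z _).mp hc
    rw [OnePoint.isZeroAt_iff_forall_SL2Z hc']
    intro γ _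
    exact hzero γ

end Cusp825

/-- **Cusp**: a holomorphic weight-2 invariant function with bounded energy in the cusp strips
is a cusp form. -/
theorem exists_cuspForm_of_energy (N : ℕ) [NeZero N] (f : ℂ → ℂ)
    (hf : DifferentiableOn ℂ f Uhp)
    (hinv : ∀ (γ : Gamma0 N) (z : ℍ),
      f ↑((γ : SL(2, ℤ)) • z) = (cd (γ : SL(2, ℤ)) z) ^ 2 * f ↑z)
    (hE : ∀ δ : SL(2, ℤ), ∃ C : ℝ, ∀ Y : ℝ,
      ∫ z in strip Y, ‖f (mob δ z)‖ ^ 2 / ‖cd δ z‖ ^ 4 ≤ C) :
    ∃ F : CuspForm (Gamma0 N) 2, ∀ z : ℍ, F z = f ↑z :=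
  Cusp825.exists_cuspForm_of_zero N f hf hinv
    (Cusp825.isZeroAtImInfty_slash N f hf hinv hE)

end Fermat.Agent.S21

end
-- ===== PACK-END S21/Cusp.lean

-- ===== PACK-BEGIN Ribet/H584/IncAnCusp.lean
section
/-
RIBET row 38, WALL-p, I3 leaf INC-AN, piece CUSP (analytic) — helper584.

If `F` has a convergent Laurent expansion `φ` in `z = exp (2πiτ/N)` and `F · q → 0` at `i∞`
(`q = z ^ N`), then `φ = 0` or `1 - N ≤ ord φ`.
-/


set_option autoImplicit false

noncomputable section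

namespace Fermat.Agent.Ribet.H584

open Complex Function Filter
open UpperHalfPlane hiding I
open Fermat.Agent.S24.H708
open scoped Manifold Real Topology

variable {N : ℕ} [NeZero N]

/-- A function with a `q_N`-expansion which tends to `0` at `i∞` has an expansion of positive
order (or `0`). -/
theorem order_pos_of_isZeroAtImInfty {G : ℍ → ℂ} {ψ : LaurentSeries ℂ} (hG : HasQExp N G ψ)
    (h0 : IsZeroAtImInfty G) : ∀ n : ℤ, n < 1 → ψ.coeff n = 0 := by
  have hhol : IsHolInf N G := ⟨hG.mdiff, hG.isMerInf.per, h0.isBoundedAtImInfty⟩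
  have hψ : ψ = HahnSeries.ofPowerSeries ℤ ℂ (qExpansion (N : ℝ) G) := by
    rw [← hG.qexpFun_eq, qexpFun_of_isHolInf hhol]
  have hc0 : (qExpansion (N : ℝ) G).coeff 0 = 0 := by
    rw [qExpansion_coeff]
    simp [h0.cuspFunction_apply_zero (hpos N)]
  intro n hn
  rw [hψ, PowerSeries.coeff_coe]
  split_ifs with h
  · rfl
  · have : n = 0 := by omega
    subst this
    simpa using hc0

/-- `q = z ^ N` in the `q_N`-expansion language. -/
theorem hasQExp_qh_one : HasQExp N (qh 1) (HahnSeries.single (N : ℤ) (1 : ℂ)) := by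
  refine HasQExp.of_hasSum (mdiff_qh 1) fun τ => ?_
  have hq : qh 1 τ = qh N τ ^ (N : ℤ) := by
    rw [qh_apply, qh_apply, Function.Periodic.qParam, Function.Periodic.qParam, zpow_natCast,
      ← Complex.exp_nat_mul]
    congr 1
    have hN : (N : ℂ) ≠ 0 := by exact_mod_cast NeZero.ne N
    push_cast
    field_simp
  have h := hasSum_single (f := fun n : ℤ => (HahnSeries.single (N : ℤ) (1 : ℂ)).coeff n *
    qh N τ ^ n) (N : ℤ) (fun n hn => by
      show (HahnSeries.single (N : ℤ) (1 : ℂ)).coeff n * qh N τ ^ n = 0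
      rw [HahnSeries.coeff_single_of_ne hn, zero_mul])
  simp only [HahnSeries.coeff_single_same, one_mul] at h
  rw [hq]
  exact h

/-- **CUSP.**  If `F · q → 0` at `i∞` then the `q_N`-expansion of `F` has no terms of degree
`≤ -N`. -/
theorem coeff_eq_zero_of_isZeroAtImInfty_mul_q {F : ℍ → ℂ} {φ : LaurentSeries ℂ}
    (hF : HasQExp N F φ) (h0 : IsZeroAtImInfty (fun τ => F τ * qh 1 τ)) :
    ∀ n : ℤ, n < 1 - N → φ.coeff n = 0 := by
  have hG : HasQExp N (F * qh 1) (φ * HahnSeries.single (N : ℤ) (1 : ℂ)) := hF.mul hasQExp_qh_one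
  have h := order_pos_of_isZeroAtImInfty hG h0
  intro n hn
  have h1 := h (n + N) (by omega)
  rwa [HahnSeries.coeff_mul_single_add, mul_one] at h1

theorem order_ge_of_isZeroAtImInfty_mul_q {F : ℍ → ℂ} {φ : LaurentSeries ℂ}
    (hF : HasQExp N F φ) (h0 : IsZeroAtImInfty (fun τ => F τ * qh 1 τ)) (hφ : φ ≠ 0) :
    1 - (N : ℤ) ≤ φ.order :=
  (HahnSeries.le_order_iff_forall hφ).mpr (coeff_eq_zero_of_isZeroAtImInfty_mul_q hF h0)

end Fermat.Agent.Ribet.H584

end
end
-- ===== PACK-END Ribet/H584/IncAnCusp.lean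

-- ===== PACK-BEGIN S18/H602/BaseChange.lean
section



/-!
# S18, piece d1 (continued): `laurentBaseChange L (modularFunctionFieldFull N)` is
`modularFunctionFieldFullC L N`  (owner helper602)

For every field `L` of characteristic zero, the base change to `L` of the rational function
field `ℚ(j(q^d) : d ∣ N)` is `L(j(q^d) : d ∣ N)`, inside `L((q))`.
-/

set_option autoImplicit false

noncomputable section

namespace Fermat.Agent.S18.H602

open ModularCurve AlgebraicCurve HahnSeries IntermediateField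

section BaseChange

variable (L : Type*) [Field L] [Algebra ℚ L] (N : ℕ)

theorem coeffEmb_qExpand_jq (d : ℕ) [NeZero d] :
    coeffEmb L (qExpand ℚ d jq) = qExpand L d (jqModC L) := by
  have h := coeffMap_jqNModC (algebraMap ℚ L) d
  exact h

theorem coeffEmb_mem_fullC {x : LaurentSeries ℚ} (hx : x ∈ modularFunctionFieldFull N) :
    coeffEmb L x ∈ modularFunctionFieldFullC L N := by
  unfold modularFunctionFieldFull at hx
  induction hx using IntermediateField.adjoin_induction with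
  | mem y hy =>
      obtain ⟨d, hd, hdN, rfl⟩ := hy
      rw [coeffEmb_qExpand_jq]
      exact jqModCd_mem_full L N hdN
  | algebraMap c =>
      have : coeffEmb L (algebraMap ℚ (LaurentSeries ℚ) c) =
          algebraMap L (LaurentSeries L) (algebraMap ℚ L c) := by
        rw [coeffEmb, algebraMap_laurentSeries_eq_single, algebraMap_laurentSeries_eq_single,
          coeffMap_single]
      rw [this]
      exact (modularFunctionFieldFullC L N).algebraMap_mem _
  | add x y _ _ hx hy => simpa using add_mem hx hy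
  | inv x _ hx => simpa using inv_mem hx
  | mul x y _ _ hx hy => simpa using mul_mem hx hy

/-- The base change of `ℚ(j(q^d) : d ∣ N)` to `L` is `L(j(q^d) : d ∣ N)`. -/
theorem laurentBaseChange_full_eq :
    laurentBaseChange L (modularFunctionFieldFull N) = modularFunctionFieldFullC L N := by
  apply le_antisymm
  · rw [laurentBaseChange, IntermediateField.adjoin_le_iff]
    rintro _ ⟨x, hx, rfl⟩
    exact coeffEmb_mem_fullC L N hx
  · rw [modularFunctionFieldFullC, IntermediateField.adjoin_le_iff]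
    rintro _ ⟨d, hd, hdN, rfl⟩
    rw [← coeffEmb_qExpand_jq]
    exact coeffEmb_mem_laurentBaseChange L (jqd_mem_full N hdN)

theorem modularFunctionFieldBar_eq :
    modularFunctionFieldBar N = modularFunctionFieldFullC (AlgebraicClosure ℚ) N :=
  laurentBaseChange_full_eq _ N

end BaseChange

end Fermat.Agent.S18.H602

end
end
-- ===== PACK-END S18/H602/BaseChange.lean

-- ===== PACK-BEGIN S37/Red/H399/NormRed.lean
section



/-!
# S37-RED, piece RED-A1 (helper399): norms commute with reduction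

`Fermat.Agent.S37.Red.H399.normRed : NormRedStatement G` for every reduction datum `G`
(interface `Fermat/Agent/S37/Red/Spec.lean` of helper40).

Route (coord/S37-red.md, A1): for an auxiliary coordinate `t`
* `O ∩ K = A` and `ker ρ = 𝔪_O` (`mem_O_iff_mem_A`, `rho_eq_zero_iff`);
* Gauss lemma: `ρ (O ∩ K(t)) ⊆ k(t̄)` (`rho_mem_adjoin`);
* lifts of a `k(t̄)`-basis of `F_k` are residually independent over `O ∩ K(t)`, hence a basis of
  `F / K(t)` (helper217's lattice lemmas, `Fermat/Agent/S37/H217/Lattice.lean`), and the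
  norm is the determinant of an integral matrix which reduces to the matrix of `ρ y`.
-/

set_option autoImplicit false

noncomputable section

namespace Fermat.Agent.S37.Red.H399

open AlgebraicCurve IntermediateField Polynomial Fermat.Agent.S37.H217

universe u

variable {K k F Fk : Type u} [Field K] [Field k] [Field F] [Field Fk]
  [Algebra K F] [Algebra k Fk] {A : ValuationSubring K} {π : A →+* k} (G : Datum A π F Fk)

/-- the kernel of `ρ` is the maximal ideal of `O` -/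
theorem rho_eq_zero_iff (y : G.O) : G.ρ y = 0 ↔ (y : F) ∈ G.O.nonunits := by
  have hmax : (RingHom.ker G.ρ).IsMaximal := RingHom.ker_isMaximal_of_surjective G.ρ G.ρ_surj
  have hker : RingHom.ker G.ρ = IsLocalRing.maximalIdeal G.O := IsLocalRing.eq_maximalIdeal hmax
  rw [← RingHom.mem_ker, hker, ValuationSubring.coe_mem_nonunits_iff]

/-- the kernel of `π` is the maximal ideal of `A` -/
theorem pi_eq_zero_iff (G : Datum A π F Fk) (a : A) : π a = 0 ↔ (a : K) ∈ A.nonunits := by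
  have hmax : (RingHom.ker π).IsMaximal := RingHom.ker_isMaximal_of_surjective π G.π_surj
  have hker : RingHom.ker π = IsLocalRing.maximalIdeal A := IsLocalRing.eq_maximalIdeal hmax
  rw [← RingHom.mem_ker, hker, ValuationSubring.coe_mem_nonunits_iff]

/-- the total reduction agrees with `ρ` on `O` -/
theorem red_eq_of_mem {f : F} (hf : f ∈ G.O) : G.red f = G.ρ ⟨f, hf⟩ := by
  rw [Datum.red, dif_pos hf]

/-- the ring homomorphism `A → O` -/
def constHom : A →+* G.O where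
  toFun a := ⟨algebraMap K F (a : K), G.const_mem a⟩
  map_one' := Subtype.ext (by simp)
  map_mul' a b := Subtype.ext (by simp)
  map_zero' := Subtype.ext (by simp)
  map_add' a b := Subtype.ext (by simp)

@[simp] theorem coe_constHom (a : A) : ((constHom G a : G.O) : F) = algebraMap K F (a : K) := rfl

theorem rho_constHom (a : A) : G.ρ (constHom G a) = algebraMap k Fk (π a) := G.ρ_const a

theorem rho_comp_constHom : G.ρ.comp (constHom G) = (algebraMap k Fk).comp π :=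
  RingHom.ext fun a => rho_constHom G a

/-- `O ∩ K = A` -/
theorem mem_O_iff_mem_A (c : K) : algebraMap K F c ∈ G.O ↔ c ∈ A := by
  constructor
  · intro hc
    by_contra hcA
    have hc0 : c ≠ 0 := fun h => hcA (h ▸ A.zero_mem)
    have hinv : c⁻¹ ∈ A := (A.mem_or_inv_mem c).resolve_left hcA
    have hnu : c⁻¹ ∈ A.nonunits := (A.inv_mem_nonunits_iff).mpr (Or.inr hcA)
    have h0 : π ⟨c⁻¹, hinv⟩ = 0 := (pi_eq_zero_iff G ⟨c⁻¹, hinv⟩).mpr hnu
    have h1 : G.ρ (constHom G ⟨c⁻¹, hinv⟩) = 0 := by rw [rho_constHom, h0, map_zero]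
    have h2 : G.ρ (constHom G ⟨c⁻¹, hinv⟩ * ⟨algebraMap K F c, hc⟩) = 0 := by
      rw [map_mul, h1, zero_mul]
    have h3 : constHom G ⟨c⁻¹, hinv⟩ * ⟨algebraMap K F c, hc⟩ = 1 := by
      apply Subtype.ext
      show algebraMap K F c⁻¹ * algebraMap K F c = 1
      rw [← map_mul, inv_mul_cancel₀ hc0, map_one]
    rw [h3, map_one] at h2
    exact one_ne_zero h2
  · intro hc
    exact G.const_mem ⟨c, hc⟩

omit [Field F] [Field Fk] [Algebra K F] [Algebra k Fk] in
/-- scaling a nonzero polynomial over `K` to a primitive polynomial over `A` -/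
theorem exists_primitive (π : A →+* k) (P : K[X]) (hP : P ≠ 0) :
    ∃ (c : K) (P₀ : A[X]), c ≠ 0 ∧ P = C c * P₀.map A.subtype ∧ P₀.map π ≠ 0 := by
  classical
  have hsupp : P.support.Nonempty := Polynomial.support_nonempty.mpr hP
  obtain ⟨m, hm, hmax⟩ := Finset.exists_max_image P.support (fun i => A.valuation (P.coeff i)) hsupp
  have hc0 : P.coeff m ≠ 0 := Polynomial.mem_support_iff.mp hm
  have hv0 : A.valuation (P.coeff m) ≠ 0 := (_root_.map_ne_zero _).mpr hc0
  have hmem : ∀ i, (P.coeff m)⁻¹ * P.coeff i ∈ A := by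
    intro i
    by_cases hi : i ∈ P.support
    · rw [← ValuationSubring.valuation_le_one_iff, map_mul, map_inv₀,
        inv_mul_le_iff₀ (zero_lt_iff.mpr hv0), mul_one]
      exact hmax i hi
    · rw [Polynomial.notMem_support_iff.mp hi, mul_zero]
      exact A.zero_mem
  have hlift : C (P.coeff m)⁻¹ * P ∈ Polynomial.lifts A.subtype := by
    rw [Polynomial.lifts_iff_coeff_lifts]
    intro i
    rw [Polynomial.coeff_C_mul]
    exact ⟨⟨_, hmem i⟩, rfl⟩
  obtain ⟨P₀, hP₀⟩ := (Polynomial.mem_lifts _).mp hlift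
  refine ⟨P.coeff m, P₀, hc0, ?_, ?_⟩
  · rw [hP₀, ← mul_assoc, ← C_mul, mul_inv_cancel₀ hc0, C_1, one_mul]
  · intro h
    have h1 : (P₀.map π).coeff m = 0 := by rw [h, coeff_zero]
    rw [coeff_map] at h1
    have h2 : ((P₀.coeff m : A) : K) = 1 := by
      have := congrArg (fun Q => Q.coeff m) hP₀
      simp only [coeff_map, coeff_C_mul] at this
      rw [ValuationSubring.subtype_apply] at this
      rw [this, inv_mul_cancel₀ hc0]
    have h3 : P₀.coeff m = 1 := Subtype.ext h2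
    rw [h3, map_one] at h1
    exact one_ne_zero h1


section Aux

variable {G} {t : F} (ht : G.AuxCoord t)

include ht

theorem red_t_eq : G.red t = G.ρ ⟨t, ht.mem⟩ := by
  rw [Datum.red, dif_pos ht.mem]

/-- value in `O` of a polynomial over `A` at `t` -/
def evalO (P : A[X]) : G.O := P.eval₂ (constHom G) ⟨t, ht.mem⟩

theorem coe_evalO (P : A[X]) :
    ((evalO ht P : G.O) : F) = aeval t (P.map A.subtype) := by
  have h := Polynomial.hom_eval₂ P (constHom G) G.O.subtype ⟨t, ht.mem⟩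
  rw [aeval_def, eval₂_map]
  exact h

theorem rho_evalO (P : A[X]) : G.ρ (evalO ht P) = aeval (G.red t) (P.map π) := by
  rw [evalO, Polynomial.hom_eval₂, rho_comp_constHom, aeval_def, eval₂_map, red_t_eq ht]

theorem rho_evalO_ne_zero {P : A[X]} (hP : P.map π ≠ 0) : G.ρ (evalO ht P) ≠ 0 := by
  rw [rho_evalO ht]
  intro h
  exact hP (transcendental_iff.mp ht.transc _ h)

/-- **Gauss lemma**: the reduction of an element of `O ∩ K(t)` lies in `k(t̄)`. -/
theorem rho_mem_adjoin (f : F) (hf : f ∈ K⟮t⟯) (hfO : f ∈ G.O) :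
    G.ρ ⟨f, hfO⟩ ∈ k⟮G.red t⟯ := by
  obtain ⟨P, Q, hPQ⟩ := (IntermediateField.mem_adjoin_simple_iff K f).mp hf
  by_cases hP : P = 0
  · have : (⟨f, hfO⟩ : G.O) = 0 := Subtype.ext (by
      show f = 0
      rw [hPQ, hP, map_zero, zero_div])
    rw [this, map_zero]
    exact zero_mem _
  by_cases hQ : Q = 0
  · have : (⟨f, hfO⟩ : G.O) = 0 := Subtype.ext (by
      show f = 0
      rw [hPQ, hQ, map_zero, div_zero])
    rw [this, map_zero]
    exact zero_mem _
  obtain ⟨c, P₀, hc, hPc, hP₀⟩ := exists_primitive π P hP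
  obtain ⟨d, Q₀, hd, hQd, hQ₀⟩ := exists_primitive π Q hQ
  have hPne := rho_evalO_ne_zero ht hP₀
  have hQne := rho_evalO_ne_zero ht hQ₀
  -- the constant `c / d` lies in `A`
  have hP0F : ((evalO ht P₀ : G.O) : F) ≠ 0 := by
    intro h
    apply hPne
    have : evalO ht P₀ = 0 := Subtype.ext h
    rw [this, map_zero]
  have hQ0F : ((evalO ht Q₀ : G.O) : F) ≠ 0 := by
    intro h
    apply hQne
    have : evalO ht Q₀ = 0 := Subtype.ext h
    rw [this, map_zero]
  have hfeq : f * (evalO ht Q₀ : G.O) = algebraMap K F (c / d) * (evalO ht P₀ : G.O) := by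
    rw [hPQ, hPc, hQd, coe_evalO, coe_evalO, map_mul, map_mul, aeval_C, aeval_C, map_div₀]
    have hdF : algebraMap K F d ≠ 0 := (_root_.map_ne_zero _).mpr hd
    have hQ0F' : aeval t (Q₀.map A.subtype) ≠ 0 := by rw [← coe_evalO ht]; exact hQ0F
    field_simp
  -- `P₀(t)` is a unit of `O`
  have hPunit : IsUnit (evalO ht P₀) := by
    by_contra hnu
    apply hPne
    rw [rho_eq_zero_iff, ValuationSubring.coe_mem_nonunits_iff, IsLocalRing.mem_maximalIdeal]
    exact hnu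
  obtain ⟨u, hu⟩ := hPunit
  have hcdO : algebraMap K F (c / d) ∈ G.O := by
    have h1 : algebraMap K F (c / d) =
        ((⟨f, hfO⟩ * evalO ht Q₀ * ((u⁻¹ : G.Oˣ) : G.O) : G.O) : F) := by
      have h2 : ((u : G.O) : F) * (((u⁻¹ : G.Oˣ) : G.O) : F) = 1 := by
        exact congrArg Subtype.val (Units.mul_inv u)
      rw [hu] at h2
      show _ = f * (evalO ht Q₀ : G.O) * (((u⁻¹ : G.Oˣ) : G.O) : F)
      rw [hfeq, mul_assoc, h2, mul_one]
    rw [h1]
    exact Subtype.property _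
  have hcdA : c / d ∈ A := (mem_O_iff_mem_A G _).mp hcdO
  -- now compute the reduction
  have hkey : (⟨f, hfO⟩ : G.O) * evalO ht Q₀ = constHom G ⟨c / d, hcdA⟩ * evalO ht P₀ :=
    Subtype.ext hfeq
  have hρ := congrArg G.ρ hkey
  rw [map_mul, map_mul, rho_constHom, rho_evalO ht, rho_evalO ht] at hρ
  have hQne' : aeval (G.red t) (Q₀.map π) ≠ 0 := by rw [← rho_evalO ht]; exact hQne
  have : G.ρ ⟨f, hfO⟩ =
      algebraMap k Fk (π ⟨c / d, hcdA⟩) * aeval (G.red t) (P₀.map π) /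
        aeval (G.red t) (Q₀.map π) := by
    rw [eq_div_iff hQne']
    exact hρ
  rw [this]
  refine div_mem (mul_mem (IntermediateField.algebraMap_mem _ _) ?_) ?_
  · exact IntermediateField.algebra_adjoin_le_adjoin k _ (Polynomial.aeval_mem_adjoin_singleton k _)
  · exact IntermediateField.algebra_adjoin_le_adjoin k _ (Polynomial.aeval_mem_adjoin_singleton k _)

end Aux

/-! ### The Gauss valuation ring of `K(t)` and the lifted basis -/

/-- the valuation ring `O ∩ K(t)` of `K(t)` -/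
def gaussRing (t : F) : ValuationSubring K⟮t⟯ := G.O.comap (algebraMap K⟮t⟯ F)

theorem valExtends_gaussRing (t : F) : ValExtends (gaussRing G t) G.O :=
  fun _ => Iff.rfl

/-- the inclusion `O ∩ K(t) → O` -/
def inclO (t : F) : gaussRing G t →+* G.O where
  toFun a := ⟨algebraMap K⟮t⟯ F (a : K⟮t⟯), a.2⟩
  map_one' := Subtype.ext (by simp)
  map_mul' a b := Subtype.ext (by simp)
  map_zero' := Subtype.ext (by simp)
  map_add' a b := Subtype.ext (by simp)

@[simp] theorem coe_inclO (t : F) (a : gaussRing G t) :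
    ((inclO G t a : G.O) : F) = ((a : K⟮t⟯) : F) := rfl

section Main

variable {G} {t : F} (ht : G.AuxCoord t)

/-- reduction `O ∩ K(t) → k(t̄)` -/
def rho₀ : gaussRing G t →+* k⟮G.red t⟯ :=
  (G.ρ.comp (inclO G t)).codRestrict k⟮G.red t⟯
    (fun a => rho_mem_adjoin ht _ (a : K⟮t⟯).2 a.2)

theorem coe_rho₀ (a : gaussRing G t) : ((rho₀ ht a : k⟮G.red t⟯) : Fk) = G.ρ (inclO G t a) := rfl

include ht

/-- **RED-A1**, for one auxiliary coordinate. -/
theorem normRed_aux (y : F) (hy : y ∈ G.O) :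
    ((Algebra.norm K⟮t⟯ y : K⟮t⟯) : F) ∈ G.O ∧
      G.red ((Algebra.norm K⟮t⟯ y : K⟮t⟯) : F) =
        ((Algebra.norm k⟮G.red t⟯ (G.red y) : k⟮G.red t⟯) : Fk) := by
  classical
  have := ht.finite
  have := ht.finite_k
  have h := valExtends_gaussRing G t
  -- a basis of `F_k / k(t̄)` and lifts to `O`
  let b₁ := Module.finBasis k⟮G.red t⟯ Fk
  have hnpos : 0 < Module.finrank k⟮G.red t⟯ Fk := Module.finrank_pos
  have : Nonempty (Fin (Module.finrank k⟮G.red t⟯ Fk)) := ⟨⟨0, hnpos⟩⟩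
  choose e he using fun i => G.ρ_surj (b₁ i)
  have hR : ResidIndep (gaussRing G t) G.O (fun i => ((e i : G.O) : F)) := by
    intro c hc hsum i
    have hs : (∑ i, c i • ((e i : G.O) : F)) =
        ((∑ i, inclO G t ⟨c i, hc i⟩ * e i : G.O) : F) := by
      rw [← ValuationSubring.subtype_apply, map_sum]
      refine Finset.sum_congr rfl fun i _ => ?_
      rw [Algebra.smul_def]
      rfl
    rw [hs] at hsum
    have h0 : G.ρ (∑ i, inclO G t ⟨c i, hc i⟩ * e i) = 0 := (rho_eq_zero_iff G _).mpr hsum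
    rw [map_sum] at h0
    have h1 : ∑ i, rho₀ ht ⟨c i, hc i⟩ • b₁ i = 0 := by
      rw [← h0]
      refine Finset.sum_congr rfl fun i _ => ?_
      rw [map_mul, he i, Algebra.smul_def]
      rfl
    have h2 := Fintype.linearIndependent_iff.mp b₁.linearIndependent _ h1 i
    have h3 : G.ρ (inclO G t ⟨c i, hc i⟩) = 0 := by
      rw [← coe_rho₀ ht, h2]
      rfl
    have h4 := (rho_eq_zero_iff G _).mp h3
    exact (h.mem_nonunits_iff (c i)).mp h4
  have hcard : Fintype.card (Fin (Module.finrank k⟮G.red t⟯ Fk)) = Module.finrank K⟮t⟯ F := by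
    rw [Fintype.card_fin, ht.finrank_eq]
  obtain ⟨b, hb⟩ := exists_basis_of_residIndep hR hcard
  have hR' : ResidIndep (gaussRing G t) G.O ⇑b := by rw [hb]; exact hR
  have hbO : ∀ i, b i ∈ G.O := fun i => by rw [hb]; exact (e i).2
  have hb₁ : ∀ i, G.ρ ⟨b i, hbO i⟩ = b₁ i := by
    intro i
    have : (⟨b i, hbO i⟩ : G.O) = e i := Subtype.ext (congrFun hb i)
    rw [this, he i]
  have hρ : ∀ a : gaussRing G t,
      G.ρ ⟨algebraMap K⟮t⟯ F a, (h a).mpr a.2⟩ = algebraMap k⟮G.red t⟯ Fk (rho₀ ht a) :=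
    fun a => rfl
  have key := map_norm_eq_norm_map h b hR' hbO (rho₀ ht) G.ρ hρ b₁ hb₁ ⟨y, hy⟩
  have hmem : ((Algebra.norm K⟮t⟯ y : K⟮t⟯) : F) ∈ G.O := norm_mem h b hR' hbO hy
  refine ⟨hmem, ?_⟩
  rw [red_eq_of_mem G hmem, red_eq_of_mem G hy]
  exact congrArg Subtype.val key

end Main

/-- **RED-A1 (norms commute with reduction)**: `NormRedStatement` of the frozen interface. -/
theorem normRed : NormRedStatement G :=
  fun _ ht y hy => normRed_aux ht y hy

end Fermat.Agent.S37.Red.H399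

end
end
-- ===== PACK-END S37/Red/H399/NormRed.lean

-- ===== PACK-BEGIN S37/H939/Fibre.lean
section



/-!
# Fibres of a finite free `k[X]`-algebra over rational points
(row S37 / S18, piece b2 = R2; seat helper939)
-/

set_option autoImplicit false
set_option linter.unusedSectionVars false

namespace Fermat.Agent.S37.H939

open Polynomial Matrix

variable {k : Type*} [Field k]

section Defs

variable (T : Type*) [CommRing T] [Algebra k[X] T]

/-- The ideal of the fibre of `T` over `X = c`. -/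
def fibreIdeal (c : k) : Ideal T := Ideal.span {algebraMap k[X] T (X - C c)}

variable [Algebra k T]

/-- The dimension of the reduced fibre over `X = c`
(the number of geometric points of the fibre when `k` is perfect). -/
noncomputable def redRank (c : k) : ℕ := Module.finrank k (T ⧸ (fibreIdeal T c).radical)

end Defs

section Coord

variable {T : Type*} [CommRing T] [Algebra k[X] T] [Algebra k T] [IsScalarTower k k[X] T]
variable {ι : Type*} [Fintype ι] [DecidableEq ι] (b : Module.Basis ι k[X] T)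

lemma mem_fibreIdeal_iff (c : k) (z : T) :
    z ∈ fibreIdeal T c ↔ ∀ i, (X - C c) ∣ b.repr z i := by
  rw [fibreIdeal, Ideal.mem_span_singleton]
  constructor
  · rintro ⟨y, rfl⟩ i
    rw [← Algebra.smul_def, map_smul]
    exact ⟨b.repr y i, by simp⟩
  · intro h
    choose q hq using h
    refine ⟨∑ i, q i • b i, ?_⟩
    rw [← Algebra.smul_def, Finset.smul_sum]
    conv_lhs => rw [← b.sum_repr z]
    refine Finset.sum_congr rfl fun i _ => ?_
    rw [hq i, mul_smul]

/-- Coordinates modulo `X - c`. -/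
noncomputable def coord (c : k) : T →ₗ[k] (ι → k) where
  toFun z i := (b.repr z i).eval c
  map_add' x y := by ext i; simp
  map_smul' a z := by
    ext i
    have : a • z = (C a : k[X]) • z := by
      rw [← Polynomial.algebraMap_eq, algebraMap_smul]
    simp [this]

@[simp] lemma coord_apply (c : k) (z : T) (i : ι) : coord b c z i = (b.repr z i).eval c := rfl

/-- The constant lift of a coordinate vector. -/
noncomputable def lift : (ι → k) →ₗ[k] T where
  toFun v := ∑ i, (C (v i) : k[X]) • b i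
  map_add' x y := by simp [add_smul, Finset.sum_add_distrib]
  map_smul' a v := by
    simp only [Pi.smul_apply, smul_eq_mul, RingHom.id_apply, Finset.smul_sum]
    refine Finset.sum_congr rfl fun i _ => ?_
    rw [C_mul, mul_smul, ← Polynomial.algebraMap_eq, algebraMap_smul]

lemma lift_apply (v : ι → k) : lift b v = ∑ i, (C (v i) : k[X]) • b i := rfl

@[simp] lemma repr_lift (v : ι → k) (i : ι) : b.repr (lift b v) i = C (v i) := by
  simp [lift_apply, Finsupp.single_apply, Finset.sum_apply']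

@[simp] lemma coord_lift (c : k) (v : ι → k) : coord b c (lift b v) = v := by
  ext i; simp

lemma coord_eq_zero_iff (c : k) (z : T) : coord b c z = 0 ↔ z ∈ fibreIdeal T c := by
  rw [mem_fibreIdeal_iff b]
  constructor
  · intro h i
    rw [Polynomial.dvd_iff_isRoot]
    exact congrFun h i
  · intro h
    ext i
    exact Polynomial.dvd_iff_isRoot.mp (h i)

lemma sub_lift_coord_mem (c : k) (z : T) : z - lift b (coord b c z) ∈ fibreIdeal T c := by
  rw [← coord_eq_zero_iff b, map_sub, coord_lift, sub_self]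

lemma coord_surjective (c : k) : Function.Surjective (coord b c) :=
  fun v => ⟨lift b v, coord_lift b c v⟩

end Coord

end Fermat.Agent.S37.H939

namespace Fermat.Agent.S37.H939

open Polynomial Matrix

variable {k : Type*} [Field k]

section Trace

variable {T : Type*} [CommRing T] [Algebra k[X] T] [Algebra k T] [IsScalarTower k k[X] T]
variable {ι : Type*} [Fintype ι] [DecidableEq ι] (b : Module.Basis ι k[X] T)

include b in
/-- The trace of an element which is nilpotent on the fibre vanishes at `c`. -/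
lemma eval_trace_eq_zero_of_mem_radical (c : k) {y : T} (hy : y ∈ (fibreIdeal T c).radical) :
    (Algebra.trace k[X] T y).eval c = 0 := by
  obtain ⟨m, hm⟩ := hy
  rw [fibreIdeal, Ideal.mem_span_singleton] at hm
  obtain ⟨z, hz⟩ := hm
  set A : Matrix ι ι k[X] := Algebra.leftMulMatrix b y with hA
  have h1 : A ^ m = (X - C c) • Algebra.leftMulMatrix b z := by
    rw [hA, ← map_pow, hz, map_mul, AlgHom.commutes, Matrix.algebraMap_eq_diagonal]
    ext i j
    simp [Matrix.diagonal_mul]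
  have h2 : ((evalRingHom c).mapMatrix A) ^ m = 0 := by
    rw [← map_pow, h1]
    ext i j
    simp
  have h3 : IsNilpotent ((evalRingHom c).mapMatrix A).trace :=
    Matrix.isNilpotent_trace_of_isNilpotent ⟨m, h2⟩
  have h4 : ((evalRingHom c).mapMatrix A).trace = 0 := h3.eq_zero
  rw [Algebra.trace_eq_matrix_trace b, ← hA]
  have h5 : ((evalRingHom c).mapMatrix A).trace = (evalRingHom c) A.trace := by
    simp [Matrix.trace, map_sum]
  rw [h5] at h4
  exact h4

/-- The rank of the trace matrix evaluated at `c` is at most the dimension of the reduced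
fibre. -/
theorem rank_traceMatrix_eval_le (c : k) :
    ((Algebra.traceMatrix k[X] b).map (evalRingHom c)).rank ≤ redRank T c := by
  classical
  set G : Matrix ι ι k := (Algebra.traceMatrix k[X] b).map (evalRingHom c) with hG
  let Rad : Ideal T := (fibreIdeal T c).radical
  let Ψ : (ι → k) →ₗ[k] T ⧸ Rad := (Ideal.Quotient.mkₐ k Rad).toLinearMap ∘ₗ lift b
  have hΨsurj : Function.Surjective Ψ := by
    intro q
    obtain ⟨z, rfl⟩ := Ideal.Quotient.mk_surjective q
    refine ⟨coord b c z, ?_⟩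
    show Ideal.Quotient.mk Rad (lift b (coord b c z)) = Ideal.Quotient.mk Rad z
    rw [eq_comm, Ideal.Quotient.eq]
    exact Ideal.le_radical (sub_lift_coord_mem b c z)
  have hker : LinearMap.ker Ψ ≤ LinearMap.ker G.mulVecLin := by
    intro v hv
    rw [LinearMap.mem_ker] at hv ⊢
    have hv' : lift b v ∈ Rad := by
      have : Ideal.Quotient.mk Rad (lift b v) = 0 := hv
      exact Ideal.Quotient.eq_zero_iff_mem.mp this
    ext i
    rw [Matrix.mulVecLin_apply, Pi.zero_apply]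
    have hmem : b i * lift b v ∈ Rad := Rad.mul_mem_left _ hv'
    have h0 := eval_trace_eq_zero_of_mem_radical b c hmem
    rw [lift_apply, Finset.mul_sum, map_sum, eval_finsetSum] at h0
    rw [← h0, Matrix.mulVec, dotProduct]
    refine Finset.sum_congr rfl fun j _ => ?_
    rw [hG, Matrix.map_apply, Algebra.traceMatrix_apply, Algebra.traceForm_apply,
      mul_smul_comm, map_smul, smul_eq_mul, eval_mul, eval_C, coe_evalRingHom, mul_comm]
  have h1 := LinearMap.finrank_range_add_finrank_ker G.mulVecLin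
  have h2 := LinearMap.finrank_range_add_finrank_ker Ψ
  have h3 : Module.finrank k (LinearMap.ker Ψ) ≤ Module.finrank k (LinearMap.ker G.mulVecLin) :=
    Submodule.finrank_mono hker
  have h4 : Module.finrank k (LinearMap.range Ψ) = redRank T c := by
    rw [LinearMap.range_eq_top.mpr hΨsurj, finrank_top]
    rfl
  have h5 : G.rank = Module.finrank k (LinearMap.range G.mulVecLin) := rfl
  omega

/-- **(II)** `(X - c) ^ (n - redRank)` divides the discriminant. -/
theorem pow_dvd_discr (c : k) :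
    (X - C c) ^ (Fintype.card ι - redRank T c) ∣ Algebra.discr k[X] b := by
  have h := pow_corank_dvd_det (evalRingHom c)
    (fun a => ⟨C a, by simp⟩) (X - C c)
    (fun s hs => Polynomial.dvd_iff_isRoot.mpr hs) (Algebra.traceMatrix k[X] b)
  rw [Algebra.discr_def]
  refine dvd_trans (pow_dvd_pow _ ?_) h
  have := rank_traceMatrix_eval_le b c
  omega

end Trace

end Fermat.Agent.S37.H939

end
-- ===== PACK-END S37/H939/Fibre.lean

-- ===== PACK-BEGIN S37/H159/MGauss.lean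
section



/-!
# Theorem M, part 1: the reduction context and the Gauss valuation ring of `K(x)`
(row S37, piece R-b = normality of the special fibre; seat helper159)

`K ⊇ A` a valuation ring with residue map `π : A ↠ k`; `F` a field which is a `K[X]`-algebra
(`X ↦ x`), `O ⊆ F` a valuation ring with residue map `ρ : O ↠ F_k`, where `F_k` is a
`k[X]`-algebra (`X ↦ x̄`), such that `ρ (P(x)) = P̄(x̄)` for `P ∈ A[X]`.

This file: `ker ρ = 𝔪_O`, `O ∩ K = A`, `O ∩ K[x] = A[x]` (Gauss), the Gauss valuation ring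
`V₀ = O ∩ K(x)` of an abstract fraction field `L₀` of `K[X]`, and the induced residue map
`ρ₀ : V₀ → L₀k` (`L₀k` a fraction field of `k[X]`).
-/

set_option autoImplicit false
set_option linter.unusedSectionVars false

namespace Fermat.Agent.S37.H159

open Polynomial

/-- A reduction context (see the module docstring). -/
structure RedCtx {K : Type*} [Field K] (A : ValuationSubring K) (k : Type*) [Field k]
    (F : Type*) [Field F] [Algebra K[X] F] (Fk : Type*) [Field Fk] [Algebra k[X] Fk] where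
  /-- residue map of the constants -/
  π : A →+* k
  π_surj : Function.Surjective π
  /-- the valuation ring of the function field -/
  O : ValuationSubring F
  /-- reduction of functions -/
  ρ : O →+* Fk
  ρ_surj : Function.Surjective ρ
  mem : ∀ p : A[X], algebraMap K[X] F (p.map A.subtype) ∈ O
  ρ_poly : ∀ p : A[X],
    ρ ⟨algebraMap K[X] F (p.map A.subtype), mem p⟩ = algebraMap k[X] Fk (p.map π)

/-- Scaling a nonzero polynomial over the fraction field of a valuation ring to a polynomial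
over the valuation ring with a coefficient equal to `1`. -/
theorem exists_primitive {K : Type*} [Field K] (A : ValuationSubring K) (P : K[X]) (hP : P ≠ 0) :
    ∃ (lam : K) (P₀ : A[X]) (m : ℕ), lam ≠ 0 ∧ P₀.coeff m = 1 ∧
      P = C lam * P₀.map A.subtype := by
  classical
  have hne : P.support.Nonempty := by
    rw [Finset.nonempty_iff_ne_empty, Ne, Polynomial.support_eq_empty]
    exact hP
  obtain ⟨m, hm, hmax⟩ := Finset.exists_max_image P.support (fun i => A.valuation (P.coeff i)) hne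
  have hlam : P.coeff m ≠ 0 := Polynomial.mem_support_iff.mp hm
  have hmem : ∀ i, (P.coeff m)⁻¹ * P.coeff i ∈ A := by
    intro i
    by_cases hi : i ∈ P.support
    · rw [← ValuationSubring.valuation_le_one_iff, map_mul, map_inv₀]
      have hv : A.valuation (P.coeff m) ≠ 0 := (_root_.map_ne_zero _).mpr hlam
      rw [inv_mul_le_iff₀ (zero_lt_iff.mpr hv), mul_one]
      exact hmax i hi
    · rw [Polynomial.notMem_support_iff.mp hi, mul_zero]
      exact A.zero_mem
  have hl : C (P.coeff m)⁻¹ * P ∈ Polynomial.lifts A.subtype := by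
    rw [Polynomial.lifts_iff_coeff_lifts]
    intro i
    rw [coeff_C_mul]
    exact ⟨⟨_, hmem i⟩, rfl⟩
  obtain ⟨P₀, hP₀⟩ := hl
  refine ⟨P.coeff m, P₀, m, hlam, ?_, ?_⟩
  · apply Subtype.ext
    have := congrArg (fun q => q.coeff m) hP₀
    simp only [coeff_C_mul] at this
    rw [show (P₀.coeff m : K) = (Polynomial.map A.subtype P₀).coeff m by
      rw [coeff_map]; rfl]
    rw [show (Polynomial.map A.subtype P₀) = mapRingHom A.subtype P₀ from rfl, this,
      inv_mul_cancel₀ hlam]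
    rfl
  · rw [show (Polynomial.map A.subtype P₀) = mapRingHom A.subtype P₀ from rfl, hP₀, ← mul_assoc,
      ← C_mul, mul_inv_cancel₀ hlam, C_1, one_mul]

namespace RedCtx

variable {K : Type*} [Field K] {A : ValuationSubring K} {k : Type*} [Field k]
  {F : Type*} [Field F] [Algebra K[X] F] {Fk : Type*} [Field Fk] [Algebra k[X] Fk]
  (G : RedCtx A k F Fk)

theorem ρ_eq_zero_iff (u : G.O) : G.ρ u = 0 ↔ (u : F) ∈ G.O.nonunits := by
  have hmax : (RingHom.ker G.ρ).IsMaximal := RingHom.ker_isMaximal_of_surjective G.ρ G.ρ_surj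
  have hker := IsLocalRing.eq_maximalIdeal hmax
  rw [← RingHom.mem_ker, hker, ValuationSubring.mem_nonunits_iff_exists_mem_maximalIdeal]
  exact ⟨fun h => ⟨u.2, h⟩, fun ⟨_, h⟩ => h⟩

theorem π_eq_zero_iff (a : A) : G.π a = 0 ↔ (a : K) ∈ A.nonunits := by
  have hmax : (RingHom.ker G.π).IsMaximal := RingHom.ker_isMaximal_of_surjective G.π G.π_surj
  have hker := IsLocalRing.eq_maximalIdeal hmax
  rw [← RingHom.mem_ker, hker, ValuationSubring.mem_nonunits_iff_exists_mem_maximalIdeal]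
  exact ⟨fun h => ⟨a.2, h⟩, fun ⟨_, h⟩ => h⟩

/-- An element of `O` with nonzero reduction is a unit of `O`. -/
theorem inv_mem_of_ρ_ne_zero (u : G.O) (hu : G.ρ u ≠ 0) : (u : F)⁻¹ ∈ G.O := by
  have h1 : (u : F) ∉ G.O.nonunits := fun h => hu ((G.ρ_eq_zero_iff u).mpr h)
  rw [ValuationSubring.mem_nonunits_iff, not_lt] at h1
  rw [← ValuationSubring.valuation_le_one_iff, map_inv₀]
  exact inv_le_one_of_one_le₀ h1

theorem ne_zero_of_ρ_ne_zero (u : G.O) (hu : G.ρ u ≠ 0) : (u : F) ≠ 0 := by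
  intro h
  apply hu
  have : u = 0 := Subtype.ext h
  rw [this, map_zero]

theorem C_mem (a : A) : algebraMap K[X] F (C (a : K)) ∈ G.O := by
  have := G.mem (C a)
  rwa [Polynomial.map_C] at this

theorem ρ_C (a : A) : G.ρ ⟨algebraMap K[X] F (C (a : K)), G.C_mem a⟩ =
    algebraMap k[X] Fk (C (G.π a)) := by
  have h := G.ρ_poly (C a)
  have e : (⟨algebraMap K[X] F (C (a : K)), G.C_mem a⟩ : G.O) =
      ⟨algebraMap K[X] F ((C a : A[X]).map A.subtype), G.mem (C a)⟩ :=
    Subtype.ext (congrArg (algebraMap K[X] F)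
      (show (C (a : K) : K[X]) = (C a : A[X]).map A.subtype by rw [Polynomial.map_C]; rfl))
  rw [e, h, Polynomial.map_C]

/-- `O ∩ K = A`. -/
theorem C_mem_iff (a : K) : algebraMap K[X] F (C a) ∈ G.O ↔ a ∈ A := by
  constructor
  · intro h
    by_contra ha
    have ha0 : a ≠ 0 := fun h0 => ha (h0 ▸ A.zero_mem)
    have hinv : a⁻¹ ∈ A.nonunits := (ValuationSubring.inv_mem_nonunits_iff A).mpr (Or.inr ha)
    have hinvA : a⁻¹ ∈ A := A.nonunits_subset hinv
    have h1 : G.π ⟨a⁻¹, hinvA⟩ = 0 := (G.π_eq_zero_iff _).mpr hinv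
    have h2 := G.ρ_C ⟨a⁻¹, hinvA⟩
    rw [h1, map_zero, map_zero] at h2
    have h3 := (G.ρ_eq_zero_iff _).mp h2
    rw [ValuationSubring.mem_nonunits_iff] at h3
    have h4 : G.O.valuation (algebraMap K[X] F (C a)) ≤ 1 :=
      (ValuationSubring.valuation_le_one_iff _ _).mpr h
    have h5 : algebraMap K[X] F (C a) * algebraMap K[X] F (C a⁻¹) = 1 := by
      rw [← map_mul, ← C_mul, mul_inv_cancel₀ ha0, C_1, map_one]
    have h6 : G.O.valuation (algebraMap K[X] F (C a) * algebraMap K[X] F (C a⁻¹)) < 1 := by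
      rw [map_mul]
      exact mul_lt_one_of_nonneg_of_lt_one_right h4 zero_le h3
    rw [h5, map_one] at h6
    exact lt_irrefl _ h6
  · intro ha
    exact G.C_mem ⟨a, ha⟩

variable (hinj : Function.Injective (algebraMap k[X] Fk))

include hinj in
/-- A polynomial over `A` with nonzero reduction is a unit of `O` at `x`. -/
theorem inv_mem_of_map_ne_zero (P₀ : A[X]) (h : P₀.map G.π ≠ 0) :
    (algebraMap K[X] F (P₀.map A.subtype))⁻¹ ∈ G.O := by
  refine G.inv_mem_of_ρ_ne_zero ⟨_, G.mem P₀⟩ ?_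
  rw [G.ρ_poly]
  exact fun h0 => h (hinj (by rw [h0, map_zero]))

include hinj in
theorem ne_zero_of_map_ne_zero (P₀ : A[X]) (h : P₀.map G.π ≠ 0) :
    algebraMap K[X] F (P₀.map A.subtype) ≠ 0 := by
  refine G.ne_zero_of_ρ_ne_zero ⟨_, G.mem P₀⟩ ?_
  rw [G.ρ_poly]
  exact fun h0 => h (hinj (by rw [h0, map_zero]))

theorem map_π_ne_zero_of_coeff_eq_one (P₀ : A[X]) (m : ℕ) (h : P₀.coeff m = 1) :
    P₀.map G.π ≠ 0 := by
  intro h0
  have := congrArg (fun q => q.coeff m) h0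
  simp only [coeff_map, h, map_one, coeff_zero] at this
  exact one_ne_zero this

include hinj in
/-- **Gauss**: `O ∩ K[x] = A[x]`. -/
theorem exists_map_eq_of_mem (P : K[X]) (hP : algebraMap K[X] F P ∈ G.O) :
    ∃ P₁ : A[X], P₁.map A.subtype = P := by
  by_cases hP0 : P = 0
  · exact ⟨0, by rw [hP0, Polynomial.map_zero]⟩
  obtain ⟨lam, P₀, m, hlam, hm, hPeq⟩ := exists_primitive A P hP0
  have hne := G.map_π_ne_zero_of_coeff_eq_one P₀ m hm
  have hinv := G.inv_mem_of_map_ne_zero hinj P₀ hne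
  have hne' := G.ne_zero_of_map_ne_zero hinj P₀ hne
  have h1 : algebraMap K[X] F (C lam) =
      algebraMap K[X] F P * (algebraMap K[X] F (P₀.map A.subtype))⁻¹ := by
    rw [hPeq, map_mul, mul_assoc, mul_inv_cancel₀ hne', mul_one]
  have h2 : algebraMap K[X] F (C lam) ∈ G.O := by
    rw [h1]
    exact G.O.mul_mem _ _ hP hinv
  have h3 : lam ∈ A := (G.C_mem_iff lam).mp h2
  refine ⟨C ⟨lam, h3⟩ * P₀, ?_⟩
  rw [Polynomial.map_mul, Polynomial.map_C, hPeq]
  rfl

section Rational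

variable (L₀ : Type*) [Field L₀] [Algebra K[X] L₀] [IsFractionRing K[X] L₀] [Algebra L₀ F]
  [IsScalarTower K[X] L₀ F]
variable (L₀k : Type*) [Field L₀k] [Algebra k[X] L₀k] [IsFractionRing k[X] L₀k] [Algebra L₀k Fk]
  [IsScalarTower k[X] L₀k Fk]

/-- the Gauss valuation ring `O ∩ K(x)` -/
def V₀ : ValuationSubring L₀ := G.O.comap (algebraMap L₀ F)

theorem mem_V₀ (v : L₀) : v ∈ G.V₀ L₀ ↔ algebraMap L₀ F v ∈ G.O := ValuationSubring.mem_comap

theorem valExtends : H217.ValExtends (G.V₀ L₀) G.O := fun _ => ValuationSubring.mem_comap.symm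

include L₀k in
theorem algebraMap_injective_k : Function.Injective (algebraMap k[X] Fk) := by
  rw [IsScalarTower.algebraMap_eq k[X] L₀k Fk]
  exact (algebraMap L₀k Fk).injective.comp (IsFractionRing.injective k[X] L₀k)

include L₀k in
/-- Normal form of the elements of the Gauss ring: `v = P₁(x) / Q₀(x)` with `P₁, Q₀ ∈ A[X]`,
`Q̄₀ ≠ 0`. -/
theorem exists_normal_form (v : L₀) (hv : algebraMap L₀ F v ∈ G.O) :
    ∃ (P₁ Q₀ : A[X]), Q₀.map G.π ≠ 0 ∧
      v * algebraMap K[X] L₀ (Q₀.map A.subtype) = algebraMap K[X] L₀ (P₁.map A.subtype) := by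
  have hinj := algebraMap_injective_k (k := k) (Fk := Fk) L₀k
  obtain ⟨P, Q, hQ, rfl⟩ := IsFractionRing.div_surjective K[X] v
  have hQ0 : Q ≠ 0 := nonZeroDivisors.ne_zero hQ
  obtain ⟨lam, Q₀, m, hlam, hm, hQeq⟩ := exists_primitive A Q hQ0
  have hne := G.map_π_ne_zero_of_coeff_eq_one Q₀ m hm
  have hQ₀F := G.ne_zero_of_map_ne_zero hinj Q₀ hne
  have hQ₀L : algebraMap K[X] L₀ (Q₀.map A.subtype) ≠ 0 := by
    intro h0
    apply hQ₀F
    rw [IsScalarTower.algebraMap_apply K[X] L₀ F, h0, map_zero]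
  have hlamL : algebraMap K[X] L₀ (C lam) ≠ 0 := by
    rw [Ne, map_eq_zero_iff _ (IsFractionRing.injective K[X] L₀), C_eq_zero]
    exact hlam
  have key : algebraMap K[X] L₀ P / algebraMap K[X] L₀ Q *
      algebraMap K[X] L₀ (Q₀.map A.subtype) = algebraMap K[X] L₀ (C lam⁻¹ * P) := by
    rw [hQeq, map_mul, map_mul]
    have : algebraMap K[X] L₀ (C lam⁻¹) = (algebraMap K[X] L₀ (C lam))⁻¹ := by
      apply eq_inv_of_mul_eq_one_left
      rw [← map_mul, ← C_mul, inv_mul_cancel₀ hlam, C_1, map_one]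
    rw [this]
    field_simp
  have hmem : algebraMap K[X] F (C lam⁻¹ * P) ∈ G.O := by
    rw [IsScalarTower.algebraMap_apply K[X] L₀ F, ← key, map_mul,
      ← IsScalarTower.algebraMap_apply K[X] L₀ F]
    exact G.O.mul_mem _ _ hv (G.mem Q₀)
  obtain ⟨P₁, hP₁⟩ := G.exists_map_eq_of_mem hinj _ hmem
  exact ⟨P₁, Q₀, hne, by rw [key, hP₁]⟩

include L₀ in
theorem exists_ρ_eq (v : L₀) (hv : algebraMap L₀ F v ∈ G.O) :
    G.ρ ⟨algebraMap L₀ F v, hv⟩ ∈ (algebraMap L₀k Fk).range := by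
  have hinj := algebraMap_injective_k (k := k) (Fk := Fk) L₀k
  obtain ⟨P₁, Q₀, hne, hvQ⟩ := G.exists_normal_form L₀ L₀k v hv
  have h1 : (⟨algebraMap L₀ F v, hv⟩ : G.O) * ⟨_, G.mem Q₀⟩ = ⟨_, G.mem P₁⟩ := by
    apply Subtype.ext
    show algebraMap L₀ F v * algebraMap K[X] F (Q₀.map A.subtype) =
      algebraMap K[X] F (P₁.map A.subtype)
    rw [IsScalarTower.algebraMap_apply K[X] L₀ F, IsScalarTower.algebraMap_apply K[X] L₀ F,
      ← map_mul, hvQ]
  have h2 := congrArg G.ρ h1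
  rw [map_mul, G.ρ_poly, G.ρ_poly] at h2
  have h3 : algebraMap k[X] Fk (Q₀.map G.π) ≠ 0 := fun h0 => hne (hinj (by rw [h0, map_zero]))
  refine ⟨algebraMap k[X] L₀k (P₁.map G.π) / algebraMap k[X] L₀k (Q₀.map G.π), ?_⟩
  rw [map_div₀, ← IsScalarTower.algebraMap_apply, ← IsScalarTower.algebraMap_apply,
    div_eq_iff h3, h2]

/-- the inclusion `V₀ → O` -/
def incl : G.V₀ L₀ →+* G.O :=
  (algebraMap L₀ F).restrict (G.V₀ L₀) G.O (fun _ hx => (G.mem_V₀ L₀ _).mp hx)

theorem incl_coe (v : G.V₀ L₀) : ((G.incl L₀ v : G.O) : F) = algebraMap L₀ F v := rfl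

/-- the residue map of the Gauss valuation ring -/
noncomputable def ρ₀ : G.V₀ L₀ →+* L₀k :=
  ((RingEquiv.ofBijective (algebraMap L₀k Fk).rangeRestrict
    ⟨(algebraMap L₀k Fk).rangeRestrict.injective,
      (algebraMap L₀k Fk).rangeRestrict_surjective⟩).symm : _ →+* L₀k).comp
    (RingHom.codRestrict (G.ρ.comp (G.incl L₀)) (algebraMap L₀k Fk).range
      (fun v => G.exists_ρ_eq L₀ L₀k v ((G.mem_V₀ L₀ _).mp v.2)))

theorem algebraMap_ρ₀ (v : G.V₀ L₀) :
    algebraMap L₀k Fk (G.ρ₀ L₀ L₀k v) = G.ρ ⟨algebraMap L₀ F v, (G.mem_V₀ L₀ _).mp v.2⟩ := by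
  set e := RingEquiv.ofBijective (algebraMap L₀k Fk).rangeRestrict
    ⟨(algebraMap L₀k Fk).rangeRestrict.injective,
      (algebraMap L₀k Fk).rangeRestrict_surjective⟩ with he
  set y : (algebraMap L₀k Fk).range := RingHom.codRestrict (G.ρ.comp (G.incl L₀))
    (algebraMap L₀k Fk).range
      (fun v => G.exists_ρ_eq L₀ L₀k v ((G.mem_V₀ L₀ _).mp v.2)) v with hy
  have h1 : G.ρ₀ L₀ L₀k v = e.symm y := rfl
  have h2 : e (e.symm y) = y := e.apply_symm_apply y
  have h3 : ((e (e.symm y) : (algebraMap L₀k Fk).range) : Fk) = algebraMap L₀k Fk (e.symm y) := rfl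
  rw [h1, ← h3, h2]
  rfl

/-- `H217`-shaped compatibility of `ρ` and `ρ₀`. -/
theorem ρ_algebraMap (v : G.V₀ L₀) :
    G.ρ ⟨algebraMap L₀ F v, ((G.valExtends L₀) v).mpr v.2⟩ = algebraMap L₀k Fk (G.ρ₀ L₀ L₀k v) :=
  (G.algebraMap_ρ₀ L₀ L₀k v).symm

theorem ρ₀_eq_zero_iff (v : G.V₀ L₀) : G.ρ₀ L₀ L₀k v = 0 ↔ (v : L₀) ∈ (G.V₀ L₀).nonunits := by
  rw [← (G.valExtends L₀).mem_nonunits_iff, ← G.ρ_eq_zero_iff ⟨_, (G.mem_V₀ L₀ _).mp v.2⟩,
    ← G.algebraMap_ρ₀ L₀ L₀k v]
  exact (map_eq_zero_iff _ (algebraMap L₀k Fk).injective).symm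

theorem poly_mem_V₀ (p : A[X]) : algebraMap K[X] L₀ (p.map A.subtype) ∈ G.V₀ L₀ := by
  rw [G.mem_V₀, ← IsScalarTower.algebraMap_apply]
  exact G.mem p

theorem ρ₀_poly (p : A[X]) :
    G.ρ₀ L₀ L₀k ⟨_, G.poly_mem_V₀ L₀ p⟩ = algebraMap k[X] L₀k (p.map G.π) := by
  apply (algebraMap L₀k Fk).injective
  rw [G.algebraMap_ρ₀, ← IsScalarTower.algebraMap_apply k[X] L₀k Fk, ← G.ρ_poly p]
  congr 1
  apply Subtype.ext
  exact (IsScalarTower.algebraMap_apply K[X] L₀ F _).symm

include L₀k in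
/-- **Gauss**: `V₀ ∩ K[x] = A[x]`. -/
theorem exists_map_eq_of_mem_V₀ (P : K[X]) (hP : algebraMap K[X] L₀ P ∈ G.V₀ L₀) :
    ∃ P₁ : A[X], P₁.map A.subtype = P := by
  refine G.exists_map_eq_of_mem (algebraMap_injective_k (k := k) (Fk := Fk) L₀k) P ?_
  rw [IsScalarTower.algebraMap_apply K[X] L₀ F]
  exact (G.mem_V₀ L₀ _).mp hP

end Rational

end RedCtx

end Fermat.Agent.S37.H159

end
-- ===== PACK-END S37/H159/MGauss.lean

-- ===== PACK-BEGIN S19/H495/FieldRank.lean
section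
/-
A3 / S19 — WP-W6alg (helper495): rank and minors over a field.

* minors of size larger than the rank vanish;
* a matrix of rank `r` has a nonzero `r × r` minor, and has constant rank at that pivot;
* a matrix over a ring mapping injectively to a field has constant rank at a unit pivot as soon
  as the size of the pivot is the rank over the field.
-/



set_option linter.unusedSectionVars false
set_option linter.unusedSimpArgs false
set_option linter.style.longLine false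
set_option linter.style.haveILetI false

namespace Fermat.Agent.S19.H495

open Matrix Module

variable {K : Type*} [Field K]
variable {m n ι : Type*} [Fintype m] [Fintype n] [Fintype ι] [DecidableEq m] [DecidableEq n]
  [DecidableEq ι]

/-- Minors of size larger than the rank vanish. -/
theorem det_submatrix_eq_zero_of_rank_lt (A : Matrix m n K) (p : ι → m) (q : ι → n)
    (h : A.rank < Fintype.card ι) : (A.submatrix p q).det = 0 := by
  by_contra hne
  have h1 : (A.submatrix p q).rank = Fintype.card ι := Matrix.rank_of_det_ne_zero hne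
  have h2 := Matrix.rank_submatrix_le A p q
  omega

/-- If the columns `q` of `A` are linearly independent, some square block on these columns has
nonzero determinant. -/
theorem exists_rows_of_linearIndependent_cols (A : Matrix m n K) (q : ι → n)
    (hq : LinearIndependent K (fun a => A.col (q a))) :
    ∃ p : ι → m, (A.submatrix p q).det ≠ 0 := by
  -- C = A[·, q], an `m × ι` matrix with independent columns, so of rank `card ι`
  set C : Matrix m ι K := A.submatrix id q with hC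
  have hCcol : C.col = fun a => A.col (q a) := rfl
  have hrank : C.rank = Fintype.card ι := by
    rw [← Matrix.rank_transpose]
    apply LinearIndependent.rank_matrix
    rw [Matrix.row_transpose, hCcol]
    exact hq
  -- choose independent rows of C
  obtain ⟨κ, a, ha, hspan, hli⟩ := exists_linearIndependent' K C.row
  have : Finite κ := Finite.of_injective a ha
  let _ : Fintype κ := Fintype.ofFinite κ
  have hcard : Fintype.card κ = Fintype.card ι := by
    rw [← finrank_span_eq_card hli, hspan, ← hrank, Matrix.rank_eq_finrank_span_row]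
  let e : ι ≃ κ := (Fintype.equivOfCardEq hcard).symm
  refine ⟨a ∘ e, ?_⟩
  have hG : A.submatrix (a ∘ e) q = (C.submatrix a id).submatrix e id := rfl
  have hrows : LinearIndependent K (A.submatrix (a ∘ e) q).row := by
    have : (A.submatrix (a ∘ e) q).row = (C.row ∘ a) ∘ e := rfl
    rw [this]
    exact hli.comp e e.injective
  have := Matrix.linearIndependent_rows_iff_isUnit.mp hrows
  exact ((Matrix.isUnit_iff_isUnit_det _).mp this).ne_zero

/-- A matrix of rank `r` over a field has a nonzero `r × r` minor. -/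
theorem exists_det_submatrix_ne_zero (A : Matrix m n K) :
    ∃ (p : Fin A.rank → m) (q : Fin A.rank → n), (A.submatrix p q).det ≠ 0 := by
  obtain ⟨κ, a, ha, hspan, hli⟩ := exists_linearIndependent' K A.col
  have : Finite κ := Finite.of_injective a ha
  let _ : Fintype κ := Fintype.ofFinite κ
  have hcard : Fintype.card κ = A.rank := by
    rw [← finrank_span_eq_card hli, hspan, Matrix.rank_eq_finrank_span_cols]
  let e : Fin A.rank ≃ κ := (Fintype.equivFinOfCardEq hcard).symm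
  have hq : LinearIndependent K (fun b : Fin A.rank => A.col ((a ∘ e) b)) :=
    hli.comp e e.injective
  obtain ⟨p, hp⟩ := exists_rows_of_linearIndependent_cols A (a ∘ e) hq
  exact ⟨p, a ∘ e, hp⟩

/-- Over a field, a nonzero minor whose size is at least the rank is a pivot of constant rank. -/
theorem constRankAt_of_rank_le (A : Matrix m n K) (p : ι → m) (q : ι → n)
    (hr : A.rank ≤ Fintype.card ι) (hu : (A.submatrix p q).det ≠ 0) : ConstRankAt A p q := by
  refine ⟨hu.isUnit, fun i j => ?_⟩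
  unfold borderedMinor
  apply det_submatrix_eq_zero_of_rank_lt
  simp only [Fintype.card_sum, Fintype.card_unit]
  omega

/-- Every matrix over a field has constant rank at some pivot of size its rank. -/
theorem exists_constRankAt (A : Matrix m n K) :
    ∃ (p : Fin A.rank → m) (q : Fin A.rank → n), ConstRankAt A p q := by
  obtain ⟨p, q, h⟩ := exists_det_submatrix_ne_zero A
  exact ⟨p, q, constRankAt_of_rank_le A p q (by simp) h⟩

/-- The rank of a matrix of constant rank (over a nontrivial commutative ring) is the size of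
the pivot. -/
theorem ConstRankAt.rank_eq {R : Type*} [CommRing R] [Nontrivial R] {A : Matrix m n R}
    {p : ι → m} {q : ι → n} (h : ConstRankAt A p q) : A.rank = Fintype.card ι := by
  unfold Matrix.rank
  rw [← h.rangeEquiv.finrank_eq, Module.finrank_pi]

/-- Over a field, a nonzero minor is a pivot of constant rank iff its size is the rank. -/
theorem constRankAt_iff_rank_eq (A : Matrix m n K) (p : ι → m) (q : ι → n)
    (hu : (A.submatrix p q).det ≠ 0) : ConstRankAt A p q ↔ A.rank = Fintype.card ι :=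
  ⟨fun h => h.rank_eq, fun h => constRankAt_of_rank_le A p q h.le hu⟩

/-- **Generic rank + unit pivot ⇒ constant rank.**  Let `R` be a commutative ring mapping
injectively to a field `K` (e.g. a valuation ring and its fraction field).  If the rank of `A`
over `K` is at most the size of a pivot with unit determinant in `R`, then `A` has constant rank
at this pivot over `R` — hence over every `R`-algebra, in particular over the residue field. -/
theorem constRankAt_of_rank_map_le {R : Type*} [CommRing R] (f : R →+* K)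
    (hf : Function.Injective f) (A : Matrix m n R) (p : ι → m) (q : ι → n)
    (hr : (A.map f).rank ≤ Fintype.card ι) (hu : IsUnit (A.submatrix p q).det) :
    ConstRankAt A p q := by
  refine ⟨hu, fun i j => ?_⟩
  apply hf
  rw [← borderedMinor_map, map_zero]
  have hK : ConstRankAt (A.map f) p q := by
    apply constRankAt_of_rank_le _ _ _ hr
    rw [det_submatrix_map]
    exact (hu.map f).ne_zero
  exact hK.2 i j

/-- In the situation of `constRankAt_of_rank_map_le`, the rank is the same over every nontrivial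
`R`-algebra `S` (e.g. the residue field): rank is constant. -/
theorem rank_map_eq_of_unit_pivot {R S : Type*} [CommRing R] [CommRing S] [Nontrivial S]
    (f : R →+* K) (hf : Function.Injective f) (g : R →+* S) (A : Matrix m n R) (p : ι → m)
    (q : ι → n) (hr : (A.map f).rank ≤ Fintype.card ι) (hu : IsUnit (A.submatrix p q).det) :
    (A.map g).rank = Fintype.card ι :=
  ((constRankAt_of_rank_map_le f hf A p q hr hu).map g).rank_eq

end Fermat.Agent.S19.H495

end
-- ===== PACK-END S19/H495/FieldRank.lean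

-- ===== PACK-BEGIN S20/C0_helper516.lean
section


/-!
# S20 core piece C0 (helper516): basic API of `MF`, `SF`, `ev`

Statements are exactly those of `origin/helper20:Fermat/Agent/S20/Skeleton.lean` (C0.1 – C0.4),
in namespace `Fermat.Agent.S20.C0h516`.
-/

set_option autoImplicit false
set_option linter.unusedSectionVars false

noncomputable section

namespace Fermat.Agent.S20.C0h516

open Fermat.Agent.S20
open UpperHalfPlane ModularForm CongruenceSubgroup MatrixGroups Filter Module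
open scoped Manifold Topology Real

local notation "Sm" => ModularGroup.S
local notation "Tm" => ModularGroup.T

/-! ### generic constructions (arithmetic subgroup of `GL(2,ℝ)`) -/

theorem exists_modularForm_of_data (𝒢 : Subgroup (GL (Fin 2) ℝ)) [𝒢.IsArithmetic] (k : ℤ)
    (f : ℍ → ℂ) (hol : MDiff f) (hinv : ∀ γ ∈ 𝒢, f ∣[k] γ = f)
    (hbd : ∀ g : SL(2, ℤ), IsBoundedAtImInfty (f ∣[k] g)) :
    ∃ F : ModularForm 𝒢 k, ⇑F = f := by
  refine ⟨⟨⟨f, hinv⟩, hol, fun {c} hc => ?_⟩, rfl⟩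
  have hc' : IsCusp c 𝒮ℒ := (Subgroup.IsArithmetic.isCusp_iff_isCusp_SL2Z 𝒢).mp hc
  exact (OnePoint.isBoundedAt_iff_forall_SL2Z hc').mpr fun γ _ => hbd γ

theorem exists_cuspForm_of_data (𝒢 : Subgroup (GL (Fin 2) ℝ)) [𝒢.IsArithmetic] (k : ℤ)
    (f : ℍ → ℂ) (hol : MDiff f) (hinv : ∀ γ ∈ 𝒢, f ∣[k] γ = f)
    (hbd : ∀ g : SL(2, ℤ), IsZeroAtImInfty (f ∣[k] g)) :
    ∃ F : CuspForm 𝒢 k, ⇑F = f := by
  refine ⟨⟨⟨f, hinv⟩, hol, fun {c} hc => ?_⟩, rfl⟩
  have hc' : IsCusp c 𝒮ℒ := (Subgroup.IsArithmetic.isCusp_iff_isCusp_SL2Z 𝒢).mp hc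
  exact (OnePoint.isZeroAt_iff_forall_SL2Z hc').mpr fun γ _ => hbd γ

theorem slash_eq_of_mem_map {Γ : Subgroup SL(2, ℤ)} {k : ℤ} {f : ℍ → ℂ}
    (h : ∀ γ ∈ Γ, f ∣[k] γ = f) :
    ∀ γ ∈ (Γ : Subgroup (GL (Fin 2) ℝ)), f ∣[k] γ = f := by
  rintro γ ⟨γ', hγ', rfl⟩
  have := h γ' hγ'
  rwa [ModularForm.SL_slash] at this

theorem slash_eq_of_mem_of_map {Γ : Subgroup SL(2, ℤ)} {k : ℤ} {f : ℍ → ℂ}
    (h : ∀ γ ∈ (Γ : Subgroup (GL (Fin 2) ℝ)), f ∣[k] γ = f) :
    ∀ γ ∈ Γ, f ∣[k] γ = f := by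
  intro γ hγ
  rw [ModularForm.SL_slash]
  exact h _ (Subgroup.mem_map_of_mem _ hγ)

theorem coe_mem_MF {Γ : Subgroup SL(2, ℤ)} [Γ.FiniteIndex] {k : ℤ}
    (g : ModularForm (Γ : Subgroup (GL (Fin 2) ℝ)) k) : (⇑g : ℍ → ℂ) ∈ MF Γ k :=
  ⟨ModularFormClass.holo g,
    _root_.Fermat.Agent.S20.C0h516.slash_eq_of_mem_of_map fun γ hγ => SlashInvariantFormClass.slash_action_eq g γ hγ,
    fun γ => ModularFormClass.bdd_at_infty_slash g γ⟩

theorem coe_mem_SF {Γ : Subgroup SL(2, ℤ)} [Γ.FiniteIndex] {k : ℤ}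
    (g : CuspForm (Γ : Subgroup (GL (Fin 2) ℝ)) k) : (⇑g : ℍ → ℂ) ∈ SF Γ k :=
  ⟨CuspFormClass.holo g,
    _root_.Fermat.Agent.S20.C0h516.slash_eq_of_mem_of_map fun γ hγ => SlashInvariantFormClass.slash_action_eq g γ hγ,
    fun γ => CuspFormClass.zero_at_infty_slash g γ⟩

theorem mem_MF_iff_exists {Γ : Subgroup SL(2, ℤ)} [Γ.FiniteIndex] {k : ℤ} {f : ℍ → ℂ} :
    f ∈ MF Γ k ↔ ∃ g : ModularForm (Γ : Subgroup (GL (Fin 2) ℝ)) k, ⇑g = f := by
  constructor
  · rintro ⟨h1, h2, h3⟩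
    exact _root_.Fermat.Agent.S20.C0h516.exists_modularForm_of_data _ k f h1 (_root_.Fermat.Agent.S20.C0h516.slash_eq_of_mem_map h2) h3
  · rintro ⟨g, rfl⟩
    exact coe_mem_MF g

theorem mem_SF_iff_exists {Γ : Subgroup SL(2, ℤ)} [Γ.FiniteIndex] {k : ℤ} {f : ℍ → ℂ} :
    f ∈ SF Γ k ↔ ∃ g : CuspForm (Γ : Subgroup (GL (Fin 2) ℝ)) k, ⇑g = f := by
  constructor
  · rintro ⟨h1, h2, h3⟩
    exact _root_.Fermat.Agent.S20.C0h516.exists_cuspForm_of_data _ k f h1 (_root_.Fermat.Agent.S20.C0h516.slash_eq_of_mem_map h2) h3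
  · rintro ⟨g, rfl⟩
    exact coe_mem_SF g

/-- Level one: `MF ⊤ k` versus Mathlib's `ModularForm 𝒮ℒ k`. -/
theorem mem_MF_top_iff_exists {k : ℤ} {f : ℍ → ℂ} :
    f ∈ MF ⊤ k ↔ ∃ g : ModularForm 𝒮ℒ k, ⇑g = f := by
  constructor
  · rintro ⟨h1, h2, h3⟩
    refine _root_.Fermat.Agent.S20.C0h516.exists_modularForm_of_data _ k f h1 ?_ h3
    rintro γ ⟨γ', rfl⟩
    have := h2 γ' (Subgroup.mem_top _)
    rwa [ModularForm.SL_slash] at this
  · rintro ⟨g, rfl⟩
    refine ⟨ModularFormClass.holo g, fun γ _ => ?_,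
      fun γ => ModularFormClass.bdd_at_infty_slash g γ⟩
    rw [ModularForm.SL_slash]
    exact SlashInvariantFormClass.slash_action_eq g _ ⟨γ, rfl⟩

/-- Level one: `SF ⊤ k` versus Mathlib's `CuspForm 𝒮ℒ k`. -/
theorem mem_SF_top_iff_exists {k : ℤ} {f : ℍ → ℂ} :
    f ∈ SF ⊤ k ↔ ∃ g : CuspForm 𝒮ℒ k, ⇑g = f := by
  constructor
  · rintro ⟨h1, h2, h3⟩
    refine _root_.Fermat.Agent.S20.C0h516.exists_cuspForm_of_data _ k f h1 ?_ h3
    rintro γ ⟨γ', rfl⟩
    have := h2 γ' (Subgroup.mem_top _)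
    rwa [ModularForm.SL_slash] at this
  · rintro ⟨g, rfl⟩
    refine ⟨CuspFormClass.holo g, fun γ _ => ?_,
      fun γ => CuspFormClass.zero_at_infty_slash g γ⟩
    rw [ModularForm.SL_slash]
    exact SlashInvariantFormClass.slash_action_eq g _ ⟨γ, rfl⟩

variable (Γ : Subgroup SL(2, ℤ)) [Γ.FiniteIndex]

/-! ## C0 : basic API of `MF`, `SF`, `ev` -/

/-- the underlying linear map of `MFequiv` -/
def MFlin (k : ℤ) : ModularForm (Γ : Subgroup (GL (Fin 2) ℝ)) k →ₗ[ℂ] MF Γ k where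
  toFun g := ⟨⇑g, coe_mem_MF g⟩
  map_add' _ _ := rfl
  map_smul' _ _ := rfl

theorem MFlin_bijective (k : ℤ) : Function.Bijective (MFlin Γ k) := by
  refine ⟨fun g₁ g₂ h => DFunLike.coe_injective (congrArg Subtype.val h), ?_⟩
  rintro ⟨f, hf⟩
  obtain ⟨g, rfl⟩ := mem_MF_iff_exists.mp hf
  exact ⟨g, rfl⟩

/-- the underlying linear map of `SFequiv` -/
def SFlin (k : ℤ) : CuspForm (Γ : Subgroup (GL (Fin 2) ℝ)) k →ₗ[ℂ] SF Γ k where
  toFun g := ⟨⇑g, coe_mem_SF g⟩
  map_add' _ _ := rfl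
  map_smul' _ _ := rfl

theorem SFlin_bijective (k : ℤ) : Function.Bijective (SFlin Γ k) := by
  refine ⟨fun g₁ g₂ h => DFunLike.coe_injective (congrArg Subtype.val h), ?_⟩
  rintro ⟨f, hf⟩
  obtain ⟨g, rfl⟩ := mem_SF_iff_exists.mp hf
  exact ⟨g, rfl⟩

/-- C0.1 -/
def MFequiv (k : ℤ) : ModularForm (Γ : Subgroup (GL (Fin 2) ℝ)) k ≃ₗ[ℂ] MF Γ k :=
  LinearEquiv.ofBijective (MFlin Γ k) (MFlin_bijective Γ k)

/-- C0.1 -/
theorem MFequiv_coe (k : ℤ) (f : ModularForm (Γ : Subgroup (GL (Fin 2) ℝ)) k) :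
    ((MFequiv Γ k f : MF Γ k) : ℍ → ℂ) = ⇑f := rfl

/-- C0.1 -/
def SFequiv (k : ℤ) : CuspForm (Γ : Subgroup (GL (Fin 2) ℝ)) k ≃ₗ[ℂ] SF Γ k :=
  LinearEquiv.ofBijective (SFlin Γ k) (SFlin_bijective Γ k)

/-- C0.1 -/
theorem SFequiv_coe (k : ℤ) (f : CuspForm (Γ : Subgroup (GL (Fin 2) ℝ)) k) :
    ((SFequiv Γ k f : SF Γ k) : ℍ → ℂ) = ⇑f := rfl

variable {Γ}

/-- C0.2 (no finite index needed) -/
theorem mul_mem_MF {a k : ℤ} {E f : ℍ → ℂ} (hE : E ∈ MF ⊤ a) (hf : f ∈ MF Γ k) :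
    E * f ∈ MF Γ (a + k) := by
  obtain ⟨hE1, hE2, hE3⟩ := hE
  obtain ⟨hf1, hf2, hf3⟩ := hf
  refine ⟨hE1.mul hf1, fun γ hγ => ?_, fun γ => ?_⟩
  · rw [ModularForm.mul_slash_SL2, hE2 γ (Subgroup.mem_top _), hf2 γ hγ]
  · rw [ModularForm.mul_slash_SL2]
    exact (hE3 γ).mul (hf3 γ)

/-- C0.2 -/
theorem mul_mem_SF {a k : ℤ} {E f : ℍ → ℂ} (hE : E ∈ MF ⊤ a) (hf : f ∈ SF Γ k) :
    E * f ∈ SF Γ (a + k) := by
  obtain ⟨hE1, hE2, hE3⟩ := hE
  obtain ⟨hf1, hf2, hf3⟩ := hf
  refine ⟨hE1.mul hf1, fun γ hγ => ?_, fun γ => ?_⟩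
  · rw [ModularForm.mul_slash_SL2, hE2 γ (Subgroup.mem_top _), hf2 γ hγ]
  · rw [ModularForm.mul_slash_SL2, mul_comm]
    exact (hf3 γ).mul_boundedAtFilter (hE3 γ)

/-- C0.3 -/
theorem ev_mk {k : ℤ} {f : ℍ → ℂ} (hf : ∀ γ ∈ Γ, f ∣[k] γ = f) (g : SL(2, ℤ)) (τ : ℍ) :
    ev Γ k τ f (QuotientGroup.mk g) = (f ∣[k] g⁻¹) τ := by
  obtain ⟨h, hh⟩ := QuotientGroup.mk_out_eq_mul Γ g
  rw [ev_apply, hh, mul_inv_rev, SlashAction.slash_mul, hf _ (Γ.inv_mem h.2)]

/-- C0.3 : equivariance of the vector of conjugates. -/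
theorem ev_smul {k : ℤ} {f : ℍ → ℂ} (hf : ∀ γ ∈ Γ, f ∣[k] γ = f) (γ : SL(2, ℤ)) (τ : ℍ)
    (x : X Γ) : ev Γ k (γ • τ) f x = denom γ τ ^ k * ev Γ k τ f (γ⁻¹ • x) := by
  induction x using QuotientGroup.induction_on with
  | H g =>
    rw [MulAction.Quotient.smul_mk, ev_mk hf, ev_mk hf, smul_eq_mul, mul_inv_rev, inv_inv,
      SlashAction.slash_mul, ModularForm.SL_slash_apply (f ∣[k] g⁻¹) γ τ]
    have hd : denom γ τ ≠ 0 := denom_ne_zero _ _
    rw [mul_comm, mul_assoc, ← zpow_add₀ hd]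
    simp

/-- C0.3 : in particular for `T` (`T • τ = τ + 1`). -/
theorem ev_T {k : ℤ} {f : ℍ → ℂ} (hf : ∀ γ ∈ Γ, f ∣[k] γ = f) (τ : ℍ) :
    ev Γ k (Tm • τ) f = shiftT Γ (ev Γ k τ f) := by
  funext x
  rw [ev_smul hf, shiftT, LinearMap.funLeft_apply]
  have hd : denom Tm τ = 1 := by
    simp [denom, ModularGroup.coe_T]
  rw [hd, one_zpow, one_mul]

/-- C0.3 -/
theorem ev_mul {a k : ℤ} {E : ℍ → ℂ} (hE : E ∈ MF ⊤ a) (f : ℍ → ℂ) (τ : ℍ) :
    ev Γ (a + k) τ (E * f) = E τ • ev Γ k τ f := by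
  funext x
  rw [ev_apply, ModularForm.mul_slash_SL2, hE.2.1 _ (Subgroup.mem_top _)]
  rfl

/-- C0.3 -/
theorem ev_eq_zero_iff {k : ℤ} {f : ℍ → ℂ} (hf : ∀ γ ∈ Γ, f ∣[k] γ = f) (τ : ℍ) :
    ev Γ k τ f = 0 ↔ ∀ γ : SL(2, ℤ), f (γ • τ) = 0 := by
  constructor
  · intro h γ
    have h1 := congrFun h (QuotientGroup.mk γ⁻¹)
    rw [ev_mk hf, inv_inv, ModularForm.SL_slash_apply] at h1
    rcases mul_eq_zero.mp h1 with h2 | h2
    · exact h2
    · exact absurd h2 (zpow_ne_zero _ (denom_ne_zero _ _))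
  · intro h
    funext x
    rw [ev_apply, ModularForm.SL_slash_apply, h]
    simp

variable (Γ)

/-- C0.4 (Mathlib `ModularForm.isZero_of_neg_weight`) -/
theorem MF_eq_bot_of_neg {k : ℤ} (hk : k < 0) : MF Γ k = ⊥ := by
  rw [eq_bot_iff]
  intro f hf
  obtain ⟨g, rfl⟩ := mem_MF_iff_exists.mp hf
  rw [ModularForm.isZero_of_neg_weight hk g]
  exact Submodule.zero_mem _

/-- C0.4 (Mathlib `ModularForm.eq_const_of_weight_zero`) -/
theorem MF_zero_eq_const {f : ℍ → ℂ} (hf : f ∈ MF Γ 0) : ∃ c : ℂ, f = fun _ => c := by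
  obtain ⟨g, rfl⟩ := mem_MF_iff_exists.mp hf
  obtain ⟨c, hc⟩ := ModularForm.eq_const_of_weight_zero g
  exact ⟨c, hc⟩

/-- C0.4 -/
theorem SF_eq_bot_of_nonpos {k : ℤ} (hk : k ≤ 0) : SF Γ k = ⊥ := by
  rw [eq_bot_iff]
  intro f hf
  rcases hk.lt_or_eq with hk | rfl
  · have := SF_le_MF Γ k hf
    rwa [MF_eq_bot_of_neg Γ hk] at this
  · obtain ⟨c, rfl⟩ := MF_zero_eq_const Γ (SF_le_MF Γ 0 hf)
    have h0 : IsZeroAtImInfty ((fun _ : ℍ => c) ∣[(0 : ℤ)] (1 : SL(2, ℤ))) := hf.2.2 1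
    rw [SlashAction.slash_one] at h0
    have hc : c = 0 := by
      have h1 : Filter.Tendsto (fun _ : ℍ => c) atImInfty (nhds 0) := h0
      exact tendsto_nhds_unique tendsto_const_nhds h1
    subst hc
    exact Submodule.zero_mem _

/-- C0.4 -/
theorem MF_eq_bot_of_odd (hneg : -1 ∈ Γ) {k : ℤ} (hk : Odd k) : MF Γ k = ⊥ := by
  rw [eq_bot_iff]
  intro f hf
  obtain ⟨g, rfl⟩ := mem_MF_iff_exists.mp hf
  have hmem : (-1 : GL (Fin 2) ℝ) ∈ (Γ : Subgroup (GL (Fin 2) ℝ)) := by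
    refine ⟨-1, hneg, ?_⟩
    ext i j
    simp
  rw [ModularForm.eq_zero_of_neg_one_mem hmem hk g]
  exact Submodule.zero_mem _

end Fermat.Agent.S20.C0h516

end
end
-- ===== PACK-END S20/C0_helper516.lean

-- ===== PACK-BEGIN S20/P2_helper280.lean
section


/-!
# S20 long shot — piece P2 (helper280): class counts of the weights of a fundamental system
modulo 4 and modulo 6.

The inputs from the other pieces (C0: `ev_smul`, `MF_eq_bot_of_neg`; P1: eigenspace dimensions of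
permutation operators) are taken as explicit hypotheses, in exactly the shape of the skeleton.
-/

set_option autoImplicit false

noncomputable section

namespace Fermat.Agent.S20.P2h280

open Fermat.Agent.S20
open UpperHalfPlane ModularForm CongruenceSubgroup MatrixGroups Filter Module
open scoped Manifold Topology Real

local notation "Sm" => ModularGroup.S
local notation "Tm" => ModularGroup.T

/-! ## Pure linear algebra: counting eigenvectors in a basis -/

/-- If a linearly independent family of `finrank V` eigenvectors of `L` is given, the number of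
members with eigenvalue `μ` is the dimension of the `μ`-eigenspace. -/
theorem card_eigen_eq_finrank {K V J : Type*} [Field K] [AddCommGroup V] [Module K V]
    [FiniteDimensional K V] [Fintype J] [DecidableEq K]
    (L : V →ₗ[K] V) (v : J → V) (ε : J → K) (hli : LinearIndependent K v)
    (hcard : Fintype.card J = finrank K V) (hv : ∀ j, L (v j) = ε j • v j) (μ : K) :
    (Finset.univ.filter fun j => ε j = μ).card = finrank K (Module.End.eigenspace L μ) := by
  classical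
  let b : Basis J K V := Basis.mk hli
    (by rw [hli.span_eq_top_of_card_eq_finrank' hcard])
  have hb : ∀ j, b j = v j := fun j => by
    simp [b]
  have hspan : Module.End.eigenspace L μ
      = Submodule.span K (Set.range (v ∘ (Subtype.val : {j // ε j = μ} → J))) := by
    apply le_antisymm
    · intro w hw
      rw [Module.End.mem_eigenspace_iff] at hw
      have hrepr : ∀ j, b.repr w j * ε j = μ * b.repr w j := by
        intro j
        have h1 : b.repr (L w) j = b.repr w j * ε j := by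
          conv_lhs => rw [← b.sum_repr w]
          simp only [map_sum, map_smul, hb, hv]
          simp only [← hb, Finsupp.coe_finsetSum, Finsupp.coe_smul, Finset.sum_apply,
            Pi.smul_apply, b.repr_self, smul_eq_mul]
          rw [Finset.sum_eq_single j]
          · simp
          · intro i _ hij
            simp [hij]
          · intro h; exact absurd (Finset.mem_univ j) h
        rw [hw] at h1
        simpa using h1.symm
      have hzero : ∀ j, ε j ≠ μ → b.repr w j = 0 := by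
        intro j hj
        have := hrepr j
        have h2 : b.repr w j * (ε j - μ) = 0 := by linear_combination this
        rcases mul_eq_zero.1 h2 with h | h
        · exact h
        · exact absurd (sub_eq_zero.1 h) hj
      rw [← b.sum_repr w]
      refine Submodule.sum_mem _ fun j _ => ?_
      by_cases hj : ε j = μ
      · refine Submodule.smul_mem _ _ (Submodule.subset_span ⟨⟨j, hj⟩, ?_⟩)
        simp [hb]
      · rw [hzero j hj, zero_smul]
        exact Submodule.zero_mem _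
    · rw [Submodule.span_le]
      rintro _ ⟨⟨j, hj⟩, rfl⟩
      simp only [SetLike.mem_coe, Module.End.mem_eigenspace_iff, Function.comp_apply]
      rw [hv j, hj]
  rw [hspan, finrank_span_eq_card (hli.comp _ Subtype.val_injective), Fintype.card_subtype]

variable {Γ : Subgroup SL(2, ℤ)}

/-! ## P2.0 -/

/-- The members of a fundamental system are nonzero. -/
theorem FundSystem.F_ne_zero (𝔉 : FundSystem Γ) (j : 𝔉.J) : 𝔉.F j ≠ 0 := by
  intro h
  have := (𝔉.indep UpperHalfPlane.I).ne_zero j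
  rw [h, map_zero] at this
  exact this rfl

/-- P2.0, with the vanishing statements of C0.4 as hypotheses. -/
theorem FundSystem.wt_even_nonneg_of
    (hMFneg : ∀ {k : ℤ}, k < 0 → MF Γ k = ⊥)
    (hMFodd : ∀ {k : ℤ}, Odd k → MF Γ k = ⊥)
    (𝔉 : FundSystem Γ) (j : 𝔉.J) : 0 ≤ 𝔉.wt j ∧ Even (𝔉.wt j) := by
  have hne := FundSystem.F_ne_zero 𝔉 j
  have hmem := 𝔉.mem j
  constructor
  · by_contra hk
    rw [hMFneg (not_le.1 hk)] at hmem
    exact hne ((Submodule.mem_bot ℂ).1 hmem)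
  · by_contra hk
    rw [hMFodd (Int.not_even_iff_odd.1 hk)] at hmem
    exact hne ((Submodule.mem_bot ℂ).1 hmem)

/-- C0.4 (odd weights), proved directly: if `-1 ∈ Γ`, forms of odd weight vanish. -/
theorem MF_eq_bot_of_odd (hneg : -1 ∈ Γ) {k : ℤ} (hk : Odd k) : MF Γ k = ⊥ := by
  rw [eq_bot_iff]
  intro f hf
  rw [Submodule.mem_bot]
  have h1 := hf.2.1 (-1) hneg
  funext τ
  have h2 := congrFun h1 τ
  rw [ModularForm.SL_slash_apply] at h2
  have hsm : (-1 : SL(2, ℤ)) • τ = τ := by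
    have := ModularGroup.SL_neg_smul (1 : SL(2, ℤ)) τ
    rwa [one_smul] at this
  have hden : denom (-1 : SL(2, ℤ)) τ = -1 := by
    rw [ModularGroup.denom_apply]
    simp
  rw [hsm, hden] at h2
  have hpow : (-1 : ℂ) ^ (-k) = -1 := by
    rw [zpow_neg, hk.neg_one_zpow]
    norm_num
  rw [hpow] at h2
  have : f τ = 0 := by linear_combination (-1 / 2 : ℂ) * h2
  simpa using this

/-! ## Group theory and the two elliptic points -/

/-- `-1` acts trivially on `X Γ` when `-1 ∈ Γ`. -/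
lemma neg_one_smul_X (hneg : -1 ∈ Γ) (x : X Γ) : (-1 : SL(2, ℤ)) • x = x := by
  induction x using QuotientGroup.induction_on with
  | H g =>
    rw [MulAction.Quotient.smul_mk, QuotientGroup.eq, smul_eq_mul]
    have : (-1 * g)⁻¹ * g = -1 := by
      rw [mul_inv_rev]
      simp
    rw [this]
    exact hneg

lemma S_inv_sq : (Sm⁻¹ * Sm⁻¹ : SL(2, ℤ)) = -1 := by decide

lemma ST_inv_cube : ((Sm * Tm)⁻¹ * ((Sm * Tm)⁻¹ * (Sm * Tm)⁻¹) : SL(2, ℤ)) = -1 := by decide

lemma S_smul_I : Sm • UpperHalfPlane.I = UpperHalfPlane.I := by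
  rw [modular_S_smul]
  ext
  simp [UpperHalfPlane.I]

lemma denom_S_I : denom Sm UpperHalfPlane.I = Complex.I := by
  rw [ModularGroup.denom_S]
  rfl

/-- `ρ = e^{2πi/3}`, fixed by `S * T`. -/
def rho : ℍ := ⟨⟨-1 / 2, Real.sqrt 3 / 2⟩, by simp⟩

lemma rho_coe : (_root_.Fermat.Agent.S20.P2h280.rho : ℂ) = ⟨-1 / 2, Real.sqrt 3 / 2⟩ := rfl

lemma rho_sq_add : (_root_.Fermat.Agent.S20.P2h280.rho : ℂ) ^ 2 + (_root_.Fermat.Agent.S20.P2h280.rho : ℂ) + 1 = 0 := by
  rw [rho_coe]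
  apply Complex.ext
  · simp [pow_two]
    have := Real.mul_self_sqrt (show (0:ℝ) ≤ 3 by norm_num)
    nlinarith
  · simp [pow_two]
    ring

lemma denom_ST_rho : denom ((Sm * Tm : SL(2, ℤ))) _root_.Fermat.Agent.S20.P2h280.rho = (_root_.Fermat.Agent.S20.P2h280.rho : ℂ) + 1 := by
  rw [ModularGroup.denom_apply]
  have h10 : (Sm * Tm : SL(2, ℤ)) 1 0 = 1 := by decide
  have h11 : (Sm * Tm : SL(2, ℤ)) 1 1 = 1 := by decide
  rw [h10, h11]
  simp

lemma ST_smul_rho : (Sm * Tm) • _root_.Fermat.Agent.S20.P2h280.rho = _root_.Fermat.Agent.S20.P2h280.rho := by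
  rw [mul_smul, modular_T_smul, modular_S_smul]
  ext
  simp only [coe_vadd]
  have h := rho_sq_add
  have hne : (_root_.Fermat.Agent.S20.P2h280.rho : ℂ) ≠ 0 := by
    intro h0
    rw [h0] at h
    simp at h
  push_cast
  rw [inv_eq_iff_eq_inv]
  field_simp
  linear_combination -h

/-! ## The eigenvector property at a fixed point -/

/-- At a fixed point `τ₀` of `γ`, the vector of conjugates of a `Γ`-invariant function is an
eigenvector of the permutation operator of `γ⁻¹`. -/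
theorem funLeft_ev_of_fixed
    (hev_smul : ∀ {k : ℤ} {f : ℍ → ℂ}, (∀ γ ∈ Γ, f ∣[k] γ = f) → ∀ (γ : SL(2, ℤ)) (τ : ℍ)
      (x : X Γ), ev Γ k (γ • τ) f x = denom γ τ ^ k * ev Γ k τ f (γ⁻¹ • x))
    {k : ℤ} {f : ℍ → ℂ} (hf : ∀ γ ∈ Γ, f ∣[k] γ = f) (γ : SL(2, ℤ)) (τ₀ : ℍ)
    (hfix : γ • τ₀ = τ₀) :
    LinearMap.funLeft ℂ ℂ (MulAction.toPerm (γ⁻¹ : SL(2, ℤ)) : Equiv.Perm (X Γ))
        (ev Γ k τ₀ f) = (denom γ τ₀ ^ k)⁻¹ • ev Γ k τ₀ f := by
  funext x
  have h := hev_smul hf γ τ₀ x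
  rw [hfix] at h
  have hd : denom γ τ₀ ^ k ≠ 0 := zpow_ne_zero _ (denom_ne_zero _ _)
  simp only [LinearMap.funLeft_apply, MulAction.toPerm_apply, Pi.smul_apply, smul_eq_mul]
  rw [h]
  field_simp

/-! ## Eigenvalues -/

lemma I_zpow_inv_eq_one_iff {k : ℤ} (hk : Even k) :
    ((Complex.I ^ k)⁻¹ = 1 ↔ k % 4 = 0) ∧ ((Complex.I ^ k)⁻¹ = 1 ∨ (Complex.I ^ k)⁻¹ = -1) := by
  obtain ⟨m, hm⟩ := hk
  have h1 : Complex.I ^ k = (-1 : ℂ) ^ m := by
    rw [hm, ← two_mul, zpow_mul, zpow_two, Complex.I_mul_I]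
  rw [h1]
  rcases Int.even_or_odd m with he | ho
  · rw [he.neg_one_zpow]
    obtain ⟨n, hn⟩ := he
    refine ⟨⟨fun _ => by omega, fun _ => by simp⟩, Or.inl (by simp)⟩
  · rw [ho.neg_one_zpow]
    obtain ⟨n, hn⟩ := ho
    refine ⟨⟨fun h => ?_, fun h => by omega⟩, Or.inr (by norm_num)⟩
    norm_num at h

lemma rho_cube : (_root_.Fermat.Agent.S20.P2h280.rho : ℂ) ^ 3 = 1 := by
  linear_combination ((_root_.Fermat.Agent.S20.P2h280.rho : ℂ) - 1) * rho_sq_add

lemma rho_ne_one : (_root_.Fermat.Agent.S20.P2h280.rho : ℂ) ≠ 1 := by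
  intro h
  have := rho_sq_add
  rw [h] at this
  norm_num at this

lemma rho_ne_zero : (_root_.Fermat.Agent.S20.P2h280.rho : ℂ) ≠ 0 := by
  intro h0
  have h := rho_sq_add
  rw [h0] at h
  simp at h

lemma rho_sq_ne_one : (_root_.Fermat.Agent.S20.P2h280.rho : ℂ) ^ 2 ≠ 1 := by
  intro h
  have h1 := rho_sq_add
  have h2 : (_root_.Fermat.Agent.S20.P2h280.rho : ℂ) = -2 := by linear_combination h1 - h
  rw [h2] at h
  norm_num at h

lemma rho_sq_ne_rho : (_root_.Fermat.Agent.S20.P2h280.rho : ℂ) ^ 2 ≠ (_root_.Fermat.Agent.S20.P2h280.rho : ℂ) := by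
  intro h
  apply rho_ne_one
  have : (_root_.Fermat.Agent.S20.P2h280.rho : ℂ) * ((_root_.Fermat.Agent.S20.P2h280.rho : ℂ) - 1) = 0 := by linear_combination h
  rcases mul_eq_zero.1 this with h0 | h0
  · exact absurd h0 rho_ne_zero
  · exact sub_eq_zero.1 h0

/-- The eigenvalue `(ρ + 1)^(-k)` for even `k`, according to `k mod 6`. -/
lemma rho_zpow_inv {k : ℤ} (hk : Even k) :
    (k % 6 = 0 ∧ (((_root_.Fermat.Agent.S20.P2h280.rho : ℂ) + 1) ^ k)⁻¹ = 1) ∨
    (k % 6 = 2 ∧ (((_root_.Fermat.Agent.S20.P2h280.rho : ℂ) + 1) ^ k)⁻¹ = (_root_.Fermat.Agent.S20.P2h280.rho : ℂ) ^ 2) ∨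
    (k % 6 = 4 ∧ (((_root_.Fermat.Agent.S20.P2h280.rho : ℂ) + 1) ^ k)⁻¹ = (_root_.Fermat.Agent.S20.P2h280.rho : ℂ)) := by
  obtain ⟨m, hm⟩ := hk
  have hz2 : ((_root_.Fermat.Agent.S20.P2h280.rho : ℂ) + 1) ^ (2 : ℤ) = (_root_.Fermat.Agent.S20.P2h280.rho : ℂ) := by
    rw [zpow_two]
    linear_combination rho_sq_add
  have h1 : ((_root_.Fermat.Agent.S20.P2h280.rho : ℂ) + 1) ^ k = (_root_.Fermat.Agent.S20.P2h280.rho : ℂ) ^ m := by
    rw [hm, ← two_mul, zpow_mul, hz2]
  have h3 : (_root_.Fermat.Agent.S20.P2h280.rho : ℂ) ^ (3 : ℤ) = 1 := by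
    have := rho_cube
    exact_mod_cast this
  have h2 : (_root_.Fermat.Agent.S20.P2h280.rho : ℂ) ^ m = (_root_.Fermat.Agent.S20.P2h280.rho : ℂ) ^ (m % 3) := by
    conv_lhs => rw [← Int.mul_ediv_add_emod m 3]
    rw [zpow_add₀ rho_ne_zero, zpow_mul, h3, one_zpow, one_mul]
  rw [h1, h2]
  have hlt : m % 3 < 3 := Int.emod_lt_of_pos _ (by norm_num)
  have hge : 0 ≤ m % 3 := Int.emod_nonneg _ (by norm_num)
  have hinv : ((_root_.Fermat.Agent.S20.P2h280.rho : ℂ))⁻¹ = (_root_.Fermat.Agent.S20.P2h280.rho : ℂ) ^ 2 := by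
    rw [inv_eq_iff_eq_inv, eq_comm, inv_eq_iff_eq_inv]
    have hne := rho_ne_zero
    field_simp
    linear_combination rho_cube
  have hinv2 : ((_root_.Fermat.Agent.S20.P2h280.rho : ℂ) ^ 2)⁻¹ = (_root_.Fermat.Agent.S20.P2h280.rho : ℂ) := by
    rw [← hinv, inv_inv]
  have hcases : m % 3 = 0 ∨ m % 3 = 1 ∨ m % 3 = 2 := by omega
  rcases hcases with h | h | h
  · left
    refine ⟨by omega, ?_⟩
    rw [h]; simp
  · right; left
    refine ⟨by omega, ?_⟩
    rw [h, zpow_one, hinv]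
  · right; right
    refine ⟨by omega, ?_⟩
    rw [h]
    have : (_root_.Fermat.Agent.S20.P2h280.rho : ℂ) ^ (2 : ℤ) = (_root_.Fermat.Agent.S20.P2h280.rho : ℂ) ^ 2 := by norm_cast
    rw [this, hinv2]

section counts

variable [Γ.FiniteIndex]

omit [Γ.FiniteIndex] in
/-- Counting fixed points: the `Finset` count for the permutation `γ⁻¹ •` is the `Nat.card` of the
fixed points of `γ`. -/
lemma card_filter_fixed [Fintype (X Γ)] [DecidableEq (X Γ)] (γ : SL(2, ℤ)) :
    (Finset.univ.filter fun y : X Γ =>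
      (MulAction.toPerm (γ⁻¹ : SL(2, ℤ)) : Equiv.Perm (X Γ)) y = y).card
      = Nat.card {x : X Γ // γ • x = x} := by
  rw [Nat.card_eq_fintype_card, Fintype.card_subtype]
  congr 1
  ext y
  simp only [Finset.mem_filter, Finset.mem_univ, true_and, MulAction.toPerm_apply]
  rw [inv_smul_eq_iff, eq_comm]

/-- P2.1 : class count mod 4, with the inputs `ev_smul` (C0.3), P1.1 and P2.0 as hypotheses. -/
theorem FundSystem.card_wt_mod_four_of
    (hev_smul : ∀ {k : ℤ} {f : ℍ → ℂ}, (∀ γ ∈ Γ, f ∣[k] γ = f) → ∀ (γ : SL(2, ℤ)) (τ : ℍ)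
      (x : X Γ), ev Γ k (γ • τ) f x = denom γ τ ^ k * ev Γ k τ f (γ⁻¹ • x))
    (hP11 : ∀ {Y : Type} [Fintype Y] [DecidableEq Y] (σ : Equiv.Perm Y), σ ^ 2 = 1 →
      ∀ ε : ℂ, (ε = 1 ∨ ε = -1) →
      (finrank ℂ (Module.End.eigenspace (LinearMap.funLeft ℂ ℂ σ) ε) : ℂ) =
        ((Fintype.card Y : ℂ) + ε * (Finset.univ.filter fun y => σ y = y).card) / 2)
    (hneg : -1 ∈ Γ) (𝔉 : FundSystem Γ) (hwt : ∀ j, 0 ≤ 𝔉.wt j ∧ Even (𝔉.wt j)) :
    2 * (Finset.univ.filter fun j => 𝔉.wt j % 4 = 0).card =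
      Nat.card (X Γ) + Nat.card {x : X Γ // Sm • x = x} := by
  classical
  have : Fintype (X Γ) := Fintype.ofFinite _
  set σ : Equiv.Perm (X Γ) := MulAction.toPerm (Sm⁻¹ : SL(2, ℤ)) with hσ
  have hσ2 : σ ^ 2 = 1 := by
    ext x
    simp only [pow_two, Equiv.Perm.mul_apply, hσ, MulAction.toPerm_apply, Equiv.Perm.one_apply]
    rw [← mul_smul, S_inv_sq, neg_one_smul_X hneg]
  have hv : ∀ j, LinearMap.funLeft ℂ ℂ σ (ev Γ (𝔉.wt j) UpperHalfPlane.I (𝔉.F j))
      = (Complex.I ^ (𝔉.wt j))⁻¹ • ev Γ (𝔉.wt j) UpperHalfPlane.I (𝔉.F j) := fun j => by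
    have := funLeft_ev_of_fixed hev_smul (𝔉.mem j).2.1 Sm UpperHalfPlane.I S_smul_I
    rw [denom_S_I] at this
    exact this
  have hcard : Fintype.card 𝔉.J = finrank ℂ (X Γ → ℂ) := by
    rw [𝔉.card_eq, Module.finrank_fintype_fun_eq_card, Nat.card_eq_fintype_card]
  have hcount := card_eigen_eq_finrank (LinearMap.funLeft ℂ ℂ σ)
    (fun j => ev Γ (𝔉.wt j) UpperHalfPlane.I (𝔉.F j)) (fun j => (Complex.I ^ (𝔉.wt j))⁻¹)
    (𝔉.indep _) hcard hv 1
  have hfilter : (Finset.univ.filter fun j => (Complex.I ^ (𝔉.wt j))⁻¹ = 1)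
      = (Finset.univ.filter fun j => 𝔉.wt j % 4 = 0) := by
    ext j
    simp only [Finset.mem_filter, Finset.mem_univ, true_and]
    exact (I_zpow_inv_eq_one_iff (hwt j).2).1
  rw [hfilter] at hcount
  have h11 := hP11 σ hσ2 1 (Or.inl rfl)
  rw [← hcount, card_filter_fixed Sm, one_mul, ← Nat.card_eq_fintype_card] at h11
  have h2 : ((2 * (Finset.univ.filter fun j => 𝔉.wt j % 4 = 0).card : ℕ) : ℂ)
      = ((Nat.card (X Γ) + Nat.card {x : X Γ // Sm • x = x} : ℕ) : ℂ) := by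
    push_cast
    rw [h11]
    ring
  exact_mod_cast h2

/-- P2.2 : class counts mod 6, with the inputs `ev_smul` (C0.3), P1.2 and P2.0 as hypotheses. -/
theorem FundSystem.card_wt_mod_six_of
    (hev_smul : ∀ {k : ℤ} {f : ℍ → ℂ}, (∀ γ ∈ Γ, f ∣[k] γ = f) → ∀ (γ : SL(2, ℤ)) (τ : ℍ)
      (x : X Γ), ev Γ k (γ • τ) f x = denom γ τ ^ k * ev Γ k τ f (γ⁻¹ • x))
    (hP12 : ∀ {Y : Type} [Fintype Y] [DecidableEq Y] (σ : Equiv.Perm Y), σ ^ 3 = 1 →
      ∀ ε : ℂ, ε ^ 3 = 1 →
      (finrank ℂ (Module.End.eigenspace (LinearMap.funLeft ℂ ℂ σ) ε) : ℂ) =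
        ((Fintype.card Y : ℂ) +
          (if ε = 1 then 2 else -1) * (Finset.univ.filter fun y => σ y = y).card) / 3)
    (hneg : -1 ∈ Γ) (𝔉 : FundSystem Γ) (hwt : ∀ j, 0 ≤ 𝔉.wt j ∧ Even (𝔉.wt j)) :
    3 * (Finset.univ.filter fun j => 𝔉.wt j % 6 = 0).card =
        Nat.card (X Γ) + 2 * Nat.card {x : X Γ // (Sm * Tm) • x = x} ∧
    3 * (Finset.univ.filter fun j => 𝔉.wt j % 6 = 2).card + Nat.card {x : X Γ // (Sm * Tm) • x = x}
        = Nat.card (X Γ) ∧
    3 * (Finset.univ.filter fun j => 𝔉.wt j % 6 = 4).card + Nat.card {x : X Γ // (Sm * Tm) • x = x}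
        = Nat.card (X Γ) := by
  classical
  have : Fintype (X Γ) := Fintype.ofFinite _
  set σ : Equiv.Perm (X Γ) := MulAction.toPerm ((Sm * Tm)⁻¹ : SL(2, ℤ)) with hσ
  have hσ3 : σ ^ 3 = 1 := by
    ext x
    simp only [pow_succ, pow_zero, one_mul, Equiv.Perm.mul_apply, hσ, MulAction.toPerm_apply,
      Equiv.Perm.one_apply]
    rw [← mul_smul, ← mul_smul, mul_assoc, ST_inv_cube, neg_one_smul_X hneg]
  have hv : ∀ j, LinearMap.funLeft ℂ ℂ σ (ev Γ (𝔉.wt j) _root_.Fermat.Agent.S20.P2h280.rho (𝔉.F j))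
      = (((_root_.Fermat.Agent.S20.P2h280.rho : ℂ) + 1) ^ (𝔉.wt j))⁻¹ • ev Γ (𝔉.wt j) _root_.Fermat.Agent.S20.P2h280.rho (𝔉.F j) := fun j => by
    have := funLeft_ev_of_fixed hev_smul (𝔉.mem j).2.1 (Sm * Tm) _root_.Fermat.Agent.S20.P2h280.rho ST_smul_rho
    rw [denom_ST_rho] at this
    exact this
  have hcard : Fintype.card 𝔉.J = finrank ℂ (X Γ → ℂ) := by
    rw [𝔉.card_eq, Module.finrank_fintype_fun_eq_card, Nat.card_eq_fintype_card]
  have hcount := card_eigen_eq_finrank (LinearMap.funLeft ℂ ℂ σ)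
    (fun j => ev Γ (𝔉.wt j) _root_.Fermat.Agent.S20.P2h280.rho (𝔉.F j)) (fun j => (((_root_.Fermat.Agent.S20.P2h280.rho : ℂ) + 1) ^ (𝔉.wt j))⁻¹)
    (𝔉.indep _) hcard hv
  have hf0 : (Finset.univ.filter fun j => (((_root_.Fermat.Agent.S20.P2h280.rho : ℂ) + 1) ^ (𝔉.wt j))⁻¹ = 1)
      = (Finset.univ.filter fun j => 𝔉.wt j % 6 = 0) := by
    ext j
    simp only [Finset.mem_filter, Finset.mem_univ, true_and]
    rcases rho_zpow_inv (hwt j).2 with ⟨h1, h2⟩ | ⟨h1, h2⟩ | ⟨h1, h2⟩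
    · simp [h1, h2]
    · rw [h2]
      exact ⟨fun h => absurd h rho_sq_ne_one, fun h => by omega⟩
    · rw [h2]
      exact ⟨fun h => absurd h rho_ne_one, fun h => by omega⟩
  have hf2 : (Finset.univ.filter fun j => (((_root_.Fermat.Agent.S20.P2h280.rho : ℂ) + 1) ^ (𝔉.wt j))⁻¹ = (_root_.Fermat.Agent.S20.P2h280.rho : ℂ) ^ 2)
      = (Finset.univ.filter fun j => 𝔉.wt j % 6 = 2) := by
    ext j
    simp only [Finset.mem_filter, Finset.mem_univ, true_and]
    rcases rho_zpow_inv (hwt j).2 with ⟨h1, h2⟩ | ⟨h1, h2⟩ | ⟨h1, h2⟩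
    · rw [h2]
      exact ⟨fun h => absurd h.symm rho_sq_ne_one, fun h => by omega⟩
    · simp [h1, h2]
    · rw [h2]
      exact ⟨fun h => absurd h.symm rho_sq_ne_rho, fun h => by omega⟩
  have hf4 : (Finset.univ.filter fun j => (((_root_.Fermat.Agent.S20.P2h280.rho : ℂ) + 1) ^ (𝔉.wt j))⁻¹ = (_root_.Fermat.Agent.S20.P2h280.rho : ℂ))
      = (Finset.univ.filter fun j => 𝔉.wt j % 6 = 4) := by
    ext j
    simp only [Finset.mem_filter, Finset.mem_univ, true_and]
    rcases rho_zpow_inv (hwt j).2 with ⟨h1, h2⟩ | ⟨h1, h2⟩ | ⟨h1, h2⟩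
    · rw [h2]
      exact ⟨fun h => absurd h.symm rho_ne_one, fun h => by omega⟩
    · rw [h2]
      exact ⟨fun h => absurd h rho_sq_ne_rho, fun h => by omega⟩
    · simp [h1, h2]
  have c0 := hcount 1
  have c2 := hcount ((_root_.Fermat.Agent.S20.P2h280.rho : ℂ) ^ 2)
  have c4 := hcount (_root_.Fermat.Agent.S20.P2h280.rho : ℂ)
  rw [hf0] at c0
  rw [hf2] at c2
  rw [hf4] at c4
  have e0 := hP12 σ hσ3 1 (by norm_num)
  have e2 := hP12 σ hσ3 ((_root_.Fermat.Agent.S20.P2h280.rho : ℂ) ^ 2) (by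
    rw [← pow_mul, show 2 * 3 = 3 * 2 from rfl, pow_mul, rho_cube, one_pow])
  have e4 := hP12 σ hσ3 (_root_.Fermat.Agent.S20.P2h280.rho : ℂ) rho_cube
  rw [if_pos rfl, ← c0, card_filter_fixed (Sm * Tm), ← Nat.card_eq_fintype_card] at e0
  rw [if_neg rho_sq_ne_one, ← c2, card_filter_fixed (Sm * Tm), ← Nat.card_eq_fintype_card] at e2
  rw [if_neg rho_ne_one, ← c4, card_filter_fixed (Sm * Tm), ← Nat.card_eq_fintype_card] at e4
  refine ⟨?_, ?_, ?_⟩
  · have h : ((3 * (Finset.univ.filter fun j => 𝔉.wt j % 6 = 0).card : ℕ) : ℂ)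
        = ((Nat.card (X Γ) + 2 * Nat.card {x : X Γ // (Sm * Tm) • x = x} : ℕ) : ℂ) := by
      push_cast
      rw [e0]
      ring
    exact_mod_cast h
  · have h : ((3 * (Finset.univ.filter fun j => 𝔉.wt j % 6 = 2).card
        + Nat.card {x : X Γ // (Sm * Tm) • x = x} : ℕ) : ℂ) = ((Nat.card (X Γ) : ℕ) : ℂ) := by
      push_cast
      rw [e2]
      ring
    exact_mod_cast h
  · have h : ((3 * (Finset.univ.filter fun j => 𝔉.wt j % 6 = 4).card
        + Nat.card {x : X Γ // (Sm * Tm) • x = x} : ℕ) : ℂ) = ((Nat.card (X Γ) : ℕ) : ℂ) := by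
      push_cast
      rw [e4]
      ring
    exact_mod_cast h

/-! ## The skeleton statements P2.0, P2.1, P2.2, with the inputs of the other pieces as
hypotheses (`hMFneg` = C0.4 `MF_eq_bot_of_neg`, `hev_smul` = C0.3 `ev_smul`, `hP11`/`hP12` =
P1.1/P1.2, all in exactly the shape of the skeleton). -/

omit [Γ.FiniteIndex] in
/-- P2.0 -/
theorem FundSystem.wt_even_nonneg
    (hMFneg : ∀ {k : ℤ}, k < 0 → MF Γ k = ⊥)
    (hneg : -1 ∈ Γ) (𝔉 : FundSystem Γ) (j : 𝔉.J) : 0 ≤ 𝔉.wt j ∧ Even (𝔉.wt j) :=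
  FundSystem.wt_even_nonneg_of hMFneg (fun hk => MF_eq_bot_of_odd hneg hk) 𝔉 j

/-- P2.1 -/
theorem FundSystem.card_wt_mod_four
    (hMFneg : ∀ {k : ℤ}, k < 0 → MF Γ k = ⊥)
    (hev_smul : ∀ {k : ℤ} {f : ℍ → ℂ}, (∀ γ ∈ Γ, f ∣[k] γ = f) → ∀ (γ : SL(2, ℤ)) (τ : ℍ)
      (x : X Γ), ev Γ k (γ • τ) f x = denom γ τ ^ k * ev Γ k τ f (γ⁻¹ • x))
    (hP11 : ∀ {Y : Type} [Fintype Y] [DecidableEq Y] (σ : Equiv.Perm Y), σ ^ 2 = 1 →
      ∀ ε : ℂ, (ε = 1 ∨ ε = -1) →
      (finrank ℂ (Module.End.eigenspace (LinearMap.funLeft ℂ ℂ σ) ε) : ℂ) =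
        ((Fintype.card Y : ℂ) + ε * (Finset.univ.filter fun y => σ y = y).card) / 2)
    (hneg : -1 ∈ Γ) (𝔉 : FundSystem Γ) :
    2 * (Finset.univ.filter fun j => 𝔉.wt j % 4 = 0).card =
      Nat.card (X Γ) + Nat.card {x : X Γ // Sm • x = x} :=
  FundSystem.card_wt_mod_four_of hev_smul hP11 hneg 𝔉
    (fun j => FundSystem.wt_even_nonneg hMFneg hneg 𝔉 j)

/-- P2.2 -/
theorem FundSystem.card_wt_mod_six
    (hMFneg : ∀ {k : ℤ}, k < 0 → MF Γ k = ⊥)
    (hev_smul : ∀ {k : ℤ} {f : ℍ → ℂ}, (∀ γ ∈ Γ, f ∣[k] γ = f) → ∀ (γ : SL(2, ℤ)) (τ : ℍ)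
      (x : X Γ), ev Γ k (γ • τ) f x = denom γ τ ^ k * ev Γ k τ f (γ⁻¹ • x))
    (hP12 : ∀ {Y : Type} [Fintype Y] [DecidableEq Y] (σ : Equiv.Perm Y), σ ^ 3 = 1 →
      ∀ ε : ℂ, ε ^ 3 = 1 →
      (finrank ℂ (Module.End.eigenspace (LinearMap.funLeft ℂ ℂ σ) ε) : ℂ) =
        ((Fintype.card Y : ℂ) +
          (if ε = 1 then 2 else -1) * (Finset.univ.filter fun y => σ y = y).card) / 3)
    (hneg : -1 ∈ Γ) (𝔉 : FundSystem Γ) :
    3 * (Finset.univ.filter fun j => 𝔉.wt j % 6 = 0).card =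
        Nat.card (X Γ) + 2 * Nat.card {x : X Γ // (Sm * Tm) • x = x} ∧
    3 * (Finset.univ.filter fun j => 𝔉.wt j % 6 = 2).card + Nat.card {x : X Γ // (Sm * Tm) • x = x}
        = Nat.card (X Γ) ∧
    3 * (Finset.univ.filter fun j => 𝔉.wt j % 6 = 4).card + Nat.card {x : X Γ // (Sm * Tm) • x = x}
        = Nat.card (X Γ) :=
  FundSystem.card_wt_mod_six_of hev_smul hP12 hneg 𝔉
    (fun j => FundSystem.wt_even_nonneg hMFneg hneg 𝔉 j)

end counts

end Fermat.Agent.S20.P2h280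

end
end
-- ===== PACK-END S20/P2_helper280.lean

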