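import Mathlib
import Fermat.Prelude.Def_AlgebraicCurve_DivisorClassGroup
import Fermat.Prelude.Def_AlgebraicCurve_Correspondence
import Fermat.Agent.Pack.S44.G0E8L2
import Fermat.Agent.Pack.S44.G0E8L1
import Fermat.Agent.Pack.S44.G0E8L0
import Fermat.Agent.Pack.S44.G0E7L1
import Fermat.Agent.Pack.S44.G0E3L2
import Fermat.Agent.Pack.S44.G0E3L0
import Fermat.Agent.Pack.S44.G0E3L1
import Fermat.Agent.Pack.S44.G0E8L3
import Fermat.Agent.Pack.S44.G0E5L1
import Fermat.Agent.Pack.S44.G0E9L1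

-- ===== PACK-BEGIN S21/IntA.lean
section


/-!
# S21 — INT-A: the `Γ₀(N)`-partition of unity `chi N χ₁` built from an `SL(2,ℤ)`-partition `χ₁`
-/

set_option autoImplicit false
set_option linter.unusedSectionVars false
set_option linter.style.haveILetI false

open UpperHalfPlane CongruenceSubgroup MeasureTheory
open scoped MatrixGroups ContDiff

namespace Fermat.Agent.S21

namespace IntAAux

theorem mob_mem_Uhp (g : SL(2, ℤ)) (z : ℂ) : mob g z ∈ Uhp := (g • ofComplex z).im_pos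

theorem mob_mul (g h : SL(2, ℤ)) (z : ℂ) : mob (g * h) z = mob g (mob h z) := by
  simp only [mob, ofComplex_apply, mul_smul]

theorem continuousOn_mob (g : SL(2, ℤ)) : ContinuousOn (mob g) Uhp := by
  intro z hz
  have h1 : ContinuousAt (ofComplex : ℂ → ℍ) z := (contMDiffAt_ofComplex (n := 0) hz).continuousAt
  have h2 : ContinuousAt (fun w : ℍ => g • w) (ofComplex z) :=
    (continuous_const_smul (g : GL (Fin 2) ℝ)).continuousAt
  have h3 : ContinuousAt (fun w : ℍ => (w : ℂ)) (g • ofComplex z) :=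
    UpperHalfPlane.continuous_coe.continuousAt
  have h4 : ContinuousAt (fun w : ℂ => g • ofComplex w) z :=
    ContinuousAt.comp (f := (ofComplex : ℂ → ℍ)) (g := fun w : ℍ => g • w) h2 h1
  exact (ContinuousAt.comp (f := fun w : ℂ => g • ofComplex w)
    (g := fun w : ℍ => (w : ℂ)) h3 h4).continuousWithinAt

/-- The support of `g ↦ χ₁ (mob g z)` is finite. -/
theorem finite_support (χ₁ : ℂ → ℝ) (hχ : IsSL2ZPartition χ₁) (z : ℂ) (hz : z ∈ Uhp) :
    (Function.support fun g : SL(2, ℤ) => χ₁ (mob g z)).Finite := by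
  refine (hχ.locfin {z} isCompact_singleton (by simpa using hz)).subset ?_
  intro g hg
  exact ⟨z, rfl, hg⟩

/-- `chi` on the upper half plane. -/
theorem chi_of_mem (N : ℕ) (χ₁ : ℂ → ℝ) {z : ℂ} (hz : z ∈ Uhp) :
    chi N χ₁ z = ∑ᶠ q : SL(2, ℤ) ⧸ Gamma0 N, χ₁ (mob (Quotient.out q) z) := by
  unfold chi
  rw [Set.indicator_of_mem hz]

theorem chi_of_notMem (N : ℕ) (χ₁ : ℂ → ℝ) {z : ℂ} (hz : z ∉ Uhp) :
    chi N χ₁ z = 0 := by
  unfold chi
  rw [Set.indicator_of_notMem hz]

/-- The bijection `(γ, q) ↦ q.out * γ`. -/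
noncomputable def prodEquiv (Γ : Subgroup SL(2, ℤ)) : Γ × (SL(2, ℤ) ⧸ Γ) ≃ SL(2, ℤ) where
  toFun p := Quotient.out p.2 * (p.1 : SL(2, ℤ))
  invFun g := (⟨(Quotient.out (QuotientGroup.mk g : SL(2, ℤ) ⧸ Γ))⁻¹ * g, by
      rw [← QuotientGroup.eq]
      exact QuotientGroup.out_eq' _⟩, QuotientGroup.mk g)
  left_inv := by
    rintro ⟨γ, q⟩
    have h : (QuotientGroup.mk (Quotient.out q * (γ : SL(2, ℤ))) : SL(2, ℤ) ⧸ Γ) = q := by
      rw [QuotientGroup.mk_mul_of_mem _ γ.2]
      exact QuotientGroup.out_eq' q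
    ext1
    · apply Subtype.ext
      simp only [h]
      group
    · exact h
  right_inv := by
    intro g
    simp

theorem prodEquiv_apply (Γ : Subgroup SL(2, ℤ)) (γ : Γ) (q : SL(2, ℤ) ⧸ Γ) :
    prodEquiv Γ (γ, q) = Quotient.out q * (γ : SL(2, ℤ)) := rfl

end IntAAux

open IntAAux

section INT

variable (N : ℕ) [NeZero N] {χ₁ : ℂ → ℝ}

theorem chi_nonneg (hχ : IsSL2ZPartition χ₁) (z : ℂ) : 0 ≤ chi N χ₁ z := by
  unfold chi
  exact Set.indicator_nonneg (fun w _ => finsum_nonneg fun q => hχ.nonneg _) z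

theorem chi_le_one (hχ : IsSL2ZPartition χ₁) (z : ℂ) : chi N χ₁ z ≤ 1 := by
  by_cases hz : z ∈ Uhp
  · rw [chi_of_mem N χ₁ hz, ← hχ.sum_eq_one z hz]
    have hfin := finite_support χ₁ hχ z hz
    -- rewrite the left-hand side as a sum over `SL(2,ℤ)` supported on the range of `Quotient.out`
    classical
    have hinj : Function.Injective (Quotient.out : SL(2, ℤ) ⧸ Gamma0 N → SL(2, ℤ)) :=
      Quotient.out_injective
    have h1 : ∑ᶠ q : SL(2, ℤ) ⧸ Gamma0 N, χ₁ (mob (Quotient.out q) z)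
        = ∑ᶠ g ∈ Set.range (Quotient.out : SL(2, ℤ) ⧸ Gamma0 N → SL(2, ℤ)), χ₁ (mob g z) :=
      (finsum_mem_range (f := fun g : SL(2, ℤ) => χ₁ (mob g z)) hinj).symm
    rw [h1, finsum_mem_def]
    refine finsum_le_finsum' ?_ hfin (fun g => ?_)
    · refine hfin.subset fun g hg => ?_
      simp only [Function.mem_support, ne_eq] at hg ⊢
      intro h0
      apply hg
      rw [Set.indicator_apply, h0, ite_self]
    · show Set.indicator _ _ g ≤ _
      rw [Set.indicator_apply]
      split_ifs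
      · exact le_rfl
      · exact hχ.nonneg _
  · rw [chi_of_notMem N χ₁ hz]
    exact zero_le_one

theorem continuousOn_chi (hχ : IsSL2ZPartition χ₁) : ContinuousOn (chi N χ₁) Uhp := by
  haveI : Finite (SL(2, ℤ) ⧸ Gamma0 N) := Subgroup.finite_quotient_of_finiteIndex
  letI : Fintype (SL(2, ℤ) ⧸ Gamma0 N) := Fintype.ofFinite _
  have h : ContinuousOn
      (fun z => ∑ q : SL(2, ℤ) ⧸ Gamma0 N, χ₁ (mob (Quotient.out q) z)) Uhp := by
    refine continuousOn_finsetSum _ fun q _ => ?_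
    exact hχ.smooth.continuousOn.comp (_root_.Fermat.Agent.S21.IntAAux.continuousOn_mob _) fun z _ => _root_.Fermat.Agent.S21.IntAAux.mob_mem_Uhp _ z
  refine h.congr fun z hz => ?_
  rw [chi_of_mem N χ₁ hz, finsum_eq_sum_of_fintype]

theorem measurable_chi (hχ : IsSL2ZPartition χ₁) : Measurable (chi N χ₁) := by
  classical
  have h1 : chi N χ₁ = Uhp.piecewise (chi N χ₁) (fun _ => (0 : ℝ)) := by
    funext z
    by_cases hz : z ∈ Uhp
    · rw [Set.piecewise_eq_of_mem _ _ _ hz]
    · rw [Set.piecewise_eq_of_notMem _ _ _ hz, chi_of_notMem N χ₁ hz]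
  rw [h1]
  exact (continuousOn_chi N hχ).measurable_piecewise continuousOn_const isOpen_Uhp.measurableSet

theorem chi_locfin (hχ : IsSL2ZPartition χ₁) (K : Set ℂ) (hK : IsCompact K) (hKU : K ⊆ Uhp) :
    {γ : Gamma0 N | ∃ z ∈ K, chi N χ₁ (mob (γ : SL(2, ℤ)) z) ≠ 0}.Finite := by
  haveI : Finite (SL(2, ℤ) ⧸ Gamma0 N) := Subgroup.finite_quotient_of_finiteIndex
  have hF := hχ.locfin K hK hKU
  -- the finite set of all `q.out⁻¹ * g`, `g ∈ F`
  have hfin : (Set.image2 (fun (q : SL(2, ℤ) ⧸ Gamma0 N) (g : SL(2, ℤ)) => (Quotient.out q)⁻¹ * g)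
      Set.univ {g : SL(2, ℤ) | ∃ z ∈ K, χ₁ (mob g z) ≠ 0}).Finite :=
    Set.Finite.image2 _ Set.finite_univ hF
  refine Set.Finite.of_finite_image (f := fun γ : Gamma0 N => (γ : SL(2, ℤ)))
    (hfin.subset ?_) Subtype.val_injective.injOn
  rintro _ ⟨γ, ⟨z, hzK, hz⟩, rfl⟩
  rw [chi_of_mem N χ₁ (_root_.Fermat.Agent.S21.IntAAux.mob_mem_Uhp _ z)] at hz
  obtain ⟨q, hq⟩ : ∃ q : SL(2, ℤ) ⧸ Gamma0 N,
      χ₁ (mob (Quotient.out q) (mob (γ : SL(2, ℤ)) z)) ≠ 0 := by
    by_contra hcon
    push Not at hcon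
    exact hz (by simp [hcon])
  refine ⟨q, Set.mem_univ _, Quotient.out q * (γ : SL(2, ℤ)), ⟨z, hzK, ?_⟩, by group⟩
  rwa [_root_.Fermat.Agent.S21.IntAAux.mob_mul]

theorem chi_sum_eq_one (hχ : IsSL2ZPartition χ₁) (z : ℂ) (hz : z ∈ Uhp) :
    ∑ᶠ γ : Gamma0 N, chi N χ₁ (mob (γ : SL(2, ℤ)) z) = 1 := by
  have hfin := finite_support χ₁ hχ z hz
  have h1 : ∀ γ : Gamma0 N, chi N χ₁ (mob (γ : SL(2, ℤ)) z)
      = ∑ᶠ q : SL(2, ℤ) ⧸ Gamma0 N, χ₁ (mob (prodEquiv (Gamma0 N) (γ, q)) z) := by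
    intro γ
    rw [chi_of_mem N χ₁ (_root_.Fermat.Agent.S21.IntAAux.mob_mem_Uhp _ z)]
    refine finsum_congr fun q => ?_
    rw [prodEquiv_apply, _root_.Fermat.Agent.S21.IntAAux.mob_mul]
  simp only [h1]
  have hfin' : (Function.support fun p : Gamma0 N × (SL(2, ℤ) ⧸ Gamma0 N) =>
      χ₁ (mob (prodEquiv (Gamma0 N) p) z)).Finite := by
    have : (Function.support fun p : Gamma0 N × (SL(2, ℤ) ⧸ Gamma0 N) =>
        χ₁ (mob (prodEquiv (Gamma0 N) p) z))
        = (prodEquiv (Gamma0 N)) ⁻¹' (Function.support fun g : SL(2, ℤ) => χ₁ (mob g z)) := rfl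
    rw [this]
    exact hfin.preimage (prodEquiv (Gamma0 N)).injective.injOn
  rw [← finsum_curry (fun p : Gamma0 N × (SL(2, ℤ) ⧸ Gamma0 N) =>
      χ₁ (mob (prodEquiv (Gamma0 N) p) z)) hfin']
  rw [finsum_comp_equiv (prodEquiv (Gamma0 N)) (f := fun g : SL(2, ℤ) => χ₁ (mob g z))]
  exact hχ.sum_eq_one z hz

end INT

end Fermat.Agent.S21

end
-- ===== PACK-END S21/IntA.lean

-- ===== PACK-BEGIN S23/ConverseQ.lean
section



/-!
# S23, converse step: `q`-expansion form

A small API for "nice" functions on `ℍ` (holomorphic, `1`-periodic, bounded at `i∞`), on which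
`qExpansion 1` is an injective ring homomorphism, and the `q`-expansion form of the converse step.
-/

set_option autoImplicit false

namespace Fermat.Agent.S23.Conv

open Complex Filter Topology UpperHalfPlane ModularForm Function
open scoped MatrixGroups ModularForm Manifold

/-- Holomorphic, `1`-periodic and bounded at `i∞`. -/
def IsNice (f : ℍ → ℂ) : Prop :=
  MDiff f ∧ Periodic (f ∘ ofComplex) 1 ∧ IsBoundedAtImInfty f

namespace IsNice

variable {f g : ℍ → ℂ}

theorem analyticAt (hf : IsNice f) : AnalyticAt ℂ (cuspFunction 1 f) 0 :=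
  analyticAt_cuspFunction_zero one_pos hf.2.1 hf.1 hf.2.2

theorem one : IsNice (1 : ℍ → ℂ) := by
  refine ⟨mdifferentiable_const, fun z ↦ rfl, ?_⟩
  exact Filter.const_boundedAtFilter _ (1 : ℂ)

theorem mul (hf : IsNice f) (hg : IsNice g) : IsNice (f * g) := by
  refine ⟨hf.1.mul hg.1, fun z ↦ ?_, hf.2.2.mul hg.2.2⟩
  have h1 := hf.2.1 z
  have h2 := hg.2.1 z
  simp only [Function.comp_apply, Pi.mul_apply] at h1 h2 ⊢
  rw [h1, h2]

theorem add (hf : IsNice f) (hg : IsNice g) : IsNice (f + g) := by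
  refine ⟨hf.1.add hg.1, fun z ↦ ?_, hf.2.2.add hg.2.2⟩
  have h1 := hf.2.1 z
  have h2 := hg.2.1 z
  simp only [Function.comp_apply, Pi.add_apply] at h1 h2 ⊢
  rw [h1, h2]

theorem pow (hf : IsNice f) (n : ℕ) : IsNice (f ^ n) := by
  induction n with
  | zero => simpa using one
  | succ n ih => rw [pow_succ]; exact ih.mul hf

theorem sum {ι : Type*} (s : Finset ι) {F : ι → ℍ → ℂ} (hF : ∀ i ∈ s, IsNice (F i)) :
    IsNice (∑ i ∈ s, F i) := by
  classical
  induction s using Finset.induction_on with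
  | empty =>
    simp only [Finset.sum_empty]
    refine ⟨mdifferentiable_const, fun z ↦ rfl, ?_⟩
    exact Filter.const_boundedAtFilter _ (0 : ℂ)
  | insert a s ha ih =>
    rw [Finset.sum_insert ha]
    exact (hF a (Finset.mem_insert_self a s)).add
      (ih fun i hi ↦ hF i (Finset.mem_insert_of_mem hi))

theorem qExpansion_mul (hf : IsNice f) (hg : IsNice g) :
    qExpansion 1 (f * g) = qExpansion 1 f * qExpansion 1 g :=
  UpperHalfPlane.qExpansion_mul hf.analyticAt hg.analyticAt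

theorem qExpansion_add (hf : IsNice f) (hg : IsNice g) :
    qExpansion 1 (f + g) = qExpansion 1 f + qExpansion 1 g :=
  UpperHalfPlane.qExpansion_add hf.analyticAt hg.analyticAt

theorem qExpansion_pow (hf : IsNice f) (n : ℕ) :
    qExpansion 1 (f ^ n) = qExpansion 1 f ^ n := by
  induction n with
  | zero => simpa using UpperHalfPlane.qExpansion_one 1
  | succ n ih => rw [pow_succ, pow_succ, qExpansion_mul (hf.pow n) hf, ih]

theorem qExpansion_sum {ι : Type*} (s : Finset ι) {F : ι → ℍ → ℂ} (hF : ∀ i ∈ s, IsNice (F i)) :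
    qExpansion 1 (∑ i ∈ s, F i) = ∑ i ∈ s, qExpansion 1 (F i) := by
  classical
  induction s using Finset.induction_on with
  | empty => simpa using UpperHalfPlane.qExpansion_zero 1
  | insert a s ha ih =>
    rw [Finset.sum_insert ha, Finset.sum_insert ha,
      qExpansion_add (hF a (Finset.mem_insert_self a s))
        (sum s fun i hi ↦ hF i (Finset.mem_insert_of_mem hi)),
      ih fun i hi ↦ hF i (Finset.mem_insert_of_mem hi)]

theorem qExpansion_eq_zero_iff (hf : IsNice f) : qExpansion 1 f = 0 ↔ f = 0 :=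
  UpperHalfPlane.qExpansion_eq_zero_iff one_pos hf.2.1 hf.1 hf.2.2

end IsNice

/-- Modular forms (for a group having `1` as a strict period) are nice. -/
theorem isNice_of_modularFormClass {F : Type*} [FunLike F ℍ ℂ] {Γ : Subgroup (GL (Fin 2) ℝ)}
    {k : ℤ} [ModularFormClass F Γ k] (hΓ : (1 : ℝ) ∈ Γ.strictPeriods) (f : F) :
    IsNice (f : ℍ → ℂ) := by
  have : Fact (IsCusp OnePoint.infty Γ) := ⟨Γ.isCusp_of_mem_strictPeriods one_pos hΓ⟩
  exact ⟨ModularFormClass.holo f, SlashInvariantFormClass.periodic_comp_ofComplex f hΓ,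
    ModularFormClass.bdd_at_infty f⟩


/-- **Converse step, `q`-expansion form, function-level hypotheses.** -/
theorem exists_cuspForm_qExpansion_eq_fun {Γ : Subgroup SL(2, ℤ)} [Γ.FiniteIndex]
    (hΓ : (1 : ℝ) ∈ (Γ : Subgroup (GL (Fin 2) ℝ)).strictPeriods)
    {k w m : ℤ} (hm : m = w + k) (g h : ℍ → ℂ) (hgN : IsNice g) (hhN : IsNice h)
    (hgΓ : ∀ γ ∈ Γ, g ∣[m] γ = g) (hhΓ : ∀ γ ∈ Γ, h ∣[w] γ = h)
    (hH : qExpansion 1 h ≠ 0)
    {n : ℕ} (hn : 0 < n) (b : ℕ → ℍ → ℂ)
    (hb : ∀ i < n, ∃ (wi : ℤ) (B : CuspForm 𝒮ℒ wi), wi = k * ((n : ℤ) - i) ∧ ⇑B = b i)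
    (x : PowerSeries ℂ) (hx : x * qExpansion 1 h = qExpansion 1 g)
    (hmonic : x ^ n + ∑ i ∈ Finset.range n, qExpansion 1 (b i) * x ^ i = 0) :
    ∃ F : CuspForm Γ k, qExpansion 1 F = x := by
  have hbN : ∀ i ∈ Finset.range n, IsNice (b i) := by
    intro i hi
    obtain ⟨wi, B, -, hB⟩ := hb i (Finset.mem_range.mp hi)
    rw [← hB]
    exact isNice_of_modularFormClass _root_.one_mem_strictPeriods_SL B
  have hne : ∃ τ, h τ ≠ 0 := by
    by_contra hcon
    push Not at hcon
    exact hH (hhN.qExpansion_eq_zero_iff.mpr (funext hcon))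
  -- the function `Φ = g ^ n + ∑ b_i g ^ i h ^ (n - i)`
  set Φ : ℍ → ℂ := g ^ n + ∑ i ∈ Finset.range n, b i * g ^ i * h ^ (n - i) with hΦ
  have hterm : ∀ i ∈ Finset.range n, IsNice (b i * g ^ i * h ^ (n - i)) :=
    fun i hi ↦ ((hbN i hi).mul (hgN.pow i)).mul (hhN.pow (n - i))
  have hΦN : IsNice Φ := (hgN.pow n).add (IsNice.sum _ hterm)
  have hΦq : qExpansion 1 Φ = 0 := by
    rw [hΦ, IsNice.qExpansion_add (hgN.pow n) (IsNice.sum _ hterm), hgN.qExpansion_pow,
      IsNice.qExpansion_sum _ hterm]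
    have : ∀ i ∈ Finset.range n, qExpansion 1 (b i * g ^ i * h ^ (n - i)) =
        qExpansion 1 h ^ n * (qExpansion 1 (b i) * x ^ i) := by
      intro i hi
      rw [IsNice.qExpansion_mul ((hbN i hi).mul (hgN.pow i)) (hhN.pow (n - i)),
        IsNice.qExpansion_mul (hbN i hi) (hgN.pow i), hgN.qExpansion_pow, hhN.qExpansion_pow,
        ← hx]
      have hi' : i ≤ n := (Finset.mem_range.mp hi).le
      have : qExpansion 1 h ^ n = qExpansion 1 h ^ i * qExpansion 1 h ^ (n - i) := by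
        rw [← pow_add]; congr 1; omega
      rw [this]
      ring
    rw [Finset.sum_congr rfl this, ← Finset.mul_sum, ← hx, mul_pow]
    have : x ^ n * qExpansion 1 h ^ n + qExpansion 1 h ^ n *
        ∑ i ∈ Finset.range n, qExpansion 1 (b i) * x ^ i =
        qExpansion 1 h ^ n * (x ^ n + ∑ i ∈ Finset.range n, qExpansion 1 (b i) * x ^ i) := by
      ring
    rw [this, hmonic, mul_zero]
  have hΦ0 : Φ = 0 := hΦN.qExpansion_eq_zero_iff.mp hΦq
  have heq : ∀ τ, g τ ^ n + ∑ i ∈ Finset.range n, b i τ * g τ ^ i * h τ ^ (n - i) = 0 := by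
    intro τ
    have := congrFun hΦ0 τ
    simpa [hΦ] using this
  obtain ⟨F, hF⟩ := exists_cuspForm_of_monic_eq_fun hm g h hgN.1 hhN.1 hgΓ hhΓ hne hn b hb heq
  refine ⟨F, ?_⟩
  have hFN : IsNice (F : ℍ → ℂ) := isNice_of_modularFormClass hΓ F
  have hFh : (F : ℍ → ℂ) * h = g := funext hF
  have h1 : qExpansion 1 F * qExpansion 1 h = x * qExpansion 1 h := by
    rw [← IsNice.qExpansion_mul hFN hhN, hFh, hx]
  exact mul_right_cancel₀ hH h1

/-- **Converse step, `q`-expansion form.** Let `g, h` be modular forms of level `Γ` and weights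
`w + k`, `w` with `h ≠ 0`, and let `x` be a formal power series with `x * qExp h = qExp g`
satisfying a monic equation `x ^ n + ∑_{i < n} qExp (b i) * x ^ i = 0` whose coefficients are
`q`-expansions of level-one cusp forms `b i` of weight `k * (n - i)`. Then `x` is the
`q`-expansion of a cusp form of weight `k` and level `Γ`. -/
theorem exists_cuspForm_qExpansion_eq {Γ : Subgroup SL(2, ℤ)} [Γ.FiniteIndex]
    (hΓ : (1 : ℝ) ∈ (Γ : Subgroup (GL (Fin 2) ℝ)).strictPeriods)
    {k w m : ℤ} (hm : m = w + k) (g : ModularForm Γ m) (h : ModularForm Γ w) (hh : h ≠ 0)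
    {n : ℕ} (hn : 0 < n) (b : ℕ → ℍ → ℂ)
    (hb : ∀ i < n, ∃ (wi : ℤ) (B : CuspForm 𝒮ℒ wi), wi = k * ((n : ℤ) - i) ∧ ⇑B = b i)
    (x : PowerSeries ℂ) (hx : x * qExpansion 1 h = qExpansion 1 g)
    (hmonic : x ^ n + ∑ i ∈ Finset.range n, qExpansion 1 (b i) * x ^ i = 0) :
    ∃ F : CuspForm Γ k, qExpansion 1 F = x := by
  have hgN : IsNice (g : ℍ → ℂ) := isNice_of_modularFormClass hΓ g
  have hhN : IsNice (h : ℍ → ℂ) := isNice_of_modularFormClass hΓ h
  have hH : qExpansion 1 h ≠ 0 := by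
    rw [Ne, hhN.qExpansion_eq_zero_iff]
    intro h0
    exact hh (DFunLike.coe_injective (by rw [h0]; rfl))
  refine exists_cuspForm_qExpansion_eq_fun hΓ hm g h hgN hhN (fun γ hγ ↦ ?_) (fun γ hγ ↦ ?_) hH hn
    b hb x hx hmonic
  · exact SlashInvariantForm.slash_action_eqn g _ ⟨γ, hγ, rfl⟩
  · exact SlashInvariantForm.slash_action_eqn h _ ⟨γ, hγ, rfl⟩

theorem one_mem_strictPeriods_Gamma0' (N : ℕ) :
    (1 : ℝ) ∈ ((CongruenceSubgroup.Gamma0 N : Subgroup SL(2, ℤ)) :
      Subgroup (GL (Fin 2) ℝ)).strictPeriods := by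
  simp

/-- The converse step for `Γ₀(N)`, `q`-expansion form, any weight `k`. -/
theorem exists_cuspForm_Gamma0_qExpansion_eq (N : ℕ) [NeZero N]
    {k w m : ℤ} (hm : m = w + k) (g : ModularForm (CongruenceSubgroup.Gamma0 N) m)
    (h : ModularForm (CongruenceSubgroup.Gamma0 N) w) (hh : h ≠ 0)
    {n : ℕ} (hn : 0 < n) (b : ℕ → ℍ → ℂ)
    (hb : ∀ i < n, ∃ (wi : ℤ) (B : CuspForm 𝒮ℒ wi), wi = k * ((n : ℤ) - i) ∧ ⇑B = b i)
    (x : PowerSeries ℂ) (hx : x * qExpansion 1 h = qExpansion 1 g)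
    (hmonic : x ^ n + ∑ i ∈ Finset.range n, qExpansion 1 (b i) * x ^ i = 0) :
    ∃ F : CuspForm (CongruenceSubgroup.Gamma0 N) k, qExpansion 1 F = x :=
  exists_cuspForm_qExpansion_eq (one_mem_strictPeriods_Gamma0' N) hm g h hh hn b hb x hx hmonic

end Fermat.Agent.S23.Conv

end
-- ===== PACK-END S23/ConverseQ.lean

-- ===== PACK-BEGIN S23/Cap/Descent.lean
section



/-!
# S23 / WP6 : Galois descent for subspaces of `ℂ⟦q⟧`.

Adapter around the abstract dual-basis descent lemma `Fermat.Agent.S23.H683.descent`.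
-/

set_option autoImplicit false

namespace Fermat.Agent.S23.Cap

/-- the truncation map `W → ℂ^{B+1}` -/
noncomputable def descentTrunc (W : Submodule ℂ (PowerSeries ℂ)) (B : ℕ) :
    W →ₗ[ℂ] (Fin (B + 1) → ℂ) :=
  LinearMap.pi fun i => (PowerSeries.coeff (R := ℂ) (i : ℕ)).comp W.subtype

theorem descentTrunc_injective (W : Submodule ℂ (PowerSeries ℂ)) (B : ℕ)
    (hB : ∀ F ∈ W, (∀ n ≤ B, PowerSeries.coeff n F = 0) → F = 0) :
    Function.Injective (descentTrunc W B) := by
  rw [← LinearMap.ker_eq_bot, LinearMap.ker_eq_bot']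
  intro F hF
  apply Subtype.ext
  apply hB F.1 F.2
  intro n hn
  have := congrFun hF ⟨n, Nat.lt_succ_of_le hn⟩
  simpa [descentTrunc] using this

/-- **WP6 main statement.** -/
theorem descent (W : Submodule ℂ (PowerSeries ℂ)) (B : ℕ)
    (hB : ∀ F ∈ W, (∀ n ≤ B, PowerSeries.coeff n F = 0) → F = 0)
    (hσ : ∀ σ : ℂ →+* ℂ, ∀ F ∈ W, F.map σ ∈ W) :
    W ≤ Submodule.span ℂ
      {F | F ∈ W ∧ ∀ n : ℕ, ∃ r : ℚ, PowerSeries.coeff n F = (r : ℂ)} := by
  haveI : FiniteDimensional ℂ W :=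
    FiniteDimensional.of_injective (descentTrunc W B) (descentTrunc_injective W B hB)
  let a : ℕ → W →ₗ[ℂ] ℂ := fun n => (PowerSeries.coeff (R := ℂ) n).comp W.subtype
  have hinj : ∀ f : W, (∀ n, a n f = 0) → f = 0 := by
    intro f hf
    apply Subtype.ext
    apply PowerSeries.ext
    intro n
    simpa [a] using hf n
  have htr : ∀ (σ : ℂ ≃+* ℂ) (f : W), ∃ g : W, ∀ n, a n g = σ (a n f) := by
    intro σ f
    refine ⟨⟨(f : PowerSeries ℂ).map σ.toRingHom, hσ σ.toRingHom f.1 f.2⟩, fun n => ?_⟩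
    simp [a]
  have key := Fermat.Agent.S23.H683.descent a hinj htr
  intro F hF
  have hmem : (⟨F, hF⟩ : W) ∈ Submodule.span ℂ {f : W | ∀ n, ∃ r : ℚ, a n f = (r : ℂ)} := by
    rw [key]; trivial
  have h2 := Submodule.mem_map_of_mem (f := W.subtype) hmem
  rw [Submodule.map_span] at h2
  refine Submodule.span_mono ?_ h2
  rintro _ ⟨f, hf, rfl⟩
  exact ⟨f.2, fun n => by simpa [a] using hf n⟩

end Fermat.Agent.S23.Cap

end
-- ===== PACK-END S23/Cap/Descent.lean

-- ===== PACK-BEGIN Ribet/H751/LogHolPlace.lean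
section



/-!
# RIBET row 38, WALL-p, I3 leaf LOGHOL (helper751), part 2: the local expansion at a place

`F / K` a field extension, `v : Place K F` of degree one, `t ∈ F` with `ord_v t = 1`.  Then the
`t`-adic expansion is a `K`-algebra embedding

  `placeLaurent v hv ht : F →ₐ[K] K((X))`,  `t ↦ X`,

which maps `O_v` into `K⟦X⟧` and reflects integrality (`mem_of_placeLaurent_eq_ofPowerSeries`).
-/

set_option autoImplicit false

noncomputable section

open AlgebraicCurve

namespace Fermat.Agent.Ribet.H751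

open Fermat.Agent.Lib.RR

variable {K F : Type*} [Field K] [Field F] [Algebra K F]

section PlaceExpand

variable (v : Place K F) (hv : v.deg = 1) {t : F} (ht : v.ord t = 1)

include ht in
theorem unif_ne_zero : t ≠ 0 := ne_zero_of_ord_ne_zero v (by rw [ht]; norm_num)

include ht in
theorem unif_mem : t ∈ v.toValuationSubring := mem_of_ord_nonneg v (by rw [ht]; norm_num)

/-- the uniformiser as an element of `O_v` -/
def unifO : v.toValuationSubring := ⟨t, unif_mem v ht⟩

/-- the value of `a ∈ O_v` at `v` -/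
def epsO (a : v.toValuationSubring) : K :=
  (exists_const_sub v hv (ord_nonneg_of_mem v a.2)).choose

theorem epsO_spec (a : v.toValuationSubring) :
    (a : F) - algebraMap K F (epsO v hv a) = 0 ∨
      0 < v.ord ((a : F) - algebraMap K F (epsO v hv a)) :=
  (exists_const_sub v hv (ord_nonneg_of_mem v a.2)).choose_spec

include ht in
theorem div_unif_mem {x : F} (hx : x = 0 ∨ 0 < v.ord x) : x / t ∈ v.toValuationSubring := by
  rcases hx with rfl | hx
  · rw [zero_div]; exact zero_mem _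
  · apply mem_of_ord_nonneg
    have hx0 : x ≠ 0 := ne_zero_of_ord_ne_zero v hx.ne'
    rw [div_eq_mul_inv, v.ord_mul hx0 (inv_ne_zero (unif_ne_zero v ht)), v.ord_inv, ht]
    omega

/-- the shift `(a - a(v)) / t` -/
def shO (a : v.toValuationSubring) : v.toValuationSubring :=
  ⟨((a : F) - algebraMap K F (epsO v hv a)) / t, div_unif_mem v ht (epsO_spec v hv a)⟩

/-- The expansion data of a place of degree one with a uniformiser. -/
def placeExpandData : ExpandData K v.toValuationSubring where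
  t := unifO v ht
  eps := epsO v hv
  sh := shO v hv ht
  dec := fun a => by
    apply Subtype.ext
    have ht0 := unif_ne_zero v ht
    simp only [unifO, shO]
    push_cast
    rw [Place.coe_algebraMap]
    field_simp
    ring
  uniq := fun c b h => by
    have ht0 := unif_ne_zero v ht
    have h1 : algebraMap K F c + t * (b : F) = 0 := by
      have := congrArg Subtype.val h
      simpa [unifO] using this
    have hc : c = 0 := by
      by_contra hc
      have hb : (b : F) ≠ 0 := by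
        intro hb
        rw [hb, mul_zero, add_zero] at h1
        exact hc ((map_eq_zero _).1 h1)
      have h2 : algebraMap K F c = -(t * (b : F)) := eq_neg_of_add_eq_zero_left h1
      have h3 := congrArg v.ord h2
      rw [ord_algebraMap, ord_neg, v.ord_mul ht0 hb, ht] at h3
      have := ord_nonneg_of_mem v b.2
      omega
    refine ⟨hc, ?_⟩
    rw [hc, map_zero, zero_add] at h1
    rcases mul_eq_zero.1 h1 with h | h
    · exact absurd h ht0
    · exact Subtype.ext h

@[simp] theorem placeExpandData_t : (placeExpandData v hv ht).t = unifO v ht := rfl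

theorem placeExpandData_eps_eq_zero {a : v.toValuationSubring}
    (ha : (a : F) = 0 ∨ 0 < v.ord (a : F)) : (placeExpandData v hv ht).eps a = 0 := by
  have ht0 := unif_ne_zero v ht
  refine (placeExpandData v hv ht).eps_eq (b := ⟨(a : F) / t, div_unif_mem v ht ha⟩) ?_
  apply Subtype.ext
  simp only [placeExpandData_t, unifO, map_zero, zero_add]
  push_cast
  field_simp

theorem placeExpandData_eps_ne_zero {a : v.toValuationSubring} (ha0 : (a : F) ≠ 0)
    (ha : v.ord (a : F) = 0) : (placeExpandData v hv ht).eps a ≠ 0 := by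
  intro h
  have ht0 := unif_ne_zero v ht
  have h1 := congrArg Subtype.val ((placeExpandData v hv ht).dec a)
  rw [h, map_zero, zero_add] at h1
  simp only [placeExpandData_t, unifO] at h1
  push_cast at h1
  have hb : (((placeExpandData v hv ht).sh a : v.toValuationSubring) : F) ≠ 0 := by
    intro hb
    rw [hb, mul_zero] at h1
    exact ha0 h1
  have h2 := congrArg v.ord h1
  rw [ha, v.ord_mul ht0 hb, ht] at h2
  have := ord_nonneg_of_mem v ((placeExpandData v hv ht).sh a).2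
  omega

/-- The expansion `O_v → K⟦X⟧`. -/
def placePower : v.toValuationSubring →ₐ[K] PowerSeries K := (placeExpandData v hv ht).expand

theorem placePower_unif : placePower v hv ht (unifO v ht) = PowerSeries.X :=
  (placeExpandData v hv ht).expand_t

theorem placePower_injective : Function.Injective (placePower v hv ht) := by
  rw [injective_iff_map_eq_zero]
  intro a ha
  by_contra ha0
  have ht0 := unif_ne_zero v ht
  have haF : (a : F) ≠ 0 := fun h => ha0 (Subtype.ext h)
  obtain ⟨b, hb⟩ := (placeExpandData v hv ht).pow_dvd_of_expand_eq_zero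
    ((v.ord (a : F)).toNat + 1) a ha
  have h1 : (a : F) = t ^ ((v.ord (a : F)).toNat + 1) * (b : F) := by
    have := congrArg Subtype.val hb
    simpa [unifO] using this
  have hbF : (b : F) ≠ 0 := by
    intro h
    rw [h, mul_zero] at h1
    exact haF h1
  have h2 := congrArg v.ord h1
  rw [v.ord_mul (pow_ne_zero _ ht0) hbF, ord_pow, ht] at h2
  have h3 := ord_nonneg_of_mem v b.2
  have h4 := ord_nonneg_of_mem v a.2
  have h5 := Int.toNat_of_nonneg h4
  push_cast at h2
  omega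

/-- the ring homomorphism `O_v → K((X))` -/
def placeLaurentO : v.toValuationSubring →+* LaurentSeries K :=
  (HahnSeries.ofPowerSeries ℤ K).comp (placePower v hv ht).toRingHom

theorem placeLaurentO_injective : Function.Injective (placeLaurentO v hv ht) :=
  HahnSeries.ofPowerSeries_injective.comp (placePower_injective v hv ht)

/-- the ring homomorphism `F → K((X))` -/
def placeLaurentRingHom : F →+* LaurentSeries K :=
  IsFractionRing.lift (placeLaurentO_injective v hv ht)

theorem placeLaurentRingHom_coe (a : v.toValuationSubring) :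
    placeLaurentRingHom v hv ht (a : F) =
      HahnSeries.ofPowerSeries ℤ K (placePower v hv ht a) :=
  IsFractionRing.lift_algebraMap (placeLaurentO_injective v hv ht) a

/-- **The local expansion at `v`** `F →ₐ[K] K((X))`. -/
def placeLaurent : F →ₐ[K] LaurentSeries K :=
  { placeLaurentRingHom v hv ht with
    commutes' := fun c => by
      have h1 : algebraMap K F c = ((algebraMap K v.toValuationSubring c : v.toValuationSubring) : F) :=
        rfl
      show placeLaurentRingHom v hv ht (algebraMap K F c) = _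
      rw [h1, placeLaurentRingHom_coe, AlgHom.commutes]
      rfl }

theorem placeLaurent_coe (a : v.toValuationSubring) :
    placeLaurent v hv ht (a : F) = HahnSeries.ofPowerSeries ℤ K (placePower v hv ht a) :=
  placeLaurentRingHom_coe v hv ht a

theorem placeLaurent_unif : placeLaurent v hv ht t = HahnSeries.single 1 1 := by
  have := placeLaurent_coe v hv ht (unifO v ht)
  rw [placePower_unif, HahnSeries.ofPowerSeries_X] at this
  exact this

theorem placeLaurent_injective : Function.Injective (placeLaurent v hv ht) :=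
  (placeLaurent v hv ht).toRingHom.injective

/-- the expansion of an element of the maximal ideal is divisible by `X` -/
theorem X_dvd_placePower {a : v.toValuationSubring} (ha : (a : F) = 0 ∨ 0 < v.ord (a : F)) :
    PowerSeries.X ∣ placePower v hv ht a :=
  (placeExpandData v hv ht).X_dvd_expand_of_eps_eq_zero (placeExpandData_eps_eq_zero v hv ht ha)

/-- the expansion of a unit is a unit -/
theorem isUnit_placePower {a : v.toValuationSubring} (ha0 : (a : F) ≠ 0)
    (ha : v.ord (a : F) = 0) : IsUnit (placePower v hv ht a) := by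
  rw [PowerSeries.isUnit_iff_constantCoeff]
  have := placeExpandData_eps_ne_zero v hv ht ha0 ha
  rw [placePower, ExpandData.constantCoeff_expand]
  exact isUnit_iff_ne_zero.mpr this

/-- **Integrality is reflected by the local expansion.** -/
theorem mem_of_placeLaurent_eq_ofPowerSeries {f : F} {s : PowerSeries K}
    (hs : placeLaurent v hv ht f = HahnSeries.ofPowerSeries ℤ K s) :
    f ∈ v.toValuationSubring := by
  by_contra hf
  have hord : v.ord f < 0 := by
    by_contra h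
    exact hf (mem_of_ord_nonneg v (not_lt.mp h))
  have hf0 : f ≠ 0 := ne_zero_of_ord_ne_zero v hord.ne
  have hinv : 0 < v.ord f⁻¹ := by rw [v.ord_inv]; omega
  have hmem : f⁻¹ ∈ v.toValuationSubring := mem_of_ord_nonneg v hinv.le
  obtain ⟨r, hr⟩ := X_dvd_placePower v hv ht (a := ⟨f⁻¹, hmem⟩) (Or.inr hinv)
  have h1 := placeLaurent_coe v hv ht ⟨f⁻¹, hmem⟩
  rw [hr] at h1
  have h2 : placeLaurent v hv ht f * placeLaurent v hv ht f⁻¹ = 1 := by
    rw [← map_mul, mul_inv_cancel₀ hf0, map_one]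
  rw [hs, h1, ← map_mul, ← map_one (HahnSeries.ofPowerSeries ℤ K)] at h2
  have h3 := HahnSeries.ofPowerSeries_injective h2
  have h4 := congrArg PowerSeries.constantCoeff h3
  simp at h4

end PlaceExpand

end Fermat.Agent.Ribet.H751

end
end
-- ===== PACK-END Ribet/H751/LogHolPlace.lean

-- ===== PACK-BEGIN S37/H940/Core.lean
section




/-!
# S37 / RIM (helper940): the place reduction map, fibre-local core

Abstract setting.  `K ⊇ A` a valued field with residue map `π : A → k`;  `F / K` and `F_k / k`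
function fields (Prelude `Place`);  `V ⊆ F` a subring ("Gauss valuation ring") with a ring
homomorphism `ρ : V → F_k` extending `π`, such that every `u ∈ V` with `ρ u ≠ 0` is a unit of `V`.

A *fibre* is a set `𝔉` of places of `F` ("the tube") and a finite set `𝔊` of places of `F_k`
such that
* `FC`  (conservation of number in the fibre): `∑_{P ∈ 𝔉} ord_P u = ∑_{Q ∈ 𝔊} ord_Q (ρ u)`
  for every `u ∈ V` with `ρ u ≠ 0`;
* `LP`  (smoothness 1): every `Q ∈ 𝔊` has a local parameter which lifts to an element of `V`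
  regular on `𝔉`, and is a unit at the other points of `𝔊`;
* `SEP` (smoothness 2): some element of `V`, regular on `𝔉`, has a reduction separating `𝔊`.

Main result `Fibre.exists_red`: there is a surjective map `r : 𝔉 → 𝔊`, compatible with values
(`(ρ b)(r P) = π (b(P))`), with the conservation law
`∑_{P ∈ 𝔉, r P = Q} ord_P u = ord_Q (ρ u)` for every `u ∈ V` with `ρ u ≠ 0`.

No Zariski main theorem, no unique factorisation, no completions: only `FC`, used for the
functions `1 - b/c`, `b - b(P)` and for the local parameters.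
-/

set_option autoImplicit false

noncomputable section

namespace Fermat.Agent.S37.H940

open AlgebraicCurve
open Fermat.Agent.S24.FF

/-- The abstract reduction context. -/
structure Ctx (K F k Fk : Type*) [Field K] [Field F] [Algebra K F] [Field k] [Field Fk]
    [Algebra k Fk] where
  /-- the valuation ring of the base field -/
  A : ValuationSubring K
  /-- the residue map -/
  π : A →+* k
  π_surj : Function.Surjective π
  π_eq_zero : ∀ a : A, π a = 0 ↔ ¬ IsUnit a
  /-- the ring of functions with a reduction -/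
  V : Subring F
  /-- the reduction map -/
  ρ : V →+* Fk
  A_mem : ∀ a : A, algebraMap K F (a : K) ∈ V
  ρ_A : ∀ a : A, ρ ⟨algebraMap K F (a : K), A_mem a⟩ = algebraMap k Fk (π a)
  inv_mem : ∀ u : V, ρ u ≠ 0 → ((u : F))⁻¹ ∈ V

variable {K F k Fk : Type*} [Field K] [Field F] [Algebra K F] [Field k] [Field Fk]
  [Algebra k Fk]

namespace Ctx

variable (C : Ctx K F k Fk)

/-- a constant of `A` as an element of `V` -/
def const (a : C.A) : C.V := ⟨algebraMap K F (a : K), C.A_mem a⟩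

@[simp] theorem coe_const (a : C.A) : ((C.const a : C.V) : F) = algebraMap K F (a : K) := rfl

@[simp] theorem ρ_const (a : C.A) : C.ρ (C.const a) = algebraMap k Fk (C.π a) := C.ρ_A a

theorem ne_zero_of_ρ_ne_zero {u : C.V} (h : C.ρ u ≠ 0) : (u : F) ≠ 0 := by
  intro h0
  apply h
  have : u = 0 := Subtype.ext h0
  rw [this, map_zero]

/-- the inverse of an element with nonzero reduction -/
def inv (u : C.V) (h : C.ρ u ≠ 0) : C.V := ⟨((u : F))⁻¹, C.inv_mem u h⟩

@[simp] theorem coe_inv (u : C.V) (h : C.ρ u ≠ 0) : ((C.inv u h : C.V) : F) = ((u : F))⁻¹ := rfl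

theorem mul_inv (u : C.V) (h : C.ρ u ≠ 0) : u * C.inv u h = 1 := by
  apply Subtype.ext
  simp [mul_inv_cancel₀ (C.ne_zero_of_ρ_ne_zero h)]

theorem ρ_inv (u : C.V) (h : C.ρ u ≠ 0) : C.ρ (C.inv u h) = (C.ρ u)⁻¹ := by
  have := congrArg C.ρ (C.mul_inv u h)
  rw [map_mul, map_one] at this
  exact eq_inv_of_mul_eq_one_right this

theorem ρ_inv_ne_zero (u : C.V) (h : C.ρ u ≠ 0) : C.ρ (C.inv u h) ≠ 0 := by
  rw [C.ρ_inv u h]
  exact inv_ne_zero h

/-- an element of `K` outside `A` has its inverse in the maximal ideal of `A` -/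
theorem exists_inv_of_not_mem {c : K} (hc : c ∉ C.A) :
    ∃ a : C.A, (a : K) = c⁻¹ ∧ C.π a = 0 := by
  have hinv : c⁻¹ ∈ C.A := (C.A.mem_or_inv_mem c).resolve_left hc
  refine ⟨⟨c⁻¹, hinv⟩, rfl, ?_⟩
  rw [C.π_eq_zero]
  intro hu
  apply hc
  obtain ⟨b, hb⟩ := isUnit_iff_exists_inv.mp hu
  have hb' : c⁻¹ * (b : K) = 1 := by
    have := congrArg (fun x : C.A => (x : K)) hb
    simpa using this
  have hc0 : c ≠ 0 := by
    rintro rfl
    exact hc (zero_mem _)
  have : (b : K) = c := by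
    field_simp at hb'
    exact hb'
  rw [← this]
  exact b.2

end Ctx

/-- A fibre of the reduction: a tube `𝔉` of places of `F` over a finite set `𝔊` of places of
`F_k`, with conservation of number and smoothness. -/
structure Fibre (C : Ctx K F k Fk) where
  /-- the tube -/
  𝔉 : Set (Place K F)
  /-- the points of the special fibre -/
  𝔊 : Finset (Place k Fk)
  ne : 𝔊.Nonempty
  res : ∀ P ∈ 𝔉, ∀ f : F, 0 ≤ P.ord f → ∃ c : K, InMax P (f - algebraMap K F c)
  fin : ∀ u : F, u ≠ 0 → {P | P ∈ 𝔉 ∧ P.ord u ≠ 0}.Finite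
  FC : ∀ u : C.V, C.ρ u ≠ 0 → ∑ᶠ P ∈ 𝔉, P.ord (u : F) = ∑ Q ∈ 𝔊, Q.ord (C.ρ u)
  LP : ∀ Q ∈ 𝔊, ∃ t : C.V, (∀ P ∈ 𝔉, 0 ≤ P.ord (t : F)) ∧ Q.ord (C.ρ t) = 1 ∧
    ∀ Q' ∈ 𝔊, Q' ≠ Q → Q'.ord (C.ρ t) = 0
  SEP : ∃ s : C.V, (∀ P ∈ 𝔉, 0 ≤ P.ord (s : F)) ∧
    ∀ Q ∈ 𝔊, ∀ Q' ∈ 𝔊, ∀ a : k, InMax Q (C.ρ s - algebraMap k Fk a) →
      InMax Q' (C.ρ s - algebraMap k Fk a) → Q = Q'

namespace Fibre

variable {C : Ctx K F k Fk} (Φ : Fibre C)

/-- the sum over the tube as a finite sum -/
theorem finsum_eq_sum (u : F) (hu : u ≠ 0) :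
    ∑ᶠ P ∈ Φ.𝔉, P.ord u = ∑ P ∈ (Φ.fin u hu).toFinset, P.ord u := by
  rw [finsum_mem_eq_sum_of_inter_support_eq]
  ext P
  simp only [Set.mem_inter_iff, Function.mem_support, ne_eq, Set.Finite.coe_toFinset]
  constructor
  · rintro ⟨h1, h2⟩
    exact ⟨⟨h1, h2⟩, h2⟩
  · rintro ⟨⟨h1, h2⟩, -⟩
    exact ⟨h1, h2⟩

/-- if `u` is regular on the tube and vanishes at `P`, the sum over the tube is positive -/
theorem finsum_pos {u : F} (hu : u ≠ 0) (hreg : ∀ P ∈ Φ.𝔉, 0 ≤ P.ord u) {P : Place K F}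
    (hP : P ∈ Φ.𝔉) (hpos : 0 < P.ord u) : 0 < ∑ᶠ P ∈ Φ.𝔉, P.ord u := by
  rw [Φ.finsum_eq_sum u hu]
  have hmem : P ∈ (Φ.fin u hu).toFinset := by
    rw [Set.Finite.mem_toFinset]
    exact ⟨hP, hpos.ne'⟩
  refine lt_of_lt_of_le hpos
    (Finset.single_le_sum (f := fun P : Place K F => P.ord u) (fun Q hQ => ?_) hmem)
  rw [Set.Finite.mem_toFinset] at hQ
  exact hreg Q hQ.1

/-- if `u` is regular on the tube and the sum over the tube is `≤ ord_P u`,
then `u` has no zero on the tube besides `P` -/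
theorem ord_eq_zero_of_finsum_le {u : F} (hu : u ≠ 0) (hreg : ∀ P ∈ Φ.𝔉, 0 ≤ P.ord u)
    {P : Place K F} (hP : P ∈ Φ.𝔉) (hle : ∑ᶠ P ∈ Φ.𝔉, P.ord u ≤ P.ord u)
    {P' : Place K F} (hP' : P' ∈ Φ.𝔉) (hne : P' ≠ P) : P'.ord u = 0 := by
  classical
  by_contra h0
  have hpos : 0 < P'.ord u := lt_of_le_of_ne (hreg P' hP') (Ne.symm h0)
  rw [Φ.finsum_eq_sum u hu] at hle
  have hmem' : P' ∈ (Φ.fin u hu).toFinset := by
    rw [Set.Finite.mem_toFinset]
    exact ⟨hP', h0⟩
  have hnn : ∀ Q ∈ (Φ.fin u hu).toFinset, 0 ≤ Q.ord u := fun Q hQ => by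
    rw [Set.Finite.mem_toFinset] at hQ
    exact hreg Q hQ.1
  by_cases hPm : P ∈ (Φ.fin u hu).toFinset
  · have h2 : P.ord u + P'.ord u ≤ ∑ Q ∈ (Φ.fin u hu).toFinset, Q.ord u := by
      have hsub : ({P, P'} : Finset (Place K F)) ⊆ (Φ.fin u hu).toFinset := by
        intro Q hQ
        rw [Finset.mem_insert, Finset.mem_singleton] at hQ
        rcases hQ with rfl | rfl
        · exact hPm
        · exact hmem'
      have := Finset.sum_le_sum_of_subset_of_nonneg (f := fun Q : Place K F => Q.ord u) hsub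
        (fun Q hQ _ => hnn Q hQ)
      rwa [Finset.sum_pair (Ne.symm hne)] at this
    omega
  · have hP0 : P.ord u = 0 := by
      by_contra h
      exact hPm (by rw [Set.Finite.mem_toFinset]; exact ⟨hP, h⟩)
    have := Finset.single_le_sum (f := fun Q : Place K F => Q.ord u) hnn hmem'
    omega

/-- **value lemma, integrality**: the value at a point of the tube of a function of `V`
regular on the tube lies in `A`. -/
theorem value_mem (b : C.V) (hreg : ∀ P ∈ Φ.𝔉, 0 ≤ P.ord (b : F)) {P : Place K F}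
    (hP : P ∈ Φ.𝔉) {c : K} (hc : InMax P ((b : F) - algebraMap K F c)) : c ∈ C.A := by
  by_contra hcA
  obtain ⟨a, ha, hπ⟩ := C.exists_inv_of_not_mem hcA
  have hc0 : c ≠ 0 := by
    rintro rfl
    exact hcA (zero_mem _)
  -- `u = 1 - b / c`
  set u : C.V := 1 - C.const a * b with hu
  have hρ : C.ρ u = 1 := by
    rw [hu, map_sub, map_one, map_mul, C.ρ_const, hπ, map_zero, zero_mul, sub_zero]
  have hρ0 : C.ρ u ≠ 0 := by rw [hρ]; exact one_ne_zero
  have hu0 : (u : F) ≠ 0 := C.ne_zero_of_ρ_ne_zero hρ0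
  have hcoe : (u : F) = 1 - algebraMap K F c⁻¹ * (b : F) := by
    rw [hu, ← ha]
    rfl
  have hureg : ∀ P ∈ Φ.𝔉, 0 ≤ P.ord (u : F) := by
    intro P hP
    rw [hcoe]
    refine ord_nonneg_sub (by simp) (ord_nonneg_mul (ord_nonneg_const P _) (hreg P hP))
  have hmax : InMax P (u : F) := by
    have e : (u : F) = algebraMap K F (-c⁻¹) * ((b : F) - algebraMap K F c) := by
      have h1 : algebraMap K F c⁻¹ * algebraMap K F c = 1 := by
        rw [← map_mul, inv_mul_cancel₀ hc0, map_one]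
      rw [hcoe, map_neg]
      linear_combination (-1 : F) * h1
    rw [e]
    exact hc.const_mul _
  have hpos := Φ.finsum_pos hu0 hureg hP (hmax.ord_pos hu0)
  rw [Φ.FC u hρ0, hρ] at hpos
  simp at hpos

/-- the value of a function regular on the tube, as an element of `A` -/
theorem exists_value (b : C.V) (hreg : ∀ P ∈ Φ.𝔉, 0 ≤ P.ord (b : F)) {P : Place K F}
    (hP : P ∈ Φ.𝔉) : ∃ c : C.A, InMax P ((b : F) - algebraMap K F (c : K)) := by
  obtain ⟨c, hc⟩ := Φ.res P hP b (hreg P hP)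
  exact ⟨⟨c, Φ.value_mem b hreg hP hc⟩, hc⟩

/-- **zeros specialise to zeros**: if `b` has the value `c` at `P`, then `ρ b` has the value
`π c` at some point of `𝔊`. -/
theorem exists_point (b : C.V) (hreg : ∀ P ∈ Φ.𝔉, 0 ≤ P.ord (b : F)) {P : Place K F}
    (hP : P ∈ Φ.𝔉) {c : C.A} (hc : InMax P ((b : F) - algebraMap K F (c : K))) :
    ∃ Q ∈ Φ.𝔊, InMax Q (C.ρ b - algebraMap k Fk (C.π c)) := by
  set u : C.V := b - C.const c with hu
  have hρ : C.ρ u = C.ρ b - algebraMap k Fk (C.π c) := by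
    rw [hu, map_sub, C.ρ_const]
  rw [← hρ]
  by_cases h0 : C.ρ u = 0
  · obtain ⟨Q, hQ⟩ := Φ.ne
    exact ⟨Q, hQ, by rw [h0]; exact inMax_zero Q⟩
  · have hu0 : (u : F) ≠ 0 := C.ne_zero_of_ρ_ne_zero h0
    have hcoe : (u : F) = (b : F) - algebraMap K F (c : K) := by
      rw [hu]
      rfl
    have hureg : ∀ P ∈ Φ.𝔉, 0 ≤ P.ord (u : F) := fun P hP => by
      rw [hcoe]
      exact ord_nonneg_sub (hreg P hP) (ord_nonneg_const P _)
    have hpos := Φ.finsum_pos hu0 hureg hP (by rw [hcoe]; exact hc.ord_pos (hcoe ▸ hu0))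
    rw [Φ.FC u h0] at hpos
    obtain ⟨Q, hQ, hQpos⟩ := Finset.exists_lt_of_sum_lt (f := fun _ => (0 : ℤ))
      (g := fun Q : Place k Fk => Q.ord (C.ρ u)) (s := Φ.𝔊) (by simpa using hpos)
    exact ⟨Q, hQ, inMax_of_ord_pos hQpos⟩

/-! ### The reduction map on the tube -/

/-- the separating function -/
def sepFun : C.V := Φ.SEP.choose

theorem sepFun_reg : ∀ P ∈ Φ.𝔉, 0 ≤ P.ord (Φ.sepFun : F) := Φ.SEP.choose_spec.1

theorem sepFun_sep : ∀ Q ∈ Φ.𝔊, ∀ Q' ∈ Φ.𝔊, ∀ a : k,
    InMax Q (C.ρ Φ.sepFun - algebraMap k Fk a) →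
      InMax Q' (C.ρ Φ.sepFun - algebraMap k Fk a) → Q = Q' :=
  Φ.SEP.choose_spec.2

/-- the value of the separating function at a point of the tube -/
def sepValue {P : Place K F} (hP : P ∈ Φ.𝔉) : C.A :=
  (Φ.exists_value Φ.sepFun Φ.sepFun_reg hP).choose

theorem sepValue_spec {P : Place K F} (hP : P ∈ Φ.𝔉) :
    InMax P ((Φ.sepFun : F) - algebraMap K F (Φ.sepValue hP : K)) :=
  (Φ.exists_value Φ.sepFun Φ.sepFun_reg hP).choose_spec

theorem exists_red_point {P : Place K F} (hP : P ∈ Φ.𝔉) :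
    ∃ Q ∈ Φ.𝔊, InMax Q (C.ρ Φ.sepFun - algebraMap k Fk (C.π (Φ.sepValue hP))) :=
  Φ.exists_point Φ.sepFun Φ.sepFun_reg hP (Φ.sepValue_spec hP)

open Classical in
/-- **The reduction map** of the fibre (junk outside the tube). -/
def red (P : Place K F) : Place k Fk :=
  if hP : P ∈ Φ.𝔉 then (Φ.exists_red_point hP).choose else Φ.ne.choose

theorem red_mem (P : Place K F) : Φ.red P ∈ Φ.𝔊 := by
  unfold red
  split_ifs with hP
  · exact (Φ.exists_red_point hP).choose_spec.1
  · exact Φ.ne.choose_spec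

theorem red_sepFun {P : Place K F} (hP : P ∈ Φ.𝔉) :
    InMax (Φ.red P) (C.ρ Φ.sepFun - algebraMap k Fk (C.π (Φ.sepValue hP))) := by
  unfold red
  rw [dif_pos hP]
  exact (Φ.exists_red_point hP).choose_spec.2

/-- **value compatibility**: `(ρ b)(r P) = π (b(P))` for `b ∈ V` regular on the tube. -/
theorem red_value [Infinite k] (b : C.V) (hreg : ∀ P ∈ Φ.𝔉, 0 ≤ P.ord (b : F))
    {P : Place K F} (hP : P ∈ Φ.𝔉) {c : C.A}
    (hc : InMax P ((b : F) - algebraMap K F (c : K))) :
    InMax (Φ.red P) (C.ρ b - algebraMap k Fk (C.π c)) := by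
  classical
  set s := Φ.sepFun with hs
  set cs := Φ.sepValue hP with hcs
  have hsP := Φ.sepValue_spec hP
  -- for every `a : k` a point `Q_a` where `(ρ s - π cs) + a (ρ b - π c)` vanishes
  have key : ∀ a : k, ∃ Q ∈ Φ.𝔊,
      InMax Q ((C.ρ s - algebraMap k Fk (C.π cs)) +
        algebraMap k Fk a * (C.ρ b - algebraMap k Fk (C.π c))) := by
    intro a
    obtain ⟨l, hl⟩ := C.π_surj a
    have hreg' : ∀ P ∈ Φ.𝔉, 0 ≤ P.ord ((s + C.const l * b : C.V) : F) := fun P hP =>
      ord_nonneg_add (Φ.sepFun_reg P hP) (ord_nonneg_mul (ord_nonneg_const P _) (hreg P hP))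
    have hval : InMax P (((s + C.const l * b : C.V) : F) -
        algebraMap K F ((cs + l * c : C.A) : K)) := by
      have e : ((s + C.const l * b : C.V) : F) - algebraMap K F ((cs + l * c : C.A) : K)
          = ((s : F) - algebraMap K F (cs : K)) +
            algebraMap K F (l : K) * ((b : F) - algebraMap K F (c : K)) := by
        have h1 : ((s + C.const l * b : C.V) : F)
            = (s : F) + algebraMap K F (l : K) * (b : F) := rfl
        have h2 : ((cs + l * c : C.A) : K) = (cs : K) + (l : K) * (c : K) := rfl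
        rw [h1, h2, map_add, map_mul]
        ring
      rw [e]
      exact hsP.add (hc.const_mul _)
    obtain ⟨Q, hQ, hQm⟩ := Φ.exists_point _ hreg' hP hval
    refine ⟨Q, hQ, ?_⟩
    have e : C.ρ (s + C.const l * b) - algebraMap k Fk (C.π (cs + l * c))
        = (C.ρ s - algebraMap k Fk (C.π cs)) +
          algebraMap k Fk a * (C.ρ b - algebraMap k Fk (C.π c)) := by
      rw [map_add, map_mul, C.ρ_const, map_add, map_mul, hl, map_add, map_mul]
      ring
    rw [← e]
    exact hQm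
  choose Qf hQf hQm using key
  -- pigeonhole
  let f : k → Φ.𝔊 := fun a => ⟨Qf a, hQf a⟩
  obtain ⟨a₁, a₂, hne, heq⟩ := Finite.exists_ne_map_eq_of_infinite f
  have heq' : Qf a₁ = Qf a₂ := congrArg Subtype.val heq
  have h1 := hQm a₁
  have h2 := hQm a₂
  rw [← heq'] at h2
  set g := C.ρ b - algebraMap k Fk (C.π c) with hg
  set h := C.ρ s - algebraMap k Fk (C.π cs) with hh
  have h3 : InMax (Qf a₁) (algebraMap k Fk (a₁ - a₂) * g) := by
    have := h1.sub h2
    have e : h + algebraMap k Fk a₁ * g - (h + algebraMap k Fk a₂ * g)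
        = algebraMap k Fk (a₁ - a₂) * g := by
      rw [map_sub]; ring
    rwa [e] at this
  have hg' : InMax (Qf a₁) g := by
    have := h3.const_mul (a₁ - a₂)⁻¹
    have e : algebraMap k Fk (a₁ - a₂)⁻¹ * (algebraMap k Fk (a₁ - a₂) * g) = g := by
      rw [← mul_assoc, ← map_mul, inv_mul_cancel₀ (sub_ne_zero.mpr hne), map_one, one_mul]
    rwa [e] at this
  have hh' : InMax (Qf a₁) h := by
    have := h1.sub (hg'.const_mul a₁)
    rwa [add_sub_cancel_right] at this
  have hQ : Qf a₁ = Φ.red P :=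
    Φ.sepFun_sep _ (hQf a₁) _ (Φ.red_mem P) _ hh' (Φ.red_sepFun hP)
  rw [← hQ]
  exact hg'

/-- the reduction of a function of `V` regular on the tube is regular at `r P` -/
theorem ord_ρ_nonneg_red [Infinite k] (b : C.V) (hreg : ∀ P ∈ Φ.𝔉, 0 ≤ P.ord (b : F))
    {P : Place K F} (hP : P ∈ Φ.𝔉) : 0 ≤ (Φ.red P).ord (C.ρ b) := by
  obtain ⟨c, hc⟩ := Φ.exists_value b hreg hP
  exact ord_nonneg_of_inMax_sub (Φ.red_value b hreg hP hc)

/-- **local parameters**: at every point `P` of the tube there is `t ∈ V` with a simple zero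
at `P`, no other zero on the tube, whose reduction has a simple zero at `r P` and no other
zero on `𝔊`. -/
theorem exists_localParam [Infinite k] {P : Place K F} (hP : P ∈ Φ.𝔉) :
    ∃ t : C.V, C.ρ t ≠ 0 ∧ (∀ P' ∈ Φ.𝔉, 0 ≤ P'.ord (t : F)) ∧ P.ord (t : F) = 1 ∧
      (∀ P' ∈ Φ.𝔉, P' ≠ P → P'.ord (t : F) = 0) ∧
      (Φ.red P).ord (C.ρ t) = 1 ∧ ∀ Q' ∈ Φ.𝔊, Q' ≠ Φ.red P → Q'.ord (C.ρ t) = 0 := by
  classical
  obtain ⟨t₀, hreg₀, hQ₀, hQ'₀⟩ := Φ.LP (Φ.red P) (Φ.red_mem P)
  obtain ⟨c₀, hc₀⟩ := Φ.exists_value t₀ hreg₀ hP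
  have hρ₀ : C.ρ t₀ ≠ 0 := by
    intro h
    rw [h] at hQ₀
    simp at hQ₀
  -- the value of `t₀` at `P` lies in the maximal ideal
  have hπ : C.π c₀ = 0 := by
    have h1 := Φ.red_value t₀ hreg₀ hP hc₀
    have h2 : InMax (Φ.red P) (C.ρ t₀) := inMax_of_ord_pos (by omega)
    have h3 := h2.sub h1
    rw [sub_sub_cancel, inMax_algebraMap_iff] at h3
    exact h3
  set t : C.V := t₀ - C.const c₀ with ht
  have hρ : C.ρ t = C.ρ t₀ := by
    rw [ht, map_sub, C.ρ_const, hπ, map_zero, sub_zero]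
  have hρ0 : C.ρ t ≠ 0 := by rwa [hρ]
  have ht0 : (t : F) ≠ 0 := C.ne_zero_of_ρ_ne_zero hρ0
  have hcoe : (t : F) = (t₀ : F) - algebraMap K F (c₀ : K) := by
    rw [ht]
    rfl
  have hreg : ∀ P' ∈ Φ.𝔉, 0 ≤ P'.ord (t : F) := fun P' hP' => by
    rw [hcoe]
    exact ord_nonneg_sub (hreg₀ P' hP') (ord_nonneg_const P' _)
  have hpos : 0 < P.ord (t : F) := by
    rw [hcoe]
    exact hc₀.ord_pos (hcoe ▸ ht0)
  have hsum : ∑ᶠ P' ∈ Φ.𝔉, P'.ord (t : F) = 1 := by
    rw [Φ.FC t hρ0, hρ, Finset.sum_eq_single_of_mem (Φ.red P) (Φ.red_mem P)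
      (fun Q' hQ' hne => hQ'₀ Q' hQ' hne), hQ₀]
  have hle : P.ord (t : F) ≤ 1 := by
    rw [← hsum, Φ.finsum_eq_sum _ ht0]
    have hmem : P ∈ (Φ.fin _ ht0).toFinset := by
      rw [Set.Finite.mem_toFinset]
      exact ⟨hP, hpos.ne'⟩
    refine Finset.single_le_sum (f := fun P' : Place K F => P'.ord (t : F)) (fun Q hQ => ?_) hmem
    rw [Set.Finite.mem_toFinset] at hQ
    exact hreg Q hQ.1
  have hone : P.ord (t : F) = 1 := by omega
  refine ⟨t, hρ0, hreg, hone, fun P' hP' hne => ?_, by rw [hρ]; exact hQ₀,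
    fun Q' hQ' hne => by rw [hρ]; exact hQ'₀ Q' hQ' hne⟩
  exact Φ.ord_eq_zero_of_finsum_le ht0 hreg hP (by rw [hsum, hone]) hP' hne

/-- **surjectivity** of the reduction map: every point of `𝔊` lifts to the tube. -/
theorem red_surj [Infinite k] {Q : Place k Fk} (hQ : Q ∈ Φ.𝔊) : ∃ P ∈ Φ.𝔉, Φ.red P = Q := by
  classical
  obtain ⟨t, hreg, hQ1, hQ'⟩ := Φ.LP Q hQ
  have hρ0 : C.ρ t ≠ 0 := by
    intro h
    rw [h] at hQ1
    simp at hQ1
  have ht0 : (t : F) ≠ 0 := C.ne_zero_of_ρ_ne_zero hρ0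
  have hsum : ∑ᶠ P' ∈ Φ.𝔉, P'.ord (t : F) = 1 := by
    rw [Φ.FC t hρ0, Finset.sum_eq_single_of_mem Q hQ (fun Q' hQ'' hne => hQ' Q' hQ'' hne), hQ1]
  rw [Φ.finsum_eq_sum _ ht0] at hsum
  obtain ⟨P, hPm, hPpos⟩ := Finset.exists_lt_of_sum_lt (f := fun _ => (0 : ℤ))
    (g := fun P : Place K F => P.ord (t : F)) (s := (Φ.fin _ ht0).toFinset)
    (by simp [hsum])
  rw [Set.Finite.mem_toFinset] at hPm
  refine ⟨P, hPm.1, ?_⟩
  have hval : InMax P ((t : F) - algebraMap K F ((0 : C.A) : K)) := by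
    simpa using inMax_of_ord_pos hPpos
  have h1 := Φ.red_value t hreg hPm.1 hval
  rw [map_zero, map_zero, sub_zero] at h1
  by_contra hne
  have h2 := hQ' (Φ.red P) (Φ.red_mem P) hne
  exact not_inMax_of_ord_eq_zero hρ0 h2 h1

/-- **regularity transfer**: the reduction of a function of `V` regular on the tube is
regular on `𝔊`. -/
theorem ord_ρ_nonneg [Infinite k] (b : C.V) (hreg : ∀ P ∈ Φ.𝔉, 0 ≤ P.ord (b : F))
    {Q : Place k Fk} (hQ : Q ∈ Φ.𝔊) : 0 ≤ Q.ord (C.ρ b) := by
  obtain ⟨P, hP, rfl⟩ := Φ.red_surj hQ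
  exact Φ.ord_ρ_nonneg_red b hreg hP

/-! ### Conservation of number, point by point -/

end Fibre

namespace Ctx

variable (C : Ctx K F k Fk)

theorem isUnit_of_ρ_ne_zero {u : C.V} (h : C.ρ u ≠ 0) : IsUnit u :=
  ⟨⟨u, C.inv u h, C.mul_inv u h, by rw [mul_comm]; exact C.mul_inv u h⟩, rfl⟩

theorem ρ_ne_zero_of_isUnit {u : C.V} (h : IsUnit u) : C.ρ u ≠ 0 :=
  (h.map C.ρ).ne_zero

theorem ρ_unit_ne_zero (w : C.Vˣ) : C.ρ (w : C.V) ≠ 0 := C.ρ_ne_zero_of_isUnit w.isUnit

theorem coe_unit_ne_zero (w : C.Vˣ) : ((w : C.V) : F) ≠ 0 :=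
  C.ne_zero_of_ρ_ne_zero (C.ρ_unit_ne_zero w)

theorem coe_unit_inv (w : C.Vˣ) : (((w⁻¹ : C.Vˣ) : C.V) : F) = (((w : C.V) : F))⁻¹ := by
  have h := congrArg (fun x : C.V => (x : F)) (Units.mul_inv w)
  simp only [Subring.coe_mul, Subring.coe_one] at h
  exact eq_inv_of_mul_eq_one_right h

theorem coe_unit_mul (w w' : C.Vˣ) :
    (((w * w' : C.Vˣ) : C.V) : F) = ((w : C.V) : F) * ((w' : C.V) : F) := rfl

theorem ρ_unit_inv (w : C.Vˣ) : C.ρ ((w⁻¹ : C.Vˣ) : C.V) = (C.ρ (w : C.V))⁻¹ := by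
  have h := congrArg C.ρ (Units.mul_inv w)
  rw [map_mul, map_one] at h
  exact eq_inv_of_mul_eq_one_right h

theorem coe_unit_zpow (w : C.Vˣ) (n : ℤ) :
    (((w ^ n : C.Vˣ) : C.V) : F) = (((w : C.V) : F)) ^ n := by
  induction n using Int.induction_on with
  | zero => simp
  | succ n ih =>
    rw [zpow_add_one, C.coe_unit_mul, ih, zpow_add_one₀ (C.coe_unit_ne_zero w)]
  | pred n ih =>
    rw [zpow_sub_one, C.coe_unit_mul, ih, C.coe_unit_inv, zpow_sub_one₀ (C.coe_unit_ne_zero w)]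

theorem ρ_unit_zpow (w : C.Vˣ) (n : ℤ) :
    C.ρ ((w ^ n : C.Vˣ) : C.V) = (C.ρ (w : C.V)) ^ n := by
  induction n using Int.induction_on with
  | zero => simp
  | succ n ih =>
    rw [zpow_add_one, Units.val_mul, map_mul, ih, zpow_add_one₀ (C.ρ_unit_ne_zero w)]
  | pred n ih =>
    rw [zpow_sub_one, Units.val_mul, map_mul, ih, C.ρ_unit_inv,
      zpow_sub_one₀ (C.ρ_unit_ne_zero w)]

end Ctx

namespace Fibre

variable {C : Ctx K F k Fk} (Φ : Fibre C)

/-- a unit of `V` without zeros and poles on the tube reduces to a unit at every point of `𝔊` -/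
theorem ord_ρ_unit_eq_zero [Infinite k] (w : C.Vˣ)
    (h : ∀ P ∈ Φ.𝔉, P.ord ((w : C.V) : F) = 0) {Q : Place k Fk} (hQ : Q ∈ Φ.𝔊) :
    Q.ord (C.ρ (w : C.V)) = 0 := by
  have h1 := Φ.ord_ρ_nonneg (w : C.V) (fun P hP => (h P hP).ge) hQ
  have h2 := Φ.ord_ρ_nonneg ((w⁻¹ : C.Vˣ) : C.V) (fun P hP => by
    rw [C.coe_unit_inv, P.ord_inv, h P hP]; simp) hQ
  rw [C.ρ_unit_inv, Q.ord_inv] at h2
  omega

open Classical in
/-- conservation of number for units, by induction on the zeros and poles in the tube -/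
theorem ord_ρ_unit_eq_sum [Infinite k] (T : Finset (Place K F)) :
    (∀ P ∈ T, P ∈ Φ.𝔉) → ∀ w : C.Vˣ, (∀ P ∈ Φ.𝔉, P.ord ((w : C.V) : F) ≠ 0 → P ∈ T) →
      ∀ Q ∈ Φ.𝔊, Q.ord (C.ρ (w : C.V)) = ∑ P ∈ T with Φ.red P = Q, P.ord ((w : C.V) : F) := by
  induction T using Finset.induction_on with
  | empty =>
    intro _ w hw Q hQ
    rw [Finset.filter_empty, Finset.sum_empty]
    refine Φ.ord_ρ_unit_eq_zero w (fun P hP => ?_) hQ
    by_contra h
    exact absurd (hw P hP h) (Finset.notMem_empty P)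
  | insert P₀ T hP₀ ih =>
    intro hT w hw Q hQ
    have hP₀𝔉 : P₀ ∈ Φ.𝔉 := hT P₀ (Finset.mem_insert_self _ _)
    have hT' : ∀ P ∈ T, P ∈ Φ.𝔉 := fun P hP => hT P (Finset.mem_insert_of_mem hP)
    obtain ⟨t, hρt, -, ht1, ht0, hQ1, hQ0⟩ := Φ.exists_localParam hP₀𝔉
    set τ : C.Vˣ := (C.isUnit_of_ρ_ne_zero hρt).unit with hτ
    have hτc : (τ : C.V) = t := IsUnit.unit_spec _
    set n : ℤ := P₀.ord ((w : C.V) : F) with hn
    set w' : C.Vˣ := w * τ ^ (-n) with hw'
    have hw0 : ((w : C.V) : F) ≠ 0 := C.coe_unit_ne_zero w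
    have hτ0 : ((τ : C.V) : F) ≠ 0 := C.coe_unit_ne_zero τ
    -- orders of `w'` on the tube
    have hord : ∀ P : Place K F, P.ord ((w' : C.V) : F)
        = P.ord ((w : C.V) : F) - n * P.ord ((τ : C.V) : F) := by
      intro P
      rw [hw', C.coe_unit_mul, C.coe_unit_zpow, P.ord_mul hw0 (zpow_ne_zero _ hτ0), P.ord_zpow]
      ring
    have hordQ : ∀ Q : Place k Fk, Q.ord (C.ρ (w' : C.V))
        = Q.ord (C.ρ (w : C.V)) - n * Q.ord (C.ρ (τ : C.V)) := by
      intro Q
      rw [hw', Units.val_mul, map_mul, C.ρ_unit_zpow,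
        Q.ord_mul (C.ρ_unit_ne_zero w) (zpow_ne_zero _ (C.ρ_unit_ne_zero τ)), Q.ord_zpow]
      ring
    have hw'T : ∀ P ∈ Φ.𝔉, P.ord ((w' : C.V) : F) ≠ 0 → P ∈ T := by
      intro P hP hne
      rw [hord P] at hne
      by_cases hPP : P = P₀
      · subst hPP
        rw [hτc, ht1] at hne
        simp [hn] at hne
      · rw [hτc, ht0 P hP hPP, mul_zero, sub_zero] at hne
        have := hw P hP hne
        rw [Finset.mem_insert] at this
        exact this.resolve_left hPP
    have key := ih hT' w' hw'T Q hQ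
    rw [hordQ Q] at key
    have hsum : ∑ P ∈ T with Φ.red P = Q, P.ord ((w' : C.V) : F)
        = ∑ P ∈ T with Φ.red P = Q, P.ord ((w : C.V) : F) := by
      refine Finset.sum_congr rfl fun P hP => ?_
      rw [Finset.mem_filter] at hP
      have hPP : P ≠ P₀ := fun h => hP₀ (h ▸ hP.1)
      rw [hord P, hτc, ht0 P (hT' P hP.1) hPP, mul_zero, sub_zero]
    rw [hsum] at key
    rw [Finset.filter_insert]
    split_ifs with hred
    · rw [Finset.sum_insert (fun h => hP₀ (Finset.mem_filter.mp h).1)]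
      rw [hτc, ← hred, hQ1] at key
      rw [← hn]
      rw [← hred]
      omega
    · rw [hτc, hQ0 Q hQ (fun h => hred h.symm)] at key
      omega

open Classical in
/-- **Conservation of number, point by point.**  For `u ∈ V` with `ρ u ≠ 0` and `Q ∈ 𝔊`:
`∑_{P ∈ 𝔉, r P = Q} ord_P u = ord_Q (ρ u)`. -/
theorem finsum_red_eq [Infinite k] (u : C.V) (hu : C.ρ u ≠ 0) {Q : Place k Fk} (hQ : Q ∈ Φ.𝔊) :
    ∑ᶠ P ∈ {P | P ∈ Φ.𝔉 ∧ Φ.red P = Q}, P.ord (u : F) = Q.ord (C.ρ u) := by
  have hu0 : (u : F) ≠ 0 := C.ne_zero_of_ρ_ne_zero hu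
  set T := (Φ.fin (u : F) hu0).toFinset with hT
  have hTmem : ∀ P, P ∈ T ↔ P ∈ Φ.𝔉 ∧ P.ord (u : F) ≠ 0 := fun P => by
    rw [hT, Set.Finite.mem_toFinset]
    exact Iff.rfl
  have key := Φ.ord_ρ_unit_eq_sum T (fun P hP => ((hTmem P).mp hP).1)
    (C.isUnit_of_ρ_ne_zero hu).unit (fun P hP hne => (hTmem P).mpr ⟨hP, by
      rwa [IsUnit.unit_spec] at hne⟩) Q hQ
  rw [IsUnit.unit_spec] at key
  rw [key]
  apply finsum_mem_eq_sum_of_inter_support_eq
  ext P
  simp only [Set.mem_inter_iff, Function.mem_support, ne_eq, Finset.coe_filter]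
  constructor
  · rintro ⟨⟨h1, h2⟩, h3⟩
    exact ⟨⟨(hTmem P).mpr ⟨h1, h3⟩, h2⟩, h3⟩
  · rintro ⟨⟨h1, h2⟩, h3⟩
    exact ⟨⟨((hTmem P).mp h1).1, h2⟩, h3⟩

/-- **Main theorem of the fibre-local core.** -/
theorem exists_red [Infinite k] :
    ∃ r : Place K F → Place k Fk,
      (∀ P, r P ∈ Φ.𝔊) ∧
      (∀ Q ∈ Φ.𝔊, ∃ P ∈ Φ.𝔉, r P = Q) ∧
      (∀ b : C.V, (∀ P ∈ Φ.𝔉, 0 ≤ P.ord (b : F)) → ∀ P ∈ Φ.𝔉, ∀ c : C.A,
        InMax P ((b : F) - algebraMap K F (c : K)) →
          InMax (r P) (C.ρ b - algebraMap k Fk (C.π c))) ∧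
      (∀ u : C.V, C.ρ u ≠ 0 → ∀ Q ∈ Φ.𝔊,
        ∑ᶠ P ∈ {P | P ∈ Φ.𝔉 ∧ r P = Q}, P.ord (u : F) = Q.ord (C.ρ u)) :=
  ⟨Φ.red, Φ.red_mem, fun _ hQ => Φ.red_surj hQ,
    fun b hreg _ hP _ hc => Φ.red_value b hreg hP hc,
    fun u hu _ hQ => Φ.finsum_red_eq u hu hQ⟩

end Fibre

end Fermat.Agent.S37.H940

end
end
-- ===== PACK-END S37/H940/Core.lean

-- ===== PACK-BEGIN Ribet/H940/ThetaDer.lean
section




/-!
# RIBET wall-p, leaf I3 (helper940): `θ` as a derivation of a field of `q`-series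

`F ⊆ k((q))` an intermediate field.

* `thetaDer F : Derivation k F k((q))`;
* `thetaL_eq_smul` : if `F / k(x)` is separable (characteristic `p`), `θ f = z · θ x`, `z ∈ F`;
* `thetaL_ne_zero_of_sep` : if moreover `θ` does not vanish on `F`, then `θ x ≠ 0`;
* `thetaL_ne_zero_of_ord_eq_one` : and `θ t ≠ 0` for every uniformiser `t` at a place of `F`
  (`k` perfect).
-/

set_option autoImplicit false
set_option synthInstance.maxHeartbeats 400000
set_option linter.unusedSectionVars false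
set_option linter.style.haveILetI false

noncomputable section

namespace Fermat.Agent.Ribet.H940

open HahnSeries ModularCurve AlgebraicCurve IntermediateField

variable {k : Type*} [Field k] (F : IntermediateField k (LaurentSeries k))

theorem coe_smul_coeff (c : k) (f : F) (n : ℤ) :
    ((c • f : F) : LaurentSeries k).coeff n = c * (f : LaurentSeries k).coeff n := by
  have h1 : ((c • f : F) : LaurentSeries k) =
      algebraMap k (LaurentSeries k) c * (f : LaurentSeries k) := by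
    rw [Algebra.smul_def]
    rfl
  rw [h1, algebraMap_laurentSeries_eq_single, ← HahnSeries.C_apply, HahnSeries.C_mul_eq_smul,
    HahnSeries.coeff_smul, smul_eq_mul]

/-- `θ = q d/dq` restricted to a field of `q`-series, as a derivation. -/
def thetaDer : Derivation k F (LaurentSeries k) where
  toFun f := thetaL (f : LaurentSeries k)
  map_add' f g := thetaL_add _ _
  map_smul' c f := by
    show thetaL ((c • f : F) : LaurentSeries k) = c • thetaL (f : LaurentSeries k)
    ext n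
    rw [thetaL_coeff, coe_smul_coeff, HahnSeries.coeff_smul, thetaL_coeff, smul_eq_mul]
    ring
  map_one_eq_zero' := by
    show thetaL ((1 : F) : LaurentSeries k) = 0
    exact thetaL_one
  leibniz' f g := by
    show thetaL ((f * g : F) : LaurentSeries k) =
      f • thetaL (g : LaurentSeries k) + g • thetaL (f : LaurentSeries k)
    rw [Algebra.smul_def, Algebra.smul_def]
    show thetaL ((f : LaurentSeries k) * (g : LaurentSeries k)) =
      (f : LaurentSeries k) * thetaL (g : LaurentSeries k) +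
        (g : LaurentSeries k) * thetaL (f : LaurentSeries k)
    rw [thetaL_mul]
    ring

@[simp] theorem thetaDer_apply (f : F) : thetaDer F f = thetaL (f : LaurentSeries k) := rfl

section CharP

/-- **(θ-ii)** on `q`-series. -/
theorem thetaL_eq_smul (p : ℕ) [hp : Fact p.Prime] [CharP k p] (x : F) [Algebra.IsSeparable k⟮x⟯ F] (f : F) :
    ∃ z : F, thetaL (f : LaurentSeries k) = (z : LaurentSeries k) * thetaL (x : LaurentSeries k) := by
  obtain ⟨z, hz⟩ := exists_smul_of_isSeparable p (thetaDer F) x f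
  exact ⟨z, hz⟩

/-- if `θ` does not vanish identically on `F`, it does not vanish at a separating element. -/
theorem thetaL_ne_zero_of_sep (p : ℕ) [hp : Fact p.Prime] [CharP k p] (x : F) [Algebra.IsSeparable k⟮x⟯ F] {j : F}
    (hj : thetaL (j : LaurentSeries k) ≠ 0) : thetaL (x : LaurentSeries k) ≠ 0 := by
  intro h0
  obtain ⟨z, hz⟩ := thetaL_eq_smul F p x j
  rw [h0, mul_zero] at hz
  exact hj hz

/-- **(θ-iii)** on `q`-series: `θ t ≠ 0` for uniformisers. -/
theorem thetaL_ne_zero_of_ord_eq_one (p : ℕ) [hp : Fact p.Prime] [CharP k p]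
    [PerfectField k] (x : F) [Algebra.IsSeparable k⟮x⟯ F]
    {j : F} (hj : thetaL (j : LaurentSeries k) ≠ 0) (Q : Place k F) {t : F} (ht : Q.ord t = 1) :
    thetaL (t : LaurentSeries k) ≠ 0 := by
  intro h0
  have hx : thetaDer F x ≠ 0 := thetaL_ne_zero_of_sep F p x hj
  obtain ⟨s, hs⟩ := exists_pow_eq_of_derivation_eq_zero p (thetaDer F) x hx (f := t) h0
  rw [hs, Fermat.Agent.Lib.RR.ord_pow] at ht
  have hdvd : (p : ℤ) ∣ 1 := ⟨Q.ord s, ht.symm⟩
  have := Int.eq_one_of_dvd_one (by positivity) hdvd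
  have hp1 : p = 1 := by exact_mod_cast this
  exact hp.out.one_lt.ne' hp1

end CharP

end Fermat.Agent.Ribet.H940

end
end
-- ===== PACK-END Ribet/H940/ThetaDer.lean

-- ===== PACK-BEGIN S37/H939/Order.lean
section



/-!
# Comparison of two orders over `k[X]` and the discriminant criterion
(row S37 / S18, piece b2 = R2; seat helper939)

`f : T₁ →ₐ[k[X]] T₂` an injective homomorphism of finite free `k[X]`-algebras of the same rank
(think: an order inside a bigger order).  If
`rootMultiplicity c (discr b₁) + redRank T₁ c ≤ n`, then `X - c` does not divide the index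
`det M` of `T₁` in `T₂`.
-/

set_option autoImplicit false
set_option linter.unusedSectionVars false

namespace Fermat.Agent.S37.H939

open Polynomial Matrix

variable {k : Type*} [Field k]
variable {T₁ T₂ : Type*} [CommRing T₁] [CommRing T₂]
  [Algebra k[X] T₁] [Algebra k T₁] [IsScalarTower k k[X] T₁]
  [Algebra k[X] T₂] [Algebra k T₂] [IsScalarTower k k[X] T₂]
variable {ι : Type*} [Fintype ι] [DecidableEq ι]
  (b₁ : Module.Basis ι k[X] T₁) (b₂ : Module.Basis ι k[X] T₂) (f : T₁ →ₐ[k[X]] T₂)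

/-- The matrix of the inclusion. -/
noncomputable abbrev incMatrix : Matrix ι ι k[X] := LinearMap.toMatrix b₁ b₂ f.toLinearMap

lemma incMatrix_det_ne_zero (hf : Function.Injective f) : (incMatrix b₁ b₂ f).det ≠ 0 := by
  intro h0
  obtain ⟨v, hv, hMv⟩ := Matrix.exists_mulVec_eq_zero_iff.mpr h0
  apply hv
  have h2 : (b₁.repr (b₁.equivFun.symm v) : ι → k[X]) = v := by
    have := b₁.equivFun.apply_symm_apply v
    funext j
    exact congrFun this j
  have h1 : f (b₁.equivFun.symm v) = 0 := by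
    apply b₂.repr.injective
    rw [map_zero]
    apply DFunLike.coe_injective
    have := LinearMap.toMatrix_mulVec_repr b₁ b₂ f.toLinearMap (b₁.equivFun.symm v)
    rw [h2, hMv] at this
    exact this.symm
  have h3 : b₁.equivFun.symm v = 0 := hf (by rw [h1, map_zero])
  exact (LinearEquiv.map_eq_zero_iff b₁.equivFun.symm).mp h3

lemma leftMulMatrix_mul_incMatrix (z : T₁) :
    Algebra.leftMulMatrix b₂ (f z) * incMatrix b₁ b₂ f =
      incMatrix b₁ b₂ f * Algebra.leftMulMatrix b₁ z := by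
  rw [← Algebra.toMatrix_lmul_eq, ← Algebra.toMatrix_lmul_eq, incMatrix,
    ← LinearMap.toMatrix_comp, ← LinearMap.toMatrix_comp]
  congr 1
  ext x
  simp

include b₁ b₂ in
lemma trace_map_eq (hf : Function.Injective f) (z : T₁) :
    Algebra.trace k[X] T₂ (f z) = Algebra.trace k[X] T₁ z := by
  rw [Algebra.trace_eq_matrix_trace b₂, Algebra.trace_eq_matrix_trace b₁]
  set M := incMatrix b₁ b₂ f
  set A := Algebra.leftMulMatrix b₂ (f z)
  set B := Algebra.leftMulMatrix b₁ z
  have hAM : A * M = M * B := leftMulMatrix_mul_incMatrix b₁ b₂ f z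
  have hdet : M.det ≠ 0 := incMatrix_det_ne_zero b₁ b₂ f hf
  have h1 : M.det • A = M * B * M.adjugate := by
    rw [← hAM, Matrix.mul_assoc, Matrix.mul_adjugate, Matrix.mul_smul, Matrix.mul_one]
  have h2 : M.det * A.trace = M.det * B.trace := by
    have := congrArg Matrix.trace h1
    rw [Matrix.trace_smul, smul_eq_mul, Matrix.trace_mul_comm, ← Matrix.mul_assoc,
      Matrix.adjugate_mul, Matrix.smul_mul, Matrix.one_mul, Matrix.trace_smul, smul_eq_mul] at this
    exact this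
  exact mul_left_cancel₀ hdet h2

/-- **Index formula.** -/
theorem discr_eq_det_sq_mul (hf : Function.Injective f) :
    Algebra.discr k[X] b₁ = (incMatrix b₁ b₂ f).det ^ 2 * Algebra.discr k[X] b₂ := by
  have h1 : Algebra.discr k[X] b₁ = Algebra.discr k[X] (fun i => f (b₁ i)) := by
    rw [Algebra.discr_def, Algebra.discr_def]
    congr 1
    refine Matrix.ext fun i j => ?_
    rw [Algebra.traceMatrix_apply, Algebra.traceMatrix_apply, Algebra.traceForm_apply,
      Algebra.traceForm_apply]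
    have := trace_map_eq b₁ b₂ f hf (b₁ i * b₁ j)
    rw [map_mul f] at this
    exact this.symm
  have h2 : (fun i => f (b₁ i)) =
      ((incMatrix b₁ b₂ f).transpose.map (algebraMap k[X] T₂)).mulVec b₂ := by
    funext j
    rw [Matrix.mulVec, dotProduct]
    conv_lhs => rw [← b₂.sum_repr (f (b₁ j))]
    refine Finset.sum_congr rfl fun i _ => ?_
    rw [Matrix.map_apply, Matrix.transpose_apply, incMatrix, LinearMap.toMatrix_apply,
      Algebra.smul_def]
    rfl
  rw [h1, h2, Algebra.discr_of_matrix_mulVec, Matrix.det_transpose]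

/-- Coordinates of `f z` modulo `X - c`. -/
lemma coord_map (c : k) (z : T₁) :
    coord b₂ c (f z) = ((incMatrix b₁ b₂ f).map (evalRingHom c)).mulVec (coord b₁ c z) := by
  funext i
  have h := congrFun (LinearMap.toMatrix_mulVec_repr b₁ b₂ f.toLinearMap z) i
  rw [coord_apply]
  have h' : b₂.repr (f z) i = ∑ j, incMatrix b₁ b₂ f i j * b₁.repr z j := by
    rw [← AlgHom.toLinearMap_apply, ← h]
    rfl
  rw [h', eval_finsetSum, Matrix.mulVec, dotProduct]
  refine Finset.sum_congr rfl fun j _ => ?_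
  rw [eval_mul, Matrix.map_apply, coord_apply, coe_evalRingHom]

lemma map_mem_fibreIdeal (c : k) {z : T₁} (hz : z ∈ fibreIdeal T₁ c) :
    f z ∈ fibreIdeal T₂ c := by
  rw [fibreIdeal, Ideal.mem_span_singleton] at hz ⊢
  obtain ⟨y, rfl⟩ := hz
  exact ⟨f y, by rw [map_mul, AlgHom.commutes]⟩

lemma map_mem_radical (c : k) {z : T₁} (hz : z ∈ (fibreIdeal T₁ c).radical) :
    f z ∈ (fibreIdeal T₂ c).radical := by
  obtain ⟨m, hm⟩ := hz
  exact ⟨m, by rw [← map_pow]; exact map_mem_fibreIdeal f c hm⟩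

include b₁ in
lemma finite_quot_radical (c : k) : Module.Finite k (T₁ ⧸ (fibreIdeal T₁ c).radical) := by
  let Rad : Ideal T₁ := (fibreIdeal T₁ c).radical
  let Ψ : (ι → k) →ₗ[k] T₁ ⧸ Rad := (Ideal.Quotient.mkₐ k Rad).toLinearMap ∘ₗ lift b₁
  have hΨsurj : Function.Surjective Ψ := by
    intro q
    obtain ⟨z, rfl⟩ := Ideal.Quotient.mk_surjective q
    refine ⟨coord b₁ c z, ?_⟩
    show Ideal.Quotient.mk Rad (lift b₁ (coord b₁ c z)) = Ideal.Quotient.mk Rad z
    rw [eq_comm, Ideal.Quotient.eq]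
    exact Ideal.le_radical (sub_lift_coord_mem b₁ c z)
  exact Module.Finite.of_surjective Ψ hΨsurj

/-- **(d)** The reduced rank of the bigger order is bounded by that of the smaller order plus
the corank of the inclusion matrix modulo `X - c`. -/
theorem redRank_le_add_corank (c : k) :
    redRank T₂ c ≤ redRank T₁ c +
      (Fintype.card ι - ((incMatrix b₁ b₂ f).map (evalRingHom c)).rank) := by
  classical
  set Mbar : Matrix ι ι k := (incMatrix b₁ b₂ f).map (evalRingHom c) with hMbar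
  let Rad₁ : Ideal T₁ := (fibreIdeal T₁ c).radical
  let Rad₂ : Ideal T₂ := (fibreIdeal T₂ c).radical
  have : Module.Finite k (T₁ ⧸ Rad₁) := finite_quot_radical b₁ c
  have : Module.Finite k (T₂ ⧸ Rad₂) := finite_quot_radical b₂ c
  let Ψ : (ι → k) →ₗ[k] T₂ ⧸ Rad₂ := (Ideal.Quotient.mkₐ k Rad₂).toLinearMap ∘ₗ lift b₂
  have hΨsurj : Function.Surjective Ψ := by
    intro q
    obtain ⟨z, rfl⟩ := Ideal.Quotient.mk_surjective q
    refine ⟨coord b₂ c z, ?_⟩
    show Ideal.Quotient.mk Rad₂ (lift b₂ (coord b₂ c z)) = Ideal.Quotient.mk Rad₂ z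
    rw [eq_comm, Ideal.Quotient.eq]
    exact Ideal.le_radical (sub_lift_coord_mem b₂ c z)
  let U : Submodule k (ι → k) := LinearMap.range Mbar.mulVecLin
  let V : Submodule k (T₂ ⧸ Rad₂) := U.map Ψ
  -- the induced map on reduced fibres
  let g : (T₁ ⧸ Rad₁) →ₗ[k] (T₂ ⧸ Rad₂) :=
    (Ideal.quotientMapₐ Rad₂ (f.restrictScalars k)
      (fun z hz => map_mem_radical f c hz)).toLinearMap
  have hVg : V ≤ LinearMap.range g := by
    rintro _ ⟨u, ⟨w, rfl⟩, rfl⟩
    refine ⟨Ideal.Quotient.mk Rad₁ (lift b₁ w), ?_⟩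
    show Ideal.Quotient.mk Rad₂ (f (lift b₁ w)) =
      Ideal.Quotient.mk Rad₂ (lift b₂ (Mbar.mulVec w))
    rw [Ideal.Quotient.eq]
    apply Ideal.le_radical
    rw [← coord_eq_zero_iff b₂, map_sub, coord_lift, coord_map b₁ b₂ f c, coord_lift, sub_self]
  have h1 : Module.finrank k V ≤ redRank T₁ c :=
    (Submodule.finrank_mono hVg).trans (LinearMap.finrank_range_le g)
  -- the quotient estimate
  have hUV : U ≤ V.comap Ψ := Submodule.le_comap_map Ψ U
  have hsurj : Function.Surjective (U.mapQ V Ψ hUV) := by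
    intro q
    obtain ⟨y, rfl⟩ := Submodule.mkQ_surjective V q
    obtain ⟨x, rfl⟩ := hΨsurj y
    exact ⟨U.mkQ x, rfl⟩
  have h2 : Module.finrank k ((T₂ ⧸ Rad₂) ⧸ V) ≤ Module.finrank k ((ι → k) ⧸ U) :=
    LinearMap.finrank_le_finrank_of_surjective hsurj
  have h3 := Submodule.finrank_quotient_add_finrank U
  have h4 := Submodule.finrank_quotient_add_finrank V
  have h5 : Module.finrank k (ι → k) = Fintype.card ι := Module.finrank_fintype_fun_eq_card k
  have h6 : Mbar.rank = Module.finrank k U := rfl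
  have h7 : redRank T₂ c = Module.finrank k (T₂ ⧸ Rad₂) := rfl
  omega

/-- **Core theorem (discriminant criterion).**  If the order `T₁` satisfies
`ord_c (discr T₁) + redRank T₁ c ≤ n`, then `X - c` does not divide the index of `T₁` in any
overorder `T₂`. -/
theorem not_dvd_det_incMatrix (hf : Function.Injective f) (c : k)
    (hd : Algebra.discr k[X] b₁ ≠ 0)
    (h : (Algebra.discr k[X] b₁).rootMultiplicity c + redRank T₁ c ≤ Fintype.card ι) :
    ¬ (X - C c) ∣ (incMatrix b₁ b₂ f).det := by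
  classical
  set d := (incMatrix b₁ b₂ f).det with hd_def
  have hidx := discr_eq_det_sq_mul b₁ b₂ f hf
  rw [← hd_def] at hidx
  have hd0 : d ≠ 0 := incMatrix_det_ne_zero b₁ b₂ f hf
  have hD2 : Algebra.discr k[X] b₂ ≠ 0 := by
    intro h0
    rw [h0, mul_zero] at hidx
    exact hd hidx
  -- multiplicities
  have ha : (Algebra.discr k[X] b₁).rootMultiplicity c =
      2 * d.rootMultiplicity c + (Algebra.discr k[X] b₂).rootMultiplicity c := by
    rw [hidx, rootMultiplicity_mul (mul_ne_zero (pow_ne_zero 2 hd0) hD2), pow_two,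
      rootMultiplicity_mul (mul_ne_zero hd0 hd0)]
    ring
  have ht : Fintype.card ι - redRank T₂ c ≤ (Algebra.discr k[X] b₂).rootMultiplicity c :=
    (le_rootMultiplicity_iff hD2).mpr (pow_dvd_discr b₂ c)
  have hr := redRank_le_add_corank b₁ b₂ f c
  have hm : Fintype.card ι - ((incMatrix b₁ b₂ f).map (evalRingHom c)).rank ≤
      d.rootMultiplicity c :=
    (le_rootMultiplicity_iff hd0).mpr
      (pow_corank_dvd_det (evalRingHom c) (fun a => ⟨C a, by simp⟩) (X - C c)
        (fun s hs => Polynomial.dvd_iff_isRoot.mpr hs) (incMatrix b₁ b₂ f))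
  have hm0 : d.rootMultiplicity c = 0 := by omega
  intro hdvd
  have := (rootMultiplicity_eq_zero_iff.mp hm0) (Polynomial.dvd_iff_isRoot.mp hdvd)
  exact hd0 this

/-- **Global form.**  If the discriminant of `T₁` splits and the criterion holds at each of its
roots, then the index of `T₁` in any overorder is a unit. -/
theorem isUnit_det_incMatrix (hf : Function.Injective f)
    (hd : Algebra.discr k[X] b₁ ≠ 0) (hs : (Algebra.discr k[X] b₁).Splits)
    (h : ∀ c : k, (Algebra.discr k[X] b₁).IsRoot c →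
      (Algebra.discr k[X] b₁).rootMultiplicity c + redRank T₁ c ≤ Fintype.card ι) :
    IsUnit (incMatrix b₁ b₂ f).det := by
  classical
  set d := (incMatrix b₁ b₂ f).det with hd_def
  have hidx := discr_eq_det_sq_mul b₁ b₂ f hf
  rw [← hd_def] at hidx
  have hdvd : d ∣ Algebra.discr k[X] b₁ := ⟨d * Algebra.discr k[X] b₂, by rw [hidx]; ring⟩
  have hsd : d.Splits := hs.of_dvd hd hdvd
  rw [Polynomial.isUnit_iff_degree_eq_zero]
  by_contra hdeg
  obtain ⟨c, hc⟩ := hsd.exists_eval_eq_zero hdeg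
  have hroot : (Algebra.discr k[X] b₁).IsRoot c := by
    obtain ⟨e, he⟩ := hdvd
    rw [IsRoot, he, eval_mul, hc, zero_mul]
  exact not_dvd_det_incMatrix b₁ b₂ f hf c hd (h c hroot) (Polynomial.dvd_iff_isRoot.mpr hc)

include b₂ in
/-- Under the hypotheses of `isUnit_det_incMatrix`, every injective algebra map into an
overorder of the same rank is bijective. -/
theorem bijective_of_discr_criterion (hf : Function.Injective f)
    (hd : Algebra.discr k[X] b₁ ≠ 0) (hs : (Algebra.discr k[X] b₁).Splits)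
    (h : ∀ c : k, (Algebra.discr k[X] b₁).IsRoot c →
      (Algebra.discr k[X] b₁).rootMultiplicity c + redRank T₁ c ≤ Fintype.card ι) :
    Function.Bijective f := by
  classical
  refine ⟨hf, ?_⟩
  have hu := isUnit_det_incMatrix b₁ b₂ f hf hd hs h
  have hM : IsUnit (incMatrix b₁ b₂ f) := (Matrix.isUnit_iff_isUnit_det _).mpr hu
  have hbij : Function.Bijective f.toLinearMap := by
    let e := LinearEquiv.ofIsUnitDet (f := f.toLinearMap) (v := b₁) (v' := b₂) hu
    exact e.bijective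
  exact hbij.2

end Fermat.Agent.S37.H939

end
-- ===== PACK-END S37/H939/Order.lean

-- ===== PACK-BEGIN S37/H159/MInt.lean
section




/-!
# Theorem M, part 2: lifted residue bases, saturation, integrality of reductions
(row S37, piece R-b; seat helper159)

In a reduction context `G` with `[F : K(x)] = [F_k : k(x̄)] < ∞`:

* `exists_resid_basis` : there is a `K(x)`-basis of `F` inside `O` which is residually
  independent (lift of a `k(x̄)`-basis of `F_k`);
* `isIntegralElem_of_mem` (saturation, QEP): an element of `O` integral over `K[x]` is integral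
  over `A[x]`;
* `isIntegral_ρ` : its reduction is integral over `k[x̄]`.
-/

set_option autoImplicit false
set_option linter.unusedSectionVars false

namespace Fermat.Agent.S37.H159

open Polynomial

namespace RedCtx

variable {K : Type*} [Field K] {A : ValuationSubring K} {k : Type*} [Field k]
  {F : Type*} [Field F] [Algebra K[X] F] {Fk : Type*} [Field Fk] [Algebra k[X] Fk]
  (G : RedCtx A k F Fk)

/-- `A[X] → O`, `P ↦ P(x)`. -/
noncomputable def polyO : A[X] →+* G.O :=
  RingHom.codRestrict ((algebraMap K[X] F).comp (mapRingHom A.subtype)) G.O G.mem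

theorem polyO_coe (p : A[X]) : ((G.polyO p : G.O) : F) = algebraMap K[X] F (p.map A.subtype) :=
  rfl

theorem ρ_polyO (p : A[X]) : G.ρ (G.polyO p) = algebraMap k[X] Fk (p.map G.π) :=
  G.ρ_poly p

theorem ρ_comp_polyO : G.ρ.comp G.polyO = (algebraMap k[X] Fk).comp (mapRingHom G.π) :=
  RingHom.ext fun p => G.ρ_polyO p

/-- the structure map `A[X] → F` -/
noncomputable def polyF : A[X] →+* F := (algebraMap K[X] F).comp (mapRingHom A.subtype)

theorem subtype_comp_polyO : G.O.subtype.comp G.polyO = polyF (A := A) (F := F) := rfl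

/-- If `f ∈ O` is integral over `A[x]`, then `ρ f` is integral over `k[x̄]`. -/
theorem isIntegral_ρ_of_isIntegralElem (f : G.O)
    (hf : (polyF (A := A) (F := F)).IsIntegralElem (f : F)) : IsIntegral k[X] (G.ρ f) := by
  obtain ⟨μ, hμ, hμf⟩ := hf
  have h1 : Polynomial.eval₂ G.polyO f μ = 0 := by
    apply Subtype.coe_injective
    have := Polynomial.hom_eval₂ μ G.polyO G.O.subtype f
    rw [subtype_comp_polyO] at this
    exact this.trans hμf
  have h2 := Polynomial.hom_eval₂ μ G.polyO G.ρ f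
  rw [h1, map_zero, ρ_comp_polyO] at h2
  refine ⟨μ.map (mapRingHom G.π), hμ.map _, ?_⟩
  rw [Polynomial.eval₂_map]
  exact h2.symm

section Rational

variable (L₀ : Type*) [Field L₀] [Algebra K[X] L₀] [IsFractionRing K[X] L₀] [Algebra L₀ F]
  [IsScalarTower K[X] L₀ F]
variable (L₀k : Type*) [Field L₀k] [Algebra k[X] L₀k] [IsFractionRing k[X] L₀k] [Algebra L₀k Fk]
  [IsScalarTower k[X] L₀k Fk]

/-- Reduction of a `V₀`-combination of elements of `O`. -/
theorem ρ_sum_smul {ι : Type*} [Fintype ι] (y : ι → F) (hy : ∀ i, y i ∈ G.O)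
    (c : ι → L₀) (hc : ∀ i, c i ∈ G.V₀ L₀) (hs : (∑ i, c i • y i) ∈ G.O) :
    G.ρ ⟨∑ i, c i • y i, hs⟩ = ∑ i, G.ρ₀ L₀ L₀k ⟨c i, hc i⟩ • G.ρ ⟨y i, hy i⟩ := by
  have h1 : (⟨∑ i, c i • y i, hs⟩ : G.O) = ∑ i, G.incl L₀ ⟨c i, hc i⟩ * ⟨y i, hy i⟩ := by
    apply Subtype.ext
    show (∑ i, c i • y i) = G.O.subtype (∑ i, G.incl L₀ ⟨c i, hc i⟩ * ⟨y i, hy i⟩)
    rw [map_sum]
    refine Finset.sum_congr rfl fun i _ => ?_
    rw [Algebra.smul_def]
    rfl
  rw [h1, map_sum]
  refine Finset.sum_congr rfl fun i _ => ?_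
  rw [map_mul, Algebra.smul_def, G.algebraMap_ρ₀]
  rfl

/-- Lifts of a linearly independent family are residually independent. -/
theorem residIndep_of_linearIndependent {ι : Type*} [Fintype ι] (y : ι → F)
    (hy : ∀ i, y i ∈ G.O) (hli : LinearIndependent L₀k (fun i => G.ρ ⟨y i, hy i⟩)) :
    H217.ResidIndep (G.V₀ L₀) G.O y := by
  intro c hc hs i
  have hsO : (∑ i, c i • y i) ∈ G.O := G.O.nonunits_subset hs
  have h1 := G.ρ_sum_smul L₀ L₀k y hy c hc hsO
  have h2 : G.ρ ⟨∑ i, c i • y i, hsO⟩ = 0 := (G.ρ_eq_zero_iff _).mpr hs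
  rw [h2] at h1
  have h3 := Fintype.linearIndependent_iff.mp hli _ h1.symm i
  exact (G.ρ₀_eq_zero_iff L₀ L₀k _).mp h3

variable [FiniteDimensional L₀k Fk]

/-- Existence of a residually independent basis of `F / K(x)` in `O`. -/
theorem exists_resid_basis (hdeg : Module.finrank L₀ F = Module.finrank L₀k Fk) :
    ∃ y : Module.Basis (Fin (Module.finrank L₀k Fk)) L₀ F,
      (∀ i, y i ∈ G.O) ∧ H217.ResidIndep (G.V₀ L₀) G.O y := by
  classical
  set n := Module.finrank L₀k Fk with hn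
  have hpos : 0 < n := Module.finrank_pos
  have : Nonempty (Fin n) := ⟨⟨0, hpos⟩⟩
  let bk : Module.Basis (Fin n) L₀k Fk := Module.finBasis L₀k Fk
  choose u hu using fun i => G.ρ_surj (bk i)
  let y : Fin n → F := fun i => (u i : F)
  have hy : ∀ i, y i ∈ G.O := fun i => (u i).2
  have hli : LinearIndependent L₀k (fun i => G.ρ ⟨y i, hy i⟩) := by
    have : (fun i => G.ρ ⟨y i, hy i⟩) = bk := funext fun i => hu i
    rw [this]
    exact bk.linearIndependent
  have hR := G.residIndep_of_linearIndependent L₀ L₀k y hy hli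
  obtain ⟨b, hb⟩ := H217.exists_basis_of_residIndep hR (by rw [Fintype.card_fin, hdeg])
  refine ⟨b, fun i => ?_, ?_⟩
  · rw [hb]; exact hy i
  · rw [hb]; exact hR

variable [FiniteDimensional L₀ F] [Algebra.IsAlgebraic L₀ F]

/-- **Saturation (QEP)**: an element of `O` which is integral over `K[x]` is integral over
`A[x]`. -/
theorem isIntegralElem_of_mem (hdeg : Module.finrank L₀ F = Module.finrank L₀k Fk)
    (f : F) (hfO : f ∈ G.O) (hf : IsIntegral K[X] f) :
    (polyF (A := A) (F := F)).IsIntegralElem f := by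
  classical
  obtain ⟨y, hyO, hR⟩ := G.exists_resid_basis L₀ L₀k hdeg
  have hcoef : ∀ i, algebraMap K[X] L₀ ((minpoly K[X] f).coeff i) ∈ G.V₀ L₀ := fun i =>
    H217.minpoly_coeff_mem_of_isIntegral (G.valExtends L₀) y hR hyO (R := K[X]) ⟨f, hfO⟩ hf i
  have hl : minpoly K[X] f ∈ Polynomial.lifts (mapRingHom A.subtype) := by
    rw [Polynomial.lifts_iff_coeff_lifts]
    intro i
    obtain ⟨P₁, hP₁⟩ := G.exists_map_eq_of_mem_V₀ L₀ L₀k _ (hcoef i)
    exact ⟨P₁, hP₁⟩
  obtain ⟨μ, hμ, -, hμm⟩ := Polynomial.lifts_and_degree_eq_and_monic hl (minpoly.monic hf)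
  refine ⟨μ, hμm, ?_⟩
  have h1 : Polynomial.eval₂ (polyF (A := A) (F := F)) f μ =
      Polynomial.eval₂ (algebraMap K[X] F) f (μ.map (mapRingHom A.subtype)) := by
    rw [Polynomial.eval₂_map]
    rfl
  rw [h1, hμ]
  exact minpoly.aeval K[X] f

/-- The reduction of an element of `O` integral over `K[x]` is integral over `k[x̄]`. -/
theorem isIntegral_ρ (hdeg : Module.finrank L₀ F = Module.finrank L₀k Fk)
    (f : G.O) (hf : IsIntegral K[X] (f : F)) : IsIntegral k[X] (G.ρ f) :=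
  G.isIntegral_ρ_of_isIntegralElem f (G.isIntegralElem_of_mem L₀ L₀k hdeg f f.2 hf)

end Rational

end RedCtx

end Fermat.Agent.S37.H159

end
-- ===== PACK-END S37/H159/MInt.lean

-- ===== PACK-BEGIN S37/H818/NormCompat.lean
section
/-
S37 / LEVEL TRANSFER (helper818), part 5: norm compatibility for a square

      F  --a-->  F₁
      |i         |i₁
      v          v
      G  --a'->  G₁

with `[F₁ : F] = [G₁ : G]` and `G₁ = G · i₁(F₁)`:  `N_{G₁/G}(i₁ f) = i (N_{F₁/F} f)`.
-/




set_option autoImplicit false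
set_option linter.style.haveILetI false

noncomputable section

namespace Fermat.Agent.S37.H818

open AlgebraicCurve

section Abstract

variable {F F₁ G G₁ : Type*} [Field F] [Field F₁] [Field G] [Field G₁]
  [Algebra F F₁] [Algebra G G₁] (i : F →+* G) (i₁ : F₁ →+* G₁)
  (hsq : ∀ x : F, i₁ (algebraMap F F₁ x) = algebraMap G G₁ (i x))

include hsq in
theorem map_smul_square (c : F) (x : F₁) : i₁ (c • x) = i c • i₁ x := by
  rw [Algebra.smul_def, Algebra.smul_def, map_mul, hsq]

include hsq in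
/-- The image of a basis spans a subspace closed under multiplication containing `i₁(F₁)`. -/
theorem span_image_basis_eq_top {n : ℕ} (e : Module.Basis (Fin n) F F₁)
    (hgen : Algebra.adjoin G (Set.range i₁) = ⊤) :
    Submodule.span G (Set.range fun j => i₁ (e j)) = ⊤ := by
  set S : Submodule G G₁ := Submodule.span G (Set.range fun j => i₁ (e j)) with hS
  have hgenS : ∀ f : F₁, i₁ f ∈ S := by
    intro f
    have hf : f = ∑ j, e.repr f j • e j := (e.sum_repr f).symm
    rw [hf, map_sum]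
    refine Submodule.sum_mem _ fun j _ => ?_
    rw [map_smul_square i i₁ hsq]
    exact Submodule.smul_mem _ _ (Submodule.subset_span ⟨j, rfl⟩)
  have hmul : ∀ x ∈ S, ∀ y ∈ S, x * y ∈ S := by
    intro x hx y hy
    induction hx using Submodule.span_induction with
    | mem x hx =>
      obtain ⟨j, rfl⟩ := hx
      induction hy using Submodule.span_induction with
      | mem y hy =>
        obtain ⟨k, rfl⟩ := hy
        simp only
        rw [← map_mul]
        exact hgenS _
      | zero => rw [mul_zero]; exact S.zero_mem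
      | add y z _ _ hy hz => rw [mul_add]; exact S.add_mem hy hz
      | smul c y _ hy => rw [mul_smul_comm]; exact S.smul_mem c hy
    | zero => rw [zero_mul]; exact S.zero_mem
    | add x z _ _ hx hz => rw [add_mul]; exact S.add_mem hx hz
    | smul c x _ hx => rw [smul_mul_assoc]; exact S.smul_mem c hx
  rw [eq_top_iff]
  intro x _
  have hx : x ∈ Algebra.adjoin G (Set.range i₁) := by rw [hgen]; exact Algebra.mem_top
  induction hx using Algebra.adjoin_induction with
  | mem y hy =>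
    obtain ⟨f, rfl⟩ := hy
    exact hgenS f
  | algebraMap g =>
    have h1 : (1 : G₁) ∈ S := by
      have := hgenS 1
      rwa [map_one] at this
    have : algebraMap G G₁ g = g • (1 : G₁) := by rw [Algebra.smul_def, mul_one]
    rw [this]
    exact S.smul_mem g h1
  | add y z _ _ hy hz => exact S.add_mem (hy trivial) (hz trivial)
  | mul y z _ _ hy hz => exact hmul _ (hy trivial) _ (hz trivial)

include hsq in
/-- Norm compatibility, abstract form. -/
theorem norm_square [Module.Finite F F₁] [Module.Finite G G₁]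
    (hdeg : Module.finrank G G₁ = Module.finrank F F₁)
    (hgen : Algebra.adjoin G (Set.range i₁) = ⊤) (f : F₁) :
    Algebra.norm G (i₁ f) = i (Algebra.norm F f) := by
  classical
  set n := Module.finrank F F₁ with hn
  let e : Module.Basis (Fin n) F F₁ := Module.finBasis F F₁
  have hspan := span_image_basis_eq_top i i₁ hsq e hgen
  have hcard : Fintype.card (Fin n) = Module.finrank G G₁ := by
    rw [Fintype.card_fin, hdeg]
  let e' : Module.Basis (Fin n) G G₁ :=
    basisOfTopLeSpanOfCardEqFinrank (fun j => i₁ (e j)) hspan.ge hcard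
  have he' : ∀ j, e' j = i₁ (e j) := fun j => by
    simp [e', coe_basisOfTopLeSpanOfCardEqFinrank]
  rw [Algebra.norm_eq_matrix_det e' (i₁ f), Algebra.norm_eq_matrix_det e f, RingHom.map_det]
  congr 1
  ext k j
  rw [RingHom.mapMatrix_apply, Matrix.map_apply, Algebra.leftMulMatrix_eq_repr_mul,
    Algebra.leftMulMatrix_eq_repr_mul, he']
  have hprod : i₁ f * i₁ (e j) = ∑ k, i (e.repr (f * e j) k) • e' k := by
    rw [← map_mul]
    conv_lhs => rw [← e.sum_repr (f * e j)]
    rw [map_sum]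
    refine Finset.sum_congr rfl fun k _ => ?_
    rw [map_smul_square i i₁ hsq, he']
  rw [hprod, e'.repr_sum_self]

end Abstract

section Along

variable {K F F₁ G G₁ : Type*} [Field K] [Field F] [Field F₁] [Field G] [Field G₁]
  [Algebra K F] [Algebra K F₁] [Algebra K G] [Algebra K G₁]

/-- `NormCompat` from equality of degrees and generation `G₁ = a'(G)[i₁(F₁)]`. -/
theorem normCompat_of_finrank_eq (a : F →ₐ[K] F₁) (i : F →ₐ[K] G) (a' : G →ₐ[K] G₁)
    (i₁ : F₁ →ₐ[K] G₁) (hsq : i₁.comp a = a'.comp i)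
    (hfin : FiniteAlong K a) (hfin' : FiniteAlong K a')
    (hdeg : finrankAlong K a' = finrankAlong K a)
    (hgen : (letI := algebraAlong a'; Algebra.adjoin G (Set.range i₁)) = ⊤) :
    NormCompat a i a' i₁ := by
  intro f
  letI := algebraAlong a
  letI := algebraAlong a'
  haveI : Module.Finite F F₁ := hfin
  haveI : Module.Finite G G₁ := hfin'
  refine norm_square (i : F →+* G) (i₁ : F₁ →+* G₁) (fun x => ?_) hdeg ?_ f
  · exact congrArg (fun φ : F →ₐ[K] G₁ => φ x) hsq
  · exact hgen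

end Along

end Fermat.Agent.S37.H818

end

end
-- ===== PACK-END S37/H818/NormCompat.lean

-- ===== PACK-BEGIN A2/H609/Chain.lean
section


/-!
# Node purity, part 4: `ℓ(R/((u)+(π))) = m • ℓ(R/(I_1+(π)))`

Mathlib only.  See `Multiplicity.lean` for the setting.
-/

set_option autoImplicit false

namespace Fermat.Agent.A2.H609

open Ideal

variable {R : Type*} [CommRing R] [IsDomain R] [IsIntegrallyClosed R]

section Generator

variable {u π t r : R} {m : ℕ} {hm : m ≠ 0}

/-- (d) `t ^ j * g ∈ I_{j+1} → g ∈ I_1` when `t ^ m = u * r` and `r` is regular modulo `u`. -/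
theorem mem_rootIdeal_one_of_pow_mul_mem (hu0 : u ≠ 0) (hπ0 : π ≠ 0)
    (hreg : ∀ x : R, π ∣ u * x → π ∣ x) (ht : t ^ m = u * r)
    {k : ℕ} (hk : π ^ k ∈ Ideal.span {u, r}) {j : ℕ} {g : R}
    (h : t ^ j * g ∈ rootIdeal u m hm (j + 1)) : g ∈ rootIdeal u m hm 1 := by
  rw [mem_rootIdeal] at h ⊢
  rw [pow_one]
  have h1 : (t ^ j * g) ^ m = u ^ j * (r ^ j * g ^ m) := by
    rw [mul_pow, ← pow_mul, mul_comm j m, pow_mul, ht, mul_pow]; ring
  rw [h1, pow_succ] at h
  have h2 : u ∣ r ^ j * g ^ m := (mul_dvd_mul_iff_left (pow_ne_zero j hu0)).mp h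
  exact dvd_of_dvd_pow_mul_of_pow_mem hπ0 hreg hk j h2

/-- (e') `r ^ j * I_j ⊆ (t ^ j)`. -/
theorem pow_dvd_pow_mul_of_mem_rootIdeal (ht : t ^ m = u * r) {j : ℕ} {g : R}
    (hg : g ∈ rootIdeal u m hm j) : t ^ j ∣ r ^ j * g := by
  rw [mem_rootIdeal] at hg
  obtain ⟨x, hx⟩ := hg
  apply dvd_of_pow_dvd_pow hm
  have h1 : (t ^ j) ^ m = u ^ j * r ^ j := by
    rw [← pow_mul, mul_comm j m, pow_mul, ht, mul_pow]
  have h2 : (r ^ j * g) ^ m = (u ^ j * r ^ j) * ((r ^ j) ^ (m - 1) * x) := by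
    rw [mul_pow, hx]
    have : (r ^ j) ^ m = r ^ j * (r ^ j) ^ (m - 1) := by
      rw [← pow_succ', Nat.sub_add_cancel (Nat.one_le_iff_ne_zero.mpr hm)]
    rw [this]; ring
  rw [h1, h2]
  exact Dvd.intro _ rfl

theorem pow_mem_rootIdeal_of_pow_eq (ht : t ^ m = u * r) (j : ℕ) :
    t ^ j ∈ rootIdeal u m hm j := by
  apply pow_mem_rootIdeal
  rw [mem_rootIdeal, pow_one, ht]
  exact Dvd.intro _ rfl

end Generator

section Chain

variable [IsNoetherianRing R]
variable {u π t r : R} {m : ℕ} {hm : m ≠ 0}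

/-- (e) finiteness of `ℓ(I_j / ((t^j) + I_{j+1}))`. -/
theorem relLen_span_sup_rootIdeal_ne_top
    (ht : t ^ m = u * r) {k : ℕ} (hk : π ^ k ∈ Ideal.span {u, r})
    (hfin : relLen (Ideal.span {u, π}) (⊤ : Ideal R) ≠ ⊤) (j : ℕ) :
    relLen (Ideal.span {t ^ j} ⊔ rootIdeal u m hm (j + 1)) (rootIdeal u m hm j) ≠ ⊤ := by
  set A := rootIdeal u m hm j with hA
  set A' := Ideal.span {t ^ j} ⊔ rootIdeal u m hm (j + 1) with hA'
  set 𝔞 : Ideal R := Ideal.span {u, r ^ j} with h𝔞
  have hA'A : A' ≤ A := by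
    refine sup_le ?_ (rootIdeal_antitone u m hm (Nat.le_succ j))
    rw [Ideal.span_le, Set.singleton_subset_iff]
    exact pow_mem_rootIdeal_of_pow_eq ht j
  have h𝔞A : 𝔞 * A ≤ A' := by
    rw [Ideal.mul_le]
    intro a ha g hg
    obtain ⟨c, d, rfl⟩ := Ideal.mem_span_pair.mp ha
    rw [add_mul]
    refine Ideal.add_mem _ ?_ ?_
    · refine Submodule.mem_sup_right ?_
      have : c * u * g = c * (u * g) := by ring
      rw [this]
      exact Ideal.mul_mem_left _ _ (self_mul_mem_rootIdeal_succ hg)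
    · refine Submodule.mem_sup_left ?_
      have : d * r ^ j * g = d * (r ^ j * g) := by ring
      rw [this]
      exact Ideal.mul_mem_left _ _
        (Ideal.mem_span_singleton.mpr (pow_dvd_pow_mul_of_mem_rootIdeal ht hg))
  have h𝔟 : Ideal.span {u, π ^ (k * j)} ≤ 𝔞 := by
    rw [Ideal.span_le]
    intro x hx
    rcases hx with rfl | rfl
    · exact Ideal.subset_span (by simp)
    · exact pow_mul_mem_span_pair hk j
  have h𝔞fin : relLen 𝔞 (⊤ : Ideal R) ≠ ⊤ :=
    ne_top_of_le_ne_top (relLen_span_pair_pow_ne_top u π hfin (k * j))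
      (relLen_mono_left h𝔟 le_top)
  exact ne_top_of_le_ne_top
    (relLen_mul_ne_top 𝔞 h𝔞fin A (IsNoetherian.noetherian A))
    (relLen_mono_left h𝔞A hA'A)

omit [IsNoetherianRing R] in
/-- Step Z: `ℓ((I_j + (π)) / (I_{j+1} + (π))) = ℓ(I_j / (I_{j+1} + π I_j))`. -/
theorem relLen_stepZ (hπ0 : π ≠ 0) (hreg : ∀ x : R, π ∣ u * x → π ∣ x) (j : ℕ) :
    relLen (rootIdeal u m hm (j + 1) ⊔ Ideal.span {π} * rootIdeal u m hm j)
        (rootIdeal u m hm j) =
      relLen (rootIdeal u m hm (j + 1) ⊔ Ideal.span {π})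
        (rootIdeal u m hm j ⊔ Ideal.span {π}) := by
  refine relLen_eq_of_map (LinearMap.id : R →ₗ[R] R) ?_ ?_ ?_ ?_
  · intro x hx
    exact Submodule.mem_sup_left hx
  · intro x hx
    obtain ⟨a, ha, b, hb, rfl⟩ := Submodule.mem_sup.mp hx
    refine Ideal.add_mem _ (Submodule.mem_sup_left ha) (Submodule.mem_sup_right ?_)
    exact Ideal.mul_le_left hb
  · intro x hx hx'
    rw [LinearMap.id_apply] at hx'
    obtain ⟨a, ha, b, hb, hab⟩ := Submodule.mem_sup.mp hx'
    obtain ⟨c, rfl⟩ := Ideal.mem_span_singleton'.mp hb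
    have hc : c ∈ rootIdeal u m hm j := by
      apply mem_rootIdeal_of_mul_mem hπ0 hreg
      have : π * c = x - a := by rw [← hab]; ring
      rw [this]
      exact Ideal.sub_mem _ hx (rootIdeal_antitone u m hm (Nat.le_succ j) ha)
    rw [← hab]
    refine Ideal.add_mem _ (Submodule.mem_sup_left ha) (Submodule.mem_sup_right ?_)
    rw [mul_comm c π]
    exact Ideal.mul_mem_mul (Ideal.mem_span_singleton_self π) hc
  · intro y hy
    obtain ⟨a, ha, b, hb, rfl⟩ := Submodule.mem_sup.mp hy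
    refine ⟨a, ha, ?_⟩
    rw [LinearMap.id_apply, add_sub_cancel_left]
    exact Submodule.mem_sup_right hb

/-- Step Y: replace `I_j` by its finite-colength submodule `(t^j) + I_{j+1}`. -/
theorem relLen_stepY (hπ0 : π ≠ 0) (hreg : ∀ x : R, π ∣ u * x → π ∣ x)
    (ht : t ^ m = u * r) {k : ℕ} (hk : π ^ k ∈ Ideal.span {u, r})
    (hfin : relLen (Ideal.span {u, π}) (⊤ : Ideal R) ≠ ⊤) (j : ℕ) :
    relLen (rootIdeal u m hm (j + 1) ⊔ Ideal.span {π} * rootIdeal u m hm j)
        (rootIdeal u m hm j) =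
      relLen (rootIdeal u m hm (j + 1) ⊔
          Ideal.span {π} * (Ideal.span {t ^ j} ⊔ rootIdeal u m hm (j + 1)))
        (Ideal.span {t ^ j} ⊔ rootIdeal u m hm (j + 1)) := by
  set A := rootIdeal u m hm j with hA
  set J := rootIdeal u m hm (j + 1) with hJ
  set A' := Ideal.span {t ^ j} ⊔ J with hA'
  set B := J ⊔ Ideal.span {π} * A with hB
  set B' := J ⊔ Ideal.span {π} * A' with hB'
  have hJA : J ≤ A := rootIdeal_antitone u m hm (Nat.le_succ j)
  have hA'A : A' ≤ A := by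
    refine sup_le ?_ hJA
    rw [Ideal.span_le, Set.singleton_subset_iff]
    exact pow_mem_rootIdeal_of_pow_eq ht j
  have hB'A' : B' ≤ A' := sup_le le_sup_right Ideal.mul_le_right
  have hB'B : B' ≤ B := sup_le_sup_left (Ideal.mul_mono_right hA'A) _
  have hBA : B ≤ A := sup_le hJA Ideal.mul_le_right
  have hfinA : relLen A' A ≠ ⊤ := relLen_span_sup_rootIdeal_ne_top ht hk hfin j
  -- `A / A' ≃ B / B'` via multiplication by `π`
  have hiso : relLen A' A = relLen B' B := by
    refine relLen_eq_of_map (LinearMap.mulLeft R π) ?_ ?_ ?_ ?_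
    · intro x hx
      rw [LinearMap.mulLeft_apply]
      exact Submodule.mem_sup_right (Ideal.mul_mem_mul (Ideal.mem_span_singleton_self π) hx)
    · intro x hx
      rw [LinearMap.mulLeft_apply]
      exact Submodule.mem_sup_right (Ideal.mul_mem_mul (Ideal.mem_span_singleton_self π) hx)
    · intro x hx hx'
      rw [LinearMap.mulLeft_apply] at hx'
      obtain ⟨a, ha, b, hb, hab⟩ := Submodule.mem_sup.mp hx'
      obtain ⟨c, hc, rfl⟩ := Ideal.mem_span_singleton_mul.mp hb
      -- `π * (x - c) = a ∈ J`, so `x - c ∈ J`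
      have h1 : x - c ∈ J := by
        apply mem_rootIdeal_of_mul_mem hπ0 hreg
        have : π * (x - c) = a := by rw [mul_sub, ← hab]; ring
        rw [this]
        exact ha
      have : x = (x - c) + c := by ring
      rw [this]
      exact Ideal.add_mem _ (Submodule.mem_sup_right h1) hc
    · intro y hy
      obtain ⟨a, ha, b, hb, rfl⟩ := Submodule.mem_sup.mp hy
      obtain ⟨c, hc, rfl⟩ := Ideal.mem_span_singleton_mul.mp hb
      refine ⟨c, hc, ?_⟩
      rw [LinearMap.mulLeft_apply, add_sub_cancel_right]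
      exact Submodule.mem_sup_left ha
  have e1 : relLen B' A = relLen B' A' + relLen A' A := relLen_add hB'A' hA'A
  have e2 : relLen B' A = relLen B' B + relLen B A := relLen_add hB'B hBA
  rw [e1, ← hiso, add_comm (relLen A' A)] at e2
  exact (ENat.add_left_injective_of_ne_top hfinA e2).symm

omit [IsNoetherianRing R] in
/-- Step X: `ℓ(((t^j) + I_{j+1}) / (I_{j+1} + π ((t^j) + I_{j+1}))) = ℓ(R / (I_1 + (π)))`. -/
theorem relLen_stepX (hu0 : u ≠ 0) (hπ0 : π ≠ 0) (hreg : ∀ x : R, π ∣ u * x → π ∣ x)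
    (ht : t ^ m = u * r) {k : ℕ} (hk : π ^ k ∈ Ideal.span {u, r}) (j : ℕ) :
    relLen (rootIdeal u m hm 1 ⊔ Ideal.span {π}) (⊤ : Ideal R) =
      relLen (rootIdeal u m hm (j + 1) ⊔
          Ideal.span {π} * (Ideal.span {t ^ j} ⊔ rootIdeal u m hm (j + 1)))
        (Ideal.span {t ^ j} ⊔ rootIdeal u m hm (j + 1)) := by
  set J := rootIdeal u m hm (j + 1) with hJ
  refine relLen_eq_of_map (LinearMap.mulLeft R (t ^ j)) ?_ ?_ ?_ ?_
  · intro x _
    rw [LinearMap.mulLeft_apply]
    exact Submodule.mem_sup_left (Ideal.mul_mem_right _ _ (Ideal.mem_span_singleton_self _))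
  · intro x hx
    rw [LinearMap.mulLeft_apply]
    obtain ⟨a, ha, b, hb, rfl⟩ := Submodule.mem_sup.mp hx
    obtain ⟨c, rfl⟩ := Ideal.mem_span_singleton'.mp hb
    rw [mul_add]
    refine Ideal.add_mem _ (Submodule.mem_sup_left ?_) (Submodule.mem_sup_right ?_)
    · have := mul_mem_rootIdeal (pow_mem_rootIdeal_of_pow_eq (hm := hm) ht j) ha
      exact this
    · have : t ^ j * (c * π) = π * (c * t ^ j) := by ring
      rw [this]
      refine Ideal.mul_mem_mul (Ideal.mem_span_singleton_self π) (Submodule.mem_sup_left ?_)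
      exact Ideal.mul_mem_left _ _ (Ideal.mem_span_singleton_self _)
  · intro x _ hx'
    rw [LinearMap.mulLeft_apply] at hx'
    obtain ⟨a, ha, b, hb, hab⟩ := Submodule.mem_sup.mp hx'
    obtain ⟨c, hc, rfl⟩ := Ideal.mem_span_singleton_mul.mp hb
    obtain ⟨d, hd, e, he, rfl⟩ := Submodule.mem_sup.mp hc
    obtain ⟨y, rfl⟩ := Ideal.mem_span_singleton'.mp hd
    -- `t^j (x - π y) = a + π e ∈ J`
    have h1 : t ^ j * (x - π * y) ∈ J := by
      have : t ^ j * (x - π * y) = a + π * e := by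
        have h2 : t ^ j * x = a + π * (y * t ^ j + e) := hab.symm
        rw [mul_sub, h2]; ring
      rw [this]
      exact Ideal.add_mem _ ha (Ideal.mul_mem_left _ _ he)
    have h2 : x - π * y ∈ rootIdeal u m hm 1 :=
      mem_rootIdeal_one_of_pow_mul_mem hu0 hπ0 hreg ht hk h1
    have : x = (x - π * y) + y * π := by ring
    rw [this]
    exact Ideal.add_mem _ (Submodule.mem_sup_left h2)
      (Submodule.mem_sup_right (Ideal.mul_mem_left _ _ (Ideal.mem_span_singleton_self π)))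
  · intro y hy
    obtain ⟨a, ha, b, hb, rfl⟩ := Submodule.mem_sup.mp hy
    obtain ⟨c, rfl⟩ := Ideal.mem_span_singleton'.mp ha
    refine ⟨c, trivial, ?_⟩
    rw [LinearMap.mulLeft_apply]
    have : c * t ^ j + b - t ^ j * c = b := by ring
    rw [this]
    exact Submodule.mem_sup_left hb

/-- The colength function `c(j) = ℓ(R / (I_j + (π)))` is additive: `c(j+1) = c(j) + c(1)`. -/
theorem relLen_succ (hu0 : u ≠ 0) (hπ0 : π ≠ 0) (hreg : ∀ x : R, π ∣ u * x → π ∣ x)
    (ht : t ^ m = u * r) {k : ℕ} (hk : π ^ k ∈ Ideal.span {u, r})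
    (hfin : relLen (Ideal.span {u, π}) (⊤ : Ideal R) ≠ ⊤) (j : ℕ) :
    relLen (rootIdeal u m hm (j + 1) ⊔ Ideal.span {π}) (⊤ : Ideal R) =
      relLen (rootIdeal u m hm j ⊔ Ideal.span {π}) (⊤ : Ideal R) +
        relLen (rootIdeal u m hm 1 ⊔ Ideal.span {π}) (⊤ : Ideal R) := by
  have hAB : rootIdeal u m hm (j + 1) ⊔ Ideal.span {π} ≤ rootIdeal u m hm j ⊔ Ideal.span {π} :=
    sup_le_sup_right (rootIdeal_antitone u m hm (Nat.le_succ j)) _
  rw [relLen_add hAB le_top, ← relLen_stepZ hπ0 hreg j, relLen_stepY hπ0 hreg ht hk hfin j,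
    ← relLen_stepX hu0 hπ0 hreg ht hk j, add_comm]

/-- **Multiplicity identity**: `ℓ(R/((u)+(π))) = m • ℓ(R/(I_1+(π)))`. -/
theorem relLen_span_pair_eq_nsmul (hu0 : u ≠ 0) (hπ0 : π ≠ 0)
    (hreg : ∀ x : R, π ∣ u * x → π ∣ x)
    (ht : t ^ m = u * r) {k : ℕ} (hk : π ^ k ∈ Ideal.span {u, r})
    (hfin : relLen (Ideal.span {u, π}) (⊤ : Ideal R) ≠ ⊤) :
    relLen (Ideal.span {u, π}) (⊤ : Ideal R) =
      m • relLen (rootIdeal u m hm 1 ⊔ Ideal.span {π}) (⊤ : Ideal R) := by
  have key : ∀ j : ℕ, relLen (rootIdeal u m hm j ⊔ Ideal.span {π}) (⊤ : Ideal R) =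
      j • relLen (rootIdeal u m hm 1 ⊔ Ideal.span {π}) (⊤ : Ideal R) := by
    intro j
    induction j with
    | zero =>
      rw [rootIdeal_zero, top_sup_eq, relLen_self, zero_smul]
    | succ j ih =>
      rw [relLen_succ hu0 hπ0 hreg ht hk hfin j, ih, succ_nsmul]
  have h := key m
  rw [rootIdeal_self] at h
  have hspan : Ideal.span {u} ⊔ Ideal.span {π} = Ideal.span {u, π} := by
    rw [← Ideal.span_union]
    rfl
  rw [hspan] at h
  exact h

end Chain

end Fermat.Agent.A2.H609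

end
-- ===== PACK-END A2/H609/Chain.lean

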