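import Fermat.Prelude.Thm_ModularForm_sturm_bound_Gamma0
import Mathlib.FieldTheory.Galois.Basic
import Mathlib.RingTheory.Ideal.Operations
import Mathlib
import Mathlib.Algebra.Polynomial.Degree.Lemmas
import Mathlib.Algebra.Polynomial.Monic
import Mathlib.Tactic.FieldSimp
import Mathlib.Tactic.Ring
import Mathlib.Tactic.FinCases
import Mathlib.RingTheory.IntegralClosure.IntegrallyClosed
import Mathlib.FieldTheory.IsAlgClosed.AlgebraicClosure
import Mathlib.RingTheory.Localization.FractionRing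
import Fermat.Agent.Pack.S44.G0E3L2
import Fermat.Agent.Pack.S44.G0E3L1
import Fermat.Agent.Pack.S44.G0E4L0
import Fermat.Agent.Pack.S44.G0E4L1
import Fermat.Agent.Pack.S44.G0E5L1
import Fermat.Agent.Pack.S44.G0E5L3
import Fermat.Agent.Pack.S44.G0E5L0
import Fermat.Agent.Pack.S44.G0E5L2

-- ===== PACK-BEGIN S20/P4_helper479.lean
section


/-!
# S20 long shot, piece P4 (duality by Cramer's rule) -- helper479

For a fundamental system `𝔉 : FundSystem Γ` (frozen interface `Fermat.Agent.S20.Core`) we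
construct the dual functions `G_j = Δ · (row j of the inverse fundamental matrix)`, show
`G_j ∈ SF Γ (12 - wt j)`, and that every `g ∈ SF Γ k` is `∑ j, c_j * G_j` with
`c_j = Tr(F_j g) / Δ` of level one and weight `k + wt j - 12`.  Consequences:

* `wt_le_ten_of`        : `wt j ≤ 10`                                    (Skeleton P4.1)
* `finrank_SF_two_of`   : `finrank (SF Γ 2) = #{j | wt j = 10}`          (Skeleton P4.2)
* `card_wt_zero_of`     : `#{j | wt j = 0} = 1`                          (Skeleton P4.3)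

The inputs from the packages C0 / L0 of the skeleton (vanishing in weight `≤ 0`, constancy in
weight `0`, division of level one cusp forms by `Δ`, evenness of the weights) are taken as
explicit hypotheses, in exactly the shape of the skeleton statements.
-/

set_option autoImplicit false

noncomputable section

namespace Fermat.Agent.S20.P4h479

open Fermat.Agent.S20
open UpperHalfPlane ModularForm CongruenceSubgroup MatrixGroups Filter Module
open scoped Manifold Topology Real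

local notation "Δ" => ModularForm.discriminant

variable {Γ : Subgroup SL(2, ℤ)}

section internal

attribute [local instance] Classical.propDecidable

/-! ## 0. Conjugates -/

theorem ev_mk {k : ℤ} {f : ℍ → ℂ} (hf : ∀ γ ∈ Γ, f ∣[k] γ = f) (g : SL(2, ℤ)) (τ : ℍ) :
    ev Γ k τ f (QuotientGroup.mk g) = (f ∣[k] g⁻¹) τ := by
  obtain ⟨h, hh⟩ := QuotientGroup.mk_out_eq_mul Γ g
  rw [ev_apply, hh, mul_inv_rev, SlashAction.slash_mul, hf _ (Γ.inv_mem h.2)]

theorem slash_SL_apply (k : ℤ) (f : ℍ → ℂ) (g : SL(2, ℤ)) (τ : ℍ) :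
    (f ∣[k] g) τ = f (g • τ) * denom g τ ^ (-k) := by
  rw [SL_slash_apply]

theorem ev_smul {k : ℤ} {f : ℍ → ℂ} (hf : ∀ γ ∈ Γ, f ∣[k] γ = f) (γ : SL(2, ℤ)) (τ : ℍ)
    (x : X Γ) : ev Γ k (γ • τ) f x = denom γ τ ^ k * ev Γ k τ f (γ⁻¹ • x) := by
  induction x using QuotientGroup.induction_on with
  | H g =>
    have h1 : (γ⁻¹ • (QuotientGroup.mk g : X Γ)) = QuotientGroup.mk (γ⁻¹ * g) := rfl
    rw [h1, ev_mk hf, ev_mk hf, mul_inv_rev, inv_inv, SlashAction.slash_mul,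
      slash_SL_apply k (f ∣[k] g⁻¹) γ τ]
    have hd : denom γ τ ≠ 0 := denom_ne_zero _ _
    rw [mul_comm, mul_assoc, ← zpow_add₀ hd]
    simp

theorem mdiff_ev {k : ℤ} {f : ℍ → ℂ} (hf : MDiff f) (x : X Γ) :
    MDiff (fun τ => ev Γ k τ f x) := by
  have := hf.slash k (((x.out)⁻¹ : SL(2, ℤ)) : GL (Fin 2) ℝ)
  exact this

/-! ## 1. The fundamental matrix and its inverse -/

theorem exists_equiv [Γ.FiniteIndex] (𝔉 : FundSystem Γ) : Nonempty (𝔉.J ≃ X Γ) := by
  have : Finite (X Γ) := Subgroup.finite_quotient_of_finiteIndex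
  rw [← Finite.card_eq, Nat.card_eq_fintype_card]
  exact 𝔉.card_eq

/-- the fundamental matrix -/
def fundMat (𝔉 : FundSystem Γ) (e : 𝔉.J ≃ X Γ) (τ : ℍ) : Matrix 𝔉.J 𝔉.J ℂ :=
  Matrix.of fun i j => ev Γ (𝔉.wt j) τ (𝔉.F j) (e i)

theorem fundMat_apply (𝔉 : FundSystem Γ) (e : 𝔉.J ≃ X Γ) (τ : ℍ) (i j : 𝔉.J) :
    fundMat 𝔉 e τ i j = ev Γ (𝔉.wt j) τ (𝔉.F j) (e i) := rfl

theorem isUnit_fundMat (𝔉 : FundSystem Γ) (e : 𝔉.J ≃ X Γ) (τ : ℍ) :
    IsUnit (fundMat 𝔉 e τ) := by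
  rw [← Matrix.linearIndependent_cols_iff_isUnit]
  have h := 𝔉.indep τ
  have h2 := h.map' (LinearEquiv.funCongrLeft ℂ ℂ e).toLinearMap
    (LinearMap.ker_eq_bot.mpr (LinearEquiv.funCongrLeft ℂ ℂ e).injective)
  exact h2

theorem isUnit_det_fundMat (𝔉 : FundSystem Γ) (e : 𝔉.J ≃ X Γ) (τ : ℍ) :
    IsUnit (fundMat 𝔉 e τ).det :=
  (Matrix.isUnit_iff_isUnit_det _).mp (isUnit_fundMat 𝔉 e τ)

theorem det_fundMat_ne_zero (𝔉 : FundSystem Γ) (e : 𝔉.J ≃ X Γ) (τ : ℍ) :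
    (fundMat 𝔉 e τ).det ≠ 0 :=
  (isUnit_det_fundMat 𝔉 e τ).ne_zero

/-- the inverse of the fundamental matrix -/
def invMat (𝔉 : FundSystem Γ) (e : 𝔉.J ≃ X Γ) (τ : ℍ) : Matrix 𝔉.J 𝔉.J ℂ :=
  (fundMat 𝔉 e τ)⁻¹

theorem invMat_mul_fundMat (𝔉 : FundSystem Γ) (e : 𝔉.J ≃ X Γ) (τ : ℍ) :
    invMat 𝔉 e τ * fundMat 𝔉 e τ = 1 :=
  Matrix.nonsing_inv_mul _ (isUnit_det_fundMat 𝔉 e τ)

theorem fundMat_mul_invMat (𝔉 : FundSystem Γ) (e : 𝔉.J ≃ X Γ) (τ : ℍ) :
    fundMat 𝔉 e τ * invMat 𝔉 e τ = 1 :=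
  Matrix.mul_nonsing_inv _ (isUnit_det_fundMat 𝔉 e τ)

/-- the permutation of the index set induced by `γ⁻¹`. -/
def permJ (𝔉 : FundSystem Γ) (e : 𝔉.J ≃ X Γ) (γ : SL(2, ℤ)) : 𝔉.J ≃ 𝔉.J :=
  e.trans ((MulAction.toPerm (γ⁻¹ : SL(2, ℤ))).trans e.symm)

theorem permJ_apply (𝔉 : FundSystem Γ) (e : 𝔉.J ≃ X Γ) (γ : SL(2, ℤ)) (i : 𝔉.J) :
    permJ 𝔉 e γ i = e.symm (γ⁻¹ • e i) := rfl

theorem e_permJ (𝔉 : FundSystem Γ) (e : 𝔉.J ≃ X Γ) (γ : SL(2, ℤ)) (i : 𝔉.J) :
    e (permJ 𝔉 e γ i) = γ⁻¹ • e i := by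
  simp [permJ_apply]

theorem fundMat_smul (𝔉 : FundSystem Γ) (e : 𝔉.J ≃ X Γ) (γ : SL(2, ℤ)) (τ : ℍ) (i j : 𝔉.J) :
    fundMat 𝔉 e (γ • τ) i j = denom γ τ ^ (𝔉.wt j) * fundMat 𝔉 e τ (permJ 𝔉 e γ i) j := by
  rw [fundMat_apply, fundMat_apply, e_permJ, ev_smul (𝔉.mem j).2.1]

theorem invMat_smul (𝔉 : FundSystem Γ) (e : 𝔉.J ≃ X Γ) (γ : SL(2, ℤ)) (τ : ℍ) (j i : 𝔉.J) :
    invMat 𝔉 e (γ • τ) j i
      = (denom γ τ ^ (𝔉.wt j))⁻¹ * invMat 𝔉 e τ j (permJ 𝔉 e γ i) := by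
  have hd : ∀ j : 𝔉.J, denom γ τ ^ (𝔉.wt j) ≠ 0 := fun j => zpow_ne_zero _ (denom_ne_zero _ _)
  set C : Matrix 𝔉.J 𝔉.J ℂ :=
    Matrix.of fun j i => (denom γ τ ^ (𝔉.wt j))⁻¹ * invMat 𝔉 e τ j (permJ 𝔉 e γ i) with hC
  have key : C * fundMat 𝔉 e (γ • τ) = 1 := by
    ext j j'
    rw [Matrix.mul_apply]
    have h1 : ∀ i, C j i * fundMat 𝔉 e (γ • τ) i j'
        = (denom γ τ ^ (𝔉.wt j))⁻¹ * denom γ τ ^ (𝔉.wt j') *
          (invMat 𝔉 e τ j (permJ 𝔉 e γ i) * fundMat 𝔉 e τ (permJ 𝔉 e γ i) j') := by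
      intro i
      rw [fundMat_smul, hC, Matrix.of_apply]
      ring
    simp_rw [h1]
    rw [← Finset.mul_sum,
      Equiv.sum_comp (permJ 𝔉 e γ) (fun i => invMat 𝔉 e τ j i * fundMat 𝔉 e τ i j'),
      ← Matrix.mul_apply, invMat_mul_fundMat]
    by_cases hjj : j = j'
    · subst hjj
      simp [hd j]
    · simp [hjj]
  have := Matrix.inv_eq_left_inv key
  rw [invMat, this, hC, Matrix.of_apply]


/-! ## 2. The dual functions -/

theorem discriminant_slash (γ : SL(2, ℤ)) : (Δ : ℍ → ℂ) ∣[(12 : ℤ)] γ = Δ :=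
  SlashInvariantForm.slash_action_generators_SL2Z discriminant_S_invariant
    discriminant_T_invariant γ

theorem discriminant_smul (γ : SL(2, ℤ)) (τ : ℍ) : Δ (γ • τ) = denom γ τ ^ (12 : ℤ) * Δ τ := by
  have h := congrFun (discriminant_slash γ) τ
  rw [slash_SL_apply] at h
  have hd : denom γ τ ≠ 0 := denom_ne_zero _ _
  rw [← h, mul_comm (Δ (γ • τ)), ← mul_assoc, ← zpow_add₀ hd]
  simp

/-- the dual functions `G_j` -/
def dualFun (𝔉 : FundSystem Γ) (e : 𝔉.J ≃ X Γ) (j : 𝔉.J) : ℍ → ℂ :=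
  fun τ => Δ τ * invMat 𝔉 e τ j (e.symm (QuotientGroup.mk 1))

theorem zpow_aux (d : ℂ) (hd : d ≠ 0) (w : ℤ) (a b : ℂ) :
    d ^ (12 : ℤ) * a * ((d ^ w)⁻¹ * b) * d ^ (-(12 - w)) = a * b := by
  have h1 : d ^ (12 : ℤ) * (d ^ w)⁻¹ * d ^ (-(12 - w)) = 1 := by
    rw [← zpow_neg, ← zpow_add₀ hd, ← zpow_add₀ hd]
    have : (12 : ℤ) + -w + -(12 - w) = 0 := by ring
    rw [this, zpow_zero]
  calc d ^ (12 : ℤ) * a * ((d ^ w)⁻¹ * b) * d ^ (-(12 - w))
      = (d ^ (12 : ℤ) * (d ^ w)⁻¹ * d ^ (-(12 - w))) * (a * b) := by ring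
    _ = a * b := by rw [h1, one_mul]

theorem dualFun_slash_inv (𝔉 : FundSystem Γ) (e : 𝔉.J ≃ X Γ) (j : 𝔉.J) (g : SL(2, ℤ)) (τ : ℍ) :
    (dualFun 𝔉 e j ∣[12 - 𝔉.wt j] g⁻¹) τ
      = Δ τ * invMat 𝔉 e τ j (e.symm (QuotientGroup.mk g)) := by
  have hp : permJ 𝔉 e g⁻¹ (e.symm (QuotientGroup.mk 1)) = e.symm (QuotientGroup.mk g) := by
    rw [permJ_apply, Equiv.apply_symm_apply, inv_inv]
    congr 1
    show (QuotientGroup.mk (g * 1) : X Γ) = _
    rw [mul_one]
  rw [slash_SL_apply]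
  show Δ (g⁻¹ • τ) * invMat 𝔉 e (g⁻¹ • τ) j (e.symm (QuotientGroup.mk 1)) * _ = _
  rw [discriminant_smul, invMat_smul, hp]
  exact zpow_aux _ (denom_ne_zero _ _) _ _ _

theorem dualFun_slash (𝔉 : FundSystem Γ) (e : 𝔉.J ≃ X Γ) (j : 𝔉.J) (g : SL(2, ℤ)) (τ : ℍ) :
    (dualFun 𝔉 e j ∣[12 - 𝔉.wt j] g) τ
      = Δ τ * invMat 𝔉 e τ j (e.symm (QuotientGroup.mk g⁻¹)) := by
  have := dualFun_slash_inv 𝔉 e j g⁻¹ τ
  rwa [inv_inv] at this

theorem dualFun_invariant (𝔉 : FundSystem Γ) (e : 𝔉.J ≃ X Γ) (j : 𝔉.J) (γ : SL(2, ℤ))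
    (hγ : γ ∈ Γ) : dualFun 𝔉 e j ∣[12 - 𝔉.wt j] γ = dualFun 𝔉 e j := by
  funext τ
  rw [dualFun_slash]
  have : (QuotientGroup.mk γ⁻¹ : X Γ) = QuotientGroup.mk 1 := by
    rw [QuotientGroup.eq]
    simpa using hγ
  rw [this]
  rfl

theorem ev_dualFun (𝔉 : FundSystem Γ) (e : 𝔉.J ≃ X Γ) (j : 𝔉.J) (τ : ℍ) (i : 𝔉.J) :
    ev Γ (12 - 𝔉.wt j) τ (dualFun 𝔉 e j) (e i) = Δ τ * invMat 𝔉 e τ j i := by
  obtain ⟨g, hg⟩ := QuotientGroup.mk_surjective (e i)
  rw [← hg, ev_mk (fun γ hγ => dualFun_invariant 𝔉 e j γ hγ), dualFun_slash_inv, hg,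
    Equiv.symm_apply_apply]


/-! ## 3. Holomorphy of the inverse matrix -/

theorem mdiff_det {n : Type} [Fintype n] (M : ℍ → Matrix n n ℂ)
    (h : ∀ i j, MDiff (fun τ => M τ i j)) : MDiff (fun τ => (M τ).det) := by
  rw [UpperHalfPlane.mdifferentiable_iff]
  have h' : ∀ i j, DifferentiableOn ℂ ((fun τ => M τ i j) ∘ ofComplex) {z | 0 < z.im} :=
    fun i j => UpperHalfPlane.mdifferentiable_iff.mp (h i j)
  have hfun : ((fun τ => (M τ).det) ∘ ofComplex)
      = fun z => ∑ σ : Equiv.Perm n, Equiv.Perm.sign σ • ∏ i, M (ofComplex z) (σ i) i := by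
    funext z
    simp [Matrix.det_apply]
  rw [hfun]
  refine DifferentiableOn.fun_sum fun σ _ => ?_
  refine DifferentiableOn.const_smul ?_ _
  refine DifferentiableOn.fun_finsetProd fun i _ => ?_
  exact h' (σ i) i

theorem mdiff_inv_apply {n : Type} [Fintype n] (M : ℍ → Matrix n n ℂ)
    (h : ∀ i j, MDiff (fun τ => M τ i j)) (hdet : ∀ τ, (M τ).det ≠ 0) (a b : n) :
    MDiff (fun τ => (M τ)⁻¹ a b) := by
  have hadj : MDiff (fun τ => (M τ).adjugate a b) := by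
    have : (fun τ => (M τ).adjugate a b)
        = fun τ => ((M τ).updateRow b (Pi.single a 1)).det := by
      funext τ
      rw [Matrix.adjugate_apply]
    rw [this]
    refine mdiff_det _ fun i j => ?_
    by_cases hib : i = b
    · subst hib
      simp only [Matrix.updateRow_self]
      exact mdifferentiable_const
    · simp only [Matrix.updateRow_ne hib]
      exact h i j
  have hd := mdiff_det M h
  rw [UpperHalfPlane.mdifferentiable_iff] at hadj hd ⊢
  have hfun : ((fun τ => (M τ)⁻¹ a b) ∘ ofComplex)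
      = fun z => (((fun τ => (M τ).det) ∘ ofComplex) z)⁻¹ *
          ((fun τ => (M τ).adjugate a b) ∘ ofComplex) z := by
    funext z
    simp only [Function.comp_apply, Matrix.inv_def, Matrix.smul_apply, smul_eq_mul,
      Ring.inverse_eq_inv']
  rw [hfun]
  refine DifferentiableOn.mul (DifferentiableOn.inv hd fun z _ => ?_) hadj
  exact hdet _

theorem mdiff_fundMat (𝔉 : FundSystem Γ) (e : 𝔉.J ≃ X Γ) (i j : 𝔉.J) :
    MDiff (fun τ => fundMat 𝔉 e τ i j) :=
  mdiff_ev (𝔉.mem j).1 (e i)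

theorem mdiff_invMat (𝔉 : FundSystem Γ) (e : 𝔉.J ≃ X Γ) (j i : 𝔉.J) :
    MDiff (fun τ => invMat 𝔉 e τ j i) :=
  mdiff_inv_apply (fundMat 𝔉 e) (mdiff_fundMat 𝔉 e) (det_fundMat_ne_zero 𝔉 e) j i

theorem mdiff_discriminant : MDiff (Δ : ℍ → ℂ) := CuspForm.discriminant.holo'

theorem mdiff_mul {f g : ℍ → ℂ} (hf : MDiff f) (hg : MDiff g) : MDiff (fun τ => f τ * g τ) := by
  rw [UpperHalfPlane.mdifferentiable_iff] at hf hg ⊢
  exact hf.mul hg

theorem mdiff_dualFun (𝔉 : FundSystem Γ) (e : 𝔉.J ≃ X Γ) (j : 𝔉.J) :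
    MDiff (dualFun 𝔉 e j) :=
  mdiff_mul mdiff_discriminant (mdiff_invMat 𝔉 e j _)


/-! ## 4. Decay at the cusps -/

theorem per_pos [Γ.FiniteIndex] : 0 < per Γ := by
  have : Finite (X Γ) := Subgroup.finite_quotient_of_finiteIndex
  exact orderOf_pos _

/-- growth rate of `Theta (-τ)` -/
def rate (Γ : Subgroup SL(2, ℤ)) (τ : ℍ) : ℝ :=
  Real.exp (2 * π * ((per Γ : ℝ) - 1) / (per Γ : ℝ) * τ.im)

theorem Theta_apply (s : ℂ) (w : X Γ → ℂ) (x : X Γ) :
    Theta Γ s w x = ∑ a ∈ Finset.range (per Γ),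
      Complex.exp (2 * π * Complex.I * a * s / per Γ) * proj Γ a w x := by
  simp [Theta, LinearMap.sum_apply, Finset.sum_apply]

theorem norm_Theta_le [Γ.FiniteIndex] (w : X Γ → ℂ) (x : X Γ) (τ : ℍ) :
    ‖Theta Γ (-(τ : ℂ)) w x‖ ≤ (∑ a ∈ Finset.range (per Γ), ‖proj Γ a w x‖) * rate Γ τ := by
  rw [Theta_apply, Finset.sum_mul]
  refine (norm_sum_le _ _).trans (Finset.sum_le_sum fun a ha => ?_)
  rw [norm_mul, mul_comm]
  refine mul_le_mul_of_nonneg_left ?_ (norm_nonneg _)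
  rw [Complex.norm_exp, rate]
  apply Real.exp_le_exp.mpr
  have hh : (0 : ℝ) < per Γ := by exact_mod_cast per_pos (Γ := Γ)
  have ha' : (a : ℝ) ≤ (per Γ : ℝ) - 1 := by
    have := Finset.mem_range.mp ha
    have h2 : a + 1 ≤ per Γ := this
    have h3 : ((a + 1 : ℕ) : ℝ) ≤ per Γ := by exact_mod_cast h2
    push_cast at h3
    linarith
  have him : 0 < τ.im := τ.im_pos
  have hre : (2 * π * Complex.I * a * -(τ : ℂ) / (per Γ : ℂ)).re
      = 2 * π * a / (per Γ : ℝ) * τ.im := by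
    have : (2 * π * Complex.I * a * -(τ : ℂ) / (per Γ : ℂ))
        = ((2 * π * a / (per Γ : ℝ) : ℝ) : ℂ) * (-(Complex.I * (τ : ℂ))) := by
      push_cast
      ring
    rw [this, Complex.re_ofReal_mul]
    simp
  rw [hre]
  have h2π : 0 < 2 * π := by positivity
  have : 2 * π * a / (per Γ : ℝ) ≤ 2 * π * ((per Γ : ℝ) - 1) / (per Γ : ℝ) := by
    apply div_le_div_of_nonneg_right _ hh.le
    exact mul_le_mul_of_nonneg_left ha' h2π.le
  exact mul_le_mul_of_nonneg_right this him.le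

theorem discriminant_isBigO :
    (Δ : ℍ → ℂ) =O[atImInfty] fun τ => Real.exp (-2 * π * τ.im) := by
  have := CuspFormClass.exp_decay_atImInfty (h := 1) CuspForm.discriminant one_pos
    one_mem_strictPeriods_SL
  simpa using this

theorem tendsto_exp_neg [Γ.FiniteIndex] :
    Tendsto (fun τ : ℍ => Real.exp (-2 * π * τ.im) * rate Γ τ) atImInfty (𝓝 0) := by
  have hh : (0 : ℝ) < per Γ := by exact_mod_cast per_pos (Γ := Γ)
  have h1 : ∀ τ : ℍ, Real.exp (-2 * π * τ.im) * rate Γ τ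
      = Real.exp (-(2 * π / (per Γ : ℝ) * τ.im)) := by
    intro τ
    rw [rate, ← Real.exp_add]
    congr 1
    field_simp
    ring
  simp_rw [h1]
  have h2 : Tendsto (fun τ : ℍ => 2 * π / (per Γ : ℝ) * τ.im) atImInfty atTop := by
    apply Tendsto.const_mul_atTop (by positivity)
    exact tendsto_comap
  exact Real.tendsto_exp_neg_atTop_nhds_zero.comp h2

section jets

variable [Γ.FiniteIndex] (𝔉 : FundSystem Γ) (e : 𝔉.J ≃ X Γ)

/-- the matrix of normalised conjugates -/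
def jetMat (τ : ℍ) : Matrix 𝔉.J 𝔉.J ℂ :=
  Matrix.of fun i j => jetFun Γ (𝔉.wt j) (𝔉.F j) τ (e i)

/-- the matrix of jets -/
def jetLim : Matrix 𝔉.J 𝔉.J ℂ :=
  Matrix.of fun i j => 𝔉.jet j (e i)

/-- the matrix of `Theta (-τ)` -/
def thetaMat (τ : ℍ) : Matrix 𝔉.J 𝔉.J ℂ :=
  Matrix.of fun i i' => Theta Γ (-(τ : ℂ)) (Pi.single (e i') 1) (e i)

omit [Γ.FiniteIndex] in
theorem isUnit_jetLim : IsUnit (jetLim 𝔉 e) := by
  rw [← Matrix.linearIndependent_cols_iff_isUnit]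
  have h := 𝔉.jet_indep
  have h2 := h.map' (LinearEquiv.funCongrLeft ℂ ℂ e).toLinearMap
    (LinearMap.ker_eq_bot.mpr (LinearEquiv.funCongrLeft ℂ ℂ e).injective)
  exact h2

theorem jetMat_eq (τ : ℍ) : jetMat 𝔉 e τ = thetaMat 𝔉 e τ * fundMat 𝔉 e τ := by
  have : Finite (X Γ) := Subgroup.finite_quotient_of_finiteIndex
  let _ : Fintype (X Γ) := Fintype.ofFinite _
  ext i j
  rw [Matrix.mul_apply]
  show jetFun Γ (𝔉.wt j) (𝔉.F j) τ (e i) = _
  rw [jetFun, ← LinearMap.toMatrix'_mulVec (Theta Γ (-(τ : ℂ))), Matrix.mulVec, dotProduct,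
    ← Equiv.sum_comp e]
  refine Finset.sum_congr rfl fun i' _ => ?_
  rw [LinearMap.toMatrix'_apply]
  rfl

omit [Γ.FiniteIndex] in
theorem tendsto_jetMat : Tendsto (jetMat 𝔉 e) atImInfty (𝓝 (jetLim 𝔉 e)) := by
  refine tendsto_pi_nhds.mpr fun i => tendsto_pi_nhds.mpr fun j => ?_
  exact tendsto_pi_nhds.mp (𝔉.hasJet j) (e i)

omit [Γ.FiniteIndex] in
theorem tendsto_jetMat_inv :
    Tendsto (fun τ => (jetMat 𝔉 e τ)⁻¹) atImInfty (𝓝 (jetLim 𝔉 e)⁻¹) := by
  have hdet : (jetLim 𝔉 e).det ≠ 0 :=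
    ((Matrix.isUnit_iff_isUnit_det _).mp (isUnit_jetLim 𝔉 e)).ne_zero
  have hc : ContinuousAt Inv.inv (jetLim 𝔉 e) := by
    apply continuousAt_matrix_inv
    rw [Ring.inverse_eq_inv']
    exact continuousAt_inv₀ hdet
  exact hc.tendsto.comp (tendsto_jetMat 𝔉 e)

omit [Γ.FiniteIndex] in
theorem eventually_det_jetMat_ne_zero : ∀ᶠ τ in atImInfty, (jetMat 𝔉 e τ).det ≠ 0 := by
  have hdet : (jetLim 𝔉 e).det ≠ 0 :=
    ((Matrix.isUnit_iff_isUnit_det _).mp (isUnit_jetLim 𝔉 e)).ne_zero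
  have hc : Tendsto (fun τ => (jetMat 𝔉 e τ).det) atImInfty (𝓝 (jetLim 𝔉 e).det) :=
    ((continuous_id.matrix_det).tendsto (jetLim 𝔉 e)).comp (tendsto_jetMat 𝔉 e)
  exact hc.eventually_ne hdet

theorem invMat_eq_of_det_ne_zero (τ : ℍ) (h : (jetMat 𝔉 e τ).det ≠ 0) :
    invMat 𝔉 e τ = (jetMat 𝔉 e τ)⁻¹ * thetaMat 𝔉 e τ := by
  have hu : IsUnit (jetMat 𝔉 e τ).det := isUnit_iff_ne_zero.mpr h
  apply Matrix.inv_eq_left_inv
  rw [Matrix.mul_assoc, ← jetMat_eq, Matrix.nonsing_inv_mul _ hu]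

theorem thetaMat_isBigO (i i' : 𝔉.J) :
    (fun τ => thetaMat 𝔉 e τ i i') =O[atImInfty] rate Γ := by
  refine Asymptotics.IsBigO.of_bound
    (∑ a ∈ Finset.range (per Γ), ‖proj Γ a (Pi.single (e i') 1) (e i)‖) ?_
  refine Eventually.of_forall fun τ => ?_
  have := norm_Theta_le (Γ := Γ) (Pi.single (e i') 1) (e i) τ
  have hr : ‖rate Γ τ‖ = rate Γ τ := by
    rw [Real.norm_eq_abs, abs_of_pos]
    exact Real.exp_pos _
  rw [hr]
  exact this

theorem invMat_isBigO (j i : 𝔉.J) :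
    (fun τ => invMat 𝔉 e τ j i) =O[atImInfty] rate Γ := by
  have h1 : (fun τ => ∑ i', (jetMat 𝔉 e τ)⁻¹ j i' * thetaMat 𝔉 e τ i' i) =O[atImInfty] rate Γ := by
    have : ∀ i' ∈ (Finset.univ : Finset 𝔉.J),
        (fun τ => (jetMat 𝔉 e τ)⁻¹ j i' * thetaMat 𝔉 e τ i' i) =O[atImInfty] rate Γ := by
      intro i' _
      have hb : (fun τ => (jetMat 𝔉 e τ)⁻¹ j i') =O[atImInfty] (fun _ => (1 : ℝ)) := by
        have ht := tendsto_pi_nhds.mp (tendsto_pi_nhds.mp (tendsto_jetMat_inv 𝔉 e) j) i'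
        exact ht.isBigO_one ℝ
      have := hb.mul (thetaMat_isBigO 𝔉 e i' i)
      simpa using this
    refine (Asymptotics.IsBigO.sum this).congr_left fun τ => ?_
    simp [Finset.sum_apply]
  refine h1.congr' ?_ EventuallyEq.rfl
  filter_upwards [eventually_det_jetMat_ne_zero 𝔉 e] with τ hτ
  rw [invMat_eq_of_det_ne_zero 𝔉 e τ hτ, Matrix.mul_apply]

theorem tendsto_discriminant_mul_invMat (j i : 𝔉.J) :
    Tendsto (fun τ => Δ τ * invMat 𝔉 e τ j i) atImInfty (𝓝 0) := by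
  have := discriminant_isBigO.mul (invMat_isBigO 𝔉 e j i)
  exact this.trans_tendsto tendsto_exp_neg

theorem dualFun_mem (j : 𝔉.J) : dualFun 𝔉 e j ∈ SF Γ (12 - 𝔉.wt j) := by
  refine ⟨mdiff_dualFun 𝔉 e j, fun γ hγ => dualFun_invariant 𝔉 e j γ hγ, fun γ => ?_⟩
  have : dualFun 𝔉 e j ∣[12 - 𝔉.wt j] γ
      = fun τ => Δ τ * invMat 𝔉 e τ j (e.symm (QuotientGroup.mk γ⁻¹)) := by
    funext τ
    exact dualFun_slash 𝔉 e j γ τ
  rw [this]
  exact tendsto_discriminant_mul_invMat 𝔉 e j _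

end jets


/-! ## 5. The trace pairing and the expansion in the dual functions -/

theorem mdiff_sum {ι : Type} (s : Finset ι) (f : ι → ℍ → ℂ) (hf : ∀ i ∈ s, MDiff (f i)) :
    MDiff (fun τ => ∑ i ∈ s, f i τ) := by
  rw [UpperHalfPlane.mdifferentiable_iff]
  have : ((fun τ => ∑ i ∈ s, f i τ) ∘ ofComplex)
      = fun z => ∑ i ∈ s, (f i ∘ ofComplex) z := by
    funext z
    simp
  rw [this]
  exact DifferentiableOn.fun_sum fun i hi => UpperHalfPlane.mdifferentiable_iff.mp (hf i hi)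

theorem tendsto_sum_zero {ι : Type} (s : Finset ι) (f : ι → ℍ → ℂ)
    (hf : ∀ i ∈ s, Tendsto (f i) atImInfty (𝓝 0)) :
    Tendsto (fun τ => ∑ i ∈ s, f i τ) atImInfty (𝓝 0) := by
  have := tendsto_finsetSum s hf
  simpa using this

section trace

variable (𝔉 : FundSystem Γ) (e : 𝔉.J ≃ X Γ)

/-- the trace pairing of `F_j` with `g` -/
def tracePair (k : ℤ) (g : ℍ → ℂ) (j : 𝔉.J) : ℍ → ℂ :=
  fun τ => ∑ i, fundMat 𝔉 e τ i j * ev Γ k τ g (e i)

theorem tracePair_smul {k : ℤ} {g : ℍ → ℂ} (hg : ∀ γ ∈ Γ, g ∣[k] γ = g) (j : 𝔉.J)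
    (γ : SL(2, ℤ)) (τ : ℍ) :
    tracePair 𝔉 e k g j (γ • τ) = denom γ τ ^ (𝔉.wt j + k) * tracePair 𝔉 e k g j τ := by
  have hd : denom γ τ ≠ 0 := denom_ne_zero _ _
  rw [tracePair, tracePair, Finset.mul_sum,
    ← Equiv.sum_comp (permJ 𝔉 e γ) (fun i => denom γ τ ^ (𝔉.wt j + k) *
      (fundMat 𝔉 e τ i j * ev Γ k τ g (e i)))]
  refine Finset.sum_congr rfl fun i _ => ?_
  rw [fundMat_smul, ev_smul hg, e_permJ, zpow_add₀ hd]
  ring

theorem tracePair_mem {k : ℤ} {g : ℍ → ℂ} (hg : g ∈ SF Γ k) (j : 𝔉.J) :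
    tracePair 𝔉 e k g j ∈ SF (⊤ : Subgroup SL(2, ℤ)) (𝔉.wt j + k) := by
  have hinv : ∀ γ : SL(2, ℤ), tracePair 𝔉 e k g j ∣[𝔉.wt j + k] γ = tracePair 𝔉 e k g j := by
    intro γ
    funext τ
    have hd : denom γ τ ≠ 0 := denom_ne_zero _ _
    rw [slash_SL_apply, tracePair_smul 𝔉 e hg.2.1, mul_comm, ← mul_assoc, ← zpow_add₀ hd]
    simp
  refine ⟨?_, fun γ _ => hinv γ, fun γ => ?_⟩
  · exact mdiff_sum _ _ fun i _ => mdiff_mul (mdiff_fundMat 𝔉 e i j) (mdiff_ev hg.1 (e i))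
  · rw [hinv γ]
    refine tendsto_sum_zero _ _ fun i _ => ?_
    have hb : IsBoundedAtImInfty (fun τ => fundMat 𝔉 e τ i j) := (𝔉.mem j).2.2 _
    have hz : IsZeroAtImInfty (fun τ => ev Γ k τ g (e i)) := hg.2.2 _
    exact hb.mul_zeroAtFilter hz

theorem expansion {k : ℤ} {g : ℍ → ℂ} (hg : g ∈ SF Γ k) (c : 𝔉.J → ℍ → ℂ)
    (hc : ∀ j, tracePair 𝔉 e k g j = Δ * c j) :
    g = ∑ j, c j * dualFun 𝔉 e j := by
  funext τ
  rw [Finset.sum_apply]
  have h1 : ∀ j, (c j * dualFun 𝔉 e j) τ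
      = ∑ i, ev Γ k τ g (e i) * (fundMat 𝔉 e τ i j *
          invMat 𝔉 e τ j (e.symm (QuotientGroup.mk 1))) := by
    intro j
    have := congrFun (hc j) τ
    rw [Pi.mul_apply] at this
    rw [Pi.mul_apply, dualFun, ← mul_assoc, mul_comm (c j τ), ← this, tracePair, Finset.sum_mul]
    refine Finset.sum_congr rfl fun i _ => ?_
    ring
  simp_rw [h1]
  rw [Finset.sum_comm]
  simp_rw [← Finset.mul_sum, ← Matrix.mul_apply, fundMat_mul_invMat, Matrix.one_apply]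
  rw [Finset.sum_eq_single (e.symm (QuotientGroup.mk 1))]
  · simp only [if_true, mul_one, Equiv.apply_symm_apply]
    rw [ev_mk hg.2.1]
    simp
  · intro i _ hi
    simp [hi]
  · intro h
    exact absurd (Finset.mem_univ _) h

end trace


/-! ## 6. Main results -/

section main

variable [Γ.FiniteIndex] (𝔉 : FundSystem Γ)

omit [Γ.FiniteIndex] in
theorem ev_zero (k : ℤ) (τ : ℍ) : ev Γ k τ 0 = 0 := map_zero _

omit [Γ.FiniteIndex] in
theorem dualFun_ne_zero (e : 𝔉.J ≃ X Γ) (j : 𝔉.J) : dualFun 𝔉 e j ≠ 0 := by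
  intro h
  have hrow : ∀ i, invMat 𝔉 e UpperHalfPlane.I j i = 0 := by
    intro i
    have := ev_dualFun 𝔉 e j UpperHalfPlane.I i
    rw [h, ev_zero] at this
    exact (mul_eq_zero.mp this.symm).resolve_left (discriminant_ne_zero _)
  have := congrFun (congrFun (invMat_mul_fundMat 𝔉 e UpperHalfPlane.I) j) j
  rw [Matrix.mul_apply] at this
  simp [hrow] at this

/-- P4.1, with the inputs from C0 as explicit hypotheses. -/
theorem wt_le_ten_of (hSF : ∀ k : ℤ, k ≤ 0 → SF Γ k = ⊥) (heven : ∀ j, Even (𝔉.wt j))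
    (j : 𝔉.J) : 𝔉.wt j ≤ 10 := by
  obtain ⟨e⟩ := exists_equiv 𝔉
  by_contra hlt
  have h12 : 12 - 𝔉.wt j ≤ 0 := by
    obtain ⟨m, hm⟩ := heven j
    omega
  have hmem := dualFun_mem 𝔉 e j
  rw [hSF _ h12] at hmem
  exact dualFun_ne_zero 𝔉 e j ((Submodule.mem_bot ℂ).mp hmem)

omit [Γ.FiniteIndex] in
theorem ev_dualFun_two (e : 𝔉.J ≃ X Γ) (j : 𝔉.J) (hj : 𝔉.wt j = 10) (τ : ℍ) (i : 𝔉.J) :
    ev Γ 2 τ (dualFun 𝔉 e j) (e i) = Δ τ * invMat 𝔉 e τ j i := by
  have h2 : (12 : ℤ) - 𝔉.wt j = 2 := by omega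
  rw [← ev_dualFun 𝔉 e j τ i, h2]

omit [Γ.FiniteIndex] in
theorem linearIndependent_dualFun (e : 𝔉.J ≃ X Γ) :
    LinearIndependent ℂ (fun j : {j : 𝔉.J // 𝔉.wt j = 10} => dualFun 𝔉 e j.1) := by
  rw [Fintype.linearIndependent_iff]
  intro a ha j0
  have h1 : ∀ i, ∑ j : {j : 𝔉.J // 𝔉.wt j = 10}, a j * invMat 𝔉 e UpperHalfPlane.I j.1 i = 0 := by
    intro i
    have h := congrArg (fun f => ev Γ 2 UpperHalfPlane.I f (e i)) ha
    simp only [map_sum, map_smul, Finset.sum_apply, Pi.smul_apply, smul_eq_mul, ev_zero,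
      Pi.zero_apply] at h
    have h' : ∑ j : {j : 𝔉.J // 𝔉.wt j = 10},
        a j * (Δ UpperHalfPlane.I * invMat 𝔉 e UpperHalfPlane.I j.1 i) = 0 := by
      rw [← h]
      refine Finset.sum_congr rfl fun j _ => ?_
      rw [ev_dualFun_two 𝔉 e j.1 j.2]
    have h'' : Δ UpperHalfPlane.I *
        ∑ j : {j : 𝔉.J // 𝔉.wt j = 10}, a j * invMat 𝔉 e UpperHalfPlane.I j.1 i = 0 := by
      rw [← h', Finset.mul_sum]
      refine Finset.sum_congr rfl fun j _ => ?_
      ring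
    exact (mul_eq_zero.mp h'').resolve_left (discriminant_ne_zero _)
  have h2 : ∑ i, (∑ j : {j : 𝔉.J // 𝔉.wt j = 10}, a j * invMat 𝔉 e UpperHalfPlane.I j.1 i) *
      fundMat 𝔉 e UpperHalfPlane.I i j0.1 = 0 := by
    simp [h1]
  simp_rw [Finset.sum_mul] at h2
  rw [Finset.sum_comm] at h2
  have h3 : ∀ j : {j : 𝔉.J // 𝔉.wt j = 10},
      ∑ i, a j * invMat 𝔉 e UpperHalfPlane.I j.1 i * fundMat 𝔉 e UpperHalfPlane.I i j0.1
        = a j * (if j = j0 then 1 else 0) := by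
    intro j
    simp_rw [mul_assoc]
    rw [← Finset.mul_sum, ← Matrix.mul_apply, invMat_mul_fundMat, Matrix.one_apply]
    congr 1
    by_cases hjj : j = j0
    · simp [hjj]
    · have : j.1 ≠ j0.1 := fun h => hjj (Subtype.ext h)
      simp [hjj, this]
  simp_rw [h3] at h2
  simpa using h2

omit [Γ.FiniteIndex] in
theorem one_mem_MF_zero : (fun _ => (1 : ℂ)) ∈ MF Γ 0 := by
  refine ⟨mdifferentiable_const, fun γ _ => is_invariant_const γ 1, fun γ => ?_⟩
  have : (fun _ : ℍ => (1 : ℂ)) ∣[(0 : ℤ)] γ = Function.const ℍ 1 := is_invariant_const γ 1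
  rw [this]
  exact Filter.const_boundedAtFilter _ _

omit [Γ.FiniteIndex] in
theorem F_ne_zero (j : 𝔉.J) : 𝔉.F j ≠ 0 := by
  intro h
  have := (𝔉.indep UpperHalfPlane.I).ne_zero j
  rw [h, ev_zero] at this
  exact this rfl

omit [Γ.FiniteIndex] in
theorem wt_nonneg_of (hMFneg : ∀ k : ℤ, k < 0 → MF Γ k = ⊥) (j : 𝔉.J) : 0 ≤ 𝔉.wt j := by
  by_contra h
  have hmem := 𝔉.mem j
  rw [hMFneg _ (not_le.mp h)] at hmem
  exact F_ne_zero 𝔉 j ((Submodule.mem_bot ℂ).mp hmem)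


/-- P4.2, with the inputs from C0/L0 as explicit hypotheses. -/
theorem finrank_SF_two_of
    (hΔ : ∀ (k : ℤ) (f : ℍ → ℂ), f ∈ SF (⊤ : Subgroup SL(2, ℤ)) k →
      ∃ g ∈ MF (⊤ : Subgroup SL(2, ℤ)) (k - 12), f = Δ * g)
    (hneg : ∀ k : ℤ, k < 0 → MF (⊤ : Subgroup SL(2, ℤ)) k = ⊥)
    (hconst : ∀ f ∈ MF (⊤ : Subgroup SL(2, ℤ)) 0, ∃ c : ℂ, f = fun _ => c)
    (hle : ∀ j, 𝔉.wt j ≤ 10) :
    finrank ℂ (SF Γ 2) = Nat.card {j : 𝔉.J // 𝔉.wt j = 10} := by
  obtain ⟨e⟩ := exists_equiv 𝔉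
  have hspan : SF Γ 2 = Submodule.span ℂ
      (Set.range fun j : {j : 𝔉.J // 𝔉.wt j = 10} => dualFun 𝔉 e j.1) := by
    apply le_antisymm
    · intro g hg
      have hc : ∀ j : 𝔉.J, ∃ c ∈ MF (⊤ : Subgroup SL(2, ℤ)) (𝔉.wt j + 2 - 12),
          tracePair 𝔉 e 2 g j = Δ * c := fun j => hΔ _ _ (tracePair_mem 𝔉 e hg j)
      choose c hcmem hceq using hc
      rw [expansion 𝔉 e hg c hceq]
      refine Submodule.sum_mem _ fun j _ => ?_
      by_cases hj : 𝔉.wt j = 10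
      · have h0 : 𝔉.wt j + 2 - 12 = 0 := by omega
        have hcm := hcmem j
        rw [h0] at hcm
        obtain ⟨a, ha⟩ := hconst _ hcm
        have : c j * dualFun 𝔉 e j = a • dualFun 𝔉 e j := by
          rw [ha]
          funext τ
          simp
        rw [this]
        exact Submodule.smul_mem _ _ (Submodule.subset_span ⟨⟨j, hj⟩, rfl⟩)
      · have hlt : 𝔉.wt j + 2 - 12 < 0 := by
          have := hle j
          omega
        have hcm := hcmem j
        rw [hneg _ hlt] at hcm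
        rw [(Submodule.mem_bot ℂ).mp hcm, zero_mul]
        exact Submodule.zero_mem _
    · rw [Submodule.span_le]
      rintro _ ⟨j, rfl⟩
      have := dualFun_mem 𝔉 e j.1
      have h2 : (12 : ℤ) - 𝔉.wt j.1 = 2 := by
        have := j.2
        omega
      rw [h2] at this
      exact this
  rw [hspan, Nat.card_eq_fintype_card]
  exact finrank_span_eq_card (linearIndependent_dualFun 𝔉 e)

omit [Γ.FiniteIndex] in
/-- P4.3, with the inputs from C0 as explicit hypotheses. -/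
theorem exists_unique_wt_zero_of
    (hMFneg : ∀ k : ℤ, k < 0 → MF Γ k = ⊥)
    (hΓconst : ∀ f ∈ MF Γ 0, ∃ c : ℂ, f = fun _ => c)
    (hneg : ∀ k : ℤ, k < 0 → MF (⊤ : Subgroup SL(2, ℤ)) k = ⊥) :
    ∃! j : 𝔉.J, 𝔉.wt j = 0 := by
  have hnn := wt_nonneg_of 𝔉 hMFneg
  -- existence
  have hex : ∃ j : 𝔉.J, 𝔉.wt j = 0 := by
    by_contra hno
    push Not at hno
    obtain ⟨c, hcmem, hc⟩ := 𝔉.gen 0 (fun _ => (1 : ℂ)) one_mem_MF_zero
    have hc0 : ∀ j, c j = 0 := by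
      intro j
      have hlt : (0 : ℤ) - 𝔉.wt j < 0 := by
        have h1 := hnn j
        have h2 := hno j
        omega
      have := hcmem j
      rw [hneg _ hlt] at this
      exact (Submodule.mem_bot ℂ).mp this
    have h1 := congrFun hc UpperHalfPlane.I
    simp [hc0] at h1
  obtain ⟨j, hj⟩ := hex
  refine ⟨j, hj, fun j' hj' => ?_⟩
  by_contra hne
  -- both `F j` and `F j'` are constants
  obtain ⟨a, ha⟩ := hΓconst (𝔉.F j) (by have := 𝔉.mem j; rwa [hj] at this)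
  obtain ⟨a', ha'⟩ := hΓconst (𝔉.F j') (by have := 𝔉.mem j'; rwa [hj'] at this)
  have hev : ∀ (l : 𝔉.J) (b : ℂ), 𝔉.wt l = 0 → 𝔉.F l = (fun _ => b) →
      ev Γ (𝔉.wt l) UpperHalfPlane.I (𝔉.F l) = fun _ => b := by
    intro l b hl hb
    funext x
    rw [ev_apply, hl, hb]
    have := is_invariant_const ((x.out)⁻¹ : SL(2, ℤ)) b
    exact congrFun this _
  have hind := 𝔉.indep UpperHalfPlane.I
  rw [Fintype.linearIndependent_iff] at hind
  have hsum : ∑ l, (if l = j then a' else if l = j' then -a else 0) •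
      ev Γ (𝔉.wt l) UpperHalfPlane.I (𝔉.F l) = 0 := by
    rw [Finset.sum_eq_add_of_mem j j' (Finset.mem_univ _) (Finset.mem_univ _) (Ne.symm hne)]
    · rw [if_pos rfl, if_neg hne, if_pos rfl, hev j a hj ha, hev j' a' hj' ha']
      funext x
      simp
      ring
    · intro l _ hl
      rw [if_neg hl.1, if_neg hl.2, zero_smul]
  have h1 := hind _ hsum j'
  rw [if_neg hne, if_pos rfl] at h1
  have ha0 : a = 0 := by simpa using h1
  apply F_ne_zero 𝔉 j
  rw [ha, ha0]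
  rfl

end main


end internal

/-! ## 7. Statements in the shape of the skeleton -/

section final

variable [Γ.FiniteIndex] (𝔉 : FundSystem Γ)

/-- Skeleton P4.1 (`FundSystem.wt_le_ten`), with C0.4 / P2.0 as hypotheses. -/
theorem wt_le_ten (hSF : ∀ k : ℤ, k ≤ 0 → SF Γ k = ⊥) (heven : ∀ j, Even (𝔉.wt j))
    (j : 𝔉.J) : 𝔉.wt j ≤ 10 :=
  wt_le_ten_of 𝔉 hSF heven j

/-- Skeleton P4.2 (`FundSystem.finrank_SF_two`), with C0.4 / L0.3 / P2.0 as hypotheses. -/
theorem finrank_SF_two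
    (hΔ : ∀ (k : ℤ) (f : ℍ → ℂ), f ∈ SF (⊤ : Subgroup SL(2, ℤ)) k →
      ∃ g ∈ MF (⊤ : Subgroup SL(2, ℤ)) (k - 12), f = Δ * g)
    (hneg : ∀ k : ℤ, k < 0 → MF (⊤ : Subgroup SL(2, ℤ)) k = ⊥)
    (hconst : ∀ f ∈ MF (⊤ : Subgroup SL(2, ℤ)) 0, ∃ c : ℂ, f = fun _ => c)
    (hSF : ∀ k : ℤ, k ≤ 0 → SF Γ k = ⊥) (heven : ∀ j, Even (𝔉.wt j)) :
    finrank ℂ (SF Γ 2) = (Finset.univ.filter fun j => 𝔉.wt j = 10).card := by
  rw [finrank_SF_two_of 𝔉 hΔ hneg hconst (wt_le_ten_of 𝔉 hSF heven), Nat.card_eq_fintype_card,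
    Fintype.card_subtype]

omit [Γ.FiniteIndex] in
/-- Skeleton P4.3 (`FundSystem.card_wt_zero`), with C0.4 as hypotheses. -/
theorem card_wt_zero
    (hMFneg : ∀ k : ℤ, k < 0 → MF Γ k = ⊥)
    (hΓconst : ∀ f ∈ MF Γ 0, ∃ c : ℂ, f = fun _ => c)
    (hneg : ∀ k : ℤ, k < 0 → MF (⊤ : Subgroup SL(2, ℤ)) k = ⊥) :
    (Finset.univ.filter fun j => 𝔉.wt j = 0).card = 1 := by
  obtain ⟨j, hj, huniq⟩ := exists_unique_wt_zero_of 𝔉 hMFneg hΓconst hneg
  rw [Finset.card_eq_one]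
  refine ⟨j, ?_⟩
  ext l
  simp only [Finset.mem_filter, Finset.mem_univ, true_and, Finset.mem_singleton]
  exact ⟨fun h => huniq l h, fun h => h ▸ hj⟩

end final

end Fermat.Agent.S20.P4h479

end
end
-- ===== PACK-END S20/P4_helper479.lean

-- ===== PACK-BEGIN S20/Bridge.lean
section



/-!
# Package G: bridge to Mathlib's bundled forms, and small facts
-/

set_option autoImplicit false

open UpperHalfPlane ModularForm CongruenceSubgroup Matrix.SpecialLinearGroup EisensteinSeries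
open scoped MatrixGroups ModularForm Manifold

namespace Fermat.Agent.S20

/-! ### generic constructions -/

/-- Build a bundled modular form on an arithmetic subgroup from function-level data. -/
theorem exists_modularForm_of_data (𝒢 : Subgroup (GL (Fin 2) ℝ)) [𝒢.IsArithmetic] (k : ℤ)
    (f : ℍ → ℂ) (hol : MDiff f) (hinv : ∀ γ ∈ 𝒢, f ∣[k] γ = f)
    (hbd : ∀ g : SL(2, ℤ), IsBoundedAtImInfty (f ∣[k] g)) :
    ∃ F : ModularForm 𝒢 k, ⇑F = f := by
  refine ⟨⟨⟨f, hinv⟩, hol, fun {c} hc => ?_⟩, rfl⟩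
  have hc' : IsCusp c 𝒮ℒ := (Subgroup.IsArithmetic.isCusp_iff_isCusp_SL2Z 𝒢).mp hc
  exact (OnePoint.isBoundedAt_iff_forall_SL2Z hc').mpr fun γ _ => hbd γ

/-- Build a bundled cusp form on an arithmetic subgroup from function-level data. -/
theorem exists_cuspForm_of_data (𝒢 : Subgroup (GL (Fin 2) ℝ)) [𝒢.IsArithmetic] (k : ℤ)
    (f : ℍ → ℂ) (hol : MDiff f) (hinv : ∀ γ ∈ 𝒢, f ∣[k] γ = f)
    (hbd : ∀ g : SL(2, ℤ), IsZeroAtImInfty (f ∣[k] g)) :
    ∃ F : CuspForm 𝒢 k, ⇑F = f := by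
  refine ⟨⟨⟨f, hinv⟩, hol, fun {c} hc => ?_⟩, rfl⟩
  have hc' : IsCusp c 𝒮ℒ := (Subgroup.IsArithmetic.isCusp_iff_isCusp_SL2Z 𝒢).mp hc
  exact (OnePoint.isZeroAt_iff_forall_SL2Z hc').mpr fun γ _ => hbd γ

/-- Invariance under the image subgroup in `GL(2,ℝ)` from invariance under `Γ ≤ SL(2,ℤ)`. -/
theorem slash_eq_of_mem_map {Γ : Subgroup SL(2, ℤ)} {k : ℤ} {f : ℍ → ℂ}
    (h : ∀ γ ∈ Γ, f ∣[k] γ = f) :
    ∀ γ ∈ (Γ : Subgroup (GL (Fin 2) ℝ)), f ∣[k] γ = f := by
  rintro γ ⟨γ', hγ', rfl⟩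
  have := h γ' hγ'
  rwa [ModularForm.SL_slash] at this

/-- Invariance under `Γ ≤ SL(2,ℤ)` from invariance under its image in `GL(2,ℝ)`. -/
theorem slash_eq_of_mem_of_map {Γ : Subgroup SL(2, ℤ)} {k : ℤ} {f : ℍ → ℂ}
    (h : ∀ γ ∈ (Γ : Subgroup (GL (Fin 2) ℝ)), f ∣[k] γ = f) :
    ∀ γ ∈ Γ, f ∣[k] γ = f := by
  intro γ hγ
  rw [ModularForm.SL_slash]
  exact h _ (Subgroup.mem_map_of_mem _ hγ)

/-- A bundled modular form on (the image of) a finite-index `Γ` satisfies `IsMF`. -/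
theorem isMF_coe {Γ : Subgroup SL(2, ℤ)} [Γ.FiniteIndex] {k : ℤ}
    (g : ModularForm (Γ : Subgroup (GL (Fin 2) ℝ)) k) : IsMF Γ k ⇑g :=
  ⟨ModularFormClass.holo g,
    slash_eq_of_mem_of_map fun γ hγ => SlashInvariantFormClass.slash_action_eq g γ hγ,
    fun γ => ModularFormClass.bdd_at_infty_slash g γ⟩

/-- A bundled cusp form on (the image of) a finite-index `Γ` satisfies `IsCF`. -/
theorem isCF_coe {Γ : Subgroup SL(2, ℤ)} [Γ.FiniteIndex] {k : ℤ}
    (g : CuspForm (Γ : Subgroup (GL (Fin 2) ℝ)) k) : IsCF Γ k ⇑g :=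
  ⟨CuspFormClass.holo g,
    slash_eq_of_mem_of_map fun γ hγ => SlashInvariantFormClass.slash_action_eq g γ hγ,
    fun γ => CuspFormClass.zero_at_infty_slash g γ⟩

theorem isMF_iff_of_finiteIndex (Γ : Subgroup SL(2, ℤ)) [Γ.FiniteIndex] (k : ℤ) (f : ℍ → ℂ) :
    IsMF Γ k f ↔ ∃ g : ModularForm (Γ : Subgroup (GL (Fin 2) ℝ)) k, ⇑g = f := by
  constructor
  · rintro ⟨h1, h2, h3⟩
    exact exists_modularForm_of_data _ k f h1 (slash_eq_of_mem_map h2) h3
  · rintro ⟨g, rfl⟩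
    exact isMF_coe g

theorem isCF_iff_of_finiteIndex (Γ : Subgroup SL(2, ℤ)) [Γ.FiniteIndex] (k : ℤ) (f : ℍ → ℂ) :
    IsCF Γ k f ↔ ∃ g : CuspForm (Γ : Subgroup (GL (Fin 2) ℝ)) k, ⇑g = f := by
  constructor
  · rintro ⟨h1, h2, h3⟩
    exact exists_cuspForm_of_data _ k f h1 (slash_eq_of_mem_map h2) h3
  · rintro ⟨g, rfl⟩
    exact isCF_coe g

theorem IsCF.isMF {Γ : Subgroup SL(2, ℤ)} {k : ℤ} {f : ℍ → ℂ} (hf : IsCF Γ k f) :
    IsMF Γ k f :=
  ⟨hf.1, hf.2.1, fun g => (hf.2.2 g).isBoundedAtImInfty⟩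

/-! ### the package statements -/

/-- Mathlib's cusp forms on `Γ₀(N)` are exactly the functions satisfying `IsCF`. -/
theorem isCF_iff (N : ℕ) [NeZero N] (k : ℤ) (f : ℍ → ℂ) :
    IsCF (Gamma0 N) k f ↔ ∃ g : CuspForm (Gamma0 N) k, ⇑g = f :=
  isCF_iff_of_finiteIndex (Gamma0 N) k f

theorem isMF_iff (N : ℕ) [NeZero N] (k : ℤ) (f : ℍ → ℂ) :
    IsMF (Gamma0 N) k f ↔ ∃ g : ModularForm (Gamma0 N) k, ⇑g = f :=
  isMF_iff_of_finiteIndex (Gamma0 N) k f

theorem isMF_top_iff (k : ℤ) (f : ℍ → ℂ) :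
    IsMF ⊤ k f ↔ ∃ g : ModularForm 𝒮ℒ k, ⇑g = f := by
  constructor
  · rintro ⟨h1, h2, h3⟩
    refine exists_modularForm_of_data _ k f h1 ?_ h3
    rintro γ ⟨γ', rfl⟩
    have := h2 γ' (Subgroup.mem_top _)
    rwa [ModularForm.SL_slash] at this
  · rintro ⟨g, rfl⟩
    refine ⟨ModularFormClass.holo g, fun γ _ => ?_,
      fun γ => ModularFormClass.bdd_at_infty_slash g γ⟩
    rw [ModularForm.SL_slash]
    exact SlashInvariantFormClass.slash_action_eq g _ ⟨γ, rfl⟩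

theorem isCF_top_iff (k : ℤ) (f : ℍ → ℂ) :
    IsCF ⊤ k f ↔ ∃ g : CuspForm 𝒮ℒ k, ⇑g = f := by
  constructor
  · rintro ⟨h1, h2, h3⟩
    refine exists_cuspForm_of_data _ k f h1 ?_ h3
    rintro γ ⟨γ', rfl⟩
    have := h2 γ' (Subgroup.mem_top _)
    rwa [ModularForm.SL_slash] at this
  · rintro ⟨g, rfl⟩
    refine ⟨CuspFormClass.holo g, fun γ _ => ?_,
      fun γ => CuspFormClass.zero_at_infty_slash g γ⟩
    rw [ModularForm.SL_slash]
    exact SlashInvariantFormClass.slash_action_eq g _ ⟨γ, rfl⟩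

/-- The `ℂ`-linear map from bundled cusp forms to the submodule `CFsub`. -/
noncomputable def cuspFormToCFsub (N : ℕ) [NeZero N] (k : ℤ) :
    CuspForm (Gamma0 N) k →ₗ[ℂ] CFsub (Gamma0 N) k where
  toFun g := ⟨⇑g, isCF_coe g⟩
  map_add' _ _ := rfl
  map_smul' _ _ := rfl

theorem cuspFormToCFsub_bijective (N : ℕ) [NeZero N] (k : ℤ) :
    Function.Bijective (cuspFormToCFsub N k) := by
  refine ⟨fun g₁ g₂ h => DFunLike.coe_injective (congrArg Subtype.val h), ?_⟩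
  rintro ⟨f, hf⟩
  obtain ⟨g, rfl⟩ := (isCF_iff N k f).mp hf
  exact ⟨g, rfl⟩

/-- The `ℂ`-linear equivalence between bundled cusp forms and the submodule `CFsub`. -/
noncomputable def cuspFormEquivCFsub (N : ℕ) [NeZero N] (k : ℤ) :
    CuspForm (Gamma0 N) k ≃ₗ[ℂ] CFsub (Gamma0 N) k :=
  LinearEquiv.ofBijective (cuspFormToCFsub N k) (cuspFormToCFsub_bijective N k)

@[simp] theorem cuspFormEquivCFsub_apply_coe (N : ℕ) [NeZero N] (k : ℤ)
    (g : CuspForm (Gamma0 N) k) : ((cuspFormEquivCFsub N k g : CFsub (Gamma0 N) k) : ℍ → ℂ) = ⇑g :=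
  rfl

theorem finrank_cuspForm_eq (N : ℕ) [NeZero N] (k : ℤ) :
    Module.finrank ℂ (CuspForm (Gamma0 N) k) = Module.finrank ℂ (CFsub (Gamma0 N) k) :=
  (cuspFormEquivCFsub N k).finrank_eq

/-- weight-0 modular forms on `Γ₀(N)` are constant -/
theorem isMF_zero_iff (N : ℕ) [NeZero N] (f : ℍ → ℂ) :
    IsMF (Gamma0 N) 0 f ↔ ∃ c : ℂ, f = fun _ => c := by
  constructor
  · intro hf
    obtain ⟨g, rfl⟩ := (isMF_iff N 0 f).mp hf
    obtain ⟨c, hc⟩ := ModularForm.eq_const_of_weight_zero g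
    exact ⟨c, hc⟩
  · rintro ⟨c, rfl⟩
    have := isMF_coe (Γ := Gamma0 N)
      (ModularForm.const (Γ := (Gamma0 N : Subgroup (GL (Fin 2) ℝ))) c)
    rwa [ModularForm.coe_const] at this

/-- no modular forms of negative weight -/
theorem isMF_neg (N : ℕ) [NeZero N] {k : ℤ} (hk : k < 0) {f : ℍ → ℂ}
    (hf : IsMF (Gamma0 N) k f) : f = 0 := by
  obtain ⟨g, rfl⟩ := (isMF_iff N k f).mp hf
  rw [ModularForm.isZero_of_neg_weight hk g]
  rfl

/-- no cusp forms of weight `≤ 0` -/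
theorem isCF_nonpos (N : ℕ) [NeZero N] {k : ℤ} (hk : k ≤ 0) {f : ℍ → ℂ}
    (hf : IsCF (Gamma0 N) k f) : f = 0 := by
  rcases hk.lt_or_eq with hk | rfl
  · exact isMF_neg N hk hf.isMF
  · obtain ⟨c, rfl⟩ := (isMF_zero_iff N f).mp hf.isMF
    have h0 : IsZeroAtImInfty ((fun _ : ℍ => c) ∣[(0 : ℤ)] (1 : SL(2, ℤ))) := hf.2.2 1
    rw [SlashAction.slash_one] at h0
    have hc : c = 0 := by
      have h1 : Filter.Tendsto (fun _ : ℍ => c) atImInfty (nhds 0) := h0
      exact tendsto_nhds_unique tendsto_const_nhds h1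
    subst hc
    rfl

end Fermat.Agent.S20

end
-- ===== PACK-END S20/Bridge.lean

-- ===== PACK-BEGIN Ribet/H704/I6Spec.lean
section
/-
# RIBET row 38, WALL-p, crux (I6) = (S4) of `H944.Wall.AtPFiltrationFor`:
# frozen LEAF STATEMENTS of the PERIOD package  (sub-architect helper704, v1 20:20Z)

Math: `origin/helper704:coord/RIBET-I6-helper704.md` (same proof, found independently:
`RIBET-I6-helper44.md`, `RIBET-WFLAT-helper375.md`, helper43, `RIBET-atp-helper884.md` §5,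
`RIBET-WFLAT-helper640.md`, audit `RIBET-NODE-helper703.md`).

## The proof in one paragraph
`K₁ = K(ζ_p)` (tame), `F = K₁(X₀(pM'))`, chart `B`, components `p₁, p₂`, Gauss valuations `v₁, v₂`.
`x ∈ V ∖ L`, `t ∈ L` (toric line), `σ x = x + t`, `K' = K₁(x) = K₁(u)`, `u^p ∈ K₁`, `σ u = ζ⁻¹ u`.
`f` = Kummer generator of `x` over `K'`, `f_t` of `t` over `K₁`.  By the assembly `f_t` is SPLIT
(a `p`-th power in both completions).  Cover `F' = F(h)`, `h^p = f_t`, deck transformation `τ`.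
* PER  : `f = const · f' · b^p` with `f' ∈ F'` (over `K₁`!) and `τ f' = f' · u^p · G^p`.
* SHIFT: for every valuation `W` of `F'` over `v_i`:  `W(τ f') = W(f') + v(u^p) + p W(G)`;
         peu ramifié (`p ∣ v(u^p)`) ⇒ `W(f') mod p` depends only on `i`, not on the sheet.
* COV  : the normalisation `B'` of `B` in `F'` is, locally at every point over a node of `B`,
         again a node (two branches, one over `p₁`, one over `p₂`, same uniformisers).
* NODE : two-function node relation in a node ring, THICKNESS-FREE: calibrate with the modular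
         unit `D` (`D · D' = w^N`, `D ∉ p₁`, `D' ∉ p₂`, `N = 12(p-1)` prime to `p`):
         `N · ord₂(a) ≡ v₁(a) · ord₁(D)  mod p` for `a ∉ p₂` horizontally `p`-divisible.
* Result (I6-core): the slope vector of `x` is a multiple of the slope vector of `D`; with
  `T_ℓ D = const · D^{ℓ+1}`, (I1) and NE (SLOPE package, helper884) the slopes of `x` vanish.

## Leaves (this file: Props only, Mathlib only; owners prove `theorem foo : FooStatement`)
| leaf | Prop | owners | status |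
|---|---|---|---|
| PER   | `PeriodStatement`    | helper704 (`Period.lean`), 2nd copy helper44 | DONE (`period_proved` below) |
| SHIFT | `sheet_shift`        | helper704 | DONE (below) |
| NODE  | `NodeRelStatement`   | helper403, helper463, helper703 | in progress (any equivalent shape + adapter) |
| ETNODE| `EtaleNodeStatement` | WANTED (2): étale local extension of a node ring is a node ring | open |
| WPUR  | `WildPurityStatement`| with I5 (helper103, helper43): split class ⇒ Artin–Schreier at a node | open |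
| CORE  | `I6CoreStatement`    | helper704 (assembly, after NODE + ETNODE + WPUR) | open |
Files: `Fermat/Agent/Ribet/H<seat>/...`, land only complete proofs of a leaf VERBATIM.
-/


set_option autoImplicit false

namespace Fermat.Agent.Ribet.H704.I6

open Ideal

/-! ## Vocabulary: node rings and orders on the branches (elementwise, Mathlib only) -/

/-- `a` has order `s` on the branch `𝔭` with branch uniformiser `ϖ`:
`a ≡ unit · ϖ ^ s` in the discrete valuation ring `R ⧸ 𝔭`. -/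
def OrdOn {R : Type*} [CommRing R] (𝔭 : Ideal R) (ϖ a : R) (s : ℕ) : Prop :=
  Associated (Ideal.Quotient.mk 𝔭 a) ((Ideal.Quotient.mk 𝔭 ϖ) ^ s)

/-- `a` is horizontally `m`-divisible (H1 of `A2/H609`): at every prime `𝔓 ∌ π` through `a` the
order of `a` is a multiple of `m`. -/
def HorDiv {R : Type*} [CommRing R] (π : R) (m : ℕ) (a : R) : Prop :=
  ∀ 𝔓 : Ideal R, 𝔓.IsPrime → a ∈ 𝔓 → π ∉ 𝔓 → ∃ f r : R, r ∉ 𝔓 ∧ f ^ m = a * r

/-- `a` has no horizontal zero: every prime through `a` contains `π`. -/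
def NoHorZero {R : Type*} [CommRing R] (π : R) (a : R) : Prop :=
  ∀ 𝔓 : Ideal R, 𝔓.IsPrime → a ∈ 𝔓 → π ∈ 𝔓

/-- The node data of `A2/H609/Node.lean`: two branches `𝔭₁, 𝔭₂` of the special fibre `π = 0`
meeting transversally at the closed point, with branch uniformisers `x` (on `𝔭₁`, vanishing on
`𝔭₂`) and `y` (on `𝔭₂`, vanishing on `𝔭₁`).  No hypothesis on the thickness. -/
structure IsNode {R : Type*} [CommRing R] [IsLocalRing R] (𝔭₁ 𝔭₂ : Ideal R) (π x y : R) :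
    Prop where
  prime₁ : 𝔭₁.IsPrime
  prime₂ : 𝔭₂.IsPrime
  inf_eq : 𝔭₁ ⊓ 𝔭₂ = Ideal.span {π}
  sup_eq : 𝔭₁ ⊔ 𝔭₂ = IsLocalRing.maximalIdeal R
  hx : x ∈ 𝔭₂
  hy : y ∈ 𝔭₁
  /-- `R ⧸ 𝔭₁` is a DVR with uniformiser `x`. -/
  unif₁ : ∀ a : R, a ∉ 𝔭₁ → ∃ s : ℕ, OrdOn 𝔭₁ x a s
  /-- `R ⧸ 𝔭₂` is a DVR with uniformiser `y`. -/
  unif₂ : ∀ a : R, a ∉ 𝔭₂ → ∃ s : ℕ, OrdOn 𝔭₂ y a s
  hx₁ : x ∉ 𝔭₁
  hy₂ : y ∉ 𝔭₂
  /-- the branches are not points: `x`, `y` are not units modulo the branch. -/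
  nonunit₁ : ¬ IsUnit (Ideal.Quotient.mk 𝔭₁ x)
  nonunit₂ : ¬ IsUnit (Ideal.Quotient.mk 𝔭₂ y)

/-- A calibrating unit pair at the node (the modular unit `Δ(z)/Δ(pz)` and its inverse, scaled):
`D · D' = π ^ N`, `div D = N · 𝔭₂`, `div D' = N · 𝔭₁`. -/
structure IsUnitPair {R : Type*} [CommRing R] (𝔭₁ 𝔭₂ : Ideal R) (π D D' : R) (N : ℕ) : Prop where
  mul_eq : D * D' = π ^ N
  hD : D ∉ 𝔭₁
  hD' : D' ∉ 𝔭₂

/-! ## Leaf NODE: the two-function node relation (thickness-free) -/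

/-- **NODE.**  In a normal noetherian local node ring with a unit pair `(D, D')` of exponent `N`
prime to `m`: if `a ∉ 𝔭₂` is horizontally `m`-divisible and has order `n₁` along `𝔭₁`
(`a · d = π ^ n₁ · c`, `c, d ∉ 𝔭₁`), then
`N · ord₂(a) ≡ n₁ · ord₁(D)  (mod m)`.
(Both sides compute the length of `R ⧸ (a, D)` modulo `m`.) -/
def NodeRelStatement : Prop :=
  ∀ (R : Type) [CommRing R] [IsDomain R] [IsIntegrallyClosed R] [IsNoetherianRing R]
    [IsLocalRing R] (𝔭₁ 𝔭₂ : Ideal R) (π x y : R), IsNode 𝔭₁ 𝔭₂ π x y →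
    ∀ (m N : ℕ), m ≠ 0 → Nat.Coprime N m → ∀ D D' : R, IsUnitPair 𝔭₁ 𝔭₂ π D D' N →
    ∀ (a c d : R) (n₁ : ℕ), a ∉ 𝔭₂ → c ∉ 𝔭₁ → d ∉ 𝔭₁ → a * d = π ^ n₁ * c → HorDiv π m a →
    ∀ s k : ℕ, OrdOn 𝔭₂ y a s → OrdOn 𝔭₁ x D k →
      (m : ℤ) ∣ (N : ℤ) * s - (n₁ : ℤ) * k

/-- **NODE, exact form** (gives "thickness divides `N`"; optional): if `a` has no horizontal
zero, `N · ord₂(a) = n₁ · ord₁(D)`. -/
def NodeRelExactStatement : Prop :=
  ∀ (R : Type) [CommRing R] [IsDomain R] [IsIntegrallyClosed R] [IsNoetherianRing R]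
    [IsLocalRing R] (𝔭₁ 𝔭₂ : Ideal R) (π x y : R), IsNode 𝔭₁ 𝔭₂ π x y →
    ∀ (N : ℕ) (D D' : R), 0 < N → IsUnitPair 𝔭₁ 𝔭₂ π D D' N →
    ∀ (a c d : R) (n₁ : ℕ), a ∉ 𝔭₂ → c ∉ 𝔭₁ → d ∉ 𝔭₁ → a * d = π ^ n₁ * c → NoHorZero π a →
    ∀ s k : ℕ, OrdOn 𝔭₂ y a s → OrdOn 𝔭₁ x D k → N * s = n₁ * k

/-! ## Leaf PER (done) and SHIFT (done) -/

/-- **PER** = `period_of_generator704`, as a Prop. -/
def PeriodStatement : Prop :=
  ∀ (F : Type) [Field F] (p : ℕ), p.Prime → ∀ (σ τ : F ≃+* F),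
    (∀ z, σ (τ z) = τ (σ z)) → σ ^ p = 1 → σ ≠ 1 →
    ∀ ζ : F, IsPrimitiveRoot ζ p →
    ∀ lc : F →*₀ F, (∀ z, lc (lc z) = lc z) → (∀ z, lc (σ z) = σ (lc z)) →
      (∀ z, τ (lc z) = lc z) → lc ζ = ζ →
    ∀ f H c₀ : F, f ≠ 0 → lc c₀ = c₀ → τ f = f → τ H = ζ * H → σ f = f * c₀ * H ^ p →
    ∀ u : F, u ≠ 0 → σ u = ζ⁻¹ * u →
    ∃ f' b G₂ : F, f' ≠ 0 ∧ b ≠ 0 ∧ G₂ ≠ 0 ∧ σ f' = f' ∧ f = lc f * f' * b ^ p ∧
      σ G₂ = G₂ ∧ τ f' = f' * u ^ p * G₂ ^ p

theorem period_proved : PeriodStatement := by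
  intro F _ p hp σ τ hcomm hσp hσ1 ζ hζ lc h1 h2 h3 h4 f H c₀ hf hc₀ hτf hτH hσf u hu0 hσu
  exact period_of_generator704 hp σ τ hcomm hσp hσ1 ζ hζ lc h1 h2 h3 h4 f H c₀ hf hc₀ hτf hτH
    hσf u hu0 hσu

/-- **SHIFT.**  `W` an additive valuation on the nonzero elements of the `σ`-fixed field (given as
a function with `W (a b) = W a + W b`), `τ f' = f' · c · G ^ p` with `p ∣ W c` (peu ramifié):
then `W (τ f') ≡ W f'  (mod p)`. -/
theorem sheet_shift {F : Type*} [Field F] (p : ℕ) (W : F → ℤ)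
    (hW : ∀ a b : F, a ≠ 0 → b ≠ 0 → W (a * b) = W a + W b)
    (τ : F ≃+* F) (f' c G : F) (hf' : f' ≠ 0) (hc : c ≠ 0) (hG : G ≠ 0)
    (hτ : τ f' = f' * c * G ^ p) (hpeu : (p : ℤ) ∣ W c) :
    (p : ℤ) ∣ W (τ f') - W f' := by
  have hpow : ∀ n : ℕ, W (G ^ n) = n * W G + (if n = 0 then W 1 else 0) := by
    intro n
    induction n with
    | zero => simp
    | succ n ih =>
      rcases Nat.eq_zero_or_pos n with h0 | h0
      · subst h0; simp
      · rw [pow_succ, hW _ _ (pow_ne_zero _ hG) hG, ih]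
        have : n ≠ 0 := h0.ne'
        simp only [this, if_false, Nat.succ_ne_zero]
        push_cast; ring
  have h1 : W (1 : F) = 0 := by
    have := hW 1 1 one_ne_zero one_ne_zero
    rw [one_mul] at this
    linarith
  rw [hτ, hW _ _ (mul_ne_zero hf' hc) (pow_ne_zero _ hG), hW _ _ hf' hc, hpow, h1]
  obtain ⟨k, hk⟩ := hpeu
  refine ⟨k + W G, ?_⟩
  rw [hk]
  split_ifs <;> ring

/-! ## Leaf ETNODE + WPUR: the cover at a node -/

/-- **ETNODE.**  A local-étale extension of Artin–Schreier type of a node ring is a node ring.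
`R ⊆ R'` local domains, `R' = R[Y]_{𝔫'}` with `Y` a root of a monic `P ∈ R[T]` whose derivative
`P'(Y)` is a unit of `R'`, trivial residue field extension.  Then `R'` is normal noetherian and
`(𝔭₁R', 𝔭₂R', π, x, y)` is a node of `R'` (same uniformisers). -/
def EtaleNodeStatement : Prop :=
  ∀ (R R' : Type) [CommRing R] [IsDomain R] [IsIntegrallyClosed R] [IsNoetherianRing R]
    [IsLocalRing R] [CommRing R'] [IsDomain R'] [IsLocalRing R'] [Algebra R R']
    [IsLocalHom (algebraMap R R')] (𝔭₁ 𝔭₂ : Ideal R) (π x y : R), IsNode 𝔭₁ 𝔭₂ π x y →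
    Function.Injective (algebraMap R R') →
    -- `R'` is a localisation of `R[Y]`, `Y` étale over `R`
    ∀ (Y : R') (P : Polynomial R), P.Monic → Polynomial.aeval Y P = 0 →
      IsUnit (Polynomial.aeval Y (Polynomial.derivative P)) →
      (∀ z : R', ∃ (a : R') (s : R'), a ∈ Algebra.adjoin R ({Y} : Set R') ∧
        s ∈ Algebra.adjoin R ({Y} : Set R') ∧ IsUnit s ∧ z * s = a) →
      -- trivial residue extension
      (∀ z : R', ∃ r : R, z - algebraMap R R' r ∈ IsLocalRing.maximalIdeal R') →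
      IsIntegrallyClosed R' ∧ IsNoetherianRing R' ∧
        IsNode (𝔭₁.map (algebraMap R R')) (𝔭₂.map (algebraMap R R')) (algebraMap R R' π)
          (algebraMap R R' x) (algebraMap R R' y)

/-- **WPUR (wild purity at a node).**  `R` a node ring over a DVR with uniformiser `π`,
`λ = unit · π ^ e ∈ R` with `λ ^ (p - 1) = p · unit` (`λ = ζ - 1`), `g ∈ R ∖ (𝔭₁ ∪ 𝔭₂)` horizontally
`p`-divisible which is a `p`-th power in the `π`-adic completions of both branches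
(`g ≡ h ^ p` modulo `π ^ k` in `R_{𝔭ᵢ}` for all `k`).  Then `g = d ^ p · s ^ p · (1 + λ ^ p z)`
with `s` a unit of `R`, `z ∈ R`, and `d ∈ Frac R` (here: `g · d₂ ^ p = d₁ ^ p · s ^ p · (1 + λ^p z)`).
Consequently `Y := (g^{1/p} d₂/(d₁ s) - 1)/λ` is a root of the Artin–Schreier type polynomial
`((1 + λ T)^p - 1)/λ^p - z`, étale over `R`.
Proof sketch: purity at the node (`A2/H609 exists_unit_mul_pow_of_node`) gives `g = ε₀ f ^ p`;
`ε₀` is a `p`-th power on both branches, the two roots agree at the node (`p`-th roots are unique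
in characteristic `p`), so they glue to a unit `s` of `R` (`R/π = R/𝔭₁ ×_k R/𝔭₂`);
then successive approximation below the Hensel bound `p e` and Hartogs (`A2/H849`). -/
def WildPurityStatement : Prop :=
  ∀ (R : Type) [CommRing R] [IsDomain R] [IsIntegrallyClosed R] [IsNoetherianRing R]
    [IsLocalRing R] (𝔭₁ 𝔭₂ : Ideal R) (π x y : R), IsNode 𝔭₁ 𝔭₂ π x y →
    ∀ (p : ℕ), p.Prime → ∀ (lam ε η : R) (e : ℕ), IsUnit ε → lam ^ (p - 1) = (p : R) * ε →
      IsUnit η → 0 < e → lam = η * π ^ e →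
    ∀ g : R, g ∉ 𝔭₁ → g ∉ 𝔭₂ → HorDiv π p g →
      (∀ k : ℕ, ∃ h r t : R, r ∉ 𝔭₁ ∧ g * r ^ p - h ^ p = π ^ k * t) →
      (∀ k : ℕ, ∃ h r t : R, r ∉ 𝔭₂ ∧ g * r ^ p - h ^ p = π ^ k * t) →
      ∃ d₁ d₂ s z : R, d₁ ≠ 0 ∧ d₂ ≠ 0 ∧ IsUnit s ∧
        g * d₂ ^ p = d₁ ^ p * s ^ p * (1 + lam ^ p * z)

/-! ## CORE: the conclusion of the package, on the cover, over the tame field

Setting of CORE (all inside one field `F'` = function field of the cover over `K₁`):
* `ι` : the set of nodes of the chart of `X₀(pM')`;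
* for each `e : ι` a subring `Rₑ ⊆ F'` (the local ring of the normalised chart of the cover at
  ONE chosen point over `e`), a node ring with branches `𝔭₁ e`, `𝔭₂ e`, the SAME `π`;
* `τ` the deck transformation; the branch valuation rings `(Rₑ)_{𝔭ᵢ e}` for varying `e` are
  all conjugate under powers of `τ` (SHEETS: Galois is transitive on the primes over `pᵢ`);
* `D, D'` the unit pair (in every `Rₑ`, fixed by `τ`), `f'` horizontally `p`-divisible with
  `τ f' = f' · c · G ^ p`, `c` a constant with `p ∣ v(c)`.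
Conclusion: `∃ δ, ∀ e, N · slopeₑ(f') ≡ δ · slopeₑ(D) (mod p)`.
The Lean form of CORE is frozen in v2 of this file, after the NODE owners have fixed the fraction
form of `NodeRelStatement` (`f'` is a fraction, not an element of `Rₑ`). -/

end Fermat.Agent.Ribet.H704.I6

end
-- ===== PACK-END Ribet/H704/I6Spec.lean

-- ===== PACK-BEGIN A2/ModDefs.lean
section


/-!
# WALL A2 — concrete objects at a good level and the MOD interface (row-lead helper13)

Definitions only (no `sorry`); LANDED, never to change again.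

* `FE E N`            : `F_{N,E} = E(j(t^d) : d ∣ N) ⊆ E((t))`;
* `algREFE`, `towerREFE` : its structure over `R_E = P ∩ E`;
* `GoodField.res`     : restriction of `τ ∈ I_P` to a good level;
* `ModSSData P E N`   : the semistable two-chart model with coordinate `x`
  (intended: `x = j(t) · j(t^q)`, so that `α^*`, `β^*` map the level-`M` charts of `j^{±1}` into
  the level-`N` charts of `x^{±1}`; any coordinate is allowed by the structure);
* `ModSSStatement`    : the MOD interface statement.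
-/

set_option autoImplicit false
set_option synthInstance.maxHeartbeats 400000
set_option maxHeartbeats 1600000

noncomputable section

namespace Fermat.Agent.A2

open ModularCurve AlgebraicCurve

section Mod

variable (P : ValuationSubring Qb) (E : IntermediateField ℚ Qb) (N q : ℕ)

/-- `F_{N,E} = E(j(t^d) : d ∣ N) ⊆ E((t))`. -/
abbrev FE : IntermediateField E (LaurentSeries E) :=
  laurentBaseChange E (modularFunctionFieldFull N)

/-- The algebra structure of `F_{N,E}` over `R_E = P ∩ E`. -/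
instance algREFE : Algebra (RE P E) (FE E N) :=
  ((algebraMap E (FE E N)).comp (RE P E).subtype).toAlgebra

instance towerREFE : IsScalarTower (RE P E) E (FE E N) :=
  IsScalarTower.of_algebraMap_eq fun _ => rfl

/-- The restriction of `τ ∈ I_P` to a good level. -/
def GoodField.res {P : ValuationSubring Qb} {E : IntermediateField ℚ Qb} (hE : GoodField P E)
    (τ : Qb ≃ₐ[ℚ] Qb) (hτ : τ ∈ P.inertiaSubgroupIn ℚ) : E ≃ₐ[ℚ] E :=
  AlgEquiv.ofBijective
    { toFun := fun e => ⟨τ (e : Qb), hE.stable τ hτ e e.2⟩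
      map_one' := Subtype.ext (map_one τ)
      map_mul' := fun a b => Subtype.ext (map_mul τ (a : Qb) (b : Qb))
      map_zero' := Subtype.ext (map_zero τ)
      map_add' := fun a b => Subtype.ext (map_add τ (a : Qb) (b : Qb))
      commutes' := fun r => Subtype.ext (τ.commutes r) }
    ⟨fun a b hab => Subtype.ext (τ.injective (congrArg Subtype.val hab)),
      fun b => ⟨⟨τ⁻¹ (b : Qb), hE.stable τ⁻¹ (inv_mem hτ) b b.2⟩,
        Subtype.ext (τ.apply_symm_apply (b : Qb))⟩⟩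

/-- The semistable model of `X₀(N)`, `q ‖ N`, over `R_E` for a good level `E`, with coordinate
`x`. -/
structure ModSSData where
  /-- the coordinate -/
  x : FE E N
  hx : Transcendental E x
  hfin : FiniteDimensional (IntermediateField.adjoin E ({x} : Set (FE E N))) (FE E N)
  hconst : ∀ f : FE E N, IsAlgebraic E f → f ∈ (algebraMap E (FE E N)).range
  /-- the finite chart -/
  Bf : Subalgebra (RE P E) (FE E N)
  /-- the chart at infinity -/
  Bi : Subalgebra (RE P E) (FE E N)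
  hBf : ∀ f : FE E N, f ∈ Bf ↔ IsIntegral (Algebra.adjoin (RE P E) ({x} : Set (FE E N))) f
  hBi : ∀ f : FE E N, f ∈ Bi ↔ IsIntegral (Algebra.adjoin (RE P E) ({x⁻¹} : Set (FE E N))) f
  cf : ∀ w : RE P E, Irreducible w → Nonempty (SSChart w Bf)
  ci : ∀ w : RE P E, Irreducible w → Nonempty (SSChart w Bi)
  sf : SepCoord (RE P E) E x Bf
  si : SepCoord (RE P E) E x⁻¹ Bi
  /-- inertia fixes the coordinate and acts trivially modulo `w` on both charts -/
  hτx : ∀ (hE : GoodField P E) (τ : Qb ≃ₐ[ℚ] Qb) (hτ : τ ∈ P.inertiaSubgroupIn ℚ),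
    arithmeticRingAut (modularFunctionFieldFull N) (hE.res τ hτ) x = x
  hτf : ∀ (hE : GoodField P E) (τ : Qb ≃ₐ[ℚ] Qb) (hτ : τ ∈ P.inertiaSubgroupIn ℚ)
    (w : RE P E), Irreducible w → ∀ b ∈ Bf, ∃ c ∈ Bf,
      arithmeticRingAut (modularFunctionFieldFull N) (hE.res τ hτ) b - b =
        algebraMap (RE P E) (FE E N) w * c
  hτi : ∀ (hE : GoodField P E) (τ : Qb ≃ₐ[ℚ] Qb) (hτ : τ ∈ P.inertiaSubgroupIn ℚ)
    (w : RE P E), Irreducible w → ∀ b ∈ Bi, ∃ c ∈ Bi,
      arithmeticRingAut (modularFunctionFieldFull N) (hE.res τ hτ) b - b =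
        algebraMap (RE P E) (FE E N) w * c

end Mod

/-- **MOD (interface statement).**  For `q ‖ N` the modular function field has a semistable
two-component model over every good level. -/
def ModSSStatement : Prop :=
  ∀ (P : ValuationSubring Qb) (E : IntermediateField ℚ Qb) (N q : ℕ),
    q.Prime → q ∣ N → ¬ q ^ 2 ∣ N → N ≠ 0 → P.LiesOverPrime q → GoodField P E →
      Nonempty (ModSSData P E N)

/-- **T1 (interface statement)**: `ALG + IF + MOD ⟹ KummerTarget`. -/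
def T1Statement : Prop :=
  AlgSSStatement → IFStatement → ModSSStatement →
    ∀ (N q m : ℕ), q.Prime → q ∣ N → ¬ q ^ 2 ∣ N → N ≠ 0 → 0 < m → ¬ q ∣ m →
      KummerTarget N q m

end Fermat.Agent.A2

end
end
-- ===== PACK-END A2/ModDefs.lean

-- ===== PACK-BEGIN A2/H93/CoverSplitTrans.lean
section




/-!
# Cell A2, route G, obligation C2 (COVER-SPLIT), part 2 — helper93 — Mathlib-only

In the setting of `CoverSplit` (file `CoverSplit.lean`), with `L / F` finite Galois: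

* `CoverSplit.comap`            : `σ⁻¹ W` is again an extension of `V` (for `σ ∈ Gal(L/F)`);
* `CoverSplit.eq_of_centre_le`  : an extension `W` is determined by its centre on `V[y_i]`;
* `CoverSplit.exists_comap_eq`  : **transitivity**: any two extensions `W`, `W'` of `V` to `L`
  are conjugate, `W' = σ⁻¹ W` (prime avoidance on `V[y_i]` + norm argument);
* `CoverSplit.comap_injective`  : `σ ↦ σ⁻¹ W` is injective (simple transitivity);
* `CoverSplit.finite_setOf`     : `V` has only finitely many extensions to `L`.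

Together with `CoverSplit.lean` this is obligation C2 of `origin/helper12:coord/A2-wallG.md`
and the input of C7 (FIXED-SHEET).
-/

set_option autoImplicit false
set_option linter.style.haveILetI false

namespace Fermat.Agent.A2.H93

namespace CoverSplit

variable {F L : Type*} [Field F] [Field L] [Algebra F L]
variable {V : ValuationSubring F} {W W' : ValuationSubring L} {w : F} {m : ℕ} {ζ : F}
  {ι : Type*} {y : ι → L} {g c : ι → F}

local notation "φ" => algebraMap F L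

/-- Transport of an extension along an `F`-automorphism. -/
theorem comap (D : CoverSplit V W w m ζ y g c) (σ : L ≃ₐ[F] L) :
    CoverSplit V (W.comap (σ : L →+* L)) w m ζ y g c :=
  { D with
    ext := fun f => by
      rw [ValuationSubring.mem_comap]
      have : (σ : L →+* L) (φ f) = φ f := σ.commutes f
      rw [this]
      exact D.ext f }

theorem val_w_mul_lt (D : CoverSplit V W w m ζ y g c) {t : L} (ht : t ∈ W) :
    W.valuation (φ w * t) < 1 := by
  rw [map_mul]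
  calc W.valuation (φ w) * W.valuation t ≤ W.valuation (φ w) * 1 := by
        gcongr
        exact (W.valuation_le_one_iff _).2 ht
    _ = W.valuation (φ w) := mul_one _
    _ < 1 := D.val_w_lt

theorem val_lt_of_mul_inv_mem (D : CoverSplit V W w m ζ y g c) {a : F} (ha : a * w⁻¹ ∈ V) :
    W.valuation (φ a) < 1 := by
  have h : φ a = φ w * φ (a * w⁻¹) := by
    rw [← map_mul]
    congr 1
    have := D.w_ne_zero
    field_simp
  rw [h]
  exact D.val_w_mul_lt ((D.ext _).2 ha)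

/-- One inclusion of centres on `V[y_i]` implies the other. -/
theorem centre_le_of_centre_le (D : CoverSplit V W w m ζ y g c)
    (D' : CoverSplit V W' w m ζ y g c)
    (h : ∀ s ∈ ringB V y, W'.valuation s < 1 → W.valuation s < 1) :
    ∀ s ∈ ringB V y, W.valuation s < 1 → W'.valuation s < 1 := by
  intro s hs hlt
  obtain ⟨a, ha, t, ht, hst⟩ := D'.good_of_mem_ringB hs
  have hwt' : W'.valuation (φ w * t) < 1 := D'.val_w_mul_lt (D'.ringB'_le ht)
  have hsa : s - φ a ∈ ringB V y := Subring.sub_mem _ hs (algebraMap_mem_ringB ha)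
  have h1 : W.valuation (s - φ a) < 1 := by
    refine h _ hsa ?_
    have : s - φ a = φ w * t := by rw [hst]; ring
    rw [this]; exact hwt'
  have h2 : W.valuation (φ a) < 1 := by
    have : φ a = s + -(s - φ a) := by ring
    rw [this]
    refine lt_of_le_of_lt (Valuation.map_add _ _ _) (max_lt hlt ?_)
    rw [Valuation.map_neg]; exact h1
  have h3 : a * w⁻¹ ∈ V := D.mul_inv_mem_of_val_lt h2
  have h4 : W'.valuation (φ a) < 1 := D'.val_lt_of_mul_inv_mem h3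
  rw [hst]
  exact lt_of_le_of_lt (Valuation.map_add _ _ _) (max_lt h4 hwt')

theorem le_of_centre_le (D : CoverSplit V W w m ζ y g c) (D' : CoverSplit V W' w m ζ y g c)
    (h : ∀ s ∈ ringB V y, W'.valuation s < 1 → W.valuation s < 1) (x : L) (hx : x ∈ W) :
    x ∈ W' := by
  have hle : ringB' V W y ≤ W'.toSubring := by
    rw [ringB', Subring.closure_le]
    rintro z (hz | ⟨s, hs, hv, rfl⟩)
    · exact D'.ringB_le hz
    · -- `s` is a unit of `W`, hence of `W'`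
      have hsW' : s ∈ W' := D'.ringB_le hs
      have hle1 : W'.valuation s ≤ 1 := (W'.valuation_le_one_iff _).2 hsW'
      rcases lt_or_eq_of_le hle1 with hlt | heq
      · have := h s hs hlt
        rw [hv] at this
        exact absurd this (lt_irrefl _)
      · exact inv_mem_of_val_eq_one W' heq
  exact hle (D.mem_ringB' hx)

/-- An extension is determined by its centre on `V[y_i]`. -/
theorem eq_of_centre_le (D : CoverSplit V W w m ζ y g c) (D' : CoverSplit V W' w m ζ y g c)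
    (h : ∀ s ∈ ringB V y, W'.valuation s < 1 → W.valuation s < 1) : W = W' := by
  apply ValuationSubring.ext
  intro x
  exact ⟨D.le_of_centre_le D' h x,
    D'.le_of_centre_le D (D.centre_le_of_centre_le D' h) x⟩

section Centre

variable (V y) in
/-- The centre of a valuation subring `A ⊇ V[y_i]` on `V[y_i]`. -/
def centre (A : ValuationSubring L) (h : ringB V y ≤ A.toSubring) : Ideal (ringB V y) :=
  (IsLocalRing.maximalIdeal A).comap (Subring.inclusion h)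

theorem mem_centre (A : ValuationSubring L) (h : ringB V y ≤ A.toSubring) (s : ringB V y) :
    s ∈ centre V y A h ↔ A.valuation (s : L) < 1 := by
  rw [centre, Ideal.mem_comap, ValuationSubring.valuation_lt_one_iff]
  rfl

instance centre_isPrime (A : ValuationSubring L) (h : ringB V y ≤ A.toSubring) :
    (centre V y A h).IsPrime :=
  Ideal.comap_isPrime _ _

end Centre

/-- Simple transitivity: `σ ↦ σ⁻¹ W` is injective. -/
theorem comap_injective (D : CoverSplit V W w m ζ y g c) {σ τ : L ≃ₐ[F] L}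
    (h : W.comap (σ : L →+* L) = W.comap (τ : L →+* L)) : σ = τ := by
  have h1 : τ * σ⁻¹ = 1 := by
    refine D.eq_one_of_map_eq (τ * σ⁻¹) (fun x => ?_)
    have h2 : σ⁻¹ x ∈ W.comap (σ : L →+* L) ↔ σ⁻¹ x ∈ W.comap (τ : L →+* L) := by rw [h]
    rw [ValuationSubring.mem_comap, ValuationSubring.mem_comap] at h2
    have h3 : (σ : L →+* L) (σ⁻¹ x) = x := σ.apply_symm_apply x
    rw [h3] at h2
    exact h2
  have := mul_inv_eq_one.1 h1
  exact this.symm

section Galois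

variable [FiniteDimensional F L] [IsGalois F L]

/-- **COVER-SPLIT (4), transitivity.**  Any two extensions of `V` to `L` are conjugate under
`Gal(L/F)`. -/
theorem exists_comap_eq (D : CoverSplit V W w m ζ y g c) (D' : CoverSplit V W' w m ζ y g c) :
    ∃ σ : L ≃ₐ[F] L, W.comap (σ : L →+* L) = W' := by
  classical
  by_contra hcon
  push Not at hcon
  -- the centres
  have hB' : ringB V y ≤ W'.toSubring := D'.ringB_le
  have hBσ : ∀ σ : L ≃ₐ[F] L, ringB V y ≤ (W.comap (σ : L →+* L)).toSubring :=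
    fun σ => (D.comap σ).ringB_le
  -- prime avoidance
  have hnot : ¬ ∃ σ ∈ (Finset.univ : Finset (L ≃ₐ[F] L)),
      centre V y W' hB' ≤ centre V y (W.comap (σ : L →+* L)) (hBσ σ) := by
    rintro ⟨σ, -, hle⟩
    apply hcon σ
    refine (D.comap σ).eq_of_centre_le D' ?_
    intro s hs hlt
    have h1 : (⟨s, hs⟩ : ringB V y) ∈ centre V y W' hB' := (mem_centre _ _ _).2 hlt
    exact (mem_centre _ _ _).1 (hle h1)
  rw [← Ideal.subset_union_prime (1 : L ≃ₐ[F] L) 1 (fun σ _ _ _ => centre_isPrime _ _)] at hnot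
  obtain ⟨x, hxP', hxσ⟩ := Set.not_subset.1 hnot
  have hxlt : W'.valuation (x : L) < 1 := (mem_centre _ _ _).1 hxP'
  have hxunit : ∀ σ : L ≃ₐ[F] L, W.valuation (σ (x : L)) = 1 := by
    intro σ
    have h1 : x ∉ centre V y (W.comap (σ : L →+* L)) (hBσ σ) := by
      intro h
      apply hxσ
      simp only [Set.mem_iUnion]
      exact ⟨σ, Finset.mem_coe.2 (Finset.mem_univ σ), h⟩
    have hxW : σ (x : L) ∈ W := hBσ σ x.2
    have hle : W.valuation (σ (x : L)) ≤ 1 := (W.valuation_le_one_iff _).2 hxW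
    rcases lt_or_eq_of_le hle with hlt | heq
    · exfalso
      apply h1
      rw [mem_centre]
      -- valuations of `W.comap σ` and `W` compare through membership
      have hx0 : (x : L) ≠ 0 := by
        intro h0
        rw [h0, map_zero, map_zero] at hlt
        -- fine: `x = 0` lies in every ideal
        exact h1 (by
          have : x = 0 := Subtype.ext h0
          rw [this]; exact Ideal.zero_mem _)
      apply val_lt_one_of_inv_notMem
      rw [ValuationSubring.mem_comap]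
      have hσx0 : σ (x : L) ≠ 0 := by
        intro h0
        exact hx0 (σ.injective (by rw [h0, map_zero]))
      have := inv_notMem_of_val_lt_one W hσx0 hlt
      show (σ : L →+* L) ((x : L)⁻¹) ∉ W
      rw [map_inv₀]
      exact this
    · exact heq
  -- the norm
  obtain ⟨n, hn⟩ : ∃ n : F, φ n = ∏ σ : L ≃ₐ[F] L, σ (x : L) := by
    have hfix : ∀ τ : L ≃ₐ[F] L, τ (∏ σ : L ≃ₐ[F] L, σ (x : L)) = ∏ σ : L ≃ₐ[F] L, σ (x : L) := by
      intro τ
      rw [map_prod]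
      exact Fintype.prod_equiv (Equiv.mulLeft τ) _ _ (fun σ => rfl)
    have hbot := (IsGalois.mem_bot_iff_fixed (F := F) (E := L) _).2 hfix
    rw [IntermediateField.mem_bot] at hbot
    exact hbot
  -- `n` is a unit at `W`
  have hnW : W.valuation (φ n) = 1 := by
    rw [hn, map_prod]
    exact Finset.prod_eq_one (fun σ _ => hxunit σ)
  -- `n` is a non-unit at `W'`
  have hnW' : W'.valuation (φ n) < 1 := by
    rw [hn, ← Finset.mul_prod_erase Finset.univ (fun σ : L ≃ₐ[F] L => σ (x : L))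
      (Finset.mem_univ (1 : L ≃ₐ[F] L)), map_mul]
    have h1 : W'.valuation ((1 : L ≃ₐ[F] L) (x : L)) < 1 := hxlt
    have h2 : W'.valuation (∏ σ ∈ Finset.univ.erase (1 : L ≃ₐ[F] L), σ (x : L)) ≤ 1 := by
      rw [W'.valuation_le_one_iff]
      refine Subring.prod_mem W'.toSubring (fun σ _ => ?_)
      exact (D'.comap σ).ringB_le x.2
    calc W'.valuation ((1 : L ≃ₐ[F] L) (x : L)) *
          W'.valuation (∏ σ ∈ Finset.univ.erase (1 : L ≃ₐ[F] L), σ (x : L))
        ≤ W'.valuation ((1 : L ≃ₐ[F] L) (x : L)) * 1 := by gcongr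
      _ = W'.valuation ((1 : L ≃ₐ[F] L) (x : L)) := mul_one _
      _ < 1 := h1
  have h3 : n * w⁻¹ ∈ V := D'.mul_inv_mem_of_val_lt hnW'
  have h4 := D.val_lt_of_mul_inv_mem h3
  rw [hnW] at h4
  exact lt_irrefl _ h4

/-- **COVER-SPLIT (5)**: `V` has only finitely many extensions to `L`. -/
theorem finite_setOf (V : ValuationSubring F) (w : F) (m : ℕ) (ζ : F) (y : ι → L)
    (g c : ι → F) : {W : ValuationSubring L | CoverSplit V W w m ζ y g c}.Finite := by
  by_cases hne : ∃ W : ValuationSubring L, CoverSplit V W w m ζ y g c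
  · obtain ⟨W, D⟩ := hne
    refine (Set.finite_range (fun σ : L ≃ₐ[F] L => W.comap (σ : L →+* L))).subset ?_
    intro W' D'
    obtain ⟨σ, hσ⟩ := D.exists_comap_eq D'
    exact ⟨σ, hσ⟩
  · have : {W : ValuationSubring L | CoverSplit V W w m ζ y g c} = ∅ :=
      Set.eq_empty_of_forall_notMem (fun W D => hne ⟨W, D⟩)
    rw [this]
    exact Set.finite_empty

end Galois

end CoverSplit

end Fermat.Agent.A2.H93

end
-- ===== PACK-END A2/H93/CoverSplitTrans.lean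

-- ===== PACK-BEGIN A2/Mod/H372/Side.lean
section




/-!
# A2 / MODASM S3, generic part (helper372): one side of the Kronecker correspondence

Mathlib + `H48.IsUnif` only.  `V₁ ⊆ F₁`, `V₂ ⊆ F₂` valuation subrings with uniformisers
`ϖ₁`, `ϖ₂`; `φ : F₁ →+* F₂` maps `V₁` into `V₂`, `ϖ₁` to `ϖ₂` and reflects integrality
(`φ x ∈ V₂ → x ∈ V₁`); `A ⊆ V₁` a subring which is "normal modulo `ϖ₁`" in the elementwise form
of `Mod.GoodRedAt.normal`; the residue characteristic of `V₂` is `q`.  (`SideData`.)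

* `SideData.cong` : if `ψ : F₁ →+* F₂` satisfies the semilinear Kronecker congruence
  `ψ a ≡ (φ a') ^ q mod ϖ₂ V₂` on `V₁` (leaf L12) and `A` is integral over `R[y]` with
  `ψ = φ` on `R` and `ψ y ≡ (φ y) ^ q`, then the congruence is solvable inside `A`;
* `SideData.surj` : if `V₂ = φ(V₁) + ϖ₂ V₂` (leaf L11), then every element `b` integral over
  `R[y₂]`, `y₂ ≡ φ a`, is congruent to `φ a`, `a ∈ A`, modulo `ϖ₂ V₂`.
-/

set_option autoImplicit false
set_option linter.style.haveILetI false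

noncomputable section

namespace Fermat.Agent.A2.Mod.H372

open Polynomial

/-! ## Valuation subrings with a uniformiser (elementwise) -/

section Unif

variable {F : Type*} [Field F] {V : ValuationSubring F} {ϖ : F}

theorem mem_of_mul_inv_mem (hu : H48.IsUnif V ϖ) {x : F} (hx : x * ϖ⁻¹ ∈ V) : x ∈ V := by
  have : x = x * ϖ⁻¹ * ϖ := by
    rw [mul_assoc, inv_mul_cancel₀ hu.ne_zero, mul_one]
  rw [this]
  exact V.mul_mem _ _ hx hu.mem

/-- `x ∈ ϖ V` iff the residue class of `x` vanishes. -/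
theorem residue_eq_zero_iff (hu : H48.IsUnif V ϖ) (x : V) :
    IsLocalRing.residue V x = 0 ↔ (x : F) * ϖ⁻¹ ∈ V := by
  rw [IsLocalRing.residue_eq_zero_iff, IsLocalRing.mem_maximalIdeal, mem_nonunits_iff]
  constructor
  · intro hx
    rcases eq_or_ne (x : F) 0 with h0 | h0
    · rw [h0, zero_mul]; exact V.zero_mem
    · refine hu.gen _ x.2 (fun hinv => hx ?_)
      exact isUnit_iff_exists_inv.mpr ⟨⟨_, hinv⟩, Subtype.ext (mul_inv_cancel₀ h0)⟩
  · intro hx hunit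
    obtain ⟨y, hy⟩ := isUnit_iff_exists_inv.mp hunit
    have hy' : (x : F) * (y : F) = 1 := congrArg Subtype.val hy
    apply hu.inv_not_mem
    have : ϖ⁻¹ = (x : F) * ϖ⁻¹ * y := by
      rw [mul_right_comm, hy', one_mul]
    rw [this]
    exact V.mul_mem _ _ hx y.2

theorem residue_eq_iff (hu : H48.IsUnif V ϖ) (x y : V) :
    IsLocalRing.residue V x = IsLocalRing.residue V y ↔ ((x : F) - y) * ϖ⁻¹ ∈ V := by
  rw [← sub_eq_zero, ← map_sub, residue_eq_zero_iff hu]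
  rfl

end Unif

/-! ## One side -/

section Side

variable {F₁ F₂ : Type*} [Field F₁] [Field F₂]

/-- The residue of a ring homomorphism mapping `V₁` into `V₂`. -/
def resHom (V₁ : ValuationSubring F₁) (V₂ : ValuationSubring F₂) (φ : F₁ →+* F₂)
    (hφ : ∀ x ∈ V₁, φ x ∈ V₂) : V₁ →+* IsLocalRing.ResidueField V₂ :=
  (IsLocalRing.residue V₂).comp ((φ.comp V₁.subtype).codRestrict V₂ (fun x => hφ x x.2))

theorem resHom_apply (V₁ : ValuationSubring F₁) (V₂ : ValuationSubring F₂) (φ : F₁ →+* F₂)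
    (hφ : ∀ x ∈ V₁, φ x ∈ V₂) (x : V₁) :
    resHom V₁ V₂ φ hφ x = IsLocalRing.residue V₂ ⟨φ x, hφ x x.2⟩ := rfl

/-- The hypotheses on one side of the correspondence. -/
structure SideData (V₁ : ValuationSubring F₁) (V₂ : ValuationSubring F₂) (ϖ₁ : F₁) (ϖ₂ : F₂)
    (φ : F₁ →+* F₂) (q : ℕ) (A : Subring F₁) : Prop where
  unif₁ : H48.IsUnif V₁ ϖ₁
  unif₂ : H48.IsUnif V₂ ϖ₂
  map_mem : ∀ x ∈ V₁, φ x ∈ V₂
  map_unif : φ ϖ₁ = ϖ₂
  refl : ∀ x, φ x ∈ V₂ → x ∈ V₁
  prime : q.Prime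
  q_mem : (q : F₂) * ϖ₂⁻¹ ∈ V₂
  le : ∀ a ∈ A, a ∈ V₁
  normal : ∀ f ∈ V₁, (∃ (n : ℕ) (c : Fin n → F₁), (∀ i, c i ∈ A) ∧
      (f ^ n + ∑ i : Fin n, c i * f ^ (i : ℕ)) * ϖ₁⁻¹ ∈ V₁) → ∃ b ∈ A, (f - b) * ϖ₁⁻¹ ∈ V₁

namespace SideData

variable {V₁ : ValuationSubring F₁} {V₂ : ValuationSubring F₂} {ϖ₁ : F₁} {ϖ₂ : F₂}
  {φ : F₁ →+* F₂} {q : ℕ} {A : Subring F₁}

/-- The inclusion `A → V₁`. -/
def incl (h : SideData V₁ V₂ ϖ₁ ϖ₂ φ q A) : A →+* V₁ :=
  (A.subtype).codRestrict V₁ (fun a => h.le a a.2)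

theorem coe_incl (h : SideData V₁ V₂ ϖ₁ ϖ₂ φ q A) (a : A) : ((h.incl a : V₁) : F₁) = a := rfl

/-- The reduction of `φ`. -/
def red (h : SideData V₁ V₂ ϖ₁ ϖ₂ φ q A) : V₁ →+* IsLocalRing.ResidueField V₂ :=
  resHom V₁ V₂ φ h.map_mem

theorem red_eq_zero_iff (h : SideData V₁ V₂ ϖ₁ ϖ₂ φ q A) (x : V₁) :
    h.red x = 0 ↔ (x : F₁) * ϖ₁⁻¹ ∈ V₁ := by
  rw [red, resHom_apply, residue_eq_zero_iff h.unif₂]
  have e : φ ((x : F₁) * ϖ₁⁻¹) = φ x * ϖ₂⁻¹ := by rw [map_mul, map_inv₀, h.map_unif]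
  constructor
  · intro hx
    exact h.refl _ (by rw [e]; exact hx)
  · intro hx
    have := h.map_mem _ hx
    rwa [e] at this

theorem red_eq_iff (h : SideData V₁ V₂ ϖ₁ ϖ₂ φ q A) (x y : V₁) :
    h.red x = h.red y ↔ ((x : F₁) - y) * ϖ₁⁻¹ ∈ V₁ := by
  rw [← sub_eq_zero, ← map_sub, h.red_eq_zero_iff]
  rfl

theorem charP (h : SideData V₁ V₂ ϖ₁ ϖ₂ φ q A) : CharP (IsLocalRing.ResidueField V₂) q := by
  rw [CharP.charP_iff_prime_eq_zero h.prime]
  have h1 : ((q : ℕ) : IsLocalRing.ResidueField V₂) = IsLocalRing.residue V₂ ((q : ℕ) : V₂) :=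
    (map_natCast (IsLocalRing.residue V₂) q).symm
  rw [h1, residue_eq_zero_iff h.unif₂]
  exact h.q_mem

/-- `GoodRedAt.normal` in residue form. -/
theorem normal_red (h : SideData V₁ V₂ ϖ₁ ϖ₂ φ q A) (s : V₁)
    (hs : (h.red.comp h.incl).IsIntegralElem (h.red s)) : ∃ a : A, h.red s = h.red (h.incl a) := by
  obtain ⟨p, hp, hps⟩ := hs
  have h0 : h.red (p.eval₂ h.incl s) = 0 := by
    rw [Polynomial.hom_eval₂]
    exact hps
  rw [h.red_eq_zero_iff] at h0
  -- the explicit monic relation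
  have hsum : ((p.eval₂ h.incl s : V₁) : F₁) =
      (s : F₁) ^ p.natDegree + ∑ i : Fin p.natDegree, ((p.coeff i : A) : F₁) * (s : F₁) ^ (i : ℕ) := by
    have h1 : ((p.eval₂ h.incl s : V₁) : F₁) = p.eval₂ (A.subtype) (s : F₁) := by
      have := Polynomial.hom_eval₂ p h.incl V₁.subtype s
      exact this
    rw [h1]
    conv_lhs => rw [hp.as_sum]
    rw [Polynomial.eval₂_add, Polynomial.eval₂_pow, Polynomial.eval₂_X, Polynomial.eval₂_finsetSum,
      Finset.sum_range]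
    congr 1
    refine Finset.sum_congr rfl (fun i _ => ?_)
    rw [Polynomial.eval₂_mul, Polynomial.eval₂_C, Polynomial.eval₂_pow, Polynomial.eval₂_X]
    rfl
  rw [hsum] at h0
  obtain ⟨b, hb, hsb⟩ := h.normal s s.2 ⟨p.natDegree, fun i => ((p.coeff i : A) : F₁),
    fun i => (p.coeff i).2, h0⟩
  refine ⟨⟨b, hb⟩, ?_⟩
  rw [h.red_eq_iff]
  exact hsb

/-- **Kronecker congruence inside the chart.** -/
theorem cong (h : SideData V₁ V₂ ϖ₁ ϖ₂ φ q A) (ψ : F₁ →+* F₂) (hψ : ∀ x ∈ V₁, ψ x ∈ V₂)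
    (hK : ∀ a ∈ V₁, ∃ a' ∈ V₁, (ψ a - (φ a') ^ q) * ϖ₂⁻¹ ∈ V₂)
    {R : Type*} [CommRing R] (c : R →+* F₁) (y : F₁)
    (hA : ∀ a ∈ A, (Polynomial.eval₂RingHom c y).IsIntegralElem a)
    (hcA : ∀ r, c r ∈ A) (hyA : y ∈ A)
    (hc : ∀ r, ψ (c r) = φ (c r)) (hy : (ψ y - (φ y) ^ q) * ϖ₂⁻¹ ∈ V₂) :
    ∀ a ∈ A, ∃ a' ∈ A, (ψ a - (φ a') ^ q) * ϖ₂⁻¹ ∈ V₂ := by
  haveI : Fact q.Prime := ⟨h.prime⟩
  haveI := h.charP
  haveI : ExpChar (IsLocalRing.ResidueField V₂) q := ExpChar.prime h.prime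
  set g : V₁ →+* IsLocalRing.ResidueField V₂ := resHom V₁ V₂ ψ hψ with hg
  set cA : R →+* A := c.codRestrict A hcA with hcA'
  set yA : A := ⟨y, hyA⟩ with hyA'
  have hcomp : (A.subtype).comp (Polynomial.eval₂RingHom cA yA) = Polynomial.eval₂RingHom c y := by
    apply Polynomial.ringHom_ext
    · intro r
      simp [cA]
    · simp [yA]
  have key : ∀ x y' : V₁, g x = (h.red y') ^ q ↔ (ψ x - (φ y') ^ q) * ϖ₂⁻¹ ∈ V₂ := by
    intro x y'
    rw [hg, red, resHom_apply, resHom_apply, ← map_pow, residue_eq_iff h.unif₂]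
    rfl
  have main := exists_eq_pow_of_normal q h.red g h.incl h.normal_red
    (fun s => by
      obtain ⟨a', ha', haa'⟩ := hK s s.2
      exact ⟨⟨a', ha'⟩, (key s ⟨a', ha'⟩).mpr haa'⟩)
    cA yA
    (fun a => by
      obtain ⟨p, hp, hpa⟩ := hA a a.2
      refine ⟨p, hp, Subtype.ext ?_⟩
      have := Polynomial.hom_eval₂ p (Polynomial.eval₂RingHom cA yA) A.subtype a
      rw [hcomp] at this
      rw [ZeroMemClass.coe_zero, ← hpa]
      exact this)
    (fun r => by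
      rw [hg, red, resHom_apply, resHom_apply]
      congr 1
      exact Subtype.ext (hc r))
    ((key _ _).mpr hy)
  intro a ha
  obtain ⟨a', ha'⟩ := main ⟨a, ha⟩
  exact ⟨a', a'.2, (key _ _).mp ha'⟩

/-- **Residue degree one on the chart.** -/
theorem surj (h : SideData V₁ V₂ ϖ₁ ϖ₂ φ q A)
    (hres : ∀ b ∈ V₂, ∃ s ∈ V₁, (b - φ s) * ϖ₂⁻¹ ∈ V₂)
    {R : Type*} [CommRing R] (c : R →+* F₂) (y : F₂)
    (hcV : ∀ r, c r ∈ V₂) (hyV : y ∈ V₂)
    (hc : ∀ r, ∃ a ∈ A, (c r - φ a) * ϖ₂⁻¹ ∈ V₂) (hy : ∃ a ∈ A, (y - φ a) * ϖ₂⁻¹ ∈ V₂) :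
    ∀ b : F₂, (Polynomial.eval₂RingHom c y).IsIntegralElem b →
      b ∈ V₂ ∧ ∃ a ∈ A, (b - φ a) * ϖ₂⁻¹ ∈ V₂ := by
  set cV : R →+* V₂ := c.codRestrict V₂ hcV with hcV'
  set yV : V₂ := ⟨y, hyV⟩ with hyV'
  have hcomp : (V₂.subtype).comp (Polynomial.eval₂RingHom cV yV) = Polynomial.eval₂RingHom c y := by
    apply Polynomial.ringHom_ext
    · intro r
      simp [cV]
    · simp [yV]
  -- the integral closure of `R[y]` in `V₂`
  have hmemV : ∀ b : F₂, (Polynomial.eval₂RingHom c y).IsIntegralElem b → b ∈ V₂ := by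
    intro b hb
    have hint : IsIntegral V₂ b := by
      obtain ⟨p, hp, hpb⟩ := hb
      refine ⟨p.map (Polynomial.eval₂RingHom cV yV), hp.map _, ?_⟩
      rw [Polynomial.eval₂_map]
      have : (algebraMap V₂ F₂).comp (Polynomial.eval₂RingHom cV yV) =
          Polynomial.eval₂RingHom c y := hcomp
      rw [this]
      exact hpb
    obtain ⟨v, hv⟩ := (IsIntegrallyClosed.isIntegral_iff (R := V₂) (K := F₂)).mp hint
    rw [← hv]
    exact v.2
  have key : ∀ (x : V₂) (a : V₁), IsLocalRing.residue V₂ x = h.red a ↔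
      ((x : F₂) - φ a) * ϖ₂⁻¹ ∈ V₂ := by
    intro x a
    rw [red, resHom_apply, residue_eq_iff h.unif₂]
  have main := exists_eq_of_normal h.red h.incl h.normal_red (IsLocalRing.residue V₂)
    (fun b => by
      obtain ⟨s, hs, hbs⟩ := hres b b.2
      exact ⟨⟨s, hs⟩, (key b ⟨s, hs⟩).mpr hbs⟩)
    cV yV
    (fun r => by
      obtain ⟨a, ha, hra⟩ := hc r
      exact ⟨⟨a, ha⟩, (key (cV r) (h.incl ⟨a, ha⟩)).mpr hra⟩)
    (by
      obtain ⟨a, ha, hya⟩ := hy
      exact ⟨⟨a, ha⟩, (key yV (h.incl ⟨a, ha⟩)).mpr hya⟩)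
  intro b hb
  have hbV := hmemV b hb
  refine ⟨hbV, ?_⟩
  have hb' : (Polynomial.eval₂RingHom cV yV).IsIntegralElem (⟨b, hbV⟩ : V₂) := by
    obtain ⟨p, hp, hpb⟩ := hb
    refine ⟨p, hp, Subtype.ext ?_⟩
    have := Polynomial.hom_eval₂ p (Polynomial.eval₂RingHom cV yV) V₂.subtype ⟨b, hbV⟩
    rw [hcomp] at this
    rw [ZeroMemClass.coe_zero, ← hpb]
    exact this
  obtain ⟨a, ha⟩ := main ⟨b, hbV⟩ hb'
  exact ⟨a, a.2, (key ⟨b, hbV⟩ (h.incl a)).mp ha⟩

end SideData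

end Side

end Fermat.Agent.A2.Mod.H372

end
end
-- ===== PACK-END A2/Mod/H372/Side.lean

-- ===== PACK-BEGIN A2/H489/TwoExtB.lean
section


/-!
# A2 / M1-abs, part B (helper489): valuation subrings over a DVR and the integral closure
-/

set_option autoImplicit false

namespace Fermat.Agent.A2.H489

open IsDedekindDomain IsLocalRing

section Over

variable {A L : Type*} [CommRing A] [IsLocalRing A] [Field L] [Algebra A L]

/-- `V` lies over the local ring `A`: it contains `A` and the maximal ideal of `A` consists of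
nonunits of `V`. -/
structure IsOver (A : Type*) {L : Type*} [CommRing A] [IsLocalRing A] [Field L] [Algebra A L]
    (V : ValuationSubring L) : Prop where
  mem : ∀ a : A, algebraMap A L a ∈ V
  nonunit : ∀ a ∈ maximalIdeal A, algebraMap A L a ∈ V.nonunits

variable {V : ValuationSubring L}

theorem IsOver.integral_mem (hV : IsOver A V) {x : L} (hx : IsIntegral A x) : x ∈ V := by
  let _ : Algebra A V := (toValSub V hV.mem).toAlgebra
  have : IsScalarTower A V L := IsScalarTower.of_algebraMap_eq (fun _ => rfl)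
  have h : IsIntegral V x := hx.tower_top
  obtain ⟨y, hy⟩ := (IsIntegrallyClosed.isIntegral_iff (R := V) (K := L)).mp h
  rw [← hy]
  exact y.2

theorem IsOver.mem_integralClosure (hV : IsOver A V) (s : integralClosure A L) :
    algebraMap (integralClosure A L) L s ∈ V :=
  hV.integral_mem s.2

theorem IsOver.not_mem_nonunits_of_isUnit (hV : IsOver A V) {a : A} (ha : IsUnit a) :
    algebraMap A L a ∉ V.nonunits := by
  obtain ⟨u, rfl⟩ := ha
  intro h
  rw [ValuationSubring.mem_nonunits_iff] at h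
  have h1 : V.valuation (algebraMap A L (↑u⁻¹ : A)) ≤ 1 :=
    (ValuationSubring.valuation_le_one_iff V _).mpr (hV.mem _)
  have h2 : V.valuation (algebraMap A L (u : A)) * V.valuation (algebraMap A L (↑u⁻¹ : A)) = 1 := by
    rw [← map_mul, ← map_mul, Units.mul_inv, map_one, map_one]
  have h3 : V.valuation (algebraMap A L (u : A)) * V.valuation (algebraMap A L (↑u⁻¹ : A)) < 1 :=
    mul_lt_one_of_lt_of_le h h1
  exact absurd h2 (ne_of_lt h3)

theorem IsOver.mem_nonunits_iff (hV : IsOver A V) (a : A) :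
    algebraMap A L a ∈ V.nonunits ↔ a ∈ maximalIdeal A := by
  constructor
  · intro h
    by_contra hna
    rw [IsLocalRing.mem_maximalIdeal, _root_.mem_nonunits_iff, not_not] at hna
    exact hV.not_mem_nonunits_of_isUnit hna h
  · exact hV.nonunit a

theorem IsOver.center_liesOver (hV : IsOver A V) :
    (center V hV.mem_integralClosure).LiesOver (maximalIdeal A) := by
  constructor
  ext a
  rw [Ideal.under, Ideal.mem_comap, mem_center_iff, ← IsScalarTower.algebraMap_apply,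
    hV.mem_nonunits_iff]

theorem IsOver.ne_top_of_nonunit (hV : IsOver A V) {w : A} (hw : w ∈ maximalIdeal A)
    (hw0 : algebraMap A L w ≠ 0) : V ≠ ⊤ := by
  intro h
  have h1 := hV.nonunit w hw
  rw [ValuationSubring.mem_nonunits_iff_or] at h1
  rcases h1 with h1 | h1
  · exact hw0 h1
  · apply h1
    rw [h]
    exact ValuationSubring.mem_top _

end Over

section Main

variable {A K L : Type*} [CommRing A] [IsDomain A] [IsDiscreteValuationRing A]
  [Field K] [Algebra A K] [IsFractionRing A K]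
  [Field L] [Algebra K L] [Algebra A L] [IsScalarTower A K L]

omit [IsDiscreteValuationRing A] in
theorem algebraMap_injective_AL (A K L : Type*) [CommRing A] [IsDomain A]
    [Field K] [Algebra A K] [IsFractionRing A K]
    [Field L] [Algebra K L] [Algebra A L] [IsScalarTower A K L] :
    Function.Injective (algebraMap A L) := by
  rw [IsScalarTower.algebraMap_eq A K L]
  exact (algebraMap K L).injective.comp (IsFractionRing.injective A K)

theorem IsOver.ne_top (K : Type*) {A L : Type*} [CommRing A] [IsDomain A]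
    [IsDiscreteValuationRing A] [Field K] [Algebra A K] [IsFractionRing A K]
    [Field L] [Algebra K L] [Algebra A L] [IsScalarTower A K L]
    {V : ValuationSubring L} (hV : IsOver A V) : V ≠ ⊤ := by
  obtain ⟨w, hw⟩ := IsDiscreteValuationRing.exists_irreducible A
  refine hV.ne_top_of_nonunit (w := w) ?_ ?_
  · rw [IsLocalRing.mem_maximalIdeal, _root_.mem_nonunits_iff]
    exact hw.not_isUnit
  · intro h0
    apply hw.ne_zero
    apply algebraMap_injective_AL A K L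
    rw [h0, map_zero]

end Main

end Fermat.Agent.A2.H489

end
-- ===== PACK-END A2/H489/TwoExtB.lean

-- ===== PACK-BEGIN A2/Mod/H189/ChartChangeAux.lean
section







/-!
# Cell A2 / MOD, GOODRED part G3 (helper189): chart change, auxiliary lemmas (Mathlib only)

* `isIntegral_of_monic_eq`, `isIntegral_of_unit_eq`, `isIntegral_of_cubic`, `isIntegral_of_quartic`:
  integrality over a subalgebra from an explicit equation with unit leading coefficient;
* `icSub A` : the integral closure of a subalgebra `A ⊆ F`, as an `R`-subalgebra of `F`;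
* `GoodOn V w A := QepOn V w A ∧ NormalOn V w A` with `GoodOn.loc`, `GoodOn.glue`, `GoodOn.congr`,
  `GoodOn.of_le_of_le`.
-/

set_option autoImplicit false

namespace Fermat.Agent.A2.Mod.H189

open Polynomial

variable {R : Type*} [CommRing R] {F : Type*} [Field F] [Algebra R F]

/-- Integrality from a monic equation with coefficients in `A`. -/
theorem isIntegral_of_monic_eq {A : Subalgebra R F} {x : F} (n : ℕ) (c : Fin n → F)
    (hc : ∀ i, c i ∈ A) (h : x ^ n + ∑ i : Fin n, c i * x ^ (i : ℕ) = 0) : IsIntegral A x := by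
  refine ⟨X ^ n + ∑ i : Fin n, C (⟨c i, hc i⟩ : A) * X ^ (i : ℕ),
    monic_X_pow_add (degree_sum_fin_lt _), ?_⟩
  rw [eval₂_add, eval₂_pow, eval₂_X, eval₂_finsetSum]
  simp only [eval₂_mul, eval₂_C, eval₂_pow, eval₂_X]
  exact h

/-- Integrality from an equation whose leading coefficient is a unit of `A`. -/
theorem isIntegral_of_unit_eq {A : Subalgebra R F} {x : F} (n : ℕ) {a v : F}
    (hv : v ∈ A) (hav : v * a = 1) (c : Fin n → F)
    (hc : ∀ i, c i ∈ A) (h : a * x ^ n + ∑ i : Fin n, c i * x ^ (i : ℕ) = 0) :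
    IsIntegral A x := by
  refine isIntegral_of_monic_eq n (fun i => v * c i) (fun i => A.mul_mem hv (hc i)) ?_
  have h1 := congrArg (fun z => v * z) h
  simp only [mul_zero, mul_add, ← mul_assoc, hav, one_mul, Finset.mul_sum] at h1
  exact h1

/-- Integrality from a cubic equation with unit leading coefficient. -/
theorem isIntegral_of_cubic {A : Subalgebra R F} {x a v c₂ c₁ c₀ : F}
    (hv : v ∈ A) (hav : v * a = 1) (h₂ : c₂ ∈ A) (h₁ : c₁ ∈ A) (h₀ : c₀ ∈ A)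
    (h : a * x ^ 3 + c₂ * x ^ 2 + c₁ * x + c₀ = 0) : IsIntegral A x := by
  refine isIntegral_of_unit_eq 3 hv hav ![c₀, c₁, c₂] ?_ ?_
  · intro i
    fin_cases i <;> simpa
  · rw [Fin.sum_univ_three]
    simp only [Matrix.cons_val_zero, Matrix.cons_val_one, Matrix.cons_val_two, Matrix.head_cons,
      Matrix.tail_cons, Fin.val_zero, Fin.val_one, Fin.val_two, pow_zero, pow_one, mul_one]
    linear_combination h

/-- Integrality from a quartic equation with unit leading coefficient. -/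
theorem isIntegral_of_quartic {A : Subalgebra R F} {x a v c₃ c₂ c₁ c₀ : F}
    (hv : v ∈ A) (hav : v * a = 1) (h₃ : c₃ ∈ A) (h₂ : c₂ ∈ A) (h₁ : c₁ ∈ A) (h₀ : c₀ ∈ A)
    (h : a * x ^ 4 + c₃ * x ^ 3 + c₂ * x ^ 2 + c₁ * x + c₀ = 0) : IsIntegral A x := by
  refine isIntegral_of_unit_eq 4 hv hav ![c₀, c₁, c₂, c₃] ?_ ?_
  · intro i
    fin_cases i <;> simpa
  · rw [Fin.sum_univ_four]
    simp only [Matrix.cons_val_zero, Matrix.cons_val_one, Matrix.cons_val_two,
      Matrix.cons_val_three, Matrix.head_cons,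
      Matrix.tail_cons, Fin.val_zero, Fin.val_one, Fin.val_two, pow_zero, pow_one, mul_one]
    simp
    linear_combination h

/-- The integral closure of a subalgebra `A ⊆ F`, as an `R`-subalgebra of `F`. -/
def icSub (A : Subalgebra R F) : Subalgebra R F :=
  (integralClosure A F).restrictScalars R

theorem mem_icSub {A : Subalgebra R F} {x : F} : x ∈ icSub A ↔ IsIntegral A x := Iff.rfl

theorem le_icSub (A : Subalgebra R F) : A ≤ icSub A := fun _ ha => isIntegral_of_mem ha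

/-- A subalgebra generated by integral elements is integral. -/
theorem isIntegral_of_mem_adjoin {A : Subalgebra R F} {S : Set F}
    (hS : ∀ x ∈ S, IsIntegral A x) {b : F} (hb : b ∈ Algebra.adjoin R S) : IsIntegral A b :=
  (Algebra.adjoin_le (S := icSub A) hS) hb

/-- Elements of `A[1/s]` are integral over `A'` as soon as `A` and `1/s` are. -/
theorem isIntegral_of_mem_locSub {A A' : Subalgebra R F} {s : F}
    (hA : ∀ a ∈ A, IsIntegral A' a) (hs : IsIntegral A' s⁻¹) {b : F} (hb : b ∈ locSub A s) :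
    IsIntegral A' b :=
  isIntegral_of_mem_adjoin (A := A') (by
    rintro x (hx | hx)
    · exact hA x hx
    · rw [Set.mem_singleton_iff] at hx
      rw [hx]
      exact hs) hb

/-- Both halves of `Mod.GoodRedAt` for the chart of `A`. -/
def GoodOn (V : Subring F) (w : F) (A : Subalgebra R F) : Prop :=
  QepOn V w A ∧ NormalOn V w A

theorem GoodOn.congr {V : Subring F} {w : F} {A A' : Subalgebra R F}
    (h : ∀ a ∈ A, IsIntegral A' a) (h' : ∀ a ∈ A', IsIntegral A a) (hg : GoodOn V w A) :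
    GoodOn V w A' :=
  ⟨hg.1.congr h h', hg.2.congr h h'⟩

theorem GoodOn.of_le_of_le {V : Subring F} {w : F} {A A' : Subalgebra R F}
    (h : A ≤ A') (h' : A' ≤ A) (hg : GoodOn V w A) : GoodOn V w A' :=
  hg.congr (fun _ ha => isIntegral_of_mem (h ha)) (fun _ ha => isIntegral_of_mem (h' ha))

theorem GoodOn.loc {V : Subring F} {w : F} {A : Subalgebra R F} (hg : GoodOn V w A) {s : F}
    (hsA : s ∈ A) (hs0 : s ≠ 0) (hsV : s ∈ V) (hsV' : s⁻¹ ∈ V) : GoodOn V w (locSub A s) :=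
  ⟨hg.1.loc hsA hs0 hsV, hg.2.loc hsA hs0 hsV hsV'⟩

theorem GoodOn.glue {V : Subring F} {w : F} {A : Subalgebra R F} {s₁ s₂ α β : F}
    (hAV : ∀ a ∈ A, a ∈ V)
    (hs₁ : s₁ ∈ A) (hs₂ : s₂ ∈ A) (hα : α ∈ A) (hβ : β ∈ A) (h1 : α * s₁ + β * s₂ = 1)
    (hg₁ : GoodOn V w (locSub A s₁)) (hg₂ : GoodOn V w (locSub A s₂)) : GoodOn V w A :=
  ⟨QepOn.glue hs₁ hs₂ hα hβ h1 hg₁.1 hg₂.1, NormalOn.glue hAV hs₁ hs₂ hα hβ h1 hg₁.2 hg₂.2⟩

/-- A subalgebra generated by elements of `V` lies in `V` (`V ⊇ R` a subring). -/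
theorem adjoin_subset_subring {V : Subring F} (hRV : ∀ r : R, algebraMap R F r ∈ V) {S : Set F}
    (hS : ∀ x ∈ S, x ∈ V) : ∀ a ∈ Algebra.adjoin R S, a ∈ V := by
  intro a ha
  induction ha using Algebra.adjoin_induction with
  | mem x hx => exact hS x hx
  | algebraMap r => exact hRV r
  | add x y _ _ hx hy => exact V.add_mem hx hy
  | mul x y _ _ hx hy => exact V.mul_mem hx hy

end Fermat.Agent.A2.Mod.H189

end
-- ===== PACK-END A2/Mod/H189/ChartChangeAux.lean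

-- ===== PACK-BEGIN A2/H969/PowRoot.lean
section





/-!
# A2 / KRULL, part 2: the ideals `I_j = {f | f ^ m ∈ (u ^ j)}` in a normal domain
(Mathlib only; notation of the node purity lemma (P), `origin/helper609:coord/A2-helper609.md`)

`R` an integrally closed domain, `u ≠ 0`, `m > 0`.

* `pow_add_mem_span_pow` : `f ^ m, g ^ m ∈ (u ^ j)` ⇒ `(f + g) ^ m ∈ (u ^ j)`.
* `powRootIdeal u m j` : the ideal `I_j`, with `mem_powRootIdeal`.
* `powRootIdeal_zero = ⊤`, `powRootIdeal_self = (u)`, antitone in `j`, `u • I_j ≤ I_{j+m}`,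
  `I_j * I_k ≤ I_{j+k}`.
* `mem_powRootIdeal_of_mul_mem` : if `π` is a nonzerodivisor modulo `u ^ j`, then
  `π * f ∈ I_j → f ∈ I_j` (so `R ⧸ I_j` has no `π`-torsion).
-/

set_option autoImplicit false

namespace Fermat.Agent.A2.H969

variable {R : Type*} [CommRing R] [IsDomain R] [IsIntegrallyClosed R]

/-- In an integrally closed domain, `z ^ m ∈ (v)`-type divisibility is additive:
if `f ^ m` and `g ^ m` are divisible by `v ≠ 0`, so is `(f + g) ^ m`. -/
theorem pow_add_dvd_of_dvd_pow {v : R} (hv : v ≠ 0) {m : ℕ} (hm : 0 < m) {f g : R}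
    (hf : v ∣ f ^ m) (hg : v ∣ g ^ m) : v ∣ (f + g) ^ m := by
  classical
  let K := FractionRing R
  let L := AlgebraicClosure K
  have hinjK : Function.Injective (algebraMap R K) := IsFractionRing.injective R K
  have hinjKL : Function.Injective (algebraMap K L) := (algebraMap K L).injective
  have hRL : ∀ r : R, algebraMap R L r = algebraMap K L (algebraMap R K r) :=
    fun r => IsScalarTower.algebraMap_apply R K L r
  obtain ⟨w, hw⟩ := IsAlgClosed.exists_pow_nat_eq (algebraMap R L v) hm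
  have hvL : algebraMap R L v ≠ 0 := by
    rw [hRL, Ne, map_eq_zero_iff _ hinjKL, map_eq_zero_iff _ hinjK]
    exact hv
  have hw0 : w ≠ 0 := by
    rintro rfl
    rw [zero_pow hm.ne'] at hw
    exact hvL hw.symm
  have key : ∀ h : R, v ∣ h ^ m → IsIntegral R (algebraMap R L h / w) := by
    rintro h ⟨a, ha⟩
    refine IsIntegral.of_pow hm ?_
    have : (algebraMap R L h / w) ^ m = algebraMap R L a := by
      rw [div_pow, hw, ← map_pow, ha, map_mul, mul_div_cancel_left₀ _ hvL]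
    rw [this]
    exact isIntegral_algebraMap
  have hsum : IsIntegral R (algebraMap R L (f + g) / w) := by
    rw [map_add, add_div]
    exact (key f hf).add (key g hg)
  have hpow : IsIntegral R ((algebraMap R L (f + g) / w) ^ m) := hsum.pow m
  have heq : (algebraMap R L (f + g) / w) ^ m
      = algebraMap K L (algebraMap R K ((f + g) ^ m) / algebraMap R K v) := by
    rw [div_pow, hw, ← map_pow, map_div₀, ← hRL, ← hRL]
  rw [heq, isIntegral_algebraMap_iff hinjKL] at hpow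
  obtain ⟨c, hc⟩ := IsIntegrallyClosed.algebraMap_eq_of_integral hpow
  have hvK : algebraMap R K v ≠ 0 := by rwa [Ne, map_eq_zero_iff _ hinjK]
  refine ⟨c, hinjK ?_⟩
  rw [map_mul, hc, mul_div_cancel₀ _ hvK]

/-- The ideal `I_j = {f | u ^ j ∣ f ^ m}` of an integrally closed domain (`u ≠ 0`, `m > 0`). -/
def powRootIdeal (u : R) (hu : u ≠ 0) (m : ℕ) (hm : 0 < m) (j : ℕ) : Ideal R where
  carrier := {f | u ^ j ∣ f ^ m}
  zero_mem' := by
    show u ^ j ∣ (0 : R) ^ m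
    rw [zero_pow hm.ne']
    exact dvd_zero _
  add_mem' := fun {f g} hf hg => pow_add_dvd_of_dvd_pow (pow_ne_zero j hu) hm hf hg
  smul_mem' := fun r f hf => by
    show u ^ j ∣ (r * f) ^ m
    rw [mul_pow]
    exact Dvd.dvd.mul_left hf _

variable {u : R} {hu : u ≠ 0} {m : ℕ} {hm : 0 < m}

@[simp]
theorem mem_powRootIdeal {j : ℕ} {f : R} : f ∈ powRootIdeal u hu m hm j ↔ u ^ j ∣ f ^ m :=
  Iff.rfl

theorem powRootIdeal_zero : powRootIdeal u hu m hm 0 = ⊤ := by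
  rw [Ideal.eq_top_iff_one, mem_powRootIdeal, pow_zero]
  exact one_dvd _

/-- In an integrally closed domain `u ^ m ∣ f ^ m → u ∣ f`. -/
theorem dvd_of_pow_dvd_pow {v f : R} (hv : v ≠ 0) {n : ℕ} (hn : 0 < n)
    (h : v ^ n ∣ f ^ n) : v ∣ f := by
  let K := FractionRing R
  have hinjK : Function.Injective (algebraMap R K) := IsFractionRing.injective R K
  have hvK : algebraMap R K v ≠ 0 := by rwa [Ne, map_eq_zero_iff _ hinjK]
  obtain ⟨a, ha⟩ := h
  have hint : IsIntegral R (algebraMap R K f / algebraMap R K v) := by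
    refine IsIntegral.of_pow hn ?_
    have : (algebraMap R K f / algebraMap R K v) ^ n = algebraMap R K a := by
      rw [div_pow, ← map_pow, ← map_pow, ha, map_mul,
        mul_div_cancel_left₀ _ (by rw [map_pow]; exact pow_ne_zero n hvK)]
    rw [this]
    exact isIntegral_algebraMap
  obtain ⟨c, hc⟩ := IsIntegrallyClosed.algebraMap_eq_of_integral hint
  refine ⟨c, hinjK ?_⟩
  rw [map_mul, hc, mul_div_cancel₀ _ hvK]

theorem powRootIdeal_self : powRootIdeal u hu m hm m = Ideal.span {u} := by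
  ext f
  rw [mem_powRootIdeal, Ideal.mem_span_singleton]
  exact ⟨dvd_of_pow_dvd_pow hu hm, fun h => pow_dvd_pow_of_dvd h m⟩

theorem powRootIdeal_antitone {j k : ℕ} (hjk : j ≤ k) :
    powRootIdeal u hu m hm k ≤ powRootIdeal u hu m hm j := fun _ hf =>
  (pow_dvd_pow u hjk).trans hf

theorem mul_mem_powRootIdeal_add {j k : ℕ} {f g : R} (hf : f ∈ powRootIdeal u hu m hm j)
    (hg : g ∈ powRootIdeal u hu m hm k) : f * g ∈ powRootIdeal u hu m hm (j + k) := by
  rw [mem_powRootIdeal] at *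
  rw [mul_pow, pow_add]
  exact mul_dvd_mul hf hg

theorem self_mem_powRootIdeal : u ∈ powRootIdeal u hu m hm m := by
  rw [mem_powRootIdeal]

theorem self_mul_mem_powRootIdeal {j : ℕ} {f : R} (hf : f ∈ powRootIdeal u hu m hm j) :
    u * f ∈ powRootIdeal u hu m hm (m + j) :=
  mul_mem_powRootIdeal_add self_mem_powRootIdeal hf

/-- Conversely, `u * f ∈ I_{m+j} → f ∈ I_j`. -/
theorem mem_powRootIdeal_of_self_mul_mem {j : ℕ} {f : R}
    (hf : u * f ∈ powRootIdeal u hu m hm (m + j)) : f ∈ powRootIdeal u hu m hm j := by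
  rw [mem_powRootIdeal] at *
  rw [mul_pow, pow_add] at hf
  exact (mul_dvd_mul_iff_left (pow_ne_zero m hu)).1 hf

/-- If `π` is a nonzerodivisor modulo `u ^ j`, then `R ⧸ I_j` has no `π`-torsion. -/
theorem mem_powRootIdeal_of_mul_mem {j : ℕ} {π f : R}
    (hπ : ∀ x : R, u ^ j ∣ π * x → u ^ j ∣ x)
    (hf : π * f ∈ powRootIdeal u hu m hm j) : f ∈ powRootIdeal u hu m hm j := by
  rw [mem_powRootIdeal] at *
  rw [mul_pow] at hf
  have : ∀ n : ℕ, ∀ x : R, u ^ j ∣ π ^ n * x → u ^ j ∣ x := by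
    intro n
    induction n with
    | zero => intro x hx; simpa using hx
    | succ n ih =>
      intro x hx
      refine ih x (hπ _ ?_)
      rwa [← mul_assoc, ← pow_succ']
  exact this m _ hf

/-- Associated-prime form of the regularity hypothesis: if `π` lies in no associated prime of
`R ⧸ (u ^ j)`, then `R ⧸ I_j` has no `π`-torsion. -/
theorem mem_powRootIdeal_of_mul_mem' [IsNoetherianRing R] {j : ℕ} {π f : R}
    (hπ : ∀ P : Ideal R, IsAssociatedPrime P (R ⧸ Ideal.span {u ^ j}) → π ∉ P)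
    (hf : π * f ∈ powRootIdeal u hu m hm j) : f ∈ powRootIdeal u hu m hm j := by
  refine mem_powRootIdeal_of_mul_mem (fun x hx => ?_) hf
  rw [← Ideal.mem_span_singleton] at hx ⊢
  exact mem_span_singleton_of_mul_mem (u ^ j) π x hπ hx

/-- DVR form of the regularity hypothesis (see `dvd_of_dvd_mul_of_forall_not_dvr`): if no prime
`P ∋ u, π` has `R_P` a DVR, then `R ⧸ I_j` has no `π`-torsion. -/
theorem mem_powRootIdeal_of_mul_mem_of_forall_not_dvr [IsNoetherianRing R] {j : ℕ} {π f : R}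
    (h : ∀ (P : Ideal R) [P.IsPrime], u ∈ P → π ∈ P →
      ¬ IsDiscreteValuationRing (Localization.AtPrime P))
    (hf : π * f ∈ powRootIdeal u hu m hm j) : f ∈ powRootIdeal u hu m hm j :=
  mem_powRootIdeal_of_mul_mem (dvd_of_dvd_mul_of_forall_not_dvr u hu π h j) hf

end Fermat.Agent.A2.H969

end
-- ===== PACK-END A2/H969/PowRoot.lean

-- ===== PACK-BEGIN A2/H852/ThicknessNode.lean
section
/-
A2 / piece THICK (helper852), part 2: EXACT normal form at a node from a unit pair.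

Combines `Fermat.Agent.A2.H189.node_normal_form_or` (finite normal form iteration inside the local
ring `R`) with `Fermat.Agent.A2.H852.thickness_le`: if `R` is a local domain with
`𝔪 = (S, T, ℓ)`, `S * T = ℓ * G`, the two branches are `𝔭₁ ∌ S`, `𝔭₂ ∌ T` with
`𝔭₁ ∩ 𝔭₂ ⊆ ℓ R`, and there is a "unit pair" `D * D' = ℓ ^ c` (`c > 0`) with `D ∉ 𝔭₁`, `D' ∉ 𝔭₂`,
`D ≡ ε S ^ k (mod 𝔭₁)`, `ε` a unit, then the iteration STOPS: there are new coordinates
`S' ≡ S`, `T' ≡ T (mod ℓ)` with `S' * T' = ℓ ^ (t + 1) * unit` and `t + 1 ≤ c`.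
In particular `c ≠ 0` in the normal form `S' T' = c` (no completion, no excellence).
-/



set_option autoImplicit false

namespace Fermat.Agent.A2.H852

open IsLocalRing

variable {R : Type*} [CommRing R] [IsDomain R] [IsLocalRing R]

omit [IsDomain R] in
/-- In a local ring two proper ideals are never comaximal. -/
theorem sup_ne_top_of_isPrime (𝔭₁ 𝔭₂ : Ideal R) [𝔭₁.IsPrime] [𝔭₂.IsPrime] : 𝔭₁ ⊔ 𝔭₂ ≠ ⊤ := by
  intro h
  have h1 : 𝔭₁ ≤ maximalIdeal R := IsLocalRing.le_maximalIdeal (Ideal.IsPrime.ne_top ‹_›)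
  have h2 : 𝔭₂ ≤ maximalIdeal R := IsLocalRing.le_maximalIdeal (Ideal.IsPrime.ne_top ‹_›)
  have h3 : (⊤ : Ideal R) ≤ maximalIdeal R := h ▸ sup_le h1 h2
  exact (IsLocalRing.maximalIdeal.isMaximal R).ne_top (top_le_iff.mp h3)

omit [IsDomain R] [IsLocalRing R] in
/-- Congruence of `k`-th powers modulo an ideal. -/
theorem pow_sub_pow_mem_of_sub_mem (I : Ideal R) {x y : R} (h : x - y ∈ I) (k : ℕ) :
    x ^ k - y ^ k ∈ I := by
  obtain ⟨z, hz⟩ := sub_dvd_pow_sub_pow x y k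
  rw [hz]
  exact Ideal.mul_mem_right _ _ h

/-- **Exact normal form at a node of finite thickness.** -/
theorem node_normal_form_exact (𝔭₁ 𝔭₂ : Ideal R) [𝔭₁.IsPrime] [𝔭₂.IsPrime]
    (ℓ S T G D D' ε : R) (c k : ℕ) (hℓ0 : ℓ ≠ 0) (hℓ₁ : ℓ ∈ 𝔭₁) (hℓ₂ : ℓ ∈ 𝔭₂)
    (hcap : ∀ z, z ∈ 𝔭₁ → z ∈ 𝔭₂ → ℓ ∣ z)
    (hm : maximalIdeal R = Ideal.span {S, T, ℓ})
    (hS : S ∉ 𝔭₁) (hT : T ∉ 𝔭₂) (hST : S * T = ℓ * G) (hc : 0 < c)
    (hDD : D * D' = ℓ ^ c) (hD : D ∉ 𝔭₁) (hD' : D' ∉ 𝔭₂) (hε : IsUnit ε)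
    (hDS : D - ε * S ^ k ∈ 𝔭₁) :
    ∃ S' T' G' : R, (∃ β, S' = S - ℓ * β) ∧ (∃ α, T' = T - ℓ * α) ∧
      maximalIdeal R = Ideal.span {S', T', ℓ} ∧
      ∃ t, t + 1 ≤ c ∧ S' * T' = ℓ ^ (t + 1) * G' ∧ IsUnit G' := by
  obtain ⟨S', T', G', ⟨β, hβ⟩, ⟨α, hα⟩, hm', hcase⟩ :=
    Fermat.Agent.A2.H189.node_normal_form_or ℓ S T G hm hST c
  have hsup := sup_ne_top_of_isPrime 𝔭₁ 𝔭₂
  have hS' : S' ∉ 𝔭₁ := by
    intro h
    apply hS
    have : S = S' + ℓ * β := by rw [hβ]; ring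
    rw [this]
    exact 𝔭₁.add_mem h (Ideal.mul_mem_right _ _ hℓ₁)
  have hT' : T' ∉ 𝔭₂ := by
    intro h
    apply hT
    have : T = T' + ℓ * α := by rw [hα]; ring
    rw [this]
    exact 𝔭₂.add_mem h (Ideal.mul_mem_right _ _ hℓ₂)
  have hDS' : D - ε * S' ^ k ∈ 𝔭₁ := by
    have h1 : S - S' ∈ 𝔭₁ := by
      have : S - S' = ℓ * β := by rw [hβ]; ring
      rw [this]
      exact Ideal.mul_mem_right _ _ hℓ₁
    have h2 := pow_sub_pow_mem_of_sub_mem 𝔭₁ h1 k
    have : D - ε * S' ^ k = (D - ε * S ^ k) + ε * (S ^ k - S' ^ k) := by ring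
    rw [this]
    exact 𝔭₁.add_mem hDS (Ideal.mul_mem_left _ _ h2)
  refine ⟨S', T', G', ⟨β, hβ⟩, ⟨α, hα⟩, hm', ?_⟩
  rcases hcase with ⟨t, _, hprod, hu⟩ | hprod
  · refine ⟨t, ?_, hprod, hu⟩
    exact thickness_le 𝔭₁ 𝔭₂ ℓ S' T' G' D D' ε (t + 1) c k hℓ0 hℓ₁ hℓ₂ hcap hsup hS' hT' hprod hc
      hDD hD hD' hε hDS'
  · exfalso
    have := thickness_le 𝔭₁ 𝔭₂ ℓ S' T' G' D D' ε (c + 2) c k hℓ0 hℓ₁ hℓ₂ hcap hsup hS' hT' hprod hc
      hDD hD hD' hε hDS'
    omega

end Fermat.Agent.A2.H852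

end
-- ===== PACK-END A2/H852/ThicknessNode.lean

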