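import Mathlib.RingTheory.DiscreteValuationRing.Basic
import Mathlib.RingTheory.LocalRing.RingHom.Basic
import Fermat.Prelude.Def_ModularCurve_ArithmeticGalois
import Mathlib
import Fermat.Agent.Pack.S44.G0E3L2
import Fermat.Agent.Pack.S44.G0E3L3
import Fermat.Agent.Pack.S44.G0E2L2
import Fermat.Agent.Pack.S44.G0E4L0
import Fermat.Agent.Pack.S44.G0E4L1
import Fermat.Agent.Pack.S44.G0E0L3
import Fermat.Agent.Pack.S44.G0E0L1
import Fermat.Agent.Pack.S44.G0E5L3
import Fermat.Agent.Pack.S44.G0E5L0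
import Fermat.Agent.Pack.S44.G0E5L2

-- ===== PACK-BEGIN S20/P3_helper361.lean
section


/-!
# S20, piece P3 : the degree relation `∑ wt j = 6 (μ - #T-orbits)` (helper361)

`FundSystem.sum_wt` of the skeleton, proved from explicit hypotheses which are the
skeleton statements C0.3 (`ev_smul`), P1.3 (`det_Theta`), P1.4 (`Theta_add`, `Theta_zero`)
and L0.4 (`weight_eq_zero_of_nonvanishing`).
-/

set_option autoImplicit false

noncomputable section

namespace Fermat.Agent.S20.P3helper361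

open Fermat.Agent.S20
open UpperHalfPlane ModularForm CongruenceSubgroup MatrixGroups Filter Module
open scoped Manifold Topology Real

local notation "Δ" => ModularForm.discriminant
local notation "Tm" => ModularGroup.T

/-! ## The hypotheses (exact skeleton shapes) -/

/-- C0.3 `ev_smul` of the skeleton. -/
def EvSmul (Γ : Subgroup SL(2, ℤ)) : Prop :=
  ∀ {k : ℤ} {f : ℍ → ℂ} (_ : ∀ γ ∈ Γ, f ∣[k] γ = f) (γ : SL(2, ℤ)) (τ : ℍ)
    (x : X Γ), ev Γ k (γ • τ) f x = denom γ τ ^ k * ev Γ k τ f (γ⁻¹ • x)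

/-- P1.3 `det_Theta` of the skeleton. -/
def DetTheta (Γ : Subgroup SL(2, ℤ)) : Prop :=
  ∀ s : ℂ, LinearMap.det (Theta Γ s) =
    Complex.exp (π * Complex.I * s * ((Nat.card (X Γ) : ℂ) -
      Nat.card (MulAction.orbitRel.Quotient (Subgroup.zpowers Tm) (X Γ))))

/-- P1.4 `Theta_add` of the skeleton. -/
def ThetaAdd (Γ : Subgroup SL(2, ℤ)) : Prop :=
  ∀ s t : ℂ, Theta Γ (s + t) = Theta Γ s ∘ₗ Theta Γ t

/-- P1.4 `Theta_zero` of the skeleton. -/
def ThetaZero (Γ : Subgroup SL(2, ℤ)) : Prop :=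
  Theta Γ 0 = LinearMap.id

/-- L0.4 `weight_eq_zero_of_nonvanishing` of the skeleton. -/
def WeightZero : Prop :=
  ∀ {k : ℤ} {f : ℍ → ℂ}, f ∈ MF ⊤ k → (∀ z, f z ≠ 0) → ¬ IsZeroAtImInfty f → k = 0

variable {Γ : Subgroup SL(2, ℤ)}

/-! ## The fundamental matrix -/

section FundMat

variable (𝔉 : FundSystem Γ) (e : 𝔉.J ≃ X Γ)

/-- The fundamental matrix: columns = vectors of conjugates of the `F j`, rows reindexed by `e`. -/
def fundMat (τ : ℍ) : Matrix 𝔉.J 𝔉.J ℂ :=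
  Matrix.of fun i j => ev Γ (𝔉.wt j) τ (𝔉.F j) (e i)

lemma fundMat_apply (τ : ℍ) (i j : 𝔉.J) :
    fundMat 𝔉 e τ i j = ev Γ (𝔉.wt j) τ (𝔉.F j) (e i) := rfl

/-- The permutation of `J` induced by `γ⁻¹` acting on `X Γ`. -/
def permOf (γ : SL(2, ℤ)) : Equiv.Perm 𝔉.J :=
  (e.trans (MulAction.toPerm γ⁻¹)).trans e.symm

lemma permOf_apply (γ : SL(2, ℤ)) (i : 𝔉.J) : e (permOf 𝔉 e γ i) = γ⁻¹ • e i := by
  simp [permOf]

open Classical in
lemma det_fundMat_smul (hev : EvSmul Γ) (γ : SL(2, ℤ)) (τ : ℍ) :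
    (fundMat 𝔉 e (γ • τ)).det =
      (∏ j, denom γ τ ^ 𝔉.wt j) * ((Equiv.Perm.sign (permOf 𝔉 e γ) : ℤ) : ℂ) *
        (fundMat 𝔉 e τ).det := by
  have h : fundMat 𝔉 e (γ • τ) =
      Matrix.of fun i j => (denom γ τ ^ 𝔉.wt j) *
        ((fundMat 𝔉 e τ).submatrix (permOf 𝔉 e γ) id) i j := by
    ext i j
    simp only [fundMat_apply, Matrix.of_apply, Matrix.submatrix_apply, id_eq, permOf_apply]
    exact hev (𝔉.mem j).2.1 γ τ (e i)
  rw [h, Matrix.det_mul_row, Matrix.det_permute]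
  ring

lemma prod_zpow_eq_zpow_sum {ι : Type*} (s : Finset ι) (a : ℂ) (ha : a ≠ 0) (f : ι → ℤ) :
    ∏ j ∈ s, a ^ f j = a ^ ∑ j ∈ s, f j := by
  classical
  induction s using Finset.induction_on with
  | empty => simp
  | insert i s hi ih => rw [Finset.prod_insert hi, Finset.sum_insert hi, zpow_add₀ ha, ih]

open Classical in
/-- Transformation law of the squared determinant. -/
lemma sq_det_fundMat_smul (hev : EvSmul Γ) (γ : SL(2, ℤ)) (τ : ℍ) :
    (fundMat 𝔉 e (γ • τ)).det ^ 2 =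
      denom γ τ ^ (2 * ∑ j, 𝔉.wt j) * (fundMat 𝔉 e τ).det ^ 2 := by
  rw [det_fundMat_smul 𝔉 e hev, prod_zpow_eq_zpow_sum _ _ (denom_ne_zero _ _)]
  have hs : (((Equiv.Perm.sign (permOf 𝔉 e γ) : ℤ) : ℂ)) ^ 2 = 1 := by
    rcases Int.units_eq_one_or (Equiv.Perm.sign (permOf 𝔉 e γ)) with h | h <;> simp [h]
  rw [mul_pow, mul_pow, hs, mul_one, ← zpow_natCast, ← zpow_mul]
  congr 2
  push_cast
  ring

/-- The linear equivalence `(X Γ → ℂ) ≃ (J → ℂ)` of reindexing along `e`. -/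
def reidx : (X Γ → ℂ) ≃ₗ[ℂ] (𝔉.J → ℂ) := LinearEquiv.funCongrLeft ℂ ℂ e

lemma reidx_apply (v : X Γ → ℂ) (i : 𝔉.J) : reidx 𝔉 e v i = v (e i) := rfl

open Classical in
lemma det_ne_zero_of_linearIndependent (v : 𝔉.J → X Γ → ℂ) (hv : LinearIndependent ℂ v) :
    (Matrix.of fun i j => v j (e i) : Matrix 𝔉.J 𝔉.J ℂ).det ≠ 0 := by
  have h1 : LinearIndependent ℂ (fun j => reidx 𝔉 e (v j)) :=
    hv.map' (reidx 𝔉 e : (X Γ → ℂ) →ₗ[ℂ] (𝔉.J → ℂ)) (LinearEquiv.ker _)
  have h2 : (Matrix.of fun i j => v j (e i) : Matrix 𝔉.J 𝔉.J ℂ).col =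
      fun j => reidx 𝔉 e (v j) := by
    ext j i
    rfl
  have h3 : IsUnit (Matrix.of fun i j => v j (e i) : Matrix 𝔉.J 𝔉.J ℂ) := by
    rw [← Matrix.linearIndependent_cols_iff_isUnit, h2]
    exact h1
  exact ((Matrix.isUnit_iff_isUnit_det _).mp h3).ne_zero

open Classical in
lemma det_fundMat_ne_zero (τ : ℍ) : (fundMat 𝔉 e τ).det ≠ 0 :=
  det_ne_zero_of_linearIndependent 𝔉 e _ (𝔉.indep τ)

/-- The matrix of normalised conjugates. -/
def jetMatFun (τ : ℍ) : Matrix 𝔉.J 𝔉.J ℂ :=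
  Matrix.of fun i j => jetFun Γ (𝔉.wt j) (𝔉.F j) τ (e i)

/-- The matrix of jets. -/
def jetMat : Matrix 𝔉.J 𝔉.J ℂ :=
  Matrix.of fun i j => 𝔉.jet j (e i)

open Classical in
lemma det_jetMat_ne_zero : (jetMat 𝔉 e).det ≠ 0 :=
  det_ne_zero_of_linearIndependent 𝔉 e _ 𝔉.jet_indep

open Classical in
lemma tendsto_det_jetMatFun :
    Tendsto (fun τ => (jetMatFun 𝔉 e τ).det) atImInfty (𝓝 (jetMat 𝔉 e).det) := by
  have h : Tendsto (jetMatFun 𝔉 e) atImInfty (𝓝 (jetMat 𝔉 e)) := by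
    refine (tendsto_pi_nhds (f := fun (τ : ℍ) (i : 𝔉.J) (j : 𝔉.J) => jetMatFun 𝔉 e τ i j)
      (g := fun (i : 𝔉.J) (j : 𝔉.J) => jetMat 𝔉 e i j)).mpr fun i => ?_
    refine tendsto_pi_nhds.mpr fun j => ?_
    exact (tendsto_pi_nhds.mp (𝔉.hasJet j)) (e i)
  exact ((continuous_id.matrix_det).tendsto _).comp h

lemma Theta_jetFun (hadd : ThetaAdd Γ) (hzero : ThetaZero Γ) (k : ℤ) (f : ℍ → ℂ) (τ : ℍ) :
    Theta Γ (τ : ℂ) (jetFun Γ k f τ) = ev Γ k τ f := by
  have h := hadd (τ : ℂ) (-(τ : ℂ))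
  rw [add_neg_cancel, hzero] at h
  have h' := congrArg (fun L : (X Γ → ℂ) →ₗ[ℂ] (X Γ → ℂ) => L (ev Γ k τ f)) h
  simpa [jetFun] using h'.symm

open Classical in
lemma det_fundMat_eq (hadd : ThetaAdd Γ) (hzero : ThetaZero Γ) (τ : ℍ) :
    (fundMat 𝔉 e τ).det = LinearMap.det (Theta Γ (τ : ℂ)) * (jetMatFun 𝔉 e τ).det := by
  set L' : (𝔉.J → ℂ) →ₗ[ℂ] (𝔉.J → ℂ) :=
    (reidx 𝔉 e : (X Γ → ℂ) →ₗ[ℂ] (𝔉.J → ℂ)) ∘ₗ Theta Γ (τ : ℂ) ∘ₗ
      ((reidx 𝔉 e).symm : (𝔉.J → ℂ) →ₗ[ℂ] (X Γ → ℂ)) with hL'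
  have hdet : LinearMap.det L' = LinearMap.det (Theta Γ (τ : ℂ)) := LinearMap.det_conj _ _
  have hmat : fundMat 𝔉 e τ = LinearMap.toMatrix' L' * jetMatFun 𝔉 e τ := by
    ext i j
    have h1 : (LinearMap.toMatrix' L' * jetMatFun 𝔉 e τ) i j =
        (LinearMap.toMatrix' L').mulVec (fun l => jetMatFun 𝔉 e τ l j) i := rfl
    rw [h1, LinearMap.toMatrix'_mulVec]
    have h2 : (fun l => jetMatFun 𝔉 e τ l j) =
        reidx 𝔉 e (jetFun Γ (𝔉.wt j) (𝔉.F j) τ) := rfl
    rw [h2, hL']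
    simp only [LinearMap.coe_comp, LinearEquiv.coe_coe, Function.comp_apply,
      LinearEquiv.symm_apply_apply]
    rw [Theta_jetFun hadd hzero]
    rfl
  rw [hmat, Matrix.det_mul, LinearMap.det_toMatrix', hdet]

end FundMat

/-! ## The level one form `G = det² · Δ ^ (c - μ)` -/

section Main

variable (𝔉 : FundSystem Γ) (e : 𝔉.J ≃ X Γ)

variable (Γ) in
/-- `mExp = #T-orbits - μ`. -/
def mExp : ℤ :=
  (Nat.card (MulAction.orbitRel.Quotient (Subgroup.zpowers Tm) (X Γ)) : ℤ) - Nat.card (X Γ)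

open Classical in
/-- The level one form `det² · Δ ^ (c - μ)`. -/
def Gfun (τ : ℍ) : ℂ := (fundMat 𝔉 e τ).det ^ 2 * (Δ τ) ^ (mExp Γ)

open Classical in
lemma Gfun_ne_zero (τ : ℍ) : Gfun 𝔉 e τ ≠ 0 :=
  mul_ne_zero (pow_ne_zero _ (det_fundMat_ne_zero 𝔉 e τ))
    (zpow_ne_zero _ (discriminant_ne_zero τ))

lemma discriminant_slash (γ : SL(2, ℤ)) : (Δ ∣[(12 : ℤ)] γ) = Δ :=
  SlashInvariantForm.slash_action_generators_SL2Z discriminant_S_invariant
    discriminant_T_invariant γ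

lemma discriminant_smul (γ : SL(2, ℤ)) (τ : ℍ) : Δ (γ • τ) = denom γ τ ^ (12 : ℤ) * Δ τ := by
  have h := congrFun (discriminant_slash γ) τ
  rw [SL_slash_apply] at h
  have hd : denom γ τ ≠ 0 := denom_ne_zero _ _
  rw [← h, mul_comm (Δ (γ • τ)), ← mul_assoc, ← zpow_add₀ hd]
  simp

open Classical in
lemma Gfun_smul (hev : EvSmul Γ) (γ : SL(2, ℤ)) (τ : ℍ) :
    Gfun 𝔉 e (γ • τ) = denom γ τ ^ (2 * ∑ j, 𝔉.wt j + 12 * mExp Γ) * Gfun 𝔉 e τ := by
  have hd : denom γ τ ≠ 0 := denom_ne_zero _ _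
  rw [Gfun, Gfun, sq_det_fundMat_smul 𝔉 e hev, discriminant_smul, mul_zpow, ← zpow_mul,
    zpow_add₀ hd]
  ring

open Classical in
lemma Gfun_slash (hev : EvSmul Γ) (γ : SL(2, ℤ)) :
    (Gfun 𝔉 e) ∣[(2 * ∑ j, 𝔉.wt j + 12 * mExp Γ : ℤ)] γ = Gfun 𝔉 e := by
  ext τ
  have hd : denom γ τ ≠ 0 := denom_ne_zero _ _
  rw [SL_slash_apply, Gfun_smul 𝔉 e hev, mul_comm, ← mul_assoc, ← zpow_add₀ hd]
  simp

lemma mdiff_det {n : Type*} [Fintype n] [DecidableEq n] (A : ℍ → Matrix n n ℂ)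
    (hA : ∀ i j, MDiff (fun τ => A τ i j)) : MDiff (fun τ => (A τ).det) := by
  rw [UpperHalfPlane.mdifferentiable_iff]
  have hA' : ∀ i j, DifferentiableOn ℂ (fun z => A (ofComplex z) i j) {z | 0 < z.im} :=
    fun i j => UpperHalfPlane.mdifferentiable_iff.mp (hA i j)
  have h : ((fun τ => (A τ).det) ∘ ofComplex) =
      fun z => ∑ σ : Equiv.Perm n, ((Equiv.Perm.sign σ : ℤ) : ℂ) * ∏ i, A (ofComplex z) (σ i) i := by
    ext z
    simp only [Function.comp_apply, Matrix.det_apply]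
    refine Finset.sum_congr rfl fun σ _ => ?_
    rw [Units.smul_def, zsmul_eq_mul]
  rw [h]
  refine DifferentiableOn.fun_sum fun σ _ => ?_
  refine DifferentiableOn.const_mul ?_ _
  exact DifferentiableOn.fun_finsetProd fun i _ => hA' (σ i) i

lemma mdiff_fundMat_entry (i j : 𝔉.J) : MDiff (fun τ => fundMat 𝔉 e τ i j) :=
  ((𝔉.mem j).1.slash (𝔉.wt j) _ : MDiff ((𝔉.F j) ∣[𝔉.wt j] (((e i).out)⁻¹ : SL(2, ℤ))))

open Classical in
lemma mdiff_Gfun : MDiff (Gfun 𝔉 e) := by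
  have h1 : MDiff (fun τ => (fundMat 𝔉 e τ).det) := mdiff_det _ (mdiff_fundMat_entry 𝔉 e)
  rw [UpperHalfPlane.mdifferentiable_iff] at h1 ⊢
  have hΔ : DifferentiableOn ℂ ((Δ : ℍ → ℂ) ∘ ofComplex) {z | 0 < z.im} :=
    UpperHalfPlane.mdifferentiable_iff.mp CuspForm.discriminant.holo'
  have h : Gfun 𝔉 e ∘ ofComplex = fun z =>
      (((fun τ => (fundMat 𝔉 e τ).det) ∘ ofComplex) z) ^ 2 *
        (((Δ : ℍ → ℂ) ∘ ofComplex) z) ^ (mExp Γ) := rfl
  rw [h]
  exact (h1.pow 2).mul (hΔ.zpow (Or.inl fun z _ => discriminant_ne_zero _))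

open Classical in
lemma Gfun_eq (hadd : ThetaAdd Γ) (hzero : ThetaZero Γ) (hdet : DetTheta Γ) (τ : ℍ) :
    Gfun 𝔉 e τ = (jetMatFun 𝔉 e τ).det ^ 2 *
      (∏' n : ℕ, (1 - eta_q n (τ : ℂ)) ^ 24) ^ (mExp Γ) := by
  rw [Gfun, det_fundMat_eq 𝔉 e hadd hzero, hdet, discriminant_eq_q_prod, mul_zpow, mul_pow]
  have hq : (Complex.exp (π * Complex.I * (τ : ℂ) * ((Nat.card (X Γ) : ℂ) -
      Nat.card (MulAction.orbitRel.Quotient (Subgroup.zpowers Tm) (X Γ))))) ^ 2 *
      (Function.Periodic.qParam 1 (τ : ℂ)) ^ (mExp Γ) = 1 := by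
    rw [Function.Periodic.qParam, ← Complex.exp_int_mul, ← Complex.exp_nat_mul,
      ← Complex.exp_add]
    have : ((2 : ℕ) : ℂ) * (π * Complex.I * (τ : ℂ) * ((Nat.card (X Γ) : ℂ) -
        Nat.card (MulAction.orbitRel.Quotient (Subgroup.zpowers Tm) (X Γ)))) +
        ((mExp Γ : ℤ) : ℂ) * (2 * π * Complex.I * (τ : ℂ) / ((1 : ℝ) : ℂ)) = 0 := by
      simp only [mExp]
      push_cast
      ring
    rw [this, Complex.exp_zero]
  calc _ = ((Complex.exp (π * Complex.I * (τ : ℂ) * ((Nat.card (X Γ) : ℂ) -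
      Nat.card (MulAction.orbitRel.Quotient (Subgroup.zpowers Tm) (X Γ))))) ^ 2 *
      (Function.Periodic.qParam 1 (τ : ℂ)) ^ (mExp Γ)) * ((jetMatFun 𝔉 e τ).det ^ 2 *
      (∏' n : ℕ, (1 - eta_q n (τ : ℂ)) ^ 24) ^ (mExp Γ)) := by ring
    _ = _ := by rw [hq, one_mul]

open Classical in
lemma tendsto_Gfun (hadd : ThetaAdd Γ) (hzero : ThetaZero Γ) (hdet : DetTheta Γ) :
    Tendsto (Gfun 𝔉 e) atImInfty (𝓝 ((jetMat 𝔉 e).det ^ 2)) := by
  have h1 := (tendsto_det_jetMatFun 𝔉 e).pow 2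
  have h2 := (tendsto_atImInfty_tprod_one_sub_eta_q_pow).zpow₀ (mExp Γ)
    (Or.inl one_ne_zero)
  have h3 := h1.mul h2
  rw [one_zpow, mul_one] at h3
  refine h3.congr fun τ => ?_
  exact (Gfun_eq 𝔉 e hadd hzero hdet τ).symm

/-- **P3** (`FundSystem.sum_wt` of the skeleton), from explicit hypotheses. -/
theorem sum_wt_of [Γ.FiniteIndex] (hev : EvSmul Γ) (hdet : DetTheta Γ) (hadd : ThetaAdd Γ)
    (hzero : ThetaZero Γ) (hw : WeightZero) (𝔉 : FundSystem Γ) :
    ∑ j, 𝔉.wt j + 6 * Nat.card (MulAction.orbitRel.Quotient (Subgroup.zpowers Tm) (X Γ)) =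
      6 * Nat.card (X Γ) := by
  classical
  obtain ⟨e⟩ : Nonempty (𝔉.J ≃ X Γ) := by
    have h : Nat.card 𝔉.J = Nat.card (X Γ) := by
      rw [Nat.card_eq_fintype_card]; exact 𝔉.card_eq
    exact ⟨((Finite.equivFin 𝔉.J).trans (finCongr h)).trans (Finite.equivFin (X Γ)).symm⟩
  have hlim := tendsto_Gfun 𝔉 e hadd hzero hdet
  have hmem : Gfun 𝔉 e ∈ MF ⊤ (2 * ∑ j, 𝔉.wt j + 12 * mExp Γ) := by
    refine ⟨mdiff_Gfun 𝔉 e, fun γ _ => Gfun_slash 𝔉 e hev γ, fun γ => ?_⟩
    rw [Gfun_slash 𝔉 e hev γ]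
    exact hlim.isBigO_one ℝ
  have hnz : ¬ IsZeroAtImInfty (Gfun 𝔉 e) := by
    intro h0
    have := tendsto_nhds_unique hlim h0
    exact pow_ne_zero 2 (det_jetMat_ne_zero 𝔉 e) this
  have hk := hw hmem (Gfun_ne_zero 𝔉 e) hnz
  simp only [mExp] at hk
  linarith

end Main

end Fermat.Agent.S20.P3helper361

end
end
-- ===== PACK-END S20/P3_helper361.lean

-- ===== PACK-BEGIN S20/Jets_helper759.lean
section



/-!
# S20 (frame route, captain helper20) — package C1.2–C1.5: jets at the cusps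

Exact Skeleton statements `exists_hasJet`, `hasJet_mul`, `ker_jet`, `mem_SF_iff_jet`
(namespace `Fermat.Agent.S20.Jets759`), proved from `Core.lean` and the landed leaf
`B_helper980.lean` (division by `Δ`).
-/

set_option autoImplicit false
set_option linter.unusedSectionVars false

noncomputable section

namespace Fermat.Agent.S20.Jets759

open Fermat.Agent.S20
open UpperHalfPlane ModularForm CongruenceSubgroup MatrixGroups Filter Module Asymptotics
open scoped Manifold Topology Real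

local notation "Δ" => ModularForm.discriminant
local notation "Tm" => ModularGroup.T

/-- The character `j ↦ exp (2πi m j / h)`. -/
def chi (h : ℕ) (m : ℤ) (j : ℕ) : ℂ := Complex.exp (2 * π * Complex.I * m * j / h)

lemma chi_eq_pow (h : ℕ) (m : ℤ) (j : ℕ) : chi h m j = (chi h m 1) ^ j := by
  unfold chi
  rw [← Complex.exp_nat_mul]
  congr 1
  push_cast
  ring

lemma chi_zero_right (h : ℕ) (m : ℤ) : chi h m 0 = 1 := by
  simp [chi]

lemma chi_per (h : ℕ) (hh : 0 < h) (m : ℤ) : chi h m h = 1 := by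
  unfold chi
  have hh' : (h : ℂ) ≠ 0 := by exact_mod_cast hh.ne'
  rw [show 2 * (π : ℂ) * Complex.I * m * h / h = m * (2 * π * Complex.I) by
    field_simp]
  exact Complex.exp_int_mul_two_pi_mul_I m

lemma chi_add (h : ℕ) (m n : ℤ) (j : ℕ) : chi h (m + n) j = chi h m j * chi h n j := by
  unfold chi
  rw [← Complex.exp_add]
  congr 1
  push_cast
  ring

lemma chi_succ (h : ℕ) (m : ℤ) (j : ℕ) : chi h m (j + 1) = chi h m j * chi h m 1 := by
  rw [chi_eq_pow h m (j + 1), chi_eq_pow h m j, pow_succ]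

lemma chi_neg_mul_chi (h : ℕ) (m : ℤ) (j : ℕ) : chi h (-m) j * chi h m j = 1 := by
  rw [← chi_add]
  simp [chi]

lemma chi_one_ne_one (h : ℕ) (hh : 0 < h) (m : ℤ) (hm : ¬ (h : ℤ) ∣ m) : chi h m 1 ≠ 1 := by
  unfold chi
  intro h1
  rw [Complex.exp_eq_one_iff] at h1
  obtain ⟨n, hn⟩ := h1
  apply hm
  refine ⟨n, ?_⟩
  have hh' : (h : ℂ) ≠ 0 := by exact_mod_cast hh.ne'
  have h2 : (m : ℂ) = (h : ℂ) * n := by
    have hpi : (2 * (π : ℂ) * Complex.I) ≠ 0 := Complex.two_pi_I_ne_zero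
    have : 2 * (π : ℂ) * Complex.I * m = h * (n * (2 * π * Complex.I)) := by
      rw [← hn]; field_simp; push_cast; ring
    have h3 : (2 * (π : ℂ) * Complex.I) * m = (2 * π * Complex.I) * (h * n) := by
      rw [this]; ring
    exact mul_left_cancel₀ hpi h3
  exact_mod_cast h2

lemma sum_chi (h : ℕ) (hh : 0 < h) (m : ℤ) :
    ∑ j ∈ Finset.range h, chi h m j = if (h : ℤ) ∣ m then (h : ℂ) else 0 := by
  split_ifs with hm
  · obtain ⟨n, rfl⟩ := hm
    have : ∀ j ∈ Finset.range h, chi h (h * n) j = 1 := by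
      intro j _
      unfold chi
      have hh' : (h : ℂ) ≠ 0 := by exact_mod_cast hh.ne'
      rw [show 2 * (π : ℂ) * Complex.I * ((h * n : ℤ) : ℂ) * j / h
        = ((n * j : ℤ) : ℂ) * (2 * π * Complex.I) by push_cast; field_simp]
      exact Complex.exp_int_mul_two_pi_mul_I _
    rw [Finset.sum_congr rfl this]
    simp
  · have h1 := chi_one_ne_one h hh m hm
    have : ∑ j ∈ Finset.range h, chi h m j = ∑ j ∈ Finset.range h, (chi h m 1) ^ j :=
      Finset.sum_congr rfl fun j _ => chi_eq_pow h m j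
    rw [this, geom_sum_eq h1, ← chi_eq_pow, chi_per h hh, sub_self, zero_div]

/-- symmetric in the two arguments -/
lemma chi_symm (h : ℕ) (a i : ℕ) : chi h (a : ℤ) i = chi h (i : ℤ) a := by
  unfold chi
  congr 1
  push_cast
  ring

lemma chi_neg_symm (h : ℕ) (a i : ℕ) : chi h (-(a : ℤ)) i = chi h (-(i : ℤ)) a := by
  unfold chi
  congr 1
  push_cast
  ring

variable (Γ : Subgroup SL(2, ℤ)) [Γ.FiniteIndex]

instance : Finite (X Γ) := Subgroup.finite_quotient_of_finiteIndex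

lemma per_pos : 0 < per Γ := orderOf_pos _

lemma per_ne_zero : ((per Γ : ℕ) : ℂ) ≠ 0 := by exact_mod_cast (per_pos Γ).ne'

lemma T_pow_per_smul (x : X Γ) : (Tm ^ per Γ) • x = x := by
  have h := pow_orderOf_eq_one (MulAction.toPermHom SL(2, ℤ) (X Γ) Tm)
  rw [← map_pow] at h
  have := congrArg (fun σ : Equiv.Perm (X Γ) => σ x) h
  simpa [per] using this

lemma shiftT_apply (v : X Γ → ℂ) (x : X Γ) : shiftT Γ v x = v (Tm⁻¹ • x) := rfl

lemma shiftT_pow_apply (i : ℕ) (v : X Γ → ℂ) (x : X Γ) :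
    ((shiftT Γ) ^ i) v x = v ((Tm ^ i)⁻¹ • x) := by
  induction i generalizing v x with
  | zero => simp
  | succ n ih =>
    rw [pow_succ, Module.End.mul_apply, ih, shiftT_apply, pow_succ, mul_inv_rev, mul_smul]

lemma shiftT_pow_per : (shiftT Γ) ^ (per Γ) = 1 := by
  ext v x
  rw [shiftT_pow_apply]
  simp only [Module.End.one_apply]
  congr 1
  rw [inv_smul_eq_iff, T_pow_per_smul]

lemma proj_eq (a : ℕ) : proj Γ a = ((per Γ : ℂ))⁻¹ • ∑ i ∈ Finset.range (per Γ),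
    chi (per Γ) (-(a : ℤ)) i • (shiftT Γ) ^ i := by
  unfold proj chi
  congr 1
  refine Finset.sum_congr rfl fun i _ => ?_
  congr 2
  push_cast
  ring

lemma chi_one_mul_chi_neg_succ (h : ℕ) (a i : ℕ) :
    chi h (a : ℤ) 1 * chi h (-(a : ℤ)) (i + 1) = chi h (-(a : ℤ)) i := by
  unfold chi
  rw [← Complex.exp_add]
  congr 1
  push_cast
  ring

lemma chi_mul_chi_one (h : ℕ) (a n : ℕ) :
    chi h (a : ℤ) n * chi h (a : ℤ) 1 = chi h (a : ℤ) (n + 1) := by
  unfold chi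
  rw [← Complex.exp_add]
  congr 1
  push_cast
  ring

/-- `shiftT * proj a = ζ^a • proj a`. -/
lemma shiftT_mul_proj (a : ℕ) : shiftT Γ * proj Γ a = chi (per Γ) a 1 • proj Γ a := by
  have hpos := per_pos Γ
  have key : ∀ i : ℕ, shiftT Γ * (chi (per Γ) (-(a : ℤ)) i • (shiftT Γ) ^ i)
      = chi (per Γ) a 1 • (chi (per Γ) (-(a : ℤ)) (i + 1) • (shiftT Γ) ^ (i + 1)) := by
    intro i
    rw [mul_smul_comm, ← pow_succ', smul_smul, chi_one_mul_chi_neg_succ]
  have h1 := Finset.sum_range_succ (fun i => chi (per Γ) (-(a : ℤ)) i • (shiftT Γ) ^ i) (per Γ)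
  have h2 := Finset.sum_range_succ' (fun i => chi (per Γ) (-(a : ℤ)) i • (shiftT Γ) ^ i) (per Γ)
  rw [h1] at h2
  have h3 : chi (per Γ) (-(a : ℤ)) (per Γ) • (shiftT Γ) ^ (per Γ)
      = chi (per Γ) (-(a : ℤ)) 0 • (shiftT Γ) ^ 0 := by
    rw [chi_per (per Γ) hpos, chi_zero_right, shiftT_pow_per, pow_zero]
  rw [h3] at h2
  have h4 := (add_right_cancel h2).symm
  have main : shiftT Γ * ∑ i ∈ Finset.range (per Γ), chi (per Γ) (-(a : ℤ)) i • (shiftT Γ) ^ i
      = chi (per Γ) a 1 • ∑ i ∈ Finset.range (per Γ), chi (per Γ) (-(a : ℤ)) i • (shiftT Γ) ^ i := by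
    rw [Finset.mul_sum, Finset.sum_congr rfl fun i _ => key i, ← Finset.smul_sum, h4]
  rw [proj_eq, mul_smul_comm, main, smul_comm]

lemma shiftT_pow_mul_proj (a j : ℕ) :
    (shiftT Γ) ^ j * proj Γ a = chi (per Γ) a j • proj Γ a := by
  induction j with
  | zero => simp [chi_zero_right]
  | succ n ih =>
    rw [pow_succ, mul_assoc, shiftT_mul_proj, mul_smul_comm, ih, smul_smul, mul_comm,
      chi_mul_chi_one]

lemma proj_mul_proj (a b : ℕ) (ha : a < per Γ) (hb : b < per Γ) :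
    proj Γ a * proj Γ b = if a = b then proj Γ a else 0 := by
  have hpos := per_pos Γ
  have hne := per_ne_zero Γ
  conv_lhs => rw [proj_eq Γ a]
  rw [smul_mul_assoc, Finset.sum_mul]
  have key : ∀ i ∈ Finset.range (per Γ), (chi (per Γ) (-(a : ℤ)) i • (shiftT Γ) ^ i) * proj Γ b
      = chi (per Γ) ((b : ℤ) - a) i • proj Γ b := by
    intro i _
    rw [smul_mul_assoc, shiftT_pow_mul_proj, smul_smul, ← chi_add]
    congr 2
    ring
  rw [Finset.sum_congr rfl key, ← Finset.sum_smul, sum_chi (per Γ) hpos, smul_smul]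
  have hdvd : (((per Γ : ℕ) : ℤ) ∣ (b : ℤ) - a) ↔ a = b := by
    constructor
    · intro hd
      have h1 : ((b : ℤ) - a) = 0 := by
        apply Int.eq_zero_of_abs_lt_dvd hd
        rw [abs_lt]
        constructor <;> omega
      omega
    · rintro rfl
      simp
  by_cases hab : a = b
  · subst hab
    rw [if_pos (hdvd.mpr rfl), if_pos rfl, inv_mul_cancel₀ hne, one_smul]
  · rw [if_neg (fun hd => hab (hdvd.mp hd)), if_neg hab, mul_zero, zero_smul]

lemma sum_proj : ∑ a ∈ Finset.range (per Γ), proj Γ a = 1 := by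
  have hpos := per_pos Γ
  have hne := per_ne_zero Γ
  simp_rw [proj_eq Γ]
  rw [← Finset.smul_sum, Finset.sum_comm]
  have key : ∀ i ∈ Finset.range (per Γ),
      ∑ a ∈ Finset.range (per Γ), chi (per Γ) (-(a : ℤ)) i • (shiftT Γ) ^ i
      = (if i = 0 then ((per Γ : ℕ) : ℂ) else 0) • (shiftT Γ) ^ i := by
    intro i hi
    rw [← Finset.sum_smul]
    congr 1
    rw [Finset.sum_congr rfl fun a _ => chi_neg_symm (per Γ) a i, sum_chi (per Γ) hpos]
    have hi' := Finset.mem_range.mp hi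
    have hdvd : (((per Γ : ℕ) : ℤ) ∣ -(i : ℤ)) ↔ i = 0 := by
      constructor
      · intro hd
        have h1 : (-(i : ℤ)) = 0 := by
          apply Int.eq_zero_of_abs_lt_dvd hd
          rw [abs_lt]
          constructor <;> omega
        omega
      · rintro rfl
        simp
    simp only [hdvd]
  rw [Finset.sum_congr rfl key]
  rw [Finset.sum_eq_single 0]
  · rw [if_pos rfl, pow_zero, smul_smul, inv_mul_cancel₀ hne, one_smul]
  · intro i _ hi
    simp [hi]
  · intro h0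
    exact absurd (Finset.mem_range.mpr hpos) h0

section analytic

/-- `E θ τ = exp (2πi θ τ)`. -/
def E (θ : ℝ) (τ : ℍ) : ℂ := Complex.exp (2 * π * Complex.I * θ * τ)

lemma E_ne_zero (θ : ℝ) (τ : ℍ) : E θ τ ≠ 0 := Complex.exp_ne_zero _

lemma E_zero (τ : ℍ) : E 0 τ = 1 := by simp [E]

lemma E_add (θ₁ θ₂ : ℝ) (τ : ℍ) : E (θ₁ + θ₂) τ = E θ₁ τ * E θ₂ τ := by
  unfold E
  rw [← Complex.exp_add]
  congr 1
  push_cast
  ring

lemma E_neg_mul_E (θ : ℝ) (τ : ℍ) : E (-θ) τ * E θ τ = 1 := by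
  rw [← E_add, neg_add_cancel, E_zero]

lemma norm_E (θ : ℝ) (τ : ℍ) : ‖E θ τ‖ = Real.exp (-2 * π * θ * τ.im) := by
  unfold E
  rw [Complex.norm_exp]
  congr 1
  simp [Complex.mul_re, Complex.mul_im]

lemma mdiff_E (θ : ℝ) : MDiff (E θ) := by
  rw [UpperHalfPlane.mdifferentiable_iff]
  have h1 : DifferentiableOn ℂ (fun z : ℂ => Complex.exp (2 * π * Complex.I * θ * z))
      {z | 0 < z.im} := by
    apply Differentiable.differentiableOn
    fun_prop
  refine h1.congr fun z hz => ?_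
  simp only [Function.comp_apply, E]
  rw [ofComplex_apply_of_im_pos hz]

lemma coe_T_smul (τ : ℍ) : ((Tm • τ : ℍ) : ℂ) = τ + 1 := by
  have := ModularGroup.coe_T_zpow_smul_eq (z := τ) (n := 1)
  simpa using this

lemma im_T_smul' (τ : ℍ) : (Tm • τ).im = τ.im := ModularGroup.im_T_smul τ

lemma E_T_smul (θ : ℝ) (τ : ℍ) :
    E θ (Tm • τ) = E θ τ * Complex.exp (2 * π * Complex.I * θ) := by
  unfold E
  rw [coe_T_smul, ← Complex.exp_add]
  congr 1
  ring

lemma E_one_T_smul (τ : ℍ) : E 1 (Tm • τ) = E 1 τ := by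
  rw [E_T_smul]
  have : Complex.exp (2 * π * Complex.I * ((1 : ℝ) : ℂ)) = 1 := by
    simp
  rw [this, mul_one]

lemma tendsto_E_zero {θ : ℝ} (hθ : 0 < θ) : Tendsto (E θ) atImInfty (𝓝 0) := by
  rw [tendsto_zero_iff_norm_tendsto_zero]
  simp_rw [norm_E]
  have h1 : Tendsto (fun τ : ℍ => τ.im) atImInfty atTop := tendsto_comap
  have h2 : Tendsto (fun y : ℝ => -2 * π * θ * y) atTop atBot := by
    apply Filter.Tendsto.const_mul_atTop_of_neg _ tendsto_id
    have := Real.pi_pos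
    nlinarith [mul_pos Real.pi_pos hθ]
  exact Real.tendsto_exp_atBot.comp (h2.comp h1)

/-- Periodicity in the form required by Mathlib. -/
lemma periodic_comp_ofComplex {φ : ℍ → ℂ} (hper : ∀ τ, φ (Tm • τ) = φ τ) :
    Function.Periodic (φ ∘ ofComplex) (1 : ℝ) := by
  intro w
  by_cases hw : 0 < Complex.im w
  · have hw' : 0 < Complex.im (w + (1 : ℝ)) := by simpa using hw
    simp only [Function.comp_apply, ofComplex_apply_of_im_pos hw', ofComplex_apply_of_im_pos hw]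
    rw [← hper ⟨w, hw⟩]
    congr 1
    apply UpperHalfPlane.ext
    rw [coe_T_smul]
    simp
  · have hw' : Complex.im (w + (1 : ℝ)) ≤ 0 := by simpa using not_lt.mp hw
    simp only [Function.comp_apply, ofComplex_apply_of_im_nonpos hw',
      ofComplex_apply_of_im_nonpos (not_lt.mp hw)]

/-- A `1`-periodic holomorphic function bounded at `i∞` has a limit there. -/
lemma tendsto_of_periodic {φ : ℍ → ℂ} (hper : ∀ τ, φ (Tm • τ) = φ τ) (hhol : MDiff φ)
    (hbdd : IsBoundedAtImInfty φ) : Tendsto φ atImInfty (𝓝 (valueAtInfty φ)) := by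
  have hp := periodic_comp_ofComplex hper
  have h1 := UpperHalfPlane.exp_decay_sub_atImInfty (h := 1) one_pos hp hhol hbdd
  have h2 : Tendsto (fun τ : ℍ => Real.exp (-2 * π * τ.im / 1)) atImInfty (𝓝 0) := by
    have h3 : Tendsto (fun τ : ℍ => τ.im) atImInfty atTop := tendsto_comap
    have h4 : Tendsto (fun y : ℝ => -2 * π * y / 1) atTop atBot := by
      simp only [div_one]
      apply Filter.Tendsto.const_mul_atTop_of_neg _ tendsto_id
      nlinarith [Real.pi_pos]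
    exact Real.tendsto_exp_atBot.comp (h4.comp h3)
  have h5 := h1.trans_tendsto h2
  have h6 := h5.add_const (valueAtInfty φ)
  simpa using h6

/-- A `1`-periodic holomorphic function vanishing at `i∞` decays exponentially. -/
lemma isBigO_of_periodic {φ : ℍ → ℂ} (hper : ∀ τ, φ (Tm • τ) = φ τ) (hhol : MDiff φ)
    (hzero : IsZeroAtImInfty φ) : φ =O[atImInfty] fun τ : ℍ => Real.exp (-2 * π * τ.im) := by
  have hp := periodic_comp_ofComplex hper
  have := hzero.exp_decay_atImInfty (h := 1) one_pos hp hhol hzero.isBoundedAtImInfty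
  simpa using this


/-- Key lemma: a holomorphic function on `ℍ`, bounded at `i∞`, with
`u (τ + 1) = e^{2πiθ} u τ`, `0 ≤ θ < 1`: then `e^{-2πiθτ} u τ` has a limit at `i∞`. -/
lemma twisted_aux {u : ℍ → ℂ} {θ : ℝ} (hθ1 : θ < 1)
    (hhol : MDiff u) (hbdd : IsBoundedAtImInfty u)
    (hper : ∀ τ, u (Tm • τ) = Complex.exp (2 * π * Complex.I * θ) * u τ) :
    (∀ τ, (fun τ : ℍ => E (-θ) τ * u τ) (Tm • τ) = (fun τ : ℍ => E (-θ) τ * u τ) τ) ∧
    MDiff (fun τ : ℍ => E (-θ) τ * u τ) ∧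
    IsBoundedAtImInfty (fun τ : ℍ => E (-θ) τ * u τ) := by
  have hwper : ∀ τ, (fun τ : ℍ => E (-θ) τ * u τ) (Tm • τ) = (fun τ : ℍ => E (-θ) τ * u τ) τ := by
    intro τ
    simp only
    rw [E_T_smul, hper]
    have : Complex.exp (2 * π * Complex.I * ((-θ : ℝ) : ℂ))
        * Complex.exp (2 * π * Complex.I * θ) = 1 := by
      rw [← Complex.exp_add]
      have : 2 * (π : ℂ) * Complex.I * ((-θ : ℝ) : ℂ) + 2 * π * Complex.I * θ = 0 := by
        push_cast; ring
      rw [this, Complex.exp_zero]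
    linear_combination (E (-θ) τ * u τ) * this
  have hwhol : MDiff (fun τ : ℍ => E (-θ) τ * u τ) := (mdiff_E (-θ)).mul hhol
  refine ⟨hwper, hwhol, ?_⟩
  -- φ₁ = E 1 * w is periodic, holomorphic, zero at i∞
  have hφper : ∀ τ, (fun τ : ℍ => E 1 τ * (E (-θ) τ * u τ)) (Tm • τ)
      = (fun τ : ℍ => E 1 τ * (E (-θ) τ * u τ)) τ := fun τ => by
    have := hwper τ
    simp only at this ⊢
    rw [E_one_T_smul, this]
  have hφhol : MDiff (fun τ : ℍ => E 1 τ * (E (-θ) τ * u τ)) := (mdiff_E 1).mul hwhol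
  have hφeq : (fun τ : ℍ => E 1 τ * (E (-θ) τ * u τ)) = fun τ => E (1 - θ) τ * u τ := by
    funext τ
    rw [← mul_assoc, ← E_add]
    congr 2
  have hφzero : IsZeroAtImInfty (fun τ : ℍ => E 1 τ * (E (-θ) τ * u τ)) := by
    rw [hφeq]
    have h1 : ZeroAtFilter atImInfty (E (1 - θ)) := tendsto_E_zero (sub_pos.mpr hθ1)
    exact h1.mul_boundedAtFilter hbdd
  have hdecay := isBigO_of_periodic hφper hφhol hφzero
  -- w = E (-1) * φ₁
  have hE : (E (-1)) =O[atImInfty] fun τ : ℍ => Real.exp (2 * π * τ.im) := by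
    apply IsBigO.of_bound'
    filter_upwards with τ
    rw [norm_E, Real.norm_eq_abs, abs_of_pos (Real.exp_pos _)]
    apply le_of_eq
    congr 1
    ring
  have h2 := hE.mul hdecay
  have h3 : (fun τ : ℍ => Real.exp (2 * π * τ.im) * Real.exp (-2 * π * τ.im))
      = fun _ => (1 : ℝ) := by
    funext τ
    rw [← Real.exp_add]
    have : 2 * π * τ.im + -2 * π * τ.im = 0 := by ring
    rw [this, Real.exp_zero]
  rw [h3] at h2
  have h4 : (fun τ : ℍ => E (-1) τ * (E 1 τ * (E (-θ) τ * u τ)))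
      = fun τ : ℍ => E (-θ) τ * u τ := by
    funext τ
    rw [← mul_assoc, E_neg_mul_E, one_mul]
  rw [h4] at h2
  exact h2

lemma exists_tendsto_twisted {u : ℍ → ℂ} {θ : ℝ} (hθ1 : θ < 1)
    (hhol : MDiff u) (hbdd : IsBoundedAtImInfty u)
    (hper : ∀ τ, u (Tm • τ) = Complex.exp (2 * π * Complex.I * θ) * u τ) :
    ∃ L, Tendsto (fun τ : ℍ => E (-θ) τ * u τ) atImInfty (𝓝 L) := by
  obtain ⟨h1, h2, h3⟩ := twisted_aux hθ1 hhol hbdd hper
  exact ⟨_, tendsto_of_periodic h1 h2 h3⟩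

lemma isBigO_of_twisted_tendsto_zero {u : ℍ → ℂ} {θ : ℝ} (hθ0 : 0 ≤ θ) (hθ1 : θ < 1)
    (hhol : MDiff u) (hbdd : IsBoundedAtImInfty u)
    (hper : ∀ τ, u (Tm • τ) = Complex.exp (2 * π * Complex.I * θ) * u τ)
    (h0 : Tendsto (fun τ : ℍ => E (-θ) τ * u τ) atImInfty (𝓝 0)) :
    u =O[atImInfty] fun τ : ℍ => Real.exp (-2 * π * τ.im) := by
  obtain ⟨h1, h2, _⟩ := twisted_aux hθ1 hhol hbdd hper
  have hdecay := isBigO_of_periodic h1 h2 h0
  have hE : (E θ) =O[atImInfty] fun _ : ℍ => (1 : ℝ) := by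
    apply IsBigO.of_bound'
    filter_upwards with τ
    rw [norm_E, norm_one]
    apply Real.exp_le_one_iff.mpr
    have := τ.im_pos
    have := Real.pi_pos
    nlinarith [mul_nonneg (mul_nonneg Real.pi_pos.le hθ0) τ.im_pos.le]
  have h3 := hE.mul hdecay
  have h4 : (fun τ : ℍ => E θ τ * (E (-θ) τ * u τ)) = u := by
    funext τ
    rw [← mul_assoc, mul_comm (E θ τ), E_neg_mul_E, one_mul]
  rw [h4] at h3
  simpa using h3

end analytic

section modular

variable {Γ : Subgroup SL(2, ℤ)} [Γ.FiniteIndex]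

/-- `ev` at the coset of `g` (for `Γ`-invariant `f`). -/
lemma ev_mk' {k : ℤ} {f : ℍ → ℂ} (hf : ∀ γ ∈ Γ, f ∣[k] γ = f) (g : SL(2, ℤ)) (τ : ℍ) :
    ev Γ k τ f (QuotientGroup.mk g) = (f ∣[k] g⁻¹) τ := by
  obtain ⟨γ, hγ⟩ := QuotientGroup.mk_out_eq_mul Γ g
  rw [ev_apply]
  show (f ∣[k] ((QuotientGroup.mk g : SL(2, ℤ) ⧸ Γ).out)⁻¹) τ = _
  rw [hγ, mul_inv_rev, SlashAction.slash_mul, hf _ (inv_mem γ.2)]

lemma slash_eq_ev {k : ℤ} {f : ℍ → ℂ} (hf : ∀ γ ∈ Γ, f ∣[k] γ = f) (g : SL(2, ℤ)) :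
    f ∣[k] g = fun τ => ev Γ k τ f (QuotientGroup.mk g⁻¹) := by
  funext τ
  rw [ev_mk' hf, inv_inv]

lemma denom_T (τ : ℍ) : denom (Tm : SL(2, ℤ)) τ = 1 := by
  rw [ModularGroup.denom_apply]
  simp [ModularGroup.T]

lemma slash_T_apply (k : ℤ) (φ : ℍ → ℂ) (τ : ℍ) : (φ ∣[k] Tm) τ = φ (Tm • τ) := by
  rw [SL_slash_apply, denom_T, one_zpow, mul_one]

/-- `ev` at `T • τ`. -/
lemma ev_T' {k : ℤ} {f : ℍ → ℂ} (hf : ∀ γ ∈ Γ, f ∣[k] γ = f) (τ : ℍ) :
    ev Γ k (Tm • τ) f = shiftT Γ (ev Γ k τ f) := by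
  funext x
  rw [shiftT_apply, ev_apply, ← slash_T_apply k (f ∣[k] (x.out)⁻¹) τ, ← SlashAction.slash_mul]
  have hx : Tm⁻¹ • x = QuotientGroup.mk (Tm⁻¹ * x.out) := by
    conv_lhs => rw [← QuotientGroup.out_eq' x]
    rfl
  rw [hx, ev_mk' hf, mul_inv_rev, inv_inv]

/-- `ev` of a product with a level one form. -/
lemma ev_mul' {a k : ℤ} {E₀ : ℍ → ℂ} (hE : E₀ ∈ MF ⊤ a) (f : ℍ → ℂ) (τ : ℍ) :
    ev Γ (a + k) τ (E₀ * f) = E₀ τ • ev Γ k τ f := by
  funext x
  rw [ev_apply, mul_slash_SL2, hE.2.1 _ (Subgroup.mem_top _)]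
  rfl

/-- linear functionals of the vector of conjugates are holomorphic and bounded at `i∞`. -/
lemma mdiff_bdd_functional {k : ℤ} {f : ℍ → ℂ} (hf : f ∈ MF Γ k)
    (ℓ : (X Γ → ℂ) →ₗ[ℂ] ℂ) :
    MDiff (fun τ : ℍ => ℓ (ev Γ k τ f)) ∧ IsBoundedAtImInfty (fun τ : ℍ => ℓ (ev Γ k τ f)) := by
  classical
  have : Fintype (X Γ) := Fintype.ofFinite _
  have hrep : (fun τ : ℍ => ℓ (ev Γ k τ f))
      = ∑ y : X Γ, ℓ (Pi.single y 1) • (f ∣[k] (y.out)⁻¹) := by
    funext τ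
    rw [LinearMap.pi_apply_eq_sum_univ ℓ (ev Γ k τ f), Finset.sum_apply]
    refine Finset.sum_congr rfl fun y _ => ?_
    rw [Pi.smul_apply, smul_eq_mul, smul_eq_mul, ev_apply, mul_comm]
    congr 2
    funext z
    simp [Pi.single_apply, eq_comm]
  rw [hrep]
  constructor
  · have : ∀ y ∈ (Finset.univ : Finset (X Γ)),
        MDiff (ℓ (Pi.single y 1) • (f ∣[k] (y.out)⁻¹)) := by
      intro y _
      exact (hf.1.slash k _).const_smul _
    exact MDifferentiable.sum this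
  · have : ∀ y ∈ (Finset.univ : Finset (X Γ)),
        ℓ (Pi.single y 1) • (f ∣[k] (y.out)⁻¹) ∈ boundedFilterSubmodule ℂ atImInfty := by
      intro y _
      exact (boundedFilterSubmodule ℂ atImInfty).smul_mem _ (hf.2.2 _)
    exact (boundedFilterSubmodule ℂ atImInfty).sum_mem this

/-- the twist exponent `a / h`. -/
def th (Γ : Subgroup SL(2, ℤ)) (a : ℕ) : ℝ := (a : ℝ) / (per Γ : ℝ)

variable (Γ) in
lemma th_nonneg (a : ℕ) : 0 ≤ th Γ a := by
  unfold th
  positivity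

variable (Γ) in
lemma th_lt_one {a : ℕ} (ha : a < per Γ) : th Γ a < 1 := by
  unfold th
  rw [div_lt_one (by exact_mod_cast per_pos Γ)]
  exact_mod_cast ha

variable (Γ) in
lemma th_pos {a : ℕ} (ha : 0 < a) : 0 < th Γ a := by
  unfold th
  have := per_pos Γ
  positivity

variable (Γ) in
lemma th_zero : th Γ 0 = 0 := by simp [th]

variable (Γ) in
lemma chi_eq_exp_th (a : ℕ) :
    chi (per Γ) a 1 = Complex.exp (2 * π * Complex.I * ((th Γ a : ℝ) : ℂ)) := by
  unfold chi th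
  congr 1
  push_cast
  ring

variable (Γ) in
lemma Theta_coeff (a : ℕ) (τ : ℍ) :
    Complex.exp (2 * π * Complex.I * a * (-(τ : ℂ)) / per Γ) = E (-(th Γ a)) τ := by
  unfold E th
  congr 1
  push_cast
  ring

variable (Γ) in
lemma jetFun_eq (k : ℤ) (f : ℍ → ℂ) (τ : ℍ) :
    jetFun Γ k f τ = ∑ a ∈ Finset.range (per Γ), E (-(th Γ a)) τ • proj Γ a (ev Γ k τ f) := by
  unfold jetFun Theta
  rw [LinearMap.sum_apply]
  refine Finset.sum_congr rfl fun a _ => ?_
  rw [LinearMap.smul_apply, Theta_coeff]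

variable (Γ) in
lemma proj_mul_shiftT (a : ℕ) : proj Γ a * shiftT Γ = chi (per Γ) a 1 • proj Γ a := by
  have hc : Commute (shiftT Γ) (proj Γ a) := by
    rw [proj_eq]
    refine Commute.smul_right (Commute.sum_right _ _ _ fun i _ => ?_) _
    exact Commute.smul_right ((Commute.refl _).pow_right i) _
  rw [← hc.eq, shiftT_mul_proj]

variable (Γ) in
lemma proj_proj_apply {a b : ℕ} (ha : a < per Γ) (hb : b < per Γ) (v : X Γ → ℂ) :
    proj Γ a (proj Γ b v) = if a = b then proj Γ a v else 0 := by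
  have := congrArg (fun L : Module.End ℂ (X Γ → ℂ) => L v) (proj_mul_proj Γ a b ha hb)
  simp only [Module.End.mul_apply] at this
  rw [this]
  split_ifs <;> simp

variable (Γ) in
lemma sum_proj_apply (v : X Γ → ℂ) : ∑ a ∈ Finset.range (per Γ), proj Γ a v = v := by
  have := congrArg (fun L : Module.End ℂ (X Γ → ℂ) => L v) (sum_proj Γ)
  simpa [LinearMap.sum_apply] using this

variable (Γ) in
lemma proj_jetFun (k : ℤ) (f : ℍ → ℂ) (τ : ℍ) {a : ℕ} (ha : a < per Γ) :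
    proj Γ a (jetFun Γ k f τ) = E (-(th Γ a)) τ • proj Γ a (ev Γ k τ f) := by
  rw [jetFun_eq, map_sum]
  rw [Finset.sum_eq_single a]
  · rw [map_smul, proj_proj_apply Γ ha ha, if_pos rfl]
  · intro b hb hba
    rw [map_smul, proj_proj_apply Γ ha (Finset.mem_range.mp hb), if_neg (Ne.symm hba), smul_zero]
  · intro h
    exact absurd (Finset.mem_range.mpr ha) h

/-- the components of `proj a (ev τ f)`: holomorphic, bounded, twisted-periodic. -/
lemma comp_props {k : ℤ} {f : ℍ → ℂ} (hf : f ∈ MF Γ k) (a : ℕ) (x : X Γ) :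
    MDiff (fun τ : ℍ => proj Γ a (ev Γ k τ f) x) ∧
    IsBoundedAtImInfty (fun τ : ℍ => proj Γ a (ev Γ k τ f) x) ∧
    ∀ τ : ℍ, (fun τ : ℍ => proj Γ a (ev Γ k τ f) x) (Tm • τ)
      = Complex.exp (2 * π * Complex.I * ((th Γ a : ℝ) : ℂ))
        * (fun τ : ℍ => proj Γ a (ev Γ k τ f) x) τ := by
  obtain ⟨h1, h2⟩ := mdiff_bdd_functional hf ((LinearMap.proj x).comp (proj Γ a))
  refine ⟨h1, h2, fun τ => ?_⟩
  simp only
  rw [ev_T' hf.2.1, ← Module.End.mul_apply, proj_mul_shiftT, LinearMap.smul_apply,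
    Pi.smul_apply, smul_eq_mul, chi_eq_exp_th]

/-- **C1.2** : jets exist. -/
theorem exists_hasJet {k : ℤ} {f : ℍ → ℂ} (hf : f ∈ MF Γ k) : ∃ v, HasJet Γ k f v := by
  have key : ∀ (a : ℕ) (x : X Γ), ∃ L : ℂ, a < per Γ →
      Tendsto (fun τ : ℍ => E (-(th Γ a)) τ * proj Γ a (ev Γ k τ f) x) atImInfty (𝓝 L) := by
    intro a x
    by_cases ha : a < per Γ
    · obtain ⟨h1, h2, h3⟩ := comp_props hf a x
      obtain ⟨L, hL⟩ := exists_tendsto_twisted (th_lt_one Γ ha) h1 h2 h3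
      exact ⟨L, fun _ => hL⟩
    · exact ⟨0, fun h => absurd h ha⟩
  choose L hL using key
  refine ⟨fun x => ∑ a ∈ Finset.range (per Γ), L a x, ?_⟩
  unfold HasJet
  rw [tendsto_pi_nhds]
  intro x
  have h1 : (fun τ : ℍ => jetFun Γ k f τ x)
      = fun τ : ℍ => ∑ a ∈ Finset.range (per Γ), E (-(th Γ a)) τ * proj Γ a (ev Γ k τ f) x := by
    funext τ
    rw [jetFun_eq, Finset.sum_apply]
    rfl
  rw [h1]
  exact tendsto_finsetSum _ fun a ha => hL a x (Finset.mem_range.mp ha)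

omit [Γ.FiniteIndex] in
lemma tendsto_levelOne {a : ℤ} {E₀ : ℍ → ℂ} (hE : E₀ ∈ MF ⊤ a) :
    Tendsto E₀ atImInfty (𝓝 (valueAtInfty E₀)) := by
  refine tendsto_of_periodic (fun τ => ?_) hE.1 ?_
  · rw [← slash_T_apply a E₀ τ, hE.2.1 _ (Subgroup.mem_top _)]
  · have := hE.2.2 1
    rwa [SlashAction.slash_one] at this

/-- **C1.3** : jets of products with level one forms. -/
theorem hasJet_mul {a k : ℤ} {E₀ f : ℍ → ℂ} (hE : E₀ ∈ MF ⊤ a) {v : X Γ → ℂ}
    (hv : HasJet Γ k f v) : HasJet Γ (a + k) (E₀ * f) (valueAtInfty E₀ • v) := by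
  unfold HasJet at hv ⊢
  have h1 : jetFun Γ (a + k) (E₀ * f) = fun τ => E₀ τ • jetFun Γ k f τ := by
    funext τ
    unfold jetFun
    rw [ev_mul' hE, map_smul]
  rw [h1]
  exact (tendsto_levelOne hE).smul hv

/-- continuity of the components of `proj a`. -/
lemma tendsto_proj_comp {ι : Type*} {l : Filter ι} {F : ι → X Γ → ℂ} {v : X Γ → ℂ}
    (hF : Tendsto F l (𝓝 v)) (a : ℕ) (x : X Γ) :
    Tendsto (fun i => proj Γ a (F i) x) l (𝓝 (proj Γ a v x)) := by
  have hc : Continuous ((LinearMap.proj x).comp (proj Γ a) : (X Γ → ℂ) →ₗ[ℂ] ℂ) :=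
    LinearMap.continuous_of_finiteDimensional _
  exact (hc.tendsto v).comp hF

/-- the vector of conjugates in terms of the jet function. -/
lemma ev_eq_sum (k : ℤ) (f : ℍ → ℂ) (τ : ℍ) :
    ev Γ k τ f = ∑ a ∈ Finset.range (per Γ), E (th Γ a) τ • proj Γ a (jetFun Γ k f τ) := by
  conv_lhs => rw [← sum_proj_apply Γ (ev Γ k τ f)]
  refine Finset.sum_congr rfl fun a ha => ?_
  rw [proj_jetFun Γ k f τ (Finset.mem_range.mp ha), smul_smul, mul_comm, E_neg_mul_E, one_smul]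

/-- the vector of conjugates tends to `proj 0` of the jet. -/
lemma tendsto_ev {k : ℤ} {f : ℍ → ℂ} {v : X Γ → ℂ} (hv : HasJet Γ k f v) (x : X Γ) :
    Tendsto (fun τ : ℍ => ev Γ k τ f x) atImInfty (𝓝 (proj Γ 0 v x)) := by
  have h1 : (fun τ : ℍ => ev Γ k τ f x) = fun τ : ℍ =>
      ∑ a ∈ Finset.range (per Γ), E (th Γ a) τ * proj Γ a (jetFun Γ k f τ) x := by
    funext τ
    conv_lhs => rw [ev_eq_sum k f τ]
    rw [Finset.sum_apply]
    rfl
  have h2 : proj Γ 0 v x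
      = ∑ a ∈ Finset.range (per Γ), (if a = 0 then proj Γ 0 v x else 0) := by
    rw [Finset.sum_ite_eq' (Finset.range (per Γ)) 0 (fun _ => proj Γ 0 v x),
      if_pos (Finset.mem_range.mpr (per_pos Γ))]
  rw [h1, h2]
  refine tendsto_finsetSum _ fun a _ => ?_
  have hp := tendsto_proj_comp hv a x
  by_cases ha : a = 0
  · subst ha
    rw [if_pos rfl]
    have : (fun τ : ℍ => E (th Γ 0) τ * proj Γ 0 (jetFun Γ k f τ) x)
        = fun τ : ℍ => proj Γ 0 (jetFun Γ k f τ) x := by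
      funext τ
      rw [th_zero, E_zero, one_mul]
    rw [this]
    exact hp
  · rw [if_neg ha]
    have hE := tendsto_E_zero (th_pos Γ (Nat.pos_of_ne_zero ha))
    have := hE.mul hp
    rwa [zero_mul] at this

/-- **C1.5** : cusp forms have jets in the kernel of `proj 0` and conversely. -/
theorem mem_SF_iff_jet {k : ℤ} {f : ℍ → ℂ} (hf : f ∈ MF Γ k) {v : X Γ → ℂ}
    (hv : HasJet Γ k f v) : f ∈ SF Γ k ↔ proj Γ 0 v = 0 := by
  constructor
  · intro hS
    funext x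
    have h1 := tendsto_ev hv x
    have h2 : Tendsto (fun τ : ℍ => ev Γ k τ f x) atImInfty (𝓝 0) := hS.2.2 _
    exact tendsto_nhds_unique h1 h2
  · intro h0
    refine ⟨hf.1, hf.2.1, fun γ => ?_⟩
    rw [slash_eq_ev hf.2.1 γ]
    have h1 := tendsto_ev hv (QuotientGroup.mk γ⁻¹)
    rw [h0] at h1
    exact h1

/-- Bundling a function-level modular form. -/
def toModularForm {k : ℤ} {f : ℍ → ℂ} (hf : f ∈ MF Γ k) :
    ModularForm (Γ : Subgroup (GL (Fin 2) ℝ)) k where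
  toFun := f
  slash_action_eq' γ hγ := by
    obtain ⟨γ₀, hγ₀, rfl⟩ := hγ
    exact hf.2.1 γ₀ hγ₀
  holo' := hf.1
  bdd_at_cusps' {c} hc := by
    rw [Subgroup.IsArithmetic.isCusp_iff_isCusp_SL2Z] at hc
    rw [OnePoint.isBoundedAt_iff_forall_SL2Z hc]
    intro γ _
    exact hf.2.2 γ

lemma toModularForm_apply {k : ℤ} {f : ℍ → ℂ} (hf : f ∈ MF Γ k) (z : ℍ) :
    toModularForm hf z = f z := rfl

lemma coe_mem_MF {k : ℤ} (g : ModularForm (Γ : Subgroup (GL (Fin 2) ℝ)) k) :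
    (⇑g : ℍ → ℂ) ∈ MF Γ k := by
  refine ⟨ModularFormClass.holo g, fun γ hγ => ?_, fun γ => ?_⟩
  · exact SlashInvariantFormClass.slash_action_eq g _ (Subgroup.mem_map_of_mem _ hγ)
  · exact ModularFormClass.bdd_at_infty_slash g γ

/-- **C1.4** : kernel of the jet map. -/
theorem ker_jet {k : ℤ} {f : ℍ → ℂ} (hf : f ∈ MF Γ k) (h0 : HasJet Γ k f 0) :
    ∃ g ∈ MF Γ (k - 12), f = Δ * g := by
  -- every component of every `proj a (ev τ f)` decays exponentially
  have hcomp : ∀ a ∈ Finset.range (per Γ), ∀ x : X Γ,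
      (fun τ : ℍ => proj Γ a (ev Γ k τ f) x)
        =O[atImInfty] fun τ : ℍ => Real.exp (-2 * π * τ.im) := by
    intro a ha x
    have ha' := Finset.mem_range.mp ha
    obtain ⟨h1, h2, h3⟩ := comp_props hf a x
    refine isBigO_of_twisted_tendsto_zero (th_nonneg Γ a) (th_lt_one Γ ha') h1 h2 h3 ?_
    have hp := tendsto_proj_comp h0 a x
    have h4 : (fun τ : ℍ => proj Γ a (jetFun Γ k f τ) x)
        = fun τ : ℍ => E (-(th Γ a)) τ * proj Γ a (ev Γ k τ f) x := by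
      funext τ
      rw [proj_jetFun Γ k f τ ha']
      rfl
    rw [h4] at hp
    simpa using hp
  have hev : ∀ x : X Γ, (fun τ : ℍ => ev Γ k τ f x)
      =O[atImInfty] fun τ : ℍ => Real.exp (-2 * π * τ.im) := by
    intro x
    have h1 : (fun τ : ℍ => ev Γ k τ f x)
        = fun τ : ℍ => ∑ a ∈ Finset.range (per Γ), proj Γ a (ev Γ k τ f) x := by
      funext τ
      conv_lhs => rw [← sum_proj_apply Γ (ev Γ k τ f)]
      rw [Finset.sum_apply]
    rw [h1]
    have h2 := IsBigO.sum fun a ha => hcomp a ha x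
    refine h2.congr_left fun τ => ?_
    rw [Finset.sum_apply]
  have hslash : ∀ γ : SL(2, ℤ), (⇑(toModularForm hf) ∣[k] γ)
      =O[atImInfty] fun τ : ℍ => Real.exp (-2 * π * τ.im) := by
    intro γ
    have : (⇑(toModularForm hf) ∣[k] γ) = fun τ => ev Γ k τ f (QuotientGroup.mk γ⁻¹) :=
      slash_eq_ev hf.2.1 γ
    rw [this]
    exact hev _
  obtain ⟨g, hg⟩ := B980.exists_eq_discriminant_mul (toModularForm hf) hslash
  refine ⟨⇑g, coe_mem_MF g, ?_⟩
  funext z
  exact hg z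

end modular

end Fermat.Agent.S20.Jets759

end
end
-- ===== PACK-END S20/Jets_helper759.lean

-- ===== PACK-BEGIN S20/KerEv_helper292.lean
section
/-
S20 long shot, CORE piece C1.1 (`ker_ev`) -- helper292.

Kernel of the evaluation at the fibre over `z₀`: if `P` is a level one divisor for `z₀` and the
vector of conjugates of `f ∈ MF Γ k` vanishes at `z₀`, then `f = P * g` with `g ∈ MF Γ (k - w)`.
Uses leaf B (`Fermat.Agent.S20.B980.exists_eq_mul_of_vanishing`).  Also provides the two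
directions of the dictionary `MF Γ k ↔ ModularForm Γ k` used here.
-/



set_option autoImplicit false

noncomputable section

namespace Fermat.Agent.S20.KerEv292

open Fermat.Agent.S20
open UpperHalfPlane ModularForm CongruenceSubgroup MatrixGroups Filter Matrix.SpecialLinearGroup
open scoped Manifold Topology Real

variable {Γ : Subgroup SL(2, ℤ)}

/-- A function-level modular form as a bundled Mathlib `ModularForm`. -/
def toModularForm [Γ.FiniteIndex] {k : ℤ} {f : ℍ → ℂ} (hf : f ∈ MF Γ k) :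
    ModularForm (Γ : Subgroup (GL (Fin 2) ℝ)) k where
  toFun := f
  slash_action_eq' := by
    intro γ hγ
    obtain ⟨γ', hγ', rfl⟩ := Subgroup.mem_map.1 hγ
    have := hf.2.1 γ' hγ'
    rwa [SL_slash] at this
  holo' := hf.1
  bdd_at_cusps' := by
    intro c hc
    have hc' : IsCusp c 𝒮ℒ := (Subgroup.IsArithmetic.isCusp_iff_isCusp_SL2Z _).1 hc
    exact (OnePoint.isBoundedAt_iff_forall_SL2Z hc').2 (fun γ _ => hf.2.2 γ)

@[simp]
lemma coe_toModularForm [Γ.FiniteIndex] {k : ℤ} {f : ℍ → ℂ} (hf : f ∈ MF Γ k) :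
    (⇑(toModularForm hf) : ℍ → ℂ) = f := rfl

/-- A level one function-level modular form as a bundled `ModularForm 𝒮ℒ w`. -/
def toModularFormTop {w : ℤ} {P : ℍ → ℂ} (hP : P ∈ MF (⊤ : Subgroup SL(2, ℤ)) w) :
    ModularForm 𝒮ℒ w where
  toFun := P
  slash_action_eq' := by
    intro γ hγ
    obtain ⟨γ', rfl⟩ := hγ
    have := hP.2.1 γ' (Subgroup.mem_top _)
    rwa [SL_slash] at this
  holo' := hP.1
  bdd_at_cusps' := by
    intro c hc
    exact (OnePoint.isBoundedAt_iff_forall_SL2Z hc).2 (fun γ _ => hP.2.2 γ)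

@[simp]
lemma coe_toModularFormTop {w : ℤ} {P : ℍ → ℂ} (hP : P ∈ MF (⊤ : Subgroup SL(2, ℤ)) w) :
    (⇑(toModularFormTop hP) : ℍ → ℂ) = P := rfl

/-- The underlying function of a bundled modular form is a function-level modular form. -/
lemma coe_mem_MF [Γ.FiniteIndex] {k : ℤ} (g : ModularForm (Γ : Subgroup (GL (Fin 2) ℝ)) k) :
    (⇑g : ℍ → ℂ) ∈ MF Γ k := by
  refine ⟨ModularFormClass.holo g, ?_, ?_⟩
  · intro γ hγ
    rw [SL_slash]
    exact SlashInvariantForm.slash_action_eqn g _ (Subgroup.mem_map_of_mem _ hγ)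
  · intro γ
    have hc : IsCusp (mapGL ℝ γ • (OnePoint.infty : OnePoint ℝ)) (Γ : Subgroup (GL (Fin 2) ℝ)) :=
      (Subgroup.IsArithmetic.isCusp_iff_isCusp_SL2Z _).2 (isCusp_SL2Z_iff'.2 ⟨γ, rfl⟩)
    have := ModularFormClass.bdd_at_cusps g hc (mapGL ℝ γ) rfl
    rwa [SL_slash]

/-- If the vector of conjugates of a `Γ`-invariant `f` vanishes at `τ`, then `f` vanishes on the
whole `SL(2, ℤ)`-orbit of `τ`. -/
lemma eq_zero_of_ev_eq_zero {k : ℤ} {f : ℍ → ℂ} (hf : ∀ γ ∈ Γ, f ∣[k] γ = f) {τ : ℍ}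
    (h0 : ev Γ k τ f = 0) (γ : SL(2, ℤ)) : f (γ • τ) = 0 := by
  have h1 : ev Γ k τ f (QuotientGroup.mk γ⁻¹) = 0 := by rw [h0]; rfl
  rw [ev_apply] at h1
  obtain ⟨h, hh⟩ := QuotientGroup.mk_out_eq_mul Γ γ⁻¹
  have h2 : ((QuotientGroup.mk γ⁻¹ : X Γ).out)⁻¹ = (h : SL(2, ℤ))⁻¹ * γ := by
    rw [hh]; group
  rw [h2, SlashAction.slash_mul, hf _ (Γ.inv_mem h.2), SL_slash_apply] at h1
  rcases mul_eq_zero.1 h1 with h3 | h3
  · exact h3
  · exact absurd h3 (zpow_ne_zero _ (denom_ne_zero _ _))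

/-- **C1.1**: kernel of the evaluation at the fibre over `z₀`. -/
theorem ker_ev [Γ.FiniteIndex] {z₀ : ℍ} {w : ℤ} {P : ℍ → ℂ} (hP : LevelOneDivisor z₀ w P)
    {k : ℤ} {f : ℍ → ℂ} (hf : f ∈ MF Γ k) (h0 : ev Γ k z₀ f = 0) :
    ∃ g ∈ MF Γ (k - w), f = P * g := by
  have hvan : ∀ z : ℍ, toModularFormTop hP.mem z = 0 → toModularForm hf z = 0 := by
    intro z hz
    obtain ⟨γ, rfl⟩ := (hP.zero_iff z).1 hz
    exact eq_zero_of_ev_eq_zero hf.2.1 h0 γ
  obtain ⟨g, hg⟩ := B980.exists_eq_mul_of_vanishing (Γ := Γ) (toModularFormTop hP.mem)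
    hP.simple hP.not_zero_at_infty (toModularForm hf) hvan
  exact ⟨⇑g, coe_mem_MF g, funext hg⟩

end Fermat.Agent.S20.KerEv292

end

end
-- ===== PACK-END S20/KerEv_helper292.lean

-- ===== PACK-BEGIN S18/H754/IntLoc.lean
section


/-!
# S18 / Route K / étale Kummer cover: the ring `O'` (integral closure of `B_(ϖ)`) elementwise
-/

set_option autoImplicit false

noncomputable section

namespace Fermat.Agent.S18.H754

section IntLoc

variable {B : Type*} [CommRing B] {F' : Type*} [Field F'] [Algebra B F']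

/-- The ring `O'` of elements of `F'` which become integral over `B` after multiplication by
some `s ∈ B ∖ ϖB` (the integral closure of `B_(ϖ)` in `F'`). -/
def Oloc (ϖ : B) (hϖ : Prime ϖ) : Subring F' where
  carrier := {y | ∃ s : B, s ∉ Ideal.span {ϖ} ∧ IsIntegral B (algebraMap B F' s * y)}
  mul_mem' := by
    rintro x y ⟨s, hs, hx⟩ ⟨s', hs', hy⟩
    refine ⟨s * s', ?_, ?_⟩
    · intro h
      rw [Ideal.mem_span_singleton] at h hs hs'
      rcases hϖ.dvd_or_dvd h with h | h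
      · exact hs h
      · exact hs' h
    · have e : algebraMap B F' (s * s') * (x * y) =
          (algebraMap B F' s * x) * (algebraMap B F' s' * y) := by
        rw [map_mul]; ring
      rw [e]
      exact hx.mul hy
  one_mem' := by
    refine ⟨1, ?_, ?_⟩
    · rw [Ideal.mem_span_singleton]
      exact fun h => hϖ.not_unit (isUnit_of_dvd_one h)
    · rw [map_one, mul_one]
      exact isIntegral_one
  add_mem' := by
    rintro x y ⟨s, hs, hx⟩ ⟨s', hs', hy⟩
    refine ⟨s * s', ?_, ?_⟩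
    · intro h
      rw [Ideal.mem_span_singleton] at h hs hs'
      rcases hϖ.dvd_or_dvd h with h | h
      · exact hs h
      · exact hs' h
    · have h1 : IsIntegral B (algebraMap B F' s' * (algebraMap B F' s * x)) :=
        (isIntegral_algebraMap).mul hx
      have h2 : IsIntegral B (algebraMap B F' s * (algebraMap B F' s' * y)) :=
        (isIntegral_algebraMap).mul hy
      have e : algebraMap B F' (s * s') * (x + y) =
          algebraMap B F' s' * (algebraMap B F' s * x) +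
            algebraMap B F' s * (algebraMap B F' s' * y) := by
        rw [map_mul]; ring
      rw [e]
      exact h1.add h2
  zero_mem' := by
    refine ⟨1, ?_, ?_⟩
    · rw [Ideal.mem_span_singleton]
      exact fun h => hϖ.not_unit (isUnit_of_dvd_one h)
    · rw [mul_zero]
      exact isIntegral_zero
  neg_mem' := by
    rintro x ⟨s, hs, hx⟩
    refine ⟨s, hs, ?_⟩
    rw [mul_neg]
    exact hx.neg

lemma mem_Oloc {ϖ : B} {hϖ : Prime ϖ} {y : F'} :
    y ∈ Oloc (F' := F') ϖ hϖ ↔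
      ∃ s : B, s ∉ Ideal.span {ϖ} ∧ IsIntegral B (algebraMap B F' s * y) := Iff.rfl

lemma mem_Oloc_of_isIntegral {ϖ : B} (hϖ : Prime ϖ) {y : F'} (hy : IsIntegral B y) :
    y ∈ Oloc (F' := F') ϖ hϖ := by
  refine ⟨1, ?_, ?_⟩
  · rw [Ideal.mem_span_singleton]
    exact fun h => hϖ.not_unit (isUnit_of_dvd_one h)
  · rw [map_one, one_mul]
    exact hy

lemma algebraMap_mem_Oloc {ϖ : B} (hϖ : Prime ϖ) (b : B) :
    algebraMap B F' b ∈ Oloc (F' := F') ϖ hϖ :=
  mem_Oloc_of_isIntegral hϖ isIntegral_algebraMap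

/-- `ϖ O'` in terms of `O'`. -/
lemma inPiO_iff [FaithfulSMul B F'] {ϖ : B} (hϖ : Prime ϖ) {y : F'} :
    InPiO ϖ y ↔ ∃ y' ∈ Oloc (F' := F') ϖ hϖ, y = algebraMap B F' ϖ * y' := by
  have hinj : Function.Injective (algebraMap B F') := FaithfulSMul.algebraMap_injective B F'
  constructor
  · rintro ⟨s, hs, c, hc, h⟩
    have hs0 : algebraMap B F' s ≠ 0 := by
      intro h0
      apply hs
      have : s = 0 := hinj (by rw [h0, map_zero])
      rw [this]
      exact Ideal.zero_mem _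
    refine ⟨c / algebraMap B F' s, ⟨s, hs, ?_⟩, ?_⟩
    · rw [mul_div_cancel₀ _ hs0]
      exact hc
    · field_simp
      rw [mul_comm]
      exact h
  · rintro ⟨y', ⟨s, hs, hy'⟩, rfl⟩
    exact ⟨s, hs, _, hy', by ring⟩

lemma InPiO.add [FaithfulSMul B F'] {ϖ : B} (hϖ : Prime ϖ) {x y : F'}
    (hx : InPiO ϖ x) (hy : InPiO ϖ y) : InPiO ϖ (x + y) := by
  rw [inPiO_iff hϖ] at hx hy ⊢
  obtain ⟨x', hx', rfl⟩ := hx
  obtain ⟨y', hy', rfl⟩ := hy
  exact ⟨x' + y', add_mem hx' hy', by ring⟩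

lemma InPiO.neg [FaithfulSMul B F'] {ϖ : B} (hϖ : Prime ϖ) {x : F'}
    (hx : InPiO ϖ x) : InPiO ϖ (-x) := by
  rw [inPiO_iff hϖ] at hx ⊢
  obtain ⟨x', hx', rfl⟩ := hx
  exact ⟨-x', neg_mem hx', by ring⟩

lemma InPiO.sub [FaithfulSMul B F'] {ϖ : B} (hϖ : Prime ϖ) {x y : F'}
    (hx : InPiO ϖ x) (hy : InPiO ϖ y) : InPiO ϖ (x - y) := by
  rw [sub_eq_add_neg]
  exact hx.add hϖ (hy.neg hϖ)

lemma InPiO.mul_left [FaithfulSMul B F'] {ϖ : B} (hϖ : Prime ϖ) {x y : F'}
    (hx : x ∈ Oloc (F' := F') ϖ hϖ) (hy : InPiO ϖ y) : InPiO ϖ (x * y) := by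
  rw [inPiO_iff hϖ] at hy ⊢
  obtain ⟨y', hy', rfl⟩ := hy
  exact ⟨x * y', mul_mem hx hy', by ring⟩

lemma InPiO.mul_right [FaithfulSMul B F'] {ϖ : B} (hϖ : Prime ϖ) {x y : F'}
    (hx : InPiO ϖ x) (hy : y ∈ Oloc (F' := F') ϖ hϖ) : InPiO ϖ (x * y) := by
  rw [mul_comm]
  exact hx.mul_left hϖ hy

lemma InPiO.zero [FaithfulSMul B F'] {ϖ : B} (hϖ : Prime ϖ) : InPiO ϖ (0 : F') := by
  rw [inPiO_iff hϖ]
  exact ⟨0, zero_mem _, by ring⟩

lemma InPiO.sum [FaithfulSMul B F'] {ϖ : B} (hϖ : Prime ϖ) {ι : Type*} (s : Finset ι)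
    (f : ι → F') (h : ∀ i ∈ s, InPiO ϖ (f i)) : InPiO ϖ (∑ i ∈ s, f i) := by
  classical
  induction s using Finset.induction_on with
  | empty => simpa using InPiO.zero hϖ
  | insert a s ha ih =>
    rw [Finset.sum_insert ha]
    exact (h a (Finset.mem_insert_self a s)).add hϖ
      (ih fun i hi => h i (Finset.mem_insert_of_mem hi))

/-- `x ≡ y mod ϖ O'` implies `x ^ a ≡ y ^ a`. -/
lemma InPiO.pow_sub_pow [FaithfulSMul B F'] {ϖ : B} (hϖ : Prime ϖ) {x y : F'}
    (hx : x ∈ Oloc (F' := F') ϖ hϖ) (hy : y ∈ Oloc (F' := F') ϖ hϖ)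
    (h : InPiO ϖ (x - y)) (a : ℕ) : InPiO ϖ (x ^ a - y ^ a) := by
  have h1 : x ^ a - y ^ a = (∑ i ∈ Finset.range a, x ^ i * y ^ (a - 1 - i)) * (x - y) :=
    (Commute.all x y).geom_sum₂_mul a |>.symm
  rw [h1]
  refine h.mul_left hϖ ?_
  exact sum_mem fun i _ => mul_mem (pow_mem hx _) (pow_mem hy _)

end IntLoc

end Fermat.Agent.S18.H754

end

end
-- ===== PACK-END S18/H754/IntLoc.lean

-- ===== PACK-BEGIN A2/H609/Multiplicity.lean
section



/-!
# Node purity, part 3: the multiplicity identity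

`R` integrally closed noetherian domain, `u π : R`, `u` regular modulo `π`, `ℓ(R/(u,π)) < ∞`.
If `t ^ m = u * r` with `π ^ k ∈ (u, r)` (i.e. `t` generates the root ideal `I = I_1` at every
"horizontal" prime through `u`), then

  `ℓ(R / ((u) + (π))) = m • ℓ(R / (I + (π)))`.

Mathlib only.
-/

set_option autoImplicit false

namespace Fermat.Agent.A2.H609

open Ideal

variable {R : Type*} [CommRing R]

section Basic

variable [IsDomain R]

/-- `u` regular mod `π` implies `π` regular mod `u` (in a domain). -/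
theorem dvd_of_dvd_mul_of_reg {u π : R} (hπ0 : π ≠ 0) (hreg : ∀ x : R, π ∣ u * x → π ∣ x)
    {z : R} (h : u ∣ π * z) : u ∣ z := by
  obtain ⟨w, hw⟩ := h
  obtain ⟨w', hw'⟩ := hreg w ⟨z, hw.symm⟩
  refine ⟨w', ?_⟩
  have : π * z = π * (u * w') := by rw [hw, hw']; ring
  exact mul_left_cancel₀ hπ0 this

theorem dvd_of_dvd_pow_mul_of_reg {u π : R} (hπ0 : π ≠ 0) (hreg : ∀ x : R, π ∣ u * x → π ∣ x)
    (k : ℕ) {z : R} (h : u ∣ π ^ k * z) : u ∣ z := by
  induction k with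
  | zero => simpa using h
  | succ k ih =>
    apply ih
    apply dvd_of_dvd_mul_of_reg hπ0 hreg
    rwa [← mul_assoc, ← pow_succ']

/-- `r` is regular modulo `u` as soon as `π ^ k ∈ (u, r)`. -/
theorem dvd_of_dvd_mul_of_pow_mem {u π r : R} (hπ0 : π ≠ 0)
    (hreg : ∀ x : R, π ∣ u * x → π ∣ x) {k : ℕ} (hk : π ^ k ∈ Ideal.span {u, r})
    {y : R} (h : u ∣ r * y) : u ∣ y := by
  obtain ⟨a, b, hab⟩ := Ideal.mem_span_pair.mp hk
  apply dvd_of_dvd_pow_mul_of_reg hπ0 hreg k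
  rw [← hab, add_mul]
  apply dvd_add
  · exact Dvd.intro_left (a * y) (by ring)
  · have : b * r * y = b * (r * y) := by ring
    rw [this]
    exact Dvd.dvd.mul_left h b

theorem dvd_of_dvd_pow_mul_of_pow_mem {u π r : R} (hπ0 : π ≠ 0)
    (hreg : ∀ x : R, π ∣ u * x → π ∣ x) {k : ℕ} (hk : π ^ k ∈ Ideal.span {u, r})
    (j : ℕ) {y : R} (h : u ∣ r ^ j * y) : u ∣ y := by
  induction j with
  | zero => simpa using h
  | succ j ih =>
    apply ih
    apply dvd_of_dvd_mul_of_pow_mem hπ0 hreg hk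
    rwa [← mul_assoc, ← pow_succ']

omit [IsDomain R] in
/-- `π ^ (k * j) ∈ (u, r ^ j)` if `π ^ k ∈ (u, r)`. -/
theorem pow_mul_mem_span_pair {u π r : R} {k : ℕ} (hk : π ^ k ∈ Ideal.span {u, r}) (j : ℕ) :
    π ^ (k * j) ∈ Ideal.span {u, r ^ j} := by
  obtain ⟨a, b, hab⟩ := Ideal.mem_span_pair.mp hk
  rw [pow_mul, ← hab]
  -- `(a u + b r)^j - (b r)^j` is divisible by `a u`
  have h1 : (a * u + b * r - b * r) ∣ (a * u + b * r) ^ j - (b * r) ^ j := sub_dvd_pow_sub_pow _ _ j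
  rw [add_sub_cancel_right] at h1
  obtain ⟨c, hc⟩ := h1
  have h2 : (a * u + b * r) ^ j = (a * c) * u + b ^ j * r ^ j := by
    have : (a * u + b * r) ^ j = a * u * c + (b * r) ^ j := by rw [← hc]; ring
    rw [this, mul_pow]; ring
  rw [h2]
  exact Ideal.mem_span_pair.mpr ⟨a * c, b ^ j, rfl⟩

end Basic

section Finiteness

/-- A cyclic module killed by `𝔞` has length at most `ℓ(R/𝔞)`. -/
theorem relLen_span_singleton_le (𝔞 : Ideal R) (x : R) :
    relLen (𝔞 * Ideal.span {x}) (Ideal.span {x}) ≤ relLen 𝔞 (⊤ : Ideal R) := by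
  refine relLen_le_of_map (LinearMap.mulRight R x) (N' := 𝔞) (N := ⊤)
    (P' := 𝔞 * Ideal.span {x}) (P := Ideal.span {x}) ?_ ?_ ?_
  · intro y _
    rw [LinearMap.mulRight_apply]
    exact Ideal.mem_span_singleton.mpr (Dvd.intro_left y rfl)
  · intro y hy
    rw [LinearMap.mulRight_apply]
    exact Ideal.mul_mem_mul hy (Ideal.mem_span_singleton_self x)
  · intro y hy
    obtain ⟨c, rfl⟩ := Ideal.mem_span_singleton'.mp hy
    refine ⟨c, trivial, ?_⟩
    rw [LinearMap.mulRight_apply, sub_self]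
    exact Ideal.zero_mem _

/-- For a finitely generated ideal `A` and an ideal `𝔞` with `ℓ(R/𝔞) < ∞`: `ℓ(A/𝔞A) < ∞`. -/
theorem relLen_mul_ne_top (𝔞 : Ideal R) (h𝔞 : relLen 𝔞 (⊤ : Ideal R) ≠ ⊤)
    (A : Ideal R) (hA : A.FG) : relLen (𝔞 * A) A ≠ ⊤ := by
  refine Submodule.fg_induction
    (motive := fun (A : Submodule R R) _ => relLen (𝔞 * (A : Ideal R)) A ≠ ⊤) ?_ ?_ A hA
  · intro x
    exact ne_top_of_le_ne_top h𝔞 (relLen_span_singleton_le 𝔞 x)
  · intro M₁ M₂ _ _ h₁ h₂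
    -- chain `𝔞 M₁ ⊔ 𝔞 M₂ ≤ M₁ ⊔ 𝔞 M₂ ≤ M₁ ⊔ M₂`
    have hmul : 𝔞 * ((M₁ ⊔ M₂ : Submodule R R) : Ideal R) = 𝔞 * (M₁ : Ideal R) ⊔ 𝔞 * (M₂ : Ideal R) :=
      Ideal.mul_sup 𝔞 M₁ M₂
    have hle1 : 𝔞 * (M₁ : Ideal R) ≤ M₁ := Ideal.mul_le_right
    have hle2 : 𝔞 * (M₂ : Ideal R) ≤ M₂ := Ideal.mul_le_right
    have hAB : (𝔞 * (M₁ : Ideal R) ⊔ 𝔞 * (M₂ : Ideal R) : Ideal R) ≤ M₁ ⊔ 𝔞 * (M₂ : Ideal R) :=
      sup_le_sup_right hle1 _
    have hBC : (M₁ ⊔ 𝔞 * (M₂ : Ideal R) : Ideal R) ≤ M₁ ⊔ M₂ := sup_le_sup_left hle2 _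
    show relLen (𝔞 * ((M₁ ⊔ M₂ : Submodule R R) : Ideal R)) (M₁ ⊔ M₂) ≠ ⊤
    rw [hmul, relLen_add hAB hBC]
    have hfirst : relLen (𝔞 * (M₁ : Ideal R) ⊔ 𝔞 * (M₂ : Ideal R) : Ideal R)
        (M₁ ⊔ 𝔞 * (M₂ : Ideal R) : Ideal R) ≤ relLen (𝔞 * (M₁ : Ideal R)) M₁ := by
      refine relLen_le_of_map (LinearMap.id : R →ₗ[R] R) ?_ ?_ ?_
      · intro x hx
        exact Submodule.mem_sup_left hx
      · intro x hx
        exact Submodule.mem_sup_left hx
      · intro y hy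
        obtain ⟨a, ha, b, hb, rfl⟩ := Submodule.mem_sup.mp hy
        refine ⟨a, ha, ?_⟩
        rw [LinearMap.id_apply, add_sub_cancel_left]
        exact Submodule.mem_sup_right hb
    have hsecond : relLen (M₁ ⊔ 𝔞 * (M₂ : Ideal R) : Ideal R) (M₁ ⊔ M₂ : Ideal R) ≤
        relLen (𝔞 * (M₂ : Ideal R)) M₂ := by
      refine relLen_le_of_map (LinearMap.id : R →ₗ[R] R) ?_ ?_ ?_
      · intro x hx
        exact Submodule.mem_sup_right hx
      · intro x hx
        exact Submodule.mem_sup_right hx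
      · intro y hy
        obtain ⟨a, ha, b, hb, rfl⟩ := Submodule.mem_sup.mp hy
        refine ⟨b, hb, ?_⟩
        rw [LinearMap.id_apply, add_sub_cancel_right]
        exact Submodule.mem_sup_left ha
    intro htop
    rcases ENat.add_eq_top.mp htop with h | h
    · exact ne_top_of_le_ne_top h₁ hfirst h
    · exact ne_top_of_le_ne_top h₂ hsecond h

/-- `ℓ(R/(u, π^N)) < ∞` if `ℓ(R/(u, π)) < ∞`. -/
theorem relLen_span_pair_pow_ne_top (u π : R)
    (hfin : relLen (Ideal.span {u, π}) (⊤ : Ideal R) ≠ ⊤) (N : ℕ) :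
    relLen (Ideal.span {u, π ^ N}) (⊤ : Ideal R) ≠ ⊤ := by
  induction N with
  | zero =>
    have : Ideal.span {u, π ^ 0} = (⊤ : Ideal R) := by
      rw [Ideal.eq_top_iff_one, pow_zero]
      exact Ideal.subset_span (by simp)
    rw [this, relLen_self]
    exact ENat.zero_ne_top
  | succ N ih =>
    have hAB : Ideal.span {u, π ^ (N + 1)} ≤ Ideal.span {u, π ^ N} := by
      rw [Ideal.span_le]
      intro x hx
      rcases hx with rfl | rfl
      · exact Ideal.subset_span (by simp)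
      · rw [pow_succ]
        exact Ideal.mul_mem_right _ _ (Ideal.subset_span (by simp))
    rw [relLen_add hAB le_top]
    intro htop
    rcases ENat.add_eq_top.mp htop with h | h
    swap
    · exact ih h
    revert h
    refine ne_top_of_le_ne_top hfin ?_
    refine relLen_le_of_map (LinearMap.mulLeft R (π ^ N)) (N' := Ideal.span {u, π})
      (N := (⊤ : Ideal R)) ?_ ?_ ?_
    · intro x _
      rw [LinearMap.mulLeft_apply]
      exact Ideal.mul_mem_right _ _ (Ideal.subset_span (by simp))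
    · intro x hx
      rw [LinearMap.mulLeft_apply]
      obtain ⟨a, b, rfl⟩ := Ideal.mem_span_pair.mp hx
      refine Ideal.mem_span_pair.mpr ⟨π ^ N * a, b, ?_⟩
      rw [pow_succ]; ring
    · intro y hy
      obtain ⟨a, b, rfl⟩ := Ideal.mem_span_pair.mp hy
      refine ⟨b, trivial, ?_⟩
      rw [LinearMap.mulLeft_apply]
      have : a * u + b * π ^ N - π ^ N * b = a * u := by ring
      rw [this]
      exact Ideal.mul_mem_left _ _ (Ideal.subset_span (by simp))

end Finiteness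

end Fermat.Agent.A2.H609

end
-- ===== PACK-END A2/H609/Multiplicity.lean

-- ===== PACK-BEGIN A2/H609/Branch.lean
section




/-!
# Node purity, part 6: branches

Elementary facts on a discrete valuation ring `D` with a uniformiser `ϖ`, their translation to
a prime `𝔭` of a local ring `R` with `R ⧸ 𝔭` a discrete valuation ring (a "branch"), and the
length of the chain `(z ^ n) + 𝔞`.  Mathlib only.
-/

set_option autoImplicit false

namespace Fermat.Agent.A2.H609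

open Ideal

section DVRFacts

variable {D : Type*} [CommRing D] [IsDomain D]

/-- `ϖ ^ b ≠ ϖ ^ (b + 1) * g` for an irreducible `ϖ`. -/
theorem pow_ne_pow_succ_mul {ϖ : D} (hϖ : Irreducible ϖ) (b : ℕ) (g : D) :
    ϖ ^ b ≠ ϖ ^ (b + 1) * g := by
  intro h
  have h0 : ϖ ^ b ≠ 0 := pow_ne_zero _ hϖ.ne_zero
  have h1 : ϖ ^ b * 1 = ϖ ^ b * (ϖ * g) := by
    rw [mul_one, ← mul_assoc, ← pow_succ]
    exact h
  have h2 := mul_left_cancel₀ h0 h1
  exact hϖ.not_isUnit (IsUnit.of_mul_eq_one g h2.symm)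

variable [IsDiscreteValuationRing D]

/-- In a discrete valuation ring, a nonzero element associated to an `m`-th power is
`unit * ϖ ^ (m * a)`. -/
theorem exists_eq_unit_mul_pow_mul_of_associated_pow {ϖ : D} (hϖ : Irreducible ϖ) {m : ℕ}
    (hm : m ≠ 0) {v z : D} (hz : z ≠ 0) (h : Associated (v ^ m) z) :
    ∃ (a : ℕ) (ε : Dˣ), z = ε * ϖ ^ (m * a) := by
  have hv : v ≠ 0 := by
    rintro rfl
    rw [zero_pow hm] at h
    exact hz (by simpa using h.symm.eq_zero_iff.mpr rfl)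
  obtain ⟨a, ε₀, hv'⟩ := IsDiscreteValuationRing.eq_unit_mul_pow_irreducible hv hϖ
  obtain ⟨w, hw⟩ := h
  refine ⟨a, ε₀ ^ m * w, ?_⟩
  rw [← hw, hv']
  push_cast
  ring

/-- In a discrete valuation ring, `ϖ ^ (m * a + 1) ∣ z ^ m → ϖ ^ (a + 1) ∣ z`. -/
theorem pow_succ_dvd_of_pow_mul_succ_dvd_pow {ϖ : D} (hϖ : Irreducible ϖ) {m a : ℕ}
    {z : D} (h : ϖ ^ (m * a + 1) ∣ z ^ m) : ϖ ^ (a + 1) ∣ z := by
  by_cases hz : z = 0
  · rw [hz]
    exact dvd_zero _
  obtain ⟨n, ε, hn⟩ := IsDiscreteValuationRing.eq_unit_mul_pow_irreducible hz hϖ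
  have h1 : ϖ ^ (m * a + 1) ∣ ϖ ^ (n * m) := by
    have h2 : z ^ m = (ε ^ m : Dˣ) * ϖ ^ (n * m) := by
      rw [hn]
      push_cast
      ring
    rw [h2] at h
    exact (Units.dvd_mul_left).mp h
  have h3 : m * a + 1 ≤ n * m := (pow_dvd_pow_iff hϖ.ne_zero hϖ.not_isUnit).mp h1
  have h4 : a + 1 ≤ n := by
    rcases Nat.lt_or_ge n (a + 1) with hcon | hcon
    · have h5 : n ≤ a := Nat.lt_succ_iff.mp hcon
      have h6 : n * m ≤ m * a := by
        rw [mul_comm n m]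
        exact Nat.mul_le_mul_left m h5
      omega
    · exact hcon
  rw [hn]
  exact Dvd.dvd.mul_left (pow_dvd_pow ϖ h4) _

end DVRFacts

section Branch

variable {R : Type*} [CommRing R] [IsLocalRing R]
variable (𝔭 : Ideal R) [𝔭.IsPrime] [IsDiscreteValuationRing (R ⧸ 𝔭)]

/-- Non-units of `R` are divisible by a uniformiser modulo `𝔭`. -/
theorem exists_sub_mul_mem_of_mem_maximalIdeal {x : R}
    (hx : Irreducible (Ideal.Quotient.mk 𝔭 x)) {s : R} (hs : s ∈ IsLocalRing.maximalIdeal R) :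
    ∃ g : R, s - x * g ∈ 𝔭 := by
  have hloc : IsLocalHom (Ideal.Quotient.mk 𝔭) :=
    Function.Surjective.isLocalHom _ Ideal.Quotient.mk_surjective
  have h1 : ¬ IsUnit (Ideal.Quotient.mk 𝔭 s) := by
    intro h
    exact hs (IsLocalHom.map_nonunit s h)
  have h2 : Ideal.Quotient.mk 𝔭 s ∈ IsLocalRing.maximalIdeal (R ⧸ 𝔭) := h1
  rw [hx.maximalIdeal_eq, Ideal.mem_span_singleton] at h2
  obtain ⟨c, hc⟩ := h2
  obtain ⟨g, rfl⟩ := Ideal.Quotient.mk_surjective c
  refine ⟨g, ?_⟩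
  rw [← Ideal.Quotient.eq, hc, map_mul]

omit [IsLocalRing R] [IsDiscreteValuationRing (R ⧸ 𝔭)] in
/-- `x ^ b ∉ (x ^ (b + 1)) + 𝔭` for a uniformiser `x` modulo `𝔭`. -/
theorem pow_sub_pow_succ_mul_notMem {x : R}
    (hx : Irreducible (Ideal.Quotient.mk 𝔭 x)) (b : ℕ) (g : R) :
    x ^ b - x ^ (b + 1) * g ∉ 𝔭 := by
  intro h
  rw [← Ideal.Quotient.eq, map_mul, map_pow, map_pow] at h
  exact pow_ne_pow_succ_mul hx b _ h

omit [IsLocalRing R] in
/-- The data `(a, ε)` with `u ≡ ε x ^ (m a)` modulo `𝔭` extracted from (H2). -/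
theorem exists_mk_eq_unit_mul_pow {x : R}
    (hx : Irreducible (Ideal.Quotient.mk 𝔭 x)) {m : ℕ} (hm : m ≠ 0) {u : R} (hu : u ∉ 𝔭)
    (H2 : ∃ v : R ⧸ 𝔭, Associated (v ^ m) (Ideal.Quotient.mk 𝔭 u)) :
    ∃ (a : ℕ) (ε : (R ⧸ 𝔭)ˣ),
      Ideal.Quotient.mk 𝔭 u = ε * (Ideal.Quotient.mk 𝔭 x) ^ (m * a) := by
  obtain ⟨v, hv⟩ := H2
  have hu0 : Ideal.Quotient.mk 𝔭 u ≠ 0 := by
    rwa [Ne, Ideal.Quotient.eq_zero_iff_mem]
  exact exists_eq_unit_mul_pow_mul_of_associated_pow hx hm hu0 hv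

omit [IsLocalRing R] [IsDiscreteValuationRing (R ⧸ 𝔭)] [𝔭.IsPrime] in
/-- `x ^ (m a) ∈ (u) + 𝔭` if `u ≡ ε x ^ (m a)` modulo `𝔭`. -/
theorem exists_pow_sub_mul_mem {x u : R} {n : ℕ} {ε : (R ⧸ 𝔭)ˣ}
    (hu : Ideal.Quotient.mk 𝔭 u = ε * (Ideal.Quotient.mk 𝔭 x) ^ n) :
    ∃ e : R, x ^ n - u * e ∈ 𝔭 := by
  obtain ⟨e, he⟩ := Ideal.Quotient.mk_surjective ((ε⁻¹ : (R ⧸ 𝔭)ˣ) : R ⧸ 𝔭)
  refine ⟨e, ?_⟩
  rw [← Ideal.Quotient.eq, map_mul, map_pow, he, hu]
  rw [mul_comm, ← mul_assoc, Units.inv_mul, one_mul]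

/-- If `u ≡ ε x ^ (m a)` modulo `𝔭`, `f ^ m = u r` and `r` is not a unit, then
`f ∈ (x ^ (a + 1)) + 𝔭`. -/
theorem exists_sub_pow_succ_mul_mem {x : R}
    (hx : Irreducible (Ideal.Quotient.mk 𝔭 x)) {m a : ℕ} {u : R} {ε : (R ⧸ 𝔭)ˣ}
    (hu : Ideal.Quotient.mk 𝔭 u = ε * (Ideal.Quotient.mk 𝔭 x) ^ (m * a))
    {f r : R} (hf : f ^ m = u * r) (hr : r ∈ IsLocalRing.maximalIdeal R) :
    ∃ g : R, f - x ^ (a + 1) * g ∈ 𝔭 := by
  obtain ⟨c, hc⟩ := exists_sub_mul_mem_of_mem_maximalIdeal 𝔭 hx hr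
  rw [← Ideal.Quotient.eq, map_mul] at hc
  have h0 : (Ideal.Quotient.mk 𝔭 f) ^ m =
      Ideal.Quotient.mk 𝔭 u * Ideal.Quotient.mk 𝔭 r := by
    rw [← map_pow, hf, map_mul]
  have h1 : (Ideal.Quotient.mk 𝔭 x) ^ (m * a + 1) ∣ (Ideal.Quotient.mk 𝔭 f) ^ m := by
    rw [h0, hu, hc]
    refine ⟨ε * Ideal.Quotient.mk 𝔭 c, ?_⟩
    ring
  obtain ⟨d, hd⟩ := pow_succ_dvd_of_pow_mul_succ_dvd_pow hx h1
  obtain ⟨g, rfl⟩ := Ideal.Quotient.mk_surjective d
  refine ⟨g, ?_⟩
  rw [← Ideal.Quotient.eq, hd, map_mul, map_pow]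

end Branch

section PowChain

variable {R : Type*} [CommRing R]

/-- A nonzero relative quotient has length at least one. -/
theorem one_le_relLen_of_notMem {A B : Ideal R} {z : R} (hz : z ∈ B) (hzA : z ∉ A) :
    1 ≤ relLen A B := by
  rw [relLen, Order.one_le_iff_ne_zero, Ne, Module.length_eq_zero_iff]
  intro hsub
  apply hzA
  have h := hsub.elim (Submodule.Quotient.mk (⟨z, hz⟩ : B) : ↥B ⧸ A.submoduleOf B) 0
  rw [Submodule.Quotient.mk_eq_zero] at h
  exact h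

variable [IsLocalRing R]

/-- The residue field has length one. -/
theorem relLen_maximalIdeal :
    relLen (IsLocalRing.maximalIdeal R) (⊤ : Ideal R) = 1 := by
  rw [relLen_top, Module.length_eq_one_iff, isSimpleModule_iff_isCoatom]
  exact Ideal.isMaximal_def.mp (IsLocalRing.maximalIdeal.isMaximal R)

/-- A cyclic relative quotient killed by the maximal ideal has length at most one. -/
theorem relLen_le_one_of_kill {A B : Ideal R} {z : R} (hz : z ∈ B)
    (hB : B ≤ Ideal.span {z} ⊔ A)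
    (hkill : ∀ s ∈ IsLocalRing.maximalIdeal R, s * z ∈ A) : relLen A B ≤ 1 := by
  rw [← relLen_maximalIdeal (R := R)]
  refine relLen_le_of_map (LinearMap.mulRight R z) (N' := IsLocalRing.maximalIdeal R)
    (N := ⊤) (P' := A) (P := B) ?_ ?_ ?_
  · intro y _
    rw [LinearMap.mulRight_apply]
    exact B.mul_mem_left y hz
  · intro y hy
    rw [LinearMap.mulRight_apply]
    exact hkill y hy
  · intro b hb
    obtain ⟨c, hc, a, ha, rfl⟩ := Submodule.mem_sup.mp (hB hb)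
    obtain ⟨d, rfl⟩ := Ideal.mem_span_singleton'.mp hc
    refine ⟨d, trivial, ?_⟩
    rw [LinearMap.mulRight_apply, add_sub_cancel_left]
    exact ha

/-- One step of the power chain has length one. -/
theorem relLen_pow_step (𝔭 : Ideal R) [𝔭.IsPrime] {z : R}
    (hz : Irreducible (Ideal.Quotient.mk 𝔭 z)) (𝔞 : Ideal R) (h𝔞 : 𝔞 ≤ 𝔭) (n : ℕ)
    (hkill : ∀ s ∈ IsLocalRing.maximalIdeal R, s * z ^ n ∈ Ideal.span {z ^ (n + 1)} ⊔ 𝔞) :
    relLen (Ideal.span {z ^ (n + 1)} ⊔ 𝔞) (Ideal.span {z ^ n} ⊔ 𝔞) = 1 := by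
  have hzB : z ^ n ∈ Ideal.span {z ^ n} ⊔ 𝔞 :=
    Ideal.mem_sup_left (Ideal.mem_span_singleton_self _)
  apply le_antisymm
  · refine relLen_le_one_of_kill hzB ?_ hkill
    refine sup_le le_sup_left ?_
    exact le_sup_of_le_right le_sup_right
  · refine one_le_relLen_of_notMem hzB ?_
    intro hmem
    obtain ⟨c, hc, a, ha, hca⟩ := Submodule.mem_sup.mp hmem
    obtain ⟨g, rfl⟩ := Ideal.mem_span_singleton'.mp hc
    refine pow_sub_pow_succ_mul_notMem 𝔭 hz n g ?_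
    have : z ^ n - z ^ (n + 1) * g = a := by
      rw [← hca]
      ring
    rw [this]
    exact h𝔞 ha

/-- The power chain: `ℓ(((z ^ n₀) + 𝔞) / ((z ^ (n₀ + k)) + 𝔞)) = k`. -/
theorem relLen_pow_chain (𝔭 : Ideal R) [𝔭.IsPrime] {z : R}
    (hz : Irreducible (Ideal.Quotient.mk 𝔭 z)) (𝔞 : Ideal R) (h𝔞 : 𝔞 ≤ 𝔭) (n₀ : ℕ)
    (hkill : ∀ n, n₀ ≤ n → ∀ s ∈ IsLocalRing.maximalIdeal R,
      s * z ^ n ∈ Ideal.span {z ^ (n + 1)} ⊔ 𝔞) (k : ℕ) :
    relLen (Ideal.span {z ^ (n₀ + k)} ⊔ 𝔞) (Ideal.span {z ^ n₀} ⊔ 𝔞) = k := by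
  have hmono : ∀ i j : ℕ, i ≤ j → Ideal.span {z ^ j} ⊔ 𝔞 ≤ Ideal.span {z ^ i} ⊔ 𝔞 := by
    intro i j hij
    refine sup_le_sup_right ?_ _
    rw [Ideal.span_singleton_le_span_singleton]
    exact pow_dvd_pow z hij
  induction k with
  | zero =>
    rw [add_zero, relLen_self]
    rfl
  | succ k ih =>
    rw [relLen_add (hmono (n₀ + k) (n₀ + (k + 1)) (by omega)) (hmono n₀ (n₀ + k) (by omega)), ih,
      ← add_assoc, relLen_pow_step 𝔭 hz 𝔞 h𝔞 (n₀ + k) (hkill _ (by omega))]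
    push_cast
    rw [add_comm]

end PowChain

end Fermat.Agent.A2.H609

end
-- ===== PACK-END A2/H609/Branch.lean

-- ===== PACK-BEGIN A2/T1/H669/Embed.lean
section



/-!
# WALL A2, piece T1/T2 (helper669): the coefficient embedding `F_E → F̄`

For an intermediate field `E ⊆ ℚ̄` and `F₀ ⊆ ℚ((t))`:

* `iota E F₀ : laurentBaseChange E F₀ →+* laurentBaseChange ℚ̄ F₀` (coefficientwise inclusion);
* `iota_algebraMap`, `iota_arithmeticRingAut` (compatibility with constants and with the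
  coefficientwise Galois action restricted to a stable `E`);
* `exists_iota_eq` : every element of `laurentBaseChange ℚ̄ F₀` is `iota` of an element over any
  intermediate field containing a suitable finite set (finite descent, from `S18.H602`);
* `adjoin_algebraic_eq_top` : `F̄` is generated over `iota F_E` by constants.
-/

set_option autoImplicit false

noncomputable section

namespace Fermat.Agent.A2.T1.H669

open ModularCurve AlgebraicCurve

/-- The field `ℚ̄`. -/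
abbrev Qb : Type := AlgebraicClosure ℚ

variable (E : IntermediateField ℚ _root_.Fermat.Agent.A2.T1.H669.Qb) (F₀ : IntermediateField ℚ (LaurentSeries ℚ))

/-- Coefficientwise inclusion `F_E → F̄`. -/
def iota : ↥(laurentBaseChange E F₀) →+* ↥(laurentBaseChange _root_.Fermat.Agent.A2.T1.H669.Qb F₀) where
  toFun x := ⟨coeffMap (algebraMap E _root_.Fermat.Agent.A2.T1.H669.Qb) (x : LaurentSeries E),
    Fermat.Agent.S18.H602.coeffMap_mem_laurentBaseChange F₀ _ x.2⟩
  map_one' := Subtype.ext (map_one _)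
  map_mul' _ _ := Subtype.ext (map_mul _ _ _)
  map_zero' := Subtype.ext (map_zero _)
  map_add' _ _ := Subtype.ext (map_add _ _ _)

@[simp]
theorem coe_iota (x : ↥(laurentBaseChange E F₀)) :
    ((iota E F₀ x : ↥(laurentBaseChange _root_.Fermat.Agent.A2.T1.H669.Qb F₀)) : LaurentSeries _root_.Fermat.Agent.A2.T1.H669.Qb) =
      coeffMap (algebraMap E _root_.Fermat.Agent.A2.T1.H669.Qb) (x : LaurentSeries E) := rfl

theorem iota_injective : Function.Injective (iota E F₀) := (iota E F₀).injective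

theorem iota_ne_zero {x : ↥(laurentBaseChange E F₀)} (hx : x ≠ 0) : iota E F₀ x ≠ 0 :=
  (map_ne_zero_iff _ (iota_injective E F₀)).2 hx

theorem iota_algebraMap (e : E) :
    iota E F₀ (algebraMap E ↥(laurentBaseChange E F₀) e) =
      algebraMap _root_.Fermat.Agent.A2.T1.H669.Qb ↥(laurentBaseChange _root_.Fermat.Agent.A2.T1.H669.Qb F₀) (algebraMap E _root_.Fermat.Agent.A2.T1.H669.Qb e) :=
  Subtype.ext (Fermat.Agent.S18.H602.coeffMap_algebraMap' (algebraMap E _root_.Fermat.Agent.A2.T1.H669.Qb) e)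

/-- Compatibility with the arithmetic action: if `τE` is the restriction of `τ` to `E`. -/
theorem iota_arithmeticRingAut (τ : _root_.Fermat.Agent.A2.T1.H669.Qb ≃ₐ[ℚ] _root_.Fermat.Agent.A2.T1.H669.Qb) (τE : E ≃ₐ[ℚ] E)
    (hτ : ∀ e : E, ((τE e : E) : _root_.Fermat.Agent.A2.T1.H669.Qb) = τ (e : _root_.Fermat.Agent.A2.T1.H669.Qb)) (x : ↥(laurentBaseChange E F₀)) :
    iota E F₀ (arithmeticRingAut F₀ τE x) = arithmeticRingAut F₀ τ (iota E F₀ x) := by
  apply Subtype.ext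
  show coeffMap (algebraMap E _root_.Fermat.Agent.A2.T1.H669.Qb) (coeffMap (τE : E →+* E) (x : LaurentSeries E)) =
    coeffMap (τ : _root_.Fermat.Agent.A2.T1.H669.Qb →+* _root_.Fermat.Agent.A2.T1.H669.Qb) (coeffMap (algebraMap E _root_.Fermat.Agent.A2.T1.H669.Qb) (x : LaurentSeries E))
  rw [coeffMap_coeffMap, coeffMap_coeffMap]
  exact coeffMap_congr (RingHom.ext fun e => hτ e) _

end Fermat.Agent.A2.T1.H669

end
end
-- ===== PACK-END A2/T1/H669/Embed.lean

-- ===== PACK-BEGIN S28/H386/Toolkit.lean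
section
/-
S28 [L] toolkit (helper386): orders of Laurent series, the twist `q ↦ ξ q`,
and the fact that `j` has degree `≥ p` over the range of `V_p = qExpand p`.
-/



set_option autoImplicit false

noncomputable section

open ModularCurve HahnSeries Polynomial

namespace Fermat.Agent.S28.H386

variable {k : Type*} [Field k]

/-! ### Orders -/

theorem order_eq_of_coeff {x : LaurentSeries k} {n : ℤ} (h1 : x.coeff n ≠ 0)
    (h2 : ∀ m < n, x.coeff m = 0) : x.order = n := by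
  refine le_antisymm (HahnSeries.order_le_of_coeff_ne_zero h1) ?_
  by_contra hlt
  rw [not_le] at hlt
  have hx : x ≠ 0 := fun h => h1 (by rw [h]; rfl)
  exact (HahnSeries.coeff_order_eq_zero.not.mpr hx) (h2 _ hlt)

theorem jqModC_ne_zero : jqModC k ≠ 0 := jqModC_ne_zero_of_nontrivial k

theorem order_jqModC : (jqModC k).order = -1 :=
  order_eq_of_coeff (by rw [coeff_jqModC_neg_one]; exact one_ne_zero)
    (fun _ hm => coeff_jqModC_of_lt k hm)

theorem order_jqModC_pow (i : ℕ) : ((jqModC k) ^ i).order = -(i : ℤ) := by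
  rw [HahnSeries.order_pow, order_jqModC]; simp

theorem qExpand_ne_zero (p : ℕ) [NeZero p] {f : LaurentSeries k} (hf : f ≠ 0) :
    qExpand k p f ≠ 0 := fun h => hf (qExpand_injective p (by rw [h, map_zero]))

theorem order_qExpand (p : ℕ) [NeZero p] (f : LaurentSeries k) :
    (qExpand k p f).order = (p : ℤ) * f.order := by
  by_cases hf : f = 0
  · simp [hf]
  refine order_eq_of_coeff ?_ ?_
  · rw [qExpand_coeff_mul]; exact HahnSeries.coeff_order_eq_zero.not.mpr hf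
  · intro m hm
    by_cases hd : (p : ℤ) ∣ m
    · obtain ⟨c, rfl⟩ := hd
      rw [qExpand_coeff_mul]
      refine HahnSeries.coeff_eq_zero_of_lt_order ?_
      have hp : (0 : ℤ) < p := by exact_mod_cast Nat.pos_of_ne_zero (NeZero.ne p)
      exact lt_of_mul_lt_mul_left hm hp.le
    · exact qExpand_coeff_of_not_dvd p f hd

/-- The order of an element of the range of `V_p` is divisible by `p`. -/
theorem dvd_order_of_mem_range (p : ℕ) [NeZero p] {x : LaurentSeries k}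
    (hx : x ∈ Set.range (qExpand k p)) : (p : ℤ) ∣ x.order := by
  obtain ⟨f, rfl⟩ := hx
  rw [order_qExpand]; exact dvd_mul_right _ _

/-! ### `j` has degree at least `p` over the range of `V_p` -/

/-- A nonzero polynomial of degree `< p` with coefficients in the range of `V_p` does not
vanish at `j`. -/
theorem eval_jqModC_ne_zero_of_natDegree_lt (p : ℕ) [NeZero p] (P : (LaurentSeries k)[X])
    (hP : P ≠ 0) (hdeg : P.natDegree < p)
    (hcoef : ∀ i, P.coeff i ∈ Set.range (qExpand k p)) :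
    P.eval (jqModC k) ≠ 0 := by
  classical
  -- valuation of the `i`-th term
  set v : ℕ → ℤ := fun i => (P.coeff i).order - i with hv
  have hsupp : P.support.Nonempty := by
    rwa [Finset.nonempty_iff_ne_empty, Ne, Polynomial.support_eq_empty]
  obtain ⟨i₀, hi₀, hmin⟩ := Finset.exists_min_image P.support v hsupp
  have hlt : ∀ i ∈ P.support, i < p := fun i hi =>
    lt_of_le_of_lt (Polynomial.le_natDegree_of_mem_supp i hi) hdeg
  have hinj : ∀ i ∈ P.support, i ≠ i₀ → v i ≠ v i₀ := by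
    intro i hi hne heq
    obtain ⟨a, ha⟩ := dvd_order_of_mem_range p (hcoef i)
    obtain ⟨b, hb⟩ := dvd_order_of_mem_range p (hcoef i₀)
    have h1 := hlt i hi
    have h2 := hlt i₀ hi₀
    simp only [hv, ha, hb] at heq
    have h3 : (p : ℤ) * (a - b) = (i : ℤ) - i₀ := by linarith
    have h4 : (p : ℤ) ∣ (i : ℤ) - i₀ := ⟨a - b, h3.symm⟩
    have h5 : ((i : ℤ) - i₀) = 0 := by
      apply Int.eq_zero_of_abs_lt_dvd h4
      rw [abs_lt]; constructor <;> omega
    exact hne (by omega)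
  have hterm : ∀ i ∈ P.support, (P.coeff i * (jqModC k) ^ i).order = v i := by
    intro i hi
    have hc : P.coeff i ≠ 0 := Polynomial.mem_support_iff.mp hi
    rw [HahnSeries.order_mul hc (pow_ne_zero _ jqModC_ne_zero), order_jqModC_pow]
    simp [hv, sub_eq_add_neg]
  intro h0
  have hcoeff : (P.eval (jqModC k)).coeff (v i₀) = 0 := by rw [h0]; rfl
  rw [Polynomial.eval_eq_sum, Polynomial.sum_def] at hcoeff
  have hsum : (∑ n ∈ P.support, P.coeff n * jqModC k ^ n).coeff (v i₀)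
      = ∑ n ∈ P.support, (P.coeff n * jqModC k ^ n).coeff (v i₀) := by
    exact map_sum (HahnSeries.coeff.addMonoidHom (v i₀)) _ _
  rw [hsum, Finset.sum_eq_single_of_mem i₀ hi₀] at hcoeff
  · have hc : P.coeff i₀ ≠ 0 := Polynomial.mem_support_iff.mp hi₀
    have hne : P.coeff i₀ * jqModC k ^ i₀ ≠ 0 :=
      mul_ne_zero hc (pow_ne_zero _ jqModC_ne_zero)
    rw [← hterm i₀ hi₀] at hcoeff
    exact (HahnSeries.coeff_order_eq_zero.not.mpr hne) hcoeff
  · intro i hi hne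
    refine HahnSeries.coeff_eq_zero_of_lt_order ?_
    rw [hterm i hi]
    exact lt_of_le_of_ne (hmin i hi) (Ne.symm (hinj i hi hne))

end Fermat.Agent.S28.H386

end
end
-- ===== PACK-END S28/H386/Toolkit.lean

-- ===== PACK-BEGIN A2/H672/Chi.lean
section


/-!
# A2 / node purity (helper672): the two length lemmas (additivity and `χ`)

For ideals of a commutative ring `R` and `π ∈ R`:

* `relLen_sup_span_eq` (additivity): if `A ≤ B` and `R ⧸ B` has no `π`-torsion then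
  `ℓ((B + πR)/(A + πR)) = ℓ(B/(A + πB))`.
* `relLen_chi` (the `χ`-lemma, by the chain trick, no snake lemma): if `A ≤ X ≤ N`, `R ⧸ A` has no
  `π`-torsion and `ℓ(N/X) < ∞`, then `ℓ(N/(A + πN)) = ℓ(X/(A + πX))`.
-/

set_option autoImplicit false

namespace Fermat.Agent.A2.H672

variable {R : Type*} [CommRing R]

theorem mem_sup_span_singleton {A : Ideal R} {π x : R} :
    x ∈ A ⊔ Ideal.span {π} ↔ ∃ a ∈ A, ∃ c : R, x = a + π * c := by
  rw [Submodule.mem_sup]
  constructor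
  · rintro ⟨a, ha, y, hy, rfl⟩
    obtain ⟨c, rfl⟩ := Ideal.mem_span_singleton'.1 hy
    exact ⟨a, ha, c, by ring⟩
  · rintro ⟨a, ha, c, rfl⟩
    exact ⟨a, ha, π * c, Ideal.mul_mem_right _ _ (Ideal.mem_span_singleton_self π), rfl⟩

theorem mem_sup_span_singleton_mul {A B : Ideal R} {π x : R} :
    x ∈ A ⊔ Ideal.span {π} * B ↔ ∃ a ∈ A, ∃ b ∈ B, x = a + π * b := by
  rw [Submodule.mem_sup]
  constructor
  · rintro ⟨a, ha, y, hy, rfl⟩
    obtain ⟨b, hb, rfl⟩ := Ideal.mem_span_singleton_mul.1 hy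
    exact ⟨a, ha, b, hb, rfl⟩
  · rintro ⟨a, ha, b, hb, rfl⟩
    exact ⟨a, ha, π * b, Ideal.mem_span_singleton_mul.2 ⟨b, hb, rfl⟩, rfl⟩

theorem sup_span_singleton_mul_le {A B : Ideal R} (π : R) (hAB : A ≤ B) :
    A ⊔ Ideal.span {π} * B ≤ B :=
  sup_le hAB Ideal.mul_le_right

/-- Additivity: `ℓ((B + πR)/(A + πR)) = ℓ(B/(A + πB))` when `R ⧸ B` has no `π`-torsion. -/
theorem relLen_sup_span_eq {A B : Ideal R} (π : R) (hAB : A ≤ B)
    (hsat : ∀ x : R, π * x ∈ B → x ∈ B) :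
    relLen (A ⊔ Ideal.span {π}) (B ⊔ Ideal.span {π}) = relLen (A ⊔ Ideal.span {π} * B) B := by
  symm
  refine relLen_eq_of_map LinearMap.id ?_ ?_ ?_
  · intro b hb
    exact Ideal.mem_sup_left hb
  · intro b hb
    simp only [LinearMap.id_coe, id_eq]
    rw [mem_sup_span_singleton, mem_sup_span_singleton_mul]
    constructor
    · rintro ⟨a, ha, c, rfl⟩
      refine ⟨a, ha, c, hsat c ?_, rfl⟩
      have : π * c = a + π * c - a := by ring
      rw [this]
      exact B.sub_mem hb (hAB ha)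
    · rintro ⟨a, ha, c, -, rfl⟩
      exact ⟨a, ha, c, rfl⟩
  · intro b' hb'
    obtain ⟨b, hb, c, rfl⟩ := mem_sup_span_singleton.1 hb'
    refine ⟨b, hb, ?_⟩
    simp only [LinearMap.id_coe, id_eq, add_sub_cancel_left]
    exact Ideal.mem_sup_right (Ideal.mul_mem_right _ _ (Ideal.mem_span_singleton_self π))

/-- Multiplication by `π` identifies `N/X` with `(A + πN)/(A + πX)` when `R ⧸ A` has no
`π`-torsion and `A ≤ X`. -/
theorem relLen_mul_eq {A X N : Ideal R} (π : R) (hAX : A ≤ X)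
    (hsat : ∀ x : R, π * x ∈ A → x ∈ A) :
    relLen X N = relLen (A ⊔ Ideal.span {π} * X) (A ⊔ Ideal.span {π} * N) := by
  refine relLen_eq_of_map (LinearMap.mulLeft R π) ?_ ?_ ?_
  · intro b hb
    exact mem_sup_span_singleton_mul.2 ⟨0, A.zero_mem, b, hb, by simp⟩
  · intro b _
    simp only [LinearMap.mulLeft_apply]
    rw [mem_sup_span_singleton_mul]
    constructor
    · rintro ⟨a, ha, x, hx, h⟩
      have h1 : π * (b - x) ∈ A := by
        have : π * (b - x) = a := by rw [mul_sub, h]; ring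
        rw [this]
        exact ha
      have h2 := hAX (hsat _ h1)
      have : b = (b - x) + x := by ring
      rw [this]
      exact X.add_mem h2 hx
    · intro hb
      exact ⟨0, A.zero_mem, b, hb, by simp⟩
  · intro b' hb'
    obtain ⟨a, ha, n, hn, rfl⟩ := mem_sup_span_singleton_mul.1 hb'
    refine ⟨n, hn, ?_⟩
    simp only [LinearMap.mulLeft_apply, add_sub_cancel_right]
    exact Ideal.mem_sup_left ha

/-- The `χ`-lemma: `ℓ(N/(A + πN)) = ℓ(X/(A + πX))` for `A ≤ X ≤ N` with `ℓ(N/X) < ∞` and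
`R ⧸ A` without `π`-torsion. -/
theorem relLen_chi {A X N : Ideal R} (π : R) (hAX : A ≤ X) (hXN : X ≤ N)
    (hsat : ∀ x : R, π * x ∈ A → x ∈ A) (hfin : relLen X N ≠ ⊤) :
    relLen (A ⊔ Ideal.span {π} * N) N = relLen (A ⊔ Ideal.span {π} * X) X := by
  have h1 : relLen (A ⊔ Ideal.span {π} * X) N
      = relLen (A ⊔ Ideal.span {π} * X) X + relLen X N :=
    relLen_add (sup_span_singleton_mul_le π hAX) hXN
  have h2 : relLen (A ⊔ Ideal.span {π} * X) N
      = relLen (A ⊔ Ideal.span {π} * X) (A ⊔ Ideal.span {π} * N)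
        + relLen (A ⊔ Ideal.span {π} * N) N :=
    relLen_add (sup_le_sup_left (Ideal.mul_mono_right hXN) A)
      (sup_span_singleton_mul_le π (hAX.trans hXN))
  rw [← relLen_mul_eq π hAX hsat, h1, add_comm] at h2
  exact ((WithTop.add_left_inj hfin).1 h2).symm

end Fermat.Agent.A2.H672

end
-- ===== PACK-END A2/H672/Chi.lean

-- ===== PACK-BEGIN S36/H756/DescField.lean
section





/-!
# S36 engine, leaf DESC (owner helper756) — descent to the fixed field

**T4** `descendsTo_fixedField` : an element of `laurentBaseChange Q̄ F₀` which is fixed by a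
subgroup `G ≤ Gal(Q̄/ℚ)` is defined over the fixed field `Q̄^G`, i.e. comes from
`laurentBaseChange (fixedField G) F₀`  (`DescendsTo` = `Fermat.Agent.S18.H602.DescendsTo`).

Proof: write `f = Σ l_u • u` with `u ∈ F₀` linearly independent over `Q̄`; then `τ f = f` forces
`τ l_u = l_u`.
-/

set_option autoImplicit false

noncomputable section

namespace Fermat.Agent.S36.H756

open ModularCurve HahnSeries IntermediateField
open Fermat.Agent.S18.H602 (DescendsTo)

local notation "Q̄" => AlgebraicClosure ℚ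

variable {F₀ : IntermediateField ℚ (LaurentSeries ℚ)}

theorem coeffMap_smul_of_mem_imgF₀ (τ : Q̄ ≃ₐ[ℚ] Q̄) (a : Q̄) {u : LaurentSeries Q̄}
    (hu : u ∈ imgF₀ Q̄ F₀) : coeffMap (τ : Q̄ →+* Q̄) (a • u) = τ a • u := by
  obtain ⟨u₀, -, rfl⟩ := hu
  rw [smul_eq_algebraMap_mul, smul_eq_algebraMap_mul, map_mul, coeffMap_algebraMap,
    coeffMap_coeffEmb]
  rfl

/-- **T4.** A `G`-fixed element of `laurentBaseChange Q̄ F₀` is defined over the fixed field of
`G`. -/
theorem descendsTo_fixedField (G : Subgroup (Q̄ ≃ₐ[ℚ] Q̄)) {f : LaurentSeries Q̄}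
    (hf : f ∈ laurentBaseChange Q̄ F₀) (hfix : ∀ τ ∈ G, coeffMap (τ : Q̄ →+* Q̄) f = f) :
    DescendsTo F₀ (IntermediateField.fixedField G) f := by
  classical
  have : Algebra.IsAlgebraic ℚ Q̄ := Fermat.Agent.S18.H602.isAlgebraic_Qbar
  obtain ⟨b, hbs, hspan, hli⟩ := exists_linearIndependent Q̄ (imgF₀ Q̄ F₀)
  have hfb : f ∈ Submodule.span Q̄ b := by
    rw [hspan]
    exact mem_span_coeffEmb hf
  obtain ⟨l, hl⟩ := (Finsupp.mem_span_iff_linearCombination Q̄ b f).1 hfb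
  -- the coefficients are fixed
  have hfixl : ∀ τ ∈ G, ∀ u : b, τ (l u) = l u := by
    intro τ hτ u
    have h1 : Finsupp.linearCombination Q̄ (Subtype.val : b → LaurentSeries Q̄)
        (l.mapRange τ (map_zero τ)) = f := by
      calc Finsupp.linearCombination Q̄ (Subtype.val : b → LaurentSeries Q̄)
            (l.mapRange τ (map_zero τ))
          = (l.mapRange τ (map_zero τ)).sum (fun i a => a • (i : LaurentSeries Q̄)) :=
            Finsupp.linearCombination_apply Q̄ _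
        _ = l.sum (fun i a => τ a • (i : LaurentSeries Q̄)) :=
            Finsupp.sum_mapRange_index (h := fun (i : b) (a : Q̄) => a • (i : LaurentSeries Q̄))
              (fun i => zero_smul _ _)
        _ = l.sum (fun i a => coeffMap (τ : Q̄ →+* Q̄) (a • (i : LaurentSeries Q̄))) :=
            Finsupp.sum_congr fun i _ => (coeffMap_smul_of_mem_imgF₀ τ (l i) (hbs i.2)).symm
        _ = coeffMap (τ : Q̄ →+* Q̄) (l.sum (fun i a => a • (i : LaurentSeries Q̄))) :=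
            (map_finsuppSum _ _ _).symm
        _ = coeffMap (τ : Q̄ →+* Q̄) f := by rw [← Finsupp.linearCombination_apply, hl]
        _ = f := hfix τ hτ
    have h3 := hli (h1.trans hl.symm)
    have h4 := DFunLike.congr_fun h3 u
    simpa using h4
  have hmem : ∀ u : b, l u ∈ IntermediateField.fixedField G := fun u =>
    (IntermediateField.mem_fixedField_iff G (l u)).2 fun τ hτ => hfixl τ hτ u
  -- preimages in `F₀`
  have hpre : ∀ u : b, ∃ u₀ : LaurentSeries ℚ, u₀ ∈ F₀ ∧ coeffEmb Q̄ u₀ = (u : LaurentSeries Q̄) :=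
    fun u => hbs u.2
  choose u₀ hu₀ hu₀' using hpre
  set E : IntermediateField ℚ Q̄ := IntermediateField.fixedField G with hE
  refine ⟨∑ u ∈ l.support, algebraMap E (LaurentSeries E) ⟨l u, hmem u⟩ * coeffEmb E (u₀ u),
    ?_, ?_⟩
  · refine sum_mem fun u _ => mul_mem ?_ ?_
    · exact (laurentBaseChange E F₀).algebraMap_mem _
    · exact coeffEmb_mem_laurentBaseChange E (hu₀ u)
  · rw [map_sum, ← hl, Finsupp.linearCombination_apply, Finsupp.sum]
    refine Finset.sum_congr rfl fun u _ => ?_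
    rw [map_mul, Fermat.Agent.S18.H602.coeffMap_algebraMap',
      Fermat.Agent.S18.H602.coeffMap_coeffEmb', hu₀', smul_eq_algebraMap_mul]
    rfl

/-- **T4**, for elements of `K = laurentBaseChange Q̄ F₀`. -/
theorem descendsTo_fixedField_of_fixed (G : Subgroup (Q̄ ≃ₐ[ℚ] Q̄))
    (f : laurentBaseChange Q̄ F₀) (hfix : ∀ τ ∈ G, arithmeticRingAut F₀ τ f = f) :
    DescendsTo F₀ (IntermediateField.fixedField G) (f : LaurentSeries Q̄) :=
  descendsTo_fixedField G f.2 fun τ hτ => congrArg Subtype.val (hfix τ hτ)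

end Fermat.Agent.S36.H756

end
end
-- ===== PACK-END S36/H756/DescField.lean

-- ===== PACK-BEGIN Lib/ValConj/Trick.lean
section
/-
Shared library **ValConj** (helper168), part 2.  Mathlib only.

The "denominator trick": `G` finite, `V : ValuationSubring L`, `W = V ∩ L^G`, `C` = integral
closure of `W` in `L`.  Every `x ∈ V` can be written `x = z / y` with `y, z ∈ C` and `y` a unit
of `V` (`exists_mul_mem_intClosure`).  Hence `V` is the localisation of `C` at its centre.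
-/


set_option autoImplicit false

open scoped Pointwise

namespace Fermat.Agent.Lib.ValConj

variable {L : Type*} [Field L] {G : Type*} [Group G] [MulSemiringAction G L]

/-- Elementary form: coefficients `b i ∈ W` (`i ≤ n`), `∑ b i x^i = 0`, `s ≤ n` the last index with
`v (b s) = 1`.  Then `y = ∑_{k} b (s+k) x^k` is a unit of `V` and `y`, `x * y` lie in `C`. -/
theorem exists_mul_mem_of_relation {V : ValuationSubring L} {x : L} (hx : x ∈ V)
    (n s : ℕ) (hs : s ≤ n) (b : ℕ → L) (hb : ∀ i, b i ∈ fixedPart G V)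
    (hrel : ∑ i ∈ Finset.range (n + 1), b i * x ^ i = 0)
    (hbs : V.valuation (b s) = 1)
    (hlt : ∀ i, s < i → i ≤ n → V.valuation (b i) < 1) :
    ∃ y : L, y ∈ intClosure G V ∧ x * y ∈ intClosure G V ∧ V.valuation y = 1 := by
  obtain ⟨m, rfl⟩ := Nat.exists_eq_add_of_le hs
  set y : L := ∑ k ∈ Finset.range (m + 1), b (s + k) * x ^ k with hy
  -- the relation, split at `s`
  have hsplit : (∑ i ∈ Finset.range s, b i * x ^ i) + x ^ s * y = 0 := by
    rw [← hrel, show s + m + 1 = s + (m + 1) by ring, Finset.sum_range_add, hy, Finset.mul_sum]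
    congr 1
    refine Finset.sum_congr rfl fun k _ => ?_
    rw [pow_add]; ring
  have hxv : V.valuation x ≤ 1 := (V.valuation_le_one_iff x).2 hx
  -- `v y = 1`
  have hvy : V.valuation y = 1 := by
    have h1 : y = b s + ∑ k ∈ Finset.range m, b (s + (k + 1)) * x ^ (k + 1) := by
      rw [hy, Finset.sum_range_succ']
      simp only [add_zero, pow_zero, mul_one]
      rw [add_comm]
    have h2 : V.valuation (∑ k ∈ Finset.range m, b (s + (k + 1)) * x ^ (k + 1)) < 1 := by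
      refine Valuation.map_sum_lt _ one_ne_zero fun k hk => ?_
      rw [Finset.mem_range] at hk
      rw [map_mul, map_pow]
      have h3 : V.valuation (b (s + (k + 1))) < 1 := hlt _ (by omega) (by omega)
      have h4 : V.valuation x ^ (k + 1) ≤ 1 := pow_le_one₀ zero_le hxv
      calc V.valuation (b (s + (k + 1))) * V.valuation x ^ (k + 1)
          ≤ V.valuation (b (s + (k + 1))) * 1 := mul_le_mul_right h4 _
        _ = V.valuation (b (s + (k + 1))) := mul_one _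
        _ < 1 := h3
    rw [h1, Valuation.map_add_eq_of_lt_left _ (by rw [hbs]; exact h2), hbs]
  refine ⟨y, ?_, ?_, hvy⟩
  · -- `y ∈ C`
    rw [mem_intClosure_iff_forall]
    intro U hU
    rcases U.mem_or_inv_mem x with hxU | hxU
    · exact Subring.sum_mem U.toSubring fun k _ =>
        U.mul_mem _ _ (hU (hb _)) (U.toSubring.pow_mem hxU k)
    · by_cases hx0 : x = 0
      · subst hx0
        exact Subring.sum_mem U.toSubring fun k _ =>
          U.mul_mem _ _ (hU (hb _)) (U.toSubring.pow_mem U.zero_mem k)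
      -- `y = -(∑_{i<s} b i x^i) / x^s`
      have h3 : y = -∑ i ∈ Finset.range s, b i * (x⁻¹) ^ (s - i) := by
        have hxs : x ^ s ≠ 0 := pow_ne_zero _ hx0
        apply mul_left_cancel₀ hxs
        rw [eq_neg_of_add_eq_zero_right hsplit, mul_neg, Finset.mul_sum]
        congr 1
        refine Finset.sum_congr rfl fun i hi => ?_
        rw [Finset.mem_range] at hi
        have : x ^ s = x ^ i * x ^ (s - i) := by rw [← pow_add]; congr 1; omega
        rw [this, inv_pow]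
        field_simp
      rw [h3]
      exact U.neg_mem _ (Subring.sum_mem U.toSubring fun i _ =>
        U.mul_mem _ _ (hU (hb _)) (U.toSubring.pow_mem hxU _))
  · -- `x * y ∈ C`
    rw [mem_intClosure_iff_forall]
    intro U hU
    rcases U.mem_or_inv_mem x with hxU | hxU
    · exact U.mul_mem _ _ hxU (Subring.sum_mem U.toSubring fun k _ =>
        U.mul_mem _ _ (hU (hb _)) (U.toSubring.pow_mem hxU k))
    · by_cases hx0 : x = 0
      · subst hx0
        rw [zero_mul]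
        exact U.zero_mem
      have h3 : x * y = -∑ i ∈ Finset.range s, b i * (x⁻¹) ^ (s - 1 - i) := by
        have hxs : x ^ s ≠ 0 := pow_ne_zero _ hx0
        apply mul_left_cancel₀ hxs
        have h4 : x ^ s * (x * y) = x * (x ^ s * y) := by ring
        rw [h4, eq_neg_of_add_eq_zero_right hsplit, mul_neg, mul_neg, Finset.mul_sum,
          Finset.mul_sum]
        congr 1
        refine Finset.sum_congr rfl fun i hi => ?_
        rw [Finset.mem_range] at hi
        have : x ^ s = x ^ (i + 1) * x ^ (s - 1 - i) := by rw [← pow_add]; congr 1; omega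
        rw [this, inv_pow, pow_succ]
        field_simp
      rw [h3]
      exact U.neg_mem _ (Subring.sum_mem U.toSubring fun i _ =>
        U.mul_mem _ _ (hU (hb _)) (U.toSubring.pow_mem hxU _))

/-- **Denominator trick.**  `G` finite: every `x ∈ V` is `z / y` with `y, z` in the integral
closure `C` of `V ∩ L^G` and `y` a unit of `V`. -/
theorem exists_mul_mem_intClosure [Finite G] {V : ValuationSubring L} {x : L} (hx : x ∈ V) :
    ∃ y : L, y ∈ intClosure G V ∧ x * y ∈ intClosure G V ∧ V.valuation y = 1 := by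
  classical
  cases nonempty_fintype G
  set P : Polynomial L := MulSemiringAction.charpoly G x with hP
  have hmonic : P.Monic := MulSemiringAction.monic_charpoly G x
  have heval : P.eval x = 0 := MulSemiringAction.eval_charpoly G x
  have hfix : ∀ (i : ℕ) (g : G), g • P.coeff i = P.coeff i := fun i g =>
    MulSemiringAction.smul_coeff_charpoly x i g
  set n := P.natDegree with hn
  -- index of maximal valuation
  obtain ⟨j, hj, hjmax⟩ := Finset.exists_max_image (Finset.range (n + 1))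
    (fun i => V.valuation (P.coeff i)) ⟨n, Finset.self_mem_range_succ n⟩
  have hjn : j ≤ n := by rw [Finset.mem_range] at hj; omega
  have hcn : P.coeff n = 1 := hmonic.coeff_natDegree
  have hvj : 1 ≤ V.valuation (P.coeff j) := by
    have := hjmax n (Finset.self_mem_range_succ n)
    simpa [hcn] using this
  have hj0 : P.coeff j ≠ 0 := by
    intro h0
    rw [h0, map_zero] at hvj
    exact absurd hvj (not_le.2 zero_lt_one)
  have hvj0 : V.valuation (P.coeff j) ≠ 0 := (Valuation.ne_zero_iff _).2 hj0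
  -- scaled coefficients
  set b : ℕ → L := fun i => P.coeff i * (P.coeff j)⁻¹ with hbdef
  have hbv : ∀ i, V.valuation (b i) ≤ 1 := by
    intro i
    simp only [hbdef, map_mul, map_inv₀]
    by_cases hi : i ∈ Finset.range (n + 1)
    · have := hjmax i hi
      calc V.valuation (P.coeff i) * (V.valuation (P.coeff j))⁻¹
          ≤ V.valuation (P.coeff j) * (V.valuation (P.coeff j))⁻¹ := mul_le_mul_left this _
        _ = 1 := mul_inv_cancel₀ hvj0
    · have hi' : n < i := by rw [Finset.mem_range] at hi; omega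
      rw [Polynomial.coeff_eq_zero_of_natDegree_lt hi', map_zero, zero_mul]
      exact zero_le_one
  have hb : ∀ i, b i ∈ fixedPart G V := by
    intro i
    rw [mem_fixedPart]
    refine ⟨(V.valuation_le_one_iff _).1 (hbv i), fun g => ?_⟩
    simp only [hbdef, smul_mul', smul_inv'', hfix]
  have hrel : ∑ i ∈ Finset.range (n + 1), b i * x ^ i = 0 := by
    have h1 : ∑ i ∈ Finset.range (n + 1), P.coeff i * x ^ i = 0 := by
      rw [← Polynomial.eval_eq_sum_range, heval]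
    have h2 : ∑ i ∈ Finset.range (n + 1), b i * x ^ i
        = (P.coeff j)⁻¹ * ∑ i ∈ Finset.range (n + 1), P.coeff i * x ^ i := by
      rw [Finset.mul_sum]
      refine Finset.sum_congr rfl fun i _ => ?_
      simp only [hbdef]; ring
    rw [h2, h1, mul_zero]
  -- last index with `v (b i) = 1`
  have hbj : V.valuation (b j) = 1 := by
    simp only [hbdef, map_mul, map_inv₀]
    exact mul_inv_cancel₀ hvj0
  set S : Finset ℕ := (Finset.range (n + 1)).filter (fun i => V.valuation (b i) = 1) with hS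
  have hSne : S.Nonempty := ⟨j, by rw [hS, Finset.mem_filter]; exact ⟨hj, hbj⟩⟩
  set s := S.max' hSne with hsdef
  have hsS : s ∈ S := Finset.max'_mem S hSne
  rw [hS, Finset.mem_filter, Finset.mem_range] at hsS
  refine exists_mul_mem_of_relation hx n s (by omega) b hb hrel hsS.2 ?_
  intro i hsi hin
  refine lt_of_le_of_ne (hbv i) fun h1 => ?_
  have hiS : i ∈ S := by
    rw [hS, Finset.mem_filter, Finset.mem_range]
    exact ⟨by omega, h1⟩
  have := Finset.le_max' S i hiS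
  omega

end Fermat.Agent.Lib.ValConj

end
-- ===== PACK-END Lib/ValConj/Trick.lean

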