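import Fermat.Prelude.Def_ModularCurve_HeckeModule
import Mathlib
import Fermat.Prelude.Def_FLTPrelim_Ramification
import Mathlib.RingTheory.Valuation.ValuationSubring
import Mathlib.RingTheory.Polynomial.Cyclotomic.Basic
import Mathlib.RingTheory.RootsOfUnity.PrimitiveRoots
import Mathlib.Algebra.Ring.GeomSum
import Mathlib.Tactic.LinearCombination
import Mathlib.Tactic.Ring
import Mathlib.Tactic.FieldSimp
import Mathlib.Tactic.Linarith
import Mathlib.FieldTheory.IntermediateField.Adjoin.Basic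
import Mathlib.RingTheory.Localization.FractionRing
import Mathlib.RingTheory.Adjoin.Basic
import Mathlib.RingTheory.IntegralClosure.IntegrallyClosed
import Mathlib.RingTheory.IntegralClosure.IsIntegralClosure.Basic
import Mathlib.RingTheory.Ideal.Quotient.Operations
import Mathlib.RingTheory.PowerSeries.Basic
import Mathlib.RingTheory.PowerSeries.Expand
import Mathlib.RingTheory.PowerSeries.PiTopology
import Mathlib.RingTheory.LaurentSeries
import Mathlib.Algebra.Polynomial.AlgebraMap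
import Fermat.Prelude.Def_ModularCurve_LaurentCoeff

-- ===== PACK-BEGIN S29/H395/KummerCorr.lean
section
/-
S29 / layer M / bridge BR, piece NORM (formal half) — helper395.

Prelude-only.  How the Prelude correspondence `T = ψ_* ∘ φ^*` (and hence the Prelude Hecke operator
`heckeOperatorBar N ℓ = α_* ∘ β^*`) acts on "Kummer data":

  if `m • D = div f` then `m • T D = div (Nm_ψ (φ f))`.

Main statements:
* `correspondence_apply_eq_ord`     : `T (div f) = div (Nm_ψ (φ f))` (pointwise form);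
* `correspondence_kummer`           : the same with a multiplier `m`;
* `heckeOperatorBar_mk_kummer`      : the modular instance, for `JZero N`;
* `heckeOperatorBar_eq_mk_of_kummer`: `T_ℓ [D] = [D']` as soon as `m D' = div (Nm_α (β f))`, `m ≠ 0`.
-/


set_option autoImplicit false
set_option linter.style.haveILetI false

noncomputable section

namespace Fermat.Agent.S29.H395

open AlgebraicCurve ModularCurve

section Abstract

variable {K F F' : Type*} [Field K] [Field F] [Field F'] [Algebra K F] [Algebra K F']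

/-- The norm of `g : F'` down to `F` along `ψ : F →ₐ[K] F'`. -/
def normAlong (ψ : F →ₐ[K] F') (g : F') : F :=
  letI := algebraAlong ψ
  Algebra.norm F g

theorem normAlong_ne_zero (ψ : F →ₐ[K] F') (hfin : FiniteAlong K ψ) {g : F'} (hg : g ≠ 0) :
    normAlong ψ g ≠ 0 := by
  letI := algebraAlong ψ
  haveI : Module.Finite F F' := hfin
  exact Algebra.norm_ne_zero_iff.mpr hg

theorem normAlong_mul (ψ : F →ₐ[K] F') (g g' : F') :
    normAlong ψ (g * g') = normAlong ψ g * normAlong ψ g' := by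
  letI := algebraAlong ψ
  exact map_mul (Algebra.norm F) g g'

theorem normAlong_one (ψ : F →ₐ[K] F') : normAlong ψ (1 : F') = 1 := by
  letI := algebraAlong ψ
  exact map_one (Algebra.norm F)

theorem normAlong_pow (ψ : F →ₐ[K] F') (g : F') (n : ℕ) :
    normAlong ψ (g ^ n) = normAlong ψ g ^ n := by
  letI := algebraAlong ψ
  exact map_pow (Algebra.norm F) g n

/-- `φ^* (div f) = div (φ f)`. -/
theorem pullbackAlong_apply_eq_ord [HasPrincipalDivisors K F'] (φ : F →ₐ[K] F')
    (hφ : φ.toRingHom.IsIntegral) {f : F} {D : Divisor K F} (hD : ∀ v, D v = v.ord f)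
    (w : Place K F') : Divisor.pullbackAlong φ hφ D w = w.ord (φ f) := by
  letI := algebraAlong φ
  haveI := isScalarTower_along φ
  haveI := isIntegral_along φ hφ
  exact Divisor.pullback_apply_eq_ord hD w

/-- `ψ_* (div g) = div (Nm_ψ g)`. -/
theorem pushforwardAlong_apply_eq_ord (ψ : F →ₐ[K] F') (hψ : ψ.toRingHom.IsIntegral)
    (hfin : FiniteAlong K ψ) (hN : NormFormulaAlong K ψ hfin) {g : F'} (hg : g ≠ 0)
    {D : Divisor K F'} (hD : ∀ w, D w = w.ord g) (v : Place K F) :
    Divisor.pushforwardAlong ψ hψ D v = v.ord (normAlong ψ g) := by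
  letI := algebraAlong ψ
  haveI := isScalarTower_along ψ
  haveI := isIntegral_along ψ hψ
  haveI : Module.Finite F F' := hfin
  exact hN g hg D hD v

variable [HasPrincipalDivisors K F']
variable (φ ψ : F →ₐ[K] F') (hφ : φ.toRingHom.IsIntegral) (hψ : ψ.toRingHom.IsIntegral)

/-- `T (div f) = div (Nm_ψ (φ f))` for the correspondence `T = ψ_* φ^*`. -/
theorem correspondence_apply_eq_ord (hfin : FiniteAlong K ψ) (hN : NormFormulaAlong K ψ hfin)
    {f : F} (hf : f ≠ 0) {D : Divisor K F} (hD : ∀ v, D v = v.ord f) (v : Place K F) :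
    Divisor.correspondence φ ψ hφ hψ D v = v.ord (normAlong ψ (φ f)) := by
  rw [Divisor.correspondence_apply]
  exact pushforwardAlong_apply_eq_ord ψ hψ hfin hN
    (by simpa using hf) (fun w => pullbackAlong_apply_eq_ord φ hφ hD w) v

/-- **Kummer data under a correspondence**: if `m • D = div f` then
`m • T D = div (Nm_ψ (φ f))`. -/
theorem correspondence_kummer (hfin : FiniteAlong K ψ) (hN : NormFormulaAlong K ψ hfin)
    {f : F} (hf : f ≠ 0) {D : Divisor K F} (m : ℤ) (hD : ∀ v, m * D v = v.ord f)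
    (v : Place K F) :
    m * Divisor.correspondence φ ψ hφ hψ D v = v.ord (normAlong ψ (φ f)) := by
  have h1 : ∀ v, (m • D) v = v.ord f := fun v => by
    rw [Finsupp.smul_apply, smul_eq_mul]; exact hD v
  have h2 := correspondence_apply_eq_ord φ ψ hφ hψ hfin hN hf h1 v
  rw [map_zsmul, Finsupp.smul_apply, smul_eq_mul] at h2
  exact h2

end Abstract

section Pic0Torsion

variable {K F : Type*} [Field K] [Field F] [Algebra K F]

/-- Two degree-zero divisors with the same nonzero multiple define the same class (divisors form a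
torsion-free group). -/
theorem degZero_eq_of_zsmul_eq {D E : Divisor.degZero (K := K) (F := F)} {m : ℤ} (hm : m ≠ 0)
    (h : ∀ v, m * (D : Divisor K F) v = m * (E : Divisor K F) v) : D = E := by
  apply Subtype.ext
  ext v
  exact mul_left_cancel₀ hm (h v)

/-- If `m • D = div f` (pointwise) then `m • [D] = 0` in `Pic0`. -/
theorem zsmul_mk_eq_zero {D : Divisor.degZero (K := K) (F := F)} {m : ℤ} {f : F} (hf : f ≠ 0)
    (h : ∀ v, m * (D : Divisor K F) v = v.ord f) : m • Pic0.mk D = 0 := by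
  have h1 : m • Pic0.mk D = Pic0.mk (m • D) := rfl
  rw [h1]
  refine (QuotientAddGroup.eq_zero_iff _).mpr ?_
  rw [AddSubgroup.mem_addSubgroupOf]
  refine ⟨f, hf, fun v => ?_⟩
  rw [AddSubgroup.coe_zsmul, Finsupp.smul_apply, smul_eq_mul]
  exact h v

/-- `[D] = 0` in `Pic0` iff `D` is the divisor of a function. -/
theorem mk_eq_zero_iff {D : Divisor.degZero (K := K) (F := F)} :
    Pic0.mk D = 0 ↔ ∃ f : F, f ≠ 0 ∧ ∀ v, (D : Divisor K F) v = v.ord f := by
  rw [Pic0.mk, QuotientAddGroup.eq_zero_iff, AddSubgroup.mem_addSubgroupOf]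
  rfl

/-- `[D] = [E]` in `Pic0` iff `D - E` is the divisor of a function. -/
theorem mk_eq_mk_iff {D E : Divisor.degZero (K := K) (F := F)} :
    Pic0.mk D = Pic0.mk E ↔
      ∃ f : F, f ≠ 0 ∧ ∀ v, (D : Divisor K F) v - (E : Divisor K F) v = v.ord f := by
  rw [← sub_eq_zero, show Pic0.mk D - Pic0.mk E = Pic0.mk (D - E) from rfl, mk_eq_zero_iff]
  simp only [AddSubgroup.coe_sub, Finsupp.coe_sub, Pi.sub_apply]

end Pic0Torsion

section Modular

variable (N : ℕ) [NeZero N]

/-- Abbreviation: the base field `ℚ̄`. -/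
local notation "Qb" => AlgebraicClosure ℚ

/-- The norm `Nm_α ∘ β : F_N → F_N` (`α` = inclusion `F_N ⊆ F_{Nℓ}`, `β = (q ↦ q^ℓ)`), the
function-level shadow of the Hecke correspondence `T_ℓ = α_* β^*`. -/
def heckeNorm (ℓ : ℕ) [NeZero ℓ] (f : modularFunctionFieldBar N) : modularFunctionFieldBar N :=
  normAlong (heckeAlphaBar Qb N ℓ) (heckeBetaBar Qb N ℓ f)

theorem heckeNorm_mul (ℓ : ℕ) [NeZero ℓ] (f g : modularFunctionFieldBar N) :
    heckeNorm N ℓ (f * g) = heckeNorm N ℓ f * heckeNorm N ℓ g := by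
  unfold heckeNorm
  rw [map_mul, normAlong_mul]

theorem heckeNorm_one (ℓ : ℕ) [NeZero ℓ] : heckeNorm N ℓ 1 = 1 := by
  unfold heckeNorm
  rw [map_one, normAlong_one]

theorem heckeNorm_pow (ℓ : ℕ) [NeZero ℓ] (f : modularFunctionFieldBar N) (n : ℕ) :
    heckeNorm N ℓ (f ^ n) = heckeNorm N ℓ f ^ n := by
  unfold heckeNorm
  rw [map_pow, normAlong_pow]

theorem heckeNorm_ne_zero (ℓ : ℕ) [NeZero ℓ] (hHI : HeckeInputsAlong Qb N ℓ)
    {f : modularFunctionFieldBar N} (hf : f ≠ 0) : heckeNorm N ℓ f ≠ 0 := by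
  obtain ⟨_, _, _, hfin, _, _⟩ := hHI
  exact normAlong_ne_zero _ hfin (by simpa using hf)

/-- The Prelude Hecke operator on the class of a degree-zero divisor, at the level of divisors. -/
theorem heckeOperatorBar_mk (ℓ : Nat.Primes)
    (hHI : haveI : NeZero (ℓ : ℕ) := ⟨ℓ.2.ne_zero⟩; HeckeInputsAlong Qb N ℓ)
    (D : Divisor.degZero (K := Qb) (F := modularFunctionFieldBar N)) :
    ∃ D' : Divisor.degZero (K := Qb) (F := modularFunctionFieldBar N),
      heckeOperatorBar N ℓ (Pic0.mk D) = Pic0.mk D' ∧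
      ∀ (m : ℤ) (f : modularFunctionFieldBar N), f ≠ 0 →
        (∀ v, m * (D : Divisor Qb (modularFunctionFieldBar N)) v = v.ord f) →
        ∀ v, m * (D' : Divisor Qb (modularFunctionFieldBar N)) v
          = v.ord (haveI : NeZero (ℓ : ℕ) := ⟨ℓ.2.ne_zero⟩; heckeNorm N ℓ f) := by
  haveI : NeZero (ℓ : ℕ) := ⟨ℓ.2.ne_zero⟩
  obtain ⟨hα, hβ, hP, hfin, hFI, hN⟩ := hHI
  haveI := hP
  refine ⟨Pic0.degZeroCorrespondence (heckeBetaBar Qb N ℓ) (heckeAlphaBar Qb N ℓ) hβ hα hFI D,
    ?_, ?_⟩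
  · rw [heckeOperatorBar_apply, heckeOperatorAlong_eq hα hβ hFI hfin hN]
    rfl
  · intro m f hf hD v
    exact correspondence_kummer (heckeBetaBar Qb N ℓ) (heckeAlphaBar Qb N ℓ) hβ hα hfin hN hf m hD v

/-- **Hecke on Kummer classes.**  If `m D = div f` and `m D' = div (Nm_α (β f))` with `m ≠ 0`, then
`T_ℓ [D] = [D']` in `J₀(N)(ℚ̄)`. -/
theorem heckeOperatorBar_eq_mk_of_kummer (ℓ : Nat.Primes)
    (hHI : haveI : NeZero (ℓ : ℕ) := ⟨ℓ.2.ne_zero⟩; HeckeInputsAlong Qb N ℓ)
    (D D' : Divisor.degZero (K := Qb) (F := modularFunctionFieldBar N))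
    {m : ℤ} (hm : m ≠ 0) {f : modularFunctionFieldBar N} (hf : f ≠ 0)
    (hD : ∀ v, m * (D : Divisor Qb (modularFunctionFieldBar N)) v = v.ord f)
    (hD' : ∀ v, m * (D' : Divisor Qb (modularFunctionFieldBar N)) v
      = v.ord (haveI : NeZero (ℓ : ℕ) := ⟨ℓ.2.ne_zero⟩; heckeNorm N ℓ f)) :
    heckeOperatorBar N ℓ (Pic0.mk D) = Pic0.mk D' := by
  obtain ⟨E, hE, hE'⟩ := heckeOperatorBar_mk N ℓ hHI D
  rw [hE]
  congr 1
  exact degZero_eq_of_zsmul_eq hm fun v => by rw [hE' m f hf hD v, hD' v]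

end Modular

end Fermat.Agent.S29.H395

end

end
-- ===== PACK-END S29/H395/KummerCorr.lean

-- ===== PACK-BEGIN S18/H905/Residue.lean
section



/-!
# S18 / H905 — the residue field of a valuation subring of an algebraically closed field

* `isAlgClosed_residueField` : the residue field of a valuation subring of an algebraically
  closed field is algebraically closed;
* `natCast_residue_eq_zero`  : if `A` lies over `ℓ` then `ℓ = 0` in the residue field of `A`;
* `natCast_residue_ne_zero`  : if moreover `ℓ` is prime and `ℓ ∤ n`, then `n ≠ 0` there.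
-/

set_option autoImplicit false

open Polynomial

namespace Fermat.Agent.S18.H905

variable {L : Type*} [Field L]

/-- The residue field of a valuation subring of an algebraically closed field is algebraically
closed. -/
theorem isAlgClosed_residueField [IsAlgClosed L] (A : ValuationSubring L) :
    IsAlgClosed (IsLocalRing.ResidueField A) := by
  refine IsAlgClosed.of_exists_root _ ?_
  intro p hpm hpirr
  have hsurj : Function.Surjective (IsLocalRing.residue A) := IsLocalRing.residue_surjective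
  obtain ⟨P, hPmap, hPdeg, hPm⟩ :=
    Polynomial.lifts_and_natDegree_eq_and_monic
      ((Polynomial.mem_lifts p).mpr (Polynomial.map_surjective _ hsurj p)) hpm
  have hpdeg : p.natDegree ≠ 0 := fun h =>
    hpirr.not_isUnit (by
      rw [Polynomial.Monic.isUnit_iff hpm]
      exact Polynomial.eq_one_of_monic_natDegree_zero hpm h)
  have hdeg : (P.map (algebraMap A L)).degree ≠ 0 := by
    intro h0
    have h1 : (P.map (algebraMap A L)).natDegree = 0 := Polynomial.natDegree_eq_zero_iff_degree_le_zero.mpr h0.le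
    rw [hPm.natDegree_map] at h1
    exact hpdeg (hPdeg ▸ h1)
  obtain ⟨x, hx⟩ := IsAlgClosed.exists_root (P.map (algebraMap A L)) hdeg
  have hx' : Polynomial.eval₂ (algebraMap A L) x P = 0 := by
    rw [← Polynomial.eval_map]; exact hx
  have hint : IsIntegral A x := ⟨P, hPm, hx'⟩
  obtain ⟨y, rfl⟩ := IsIntegrallyClosed.isIntegral_iff.mp hint
  refine ⟨IsLocalRing.residue A y, ?_⟩
  have hy : P.eval y = 0 := by
    have hinj : Function.Injective (algebraMap A L) := Subtype.val_injective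
    apply hinj
    rw [map_zero, ← hx', Polynomial.eval₂_at_apply]
  rw [← hPmap, Polynomial.eval_map, Polynomial.eval₂_at_apply, hy, map_zero]

/-- If `A` lies over `ℓ`, then `ℓ = 0` in the residue field. -/
theorem natCast_residue_eq_zero (A : ValuationSubring L) {ℓ : ℕ} (hA : A.LiesOverPrime ℓ) :
    ((ℓ : ℕ) : IsLocalRing.ResidueField A) = 0 := by
  have h : ((ℓ : A) : L) ∈ A.nonunits := by
    have h0 : (ℓ : L) ∈ A.nonunits := hA
    simpa using h0
  have h' : (ℓ : A) ∈ IsLocalRing.maximalIdeal A := (A.coe_mem_nonunits_iff).mp h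
  have := (IsLocalRing.residue_eq_zero_iff (ℓ : A)).mpr h'
  simpa using this

/-- If `A` lies over the prime `ℓ` and `ℓ ∤ n`, then `n ≠ 0` in the residue field. -/
theorem natCast_residue_ne_zero (A : ValuationSubring L) {ℓ : ℕ} (hℓ : ℓ.Prime)
    (hA : A.LiesOverPrime ℓ) {n : ℕ} (hn : ¬ ℓ ∣ n) :
    ((n : ℕ) : IsLocalRing.ResidueField A) ≠ 0 := by
  intro h0
  have hcop : Nat.Coprime n ℓ := ((Nat.Prime.coprime_iff_not_dvd hℓ).mpr hn).symm
  have hb := Nat.gcd_eq_gcd_ab n ℓ
  rw [hcop] at hb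
  have := congrArg (Int.cast : ℤ → IsLocalRing.ResidueField A) hb
  push_cast at this
  rw [h0, natCast_residue_eq_zero A hA, zero_mul, zero_mul, add_zero] at this
  exact one_ne_zero this

end Fermat.Agent.S18.H905

end
-- ===== PACK-END S18/H905/Residue.lean

-- ===== PACK-BEGIN Ribet/H913/Climb.lean
section


/-!
# RIBET wall-p, W-ALGP, leaf WPS: the abstract climbing argument (helper913), Mathlib-only

`O ≤ V` subalgebras of a field `F` (`O = B_n`, `V = B_P` for a closed point `n` on the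
component `P`), `W ∈ O` (the uniformiser), with

* `(H1)` `O ∩ W V = W O`;
* `(H2)` a `p`-th root modulo `W V` of an element of `O` is congruent modulo `W V` to an element
  of `O` (`O / W O` is integrally closed in `V / W V`);
* `p = W ^ ((p - 1) e) r`, `r ∈ V`.

`climb913`: if `Γ ∈ V`, `ε ∈ O`, `Γ ^ p ≡ ε mod W ^ (p e + 1) V`, then `Γ ≡ θ mod W ^ e V` for some
`θ ∈ O` (successive approximation of the `p`-th root below the Hensel bound).

`wps_abs913`: the abstract form of wild purity at a smooth point.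
-/

set_option autoImplicit false

namespace Fermat.Agent.Ribet.H913

section Abs

variable {R F : Type*} [CommRing R] [Field F] [Algebra R F]

/-- `(x + y) ^ p = x ^ p + y ^ p + p x y q` with `q` in any subalgebra containing `x`, `y`. -/
theorem add_pow_prime_mem913 (S : Subalgebra R F) {p : ℕ} (hp : p.Prime) {x y : F}
    (hx : x ∈ S) (hy : y ∈ S) :
    ∃ q ∈ S, (x + y) ^ p = x ^ p + y ^ p + (p : F) * x * y * q := by
  refine ⟨_, ?_, add_pow_prime_eq hp x y⟩
  refine Subalgebra.sum_mem _ fun k _ => ?_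
  exact S.mul_mem (S.mul_mem (S.pow_mem hx _) (S.pow_mem hy _)) (natCast_mem S _)

/-- `(H1)` iterated: `O ∩ W ^ k V = W ^ k O`. -/
theorem dvd_pow_of_dvd913 (O V : Subalgebra R F) {W : F} (hW : W ≠ 0) (hWV : W ∈ V)
    (H1 : ∀ z ∈ O, (∃ v ∈ V, z = W * v) → ∃ o ∈ O, z = W * o) :
    ∀ (k : ℕ) (z : F), z ∈ O → (∃ v ∈ V, z = W ^ k * v) → ∃ o ∈ O, z = W ^ k * o := by
  intro k
  induction k with
  | zero =>
    intro z hz _
    exact ⟨z, hz, by simp⟩
  | succ k ih =>
    rintro z hz ⟨v, hv, hzv⟩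
    obtain ⟨o₁, ho₁, h1⟩ := H1 z hz
      ⟨W ^ k * v, V.mul_mem (V.pow_mem hWV k) hv, by rw [hzv, pow_succ]; ring⟩
    have h2 : o₁ = W ^ k * v := by
      apply mul_left_cancel₀ hW
      rw [← h1, hzv, pow_succ]
      ring
    obtain ⟨o, ho, h3⟩ := ih o₁ ho₁ ⟨v, hv, h2⟩
    exact ⟨o, ho, by rw [h1, h3, pow_succ]; ring⟩

/-- **Climbing.** -/
theorem climb913 (O V : Subalgebra R F) (hOV : O ≤ V) {W : F} (hW : W ≠ 0) (hWO : W ∈ O)
    {p : ℕ} (hp : p.Prime) (e : ℕ) {r : F} (hr : r ∈ V)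
    (hpe : (p : F) = W ^ ((p - 1) * e) * r)
    (H1 : ∀ z ∈ O, (∃ v ∈ V, z = W * v) → ∃ o ∈ O, z = W * o)
    (H2 : ∀ γ ∈ V, ∀ c ∈ O, (∃ v ∈ V, γ ^ p - c = W * v) →
      ∃ γ₀ ∈ O, ∃ v ∈ V, γ - γ₀ = W * v)
    {Γ ε : F} (hΓ : Γ ∈ V) (hε : ε ∈ O)
    (hΓε : ∃ v ∈ V, Γ ^ p - ε = W ^ (p * e + 1) * v) :
    ∀ s : ℕ, s ≤ e → ∃ θ ∈ O, ∃ v ∈ V, Γ - θ = W ^ s * v := by
  have hWV : W ∈ V := hOV hWO
  obtain ⟨p', rfl⟩ : ∃ p', p = p' + 1 := ⟨p - 1, by have := hp.pos; omega⟩
  have hp'1 : 1 ≤ p' := by have := hp.two_le; omega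
  simp only [Nat.add_sub_cancel] at hpe
  intro s
  induction s with
  | zero =>
    intro _
    exact ⟨0, O.zero_mem, Γ, hΓ, by simp⟩
  | succ s ih =>
    intro hs
    obtain ⟨θ, hθ, γ, hγ, hΓθ⟩ := ih (by omega)
    have hθV : θ ∈ V := hOV hθ
    have hΓeq : Γ = θ + W ^ s * γ := by linear_combination hΓθ
    obtain ⟨q, hq, hexp⟩ :=
      add_pow_prime_mem913 V hp hθV (V.mul_mem (V.pow_mem hWV s) hγ)
    obtain ⟨v₀, hv₀, hv₀e⟩ := hΓε
    obtain ⟨t, ht⟩ : ∃ t, p' * e + s = (p' + 1) * s + 1 + t := by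
      refine ⟨p' * e + s - ((p' + 1) * s + 1), ?_⟩
      have h1 : p' * (s + 1) ≤ p' * e := Nat.mul_le_mul_left p' hs
      have h2 : p' * (s + 1) = p' * s + p' := by ring
      have h3 : (p' + 1) * s = p' * s + s := by ring
      omega
    obtain ⟨t', ht'⟩ : ∃ t', (p' + 1) * e + 1 = (p' + 1) * s + 1 + t' := by
      refine ⟨(p' + 1) * e + 1 - ((p' + 1) * s + 1), ?_⟩
      have h1 : (p' + 1) * s ≤ (p' + 1) * e := Nat.mul_le_mul_left (p' + 1) (by omega)
      omega
    set X : F := W ^ t * (r * θ * γ * q) - W ^ t' * v₀ with hX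
    have hXV : X ∈ V :=
      V.sub_mem (V.mul_mem (V.pow_mem hWV t)
        (V.mul_mem (V.mul_mem (V.mul_mem hr hθV) hγ) hq))
        (V.mul_mem (V.pow_mem hWV t') hv₀)
    have key : ε - θ ^ (p' + 1) = W ^ ((p' + 1) * s) * (γ ^ (p' + 1) + W * X) := by
      have h1 : Γ ^ (p' + 1) = θ ^ (p' + 1) + (W ^ s * γ) ^ (p' + 1) +
          ((p' + 1 : ℕ) : F) * θ * (W ^ s * γ) * q := by
        rw [hΓeq]; exact hexp
      have h2 : ε = Γ ^ (p' + 1) - W ^ ((p' + 1) * e + 1) * v₀ := by
        linear_combination -hv₀e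
      have h3 : W ^ (p' * e) * W ^ s = W ^ ((p' + 1) * s) * W * W ^ t := by
        rw [← pow_add, ht, pow_add, pow_add, pow_one]
      have h4 : W ^ ((p' + 1) * e + 1) = W ^ ((p' + 1) * s) * W * W ^ t' := by
        rw [ht', pow_add, pow_add, pow_one]
      have h5 : (W ^ s * γ) ^ (p' + 1) = W ^ ((p' + 1) * s) * γ ^ (p' + 1) := by
        rw [mul_pow, ← pow_mul, mul_comm s]
      rw [h2, h1, hpe, h4, h5, hX]
      linear_combination (r * θ * γ * q) * h3
    obtain ⟨c, hc, hce⟩ := dvd_pow_of_dvd913 O V hW hWV H1 ((p' + 1) * s) (ε - θ ^ (p' + 1))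
      (O.sub_mem hε (O.pow_mem hθ _))
      ⟨_, V.add_mem (V.pow_mem hγ _) (V.mul_mem hWV hXV), key⟩
    have hcX : c = γ ^ (p' + 1) + W * X := by
      apply mul_left_cancel₀ (pow_ne_zero ((p' + 1) * s) hW)
      rw [← hce, key]
    obtain ⟨γ₀, hγ₀, v₁, hv₁, h⟩ := H2 γ hγ c hc ⟨-X, V.neg_mem hXV, by rw [hcX]; ring⟩
    refine ⟨θ + W ^ s * γ₀, O.add_mem hθ (O.mul_mem (O.pow_mem hWO s) hγ₀), v₁, hv₁, ?_⟩
    rw [hΓeq, pow_succ]
    linear_combination W ^ s * h

/-- **Wild purity at a smooth point, abstract form.**  `O = B_n`, `V = B_P` (`n ∈ P`),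
`V' = B_{P'}` (`n ∉ P'`), `W` the uniformiser, `Λ = ζ - 1 = W ^ e ρ`, `p = Λ ^ (p - 1) z`. -/
theorem wps_abs913 (O V V' : Subalgebra R F) (hOV : O ≤ V) {W Lam ρ ρ' z : F}
    (hW : W ≠ 0) (hWO : W ∈ O) {p : ℕ} (hp : p.Prime) (e : ℕ) (he : 1 ≤ e)
    (hLam : Lam = W ^ e * ρ) (hρ : ρ ∈ O) (hρ' : ρ' ∈ O) (hρρ' : ρ * ρ' = 1)
    (hz : z ∈ O) (hpz : (p : F) = Lam ^ (p - 1) * z)
    (H1 : ∀ z ∈ O, (∃ v ∈ V, z = W * v) → ∃ o ∈ O, z = W * o)
    (H2 : ∀ γ ∈ V, ∀ c ∈ O, (∃ v ∈ V, γ ^ p - c = W * v) →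
      ∃ γ₀ ∈ O, ∃ v ∈ V, γ - γ₀ = W * v)
    (hinvO : ∀ o ∈ O, 1 + W * o ≠ 0 ∧ (1 + W * o)⁻¹ ∈ O)
    (DENS : ∀ g f : F, ∃ b ∈ O, f * (b - g) ∈ V')
    {u d₀ : F} (hu : u ≠ 0) (hd₀ : d₀ ≠ 0) (hd₀V : d₀ ∈ V)
    (hεO : u * d₀ ^ p ∈ O) (hεO' : (u * d₀ ^ p)⁻¹ ∈ O)
    (huV : ∃ v ∈ V, u = 1 + Lam ^ p * W * v) :
    ∃ d : F, d ≠ 0 ∧ (∃ o ∈ O, u * d ^ p = 1 + Lam ^ p * o) ∧
      (∃ v ∈ V, d = 1 + Lam * v) ∧ (∃ v ∈ V', d = 1 + Lam * v) := by
  have hWV : W ∈ V := hOV hWO
  have hρV : ρ ∈ V := hOV hρ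
  have hρ'V : ρ' ∈ V := hOV hρ'
  have hzV : z ∈ V := hOV hz
  have hρ0 : ρ ≠ 0 := fun h => by rw [h, zero_mul] at hρρ'; exact zero_ne_one hρρ'
  have hLam0 : Lam ≠ 0 := by rw [hLam]; exact mul_ne_zero (pow_ne_zero _ hW) hρ0
  have hLamO : Lam ∈ O := by rw [hLam]; exact O.mul_mem (O.pow_mem hWO e) hρ
  have hLamV : Lam ∈ V := hOV hLamO
  obtain ⟨p', rfl⟩ : ∃ p', p = p' + 1 := ⟨p - 1, by have := hp.pos; omega⟩
  obtain ⟨e', rfl⟩ : ∃ e', e = e' + 1 := ⟨e - 1, by omega⟩
  have hpz' : ((p' + 1 : ℕ) : F) = Lam ^ p' * z := by simpa using hpz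
  have hLamW : Lam = W * (W ^ e' * ρ) := by rw [hLam, pow_succ]; ring
  set ε : F := u * d₀ ^ (p' + 1) with hε
  have hε0 : ε ≠ 0 := mul_ne_zero hu (pow_ne_zero _ hd₀)
  -- (1) `p = W ^ ((p - 1) e) r`
  have hpe : ((p' + 1 : ℕ) : F) = W ^ ((p' + 1 - 1) * (e' + 1)) * (ρ ^ p' * z) := by
    rw [hpz', hLam, Nat.add_sub_cancel, mul_pow, ← pow_mul, mul_comm (e' + 1) p']
    ring
  -- (2) `d₀ ^ p ≡ ε`
  obtain ⟨v, hv, huv⟩ := huV
  have hΓε : ∃ v₂ ∈ V, d₀ ^ (p' + 1) - ε = W ^ ((p' + 1) * (e' + 1) + 1) * v₂ := by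
    refine ⟨-(d₀ ^ (p' + 1) * ρ ^ (p' + 1) * v),
      V.neg_mem (V.mul_mem (V.mul_mem (V.pow_mem hd₀V _) (V.pow_mem hρV _)) hv), ?_⟩
    have h1 : Lam ^ (p' + 1) = W ^ ((p' + 1) * (e' + 1)) * ρ ^ (p' + 1) := by
      rw [hLam, mul_pow, ← pow_mul, mul_comm (e' + 1)]
    rw [hε, huv, h1, pow_succ W ((p' + 1) * (e' + 1))]
    ring
  -- (3) climbing
  obtain ⟨θ, hθ, v₁, hv₁, hθe⟩ := climb913 O V hOV hW hWO hp (e' + 1)
    (V.mul_mem (V.pow_mem hρV p') hzV) hpe H1 H2 hd₀V hεO hΓε (e' + 1) le_rfl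
  have hθV : θ ∈ V := hOV hθ
  -- (4) `d₀ = θ + Λ v'`
  set v' : F := ρ' * v₁ with hv'
  have hv'V : v' ∈ V := V.mul_mem hρ'V hv₁
  have hd₀θ : d₀ = θ + Lam * v' := by
    rw [hv', hLam]
    linear_combination hθe - W ^ (e' + 1) * v₁ * hρρ'
  obtain ⟨q, hq, hexp⟩ := add_pow_prime_mem913 V hp hθV (V.mul_mem hLamV hv'V)
  have hd₀p : d₀ ^ (p' + 1) = θ ^ (p' + 1) + Lam ^ (p' + 1) * (v' ^ (p' + 1) + z * θ * v' * q) := by
    rw [hd₀θ, hexp, hpz', pow_succ Lam p']
    ring
  -- (5) `ε - θ ^ p ∈ Λ ^ p O`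
  have h5 : ∃ o₃ ∈ O, ε - θ ^ (p' + 1) = Lam ^ (p' + 1) * o₃ := by
    have hLp : Lam ^ (p' + 1) = W ^ ((p' + 1) * (e' + 1)) * ρ ^ (p' + 1) := by
      rw [hLam, mul_pow, ← pow_mul, mul_comm (e' + 1)]
    set Y : F := d₀ ^ (p' + 1) * W * v + (v' ^ (p' + 1) + z * θ * v' * q) with hY
    have hYV : Y ∈ V :=
      V.add_mem (V.mul_mem (V.mul_mem (V.pow_mem hd₀V _) hWV) hv)
        (V.add_mem (V.pow_mem hv'V _) (V.mul_mem (V.mul_mem (V.mul_mem hzV hθV) hv'V) hq))
    have hεθ : ε - θ ^ (p' + 1) = Lam ^ (p' + 1) * Y := by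
      have : ε = d₀ ^ (p' + 1) + Lam ^ (p' + 1) * (d₀ ^ (p' + 1) * W * v) := by
        rw [hε, huv]; ring
      rw [hY]
      linear_combination this + hd₀p
    obtain ⟨o, ho, hoe⟩ := dvd_pow_of_dvd913 O V hW hWV H1 ((p' + 1) * (e' + 1))
      (ε - θ ^ (p' + 1)) (O.sub_mem hεO (O.pow_mem hθ _))
      ⟨ρ ^ (p' + 1) * Y, V.mul_mem (V.pow_mem hρV _) hYV, by rw [hεθ, hLp]; ring⟩
    refine ⟨ρ' ^ (p' + 1) * o, O.mul_mem (O.pow_mem hρ' _) ho, ?_⟩
    have hρp : ρ ^ (p' + 1) * ρ' ^ (p' + 1) = 1 := by rw [← mul_pow, hρρ', one_pow]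
    rw [hoe, hLp]
    linear_combination (-(W ^ ((p' + 1) * (e' + 1)) * o)) * hρp
  obtain ⟨o₃, ho₃, hεθ⟩ := h5
  -- (6) `θ` is a unit of `O`
  set o₄ : F := -(W ^ e' * ρ * Lam ^ p' * ε⁻¹ * o₃) with ho₄
  have ho₄O : o₄ ∈ O :=
    O.neg_mem (O.mul_mem (O.mul_mem (O.mul_mem (O.mul_mem (O.pow_mem hWO _) hρ)
      (O.pow_mem hLamO _)) hεO') ho₃)
  obtain ⟨hne4, hinv4⟩ := hinvO o₄ ho₄O
  have hθp : θ ^ (p' + 1) = ε * (1 + W * o₄) := by
    rw [ho₄]
    have h1 : ε * ε⁻¹ = 1 := mul_inv_cancel₀ hε0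
    have h2 : Lam ^ (p' + 1) = W * (W ^ e' * ρ) * Lam ^ p' := by
      rw [pow_succ, mul_comm]; congr 1
    linear_combination -hεθ - o₃ * h2 + (W * (W ^ e' * ρ) * Lam ^ p' * o₃) * h1
  have hθp0 : θ ^ (p' + 1) ≠ 0 := by rw [hθp]; exact mul_ne_zero hε0 hne4
  have hθ0 : θ ≠ 0 := fun h => hθp0 (by rw [h, zero_pow (Nat.succ_ne_zero _)])
  have hθpinv : (θ ^ (p' + 1))⁻¹ ∈ O := by
    rw [hθp, mul_inv]; exact O.mul_mem hεO' hinv4
  have hθinv : θ⁻¹ ∈ O := by
    have : θ⁻¹ = θ ^ p' * (θ ^ (p' + 1))⁻¹ := by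
      rw [pow_succ]; field_simp
    rw [this]; exact O.mul_mem (O.pow_mem hθ _) hθpinv
  -- (7) `d₁ = d₀ / θ`
  set d₁ : F := d₀ * θ⁻¹ with hd₁
  have hd₁0 : d₁ ≠ 0 := mul_ne_zero hd₀ (inv_ne_zero hθ0)
  have hud₁ : u * d₁ ^ (p' + 1) = 1 + Lam ^ (p' + 1) * (o₃ * (θ ^ (p' + 1))⁻¹) := by
    have : u * d₁ ^ (p' + 1) = ε * (θ ^ (p' + 1))⁻¹ := by
      rw [hd₁, mul_pow, hε, inv_pow]; ring
    rw [this]
    have h1 : ε = θ ^ (p' + 1) + Lam ^ (p' + 1) * o₃ := by linear_combination hεθ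
    rw [h1]
    field_simp
  have hd₁V : d₁ = 1 + Lam * (v' * θ⁻¹) := by
    rw [hd₁, hd₀θ]
    field_simp
  -- (8) density on the other component
  obtain ⟨b, hb, hbg⟩ := DENS ((d₁⁻¹ - 1) * Lam⁻¹) d₁
  obtain ⟨hne8, -⟩ := hinvO (W ^ e' * ρ * b) (O.mul_mem (O.mul_mem (O.pow_mem hWO _) hρ) hb)
  have hδ : 1 + W * (W ^ e' * ρ * b) = 1 + Lam * b := by rw [hLamW]; ring
  rw [hδ] at hne8
  obtain ⟨q', hq', hexp'⟩ := add_pow_prime_mem913 O hp O.one_mem (O.mul_mem hLamO hb)
  have hδp : (1 + Lam * b) ^ (p' + 1) = 1 + Lam ^ (p' + 1) * (b ^ (p' + 1) + z * b * q') := by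
    rw [hexp', hpz', pow_succ Lam p']
    ring
  refine ⟨d₁ * (1 + Lam * b), mul_ne_zero hd₁0 hne8, ?_, ?_, ?_⟩
  · refine ⟨o₃ * (θ ^ (p' + 1))⁻¹ + (b ^ (p' + 1) + z * b * q') +
      Lam ^ (p' + 1) * (o₃ * (θ ^ (p' + 1))⁻¹) * (b ^ (p' + 1) + z * b * q'), ?_, ?_⟩
    · have hA : o₃ * (θ ^ (p' + 1))⁻¹ ∈ O := O.mul_mem ho₃ hθpinv
      have hB : b ^ (p' + 1) + z * b * q' ∈ O :=
        O.add_mem (O.pow_mem hb _) (O.mul_mem (O.mul_mem hz hb) hq')
      exact O.add_mem (O.add_mem hA hB) (O.mul_mem (O.mul_mem (O.pow_mem hLamO _) hA) hB)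
    · rw [mul_pow, ← mul_assoc, hud₁, hδp]
      ring
  · refine ⟨v' * θ⁻¹ + b + Lam * (v' * θ⁻¹) * b, ?_, ?_⟩
    · have hA : v' * θ⁻¹ ∈ V := V.mul_mem hv'V (hOV hθinv)
      exact V.add_mem (V.add_mem hA (hOV hb)) (V.mul_mem (V.mul_mem hLamV hA) (hOV hb))
    · rw [hd₁V]
      ring
  · refine ⟨d₁ * (b - (d₁⁻¹ - 1) * Lam⁻¹), hbg, ?_⟩
    field_simp
    ring

end Abs

end Fermat.Agent.Ribet.H913

end
-- ===== PACK-END Ribet/H913/Climb.lean

-- ===== PACK-BEGIN A2/H552/KummerUnram.lean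
section







/-!
# A2 / ALG, COVER-SPLIT in the cyclic case `u ≡ 1 mod w` (helper552)

`K ⊆ Ω` fields, `V` a valuation subring of `K` with uniformiser `w` (`w` generates the non-units
of `V` and `K = V[1/w]`), `m` invertible in `V`, `ζ ∈ K` a primitive `m`-th root of unity,
`Ω = K[z]` with `z ^ m = 1 + w t`, `t ∈ V`.  Let `W` be ANY valuation subring of `Ω` containing `V`
in which `w` is not a unit.  Then

* `z = η (1 + w s)` with `η` an `m`-th root of unity and `s ∈ W`;
* `W = V[s]` (the subring generated by `V` and `s`), `V[s] = V + w V[s]`;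
* hence `𝔪_W = w W` (`e = 1`) and `W = V + w W` (`f = 1`): `kummer_unramified`.

No Galois theory, no étale/Dedekind API, no completeness.
-/

set_option autoImplicit false

namespace Fermat.Agent.A2.H552

open Polynomial

section CycUnram

variable {K Ω : Type*} [Field K] [Field Ω] [Algebra K Ω]

/-- In a valuation subring of a field: a nonzero element with `x⁻¹ ∉ W` has valuation `< 1`. -/
theorem valuation_lt_one_of_inv_notMem (W : ValuationSubring Ω) {x : Ω} (hx : x⁻¹ ∉ W) :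
    W.valuation x < 1 := by
  by_contra h
  rw [not_lt] at h
  apply hx
  rw [← W.valuation_le_one_iff, map_inv₀]
  exact inv_le_one_of_one_le₀ h

/-- An element of valuation `< 1` has `x⁻¹ ∉ W` unless it is zero. -/
theorem inv_notMem_of_valuation_lt_one (W : ValuationSubring Ω) {x : Ω} (hx0 : x ≠ 0)
    (hx : W.valuation x < 1) : x⁻¹ ∉ W := by
  intro h
  rw [← W.valuation_le_one_iff, map_inv₀] at h
  have hpos : 0 < W.valuation x := by
    rw [pos_iff_ne_zero]
    exact (Valuation.ne_zero_iff _).mpr hx0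
  have := (inv_le_one₀ hpos).mp h
  exact absurd hx (not_lt.mpr this)

/-- In a linearly ordered group with zero, `a ^ n = 1` with `n ≠ 0` forces `a = 1`. -/
theorem eq_one_of_pow_eq_one₀ {Γ : Type*} [LinearOrderedCommGroupWithZero Γ] {a : Γ} {n : ℕ}
    (hn : n ≠ 0) (h : a ^ n = 1) : a = 1 := by
  rcases lt_trichotomy a 1 with h1 | h1 | h1
  · exact absurd h (pow_lt_one₀ zero_le h1 hn).ne
  · exact h1
  · exact absurd h (one_lt_pow₀ h1 hn).ne'

/-- `x ^ m = 1` with `0 < m` gives `x⁻¹ = x ^ (m - 1)`. -/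
theorem inv_eq_pow_of_pow_eq_one {F : Type*} [Field F] {x : F} {m : ℕ} (hm : 0 < m)
    (h : x ^ m = 1) : x⁻¹ = x ^ (m - 1) := by
  apply inv_eq_of_mul_eq_one_right
  rw [← pow_succ', Nat.sub_add_cancel hm, h]

/-- **Cyclic Kummer extensions with `u ≡ 1 mod w` are unramified with trivial residue
extension** at every valuation subring `W` over `V`. -/
theorem kummer_unramified (V : ValuationSubring K) (W : ValuationSubring Ω)
    (hVW : ∀ a ∈ V, algebraMap K Ω a ∈ W)
    (w : K) (hwV : w ∈ V) (hw0 : w ≠ 0) (hwW : (algebraMap K Ω w)⁻¹ ∉ W)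
    (hVgen : ∀ a ∈ V, a⁻¹ ∉ V → a * w⁻¹ ∈ V)
    (hdisc : ∀ c : K, ∃ k : ℕ, w ^ k * c ∈ V)
    (m : ℕ) (hm : 0 < m) (hm0 : (m : K) ≠ 0) (hmV : ((m : K))⁻¹ ∈ V)
    (ζ : K) (hζ : IsPrimitiveRoot ζ m)
    (t : K) (ht : t ∈ V) (z : Ω) (hz : z ^ m = algebraMap K Ω (1 + w * t))
    (hgen : ∀ b : Ω, b ∈ Algebra.adjoin K ({z} : Set Ω)) :
    (∀ b ∈ W, b⁻¹ ∉ W → b * (algebraMap K Ω w)⁻¹ ∈ W) ∧
    (∀ b ∈ W, ∃ a ∈ V, (b - algebraMap K Ω a) * (algebraMap K Ω w)⁻¹ ∈ W) := by
  classical
  have : NeZero m := ⟨hm.ne'⟩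
  set φ := algebraMap K Ω with hφ
  set v := W.valuation with hv
  have hφinj : Function.Injective φ := (algebraMap K Ω).injective
  have hφw0 : φ w ≠ 0 := fun h => hw0 (hφinj (by rw [h, map_zero]))
  have hvV : ∀ a ∈ V, v (φ a) ≤ 1 := fun a ha => (W.valuation_le_one_iff _).mpr (hVW a ha)
  have hvw : v (φ w) < 1 := valuation_lt_one_of_inv_notMem W hwW
  have hvw0 : v (φ w) ≠ 0 := (Valuation.ne_zero_iff _).mpr hφw0
  have hunitV : ∀ a ∈ V, a⁻¹ ∈ V → a ≠ 0 → v (φ a) = 1 := by
    intro a ha hai ha0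
    have h1 := hvV a ha
    have h2 := hvV _ hai
    rw [map_inv₀, map_inv₀] at h2
    have hpos : 0 < v (φ a) := by
      rw [pos_iff_ne_zero]
      exact (Valuation.ne_zero_iff _).mpr (fun h => ha0 (hφinj (by rw [h, map_zero])))
    exact le_antisymm h1 ((inv_le_one₀ hpos).mp h2)
  -- the root of unity `ζ` is a unit of `V`
  have hζm : ζ ^ m = 1 := hζ.pow_eq_one
  have hζ0 : ζ ≠ 0 := hζ.ne_zero hm.ne'
  have hpowV : ∀ i : ℕ, ζ ^ i ∈ V := by
    have hζV : ζ ∈ V := by
      rcases V.mem_or_inv_mem ζ with h | h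
      · exact h
      · have h1 : (ζ⁻¹) ^ m = 1 := by rw [inv_pow, hζm, inv_one]
        have h2 := inv_eq_pow_of_pow_eq_one hm h1
        rw [inv_inv] at h2
        rw [h2]
        exact pow_mem h _
    exact fun i => pow_mem hζV i
  -- `m` is a unit of `V`
  have hmVmem : (m : K) ∈ V := by
    have : (m : K) = ((m : ℕ) : V) := by simp
    rw [this]
    exact Subtype.mem _
  have hvm : v (φ (m : K)) = 1 := hunitV _ hmVmem hmV hm0
  have hφm : φ (m : K) = (m : Ω) := map_natCast φ m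
  -- `z` is a unit of `W`
  have hv1wt : v (φ (1 + w * t)) = 1 := by
    rw [map_add, map_one, map_mul]
    have hlt : v (φ w * φ t) < v 1 := by
      rw [map_one, map_mul]
      calc v (φ w) * v (φ t) ≤ v (φ w) * 1 := by gcongr; exact hvV t ht
        _ = v (φ w) := mul_one _
        _ < 1 := hvw
    rw [Valuation.map_add_eq_of_lt_left _ hlt, map_one]
  have hvz : v z = 1 := by
    have h1 : v z ^ m = 1 := by rw [← map_pow, hz, hv1wt]
    exact eq_one_of_pow_eq_one₀ hm.ne' h1
  -- some `m`-th root of unity `η` is congruent to `z`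
  have hζ' : IsPrimitiveRoot (φ ζ) m := hζ.map_of_injective hφinj
  have hprod : z ^ m - 1 = ∏ η ∈ nthRootsFinset m (1 : Ω), (z - η) := by
    have h := congrArg (eval z) (X_pow_sub_one_eq_prod hm hζ')
    simpa [eval_prod] using h
  have hvη : ∀ η ∈ nthRootsFinset m (1 : Ω), v η = 1 := by
    intro η hη
    rw [mem_nthRootsFinset hm] at hη
    have h1 : v η ^ m = 1 := by rw [← map_pow, hη, map_one]
    exact eq_one_of_pow_eq_one₀ hm.ne' h1
  obtain ⟨η, hη, hzη⟩ : ∃ η ∈ nthRootsFinset m (1 : Ω), v (z - η) < 1 := by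
    by_contra hcon
    have hall : ∀ η ∈ nthRootsFinset m (1 : Ω), v (z - η) = 1 := by
      intro η hη
      refine le_antisymm ?_ (not_lt.mp fun h => hcon ⟨η, hη, h⟩)
      exact (Valuation.map_sub _ _ _).trans (max_le hvz.le (hvη η hη).le)
    have h1 : v (z ^ m - 1) = 1 := by
      rw [hprod, map_prod]
      exact Finset.prod_eq_one hall
    have h2 : v (z ^ m - 1) < 1 := by
      rw [hz, map_add, map_one, add_sub_cancel_left, map_mul]
      calc v (φ w) * v (φ t) ≤ v (φ w) * 1 := by gcongr; exact hvV t ht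
        _ = v (φ w) := mul_one _
        _ < 1 := hvw
    exact absurd h1 h2.ne
  have hηm : η ^ m = 1 := (mem_nthRootsFinset hm 1).mp hη
  have hη0 : η ≠ 0 := by
    intro h
    rw [h, zero_pow hm.ne'] at hηm
    exact zero_ne_one hηm
  obtain ⟨i, -, hi⟩ := hζ'.eq_pow_of_pow_eq_one hηm
  -- normalise: `z₁ = z / η ≡ 1`
  set z₁ := z * η⁻¹ with hz₁
  have hz₁m : z₁ ^ m = φ (1 + w * t) := by
    rw [hz₁, mul_pow, inv_pow, hηm, inv_one, mul_one, hz]
  have hvz₁ : v (z₁ - 1) < 1 := by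
    have : z₁ - 1 = (z - η) * η⁻¹ := by
      rw [hz₁, sub_mul, mul_inv_cancel₀ hη0]
    rw [this, map_mul, map_inv₀, hvη η hη, inv_one, mul_one]
    exact hzη
  have hvz₁' : v z₁ ≤ 1 := by
    rw [hz₁, map_mul, map_inv₀, hvη η hη, inv_one, mul_one]
    exact hvz.le
  set G := ∑ j ∈ Finset.range m, z₁ ^ j with hG
  have hGmul : G * (z₁ - 1) = φ w * φ t := by
    rw [hG, geom_sum_mul, hz₁m, map_add, map_one, map_mul, add_sub_cancel_left]
  set s := (z₁ - 1) * (φ w)⁻¹ with hs
  have hz₁s : z₁ = 1 + φ w * s := by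
    rw [hs, mul_comm (z₁ - 1), ← mul_assoc, mul_inv_cancel₀ hφw0, one_mul]
    ring
  -- `G = m + w s c₀`
  set c₀ := ∑ j ∈ Finset.range m, ∑ l ∈ Finset.range j, z₁ ^ l with hc₀
  have hGm : G = (m : Ω) + φ w * s * c₀ := by
    have h1 : G - (m : Ω) = ∑ j ∈ Finset.range m, (z₁ ^ j - 1) := by
      rw [hG, Finset.sum_sub_distrib]
      simp
    have h2 : ∀ j ∈ Finset.range m, z₁ ^ j - 1 = (z₁ - 1) * ∑ l ∈ Finset.range j, z₁ ^ l :=
      fun j _ => (mul_geom_sum z₁ j).symm
    rw [Finset.sum_congr rfl h2, ← Finset.mul_sum, ← hc₀] at h1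
    have h3 : z₁ - 1 = φ w * s := by rw [hz₁s]; ring
    rw [h3] at h1
    rw [← h1]; ring
  have hGs : G * s = φ t := by
    have h3 : z₁ - 1 = φ w * s := by rw [hz₁s]; ring
    rw [h3] at hGmul
    have : φ w * (G * s) = φ w * φ t := by rw [← hGmul]; ring
    exact mul_left_cancel₀ hφw0 this
  -- the subring `A = V[s]`
  set A : Subring Ω := Subring.closure (φ '' (V : Set K) ∪ {s}) with hA
  have hVA : ∀ a ∈ V, φ a ∈ A := fun a ha =>
    Subring.subset_closure (Or.inl ⟨a, ha, rfl⟩)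
  have hsA : s ∈ A := Subring.subset_closure (Or.inr rfl)
  have hwA : φ w ∈ A := hVA w hwV
  have hz₁A : z₁ ∈ A := by
    rw [hz₁s]
    exact A.add_mem A.one_mem (A.mul_mem hwA hsA)
  have hc₀A : c₀ ∈ A := by
    rw [hc₀]
    exact A.sum_mem fun j _ => A.sum_mem fun l _ => A.pow_mem hz₁A l
  -- `s ∈ W`
  have hvG : v G = 1 := by
    have h1 : v (φ w * s * c₀) < v (m : Ω) := by
      rw [← hφm, hvm]
      have hsc : φ w * s * c₀ = (z₁ - 1) * c₀ := by
        rw [hz₁s]; ring
      rw [hsc, map_mul]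
      have hc₀le : v c₀ ≤ 1 := by
        rw [hc₀]
        refine Valuation.map_sum_le _ fun j _ => ?_
        refine Valuation.map_sum_le _ fun l _ => ?_
        rw [map_pow]
        exact pow_le_one₀ zero_le hvz₁'
      calc v (z₁ - 1) * v c₀ ≤ v (z₁ - 1) * 1 := by gcongr
        _ = v (z₁ - 1) := mul_one _
        _ < 1 := hvz₁
    rw [hGm, Valuation.map_add_eq_of_lt_left _ h1, ← hφm, hvm]
  have hG0 : G ≠ 0 := by
    intro h
    rw [h, map_zero] at hvG
    exact zero_ne_one hvG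
  have hsW : v s ≤ 1 := by
    have : s = φ t * G⁻¹ := by
      rw [← hGs, mul_comm G s, mul_assoc, mul_inv_cancel₀ hG0, mul_one]
    rw [this, map_mul, map_inv₀, hvG, inv_one, mul_one]
    exact hvV t ht
  have hAW : ∀ a ∈ A, v a ≤ 1 := by
    intro a ha
    have hle : A ≤ W.toSubring := by
      rw [hA, Subring.closure_le]
      rintro x (⟨a, ha, rfl⟩ | hx)
      · exact hVW a ha
      · rw [Set.mem_singleton_iff] at hx
        rw [hx]
        exact (W.valuation_le_one_iff _).mp hsW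
    exact (W.valuation_le_one_iff _).mpr (hle ha)
  -- `A = V + w A`
  have hdec : ∀ a ∈ A, ∃ a₀ ∈ V, ∃ a' ∈ A, a = φ a₀ + φ w * a' := by
    intro a ha
    induction ha using Subring.closure_induction with
    | mem x hx =>
      rcases hx with ⟨a₀, ha₀, rfl⟩ | hx
      · exact ⟨a₀, ha₀, 0, A.zero_mem, by simp⟩
      · rw [Set.mem_singleton_iff] at hx
        subst hx
        refine ⟨t * (m : K)⁻¹, mul_mem ht hmV, -(φ ((m : K)⁻¹) * s * s * c₀),
          A.neg_mem (A.mul_mem (A.mul_mem (A.mul_mem (hVA _ hmV) hsA) hsA) hc₀A), ?_⟩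
        have hmm : (m : Ω) * φ ((m : K)⁻¹) = 1 := by
          rw [← hφm, ← map_mul, mul_inv_cancel₀ hm0, map_one]
        have h5 : ((m : Ω) + φ w * s * c₀) * s = φ t := by rw [← hGm]; exact hGs
        rw [map_mul]
        linear_combination (φ ((m : K)⁻¹)) * h5 - s * hmm
    | zero => exact ⟨0, zero_mem V, 0, A.zero_mem, by simp⟩
    | one => exact ⟨1, one_mem V, 0, A.zero_mem, by simp⟩
    | add x y hx hy ihx ihy =>
      obtain ⟨x₀, hx₀, x', hx', rfl⟩ := ihx
      obtain ⟨y₀, hy₀, y', hy', rfl⟩ := ihy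
      exact ⟨x₀ + y₀, add_mem hx₀ hy₀, x' + y', A.add_mem hx' hy', by rw [map_add]; ring⟩
    | neg x hx ihx =>
      obtain ⟨x₀, hx₀, x', hx', rfl⟩ := ihx
      exact ⟨-x₀, neg_mem hx₀, -x', A.neg_mem hx', by rw [map_neg]; ring⟩
    | mul x y hx hy ihx ihy =>
      obtain ⟨x₀, hx₀, x', hx', rfl⟩ := ihx
      obtain ⟨y₀, hy₀, y', hy', rfl⟩ := ihy
      refine ⟨x₀ * y₀, mul_mem hx₀ hy₀, φ x₀ * y' + x' * φ y₀ + φ w * x' * y', ?_, ?_⟩
      · exact A.add_mem (A.add_mem (A.mul_mem (hVA _ hx₀) hy') (A.mul_mem hx' (hVA _ hy₀)))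
          (A.mul_mem (A.mul_mem hwA hx') hy')
      · rw [map_mul]; ring
  -- non-units of `A` are divisible by `w`
  have hdiv : ∀ a ∈ A, v a < 1 → ∃ a' ∈ A, a = φ w * a' := by
    intro a ha hva
    obtain ⟨a₀, ha₀, a', ha', rfl⟩ := hdec a ha
    have h1 : v (φ w * a') < 1 := by
      rw [map_mul]
      calc v (φ w) * v a' ≤ v (φ w) * 1 := by gcongr; exact hAW a' ha'
        _ = v (φ w) := mul_one _
        _ < 1 := hvw
    have h2 : v (φ a₀) < 1 := by
      have : φ a₀ = (φ a₀ + φ w * a') - φ w * a' := by ring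
      rw [this]
      exact Valuation.map_sub_lt _ hva h1
    have h3 : a₀ * w⁻¹ ∈ V := by
      by_cases h0 : a₀ = 0
      · rw [h0, zero_mul]; exact zero_mem V
      refine hVgen a₀ ha₀ fun hinv => ?_
      have := hunitV a₀ ha₀ hinv h0
      rw [this] at h2
      exact lt_irrefl _ h2
    refine ⟨φ (a₀ * w⁻¹) + a', A.add_mem (hVA _ h3) ha', ?_⟩
    rw [mul_add, ← map_mul, mul_comm a₀, ← mul_assoc, mul_inv_cancel₀ hw0, one_mul]
  -- `Ω = A[1/w]`
  have hloc : ∀ b : Ω, ∃ k : ℕ, φ w ^ k * b ∈ A := by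
    intro b
    induction hgen b using Algebra.adjoin_induction with
    | mem x hx =>
      rw [Set.mem_singleton_iff] at hx
      rw [hx]
      refine ⟨0, ?_⟩
      rw [pow_zero, one_mul]
      have hzz : z = η * z₁ := by
        rw [hz₁, mul_comm z, ← mul_assoc, mul_inv_cancel₀ hη0, one_mul]
      rw [hzz]
      refine A.mul_mem ?_ hz₁A
      rw [← hi, ← map_pow]
      exact hVA _ (hpowV i)
    | algebraMap c =>
      obtain ⟨k, hk⟩ := hdisc c
      refine ⟨k, ?_⟩
      rw [← hφ, ← map_pow, ← map_mul]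
      exact hVA _ hk
    | add x y _ _ ihx ihy =>
      obtain ⟨k₁, h₁⟩ := ihx
      obtain ⟨k₂, h₂⟩ := ihy
      refine ⟨k₁ + k₂, ?_⟩
      have : φ w ^ (k₁ + k₂) * (x + y) = φ w ^ k₂ * (φ w ^ k₁ * x) + φ w ^ k₁ * (φ w ^ k₂ * y) := by
        rw [pow_add]; ring
      rw [this]
      exact A.add_mem (A.mul_mem (A.pow_mem hwA _) h₁) (A.mul_mem (A.pow_mem hwA _) h₂)
    | mul x y _ _ ihx ihy =>
      obtain ⟨k₁, h₁⟩ := ihx
      obtain ⟨k₂, h₂⟩ := ihy
      refine ⟨k₁ + k₂, ?_⟩
      have : φ w ^ (k₁ + k₂) * (x * y) = (φ w ^ k₁ * x) * (φ w ^ k₂ * y) := by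
        rw [pow_add]; ring
      rw [this]
      exact A.mul_mem h₁ h₂
  -- `W ⊆ A`
  have hWA : ∀ b : Ω, v b ≤ 1 → b ∈ A := by
    intro b hb
    have hex := hloc b
    have hk : Nat.find hex = 0 := by
      by_contra hne
      obtain ⟨k, hk⟩ : ∃ k, Nat.find hex = k + 1 := ⟨Nat.find hex - 1, by omega⟩
      have hmem := Nat.find_spec hex
      rw [hk] at hmem
      have hlt : v (φ w ^ (k + 1) * b) < 1 := by
        rw [map_mul, map_pow, pow_succ]
        calc v (φ w) ^ k * v (φ w) * v b ≤ 1 * v (φ w) * 1 := by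
              gcongr
              exact pow_le_one₀ zero_le hvw.le
          _ = v (φ w) := by rw [one_mul, mul_one]
          _ < 1 := hvw
      obtain ⟨a', ha', h'⟩ := hdiv _ hmem hlt
      have : φ w ^ k * b = a' := by
        have h6 : φ w * (φ w ^ k * b) = φ w * a' := by rw [← h', pow_succ]; ring
        exact mul_left_cancel₀ hφw0 h6
      have hmin := Nat.find_min hex (m := k) (by omega)
      exact hmin (this ▸ ha')
    have := Nat.find_spec hex
    rwa [hk, pow_zero, one_mul] at this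
  refine ⟨fun b hbW hbinv => ?_, fun b hbW => ?_⟩
  · have hb1 : v b < 1 := valuation_lt_one_of_inv_notMem W hbinv
    obtain ⟨a', ha', h'⟩ := hdiv b (hWA b hb1.le) hb1
    rw [h', mul_comm (φ w), mul_assoc, mul_inv_cancel₀ hφw0, mul_one]
    exact (W.valuation_le_one_iff _).mp (hAW a' ha')
  · obtain ⟨a₀, ha₀, a', ha', h'⟩ := hdec b (hWA b ((W.valuation_le_one_iff _).mpr hbW))
    refine ⟨a₀, ha₀, ?_⟩
    rw [h', add_sub_cancel_left, mul_comm (φ w), mul_assoc, mul_inv_cancel₀ hφw0, mul_one]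
    exact (W.valuation_le_one_iff _).mp (hAW a' ha')

end CycUnram

end Fermat.Agent.A2.H552

end
-- ===== PACK-END A2/H552/KummerUnram.lean

-- ===== PACK-BEGIN A2/H373/SplitBasic.lean
section







/-!
# A2 / route G, obligation C2 (COVER-SPLIT), part 1: approximation by the base   (helper373)

Mathlib-only, elementary (no completions, no localisations, no noetherian hypotheses).

`F ⊆ L` fields, `V` a valuation subring of `F` which is *discrete with uniformiser* `w`
(`IsUnif V w`), `𝒲` a set of valuation subrings of `L` lying over `V` (`Over V W`).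

* `ApproxAt V w 𝒲 n b` : `b ≡ a mod wⁿ` for some `a ∈ V`, simultaneously in all `W ∈ 𝒲`;
  `Approx V w 𝒲 b` : this for all `n`;
* closure properties (`add`, `mul`, `inv` of simultaneous units, `div_w`);
* `mem_iff_approx` : if `L = F[y_i]` with all `y_i` approximable, then every `W ∈ 𝒲` is equal to
  the set of approximable elements.  In particular `𝒲` has at most one element.
-/

set_option autoImplicit false

namespace Fermat.Agent.A2.H373

variable {F L : Type*} [Field F] [Field L] [Algebra F L]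

/-- `V` is a discrete valuation subring of `F` with uniformiser `w` (elementwise form). -/
structure IsUnif (V : ValuationSubring F) (w : F) : Prop where
  mem : w ∈ V
  inv_not_mem : w⁻¹ ∉ V
  disc : ∀ x : F, x ≠ 0 → ∃ j : ℤ, x * w ^ (-j) ∈ V ∧ (x * w ^ (-j))⁻¹ ∈ V

/-- `W` lies over `V`: `W ∩ F = V`. -/
def Over (V : ValuationSubring F) (W : ValuationSubring L) : Prop :=
  ∀ a : F, algebraMap F L a ∈ W ↔ a ∈ V

section Unif

variable {V : ValuationSubring F} {w : F}

theorem IsUnif.ne_zero (hw : IsUnif V w) : w ≠ 0 := by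
  rintro rfl
  exact hw.inv_not_mem (by rw [inv_zero]; exact V.zero_mem)

theorem IsUnif.pow_mem (hw : IsUnif V w) (n : ℕ) : w ^ n ∈ V := _root_.pow_mem hw.mem n

/-- a negative power of the uniformiser is not integral -/
theorem IsUnif.zpow_mem_iff (hw : IsUnif V w) (j : ℤ) : w ^ j ∈ V ↔ 0 ≤ j := by
  constructor
  · intro h
    by_contra hj
    rw [not_le] at hj
    apply hw.inv_not_mem
    have h2 : w ^ (-j - 1) ∈ V := by
      have : (-j - 1) = ((-j - 1).toNat : ℤ) := by
        rw [Int.toNat_of_nonneg]; omega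
      rw [this, zpow_natCast]
      exact hw.pow_mem _
    have h3 : w⁻¹ = w ^ j * w ^ (-j - 1) := by
      rw [← zpow_add₀ hw.ne_zero]
      have : j + (-j - 1) = -1 := by ring
      rw [this, zpow_neg_one]
    rw [h3]
    exact V.mul_mem _ _ h h2
  · intro h
    lift j to ℕ using h
    rw [zpow_natCast]
    exact hw.pow_mem j

/-- the maximal ideal of `V` is generated by `w` -/
theorem IsUnif.mul_inv_mem (hw : IsUnif V w) {x : F} (hx : x ∈ V) (hx' : x = 0 ∨ x⁻¹ ∉ V) :
    x * w⁻¹ ∈ V := by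
  by_cases hx0 : x = 0
  · rw [hx0, zero_mul]; exact V.zero_mem
  have hx'' : x⁻¹ ∉ V := hx'.resolve_left hx0
  obtain ⟨j, hj1, hj2⟩ := hw.disc x hx0
  have hj0 : 0 ≤ j := by
    by_contra hneg
    rw [not_le] at hneg
    have : w ^ j ∈ V := by
      have h4 : w ^ j = x * (x * w ^ (-j))⁻¹ := by
        rw [mul_inv, zpow_neg, inv_inv, ← mul_assoc, mul_inv_cancel₀ hx0, one_mul]
      rw [h4]
      exact V.mul_mem _ _ hx hj2
    exact absurd ((hw.zpow_mem_iff j).1 this) (by omega)
  have hj1' : j ≠ 0 := by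
    rintro rfl
    apply hx''
    have : x⁻¹ = (x * w ^ (-(0 : ℤ)))⁻¹ := by simp
    rw [this]
    exact hj2
  have hj2' : 0 ≤ j - 1 := by omega
  have : x * w⁻¹ = w ^ (j - 1) * (x * w ^ (-j)) := by
    rw [mul_comm x (w ^ (-j)), ← mul_assoc, ← zpow_add₀ hw.ne_zero]
    have : j - 1 + -j = -1 := by ring
    rw [this, zpow_neg_one, mul_comm]
  rw [this]
  exact V.mul_mem _ _ ((hw.zpow_mem_iff _).2 hj2') hj1

/-- every element of `F` becomes integral after multiplication by a power of `w` -/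
theorem IsUnif.exists_mul_pow_mem (hw : IsUnif V w) (f : F) : ∃ k : ℕ, f * w ^ k ∈ V := by
  by_cases hf : f = 0
  · exact ⟨0, by rw [hf, zero_mul]; exact V.zero_mem⟩
  obtain ⟨j, hj1, -⟩ := hw.disc f hf
  rcases le_or_gt j 0 with hj | hj
  · refine ⟨(-j).toNat, ?_⟩
    rw [← zpow_natCast, Int.toNat_of_nonneg (by omega)]
    exact hj1
  · refine ⟨0, ?_⟩
    rw [pow_zero, mul_one]
    have : f = w ^ j * (f * w ^ (-j)) := by
      rw [mul_comm f, ← mul_assoc, ← zpow_add₀ hw.ne_zero, add_neg_cancel, zpow_zero, one_mul]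
    rw [this]
    exact V.mul_mem _ _ ((hw.zpow_mem_iff j).2 hj.le) hj1

end Unif

section Over

variable {V : ValuationSubring F} {W : ValuationSubring L} {w : F}

local notation "ι" => algebraMap F L

theorem Over.val_le_one_iff (h : Over V W) (a : F) : W.valuation (ι a) ≤ 1 ↔ a ∈ V := by
  rw [ValuationSubring.valuation_le_one_iff]
  exact h a

theorem Over.val_le_one (h : Over V W) {a : F} (ha : a ∈ V) : W.valuation (ι a) ≤ 1 :=
  (h.val_le_one_iff a).2 ha

theorem Over.val_ne_zero (_h : Over V W) {a : F} (ha0 : a ≠ 0) : W.valuation (ι a) ≠ 0 := by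
  rw [Valuation.ne_zero_iff]
  exact (map_ne_zero _).2 ha0

theorem Over.val_eq_one (h : Over V W) {a : F} (ha0 : a ≠ 0) (ha : a ∈ V) (ha' : a⁻¹ ∈ V) :
    W.valuation (ι a) = 1 := by
  have h1 : W.valuation (ι a) ≤ 1 := h.val_le_one ha
  have h2 : W.valuation (ι a⁻¹) ≤ 1 := h.val_le_one ha'
  rw [map_inv₀, map_inv₀] at h2
  have hne : W.valuation (ι a) ≠ 0 := h.val_ne_zero ha0
  exact le_antisymm h1 ((inv_le_one₀ (zero_lt_iff.2 hne)).1 h2)

theorem Over.inv_mem_of_val_eq_one (h : Over V W) {a : F} (ha : W.valuation (ι a) = 1) :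
    a⁻¹ ∈ V := by
  rw [← h.val_le_one_iff, map_inv₀, map_inv₀, ha, inv_one]

theorem Over.mem_of_val_eq_one (h : Over V W) {a : F} (ha : W.valuation (ι a) = 1) :
    a ∈ V := by
  rw [← h.val_le_one_iff, ha]

theorem Over.val_w_ne_zero (h : Over V W) (hw : IsUnif V w) : W.valuation (ι w) ≠ 0 :=
  h.val_ne_zero hw.ne_zero

theorem Over.val_w_pos (h : Over V W) (hw : IsUnif V w) : 0 < W.valuation (ι w) :=
  zero_lt_iff.2 (h.val_w_ne_zero hw)

theorem Over.val_w_lt_one (h : Over V W) (hw : IsUnif V w) : W.valuation (ι w) < 1 := by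
  refine lt_of_le_of_ne (h.val_le_one hw.mem) fun h1 => ?_
  exact hw.inv_not_mem (h.inv_mem_of_val_eq_one h1)

theorem Over.val_w_pow_le_one (h : Over V W) (hw : IsUnif V w) (n : ℕ) :
    W.valuation (ι w) ^ n ≤ 1 :=
  pow_le_one₀ zero_le (h.val_w_lt_one hw).le

/-- nonunits of `V` have valuation `≤ v(w)` -/
theorem Over.val_le_w (h : Over V W) (hw : IsUnif V w) {a : F} (ha : W.valuation (ι a) < 1) :
    W.valuation (ι a) ≤ W.valuation (ι w) := by
  have haV : a ∈ V := (h.val_le_one_iff a).1 ha.le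
  have h1 : a * w⁻¹ ∈ V := by
    refine hw.mul_inv_mem haV ?_
    by_cases ha0 : a = 0
    · exact Or.inl ha0
    · refine Or.inr fun hinv => ?_
      exact absurd (h.val_eq_one ha0 haV hinv) ha.ne
  have h2 := h.val_le_one h1
  rw [map_mul, map_mul, map_inv₀, map_inv₀] at h2
  exact (mul_inv_le_iff₀ (h.val_w_pos hw)).1 h2 |>.trans_eq (one_mul _)

end Over

section Approx

variable (V : ValuationSubring F) (w : F) (𝒲 : Set (ValuationSubring L))

local notation "ι" => algebraMap F L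

/-- `b ≡ a mod wⁿ` for some `a ∈ V`, simultaneously in all `W ∈ 𝒲`. -/
def ApproxAt (n : ℕ) (b : L) : Prop :=
  ∃ a ∈ V, ∀ W ∈ 𝒲, W.valuation (b - ι a) ≤ W.valuation (ι w) ^ n

/-- `b` can be approximated by elements of `V` to any order, simultaneously in all `W ∈ 𝒲`. -/
def Approx (b : L) : Prop := ∀ n : ℕ, ApproxAt V w 𝒲 n b

variable {V w 𝒲}

theorem approxAt_algebraMap {a : F} (ha : a ∈ V) (n : ℕ) : ApproxAt V w 𝒲 n (ι a) :=
  ⟨a, ha, fun W _ => by rw [sub_self, map_zero]; exact zero_le⟩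

theorem approx_algebraMap {a : F} (ha : a ∈ V) : Approx V w 𝒲 (ι a) :=
  fun n => approxAt_algebraMap ha n

theorem approx_zero : Approx V w 𝒲 (0 : L) := by
  have := approx_algebraMap (w := w) (𝒲 := 𝒲) V.zero_mem
  rwa [map_zero] at this

theorem approx_one : Approx V w 𝒲 (1 : L) := by
  have := approx_algebraMap (w := w) (𝒲 := 𝒲) V.one_mem
  rwa [map_one] at this

theorem ApproxAt.add {n : ℕ} {b b' : L} (hb : ApproxAt V w 𝒲 n b) (hb' : ApproxAt V w 𝒲 n b') :
    ApproxAt V w 𝒲 n (b + b') := by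
  obtain ⟨a, ha, h⟩ := hb
  obtain ⟨a', ha', h'⟩ := hb'
  refine ⟨a + a', V.add_mem _ _ ha ha', fun W hW => ?_⟩
  have : b + b' - ι (a + a') = (b - ι a) + (b' - ι a') := by rw [map_add]; ring
  rw [this]
  exact Valuation.map_add_le _ (h W hW) (h' W hW)

theorem ApproxAt.neg {n : ℕ} {b : L} (hb : ApproxAt V w 𝒲 n b) : ApproxAt V w 𝒲 n (-b) := by
  obtain ⟨a, ha, h⟩ := hb
  refine ⟨-a, V.neg_mem _ ha, fun W hW => ?_⟩
  have : -b - ι (-a) = -(b - ι a) := by rw [map_neg]; ring
  rw [this, Valuation.map_neg]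
  exact h W hW

variable (h𝒲 : ∀ W ∈ 𝒲, Over V W) (hw : IsUnif V w)
include h𝒲 hw

theorem ApproxAt.mem {n : ℕ} {b : L} (hb : ApproxAt V w 𝒲 n b) {W : ValuationSubring L}
    (hW : W ∈ 𝒲) : b ∈ W := by
  obtain ⟨a, ha, h⟩ := hb
  rw [← ValuationSubring.valuation_le_one_iff]
  have : b = (b - ι a) + ι a := by ring
  rw [this]
  exact Valuation.map_add_le _ ((h W hW).trans ((h𝒲 W hW).val_w_pow_le_one hw n))
    ((h𝒲 W hW).val_le_one ha)

theorem ApproxAt.mono {n n' : ℕ} (hn : n' ≤ n) {b : L} (hb : ApproxAt V w 𝒲 n b) :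
    ApproxAt V w 𝒲 n' b := by
  obtain ⟨a, ha, h⟩ := hb
  refine ⟨a, ha, fun W hW => (h W hW).trans ?_⟩
  exact pow_le_pow_of_le_one zero_le ((h𝒲 W hW).val_w_lt_one hw).le hn

theorem ApproxAt.mul {n : ℕ} {b b' : L} (hb : ApproxAt V w 𝒲 n b) (hb' : ApproxAt V w 𝒲 n b') :
    ApproxAt V w 𝒲 n (b * b') := by
  have hb'W := fun W hW => ApproxAt.mem h𝒲 hw hb' (W := W) hW
  obtain ⟨a, ha, h⟩ := hb
  obtain ⟨a', ha', h'⟩ := hb'
  refine ⟨a * a', V.mul_mem _ _ ha ha', fun W hW => ?_⟩
  have : b * b' - ι (a * a') = (b - ι a) * b' + ι a * (b' - ι a') := by rw [map_mul]; ring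
  rw [this]
  refine Valuation.map_add_le _ ?_ ?_
  · rw [map_mul]
    calc W.valuation (b - ι a) * W.valuation b' ≤ W.valuation (ι w) ^ n * 1 :=
          mul_le_mul' (h W hW) ((ValuationSubring.valuation_le_one_iff _ _).2 (hb'W W hW))
      _ = _ := mul_one _
  · rw [map_mul]
    calc W.valuation (ι a) * W.valuation (b' - ι a') ≤ 1 * W.valuation (ι w) ^ n :=
          mul_le_mul' ((h𝒲 W hW).val_le_one ha) (h' W hW)
      _ = _ := one_mul _

theorem ApproxAt.pow {n : ℕ} {b : L} (hb : ApproxAt V w 𝒲 n b) (k : ℕ) :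
    ApproxAt V w 𝒲 n (b ^ k) := by
  induction k with
  | zero => rw [pow_zero]; exact approx_one n
  | succ k ih => rw [pow_succ]; exact ApproxAt.mul h𝒲 hw ih hb

omit h𝒲 hw in
theorem ApproxAt.sum {n : ℕ} {κ : Type*} (s : Finset κ) (f : κ → L)
    (hf : ∀ i ∈ s, ApproxAt V w 𝒲 n (f i)) : ApproxAt V w 𝒲 n (∑ i ∈ s, f i) := by
  classical
  induction s using Finset.induction_on with
  | empty => rw [Finset.sum_empty]; exact approx_zero n
  | insert i s hi ih =>
    rw [Finset.sum_insert hi]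
    exact ApproxAt.add (hf i (Finset.mem_insert_self i s))
      (ih fun j hj => hf j (Finset.mem_insert_of_mem hj))

omit h𝒲 in
/-- multiplication by `w` gains one order -/
theorem ApproxAt.w_mul {n : ℕ} {b : L} (hb : ApproxAt V w 𝒲 n b) :
    ApproxAt V w 𝒲 (n + 1) (ι w * b) := by
  obtain ⟨a, ha, h⟩ := hb
  refine ⟨w * a, V.mul_mem _ _ hw.mem ha, fun W hW => ?_⟩
  have : ι w * b - ι (w * a) = ι w * (b - ι a) := by rw [map_mul]; ring
  rw [this, map_mul, pow_succ, mul_comm]
  exact mul_le_mul' (h W hW) le_rfl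

/-- inverses of simultaneous units -/
theorem ApproxAt.inv {n : ℕ} (hn : 1 ≤ n) {b : L} (hb : ApproxAt V w 𝒲 n b)
    (hne : 𝒲.Nonempty) (hu : ∀ W ∈ 𝒲, W.valuation b = 1) : ApproxAt V w 𝒲 n b⁻¹ := by
  obtain ⟨a, ha, h⟩ := hb
  -- `a` is a unit of `V`
  have hlt : ∀ W ∈ 𝒲, W.valuation (b - ι a) < 1 := fun W hW =>
    (h W hW).trans_lt (lt_of_le_of_lt
      (pow_le_pow_of_le_one zero_le ((h𝒲 W hW).val_w_lt_one hw).le hn)
      (by rw [pow_one]; exact (h𝒲 W hW).val_w_lt_one hw))
  have hva : ∀ W ∈ 𝒲, W.valuation (ι a) = 1 := by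
    intro W hW
    have e : ι a = b + -(b - ι a) := by ring
    rw [e, Valuation.map_add_eq_of_lt_left, hu W hW]
    rw [Valuation.map_neg, hu W hW]
    exact hlt W hW
  obtain ⟨W₀, hW₀⟩ := hne
  have ha' : a⁻¹ ∈ V := (h𝒲 W₀ hW₀).inv_mem_of_val_eq_one (hva W₀ hW₀)
  have hb0 : b ≠ 0 := by
    intro hb0
    have := hu W₀ hW₀
    rw [hb0, map_zero] at this
    exact zero_ne_one this
  have ha0 : ι a ≠ 0 := by
    intro h0
    have := hva W₀ hW₀
    rw [h0, map_zero] at this
    exact zero_ne_one this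
  refine ⟨a⁻¹, ha', fun W hW => ?_⟩
  have e : b⁻¹ - ι a⁻¹ = -(b - ι a) * (b⁻¹ * (ι a)⁻¹) := by
    rw [map_inv₀]
    field_simp
    ring
  rw [e, map_mul, map_mul, map_inv₀, map_inv₀, hu W hW, hva W hW, inv_one, mul_one, mul_one,
    Valuation.map_neg]
  exact h W hW

/-- division by `w`: it suffices that `b ∈ w W₀` for ONE `W₀ ∈ 𝒲` -/
theorem ApproxAt.div_w {n : ℕ} {b : L} (hb : ApproxAt V w 𝒲 (n + 1) b)
    {W₀ : ValuationSubring L} (hW₀ : W₀ ∈ 𝒲) (hb₀ : W₀.valuation b ≤ W₀.valuation (ι w)) :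
    ApproxAt V w 𝒲 n (b * (ι w)⁻¹) := by
  obtain ⟨a, ha, h⟩ := hb
  have hlt : W₀.valuation (ι a) < 1 := by
    have e : ι a = b + -(b - ι a) := by ring
    rw [e]
    refine Valuation.map_add_lt _ (hb₀.trans_lt ((h𝒲 W₀ hW₀).val_w_lt_one hw)) ?_
    rw [Valuation.map_neg]
    refine (h W₀ hW₀).trans_lt ?_
    calc W₀.valuation (ι w) ^ (n + 1) ≤ W₀.valuation (ι w) ^ 1 :=
          pow_le_pow_of_le_one zero_le ((h𝒲 W₀ hW₀).val_w_lt_one hw).le (by omega)
      _ = W₀.valuation (ι w) := pow_one _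
      _ < 1 := (h𝒲 W₀ hW₀).val_w_lt_one hw
  have ha' : a * w⁻¹ ∈ V := by
    refine hw.mul_inv_mem ha ?_
    by_cases ha0 : a = 0
    · exact Or.inl ha0
    · exact Or.inr fun hinv => absurd ((h𝒲 W₀ hW₀).val_eq_one ha0 ha hinv) hlt.ne
  refine ⟨a * w⁻¹, ha', fun W hW => ?_⟩
  have e : b * (ι w)⁻¹ - ι (a * w⁻¹) = (b - ι a) * (ι w)⁻¹ := by
    rw [map_mul, map_inv₀]; ring
  rw [e, map_mul, map_inv₀]
  rw [mul_inv_le_iff₀ ((h𝒲 W hW).val_w_pos hw), ← pow_succ]
  exact h W hW

omit h𝒲 hw in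
theorem Approx.add {b b' : L} (hb : Approx V w 𝒲 b) (hb' : Approx V w 𝒲 b') :
    Approx V w 𝒲 (b + b') := fun n => (hb n).add (hb' n)

theorem Approx.mul {b b' : L} (hb : Approx V w 𝒲 b) (hb' : Approx V w 𝒲 b') :
    Approx V w 𝒲 (b * b') := fun n => ApproxAt.mul h𝒲 hw (hb n) (hb' n)

theorem Approx.mem {b : L} (hb : Approx V w 𝒲 b) {W : ValuationSubring L} (hW : W ∈ 𝒲) :
    b ∈ W := ApproxAt.mem h𝒲 hw (hb 0) hW

theorem Approx.div_w {b : L} (hb : Approx V w 𝒲 b)
    {W₀ : ValuationSubring L} (hW₀ : W₀ ∈ 𝒲) (hb₀ : W₀.valuation b ≤ W₀.valuation (ι w)) :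
    Approx V w 𝒲 (b * (ι w)⁻¹) := fun n => ApproxAt.div_w h𝒲 hw (hb (n + 1)) hW₀ hb₀

omit h𝒲 hw in
variable (V w 𝒲) in
/-- `D[1/w]`, where `D` is the ring of approximable elements. -/
def approxLoc : Set L := {b | ∃ k : ℕ, Approx V w 𝒲 (ι w ^ k * b)}

/-- `D[1/w]` as an `F`-subalgebra of `L`. -/
def approxAlg : Subalgebra F L where
  carrier := approxLoc V w 𝒲
  mul_mem' := by
    rintro b b' ⟨k, hk⟩ ⟨k', hk'⟩
    refine ⟨k + k', ?_⟩
    have : ι w ^ (k + k') * (b * b') = (ι w ^ k * b) * (ι w ^ k' * b') := by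
      rw [pow_add]; ring
    rw [this]
    exact Approx.mul h𝒲 hw hk hk'
  add_mem' := by
    rintro b b' ⟨k, hk⟩ ⟨k', hk'⟩
    refine ⟨k + k', ?_⟩
    have : ι w ^ (k + k') * (b + b') =
        ι (w ^ k') * (ι w ^ k * b) + ι (w ^ k) * (ι w ^ k' * b') := by
      rw [pow_add, map_pow, map_pow]; ring
    rw [this]
    exact Approx.add (Approx.mul h𝒲 hw (approx_algebraMap (hw.pow_mem k')) hk)
      (Approx.mul h𝒲 hw (approx_algebraMap (hw.pow_mem k)) hk')
  algebraMap_mem' := by
    intro f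
    obtain ⟨k, hk⟩ := hw.exists_mul_pow_mem f
    refine ⟨k, ?_⟩
    have : ι w ^ k * ι f = ι (f * w ^ k) := by
      rw [map_mul, map_pow]; ring
    rw [this]
    exact approx_algebraMap hk

theorem mem_approxAlg {b : L} :
    b ∈ approxAlg h𝒲 hw ↔ ∃ k : ℕ, Approx V w 𝒲 (ι w ^ k * b) := Iff.rfl

/-- **Key lemma.**  If `L = F[y_i]` with all `y_i` approximable, then every `W ∈ 𝒲` is the set of
approximable elements. -/
theorem mem_iff_approx {κ : Type*} (y : κ → L) (hy : ∀ i, Approx V w 𝒲 (y i))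
    (hgen : Algebra.adjoin F (Set.range y) = ⊤) {W : ValuationSubring L} (hW : W ∈ 𝒲) (b : L) :
    b ∈ W ↔ Approx V w 𝒲 b := by
  refine ⟨fun hb => ?_, fun hb => Approx.mem h𝒲 hw hb hW⟩
  have htop : approxAlg h𝒲 hw = ⊤ := by
    rw [eq_top_iff, ← hgen]
    refine Algebra.adjoin_le ?_
    rintro _ ⟨i, rfl⟩
    exact ⟨0, by rw [pow_zero, one_mul]; exact hy i⟩
  have hbE : b ∈ approxAlg h𝒲 hw := by rw [htop]; exact Algebra.mem_top
  obtain ⟨k, hk⟩ := hbE
  induction k with
  | zero => rwa [pow_zero, one_mul] at hk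
  | succ k ih =>
    apply ih
    have hle : W.valuation (ι w ^ (k + 1) * b) ≤ W.valuation (ι w) := by
      rw [map_mul, map_pow, pow_succ, mul_assoc, mul_comm]
      calc W.valuation (ι w) * W.valuation b * W.valuation (ι w) ^ k
          ≤ W.valuation (ι w) * 1 * 1 :=
            mul_le_mul' (mul_le_mul' le_rfl ((ValuationSubring.valuation_le_one_iff _ _).2 hb))
              ((h𝒲 W hW).val_w_pow_le_one hw k)
        _ = _ := by rw [mul_one, mul_one]
    have := Approx.div_w h𝒲 hw hk hW hle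
    have e : ι w ^ (k + 1) * b * (ι w)⁻¹ = ι w ^ k * b := by
      have hne : ι w ≠ 0 := (map_ne_zero _).2 hw.ne_zero
      rw [pow_succ]
      field_simp
    rwa [e] at this

end Approx

end Fermat.Agent.A2.H373

end
-- ===== PACK-END A2/H373/SplitBasic.lean

-- ===== PACK-BEGIN A2/H733/CountSetup.lean
section




/-!
# CountLeaf assembly, part 2: the base ring `Λ = R[t] ⊆ F` and its fraction field `E(t)`

`R` a discrete valuation ring with uniformiser `w`, `E = Frac R`, `F ⊇ E` a field, `t : F`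
transcendental over `E`.  `Λ := Algebra.adjoin R {t}`, `K := IntermediateField.adjoin E {t}`.

* `algAdjoin : Algebra Λ K`, `isFractionRing_adjoin : IsFractionRing Λ K`.

(The ring-theoretic properties of `Λ` are in `A3/H492/ChartRing.lean`.)
-/

set_option autoImplicit false
set_option linter.unusedSectionVars false

namespace Fermat.Agent.A2.H733

section Quot

variable (R : Type*) [CommRing R] {F : Type*} [Field F] [Algebra R F]

/-- The subfield of quotients of elements of a subalgebra. -/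
def quotSubfield (A : Subalgebra R F) : Subfield F where
  carrier := {z | ∃ a ∈ A, ∃ b ∈ A, b ≠ 0 ∧ z * b = a}
  mul_mem' := by
    rintro z₁ z₂ ⟨a₁, ha₁, b₁, hb₁, h₁, e₁⟩ ⟨a₂, ha₂, b₂, hb₂, h₂, e₂⟩
    exact ⟨a₁ * a₂, A.mul_mem ha₁ ha₂, b₁ * b₂, A.mul_mem hb₁ hb₂, mul_ne_zero h₁ h₂, by
      rw [← e₁, ← e₂]; ring⟩
  one_mem' := ⟨1, A.one_mem, 1, A.one_mem, one_ne_zero, by ring⟩
  add_mem' := by
    rintro z₁ z₂ ⟨a₁, ha₁, b₁, hb₁, h₁, e₁⟩ ⟨a₂, ha₂, b₂, hb₂, h₂, e₂⟩
    exact ⟨a₁ * b₂ + a₂ * b₁, A.add_mem (A.mul_mem ha₁ hb₂) (A.mul_mem ha₂ hb₁), b₁ * b₂,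
      A.mul_mem hb₁ hb₂, mul_ne_zero h₁ h₂, by rw [← e₁, ← e₂]; ring⟩
  zero_mem' := ⟨0, A.zero_mem, 1, A.one_mem, one_ne_zero, by ring⟩
  neg_mem' := by
    rintro z ⟨a, ha, b, hb, h, e⟩
    exact ⟨-a, A.neg_mem ha, b, hb, h, by rw [← e]; ring⟩
  inv_mem' := by
    rintro z ⟨a, ha, b, hb, h, e⟩
    by_cases hz : z = 0
    · subst hz
      exact ⟨0, A.zero_mem, 1, A.one_mem, one_ne_zero, by simp⟩
    · have ha0 : a ≠ 0 := by
        rw [← e]
        exact mul_ne_zero hz h
      exact ⟨b, hb, a, ha, ha0, by rw [← e]; field_simp⟩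

theorem mem_quotSubfield {A : Subalgebra R F} {z : F} :
    z ∈ quotSubfield R A ↔ ∃ a ∈ A, ∃ b ∈ A, b ≠ 0 ∧ z * b = a := Iff.rfl

end Quot

section Setup

variable {R E F : Type*} [CommRing R] [IsDomain R]
  [Field E] [Algebra R E] [IsFractionRing R E]
  [Field F] [Algebra E F] [Algebra R F] [IsScalarTower R E F]

/-- Every element of `E(t)` is a quotient of two elements of `R[t]`. -/
theorem exists_quot_of_mem_adjoin (t : F) {z : F}
    (hz : z ∈ IntermediateField.adjoin E ({t} : Set F)) :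
    ∃ a ∈ Algebra.adjoin R ({t} : Set F), ∃ b ∈ Algebra.adjoin R ({t} : Set F),
      b ≠ 0 ∧ z * b = a := by
  have h1 : IntermediateField.adjoin E ({t} : Set F) ≤
      { quotSubfield R (Algebra.adjoin R ({t} : Set F)) with
        algebraMap_mem' := fun e => by
          obtain ⟨r, s, hs, rfl⟩ := IsFractionRing.div_surjective (A := R) e
          have hs0 : algebraMap R F s ≠ 0 := by
            rw [IsScalarTower.algebraMap_apply R E F]
            intro h
            have h2 := (map_eq_zero (algebraMap E F)).1 h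
            have h3 := (IsFractionRing.injective R E) (h2.trans (map_zero _).symm)
            exact nonZeroDivisors.ne_zero hs h3
          refine ⟨algebraMap R F r, Subalgebra.algebraMap_mem _ r, algebraMap R F s,
            Subalgebra.algebraMap_mem _ s, hs0, ?_⟩
          rw [map_div₀, ← IsScalarTower.algebraMap_apply R E F,
            ← IsScalarTower.algebraMap_apply R E F]
          field_simp } := by
    rw [IntermediateField.adjoin_le_iff]
    intro y hy
    have hyt : y = t := hy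
    rw [hyt]
    exact ⟨t, Algebra.subset_adjoin rfl, 1, Subalgebra.one_mem _, one_ne_zero, by ring⟩
  exact h1 hz

variable (R E) in
/-- `R[t] ⊆ E(t)`. -/
theorem adjoin_le_adjoin (t : F) {a : F} (ha : a ∈ Algebra.adjoin R ({t} : Set F)) :
    a ∈ IntermediateField.adjoin E ({t} : Set F) := by
  induction ha using Algebra.adjoin_induction with
  | mem y hy =>
    exact IntermediateField.subset_adjoin E _ hy
  | algebraMap r =>
    rw [IsScalarTower.algebraMap_apply R E F]
    exact IntermediateField.algebraMap_mem _ _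
  | add x y _ _ hx hy => exact add_mem hx hy
  | mul x y _ _ hx hy => exact mul_mem hx hy

variable (R E) in
/-- The inclusion `R[t] → E(t)`. -/
def adjoinIncl (t : F) :
    Algebra.adjoin R ({t} : Set F) →+* IntermediateField.adjoin E ({t} : Set F) where
  toFun a := ⟨a, adjoin_le_adjoin R E t a.2⟩
  map_one' := rfl
  map_mul' _ _ := rfl
  map_zero' := rfl
  map_add' _ _ := rfl

variable (R E) in
/-- The algebra structure of `E(t)` over `R[t]`. -/
@[reducible] def algAdjoin (t : F) :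
    Algebra (Algebra.adjoin R ({t} : Set F)) (IntermediateField.adjoin E ({t} : Set F)) :=
  (adjoinIncl R E t).toAlgebra

variable (R E) in
/-- `E(t)` is the fraction field of `R[t]`. -/
theorem isFractionRing_adjoin (t : F) :
    letI := algAdjoin R E t
    IsFractionRing (Algebra.adjoin R ({t} : Set F)) (IntermediateField.adjoin E ({t} : Set F)) := by
  let _ := algAdjoin R E t
  have hinj : Function.Injective
      (algebraMap (Algebra.adjoin R ({t} : Set F)) (IntermediateField.adjoin E ({t} : Set F))) := by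
    intro a b hab
    apply Subtype.ext
    exact congrArg (fun z : IntermediateField.adjoin E ({t} : Set F) => (z : F)) hab
  have : FaithfulSMul (Algebra.adjoin R ({t} : Set F))
      (IntermediateField.adjoin E ({t} : Set F)) :=
    (faithfulSMul_iff_algebraMap_injective _ _).2 hinj
  refine IsFractionRing.of_field _ _ ?_
  intro z
  obtain ⟨a, ha, b, hb, hb0, hab⟩ := exists_quot_of_mem_adjoin (R := R) t z.2
  refine ⟨⟨a, ha⟩, ⟨b, hb⟩, ?_⟩
  have hb0' : algebraMap (Algebra.adjoin R ({t} : Set F))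
      (IntermediateField.adjoin E ({t} : Set F)) ⟨b, hb⟩ ≠ 0 := by
    intro h
    exact hb0 (congrArg (fun z : IntermediateField.adjoin E ({t} : Set F) => (z : F)) h)
  rw [eq_div_iff hb0']
  apply Subtype.ext
  exact hab

end Setup

end Fermat.Agent.A2.H733

end
-- ===== PACK-END A2/H733/CountSetup.lean

-- ===== PACK-BEGIN A2/H492/M4.lean
section





/-!
# Cell A2, piece M4 (abstract): the components of the special fibre are smooth

Mathlib-only commutative algebra (helper492).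

Setting of the application (`N = q M`, `q ∤ M`): `B₀ = B_M` is the normal model of level `M`
(over the discrete valuation ring `R`, uniformiser `w`), `B = B_N` the normal model of level `N`,
`B₀ → B` one of the two degeneracy maps (`α^*` or `β^*`), `𝔭` the prime of `B` cut out by the
Gauss valuation `V∞` (resp. `V₀`), i.e. one of the two components of the special fibre.

Hypotheses:
* `b` is integral over `B₀` (both models are integral over `R[j]`);
* `𝔭 ∩ B₀ = I` (in the application `I = w B₀`: `q`-expansion principle at level `M`);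
* `B₀ ⧸ I` is integrally closed (**S18 b2 at level `M`**: the special fibre of level `M` is normal);
* the residue field of `𝔭` is generated by `B₀`: `d * b - c ∈ 𝔭` with `c, d ∈ B₀`, `d ∉ 𝔭`
  (Kronecker congruence: the residue field of `V∞` on `F_N` is the one of `F_M`).

Conclusion: `b ∈ B₀ + 𝔭`.  Hence `B ⧸ 𝔭 = B₀ ⧸ I`, which is integrally closed: the component is
smooth.

Main statements:
* `exists_sub_mem_of_integrallyClosed` : the elementwise statement;
* `quotient_surjective_of_integrallyClosed` : `B₀ → B ⧸ 𝔭` is surjective;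
* `quotientEquivOfIntegrallyClosed` : `B₀ ⧸ I ≃+* B ⧸ 𝔭`;
* `isIntegrallyClosed_quotient` : `B ⧸ 𝔭` is integrally closed.
-/

set_option autoImplicit false

open Polynomial

namespace Fermat.Agent.A2.H492

variable {B₀ B : Type*} [CommRing B₀] [CommRing B] [Algebra B₀ B]

/-- An element integral over `B₀` stays integral over `B₀ ⧸ (𝔭 ∩ B₀)` in `B ⧸ 𝔭`. -/
theorem isIntegral_quotient_mk (𝔭 : Ideal B) {b : B} (hb : IsIntegral B₀ b) :
    IsIntegral (B₀ ⧸ 𝔭.comap (algebraMap B₀ B)) (Ideal.Quotient.mk 𝔭 b) := by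
  obtain ⟨p, hp, hpb⟩ := hb
  refine ⟨p.map (Ideal.Quotient.mk _), hp.map _, ?_⟩
  have h := congrArg (Ideal.Quotient.mk 𝔭) hpb
  rw [map_zero, hom_eval₂] at h
  rw [eval₂_map]
  exact h

/-- **M4, core.**  See the module docstring. -/
theorem exists_sub_mem_of_comap (𝔭 : Ideal B) [𝔭.IsPrime]
    [IsIntegrallyClosed (B₀ ⧸ 𝔭.comap (algebraMap B₀ B))]
    {b : B} (hb : IsIntegral B₀ b) {c d : B₀} (hd : algebraMap B₀ B d ∉ 𝔭)
    (h : algebraMap B₀ B d * b - algebraMap B₀ B c ∈ 𝔭) :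
    ∃ a : B₀, b - algebraMap B₀ B a ∈ 𝔭 := by
  classical
  set I : Ideal B₀ := 𝔭.comap (algebraMap B₀ B) with hI
  -- the two quotient domains
  let A₀ := B₀ ⧸ I
  let A := B ⧸ 𝔭
  let K₀ := FractionRing A₀
  let K := FractionRing A
  have hinj : Function.Injective (algebraMap A₀ A) := Ideal.algebraMap_quotient_injective
  have : IsScalarTower A₀ A K := inferInstance
  have : FaithfulSMul A₀ K := by
    rw [faithfulSMul_iff_algebraMap_injective, IsScalarTower.algebraMap_eq A₀ A K]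
    exact (IsFractionRing.injective A K).comp hinj
  let _ : Algebra K₀ K := FractionRing.liftAlgebra A₀ K
  have : IsScalarTower A₀ K₀ K := FractionRing.isScalarTower_liftAlgebra A₀ K
  -- names
  set bb : A := Ideal.Quotient.mk 𝔭 b with hbb
  set cc : A₀ := Ideal.Quotient.mk I c with hcc
  set dd : A₀ := Ideal.Quotient.mk I d with hdd
  have hdd0 : dd ≠ 0 := by
    intro h0
    rw [hdd, Ideal.Quotient.eq_zero_iff_mem, hI, Ideal.mem_comap] at h0
    exact hd h0
  have hrel : algebraMap A₀ A dd * bb = algebraMap A₀ A cc := by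
    have := (Ideal.Quotient.eq_zero_iff_mem).2 h
    rw [map_sub, map_mul, sub_eq_zero] at this
    exact this
  have hddK₀ : algebraMap A₀ K₀ dd ≠ 0 := by
    intro h0
    exact hdd0 ((IsFractionRing.injective A₀ K₀) (by rw [h0, map_zero]))
  -- the element `x = c / d` of the fraction field of `B₀ ⧸ I`
  set x : K₀ := algebraMap A₀ K₀ cc / algebraMap A₀ K₀ dd with hx
  have hddK : algebraMap A₀ K dd ≠ 0 := by
    intro h0
    exact hdd0 ((FaithfulSMul.algebraMap_injective A₀ K) (by rw [h0, map_zero]))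
  have hxK : algebraMap K₀ K x = algebraMap A K bb := by
    rw [hx, map_div₀, ← IsScalarTower.algebraMap_apply A₀ K₀ K,
      ← IsScalarTower.algebraMap_apply A₀ K₀ K, div_eq_iff hddK,
      IsScalarTower.algebraMap_apply A₀ A K cc, ← hrel, map_mul,
      ← IsScalarTower.algebraMap_apply A₀ A K dd, mul_comm]
  have hbbint : IsIntegral A₀ bb := isIntegral_quotient_mk 𝔭 hb
  have hxint : IsIntegral A₀ x := by
    have h1 : IsIntegral A₀ (algebraMap K₀ K x) := by
      rw [hxK]
      exact hbbint.algebraMap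
    exact (isIntegral_algebraMap_iff (algebraMap K₀ K).injective).1 h1
  obtain ⟨y, hy⟩ := (isIntegrallyClosed_iff K₀).1 inferInstance hxint
  obtain ⟨a, rfl⟩ := Ideal.Quotient.mk_surjective y
  refine ⟨a, ?_⟩
  rw [← Ideal.Quotient.eq_zero_iff_mem, map_sub, sub_eq_zero]
  have h2 : algebraMap A K bb = algebraMap A K (algebraMap A₀ A (Ideal.Quotient.mk I a)) := by
    rw [← hxK, ← hy, ← IsScalarTower.algebraMap_apply A₀ K₀ K,
      IsScalarTower.algebraMap_apply A₀ A K]
  exact (IsFractionRing.injective A K) h2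

/-- **M4.**  `𝔭 ∩ B₀ = I`, `B₀ ⧸ I` integrally closed, `b` integral over `B₀` with residue class in
the fraction field of `B₀ ⧸ I`:  then `b ∈ B₀ + 𝔭`. -/
theorem exists_sub_mem_of_integrallyClosed (𝔭 : Ideal B) [𝔭.IsPrime] (I : Ideal B₀)
    (hcomap : 𝔭.comap (algebraMap B₀ B) = I) [IsIntegrallyClosed (B₀ ⧸ I)]
    {b : B} (hb : IsIntegral B₀ b) {c d : B₀} (hd : d ∉ I)
    (h : algebraMap B₀ B d * b - algebraMap B₀ B c ∈ 𝔭) :
    ∃ a : B₀, b - algebraMap B₀ B a ∈ 𝔭 := by
  subst hcomap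
  exact exists_sub_mem_of_comap 𝔭 hb (fun hd' => hd (Ideal.mem_comap.2 hd')) h

/-- **M4, principal form** (`I = w B₀`). -/
theorem exists_sub_mem_of_span (𝔭 : Ideal B) [𝔭.IsPrime] (w : B₀)
    (hcomap : ∀ a : B₀, algebraMap B₀ B a ∈ 𝔭 ↔ w ∣ a)
    [IsIntegrallyClosed (B₀ ⧸ Ideal.span {w})]
    {b : B} (hb : IsIntegral B₀ b) {c d : B₀} (hd : ¬ w ∣ d)
    (h : algebraMap B₀ B d * b - algebraMap B₀ B c ∈ 𝔭) :
    ∃ a : B₀, b - algebraMap B₀ B a ∈ 𝔭 := by
  have hc : 𝔭.comap (algebraMap B₀ B) = Ideal.span {w} := by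
    ext a
    rw [Ideal.mem_comap, Ideal.mem_span_singleton]
    exact hcomap a
  exact exists_sub_mem_of_integrallyClosed 𝔭 _ hc hb
    (fun hd' => hd (Ideal.mem_span_singleton.1 hd')) h

section Global

variable (𝔭 : Ideal B) [𝔭.IsPrime] (I : Ideal B₀)
  (hcomap : 𝔭.comap (algebraMap B₀ B) = I) [IsIntegrallyClosed (B₀ ⧸ I)]
  (hint : ∀ b : B, IsIntegral B₀ b)
  (hfrac : ∀ b : B, ∃ c d : B₀, d ∉ I ∧ algebraMap B₀ B d * b - algebraMap B₀ B c ∈ 𝔭)

include hcomap hint hfrac

/-- `B = B₀ + 𝔭`. -/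
theorem exists_sub_mem (b : B) : ∃ a : B₀, b - algebraMap B₀ B a ∈ 𝔭 := by
  obtain ⟨c, d, hd, h⟩ := hfrac b
  exact exists_sub_mem_of_integrallyClosed 𝔭 I hcomap (hint b) hd h

/-- `B₀ → B ⧸ 𝔭` is surjective. -/
theorem quotient_surjective_of_integrallyClosed :
    Function.Surjective ((Ideal.Quotient.mk 𝔭).comp (algebraMap B₀ B)) := by
  intro y
  obtain ⟨b, rfl⟩ := Ideal.Quotient.mk_surjective y
  obtain ⟨a, ha⟩ := exists_sub_mem 𝔭 I hcomap hint hfrac b
  refine ⟨a, ?_⟩
  rw [RingHom.comp_apply, eq_comm, ← sub_eq_zero, ← map_sub]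
  exact Ideal.Quotient.eq_zero_iff_mem.2 ha

/-- The component `B ⧸ 𝔭` is the special fibre `B₀ ⧸ I` of the smaller level. -/
noncomputable def quotientEquivOfIntegrallyClosed : (B₀ ⧸ I) ≃+* (B ⧸ 𝔭) :=
  (Ideal.quotEquivOfEq (show I = RingHom.ker ((Ideal.Quotient.mk 𝔭).comp (algebraMap B₀ B)) by
      rw [← hcomap]
      ext a
      rw [Ideal.mem_comap, RingHom.mem_ker, RingHom.comp_apply,
        Ideal.Quotient.eq_zero_iff_mem])).trans
    (RingHom.quotientKerEquivOfSurjective
      (quotient_surjective_of_integrallyClosed 𝔭 I hcomap hint hfrac))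

theorem quotientEquivOfIntegrallyClosed_mk (a : B₀) :
    quotientEquivOfIntegrallyClosed 𝔭 I hcomap hint hfrac (Ideal.Quotient.mk I a)
      = Ideal.Quotient.mk 𝔭 (algebraMap B₀ B a) := rfl

/-- **M4 (components smooth).**  The component `B ⧸ 𝔭` is integrally closed. -/
theorem isIntegrallyClosed_quotient : IsIntegrallyClosed (B ⧸ 𝔭) :=
  IsIntegrallyClosed.of_equiv (quotientEquivOfIntegrallyClosed 𝔭 I hcomap hint hfrac)

end Global

end Fermat.Agent.A2.H492

end
-- ===== PACK-END A2/H492/M4.lean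

-- ===== PACK-BEGIN Lib/Haupt/Trunc.lean
section




/-!
# Truncated integer power series as lists (helper637)

A tiny verified computation model: the first `M` coefficients of a power series over `ℤ` as a
`List ℤ`, with computable list operations mirroring `+`, `-`, `*`, scalar multiples and
`PowerSeries.expand`.  Everything reduces in the kernel, so equalities of truncations of explicit
series can be closed by `decide`.
-/

set_option autoImplicit false

namespace Fermat.Agent.Lib.Haupt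

open PowerSeries

/-- The first `M` coefficients of a power series. -/
noncomputable def tr (M : ℕ) (f : PowerSeries ℤ) : List ℤ :=
  (List.range M).map fun i => coeff i f

/-- List of length `M` from a coefficient function. -/
def ofFn (M : ℕ) (c : ℕ → ℤ) : List ℤ := (List.range M).map c

/-- Truncated product. -/
def lmul (M : ℕ) (a b : List ℤ) : List ℤ :=
  ofFn M fun n => ((List.range (n + 1)).map fun i => a.getD i 0 * b.getD (n - i) 0).sum

/-- Truncated sum. -/
def ladd (M : ℕ) (a b : List ℤ) : List ℤ := ofFn M fun n => a.getD n 0 + b.getD n 0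

/-- Truncated difference. -/
def lsub (M : ℕ) (a b : List ℤ) : List ℤ := ofFn M fun n => a.getD n 0 - b.getD n 0

/-- Truncated scalar multiple. -/
def lsmul (M : ℕ) (c : ℤ) (a : List ℤ) : List ℤ := ofFn M fun n => c * a.getD n 0

/-- Truncated `X ^ k * ·`. -/
def lshift (M k : ℕ) (a : List ℤ) : List ℤ :=
  ofFn M fun n => if k ≤ n then a.getD (n - k) 0 else 0

/-- Truncated `expand d`. -/
def lexpand (M d : ℕ) (a : List ℤ) : List ℤ :=
  ofFn M fun n => if d ∣ n then a.getD (n / d) 0 else 0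

/-- The truncation of `1`. -/
def lone (M : ℕ) : List ℤ := ofFn M fun n => if n = 0 then 1 else 0

/-- Truncated power, by iterated multiplication. -/
def lpow (M : ℕ) (a : List ℤ) : ℕ → List ℤ
  | 0 => lone M
  | k + 1 => lmul M (lpow M a k) a

theorem tr_eq_ofFn (M : ℕ) (f : PowerSeries ℤ) : tr M f = ofFn M fun i => coeff i f := rfl

theorem length_tr (M : ℕ) (f : PowerSeries ℤ) : (tr M f).length = M := by
  simp [tr]

theorem getD_tr {M : ℕ} (f : PowerSeries ℤ) {i : ℕ} (hi : i < M) :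
    (tr M f).getD i 0 = coeff i f := by
  simp [tr, List.getD, hi]

theorem ofFn_congr {M : ℕ} {c c' : ℕ → ℤ} (h : ∀ n < M, c n = c' n) : ofFn M c = ofFn M c' := by
  unfold ofFn
  apply List.map_congr_left
  intro n hn
  exact h n (List.mem_range.mp hn)

theorem coeff_eq_getD_tr {M : ℕ} (f : PowerSeries ℤ) {i : ℕ} (hi : i < M) :
    coeff i f = (tr M f).getD i 0 := (getD_tr f hi).symm

theorem sum_map_range (n : ℕ) (c : ℕ → ℤ) :
    ((List.range n).map c).sum = ∑ i ∈ Finset.range n, c i := rfl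

theorem tr_mul (M : ℕ) (f g : PowerSeries ℤ) : tr M (f * g) = lmul M (tr M f) (tr M g) := by
  rw [tr_eq_ofFn]
  unfold lmul
  apply ofFn_congr
  intro n hn
  rw [coeff_mul, Finset.Nat.sum_antidiagonal_eq_sum_range_succ (fun i j => coeff i f * coeff j g),
    sum_map_range]
  apply Finset.sum_congr rfl
  intro i hi
  have hi' : i < n + 1 := Finset.mem_range.mp hi
  rw [getD_tr f (by omega), getD_tr g (by omega)]

theorem tr_add (M : ℕ) (f g : PowerSeries ℤ) : tr M (f + g) = ladd M (tr M f) (tr M g) := by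
  rw [tr_eq_ofFn]
  unfold ladd
  apply ofFn_congr
  intro n hn
  rw [map_add, getD_tr f hn, getD_tr g hn]

theorem tr_sub (M : ℕ) (f g : PowerSeries ℤ) : tr M (f - g) = lsub M (tr M f) (tr M g) := by
  rw [tr_eq_ofFn]
  unfold lsub
  apply ofFn_congr
  intro n hn
  rw [map_sub, getD_tr f hn, getD_tr g hn]

theorem tr_C_mul (M : ℕ) (c : ℤ) (f : PowerSeries ℤ) :
    tr M (C c * f) = lsmul M c (tr M f) := by
  rw [tr_eq_ofFn]
  unfold lsmul
  apply ofFn_congr
  intro n hn
  rw [coeff_C_mul, getD_tr f hn]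

theorem tr_X_pow_mul (M k : ℕ) (f : PowerSeries ℤ) :
    tr M (X ^ k * f) = lshift M k (tr M f) := by
  rw [tr_eq_ofFn]
  unfold lshift
  apply ofFn_congr
  intro n hn
  rw [coeff_X_pow_mul']
  split_ifs with h
  · rw [getD_tr f (by omega)]
  · rfl

theorem tr_expand (M d : ℕ) (hd : d ≠ 0) (f : PowerSeries ℤ) :
    tr M (expand d hd f) = lexpand M d (tr M f) := by
  rw [tr_eq_ofFn]
  unfold lexpand
  apply ofFn_congr
  intro n hn
  rw [coeff_expand]
  split_ifs with h
  · rw [getD_tr f (lt_of_le_of_lt (Nat.div_le_self n d) hn)]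
  · rfl

theorem tr_one (M : ℕ) : tr M (1 : PowerSeries ℤ) = lone M := by
  rw [tr_eq_ofFn]
  unfold lone
  apply ofFn_congr
  intro n _
  rw [coeff_one]

/-- The truncation of a constant. -/
def lC (M : ℕ) (c : ℤ) : List ℤ := ofFn M fun n => if n = 0 then c else 0

theorem tr_C (M : ℕ) (c : ℤ) : tr M (C c : PowerSeries ℤ) = lC M c := by
  rw [tr_eq_ofFn]
  unfold lC
  apply ofFn_congr
  intro n _
  rw [coeff_C]

theorem tr_pow (M : ℕ) (f : PowerSeries ℤ) (k : ℕ) : tr M (f ^ k) = lpow M (tr M f) k := by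
  induction k with
  | zero => rw [pow_zero, tr_one]; rfl
  | succ k ih => rw [pow_succ, tr_mul, ih]; rfl

/-- Two power series with the same truncation agree in degrees `< M`. -/
theorem coeff_eq_of_tr_eq {M : ℕ} {f g : PowerSeries ℤ} (h : tr M f = tr M g) {n : ℕ}
    (hn : n < M) : coeff n f = coeff n g := by
  rw [coeff_eq_getD_tr f hn, coeff_eq_getD_tr g hn, h]

/-- A power series whose truncation is zero has vanishing coefficients in degrees `< M`. -/
theorem coeff_eq_zero_of_tr_eq {M : ℕ} {f : PowerSeries ℤ}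
    (h : tr M f = List.replicate M 0) {n : ℕ} (hn : n < M) : coeff n f = 0 := by
  rw [coeff_eq_getD_tr f hn, h]
  simp [List.getD, hn]

end Fermat.Agent.Lib.Haupt

end
-- ===== PACK-END Lib/Haupt/Trunc.lean

-- ===== PACK-BEGIN S55/Bridge/H594/Profinite.lean
section


/-!
# S55 bridge (helper594): relative transitivity and residue surjectivity for a closed subgroup

Let a profinite group `G` act continuously on a (discrete) commutative ring `B`, and let `H ≤ G`
be a closed subgroup.  Applying Mathlib's profinite invariant theory to `H` acting on `B` with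
base ring the fixed subring `B^H`, we get:

* `exists_smul_eq_of_forall_fixed_mem_iff`: two primes of `B` with the same intersection with
  `B^H` are conjugate under `H`;
* `exists_stabilizer_congr_of_forall_fixed`: if `σ ∈ G` stabilises the prime `P` and acts
  trivially on `B^H` modulo `P`, then some `h ∈ H` stabilising `P` acts as `σ` on `B ⧸ P`.
-/

set_option autoImplicit false
set_option linter.unusedSectionVars false
set_option linter.style.haveILetI false

namespace Fermat.Agent.S55.Bridge.H594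

open scoped Pointwise

section abstract

variable {B : Type*} [CommRing B]
variable {G : Type*} [Group G] [MulSemiringAction G B]
variable [TopologicalSpace G] [CompactSpace G] [TotallyDisconnectedSpace G]
variable [IsTopologicalGroup G] [TopologicalSpace B] [DiscreteTopology B] [ContinuousSMul G B]

/-- `B` is invariant over its fixed subalgebra. -/
theorem isInvariant_fixedPoints (H : Subgroup G) :
    Algebra.IsInvariant (FixedPoints.subalgebra ℤ B H) B H :=
  ⟨fun b hb => ⟨⟨b, hb⟩, rfl⟩⟩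

theorem continuousSMul_subgroup (H : Subgroup G) : ContinuousSMul H B := by
  refine ⟨?_⟩
  have h1 : Continuous fun p : H × B => ((p.1 : G), p.2) :=
    (continuous_subtype_val.comp continuous_fst).prodMk continuous_snd
  exact (continuous_smul (M := G) (X := B)).comp h1

/-- Two primes of `B` with the same `H`-fixed elements are `H`-conjugate (`H` closed). -/
theorem exists_smul_eq_of_forall_fixed_mem_iff (H : Subgroup G) (hH : IsClosed (H : Set G))
    (P Q : Ideal B) [P.IsPrime] [Q.IsPrime]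
    (hPQ : ∀ b : B, (∀ h : H, h • b = b) → (b ∈ P ↔ b ∈ Q)) :
    ∃ h : H, Q = (h : G) • P := by
  haveI : CompactSpace H := isCompact_iff_compactSpace.mp hH.isCompact
  haveI := continuousSMul_subgroup (B := B) H
  haveI := isInvariant_fixedPoints (B := B) H
  have hunder : P.under (FixedPoints.subalgebra ℤ B H) = Q.under (FixedPoints.subalgebra ℤ B H) := by
    ext ⟨b, hb⟩
    simp only [Ideal.under, Ideal.mem_comap]
    exact hPQ b hb
  obtain ⟨h, hh⟩ := Algebra.IsInvariant.exists_smul_of_under_eq_of_profinite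
    (A := FixedPoints.subalgebra ℤ B H) (B := B) (G := H) P Q hunder
  exact ⟨h, hh⟩

/-- If `σ ∈ G` stabilises the prime `P` and acts trivially modulo `P` on the `H`-fixed elements,
then there is `h ∈ H` stabilising `P` and acting as `σ` on `B ⧸ P` (`H` closed). -/
theorem exists_stabilizer_congr_of_forall_fixed (H : Subgroup G) (hH : IsClosed (H : Set G))
    (P : Ideal B) [P.IsPrime] (σ : G) (hσP : σ • P = P)
    (hσ : ∀ b : B, (∀ h : H, h • b = b) → σ • b - b ∈ P) :
    ∃ h : H, (h : G) • P = P ∧ ∀ b : B, (h : G) • b - σ • b ∈ P := by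
  haveI : CompactSpace H := isCompact_iff_compactSpace.mp hH.isCompact
  haveI := continuousSMul_subgroup (B := B) H
  haveI := isInvariant_fixedPoints (B := B) H
  let A' := FixedPoints.subalgebra ℤ B H
  let p : Ideal A' := P.under A'
  haveI : P.LiesOver p := ⟨rfl⟩
  have hmap : P = P.map (MulSemiringAction.toRingEquiv G B σ) := by
    conv_lhs => rw [← hσP]
    rfl
  let φ₀ : (B ⧸ P) ≃+* (B ⧸ P) :=
    Ideal.quotientEquiv P P (MulSemiringAction.toRingEquiv G B σ) hmap
  have hφ₀ : ∀ b : B, φ₀ (Ideal.Quotient.mk P b) = Ideal.Quotient.mk P (σ • b) := fun b => rfl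
  let φ : (B ⧸ P) ≃ₐ[A' ⧸ p] (B ⧸ P) :=
    { φ₀ with
      commutes' := by
        rintro ⟨a⟩
        show φ₀ (Ideal.Quotient.mk P (a : B)) = Ideal.Quotient.mk P (a : B)
        rw [hφ₀, Ideal.Quotient.eq]
        exact hσ a a.2 }
  obtain ⟨h, hh⟩ := Ideal.Quotient.stabilizerHom_surjective_of_profinite (G := H) p P φ
  refine ⟨h.1, ?_, fun b => ?_⟩
  · exact h.2
  · have h1 : (Ideal.Quotient.stabilizerHom P p H h) (Ideal.Quotient.mk P b) =
        φ (Ideal.Quotient.mk P b) := by rw [hh]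
    rw [Ideal.Quotient.stabilizerHom_apply] at h1
    have h2 : φ (Ideal.Quotient.mk P b) = Ideal.Quotient.mk P (σ • b) := hφ₀ b
    rw [h2, Ideal.Quotient.eq] at h1
    exact h1

end abstract

end Fermat.Agent.S55.Bridge.H594

end
-- ===== PACK-END S55/Bridge/H594/Profinite.lean

-- ===== PACK-BEGIN A3/H675/Ant.lean
section


/-!
# A3 / GR — arithmetic of a valuation ring of `ℚ̄` above `ℓ`  (helper675)

Pure algebra (Mathlib only).  `K` is a field all of whose elements are algebraic over `ℤ`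
(e.g. `K = ℚ̄`), `A` a valuation subring of `K` with `(ℓ : K) ∈ A.nonunits`, `ℓ` prime.

* `valuation_intCast_eq_one`     : an integer prime to `ℓ` is a unit of `A`;
* `exists_pow_le_valuation`      : for `b ≠ 0` there is `m` with `v(ℓ)^m ≤ v(b)`;
* `exists_valuation_pow_le`      : for `a ∈ 𝔪` there is `n > 0` with `v(a)^n ≤ v(ℓ)`;
* `harch`                        : **rank one**: `a ∈ 𝔪`, `b ≠ 0` ⟹ `∃ n, a^n / b ∈ A`
                                   (the hypothesis `harch` of `A3.H799.LocalStatement`);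
* `exists_root_lift`             : (`K` algebraically closed) every root of the reduction of a
                                   monic `P ∈ A[X]` lifts to a root of `P` in `A`;
* `eq_of_pow_eq_one_of_sub_mem`  : reduction is injective on `m`-th roots of unity, `ℓ ∤ m`;
* `exists_pow_eq_one_residue`    : every nonzero residue class is a root of unity of order prime
                                   to `ℓ`;
* `exists_fixed_lift`            : **Teichmüller lifts**: every `c` in the residue field has a lift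
                                   `a ∈ A` fixed by every ring automorphism `σ` of `K` with
                                   `σ x - x ∈ 𝔪` for all `x ∈ A` (the field `I_lift_const` of
                                   `A3.H799.GoodRed`).
-/

set_option autoImplicit false
set_option linter.style.haveILetI false

open Polynomial

namespace Fermat.Agent.A3.H675

variable {K : Type*} [Field K] (A : ValuationSubring K)

/-! ## Integers in `A` -/

theorem intCast_mem_vs (n : ℤ) : (n : K) ∈ A := intCast_mem A n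

theorem valuation_intCast_le_one (n : ℤ) : A.valuation (n : K) ≤ 1 :=
  (A.valuation_le_one_iff _).mpr (intCast_mem_vs A n)

/-- An integer prime to `ℓ` is a unit of `A`. -/
theorem valuation_intCast_eq_one {ℓ : ℕ} (hℓ : ℓ.Prime) (hA : (ℓ : K) ∈ A.nonunits) {n : ℤ}
    (hn : ¬ (ℓ : ℤ) ∣ n) : A.valuation (n : K) = 1 := by
  rcases (valuation_intCast_le_one A n).lt_or_eq with h | h
  · exfalso
    have hp : Prime (ℓ : ℤ) := Nat.prime_iff_prime_int.mp hℓ
    have hcop : IsCoprime (ℓ : ℤ) n := (hp.irreducible.coprime_iff_not_dvd).mpr hn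
    obtain ⟨u, w, huw⟩ := hcop
    have h1 : ((u : K) * (ℓ : K)) + (w : K) * (n : K) = 1 := by
      have := congrArg (Int.cast : ℤ → K) huw
      push_cast at this
      exact this
    have hl : A.valuation (ℓ : K) < 1 := (A.mem_nonunits_iff).mp hA
    have h2 : A.valuation ((u : K) * (ℓ : K)) < 1 := by
      rw [map_mul]
      calc A.valuation (u : K) * A.valuation (ℓ : K) ≤ 1 * A.valuation (ℓ : K) :=
            mul_le_mul_left (valuation_intCast_le_one A u) _
        _ = A.valuation (ℓ : K) := one_mul _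
        _ < 1 := hl
    have h3 : A.valuation ((w : K) * (n : K)) < 1 := by
      rw [map_mul]
      calc A.valuation (w : K) * A.valuation (n : K) ≤ 1 * A.valuation (n : K) :=
            mul_le_mul_left (valuation_intCast_le_one A w) _
        _ = A.valuation (n : K) := one_mul _
        _ < 1 := h
    have h4 : A.valuation (((u : K) * (ℓ : K)) + (w : K) * (n : K)) < 1 :=
      A.valuation.map_add_lt h2 h3
    rw [h1, map_one] at h4
    exact lt_irrefl _ h4
  · exact h


/-- The valuation of a nonzero integer is a power of the valuation of `ℓ`. -/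
theorem exists_valuation_intCast_eq {ℓ : ℕ} (hℓ : ℓ.Prime) (hA : (ℓ : K) ∈ A.nonunits) {y : ℤ}
    (hy : y ≠ 0) : ∃ e : ℕ, A.valuation (y : K) = A.valuation (ℓ : K) ^ e := by
  obtain ⟨e, n', hn', hyn⟩ :=
    Nat.exists_eq_pow_mul_and_not_dvd (Int.natAbs_ne_zero.mpr hy) ℓ hℓ.ne_one
  refine ⟨e, ?_⟩
  have h1 : A.valuation ((y.natAbs : ℤ) : K) = A.valuation (y : K) := by
    rcases Int.natAbs_eq y with h | h
    · rw [← h]
    · conv_rhs => rw [h]
      rw [Int.cast_neg, Valuation.map_neg]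
  rw [← h1, hyn]
  push_cast
  rw [map_mul, map_pow]
  have h2 : A.valuation (((n' : ℤ) : K)) = 1 :=
    valuation_intCast_eq_one A hℓ hA (by exact_mod_cast hn')
  have h3 : ((n' : ℤ) : K) = (n' : K) := by push_cast; rfl
  rw [← h3, h2, mul_one]

/-- An element integral over `ℤ` lies in `A`. -/
theorem mem_of_isIntegral_int {x : K} (hx : IsIntegral ℤ x) : x ∈ A := by
  have h : IsIntegral A x := hx.tower_top
  obtain ⟨y, hy⟩ := (IsIntegrallyClosed.isIntegral_iff (R := A) (K := K)).mp h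
  rw [← hy]
  exact y.2

/-- For `b ≠ 0` algebraic over `ℤ` there is `m` with `v(ℓ)^m ≤ v(b)`. -/
theorem exists_pow_le_valuation {ℓ : ℕ} (hℓ : ℓ.Prime) (hA : (ℓ : K) ∈ A.nonunits) {b : K}
    (hb : b ≠ 0) (halg : IsAlgebraic ℤ b) :
    ∃ m : ℕ, A.valuation (ℓ : K) ^ m ≤ A.valuation b := by
  obtain ⟨y, hy0, hyint⟩ := (halg.inv).exists_integral_multiple
  have hmem : y • b⁻¹ ∈ A := mem_of_isIntegral_int A hyint
  obtain ⟨e, he⟩ := exists_valuation_intCast_eq A hℓ hA hy0
  refine ⟨e, ?_⟩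
  rw [← he]
  have h1 : A.valuation (y • b⁻¹) ≤ 1 := (A.valuation_le_one_iff _).mpr hmem
  rw [zsmul_eq_mul, map_mul, map_inv₀] at h1
  have hvb : A.valuation b ≠ 0 := (Valuation.ne_zero_iff _).mpr hb
  have h2 := (mul_inv_le_iff₀ (zero_lt_iff.mpr hvb)).mp h1
  simpa using h2


/-- A polynomial over `ℤ` vanishing at `a`, with a coefficient prime to `ℓ`. -/
theorem exists_int_poly_not_dvd [CharZero K] {ℓ : ℕ} (hℓ : ℓ.Prime) {a : K}
    (halg : IsAlgebraic ℤ a) :
    ∃ q : ℤ[X], eval₂ (Int.castRingHom K) a q = 0 ∧ ∃ i, ¬ (ℓ : ℤ) ∣ q.coeff i := by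
  obtain ⟨p, hp0, hpa⟩ := halg
  have hinj : Function.Injective (Int.castRingHom K) := Int.cast_injective
  have hpa' : eval₂ (Int.castRingHom K) a p = 0 := by
    rw [← hpa, aeval_def]
    rfl
  refine ⟨p.primPart, eval₂_primPart_eq_zero hinj hp0 hpa', ?_⟩
  by_contra hcon
  simp only [not_exists, not_not] at hcon
  have hdvd : C (ℓ : ℤ) ∣ p.primPart := (C_dvd_iff_dvd_coeff _ _).mpr hcon
  have hu : IsUnit (ℓ : ℤ) := (isPrimitive_primPart p) _ hdvd
  have hp : Prime (ℓ : ℤ) := Nat.prime_iff_prime_int.mp hℓ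
  exact hp.not_isUnit hu

/-- For `a ∈ 𝔪` algebraic over `ℤ` there is `n > 0` with `v(a)^n ≤ v(ℓ)`. -/
theorem exists_valuation_pow_le [CharZero K] {ℓ : ℕ} (hℓ : ℓ.Prime) (hA : (ℓ : K) ∈ A.nonunits)
    {a : K} (ha : a ∈ A.nonunits) (halg : IsAlgebraic ℤ a) :
    ∃ n : ℕ, 0 < n ∧ A.valuation a ^ n ≤ A.valuation (ℓ : K) := by
  classical
  have hl : A.valuation (ℓ : K) < 1 := (A.mem_nonunits_iff).mp hA
  have hva : A.valuation a < 1 := (A.mem_nonunits_iff).mp ha
  rcases eq_or_ne a 0 with rfl | ha0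
  · exact ⟨1, one_pos, by simp⟩
  have hva0 : A.valuation a ≠ 0 := (Valuation.ne_zero_iff _).mpr ha0
  obtain ⟨q, hq, hex⟩ := exists_int_poly_not_dvd hℓ halg
  set i0 := Nat.find hex with hi0
  have hi0spec : ¬ (ℓ : ℤ) ∣ q.coeff i0 := Nat.find_spec hex
  have hmin : ∀ i, i < i0 → (ℓ : ℤ) ∣ q.coeff i := fun i hi => by
    by_contra h
    exact Nat.find_min hex hi h
  have hkey : A.valuation a ^ i0 ≤ A.valuation (ℓ : K) := by
    by_contra hcon
    rw [not_le] at hcon
    -- the term `i0` strictly dominates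
    have hc0 : q.coeff i0 ≠ 0 := fun h => hi0spec (by rw [h]; exact dvd_zero _)
    have hle : i0 ≤ q.natDegree := le_natDegree_of_ne_zero hc0
    have hmem : i0 ∈ Finset.range (q.natDegree + 1) := Finset.mem_range.mpr (by omega)
    rw [eval₂_eq_sum_range, ← Finset.add_sum_erase _ _ hmem] at hq
    have hv0 : A.valuation ((Int.castRingHom K) (q.coeff i0) * a ^ i0) = A.valuation a ^ i0 := by
      rw [map_mul, map_pow]
      have : A.valuation ((Int.castRingHom K) (q.coeff i0)) = 1 :=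
        valuation_intCast_eq_one A hℓ hA hi0spec
      rw [this, one_mul]
    have hg0 : A.valuation a ^ i0 ≠ 0 := pow_ne_zero _ hva0
    have hrest : A.valuation (∑ x ∈ (Finset.range (q.natDegree + 1)).erase i0,
        (Int.castRingHom K) (q.coeff x) * a ^ x) < A.valuation a ^ i0 := by
      refine A.valuation.map_sum_lt hg0 ?_
      intro i hi
      have hne : i ≠ i0 := (Finset.mem_erase.mp hi).1
      rw [map_mul, map_pow]
      rcases lt_or_gt_of_ne hne with hlt | hgt
      · obtain ⟨c, hc⟩ := hmin i hlt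
        have h1 : A.valuation ((Int.castRingHom K) (q.coeff i)) ≤ A.valuation (ℓ : K) := by
          rw [hc]
          have : (Int.castRingHom K) ((ℓ : ℤ) * c) = (ℓ : K) * (c : K) := by
            simp
          rw [this, map_mul]
          exact mul_le_of_le_one_right' (valuation_intCast_le_one A c)
        calc A.valuation ((Int.castRingHom K) (q.coeff i)) * A.valuation a ^ i
            ≤ A.valuation ((Int.castRingHom K) (q.coeff i)) :=
              mul_le_of_le_one_right' (Right.pow_le_one_of_le hva.le)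
          _ ≤ A.valuation (ℓ : K) := h1
          _ < A.valuation a ^ i0 := hcon
      · calc A.valuation ((Int.castRingHom K) (q.coeff i)) * A.valuation a ^ i
            ≤ A.valuation a ^ i := mul_le_of_le_one_left' (valuation_intCast_le_one A _)
          _ < A.valuation a ^ i0 :=
              pow_lt_pow_right_of_lt_one₀ (zero_lt_iff.mpr hva0) hva hgt
    have hneg : (Int.castRingHom K) (q.coeff i0) * a ^ i0 =
        - ∑ x ∈ (Finset.range (q.natDegree + 1)).erase i0,
          (Int.castRingHom K) (q.coeff x) * a ^ x := eq_neg_of_add_eq_zero_left hq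
    rw [← hv0, hneg, Valuation.map_neg] at hrest
    exact lt_irrefl _ hrest
  refine ⟨i0, ?_, hkey⟩
  rcases Nat.eq_zero_or_pos i0 with h0 | h0
  · exfalso
    rw [h0, pow_zero] at hkey
    exact not_lt.mpr hkey hl
  · exact h0

/-- **Rank one.**  If every element of `K` is algebraic over `ℤ` and `A` lies over `ℓ`, then for
`a ∈ 𝔪` and `b ≠ 0` some power of `a` is divisible by `b` in `A`. -/
theorem harch [CharZero K] (halg : ∀ x : K, IsAlgebraic ℤ x) {ℓ : ℕ} (hℓ : ℓ.Prime)
    (hA : (ℓ : K) ∈ A.nonunits) :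
    ∀ a b : K, a ∈ A.nonunits → b ≠ 0 → ∃ n : ℕ, a ^ n / b ∈ A := by
  intro a b ha hb
  obtain ⟨n, -, hn⟩ := exists_valuation_pow_le A hℓ hA ha (halg a)
  obtain ⟨m, hm⟩ := exists_pow_le_valuation A hℓ hA hb (halg b)
  refine ⟨n * m, ?_⟩
  rw [← A.valuation_le_one_iff, map_div₀, map_pow, pow_mul]
  have hvb : A.valuation b ≠ 0 := (Valuation.ne_zero_iff _).mpr hb
  have h1 : (A.valuation a ^ n) ^ m ≤ A.valuation b :=
    (pow_le_pow_left' hn m).trans hm
  rw [div_eq_mul_inv]
  refine (mul_inv_le_iff₀ (zero_lt_iff.mpr hvb)).mpr ?_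
  rw [one_mul]
  exact h1


/-! ## Lifting roots -/

/-- In a valuation subring of an algebraically closed field every root of the reduction of a
monic polynomial lifts to a root of the polynomial. -/
theorem exists_root_lift [IsAlgClosed K] (P : A[X]) (hP : P.Monic)
    (c : IsLocalRing.ResidueField A) (hc : (P.map (IsLocalRing.residue A)).eval c = 0) :
    ∃ a : A, P.eval a = 0 ∧ IsLocalRing.residue A a = c := by
  classical
  set Q := P.map (algebraMap A K) with hQ
  have hQm : Q.Monic := hP.map _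
  have hsplit : Q.Splits := IsAlgClosed.splits Q
  have hprod := hsplit.eq_prod_roots_of_monic hQm
  have hinj : Function.Injective (algebraMap A K) := Subtype.val_injective
  have hroot : ∀ x ∈ Q.roots, x ∈ A := by
    intro x hx
    have hx0 : Q.IsRoot x := (mem_roots hQm.ne_zero).mp hx
    have hx1 : eval₂ (algebraMap A K) x P = 0 := by
      rw [← eval_map]; exact hx0
    have hint : IsIntegral A x := ⟨P, hP, hx1⟩
    obtain ⟨y, hy⟩ := (IsIntegrallyClosed.isIntegral_iff (R := A) (K := K)).mp hint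
    rw [← hy]
    exact y.2
  set s : Multiset A := Q.roots.pmap (fun x hx => (⟨x, hx⟩ : A)) hroot with hs
  have hPeq : P = (s.map (fun a => X - C a)).prod := by
    apply Polynomial.map_injective (algebraMap A K) hinj
    rw [Polynomial.map_multiset_prod, Multiset.map_map]
    have h1 : (Multiset.map (Polynomial.map (algebraMap A K) ∘ fun a => X - C a) s)
        = Multiset.map (fun x => X - C x) Q.roots := by
      rw [hs, Multiset.map_pmap]
      have h2 : (fun (a : K) (h : a ∈ A) =>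
          (Polynomial.map (algebraMap A K) ∘ fun a => X - C a) (⟨a, h⟩ : A))
          = fun (a : K) (_ : a ∈ A) => (X - C a : K[X]) := by
        funext a h
        simp
      rw [h2]
      exact Multiset.pmap_eq_map _ _ _ _
    rw [h1]
    exact hprod
  have hred : P.map (IsLocalRing.residue A)
      = (s.map (fun a => X - C (IsLocalRing.residue A a))).prod := by
    conv_lhs => rw [hPeq]
    rw [Polynomial.map_multiset_prod, Multiset.map_map]
    congr 1
    refine Multiset.map_congr rfl ?_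
    intro a _
    simp
  rw [hred, eval_multiset_prod, Multiset.map_map, Multiset.prod_eq_zero_iff] at hc
  obtain ⟨a, has, ha⟩ := Multiset.mem_map.mp hc
  refine ⟨a, ?_, ?_⟩
  · rw [hPeq, eval_multiset_prod, Multiset.map_map, Multiset.prod_eq_zero_iff]
    exact Multiset.mem_map.mpr ⟨a, has, by simp⟩
  · simp only [Function.comp_apply, eval_sub, eval_X, eval_C] at ha
    exact (sub_eq_zero.mp ha).symm


/-! ## Roots of unity of order prime to `ℓ` -/

theorem valuation_eq_one_of_pow_eq_one {x : K} {m : ℕ} (hm : m ≠ 0) (hx : x ^ m = 1) :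
    A.valuation x = 1 := by
  have h : A.valuation x ^ m = 1 := by rw [← map_pow, hx, map_one]
  exact (pow_eq_one_iff_left hm).mp h

theorem valuation_geom_sum₂_le_one {x y : K} (hx : A.valuation x ≤ 1) (hy : A.valuation y ≤ 1)
    (n : ℕ) : A.valuation (∑ i ∈ Finset.range n, x ^ i * y ^ (n - 1 - i)) ≤ 1 := by
  refine A.valuation.map_sum_le ?_
  intro i _
  rw [map_mul, map_pow, map_pow]
  exact mul_le_one' (Right.pow_le_one_of_le hx) (Right.pow_le_one_of_le hy)

/-- Reduction is injective on the `m`-th roots of unity, `ℓ ∤ m`. -/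
theorem eq_of_pow_eq_one_of_sub_mem {ℓ : ℕ} (hℓ : ℓ.Prime) (hA : (ℓ : K) ∈ A.nonunits) {m : ℕ}
    (hm : ¬ ℓ ∣ m) {x y : K} (hx : x ^ m = 1) (hy : y ^ m = 1) (hxy : x - y ∈ A.nonunits) :
    x = y := by
  by_contra hne
  have hm0 : m ≠ 0 := fun h => hm (by rw [h]; exact dvd_zero _)
  have hvx : A.valuation x = 1 := valuation_eq_one_of_pow_eq_one A hm0 hx
  have hvy : A.valuation y = 1 := valuation_eq_one_of_pow_eq_one A hm0 hy
  have hvxy : A.valuation (x - y) < 1 := (A.mem_nonunits_iff).mp hxy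
  have hS : (∑ i ∈ Finset.range m, x ^ i * y ^ (m - 1 - i)) = 0 := by
    have h := geom_sum₂_mul x y m
    rw [hx, hy, sub_self] at h
    rcases mul_eq_zero.mp h with h | h
    · exact h
    · exact absurd (sub_eq_zero.mp h) hne
  -- `S - m y^(m-1) = ∑ (x^i - y^i) y^(m-1-i)` has valuation `< 1`
  have hdiff : A.valuation ((∑ i ∈ Finset.range m, x ^ i * y ^ (m - 1 - i))
      - ∑ i ∈ Finset.range m, y ^ i * y ^ (m - 1 - i)) < 1 := by
    rw [← Finset.sum_sub_distrib]
    refine A.valuation.map_sum_lt one_ne_zero ?_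
    intro i _
    rw [← sub_mul, map_mul, map_pow]
    have h1 : A.valuation (x ^ i - y ^ i) < 1 := by
      rw [← geom_sum₂_mul x y i, map_mul]
      calc A.valuation (∑ j ∈ Finset.range i, x ^ j * y ^ (i - 1 - j)) * A.valuation (x - y)
          ≤ A.valuation (x - y) :=
            mul_le_of_le_one_left' (valuation_geom_sum₂_le_one A hvx.le hvy.le i)
        _ < 1 := hvxy
    rw [hvy, one_pow, mul_one]
    exact h1
  rw [hS, zero_sub, Valuation.map_neg] at hdiff
  have hsum : (∑ i ∈ Finset.range m, y ^ i * y ^ (m - 1 - i)) = (m : K) * y ^ (m - 1) := by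
    rw [Finset.sum_congr rfl (fun i hi => ?_), Finset.sum_const, Finset.card_range,
      nsmul_eq_mul]
    rw [← pow_add]
    congr 1
    have := Finset.mem_range.mp hi
    omega
  rw [hsum, map_mul, map_pow, hvy, one_pow, mul_one] at hdiff
  have hvm : A.valuation (((m : ℤ) : K)) = 1 :=
    valuation_intCast_eq_one A hℓ hA (by exact_mod_cast hm)
  have h3 : (((m : ℤ) : K)) = (m : K) := by push_cast; rfl
  rw [h3] at hvm
  rw [hvm] at hdiff
  exact lt_irrefl _ hdiff


/-! ## The residue field -/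

theorem natCast_residue_eq_zero_of_mem {ℓ : ℕ} (hA : (ℓ : K) ∈ A.nonunits) :
    ((ℓ : ℕ) : IsLocalRing.ResidueField A) = 0 := by
  have h : ((ℓ : A) : K) ∈ A.nonunits := by simpa using hA
  have h' : (ℓ : A) ∈ IsLocalRing.maximalIdeal A := (A.coe_mem_nonunits_iff).mp h
  have := (IsLocalRing.residue_eq_zero_iff (ℓ : A)).mpr h'
  simpa using this

theorem charP_residueField {ℓ : ℕ} (hℓ : ℓ.Prime) (hA : (ℓ : K) ∈ A.nonunits) :
    CharP (IsLocalRing.ResidueField A) ℓ :=
  (CharP.charP_iff_prime_eq_zero hℓ).mpr (natCast_residue_eq_zero_of_mem A hA)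

/-- Every nonzero element of the residue field is a root of unity of order prime to `ℓ`. -/
theorem exists_pow_eq_one_residue [CharZero K] (halg : ∀ x : K, IsAlgebraic ℤ x) {ℓ : ℕ}
    (hℓ : ℓ.Prime) (hA : (ℓ : K) ∈ A.nonunits) {c : IsLocalRing.ResidueField A} (hc : c ≠ 0) :
    ∃ m : ℕ, ¬ ℓ ∣ m ∧ c ^ m = 1 := by
  classical
  haveI : Fact ℓ.Prime := ⟨hℓ⟩
  haveI : CharP (IsLocalRing.ResidueField A) ℓ := charP_residueField A hℓ hA
  letI : Algebra (ZMod ℓ) (IsLocalRing.ResidueField A) := ZMod.algebra _ ℓ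
  obtain ⟨a₀, rfl⟩ := IsLocalRing.residue_surjective c
  obtain ⟨q, hq, i, hi⟩ := exists_int_poly_not_dvd hℓ (halg (a₀ : K))
  -- the relation holds in `A`
  have hqA : eval₂ (Int.castRingHom A) a₀ q = 0 := by
    apply Subtype.val_injective
    have := hom_eval₂ q (Int.castRingHom A) A.subtype a₀
    rw [show (A.subtype.comp (Int.castRingHom A)) = Int.castRingHom K from RingHom.ext_int _ _]
      at this
    rw [ValuationSubring.coe_subtype] at this
    rw [this]
    exact hq
  -- and in the residue field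
  have hqk : eval₂ (Int.castRingHom (IsLocalRing.ResidueField A)) (IsLocalRing.residue A a₀) q
      = 0 := by
    have := hom_eval₂ q (Int.castRingHom A) (IsLocalRing.residue A) a₀
    rw [show ((IsLocalRing.residue A).comp (Int.castRingHom A))
      = Int.castRingHom (IsLocalRing.ResidueField A) from RingHom.ext_int _ _] at this
    rw [← this, hqA, map_zero]
  have halgc : IsAlgebraic (ZMod ℓ) (IsLocalRing.residue A a₀) := by
    refine ⟨q.map (Int.castRingHom (ZMod ℓ)), ?_, ?_⟩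
    · intro h0
      have := congrArg (fun p => p.coeff i) h0
      simp only [coeff_map, coeff_zero] at this
      have h1 : ((q.coeff i : ℤ) : ZMod ℓ) = 0 := this
      exact hi ((ZMod.intCast_zmod_eq_zero_iff_dvd _ _).mp h1)
    · rw [aeval_def, eval₂_map]
      rw [show ((algebraMap (ZMod ℓ) (IsLocalRing.ResidueField A)).comp
        (Int.castRingHom (ZMod ℓ))) = Int.castRingHom (IsLocalRing.ResidueField A)
        from RingHom.ext_int _ _]
      exact hqk
  have hint : IsIntegral (ZMod ℓ) (IsLocalRing.residue A a₀) :=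
    isAlgebraic_iff_isIntegral.mp halgc
  haveI : FiniteDimensional (ZMod ℓ)
      (IntermediateField.adjoin (ZMod ℓ) {IsLocalRing.residue A a₀}) :=
    IntermediateField.adjoin.finiteDimensional hint
  haveI : Finite (IntermediateField.adjoin (ZMod ℓ) {IsLocalRing.residue A a₀}) :=
    Module.finite_of_finite (ZMod ℓ)
  letI : Fintype (IntermediateField.adjoin (ZMod ℓ) {IsLocalRing.residue A a₀}) :=
    Fintype.ofFinite _
  set F := IntermediateField.adjoin (ZMod ℓ) {IsLocalRing.residue A a₀} with hF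
  let c' : F := ⟨IsLocalRing.residue A a₀, IntermediateField.mem_adjoin_simple_self _ _⟩
  have hc' : c' ≠ 0 := fun h => hc (congrArg Subtype.val h)
  have hpow := FiniteField.pow_card_sub_one_eq_one c' hc'
  obtain ⟨n, -, hcard⟩ := FiniteField.card F ℓ
  refine ⟨Fintype.card F - 1, ?_, ?_⟩
  · intro hdvd
    have h1 : ℓ ∣ Fintype.card F := by
      rw [hcard]
      exact dvd_pow_self ℓ n.ne_zero
    have hpos : 0 < Fintype.card F := Fintype.card_pos
    have h2 : ℓ ∣ 1 := by
      have : Fintype.card F = (Fintype.card F - 1) + 1 := by omega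
      rw [this] at h1
      exact (Nat.dvd_add_right hdvd).mp h1
    exact hℓ.one_lt.ne' (Nat.dvd_one.mp h2)
  · have := congrArg Subtype.val hpow
    simpa [c'] using this


/-! ## Teichmüller lifts -/

/-- **Teichmüller lifts.**  Every element of the residue field has a lift to `A` which is fixed
by every ring automorphism of `K` acting trivially on the residue field. -/
theorem exists_fixed_lift [IsAlgClosed K] [CharZero K] (halg : ∀ x : K, IsAlgebraic ℤ x) {ℓ : ℕ}
    (hℓ : ℓ.Prime) (hA : (ℓ : K) ∈ A.nonunits) (c : IsLocalRing.ResidueField A) :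
    ∃ a : A, IsLocalRing.residue A a = c ∧
      ∀ σ : K ≃+* K, (∀ x : K, x ∈ A → σ x - x ∈ A.nonunits) → σ (a : K) = (a : K) := by
  rcases eq_or_ne c 0 with rfl | hc
  · exact ⟨0, map_zero _, fun σ _ => by simp⟩
  obtain ⟨m, hm, hcm⟩ := exists_pow_eq_one_residue A halg hℓ hA hc
  have hm0 : m ≠ 0 := fun h => hm (by rw [h]; exact dvd_zero _)
  have hmon : (X ^ m - 1 : A[X]).Monic := monic_X_pow_sub_C (1 : A) hm0
  have hroot : ((X ^ m - 1 : A[X]).map (IsLocalRing.residue A)).eval c = 0 := by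
    simp [hcm]
  obtain ⟨a, ha, hac⟩ := exists_root_lift A (X ^ m - 1) hmon c hroot
  have ha1 : (a : K) ^ m = 1 := by
    have h1 : a ^ m = 1 := by
      have := ha
      simp only [eval_sub, eval_pow, eval_X, eval_one] at this
      exact sub_eq_zero.mp this
    have := congrArg (Subtype.val : A → K) h1
    simpa using this
  refine ⟨a, hac, ?_⟩
  intro σ hσ
  have h2 : (σ (a : K)) ^ m = 1 := by rw [← map_pow, ha1, map_one]
  exact eq_of_pow_eq_one_of_sub_mem A hℓ hA hm h2 ha1 (hσ (a : K) a.2)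

end Fermat.Agent.A3.H675

end
-- ===== PACK-END A3/H675/Ant.lean

-- ===== PACK-BEGIN S28/H86/PoleTrans.lean
section




/-!
# A Laurent series of nonzero order is transcendental over the coefficient field

For a field `k` and `y : LaurentSeries k` with `y ≠ 0` and `y.order ≠ 0`, the evaluation map
`Polynomial k → LaurentSeries k`, `P ↦ P(y)` is injective; more precisely the order of `P(y)` is
`i₀ • y.order` for the exponent `i₀` of the dominant term.
-/

namespace Fermat.Agent.S28.H86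

open Polynomial

variable {k : Type*} [Field k]

theorem hahn_pow_ne_zero {y : LaurentSeries k} (hy : y ≠ 0) (n : ℕ) : y ^ n ≠ 0 :=
  pow_ne_zero n hy

theorem order_pow_eq {y : LaurentSeries k} (hy : y ≠ 0) (n : ℕ) :
    (y ^ n).order = n • y.order := by
  induction n with
  | zero => simp
  | succ n ih =>
    rw [pow_succ, HahnSeries.order_mul (pow_ne_zero n hy) hy, ih, succ_nsmul]

theorem coeff_algebraMap_mul (c : k) (x : LaurentSeries k) (n : ℤ) :
    (algebraMap k (LaurentSeries k) c * x).coeff n = c * x.coeff n := by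
  rw [ModularCurve.algebraMap_laurentSeries_eq_single, HahnSeries.coeff_single_zero_mul]

/-- The coefficient of `P(y)` at `n` as a finite sum. -/
theorem coeff_aeval_eq_sum (y : LaurentSeries k) (P : k[X]) (n : ℤ) :
    (aeval y P).coeff n = ∑ i ∈ P.support, P.coeff i * (y ^ i).coeff n := by
  rw [aeval_def, eval₂_eq_sum, Polynomial.sum, HahnSeries.coeff_sum]
  refine Finset.sum_congr rfl fun i _ => ?_
  exact coeff_algebraMap_mul _ _ _

/-- If `i₀ ∈ P.support` strictly minimises `i • y.order` over the support, then the coefficient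
of `P(y)` at `i₀ • y.order` is nonzero. -/
theorem coeff_aeval_ne_zero_of_min {y : LaurentSeries k} (hy : y ≠ 0) (P : k[X]) (i₀ : ℕ)
    (hi₀ : i₀ ∈ P.support)
    (hmin : ∀ i ∈ P.support, i ≠ i₀ → i₀ • y.order < i • y.order) :
    (aeval y P).coeff (i₀ • y.order) ≠ 0 := by
  rw [coeff_aeval_eq_sum, Finset.sum_eq_single_of_mem i₀ hi₀]
  · refine mul_ne_zero (Polynomial.mem_support_iff.mp hi₀) ?_
    rw [← order_pow_eq hy, ← HahnSeries.leadingCoeff_eq]
    exact HahnSeries.leadingCoeff_ne_zero.mpr (pow_ne_zero _ hy)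
  · intro i hi hne
    rw [HahnSeries.coeff_eq_zero_of_lt_order, mul_zero]
    rw [order_pow_eq hy]
    exact hmin i hi hne

/-- **Transcendence**: a Laurent series of nonzero order is not a root of a nonzero polynomial
with constant coefficients. -/
theorem aeval_ne_zero_of_order_ne_zero {y : LaurentSeries k} (hy : y ≠ 0) (ho : y.order ≠ 0)
    {P : k[X]} (hP : P ≠ 0) : aeval y P ≠ 0 := by
  have hne : P.support.Nonempty := Polynomial.support_nonempty.mpr hP
  rcases lt_or_gt_of_ne ho with hneg | hpos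
  · -- dominant term: the top degree
    have h := coeff_aeval_ne_zero_of_min hy P (P.support.max' hne) (Finset.max'_mem _ _) (by
      intro i hi hne'
      have hlt : i < P.support.max' hne :=
        lt_of_le_of_ne (Finset.le_max' _ _ hi) hne'
      have h1 : (i : ℤ) < (P.support.max' hne : ℤ) := by exact_mod_cast hlt
      rw [nsmul_eq_mul, nsmul_eq_mul]
      exact mul_lt_mul_of_neg_right h1 hneg)
    intro h0
    rw [h0, HahnSeries.coeff_zero] at h
    exact h rfl
  · have h := coeff_aeval_ne_zero_of_min hy P (P.support.min' hne) (Finset.min'_mem _ _) (by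
      intro i hi hne'
      have hlt : P.support.min' hne < i :=
        lt_of_le_of_ne (Finset.min'_le _ _ hi) (Ne.symm hne')
      have h1 : (P.support.min' hne : ℤ) < (i : ℤ) := by exact_mod_cast hlt
      rw [nsmul_eq_mul, nsmul_eq_mul]
      exact mul_lt_mul_of_pos_right h1 hpos)
    intro h0
    rw [h0, HahnSeries.coeff_zero] at h
    exact h rfl

theorem aeval_injective_of_order_ne_zero {y : LaurentSeries k} (hy : y ≠ 0) (ho : y.order ≠ 0) :
    Function.Injective (aeval y : k[X] →ₐ[k] LaurentSeries k) := by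
  rw [injective_iff_map_eq_zero]
  intro P hP
  by_contra h
  exact aeval_ne_zero_of_order_ne_zero hy ho h hP

/-- For `y` of negative order, the order of `P(y)` is `natDegree P • order y`. -/
theorem order_aeval_of_order_neg {y : LaurentSeries k} (hy : y ≠ 0) (ho : y.order < 0)
    {P : k[X]} (hP : P ≠ 0) : (aeval y P).order ≤ P.natDegree • y.order := by
  have hne : P.support.Nonempty := Polynomial.support_nonempty.mpr hP
  have hdeg : P.natDegree ∈ P.support := Polynomial.natDegree_mem_support_of_nonzero hP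
  have h := coeff_aeval_ne_zero_of_min hy P P.natDegree hdeg (by
    intro i hi hne'
    have hlt : i < P.natDegree :=
      lt_of_le_of_ne (Polynomial.le_natDegree_of_mem_supp i hi) hne'
    have h1 : (i : ℤ) < (P.natDegree : ℤ) := by exact_mod_cast hlt
    rw [nsmul_eq_mul, nsmul_eq_mul]
    exact mul_lt_mul_of_neg_right h1 ho)
  exact HahnSeries.order_le_of_coeff_ne_zero h

/-- For `y` of negative order, `P(y)` has order `≤ 0`. -/
theorem order_aeval_le_zero_of_order_neg {y : LaurentSeries k} (hy : y ≠ 0) (ho : y.order < 0)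
    {P : k[X]} (hP : P ≠ 0) : (aeval y P).order ≤ 0 := by
  refine le_trans (order_aeval_of_order_neg hy ho hP) ?_
  rw [nsmul_eq_mul]
  exact mul_nonpos_of_nonneg_of_nonpos (by positivity) ho.le

end Fermat.Agent.S28.H86

end
-- ===== PACK-END S28/H86/PoleTrans.lean

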