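import Mathlib
import Mathlib.RingTheory.Valuation.LocalSubring
import Mathlib.RingTheory.AdjoinRoot
import Mathlib.RingTheory.Polynomial.Cyclotomic.Basic
import Fermat.Prelude.Def_ModularCurve_X0
import Fermat.Prelude.Def_ModularCurve_LaurentCoeff
import Fermat.Agent.Pack.S44.G0E8L1
import Fermat.Agent.Pack.S44.G0E8L2
import Fermat.Agent.Pack.S44.G0E1L0
import Fermat.Agent.Pack.S44.G0E8L0
import Fermat.Agent.Pack.S44.G0E6L2
import Fermat.Agent.Pack.S44.G0E3L0
import Fermat.Agent.Pack.S44.G0E9L2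
import Fermat.Agent.Pack.S44.G0E9L0
import Fermat.Agent.Pack.S44.G0E9L3

-- ===== PACK-BEGIN S21/H81/U0.lean
section


/-!
# S21, piece MS-C: the smooth function `u₀` with prescribed periods, constant near the cusps

Built from an `SL(2,ℤ)`-partition of unity `χ₁` (piece MS-A) and a section `φt` of the parabolic
homomorphism `φ` (piece MS-B), both taken as hypotheses.
-/

set_option autoImplicit false

open UpperHalfPlane CongruenceSubgroup Filter Topology Complex ModularCurve ModularCurve.Period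
open scoped MatrixGroups Manifold ContDiff

namespace Fermat.Agent.S21.H81

theorem u0_mob_mul (g h : SL(2, ℤ)) (z : ℂ) : mob (g * h) z = mob g (mob h z) := by
  simp only [mob, ofComplex_apply, mul_smul]

theorem u0_mob_mem (g : SL(2, ℤ)) (z : ℂ) : mob g z ∈ Uhp := by
  simp only [mob]
  exact coe_mem_Uhp _

theorem u0_mob_one (z : ℂ) (hz : z ∈ Uhp) : mob 1 z = z := by
  simp only [mob, one_smul]
  rw [ofComplex_apply_of_im_pos hz]

theorem u0_mob_coe (g : SL(2, ℤ)) (z : ℍ) : mob g (z : ℂ) = ((g • z : ℍ) : ℂ) := by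
  simp only [mob, ofComplex_apply]

theorem u0_contDiffOn_mob (g : SL(2, ℤ)) : ContDiffOn ℝ ∞ (mob g) Uhp := by
  have h1 : DifferentiableOn ℂ (mob g) Uhp := fun z hz =>
    (SmallAux.hasStrictDerivAt_mob g hz).hasDerivAt.differentiableAt.differentiableWithinAt
  exact (h1.contDiffOn isOpen_Uhp).restrict_scalars ℝ

/-- A matrix in `SL(2,ℤ)` with lower-left entry `0` is `± T ^ n`. -/
theorem u0_eq_T_zpow_of_c_eq_zero (g : SL(2, ℤ)) (h : g 1 0 = 0) :
    ∃ n : ℤ, g = ModularGroup.T ^ n ∨ g = -ModularGroup.T ^ n := by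
  have hdet := Matrix.SpecialLinearGroup.det_coe g
  rw [Matrix.det_fin_two] at hdet
  have h' : (g : Matrix (Fin 2) (Fin 2) ℤ) 1 0 = 0 := h
  rw [h', mul_zero, sub_zero] at hdet
  rcases Int.eq_one_or_neg_one_of_mul_eq_one' hdet with ⟨ha, hd⟩ | ⟨ha, hd⟩
  · refine ⟨g 0 1, Or.inl ?_⟩
    apply Matrix.SpecialLinearGroup.ext
    intro i j
    rw [ModularGroup.coe_T_zpow]
    fin_cases i <;> fin_cases j <;> simp [ha, hd, h']
  · refine ⟨-g 0 1, Or.inr ?_⟩
    apply Matrix.SpecialLinearGroup.ext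
    intro i j
    rw [Matrix.SpecialLinearGroup.coe_neg, ModularGroup.coe_T_zpow]
    fin_cases i <;> fin_cases j <;> simp [ha, hd, h']

theorem u0_section_T_zpow {φt : SL(2, ℤ) → ℝ}
    (hφt2 : ∀ g : SL(2, ℤ), φt (ModularGroup.T * g) = φt g) (n : ℤ) (g : SL(2, ℤ)) :
    φt (ModularGroup.T ^ n * g) = φt g := by
  induction n using Int.induction_on generalizing g with
  | zero => simp
  | succ k ih =>
    rw [zpow_add_one, mul_assoc, ih, hφt2]
  | pred k ih =>
    have := hφt2 (ModularGroup.T ^ (-(k : ℤ) - 1) * g)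
    rw [← mul_assoc, ← zpow_one_add] at this
    rw [← this]
    have e : (1 : ℤ) + (-(k : ℤ) - 1) = -(k : ℤ) := by ring
    rw [e, ih]


section construction

variable (χ₁ : ℂ → ℝ) (φt : SL(2, ℤ) → ℝ)

/-- The function `u₀ = -∑ g, φt g · χ₁ (g z)`. -/
noncomputable def u0 : ℂ → ℝ := fun z => -∑ᶠ g : SL(2, ℤ), φt g * χ₁ (mob g z)

variable {χ₁ φt}

theorem u0_support_finite
    (hχfin : ∀ K : Set ℂ, IsCompact K → K ⊆ Uhp →
      {g : SL(2, ℤ) | ∃ z ∈ K, χ₁ (mob g z) ≠ 0}.Finite)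
    {z : ℂ} (hz : z ∈ Uhp) : (Function.support fun g : SL(2, ℤ) => χ₁ (mob g z)).Finite := by
  refine (hχfin {z} isCompact_singleton (by simpa using hz)).subset ?_
  intro g hg
  exact ⟨z, rfl, hg⟩

theorem u0_support_finite' (ψ : SL(2, ℤ) → ℝ)
    (hχfin : ∀ K : Set ℂ, IsCompact K → K ⊆ Uhp →
      {g : SL(2, ℤ) | ∃ z ∈ K, χ₁ (mob g z) ≠ 0}.Finite)
    {z : ℂ} (hz : z ∈ Uhp) :
    (Function.support fun g : SL(2, ℤ) => ψ g * χ₁ (mob g z)).Finite := by
  refine (u0_support_finite hχfin hz).subset ?_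
  intro g hg
  simp only [Function.mem_support, ne_eq] at hg ⊢
  exact fun h => hg (by rw [h, mul_zero])

theorem u0_contDiffOn (hχsmooth : ContDiffOn ℝ ∞ χ₁ Uhp)
    (hχfin : ∀ K : Set ℂ, IsCompact K → K ⊆ Uhp →
      {g : SL(2, ℤ) | ∃ z ∈ K, χ₁ (mob g z) ≠ 0}.Finite) :
    ContDiffOn ℝ ∞ (u0 χ₁ φt) Uhp := by
  intro z₀ hz₀
  -- a compact neighbourhood of `z₀` inside `Uhp`
  obtain ⟨r, hr, hball⟩ := Metric.nhds_basis_closedBall.mem_iff.mp (isOpen_Uhp.mem_nhds hz₀)
  have hfin := hχfin (Metric.closedBall z₀ r) (isCompact_closedBall z₀ r) hball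
  set S := hfin.toFinset with hS
  have hterm : ∀ g : SL(2, ℤ), ContDiffOn ℝ ∞ (fun z => φt g * χ₁ (mob g z)) Uhp := by
    intro g
    have h1 : ContDiffOn ℝ ∞ (fun z => χ₁ (mob g z)) Uhp :=
      hχsmooth.comp (u0_contDiffOn_mob g) (fun z _ => u0_mob_mem g z)
    exact contDiffOn_const.mul h1
  have hsum : ContDiffOn ℝ ∞ (fun z => -∑ g ∈ S, φt g * χ₁ (mob g z)) Uhp :=
    (ContDiffOn.sum fun g _ => hterm g).neg
  have heq : ∀ z ∈ Metric.closedBall z₀ r, u0 χ₁ φt z = -∑ g ∈ S, φt g * χ₁ (mob g z) := by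
    intro z hz
    simp only [u0]
    congr 1
    apply finsum_eq_sum_of_support_subset
    intro g hg
    simp only [Function.mem_support, ne_eq] at hg
    rw [hS, Set.Finite.coe_toFinset]
    refine ⟨z, hz, fun h => hg ?_⟩
    rw [h, mul_zero]
  have hat : ContDiffAt ℝ ∞ (u0 χ₁ φt) z₀ := by
    refine (hsum.contDiffAt (isOpen_Uhp.mem_nhds hz₀)).congr_of_eventuallyEq ?_
    filter_upwards [Metric.closedBall_mem_nhds z₀ hr] with z hz using heq z hz
  exact hat.contDiffWithinAt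

theorem u0_period {N : ℕ} {φ : Additive (Gamma0 N) →+ ℝ}
    (hχfin : ∀ K : Set ℂ, IsCompact K → K ⊆ Uhp →
      {g : SL(2, ℤ) | ∃ z ∈ K, χ₁ (mob g z) ≠ 0}.Finite)
    (hχsum : ∀ z ∈ Uhp, ∑ᶠ g : SL(2, ℤ), χ₁ (mob g z) = 1)
    (hφt1 : ∀ (g : SL(2, ℤ)) (γ : Gamma0 N),
      φt (g * (γ : SL(2, ℤ))) = φt g + φ (Additive.ofMul γ))
    (γ : Gamma0 N) (z : ℍ) :
    u0 χ₁ φt ↑((γ : SL(2, ℤ)) • z) = u0 χ₁ φt ↑z + φ (Additive.ofMul γ) := by
  have hz : (z : ℂ) ∈ Uhp := coe_mem_Uhp z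
  simp only [u0]
  have h3 : ∑ᶠ g : SL(2, ℤ), φt g * χ₁ (mob g ↑((γ : SL(2, ℤ)) • z))
      = ∑ᶠ g' : SL(2, ℤ), (φt g' - φ (Additive.ofMul γ)) * χ₁ (mob g' ↑z) := by
    rw [← finsum_comp_equiv (Equiv.mulRight (γ : SL(2, ℤ)))
      (f := fun g' : SL(2, ℤ) => (φt g' - φ (Additive.ofMul γ)) * χ₁ (mob g' ↑z))]
    refine finsum_congr fun g => ?_
    simp only [Equiv.coe_mulRight]
    rw [hφt1 g γ, add_sub_cancel_right, u0_mob_mul, u0_mob_coe (γ : SL(2, ℤ)) z]
  rw [h3]
  have h2 : ∀ g' : SL(2, ℤ), (φt g' - φ (Additive.ofMul γ)) * χ₁ (mob g' ↑z)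
      = φt g' * χ₁ (mob g' ↑z) - φ (Additive.ofMul γ) * χ₁ (mob g' ↑z) := fun g' => by ring
  rw [finsum_congr h2, finsum_sub_distrib (u0_support_finite' _ hχfin hz)
    (u0_support_finite' _ hχfin hz), ← mul_finsum, hχsum _ hz]
  ring

theorem u0_cusp
    (hχsupp : ∀ z, χ₁ z ≠ 0 → |z.re| ≤ 1 ∧ 1 / 2 < z.im)
    (hχsum : ∀ z ∈ Uhp, ∑ᶠ g : SL(2, ℤ), χ₁ (mob g z) = 1)
    (hG2 : ∀ (g : SL(2, ℤ)) (z : ℂ), 2 ≤ z.im → 1 / 2 < (mob g z).im → g 1 0 = 0)
    (hφt2 : ∀ g : SL(2, ℤ), φt (ModularGroup.T * g) = φt g)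
    (hφt3 : ∀ g : SL(2, ℤ), φt (-g) = φt g)
    (δ : SL(2, ℤ)) (z : ℂ) (hz : 2 ≤ z.im) :
    u0 χ₁ φt (mob δ z) = -φt δ⁻¹ := by
  simp only [u0]
  congr 1
  have hmem : mob δ z ∈ Uhp := u0_mob_mem δ z
  have h1 : ∀ g : SL(2, ℤ), φt g * χ₁ (mob g (mob δ z)) = φt δ⁻¹ * χ₁ (mob g (mob δ z)) := by
    intro g
    by_cases h0 : χ₁ (mob g (mob δ z)) = 0
    · rw [h0, mul_zero, mul_zero]
    · congr 1
      have him := (hχsupp _ h0).2
      rw [← u0_mob_mul] at him
      have hc := hG2 (g * δ) z hz him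
      obtain ⟨n, hn | hn⟩ := u0_eq_T_zpow_of_c_eq_zero (g * δ) hc
      · have : g = ModularGroup.T ^ n * δ⁻¹ := by rw [← hn]; group
        rw [this, u0_section_T_zpow hφt2]
      · have : g = -(ModularGroup.T ^ n * δ⁻¹) := by
          rw [← neg_mul, ← hn]; group
        rw [this, hφt3, u0_section_T_zpow hφt2]
  rw [finsum_congr h1, ← mul_finsum, hχsum _ hmem, mul_one]

end construction

/-- **MS-C**: existence of a smooth function on the upper half plane with periods `φ`, which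
is constant on every cusp neighbourhood `δ {Im ≥ 2}`. Takes the outputs of MS-A (partition of
unity, and the lemma `G2`) and MS-B (section) as hypotheses. -/
theorem exists_u0_of (N : ℕ) (φ : Additive (Gamma0 N) →+ ℝ)
    (hA : ∃ χ₁ : ℂ → ℝ, ContDiffOn ℝ ∞ χ₁ Uhp ∧ (∀ z, 0 ≤ χ₁ z) ∧
      (∀ z, χ₁ z ≠ 0 → |z.re| ≤ 1 ∧ 1 / 2 < z.im) ∧
      (∀ K : Set ℂ, IsCompact K → K ⊆ Uhp →
        {g : SL(2, ℤ) | ∃ z ∈ K, χ₁ (mob g z) ≠ 0}.Finite) ∧
      (∀ z ∈ Uhp, ∑ᶠ g : SL(2, ℤ), χ₁ (mob g z) = 1))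
    (hG2 : ∀ (g : SL(2, ℤ)) (z : ℂ), 2 ≤ z.im → 1 / 2 < (mob g z).im → g 1 0 = 0)
    (hB : ∃ φt : SL(2, ℤ) → ℝ,
      (∀ (g : SL(2, ℤ)) (γ : Gamma0 N), φt (g * (γ : SL(2, ℤ))) = φt g + φ (Additive.ofMul γ)) ∧
      (∀ g : SL(2, ℤ), φt (ModularGroup.T * g) = φt g) ∧ (∀ g : SL(2, ℤ), φt (-g) = φt g)) :
    ∃ (u₀ : ℂ → ℝ) (c : SL(2, ℤ) → ℝ), ContDiffOn ℝ ∞ u₀ Uhp ∧
      (∀ (γ : Gamma0 N) (z : ℍ),
        u₀ ↑((γ : SL(2, ℤ)) • z) = u₀ ↑z + φ (Additive.ofMul γ)) ∧
      (∀ (δ : SL(2, ℤ)) (z : ℂ), 2 ≤ z.im → u₀ (mob δ z) = c δ) ∧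
      (∀ (δ : SL(2, ℤ)) (z : ℂ), 2 < z.im → dz u₀ (mob δ z) = 0) := by
  obtain ⟨χ₁, hχsmooth, -, hχsupp, hχfin, hχsum⟩ := hA
  obtain ⟨φt, hφt1, hφt2, hφt3⟩ := hB
  have hsm := u0_contDiffOn (φt := φt) hχsmooth hχfin
  have hcusp := u0_cusp hχsupp hχsum hG2 hφt2 hφt3
  refine ⟨u0 χ₁ φt, fun δ => -φt δ⁻¹, hsm, u0_period hχfin hχsum hφt1, hcusp, ?_⟩
  intro δ z hz
  have hzU : z ∈ Uhp := by
    show 0 < z.im
    linarith
  -- `u₀ ∘ mob δ` is constant near `z`
  have hconst : (fun w => u0 χ₁ φt (mob δ w)) =ᶠ[𝓝 z] fun _ => -φt δ⁻¹ := by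
    have hopen : IsOpen {w : ℂ | 2 < w.im} := isOpen_lt continuous_const Complex.continuous_im
    filter_upwards [hopen.mem_nhds hz] with w hw using hcusp δ w (le_of_lt hw)
  have hd : DifferentiableAt ℝ (u0 χ₁ φt) (mob δ z) :=
    ((hsm.contDiffAt (isOpen_Uhp.mem_nhds (u0_mob_mem δ z))).differentiableAt (by simp))
  have h1 := dz_comp_mob (u0 χ₁ φt) δ z hzU hd
  have h2 : dz (fun w => u0 χ₁ φt (mob δ w)) z = 0 := by
    simp only [dz]
    rw [hconst.fderiv_eq]
    simp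
  rw [h2] at h1
  have hcd : (cd δ z) ^ 2 ≠ 0 := pow_ne_zero _ (SmallAux.cd_ne_zero δ hzU)
  have := h1.symm
  rw [div_eq_zero_iff] at this
  exact this.resolve_right hcd

end Fermat.Agent.S21.H81

end
-- ===== PACK-END S21/H81/U0.lean

-- ===== PACK-BEGIN S21/H544/IntCBasic.lean
section



/-!
# S21 INT-C (helper544): basic facts on `mob`, proper discontinuity from a partition of unity
-/

set_option autoImplicit false

open UpperHalfPlane CongruenceSubgroup Filter Topology MeasureTheory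
open scoped MatrixGroups ComplexConjugate ContDiff

namespace Fermat.Agent.S21.H544

open Fermat.Agent.S21

theorem mob_mem_Uhp (g : SL(2, ℤ)) (z : ℂ) : mob g z ∈ Uhp :=
  (g • ofComplex z : ℍ).im_pos

theorem ofComplex_mob (g : SL(2, ℤ)) (z : ℂ) : ofComplex (mob g z) = g • ofComplex z := by
  unfold mob
  exact ofComplex_apply _

theorem mob_mul (g h : SL(2, ℤ)) (z : ℂ) : mob (g * h) z = mob g (mob h z) := by
  unfold mob
  rw [ofComplex_apply, mul_smul]

theorem mob_one {z : ℂ} (hz : z ∈ Uhp) : mob 1 z = z := by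
  unfold mob
  rw [one_smul, ofComplex_apply_of_im_pos hz]

theorem mob_inv_mob (g : SL(2, ℤ)) {z : ℂ} (hz : z ∈ Uhp) : mob g⁻¹ (mob g z) = z := by
  rw [← _root_.Fermat.Agent.S21.H544.mob_mul, inv_mul_cancel, _root_.Fermat.Agent.S21.H544.mob_one hz]

theorem mob_mob_inv (g : SL(2, ℤ)) {z : ℂ} (hz : z ∈ Uhp) : mob g (mob g⁻¹ z) = z := by
  rw [← _root_.Fermat.Agent.S21.H544.mob_mul, mul_inv_cancel, _root_.Fermat.Agent.S21.H544.mob_one hz]

theorem mob_image_Uhp (g : SL(2, ℤ)) : mob g '' Uhp = Uhp := by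
  ext w
  constructor
  · rintro ⟨z, _, rfl⟩
    exact _root_.Fermat.Agent.S21.H544.mob_mem_Uhp g z
  · intro hw
    exact ⟨mob g⁻¹ w, _root_.Fermat.Agent.S21.H544.mob_mem_Uhp _ _, mob_mob_inv g hw⟩

theorem continuousOn_mob (g : SL(2, ℤ)) : ContinuousOn (mob g) Uhp := fun _ hz =>
  ((SmallAux.hasStrictDerivAt_mob g hz).hasDerivAt.continuousAt).continuousWithinAt

theorem differentiableAt_mob (g : SL(2, ℤ)) {z : ℂ} (hz : z ∈ Uhp) :
    DifferentiableAt ℝ (mob g) z :=
  ((SmallAux.hasStrictDerivAt_mob g hz).hasDerivAt.differentiableAt).restrictScalars ℝ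

/-- Proper discontinuity of the `SL(2,ℤ)`-action, derived from a partition of unity. -/
theorem finite_mob_mem {χ₁ : ℂ → ℝ} (hχ : IsSL2ZPartition χ₁) (K₁ K₂ : Set ℂ)
    (hK₁ : IsCompact K₁) (h₁ : K₁ ⊆ Uhp) (hK₂ : IsCompact K₂) (h₂ : K₂ ⊆ Uhp) :
    {g : SL(2, ℤ) | ∃ z ∈ K₁, mob g z ∈ K₂}.Finite := by
  have hG₁ := hχ.locfin K₁ hK₁ h₁
  have hG₂ := hχ.locfin K₂ hK₂ h₂
  refine ((hG₂.prod hG₁).image (fun p : SL(2, ℤ) × SL(2, ℤ) => p.1⁻¹ * p.2)).subset ?_
  rintro γ ⟨z, hz, hw⟩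
  have hsum := hχ.sum_eq_one (mob γ z) (h₂ hw)
  obtain ⟨g, hg⟩ : ∃ g : SL(2, ℤ), χ₁ (mob g (mob γ z)) ≠ 0 := by
    by_contra hcon
    simp only [not_exists, not_not] at hcon
    rw [finsum_congr hcon] at hsum
    simp at hsum
  refine ⟨(g, g * γ), ⟨⟨mob γ z, hw, hg⟩, ⟨z, hz, ?_⟩⟩, by simp⟩
  rw [_root_.Fermat.Agent.S21.H544.mob_mul]
  exact hg

end Fermat.Agent.S21.H544

end
-- ===== PACK-END S21/H544/IntCBasic.lean

-- ===== PACK-BEGIN S49/Normalize.lean
section



set_option autoImplicit false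
open CuspForm CongruenceSubgroup ModularFormClass

namespace Fermat.Agent.S49

variable {N : ℕ}

/-- If the coefficients `b` satisfy eigen-relations with eigenvalues `lam` and `b 0 = b 1 = 0`,
then all coefficients vanish. -/
theorem formal_eq_zero_of_one_eq_zero {e lam b : ℕ → ℂ}
    (hrel : ∀ ℓ : ℕ, ℓ.Prime → ∀ n : ℕ,
      b (n * ℓ) + e ℓ * (if ℓ ∣ n then b (n / ℓ) else 0) = lam ℓ * b n)
    (h0 : b 0 = 0) (h1 : b 1 = 0) : ∀ n, b n = 0 := by
  intro n
  induction n using Nat.strong_induction_on with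
  | _ n ih =>
    rcases Nat.lt_or_ge n 2 with hn | hn
    · interval_cases n
      · exact h0
      · exact h1
    · have hn1 : n ≠ 1 := by omega
      have hℓ : (n.minFac).Prime := Nat.minFac_prime hn1
      obtain ⟨m, hm⟩ := Nat.minFac_dvd n
      have hmpos : 0 < m := by
        rcases Nat.eq_zero_or_pos m with h | h
        · subst h; omega
        · exact h
      have hmlt : m < n := by
        have := hℓ.one_lt
        nlinarith
      have hrel' := hrel n.minFac hℓ m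
      have hnm : m * n.minFac = n := by rw [mul_comm]; exact hm.symm
      rw [hnm, ih m hmlt, mul_zero] at hrel'
      by_cases hd : n.minFac ∣ m
      · rw [if_pos hd] at hrel'
        have hlt : m / n.minFac < n := lt_of_le_of_lt (Nat.div_le_self _ _) hmlt
        rw [ih _ hlt, mul_zero, add_zero] at hrel'
        exact hrel'
      · rw [if_neg hd, mul_zero, add_zero] at hrel'
        exact hrel'

/-- (E4) A simultaneous eigenvector of the Hecke algebra can be normalised to a normalised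
eigenform whose prime coefficients are the eigenvalues. -/
theorem exists_normalized_eigenform [NeZero N] (g : CuspForm (Gamma0 N) 2) (hg : g ≠ 0)
    (χ : heckeAlgebra N 2 (∅ : Set ℕ) →+* ℂ)
    (hχ : ∀ t : heckeAlgebra N 2 (∅ : Set ℕ),
      (t : Module.End ℂ (CuspForm (Gamma0 N) 2)) g = χ t • g) :
    ∃ f : CuspForm (Gamma0 N) 2, f.IsNormalizedEigenform ∧
      ∀ (ℓ : ℕ) (hℓ : ℓ.Prime) (hℓN : ¬ ℓ ∣ N),
        ModularFormClass.qCoeff f ℓ = χ (heckeAlgebra.T hℓ hℓN (Set.notMem_empty _)) := by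
  classical
  -- eigenvalues
  let lam : ℕ → ℂ := fun ℓ =>
    if hℓ : ℓ.Prime then
      if hℓN : ℓ ∣ N then χ (heckeAlgebra.U hℓ hℓN (Set.notMem_empty _))
      else χ (heckeAlgebra.T hℓ hℓN (Set.notMem_empty _))
    else 0
  let e : ℕ → ℂ := fun ℓ => if ℓ ∣ N then (0 : ℂ) else (ℓ : ℂ)
  have hrel : ∀ ℓ : ℕ, ℓ.Prime → ∀ n : ℕ,
      qCoeff ⇑g (n * ℓ) + e ℓ * (if ℓ ∣ n then qCoeff ⇑g (n / ℓ) else 0)
        = lam ℓ * qCoeff ⇑g n := by
    intro ℓ hℓ n
    by_cases hℓN : ℓ ∣ N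
    · have h1 := hχ (heckeAlgebra.U hℓ hℓN (Set.notMem_empty _))
      rw [heckeAlgebra.coe_U] at h1
      have h2 := congrArg (fun F : CuspForm (Gamma0 N) 2 => qCoeff ⇑F n) h1
      simp only [glue_qCoeff_heckeULin hℓ hℓN, glue_qCoeff_smul] at h2
      simp only [e, lam, dif_pos hℓ, dif_pos hℓN, if_pos hℓN, zero_mul, add_zero]
      exact h2
    · have h1 := hχ (heckeAlgebra.T hℓ hℓN (Set.notMem_empty _))
      rw [heckeAlgebra.coe_T] at h1
      have h2 := congrArg (fun F : CuspForm (Gamma0 N) 2 => qCoeff ⇑F n) h1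
      simp only [glue_qCoeff_heckeTLin hℓ hℓN, glue_qCoeff_smul] at h2
      simp only [e, lam, dif_pos hℓ, dif_neg hℓN, if_neg hℓN]
      rw [← h2]
      split_ifs <;> ring
  -- the first coefficient is nonzero
  have hb1 : qCoeff ⇑g 1 ≠ 0 := by
    intro h1
    exact hg (glue_eq_zero_of_qCoeff g
      (formal_eq_zero_of_one_eq_zero hrel (glue_qCoeff_zero_idx g) h1))
  -- normalise
  refine ⟨(qCoeff ⇑g 1)⁻¹ • g, ?_, ?_⟩
  · apply isNormalizedEigenform_of_isEigensystem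
    refine ⟨?_, ?_⟩
    · simp only [glue_qCoeff_smul]
      exact inv_mul_cancel₀ hb1
    · intro ℓ hℓ n
      have hℓ1 := hrel ℓ hℓ 1
      have hnd : ¬ ℓ ∣ 1 := fun h => hℓ.one_lt.ne' (Nat.dvd_one.mp h)
      rw [if_neg hnd, mul_zero, add_zero, one_mul] at hℓ1
      have hn := hrel ℓ hℓ n
      simp only [glue_qCoeff_smul]
      rw [mul_comm ℓ n]
      have key : (qCoeff ⇑g 1)⁻¹ * qCoeff ⇑g ℓ = lam ℓ := by
        rw [hℓ1]
        field_simp
      calc (qCoeff ⇑g 1)⁻¹ * qCoeff ⇑g (n * ℓ)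
            + (if ℓ ∣ N then (0 : ℂ) else (ℓ : ℂ)) *
              (if ℓ ∣ n then (qCoeff ⇑g 1)⁻¹ * qCoeff ⇑g (n / ℓ) else 0)
          = (qCoeff ⇑g 1)⁻¹ * (qCoeff ⇑g (n * ℓ)
              + e ℓ * (if ℓ ∣ n then qCoeff ⇑g (n / ℓ) else 0)) := by
            simp only [e]
            split_ifs <;> ring
        _ = (qCoeff ⇑g 1)⁻¹ * (lam ℓ * qCoeff ⇑g n) := by rw [hn]
        _ = (qCoeff ⇑g 1)⁻¹ * qCoeff ⇑g ℓ * ((qCoeff ⇑g 1)⁻¹ * qCoeff ⇑g n) := by
            rw [key]; ring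
  · intro ℓ hℓ hℓN
    have hℓ1 := hrel ℓ hℓ 1
    have hnd : ¬ ℓ ∣ 1 := fun h => hℓ.one_lt.ne' (Nat.dvd_one.mp h)
    rw [if_neg hnd, mul_zero, add_zero, one_mul] at hℓ1
    rw [glue_qCoeff_smul, hℓ1]
    simp only [lam, dif_pos hℓ, dif_neg hℓN]
    field_simp

end Fermat.Agent.S49

end
-- ===== PACK-END S49/Normalize.lean

-- ===== PACK-BEGIN S37/H99/FrobAt.lean
section


/-!
# S37 (helper99): Frobenius elements exist at EVERY valuation subring of `ℚ̄` over a prime

`Fermat.Agent.S54.exists_frobenius` produces *some* `A`; the same proof works for a given `A`.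
Also: two Frobenius elements at `A` differ by an element of the inertia subgroup.
-/

set_option autoImplicit false

namespace Fermat.Agent.S37.H99

open scoped Pointwise
open Fermat.Agent.S54

/-- For every valuation subring `A` of `ℚ̄` over the prime `ℓ` there is a Frobenius element
at `A`. -/
theorem exists_isFrobeniusAt (ℓ : ℕ) (hℓ : ℓ.Prime)
    (A : ValuationSubring (AlgebraicClosure ℚ)) (hA : A.LiesOverPrime ℓ) :
    ∃ σ : AlgebraicClosure ℚ ≃ₐ[ℚ] AlgebraicClosure ℚ, A.IsFrobeniusAt σ ℓ := by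
  have : Algebra.IsAlgebraic ℚ (AlgebraicClosure ℚ) := AlgebraicClosure.isAlgebraic ℚ
  have := primeBelow_isPrime A
  have hℓQ : (ℓ : integralClosure ℤ (AlgebraicClosure ℚ)) ∈ primeBelow A := by
    rw [mem_primeBelow]
    exact hA
  obtain ⟨σ, hσQ', hσF⟩ := exists_frob_integralClosure ℓ hℓ (primeBelow A) hℓQ
  have hσQ : ∀ x, σ • x ∈ primeBelow A ↔ x ∈ primeBelow A := by
    intro x
    conv_lhs => rw [← hσQ']
    exact Ideal.smul_mem_pointwise_smul_iff
  have key : ∀ τ : AlgebraicClosure ℚ ≃ₐ[ℚ] AlgebraicClosure ℚ,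
      (∀ x, τ • x ∈ primeBelow A ↔ x ∈ primeBelow A) → ∀ x ∈ A, τ x ∈ A := by
    intro τ hτ x hx
    obtain ⟨b, s, hb, hs, hsA, hxs⟩ := (mem_valuationSubring_iff A ℓ hℓ hA x).mp hx
    refine (mem_valuationSubring_iff A ℓ hℓ hA (τ x)).mpr
      ⟨τ b, τ s, hb.map τ, hs.map τ, ?_, ?_⟩
    · exact (hτ ⟨s, hs⟩).not.mpr hsA
    · rw [← map_mul, hxs]
  have hσA : σ ∈ A.decompositionSubgroup ℚ := by
    rw [MulAction.mem_stabilizer_iff]
    ext x
    rw [ValuationSubring.mem_smul_pointwise_iff_exists]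
    constructor
    · rintro ⟨s, hs, rfl⟩
      exact key σ hσQ s hs
    · intro hx
      refine ⟨σ⁻¹ • x, key σ⁻¹ ?_ x hx, by simp⟩
      intro y
      rw [← hσQ (σ⁻¹ • y)]
      simp
  refine ⟨σ, hσA, ?_⟩
  intro x
  obtain ⟨a, rfl⟩ := IsLocalRing.residue_surjective x
  obtain ⟨b, s, hb, hs, hsA, hxs⟩ := (mem_valuationSubring_iff A ℓ hℓ hA a).mp a.2
  have hbA : b ∈ A := isIntegral_mem_valuationSubring A hb
  have hsA' : s ∈ A := isIntegral_mem_valuationSubring A hs
  have hint : ∀ (y : AlgebraicClosure ℚ) (hy : IsIntegral ℤ y),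
      (⟨σ, hσA⟩ : A.decompositionSubgroup ℚ) •
        IsLocalRing.residue A ⟨y, isIntegral_mem_valuationSubring A hy⟩ =
      (IsLocalRing.residue A ⟨y, isIntegral_mem_valuationSubring A hy⟩) ^ ℓ := by
    intro y hy
    rw [← IsLocalRing.ResidueField.residue_smul, ← map_pow, ← sub_eq_zero, ← map_sub,
      IsLocalRing.residue_eq_zero_iff, ← ValuationSubring.coe_mem_nonunits_iff]
    exact hσF ⟨y, hy⟩
  have h1 : IsLocalRing.residue A a * IsLocalRing.residue A ⟨s, hsA'⟩ =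
      IsLocalRing.residue A ⟨b, hbA⟩ := by
    rw [← map_mul]
    congr 1
    exact Subtype.ext hxs
  have h2 : IsLocalRing.residue A ⟨s, hsA'⟩ ≠ 0 := by
    rw [Ne, IsLocalRing.residue_eq_zero_iff, ← ValuationSubring.coe_mem_nonunits_iff]
    exact hsA
  have h3 := congrArg (fun z => (⟨σ, hσA⟩ : A.decompositionSubgroup ℚ) • z) h1
  simp only [smul_mul'] at h3
  rw [hint s hs, hint b hb, ← h1, mul_pow] at h3
  exact mul_right_cancel₀ (pow_ne_zero _ h2) h3

end Fermat.Agent.S37.H99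

end
-- ===== PACK-END S37/H99/FrobAt.lean

-- ===== PACK-BEGIN S37/Red/H759/PassageDatum.lean
section
/-
S37-RED, piece E4(c) "passage R_E → A" for (H3), in the language of helper40's `Red/Spec.lean`
(helper759).

* `lift_chart_of_levels` : for a reduction datum `G` on `(F_N, F_{N,k})` satisfying the `link`
  property of `Red.ModDatum`, (H3) at the level of all number fields `E ⊇ E₀`
  (`H759.LiftAtLevel`, `q`-expansion language) implies
      `∀ c ∈ G.chartk s, ∃ b ∈ G.chart t, ∃ hb : b ∈ G.O, G.ρ ⟨b, hb⟩ = c`.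
* `lift_fin_of_levels`, `lift_inf_of_levels` : the fields `lift_fin`, `lift_inf` of `G.Good`.
-/




set_option autoImplicit false
set_option synthInstance.maxHeartbeats 400000

noncomputable section

namespace Fermat.Agent.S37.Red.H759

open ModularCurve HahnSeries IsLocalRing IntermediateField

section Transfer

variable {R Ω : Type*} [CommRing R] [CommRing Ω]

/-- integrality is preserved by ring homomorphisms (subring form) -/
theorem isIntegral_map_subring (φ : R →+* Ω) (B : Subring R) {c : R} (hc : IsIntegral B c) :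
    IsIntegral (B.map φ) (φ c) := by
  rw [isIntegral_subring_iff] at hc ⊢
  obtain ⟨P, hP, hcoeff, hPc⟩ := hc
  refine ⟨P.map φ, hP.map φ, fun i => ?_, ?_⟩
  · rw [Polynomial.coeff_map]
    exact Subring.mem_map.mpr ⟨P.coeff i, hcoeff i, rfl⟩
  · rw [Polynomial.eval_map, Polynomial.eval₂_hom, hPc, map_zero]

/-- integrality is reflected by injective ring homomorphisms (subring form) -/
theorem isIntegral_of_map_subring (φ : R →+* Ω) (hφ : Function.Injective φ) (B : Subring R)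
    {c : R} (hc : IsIntegral (B.map φ) (φ c)) : IsIntegral B c := by
  classical
  rw [isIntegral_subring_iff] at hc ⊢
  obtain ⟨P, hP, hcoeff, hPc⟩ := hc
  have hex : ∀ i, ∃ r : R, r ∈ B ∧ φ r = P.coeff i := fun i => Subring.mem_map.mp (hcoeff i)
  choose g hgB hg using hex
  let Q : Polynomial R := Polynomial.X ^ P.natDegree +
    ∑ i ∈ Finset.range P.natDegree, Polynomial.C (g i) * Polynomial.X ^ i
  have hQmap : Q.map φ = P := by
    simp only [Q, Polynomial.map_add, Polynomial.map_pow, Polynomial.map_X,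
      Polynomial.map_sum, Polynomial.map_mul, Polynomial.map_C, hg]
    exact (hP.as_sum).symm
  have hQmonic : Q.Monic := by
    apply Polynomial.monic_X_pow_add
    refine lt_of_le_of_lt (Polynomial.degree_sum_le _ _) ?_
    rw [Finset.sup_lt_iff (WithBot.bot_lt_coe _)]
    intro i hi
    refine lt_of_le_of_lt (Polynomial.degree_C_mul_X_pow_le i (g i)) ?_
    exact_mod_cast Finset.mem_range.mp hi
  refine ⟨Q, hQmonic, fun i => ?_, ?_⟩
  · simp only [Q, Polynomial.coeff_add, Polynomial.coeff_X_pow, Polynomial.finsetSum_coeff,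
      Polynomial.coeff_C_mul]
    refine add_mem ?_ (sum_mem fun j _ => ?_)
    · split_ifs
      · exact one_mem _
      · exact zero_mem _
    · split_ifs
      · simpa using hgB j
      · simp
  · apply hφ
    rw [map_zero, ← Polynomial.eval₂_hom, ← Polynomial.eval_map, hQmap, hPc]

end Transfer

section Datum

variable {N : ℕ} {A : ValuationSubring Qbar}
  (G : Datum A (residue A) (modularFunctionFieldBar N)
    (modularFunctionFieldFullC (ResidueField A) N))

/-- the `link` property of `Red.ModDatum`, for a raw datum -/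
def Link : Prop :=
  ∀ (y : LaurentSeries A) (hy : coeffMap A.subtype y ∈ modularFunctionFieldBar N)
    (hyk : coeffMap (residue A) y ∈ modularFunctionFieldFullC (ResidueField A) N),
    coeffMap (residue A) y ≠ 0 →
    ∃ h : (⟨coeffMap A.subtype y, hy⟩ : modularFunctionFieldBar N) ∈ G.O,
      G.ρ ⟨⟨coeffMap A.subtype y, hy⟩, h⟩ = ⟨coeffMap (residue A) y, hyk⟩

/-- `c ∈ G.chartk s` in `q`-expansion language -/
theorem isIntegral_coe_of_mem_chartk {s c : modularFunctionFieldFullC (ResidueField A) N}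
    (hc : c ∈ G.chartk s) :
    IsIntegral (Subring.closure
      (Set.range (algebraMap (ResidueField A) (LaurentSeries (ResidueField A))) ∪
        {(s : LaurentSeries (ResidueField A))})) (c : LaurentSeries (ResidueField A)) := by
  have h1 : IsIntegral (Algebra.adjoin (ResidueField A) {s}) c := hc
  rw [isIntegral_subalgebra_iff, Algebra.adjoin_eq_ring_closure] at h1
  have h2 := isIntegral_map_subring
    (algebraMap (modularFunctionFieldFullC (ResidueField A) N)
      (LaurentSeries (ResidueField A))) _ h1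
  refine isIntegral_subring_mono ?_ h2
  rw [Subring.map_le_iff_le_comap, Subring.closure_le]
  rintro x (⟨a, rfl⟩ | hx)
  · exact Subring.subset_closure (Or.inl ⟨a, rfl⟩)
  · rw [Set.mem_singleton_iff] at hx
    subst hx
    exact Subring.subset_closure (Or.inr rfl)

/-- `b ∈ G.chart t` from `q`-expansion language -/
theorem mem_chart_of_isIntegral_coe {t b : modularFunctionFieldBar N}
    (hb : IsIntegral (Subring.closure (constAll A ∪ {(t : LaurentSeries Qbar)}))
      (b : LaurentSeries Qbar)) : b ∈ G.chart t := by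
  show IsIntegral (G.polyRing t) b
  refine isIntegral_of_map_subring
    (algebraMap (modularFunctionFieldBar N) (LaurentSeries Qbar))
    (algebraMap (modularFunctionFieldBar N) (LaurentSeries Qbar)).injective _ ?_
  refine isIntegral_subring_mono ?_ hb
  rw [Subring.closure_le]
  rintro x (⟨a, rfl⟩ | hx)
  · refine Subring.mem_map.mpr ⟨algebraMap Qbar (modularFunctionFieldBar N) (a : Qbar), ?_, rfl⟩
    exact (le_sup_left : G.constRing ≤ G.polyRing t)
      (Subring.mem_map.mpr ⟨(a : Qbar), a.2, rfl⟩)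
  · rw [Set.mem_singleton_iff] at hx
    subst hx
    exact Subring.mem_map.mpr ⟨t, (le_sup_right : Subring.closure {t} ≤ G.polyRing t)
      (Subring.subset_closure rfl), rfl⟩

/-- **Passage `R_E → A` for (H3), datum form.** -/
theorem lift_chart_of_levels (hlink : Link G)
    (t : modularFunctionFieldBar N) (s : modularFunctionFieldFullC (ResidueField A) N)
    (E₀ : NumberFieldIn)
    (h : ∀ E : NumberFieldIn, E₀ ≤ E →
      LiftAtLevel A N E.1 (t : LaurentSeries Qbar) (s : LaurentSeries (ResidueField A))) :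
    ∀ c ∈ G.chartk s, ∃ b ∈ G.chart t, ∃ hb : b ∈ G.O, G.ρ ⟨b, hb⟩ = c := by
  intro c hc
  rcases eq_or_ne c 0 with rfl | hc0
  · exact ⟨0, zero_mem _, zero_mem _, map_zero G.ρ⟩
  obtain ⟨U, hU, hUint, hUc⟩ := lift_of_levels A N _ _ E₀ h c.2
    (isIntegral_coe_of_mem_chartk G hc)
  have hyk : coeffMap (residue A) U ∈ modularFunctionFieldFullC (ResidueField A) N := by
    rw [hUc]; exact c.2
  have hne : coeffMap (residue A) U ≠ 0 := by
    rw [hUc]
    exact fun h0 => hc0 (Subtype.ext h0)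
  obtain ⟨hO, hρ⟩ := hlink U hU hyk hne
  refine ⟨⟨coeffMap A.subtype U, hU⟩, mem_chart_of_isIntegral_coe G hUint, hO, ?_⟩
  rw [hρ]
  exact Subtype.ext hUc

/-- field `lift_fin` of `G.Good` from (H3) at all number-field levels -/
theorem lift_fin_of_levels (hlink : Link G) (E₀ : NumberFieldIn)
    (h : ∀ E : NumberFieldIn, E₀ ≤ E →
      LiftAtLevel A N E.1 (G.x : LaurentSeries Qbar) (G.xk : LaurentSeries (ResidueField A))) :
    ∀ c ∈ G.chartk G.xk, ∃ b ∈ G.chart G.x, ∃ hb : b ∈ G.O, G.ρ ⟨b, hb⟩ = c :=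
  lift_chart_of_levels G hlink G.x G.xk E₀ h

/-- field `lift_inf` of `G.Good` from (H3) at all number-field levels (chart at infinity) -/
theorem lift_inf_of_levels (hlink : Link G) (E₀ : NumberFieldIn)
    (h : ∀ E : NumberFieldIn, E₀ ≤ E →
      LiftAtLevel A N E.1 ((G.x : LaurentSeries Qbar))⁻¹
        ((G.xk : LaurentSeries (ResidueField A)))⁻¹) :
    ∀ c ∈ G.chartk G.xk⁻¹, ∃ b ∈ G.chart G.x⁻¹, ∃ hb : b ∈ G.O, G.ρ ⟨b, hb⟩ = c :=
  lift_chart_of_levels G hlink G.x⁻¹ G.xk⁻¹ E₀ (by simpa using h)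

end Datum

end Fermat.Agent.S37.Red.H759

end

end
-- ===== PACK-END S37/Red/H759/PassageDatum.lean

-- ===== PACK-BEGIN A2/H48/Qep2.lean
section


/-!
# A2 / piece QEP2, part 3 (helper48): the `q`-expansion principle for a two-component model

Mathlib-only.  `R` a factorial domain with prime element `ϖ` (in the application a discrete
valuation ring `A ∩ E`), `K = Frac R[X]` (`X ↦ j` or `X ↦ 1/j`), `F / K` finite of degree `n`,
`V₁ ≠ V₂` valuation rings of `F` which both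

* contain `R[X]`, have maximal ideal generated by `ϖ`,
* induce the Gauss valuation on `K` (a polynomial not divisible by `ϖ` is a unit),

together with families `b` in `V₁`, `c` in `V₂` with `f₁ + f₂ = n` members whose residues are
linearly independent over `(R/ϖ)[X]` (`GaussPair`).  Then

* `GaussPair.exists_monic_of_mem` : every element of `V₁ ∩ V₂` is integral over the Gauss
  ring `O = V₁ ∩ K` (no third extension of the Gauss valuation to `F`);
* `GaussPair.qep2` : **if `u` is integral over `R[X]` and `u/ϖ ∈ V₁ ∩ V₂` then `u/ϖ` is integral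
  over `R[X]`**, i.e. for the chart `B` = integral closure of `R[X]` in `F`:
  `B ∩ ϖ (V₁ ∩ V₂) = ϖ B`;
* `GaussPair.reduced` : `u` integral over `R[X]`, `u ^ k / ϖ` integral over `R[X]`, `k ≥ 1`
  `⟹ u/ϖ` integral over `R[X]` (the special fibre `B/ϖB` is reduced).
-/

set_option autoImplicit false
set_option linter.unusedSectionVars false

namespace Fermat.Agent.A2.H48

open Polynomial

variable {R : Type*} [CommRing R] [IsDomain R] [UniqueFactorizationMonoid R]
variable {K F : Type*} [Field K] [Field F] [Algebra R[X] K] [IsFractionRing R[X] K]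
  [Algebra K F] [Algebra R[X] F] [IsScalarTower R[X] K F]

/-- The hypotheses of the two-component `q`-expansion principle. -/
structure GaussPair (ϖ : R) (V₁ V₂ : ValuationSubring F)
    {f₁ f₂ : ℕ} (b : Fin f₁ → F) (c : Fin f₂ → F) : Prop where
  prime : Prime ϖ
  unif₁ : IsUnif V₁ (algebraMap R[X] F (C ϖ))
  unif₂ : IsUnif V₂ (algebraMap R[X] F (C ϖ))
  poly₁ : ∀ P : R[X], algebraMap R[X] F P ∈ V₁
  poly₂ : ∀ P : R[X], algebraMap R[X] F P ∈ V₂
  gauss₁ : ∀ P : R[X], ¬ C ϖ ∣ P → (algebraMap R[X] F P)⁻¹ ∈ V₁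
  gauss₂ : ∀ P : R[X], ¬ C ϖ ∣ P → (algebraMap R[X] F P)⁻¹ ∈ V₂
  ne : V₁ ≠ V₂
  b_mem : ∀ i, b i ∈ V₁
  c_mem : ∀ j, c j ∈ V₂
  b_indep : ∀ a : Fin f₁ → R[X],
    (∑ i, algebraMap R[X] F (a i) * b i) * (algebraMap R[X] F (C ϖ))⁻¹ ∈ V₁ → ∀ i, C ϖ ∣ a i
  c_indep : ∀ a : Fin f₂ → R[X],
    (∑ j, algebraMap R[X] F (a j) * c j) * (algebraMap R[X] F (C ϖ))⁻¹ ∈ V₂ → ∀ j, C ϖ ∣ a j
  card : f₁ + f₂ = Module.finrank K F

section GaussRing

variable (K)

/-- The Gauss ring `V ∩ K`. -/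
def gaussRing (V : ValuationSubring F) : ValuationSubring K := V.comap (algebraMap K F)

variable {K}

theorem mem_gaussRing {V : ValuationSubring F} {a : K} :
    a ∈ gaussRing K V ↔ algebraMap K F a ∈ V := ValuationSubring.mem_comap

variable {ϖ : R} {V : ValuationSubring F}

theorem prime_C (hϖ : Prime ϖ) : Prime (C ϖ : R[X]) := prime_C_iff.2 hϖ

theorem algebraMap_C_ne_zero (hϖ : Prime ϖ) : algebraMap R[X] K (C ϖ) ≠ 0 := by
  intro h
  have := (IsFractionRing.injective R[X] K) (h.trans (map_zero _).symm)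
  exact (prime_C hϖ).ne_zero this

theorem map_eq (P : R[X]) : algebraMap K F (algebraMap R[X] K P) = algebraMap R[X] F P :=
  (IsScalarTower.algebraMap_apply R[X] K F P).symm

/-- Elements of the form `P / Q`, `ϖ ∤ Q`, lie in the Gauss ring. -/
theorem div_mem_gaussRing (hpoly : ∀ P : R[X], algebraMap R[X] F P ∈ V)
    (hgauss : ∀ P : R[X], ¬ C ϖ ∣ P → (algebraMap R[X] F P)⁻¹ ∈ V)
    (P : R[X]) {Q : R[X]} (hQ : ¬ C ϖ ∣ Q) :
    algebraMap R[X] K P / algebraMap R[X] K Q ∈ gaussRing K V := by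
  rw [mem_gaussRing, map_div₀, map_eq, map_eq, div_eq_mul_inv]
  exact mul_mem (hpoly P) (hgauss Q hQ)

/-- Every element of the Gauss ring is of the form `P / Q` with `ϖ ∤ Q`. -/
theorem exists_div_of_mem_gaussRing (hϖ : Prime ϖ) (hunif : IsUnif V (algebraMap R[X] F (C ϖ)))
    (hpoly : ∀ P : R[X], algebraMap R[X] F P ∈ V)
    (hgauss : ∀ P : R[X], ¬ C ϖ ∣ P → (algebraMap R[X] F P)⁻¹ ∈ V)
    {a : K} (ha : a ∈ gaussRing K V) :
    ∃ P Q : R[X], ¬ C ϖ ∣ Q ∧ a = algebraMap R[X] K P / algebraMap R[X] K Q := by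
  obtain ⟨P, Q, hQ, rfl⟩ := IsFractionRing.div_surjective R[X] (K := K) a
  have hQ0 : Q ≠ 0 := nonZeroDivisors.ne_zero hQ
  by_cases hP0 : P = 0
  · refine ⟨0, 1, ?_, ?_⟩
    · intro h
      exact (prime_C hϖ).not_isUnit (isUnit_of_dvd_one h)
    · rw [hP0]; simp
  obtain ⟨k, Q', hQ', hQk⟩ := WfDvdMonoid.max_power_factor' hQ0 (prime_C hϖ).not_isUnit
  obtain ⟨j, P', hP', hPj⟩ := WfDvdMonoid.max_power_factor' hP0 (prime_C hϖ).not_isUnit
  have hϖK : algebraMap R[X] K (C ϖ) ≠ 0 := algebraMap_C_ne_zero hϖ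
  have hQ'0 : algebraMap R[X] K Q' ≠ 0 := by
    intro h
    have := (IsFractionRing.injective R[X] K) (h.trans (map_zero _).symm)
    rw [this] at hQ'
    exact hQ' (dvd_zero _)
  rcases le_or_gt k j with hkj | hkj
  · obtain ⟨r, rfl⟩ := Nat.exists_eq_add_of_le hkj
    refine ⟨C ϖ ^ r * P', Q', hQ', ?_⟩
    rw [hPj, hQk, map_mul, map_mul, map_mul, map_pow, map_pow, map_pow, pow_add]
    field_simp
  · exfalso
    obtain ⟨r, hr⟩ := Nat.exists_eq_add_of_lt hkj
    have hP'0 : algebraMap R[X] F P' ≠ 0 := by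
      intro h
      rw [← map_eq (K := K)] at h
      have h1 := (algebraMap K F).injective (h.trans (map_zero _).symm)
      have := (IsFractionRing.injective R[X] K) (h1.trans (map_zero _).symm)
      rw [this] at hP'
      exact hP' (dvd_zero _)
    have hπ0 : algebraMap R[X] F (C ϖ) ≠ 0 := hunif.ne_zero
    rw [mem_gaussRing, map_div₀, map_eq, map_eq] at ha
    apply hunif.inv_not_mem
    have hQ'F : algebraMap R[X] F Q' ≠ 0 := by
      rw [← map_eq (K := K)]
      exact (_root_.map_ne_zero _).2 hQ'0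
    have e : (algebraMap R[X] F (C ϖ))⁻¹ =
        (algebraMap R[X] F P / algebraMap R[X] F Q) *
          (algebraMap R[X] F (C ϖ ^ r * Q') * (algebraMap R[X] F P')⁻¹) := by
      rw [hPj, hQk, hr, map_mul, map_mul, map_mul, map_pow, map_pow, map_pow]
      field_simp
      ring
    rw [e]
    exact mul_mem ha (mul_mem (hpoly _) (hgauss P' hP'))

theorem isUnif_gaussRing (hunif : IsUnif V (algebraMap R[X] F (C ϖ))) :
    IsUnif (gaussRing K V) (algebraMap R[X] K (C ϖ)) where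
  mem := by rw [mem_gaussRing, map_eq]; exact hunif.mem
  inv_not_mem := by rw [mem_gaussRing, map_inv₀, map_eq]; exact hunif.inv_not_mem
  gen := by
    intro a ha hainv
    rw [mem_gaussRing] at ha hainv ⊢
    rw [map_inv₀] at hainv
    rw [map_mul, map_inv₀, map_eq]
    exact hunif.gen _ ha hainv

theorem arch_gaussRing (hϖ : Prime ϖ) (hpoly : ∀ P : R[X], algebraMap R[X] F P ∈ V)
    (hgauss : ∀ P : R[X], ¬ C ϖ ∣ P → (algebraMap R[X] F P)⁻¹ ∈ V) (a : K) :
    ∃ k : ℕ, algebraMap R[X] K (C ϖ) ^ k * a ∈ gaussRing K V := by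
  obtain ⟨P, Q, hQ, rfl⟩ := IsFractionRing.div_surjective R[X] (K := K) a
  have hQ0 : Q ≠ 0 := nonZeroDivisors.ne_zero hQ
  obtain ⟨k, Q', hQ', hQk⟩ := WfDvdMonoid.max_power_factor' hQ0 (prime_C hϖ).not_isUnit
  refine ⟨k, ?_⟩
  have hϖK : algebraMap R[X] K (C ϖ) ≠ 0 := algebraMap_C_ne_zero hϖ
  have hQ'0 : algebraMap R[X] K Q' ≠ 0 := by
    intro h
    have := (IsFractionRing.injective R[X] K) (h.trans (map_zero _).symm)
    rw [this] at hQ'
    exact hQ' (dvd_zero _)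
  have e : algebraMap R[X] K (C ϖ) ^ k * (algebraMap R[X] K P / algebraMap R[X] K Q) =
      algebraMap R[X] K P / algebraMap R[X] K Q' := by
    rw [hQk, map_mul, map_pow]
    field_simp
  rw [e]
  exact div_mem_gaussRing hpoly hgauss P hQ'

/-- **Gauss intersection**: `P / ϖ ^ k` in the Gauss ring forces `ϖ ^ k ∣ P` in `R[X]`. -/
theorem pow_dvd_of_mem_gaussRing (hunif : IsUnif V (algebraMap R[X] F (C ϖ)))
    (hgauss : ∀ P : R[X], ¬ C ϖ ∣ P → (algebraMap R[X] F P)⁻¹ ∈ V) :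
    ∀ (k : ℕ) (P : R[X]),
      algebraMap R[X] K P * ((algebraMap R[X] K (C ϖ))⁻¹) ^ k ∈ gaussRing K V → C ϖ ^ k ∣ P := by
  have hπ0 : algebraMap R[X] F (C ϖ) ≠ 0 := hunif.ne_zero
  have hϖK : algebraMap R[X] K (C ϖ) ≠ 0 := by
    intro h
    apply hπ0
    rw [← map_eq (K := K), h, map_zero]
  intro k
  induction k with
  | zero => intro P _; simp
  | succ k ih =>
      intro P hP
      have h1 : algebraMap R[X] K P * ((algebraMap R[X] K (C ϖ))⁻¹) ^ k ∈ gaussRing K V := by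
        have e : algebraMap R[X] K P * ((algebraMap R[X] K (C ϖ))⁻¹) ^ k =
            algebraMap R[X] K P * ((algebraMap R[X] K (C ϖ))⁻¹) ^ (k + 1) *
              algebraMap R[X] K (C ϖ) := by
          rw [pow_succ]; field_simp
        rw [e]
        exact mul_mem hP (isUnif_gaussRing hunif).mem
      obtain ⟨P₁, rfl⟩ := ih P h1
      by_cases hdvd : C ϖ ∣ P₁
      · obtain ⟨P₂, rfl⟩ := hdvd
        exact ⟨P₂, by rw [pow_succ]; ring⟩
      · exfalso
        apply hunif.inv_not_mem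
        have h2 := hgauss P₁ hdvd
        rw [mem_gaussRing] at hP
        have hP₁0 : algebraMap R[X] F P₁ ≠ 0 := by
          intro h
          rw [h, inv_zero] at h2
          have h3 : P₁ = 0 := by
            rw [← map_eq (K := K)] at h
            have h4 := (algebraMap K F).injective (h.trans (map_zero _).symm)
            exact (IsFractionRing.injective R[X] K) (h4.trans (map_zero _).symm)
          exact hdvd (h3 ▸ dvd_zero _)
        have e : (algebraMap R[X] F (C ϖ))⁻¹ =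
            algebraMap K F (algebraMap R[X] K (C ϖ ^ k * P₁) *
              ((algebraMap R[X] K (C ϖ))⁻¹) ^ (k + 1)) * (algebraMap R[X] F P₁)⁻¹ := by
          rw [map_mul, map_pow, map_inv₀, map_eq, map_eq, map_mul, map_pow, pow_succ, inv_pow]
          field_simp
        rw [e]
        exact mul_mem hP h2

end GaussRing

section Indep

variable {ϖ : R} {V : ValuationSubring F}

/-- Linear independence of residues over `(R/ϖ)[X]` implies linear independence over the residue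
field of the Gauss ring. -/
theorem indep_gaussRing (hϖ : Prime ϖ) (hunif : IsUnif V (algebraMap R[X] F (C ϖ)))
    (hpoly : ∀ P : R[X], algebraMap R[X] F P ∈ V)
    (hgauss : ∀ P : R[X], ¬ C ϖ ∣ P → (algebraMap R[X] F P)⁻¹ ∈ V)
    {f : ℕ} {b : Fin f → F}
    (hind : ∀ a : Fin f → R[X],
      (∑ i, algebraMap R[X] F (a i) * b i) * (algebraMap R[X] F (C ϖ))⁻¹ ∈ V → ∀ i, C ϖ ∣ a i)
    (a : Fin f → K) (ha : ∀ i, a i ∈ gaussRing K V)
    (hsum : (∑ i, algebraMap K F (a i) * b i) * (algebraMap K F (algebraMap R[X] K (C ϖ)))⁻¹ ∈ V)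
    (i : Fin f) : a i * (algebraMap R[X] K (C ϖ))⁻¹ ∈ gaussRing K V := by
  classical
  choose P Q hQ hPQ using fun i => exists_div_of_mem_gaussRing hϖ hunif hpoly hgauss (ha i)
  have hQ0 : ∀ i, algebraMap R[X] K (Q i) ≠ 0 := by
    intro i h
    have := (IsFractionRing.injective R[X] K) (h.trans (map_zero _).symm)
    exact hQ i (this ▸ dvd_zero _)
  set Qtot : R[X] := ∏ i, Q i with hQtot
  set a' : Fin f → R[X] := fun i => P i * ∏ i' ∈ Finset.univ.erase i, Q i' with ha'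
  have hmul : ∀ i, algebraMap R[X] K (a' i) = a i * algebraMap R[X] K Qtot := by
    intro i
    have h1 : Q i * ∏ i' ∈ Finset.univ.erase i, Q i' = Qtot :=
      Finset.mul_prod_erase _ _ (Finset.mem_univ i)
    rw [ha', ← h1, hPQ i, map_mul, map_mul]
    field_simp [hQ0 i]
  have hsum' : (∑ i, algebraMap R[X] F (a' i) * b i) * (algebraMap R[X] F (C ϖ))⁻¹ ∈ V := by
    have e : (∑ i, algebraMap R[X] F (a' i) * b i) * (algebraMap R[X] F (C ϖ))⁻¹ =
        algebraMap R[X] F Qtot *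
          ((∑ i, algebraMap K F (a i) * b i) *
            (algebraMap K F (algebraMap R[X] K (C ϖ)))⁻¹) := by
      rw [map_eq, ← mul_assoc, Finset.mul_sum]
      congr 1
      refine Finset.sum_congr rfl fun i _ => ?_
      rw [← map_eq (K := K) (a' i), hmul, map_mul, map_eq]
      ring
    rw [e]
    exact mul_mem (hpoly _) hsum
  have hdvd := hind a' hsum' i
  have hdvdP : C ϖ ∣ P i := by
    rcases (prime_C hϖ).dvd_or_dvd hdvd with h | h
    · exact h
    · exfalso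
      obtain ⟨i', -, hi'⟩ := ((prime_C hϖ).dvd_finsetProd_iff _).1 h
      exact hQ i' hi'
  obtain ⟨P', hP'⟩ := hdvdP
  have hϖK : algebraMap R[X] K (C ϖ) ≠ 0 := algebraMap_C_ne_zero hϖ
  have e : a i * (algebraMap R[X] K (C ϖ))⁻¹ =
      algebraMap R[X] K P' / algebraMap R[X] K (Q i) := by
    rw [hPQ i, hP', map_mul]
    field_simp [hQ0 i]
  rw [e]
  exact div_mem_gaussRing hpoly hgauss P' (hQ i)

end Indep

namespace GaussPair

variable {ϖ : R} {V₁ V₂ : ValuationSubring F} {f₁ f₂ : ℕ} {b : Fin f₁ → F} {c : Fin f₂ → F}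

theorem gaussRing_eq (h : GaussPair (K := K) ϖ V₁ V₂ b c) : gaussRing K V₁ = gaussRing K V₂ := by
  apply le_antisymm
  · intro a ha
    obtain ⟨P, Q, hQ, rfl⟩ := exists_div_of_mem_gaussRing h.prime h.unif₁ h.poly₁ h.gauss₁ ha
    exact div_mem_gaussRing h.poly₂ h.gauss₂ P hQ
  · intro a ha
    obtain ⟨P, Q, hQ, rfl⟩ := exists_div_of_mem_gaussRing h.prime h.unif₂ h.poly₂ h.gauss₂ ha
    exact div_mem_gaussRing h.poly₁ h.gauss₁ P hQ

/-- A `GaussPair` gives the data of the "no third extension" theorem over the Gauss ring. -/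
theorem twoExt (h : GaussPair (K := K) ϖ V₁ V₂ b c) :
    TwoExt (gaussRing K V₁) V₁ V₂ (algebraMap R[X] K (C ϖ)) b c where
  unifO := isUnif_gaussRing h.unif₁
  unif₁ := by rw [map_eq]; exact h.unif₁
  unif₂ := by rw [map_eq]; exact h.unif₂
  le₁ := fun a ha => mem_gaussRing.1 ha
  le₂ := fun a ha => mem_gaussRing.1 (h.gaussRing_eq ▸ ha)
  ne := h.ne
  arch := arch_gaussRing h.prime h.poly₁ h.gauss₁
  b_mem := h.b_mem
  c_mem := h.c_mem
  b_indep := fun a ha hsum i =>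
    indep_gaussRing h.prime h.unif₁ h.poly₁ h.gauss₁ h.b_indep a ha hsum i
  c_indep := fun a ha hsum j => by
    rw [h.gaussRing_eq]
    exact indep_gaussRing h.prime h.unif₂ h.poly₂ h.gauss₂ h.c_indep a
      (fun j => h.gaussRing_eq ▸ ha j) hsum j
  card := h.card

/-- **No third extension**: every element of `V₁ ∩ V₂` is integral over the Gauss ring. -/
theorem exists_monic_of_mem [FiniteDimensional K F] (h : GaussPair (K := K) ϖ V₁ V₂ b c)
    {u : F} (hu₁ : u ∈ V₁) (hu₂ : u ∈ V₂) :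
    ∃ p : K[X], p.Monic ∧ (∀ i, p.coeff i ∈ gaussRing K V₁) ∧ aeval u p = 0 :=
  h.twoExt.exists_monic_of_mem hu₁ hu₂

/-- Elements of `V₁ ∩ V₂` have their minimal polynomial over `K` with coefficients in the Gauss
ring. -/
theorem minpoly_coeff_mem [FiniteDimensional K F] (h : GaussPair (K := K) ϖ V₁ V₂ b c)
    {z : F} (hz₁ : z ∈ V₁) (hz₂ : z ∈ V₂) (i : ℕ) :
    (minpoly K z).coeff i ∈ gaussRing K V₁ := by
  classical
  obtain ⟨p, hp, hpc, hpz⟩ := h.exists_monic_of_mem hz₁ hz₂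
  let _ : Algebra (gaussRing K V₁) F :=
    ((algebraMap K F).comp (gaussRing K V₁).subtype).toAlgebra
  have : IsScalarTower (gaussRing K V₁) K F := IsScalarTower.of_algebraMap_eq (fun x => rfl)
  have hlift : p ∈ lifts (gaussRing K V₁).subtype := by
    rw [lifts_iff_coeff_lifts]
    intro n
    exact ⟨⟨p.coeff n, hpc n⟩, rfl⟩
  obtain ⟨q, hq, -, hqm⟩ := lifts_and_natDegree_eq_and_monic hlift hp
  have hzO : IsIntegral (gaussRing K V₁) z := by
    refine ⟨q, hqm, ?_⟩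
    have : eval₂ (algebraMap (gaussRing K V₁) F) z q =
        eval₂ (algebraMap K F) z (q.map (gaussRing K V₁).subtype) := by
      rw [eval₂_map]; rfl
    rw [this, hq, ← aeval_def]
    exact hpz
  have hμ := minpoly.isIntegrallyClosed_eq_field_fractions' K hzO
  rw [hμ, coeff_map]
  exact ((minpoly (gaussRing K V₁) z).coeff i).2

/-- **`q`-expansion principle for the two-component model.**  If `u` is integral over `R[X]`
and `u / ϖ` lies in both `V₁` and `V₂`, then `u / ϖ` is integral over `R[X]`. -/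
theorem qep2 [FiniteDimensional K F] (h : GaussPair (K := K) ϖ V₁ V₂ b c) {u : F}
    (hu : IsIntegral R[X] u)
    (h₁ : u * (algebraMap R[X] F (C ϖ))⁻¹ ∈ V₁) (h₂ : u * (algebraMap R[X] F (C ϖ))⁻¹ ∈ V₂) :
    IsIntegral R[X] (u * (algebraMap R[X] F (C ϖ))⁻¹) := by
  classical
  set ϖK := algebraMap R[X] K (C ϖ) with hϖKdef
  have hϖK : ϖK ≠ 0 := algebraMap_C_ne_zero h.prime
  set z := u * (algebraMap R[X] F (C ϖ))⁻¹ with hz
  have hz_eq : z = algebraMap K F ϖK⁻¹ * u := by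
    rw [hz, map_inv₀, map_eq, mul_comm]
  have hu_eq : u = algebraMap K F ϖK * z := by
    rw [hz_eq, ← mul_assoc, ← map_mul, mul_inv_cancel₀ hϖK, map_one, one_mul]
  have huK : IsIntegral K u := Algebra.IsIntegral.isIntegral u
  have hzK : IsIntegral K z := Algebra.IsIntegral.isIntegral z
  have hμu := minpoly.isIntegrallyClosed_eq_field_fractions' K hu
  have hscale : (minpoly K u).scaleRoots ϖK⁻¹ = minpoly K z := by
    apply minpoly.unique
    · exact (monic_scaleRoots_iff _).2 (minpoly.monic huK)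
    · rw [hz_eq]; exact scaleRoots_aeval_eq_zero (minpoly.aeval K u)
    · intro r hr hrz
      rw [degree_scaleRoots]
      have h3 : aeval u (r.scaleRoots ϖK) = 0 := by
        rw [hu_eq]; exact scaleRoots_aeval_eq_zero hrz
      calc (minpoly K u).degree ≤ (r.scaleRoots ϖK).degree :=
            minpoly.min K u ((monic_scaleRoots_iff _).2 hr) h3
        _ = r.degree := degree_scaleRoots _
  have hcoef : ∀ i, (minpoly K z).coeff i ∈ Set.range (algebraMap R[X] K) := by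
    intro i
    have h1 : (minpoly K z).coeff i ∈ gaussRing K V₁ := h.minpoly_coeff_mem h₁ h₂ i
    rw [← hscale, coeff_scaleRoots, hμu, coeff_map] at h1 ⊢
    obtain ⟨P', hP'⟩ := pow_dvd_of_mem_gaussRing h.unif₁ h.gauss₁ _ _ h1
    refine ⟨P', ?_⟩
    rw [hP', map_mul, map_pow, inv_pow, ← hϖKdef]
    field_simp
  obtain ⟨q, hq, -, hqm⟩ :=
    lifts_and_natDegree_eq_and_monic ((lifts_iff_coeff_lifts _).2 hcoef) (minpoly.monic hzK)
  refine ⟨q, hqm, ?_⟩
  have e : eval₂ (algebraMap R[X] F) z q = aeval z (q.map (algebraMap R[X] K)) := by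
    rw [aeval_def, eval₂_map, ← IsScalarTower.algebraMap_eq]
  rw [e, hq]
  exact minpoly.aeval K z

/-- **The special fibre is reduced.**  If `u` is integral over `R[X]` and `u ^ k / ϖ` is integral
over `R[X]` for some `k ≥ 1` then `u / ϖ` is integral over `R[X]`. -/
theorem reduced [FiniteDimensional K F] (h : GaussPair (K := K) ϖ V₁ V₂ b c) {u : F}
    (hu : IsIntegral R[X] u) {k : ℕ}
    (h₁ : u ^ k * (algebraMap R[X] F (C ϖ))⁻¹ ∈ V₁)
    (h₂ : u ^ k * (algebraMap R[X] F (C ϖ))⁻¹ ∈ V₂) :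
    IsIntegral R[X] (u * (algebraMap R[X] F (C ϖ))⁻¹) := by
  have key : ∀ (V : ValuationSubring F), IsUnif V (algebraMap R[X] F (C ϖ)) →
      u ^ k * (algebraMap R[X] F (C ϖ))⁻¹ ∈ V → u * (algebraMap R[X] F (C ϖ))⁻¹ ∈ V := by
    intro V hV hk
    rw [hV.mul_inv_mem_iff] at hk ⊢
    by_contra hcon
    have h1 : 1 ≤ V.valuation u := not_lt.1 hcon
    have h2 : 1 ≤ V.valuation (u ^ k) := by
      rw [map_pow]; exact one_le_pow₀ h1
    exact absurd hk (not_lt.2 h2)
  exact h.qep2 hu (key V₁ h.unif₁ h₁) (key V₂ h.unif₂ h₂)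

end GaussPair

end Fermat.Agent.A2.H48

end
-- ===== PACK-END A2/H48/Qep2.lean

-- ===== PACK-BEGIN Ribet/H704/I6Core.lean
section
/-
# RIBET row 38, WALL-p, crux (I6): SPEC v2 of the PERIOD package  (sub-architect helper704)

`I6Spec.lean` (v1, on main) froze the element forms of the leaves.  This file adds
* the FRACTION form of NODE (`NodeRelFracStatement`): the form the assembly consumes
  (`f'` is an element of the fraction field of the node ring, not of the ring);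
* the PROVED core bookkeeping `i6core`: sheets + shift + node relation
  ⇒ the slope vector of `f'` is proportional to the slope vector of the calibrating unit `D`.

Instantiation (who provides what):
* `ι`            : the nodes of the chart of `X₀(pM')` over the tame level `E₁ ∋ ζ_p`;
* for `e : ι`    : ONE point of the cover above `e`, its node ring `R'ₑ ⊆ F'` (WPUR + ETNODE),
                   `W₁ e`, `W₂ e` = the valuations of `F'` at the two branches of `R'ₑ`,
                   `S e` = slope along the branch `𝔭₂` (`SlopeAt`), `k e` = `ord₁ D` at `e`;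
* `hsheet`       : Galois is transitive on the valuations of `F'` above `v₁`, `v₂` (Mathlib);
* `hNR`          : `NodeRelFracStatement` in `R'ₑ`;
* `f'`, `c`, `G` : PER (`period_proved`), `c = u ^ p` with `p ∣ v(c)` (peu ramifié).
-/


set_option autoImplicit false

namespace Fermat.Agent.Ribet.H704.I6

open Ideal

section FracVocabulary

variable {R : Type*} [CommRing R] (K : Type*) [Field K] [Algebra R K]

/-- `u ∈ K = Frac R` has valuation `v` along the branch `𝔭` (uniformiser `π` of `R_𝔭`):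
`u · b = π ^ v · a` with `a, b ∈ R ∖ 𝔭`. -/
def ValAt (𝔭 : Ideal R) (π : R) (u : K) (v : ℤ) : Prop :=
  ∃ a b : R, a ∉ 𝔭 ∧ b ∉ 𝔭 ∧ u * algebraMap R K b = (algebraMap R K π) ^ v * algebraMap R K a

/-- `u ∈ K` has slope `s` along the branch `𝔭` at the closed point: after scaling by a power
of `π`, `u = a / b` with `a, b ∈ R ∖ 𝔭` and `s = ord(a mod 𝔭) - ord(b mod 𝔭)` (orders in the
discrete valuation ring `R ⧸ 𝔭` with uniformiser `y`). -/
def SlopeAt (𝔭 : Ideal R) (π y : R) (u : K) (s : ℤ) : Prop :=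
  ∃ (v : ℤ) (a b : R) (i j : ℕ), a ∉ 𝔭 ∧ b ∉ 𝔭 ∧
    u * algebraMap R K b = (algebraMap R K π) ^ v * algebraMap R K a ∧
    OrdOn 𝔭 y a i ∧ OrdOn 𝔭 y b j ∧ s = (i : ℤ) - (j : ℤ)

/-- `u ∈ K` is horizontally `m`-divisible: `u = a / b` with `a · b ^ (m - 1) = u · b ^ m`
horizontally `m`-divisible in `R`. -/
def HorDivFrac (π : R) (m : ℕ) (u : K) : Prop :=
  ∃ a b : R, b ≠ 0 ∧ u * algebraMap R K b = algebraMap R K a ∧ HorDiv π m (a * b ^ (m - 1))

end FracVocabulary

/-- **NODE, fraction form** (the form consumed by the assembly).  In a normal noetherian local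
node ring `R` with fraction field `K` and a unit pair `(D, D')` of exponent `N` prime to `m`:
for `u ∈ Kˣ` horizontally `m`-divisible, with valuations `v₁`, `v₂` along the two branches and
slope `s` along `𝔭₂`,
`N · s ≡ (v₁ - v₂) · ord₁(D)   (mod m)`. -/
def NodeRelFracStatement : Prop :=
  ∀ (R K : Type) [CommRing R] [IsDomain R] [IsIntegrallyClosed R] [IsNoetherianRing R]
    [IsLocalRing R] [Field K] [Algebra R K] [IsFractionRing R K]
    (𝔭₁ 𝔭₂ : Ideal R) (π x y : R), IsNode 𝔭₁ 𝔭₂ π x y →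
    ∀ (m N : ℕ), m ≠ 0 → Nat.Coprime N m → ∀ D D' : R, IsUnitPair 𝔭₁ 𝔭₂ π D D' N →
    ∀ (u : K), u ≠ 0 → HorDivFrac K π m u →
    ∀ (v₁ v₂ s : ℤ) (k : ℕ), ValAt K 𝔭₁ π u v₁ → ValAt K 𝔭₂ π u v₂ → SlopeAt K 𝔭₂ π y u s →
      OrdOn 𝔭₁ x D k → (m : ℤ) ∣ (N : ℤ) * s - (v₁ - v₂) * k

section Core

variable {F : Type*} [Field F]

/-- Iterating `τ f' = f' · c · G ^ p` with `τ c = c`. -/
theorem iterate_period (p : ℕ) (τ : F ≃+* F) (f' c G : F) (hτ : τ f' = f' * c * G ^ p)
    (hτc : τ c = c) (j : ℕ) : ∃ H : F, (τ ^ j) f' = f' * c ^ j * H ^ p ∧ (G ≠ 0 → H ≠ 0) := by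
  induction j with
  | zero => exact ⟨1, by simp, fun _ => one_ne_zero⟩
  | succ j ih =>
    obtain ⟨H, hH, hH0⟩ := ih
    refine ⟨G * τ H, ?_, fun hG => mul_ne_zero hG (by simpa using hH0 hG)⟩
    rw [pow_succ', RingAut.mul_apply, hH, map_mul, map_mul, map_pow, map_pow, hτ, hτc]
    ring

/-- An additive valuation on nonzero elements takes the value `n · W a` on `a ^ n`. -/
theorem val_pow (W : F → ℤ) (hW : ∀ a b : F, a ≠ 0 → b ≠ 0 → W (a * b) = W a + W b)
    (a : F) (ha : a ≠ 0) (n : ℕ) : W (a ^ n) = n * W a := by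
  have h1 : W (1 : F) = 0 := by
    have := hW 1 1 one_ne_zero one_ne_zero
    rw [one_mul] at this
    linarith
  induction n with
  | zero => simp [h1]
  | succ n ih =>
    rw [pow_succ, hW _ _ (pow_ne_zero _ ha) ha, ih]
    push_cast; ring

/-- **I6, core bookkeeping (PROVED).**  `W₁ e`, `W₂ e` the two branch valuations and `S e` the
slope at (a point of the cover above) the node `e`; all `W₁ e` are conjugate under powers of the
deck transformation `τ`, and so are all `W₂ e` (sheets); the node relation holds at every `e`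
with calibration `k e`; `τ f' = f' · c · G ^ p` with `c` a `τ`-fixed constant whose valuations
are divisible by `p` (peu ramifié).  Then the slopes of `f'` are proportional to the calibration:
`∃ δ, ∀ e, N · S e f' ≡ δ · k e (mod p)`. -/
theorem i6core (p N : ℕ) (τ : F ≃+* F) {ι : Type*} (W₁ W₂ S : ι → F → ℤ) (k : ι → ℤ)
    (Hor : ι → F → Prop)
    (hW₁ : ∀ e (a b : F), a ≠ 0 → b ≠ 0 → W₁ e (a * b) = W₁ e a + W₁ e b)
    (hW₂ : ∀ e (a b : F), a ≠ 0 → b ≠ 0 → W₂ e (a * b) = W₂ e a + W₂ e b)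
    (hsheet₁ : ∀ e e' : ι, ∃ j : ℕ, ∀ a : F, W₁ e' a = W₁ e ((τ ^ j) a))
    (hsheet₂ : ∀ e e' : ι, ∃ j : ℕ, ∀ a : F, W₂ e' a = W₂ e ((τ ^ j) a))
    (hNR : ∀ e (u : F), u ≠ 0 → Hor e u →
      (p : ℤ) ∣ (N : ℤ) * S e u - (W₁ e u - W₂ e u) * k e)
    (f' c G : F) (hf' : f' ≠ 0) (hc : c ≠ 0) (hG : G ≠ 0)
    (hτ : τ f' = f' * c * G ^ p) (hτc : τ c = c)
    (hpeu₁ : ∀ e, (p : ℤ) ∣ W₁ e c) (hpeu₂ : ∀ e, (p : ℤ) ∣ W₂ e c)
    (hHor : ∀ e, Hor e f') :
    ∃ δ : ℤ, ∀ e, (p : ℤ) ∣ (N : ℤ) * S e f' - δ * k e := by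
  classical
  -- valuations of `f'` do not depend on the sheet, modulo `p`
  have key : ∀ (W : F → ℤ), (∀ a b : F, a ≠ 0 → b ≠ 0 → W (a * b) = W a + W b) →
      (p : ℤ) ∣ W c → ∀ j : ℕ, (p : ℤ) ∣ W ((τ ^ j) f') - W f' := by
    intro W hW hpc j
    obtain ⟨H, hH, hH0⟩ := iterate_period p τ f' c G hτ hτc j
    have hH0' := hH0 hG
    rw [hH, hW _ _ (mul_ne_zero hf' (pow_ne_zero _ hc)) (pow_ne_zero _ hH0'),
      hW _ _ hf' (pow_ne_zero _ hc), val_pow W hW c hc, val_pow W hW H hH0']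
    obtain ⟨q, hq⟩ := hpc
    refine ⟨j * q + W H, ?_⟩
    rw [hq]; ring
  by_cases hι : Nonempty ι
  · obtain ⟨e₀⟩ := hι
    refine ⟨W₁ e₀ f' - W₂ e₀ f', fun e => ?_⟩
    obtain ⟨j₁, h₁⟩ := hsheet₁ e₀ e
    obtain ⟨j₂, h₂⟩ := hsheet₂ e₀ e
    have e1 : (p : ℤ) ∣ W₁ e f' - W₁ e₀ f' := by
      rw [h₁ f']; exact key (W₁ e₀) (hW₁ e₀) (hpeu₁ e₀) j₁
    have e2 : (p : ℤ) ∣ W₂ e f' - W₂ e₀ f' := by
      rw [h₂ f']; exact key (W₂ e₀) (hW₂ e₀) (hpeu₂ e₀) j₂
    have e3 := hNR e f' hf' (hHor e)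
    have : (N : ℤ) * S e f' - (W₁ e₀ f' - W₂ e₀ f') * k e
        = ((N : ℤ) * S e f' - (W₁ e f' - W₂ e f') * k e)
          + ((W₁ e f' - W₁ e₀ f') - (W₂ e f' - W₂ e₀ f')) * k e := by ring
    rw [this]
    exact dvd_add e3 (Dvd.dvd.mul_right (dvd_sub e1 e2) _)
  · exact ⟨0, fun e => absurd ⟨e⟩ hι⟩

end Core

end Fermat.Agent.Ribet.H704.I6

end
-- ===== PACK-END Ribet/H704/I6Core.lean

-- ===== PACK-BEGIN Ribet/H552/ASConst.lean
section





/-!
# RIBET wall-p, leaf W-ALGP / GLUE-p (helper552): a wild cyclic cover `K(u^{1/p})`,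
`u ≡ 1 mod λ ^ p w`, has no new constants over a Henselian base

`R` a Henselian discrete valuation ring with algebraically closed residue field, uniformiser `w`,
`E = Frac R` of characteristic zero, `ζ ∈ R` a primitive `p`-th root of unity, `λ = ζ - 1`
(in the application the residue characteristic is `p`, so `λ` is NOT a unit).

* `as_no_new_constants` : `K ⊇ R` a field with a valuation subring `V ⊇ R` with uniformiser
  `w` (in the application: the valuation ring of a component of the special fibre),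
  `Ω = K[z]`, `z ^ p = 1 + λ ^ p w t`, `t ∈ V`.  Then `E` is algebraically closed in `Ω`.
* `as_isIntegral_mem_range` : hence `R` is integrally closed in `Ω`.
* `hconstP_of_henselian` : constants do not grow in the residue fields of the algebra
  `F[X]/(X ^ p - u)`, `u = 1 + λ ^ p w t` — the wild form of `A2.H552.hconst_of_henselian`
  (hypothesis `hconst` of the route-S glue theorem).
-/

set_option autoImplicit false

namespace Fermat.Agent.Ribet.H552

open Polynomial IsLocalRing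
open Fermat.Agent.A2.H552 (mem_range_of_isAlgebraic_of_valuationSubring)

section Cover

variable {R E K Ω : Type*} [CommRing R] [IsDomain R] [IsDiscreteValuationRing R]
  [HenselianLocalRing R] [IsAlgClosed (ResidueField R)]
  [Field E] [CharZero E] [Algebra R E] [IsFractionRing R E]
  [Field K] [Algebra R K] [Field Ω] [Algebra K Ω] [Algebra E Ω] [Algebra R Ω]
  [IsScalarTower R E Ω] [IsScalarTower R K Ω]

/-- **COVER-CONST, wild form.**  A cover `Ω = K[z]`, `z ^ p = 1 + (ζ - 1) ^ p w t`, of a field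
`K` carrying an unramified discrete valuation ring `V ⊇ R` has no new constants: `E = Frac R` is
algebraically closed in `Ω`. -/
theorem as_no_new_constants (w : R) (hw : Irreducible w) (V : ValuationSubring K)
    (hRV : ∀ r : R, algebraMap R K r ∈ V)
    (hwV : (algebraMap R K w)⁻¹ ∉ V)
    (hVgen : ∀ a ∈ V, a⁻¹ ∉ V → a * (algebraMap R K w)⁻¹ ∈ V)
    (hdisc : ∀ c : K, ∃ k : ℕ, algebraMap R K w ^ k * c ∈ V)
    (p : ℕ) (hp : p.Prime) (ζ : R) (hζ : IsPrimitiveRoot ζ p)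
    (t : K) (ht : t ∈ V) (z : Ω)
    (hz : z ^ p = algebraMap K Ω (1 + algebraMap R K ((ζ - 1) ^ p * w) * t))
    (hgen : ∀ b : Ω, b ∈ Algebra.adjoin K ({z} : Set Ω))
    (y : Ω) (hy : IsAlgebraic E y) : y ∈ (algebraMap E Ω).range := by
  have hinjRE : Function.Injective (algebraMap R E) := IsFractionRing.injective R E
  have hinjRΩ : Function.Injective (algebraMap R Ω) := by
    rw [IsScalarTower.algebraMap_eq R E Ω]
    exact (algebraMap E Ω).injective.comp hinjRE
  have hinjRK : Function.Injective (algebraMap R K) := by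
    intro a b h
    apply hinjRΩ
    rw [IsScalarTower.algebraMap_apply R K Ω, IsScalarTower.algebraMap_apply R K Ω, h]
  have hwK0 : algebraMap R K w ≠ 0 := fun h => hw.ne_zero (hinjRK (by rw [h, map_zero]))
  have hζK : IsPrimitiveRoot (algebraMap R K ζ) p := hζ.map_of_injective hinjRK
  -- a valuation subring of `Ω` dominating `V`
  obtain ⟨W, hle, hloc⟩ := (LocalSubring.range
    ((algebraMap K Ω).comp V.subtype)).exists_le_valuationSubring
  have hVW : ∀ a ∈ V, algebraMap K Ω a ∈ W := fun a ha =>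
    hle ⟨⟨a, ha⟩, rfl⟩
  have hwW : (algebraMap K Ω (algebraMap R K w))⁻¹ ∉ W := by
    intro hmem
    set f := (algebraMap K Ω).comp V.subtype with hf
    have hwr : algebraMap K Ω (algebraMap R K w) ∈ (LocalSubring.range f).toSubring :=
      ⟨⟨algebraMap R K w, hRV w⟩, rfl⟩
    have hu : IsUnit (Subring.inclusion hle ⟨_, hwr⟩) := by
      refine IsUnit.of_mul_eq_one ⟨(algebraMap K Ω (algebraMap R K w))⁻¹, hmem⟩
        (Subtype.ext ?_)
      change algebraMap K Ω (algebraMap R K w) * (algebraMap K Ω (algebraMap R K w))⁻¹ = 1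
      exact mul_inv_cancel₀ (fun h => hwK0 ((algebraMap K Ω).injective (by rw [h, map_zero])))
    have hu' := hloc.map_nonunit _ hu
    obtain ⟨c, hc⟩ := hu'.exists_right_inv
    obtain ⟨⟨b, hb⟩, hbc⟩ := c.2
    have h1 : algebraMap K Ω (algebraMap R K w) * algebraMap K Ω b = 1 := by
      have := congrArg Subtype.val hc
      simp only [Subring.coe_mul, Subring.coe_one] at this
      rw [← this, ← hbc]
      rfl
    have h2 : algebraMap R K w * b = 1 := by
      apply (algebraMap K Ω).injective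
      rw [map_mul, h1, map_one]
    apply hwV
    rw [inv_eq_of_mul_eq_one_right h2]
    exact hb
  have hz' : z ^ p = algebraMap K Ω (1 + (algebraMap R K ζ - 1) ^ p * algebraMap R K w * t) := by
    rw [hz, map_mul, map_pow, map_sub, map_one]
  have hunr := (as_unramified V W hVW (algebraMap R K w) (hRV w) hwK0 hwW hVgen hdisc p hp
    (algebraMap R K ζ) hζK t ht z hz' hgen).1
  have hRW : ∀ r : R, algebraMap R Ω r ∈ W := fun r => by
    rw [IsScalarTower.algebraMap_apply R K Ω]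
    exact hVW _ (hRV r)
  rw [← IsScalarTower.algebraMap_apply R K Ω] at hwW hunr
  exact mem_range_of_isAlgebraic_of_valuationSubring w hw W hRW hwW hunr y hy

variable (E) in
include E in
/-- **COVER-CONST, wild integral form**: `R` is integrally closed in the cover `Ω`. -/
theorem as_isIntegral_mem_range (w : R) (hw : Irreducible w) (V : ValuationSubring K)
    (hRV : ∀ r : R, algebraMap R K r ∈ V)
    (hwV : (algebraMap R K w)⁻¹ ∉ V)
    (hVgen : ∀ a ∈ V, a⁻¹ ∉ V → a * (algebraMap R K w)⁻¹ ∈ V)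
    (hdisc : ∀ c : K, ∃ k : ℕ, algebraMap R K w ^ k * c ∈ V)
    (p : ℕ) (hp : p.Prime) (ζ : R) (hζ : IsPrimitiveRoot ζ p)
    (t : K) (ht : t ∈ V) (z : Ω)
    (hz : z ^ p = algebraMap K Ω (1 + algebraMap R K ((ζ - 1) ^ p * w) * t))
    (hgen : ∀ b : Ω, b ∈ Algebra.adjoin K ({z} : Set Ω))
    (y : Ω) (hy : IsIntegral R y) : y ∈ Set.range (algebraMap R Ω) := by
  have hyalg : IsAlgebraic E y :=
    (IsFractionRing.isAlgebraic_iff R E Ω).mp hy.isAlgebraic
  obtain ⟨e, rfl⟩ := as_no_new_constants (E := E) w hw V hRV hwV hVgen hdisc p hp ζ hζ t ht z hz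
    hgen y hyalg
  have he : IsIntegral R e :=
    (isIntegral_algebraMap_iff (algebraMap E Ω).injective).mp hy
  obtain ⟨r, rfl⟩ := (IsIntegrallyClosed.isIntegral_iff (R := R) (K := E)).mp he
  exact ⟨r, IsScalarTower.algebraMap_apply R E Ω r⟩

end Cover

section HConst

variable {R E F : Type*} [CommRing R] [IsDomain R] [IsDiscreteValuationRing R]
  [HenselianLocalRing R] [IsAlgClosed (ResidueField R)]
  [Field E] [CharZero E] [Algebra R E] [IsFractionRing R E]
  [Field F] [Algebra R F] [Algebra E F] [IsScalarTower R E F]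

variable (E) in
include E in
/-- **`hconst` over a Henselian base, wild form.** -/
theorem hconstP_of_henselian (w : R) (hw : Irreducible w) (V : ValuationSubring F)
    (hRV : ∀ r : R, algebraMap R F r ∈ V)
    (hwV : (algebraMap R F w)⁻¹ ∉ V)
    (hVgen : ∀ a ∈ V, a⁻¹ ∉ V → a * (algebraMap R F w)⁻¹ ∈ V)
    (hdisc : ∀ c : F, ∃ k : ℕ, algebraMap R F w ^ k * c ∈ V)
    (p : ℕ) (hp : p.Prime) (ζ : R) (hζ : IsPrimitiveRoot ζ p)
    (t : F) (ht : t ∈ V) (u : F) (hu : u = 1 + algebraMap R F ((ζ - 1) ^ p * w) * t) :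
    ∀ 𝔫 : Ideal (AdjoinRoot (X ^ p - C u)), 𝔫.IsMaximal →
      ∀ y : AdjoinRoot (X ^ p - C u) ⧸ 𝔫, IsIntegral R y →
        y ∈ Set.range (algebraMap R (AdjoinRoot (X ^ p - C u) ⧸ 𝔫)) := by
  intro 𝔫 h𝔫 y hy
  let _ : Field (AdjoinRoot (X ^ p - C u) ⧸ 𝔫) := Ideal.Quotient.field 𝔫
  have : IsScalarTower R E (AdjoinRoot (X ^ p - C u) ⧸ 𝔫) :=
    IsScalarTower.of_algebraMap_eq fun r => by
      change Ideal.Quotient.mk 𝔫 (AdjoinRoot.of _ (algebraMap R F r)) =
        Ideal.Quotient.mk 𝔫 (AdjoinRoot.of _ (algebraMap E F (algebraMap R E r)))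
      rw [← IsScalarTower.algebraMap_apply R E F]
  have : IsScalarTower R F (AdjoinRoot (X ^ p - C u) ⧸ 𝔫) :=
    IsScalarTower.of_algebraMap_eq fun r => rfl
  set z : AdjoinRoot (X ^ p - C u) ⧸ 𝔫 := Ideal.Quotient.mk 𝔫 (AdjoinRoot.root _) with hzdef
  have hz : z ^ p = algebraMap F (AdjoinRoot (X ^ p - C u) ⧸ 𝔫)
      (1 + algebraMap R F ((ζ - 1) ^ p * w) * t) := by
    rw [← hu]
    have h := AdjoinRoot.eval₂_root (X ^ p - C u : F[X])
    rw [eval₂_sub, eval₂_pow, eval₂_X, eval₂_C, sub_eq_zero] at h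
    rw [hzdef, ← map_pow, h]
    rfl
  have hgen : ∀ b : AdjoinRoot (X ^ p - C u) ⧸ 𝔫,
      b ∈ Algebra.adjoin F ({z} : Set (AdjoinRoot (X ^ p - C u) ⧸ 𝔫)) := by
    intro b
    obtain ⟨a, rfl⟩ := Ideal.Quotient.mk_surjective b
    have ha : a ∈ Algebra.adjoin F ({AdjoinRoot.root (X ^ p - C u)} : Set (AdjoinRoot _)) := by
      rw [AdjoinRoot.adjoinRoot_eq_top]
      exact Algebra.mem_top
    have := Algebra.adjoin_image F (Ideal.Quotient.mkₐ F 𝔫)
      ({AdjoinRoot.root (X ^ p - C u)} : Set (AdjoinRoot _))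
    rw [Set.image_singleton] at this
    rw [hzdef]
    change Ideal.Quotient.mkₐ F 𝔫 a ∈ Algebra.adjoin F {Ideal.Quotient.mkₐ F 𝔫 (AdjoinRoot.root _)}
    rw [this]
    exact ⟨a, ha, rfl⟩
  exact as_isIntegral_mem_range E w hw V hRV hwV hVgen hdisc p hp ζ hζ t ht z hz hgen y hy

end HConst

end Fermat.Agent.Ribet.H552

end
-- ===== PACK-END Ribet/H552/ASConst.lean

-- ===== PACK-BEGIN A2/H373/Split.lean
section



/-!
# A2 / route G, obligations C2 (COVER-SPLIT) and C5 (TRIV)   (helper373)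

Mathlib-only.  Setting (`KummerSplit V w m ζ y g c`):

* `F ⊆ L` fields, `V` a discrete valuation subring of `F` with uniformiser `w` (`IsUnif V w`);
* `m` a unit of `V`, `ζ ∈ F` a primitive `m`-th root of unity;
* `L = F[y_i : i ∈ κ]`, `y_i ^ m = g_i ∈ Vˣ`, and `g_i ≡ c_i ^ m mod 𝔪_V` (`c_i ∈ V`):
  the residues of the `g_i` are `m`-th powers.

Results, for every valuation subring `W` of `L` with `W ∩ F = V` (`Over V W`):

* `KummerSplit.exists_type`   : `y_i ≡ c_i ζ^{a_i} mod 𝔪_W` for some `a_i < m` (the *type* of `W`);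
* `KummerSplit.eq_of_type`    : `W` is DETERMINED by its type;
* `KummerSplit.finite`        : for finite `κ` there are finitely many `W` over `V`;
* `KummerSplit.residue`       : `W = V + 𝔪_W`                 (`f = 1`);
* `KummerSplit.residue_pow`   : `W = V + wⁿ W` for all `n`;
* `KummerSplit.unramified`    : `𝔪_W = w W`                   (`e = 1`);
* `KummerSplit.free`          : `σ ∈ Aut(L/F)`, `σ 𝔪_W ⊆ 𝔪_W` ⟹ `σ = 1`   (`hfree` of `H12.wallG`);
* `KummerSplit.triv`          : `τ̃ ∈ Aut(L)`, `τ̃ 𝔪_W ⊆ 𝔪_W`, `τ̃ ≡ id` on `V` mod `𝔪_W`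
                                 ⟹ `τ̃ b ≡ b mod 𝔪_W` for all `b ∈ W`       (`h_triv`, C5).
-/

set_option autoImplicit false

namespace Fermat.Agent.A2.H373

variable {F L : Type*} [Field F] [Field L] [Algebra F L]

local notation "ι" => algebraMap F L

theorem Over.val_lt_one_iff {V : ValuationSubring F} {W : ValuationSubring L} (h : Over V W)
    (a : F) : W.valuation (ι a) < 1 ↔ V.valuation a < 1 := by
  by_cases ha : a = 0
  · simp [ha]
  have hW0 : 0 < W.valuation (ι a) := zero_lt_iff.2 (h.val_ne_zero ha)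
  have hV0 : 0 < V.valuation a := zero_lt_iff.2 ((Valuation.ne_zero_iff _).2 ha)
  have e1 : W.valuation (ι a) < 1 ↔ ¬ ι a⁻¹ ∈ W := by
    rw [← ValuationSubring.valuation_le_one_iff, map_inv₀, map_inv₀, inv_le_one₀ hW0, not_le]
  have e2 : V.valuation a < 1 ↔ ¬ a⁻¹ ∈ V := by
    rw [← ValuationSubring.valuation_le_one_iff, map_inv₀, inv_le_one₀ hV0, not_le]
  rw [e1, e2, h a⁻¹]

/-- Hypotheses of COVER-SPLIT. -/
structure KummerSplit (V : ValuationSubring F) (w : F) (m : ℕ) (ζ : F) {κ : Type*}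
    (y : κ → L) (g c : κ → F) : Prop where
  unif : IsUnif V w
  m_ne : (m : F) ≠ 0
  m_inv : (m : F)⁻¹ ∈ V
  prim : IsPrimitiveRoot ζ m
  pow : ∀ i, y i ^ m = algebraMap F L (g i)
  g_ne : ∀ i, g i ≠ 0
  g_mem : ∀ i, g i ∈ V
  g_inv : ∀ i, (g i)⁻¹ ∈ V
  c_mem : ∀ i, c i ∈ V
  cong : ∀ i, V.valuation (g i - c i ^ m) < 1
  gen : Algebra.adjoin F (Set.range y) = ⊤

namespace KummerSplit

variable {V : ValuationSubring F} {w : F} {m : ℕ} {ζ : F} {κ : Type*}
  {y : κ → L} {g c : κ → F}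

section Base

variable (S : KummerSplit V w m ζ y g c)
include S

theorem m_ne_zero : m ≠ 0 := by
  rintro rfl
  exact S.m_ne (by simp)

theorem m_pos : 0 < m := Nat.pos_of_ne_zero S.m_ne_zero

theorem val_g (i : κ) : V.valuation (g i) = 1 := by
  have h1 : V.valuation (g i) ≤ 1 := (ValuationSubring.valuation_le_one_iff _ _).2 (S.g_mem i)
  have h2 : V.valuation (g i)⁻¹ ≤ 1 := (ValuationSubring.valuation_le_one_iff _ _).2 (S.g_inv i)
  rw [map_inv₀] at h2
  have hpos : 0 < V.valuation (g i) := zero_lt_iff.2 ((Valuation.ne_zero_iff _).2 (S.g_ne i))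
  exact le_antisymm h1 ((inv_le_one₀ hpos).1 h2)

theorem val_c (i : κ) : V.valuation (c i) = 1 := by
  have h1 : V.valuation (c i ^ m) = 1 := by
    have e : c i ^ m = g i + -(g i - c i ^ m) := by ring
    rw [e, Valuation.map_add_eq_of_lt_left, S.val_g]
    rw [Valuation.map_neg, S.val_g]
    exact S.cong i
  rw [map_pow] at h1
  exact (pow_eq_one_iff_of_nonneg zero_le S.m_ne_zero).1 h1

theorem val_zeta : V.valuation ζ = 1 := by
  have h1 : V.valuation (ζ ^ m) = 1 := by rw [S.prim.pow_eq_one, map_one]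
  rw [map_pow] at h1
  exact (pow_eq_one_iff_of_nonneg zero_le S.m_ne_zero).1 h1

/-- the constants `d = c_i ζ^a` -/
theorem val_d (i : κ) (a : ℕ) : V.valuation (c i * ζ ^ a) = 1 := by
  rw [map_mul, map_pow, S.val_c, S.val_zeta, one_pow, one_mul]

theorem d_ne_zero (i : κ) (a : ℕ) : c i * ζ ^ a ≠ 0 := by
  intro h
  have := S.val_d i a
  rw [h, map_zero] at this
  exact zero_ne_one this

theorem d_mem (i : κ) (a : ℕ) : c i * ζ ^ a ∈ V := by
  rw [← ValuationSubring.valuation_le_one_iff, S.val_d]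

theorem d_inv_mem (i : κ) (a : ℕ) : (c i * ζ ^ a)⁻¹ ∈ V := by
  rw [← ValuationSubring.valuation_le_one_iff, map_inv₀, S.val_d, inv_one]

theorem d_pow (i : κ) (a : ℕ) : (c i * ζ ^ a) ^ m = c i ^ m := by
  rw [mul_pow, ← pow_mul, mul_comm a m, pow_mul, S.prim.pow_eq_one, one_pow, mul_one]

theorem y_ne_zero (i : κ) : y i ≠ 0 := by
  intro h
  have := S.pow i
  rw [h, zero_pow S.m_ne_zero] at this
  exact S.g_ne i ((map_eq_zero _).1 this.symm)

variable {W : ValuationSubring L} (hW : Over V W)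
include hW

theorem valW_d (i : κ) (a : ℕ) : W.valuation (ι (c i * ζ ^ a)) = 1 :=
  hW.val_eq_one (S.d_ne_zero i a) (S.d_mem i a) (S.d_inv_mem i a)

/-- **The type of `W`.** -/
theorem exists_type (i : κ) : ∃ a < m, W.valuation (y i - ι (c i * ζ ^ a)) < 1 := by
  have : NeZero m := ⟨S.m_ne_zero⟩
  have hζL : IsPrimitiveRoot (ι ζ) m := S.prim.map_of_injective (algebraMap F L).injective
  have hc0 : ι (c i) ≠ 0 := by
    have := S.d_ne_zero i 0
    rw [pow_zero, mul_one] at this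
    exact (map_ne_zero _).2 this
  have hvc : W.valuation (ι (c i)) = 1 := by
    have := S.valW_d hW i 0
    rwa [pow_zero, mul_one] at this
  set u : L := y i * (ι (c i))⁻¹ with hu
  have hum : u ^ m - 1 ^ m = ι (g i - c i ^ m) * (ι (c i) ^ m)⁻¹ := by
    rw [hu, mul_pow, S.pow i, one_pow, map_sub, map_pow, inv_pow]
    field_simp
  have hlt : W.valuation (u ^ m - 1 ^ m) < 1 := by
    rw [hum, map_mul, map_inv₀, map_pow, hvc, one_pow, inv_one, mul_one]
    exact (hW.val_lt_one_iff _).2 (S.cong i)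
  rw [IsPrimitiveRoot.pow_sub_pow_eq_prod_sub_mul u 1 S.m_pos hζL, map_prod] at hlt
  have hex : ∃ ξ ∈ Polynomial.nthRootsFinset m (1 : L), W.valuation (u - ξ * 1) < 1 := by
    by_contra hcon
    push Not at hcon
    exact absurd hlt (not_lt.2 (Finset.one_le_prod' hcon))
  obtain ⟨ξ, hξ, hξlt⟩ := hex
  rw [Polynomial.mem_nthRootsFinset S.m_pos] at hξ
  obtain ⟨a, ha, rfl⟩ := hζL.eq_pow_of_pow_eq_one hξ
  refine ⟨a, ha, ?_⟩
  have e : y i - ι (c i * ζ ^ a) = ι (c i) * (u - ι ζ ^ a * 1) := by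
    rw [hu, map_mul, map_pow]
    field_simp
  rw [e, map_mul, hvc, one_mul]
  exact hξlt

end Base

section Norm

variable (S : KummerSplit V w m ζ y g c) (a : κ → ℕ)

/-- the normalised generators attached to a type `a` -/
def normGen (_S : KummerSplit V w m ζ y g c) (a : κ → ℕ) (i : κ) : L :=
  y i * (ι (c i * ζ ^ a i))⁻¹

theorem normGen_pow (i : κ) :
    ∃ h : F, S.normGen a i ^ m = ι h := by
  refine ⟨g i * ((c i * ζ ^ a i) ^ m)⁻¹, ?_⟩
  rw [normGen, mul_pow, S.pow i, inv_pow, ← map_pow, ← map_inv₀, ← map_mul]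

theorem normGen_gen : Algebra.adjoin F (Set.range (S.normGen a)) = ⊤ := by
  rw [eq_top_iff, ← S.gen]
  refine Algebra.adjoin_le ?_
  rintro _ ⟨i, rfl⟩
  have hd : ι (c i * ζ ^ a i) ≠ 0 := (map_ne_zero _).2 (S.d_ne_zero i (a i))
  have e : y i = (c i * ζ ^ a i) • S.normGen a i := by
    rw [Algebra.smul_def, normGen]
    field_simp
  rw [e]
  exact Subalgebra.smul_mem _ (Algebra.subset_adjoin (Set.mem_range_self i)) _

theorem normGen_val {W : ValuationSubring L} (hW : Over V W)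
    (ha : ∀ i, W.valuation (y i - ι (c i * ζ ^ a i)) < 1) (i : κ) :
    W.valuation (S.normGen a i - 1) < 1 := by
  have hd : ι (c i * ζ ^ a i) ≠ 0 := (map_ne_zero _).2 (S.d_ne_zero i (a i))
  have e : S.normGen a i - 1 = (y i - ι (c i * ζ ^ a i)) * (ι (c i * ζ ^ a i))⁻¹ := by
    rw [normGen]
    field_simp
  rw [e, map_mul, map_inv₀, S.valW_d hW, inv_one, mul_one]
  exact ha i

end Norm

section Main

variable (S : KummerSplit V w m ζ y g c)
include S

/-- **`W` is determined by its type.** -/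
theorem eq_of_type {W₁ W₂ : ValuationSubring L} (h₁ : Over V W₁) (h₂ : Over V W₂)
    (a : κ → ℕ) (ha₁ : ∀ i, W₁.valuation (y i - ι (c i * ζ ^ a i)) < 1)
    (ha₂ : ∀ i, W₂.valuation (y i - ι (c i * ζ ^ a i)) < 1) : W₁ = W₂ :=
  eq_of_normalized S.unif S.m_ne S.m_inv (S.normGen a) (S.normGen_pow a) (S.normGen_gen a)
    h₁ h₂ (S.normGen_val a h₁ ha₁) (S.normGen_val a h₂ ha₂)

variable {W : ValuationSubring L} (hW : Over V W)
include hW

/-- **Residue degree one** (strong form): `W = V + wⁿ W`. -/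
theorem residue_pow {b : L} (hb : b ∈ W) (n : ℕ) :
    ∃ a ∈ V, W.valuation (b - ι a) ≤ W.valuation (ι w) ^ n := by
  choose a _ ha using fun i => S.exists_type hW i
  exact exists_sub_val_le_of_normalized S.unif S.m_ne S.m_inv (S.normGen a) (S.normGen_pow a)
    (S.normGen_gen a) hW (S.normGen_val a hW ha) hb n

/-- **Residue degree one**: `W = V + 𝔪_W`. -/
theorem residue {b : L} (hb : b ∈ W) : ∃ a ∈ V, W.valuation (b - ι a) < 1 := by
  choose a _ ha using fun i => S.exists_type hW i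
  exact exists_sub_val_lt_of_normalized S.unif S.m_ne S.m_inv (S.normGen a) (S.normGen_pow a)
    (S.normGen_gen a) hW (S.normGen_val a hW ha) hb

/-- **Ramification index one**: `𝔪_W = w W` (valuation form). -/
theorem val_le_w {b : L} (hb : W.valuation b < 1) : W.valuation b ≤ W.valuation (ι w) := by
  choose a _ ha using fun i => S.exists_type hW i
  exact val_le_w_of_normalized S.unif S.m_ne S.m_inv (S.normGen a) (S.normGen_pow a)
    (S.normGen_gen a) hW (S.normGen_val a hW ha) hb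

/-- **Ramification index one**: `𝔪_W = w W`. -/
theorem unramified {b : L} (hb : W.valuation b < 1) : b * (ι w)⁻¹ ∈ W := by
  rw [← ValuationSubring.valuation_le_one_iff, map_mul, map_inv₀,
    mul_inv_le_iff₀ (hW.val_w_pos S.unif), one_mul]
  exact S.val_le_w hW hb

/-- **Free action** (`hfree` of `H12.wallG`): an `F`-automorphism of `L` mapping `𝔪_W` into
itself is the identity. -/
theorem free (σ : L ≃ₐ[F] L) (hσ : ∀ b, W.valuation b < 1 → W.valuation (σ b) < 1) :
    σ = AlgEquiv.refl := by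
  choose a _ ha using fun i => S.exists_type hW i
  have hfix : ∀ i, σ (y i) = y i := by
    intro i
    have hy' := S.normGen_val a hW ha i
    have hy'1 : W.valuation (S.normGen a i) = 1 := val_eq_one_of_sub_one hy'
    have hσy' : W.valuation (σ (S.normGen a i) - 1) < 1 := by
      have := hσ _ hy'
      rwa [map_sub, map_one] at this
    have hy0 : y i ≠ 0 := S.y_ne_zero i
    have hd : ι (c i * ζ ^ a i) ≠ 0 := (map_ne_zero _).2 (S.d_ne_zero i (a i))
    have hn0 : S.normGen a i ≠ 0 := by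
      rw [normGen]
      exact mul_ne_zero hy0 (inv_ne_zero hd)
    set ξ : L := σ (y i) * (y i)⁻¹ with hξ
    have hξm : ξ ^ m = 1 := by
      rw [hξ, mul_pow, ← map_pow, S.pow i, AlgEquiv.commutes, inv_pow, ← S.pow i]
      exact mul_inv_cancel₀ (pow_ne_zero _ hy0)
    have hξ' : ξ = σ (S.normGen a i) * (S.normGen a i)⁻¹ := by
      rw [hξ, normGen, map_mul, map_inv₀, AlgEquiv.commutes]
      field_simp
    have hξ1 : W.valuation (ξ - 1) < 1 := by
      have e : ξ - 1 = ((σ (S.normGen a i) - 1) + -(S.normGen a i - 1)) * (S.normGen a i)⁻¹ := by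
        rw [hξ']
        field_simp
        ring
      rw [e, map_mul, map_inv₀, hy'1, inv_one, mul_one]
      refine Valuation.map_add_lt _ hσy' ?_
      rw [Valuation.map_neg]
      exact hy'
    have h1 := hW.eq_one_of_pow_eq_one S.m_ne S.m_inv hξm hξ1
    rw [hξ] at h1
    have := congrArg (· * y i) h1
    simpa [hy0] using this
  have h2 : (σ : L →ₐ[F] L) = AlgHom.id F L := by
    refine AlgHom.ext_of_adjoin_eq_top S.gen ?_
    rintro _ ⟨i, rfl⟩
    exact hfix i
  ext b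
  exact congrArg (fun φ : L →ₐ[F] L => φ b) h2

/-- **C5 (TRIV).**  A ring automorphism `τ̃` of `L` which maps `𝔪_W` into itself and is trivial
modulo `𝔪_W` on `V` is trivial modulo `𝔪_W` on `W`. -/
theorem triv (τ : L ≃+* L) (hτ : ∀ b, W.valuation b < 1 → W.valuation (τ b) < 1)
    (hτV : ∀ a ∈ V, W.valuation (τ (ι a) - ι a) < 1) {b : L} (hb : b ∈ W) :
    W.valuation (τ b - b) < 1 := by
  obtain ⟨a, ha, h⟩ := S.residue hW hb
  have e : τ b - b = (τ (b - ι a) + -(b - ι a)) + (τ (ι a) - ι a) := by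
    rw [map_sub]; ring
  rw [e]
  refine Valuation.map_add_lt _ (Valuation.map_add_lt _ (hτ _ h) ?_) (hτV a ha)
  rw [Valuation.map_neg]
  exact h

end Main

section Finite

variable (S : KummerSplit V w m ζ y g c)
include S

/-- **Finitely many sheets.** -/
theorem finite [Finite κ] : {W : ValuationSubring L | Over V W}.Finite := by
  classical
  have hex : ∀ W : {W : ValuationSubring L | Over V W}, ∀ i : κ,
      ∃ a : Fin m, (W : ValuationSubring L).valuation (y i - ι (c i * ζ ^ (a : ℕ))) < 1 := by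
    intro W i
    obtain ⟨a, ha, h⟩ := S.exists_type W.2 i
    exact ⟨⟨a, ha⟩, h⟩
  choose t ht using hex
  have hinj : Function.Injective t := by
    intro W₁ W₂ h12
    apply Subtype.ext
    refine S.eq_of_type W₁.2 W₂.2 (fun i => (t W₁ i : ℕ)) (ht W₁) ?_
    intro i
    rw [h12]
    exact ht W₂ i
  exact Set.finite_coe_iff.1 (Finite.of_injective t hinj)

end Finite

end KummerSplit

end Fermat.Agent.A2.H373

end
-- ===== PACK-END A2/H373/Split.lean

-- ===== PACK-BEGIN Ribet/H67/UnitEisCore.lean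
section
/-
RIBET / W-EIS leaf UNIT-EIS (helper67), part 1: formal power-series core.

For a domain `K` with a primitive `ℓ`-th root of unity `ζ` (`ℓ` prime) and the Euler product
`E = ∏ (1 - Xⁿ)`:
  `E(X^{ℓ²}) · ∏_{b<ℓ} E(ζ^b X) = E(X^ℓ)^{ℓ+1}`,
and the same for `E(X^a)` with `ℓ ∤ a`.  The proof is by truncation modulo `X^M`.
-/




set_option autoImplicit false

noncomputable section

namespace Fermat.Agent.Ribet.H67

open PowerSeries

variable {K : Type*} [CommRing K]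

/-- Reduction modulo `X^M`. -/
abbrev qM (K : Type*) [CommRing K] (M : ℕ) :
    K⟦X⟧ →+* K⟦X⟧ ⧸ Ideal.span {(X : K⟦X⟧) ^ M} :=
  Ideal.Quotient.mk _

theorem qM_eq_iff {M : ℕ} {f g : K⟦X⟧} :
    qM K M f = qM K M g ↔ ∀ m < M, coeff m f = coeff m g := by
  rw [Ideal.Quotient.eq, Ideal.mem_span_singleton, PowerSeries.X_pow_dvd_iff]
  simp only [map_sub, sub_eq_zero]

theorem qM_eq_iff_dvd {M : ℕ} {f g : K⟦X⟧} :
    qM K M f = qM K M g ↔ (X : K⟦X⟧) ^ M ∣ f - g := by
  rw [Ideal.Quotient.eq, Ideal.mem_span_singleton]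

/-- A ring endomorphism with `X^M' ∣ φ (X^M)` carries congruences mod `X^M` to congruences
mod `X^M'`. -/
theorem qM_map_congr (φ : K⟦X⟧ →+* K⟦X⟧) {M M' : ℕ} (hφ : (X : K⟦X⟧) ^ M' ∣ φ (X ^ M))
    {f g : K⟦X⟧} (h : qM K M f = qM K M g) : qM K M' (φ f) = qM K M' (φ g) := by
  rw [qM_eq_iff_dvd] at h ⊢
  obtain ⟨c, hc⟩ := h
  rw [← map_sub, hc, map_mul]
  exact Dvd.dvd.mul_right hφ _

theorem qM_expand_congr (ℓ : ℕ) (hℓ : ℓ ≠ 0) {B : ℕ} {f g : K⟦X⟧}
    (h : qM K B f = qM K B g) :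
    qM K (ℓ * B) (expand ℓ hℓ f) = qM K (ℓ * B) (expand ℓ hℓ g) := by
  refine qM_map_congr ((expand ℓ hℓ : K⟦X⟧ →ₐ[K] K⟦X⟧) : K⟦X⟧ →+* K⟦X⟧) ?_ h
  rw [RingHom.coe_coe, map_pow, expand_X, ← pow_mul]

theorem qM_expand_congr' (ℓ : ℕ) (hℓ : ℓ ≠ 0) {M : ℕ} {f g : K⟦X⟧}
    (h : qM K M f = qM K M g) :
    qM K M (expand ℓ hℓ f) = qM K M (expand ℓ hℓ g) := by
  refine qM_map_congr ((expand ℓ hℓ : K⟦X⟧ →ₐ[K] K⟦X⟧) : K⟦X⟧ →+* K⟦X⟧) ?_ h
  rw [RingHom.coe_coe, map_pow, expand_X, ← pow_mul]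
  exact pow_dvd_pow _ (Nat.le_mul_of_pos_left _ (Nat.pos_of_ne_zero hℓ))

theorem qM_rescale_congr (a : K) {M : ℕ} {f g : K⟦X⟧}
    (h : qM K M f = qM K M g) :
    qM K M (rescale a f) = qM K M (rescale a g) := by
  refine qM_map_congr (rescale a) ?_ h
  rw [map_pow, rescale_X, mul_pow]
  exact Dvd.intro_left _ rfl

theorem eq_of_forall_qM {ℓ : ℕ} (hℓ : 0 < ℓ) {f g : K⟦X⟧}
    (h : ∀ B : ℕ, qM K (ℓ * B) f = qM K (ℓ * B) g) : f = g := by
  ext m
  have := qM_eq_iff.1 (h (m + 1)) m (by nlinarith)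
  exact this

/-- The Euler product `∏ (1 - Xⁿ)` over `K`. -/
def etaK (K : Type*) [CommRing K] : K⟦X⟧ :=
  PowerSeries.map (Int.castRingHom K) ModularCurve.etaProd

theorem qM_etaK (M : ℕ) :
    qM K M (etaK K) = qM K M (∏ n ∈ Finset.range M, (1 - X ^ (n + 1))) := by
  rw [qM_eq_iff]
  intro m hm
  rw [etaK, coeff_map, Lib.Haupt.coeff_etaProd hm, ← coeff_map, map_prod]
  simp

/-- The twisted norm `∏_{b<ℓ} f(ζ^b X)`. -/
def twN (ℓ : ℕ) (ζ : K) (f : K⟦X⟧) : K⟦X⟧ := ∏ b ∈ Finset.range ℓ, rescale (ζ ^ b) f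

theorem twN_mul (ℓ : ℕ) (ζ : K) (f g : K⟦X⟧) : twN ℓ ζ (f * g) = twN ℓ ζ f * twN ℓ ζ g := by
  simp only [twN, map_mul, Finset.prod_mul_distrib]

theorem twN_one (ℓ : ℕ) (ζ : K) : twN ℓ ζ (1 : K⟦X⟧) = 1 := by
  simp only [twN, map_one, Finset.prod_const_one]

theorem twN_prod {ι : Type*} (ℓ : ℕ) (ζ : K) (s : Finset ι) (F : ι → K⟦X⟧) :
    twN ℓ ζ (∏ i ∈ s, F i) = ∏ i ∈ s, twN ℓ ζ (F i) := by
  simp only [twN, map_prod]
  exact Finset.prod_comm

theorem qM_twN_congr (ℓ : ℕ) (ζ : K) {M : ℕ} {f g : K⟦X⟧}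
    (h : qM K M f = qM K M g) : qM K M (twN ℓ ζ f) = qM K M (twN ℓ ζ g) := by
  simp only [twN, map_prod]
  exact Finset.prod_congr rfl fun b _ => qM_rescale_congr _ h

/-! ### The three computations -/

/-- `∏_{b<ℓ} (1 - (ζ^b X)^n) = 1 - X^{ℓ n}` for `n` prime to `ℓ`. -/
theorem twN_one_sub_X_pow [IsDomain K] {ℓ : ℕ} (hℓ : 0 < ℓ) {ζ : K} (hζ : IsPrimitiveRoot ζ ℓ)
    {n : ℕ} (hn : n.Coprime ℓ) :
    twN ℓ ζ (1 - X ^ n : K⟦X⟧) = 1 - X ^ (ℓ * n) := by
  classical
  have hω : IsPrimitiveRoot (C (ζ ^ n) : K⟦X⟧) ℓ :=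
    (hζ.pow_of_coprime n hn).map_of_injective (f := (C : K →+* K⟦X⟧)) C_injective
  have h1 := IsPrimitiveRoot.pow_sub_pow_eq_prod_sub_mul (1 : K⟦X⟧) (X ^ n) hℓ hω
  rw [one_pow, ← pow_mul, mul_comm n ℓ] at h1
  rw [h1]
  have himg : (Finset.range ℓ).image (fun b => (C (ζ ^ n) : K⟦X⟧) ^ b) =
      Polynomial.nthRootsFinset ℓ (1 : K⟦X⟧) := by
    apply Finset.eq_of_subset_of_card_le
    · intro u hu
      obtain ⟨b, -, rfl⟩ := Finset.mem_image.mp hu
      rw [Polynomial.mem_nthRootsFinset hℓ, ← pow_mul, mul_comm, pow_mul, hω.pow_eq_one, one_pow]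
    · rw [hω.card_nthRootsFinset, Finset.card_image_of_injOn hω.injOn_pow, Finset.card_range]
  rw [← himg, Finset.prod_image (fun a ha b hb hab => hω.injOn_pow ha hb hab)]
  unfold twN
  refine Finset.prod_congr rfl fun b _ => ?_
  rw [map_sub, map_one, map_pow, rescale_X, mul_pow, ← map_pow, ← map_pow, ← pow_mul, ← pow_mul,
    mul_comm b n]

/-- `f(ηX) = f(X)` for `f ∈ K⟦X^ℓ⟧` and `η^ℓ = 1`. -/
theorem rescale_expand_of_pow_eq_one {ℓ : ℕ} (hℓ : ℓ ≠ 0) {η : K} (hη : η ^ ℓ = 1) (g : K⟦X⟧) :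
    rescale η (expand ℓ hℓ g) = expand ℓ hℓ g := by
  ext m
  rw [coeff_rescale, coeff_expand]
  split_ifs with h
  · obtain ⟨k, rfl⟩ := h
    rw [pow_mul, hη, one_pow, one_mul]
  · rw [mul_zero]

theorem twN_expand_self {ℓ : ℕ} (hℓ : ℓ ≠ 0) {ζ : K} (hζ : ζ ^ ℓ = 1) (g : K⟦X⟧) :
    twN ℓ ζ (expand ℓ hℓ g) = (expand ℓ hℓ g) ^ ℓ := by
  unfold twN
  rw [Finset.prod_congr rfl fun b _ => rescale_expand_of_pow_eq_one hℓ
    (show (ζ ^ b) ^ ℓ = 1 by rw [← pow_mul, mul_comm, pow_mul, hζ, one_pow]) g]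
  rw [Finset.prod_const, Finset.card_range]

/-- Splitting the truncated Euler product according to `ℓ ∣ n`. -/
theorem prod_range_split (ℓ : ℕ) (hℓ : ℓ ≠ 0) (B : ℕ) :
    (∏ n ∈ Finset.range (ℓ * B), (1 - X ^ (n + 1) : K⟦X⟧)) =
      (∏ n ∈ (Finset.range (ℓ * B)).filter (fun n => ¬ ℓ ∣ n + 1), (1 - X ^ (n + 1) : K⟦X⟧)) *
        expand ℓ hℓ (∏ m ∈ Finset.range B, (1 - X ^ (m + 1) : K⟦X⟧)) := by
  classical
  rw [← Finset.prod_filter_mul_prod_filter_not (Finset.range (ℓ * B)) (fun n => ℓ ∣ n + 1),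
    mul_comm]
  congr 1
  rw [map_prod]
  symm
  refine Finset.prod_bij (fun m _ => ℓ * (m + 1) - 1) ?_ ?_ ?_ ?_
  · intro m hm
    rw [Finset.mem_range] at hm
    have h1 : 1 ≤ ℓ * (m + 1) := Nat.mul_pos (Nat.pos_of_ne_zero hℓ) (Nat.succ_pos m)
    have h2 : ℓ * (m + 1) ≤ ℓ * B := Nat.mul_le_mul_left ℓ hm
    rw [Finset.mem_filter, Finset.mem_range, Nat.sub_add_cancel h1]
    exact ⟨by omega, dvd_mul_right _ _⟩
  · intro m hm m' hm' h
    have h1 : 1 ≤ ℓ * (m + 1) := Nat.mul_pos (Nat.pos_of_ne_zero hℓ) (Nat.succ_pos m)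
    have h1' : 1 ≤ ℓ * (m' + 1) := Nat.mul_pos (Nat.pos_of_ne_zero hℓ) (Nat.succ_pos m')
    have h' : ℓ * (m + 1) - 1 = ℓ * (m' + 1) - 1 := h
    have h3 : ℓ * (m + 1) = ℓ * (m' + 1) := by omega
    have := Nat.eq_of_mul_eq_mul_left (Nat.pos_of_ne_zero hℓ) h3
    omega
  · intro n hn
    rw [Finset.mem_filter, Finset.mem_range] at hn
    obtain ⟨hn1, k, hk⟩ := hn
    have hk0 : k ≠ 0 := by
      rintro rfl
      simp at hk
    obtain ⟨m, rfl⟩ := Nat.exists_eq_succ_of_ne_zero hk0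
    refine ⟨m, ?_, ?_⟩
    · rw [Finset.mem_range]
      have : ℓ * (m + 1) < ℓ * B + 1 := by
        rw [Nat.succ_eq_add_one] at hk
        omega
      by_contra hcon
      have h4 : ℓ * B ≤ ℓ * m := Nat.mul_le_mul_left ℓ (not_lt.mp hcon)
      have h5 : 0 < ℓ := Nat.pos_of_ne_zero hℓ
      rw [Nat.mul_succ] at this
      omega
    · show ℓ * (m + 1) - 1 = n
      rw [Nat.succ_eq_add_one] at hk
      omega
  · intro m hm
    have h1 : 1 ≤ ℓ * (m + 1) := Nat.mul_pos (Nat.pos_of_ne_zero hℓ) (Nat.succ_pos m)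
    rw [map_sub, map_one, map_pow, expand_X, ← pow_mul, Nat.sub_add_cancel h1]

/-! ### The norm identity for the Euler product -/

/-- `E(X^{ℓ²}) · ∏_{b<ℓ} E(ζ^b X) = E(X^ℓ)^{ℓ+1}`. -/
theorem etaK_norm_identity [IsDomain K] {ℓ : ℕ} (hℓ : ℓ.Prime) {ζ : K}
    (hζ : IsPrimitiveRoot ζ ℓ) :
    expand ℓ hℓ.ne_zero (expand ℓ hℓ.ne_zero (etaK K)) * twN ℓ ζ (etaK K) =
      (expand ℓ hℓ.ne_zero (etaK K)) ^ (ℓ + 1) := by
  classical
  refine eq_of_forall_qM hℓ.pos fun B => ?_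
  set E := etaK K with hE
  set A : K⟦X⟧ :=
    ∏ n ∈ (Finset.range (ℓ * B)).filter (fun n => ¬ ℓ ∣ n + 1), (1 - X ^ (n + 1) : K⟦X⟧) with hA
  -- `E ≡ A · E(X^ℓ)`
  have h2 : qM K (ℓ * B) E = qM K (ℓ * B) (A * expand ℓ hℓ.ne_zero E) := by
    rw [qM_etaK (ℓ * B), prod_range_split ℓ hℓ.ne_zero B, map_mul, map_mul,
      qM_expand_congr ℓ hℓ.ne_zero (qM_etaK (K := K) B)]
  -- `N(A) = A(X^ℓ)`
  have h3 : twN ℓ ζ A = expand ℓ hℓ.ne_zero A := by
    rw [hA, twN_prod, map_prod]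
    refine Finset.prod_congr rfl fun n hn => ?_
    rw [Finset.mem_filter] at hn
    rw [twN_one_sub_X_pow hℓ.pos hζ ((Nat.Prime.coprime_iff_not_dvd hℓ).2 hn.2).symm,
      map_sub, map_one, map_pow, expand_X, ← pow_mul]
  -- `N(E(X^ℓ)) = E(X^ℓ)^ℓ`
  have h4 : twN ℓ ζ (expand ℓ hℓ.ne_zero E) = (expand ℓ hℓ.ne_zero E) ^ ℓ :=
    twN_expand_self hℓ.ne_zero hζ.pow_eq_one E
  have h5 : qM K (ℓ * B) (twN ℓ ζ E) =
      qM K (ℓ * B) (expand ℓ hℓ.ne_zero A * (expand ℓ hℓ.ne_zero E) ^ ℓ) := by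
    rw [qM_twN_congr ℓ ζ h2, twN_mul, h3, h4]
  have h6 : qM K (ℓ * B) (expand ℓ hℓ.ne_zero E) =
      qM K (ℓ * B) (expand ℓ hℓ.ne_zero A * expand ℓ hℓ.ne_zero (expand ℓ hℓ.ne_zero E)) := by
    rw [qM_expand_congr' ℓ hℓ.ne_zero h2, map_mul]
  rw [map_mul, h5, map_mul, ← mul_assoc, mul_comm (qM K (ℓ * B) _) (qM K (ℓ * B) _),
    ← map_mul (qM K (ℓ * B)) (expand ℓ hℓ.ne_zero A), ← h6, pow_succ', map_mul, map_pow]

/-! ### Transport along `X ↦ X^a` -/

theorem expand_congr_exp {p q : ℕ} (h : p = q) (hp : p ≠ 0) (hq : q ≠ 0) (f : K⟦X⟧) :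
    expand p hp f = expand q hq f := by
  subst h
  rfl

theorem expand_comm' (a ℓ : ℕ) (ha : a ≠ 0) (hℓ : ℓ ≠ 0) (f : K⟦X⟧) :
    expand a ha (expand ℓ hℓ f) = expand ℓ hℓ (expand a ha f) := by
  rw [← expand_mul, ← expand_mul]
  exact expand_congr_exp (mul_comm a ℓ) _ _ f

theorem rescale_expand (a : ℕ) (ha : a ≠ 0) (c : K) (f : K⟦X⟧) :
    rescale c (expand a ha f) = expand a ha (rescale (c ^ a) f) := by
  ext m
  rw [coeff_rescale, coeff_expand, coeff_expand]
  split_ifs with h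
  · obtain ⟨k, rfl⟩ := h
    rw [Nat.mul_div_cancel_left _ (Nat.pos_of_ne_zero ha), coeff_rescale, pow_mul]
  · rw [mul_zero]

theorem twN_expand (a : ℕ) (ha : a ≠ 0) (ℓ : ℕ) (ζ : K) (f : K⟦X⟧) :
    twN ℓ ζ (expand a ha f) = expand a ha (twN ℓ (ζ ^ a) f) := by
  unfold twN
  rw [map_prod]
  refine Finset.prod_congr rfl fun b _ => ?_
  rw [rescale_expand, ← pow_mul, ← pow_mul, mul_comm]

/-- `G(X^{ℓ²}) · ∏_{b<ℓ} G(ζ^b X) = G(X^ℓ)^{ℓ+1}` for `G = E(X^a)`, `ℓ ∤ a`. -/
theorem etaK_expand_norm_identity [IsDomain K] {ℓ : ℕ} (hℓ : ℓ.Prime) {ζ : K}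
    (hζ : IsPrimitiveRoot ζ ℓ) (a : ℕ) (ha : a ≠ 0) (hla : ¬ ℓ ∣ a) :
    expand ℓ hℓ.ne_zero (expand ℓ hℓ.ne_zero (expand a ha (etaK K))) *
        twN ℓ ζ (expand a ha (etaK K)) =
      (expand ℓ hℓ.ne_zero (expand a ha (etaK K))) ^ (ℓ + 1) := by
  have hζa : IsPrimitiveRoot (ζ ^ a) ℓ :=
    hζ.pow_of_coprime a ((Nat.Prime.coprime_iff_not_dvd hℓ).2 hla).symm
  rw [twN_expand, ← expand_comm' a ℓ ha hℓ.ne_zero (etaK K),
    ← expand_comm' a ℓ ha hℓ.ne_zero (expand ℓ hℓ.ne_zero (etaK K)), ← map_mul,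
    etaK_norm_identity hℓ hζa, map_pow]

end Fermat.Agent.Ribet.H67

end

end
-- ===== PACK-END Ribet/H67/UnitEisCore.lean

-- ===== PACK-BEGIN A2/H553/GaussA.lean
section




/-!
# A2 / K2c (helper553): the Gauss ring of `K((q))` attached to a valuation subring `A ⊆ K`

`K` a field, `A : ValuationSubring K` (no discreteness assumption), `k` its residue field.

* `gaussA A : Subring (LaurentSeries K)` : quotients `a / b` of `A`-integral series with `b`
  primitive (some coefficient a unit of `A`)  (= helper86's `gaussRing` for `O = A`);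
* `redA A : gaussA A →+* LaurentSeries k` : the reduction map;
* `HasGaussForm A x` : `x = c · a / b` with `c ∈ Kˣ` and `a`, `b` primitive;
* `const_mem_gaussA` : a constant lies in `gaussA A` iff it lies in `A`;
* `HasGaussForm.mem_or_inv_mem`, `HasGaussForm.mem_iff`, unit criteria.
-/

set_option autoImplicit false
set_option linter.unusedSectionVars false

noncomputable section

namespace Fermat.Agent.A2.H553

open ModularCurve HahnSeries Fermat.Agent.S28.H86

variable {K : Type*} [Field K] (A : ValuationSubring K)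

/-- The residue map of `A`, on the underlying subring. -/
def resA : ↥A.toSubring →+* IsLocalRing.ResidueField ↥A := IsLocalRing.residue ↥A

theorem resA_eq_zero_iff (x : ↥A.toSubring) : resA A x = 0 ↔ A.valuation (x : K) < 1 := by
  have h1 : resA A x = 0 ↔ (x : ↥A) ∈ IsLocalRing.maximalIdeal ↥A :=
    IsLocalRing.residue_eq_zero_iff (R := ↥A) x
  exact h1.trans (A.valuation_lt_one_iff x)

theorem resA_ne_zero_iff (x : ↥A.toSubring) : resA A x ≠ 0 ↔ A.valuation (x : K) = 1 := by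
  rw [Ne, resA_eq_zero_iff, not_lt]
  constructor
  · intro h; exact le_antisymm (A.valuation_le_one x) h
  · intro h; exact h.ge

/-- The Gauss ring attached to `A`. -/
def gaussA : Subring (LaurentSeries K) := gaussRing A.toSubring (resA A)

/-- The reduction map `gaussA A → k((q))`. -/
def redA : gaussA A →+* LaurentSeries (IsLocalRing.ResidueField ↥A) :=
  gaussRed A.toSubring (resA A)

variable {A}

theorem mem_gaussA_iff {x : LaurentSeries K} :
    x ∈ gaussA A ↔ ∃ a b : LaurentSeries ↥A.toSubring,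
      redL (resA A) b ≠ 0 ∧ x * inclL A.toSubring b = inclL A.toSubring a := Iff.rfl

theorem redL_ne_zero_iff (b : LaurentSeries ↥A.toSubring) :
    redL (resA A) b ≠ 0 ↔ ∃ n, A.valuation ((b.coeff n : K)) = 1 := by
  constructor
  · intro h
    by_contra hcon
    push Not at hcon
    apply h
    ext n
    rw [redL_coeff, HahnSeries.coeff_zero]
    by_contra h0
    exact hcon n ((resA_ne_zero_iff A _).mp h0)
  · rintro ⟨n, hn⟩ h
    have := congrArg (fun z => z.coeff n) h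
    simp only [redL_coeff, HahnSeries.coeff_zero] at this
    exact (resA_ne_zero_iff A _).mpr hn this

theorem redL_eq_zero_iff' (b : LaurentSeries ↥A.toSubring) :
    redL (resA A) b = 0 ↔ ∀ n, A.valuation ((b.coeff n : K)) < 1 := by
  constructor
  · intro h n
    have := congrArg (fun z => z.coeff n) h
    simp only [redL_coeff, HahnSeries.coeff_zero] at this
    exact (resA_eq_zero_iff A _).mp this
  · intro h
    ext n
    rw [redL_coeff, HahnSeries.coeff_zero]
    exact (resA_eq_zero_iff A _).mpr (h n)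

theorem inclL_ne_zero_of_redL_ne_zero {b : LaurentSeries ↥A.toSubring}
    (hb : redL (resA A) b ≠ 0) : inclL A.toSubring b ≠ 0 := by
  intro h0
  apply hb
  rw [inclL_injective A.toSubring (h0.trans (map_zero _).symm), map_zero]

/-- coefficients of `C c * x`. -/
theorem coeff_C_mul' (c : K) (x : LaurentSeries K) (n : ℤ) :
    (HahnSeries.C c * x).coeff n = c * x.coeff n := by
  rw [HahnSeries.C_mul_eq_smul, HahnSeries.coeff_smul, smul_eq_mul]

/-- A constant lies in the Gauss ring iff it lies in `A`. -/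
theorem const_mem_gaussA {c : K} : HahnSeries.C c ∈ gaussA A ↔ c ∈ A := by
  constructor
  · rintro ⟨a, b, hb, hab⟩
    obtain ⟨n, hn⟩ := (redL_ne_zero_iff b).mp hb
    have h1 := congrArg (fun z => z.coeff n) hab
    simp only [coeff_C_mul', inclL_coeff] at h1
    have hbn : (b.coeff n : K) ≠ 0 := by
      intro h0
      rw [h0, map_zero] at hn
      exact zero_ne_one hn
    have hc : c = (a.coeff n : K) * (b.coeff n : K)⁻¹ := by
      field_simp
      exact h1
    rw [hc, ← A.valuation_le_one_iff, map_mul, map_inv₀, hn, inv_one, mul_one]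
    exact A.valuation_le_one (a.coeff n)
  · intro hc
    refine ⟨HahnSeries.C (⟨c, hc⟩ : ↥A.toSubring), 1, by simp, ?_⟩
    rw [map_one, mul_one, inclL_C]

/-- reduction of an integral series -/
theorem redA_inclL (a : LaurentSeries ↥A.toSubring) :
    redA A ⟨inclL A.toSubring a, inclL_mem_gaussRing (resA A) a⟩ = redL (resA A) a :=
  gaussRed_inclL a

theorem redA_eq (x : gaussA A) (a b : LaurentSeries ↥A.toSubring)
    (hb : redL (resA A) b ≠ 0)
    (h : (x : LaurentSeries K) * inclL A.toSubring b = inclL A.toSubring a) :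
    redA A x = redL (resA A) a / redL (resA A) b := gaussRed_eq x a b hb h

/-- elements with nonzero reduction are units -/
theorem inv_mem_gaussA_of_redA_ne_zero (x : gaussA A) (hx : redA A x ≠ 0) :
    (x : LaurentSeries K)⁻¹ ∈ gaussA A :=
  inv_mem_gaussRing_of_gaussRed_ne_zero x hx

/-- units have nonzero reduction -/
theorem redA_ne_zero_of_inv_mem (x : gaussA A) (hx0 : (x : LaurentSeries K) ≠ 0)
    (hx : (x : LaurentSeries K)⁻¹ ∈ gaussA A) : redA A x ≠ 0 := by
  intro h0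
  have h1 : x * ⟨_, hx⟩ = (1 : gaussA A) := Subtype.ext (mul_inv_cancel₀ hx0)
  have h2 := congrArg (redA A) h1
  rw [map_mul, h0, zero_mul, map_one] at h2
  exact zero_ne_one h2

/-- `x = c · (a / b)` with `c` a nonzero constant and `a`, `b` primitive integral series. -/
def HasGaussForm (A : ValuationSubring K) (x : LaurentSeries K) : Prop :=
  ∃ c : K, c ≠ 0 ∧ ∃ a b : LaurentSeries ↥A.toSubring,
    redL (resA A) a ≠ 0 ∧ redL (resA A) b ≠ 0 ∧
      x * inclL A.toSubring b = HahnSeries.C c * inclL A.toSubring a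

theorem C_ne_zero' {c : K} (hc : c ≠ 0) : (HahnSeries.C c : LaurentSeries K) ≠ 0 := by
  intro h
  exact hc (HahnSeries.C_injective (h.trans (map_zero _).symm))

theorem HasGaussForm.ne_zero {x : LaurentSeries K} (h : HasGaussForm A x) : x ≠ 0 := by
  obtain ⟨c, hc, a, b, ha, hb, hab⟩ := h
  rintro rfl
  rw [zero_mul] at hab
  exact mul_ne_zero (C_ne_zero' hc) (inclL_ne_zero_of_redL_ne_zero ha) hab.symm

/-- pure field algebra: invert a relation `x * b = C * a`. -/
theorem inv_form_aux {L : Type*} [Field L] {x C a b : L} (hx : x ≠ 0) (hC : C ≠ 0)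
    (hab : x * b = C * a) : x⁻¹ * a = C⁻¹ * b := by
  rw [inv_mul_eq_iff_eq_mul₀ hx]
  calc a = C⁻¹ * (C * a) := by rw [← mul_assoc, inv_mul_cancel₀ hC, one_mul]
    _ = C⁻¹ * (x * b) := by rw [hab]
    _ = x * (C⁻¹ * b) := by ring

theorem HasGaussForm.inv {x : LaurentSeries K} (h : HasGaussForm A x) : HasGaussForm A x⁻¹ := by
  have hx := h.ne_zero
  obtain ⟨c, hc, a, b, ha, hb, hab⟩ := h
  refine ⟨c⁻¹, inv_ne_zero hc, b, a, hb, ha, ?_⟩
  have hC := C_ne_zero' (K := K) hc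
  have hCinv : (HahnSeries.C c⁻¹ : LaurentSeries K) = (HahnSeries.C c)⁻¹ := by
    apply eq_inv_of_mul_eq_one_left
    rw [← map_mul, inv_mul_cancel₀ hc, map_one]
  rw [hCinv]
  exact inv_form_aux hx hC hab

/-- The form of the constant decides membership. -/
theorem HasGaussForm.mem_of_const_mem {x : LaurentSeries K} {c : K}
    {a b : LaurentSeries ↥A.toSubring} (hb : redL (resA A) b ≠ 0)
    (hab : x * inclL A.toSubring b = HahnSeries.C c * inclL A.toSubring a) (hc : c ∈ A) :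
    x ∈ gaussA A := by
  refine ⟨HahnSeries.C (⟨c, hc⟩ : ↥A.toSubring) * a, b, hb, ?_⟩
  rw [hab, map_mul, inclL_C]

theorem HasGaussForm.mem_or_inv_mem {x : LaurentSeries K} (h : HasGaussForm A x) :
    x ∈ gaussA A ∨ x⁻¹ ∈ gaussA A := by
  have hinv := h.inv
  obtain ⟨c, hc, a, b, ha, hb, hab⟩ := h
  rcases A.mem_or_inv_mem c with h1 | h1
  · exact Or.inl (HasGaussForm.mem_of_const_mem hb hab h1)
  · right
    have hx : x ≠ 0 := by
      rintro rfl
      rw [zero_mul] at hab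
      exact mul_ne_zero (C_ne_zero' hc) (inclL_ne_zero_of_redL_ne_zero ha) hab.symm
    have hC := C_ne_zero' (K := K) hc
    have hCinv : (HahnSeries.C c⁻¹ : LaurentSeries K) = (HahnSeries.C c)⁻¹ := by
      apply eq_inv_of_mul_eq_one_left
      rw [← map_mul, inv_mul_cancel₀ hc, map_one]
    refine HasGaussForm.mem_of_const_mem (c := c⁻¹) (a := b) (b := a) ha ?_ h1
    rw [hCinv]
    exact inv_form_aux hx hC hab

/-- For an element in Gauss form, membership in the Gauss ring is read off from the constant. -/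
theorem HasGaussForm.const_mem_of_mem {x : LaurentSeries K} {c : K}
    {a b : LaurentSeries ↥A.toSubring} (ha : redL (resA A) a ≠ 0)
    (hab : x * inclL A.toSubring b = HahnSeries.C c * inclL A.toSubring a)
    (hx : x ∈ gaussA A) : c ∈ A := by
  obtain ⟨a₁, b₁, hb₁, hab₁⟩ := hx
  rw [← const_mem_gaussA]
  refine ⟨a₁ * b, a * b₁, ?_, ?_⟩
  · rw [map_mul]; exact mul_ne_zero ha hb₁
  · rw [map_mul, map_mul, ← hab₁]
    linear_combination (-(inclL A.toSubring b₁)) * hab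

/-- A unit of the Gauss ring in Gauss form: the constant is a unit of `A`. -/
theorem HasGaussForm.isUnit_const {x : LaurentSeries K} {c : K} (hc : c ≠ 0)
    {a b : LaurentSeries ↥A.toSubring} (ha : redL (resA A) a ≠ 0) (hb : redL (resA A) b ≠ 0)
    (hab : x * inclL A.toSubring b = HahnSeries.C c * inclL A.toSubring a)
    (hx : x ∈ gaussA A) (hx' : x⁻¹ ∈ gaussA A) : A.valuation c = 1 := by
  have h1 : c ∈ A := HasGaussForm.const_mem_of_mem ha hab hx
  have hx0 : x ≠ 0 := by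
    rintro rfl
    rw [zero_mul] at hab
    exact mul_ne_zero (C_ne_zero' hc) (inclL_ne_zero_of_redL_ne_zero ha) hab.symm
  have hC := C_ne_zero' (K := K) hc
  have hCinv : (HahnSeries.C c⁻¹ : LaurentSeries K) = (HahnSeries.C c)⁻¹ := by
    apply eq_inv_of_mul_eq_one_left
    rw [← map_mul, inv_mul_cancel₀ hc, map_one]
  have h2 : c⁻¹ ∈ A := by
    refine HasGaussForm.const_mem_of_mem (x := x⁻¹) (a := b) (b := a) hb ?_ hx'
    rw [hCinv]
    exact inv_form_aux hx0 hC hab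
  have e1 : A.valuation c ≤ 1 := (A.valuation_le_one_iff c).mpr h1
  have e2 : A.valuation c⁻¹ ≤ 1 := (A.valuation_le_one_iff _).mpr h2
  rw [map_inv₀] at e2
  have hv : A.valuation c ≠ 0 := (Valuation.ne_zero_iff _).mpr hc
  have e3 : 1 ≤ A.valuation c := by
    have := (inv_le_one₀ (zero_lt_iff.mpr hv)).mp e2
    exact this
  exact le_antisymm e1 e3

end Fermat.Agent.A2.H553

end
end
-- ===== PACK-END A2/H553/GaussA.lean

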