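import Fermat.Prelude.Thm_ModularCurve_coeffMap_qExpand
import Mathlib
import Fermat.Prelude.Def_ModularCurve_X0ModL
import Fermat.Prelude.Def_ModularCurve_ArithmeticGalois
import Fermat.Agent.Pack.S44.G0E8L2
import Fermat.Agent.Pack.S44.G0E8L1
import Fermat.Agent.Pack.S44.G0E8L0
import Fermat.Agent.Pack.S44.G0E3L2
import Fermat.Agent.Pack.S44.G0E7L3
import Fermat.Agent.Pack.S44.G0E9L3
import Fermat.Agent.Pack.S44.G0E3L3
import Fermat.Agent.Pack.S44.G0E9L2
import Fermat.Agent.Pack.S44.G0E6L0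
import Fermat.Agent.Pack.S44.G0E6L2

-- ===== PACK-BEGIN S21/IntDCore.lean
section




/-!
# S21 / INT-D — folding inequality, multiplicity bounds, finite energy of `u₀`

This file contains the parts of INT-D which do not depend on INT-A, together with versions of
`folding` and `integrable_energy_u0` which take the needed INT-A facts as hypotheses.
-/

set_option autoImplicit false
set_option linter.unusedVariables false

open UpperHalfPlane CongruenceSubgroup MeasureTheory
open scoped MatrixGroups ContDiff Topology ENNReal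

namespace Fermat.Agent.S21

open PartitionAux

/-! ### Multiplicity bounds -/

/-- multiplicity of a compact set -/
theorem mult_compact (K : Set ℂ) (hK : IsCompact K) (hKU : K ⊆ Uhp) :
    ∃ M : ℕ, ∀ w ∈ Uhp, {g : SL(2, ℤ) | mob g w ∈ K}.encard ≤ M := by
  have hfin := finite_mob_inter K hK hKU
  refine ⟨hfin.toFinset.card, fun w _ => ?_⟩
  rcases Set.eq_empty_or_nonempty {g : SL(2, ℤ) | mob g w ∈ K} with hemp | ⟨g₀, hg₀⟩
  · rw [hemp]; simp
  · have hsub : {g : SL(2, ℤ) | mob g w ∈ K} ⊆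
        (fun h => h * g₀) '' {h : SL(2, ℤ) | ∃ z ∈ K, mob h z ∈ K} := by
      intro g hg
      refine ⟨g * g₀⁻¹, ⟨mob g₀ w, hg₀, ?_⟩, by simp⟩
      rw [mob_mob]
      simpa using hg
    calc {g : SL(2, ℤ) | mob g w ∈ K}.encard
        ≤ ((fun h => h * g₀) '' {h : SL(2, ℤ) | ∃ z ∈ K, mob h z ∈ K}).encard :=
          Set.encard_le_encard hsub
      _ ≤ {h : SL(2, ℤ) | ∃ z ∈ K, mob h z ∈ K}.encard := Set.encard_image_le _ _
      _ = hfin.toFinset.card := hfin.encard_eq_coe_toFinset_card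

/-- auxiliary: the shape of an element of `SL(2,ℤ)` mapping a point of a cusp strip to a point
of a cusp strip -/
theorem IntDAux.strip_elt (h : SL(2, ℤ)) (Y : ℝ) {z₀ z : ℂ} (hz₀ : z₀ ∈ strip Y)
    (hz : z ∈ strip Y) (hh : mob h z₀ = z) :
    h 1 0 = 0 ∧ (h 0 0 = 1 ∨ h 0 0 = -1) ∧ h 1 1 = h 0 0 ∧ |h 0 1| ≤ 2 := by
  obtain ⟨hre₀, him₀, -⟩ := hz₀
  obtain ⟨hre, him, -⟩ := hz
  have hz₀U : z₀ ∈ Uhp := lt_of_lt_of_le (by norm_num) him₀
  have hc : h 1 0 = 0 := by
    apply c_eq_zero_of_two_le_im h z₀ him₀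
    rw [hh]
    linarith
  have had : h 0 0 * h 1 1 = 1 := by
    have hdet := h.det_coe
    rw [Matrix.det_fin_two, hc] at hdet
    linarith
  have hcd : cd h z₀ = ((h 1 1 : ℤ) : ℂ) := by simp [cd, hc]
  have hmob := _root_.Fermat.Agent.S21.PartitionAux.mob_eq_div h hz₀U
  rw [hh, hcd] at hmob
  rcases Int.eq_one_or_neg_one_of_mul_eq_one' had with (⟨ha, hd⟩ | ⟨ha, hd⟩)
  · refine ⟨hc, Or.inl ha, by rw [ha, hd], ?_⟩
    rw [ha, hd] at hmob
    have hre' : z.re = z₀.re + (h 0 1 : ℤ) := by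
      rw [hmob]; simp
    have habs : |((h 0 1 : ℤ) : ℝ)| ≤ 2 := by
      rw [abs_le] at hre hre₀ ⊢
      constructor <;> linarith [hre.1, hre.2, hre₀.1, hre₀.2]
    exact_mod_cast habs
  · refine ⟨hc, Or.inr ha, by rw [ha, hd], ?_⟩
    rw [ha, hd] at hmob
    have hre' : z.re = z₀.re - (h 0 1 : ℤ) := by
      rw [hmob]; simp [div_neg]; ring
    have habs : |((h 0 1 : ℤ) : ℝ)| ≤ 2 := by
      rw [abs_le] at hre hre₀ ⊢
      constructor <;> linarith [hre.1, hre.2, hre₀.1, hre₀.2]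
    exact_mod_cast habs

/-- multiplicity of a cusp strip -/
theorem mult_strip (δ : SL(2, ℤ)) (Y : ℝ) (w : ℂ) (hw : w ∈ Uhp) :
    {g : SL(2, ℤ) | mob g w ∈ mob δ '' strip Y}.encard ≤ 10 := by
  rcases Set.eq_empty_or_nonempty {g : SL(2, ℤ) | mob g w ∈ mob δ '' strip Y} with
    hemp | ⟨g₀, z₀, hz₀, hg₀⟩
  · rw [hemp]; simp
  have hkey : ∀ g ∈ {g : SL(2, ℤ) | mob g w ∈ mob δ '' strip Y},
      (δ⁻¹ * g * g₀⁻¹ * δ) 1 0 = 0 ∧
      ((δ⁻¹ * g * g₀⁻¹ * δ) 0 0 = 1 ∨ (δ⁻¹ * g * g₀⁻¹ * δ) 0 0 = -1) ∧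
      (δ⁻¹ * g * g₀⁻¹ * δ) 1 1 = (δ⁻¹ * g * g₀⁻¹ * δ) 0 0 ∧
      |(δ⁻¹ * g * g₀⁻¹ * δ) 0 1| ≤ 2 := by
    rintro g ⟨z, hz, hgz⟩
    have hzU : z ∈ Uhp := lt_of_lt_of_le (by norm_num) hz.2.1
    refine IntDAux.strip_elt _ Y hz₀ hz ?_
    calc mob (δ⁻¹ * g * g₀⁻¹ * δ) z₀ = mob (δ⁻¹ * g * g₀⁻¹) (mob δ z₀) := by rw [mob_mob]
      _ = mob (δ⁻¹ * g * g₀⁻¹) (mob g₀ w) := by rw [hg₀]
      _ = mob (δ⁻¹ * g) w := by rw [mob_mob]; congr 1; group
      _ = mob δ⁻¹ (mob g w) := by rw [mob_mob]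
      _ = mob δ⁻¹ (mob δ z) := by rw [hgz]
      _ = z := by rw [mob_mob, inv_mul_cancel, _root_.Fermat.Agent.S21.PartitionAux.mob_one hzU]
  let f : SL(2, ℤ) → ℤ × ℤ := fun g => ((δ⁻¹ * g * g₀⁻¹ * δ) 0 0, (δ⁻¹ * g * g₀⁻¹ * δ) 0 1)
  let t : Finset (ℤ × ℤ) := ({1, -1} : Finset ℤ) ×ˢ Finset.Icc (-2) 2
  have hmaps : Set.MapsTo f {g : SL(2, ℤ) | mob g w ∈ mob δ '' strip Y} (t : Set (ℤ × ℤ)) := by
    intro g hg
    obtain ⟨-, ha, -, hb⟩ := hkey g hg
    simp only [Finset.coe_product, Set.mem_prod, Finset.mem_coe, Finset.mem_insert,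
      Finset.mem_singleton, Finset.mem_Icc, f, t]
    exact ⟨ha, abs_le.mp hb⟩
  have hinj : Set.InjOn f {g : SL(2, ℤ) | mob g w ∈ mob δ '' strip Y} := by
    intro g hg g' hg' hfg
    obtain ⟨hc, -, hd, -⟩ := hkey g hg
    obtain ⟨hc', -, hd', -⟩ := hkey g' hg'
    have h00 : (δ⁻¹ * g * g₀⁻¹ * δ) 0 0 = (δ⁻¹ * g' * g₀⁻¹ * δ) 0 0 := congrArg Prod.fst hfg
    have h01 : (δ⁻¹ * g * g₀⁻¹ * δ) 0 1 = (δ⁻¹ * g' * g₀⁻¹ * δ) 0 1 := congrArg Prod.snd hfg
    have heq : δ⁻¹ * g * g₀⁻¹ * δ = δ⁻¹ * g' * g₀⁻¹ * δ := by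
      ext i j
      fin_cases i <;> fin_cases j
      · exact h00
      · exact h01
      · exact hc.trans hc'.symm
      · exact (hd.trans h00).trans hd'.symm
    have h1 := mul_right_cancel heq
    have h2 := mul_right_cancel h1
    exact mul_left_cancel h2
  calc {g : SL(2, ℤ) | mob g w ∈ mob δ '' strip Y}.encard
      ≤ (t : Set (ℤ × ℤ)).encard := Set.encard_le_encard_of_injOn hmaps hinj
    _ = t.card := Set.encard_coe_eq_coe_finsetCard t
    _ = 10 := by
        have : t.card = 10 := by decide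
        rw [this]; rfl

/-! ### Finite energy of `u₀` -/

/-- `chi` vanishes off the upper half plane. -/
theorem IntDAux.chi_eq_zero_of_notMem (N : ℕ) (χ₁ : ℂ → ℝ) {z : ℂ} (hz : z ∉ Uhp) :
    chi N χ₁ z = 0 := by
  unfold chi
  exact Set.indicator_of_notMem hz _

/-- where `chi` does not vanish, some translate lies in the support of `χ₁`. -/
theorem IntDAux.exists_of_chi_ne_zero (N : ℕ) {χ₁ : ℂ → ℝ} {z : ℂ} (h : chi N χ₁ z ≠ 0) :
    z ∈ Uhp ∧ ∃ q : SL(2, ℤ) ⧸ Gamma0 N, χ₁ (mob (Quotient.out q) z) ≠ 0 := by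
  have hz : z ∈ Uhp := by
    by_contra hz
    exact h (IntDAux.chi_eq_zero_of_notMem N χ₁ hz)
  refine ⟨hz, ?_⟩
  by_contra hcon
  have hcon' : ∀ q : SL(2, ℤ) ⧸ Gamma0 N, χ₁ (mob (Quotient.out q) z) = 0 := fun q =>
    by_contra fun hq => hcon ⟨q, hq⟩
  apply h
  unfold chi
  rw [Set.indicator_of_mem hz]
  exact finsum_eq_zero_of_forall_eq_zero hcon'

/-- the compact rectangle `{|Re z| ≤ 1, 1/2 ≤ Im z ≤ 2}` -/
def IntDAux.rect : Set ℂ := Set.Icc (-1 : ℝ) 1 ×ℂ Set.Icc (1 / 2 : ℝ) 2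

theorem IntDAux.isCompact_rect : IsCompact IntDAux.rect :=
  Metric.isCompact_of_isClosed_isBounded (isClosed_Icc.reProdIm isClosed_Icc)
    ((Metric.isBounded_Icc (-1 : ℝ) 1).reProdIm (Metric.isBounded_Icc (1 / 2 : ℝ) 2))

theorem IntDAux.rect_subset : IntDAux.rect ⊆ Uhp := by
  intro z hz
  have h := hz.2.1
  exact lt_of_lt_of_le (by norm_num) h

theorem IntDAux.continuousOn_dz {u : ℂ → ℝ} (hu : ContDiffOn ℝ 1 u Uhp) :
    ContinuousOn (dz u) Uhp := by
  have h1 := hu.continuousOn_fderiv_of_isOpen isOpen_Uhp le_rfl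
  have hv : ∀ v : ℂ, ContinuousOn (fun z => ((fderiv ℝ u z v : ℝ) : ℂ)) Uhp := fun v =>
    Complex.continuous_ofReal.comp_continuousOn (h1.clm_apply continuousOn_const)
  unfold dz
  exact (hv 1).sub (continuousOn_const.mul (hv Complex.I))

/-- finite energy of `u₀`, with the continuity of `chi` (INT-A) as a hypothesis -/
theorem IntDAux.integrable_energy_u0_of (N : ℕ) [NeZero N] {χ₁ : ℂ → ℝ}
    (hχ : IsSL2ZPartition χ₁) (hcont : ContinuousOn (chi N χ₁) Uhp) (u₀ : ℂ → ℝ)
    (hu : ContDiffOn ℝ ∞ u₀ Uhp)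
    (hcusp : ∀ (δ : SL(2, ℤ)) (z : ℂ), 2 < z.im → dz u₀ (mob δ z) = 0) :
    Integrable (fun z => ‖dz u₀ z‖ ^ 2 * chi N χ₁ z) := by
  set C : Set ℂ := ⋃ q : SL(2, ℤ) ⧸ Gamma0 N, mob (Quotient.out q)⁻¹ '' IntDAux.rect with hC
  have hCc : IsCompact C := by
    have : Finite (SL(2, ℤ) ⧸ Gamma0 N) := Subgroup.finite_quotient_of_finiteIndex
    refine isCompact_iUnion fun q => ?_
    exact IntDAux.isCompact_rect.image_of_continuousOn
      ((mob_contDiffOn _).continuousOn.mono IntDAux.rect_subset)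
  have hCU : C ⊆ Uhp := by
    intro z hz
    obtain ⟨q, w, -, rfl⟩ := Set.mem_iUnion.mp hz
    exact _root_.Fermat.Agent.S21.PartitionAux.mob_mem_Uhp _ _
  have hsupp : Function.support (fun z => ‖dz u₀ z‖ ^ 2 * chi N χ₁ z) ⊆ C := by
    intro z hz
    rw [Function.mem_support] at hz
    have h1 : chi N χ₁ z ≠ 0 := right_ne_zero_of_mul hz
    have h2 : dz u₀ z ≠ 0 := by
      intro h0
      apply hz
      rw [h0]; simp
    obtain ⟨hzU, q, hq⟩ := IntDAux.exists_of_chi_ne_zero N h1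
    obtain ⟨hre, him⟩ := hχ.supp _ hq
    have hback : mob (Quotient.out q)⁻¹ (mob (Quotient.out q) z) = z := by
      rw [mob_mob, inv_mul_cancel, _root_.Fermat.Agent.S21.PartitionAux.mob_one hzU]
    have him2 : (mob (Quotient.out q) z).im ≤ 2 := by
      by_contra hlt
      rw [not_le] at hlt
      apply h2
      rw [← hback]
      exact hcusp _ _ hlt
    refine Set.mem_iUnion.mpr ⟨q, mob (Quotient.out q) z, ?_, hback⟩
    exact ⟨abs_le.mp hre, him.le, him2⟩
  have hcontf : ContinuousOn (fun z => ‖dz u₀ z‖ ^ 2 * chi N χ₁ z) Uhp :=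
    (((IntDAux.continuousOn_dz (hu.of_le (by simp))).norm).pow 2).mul hcont
  rw [← integrableOn_iff_integrable_of_support_subset hsupp]
  exact (hcontf.mono hCU).integrableOn_compact hCc

/-! ### The folding inequality -/

namespace IntDAux

theorem countable_matrix : Countable (Matrix (Fin 2) (Fin 2) ℤ) := by
  unfold Matrix; infer_instance

theorem countable_SL2Z : Countable SL(2, ℤ) := by
  have := countable_matrix
  unfold Matrix.SpecialLinearGroup; infer_instance

theorem countable_Gamma0 (N : ℕ) : Countable (Gamma0 N) := by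
  have := countable_SL2Z
  infer_instance

theorem injOn_mob (δ : SL(2, ℤ)) {K : Set ℂ} (hKU : K ⊆ Uhp) : Set.InjOn (mob δ) K := by
  intro z hz w hw hzw
  have h := congrArg (mob δ⁻¹) hzw
  rwa [mob_mob, mob_mob, inv_mul_cancel, _root_.Fermat.Agent.S21.PartitionAux.mob_one (hKU hz), _root_.Fermat.Agent.S21.PartitionAux.mob_one (hKU hw)] at h

theorem abs_det_smulFDeriv (δ : SL(2, ℤ)) {z : ℂ} (hz : z ∈ Uhp) :
    |(smulFDeriv (δ : GL (Fin 2) ℝ) z).det| = 1 / ‖cd δ z‖ ^ 4 := by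
  have hpos : (0 : ℝ) < ‖denom (δ : GL (Fin 2) ℝ) z‖ ^ 4 :=
    pow_pos (norm_pos_iff.mpr (denom_ne_zero (δ : GL (Fin 2) ℝ) ⟨z, hz⟩)) 4
  simp only [det_smulFDeriv, SmallAux.cd_eq_denom]
  simp [abs_of_pos hpos]

/-- change of variables for the lower Lebesgue integral under a Möbius transformation -/
theorem lintegral_mob (δ : SL(2, ℤ)) (K : Set ℂ) (hK : MeasurableSet K) (hKU : K ⊆ Uhp)
    (h : ℂ → ℝ≥0∞) :
    ∫⁻ w in mob δ '' K, h w = ∫⁻ z in K, ENNReal.ofReal (1 / ‖cd δ z‖ ^ 4) * h (mob δ z) := by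
  have hd : ∀ z ∈ K, HasFDerivWithinAt (mob δ) (smulFDeriv (δ : GL (Fin 2) ℝ) z) K z :=
    fun z hz =>
      (hasStrictFDerivAt_smul (δ : GL (Fin 2) ℝ) ⟨z, hKU hz⟩).hasFDerivAt.hasFDerivWithinAt
  rw [lintegral_image_eq_lintegral_abs_det_fderiv_mul volume hK hd (injOn_mob δ hKU)]
  refine setLIntegral_congr_fun hK fun z hz => ?_
  show ENNReal.ofReal |(smulFDeriv (δ : GL (Fin 2) ℝ) z).det| * h (mob δ z) = _
  rw [abs_det_smulFDeriv δ (hKU hz)]

theorem measurableSet_mob_image (δ : SL(2, ℤ)) (K : Set ℂ) (hK : MeasurableSet K)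
    (hKU : K ⊆ Uhp) : MeasurableSet (mob δ '' K) :=
  hK.image_of_continuousOn_injOn ((mob_contDiffOn δ).continuousOn.mono hKU) (injOn_mob δ hKU)

theorem aemeasurable_mob (δ : SL(2, ℤ)) (K : Set ℂ) (hKU : K ⊆ Uhp) :
    AEMeasurable (mob δ) (volume.restrict K) :=
  ((mob_contDiffOn δ).continuousOn.aemeasurable isOpen_Uhp.measurableSet).mono_measure
    (Measure.restrict_mono hKU le_rfl)

end IntDAux

/-- The folding inequality, with the needed INT-A facts as hypotheses. -/
theorem IntDAux.folding_of (N : ℕ) [NeZero N] {χ₁ : ℂ → ℝ}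
    (hnn : ∀ z, 0 ≤ chi N χ₁ z) (hmeas : Measurable (chi N χ₁))
    (hlocfin : ∀ z ∈ Uhp, {γ : Gamma0 N | chi N χ₁ (mob (γ : SL(2, ℤ)) z) ≠ 0}.Finite)
    (hsum : ∀ z ∈ Uhp, ∑ᶠ γ : Gamma0 N, chi N χ₁ (mob (γ : SL(2, ℤ)) z) = 1)
    (G : ℂ → ℂ) (hG : ContinuousOn G Uhp)
    (hinv : ∀ γ : Gamma0 N, ∀ z ∈ Uhp,
      G (mob (γ : SL(2, ℤ)) z) = (cd (γ : SL(2, ℤ)) z) ^ 2 * G z)
    (hfin : Integrable (fun z => ‖G z‖ ^ 2 * chi N χ₁ z))
    (A : Set ℂ) (hA : MeasurableSet A) (hAU : A ⊆ Uhp) (M : ℕ)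
    (hM : ∀ w ∈ Uhp, {g : SL(2, ℤ) | mob g w ∈ A}.encard ≤ M) :
    ∫ z in A, ‖G z‖ ^ 2 ≤ M * ∫ z, ‖G z‖ ^ 2 * chi N χ₁ z := by
  classical
  have hcount : Countable (Gamma0 N) := IntDAux.countable_Gamma0 N
  set h : ℂ → ℝ≥0∞ := fun w => ENNReal.ofReal (‖G w‖ ^ 2 * chi N χ₁ w) with hh
  have hh_meas : AEMeasurable h volume := hfin.aestronglyMeasurable.aemeasurable.ennreal_ofReal
  have hGA : AEMeasurable G (volume.restrict A) :=
    (hG.aemeasurable isOpen_Uhp.measurableSet).mono_measure (Measure.restrict_mono hAU le_rfl)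
  -- (a) pointwise partition of unity
  have hone : ∀ z ∈ Uhp, ∑' γ : Gamma0 N, ENNReal.ofReal (chi N χ₁ (mob (γ : SL(2, ℤ)) z)) = 1 := by
    intro z hz
    have hfinz := hlocfin z hz
    have h1 : ∑' γ : Gamma0 N, ENNReal.ofReal (chi N χ₁ (mob (γ : SL(2, ℤ)) z)) =
        ∑ γ ∈ hfinz.toFinset, ENNReal.ofReal (chi N χ₁ (mob (γ : SL(2, ℤ)) z)) := by
      refine tsum_eq_sum fun γ hγ => ?_
      have : chi N χ₁ (mob (γ : SL(2, ℤ)) z) = 0 := by
        by_contra hne
        exact hγ (hfinz.mem_toFinset.mpr hne)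
      rw [this, ENNReal.ofReal_zero]
    have h2 : ∑ᶠ γ : Gamma0 N, chi N χ₁ (mob (γ : SL(2, ℤ)) z) =
        ∑ γ ∈ hfinz.toFinset, chi N χ₁ (mob (γ : SL(2, ℤ)) z) := by
      refine finsum_eq_sum_of_support_subset _ fun γ hγ => ?_
      exact Finset.mem_coe.mpr (hfinz.mem_toFinset.mpr hγ)
    rw [h1, ← ENNReal.ofReal_sum_of_nonneg (fun γ _ => hnn _), ← h2, hsum z hz,
      ENNReal.ofReal_one]
  have hpt : ∀ z ∈ A, ENNReal.ofReal (‖G z‖ ^ 2) =
      ∑' γ : Gamma0 N, ENNReal.ofReal (‖G z‖ ^ 2 * chi N χ₁ (mob (γ : SL(2, ℤ)) z)) := by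
    intro z hz
    have : ∀ γ : Gamma0 N, ENNReal.ofReal (‖G z‖ ^ 2 * chi N χ₁ (mob (γ : SL(2, ℤ)) z)) =
        ENNReal.ofReal (‖G z‖ ^ 2) * ENNReal.ofReal (chi N χ₁ (mob (γ : SL(2, ℤ)) z)) :=
      fun γ => ENNReal.ofReal_mul (by positivity)
    simp_rw [this]
    rw [ENNReal.tsum_mul_left, hone z (hAU hz), mul_one]
  -- (c) change of variables
  have hcv : ∀ γ : Gamma0 N,
      ∫⁻ z in A, ENNReal.ofReal (‖G z‖ ^ 2 * chi N χ₁ (mob (γ : SL(2, ℤ)) z)) =
        ∫⁻ w in mob (γ : SL(2, ℤ)) '' A, h w := by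
    intro γ
    rw [IntDAux.lintegral_mob (γ : SL(2, ℤ)) A hA hAU h]
    refine setLIntegral_congr_fun hA fun z hz => ?_
    have hzU := hAU hz
    have hcd : cd (γ : SL(2, ℤ)) z ≠ 0 := SmallAux.cd_ne_zero _ hzU
    have hpos : 0 < ‖cd (γ : SL(2, ℤ)) z‖ := norm_pos_iff.mpr hcd
    simp only [hh]
    rw [← ENNReal.ofReal_mul (by positivity), hinv γ z hzU, norm_mul, norm_pow]
    congr 1
    field_simp
  -- measurability of the terms
  have hterm : ∀ γ : Gamma0 N, AEMeasurable
      (fun z => ENNReal.ofReal (‖G z‖ ^ 2 * chi N χ₁ (mob (γ : SL(2, ℤ)) z)))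
      (volume.restrict A) := by
    intro γ
    refine ENNReal.measurable_ofReal.comp_aemeasurable ?_
    exact (hGA.norm.pow_const 2).mul
      (hmeas.comp_aemeasurable (IntDAux.aemeasurable_mob _ A hAU))
  -- (d) the multiplicity bound
  have hmult : ∀ w : ℂ, ∑' γ : Gamma0 N, (mob (γ : SL(2, ℤ)) '' A).indicator h w ≤ M * h w := by
    intro w
    by_cases hw0 : h w = 0
    · have : ∀ γ : Gamma0 N, (mob (γ : SL(2, ℤ)) '' A).indicator h w = 0 := by
        intro γ
        by_cases hmem : w ∈ mob (γ : SL(2, ℤ)) '' A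
        · rw [Set.indicator_of_mem hmem, hw0]
        · exact Set.indicator_of_notMem hmem _
      simp [this, hw0]
    · have hwU : w ∈ Uhp := by
        by_contra hwU
        apply hw0
        simp only [hh]
        rw [IntDAux.chi_eq_zero_of_notMem N χ₁ hwU, mul_zero, ENNReal.ofReal_zero]
      set S : Set (Gamma0 N) := {γ | w ∈ mob (γ : SL(2, ℤ)) '' A} with hS
      have hind : ∀ γ : Gamma0 N, (mob (γ : SL(2, ℤ)) '' A).indicator h w =
          S.indicator (fun _ => h w) γ := by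
        intro γ
        by_cases hmem : w ∈ mob (γ : SL(2, ℤ)) '' A
        · rw [Set.indicator_of_mem hmem, Set.indicator_of_mem (show γ ∈ S from hmem)]
        · rw [Set.indicator_of_notMem hmem, Set.indicator_of_notMem (show γ ∉ S from hmem)]
      simp_rw [hind]
      rw [← tsum_subtype S (fun _ => h w), ENNReal.tsum_set_const]
      have hSle : S.encard ≤ M := by
        refine le_trans ?_ (hM w hwU)
        refine Set.encard_le_encard_of_injOn (f := fun γ : Gamma0 N => ((γ : SL(2, ℤ)))⁻¹) ?_ ?_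
        · rintro γ ⟨z, hz, hzw⟩
          show mob ((γ : SL(2, ℤ)))⁻¹ w ∈ A
          rw [← hzw, mob_mob, inv_mul_cancel, _root_.Fermat.Agent.S21.PartitionAux.mob_one (hAU hz)]
          exact hz
        · intro γ _ γ' _ hγ
          exact Subtype.ext (inv_injective hγ)
      exact mul_le_mul_left (by exact_mod_cast hSle) _
  -- assemble the `lintegral` inequality
  have hlint : ∫⁻ z in A, ENNReal.ofReal (‖G z‖ ^ 2) ≤ M * ∫⁻ w, h w := by
    calc ∫⁻ z in A, ENNReal.ofReal (‖G z‖ ^ 2)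
        = ∫⁻ z in A, ∑' γ : Gamma0 N,
            ENNReal.ofReal (‖G z‖ ^ 2 * chi N χ₁ (mob (γ : SL(2, ℤ)) z)) :=
          setLIntegral_congr_fun hA hpt
      _ = ∑' γ : Gamma0 N, ∫⁻ z in A,
            ENNReal.ofReal (‖G z‖ ^ 2 * chi N χ₁ (mob (γ : SL(2, ℤ)) z)) :=
          lintegral_tsum hterm
      _ = ∑' γ : Gamma0 N, ∫⁻ w, (mob (γ : SL(2, ℤ)) '' A).indicator h w := by
          congr 1
          funext γ
          rw [hcv γ, lintegral_indicator (IntDAux.measurableSet_mob_image _ A hA hAU)]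
      _ = ∫⁻ w, ∑' γ : Gamma0 N, (mob (γ : SL(2, ℤ)) '' A).indicator h w :=
          (lintegral_tsum fun γ =>
            hh_meas.indicator (IntDAux.measurableSet_mob_image _ A hA hAU)).symm
      _ ≤ ∫⁻ w, M * h w := lintegral_mono hmult
      _ = M * ∫⁻ w, h w := lintegral_const_mul'' _ hh_meas
  -- back to Bochner integrals
  have hnn' : 0 ≤ᵐ[volume] fun z => ‖G z‖ ^ 2 * chi N χ₁ z :=
    Filter.Eventually.of_forall fun z => mul_nonneg (by positivity) (hnn z)
  have hI : ∫⁻ w, h w = ENNReal.ofReal (∫ z, ‖G z‖ ^ 2 * chi N χ₁ z) :=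
    (ofReal_integral_eq_lintegral_ofReal hfin hnn').symm
  have hInn : 0 ≤ ∫ z, ‖G z‖ ^ 2 * chi N χ₁ z := integral_nonneg_of_ae hnn'
  rw [integral_eq_lintegral_of_nonneg_ae (Filter.Eventually.of_forall fun z => by positivity)
    (hGA.norm.pow_const 2).aestronglyMeasurable]
  rw [hI] at hlint
  calc (∫⁻ z in A, ENNReal.ofReal (‖G z‖ ^ 2)).toReal
      ≤ ((M : ℝ≥0∞) * ENNReal.ofReal (∫ z, ‖G z‖ ^ 2 * chi N χ₁ z)).toReal :=
        ENNReal.toReal_mono (ENNReal.mul_ne_top (ENNReal.natCast_ne_top M) ENNReal.ofReal_ne_top)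
          hlint
    _ = M * ∫ z, ‖G z‖ ^ 2 * chi N χ₁ z := by
        rw [ENNReal.toReal_mul, ENNReal.toReal_natCast, ENNReal.toReal_ofReal hInn]

end Fermat.Agent.S21

end
-- ===== PACK-END S21/IntDCore.lean

-- ===== PACK-BEGIN S37/H217/Sat.lean
section



/-!
# Saturation (H4') from the degree equality (H1), abstract form

Setting of `NormRed.lean` (`G : RedCtx A π F Fk`, `t ∈ O`, `t̄` transcendental over `k`,
`[F : K(t)] = [F_k : k(t̄)] < ∞`).  Then every `f ∈ O` which is integral over `K[t]` is integral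
over `A[t]` (`isIntegral_polyRing_of_isIntegral`): **the integral closure of `A[t]` in `F` is
`O ∩` (integral closure of `K[t]`)**.  No noetherian/discreteness hypothesis on `A`.

Also: `transcendental_of_rho` (`t` is transcendental over `K`), `coeff_mem_of_aeval_mem`
(`O ∩ K[t] = A[t]`), `exists_residBasis` (the lifted residue basis).
-/

namespace Fermat.Agent.S37.H217

open IntermediateField Polynomial

open scoped IntermediateField.algebraAdjoinAdjoin

namespace RedCtx

variable {K k : Type*} [Field K] [Field k] {A : ValuationSubring K} {π : A →+* k}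
  {F Fk : Type*} [Field F] [Field Fk] [Algebra K F] [Algebra k Fk] (G : RedCtx A π F Fk)

variable {t : F} (ht : t ∈ G.O) (htr : Transcendental k (G.ρ ⟨t, ht⟩))

include htr in
/-- `O ∩ K[t] = A[t]`: a polynomial over `K` whose value at `t` lies in `O` has coefficients in
`A`. -/
theorem coeff_mem_of_aeval_mem (P : K[X]) (hP : aeval t P ∈ G.O) (i : ℕ) : P.coeff i ∈ A := by
  by_cases hP0 : P = 0
  · rw [hP0, coeff_zero]; exact A.zero_mem
  obtain ⟨c, P₁, hc, hPc, hP₁⟩ := exists_primitive π P hP0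
  set R₁ : G.O := G.evalO ⟨t, ht⟩ P₁ with hR₁
  have hRu : (R₁ : F) ∉ G.O.nonunits := G.evalO_notMem_nonunits ht htr hP₁
  have hR0 : (R₁ : F) ≠ 0 := fun h => hRu (h ▸ G.O.nonunits.zero_mem)
  have hRinv : (R₁ : F)⁻¹ ∈ G.O := by
    rcases G.O.mem_or_inv_mem (R₁ : F) with h | h
    · by_contra hn
      apply hRu
      rw [ValuationSubring.mem_nonunits_iff_or]
      exact Or.inr hn
    · exact h
  have hval : aeval t P = algebraMap K F c * (R₁ : F) := by
    rw [hR₁, G.coe_evalO, hPc, map_mul, aeval_C]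
  have hcO : algebraMap K F c ∈ G.O := by
    have : algebraMap K F c = aeval t P * (R₁ : F)⁻¹ := by
      rw [hval]; field_simp
    rw [this]
    exact G.O.mul_mem _ _ hP hRinv
  have hcA : c ∈ A := G.mem_of_algebraMap_mem hcO
  rw [hPc, coeff_C_mul, coeff_map]
  exact A.mul_mem _ _ hcA (P₁.coeff i).2

include htr in
/-- `t` is transcendental over `K`. -/
theorem transcendental_of_rho : Transcendental K t := by
  rw [transcendental_iff]
  intro P hP
  by_contra hP0
  obtain ⟨c, P₁, hc, hPc, hP₁⟩ := exists_primitive π P hP0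
  have hRu := G.evalO_notMem_nonunits ht htr hP₁
  apply hRu
  rw [G.coe_evalO]
  have h1 : aeval t P = algebraMap K F c * aeval t (P₁.map (algebraMap A K)) := by
    conv_lhs => rw [hPc]
    rw [map_mul, aeval_C]
  rw [hP] at h1
  have h2 : aeval t (P₁.map (algebraMap A K)) = 0 := by
    rcases mul_eq_zero.mp h1.symm with h | h
    · exact absurd ((_root_.map_eq_zero _).mp h) hc
    · exact h
  rw [h2]
  exact G.O.nonunits.zero_mem

include htr in
/-- The lifted residue basis. -/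
theorem exists_residBasis [FiniteDimensional K⟮t⟯ F] [FiniteDimensional k⟮G.ρ ⟨t, ht⟩⟯ Fk]
    (hfr : Module.finrank K⟮t⟯ F = Module.finrank k⟮G.ρ ⟨t, ht⟩⟯ Fk) :
    ∃ b : Module.Basis (Fin (Module.finrank k⟮G.ρ ⟨t, ht⟩⟯ Fk)) K⟮t⟯ F,
      ResidIndep (G.V₀ t) G.O b ∧ ∀ i, b i ∈ G.O := by
  classical
  set b₁ := Module.finBasis k⟮G.ρ ⟨t, ht⟩⟯ Fk with hb₁def
  choose e he using fun i => G.ρ_surj (b₁ i)
  have hR : ResidIndep (G.V₀ t) G.O (fun i => ((e i : G.O) : F)) := by
    intro c hc hsum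
    set s : G.O := ∑ i, G.incl t ⟨c i, hc i⟩ * e i with hs
    have hsF : (s : F) = ∑ i, c i • ((e i : G.O) : F) := by
      rw [hs, ← ValuationSubring.subtype_apply, map_sum]
      refine Finset.sum_congr rfl fun i _ => ?_
      rw [map_mul, Algebra.smul_def]
      rfl
    have hρs : G.ρ s = 0 := by
      rw [G.ρ_eq_zero_iff, hsF]
      exact hsum
    have hρs' : ∑ i, G.ρ₀ ht htr ⟨c i, hc i⟩ • b₁ i = 0 := by
      rw [← hρs, hs, map_sum]
      refine Finset.sum_congr rfl fun i _ => ?_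
      rw [map_mul, he, Algebra.smul_def]
      rfl
    have hzero := Fintype.linearIndependent_iff.mp b₁.linearIndependent _ hρs'
    intro i
    have h1 : G.ρ (G.incl t ⟨c i, hc i⟩) = 0 := by
      have := congrArg (fun z : k⟮G.ρ ⟨t, ht⟩⟯ => (z : Fk)) (hzero i)
      simpa [coe_ρ₀] using this
    rw [G.ρ_eq_zero_iff, coe_incl] at h1
    exact ((G.valExtends t).mem_nonunits_iff (c i)).mp h1
  have : Nonempty (Fin (Module.finrank k⟮G.ρ ⟨t, ht⟩⟯ Fk)) :=
    ⟨⟨0, Module.finrank_pos⟩⟩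
  obtain ⟨b, hb⟩ := exists_basis_of_residIndep hR (by rw [Fintype.card_fin, hfr])
  have hbi : ∀ i, b i = ((e i : G.O) : F) := fun i => congrFun hb i
  refine ⟨b, by rw [hb]; exact hR, fun i => by rw [hbi]; exact (e i).2⟩

/-- `A[t] ⊆ F` (the subring generated by the image of `A` and `t`). -/
def polyRing (_G : RedCtx A π F Fk) (t : F) : Subring F :=
  A.toSubring.map (algebraMap K F) ⊔ Subring.closure {t}

theorem aeval_mem_polyRing (t : F) (P : K[X]) (hP : ∀ i, P.coeff i ∈ A) :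
    aeval t P ∈ G.polyRing t := by
  rw [aeval_eq_sum_range]
  refine Subring.sum_mem _ fun i _ => ?_
  rw [Algebra.smul_def]
  refine Subring.mul_mem _ ?_ ?_
  · exact (le_sup_left : _ ≤ G.polyRing t) (Subring.mem_map.mpr ⟨_, hP i, rfl⟩)
  · exact Subring.pow_mem _
      ((le_sup_right : _ ≤ G.polyRing t) (Subring.subset_closure rfl)) _

include htr in
/-- **Saturation (H4')**: an element of `O` integral over `K[t]` is integral over `A[t]`. -/
theorem isIntegral_polyRing_of_isIntegral [FiniteDimensional K⟮t⟯ F]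
    [FiniteDimensional k⟮G.ρ ⟨t, ht⟩⟯ Fk]
    (hfr : Module.finrank K⟮t⟯ F = Module.finrank k⟮G.ρ ⟨t, ht⟩⟯ Fk)
    {f : F} (hfO : f ∈ G.O) (hf : IsIntegral (Algebra.adjoin K {t}) f) :
    IsIntegral (G.polyRing t) f := by
  classical
  have httr : Transcendental K t := G.transcendental_of_rho ht htr
  obtain ⟨b, hbR, hbO⟩ := G.exists_residBasis ht htr hfr
  have : IsIntegrallyClosed (Algebra.adjoin K {t}) :=
    IsIntegrallyClosed.of_equiv (algEquivOfTranscendental K t httr).toRingEquiv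
  have hmin : minpoly K⟮t⟯ f = (minpoly (Algebra.adjoin K {t}) f).map
      (algebraMap (Algebra.adjoin K {t}) K⟮t⟯) :=
    minpoly.isIntegrallyClosed_eq_field_fractions' K⟮t⟯ hf
  set q := minpoly (Algebra.adjoin K {t}) f with hq
  -- the coefficients of `q` lie in `A[t]`
  have hcoeff : ∀ i, ((q.coeff i : Algebra.adjoin K {t}) : F) ∈ G.polyRing t := by
    intro i
    have h1 := minpoly_coeff_mem (G.valExtends t) b hbR hbO ⟨f, hfO⟩ i
    have h1' : (minpoly K⟮t⟯ f).coeff i ∈ G.V₀ t := h1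
    rw [hmin, coeff_map] at h1'
    have h2 : ((q.coeff i : Algebra.adjoin K {t}) : F) ∈ G.O := h1'
    have h3 : ((q.coeff i : Algebra.adjoin K {t}) : F) ∈ (aeval (R := K) t).range := by
      rw [← Algebra.adjoin_singleton_eq_range_aeval]
      exact (q.coeff i).2
    obtain ⟨P, hP⟩ := h3
    have hP' : aeval t P = ((q.coeff i : Algebra.adjoin K {t}) : F) := hP
    rw [← hP']
    rw [← hP'] at h2
    exact G.aeval_mem_polyRing t P (G.coeff_mem_of_aeval_mem ht htr P h2)
  -- lift `q` to a monic polynomial over `A[t]`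
  set Q : F[X] := q.map (algebraMap (Algebra.adjoin K {t}) F) with hQ
  have hQmon : Q.Monic := (minpoly.monic hf).map _
  have hl : Q ∈ Polynomial.lifts (algebraMap (G.polyRing t) F) := by
    rw [Polynomial.lifts_iff_coeff_lifts]
    intro i
    refine ⟨⟨_, hcoeff i⟩, ?_⟩
    rw [hQ, coeff_map]
    rfl
  obtain ⟨q', hq', -, hq'm⟩ := Polynomial.lifts_and_degree_eq_and_monic hl hQmon
  refine ⟨q', hq'm, ?_⟩
  have h4 : Polynomial.eval₂ (algebraMap (G.polyRing t) F) f q' = Polynomial.eval f Q := by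
    rw [← hq', Polynomial.eval_map]
  rw [h4, hQ, Polynomial.eval_map]
  exact minpoly.aeval (Algebra.adjoin K {t}) f

end RedCtx

end Fermat.Agent.S37.H217

end
-- ===== PACK-END S37/H217/Sat.lean

-- ===== PACK-BEGIN S37/H697/Equivariant.lean
section



/-!
# S37 (helper697): Galois-equivariance of place reductions

Let `r` be a place reduction (`IsPlaceReductionAlong` + `PrincipalGeneratedByIntegral`) and let
`σ` be an automorphism of `L` preserving the valuation ring `A` and inducing the automorphism `φ`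
on the residue field.  Then `r (σ • P) = Φ_φ • r P` for every place `P`, where `Φ_φ = coeffSL N φ`
is the coefficientwise action of `φ`.  (Inertia: `φ = id`; Frobenius: `φ = Frob`.)

The proof uses the uniqueness of place reductions under a Riemann bound (`Unique.lean`);
no explicit description of `r` is needed.
-/

set_option autoImplicit false

noncomputable section

open HahnSeries IntermediateField AlgebraicCurve ModularCurve

namespace Fermat.Agent.S37.H697

variable {L : Type*} [Field L] [Algebra ℚ L] {A : ValuationSubring L}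
variable {k : Type*} [Field k] {π : A →+* k} {N : ℕ}

/-- The restriction to `A` of an automorphism of `L` preserving `A`. -/
def restrictHom (σ : L ≃ₐ[ℚ] L) (hσ : ∀ a ∈ A, σ a ∈ A) : A →+* A where
  toFun a := ⟨σ a, hσ a a.2⟩
  map_one' := Subtype.ext (map_one σ)
  map_mul' a b := Subtype.ext (map_mul σ (a : L) (b : L))
  map_zero' := Subtype.ext (map_zero σ)
  map_add' a b := Subtype.ext (map_add σ (a : L) (b : L))

theorem coeffMap_injective_of_injective {R S : Type*} [CommRing R] [CommRing S] (f : R →+* S)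
    (hf : Function.Injective f) : Function.Injective (coeffMap f) := by
  intro x y h
  ext n
  apply hf
  have := congrArg (fun z => z.coeff n) h
  simpa using this

/-- Transport of integral principal divisors by an automorphism preserving `A`. -/
theorem smul_integral_divisor
    {r : Place L (laurentBaseChange L (modularFunctionFieldFull N)) →
      Place k (modularFunctionFieldFullC k N)}
    (hr : IsPlaceReductionAlong A π N r)
    (σ : L ≃ₐ[ℚ] L) (hσ : ∀ a ∈ A, σ a ∈ A)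
    (φ : k ≃+* k) (hφ : ∀ a : A, π ⟨σ a, hσ a a.2⟩ = φ (π a))
    {D : Divisor L (laurentBaseChange L (modularFunctionFieldFull N))}
    (hD : D ∈ integralPrincipalDivisors A π N) :
    Finsupp.mapDomain r (arithmeticGalois (modularFunctionFieldFull N) σ • D)
      = coeffSL N φ • Finsupp.mapDomain r D := by
  obtain ⟨y, hy, hyk, hne, hDy⟩ := hD
  set g := arithmeticGalois (modularFunctionFieldFull N) σ with hg
  set Φ := coeffSL N φ with hΦ
  -- the transported integral function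
  set y' : LaurentSeries A := coeffMap (restrictHom σ hσ) y with hy'def
  have h1 : coeffMap A.subtype y' = coeffMap (σ : L →+* L) (coeffMap A.subtype y) := by
    rw [hy'def, coeffMap_coeffMap, coeffMap_coeffMap]
    exact coeffMap_congr (RingHom.ext fun a => rfl) y
  have hy' : coeffMap A.subtype y' ∈ laurentBaseChange L (modularFunctionFieldFull N) := by
    rw [h1]; exact coeffMap_mem_laurentBaseChange σ hy
  have h2 : coeffMap π y' = coeffMap (φ : k →+* k) (coeffMap π y) := by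
    rw [hy'def, coeffMap_coeffMap, coeffMap_coeffMap]
    exact coeffMap_congr (RingHom.ext fun a => hφ a) y
  have hyk' : coeffMap π y' ∈ modularFunctionFieldFullC k N := by
    rw [h2]; exact coeffMap_mem_fullC N _ hyk
  have hne' : coeffMap π y' ≠ 0 := by
    rw [h2]
    intro h0
    apply hne
    apply coeffMap_injective_of_injective (φ : k →+* k) φ.injective
    rw [h0, map_zero]
  have hD' : ∀ P, (g • D) P = P.ord (⟨coeffMap A.subtype y', hy'⟩ :
      laurentBaseChange L (modularFunctionFieldFull N)) := by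
    intro P
    rw [SemilinearAut.divisor_smul_apply, hDy]
    have h3 := SemilinearAut.ord_smul g (g⁻¹ • P)
      (⟨coeffMap A.subtype y, hy⟩ : laurentBaseChange L (modularFunctionFieldFull N))
    rw [smul_inv_smul] at h3
    have h5 : (g • (⟨coeffMap A.subtype y, hy⟩ :
        laurentBaseChange L (modularFunctionFieldFull N)))
        = ⟨coeffMap A.subtype y', hy'⟩ := Subtype.ext h1.symm
    rw [← h3, h5]
  have key1 := hr.2 y' hy' hyk' hne' (g • D) hD'
  have key0 := hr.2 y hy hyk hne D hDy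
  ext Q
  rw [key1 Q, SemilinearAut.divisor_smul_apply, key0]
  have h4 := SemilinearAut.ord_smul Φ (Φ⁻¹ • Q)
    (⟨coeffMap π y, hyk⟩ : modularFunctionFieldFullC k N)
  rw [smul_inv_smul] at h4
  have h6 : (Φ • (⟨coeffMap π y, hyk⟩ : modularFunctionFieldFullC k N))
      = ⟨coeffMap π y', hyk'⟩ := Subtype.ext h2.symm
  rw [← h4, h6]

/-- **Equivariance of place reductions.** -/
theorem placeReduction_equivariant
    {r : Place L (laurentBaseChange L (modularFunctionFieldFull N)) →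
      Place k (modularFunctionFieldFullC k N)}
    (hr : IsPlaceReductionAlong A π N r) (hgen : PrincipalGeneratedByIntegral A π N)
    (hdeg : ∀ P : Place L (laurentBaseChange L (modularFunctionFieldFull N)), P.deg = 1)
    (hprin0 : ∀ D ∈ Divisor.principal (K := L)
      (F := laurentBaseChange L (modularFunctionFieldFull N)), Divisor.degree D = 0)
    (hR : RiemannBound L (laurentBaseChange L (modularFunctionFieldFull N)))
    (hnc : ∃ D ∈ Divisor.principal (K := L)
      (F := laurentBaseChange L (modularFunctionFieldFull N)), Finsupp.mapDomain r D ≠ 0)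
    (σ : L ≃ₐ[ℚ] L) (hσ : ∀ a ∈ A, σ a ∈ A)
    (φ : k ≃+* k) (hφ : ∀ a : A, π ⟨σ a, hσ a a.2⟩ = φ (π a))
    (P : Place L (laurentBaseChange L (modularFunctionFieldFull N))) :
    r (arithmeticGalois (modularFunctionFieldFull N) σ • P) = coeffSL N φ • r P := by
  set g := arithmeticGalois (modularFunctionFieldFull N) σ with hg
  set Φ := coeffSL N φ with hΦ
  set r₂ : Place L (laurentBaseChange L (modularFunctionFieldFull N)) →
      Place k (modularFunctionFieldFullC k N) := fun P => Φ⁻¹ • r (g • P) with hr₂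
  have hcomp : ∀ D : Divisor L (laurentBaseChange L (modularFunctionFieldFull N)),
      Finsupp.mapDomain r₂ D = Φ⁻¹ • Finsupp.mapDomain r (g • D) := by
    intro D
    have : r₂ = (fun Q => Φ⁻¹ • Q) ∘ r ∘ (fun P => g • P) := rfl
    rw [this, Finsupp.mapDomain_comp, Finsupp.mapDomain_comp]
    rfl
  have hagree : ∀ D ∈ integralPrincipalDivisors A π N,
      Finsupp.mapDomain r D = Finsupp.mapDomain r₂ D := by
    intro D hD
    rw [hcomp, smul_integral_divisor hr σ hσ φ hφ hD, inv_smul_smul]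
  have heq : r = r₂ := eq_of_agree hgen hagree hdeg hprin0 hR hnc
  have hP : r P = Φ⁻¹ • r (g • P) := congrFun heq P
  rw [hP, smul_inv_smul]

/-- Equivariance on divisors. -/
theorem mapDomain_smul
    {r : Place L (laurentBaseChange L (modularFunctionFieldFull N)) →
      Place k (modularFunctionFieldFullC k N)}
    (hr : IsPlaceReductionAlong A π N r) (hgen : PrincipalGeneratedByIntegral A π N)
    (hdeg : ∀ P : Place L (laurentBaseChange L (modularFunctionFieldFull N)), P.deg = 1)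
    (hprin0 : ∀ D ∈ Divisor.principal (K := L)
      (F := laurentBaseChange L (modularFunctionFieldFull N)), Divisor.degree D = 0)
    (hR : RiemannBound L (laurentBaseChange L (modularFunctionFieldFull N)))
    (hnc : ∃ D ∈ Divisor.principal (K := L)
      (F := laurentBaseChange L (modularFunctionFieldFull N)), Finsupp.mapDomain r D ≠ 0)
    (σ : L ≃ₐ[ℚ] L) (hσ : ∀ a ∈ A, σ a ∈ A)
    (φ : k ≃+* k) (hφ : ∀ a : A, π ⟨σ a, hσ a a.2⟩ = φ (π a))
    (D : Divisor L (laurentBaseChange L (modularFunctionFieldFull N))) :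
    Finsupp.mapDomain r (arithmeticGalois (modularFunctionFieldFull N) σ • D)
      = coeffSL N φ • Finsupp.mapDomain r D := by
  induction D using Finsupp.induction with
  | zero => simp
  | single_add P n D _ _ ih =>
    rw [smul_add, Finsupp.mapDomain_add, Finsupp.mapDomain_add, smul_add, ih,
      SemilinearAut.smul_single, Finsupp.mapDomain_single, Finsupp.mapDomain_single,
      SemilinearAut.smul_single,
      placeReduction_equivariant hr hgen hdeg hprin0 hR hnc σ hσ φ hφ P]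

end Fermat.Agent.S37.H697

end
end
-- ===== PACK-END S37/H697/Equivariant.lean

-- ===== PACK-BEGIN S37/H697/KronDet.lean
section




/-!
# S37 (helper697): the formal Kronecker norm `V_ℓ f · det (kronMat ℓ f)`

On top of helper340's formal Kronecker polynomial (`H340.kron`):

* `knorm ℓ f := V_ℓ f · det (kronMat ℓ f)`, compatible with coefficient homomorphisms;
* `qExpand_kdet_eq_prod` : `V_ℓ (det (kronMat ℓ f)) = ∏_{b<ℓ} f(ζ^b q)` over a domain with a
  primitive `ℓ`-th root of unity `ζ`;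
* `kdet_char` : `det (kronMat ℓ f) = f^φ` (coefficientwise Frobenius) in characteristic `ℓ`;
* `knorm_char_equiv` : in characteristic `ℓ`, for an automorphism `φ` of the coefficient field
  with `φ x = x ^ ℓ`:  `knorm ℓ f = (Φ⁻¹ f) ^ ℓ · Φ f`.
-/

set_option autoImplicit false

noncomputable section

namespace Fermat.Agent.S37.H697

open ModularCurve HahnSeries Polynomial Matrix

variable {R : Type*} [CommRing R] (ℓ : ℕ) [NeZero ℓ]

/-- The determinant of the section matrix of `f`. -/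
def kdet (f : LaurentSeries R) : LaurentSeries R := (H340.kronMat ℓ f).det

/-- The formal Kronecker norm `f(q^ℓ) · det (kronMat ℓ f)`. -/
def knorm (f : LaurentSeries R) : LaurentSeries R := qExpand R ℓ f * kdet ℓ f

theorem kdet_coeffMap {S : Type*} [CommRing S] (g : R →+* S) (f : LaurentSeries R) :
    kdet ℓ (coeffMap g f) = coeffMap g (kdet ℓ f) := by
  rw [kdet, kdet, H340.kronMat_map, RingHom.map_det]
  rfl

theorem knorm_coeffMap {S : Type*} [CommRing S] (g : R →+* S) (f : LaurentSeries R) :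
    knorm ℓ (coeffMap g f) = coeffMap g (knorm ℓ f) := by
  rw [knorm, knorm, map_mul, kdet_coeffMap, coeffMap_qExpand]

theorem kdet_eq_coeff_zero (f : LaurentSeries R) :
    kdet ℓ f = (-1) ^ ℓ * (H340.kron ℓ f).coeff 0 := by
  rw [kdet, H340.kron, Matrix.det_eq_sign_charpoly_coeff, Fintype.card_fin]

/-- **Product formula** for the determinant. -/
theorem qExpand_kdet_eq_prod [IsDomain R] {ζ : R} (hζ : IsPrimitiveRoot ζ ℓ)
    (f : LaurentSeries R) :
    qExpand R ℓ (kdet ℓ f) = ∏ b : Fin ℓ, H340.tw ℓ (ζ ^ (b : ℕ)) f := by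
  have h := congrArg (fun P : (LaurentSeries R)[X] => P.coeff 0)
    (H340.kron_map_qExpand_eq_prod hζ f)
  simp only [Polynomial.coeff_map] at h
  rw [kdet_eq_coeff_zero, map_mul, map_pow, map_neg, map_one, h,
    Polynomial.coeff_zero_eq_eval_zero, Polynomial.eval_prod]
  simp only [Polynomial.eval_sub, Polynomial.eval_X, Polynomial.eval_C, zero_sub]
  rw [Finset.prod_neg, Finset.card_univ, Fintype.card_fin, ← mul_assoc, ← mul_pow]
  simp

section CharL

variable [hℓ : Fact ℓ.Prime] [CharP R ℓ] [IsDomain R]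

/-- In characteristic `ℓ`: `det (kronMat ℓ f) = f^φ`. -/
theorem kdet_char (f : LaurentSeries R) :
    kdet ℓ f = coeffMap (frobenius R ℓ) f := by
  have := H340.charP_laurentSeries (R := R) ℓ
  rw [kdet_eq_coeff_zero, H340.kron_char, Polynomial.coeff_sub, Polynomial.coeff_X_pow,
    Polynomial.coeff_C_zero, if_neg hℓ.out.pos.ne, zero_sub]
  rcases hℓ.out.eq_two_or_odd' with h2 | hodd
  · have h2' : (2 : LaurentSeries R) = 0 := by
      have := CharP.cast_eq_zero (LaurentSeries R) ℓ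
      rw [h2] at this
      exact_mod_cast this
    have hneg : -(coeffMap (frobenius R ℓ) f) = coeffMap (frobenius R ℓ) f := by
      rw [neg_eq_iff_add_eq_zero, ← two_mul, h2', zero_mul]
    have h1 : (-1 : LaurentSeries R) ^ ℓ = 1 := by rw [h2]; simp
    rw [hneg, h1, one_mul]
  · rw [hodd.neg_one_pow]
    ring

/-- In characteristic `ℓ`: `knorm ℓ f = f(q^ℓ) · f^φ`. -/
theorem knorm_char (f : LaurentSeries R) :
    knorm ℓ f = qExpand R ℓ f * coeffMap (frobenius R ℓ) f := by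
  rw [knorm, kdet_char]

/-- In characteristic `ℓ`, for an automorphism `φ` of `R` with `φ x = x ^ ℓ`:
`knorm ℓ f = (Φ⁻¹ f) ^ ℓ · Φ f`. -/
theorem knorm_char_equiv (φ : R ≃+* R) (hφ : ∀ x, φ x = x ^ ℓ) (f : LaurentSeries R) :
    knorm ℓ f = (coeffMap (φ.symm : R →+* R) f) ^ ℓ * coeffMap (φ : R →+* R) f := by
  have hfrob : (φ : R →+* R) = frobenius R ℓ := RingHom.ext fun x => by
    rw [RingEquiv.coe_toRingHom, hφ, frobenius_def]
  rw [knorm_char, H340.pow_char_eq_qExpand, coeffMap_coeffMap, hfrob]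
  congr 2
  rw [← hfrob]
  have : ((φ : R →+* R).comp (φ.symm : R →+* R)) = RingHom.id R :=
    RingHom.ext fun x => φ.apply_symm_apply x
  rw [this, coeffMap_id]

end CharL

end Fermat.Agent.S37.H697

end
end
-- ===== PACK-END S37/H697/KronDet.lean

-- ===== PACK-BEGIN S28/H988/Gen.lean
section
/-
S28 / [L.UP] upper bound, helper988.
The generation step (zeta-free): for distinct `p ≠ r` with modular relations
`Φ_p`, `Φ_r` and `e ≠ 0`:  `j(q^{epr}) ∈ k(j(q^{er}), j(q^{ep}))`.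
-/




set_option autoImplicit false

noncomputable section

open Polynomial ModularCurve

namespace Fermat.Agent.S28.H988

/-! ### Total versions of `qExpand` and `j(q^e)` -/

section Basic

variable (k : Type*) [Field k]

/-- `q ↦ q^m`, total in `m` (identity for `m = 0`). -/
def Vm (m : ℕ) : LaurentSeries k →+* LaurentSeries k :=
  if h : m = 0 then RingHom.id _ else @qExpand k _ m ⟨h⟩

theorem Vm_eq (m : ℕ) [NeZero m] : Vm k m = qExpand k m := by
  unfold Vm
  rw [dif_neg (NeZero.ne m)]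

theorem Vm_of_ne {m : ℕ} (hm : m ≠ 0) : Vm k m = @qExpand k _ m ⟨hm⟩ := by
  unfold Vm
  rw [dif_neg hm]

theorem Vm_one : Vm k 1 = RingHom.id _ := by
  ext1 f
  rw [Vm_eq k 1]
  exact qExpand_one_apply f

theorem Vm_injective (m : ℕ) : Function.Injective (Vm k m) := by
  by_cases h : m = 0
  · subst h
    unfold Vm
    rw [dif_pos rfl]
    exact fun _ _ h => h
  · rw [Vm_of_ne k h]
    exact @qExpand_injective k _ m ⟨h⟩

theorem Vm_Vm {m n : ℕ} (hm : m ≠ 0) (hn : n ≠ 0) (f : LaurentSeries k) :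
    Vm k m (Vm k n f) = Vm k (m * n) f := by
  have : NeZero m := ⟨hm⟩
  have : NeZero n := ⟨hn⟩
  have : NeZero (m * n) := ⟨Nat.mul_ne_zero hm hn⟩
  rw [Vm_eq k m, Vm_eq k n, Vm_eq k (m * n)]
  exact qExpand_qExpand n m f

/-- `j(q^e)`, total in `e`. -/
def jd (e : ℕ) : LaurentSeries k := Vm k e (jqModC k)

theorem jd_eq (e : ℕ) [NeZero e] : jd k e = qExpand k e (jqModC k) := by
  unfold jd
  rw [Vm_eq]

theorem jd_one : jd k 1 = jqModC k := by
  unfold jd
  rw [Vm_one]
  rfl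

theorem Vm_jd {m e : ℕ} (hm : m ≠ 0) (he : e ≠ 0) : Vm k m (jd k e) = jd k (m * e) := by
  unfold jd
  exact Vm_Vm k hm he _

theorem orderTop_Vm {m : ℕ} (hm : m ≠ 0) (f : LaurentSeries k) (a : ℤ)
    (h : f.orderTop = (a : WithTop ℤ)) :
    (Vm k m f).orderTop = (((m : ℤ) * a : ℤ) : WithTop ℤ) := by
  have : NeZero m := ⟨hm⟩
  rw [Vm_eq k m]
  have hmpos : (0 : ℤ) < m := by exact_mod_cast Nat.pos_of_ne_zero hm
  apply HahnSeries.orderTop_eq_of_le
  · rw [HahnSeries.mem_support, qExpand_coeff_mul]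
    exact HahnSeries.coeff_orderTop_ne h
  · intro g hg
    rw [HahnSeries.mem_support] at hg
    by_cases hdvd : (m : ℤ) ∣ g
    · obtain ⟨c, rfl⟩ := hdvd
      rw [qExpand_coeff_mul] at hg
      have : (a : WithTop ℤ) ≤ c := by
        rw [← h]; exact HahnSeries.orderTop_le_of_coeff_ne_zero hg
      have hac : a ≤ c := by exact_mod_cast this
      exact mul_le_mul_of_nonneg_left hac hmpos.le
    · exact absurd (qExpand_coeff_of_not_dvd m f hdvd) hg

theorem orderTop_jq : (jqModC k).orderTop = ((-1 : ℤ) : WithTop ℤ) := by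
  apply HahnSeries.orderTop_eq_of_le
  · rw [HahnSeries.mem_support, coeff_jqModC_neg_one]
    exact one_ne_zero
  · intro g hg
    rw [HahnSeries.mem_support] at hg
    by_contra hlt
    exact hg (coeff_jqModC_of_lt k (not_le.mp hlt))

theorem orderTop_jd {e : ℕ} (he : e ≠ 0) :
    (jd k e).orderTop = ((-(e : ℤ) : ℤ) : WithTop ℤ) := by
  unfold jd
  rw [orderTop_Vm k he _ (-1) (orderTop_jq k)]
  congr 1
  ring

theorem jd_ne {e e' : ℕ} (he : e ≠ 0) (he' : e' ≠ 0) (h : e ≠ e') : jd k e ≠ jd k e' := by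
  intro heq
  have h1 := orderTop_jd k he
  rw [heq, orderTop_jd k he'] at h1
  have : (-(e' : ℤ)) = -(e : ℤ) := by exact_mod_cast h1
  apply h
  have : (e' : ℤ) = e := by linarith
  exact_mod_cast this.symm

/-- `Vm` scales orders of nonzero elements. -/
theorem exists_orderTop_Vm (m : ℕ) (hm : m ≠ 0) (c : LaurentSeries k) (hc : Vm k m c ≠ 0) :
    ∃ n : ℤ, (Vm k m c).orderTop = (((m : ℤ) * n : ℤ) : WithTop ℤ) := by
  have hc' : c ≠ 0 := by
    rintro rfl
    exact hc (map_zero _)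
  obtain ⟨n, hn⟩ := exists_orderTop_eq c hc'
  exact ⟨n, orderTop_Vm k hm c n hn⟩

/-- `Vm` scales slopes. -/
theorem IsPure.map_Vm {G : Polynomial (LaurentSeries k)} {s : ℤ} (h : IsPure G s) {m : ℕ}
    (hm : m ≠ 0) : IsPure (G.map (Vm k m)) ((m : ℤ) * s) := by
  have hdeg : (G.map (Vm k m)).natDegree = G.natDegree :=
    natDegree_map_eq_of_injective (Vm_injective k m) G
  have hmpos : (0 : ℤ) < m := by exact_mod_cast Nat.pos_of_ne_zero hm
  refine ⟨h.monic.map _, ?_, ?_⟩
  · intro i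
    rw [coeff_map, hdeg]
    by_cases hc : G.coeff i = 0
    · rw [hc, map_zero, HahnSeries.orderTop_zero]; exact le_top
    · obtain ⟨n, hn⟩ := exists_orderTop_eq _ hc
      rw [orderTop_Vm k hm _ n hn]
      have := h.le_coeff i
      rw [hn] at this
      have h1 : ((G.natDegree : ℤ) - i) * s ≤ n := by exact_mod_cast this
      have h2 : ((G.natDegree : ℤ) - i) * ((m : ℤ) * s) ≤ (m : ℤ) * n := by
        have := mul_le_mul_of_nonneg_left h1 hmpos.le
        linarith
      exact_mod_cast h2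
  · rw [coeff_map, hdeg, orderTop_Vm k hm _ _ h.coeff_zero]
    congr 1
    ring

end Basic

/-! ### Specialising a two-variable integral polynomial -/

section PhiAt

variable {S T : Type*} [CommRing S] [CommRing T]

/-- `Φ(X, y)` for `Φ ∈ ℤ[Y][X]`. -/
def PhiAt (Φ : Polynomial (Polynomial ℤ)) (y : S) : Polynomial S :=
  Φ.map (eval₂RingHom (Int.castRingHom S) y)

theorem PhiAt_map (Φ : Polynomial (Polynomial ℤ)) (y : S) (σ : S →+* T) :
    (PhiAt Φ y).map σ = PhiAt Φ (σ y) := by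
  unfold PhiAt
  rw [Polynomial.map_map]
  congr 1
  apply Polynomial.ringHom_ext
  · intro a
    simp
  · simp

theorem PhiAt_monic {Φ : Polynomial (Polynomial ℤ)} (hΦ : Φ.Monic) (y : S) :
    (PhiAt Φ y).Monic := hΦ.map _

theorem PhiAt_natDegree [Nontrivial S] {Φ : Polynomial (Polynomial ℤ)} (hΦ : Φ.Monic) (y : S) :
    (PhiAt Φ y).natDegree = Φ.natDegree := hΦ.natDegree_map _

end PhiAt

/-! ### Modular relations and the quotient polynomial -/

section Rel

variable (k : Type*) [Field k]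

/-- The two modular relations of level `p` over the field `k`:
`Φ(j(q^p), j) = 0` and `Φ(j, j(q^p)) = 0`, for a monic `Φ ∈ ℤ[Y][X]` of degree `p + 1`. -/
structure PhiRel (p : ℕ) (Φ : Polynomial (Polynomial ℤ)) : Prop where
  monic : Φ.Monic
  natDegree_eq : Φ.natDegree = p + 1
  root_jp : (PhiAt Φ (jqModC k)).IsRoot (jd k p)
  root_j : (PhiAt Φ (jd k p)).IsRoot (jqModC k)

variable {k} {p : ℕ} {Φ : Polynomial (Polynomial ℤ)}

theorem PhiRel.root1 (h : PhiRel k p Φ) (hp : p ≠ 0) {e : ℕ} (he : e ≠ 0) :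
    (PhiAt Φ (jd k e)).IsRoot (jd k (e * p)) := by
  have := h.root_jp.map (f := Vm k e)
  rwa [PhiAt_map, Vm_jd k he hp] at this

theorem PhiRel.root2 (h : PhiRel k p Φ) (hp : p ≠ 0) {e : ℕ} (he : e ≠ 0) :
    (PhiAt Φ (jd k (e * p))).IsRoot (jd k e) := by
  have := h.root_j.map (f := Vm k e)
  rwa [PhiAt_map, Vm_jd k he hp] at this

variable (k) in
/-- The quotient `Φ(X, j(q^e)) / (X - j(q^{ep}))`. -/
def quot (Φ : Polynomial (Polynomial ℤ)) (p e : ℕ) : Polynomial (LaurentSeries k) :=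
  PhiAt Φ (jd k e) /ₘ (X - C (jd k (e * p)))

theorem quot_map_Vm (Φ : Polynomial (Polynomial ℤ)) (hp : p ≠ 0) {e m : ℕ} (he : e ≠ 0)
    (hm : m ≠ 0) : (quot k Φ p e).map (Vm k m) = quot k Φ p (m * e) := by
  unfold quot
  rw [map_divByMonic _ (monic_X_sub_C _), PhiAt_map, Polynomial.map_sub, map_X, map_C,
    Vm_jd k hm he, Vm_jd k hm (Nat.mul_ne_zero he hp), mul_assoc]

theorem PhiRel.quot_spec (h : PhiRel k p Φ) (hp : p ≠ 0) {e : ℕ} (he : e ≠ 0) :
    (X - C (jd k (e * p))) * quot k Φ p e = PhiAt Φ (jd k e) :=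
  mul_divByMonic_eq_iff_isRoot.mpr (h.root1 hp he)

theorem PhiRel.quot_monic (h : PhiRel k p Φ) (e : ℕ) : (quot k Φ p e).Monic := by
  unfold quot
  have hm : (PhiAt Φ (jd k e)).Monic := PhiAt_monic h.monic _
  have hd : (X - C (jd k (e * p)) : Polynomial (LaurentSeries k)).degree
      ≤ (PhiAt Φ (jd k e)).degree := by
    rw [degree_X_sub_C, degree_eq_natDegree hm.ne_zero, PhiAt_natDegree h.monic, h.natDegree_eq]
    exact_mod_cast Nat.le_add_left 1 p
  rw [Monic, leadingCoeff_divByMonic_of_monic (monic_X_sub_C _) hd]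
  exact hm

theorem PhiRel.quot_natDegree (h : PhiRel k p Φ) (e : ℕ) : (quot k Φ p e).natDegree = p := by
  unfold quot
  rw [natDegree_divByMonic _ (monic_X_sub_C _), natDegree_X_sub_C, PhiAt_natDegree h.monic,
    h.natDegree_eq]
  rfl

theorem PhiRel.isPure_quot_self (h : PhiRel k p Φ) (hp : 1 < p) : IsPure (quot k Φ p p) (-1) := by
  have hp0 : p ≠ 0 := by omega
  have hmap : quot k Φ p p = (quot k Φ p 1).map (Vm k p) := by
    rw [quot_map_Vm Φ hp0 one_ne_zero hp0, mul_one]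
  refine isPure_of_root p _ (h.quot_monic p) (h.quot_natDegree p) ?_ (jqModC k) (orderTop_jq k) ?_
  · intro i hi
    rw [hmap, coeff_map] at hi ⊢
    exact exists_orderTop_Vm k p hp0 _ hi
  · have h1 := h.root2 hp0 one_ne_zero
    rw [one_mul, jd_one] at h1
    have h2 := h.quot_spec hp0 hp0
    rw [IsRoot.def, ← h2, eval_mul, eval_sub, eval_X, eval_C] at h1
    rcases mul_eq_zero.mp h1 with h3 | h3
    · exfalso
      have h4 : jd k 1 = jd k (p * p) := by
        rw [jd_one]; exact sub_eq_zero.mp h3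
      refine jd_ne k one_ne_zero (Nat.mul_ne_zero hp0 hp0) ?_ h4
      intro h5
      have : 1 < p * p := by nlinarith
      omega
    · exact h3

theorem PhiRel.isPure_quot (h : PhiRel k p Φ) (hp : 1 < p) {m : ℕ} (hm : m ≠ 0) :
    IsPure (quot k Φ p (m * p)) (-(m : ℤ)) := by
  have hp0 : p ≠ 0 := by omega
  have := (h.isPure_quot_self hp).map_Vm k hm
  rw [quot_map_Vm Φ hp0 hp0 hm] at this
  have e : (m : ℤ) * (-1) = -(m : ℤ) := by ring
  rwa [e] at this

/-- Coprimality of the two quotient polynomials (zeta-free, via Newton polygons). -/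
theorem isCoprime_quot {r : ℕ} {Φr : Polynomial (Polynomial ℤ)}
    (hΦ : PhiRel k p Φ) (hΦr : PhiRel k r Φr) (hp : 1 < p) (hr : 1 < r) (hpr : p ≠ r)
    {e : ℕ} (he : e ≠ 0) :
    IsCoprime (quot k Φ p (e * r)) (quot k Φr r (e * p)) := by
  have hp0 : p ≠ 0 := by omega
  have hr0 : r ≠ 0 := by omega
  have hpr0 : p * r ≠ 0 := Nat.mul_ne_zero hp0 hr0
  rw [← isCoprime_map (Vm k (p * r))]
  rw [quot_map_Vm Φ hp0 (Nat.mul_ne_zero he hr0) hpr0,
    quot_map_Vm Φr hr0 (Nat.mul_ne_zero he hp0) hpr0]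
  have e1 : p * r * (e * r) = (e * r * r) * p := by ring
  have e2 : p * r * (e * p) = (e * p * p) * r := by ring
  rw [e1, e2]
  have hm1 : e * r * r ≠ 0 := Nat.mul_ne_zero (Nat.mul_ne_zero he hr0) hr0
  have hm2 : e * p * p ≠ 0 := Nat.mul_ne_zero (Nat.mul_ne_zero he hp0) hp0
  refine (hΦ.isPure_quot hp hm1).isCoprime (hΦr.isPure_quot hr hm2) ?_
  intro hcon
  have h1 : ((e * r * r : ℕ) : ℤ) = ((e * p * p : ℕ) : ℤ) := by linarith
  have h2 : e * r * r = e * p * p := by exact_mod_cast h1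
  have h3 : r * r = p * p := by
    have : e * (r * r) = e * (p * p) := by rw [← mul_assoc, ← mul_assoc]; exact h2
    exact Nat.eq_of_mul_eq_mul_left (Nat.pos_of_ne_zero he) this
  have h4 : r = p := by
    rcases lt_trichotomy r p with hlt | heq | hgt
    · exact absurd h3 (ne_of_lt (Nat.mul_lt_mul'' hlt hlt))
    · exact heq
    · exact absurd h3 (ne_of_gt (Nat.mul_lt_mul'' hgt hgt))
  exact hpr h4.symm

/-- **Generation step.** If an intermediate field contains `j(q^{er})` and `j(q^{ep})`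
(`p ≠ r`), then it contains `j(q^{epr})`. -/
theorem jd_mem_of_mem {r : ℕ} {Φr : Polynomial (Polynomial ℤ)}
    (hΦ : PhiRel k p Φ) (hΦr : PhiRel k r Φr) (hp : 1 < p) (hr : 1 < r) (hpr : p ≠ r)
    {e : ℕ} (he : e ≠ 0) (F : IntermediateField k (LaurentSeries k))
    (h1 : jd k (e * r) ∈ F) (h2 : jd k (e * p) ∈ F) : jd k (e * p * r) ∈ F := by
  have hp0 : p ≠ 0 := by omega
  have hr0 : r ≠ 0 := by omega
  have hcomm : e * r * p = e * p * r := Nat.mul_right_comm e r p
  set A : Polynomial F := PhiAt Φ (⟨jd k (e * r), h1⟩ : F) with hA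
  set B : Polynomial F := PhiAt Φr (⟨jd k (e * p), h2⟩ : F) with hB
  have hAmap : A.map (algebraMap F (LaurentSeries k)) = PhiAt Φ (jd k (e * r)) := by
    rw [hA, PhiAt_map]; rfl
  have hBmap : B.map (algebraMap F (LaurentSeries k)) = PhiAt Φr (jd k (e * p)) := by
    rw [hB, PhiAt_map]; rfl
  have hAne : A ≠ 0 := (PhiAt_monic hΦ.monic _).ne_zero
  have hrootA : (A.map (algebraMap F (LaurentSeries k))).IsRoot (jd k (e * p * r)) := by
    rw [hAmap, ← hcomm]
    exact hΦ.root1 hp0 (Nat.mul_ne_zero he hr0)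
  have hrootB : (B.map (algebraMap F (LaurentSeries k))).IsRoot (jd k (e * p * r)) := by
    rw [hBmap]
    exact hΦr.root1 hr0 (Nat.mul_ne_zero he hp0)
  have hcop : IsCoprime ((A.map (algebraMap F (LaurentSeries k))) /ₘ (X - C (jd k (e * p * r))))
      ((B.map (algebraMap F (LaurentSeries k))) /ₘ (X - C (jd k (e * p * r)))) := by
    have := isCoprime_quot hΦ hΦr hp hr hpr he
    unfold quot at this
    rw [hcomm] at this
    rwa [hAmap, hBmap]
  obtain ⟨y, hy⟩ := mem_range_of_common_root A B hAne _ hrootA hrootB hcop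
  rw [← hy]
  exact y.2

end Rel

end Fermat.Agent.S28.H988

end

end
-- ===== PACK-END S28/H988/Gen.lean

-- ===== PACK-BEGIN S20/H800/LocalIndep.lean
section



/-!
# S20 / helper800 : local independence of a graded basis (steps (4) of `exists_fundSystem`)

`GradedBasis Γ wt F` : the family `F j ∈ MF Γ (wt j)` (any index type) generates `⊕ₖ MF Γ k` over the
level one forms and is free over them (finite sums).

`DivAt Γ z₀ w P` : `P` is a level one form of weight `w` vanishing at `z₀` such that every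
`f ∈ MF Γ k` all of whose conjugates vanish at `z₀` is divisible by `P` in `MF Γ`.

Main result `indep_ev` : the vectors of conjugates `ev Γ (wt j) τ (F j)` are linearly independent at
every `τ`.
-/

set_option autoImplicit false

noncomputable section

namespace Fermat.Agent.S20.H800

open Fermat.Agent.S20
open UpperHalfPlane ModularForm CongruenceSubgroup MatrixGroups Filter EisensteinSeries
open scoped Manifold Topology Real

/-- A homogeneous family generating `⊕ₖ MF Γ k` freely over the level one forms. -/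
structure GradedBasis (Γ : Subgroup SL(2, ℤ)) {J : Type*} (wt : J → ℤ) (F : J → ℍ → ℂ) :
    Prop where
  mem : ∀ j, F j ∈ MF Γ (wt j)
  gen : ∀ (k : ℤ) (f : ℍ → ℂ), f ∈ MF Γ k →
    ∃ (s : Finset J) (c : J → ℍ → ℂ), (∀ j ∈ s, c j ∈ MF ⊤ (k - wt j)) ∧ f = ∑ j ∈ s, c j * F j
  free : ∀ (k : ℤ) (s : Finset J) (c : J → ℍ → ℂ), (∀ j ∈ s, c j ∈ MF ⊤ (k - wt j)) →
    ∑ j ∈ s, c j * F j = 0 → ∀ j ∈ s, c j = 0

/-- Division property at the fibre over `z₀`. -/
structure DivAt (Γ : Subgroup SL(2, ℤ)) (z₀ : ℍ) (w : ℤ) (P : ℍ → ℂ) : Prop where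
  mem : P ∈ MF ⊤ w
  zero : P z₀ = 0
  div : ∀ (k : ℤ) (f : ℍ → ℂ), f ∈ MF Γ k → ev Γ k z₀ f = 0 → ∃ g ∈ MF Γ (k - w), f = P * g

variable {Γ : Subgroup SL(2, ℤ)} {J : Type*} {wt : J → ℤ} {F : J → ℍ → ℂ}

/-- The core argument: division + generation + freeness. -/
theorem core_indep (B : GradedBasis Γ wt F) {z₀ : ℍ} {w : ℤ} {P : ℍ → ℂ}
    (hdiv : DivAt Γ z₀ w P) (s : Finset J) (c : J → ℂ) (K : ℤ) (a : J → ℍ → ℂ)
    (ha : ∀ j ∈ s, a j ∈ MF ⊤ (K - wt j)) (ha0 : ∀ j ∈ s, a j z₀ ≠ 0)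
    (hsum : ∑ j ∈ s, c j • ev Γ (wt j) z₀ (F j) = 0) : ∀ j ∈ s, c j = 0 := by
  classical
  set f : ℍ → ℂ := ∑ j ∈ s, (c j / a j z₀) • (a j * F j) with hf
  have hfmem : f ∈ MF Γ K :=
    Submodule.sum_mem _ fun j hj =>
      Submodule.smul_mem _ _ (mul_mem_MF' (ha j hj) (B.mem j) (sub_add_cancel K (wt j)))
  have hev : ev Γ K z₀ f = 0 := by
    rw [hf, map_sum, ← hsum]
    refine Finset.sum_congr rfl fun j hj => ?_
    have h1 : ev Γ K z₀ (a j * F j) = a j z₀ • ev Γ (wt j) z₀ (F j) := by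
      have := ev_mul (Γ := Γ) (a := K - wt j) (k := wt j)
        (fun γ => mem_MF_top_slash (ha j hj) γ) (F j) z₀
      rwa [sub_add_cancel] at this
    rw [map_smul, h1, smul_smul, div_mul_cancel₀ _ (ha0 j hj)]
  obtain ⟨g, hg, hfg⟩ := hdiv.div K f hfmem hev
  obtain ⟨s', b, hb, hgb⟩ := B.gen (K - w) g hg
  set d : J → ℍ → ℂ := fun j =>
    (if j ∈ s then (c j / a j z₀) • a j else 0) - P * (if j ∈ s' then b j else 0) with hd
  have hdmem : ∀ j ∈ s ∪ s', d j ∈ MF ⊤ (K - wt j) := by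
    intro j _
    refine Submodule.sub_mem _ ?_ ?_
    · split_ifs with h
      · exact Submodule.smul_mem _ _ (ha j h)
      · exact Submodule.zero_mem _
    · split_ifs with h
      · exact mul_mem_MF' hdiv.mem (hb j h) (by ring)
      · rw [mul_zero]; exact Submodule.zero_mem _
  have hdsum : ∑ j ∈ s ∪ s', d j * F j = 0 := by
    simp only [hd, sub_mul, Finset.sum_sub_distrib]
    have e1 : ∑ j ∈ s ∪ s', (if j ∈ s then (c j / a j z₀) • a j else 0) * F j = f := by
      rw [hf, ← Finset.sum_subset Finset.subset_union_left]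
      · refine Finset.sum_congr rfl fun j hj => ?_
        rw [if_pos hj, smul_mul_assoc]
      · intro j _ hj
        rw [if_neg hj, zero_mul]
    have e2 : ∑ j ∈ s ∪ s', P * (if j ∈ s' then b j else 0) * F j = P * g := by
      rw [hgb, Finset.mul_sum, ← Finset.sum_subset Finset.subset_union_right]
      · refine Finset.sum_congr rfl fun j hj => ?_
        rw [if_pos hj, mul_assoc]
      · intro j _ hj
        rw [if_neg hj, mul_zero, zero_mul]
    rw [e1, e2, hfg, sub_self]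
  have hzero := B.free K (s ∪ s') d hdmem hdsum
  intro j hj
  have h1 := congrFun (hzero j (Finset.mem_union_left _ hj)) z₀
  simp only [hd, if_pos hj, Pi.sub_apply, Pi.smul_apply, Pi.mul_apply, hdiv.zero, zero_mul,
    sub_zero, smul_eq_mul, Pi.zero_apply] at h1
  rwa [div_mul_cancel₀ _ (ha0 j hj)] at h1

end Fermat.Agent.S20.H800

noncomputable section

namespace Fermat.Agent.S20.H800

open Fermat.Agent.S20
open UpperHalfPlane ModularForm CongruenceSubgroup MatrixGroups Filter EisensteinSeries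
open scoped Manifold Topology Real

variable {Γ : Subgroup SL(2, ℤ)} {J : Type*} {wt : J → ℤ} {F : J → ℍ → ℂ}

lemma GradedBasis.F_ne_zero (B : GradedBasis Γ wt F) (j : J) : F j ≠ 0 := by
  intro h
  have h1 := B.free (wt j) {j} (fun _ => 1)
    (by
      intro i hi
      rw [Finset.mem_singleton] at hi
      subst hi
      simpa using one_mem_MF_top)
    (by simp [h]) j (Finset.mem_singleton_self j)
  exact one_ne_zero (congrFun h1 UpperHalfPlane.I)

lemma slash_neg_one_apply (k : ℤ) (f : ℍ → ℂ) (τ : ℍ) :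
    (f ∣[k] (-1 : SL(2, ℤ))) τ = f τ * (-1) ^ (-k) := by
  rw [SL_slash_apply]
  have h1 : (-1 : SL(2, ℤ)) • τ = τ := by
    rw [ModularGroup.SL_neg_smul, one_smul]
  have h2 : denom (-1 : SL(2, ℤ)) τ = -1 := by
    rw [ModularGroup.denom_apply]
    simp
  rw [h1, h2]

lemma GradedBasis.wt_even (B : GradedBasis Γ wt F) (hneg : -1 ∈ Γ) (j : J) : Even (wt j) := by
  by_contra hodd
  rw [Int.not_even_iff_odd] at hodd
  apply B.F_ne_zero j
  funext τ
  have h := congrFun ((B.mem j).2.1 (-1) hneg) τ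
  rw [slash_neg_one_apply, Odd.neg_one_zpow (by simpa using hodd)] at h
  have h2 : 2 * F j τ = 0 := by linear_combination -h
  simpa using h2

/-- Independence of the vectors of conjugates is invariant under moving the base point. -/
lemma indep_smul (hF : ∀ j, F j ∈ MF Γ (wt j)) (γ : SL(2, ℤ)) (τ : ℍ)
    (h : LinearIndependent ℂ fun j => ev Γ (wt j) τ (F j)) :
    LinearIndependent ℂ fun j => ev Γ (wt j) (γ • τ) (F j) := by
  set R : (X Γ → ℂ) →ₗ[ℂ] (X Γ → ℂ) := LinearMap.funLeft ℂ ℂ (fun x : X Γ => γ⁻¹ • x) with hR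
  have hRinj : Function.Injective R :=
    LinearMap.funLeft_injective_of_surjective ℂ ℂ _ (MulAction.surjective γ⁻¹)
  have h1 : LinearIndependent ℂ fun j => R (ev Γ (wt j) τ (F j)) :=
    h.map' R (LinearMap.ker_eq_bot.mpr hRinj)
  have h2 := h1.units_smul fun j => Units.mk0 (denom γ τ ^ wt j) (zpow_ne_zero _ (denom_ne_zero γ τ))
  convert h2 using 1
  funext j
  funext x
  rw [ev_smul (hF j).2.1]
  simp [hR, LinearMap.funLeft_apply, Units.smul_def]

lemma exists_levelOne_ne_zero {τ : ℍ} (h4 : E₄ τ ≠ 0) (h6 : E₆ τ ≠ 0) {m : ℤ} (hm : Even m)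
    (hm4 : 4 ≤ m) : ∃ a ∈ MF ⊤ m, a τ ≠ 0 := by
  obtain ⟨t, ht⟩ := hm
  rcases Int.even_or_odd' t with ⟨x, hx | hx⟩
  · refine ⟨(⇑E₄ : ℍ → ℂ) ^ x.toNat, ?_, ?_⟩
    · have := pow_mem_MF_top E₄_mem x.toNat
      have hx0 : 0 ≤ x := by omega
      have e : ((x.toNat : ℤ)) * 4 = m := by rw [Int.toNat_of_nonneg hx0]; omega
      rwa [e] at this
    · rw [Pi.pow_apply]
      exact pow_ne_zero _ h4
  · refine ⟨(⇑E₄ : ℍ → ℂ) ^ (x - 1).toNat * ⇑E₆, ?_, ?_⟩
    · have h1 := pow_mem_MF_top E₄_mem (x - 1).toNat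
      have hx0 : 0 ≤ x - 1 := by omega
      have e : ((x - 1).toNat : ℤ) * 4 + 6 = m := by rw [Int.toNat_of_nonneg hx0]; omega
      have h2 := mul_mem_MF' (Γ := ⊤) h1 E₆_mem e
      exact h2
    · rw [Pi.mul_apply, Pi.pow_apply]
      exact mul_ne_zero (pow_ne_zero _ h4) h6

lemma exists_weight_bound (s : Finset J) (wt : J → ℤ) :
    ∃ M : ℤ, 0 ≤ M ∧ ∀ j ∈ s, |wt j| ≤ M :=
  ⟨∑ j ∈ s, |wt j|, Finset.sum_nonneg fun _ _ => abs_nonneg _,
    fun _ hj => Finset.single_le_sum (f := fun j => |wt j|) (fun _ _ => abs_nonneg _) hj⟩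

/-- Local independence at a point which is not a zero of `E₄` or `E₆`. -/
theorem indep_generic (B : GradedBasis Γ wt F) (hneg : -1 ∈ Γ) {τ : ℍ} (h4 : E₄ τ ≠ 0)
    (h6 : E₆ τ ≠ 0) {w : ℤ} {P : ℍ → ℂ} (hdiv : DivAt Γ τ w P) :
    LinearIndependent ℂ fun j => ev Γ (wt j) τ (F j) := by
  rw [linearIndependent_iff']
  intro s c hsum
  obtain ⟨M, hM0, hM⟩ := exists_weight_bound s wt
  set K : ℤ := 2 * M + 4 with hK
  have hex : ∀ j, ∃ a : ℍ → ℂ, j ∈ s → a ∈ MF ⊤ (K - wt j) ∧ a τ ≠ 0 := by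
    intro j
    by_cases hj : j ∈ s
    · have hev : Even (K - wt j) := by
        refine Even.sub ?_ (B.wt_even hneg j)
        exact ⟨M + 2, by rw [hK]; ring⟩
      have hle : 4 ≤ K - wt j := by
        have := hM j hj
        have := le_abs_self (wt j)
        omega
      obtain ⟨a, ha, ha0⟩ := exists_levelOne_ne_zero h4 h6 hev hle
      exact ⟨a, fun _ => ⟨ha, ha0⟩⟩
    · exact ⟨0, fun h => absurd h hj⟩
  choose a ha using hex
  exact core_indep B hdiv s c K a (fun j hj => (ha j hj).1) (fun j hj => (ha j hj).2) hsum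

/-- Local independence at a point fixed by `γ₀`, when the eigenvalue `denom γ₀ z₀ ^ wt j` determines
the weight modulo `n` and there is a level one form of weight `n` not vanishing at `z₀`. -/
theorem indep_fixed (B : GradedBasis Γ wt F) {z₀ : ℍ} {w : ℤ} {P : ℍ → ℂ}
    (hdiv : DivAt Γ z₀ w P) (γ₀ : SL(2, ℤ)) (hfix : γ₀ • z₀ = z₀) {n : ℤ} (hn : 0 < n)
    {A : ℍ → ℂ} (hA : A ∈ MF ⊤ n) (hA0 : A z₀ ≠ 0)
    (hsep : ∀ j j', denom γ₀ z₀ ^ wt j = denom γ₀ z₀ ^ wt j' → n ∣ wt j - wt j') :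
    LinearIndependent ℂ fun j => ev Γ (wt j) z₀ (F j) := by
  classical
  rw [linearIndependent_iff']
  intro s c hsum j₀ hj₀
  set R : (X Γ → ℂ) →ₗ[ℂ] (X Γ → ℂ) := LinearMap.funLeft ℂ ℂ (fun x : X Γ => γ₀⁻¹ • x) with hR
  set ε : ℂ := denom γ₀ z₀ with hε
  have hε0 : ε ≠ 0 := denom_ne_zero γ₀ z₀
  set lam : J → ℂ := fun j => (ε ^ wt j)⁻¹ with hlam
  have hv : ∀ j ∈ s, R (ev Γ (wt j) z₀ (F j)) = lam j • ev Γ (wt j) z₀ (F j) := by
    intro j _
    funext x
    have h1 := ev_smul (B.mem j).2.1 γ₀ z₀ x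
    rw [hfix] at h1
    simp only [hR, LinearMap.funLeft_apply, Pi.smul_apply, smul_eq_mul, hlam]
    rw [h1, ← mul_assoc, inv_mul_cancel₀ (zpow_ne_zero _ hε0), one_mul]
  have hsplit := sum_filter_eq_zero_of_eigen R s (fun j => ev Γ (wt j) z₀ (F j)) lam hv c hsum
    (lam j₀)
  set s₀ : Finset J := s.filter fun j => lam j = lam j₀ with hs₀
  have hdvd : ∀ j ∈ s₀, n ∣ wt j - wt j₀ := by
    intro j hj
    rw [hs₀, Finset.mem_filter] at hj
    exact hsep j j₀ (inv_injective hj.2)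
  obtain ⟨M, hM0, hM⟩ := exists_weight_bound s₀ (fun j => wt j - wt j₀)
  set K : ℤ := wt j₀ + n * M with hK
  have hKdvd : ∀ j ∈ s₀, n ∣ K - wt j := by
    intro j hj
    have := hdvd j hj
    have e : K - wt j = n * M - (wt j - wt j₀) := by rw [hK]; ring
    rw [e]
    exact Dvd.dvd.sub (Dvd.intro _ rfl) this
  have hKnn : ∀ j ∈ s₀, 0 ≤ K - wt j := by
    intro j hj
    have h1 := hM j hj
    have h2 := le_abs_self (wt j - wt j₀)
    have h3 : M ≤ n * M := by nlinarith
    rw [hK]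
    linarith
  set a : J → ℍ → ℂ := fun j => A ^ ((K - wt j) / n).toNat with ha
  have hamem : ∀ j ∈ s₀, a j ∈ MF ⊤ (K - wt j) := by
    intro j hj
    have h1 := pow_mem_MF_top hA ((K - wt j) / n).toNat
    have h2 : 0 ≤ (K - wt j) / n := Int.ediv_nonneg (hKnn j hj) hn.le
    have e : (((K - wt j) / n).toNat : ℤ) * n = K - wt j := by
      rw [Int.toNat_of_nonneg h2, Int.ediv_mul_cancel (hKdvd j hj)]
    rwa [e] at h1
  have ha0 : ∀ j ∈ s₀, a j z₀ ≠ 0 := by
    intro j _
    show (A ^ ((K - wt j) / n).toNat) z₀ ≠ 0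
    rw [Pi.pow_apply]
    exact pow_ne_zero _ hA0
  have hj₀' : j₀ ∈ s₀ := by
    rw [hs₀, Finset.mem_filter]
    exact ⟨hj₀, rfl⟩
  exact core_indep B hdiv s₀ c K a hamem ha0 hsplit j₀ hj₀'

end Fermat.Agent.S20.H800

end
end
end
-- ===== PACK-END S20/H800/LocalIndep.lean

-- ===== PACK-BEGIN A2/Alg/H34/Basic.lean
section


/-!
# WALL A2 / ALG — leaves A1' and ASM (helper34)

* `divisibleDiv_mul_inv`, `divisibleDiv_tau` : `DivisibleDiv` is stable under quotients and under
  a semilinear automorphism.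
* `chartCtx_inv` : the standing hypotheses for the chart at infinity.
* `locOne_tau_div` : `v ∈ (B_n)ˣ`, `τ ≡ id mod w`, `w ∈ I`  ⟹  `τ v / v ∈ 1 + I B_n`.
* `localFactor_of_pureAt` (**ASM**) : `PureAt u n ⟹ LocalFactor (τ u / u) n`.

Statements are VERBATIM those of `Fermat/Agent/A2/Alg/Skel.lean` (origin/helper34).
-/

set_option autoImplicit false

namespace Fermat.Agent.A2.Alg.H34

open Fermat.Agent.A2 Fermat.Agent.A2.Alg

section Div

variable {E F : Type*} [Field E] [Field F] [Algebra E F]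

/-- **A1'.** -/
theorem divisibleDiv_mul_inv (m : ℕ) (f g : F) (hf : DivisibleDiv E m f)
    (hg : DivisibleDiv E m g) : DivisibleDiv E m (f * g⁻¹) := by
  intro V hV hE
  obtain ⟨h₁, u₁, hh₁, hu₁, hu₁', rfl⟩ := hf V hV hE
  obtain ⟨h₂, u₂, hh₂, hu₂, hu₂', rfl⟩ := hg V hV hE
  refine ⟨h₁ * h₂⁻¹, u₁ * u₂⁻¹, mul_ne_zero hh₁ (inv_ne_zero hh₂), V.mul_mem _ _ hu₁ hu₂', ?_, ?_⟩
  · rw [mul_inv, inv_inv]
    exact V.mul_mem _ _ hu₁' hu₂
  · rw [mul_pow, inv_pow, mul_inv]
    ring

/-- The ring isomorphism `V.comap τ ≃ V` induced by `τ`. -/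
noncomputable def comapEquiv (τ : F ≃+* F) (V : ValuationSubring F) :
    V.comap (τ : F →+* F) ≃+* V where
  toFun a := ⟨τ a.1, a.2⟩
  invFun b := ⟨τ.symm b.1, by
    show (τ : F →+* F) (τ.symm b.1) ∈ V
    simpa using b.2⟩
  left_inv a := Subtype.ext (by simp)
  right_inv b := Subtype.ext (by simp)
  map_mul' a b := Subtype.ext (by simp)
  map_add' a b := Subtype.ext (by simp)

/-- **A1'.**  `τ` permutes the discrete valuation rings of `F` containing `E`. -/
theorem divisibleDiv_tau (τ : F ≃+* F) (τE : E ≃+* E)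
    (hτE : ∀ e : E, τ (algebraMap E F e) = algebraMap E F (τE e)) (m : ℕ) (f : F)
    (h : DivisibleDiv E m f) : DivisibleDiv E m (τ f) := by
  intro V hV hE
  have hV' : IsDiscreteValuationRing (V.comap (τ : F →+* F)) :=
    IsDiscreteValuationRing.RingEquivClass.isDiscreteValuationRing (comapEquiv τ V).symm
  have hE' : ∀ e : E, algebraMap E F e ∈ V.comap (τ : F →+* F) := fun e => by
    show τ (algebraMap E F e) ∈ V
    rw [hτE]
    exact hE _
  obtain ⟨h₀, u, hh₀, hu, hu', rfl⟩ := h _ hV' hE'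
  refine ⟨τ h₀, τ u, (map_ne_zero τ).2 hh₀, hu, ?_, ?_⟩
  · rw [← map_inv₀]
    exact hu'
  · rw [map_mul, map_pow]

end Div

section Chart

variable {R E F : Type*} [CommRing R] [Field E] [Algebra R E] [Field F] [Algebra E F]
  [Algebra R F]

theorem adjoin_inv_eq (x : F) :
    IntermediateField.adjoin E ({x⁻¹} : Set F) = IntermediateField.adjoin E ({x} : Set F) := by
  apply le_antisymm
  · rw [IntermediateField.adjoin_le_iff]
    rintro y hy
    rw [Set.mem_singleton_iff] at hy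
    subst hy
    exact inv_mem (IntermediateField.subset_adjoin E _ (Set.mem_singleton x))
  · rw [IntermediateField.adjoin_le_iff]
    rintro y hy
    rw [Set.mem_singleton_iff] at hy
    subst hy
    have := inv_mem (IntermediateField.subset_adjoin E ({y⁻¹} : Set F) (Set.mem_singleton _))
    rwa [inv_inv] at this

/-- **A1'.**  The chart at infinity satisfies the same standing hypotheses with `x⁻¹`. -/
theorem chartCtx_inv (w : R) (hw : Irreducible w) (x : F) (hx : Transcendental E x)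
    (hfin : FiniteDimensional (IntermediateField.adjoin E ({x} : Set F)) F)
    (hconst : ∀ f : F, IsAlgebraic E f → f ∈ (algebraMap E F).range)
    (Bi : Subalgebra R F)
    (hBi : ∀ f : F, f ∈ Bi ↔ IsIntegral (Algebra.adjoin R ({x⁻¹} : Set F)) f) :
    ChartCtx E w x⁻¹ Bi := by
  refine ⟨hw, ?_, ?_, hconst, hBi⟩
  · intro h
    apply hx
    have := h.inv
    rwa [inv_inv] at this
  · rw [adjoin_inv_eq]
    exact hfin

end Chart

section Asm

variable {R F : Type*} [CommRing R] [Field F] [Algebra R F]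

/-- `τ` maps `B` into `B`, and is the identity modulo `w`. -/
theorem exists_tau_eq (w : R) (B : Subalgebra R F) (τ : F ≃+* F)
    (hτB : ∀ b ∈ B, ∃ c ∈ B, τ b - b = algebraMap R F w * c) (b : B) :
    ∃ b' c : B, (b' : F) = τ b ∧ b' - b = algebraMap R B w * c := by
  obtain ⟨c, hc, h⟩ := hτB b b.2
  refine ⟨⟨τ b, ?_⟩, ⟨c, hc⟩, rfl, ?_⟩
  · have : τ (b : F) = b + algebraMap R F w * c := by linear_combination h
    rw [this]
    exact B.add_mem b.2 (B.mul_mem (B.algebraMap_mem w) hc)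
  · apply Subtype.ext
    simpa using h

/-- `v ∈ (B_n)ˣ`, `τ ≡ id mod w`, `w ∈ n`, `w ∈ I`  ⟹  `τ v / v ∈ 1 + I B_n`. -/
theorem locOne_tau_div (w : R) (B : Subalgebra R F) (τ : F ≃+* F)
    (hτB : ∀ b ∈ B, ∃ c ∈ B, τ b - b = algebraMap R F w * c)
    (n : Ideal B) (hn : n.IsPrime) (hwn : algebraMap R B w ∈ n)
    (I : Ideal B) (hwI : algebraMap R B w ∈ I) (v : F) (hv : LocUnit B n v) :
    LocOne B n I (τ v * v⁻¹) := by
  obtain ⟨a, b, ha, hb, hab⟩ := hv
  obtain ⟨a', ca, ha', hca⟩ := exists_tau_eq w B τ hτB a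
  obtain ⟨b', cb, hb', hcb⟩ := exists_tau_eq w B τ hτB b
  have hb'n : b' ∉ n := by
    intro h
    apply hb
    have h1 : b = b' - algebraMap R B w * cb := by rw [← hcb]; ring
    rw [h1]
    exact n.sub_mem h (n.mul_mem_right _ hwn)
  have ha0 : (a : F) ≠ 0 := by
    intro h
    apply ha
    have : a = 0 := Subtype.ext h
    rw [this]
    exact n.zero_mem
  have hb0 : (b : F) ≠ 0 := by
    intro h
    apply hb
    have : b = 0 := Subtype.ext h
    rw [this]
    exact n.zero_mem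
  have hv0 : v ≠ 0 := by
    rintro rfl
    rw [zero_mul] at hab
    exact ha0 hab.symm
  have hb'0 : (b' : F) ≠ 0 := by
    rw [hb']
    exact (map_ne_zero τ).2 hb0
  refine ⟨a' * b, a * b', ?_, ?_, ?_⟩
  · intro h
    rcases hn.mem_or_mem h with h | h
    · exact ha h
    · exact hb'n h
  · have h1 : a' * b - a * b' = algebraMap R B w * (ca * b - a * cb) := by
      have e1 : a' = a + algebraMap R B w * ca := by rw [← hca]; ring
      have e2 : b' = b + algebraMap R B w * cb := by rw [← hcb]; ring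
      rw [e1, e2]
      ring
    rw [h1]
    exact I.mul_mem_right _ hwI
  · -- `τ v * v⁻¹ * (a * b') = a' * b`
    have hτ : τ v * (b' : F) = (a' : F) := by
      rw [hb', ha', ← map_mul, hab]
    have hv' : v = (a : F) * (b : F)⁻¹ := by
      field_simp
      exact hab
    push_cast
    have : τ v = (a' : F) * (b' : F)⁻¹ := by
      field_simp
      exact hτ
    rw [this, hv']
    field_simp

/-- **ASM.**  `u d ^ m = ε ∈ (B_n)ˣ`; `h := τ d / d`; then `(τ u / u) h ^ m = τ ε / ε ∈ 1 + w B_n`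
and `h ≡ 1` on both components (`d` is a unit there, `τ ≡ id mod w`). -/
theorem localFactor_of_pureAt {E : Type*} [Field E] [Algebra R E] [Algebra E F]
    (w : R) (B : Subalgebra R F) (c : SSChart w B)
    (τ : F ≃+* F) (τE : E ≃+* E) (τR : R ≃+* R) (hτ : TauCtx w B τ τE τR)
    (m : ℕ) (u : F) (hu : u ≠ 0) (n : Ideal B) (hn : n.IsPrime) (hwn : algebraMap R B w ∈ n)
    (h : PureAt B c m u n) : LocalFactor B c m (τ u * u⁻¹) n := by
  obtain ⟨d, hd, hε, hd₁, hd₂⟩ := h
  have hw₁ : algebraMap R B w ∈ c.p₁ := by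
    have : algebraMap R B w ∈ c.p₁ ⊓ c.p₂ := by
      rw [c.inf_eq]
      exact Ideal.mem_span_singleton_self _
    exact this.1
  have hw₂ : algebraMap R B w ∈ c.p₂ := by
    have : algebraMap R B w ∈ c.p₁ ⊓ c.p₂ := by
      rw [c.inf_eq]
      exact Ideal.mem_span_singleton_self _
    exact this.2
  have hτd : τ d ≠ 0 := (map_ne_zero τ).2 hd
  refine ⟨τ d * d⁻¹, mul_ne_zero hτd (inv_ne_zero hd), ?_,
    locOne_tau_div w B τ hτ.hτB c.p₁ c.prime₁ hw₁ c.p₁ hw₁ d hd₁,
    locOne_tau_div w B τ hτ.hτB c.p₂ c.prime₂ hw₂ c.p₂ hw₂ d hd₂⟩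
  have key : τ u * u⁻¹ * (τ d * d⁻¹) ^ m = τ (u * d ^ m) * (u * d ^ m)⁻¹ := by
    rw [map_mul, map_pow, mul_pow, inv_pow, mul_inv]
    ring
  rw [key]
  exact locOne_tau_div w B τ hτ.hτB n hn hwn _ (Ideal.mem_span_singleton_self _) _ hε

end Asm

end Fermat.Agent.A2.Alg.H34

end
-- ===== PACK-END A2/Alg/H34/Basic.lean

-- ===== PACK-BEGIN A2/H372/NodeLoc.lean
section


/-!
# A2 / NODE-LOC : from the global semistable chart to the local data at a closed point (helper372)

Adapter between MODEL (global statements on a chart `B`: the fields of `SSChart` in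
`Fermat/Agent/A2/Spec.lean`) and the local purity / LP lemmas
(`A2.H609.exists_unit_mul_pow_of_node`, `exists_unit_mul_pow_of_smooth`, `A2.H673`, `A2.H672`),
which live in the local ring `O = B_n` at a closed point `n` of the special fibre.

INPUT (global, on the chart `B`): primes `p₁ p₂` with `p₁ ⊓ p₂ = (w)`, `B ⧸ pᵢ` Dedekind,
`p₁ ⊔ p₂` radical (or the elementwise local generation of `Transversal.lean`), `n` a prime
(maximal) ideal containing `w`.

OUTPUT (local, in `O` with `[IsLocalization.AtPrime O n]`), `Pᵢ := pᵢ O`: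

* node (`p₁ ≤ n`, `p₂ ≤ n`) : `P₁`, `P₂` prime, `P₁ ⊓ P₂ = (w)`, `P₁ ⊔ P₂ = n O`
  (`= maximalIdeal O`), `O ⧸ Pᵢ` discrete valuation rings       — `node_local_data`;
* smooth (`p₁ ≤ n`, `¬ p₂ ≤ n`) : `P₁` prime, `P₁ = (w)`, `O ⧸ P₁` a discrete valuation ring
                                                               — `smooth_local_data`;
* `exists_mul_mem_of_isRadical` : elementwise local generation `t x ∈ J`, `t ∉ n`, for a
  radical ideal `J ≤ n` containing a prime `p` with `B ⧸ p` Dedekind, `J ≠ p`.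
-/

set_option autoImplicit false

namespace Fermat.Agent.A2.H372

open Ideal

variable {B : Type*} [CommRing B]

/-- In a discrete valuation ring, a nonzero proper radical ideal is the maximal ideal. -/
theorem eq_maximalIdeal_of_isRadical_of_dvr {L : Type*} [CommRing L] [IsDomain L]
    [IsDiscreteValuationRing L] {I : Ideal L} (hI : I.IsRadical) (h0 : I ≠ ⊥) (h1 : I ≠ ⊤) :
    I = IsLocalRing.maximalIdeal L := by
  obtain ⟨ϖ, hϖ⟩ := IsDiscreteValuationRing.exists_irreducible L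
  obtain ⟨k, hk⟩ := IsDiscreteValuationRing.ideal_eq_span_pow_irreducible h0 hϖ
  have hk0 : k ≠ 0 := by
    rintro rfl
    apply h1
    rw [hk, pow_zero, Ideal.span_singleton_one]
  have hmem : ϖ ∈ I := hI ⟨k, by rw [hk]; exact Ideal.mem_span_singleton_self _⟩
  refine le_antisymm (IsLocalRing.le_maximalIdeal h1) ?_
  rw [hϖ.maximalIdeal_eq, Ideal.span_le, Set.singleton_subset_iff]
  exact hmem

/-- The image of a prime `n ⊇ p` in `B ⧸ p`. -/
theorem map_mk_isPrime {p n : Ideal B} [n.IsPrime] (hpn : p ≤ n) :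
    (n.map (Ideal.Quotient.mk p)).IsPrime :=
  Ideal.map_isPrime_of_surjective Ideal.Quotient.mk_surjective
    (by rw [Ideal.mk_ker]; exact hpn)

theorem mk_mem_map_mk_iff {p n : Ideal B} (hpn : p ≤ n) (x : B) :
    Ideal.Quotient.mk p x ∈ n.map (Ideal.Quotient.mk p) ↔ x ∈ n := by
  constructor
  · intro h
    obtain ⟨y, hy, hxy⟩ :=
      (Ideal.mem_map_iff_of_surjective _ Ideal.Quotient.mk_surjective).mp h
    have : x - y ∈ p := by
      rw [← Ideal.Quotient.eq]
      exact hxy.symm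
    have := n.add_mem (hpn this) hy
    simpa using this
  · exact fun h => Ideal.mem_map_of_mem _ h

theorem map_mk_ne_bot {p n : Ideal B} (hpn : p ≤ n) (hne : p ≠ n) :
    n.map (Ideal.Quotient.mk p) ≠ ⊥ := by
  intro h
  apply hne
  refine le_antisymm hpn fun x hx => ?_
  have : Ideal.Quotient.mk p x ∈ n.map (Ideal.Quotient.mk p) := Ideal.mem_map_of_mem _ hx
  rw [h, Ideal.mem_bot] at this
  exact Ideal.Quotient.eq_zero_iff_mem.mp this

/-- **Local generation from radicality.**  `p` prime with `B ⧸ p` Dedekind, `J` a radical ideal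
with `p ≤ J ≤ n`, `J ≠ p`, `n` prime.  Then `J` generates `n` locally at `n`. -/
theorem exists_mul_mem_of_isRadical {p J n : Ideal B} [p.IsPrime] [n.IsPrime]
    [IsDedekindDomain (B ⧸ p)] (hpJ : p ≤ J) (hJn : J ≤ n) (hne : ¬ J ≤ p)
    (hJ : J.IsRadical) {x : B} (hx : x ∈ n) : ∃ t : B, t ∉ n ∧ t * x ∈ J := by
  have hpn : p ≤ n := hpJ.trans hJn
  set D := B ⧸ p
  set nb : Ideal D := n.map (Ideal.Quotient.mk p) with hnb
  set Jb : Ideal D := J.map (Ideal.Quotient.mk p) with hJb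
  have : nb.IsPrime := map_mk_isPrime hpn
  have hJbn : Jb ≤ nb := Ideal.map_mono hJn
  have hJb0 : Jb ≠ ⊥ := by
    intro h
    apply hne
    intro y hy
    have : Ideal.Quotient.mk p y ∈ Jb := Ideal.mem_map_of_mem _ hy
    rw [h, Ideal.mem_bot] at this
    exact Ideal.Quotient.eq_zero_iff_mem.mp this
  have hnb0 : nb ≠ ⊥ := fun h => hJb0 (le_bot_iff.mp (h ▸ hJbn))
  have hJbrad : Jb.IsRadical := by
    intro y hy
    obtain ⟨y, rfl⟩ := Ideal.Quotient.mk_surjective y
    obtain ⟨k, hk⟩ := hy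
    rw [← map_pow] at hk
    have hk' : y ^ k ∈ J := (mk_mem_map_mk_iff hpJ _).mp hk
    exact Ideal.mem_map_of_mem _ (hJ ⟨k, hk'⟩)
  let L := Localization.AtPrime nb
  have : IsDiscreteValuationRing L :=
    IsLocalization.AtPrime.isDiscreteValuationRing_of_dedekind_domain D hnb0 L
  have hinj : Function.Injective (algebraMap D L) :=
    IsLocalization.injective L (Ideal.primeCompl_le_nonZeroDivisors nb)
  set I : Ideal L := Jb.map (algebraMap D L) with hI
  have hIrad : I.IsRadical := by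
    have := IsLocalization.map_radical nb.primeCompl L Jb
    rw [hJbrad.radical] at this
    rw [Ideal.IsRadical, hI, ← this]
  have hI0 : I ≠ ⊥ := by
    intro h
    apply hJb0
    rw [eq_bot_iff]
    intro y hy
    have : algebraMap D L y ∈ I := Ideal.mem_map_of_mem _ hy
    rw [h, Ideal.mem_bot] at this
    rw [Ideal.mem_bot]
    exact hinj (by rw [this, map_zero])
  have hI1 : I ≠ ⊤ := by
    rw [hI]
    exact (IsLocalization.map_algebraMap_ne_top_iff_disjoint nb.primeCompl L Jb).mpr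
      (Set.disjoint_left.mpr fun y hy hyJ => hy (hJbn hyJ))
  have hImax : I = IsLocalRing.maximalIdeal L :=
    eq_maximalIdeal_of_isRadical_of_dvr hIrad hI0 hI1
  have hxL : algebraMap D L (Ideal.Quotient.mk p x) ∈ I := by
    rw [hImax]
    exact (IsLocalization.AtPrime.to_map_mem_maximal_iff L nb _).mpr
      (Ideal.mem_map_of_mem _ hx)
  obtain ⟨tb, htb, htx⟩ :=
    (IsLocalization.algebraMap_mem_map_algebraMap_iff nb.primeCompl L Jb _).mp hxL
  obtain ⟨t, rfl⟩ := Ideal.Quotient.mk_surjective tb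
  refine ⟨t, fun ht => htb (Ideal.mem_map_of_mem _ ht), ?_⟩
  rw [← map_mul] at htx
  exact (mk_mem_map_mk_iff hpJ _).mp htx

section Local

variable (O : Type*) [CommRing O] [Algebra B O]

/-- The quotient of the local ring `O = B_n` by `p O` is a discrete valuation ring when
`B ⧸ p` is Dedekind and `p < n`. -/
theorem isDiscreteValuationRing_quotient_map {p n : Ideal B} [p.IsPrime] [n.IsPrime]
    [IsLocalization.AtPrime O n] [IsDedekindDomain (B ⧸ p)] (hpn : p ≤ n) (hne : p ≠ n)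
    [(p.map (algebraMap B O)).IsPrime] :
    IsDiscreteValuationRing (O ⧸ p.map (algebraMap B O)) := by
  set nb : Ideal (B ⧸ p) := n.map (Ideal.Quotient.mk p) with hnb
  have : nb.IsPrime := map_mk_isPrime hpn
  have hnb0 : nb ≠ ⊥ := map_mk_ne_bot hpn hne
  have hM : Algebra.algebraMapSubmonoid (B ⧸ p) n.primeCompl = nb.primeCompl := by
    ext y
    obtain ⟨y, rfl⟩ := Ideal.Quotient.mk_surjective y
    constructor
    · rintro ⟨z, hz, hzy⟩
      intro hy
      have hzy' : Ideal.Quotient.mk p z = Ideal.Quotient.mk p y := hzy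
      have hy' : Ideal.Quotient.mk p z ∈ nb := by rw [hzy']; exact hy
      exact hz ((mk_mem_map_mk_iff hpn z).mp hy')
    · intro hy
      exact ⟨y, fun h => hy (Ideal.mem_map_of_mem _ h), rfl⟩
  have h1 : IsLocalization (Algebra.algebraMapSubmonoid (B ⧸ p) n.primeCompl)
      (O ⧸ p.map (algebraMap B O)) := inferInstance
  have : IsLocalization.AtPrime (O ⧸ p.map (algebraMap B O)) nb := by
    change IsLocalization nb.primeCompl _
    rw [← hM]
    exact h1
  exact IsLocalization.AtPrime.isDiscreteValuationRing_of_dedekind_domain (B ⧸ p) hnb0 _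

/-- **NODE-LOC, node case.**  Local data at a crossing point `n ⊇ p₁ + p₂` of a semistable
chart, in the exact shape of the hypotheses of `A2.H609.exists_unit_mul_pow_of_node`. -/
theorem node_local_data {p₁ p₂ n : Ideal B} [p₁.IsPrime] [p₂.IsPrime] [n.IsPrime]
    [IsLocalization.AtPrime O n] [IsDedekindDomain (B ⧸ p₁)] [IsDedekindDomain (B ⧸ p₂)]
    {w : B} (hinf : p₁ ⊓ p₂ = Ideal.span {w}) (h₁₂ : ¬ p₁ ≤ p₂) (h₂₁ : ¬ p₂ ≤ p₁)
    (htr : (p₁ ⊔ p₂).IsRadical) (h₁ : p₁ ≤ n) (h₂ : p₂ ≤ n) :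
    ∃ (_ : (p₁.map (algebraMap B O)).IsPrime) (_ : (p₂.map (algebraMap B O)).IsPrime),
      p₁.map (algebraMap B O) ⊓ p₂.map (algebraMap B O) = Ideal.span {algebraMap B O w} ∧
      p₁.map (algebraMap B O) ⊔ p₂.map (algebraMap B O) = n.map (algebraMap B O) ∧
      IsDiscreteValuationRing (O ⧸ p₁.map (algebraMap B O)) ∧
      IsDiscreteValuationRing (O ⧸ p₂.map (algebraMap B O)) := by
  have hd₁ : Disjoint (n.primeCompl : Set B) (p₁ : Set B) :=
    Set.disjoint_left.mpr fun y hy hyp => hy (h₁ hyp)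
  have hd₂ : Disjoint (n.primeCompl : Set B) (p₂ : Set B) :=
    Set.disjoint_left.mpr fun y hy hyp => hy (h₂ hyp)
  have hP₁ : (p₁.map (algebraMap B O)).IsPrime :=
    IsLocalization.isPrime_of_isPrime_disjoint n.primeCompl O p₁ inferInstance hd₁
  have hP₂ : (p₂.map (algebraMap B O)).IsPrime :=
    IsLocalization.isPrime_of_isPrime_disjoint n.primeCompl O p₂ inferInstance hd₂
  have hne₁ : p₁ ≠ n := fun h => h₂₁ (h ▸ h₂)
  have hne₂ : p₂ ≠ n := fun h => h₁₂ (h ▸ h₁)
  refine ⟨hP₁, hP₂, ?_, ?_, ?_, ?_⟩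
  · rw [← IsLocalization.map_inf n.primeCompl O, hinf, Ideal.map_span, Set.image_singleton]
  · rw [← Ideal.map_sup]
    symm
    refine map_eq_map_of_local O (sup_le h₁ h₂) fun x hx => ?_
    exact exists_mul_mem_of_isRadical (p := p₁) le_sup_left (sup_le h₁ h₂)
      (fun h => h₂₁ (le_sup_right.trans h)) htr hx
  · exact isDiscreteValuationRing_quotient_map O h₁ hne₁
  · exact isDiscreteValuationRing_quotient_map O h₂ hne₂

/-- **NODE-LOC, smooth case.**  Local data at a point `n` of the first component which is not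
on the second one, in the exact shape of `A2.H609.exists_unit_mul_pow_of_smooth`. -/
theorem smooth_local_data {p₁ p₂ n : Ideal B} [p₁.IsPrime] [n.IsPrime]
    [IsLocalization.AtPrime O n] [IsDedekindDomain (B ⧸ p₁)]
    {w : B} (hinf : p₁ ⊓ p₂ = Ideal.span {w}) (h₁ : p₁ ≤ n) (hne : p₁ ≠ n) (h₂ : ¬ p₂ ≤ n) :
    ∃ (_ : (p₁.map (algebraMap B O)).IsPrime),
      p₁.map (algebraMap B O) = Ideal.span {algebraMap B O w} ∧
      IsDiscreteValuationRing (O ⧸ p₁.map (algebraMap B O)) := by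
  have hd₁ : Disjoint (n.primeCompl : Set B) (p₁ : Set B) :=
    Set.disjoint_left.mpr fun y hy hyp => hy (h₁ hyp)
  have hP₁ : (p₁.map (algebraMap B O)).IsPrime :=
    IsLocalization.isPrime_of_isPrime_disjoint n.primeCompl O p₁ inferInstance hd₁
  have htop : p₂.map (algebraMap B O) = ⊤ := by
    obtain ⟨e, he, hen⟩ := SetLike.not_le_iff_exists.mp h₂
    rw [Ideal.eq_top_iff_one]
    have hu : IsUnit (algebraMap B O e) := IsLocalization.map_units O (⟨e, hen⟩ : n.primeCompl)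
    have : algebraMap B O e ∈ p₂.map (algebraMap B O) := Ideal.mem_map_of_mem _ he
    exact (Ideal.eq_top_of_isUnit_mem _ this hu) ▸ Submodule.mem_top
  refine ⟨hP₁, ?_, isDiscreteValuationRing_quotient_map O h₁ hne⟩
  have := IsLocalization.map_inf n.primeCompl O p₁ p₂
  rw [htop, inf_top_eq, hinf, Ideal.map_span, Set.image_singleton] at this
  exact this.symm

end Local

/-- **NODE-LOC, node case**, for `O = Localization.AtPrime n`, with `IsLocalRing.maximalIdeal`:
verbatim the hypotheses `hinf`, `hsup` and the instances of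
`A2.H609.exists_unit_mul_pow_of_node`. -/
theorem node_local_data_atPrime {p₁ p₂ n : Ideal B} [p₁.IsPrime] [p₂.IsPrime] [n.IsPrime]
    [IsDedekindDomain (B ⧸ p₁)] [IsDedekindDomain (B ⧸ p₂)]
    {w : B} (hinf : p₁ ⊓ p₂ = Ideal.span {w}) (h₁₂ : ¬ p₁ ≤ p₂) (h₂₁ : ¬ p₂ ≤ p₁)
    (htr : (p₁ ⊔ p₂).IsRadical) (h₁ : p₁ ≤ n) (h₂ : p₂ ≤ n) :
    ∃ (_ : (p₁.map (algebraMap B (Localization.AtPrime n))).IsPrime)
      (_ : (p₂.map (algebraMap B (Localization.AtPrime n))).IsPrime),
      p₁.map (algebraMap B (Localization.AtPrime n)) ⊓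
          p₂.map (algebraMap B (Localization.AtPrime n)) =
        Ideal.span {algebraMap B (Localization.AtPrime n) w} ∧
      p₁.map (algebraMap B (Localization.AtPrime n)) ⊔
          p₂.map (algebraMap B (Localization.AtPrime n)) =
        IsLocalRing.maximalIdeal (Localization.AtPrime n) ∧
      IsDiscreteValuationRing
        (Localization.AtPrime n ⧸ p₁.map (algebraMap B (Localization.AtPrime n))) ∧
      IsDiscreteValuationRing
        (Localization.AtPrime n ⧸ p₂.map (algebraMap B (Localization.AtPrime n))) := by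
  obtain ⟨hP₁, hP₂, hi, hs, hd₁, hd₂⟩ :=
    node_local_data (Localization.AtPrime n) hinf h₁₂ h₂₁ htr h₁ h₂
  exact ⟨hP₁, hP₂, hi, by rw [hs, Localization.AtPrime.map_eq_maximalIdeal], hd₁, hd₂⟩

end Fermat.Agent.A2.H372

end
-- ===== PACK-END A2/H372/NodeLoc.lean

-- ===== PACK-BEGIN A2/H12/DeckTwo.lean
section


/-!
# Cell A2 — route G: the deck lemma for a two-chart model, ring form (helper12)

Mathlib-only.  `R₁`, `R₂` are the two charts of the model of the cover, `Q₁ s`, `Q₂ s` the ideal of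
the sheet `s` in the two charts, `ρ₁`, `ρ₂` the restriction of `τ̃⁻¹` to the charts.

* `fixes_all_two` : if `τ̃` fixes one sheet, is the identity modulo every fixed sheet (`h_triv`),
  a closed point carries at most one sheet of each colour (`h_uni` = COUNT), and the sheet graph
  is connected (`h_conn`), then `τ̃` fixes every sheet.
-/

set_option autoImplicit false

namespace Fermat.Agent.A2.H12

section Two

variable {R₁ R₂ : Type*} [CommRing R₁] [CommRing R₂] {S C : Type*}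

/-- adjacency: not comaximal in one of the two charts -/
def TwoAdj (Q₁ : S → Ideal R₁) (Q₂ : S → Ideal R₂) (s t : S) : Prop :=
  (¬ ∃ a ∈ Q₁ s, ∃ b ∈ Q₁ t, a + b = 1) ∨ (¬ ∃ a ∈ Q₂ s, ∃ b ∈ Q₂ t, a + b = 1)

/-- **Deck lemma, two charts, ring form.** -/
theorem fixes_all_two (ρ₁ : R₁ →+* R₁) (hρ₁ : Function.Surjective ρ₁)
    (ρ₂ : R₂ →+* R₂) (hρ₂ : Function.Surjective ρ₂)
    (Q₁ : S → Ideal R₁) (Q₂ : S → Ideal R₂) (τS : S → S) (col : S → C)
    (hQ₁ : ∀ s b, b ∈ Q₁ (τS s) → ρ₁ b ∈ Q₁ s)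
    (hQ₂ : ∀ s b, b ∈ Q₂ (τS s) → ρ₂ b ∈ Q₂ s)
    (h_col : ∀ s, col (τS s) = col s)
    (h_triv₁ : ∀ s, τS s = s → ∀ b, ρ₁ b - b ∈ Q₁ s)
    (h_triv₂ : ∀ s, τS s = s → ∀ b, ρ₂ b - b ∈ Q₂ s)
    (h_uni₁ : ∀ 𝔫 : Ideal R₁, 𝔫.IsMaximal → ∀ s t, col s = col t →
      Q₁ s ≤ 𝔫 → Q₁ t ≤ 𝔫 → s = t)
    (h_uni₂ : ∀ 𝔫 : Ideal R₂, 𝔫.IsMaximal → ∀ s t, col s = col t →
      Q₂ s ≤ 𝔫 → Q₂ t ≤ 𝔫 → s = t)
    (h_conn : ∀ s t : S, Relation.ReflTransGen (TwoAdj Q₁ Q₂) s t)
    (s₀ : S) (h₀ : τS s₀ = s₀) : ∀ s, τS s = s := by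
  classical
  -- points: maximal ideals of the two charts
  let Pt := {𝔫 : Ideal R₁ // 𝔫.IsMaximal} ⊕ {𝔫 : Ideal R₂ // 𝔫.IsMaximal}
  let inc : S → Pt → Prop := fun s p =>
    Sum.elim (fun 𝔫 => Q₁ s ≤ 𝔫.1) (fun 𝔫 => Q₂ s ≤ 𝔫.1) p
  let τP : Pt → Pt := fun p =>
    Sum.elim
      (fun 𝔫 => Sum.inl ⟨𝔫.1.comap ρ₁, by
        have := 𝔫.2
        exact Ideal.comap_isMaximal_of_surjective ρ₁ hρ₁⟩)
      (fun 𝔫 => Sum.inr ⟨𝔫.1.comap ρ₂, by
        have := 𝔫.2
        exact Ideal.comap_isMaximal_of_surjective ρ₂ hρ₂⟩) p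
  refine fixes_all inc col τS τP h_col ?_ ?_ ?_ ?_ s₀ h₀
  · -- incidence is preserved
    rintro s (𝔫 | 𝔫) hsp
    · intro b hb
      exact hsp (hQ₁ s b hb)
    · intro b hb
      exact hsp (hQ₂ s b hb)
  · -- points of a fixed sheet are fixed
    rintro s (𝔫 | 𝔫) hs hsp
    · have : 𝔫.1.comap ρ₁ = 𝔫.1 := by
        ext b
        rw [Ideal.mem_comap]
        have h1 : ρ₁ b - b ∈ 𝔫.1 := hsp (h_triv₁ s hs b)
        constructor
        · intro h
          have : b = ρ₁ b - (ρ₁ b - b) := by ring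
          rw [this]
          exact 𝔫.1.sub_mem h h1
        · intro h
          have : ρ₁ b = (ρ₁ b - b) + b := by ring
          rw [this]
          exact 𝔫.1.add_mem h1 h
      exact congrArg Sum.inl (Subtype.ext this)
    · have : 𝔫.1.comap ρ₂ = 𝔫.1 := by
        ext b
        rw [Ideal.mem_comap]
        have h1 : ρ₂ b - b ∈ 𝔫.1 := hsp (h_triv₂ s hs b)
        constructor
        · intro h
          have : b = ρ₂ b - (ρ₂ b - b) := by ring
          rw [this]
          exact 𝔫.1.sub_mem h h1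
        · intro h
          have : ρ₂ b = (ρ₂ b - b) + b := by ring
          rw [this]
          exact 𝔫.1.add_mem h1 h
      exact congrArg Sum.inr (Subtype.ext this)
  · -- COUNT
    rintro s t (𝔫 | 𝔫) hs ht hc
    · exact h_uni₁ 𝔫.1 𝔫.2 s t hc hs ht
    · exact h_uni₂ 𝔫.1 𝔫.2 s t hc hs ht
  · -- connectedness
    intro s t
    refine Relation.ReflTransGen.mono ?_ _ _ (h_conn s t)
    rintro a b (h | h)
    · obtain ⟨𝔫, h𝔫, ha, hb⟩ := exists_maximal_of_not_comaximal _ _ h
      exact ⟨Sum.inl ⟨𝔫, h𝔫⟩, ha, hb⟩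
    · obtain ⟨𝔫, h𝔫, ha, hb⟩ := exists_maximal_of_not_comaximal _ _ h
      exact ⟨Sum.inr ⟨𝔫, h𝔫⟩, ha, hb⟩

end Two

end Fermat.Agent.A2.H12

end
-- ===== PACK-END A2/H12/DeckTwo.lean

-- ===== PACK-BEGIN S55/Bridge/InertiaConj.lean
section


/-!
# S55 bridge: inertia groups of valuation subrings of `ℚ̄` — membership criterion, conjugation,
and normal (Galois) levels unramified outside `S`.
-/

set_option autoImplicit false

namespace Fermat.Agent.S55.Bridge

open IntermediateField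
open scoped Pointwise

attribute [local instance] isAlgebraic_Qbar isGalois_Qbar

section inertia

variable (A : ValuationSubring (AlgebraicClosure ℚ))

/-- Membership in the decomposition group, elementwise. -/
theorem mem_decompositionSubgroup_iff (σ : AlgebraicClosure ℚ ≃ₐ[ℚ] AlgebraicClosure ℚ) :
    σ ∈ A.decompositionSubgroup ℚ ↔ ∀ x, σ x ∈ A ↔ x ∈ A := by
  rw [MulAction.mem_stabilizer_iff]
  constructor
  · intro h x
    have hinv : σ⁻¹ • A = A := by
      conv_lhs => rw [← h]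
      rw [inv_smul_smul]
    have h1 := ValuationSubring.mem_pointwise_smul_iff_inv_smul_mem (S := A)
      (g := σ⁻¹) (x := x)
    rw [hinv, inv_inv] at h1
    rw [h1]
    rfl
  · intro h
    apply SetLike.ext
    intro x
    rw [ValuationSubring.mem_pointwise_smul_iff_inv_smul_mem]
    have h2 := h (σ⁻¹ • x)
    rw [AlgEquiv.smul_def] at h2 ⊢
    rw [← h2]
    have : σ (σ⁻¹ x) = x := by
      show (σ * σ⁻¹) x = x
      rw [mul_inv_cancel]
      rfl
    rw [this]

/-- Membership in the inertia group, elementwise. -/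
theorem mem_inertiaSubgroupIn_iff (σ : AlgebraicClosure ℚ ≃ₐ[ℚ] AlgebraicClosure ℚ) :
    σ ∈ A.inertiaSubgroupIn ℚ ↔
      σ ∈ A.decompositionSubgroup ℚ ∧ ∀ z ∈ A, σ z - z ∈ A.nonunits := by
  constructor
  · intro hσ
    have hD : σ ∈ A.decompositionSubgroup ℚ := by
      obtain ⟨g, -, rfl⟩ := hσ
      exact g.2
    refine ⟨hD, fun z hz => ?_⟩
    rw [ValuationSubring.mem_nonunits_iff]
    exact inertia_val_sub_lt_one A hσ z ((A.valuation_le_one_iff z).2 hz)
  · rintro ⟨hD, h⟩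
    refine ⟨⟨σ, hD⟩, ?_, rfl⟩
    show (⟨σ, hD⟩ : A.decompositionSubgroup ℚ) ∈ MonoidHom.ker
      (MulSemiringAction.toRingAut (A.decompositionSubgroup ℚ) (IsLocalRing.ResidueField A))
    rw [MonoidHom.mem_ker]
    apply RingEquiv.ext
    intro y
    obtain ⟨x, rfl⟩ := IsLocalRing.residue_surjective y
    show (⟨σ, hD⟩ : A.decompositionSubgroup ℚ) • (IsLocalRing.residue A x)
      = IsLocalRing.residue A x
    rw [← IsLocalRing.ResidueField.residue_smul]
    rw [← sub_eq_zero, ← map_sub, IsLocalRing.residue_eq_zero_iff]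
    have h3 := h x.1 x.2
    rw [ValuationSubring.mem_nonunits_iff] at h3
    rw [ValuationSubring.valuation_lt_one_iff]
    exact h3

theorem mem_smul_valuationSubring_iff (b : AlgebraicClosure ℚ ≃ₐ[ℚ] AlgebraicClosure ℚ)
    (x : AlgebraicClosure ℚ) : x ∈ b • A ↔ b⁻¹ x ∈ A := by
  rw [ValuationSubring.mem_pointwise_smul_iff_inv_smul_mem]
  rfl

theorem mem_nonunits_iff_inv_not_mem (x : AlgebraicClosure ℚ) :
    x ∈ A.nonunits ↔ x = 0 ∨ x⁻¹ ∉ A := by
  rw [ValuationSubring.mem_nonunits_iff]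
  rcases eq_or_ne x 0 with rfl | hx
  · simp
  · simp only [hx, false_or]
    rw [← A.valuation_le_one_iff, map_inv₀, not_le]
    have hpos : 0 < A.valuation x := by
      rw [zero_lt_iff]
      exact (A.valuation.ne_zero_iff).2 hx
    rw [one_lt_inv₀ hpos]

theorem mem_nonunits_smul_iff (b : AlgebraicClosure ℚ ≃ₐ[ℚ] AlgebraicClosure ℚ)
    (x : AlgebraicClosure ℚ) : x ∈ (b • A).nonunits ↔ b⁻¹ x ∈ A.nonunits := by
  rw [mem_nonunits_iff_inv_not_mem, mem_nonunits_iff_inv_not_mem, mem_smul_valuationSubring_iff,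
    map_inv₀]
  have : b⁻¹ x = 0 ↔ x = 0 := by
    rw [map_eq_zero_iff _ (b⁻¹).injective]
  rw [this]

theorem liesOverPrime_smul (b : AlgebraicClosure ℚ ≃ₐ[ℚ] AlgebraicClosure ℚ) (q : ℕ)
    (hA : A.LiesOverPrime q) : (b • A).LiesOverPrime q := by
  show (q : AlgebraicClosure ℚ) ∈ (b • A).nonunits
  rw [mem_nonunits_smul_iff, map_natCast]
  exact hA

theorem apply_inv_conj (b σ : AlgebraicClosure ℚ ≃ₐ[ℚ] AlgebraicClosure ℚ)
    (x : AlgebraicClosure ℚ) : b⁻¹ ((b * σ * b⁻¹) x) = σ (b⁻¹ x) := by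
  show (b⁻¹ * (b * σ * b⁻¹)) x = (σ * b⁻¹) x
  congr 1
  group

/-- Conjugation carries the inertia group of `A` to that of `b • A`. -/
theorem conj_mem_inertiaSubgroupIn (b σ : AlgebraicClosure ℚ ≃ₐ[ℚ] AlgebraicClosure ℚ)
    (hσ : σ ∈ A.inertiaSubgroupIn ℚ) : b * σ * b⁻¹ ∈ (b • A).inertiaSubgroupIn ℚ := by
  rw [mem_inertiaSubgroupIn_iff] at hσ ⊢
  obtain ⟨hD, hI⟩ := hσ
  rw [mem_decompositionSubgroup_iff] at hD
  refine ⟨?_, ?_⟩
  · rw [mem_decompositionSubgroup_iff]
    intro x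
    rw [mem_smul_valuationSubring_iff, mem_smul_valuationSubring_iff, apply_inv_conj, hD]
  · intro z hz
    rw [mem_smul_valuationSubring_iff] at hz
    rw [mem_nonunits_smul_iff, map_sub, apply_inv_conj]
    exact hI _ hz

end inertia

section Levels

variable (S : Finset Nat.Primes)

/-- Every finite extension unramified outside `S` is contained in a finite GALOIS extension
unramified outside `S`. -/
theorem exists_galois_level_ge (F : IntermediateField ℚ (AlgebraicClosure ℚ))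
    (hF : F.IsUnramifiedOutside S) :
    ∃ L : IntermediateField ℚ (AlgebraicClosure ℚ),
      L.IsUnramifiedOutside S ∧ IsGalois ℚ L ∧ F ≤ L := by
  haveI := hF.1
  haveI : (F.fixingSubgroup.normalCore).Normal := Subgroup.normalCore_normal _
  -- the normal closure is a finite Galois extension containing `F`
  have hfinN : FiniteDimensional ℚ (IntermediateField.normalClosure ℚ F (AlgebraicClosure ℚ)) :=
    normalClosure.is_finiteDimensional ℚ F (AlgebraicClosure ℚ)
  have hgalN : IsGalois ℚ (IntermediateField.normalClosure ℚ F (AlgebraicClosure ℚ)) :=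
    IsGalois.normalClosure ℚ F (AlgebraicClosure ℚ)
  have hnormal : (IntermediateField.normalClosure ℚ F
      (AlgebraicClosure ℚ)).fixingSubgroup.Normal :=
    (InfiniteGalois.normal_iff_isGalois _).2 hgalN
  have hle : (IntermediateField.normalClosure ℚ F (AlgebraicClosure ℚ)).fixingSubgroup
      ≤ F.fixingSubgroup.normalCore := by
    rw [Subgroup.normal_le_normalCore]
    exact IntermediateField.fixingSubgroup_antitone (IntermediateField.le_normalClosure F)
  obtain ⟨L, hL, hgal, hfix, -⟩ := exists_galois_level_of_subgroup S F.fixingSubgroup.normalCore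
    (IntermediateField.normalClosure ℚ F (AlgebraicClosure ℚ)) hfinN hle
    (by
      intro q hq A hA σ hσ
      rw [Subgroup.normalCore]
      intro b
      have h1 := conj_mem_inertiaSubgroupIn A b σ hσ
      exact hF.2 q hq (b • A) (liesOverPrime_smul A b q hA) h1)
  refine ⟨L, hL, hgal, ?_⟩
  have h2 : L.fixingSubgroup ≤ F.fixingSubgroup := by
    rw [hfix]
    exact Subgroup.normalCore_le _
  rw [← InfiniteGalois.fixedField_fixingSubgroup F, ← InfiniteGalois.fixedField_fixingSubgroup L]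
  exact IntermediateField.fixedField_antitone h2

end Levels

end Fermat.Agent.S55.Bridge

end
-- ===== PACK-END S55/Bridge/InertiaConj.lean

-- ===== PACK-BEGIN A2/H129/KummerJZero.lean
section



/-!
# A2 / K1 for `JZero N`: the wall A2 from its Kummer form

`A2Kummer N m σ` is the Kummer-side statement for the arithmetic Galois action of `σ` on
`Q̄(X₀(N)) ⊂ Q̄((q))`; `unipotent_JZero_of_kummer` turns it into `(σ - 1)² = 0` on `J₀(N)[m]`.
-/

set_option autoImplicit false

namespace Fermat.Agent.A2.H129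

open AlgebraicCurve ModularCurve

/-- The Kummer form of wall A2 for one `σ`: for every `f ∈ Q̄(X₀(N))^×` whose divisor is divisible
by `m`, `(σ-1)² f` is a constant times an `m`-th power. -/
def A2Kummer (N m : ℕ) (σ : AlgebraicClosure ℚ ≃ₐ[ℚ] AlgebraicClosure ℚ) : Prop :=
  KummerTwice (K := AlgebraicClosure ℚ) (F := modularFunctionFieldBar N)
    (arithmeticGalois (modularFunctionFieldFull N) σ) m

theorem unipotent_JZero_of_kummer (N m : ℕ) (hm : m ≠ 0)
    (σ : AlgebraicClosure ℚ ≃ₐ[ℚ] AlgebraicClosure ℚ) (H : A2Kummer N m σ)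
    (x : JZero N) (hx : m • x = 0) :
    σ • (σ • x - x) = σ • x - x := by
  have h := unipotent_of_kummerTwice
    (arithmeticGalois (modularFunctionFieldFull N) σ) m hm H x hx
  exact h

end Fermat.Agent.A2.H129

end
-- ===== PACK-END A2/H129/KummerJZero.lean

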