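import Mathlib
import Mathlib.Algebra.Ring.GeomSum
import Mathlib.RingTheory.Ideal.Operations
import Fermat.Prelude.Def_AlgebraicCurve_DivisorClassGroup
import Fermat.Agent.Pack.S44.G0E10L1
import Fermat.Agent.Pack.S44.G0E0L2
import Fermat.Agent.Pack.S44.G0E5L1
import Fermat.Agent.Pack.S44.G0E10L0
import Fermat.Agent.Pack.S44.G0E10L2
import Fermat.Agent.Pack.S44.G0E6L2
import Fermat.Agent.Pack.S44.G0E9L2
import Fermat.Agent.Pack.S44.G0E9L0
import Fermat.Agent.Pack.S44.G1E0L0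
import Fermat.Agent.Pack.S44.G0E9L1
import Fermat.Agent.Pack.S44.G0E5L3
import Fermat.Agent.Pack.S44.G0E5L2

-- ===== PACK-BEGIN S24/Mod/H997Local.lean
section


/-!
# S24 / MOD — construction of `LocalData` from an abstract expansion with rotation data
-/

set_option autoImplicit false

noncomputable section

open ModularCurve HahnSeries UpperHalfPlane
open scoped MatrixGroups

namespace Fermat.Agent.S24.H997

/-! ### The "rotation relation" on Laurent series -/

/-- `b` has the same order as `a`, and leading coefficient `ζ ^ order * (leading coeff of a)`. -/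
def RotRel (ζ : ℂ) (a b : LaurentSeries ℂ) : Prop :=
  b.order = a.order ∧ b.leadingCoeff = ζ ^ a.order * a.leadingCoeff

namespace RotRel

variable {ζ : ℂ} {a b a' b' : LaurentSeries ℂ}

theorem zero : RotRel ζ 0 0 := ⟨rfl, by simp⟩

theorem eq_zero_iff (h : RotRel ζ a b) (hζ : ζ ≠ 0) : b = 0 ↔ a = 0 := by
  rw [← leadingCoeff_eq_zero (x := b), ← leadingCoeff_eq_zero (x := a), h.2]
  simp [zpow_ne_zero _ hζ]

theorem mul (hζ : ζ ≠ 0) (h : RotRel ζ a b) (h' : RotRel ζ a' b') :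
    RotRel ζ (a * a') (b * b') := by
  by_cases ha : a = 0
  · have hb : b = 0 := (h.eq_zero_iff hζ).mpr ha
    simp only [ha, hb, zero_mul]; exact zero
  by_cases ha' : a' = 0
  · have hb' : b' = 0 := (h'.eq_zero_iff hζ).mpr ha'
    simp only [ha', hb', mul_zero]; exact zero
  have hb : b ≠ 0 := fun hb => ha ((h.eq_zero_iff hζ).mp hb)
  have hb' : b' ≠ 0 := fun hb' => ha' ((h'.eq_zero_iff hζ).mp hb')
  have hab : a.leadingCoeff * a'.leadingCoeff ≠ 0 :=
    mul_ne_zero (leadingCoeff_ne_zero.mpr ha) (leadingCoeff_ne_zero.mpr ha')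
  have hbb : b.leadingCoeff * b'.leadingCoeff ≠ 0 :=
    mul_ne_zero (leadingCoeff_ne_zero.mpr hb) (leadingCoeff_ne_zero.mpr hb')
  refine ⟨?_, ?_⟩
  · rw [order_mul_of_ne_zero hab, order_mul_of_ne_zero hbb, h.1, h'.1]
  · rw [leadingCoeff_mul, leadingCoeff_mul, order_mul_of_ne_zero hab, h.2, h'.2, zpow_add₀ hζ]
    ring

theorem one : RotRel ζ 1 1 := ⟨rfl, by simp⟩

theorem order_inv' {x : LaurentSeries ℂ} (hx : x ≠ 0) : x⁻¹.order = -x.order := by
  have hxi : x⁻¹ ≠ 0 := inv_ne_zero hx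
  have h : x.leadingCoeff * x⁻¹.leadingCoeff ≠ 0 :=
    mul_ne_zero (leadingCoeff_ne_zero.mpr hx) (leadingCoeff_ne_zero.mpr hxi)
  have := order_mul_of_ne_zero h
  rw [mul_inv_cancel₀ hx, order_one] at this
  omega

theorem leadingCoeff_inv' {x : LaurentSeries ℂ} (hx : x ≠ 0) :
    x⁻¹.leadingCoeff = (x.leadingCoeff)⁻¹ := by
  have := leadingCoeff_mul x x⁻¹
  rw [mul_inv_cancel₀ hx, leadingCoeff_one] at this
  exact eq_inv_of_mul_eq_one_right this.symm

theorem inv (hζ : ζ ≠ 0) (h : RotRel ζ a b) : RotRel ζ a⁻¹ b⁻¹ := by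
  by_cases ha : a = 0
  · have hb : b = 0 := (h.eq_zero_iff hζ).mpr ha
    simp only [ha, hb, inv_zero]; exact zero
  have hb : b ≠ 0 := fun hb => ha ((h.eq_zero_iff hζ).mp hb)
  refine ⟨?_, ?_⟩
  · rw [order_inv' hb, order_inv' ha, h.1]
  · rw [leadingCoeff_inv' hb, leadingCoeff_inv' ha, order_inv' ha, h.2, mul_inv, zpow_neg]

theorem div (hζ : ζ ≠ 0) (h : RotRel ζ a b) (h' : RotRel ζ a' b') :
    RotRel ζ (a / a') (b / b') := by
  rw [div_eq_mul_inv, div_eq_mul_inv]
  exact h.mul hζ (h'.inv hζ)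

end RotRel

variable {N : ℕ} [NeZero N]

/-- An abstract injective expansion ring hom on `Hol`. -/
structure Expansion (B : HolBase N) where
  E : B.Hol →+* LaurentSeries ℂ
  inj : Function.Injective E
  const : ∀ c : ℂ, E (B.constH c) = HahnSeries.C c

/-- Rotation data for an expansion: precomposition with `ε` rotates the local coordinate
by the primitive `m`-th root of unity `ζ` (to first order). -/
structure RotData (B : HolBase N) (X : Expansion B) (ε : SL(2, ℤ)) where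
  m : ℕ
  m_pos : 0 < m
  ζ : ℂ
  hζ : IsPrimitiveRoot ζ m
  rot : ∀ h : B.Hol, RotRel ζ (X.E h) (X.E (B.compH ε h))

namespace HolBase

variable (B : HolBase N) (X : Expansion B)

/-- the ring hom `R_N → ℂ((z))`, `r ↦ E (e r ∘ g⁻¹)` -/
def sG (g : SL(2, ℤ)) : RN N →+* LaurentSeries ℂ :=
  X.E.comp ((B.compH g⁻¹).comp B.bridge)

theorem sG_apply (g : SL(2, ℤ)) (r : RN N) :
    B.sG X g r = X.E (B.compH g⁻¹ (B.bridge r)) := rfl

theorem sG_injective (g : SL(2, ℤ)) : Function.Injective (B.sG X g) :=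
  X.inj.comp ((B.compH_injective g⁻¹).comp B.bridge_injective)

/-- the embedding `FF N → ℂ((z))` attached to `g` -/
def sigmaG (g : SL(2, ℤ)) : FF N →+* LaurentSeries ℂ :=
  liftF (B.sG X g) (B.sG_injective X g)

theorem sigmaG_inclRN (g : SL(2, ℤ)) (r : RN N) :
    B.sigmaG X g (inclRN N r) = X.E (B.compH g⁻¹ (B.bridge r)) :=
  liftF_inclRN _ _ r

theorem sigmaG_algebraMap (g : SL(2, ℤ)) (c : Kbar) :
    B.sigmaG X g (algebraMap Kbar (FF N) c) = HahnSeries.C (ιK c) := by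
  rw [sigmaG, liftF_algebraMap, sG_apply, bridge_algebraMap, compH_constH, X.const]

theorem sigmaG_jF (g : SL(2, ℤ)) :
    B.sigmaG X g (jF N) = X.E (B.JH 1 (one_dvd N)) := by
  rw [← inclRN_jR_one, sigmaG_inclRN, bridge_jR, compH_JH_one]

theorem sG_mul_of_mem (g : SL(2, ℤ)) {δ : SL(2, ℤ)} (hδ : δ ∈ CongruenceSubgroup.Gamma0 N) :
    B.sG X (g * δ) = B.sG X g := by
  ext1 r
  rw [sG_apply, sG_apply, mul_inv_rev, compH_mul,
    B.compH_bridge_of_mem (inv_mem hδ)]

theorem sigmaG_mul_of_mem (g : SL(2, ℤ)) {δ : SL(2, ℤ)}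
    (hδ : δ ∈ CongruenceSubgroup.Gamma0 N) : B.sigmaG X (g * δ) = B.sigmaG X g := by
  unfold sigmaG
  congr 1
  exact B.sG_mul_of_mem X g hδ

theorem sigmaG_eq_of_mk_eq {g g' : SL(2, ℤ)}
    (h : (g : XX N) = (g' : XX N)) : B.sigmaG X g = B.sigmaG X g' := by
  have hmem : g⁻¹ * g' ∈ CongruenceSubgroup.Gamma0 N := QuotientGroup.eq.mp h
  have := B.sigmaG_mul_of_mem X g hmem
  rw [mul_inv_cancel_left] at this
  exact this.symm

/-- the embedding attached to a coset -/
def sigmaX (x : XX N) : FF N →+* LaurentSeries ℂ := B.sigmaG X (Quotient.out x)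

theorem sigmaX_mk (g : SL(2, ℤ)) : B.sigmaX X (g : XX N) = B.sigmaG X g :=
  B.sigmaG_eq_of_mk_eq X (QuotientGroup.out_eq' _)

theorem sigmaX_injective : Function.Injective (B.sigmaX X) := by
  intro x y hxy
  obtain ⟨g, rfl⟩ := QuotientGroup.mk_surjective x
  obtain ⟨g', rfl⟩ := QuotientGroup.mk_surjective y
  rw [sigmaX_mk, sigmaX_mk] at hxy
  have h1 := congrArg (fun s => s (inclRN N (jR N N dvd_rfl))) hxy
  simp only [sigmaG_inclRN, bridge_jR] at h1
  have h2 := X.inj h1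
  apply QuotientGroup.eq.mpr
  apply B.J_distinct
  intro τ
  have h3 := congrArg (fun h : B.Hol => (h : ℍ → ℂ) (g' • τ)) h2
  simp only [compH_apply] at h3
  rw [← mul_smul, ← mul_smul, inv_mul_cancel, one_smul] at h3
  exact h3

theorem rotRel_sigmaG (ε : SL(2, ℤ)) (R : RotData B X ε) (g : SL(2, ℤ)) (f : FF N) :
    RotRel R.ζ (B.sigmaG X g f) (B.sigmaG X (ε⁻¹ * g) f) := by
  have hζ : R.ζ ≠ 0 := R.hζ.ne_zero R.m_pos.ne'
  obtain ⟨r, t, -, rfl⟩ := exists_div_inclRN N f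
  rw [map_div₀, map_div₀]
  have key : ∀ r : RN N, RotRel R.ζ (B.sigmaG X g (inclRN N r))
      (B.sigmaG X (ε⁻¹ * g) (inclRN N r)) := by
    intro r
    rw [sigmaG_inclRN, sigmaG_inclRN, mul_inv_rev, inv_inv, compH_mul]
    exact R.rot _
  exact (key r).div hζ (key t)

/-- `LocalData` from an expansion with rotation data. -/
def mkLocalData (ε : SL(2, ℤ)) (R : RotData B X ε) (t : FF N) (u : LaurentSeries ℂ)
    (ht : ∀ g : SL(2, ℤ), B.sigmaG X g t = u) (hu : u.order = (R.m : ℤ)) :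
    LocalData Kbar (FF N) ℂ (XX N) t where
  m := R.m
  m_pos := R.m_pos
  ζ := R.ζ
  hζ := R.hζ
  ι := ιK
  perm := permOf N ε⁻¹
  σ := B.sigmaX X
  σ_inj := B.sigmaX_injective X
  σ_const x c := B.sigmaG_algebraMap X _ c
  σ_t_eq x y := by
    show B.sigmaG X _ t = B.sigmaG X _ t
    rw [ht, ht]
  σ_t_order x := by
    show (B.sigmaG X _ t).order = _
    rw [ht, hu]
  σ_perm_order x f := by
    obtain ⟨g, rfl⟩ := QuotientGroup.mk_surjective x
    have h : permOf N ε⁻¹ (g : XX N) = ((ε⁻¹ * g : SL(2, ℤ)) : XX N) := rfl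
    rw [h, sigmaX_mk, sigmaX_mk]
    exact (B.rotRel_sigmaG X ε R g f).1
  σ_perm_leadingCoeff x f := by
    obtain ⟨g, rfl⟩ := QuotientGroup.mk_surjective x
    have h : permOf N ε⁻¹ (g : XX N) = ((ε⁻¹ * g : SL(2, ℤ)) : XX N) := rfl
    rw [h, sigmaX_mk, sigmaX_mk]
    exact (B.rotRel_sigmaG X ε R g f).2

@[simp] theorem mkLocalData_perm (ε : SL(2, ℤ)) (R : RotData B X ε) (t : FF N)
    (u : LaurentSeries ℂ) (ht : ∀ g : SL(2, ℤ), B.sigmaG X g t = u)
    (hu : u.order = (R.m : ℤ)) :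
    (B.mkLocalData X ε R t u ht hu).perm = permOf N ε⁻¹ := rfl

end HolBase

end Fermat.Agent.S24.H997

end
end
-- ===== PACK-END S24/Mod/H997Local.lean

-- ===== PACK-BEGIN S20/Comb694/OrbitCounts.lean
section




/-!
# Orbit counts of `S` and `S * T` on `SL(2,ℤ) ⧸ Gamma0 N`, and the genus identity

* `two_mul_card_orbits_S : 2 * #(Q / ⟨S⟩) = ψ(N) + ν₂(N)`
* `three_mul_card_orbits_ST : 3 * #(Q / ⟨S * T⟩) = ψ(N) + 2 * ν₃(N)`
* `genusFormula_eq_of_card_orbits_T` : the Euler-characteristic identity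
  `genusFormula N = 1 + (μ - o₂ - o₃ - o∞) / 2`.
-/

set_option autoImplicit false

namespace Fermat.Agent.S20.Comb694

open Matrix MatrixGroups CongruenceSubgroup MulAction Subgroup

/-- `-1` acts trivially on `SL(2,ℤ) ⧸ Γ₀(N)`. -/
lemma neg_one_smul_quotient (N : ℕ) (q : SL(2, ℤ) ⧸ Gamma0 N) : (-1 : SL(2, ℤ)) • q = q := by
  obtain ⟨g, rfl⟩ := QuotientGroup.mk_surjective q
  rw [smul_mk_eq_mk_iff]
  have h : ∀ i j, ((-1 : SL(2, ℤ)) * g) i j = - g i j := by
    intro i j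
    rw [neg_mul, one_mul, Matrix.SpecialLinearGroup.coe_neg, Matrix.neg_apply]
  rw [h, h]
  push_cast
  ring

lemma S_pow_two : ModularGroup.S ^ 2 = (-1 : SL(2, ℤ)) := by
  apply Subtype.ext
  rw [pow_two, Matrix.SpecialLinearGroup.coe_mul, ModularGroup.coe_S,
    Matrix.SpecialLinearGroup.coe_neg, Matrix.SpecialLinearGroup.coe_one]
  ext i j
  fin_cases i <;> fin_cases j <;> simp [Matrix.mul_apply, Fin.sum_univ_two]

lemma ST_pow_three : (ModularGroup.S * ModularGroup.T) ^ 3 = (-1 : SL(2, ℤ)) := by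
  apply Subtype.ext
  rw [pow_succ, pow_two, Matrix.SpecialLinearGroup.coe_mul, Matrix.SpecialLinearGroup.coe_mul,
    coe_S_mul_T, Matrix.SpecialLinearGroup.coe_neg, Matrix.SpecialLinearGroup.coe_one]
  ext i j
  fin_cases i <;> fin_cases j <;> simp [Matrix.mul_apply, Fin.sum_univ_two]

/-- `2 * #(S-orbits) = ψ(N) + ν₂(N)`. -/
theorem two_mul_card_orbits_S (N : ℕ) [NeZero N] :
    2 * Nat.card (orbitRel.Quotient (zpowers ModularGroup.S) (SL(2, ℤ) ⧸ Gamma0 N))
      = ModularCurve.dedekindPsi N + ModularCurve.nuTwo N := by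
  have h := prime_mul_card_orbits (X := SL(2, ℤ) ⧸ Gamma0 N) ModularGroup.S 2 Nat.prime_two
    (fun x => by rw [S_pow_two]; exact neg_one_smul_quotient N x)
  rw [card_quotient_Gamma0, card_fixedBy_S] at h
  exact h.trans (by norm_num)

/-- `3 * #(ST-orbits) = ψ(N) + 2 * ν₃(N)`. -/
theorem three_mul_card_orbits_ST (N : ℕ) [NeZero N] :
    3 * Nat.card (orbitRel.Quotient (zpowers (ModularGroup.S * ModularGroup.T))
        (SL(2, ℤ) ⧸ Gamma0 N))
      = ModularCurve.dedekindPsi N + 2 * ModularCurve.nuThree N := by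
  have h := prime_mul_card_orbits (X := SL(2, ℤ) ⧸ Gamma0 N)
    (ModularGroup.S * ModularGroup.T) 3 Nat.prime_three
    (fun x => by rw [ST_pow_three]; exact neg_one_smul_quotient N x)
  rw [card_quotient_Gamma0, card_fixedBy_ST] at h
  exact h.trans (by norm_num)

/-- The Euler-characteristic identity: with `μ = #Q`, `o₂`, `o₃`, `o∞` the numbers of orbits of
`S`, `S * T`, `T` on `Q = SL(2,ℤ) ⧸ Γ₀(N)`, one has `genusFormula N = 1 + (μ - o₂ - o₃ - o∞) / 2`,
provided `o∞ = cuspCount N`. -/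
theorem genusFormula_eq_of_card_orbits_T (N : ℕ) [NeZero N]
    (hT : Nat.card (orbitRel.Quotient (zpowers ModularGroup.T) (SL(2, ℤ) ⧸ Gamma0 N))
      = ModularCurve.cuspCount N) :
    ModularCurve.genusFormula N
      = 1 + ((Nat.card (SL(2, ℤ) ⧸ Gamma0 N) : ℚ)
          - (Nat.card (orbitRel.Quotient (zpowers ModularGroup.S) (SL(2, ℤ) ⧸ Gamma0 N)) : ℚ)
          - (Nat.card (orbitRel.Quotient (zpowers (ModularGroup.S * ModularGroup.T))
              (SL(2, ℤ) ⧸ Gamma0 N)) : ℚ)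
          - (Nat.card (orbitRel.Quotient (zpowers ModularGroup.T)
              (SL(2, ℤ) ⧸ Gamma0 N)) : ℚ)) / 2 := by
  have h2 := two_mul_card_orbits_S N
  have h3 := three_mul_card_orbits_ST N
  have h2' := congrArg (Nat.cast : ℕ → ℚ) h2
  have h3' := congrArg (Nat.cast : ℕ → ℚ) h3
  push_cast at h2' h3'
  rw [hT, card_quotient_Gamma0, ModularCurve.genusFormula]
  linear_combination (1 / 4 : ℚ) * h2' + (1 / 6 : ℚ) * h3'

/-- Orbit-count form used by dimension bounds: `μ + 2 - o₂ - o₃ - o∞ = 2 * genusFormula N`. -/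
theorem two_mul_genusFormula_of_card_orbits_T (N : ℕ) [NeZero N]
    (hT : Nat.card (orbitRel.Quotient (zpowers ModularGroup.T) (SL(2, ℤ) ⧸ Gamma0 N))
      = ModularCurve.cuspCount N) :
    2 * ModularCurve.genusFormula N
      + (Nat.card (orbitRel.Quotient (zpowers ModularGroup.S) (SL(2, ℤ) ⧸ Gamma0 N)) : ℚ)
      + (Nat.card (orbitRel.Quotient (zpowers (ModularGroup.S * ModularGroup.T))
          (SL(2, ℤ) ⧸ Gamma0 N)) : ℚ)
      + (Nat.card (orbitRel.Quotient (zpowers ModularGroup.T) (SL(2, ℤ) ⧸ Gamma0 N)) : ℚ)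
      = (Nat.card (SL(2, ℤ) ⧸ Gamma0 N) : ℚ) + 2 := by
  rw [genusFormula_eq_of_card_orbits_T N hT]
  ring

end Fermat.Agent.S20.Comb694

end
-- ===== PACK-END S20/Comb694/OrbitCounts.lean

-- ===== PACK-BEGIN Ribet/H944/WallSpec.lean
section


/-!
# Row 38, WALL-p (Mazur-Ribet at `p`): frozen decomposition + proved glue  (wall architect helper944)

Target of the row: `Spec.AtPOccursGoodStatement` (S40) or `Spec.AtPOccursStatement` (S44).
`N = p·M'`, `p ∤ M'`, `J = JZero (p * M')`, `A` a valuation ring of `ℚ̄` over `p`,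
`I = A.inertiaSubgroupIn ℚ`, `χ` = mod-`p` cyclotomic character, encoded as in `Spec.lean`:
`CycloAt p σ c` means `σ ζ = ζ ^ c` for all `p`-th roots of unity `ζ`.

## Level 1 (W0 + WP + ordinary case)
* `IsDegPair p M' S₀ α β`  : `α, β : J₀(pM') → J₀(M')` additive, Galois-equivariant, Hecke-equivariant
  off `S₀` (the two degeneracy pushforwards; piece W-DEG).
* `WPFor p M' α β`         : **(WP)** on the new part `ker α ∩ ker β` of `J[p]`, every `σ ∈ I` satisfies
  `(σ - χ(σ))(σ - 1) = 0`   ("A2 at `p`, twisted").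
* `NewKernelStatement`     : W-DEG + WP.
* `OrdCaseGoodStatement` / `OrdCaseFreyStatement` : the wall under the extra hypothesis
  `OrdinaryInertiaAt` (`(σ - χ(σ))(σ - 1) = 0` on `E[p]` for `σ ∈ I`), i.e. the ORDINARY case.
* PROVED: `wallGood_of`, `wallFrey_of` : Places + NewKernel + OrdCase ⇒ wall.
  (Supersingular curves never satisfy `OrdinaryInertiaAt`, piece ELOC-ss; so the supersingular
  case is W-DEG + WP alone.)

## Level 2 (the ordinary case = filtration package + local theory of `E[p]`)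
* `AtPFiltrationStatement` : subgroups `𝓕` ("finite part", `ker` of the slope map) and `𝒮`
  ("split part", trivial reductions on both components) of `J` with
  (S1) `σ x - x ∈ 𝒮` for `x ∈ J[p]`, `σ ∈ I`;
  (S2) `I` acts through `χ` on the new part of `𝒮`;
  (S3) a new Hecke-eigen class in `𝓕 ∖ 𝒮` has its eigensystem at level `M'`;
  (S4) **crux (I6)**: a new, non-Eisenstein, ordinary, peu ramifiée class lies in `𝓕`.
* `ELOCOrdGoodStatement` / `ELOCOrdFreyStatement` : for `E` with `OrdinaryInertiaAt`: the line `⟨t⟩`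
  with `I` acting by `χ`, trivial action on `E[p]/⟨t⟩`, and `E[p]` peu ramifiée (`PeuFixes`).
* PROVED: `newKernel_of_filtration`, `ordCaseGood_of`, `ordCaseFrey_of`, and the total glue
  `wallGood_of_filtration`, `wallFrey_of_filtration`; `atPOccursGood_of` lands in the Spec3 shape
  when (S3) is proved with `OccursIn`.

Conclusions are stated with `Lowered` (`OccursIn` at level `M'` OR a congruent eigenform of level
`M'`), the weakest form the top glue accepts: `S40_of_wall`, `S44_of_wall` below.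
-/

set_option autoImplicit false
set_option linter.style.haveILetI false

open WeierstrassCurve WeierstrassCurve.Affine WeierstrassCurve.Affine.Point
open CuspForm ModularFormClass UpperHalfPlane ModularCurve

namespace Fermat.Agent.Ribet.H944.Wall

open Fermat.Agent.Ribet.Spec

/-! ## Vocabulary -/

/-- `σ` acts on the `p`-th roots of unity as the `c`-th power (`c = χ(σ)`). -/
def CycloAt (p : ℕ) (σ : GQ) (c : ℕ) : Prop :=
  ∀ ζ : AlgebraicClosure ℚ, ζ ^ p = 1 → σ ζ = ζ ^ c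

/-- `E[p]` for an elliptic curve over `ℚ` (`WTorsion W p`, `FreyTorsion P` are instances). -/
abbrev ETorsion (E : WeierstrassCurve ℚ) (p : ℕ) : Type :=
  Submodule.torsionBy ℤ (E⁄(AlgebraicClosure ℚ)).Point p

/-- `x` is a Hecke eigenvector with eigenvalues `a` away from `S`. -/
def EigenAt (N : ℕ) [NeZero N] (S : Finset ℕ) (a : ℕ → ℤ) (x : JZero N) : Prop :=
  ∀ ℓ : Nat.Primes, (ℓ : ℕ) ∉ S → heckeOperatorBar N ℓ x = a ℓ • x

/-- A Galois- and Hecke-equivariant embedding of `E[p]` into `J₀(N)`, eigenvalues `a` off `S`. -/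
def EEmbedsIn (E : WeierstrassCurve ℚ) (p N : ℕ) [NeZero N] (S : Finset ℕ) (a : ℕ → ℤ) :
    Prop :=
  ∃ ι : ETorsion E p →+ JZero N, Function.Injective ι ∧
    (∀ (σ : GQ) (x : ETorsion E p), ι (σ • x) = σ • ι x) ∧
    ∀ ℓ : Nat.Primes, (ℓ : ℕ) ∉ S → ∀ x : ETorsion E p,
      heckeOperatorBar N ℓ (ι x) = a ℓ • ι x

/-- A normalised eigenform of level `M` congruent to `a` modulo a prime over `p`, off `S`. -/
def EigenAway (M p : ℕ) (S : Finset ℕ) (a : ℕ → ℤ) : Prop :=
  ∃ (g : CuspForm (CongruenceSubgroup.Gamma0 M) 2) (𝔪 : Ideal (integralClosure ℤ ℂ)),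
    g.IsNormalizedEigenform ∧ 𝔪.IsMaximal ∧ (p : integralClosure ℤ ℂ) ∈ 𝔪 ∧
    ∀ ℓ : ℕ, ℓ.Prime → ℓ ∉ S →
      ∃ b : integralClosure ℤ ℂ, (b : ℂ) = qCoeff g ℓ ∧
        b - ((a ℓ : ℤ) : integralClosure ℤ ℂ) ∈ 𝔪

/-- The conclusion of the wall, weakest form: the eigensystem `a` lives at level `M'`, either on
`J₀(M')[p]` or on a congruent eigenform, away from a finite set containing `S`. -/
def Lowered (M' p : ℕ) [NeZero M'] (S : Finset ℕ) (a : ℕ → ℤ) : Prop :=
  ∃ S' : Finset ℕ, S ⊆ S' ∧ (OccursIn M' p S' a ∨ EigenAway M' p S' a)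

/-- The eigensystem `a` is not Eisenstein: outside every finite set there is a prime `ℓ` with
`a ℓ ≢ ℓ + 1 mod p`. -/
def NonEisAway (p : ℕ) (a : ℕ → ℤ) : Prop :=
  ∀ S : Finset ℕ, ∃ ℓ : ℕ, ℓ.Prime ∧ ℓ ∉ S ∧ ¬ (p : ℤ) ∣ a ℓ - (ℓ + 1)

/-- **(H)** inertia at `A` acts "ordinarily" on `E[p]`: `(σ - χ(σ))(σ - 1) = 0`. -/
def OrdinaryInertiaAt (E : WeierstrassCurve ℚ) (p : ℕ)
    (A : ValuationSubring (AlgebraicClosure ℚ)) : Prop :=
  ∀ σ ∈ A.inertiaSubgroupIn ℚ, ∀ c : ℕ, CycloAt p σ c →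
    ∀ x : ETorsion E p, σ • σ • x + c • x = (c + 1) • σ • x

/-- `σ` lies in the "peu ramifiée" subgroup of inertia at `A`: it fixes every unit `y` of `A`
whose `p`-th power lies in `K = ℚ̄^I(ζ_p)`.  (So `σ` fixes `ζ_p` and `u^{1/p}` for units `u`.) -/
def PeuFixes (A : ValuationSubring (AlgebraicClosure ℚ)) (p : ℕ) (σ : GQ) : Prop :=
  σ ∈ A.inertiaSubgroupIn ℚ ∧
    ∀ y : AlgebraicClosure ℚ, y ∈ A → y⁻¹ ∈ A →
      (∀ τ ∈ A.inertiaSubgroupIn ℚ, CycloAt p τ 1 → τ (y ^ p) = y ^ p) → σ y = y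

/-! ## Level 1 -/

/-- (W-DEG) a degeneracy pair. -/
structure IsDegPair (p M' : ℕ) [NeZero M'] [NeZero (p * M')] (S₀ : Finset ℕ)
    (α β : JZero (p * M') →+ JZero M') : Prop where
  galois_left : ∀ (σ : GQ) (x : JZero (p * M')), α (σ • x) = σ • α x
  galois_right : ∀ (σ : GQ) (x : JZero (p * M')), β (σ • x) = σ • β x
  hecke_left : ∀ ℓ : Nat.Primes, (ℓ : ℕ) ∉ S₀ → ∀ x : JZero (p * M'),
    α (heckeOperatorBar (p * M') ℓ x) = heckeOperatorBar M' ℓ (α x)
  hecke_right : ∀ ℓ : Nat.Primes, (ℓ : ℕ) ∉ S₀ → ∀ x : JZero (p * M'),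
    β (heckeOperatorBar (p * M') ℓ x) = heckeOperatorBar M' ℓ (β x)

/-- **(WP)** for the pair `(α, β)`: `(σ - χ(σ))(σ - 1) = 0` on the new part of `J[p]`. -/
def WPFor (p M' : ℕ) [NeZero M'] [NeZero (p * M')]
    (α β : JZero (p * M') →+ JZero M') : Prop :=
  ∀ A : ValuationSubring (AlgebraicClosure ℚ), A.LiesOverPrime p →
    ∀ σ ∈ A.inertiaSubgroupIn ℚ, ∀ c : ℕ, CycloAt p σ c →
    ∀ x : JZero (p * M'), p • x = 0 → α x = 0 → β x = 0 →
      σ • σ • x + c • x = (c + 1) • σ • x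

/-- (W-DEG + WP). -/
def NewKernelStatement : Prop :=
  ∀ (p M' : ℕ) [NeZero M'] [NeZero (p * M')], p.Prime → p ≠ 2 → ¬ p ∣ M' →
    ∃ (S₀ : Finset ℕ) (α β : JZero (p * M') →+ JZero M'),
      IsDegPair p M' S₀ α β ∧ WPFor p M' α β

/-- The wall for S40 (good reduction at `p`), conclusion `Lowered`. -/
def WallGoodStatement : Prop :=
  ∀ (W : WeierstrassCurve ℤ) (p M' : ℕ) [NeZero M'] [NeZero (p * M')], W.Δ ≠ 0 → p.Prime →
    p ≠ 2 → ¬ p ∣ M' → W.IsGoodPrimeFor p → W.ModRepIsIrreducible p →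
    ∀ S : Finset ℕ, EEmbedsIn (W.map (Int.castRingHom ℚ)) p (p * M') S (fun ℓ => W.apOfModel ℓ) →
      Lowered M' p S (fun ℓ => W.apOfModel ℓ)

/-- The wall for S44 (Frey curve, `p ∣ abc`), conclusion `Lowered`, non-Eisenstein eigensystem. -/
def WallFreyStatement : Prop :=
  ∀ (P : FreyPackage) (M' : ℕ) [NeZero M'] [NeZero (P.p * M')], ¬ P.p ∣ M' →
    (P.p : ℤ) ∣ P.a * P.b * P.c →
    GaloisRepIsIrreducible (K := AlgebraicClosure ℚ) ℚ P.freyCurve P.p →
    ∀ (S : Finset ℕ) (a : ℕ → ℤ), NonEisAway P.p a →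
      EEmbedsIn P.freyCurve P.p (P.p * M') S a → Lowered M' P.p S a

/-- The ORDINARY case of the wall, good reduction form. -/
def OrdCaseGoodStatement : Prop :=
  ∀ (W : WeierstrassCurve ℤ) (p M' : ℕ) [NeZero M'] [NeZero (p * M')], W.Δ ≠ 0 → p.Prime →
    p ≠ 2 → ¬ p ∣ M' → W.IsGoodPrimeFor p → W.ModRepIsIrreducible p →
    ∀ A : ValuationSubring (AlgebraicClosure ℚ), A.LiesOverPrime p →
    OrdinaryInertiaAt (W.map (Int.castRingHom ℚ)) p A →
    ∀ S : Finset ℕ, EEmbedsIn (W.map (Int.castRingHom ℚ)) p (p * M') S (fun ℓ => W.apOfModel ℓ) →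
      Lowered M' p S (fun ℓ => W.apOfModel ℓ)

/-- The ORDINARY case of the wall, Frey form. -/
def OrdCaseFreyStatement : Prop :=
  ∀ (P : FreyPackage) (M' : ℕ) [NeZero M'] [NeZero (P.p * M')], ¬ P.p ∣ M' →
    (P.p : ℤ) ∣ P.a * P.b * P.c →
    GaloisRepIsIrreducible (K := AlgebraicClosure ℚ) ℚ P.freyCurve P.p →
    ∀ A : ValuationSubring (AlgebraicClosure ℚ), A.LiesOverPrime P.p →
    OrdinaryInertiaAt P.freyCurve P.p A →
    ∀ (S : Finset ℕ) (a : ℕ → ℤ), NonEisAway P.p a →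
      EEmbedsIn P.freyCurve P.p (P.p * M') S a → Lowered M' P.p S a

section Core

variable {E : WeierstrassCurve ℚ} {p M' : ℕ} [NeZero M'] [NeZero (p * M')]

omit [NeZero M'] [NeZero (p * M')] in
theorem nsmul_torsion_eq_zero (x : ETorsion E p) : p • x = 0 := by
  apply Subtype.ext
  have h := x.2
  rw [Submodule.mem_torsionBy_iff] at h
  rw [AddSubmonoidClass.coe_nsmul, ZeroMemClass.coe_zero, ← natCast_zsmul]
  exact h

omit [NeZero M'] [NeZero (p * M')] in
theorem nsmul_emb_eq_zero (ι : ETorsion E p →+ JZero (p * M')) (x : ETorsion E p) :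
    p • ι x = 0 := by
  rw [← map_nsmul, nsmul_torsion_eq_zero, _root_.map_zero]

/-- **(W0)** if the embedded `E[p]` is not contained in the new part, the eigensystem occurs at
level `M'`. -/
theorem occursIn_of_not_new {S S₀ : Finset ℕ} {a : ℕ → ℤ}
    {α β : JZero (p * M') →+ JZero M'} (hdeg : IsDegPair p M' S₀ α β)
    (ι : ETorsion E p →+ JZero (p * M'))
    (hT : ∀ ℓ : Nat.Primes, (ℓ : ℕ) ∉ S → ∀ x : ETorsion E p,
      heckeOperatorBar (p * M') ℓ (ι x) = a ℓ • ι x)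
    (h : ∃ x, α (ι x) ≠ 0 ∨ β (ι x) ≠ 0) :
    OccursIn M' p (S ∪ S₀) a := by
  obtain ⟨x, hx | hx⟩ := h
  · refine ⟨α (ι x), hx, ?_, fun ℓ hℓ => ?_⟩
    · rw [← map_nsmul, nsmul_emb_eq_zero, _root_.map_zero]
    · rw [Finset.mem_union, not_or] at hℓ
      rw [← hdeg.hecke_left ℓ hℓ.2, hT ℓ hℓ.1, map_zsmul]
  · refine ⟨β (ι x), hx, ?_, fun ℓ hℓ => ?_⟩
    · rw [← map_nsmul, nsmul_emb_eq_zero, _root_.map_zero]
    · rw [Finset.mem_union, not_or] at hℓ
      rw [← hdeg.hecke_right ℓ hℓ.2, hT ℓ hℓ.1, map_zsmul]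

/-- (WP) transported to `E[p]` along an embedding into the new part. -/
theorem ordinaryInertiaAt_of_new {α β : JZero (p * M') →+ JZero M'}
    (hWP : WPFor p M' α β) {A : ValuationSubring (AlgebraicClosure ℚ)}
    (hA : A.LiesOverPrime p) (ι : ETorsion E p →+ JZero (p * M'))
    (hinj : Function.Injective ι)
    (hgal : ∀ (σ : GQ) (x : ETorsion E p), ι (σ • x) = σ • ι x)
    (hnew : ∀ x, α (ι x) = 0 ∧ β (ι x) = 0) :
    OrdinaryInertiaAt E p A := by
  intro σ hσ c hc x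
  apply hinj
  rw [map_add, map_nsmul, map_nsmul, hgal, hgal]
  exact hWP A hA σ hσ c hc (ι x) (nsmul_emb_eq_zero ι x) (hnew x).1 (hnew x).2

/-- Level 1 core: W-DEG + WP + the ordinary case give the wall (any curve). -/
theorem lowered_of_newKernel {S : Finset ℕ} {a : ℕ → ℤ}
    {A : ValuationSubring (AlgebraicClosure ℚ)} (hA : A.LiesOverPrime p)
    (hK : ∃ (S₀ : Finset ℕ) (α β : JZero (p * M') →+ JZero M'),
      IsDegPair p M' S₀ α β ∧ WPFor p M' α β)
    (hO : OrdinaryInertiaAt E p A → Lowered M' p S a)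
    (hemb : EEmbedsIn E p (p * M') S a) : Lowered M' p S a := by
  obtain ⟨S₀, α, β, hdeg, hWP⟩ := hK
  obtain ⟨ι, hinj, hgal, hT⟩ := hemb
  by_cases h : ∃ x, α (ι x) ≠ 0 ∨ β (ι x) ≠ 0
  · exact ⟨S ∪ S₀, Finset.subset_union_left, Or.inl (occursIn_of_not_new hdeg ι hT h)⟩
  · have hnew : ∀ x, α (ι x) = 0 ∧ β (ι x) = 0 := by
      intro x
      by_contra hx
      apply h
      refine ⟨x, ?_⟩
      by_cases h1 : α (ι x) = 0
      · exact Or.inr (fun h2 => hx ⟨h1, h2⟩)
      · exact Or.inl h1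
    exact hO (ordinaryInertiaAt_of_new hWP hA ι hinj hgal hnew)

end Core

/-- **Level 1 glue, S40 form.** -/
theorem wallGood_of (hPl : PlacesStatement) (hK : NewKernelStatement)
    (hO : OrdCaseGoodStatement) : WallGoodStatement := by
  intro W p M' _ _ hΔ hp hp2 hpM' hgood hirr S hemb
  obtain ⟨A, hA, -⟩ := hPl p hp
  exact lowered_of_newKernel hA (hK p M' hp hp2 hpM')
    (fun hH => hO W p M' hΔ hp hp2 hpM' hgood hirr A hA hH S hemb) hemb

/-- **Level 1 glue, S44 form.** -/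
theorem wallFrey_of (hPl : PlacesStatement) (hK : NewKernelStatement)
    (hO : OrdCaseFreyStatement) : WallFreyStatement := by
  intro P M' _ _ hpM' hpabc hirr S a hNE hemb
  obtain ⟨A, hA, -⟩ := hPl P.p P.pp
  have hp2 : P.p ≠ 2 := by
    have := P.hp5
    omega
  exact lowered_of_newKernel hA (hK P.p M' P.pp hp2 hpM')
    (fun hH => hO P M' hpM' hpabc hirr A hA hH S a hNE hemb) hemb

/-! ## Level 2 -/

/-- **The at-`p` filtration package** (pieces W-DEG, I1-I5 and the crux I6 of the board). -/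
def AtPFiltrationStatement : Prop :=
  ∀ (p M' : ℕ) [NeZero M'] [NeZero (p * M')], p.Prime → p ≠ 2 → ¬ p ∣ M' →
    ∃ (S₀ : Finset ℕ) (α β : JZero (p * M') →+ JZero M'), IsDegPair p M' S₀ α β ∧
    ∀ A : ValuationSubring (AlgebraicClosure ℚ), A.LiesOverPrime p →
    ∃ 𝓕 𝒮 : AddSubgroup (JZero (p * M')),
      -- (S1) inertia acts trivially on `J[p] / 𝒮`
      (∀ x : JZero (p * M'), p • x = 0 → ∀ σ ∈ A.inertiaSubgroupIn ℚ, σ • x - x ∈ 𝒮) ∧
      -- (S2) inertia acts through `χ` on the new part of `𝒮`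
      (∀ x ∈ 𝒮, p • x = 0 → α x = 0 → β x = 0 →
        ∀ σ ∈ A.inertiaSubgroupIn ℚ, ∀ c : ℕ, CycloAt p σ c → σ • x = c • x) ∧
      -- (S3) a new eigenclass in `𝓕 ∖ 𝒮` has its eigensystem at level `M'`
      (∀ (S : Finset ℕ) (a : ℕ → ℤ), ∀ x ∈ 𝓕, x ∉ 𝒮 → p • x = 0 → α x = 0 → β x = 0 →
        EigenAt (p * M') S a x → Lowered M' p S a) ∧
      -- (S4) = I6, the crux: new + non-Eisenstein + ordinary shape + peu ramifiée ⇒ in `𝓕`
      (∀ (S : Finset ℕ) (a : ℕ → ℤ), NonEisAway p a → ∀ x t : JZero (p * M'),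
        p • x = 0 → α x = 0 → β x = 0 → EigenAt (p * M') S a x →
        p • t = 0 → α t = 0 → β t = 0 → EigenAt (p * M') S a t →
        (∀ σ ∈ A.inertiaSubgroupIn ℚ, ∀ c : ℕ, CycloAt p σ c → σ • t = c • t) →
        (∀ σ ∈ A.inertiaSubgroupIn ℚ, ∃ n : ℕ, σ • x = x + n • t) →
        (∀ σ : GQ, PeuFixes A p σ → σ • x = x) → x ∈ 𝓕)

/-- Local structure of `E[p]` at `A` in the ordinary case: the line `⟨t⟩` and peu ramifiée. -/
def ELOCOrdAt (E : WeierstrassCurve ℚ) (p : ℕ)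
    (A : ValuationSubring (AlgebraicClosure ℚ)) : Prop :=
  ∃ t : ETorsion E p,
    (∀ σ ∈ A.inertiaSubgroupIn ℚ, ∀ c : ℕ, CycloAt p σ c → σ • t = c • t) ∧
    (∀ x : ETorsion E p, ∀ σ ∈ A.inertiaSubgroupIn ℚ, ∃ n : ℕ, σ • x = x + n • t) ∧
    (∀ x : ETorsion E p, ∀ σ : GQ, PeuFixes A p σ → σ • x = x)

/-- (ELOC-ord, good reduction)  `W` good at `p` with ordinary inertia action: line + peu. -/
def ELOCOrdGoodStatement : Prop :=
  ∀ (W : WeierstrassCurve ℤ) (p : ℕ), W.Δ ≠ 0 → p.Prime → p ≠ 2 → W.IsGoodPrimeFor p →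
    ∀ A : ValuationSubring (AlgebraicClosure ℚ), A.LiesOverPrime p →
    OrdinaryInertiaAt (W.map (Int.castRingHom ℚ)) p A →
    ELOCOrdAt (W.map (Int.castRingHom ℚ)) p A

/-- (ELOC-ord, Frey curve with `p ∣ abc`: Tate curve with `p ∣ v_p(Δ)`)  line + peu. -/
def ELOCOrdFreyStatement : Prop :=
  ∀ (P : FreyPackage), (P.p : ℤ) ∣ P.a * P.b * P.c →
    ∀ A : ValuationSubring (AlgebraicClosure ℚ), A.LiesOverPrime P.p →
    ELOCOrdAt P.freyCurve P.p A

/-- (NMT-W)  an irreducible `W[p]` is not of multiplicative type at `p` (`det = χ`). -/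
def NotMultTypeWStatement : Prop :=
  ∀ (W : WeierstrassCurve ℤ) (p : ℕ), W.Δ ≠ 0 → p.Prime → p ≠ 2 → W.ModRepIsIrreducible p →
    ∀ A : ValuationSubring (AlgebraicClosure ℚ), A.LiesOverPrime p →
    ¬ ∀ σ ∈ A.inertiaSubgroupIn ℚ, ∀ c : ℕ, CycloAt p σ c →
      ∀ x : ETorsion (W.map (Int.castRingHom ℚ)) p, σ • x = c • x

/-- (NE-W)  the eigensystem of an irreducible `W[p]` is not Eisenstein. -/
def NonEisWStatement : Prop :=
  ∀ (W : WeierstrassCurve ℤ) (p : ℕ), W.Δ ≠ 0 → p.Prime → p ≠ 2 → W.ModRepIsIrreducible p →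
    NonEisAway p (fun ℓ => W.apOfModel ℓ)

/-- WP is a consequence of (S1) + (S2). -/
theorem newKernel_of_filtration (hF : AtPFiltrationStatement) :
    NewKernelStatement := by
  intro p M' _ _ hp hp2 hpM'
  obtain ⟨S₀, α, β, hdeg, hA'⟩ := hF p M' hp hp2 hpM'
  refine ⟨S₀, α, β, hdeg, ?_⟩
  intro A hA σ hσ c hc x hpx hαx hβx
  obtain ⟨𝓕, 𝒮, h1, h2, -, -⟩ := hA' A hA
  have hy : σ • x - x ∈ 𝒮 := h1 x hpx σ hσ
  have hpy : p • (σ • x - x) = 0 := by
    rw [nsmul_sub, smul_comm p σ x, hpx, sub_zero]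
    exact smul_zero (A := JZero (p * M')) σ
  have hαy : α (σ • x - x) = 0 := by
    rw [map_sub, hdeg.galois_left, hαx, sub_zero]
    exact smul_zero (A := JZero M') σ
  have hβy : β (σ • x - x) = 0 := by
    rw [map_sub, hdeg.galois_right, hβx, sub_zero]
    exact smul_zero (A := JZero M') σ
  have h := h2 _ hy hpy hαy hβy σ hσ c hc
  rw [smul_sub, nsmul_sub] at h
  have h' : σ • σ • x = c • σ • x - c • x + σ • x := by
    rw [← h]; abel
  rw [h', add_nsmul, one_nsmul]; abel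

section Core2

variable {E : WeierstrassCurve ℚ} {p M' : ℕ} [NeZero M'] [NeZero (p * M')]

/-- Level 2 core: the ordinary case from the filtration package at `A`, the local structure of
`E[p]` and NMT (any curve). -/
theorem lowered_of_filtration {S : Finset ℕ} {a : ℕ → ℤ}
    {A : ValuationSubring (AlgebraicClosure ℚ)}
    {S₀ : Finset ℕ} {α β : JZero (p * M') →+ JZero M'} (hdeg : IsDegPair p M' S₀ α β)
    {𝓕 𝒮 : AddSubgroup (JZero (p * M'))}
    (h2 : ∀ x ∈ 𝒮, p • x = 0 → α x = 0 → β x = 0 →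
        ∀ σ ∈ A.inertiaSubgroupIn ℚ, ∀ c : ℕ, CycloAt p σ c → σ • x = c • x)
    (h3 : ∀ (S : Finset ℕ) (a : ℕ → ℤ), ∀ x ∈ 𝓕, x ∉ 𝒮 → p • x = 0 → α x = 0 → β x = 0 →
        EigenAt (p * M') S a x → Lowered M' p S a)
    (h4 : ∀ (S : Finset ℕ) (a : ℕ → ℤ), NonEisAway p a → ∀ x t : JZero (p * M'),
        p • x = 0 → α x = 0 → β x = 0 → EigenAt (p * M') S a x →
        p • t = 0 → α t = 0 → β t = 0 → EigenAt (p * M') S a t →
        (∀ σ ∈ A.inertiaSubgroupIn ℚ, ∀ c : ℕ, CycloAt p σ c → σ • t = c • t) →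
        (∀ σ ∈ A.inertiaSubgroupIn ℚ, ∃ n : ℕ, σ • x = x + n • t) →
        (∀ σ : GQ, PeuFixes A p σ → σ • x = x) → x ∈ 𝓕)
    (hEL : ELOCOrdAt E p A)
    (hNMT : ¬ ∀ σ ∈ A.inertiaSubgroupIn ℚ, ∀ c : ℕ, CycloAt p σ c →
      ∀ x : ETorsion E p, σ • x = c • x)
    (hNE : NonEisAway p a)
    (hemb : EEmbedsIn E p (p * M') S a) : Lowered M' p S a := by
  obtain ⟨ι, hinj, hgal, hT⟩ := hemb
  by_cases h : ∃ x, α (ι x) ≠ 0 ∨ β (ι x) ≠ 0
  · exact ⟨S ∪ S₀, Finset.subset_union_left, Or.inl (occursIn_of_not_new hdeg ι hT h)⟩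
  have hnew : ∀ x, α (ι x) = 0 ∧ β (ι x) = 0 := by
    intro x
    by_contra hx
    apply h
    refine ⟨x, ?_⟩
    by_cases h1 : α (ι x) = 0
    · exact Or.inr (fun h2 => hx ⟨h1, h2⟩)
    · exact Or.inl h1
  have heig : ∀ x, EigenAt (p * M') S a (ι x) := fun x ℓ hℓ => hT ℓ hℓ x
  obtain ⟨t, ht, hxt, hpeu⟩ := hEL
  have hF : ∀ x, ι x ∈ 𝓕 := by
    intro x
    refine h4 S a hNE (ι x) (ι t) (nsmul_emb_eq_zero ι x) (hnew x).1 (hnew x).2 (heig x)
      (nsmul_emb_eq_zero ι t) (hnew t).1 (hnew t).2 (heig t) ?_ ?_ ?_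
    · intro σ hσ c hc
      rw [← hgal, ht σ hσ c hc, map_nsmul]
    · intro σ hσ
      obtain ⟨n, hn⟩ := hxt x σ hσ
      exact ⟨n, by rw [← hgal, hn, map_add, map_nsmul]⟩
    · intro σ hσ
      rw [← hgal, hpeu x σ hσ]
  by_cases hS : ∃ x, ι x ∉ 𝒮
  · obtain ⟨x, hx⟩ := hS
    exact h3 S a (ι x) (hF x) hx (nsmul_emb_eq_zero ι x) (hnew x).1 (hnew x).2 (heig x)
  · exfalso
    apply hNMT
    intro σ hσ c hc x
    apply hinj
    rw [hgal, map_nsmul]
    have hx : ι x ∈ 𝒮 := by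
      by_contra hx
      exact hS ⟨x, hx⟩
    exact h2 (ι x) hx (nsmul_emb_eq_zero ι x) (hnew x).1 (hnew x).2 σ hσ c hc

end Core2

/-- **Level 2 glue, ordinary case, S40 form.** -/
theorem ordCaseGood_of (hF : AtPFiltrationStatement) (hEL : ELOCOrdGoodStatement)
    (hNMT : NotMultTypeWStatement) (hNE : NonEisWStatement) : OrdCaseGoodStatement := by
  intro W p M' _ _ hΔ hp hp2 hpM' hgood hirr A hA hH S hemb
  obtain ⟨S₀, α, β, hdeg, hA'⟩ := hF p M' hp hp2 hpM'
  obtain ⟨𝓕, 𝒮, -, h2, h3, h4⟩ := hA' A hA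
  exact lowered_of_filtration hdeg h2 h3 h4 (hEL W p hΔ hp hp2 hgood A hA hH)
    (hNMT W p hΔ hp hp2 hirr A hA) (hNE W p hΔ hp hp2 hirr) hemb

/-- **Level 2 glue, ordinary case, S44 form** (NMT is `Spec.NotMultiplicativeTypeStatement`,
landed). -/
theorem ordCaseFrey_of (hF : AtPFiltrationStatement) (hEL : ELOCOrdFreyStatement)
    (hNMT : NotMultiplicativeTypeStatement) : OrdCaseFreyStatement := by
  intro P M' _ _ hpM' hpabc hirr A hA hH S a hNE hemb
  have hp2 : P.p ≠ 2 := by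
    have := P.hp5
    omega
  obtain ⟨S₀, α, β, hdeg, hA'⟩ := hF P.p M' P.pp hp2 hpM'
  obtain ⟨𝓕, 𝒮, -, h2, h3, h4⟩ := hA' A hA
  exact lowered_of_filtration hdeg h2 h3 h4 (hEL P hpabc A hA) (hNMT P A hA) hNE hemb

/-- **Total glue, S40 form**: the wall from the filtration package and the local theory. -/
theorem wallGood_of_filtration (hPl : PlacesStatement) (hF : AtPFiltrationStatement)
    (hEL : ELOCOrdGoodStatement) (hNMT : NotMultTypeWStatement) (hNE : NonEisWStatement) :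
    WallGoodStatement :=
  wallGood_of hPl (newKernel_of_filtration hF) (ordCaseGood_of hF hEL hNMT hNE)

/-- **Total glue, S44 form.** -/
theorem wallFrey_of_filtration (hPl : PlacesStatement) (hF : AtPFiltrationStatement)
    (hEL : ELOCOrdFreyStatement) (hNMT : NotMultiplicativeTypeStatement) :
    WallFreyStatement :=
  wallFrey_of hPl (newKernel_of_filtration hF) (ordCaseFrey_of hF hEL hNMT)

/-! ## Top glue: the frozen statements from the walls in `Lowered` form -/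

/-- (M4c-type converse of R3S, row S29)  a congruent eigenform of level `M` makes the
eigensystem occur in `J₀(M)[p]`.  Only needed to land in the `OccursIn` shape of `Spec3`. -/
def OccursOfEigenStatement : Prop :=
  ∀ (M p : ℕ) [NeZero M], p.Prime → ∀ (S : Finset ℕ) (a : ℕ → ℤ), EigenAway M p S a →
    ∃ S' : Finset ℕ, S ⊆ S' ∧ OccursIn M p S' a

/-- The wall in the exact shape `Spec.AtPOccursGoodStatement` of `Spec3.lean`. -/
theorem atPOccursGood_of (hConv : OccursOfEigenStatement) (hWall : WallGoodStatement) :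
    AtPOccursGoodStatement := by
  intro W p M' _ _ hΔ hp hp2 hpM' hgood hirr S hemb
  obtain ⟨S', hSS', hocc | heig⟩ := hWall W p M' hΔ hp hp2 hpM' hgood hirr S hemb
  · exact ⟨S', hSS', hocc⟩
  · obtain ⟨S'', hS'', hocc⟩ := hConv M' p hp S' _ heig
    exact ⟨S'', hSS'.trans hS'', hocc⟩

/-- Conversely the `Spec3` wall gives the `Lowered` wall. -/
theorem wallGood_of_atPOccursGood (h : AtPOccursGoodStatement) : WallGoodStatement := by
  intro W p M' _ _ hΔ hp hp2 hpM' hgood hirr S hemb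
  obtain ⟨S', hSS', hocc⟩ := h W p M' hΔ hp hp2 hpM' hgood hirr S hemb
  exact ⟨S', hSS', Or.inl hocc⟩

/-- `Lowered` gives a congruent eigenform (R3S turns `OccursIn` into an eigenform). -/
theorem eigenAway_of_lowered (hR3 : EigenformOfOccursAwayStatement) {M' p : ℕ} [NeZero M']
    (hp : p.Prime) {S : Finset ℕ} {a : ℕ → ℤ} (h : Lowered M' p S a) :
    ∃ S' : Finset ℕ, EigenAway M' p S' a := by
  obtain ⟨S', -, hocc | heig⟩ := h
  · exact ⟨_, exists_eigenform_of_occursIn hR3 hp hocc⟩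
  · exact ⟨S', heig⟩

/-- **S40 from the wall in `Lowered` form**: `BLR-W + WALL + R3S + R3'-W ⇒ S40`. -/
theorem S40_of_wall (hE : EmbedWStatement) (hWall : WallGoodStatement)
    (hR3 : EigenformOfOccursAwayStatement) (hR3' : AlmostAllToWitnessWStatement) :
    S40Statement := by
  intro W hΔ p hp hp2 hgood hirr M hM hpM hp2M hmod
  obtain ⟨M', rfl⟩ := hpM
  have hM'pos : 0 < M' := by
    rcases Nat.eq_zero_or_pos M' with h0 | h0
    · subst h0; simp at hM
    · exact h0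
  rw [Nat.mul_div_cancel_left M' hp.pos]
  have hpM' : ¬ p ∣ M' := by
    rintro ⟨k, rfl⟩
    exact hp2M ⟨k, by ring⟩
  haveI : NeZero M' := ⟨hM'pos.ne'⟩
  haveI : NeZero (p * M') := ⟨hM.ne'⟩
  obtain ⟨f, 𝔪, hwit⟩ := hmod
  obtain ⟨S, hemb⟩ := hE W p (p * M') hΔ hp hp2 hirr f 𝔪 hwit
  obtain ⟨S', g, 𝔪', hg, hmax, hpm, hc⟩ :=
    eigenAway_of_lowered hR3 hp (hWall W p M' hΔ hp hp2 hpM' hgood hirr S hemb)
  exact ⟨g, 𝔪', hR3' W p M' hΔ hp hp2 hM'pos hirr g 𝔪' _ hg hmax hpm hc⟩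

/-- **S44 from the wall in `Lowered` form**:
`BLR + WALL + NE + R3S + R3' ⇒ S44` (NE = `Spec.NonEisensteinStatement`, landed). -/
theorem S44_of_wall (hE : EmbedStatement) (hWall : WallFreyStatement)
    (hNE : NonEisensteinStatement)
    (hR3 : EigenformOfOccursAwayStatement) (hR3' : AlmostAllToWitnessStatement) :
    S44Statement := by
  intro P N hcond hpN hirr hmod
  have hsq : ¬ P.p ^ 2 ∣ N := hcond.sq_not_dvd P.pp
  have hpabc := hcond.p_dvd_abc hpN
  have hNpos := hcond.pos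
  obtain ⟨M', rfl⟩ := hpN
  have hM'pos : 0 < M' := by
    rcases Nat.eq_zero_or_pos M' with h0 | h0
    · subst h0; simp at hNpos
    · exact h0
  have hpM' : ¬ P.p ∣ M' := by
    rintro ⟨k, rfl⟩
    exact hsq ⟨k, by ring⟩
  haveI : NeZero M' := ⟨hM'pos.ne'⟩
  haveI : NeZero (P.p * M') := ⟨hNpos.ne'⟩
  obtain ⟨f, W, 𝔪, hwit⟩ := hmod
  have hwit' : P.IsCongruentWitness (P.p * M') f W 𝔪 := hwit
  obtain ⟨S, hemb⟩ := hE P (P.p * M') hirr f W 𝔪 hwit'
  have hNE' : NonEisAway P.p (fun ℓ => W.apOfModel ℓ) := by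
    intro S₁
    obtain ⟨ℓ, hℓ, hℓS, -, hne⟩ := hNE P W hwit.2.1 hirr S₁
    exact ⟨ℓ, hℓ, hℓS, hne⟩
  obtain ⟨S', g, 𝔪', hg, hmax, hp, hc⟩ :=
    eigenAway_of_lowered hR3 P.pp (hWall P M' hpM' hpabc hirr S _ hNE' hemb)
  exact ⟨M', Dvd.intro_left _ rfl, hpM', g, W, 𝔪',
    hR3' P M' hM'pos g W 𝔪' _ hg hwit.2.1 hmax hp hc⟩

end Fermat.Agent.Ribet.H944.Wall

end
-- ===== PACK-END Ribet/H944/WallSpec.lean

-- ===== PACK-BEGIN S14/H74/Lipschitz.lean
section


/-!
# S14/N1 (helper74): Lipschitz estimate for `fS` (piece P5)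
-/

namespace Fermat.Agent.S14.H74

open NumberField NumberField.mixedEmbedding NumberField.Units
  NumberField.Units.dirichletUnitTheorem NumberField.InfinitePlace Module

open scoped Classical

variable {K : Type*} [Field K] [NumberField K]

theorem abs_log_sub_log_le {a b : ℝ} (ha : 0 < a) (hab : |b - a| ≤ a / 2) :
    |Real.log b - Real.log a| ≤ 2 * |b - a| / a := by
  have hb : 0 < b := by
    have := (abs_le.mp hab).1
    linarith
  have hb2 : a / 2 ≤ b := by
    have := (abs_le.mp hab).1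
    linarith
  rw [← Real.log_div hb.ne' ha.ne']
  have hr : 0 < b / a := div_pos hb ha
  have h1 : Real.log (b / a) ≤ b / a - 1 := Real.log_le_sub_one_of_pos hr
  have h2 : 1 - (b / a)⁻¹ ≤ Real.log (b / a) := Real.one_sub_inv_le_log_of_pos hr
  have e1 : b / a - 1 = (b - a) / a := by field_simp
  have e2 : 1 - (b / a)⁻¹ = (b - a) / b := by field_simp
  rw [e1] at h1
  rw [e2] at h2
  have h3 : (b - a) / a ≤ 2 * |b - a| / a := by
    apply div_le_div_of_nonneg_right _ ha.le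
    have := le_abs_self (b - a)
    have := abs_nonneg (b - a)
    linarith
  have h4 : -(2 * |b - a| / a) ≤ (b - a) / b := by
    rw [neg_le, ← neg_div, div_le_div_iff₀ hb ha]
    have h5 := neg_abs_le (b - a)
    have h6 := abs_nonneg (b - a)
    have h7 : -(b - a) ≤ |b - a| := by linarith
    calc -(b - a) * a ≤ |b - a| * a := by gcongr
      _ ≤ |b - a| * (2 * b) := by gcongr; linarith
      _ = 2 * |b - a| * b := by ring
  exact abs_le.mpr ⟨by linarith, by linarith⟩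

theorem abs_normAtPlace_add_sub_le (w : InfinitePlace K) (x t : mixedSpace K) :
    |normAtPlace w (x + t) - normAtPlace w x| ≤ ‖t‖ := by
  have h1 := normAtPlace_add_le w x t
  have h2 := normAtPlace_add_le w (x + t) (-t)
  rw [normAtPlace_neg, add_neg_cancel_right] at h2
  have h3 := normAtPlace_le_norm w t
  exact abs_le.mpr ⟨by linarith, by linarith⟩

/-- Bound for the coordinates in the unit lattice basis. -/
theorem exists_logCoord_bound : ∃ M : ℝ, 0 ≤ M ∧ ∀ (v : logSpace K) (j : Fin (rank K)),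
    |((basisUnitLattice K).ofZLatticeBasis ℝ (unitLattice K)).repr v j| ≤ M * ‖v‖ := by
  set b := (basisUnitLattice K).ofZLatticeBasis ℝ (unitLattice K) with hb
  refine ⟨‖(b.equivFunL : logSpace K →L[ℝ] (Fin (rank K) → ℝ))‖, norm_nonneg _, fun v j ↦ ?_⟩
  have h1 := (b.equivFunL : logSpace K →L[ℝ] (Fin (rank K) → ℝ)).le_opNorm v
  have h2 : b.repr v j = (b.equivFunL : logSpace K →L[ℝ] (Fin (rank K) → ℝ)) v j := by
    simp [Basis.equivFunL]
  rw [h2, ← Real.norm_eq_abs]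
  exact (norm_le_pi_norm _ j).trans h1

theorem mult_le_two_real (w : InfinitePlace K) : (mult w : ℝ) ≤ 2 := by
  unfold mult
  split_ifs <;> norm_num

theorem normAtPlace_pos_of_norm_ne_zero {x : mixedSpace K} (hx : mixedEmbedding.norm x ≠ 0)
    (w : InfinitePlace K) : 0 < normAtPlace w x :=
  lt_of_le_of_ne (normAtPlace_nonneg w x) (mixedEmbedding.norm_ne_zero_iff.mp hx w).symm

/-- L1: a small perturbation keeps the norm nonzero and moves the logarithms of the
`normAtPlace` by a small amount. -/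
theorem log_normAtPlace_add_sub {x t : mixedSpace K} (hx : mixedEmbedding.norm x ≠ 0)
    (ht : ∀ w, ‖t‖ ≤ normAtPlace w x / 2) :
    mixedEmbedding.norm (x + t) ≠ 0 ∧ ∀ w, |Real.log (normAtPlace w (x + t)) -
      Real.log (normAtPlace w x)| ≤ 2 * ‖t‖ / normAtPlace w x := by
  have hpos := normAtPlace_pos_of_norm_ne_zero hx
  have h1 : ∀ w, |normAtPlace w (x + t) - normAtPlace w x| ≤ normAtPlace w x / 2 :=
    fun w ↦ (abs_normAtPlace_add_sub_le w x t).trans (ht w)
  refine ⟨mixedEmbedding.norm_ne_zero_iff.mpr fun w ↦ ?_, fun w ↦ ?_⟩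
  · have := (abs_le.mp (h1 w)).1
    have := hpos w
    exact ne_of_gt (by linarith)
  · refine (abs_log_sub_log_le (hpos w) (h1 w)).trans ?_
    apply div_le_div_of_nonneg_right _ (hpos w).le
    have := abs_normAtPlace_add_sub_le w x t
    linarith

/-- L2 (i): the logarithm of the norm moves by at most `n δ`. -/
theorem abs_log_norm_sub_le {x y : mixedSpace K} (hx : mixedEmbedding.norm x ≠ 0)
    (hy : mixedEmbedding.norm y ≠ 0) {δ : ℝ}
    (h : ∀ w, |Real.log (normAtPlace w y) - Real.log (normAtPlace w x)| ≤ δ) :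
    |Real.log (mixedEmbedding.norm y) - Real.log (mixedEmbedding.norm x)|
      ≤ (finrank ℚ K : ℝ) * δ := by
  rw [log_norm_eq_sum hx, log_norm_eq_sum hy, ← Finset.sum_sub_distrib]
  refine (Finset.abs_sum_le_sum_abs _ _).trans ?_
  have h1 : (∑ w : InfinitePlace K, (mult w : ℝ)) = (finrank ℚ K : ℝ) := by
    rw [← Nat.cast_sum, sum_mult_eq]
  rw [← h1, Finset.sum_mul]
  refine Finset.sum_le_sum fun w _ ↦ ?_
  rw [← mul_sub, abs_mul, abs_of_nonneg (by positivity : (0 : ℝ) ≤ mult w)]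
  exact mul_le_mul_of_nonneg_left (h w) (by positivity)

/-- L2 (ii): `logMap` moves by at most `4 δ`. -/
theorem norm_logMap_sub_le {x y : mixedSpace K} (hx : mixedEmbedding.norm x ≠ 0)
    (hy : mixedEmbedding.norm y ≠ 0) {δ : ℝ} (hδ : 0 ≤ δ)
    (h : ∀ w, |Real.log (normAtPlace w y) - Real.log (normAtPlace w x)| ≤ δ) :
    ‖logMap y - logMap x‖ ≤ 4 * δ := by
  rw [pi_norm_le_iff_of_nonneg (by positivity)]
  intro w
  have hn : (0 : ℝ) < finrank ℚ K := Nat.cast_pos.mpr finrank_pos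
  have h1 := abs_log_norm_sub_le hx hy h
  have h2 := h w.1
  rw [Pi.sub_apply, logMap_apply, logMap_apply, ← mul_sub, Real.norm_eq_abs, abs_mul,
    abs_of_nonneg (by positivity : (0 : ℝ) ≤ mult w.1)]
  have h3 : |Real.log (normAtPlace w.1 y) -
      Real.log (mixedEmbedding.norm y) * (finrank ℚ K : ℝ)⁻¹ -
      (Real.log (normAtPlace w.1 x) - Real.log (mixedEmbedding.norm x) * (finrank ℚ K : ℝ)⁻¹)|
      ≤ 2 * δ := by
    have e : Real.log (normAtPlace w.1 y) -
      Real.log (mixedEmbedding.norm y) * (finrank ℚ K : ℝ)⁻¹ -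
      (Real.log (normAtPlace w.1 x) - Real.log (mixedEmbedding.norm x) * (finrank ℚ K : ℝ)⁻¹)
      = (Real.log (normAtPlace w.1 y) - Real.log (normAtPlace w.1 x)) -
        (Real.log (mixedEmbedding.norm y) - Real.log (mixedEmbedding.norm x)) *
          (finrank ℚ K : ℝ)⁻¹ := by ring
    rw [e]
    refine (abs_sub _ _).trans ?_
    rw [abs_mul, abs_of_pos (inv_pos.mpr hn)]
    have h4 : |Real.log (mixedEmbedding.norm y) - Real.log (mixedEmbedding.norm x)| *
        (finrank ℚ K : ℝ)⁻¹ ≤ δ := by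
      rw [← div_eq_mul_inv, div_le_iff₀ hn]
      linarith
    linarith
  calc (mult w.1 : ℝ) * _ ≤ 2 * (2 * δ) :=
        mul_le_mul (mult_le_two_real w.1) h3 (abs_nonneg _) (by norm_num)
    _ = 4 * δ := by ring

/-- L2 (iii): `rho` moves by at most `r M 4 δ`. -/
theorem exists_rho_sub_bound : ∃ M : ℝ, 0 ≤ M ∧ ∀ (x y : mixedSpace K),
    mixedEmbedding.norm x ≠ 0 → mixedEmbedding.norm y ≠ 0 → ∀ δ : ℝ, 0 ≤ δ →
    (∀ w, |Real.log (normAtPlace w y) - Real.log (normAtPlace w x)| ≤ δ) →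
    |rho K y - rho K x| ≤ M * δ := by
  obtain ⟨M, hM0, hM⟩ := exists_logCoord_bound (K := K)
  refine ⟨rank K * (M * 4), by positivity, fun x y hx hy δ hδ h ↦ ?_⟩
  rw [rho_eq_prod hx, rho_eq_prod hy]
  refine (abs_prod_sub_prod_le_sum _ _ _ (fun _ ↦ tent_nonneg _) (fun _ ↦ tent_le_one _)
    (fun _ ↦ tent_nonneg _) (fun _ ↦ tent_le_one _)).trans ?_
  have h1 : ∀ j, |tent (logCoord K y j) - tent (logCoord K x j)| ≤ M * 4 * δ := by
    intro j
    refine (tent_lipschitz _ _).trans ?_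
    have e : logCoord K y j - logCoord K x j =
        ((basisUnitLattice K).ofZLatticeBasis ℝ (unitLattice K)).repr (logMap y - logMap x) j := by
      simp [logCoord]
    rw [e]
    refine (hM _ j).trans ?_
    rw [mul_assoc]
    exact mul_le_mul_of_nonneg_left (norm_logMap_sub_le hx hy hδ h) hM0
  calc ∑ j, |tent (logCoord K y j) - tent (logCoord K x j)|
      ≤ ∑ _j : Fin (rank K), M * 4 * δ := Finset.sum_le_sum fun j _ ↦ h1 j
    _ = rank K * (M * 4) * δ := by
        rw [Finset.sum_const, Finset.card_univ, Fintype.card_fin, nsmul_eq_mul]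
        ring

theorem pow_le_norm_of_support {A : ℝ} (hA : 1 ≤ A) {x : mixedSpace K}
    (h : ∀ w, ‖x‖ ≤ A * normAtPlace w x) :
    (‖x‖ / A) ^ (finrank ℚ K) ≤ mixedEmbedding.norm x := by
  have hA0 : 0 < A := by linarith
  rw [mixedEmbedding.norm_apply, ← sum_mult_eq, ← Finset.prod_pow_eq_pow_sum]
  refine Finset.prod_le_prod (fun w _ ↦ by positivity) fun w _ ↦ ?_
  refine pow_le_pow_left₀ (by positivity) ?_ _
  rw [div_le_iff₀ hA0, mul_comm]
  exact h w

theorem fS_eq_zero_of_rho_eq_zero {s : ℝ} {x : mixedSpace K} (h : rho K x = 0) :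
    fS K s x = 0 := by
  simp [fS, h]

/-- P5, core case: Lipschitz estimate at points of the support of `rho`. -/
theorem exists_fS_lipschitz_core : ∃ C A : ℝ, 0 ≤ C ∧ 1 ≤ A ∧ ∀ s : ℝ, 1 ≤ s → s ≤ 2 →
    ∀ x t : mixedSpace K, rho K x ≠ 0 → 4 * (finrank ℚ K : ℝ) * A * ‖t‖ ≤ ‖x‖ → A ≤ ‖x‖ →
    |fS K s (x + t) - fS K s x| ≤ C * ‖t‖ / ‖x‖ ^ (finrank ℚ K + 1) := by
  obtain ⟨A, hA1, hA⟩ := exists_support_bound (K := K)
  obtain ⟨M, hM0, hM⟩ := exists_rho_sub_bound (K := K)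
  have hA0 : 0 < A := by linarith
  have hn1 : (1 : ℝ) ≤ finrank ℚ K := by exact_mod_cast finrank_pos
  set n : ℕ := finrank ℚ K with hn
  refine ⟨(3 * M + 4 * n) * 2 * A ^ (n + 1), A, by positivity, hA1,
    fun s hs1 hs2 x t hρ hxt hxA ↦ ?_⟩
  have hN := norm_ne_zero_of_rho_ne_zero hρ
  have hsupp := hA x hρ
  have hxpos : 0 < ‖x‖ := by linarith
  have hapos := normAtPlace_pos_of_norm_ne_zero hN
  have htn : 0 ≤ ‖t‖ := norm_nonneg t
  -- `‖t‖` is small with respect to all `normAtPlace w x`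
  have ht4 : ∀ w, 4 * (n : ℝ) * ‖t‖ ≤ normAtPlace w x := by
    intro w
    have h1 := hsupp w
    have h2 : A * (4 * (n : ℝ) * ‖t‖) ≤ A * normAtPlace w x := by
      calc A * (4 * (n : ℝ) * ‖t‖) = 4 * (n : ℝ) * A * ‖t‖ := by ring
        _ ≤ ‖x‖ := hxt
        _ ≤ A * normAtPlace w x := h1
    exact le_of_mul_le_mul_left h2 hA0
  have ht : ∀ w, ‖t‖ ≤ normAtPlace w x / 2 := by
    intro w
    have := ht4 w
    nlinarith
  obtain ⟨hN', hlog⟩ := log_normAtPlace_add_sub hN ht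
  set δ : ℝ := 2 * A * ‖t‖ / ‖x‖ with hδ
  have hδ0 : 0 ≤ δ := by positivity
  have hδ1 : 2 * (n : ℝ) * δ ≤ 1 := by
    rw [hδ, ← mul_div_assoc, div_le_one hxpos]
    calc 2 * (n : ℝ) * (2 * A * ‖t‖) = 4 * (n : ℝ) * A * ‖t‖ := by ring
      _ ≤ ‖x‖ := hxt
  have hlogδ : ∀ w, |Real.log (normAtPlace w (x + t)) - Real.log (normAtPlace w x)| ≤ δ := by
    intro w
    refine (hlog w).trans ?_
    rw [hδ, div_le_div_iff₀ (hapos w) hxpos]
    calc 2 * ‖t‖ * ‖x‖ ≤ 2 * ‖t‖ * (A * normAtPlace w x) := by gcongr; exact hsupp w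
      _ = 2 * A * ‖t‖ * normAtPlace w x := by ring
  have hΔ := abs_log_norm_sub_le hN hN' hlogδ
  have hρ' := hM x (x + t) hN hN' δ hδ0 hlogδ
  set Δ : ℝ := Real.log (mixedEmbedding.norm (x + t)) - Real.log (mixedEmbedding.norm x) with hΔdef
  have hNpos : 0 < mixedEmbedding.norm x :=
    lt_of_le_of_ne (mixedEmbedding.norm_nonneg x) hN.symm
  have hNpos' : 0 < mixedEmbedding.norm (x + t) :=
    lt_of_le_of_ne (mixedEmbedding.norm_nonneg _) hN'.symm
  -- the exponential factor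
  have hsΔ : |(-s) * Δ| ≤ 2 * (n : ℝ) * δ := by
    rw [abs_mul, abs_neg, abs_of_nonneg (by linarith : (0 : ℝ) ≤ s)]
    calc s * |Δ| ≤ 2 * ((n : ℝ) * δ) := mul_le_mul hs2 hΔ (abs_nonneg _) (by norm_num)
      _ = 2 * (n : ℝ) * δ := by ring
  have he1 : |Real.exp ((-s) * Δ) - 1| ≤ 4 * (n : ℝ) * δ := by
    refine (Real.abs_exp_sub_one_le (hsΔ.trans hδ1)).trans ?_
    linarith
  have he2 : Real.exp ((-s) * Δ) ≤ 3 := by
    have := (abs_le.mp he1).2
    linarith
  have he0 : 0 ≤ Real.exp ((-s) * Δ) := (Real.exp_pos _).le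
  have hpow : (mixedEmbedding.norm (x + t)) ^ (-s) =
      (mixedEmbedding.norm x) ^ (-s) * Real.exp ((-s) * Δ) := by
    rw [Real.rpow_def_of_pos hNpos, Real.rpow_def_of_pos hNpos', ← Real.exp_add, hΔdef]
    congr 1
    ring
  -- bound for `N(x)^(-s)`
  have hNge := pow_le_norm_of_support hA1 hsupp
  have hxA1 : 1 ≤ ‖x‖ / A := by rwa [le_div_iff₀ hA0, one_mul]
  have hN1 : 1 ≤ mixedEmbedding.norm x := (one_le_pow₀ hxA1).trans hNge
  have hNs : (mixedEmbedding.norm x) ^ (-s) ≤ (A / ‖x‖) ^ n := by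
    calc (mixedEmbedding.norm x) ^ (-s) ≤ (mixedEmbedding.norm x) ^ (-1 : ℝ) :=
          Real.rpow_le_rpow_of_exponent_le hN1 (by linarith)
      _ = (mixedEmbedding.norm x)⁻¹ := Real.rpow_neg_one _
      _ ≤ ((‖x‖ / A) ^ n)⁻¹ := inv_anti₀ (by positivity) hNge
      _ = (A / ‖x‖) ^ n := by rw [← inv_pow, inv_div]
  have hNs0 : 0 ≤ (mixedEmbedding.norm x) ^ (-s) := Real.rpow_nonneg hNpos.le _
  -- assemble
  have hρ0 := rho_nonneg (K := K) x
  have hρ1 := rho_le_one (K := K) x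
  have key : fS K s (x + t) - fS K s x = (mixedEmbedding.norm x) ^ (-s) *
      ((rho K (x + t) - rho K x) * Real.exp ((-s) * Δ) +
        rho K x * (Real.exp ((-s) * Δ) - 1)) := by
    have e1 : fS K s (x + t) = rho K (x + t) * (mixedEmbedding.norm (x + t)) ^ (-s) := rfl
    have e2 : fS K s x = rho K x * (mixedEmbedding.norm x) ^ (-s) := rfl
    rw [e1, e2, hpow]
    generalize rho K (x + t) = r1
    generalize rho K x = r2
    generalize (mixedEmbedding.norm x) ^ (-s) = q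
    generalize Real.exp ((-s) * Δ) = e
    ring
  rw [key, abs_mul, abs_of_nonneg hNs0]
  have hin : |(rho K (x + t) - rho K x) * Real.exp ((-s) * Δ) +
        rho K x * (Real.exp ((-s) * Δ) - 1)| ≤ (3 * M + 4 * n) * δ := by
    refine (abs_add_le _ _).trans ?_
    rw [abs_mul, abs_mul, abs_of_nonneg he0, abs_of_nonneg hρ0]
    have h1 : |rho K (x + t) - rho K x| * Real.exp ((-s) * Δ) ≤ (M * δ) * 3 :=
      mul_le_mul hρ' he2 he0 (mul_nonneg hM0 hδ0)
    have h2 : rho K x * |Real.exp ((-s) * Δ) - 1| ≤ 1 * (4 * (n : ℝ) * δ) :=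
      mul_le_mul hρ1 he1 (abs_nonneg _) (by norm_num)
    linarith
  calc (mixedEmbedding.norm x) ^ (-s) * _ ≤ (A / ‖x‖) ^ n * ((3 * M + 4 * n) * δ) :=
        mul_le_mul hNs hin (abs_nonneg _) (by positivity)
    _ = (3 * M + 4 * n) * 2 * A ^ (n + 1) * ‖t‖ / ‖x‖ ^ (n + 1) := by
        rw [hδ, div_pow]
        field_simp
        ring

/-- **P5**: Lipschitz estimate for `fS`, uniform in `s ∈ [1, 2]`. -/
theorem exists_fS_lipschitz {T : ℝ} (hT : 0 ≤ T) : ∃ R C : ℝ, 0 < R ∧ 0 ≤ C ∧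
    ∀ s : ℝ, 1 ≤ s → s ≤ 2 → ∀ x t : mixedSpace K, ‖t‖ ≤ T → R ≤ ‖x‖ →
    |fS K s (x + t) - fS K s x| ≤ C / ‖x‖ ^ (finrank ℚ K + 1) := by
  obtain ⟨C, A, hC0, hA1, h⟩ := exists_fS_lipschitz_core (K := K)
  have hA0 : 0 < A := by linarith
  have hn1 : (1 : ℝ) ≤ finrank ℚ K := by exact_mod_cast finrank_pos
  set n : ℕ := finrank ℚ K with hn
  have hnAT : 0 ≤ (n : ℝ) * A * T := by positivity
  refine ⟨2 * A + 8 * n * A * T + 2 * T, C * T * 2 ^ (n + 1), by positivity, by positivity,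
    fun s hs1 hs2 x t ht hx ↦ ?_⟩
  have hxpos : 0 < ‖x‖ := by linarith
  have htn : 0 ≤ ‖t‖ := norm_nonneg t
  have h2pow : (1 : ℝ) ≤ 2 ^ (n + 1) := one_le_pow₀ (by norm_num)
  by_cases hρ : rho K x = 0
  · by_cases hρ' : rho K (x + t) = 0
    · rw [fS_eq_zero_of_rho_eq_zero hρ, fS_eq_zero_of_rho_eq_zero hρ', sub_zero, abs_zero]
      positivity
    · -- apply the core case at `x + t` with `-t`
      have hxt : ‖x‖ / 2 ≤ ‖x + t‖ := by
        have h1 : ‖x‖ ≤ ‖x + t‖ + ‖t‖ := by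
          calc ‖x‖ = ‖(x + t) - t‖ := by rw [add_sub_cancel_right]
            _ ≤ ‖x + t‖ + ‖t‖ := norm_sub_le _ _
        linarith
      have hxt0 : 0 < ‖x + t‖ := by linarith
      have h1 := h s hs1 hs2 (x + t) (-t) hρ' (by
        rw [norm_neg]
        calc 4 * (n : ℝ) * A * ‖t‖ ≤ 4 * (n : ℝ) * A * T := by gcongr
          _ ≤ ‖x‖ / 2 := by linarith
          _ ≤ ‖x + t‖ := hxt) (by linarith)
      rw [add_neg_cancel_right, norm_neg, abs_sub_comm] at h1
      refine h1.trans ?_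
      rw [div_le_div_iff₀ (by positivity) (by positivity)]
      have h3 : ‖x‖ ^ (n + 1) ≤ 2 ^ (n + 1) * ‖x + t‖ ^ (n + 1) := by
        rw [← mul_pow]
        exact pow_le_pow_left₀ hxpos.le (by linarith) _
      calc C * ‖t‖ * ‖x‖ ^ (n + 1) ≤ C * T * (2 ^ (n + 1) * ‖x + t‖ ^ (n + 1)) := by gcongr
        _ = C * T * 2 ^ (n + 1) * ‖x + t‖ ^ (n + 1) := by ring
  · have h1 := h s hs1 hs2 x t hρ (by
      calc 4 * (n : ℝ) * A * ‖t‖ ≤ 4 * (n : ℝ) * A * T := by gcongr
        _ ≤ ‖x‖ := by linarith) (by linarith)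
    refine h1.trans ?_
    apply div_le_div_of_nonneg_right _ (by positivity)
    calc C * ‖t‖ ≤ C * T * 1 := by rw [mul_one]; gcongr
      _ ≤ C * T * 2 ^ (n + 1) := by gcongr

end Fermat.Agent.S14.H74

end
-- ===== PACK-END S14/H74/Lipschitz.lean

-- ===== PACK-BEGIN Lib/Red/H290/RedSlope.lean
section


/-!
# The slope reduces (S52 piece A1b, part 3)

If `P = (x₁, y₁)`, `Q = (x₂, y₂)` are integral points of `W` whose reductions `P̄`, `Q̄` satisfy
`P̄ ≠ -Q̄`, then the slope of the line through `P` and `Q` (tangent if `P = Q`) is integral and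
reduces to the slope of the line through `P̄`, `Q̄`.
-/

set_option autoImplicit false

namespace Fermat.Agent.Lib.Red.H290

open WeierstrassCurve WeierstrassCurve.Affine

variable {K : Type*} [Field K] [DecidableEq K] {κ : Type*} [Field κ] [DecidableEq κ]
variable {A : ValuationSubring K} {φ : A →+* κ} {W : Affine K} {Wκ : Affine κ}

omit [DecidableEq κ] in
/-- `y`-integrality of integral points. -/
lemma y_mem_of_x_mem (h : IsRedOf A φ W Wκ) {x y : K} (hxy : W.Equation x y) (hx : x ∈ A) :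
    y ∈ A :=
  mem_of_val_le (Fermat.Agent.S05.GoodRed.val_y_le_one h.integralCoeffs hxy (val_le_of_mem hx))

omit [DecidableEq K] [DecidableEq κ] in
/-- The secant numerator `g` with `(y₁ - y₂) (y₁ - negY x₂ y₂) = (x₁ - x₂) g`. -/
lemma secant_key {x₁ y₁ x₂ y₂ : K} (e₁ : W.Equation x₁ y₁) (e₂ : W.Equation x₂ y₂) :
    (y₁ - y₂) * (y₁ - W.negY x₂ y₂) =
      (x₁ - x₂) * (x₁ ^ 2 + x₁ * x₂ + x₂ ^ 2 + W.a₂ * (x₁ + x₂) + W.a₄ - W.a₁ * y₁) := by
  rw [Affine.equation_iff] at e₁ e₂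
  simp only [Affine.negY]
  linear_combination e₁ - e₂

omit [DecidableEq K] [DecidableEq κ] in
lemma rd_secantNum (h : IsRedOf A φ W Wκ) {x₁ y₁ x₂ : K} (hx₁ : x₁ ∈ A) (hy₁ : y₁ ∈ A)
    (hx₂ : x₂ ∈ A) :
    x₁ ^ 2 + x₁ * x₂ + x₂ ^ 2 + W.a₂ * (x₁ + x₂) + W.a₄ - W.a₁ * y₁ ∈ A ∧
    rd A φ (x₁ ^ 2 + x₁ * x₂ + x₂ ^ 2 + W.a₂ * (x₁ + x₂) + W.a₄ - W.a₁ * y₁) =
      rd A φ x₁ ^ 2 + rd A φ x₁ * rd A φ x₂ + rd A φ x₂ ^ 2 +
        Wκ.a₂ * (rd A φ x₁ + rd A φ x₂) + Wκ.a₄ - Wκ.a₁ * rd A φ y₁ := by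
  obtain ⟨c₁, c₂, c₃, c₄, c₆, e₁, e₂, e₃, e₄, e₆, f₁, f₂, f₃, f₄, f₆⟩ := h.exists_lift
  lift x₁ to A using hx₁
  lift y₁ to A using hy₁
  lift x₂ to A using hx₂
  simp only [← e₁, ← e₂, ← e₄, ← f₁, ← f₂, ← f₄]
  have : ((x₁ : K) ^ 2 + x₁ * x₂ + x₂ ^ 2 + c₂ * (x₁ + x₂) + c₄ - c₁ * y₁) =
      ((x₁ ^ 2 + x₁ * x₂ + x₂ ^ 2 + c₂ * (x₁ + x₂) + c₄ - c₁ * y₁ : A) : K) := by
    push_cast; rfl
  rw [this, rd_coe, rd_coe, rd_coe, rd_coe]
  refine ⟨Subtype.mem _, ?_⟩
  simp only [map_sub, map_add, map_mul, map_pow]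

/-- **The slope reduces.** -/
theorem slope_mem_and_rd (h : IsRedOf A φ W Wκ) (hφ : KerMax A φ) {x₁ y₁ x₂ y₂ : K}
    (hx₁ : x₁ ∈ A) (hx₂ : x₂ ∈ A) (e₁ : W.Equation x₁ y₁) (e₂ : W.Equation x₂ y₂)
    (hne : ¬(rd A φ x₁ = rd A φ x₂ ∧ rd A φ y₁ = Wκ.negY (rd A φ x₂) (rd A φ y₂))) :
    W.slope x₁ x₂ y₁ y₂ ∈ A ∧
      rd A φ (W.slope x₁ x₂ y₁ y₂) =
        Wκ.slope (rd A φ x₁) (rd A φ x₂) (rd A φ y₁) (rd A φ y₂) := by
  have hy₁ : y₁ ∈ A := y_mem_of_x_mem h e₁ hx₁
  have hy₂ : y₂ ∈ A := y_mem_of_x_mem h e₂ hx₂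
  by_cases hxb : rd A φ x₁ = rd A φ x₂
  · -- same reduced `x`
    have hyb : rd A φ y₁ ≠ Wκ.negY (rd A φ x₂) (rd A φ y₂) := fun hy => hne ⟨hxb, hy⟩
    have eb₁ := rd_equation h hx₁ hy₁ e₁
    have eb₂ := rd_equation h hx₂ hy₂ e₂
    have hyy : rd A φ y₁ = rd A φ y₂ := Affine.Y_eq_of_Y_ne eb₁ eb₂ hxb hyb
    -- the unit denominator
    have hnA : y₁ - W.negY x₂ y₂ ∈ A := A.sub_mem hy₁ (negY_mem h hx₂ hy₂)
    have hnrd : rd A φ (y₁ - W.negY x₂ y₂) =
        rd A φ y₁ - Wκ.negY (rd A φ x₁) (rd A φ y₁) := by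
      rw [rd_sub hy₁ (negY_mem h hx₂ hy₂), rd_negY h hx₂ hy₂, ← hxb, ← hyy]
    have hnne : rd A φ (y₁ - W.negY x₂ y₂) ≠ 0 := by
      rw [rd_sub hy₁ (negY_mem h hx₂ hy₂), rd_negY h hx₂ hy₂]
      exact sub_ne_zero.mpr hyb
    have hnv : A.valuation (y₁ - W.negY x₂ y₂) = 1 := (rd_ne_zero_iff hφ hnA).mp hnne
    have hn0 : y₁ - W.negY x₂ y₂ ≠ 0 := by
      intro h0; rw [h0, map_zero] at hnv; exact zero_ne_one hnv
    rw [Affine.slope_of_Y_ne hxb hyb]
    by_cases hxx : x₁ = x₂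
    · subst hxx
      have hyK : y₁ ≠ W.negY x₁ y₂ := by
        intro hy
        apply hyb
        rw [hy, rd_negY h hx₁ hy₂]
      have hy12 : y₁ = y₂ := Affine.Y_eq_of_Y_ne e₁ e₂ rfl hyK
      subst hy12
      rw [Affine.slope_of_Y_ne rfl hyK]
      obtain ⟨hgA, hgrd⟩ := rd_slopeNum h hx₁ hy₁
      refine ⟨div_mem_of_val_eq_one hgA hnv, ?_⟩
      rw [rd_div hgA hnv, hgrd, hnrd]
    · rw [Affine.slope_of_X_ne hxx]
      obtain ⟨hgA, hgrd⟩ := rd_secantNum h hx₁ hy₁ hx₂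
      have key := secant_key e₁ e₂
      have hd0 : x₁ - x₂ ≠ 0 := sub_ne_zero.mpr hxx
      have hsl : (y₁ - y₂) / (x₁ - x₂) =
          (x₁ ^ 2 + x₁ * x₂ + x₂ ^ 2 + W.a₂ * (x₁ + x₂) + W.a₄ - W.a₁ * y₁) /
            (y₁ - W.negY x₂ y₂) := by
        rw [div_eq_div_iff hd0 hn0, key]; ring
      rw [hsl]
      refine ⟨div_mem_of_val_eq_one hgA hnv, ?_⟩
      rw [rd_div hgA hnv, hgrd, hnrd, ← hxb]
      congr 1
      ring
  · -- distinct reduced `x`
    have hdA : x₁ - x₂ ∈ A := A.sub_mem hx₁ hx₂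
    have hdne : rd A φ (x₁ - x₂) ≠ 0 := by
      rw [rd_sub hx₁ hx₂]; exact sub_ne_zero.mpr hxb
    have hdv : A.valuation (x₁ - x₂) = 1 := (rd_ne_zero_iff hφ hdA).mp hdne
    have hxx : x₁ ≠ x₂ := by
      rintro rfl; exact hxb rfl
    rw [Affine.slope_of_X_ne hxx, Affine.slope_of_X_ne hxb]
    refine ⟨div_mem_of_val_eq_one (A.sub_mem hy₁ hy₂) hdv, ?_⟩
    rw [rd_div (A.sub_mem hy₁ hy₂) hdv, rd_sub hy₁ hy₂, rd_sub hx₁ hx₂]

end Fermat.Agent.Lib.Red.H290

end
-- ===== PACK-END Lib/Red/H290/RedSlope.lean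

-- ===== PACK-BEGIN S52/H311/Height.lean
section


/-!
# The degree height on points with rational `x`-coordinate (S52, piece A2a, API)
-/

set_option autoImplicit false

namespace Fermat.Agent.S52.H311

open Polynomial WeierstrassCurve WeierstrassCurve.Affine

variable {F : Type*} [Field F] {K : Type*} [Field K] [Algebra F K]
variable {j : F[X] →ₐ[F] K} {W' : Affine K}

lemma isXRep_zero : IsXRep j (0 : W'.Point) 1 0 :=
  ⟨isCoprime_one_left, 1, one_ne_zero, by simp [Point.xRep_zero]⟩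

lemma isXRep_some {x y : K} (h : W'.Nonsingular x y) {a b : F[X]} (hab : IsCoprime a b)
    (hb : j b ≠ 0) (hx : x * j b = j a) : IsXRep j (Point.some x y h) a b := by
  refine ⟨hab, j b, hb, ?_⟩
  rw [Point.xRep_some]
  funext k
  fin_cases k
  · simp [← hx, mul_comm]
  · simp

/-- pairs of coprime polynomials which are proportional have the same degree -/
lemma pairDeg_eq_of_cross {a b a' b' : F[X]} (h : IsCoprime a b) (h' : IsCoprime a' b')
    (hc : a * b' = a' * b) : pairDeg a b = pairDeg a' b' := by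
  -- apply the triple statement to `(a, b) * (1, 0)`
  have key := maxDeg_eq_of_proportional
    (isPrim_prodTriple h (isCoprime_one_left (x := (0 : F[X]))))
    (isPrim_prodTriple h' (isCoprime_one_left (x := (0 : F[X])))) (fun i k => by
      fin_cases i <;> fin_cases k <;> simp [prodTriple] <;>
        first | linear_combination hc | linear_combination -hc)
  rw [maxDeg_prodTriple h isCoprime_one_left, maxDeg_prodTriple h' isCoprime_one_left] at key
  simpa [pairDeg] using key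

lemma pairDeg_eq_of_isXRep (hj : Function.Injective j) {P : W'.Point} {a b a' b' : F[X]}
    (h : IsXRep j P a b) (h' : IsXRep j P a' b') : pairDeg a b = pairDeg a' b' := by
  refine pairDeg_eq_of_cross h.1 h'.1 (hj ?_)
  obtain ⟨-, c, hc, e⟩ := h
  obtain ⟨-, c', hc', e'⟩ := h'
  have e0 : j a = c * P.xRep 0 := by simpa using congrFun e 0
  have e1 : j b = c * P.xRep 1 := by simpa using congrFun e 1
  have e0' : j a' = c' * P.xRep 0 := by simpa using congrFun e' 0
  have e1' : j b' = c' * P.xRep 1 := by simpa using congrFun e' 1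
  rw [map_mul, map_mul, e0, e1, e0', e1']
  ring

open Classical in
/-- the degree height of a point (`0` if the `x`-coordinate is not represented) -/
noncomputable def hgt (j : F[X] →ₐ[F] K) (P : W'.Point) : ℕ :=
  if h : ∃ ab : F[X] × F[X], IsXRep j P ab.1 ab.2 then
    pairDeg (Classical.choose h).1 (Classical.choose h).2
  else 0

lemma hgt_eq (hj : Function.Injective j) {P : W'.Point} {a b : F[X]} (h : IsXRep j P a b) :
    hgt j P = pairDeg a b := by
  have hex : ∃ ab : F[X] × F[X], IsXRep j P ab.1 ab.2 := ⟨(a, b), h⟩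
  rw [hgt, dif_pos hex]
  exact pairDeg_eq_of_isXRep hj (Classical.choose_spec hex) h

lemma hgt_zero (hj : Function.Injective j) : hgt j (0 : W'.Point) = 0 := by
  rw [hgt_eq hj isXRep_zero]
  simp [pairDeg]

/-- **Exact parallelogram law for the degree height.** -/
theorem hgt_add_sub {W : WeierstrassCurve F} [W.IsElliptic] [DecidableEq K]
    (hj : Function.Injective j) {P Q : (W.toAffine⁄K).Point}
    (hP : ∃ a b, IsXRep j P a b) (hQ : ∃ a b, IsXRep j Q a b)
    (hS : ∃ a b, IsXRep j (P + Q) a b) (hD : ∃ a b, IsXRep j (P - Q) a b) :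
    hgt j (P + Q) + hgt j (P - Q) = 2 * hgt j P + 2 * hgt j Q := by
  obtain ⟨a₁, b₁, h₁⟩ := hP
  obtain ⟨a₂, b₂, h₂⟩ := hQ
  obtain ⟨a₃, b₃, h₃⟩ := hS
  obtain ⟨a₄, b₄, h₄⟩ := hD
  rw [hgt_eq hj h₁, hgt_eq hj h₂, hgt_eq hj h₃, hgt_eq hj h₄,
    pairDeg_add_sub hj h₁ h₂ h₃ h₄]
  ring

end Fermat.Agent.S52.H311

end
-- ===== PACK-END S52/H311/Height.lean

-- ===== PACK-BEGIN S13/H891/Torsion.lean
section





/-!
# S13 / T1: `n`-torsion of a Weierstrass curve for odd `n = 2m+1`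

* `torsion_iff_root`: for `P ≠ 0`, `(2m+1) • P = 0 ↔ W_m(x(P)) = 0`;
* `exists_order_odd`: existence of a nonzero `(2m+1)`-torsion point over an algebraically closed
  field of characteristic zero;
* `card_torsion_odd_le`: `#E[2m+1] ≤ (2m+1)^2`.
-/

open WeierstrassCurve WeierstrassCurve.Affine Polynomial
open Fermat.Agent.S51.Five (xc dD dN dD_eq dN_eq xc_add_self add_self_ne_zero_of_dD_ne_zero
  eq_or_eq_neg_of_xc_eq xc_neg xc_some exists_equation pointsOver card_pointsOver_le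
  mem_pointsOver)

namespace Fermat.Agent.S13.H891

variable {K : Type*} [Field K] [DecidableEq K] {E : WeierstrassCurve.Affine K}

/-- for `P ≠ 0`: `(2m+1) P = 0` iff `x(P)` is a root of `W_m` -/
theorem torsion_iff_root {P : E.Point} (hP : P ≠ 0) (m : ℕ) :
    (2*m+1) • P = 0 ↔ (polyW E.b₂ E.b₄ E.b₆ E.b₈ m).eval (xc P) = 0 := by
  rw [eval_polyW, addW]
  have h₁ := rep_lad hP m
  have h₂ := rep_lad hP (m+1)
  have e : (2 * m + 1) • P = m • P + (m + 1) • P := by
    rw [← add_nsmul]; congr 1; ring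
  have e' : (m + 1) • P = m • P + P := succ_nsmul P m
  set N := ladN E.b₂ E.b₄ E.b₆ E.b₈ (xc P) m
  set D := ladD E.b₂ E.b₄ E.b₆ E.b₈ (xc P) m
  set N' := ladN E.b₂ E.b₄ E.b₆ E.b₈ (xc P) (m+1)
  set D' := ladD E.b₂ E.b₄ E.b₆ E.b₈ (xc P) (m+1)
  constructor
  · intro h
    rw [e] at h
    have hneg : m • P = -((m + 1) • P) := eq_neg_of_add_eq_zero_left h
    rcases h₁ with ⟨hQ, -, -⟩ | ⟨hQ, hd₁, hn₁⟩
    · exfalso
      rw [hQ, zero_add] at h
      rw [e', hQ, zero_add] at h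
      exact hP h
    · rcases h₂ with ⟨hR, -, -⟩ | ⟨hR, hd₂, hn₂⟩
      · exfalso
        rw [hR, neg_zero] at hneg
        exact hQ hneg
      · have hx : xc (m • P) = xc ((m + 1) • P) := by rw [hneg, xc_neg]
        rw [← hn₁, ← hn₂, hx]; ring
  · intro h
    rcases h₁ with ⟨hQ, hd₁, hn₁⟩ | ⟨hQ, hd₁, hn₁⟩
    · exfalso
      rw [hd₁, mul_zero, sub_zero] at h
      have hd₂ : D' = 0 := (mul_eq_zero.mp h).resolve_left hn₁
      have hR : (m + 1) • P = 0 := h₂.eq_zero_iff.mpr hd₂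
      rw [e', hQ, zero_add] at hR
      exact hP hR
    · rcases h₂ with ⟨hR, hd₂, hn₂⟩ | ⟨hR, hd₂, hn₂⟩
      · exfalso
        rw [hd₂, mul_zero, zero_sub, neg_eq_zero] at h
        exact hd₁ ((mul_eq_zero.mp h).resolve_left hn₂)
      · have hx : xc (m • P) = xc ((m + 1) • P) := by
          have : (xc (m • P) - xc ((m + 1) • P)) * (D * D') = 0 := by
            rw [← h, ← hn₁, ← hn₂]; ring
          exact sub_eq_zero.mp ((mul_eq_zero.mp this).resolve_right (mul_ne_zero hd₁ hd₂))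
        rcases eq_or_eq_neg_of_xc_eq hQ hR hx with h' | h'
        · exfalso
          rw [e'] at h'
          exact hP (by simpa using h')
        · rw [e, h', neg_add_cancel]

section degree

variable (E)

lemma natDegree_polyW (m : ℕ) (hm : 1 ≤ m) (hn : ((2*m+1 : ℕ) : K) ≠ 0) :
    (polyW E.b₂ E.b₄ E.b₆ E.b₈ m).natDegree = 2*m^2 + 2*m := by
  obtain ⟨h1, h2⟩ := dc_polyW E.b₂ E.b₄ E.b₆ E.b₈ m hm
  exact natDegree_eq_of_le_of_coeff_ne_zero h1 (by rw [h2]; exact hn)

lemma polyW_ne_zero (m : ℕ) (hm : 1 ≤ m) (hn : ((2*m+1 : ℕ) : K) ≠ 0) :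
    polyW E.b₂ E.b₄ E.b₆ E.b₈ m ≠ 0 := by
  intro h
  have := (dc_polyW E.b₂ E.b₄ E.b₆ E.b₈ m hm).2
  rw [h, coeff_zero] at this
  exact hn this.symm

end degree

/-- over an algebraically closed field of characteristic `0`, an elliptic curve has a nonzero
point killed by `2m+1`, for every `m ≥ 1` -/
theorem exists_order_odd [IsAlgClosed K] [CharZero K] (E : WeierstrassCurve.Affine K)
    [E.IsElliptic] (m : ℕ) (hm : 1 ≤ m) : ∃ P : E.Point, P ≠ 0 ∧ (2*m+1) • P = 0 := by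
  have hn : ((2*m+1 : ℕ) : K) ≠ 0 := Nat.cast_ne_zero.mpr (by omega)
  have hdeg : (polyW E.b₂ E.b₄ E.b₆ E.b₈ m).degree ≠ 0 := by
    rw [degree_eq_natDegree (polyW_ne_zero E m hm hn), natDegree_polyW E m hm hn]
    have : 0 < 2 * m ^ 2 + 2 * m := by positivity
    exact_mod_cast this.ne'
  obtain ⟨x, hx⟩ := IsAlgClosed.exists_root _ hdeg
  obtain ⟨y, hy⟩ := exists_equation E x
  have hns : E.Nonsingular x y := Affine.equation_iff_nonsingular.mp hy
  refine ⟨Point.some x y hns, Point.some_ne_zero _, ?_⟩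
  rw [torsion_iff_root (Point.some_ne_zero _)]
  exact hx

section counting

variable [CharZero K]

/-- a finite set containing all `(2m+1)`-torsion points -/
noncomputable def oddCandidates (E : WeierstrassCurve.Affine K) (m : ℕ) : Finset E.Point :=
  insert 0 (pointsOver E (polyW E.b₂ E.b₄ E.b₆ E.b₈ m).roots.toFinset)

lemma card_oddCandidates_le (E : WeierstrassCurve.Affine K) (m : ℕ) (hm : 1 ≤ m) :
    (oddCandidates E m).card ≤ (2*m+1)^2 := by
  classical
  have hn : ((2*m+1 : ℕ) : K) ≠ 0 := Nat.cast_ne_zero.mpr (by omega)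
  have h1 : (polyW E.b₂ E.b₄ E.b₆ E.b₈ m).roots.toFinset.card ≤ 2*m^2 + 2*m := by
    calc (polyW E.b₂ E.b₄ E.b₆ E.b₈ m).roots.toFinset.card
        ≤ Multiset.card (polyW E.b₂ E.b₄ E.b₆ E.b₈ m).roots := Multiset.toFinset_card_le _
      _ ≤ (polyW E.b₂ E.b₄ E.b₆ E.b₈ m).natDegree := Polynomial.card_roots' _
      _ = 2*m^2 + 2*m := natDegree_polyW E m hm hn
  have e : (2*m+1)^2 = (2*m^2 + 2*m) * 2 + 1 := by ring
  calc (oddCandidates E m).card
      ≤ (pointsOver E (polyW E.b₂ E.b₄ E.b₆ E.b₈ m).roots.toFinset).card + 1 :=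
        Finset.card_insert_le _ _
    _ ≤ (polyW E.b₂ E.b₄ E.b₆ E.b₈ m).roots.toFinset.card * 2 + 1 :=
        Nat.add_le_add_right (card_pointsOver_le E _) 1
    _ ≤ (2*m^2 + 2*m) * 2 + 1 := by omega
    _ = (2*m+1)^2 := e.symm

lemma mem_oddCandidates {P : E.Point} (m : ℕ) (hm : 1 ≤ m) (h : (2*m+1) • P = 0) :
    P ∈ oddCandidates E m := by
  classical
  have hn : ((2*m+1 : ℕ) : K) ≠ 0 := Nat.cast_ne_zero.mpr (by omega)
  unfold oddCandidates
  by_cases hP : P = 0
  · rw [hP]; exact Finset.mem_insert_self _ _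
  · apply Finset.mem_insert_of_mem
    apply mem_pointsOver hP
    rw [Multiset.mem_toFinset, Polynomial.mem_roots (polyW_ne_zero E m hm hn)]
    exact (torsion_iff_root hP m).mp h

lemma nsmul_eq_zero_of_mem_torsionBy (n : ℕ) (P : Submodule.torsionBy ℤ E.Point ((n : ℕ) : ℤ)) :
    n • (P : E.Point) = 0 := by
  have := P.2
  rw [Submodule.mem_torsionBy_iff] at this
  rw [← this]
  exact (natCast_zsmul _ n).symm

/-- `E[2m+1]` is finite -/
theorem finite_torsion_odd (E : WeierstrassCurve.Affine K) (m : ℕ) (hm : 1 ≤ m) :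
    Finite (Submodule.torsionBy ℤ E.Point ((2*m+1 : ℕ) : ℤ)) := by
  classical
  let f : Submodule.torsionBy ℤ E.Point ((2*m+1 : ℕ) : ℤ) → (oddCandidates E m) :=
    fun P => ⟨P.1, mem_oddCandidates m hm (nsmul_eq_zero_of_mem_torsionBy _ P)⟩
  have hf : Function.Injective f := by
    intro P Q h
    exact Subtype.ext (congrArg (fun x : oddCandidates E m => (x : E.Point)) h)
  exact Finite.of_injective f hf

/-- `#E[2m+1] ≤ (2m+1)^2` -/
theorem card_torsion_odd_le (E : WeierstrassCurve.Affine K) (m : ℕ) (hm : 1 ≤ m) :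
    Nat.card (Submodule.torsionBy ℤ E.Point ((2*m+1 : ℕ) : ℤ)) ≤ (2*m+1)^2 := by
  classical
  let f : Submodule.torsionBy ℤ E.Point ((2*m+1 : ℕ) : ℤ) → (oddCandidates E m) :=
    fun P => ⟨P.1, mem_oddCandidates m hm (nsmul_eq_zero_of_mem_torsionBy _ P)⟩
  have hf : Function.Injective f := by
    intro P Q h
    exact Subtype.ext (congrArg (fun x : oddCandidates E m => (x : E.Point)) h)
  calc Nat.card (Submodule.torsionBy ℤ E.Point ((2*m+1 : ℕ) : ℤ))
      ≤ Nat.card (oddCandidates E m) := Nat.card_le_card_of_injective f hf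
    _ = (oddCandidates E m).card := by rw [Nat.card_eq_fintype_card, Fintype.card_coe]
    _ ≤ (2*m+1)^2 := card_oddCandidates_le E m hm

/-- `E[2m+1]` is nontrivial over an algebraically closed field of characteristic `0` -/
theorem nontrivial_torsion_odd [IsAlgClosed K] (E : WeierstrassCurve.Affine K) [E.IsElliptic]
    (m : ℕ) (hm : 1 ≤ m) :
    Nontrivial (Submodule.torsionBy ℤ E.Point ((2*m+1 : ℕ) : ℤ)) := by
  obtain ⟨P, hP, hP5⟩ := exists_order_odd E m hm
  have hmem : P ∈ Submodule.torsionBy ℤ E.Point ((2*m+1 : ℕ) : ℤ) := by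
    rw [Submodule.mem_torsionBy_iff, natCast_zsmul]; exact hP5
  exact ⟨⟨⟨P, hmem⟩, 0, fun h => hP (congrArg Subtype.val h)⟩⟩

end counting

/-- **T1 for odd primes `p`** (stated for any odd `p ≥ 3`): over an algebraically closed field of
characteristic `0`, `E[p]` is nontrivial, finite, of cardinality at most `p^2`. -/
theorem T1_odd [IsAlgClosed K] [CharZero K] (E : WeierstrassCurve.Affine K) [E.IsElliptic]
    (p : ℕ) (hp3 : 3 ≤ p) (hodd : Odd p) :
    Nontrivial (Submodule.torsionBy ℤ E.Point ((p : ℕ) : ℤ)) ∧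
    Finite (Submodule.torsionBy ℤ E.Point ((p : ℕ) : ℤ)) ∧
    Nat.card (Submodule.torsionBy ℤ E.Point ((p : ℕ) : ℤ)) ≤ p ^ 2 := by
  obtain ⟨m, rfl⟩ := hodd
  have hm : 1 ≤ m := by omega
  exact ⟨nontrivial_torsion_odd E m hm, finite_torsion_odd E m hm, card_torsion_odd_le E m hm⟩

end Fermat.Agent.S13.H891

end
-- ===== PACK-END S13/H891/Torsion.lean

-- ===== PACK-BEGIN A2/Mod/H372/Branch.lean
section




/-!
# A2 / MODASM S3, generic part (helper372): the branches are Dedekind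

Mathlib + `A2.H372` only.

* `dimensionLEOne_quotient_of_integral` : `B` integral over `R[y]` (`R` local), `p` a prime of
  `B` containing the maximal ideal of `R` ⟹ every nonzero prime of `B ⧸ p` is maximal;
* `isDedekindDomain_quotient_of_integral` : if moreover `B` is noetherian and `B ⧸ p` is
  integrally closed, then `B ⧸ p` is a Dedekind domain;
* `exists_isBranchUnif_of_quotient` : local generators of the branch `B ⧸ P` in terms of a
  parametrisation `α : A → B` onto `B ⧸ P`;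
* `KronCong.sup_isRadical_of_quotient` : transversality (`SSChart.transversal`) from the
  semilinear Kronecker congruences when the branch `B ⧸ P₁` is Dedekind.
-/

set_option autoImplicit false
set_option linter.style.haveILetI false

namespace Fermat.Agent.A2.Mod.H372

open Polynomial

section Dim

variable {R B : Type*} [CommRing R] [IsLocalRing R] [CommRing B]

/-- Every nonzero prime of `B ⧸ p` is maximal. -/
theorem dimensionLEOne_quotient_of_integral (c : R →+* B) (y : B)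
    (hint : ∀ b : B, (Polynomial.eval₂RingHom c y).IsIntegralElem b)
    (p : Ideal B) [p.IsPrime] (hp : ∀ r ∈ IsLocalRing.maximalIdeal R, c r ∈ p) :
    Ring.DimensionLEOne (B ⧸ p) := by
  let k := IsLocalRing.ResidueField R
  let ι : k →+* B ⧸ p :=
    Ideal.Quotient.lift (IsLocalRing.maximalIdeal R) ((Ideal.Quotient.mk p).comp c)
      (fun r hr => Ideal.Quotient.eq_zero_iff_mem.mpr (hp r hr))
  let θ : Polynomial k →+* B ⧸ p := Polynomial.eval₂RingHom ι (Ideal.Quotient.mk p y)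
  have hθ : θ.IsIntegral := by
    intro z
    obtain ⟨b, rfl⟩ := Ideal.Quotient.mk_surjective z
    have h1 := isIntegralElem_map (Polynomial.eval₂RingHom c y) (Ideal.Quotient.mk p) (hint b)
    refine isIntegralElem_of_forall_exists _ _ (fun f => ?_) h1
    refine ⟨f.map (IsLocalRing.residue R), ?_⟩
    show Polynomial.eval₂ ι (Ideal.Quotient.mk p y) (f.map (IsLocalRing.residue R)) = _
    rw [Polynomial.eval₂_map, RingHom.comp_apply, Polynomial.coe_eval₂RingHom,
      Polynomial.hom_eval₂]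
    rfl
  letI := θ.toAlgebra
  haveI : Algebra.IsIntegral (Polynomial k) (B ⧸ p) := ⟨hθ⟩
  refine ⟨fun {𝔮} h𝔮 hprime => ?_⟩
  have hne : 𝔮.comap (algebraMap (Polynomial k) (B ⧸ p)) ≠ ⊥ := fun h =>
    h𝔮 (Ideal.eq_bot_of_comap_eq_bot h)
  have hmax : (𝔮.comap (algebraMap (Polynomial k) (B ⧸ p))).IsMaximal :=
    Ring.DimensionLEOne.maximalOfPrime hne (Ideal.comap_isPrime _ _)
  exact Ideal.isMaximal_of_isIntegral_of_isMaximal_comap 𝔮 hmax

/-- The branch `B ⧸ p` is a Dedekind domain. -/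
theorem isDedekindDomain_quotient_of_integral [IsNoetherianRing B] (c : R →+* B) (y : B)
    (hint : ∀ b : B, (Polynomial.eval₂RingHom c y).IsIntegralElem b)
    (p : Ideal B) [p.IsPrime] (hp : ∀ r ∈ IsLocalRing.maximalIdeal R, c r ∈ p)
    [IsIntegrallyClosed (B ⧸ p)] : IsDedekindDomain (B ⧸ p) :=
  { dimensionLEOne_quotient_of_integral c y hint p hp with
    toIsDomain := inferInstance }

end Dim

section Branch

variable {A B : Type*} [CommRing A] [CommRing B]

open Fermat.Agent.A2.H372 in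
/-- If the branch `B ⧸ P` is a Dedekind domain and `α` is onto `B ⧸ P`, every prime `n ⊇ P` has
a local generator in the sense of `IsBranchUnif`. -/
theorem exists_isBranchUnif_of_quotient (α : A →+* B) (P n : Ideal B) [n.IsPrime]
    (hP : P ≤ n) [IsDedekindDomain (B ⧸ P)] (hα : ∀ b : B, ∃ a : A, b - α a ∈ P) :
    ∃ a₀ : A, IsBranchUnif α P n a₀ := by
  let ψ : B ⧸ P →+* B ⧸ n := Ideal.Quotient.factor hP
  let m : Ideal (B ⧸ P) := RingHom.ker ψ
  have : m.IsPrime := RingHom.ker_isPrime ψ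
  have hmem : ∀ b : B, Ideal.Quotient.mk P b ∈ m ↔ b ∈ n := by
    intro b
    simp only [m, ψ, RingHom.mem_ker, Ideal.Quotient.factor_mk, Ideal.Quotient.eq_zero_iff_mem]
  have hmk : ∀ z : B ⧸ P, ∃ a : A, z = Ideal.Quotient.mk P (α a) := by
    intro z
    obtain ⟨b, rfl⟩ := Ideal.Quotient.mk_surjective z
    obtain ⟨a, ha⟩ := hα b
    exact ⟨a, Ideal.Quotient.eq.mpr ha⟩
  obtain ⟨a₀', ha₀', hgen⟩ := H372.exists_local_generator_of_isDedekindDomain _ m
  obtain ⟨a₀, rfl⟩ := hmk a₀'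
  refine ⟨a₀, (hmem _).mp ha₀', fun a ha => ?_⟩
  obtain ⟨s', y', hs', hsy'⟩ := hgen _ ((hmem (α a)).mpr ha)
  obtain ⟨s, rfl⟩ := hmk s'
  obtain ⟨y, rfl⟩ := hmk y'
  refine ⟨s, y, fun h => hs' ((hmem _).mpr h), ?_⟩
  have h0 : Ideal.Quotient.mk P (α s * α a - α a₀ * α y) = 0 := by
    rw [map_sub, map_mul, map_mul, hsy', sub_self]
  exact Ideal.Quotient.eq_zero_iff_mem.mp h0

open Fermat.Agent.A2.H372 in
/-- **Transversality** when the first branch `B ⧸ P₁` is a Dedekind domain. -/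
theorem sup_isRadical_of_quotient {q : ℕ} (hq : 2 ≤ q) {α β : A →+* B}
    {P₁ P₂ : Ideal B} (h : KronCong q α β P₁ P₂) (hα : ∀ b : B, ∃ a : A, b - α a ∈ P₁)
    [IsDedekindDomain (B ⧸ P₁)] : (P₁ ⊔ P₂).IsRadical :=
  h.sup_isRadical hq hα fun n hn hP₁ _ =>
    haveI := hn.isPrime
    exists_isBranchUnif_of_quotient α P₁ n hP₁ hα

end Branch

end Fermat.Agent.A2.Mod.H372

end
-- ===== PACK-END A2/Mod/H372/Branch.lean

-- ===== PACK-BEGIN A2/Mod/H189/ChartChangeT2.lean
section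


/-!
# Cell A2 / MOD, GOODRED part G3 (helper189): from the `t₂`-charts to the `j`-charts (`q = 3`)

Abstract setting (Mathlib only): `F` a field over `R`, `2` a unit of `R`, `t, j ∈ F` with
`j t² = (t + 256)³` (`t` = Hauptmodul of `X₀(2)`), `j ≠ 0`; `V` a subring of `F` containing `R`
in which `t` and `t + 256` are units (the Gauss valuation ring), `w : F`.

* `goodOn_j_of_t2`    : `GoodOn` for the chart of `R[t]` ⟹ `GoodOn` for the chart of `R[j]`
  (`IC(R[j]) = IC(R[t])[1/t]`);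
* `goodOn_jinv_of_t2` : `GoodOn` for the charts of `R[t]` and `R[1/t]` ⟹ `GoodOn` for the chart of
  `R[1/j]`  (`IC(R[1/j]) = IC(R[u])`, `u = 1/(t+256)`, glued from `IC(R[t])[1/(t+256)]` and
  `IC(R[1/t])[1/(1+256/t)]`).
-/

set_option autoImplicit false

namespace Fermat.Agent.A2.Mod.H189

variable {R : Type*} [CommRing R] {F : Type*} [Field F] [Algebra R F]

/-- `R[y] ⊆ F`. -/
abbrev Aof (R : Type*) [CommRing R] {F : Type*} [Field F] [Algebra R F] (y : F) :
    Subalgebra R F := Algebra.adjoin R ({y} : Set F)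

theorem self_mem_Aof (y : F) : y ∈ Aof R y := Algebra.subset_adjoin rfl

theorem Aof_le {y : F} {B : Subalgebra R F} (hy : y ∈ B) : Aof R y ≤ B :=
  Algebra.adjoin_le (by
    intro x hx
    rw [Set.mem_singleton_iff] at hx
    rw [hx]
    exact hy)

theorem ofNat_mem_sub (A : Subalgebra R F) (n : ℕ) [n.AtLeastTwo] : (OfNat.ofNat n : F) ∈ A := by
  have : (OfNat.ofNat n : F) = algebraMap R F (OfNat.ofNat n) := (map_ofNat _ n).symm
  rw [this]
  exact A.algebraMap_mem _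

section T2

variable {V : Subring F} {w : F} {t j : F} (i : R)

include i in
theorem t2_facts (hi : (256 : R) * i = 1) (hj : j ≠ 0) (hrel : j * t ^ 2 = (t + 256) ^ 3) :
    (256 : F) * algebraMap R F i = 1 ∧ (256 : F) ≠ 0 ∧ t ≠ 0 ∧ t + 256 ≠ 0 := by
  have h1 : (256 : F) * algebraMap R F i = 1 := by
    have := congrArg (algebraMap R F) hi
    rwa [map_mul, map_one, map_ofNat] at this
  have h2 : (256 : F) ≠ 0 := fun h => by rw [h, zero_mul] at h1; exact zero_ne_one h1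
  have h3 : t ≠ 0 := by
    intro h
    rw [h] at hrel
    simp only [ne_eq, OfNat.ofNat_ne_zero, not_false_eq_true, zero_pow, mul_zero, zero_add] at hrel
    exact pow_ne_zero 3 h2 hrel.symm
  refine ⟨h1, h2, h3, fun h => ?_⟩
  rw [h] at hrel
  simp only [ne_eq, OfNat.ofNat_ne_zero, not_false_eq_true, zero_pow, mul_eq_zero,
    pow_eq_zero_iff] at hrel
  rcases hrel with h | h
  · exact hj h
  · exact h3 h

include i in
/-- **`t₂ → j`, finite chart.** -/
theorem goodOn_j_of_t2 (hi : (256 : R) * i = 1) (hj : j ≠ 0) (hrel : j * t ^ 2 = (t + 256) ^ 3)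
    (htV : t ∈ V) (htV' : t⁻¹ ∈ V) (hg : GoodOn V w (Aof R t)) : GoodOn V w (Aof R j) := by
  obtain ⟨hi', h256, ht0, -⟩ := t2_facts i hi hj hrel
  have hjeq : j = (t + 256) ^ 3 * t⁻¹ ^ 2 := by
    field_simp
    exact hrel
  refine (hg.loc (self_mem_Aof t) ht0 htV htV').congr ?_ ?_
  · -- `R[t, 1/t]` is integral over `R[j]`
    intro a ha
    refine isIntegral_of_mem_locSub (A' := Aof R j) (fun a ha => ?_) ?_ ha
    · refine isIntegral_of_mem_adjoin (A := Aof R j) (S := {t}) (fun x hx => ?_) ha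
      rw [Set.mem_singleton_iff] at hx
      subst hx
      -- `t ^ 3 + (768 - j) t ^ 2 + 196608 t + 16777216 = 0`
      refine isIntegral_of_cubic (a := 1) (v := 1) (c₂ := 768 - j) (c₁ := 196608)
        (c₀ := 16777216) (Subalgebra.one_mem _) (one_mul 1)
        (Subalgebra.sub_mem _ (ofNat_mem_sub _ 768) (self_mem_Aof j))
        (ofNat_mem_sub _ 196608) (ofNat_mem_sub _ 16777216) ?_
      linear_combination -hrel
    · -- `1 / t`
      refine isIntegral_of_cubic (a := 16777216) (v := algebraMap R F (i ^ 3))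
        (c₂ := 196608) (c₁ := 768 - j) (c₀ := 1) (Subalgebra.algebraMap_mem _ _) ?_
        (ofNat_mem_sub _ 196608)
        (Subalgebra.sub_mem _ (ofNat_mem_sub _ 768) (self_mem_Aof j)) (Subalgebra.one_mem _) ?_
      · rw [map_pow]
        have : (16777216 : F) = 256 ^ 3 := by norm_num
        rw [this, ← mul_pow, mul_comm, hi', one_pow]
      · field_simp
        linear_combination -hrel
  · -- `R[j] ⊆ R[t, 1/t]`
    intro a ha
    refine isIntegral_of_mem (Aof_le (B := locSub (Aof R t) t) ?_ ha)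
    rw [hjeq]
    refine Subalgebra.mul_mem _ (Subalgebra.pow_mem _ (Subalgebra.add_mem _
      (le_locSub _ _ (self_mem_Aof t)) (ofNat_mem_sub _ 256)) 3)
      (Subalgebra.pow_mem _ (inv_mem_locSub _ _) 2)

include i in
/-- **`t₂ → j`, chart at infinity.** -/
theorem goodOn_jinv_of_t2 (hi : (256 : R) * i = 1) (hj : j ≠ 0)
    (hrel : j * t ^ 2 = (t + 256) ^ 3) (hRV : ∀ r : R, algebraMap R F r ∈ V)
    (htV : t ∈ V) (htV' : t⁻¹ ∈ V) (huV : (t + 256)⁻¹ ∈ V)
    (hg : GoodOn V w (Aof R t)) (hg' : GoodOn V w (Aof R t⁻¹)) : GoodOn V w (Aof R j⁻¹) := by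
  obtain ⟨hi', h256, ht0, htu0⟩ := t2_facts i hi hj hrel
  have h256V : (256 : F) ∈ V := by
    have := hRV 256
    rwa [map_ofNat] at this
  set u : F := (t + 256)⁻¹ with hu
  have hu0 : u ≠ 0 := inv_ne_zero htu0
  have htu : t * u = 1 - 256 * u := by
    rw [hu]
    field_simp
    ring
  have hjinv : j⁻¹ = (1 - 256 * u) ^ 2 * u := by
    rw [← htu, hu]
    field_simp
    linear_combination -hrel
  have h1u0 : 1 - 256 * u ≠ 0 := by
    rw [← htu]
    exact mul_ne_zero ht0 hu0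
  have h1t0 : 1 + 256 * t⁻¹ ≠ 0 := by
    have : 1 + 256 * t⁻¹ = (t + 256) * t⁻¹ := by field_simp
    rw [this]
    exact mul_ne_zero htu0 (inv_ne_zero ht0)
  have hinv1 : (1 - 256 * u)⁻¹ = 1 + 256 * t⁻¹ := by
    rw [← htu, hu]
    field_simp
  have hinv2 : (1 + 256 * t⁻¹)⁻¹ = 1 - 256 * u := by
    rw [← hinv1, inv_inv]
  -- the chart of `R[u]`
  have hgu : GoodOn V w (Aof R u) := by
    refine GoodOn.glue (s₁ := u) (s₂ := 1 - 256 * u) (α := 256) (β := 1)
      (adjoin_subset_subring hRV (by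
        intro x hx
        rw [Set.mem_singleton_iff] at hx
        rw [hx]
        exact huV))
      (self_mem_Aof u)
      (Subalgebra.sub_mem _ (Subalgebra.one_mem _)
        (Subalgebra.mul_mem _ (ofNat_mem_sub _ 256) (self_mem_Aof u)))
      (ofNat_mem_sub _ 256) (Subalgebra.one_mem _) (by ring) ?_ ?_
    · -- `R[u, 1/u] = R[t, 1/(t+256)]`
      refine (hg.loc (s := t + 256) (Subalgebra.add_mem _ (self_mem_Aof t) (ofNat_mem_sub _ 256))
        htu0 (V.add_mem htV h256V) huV).of_le_of_le ?_ ?_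
      · refine locSub_le (Aof_le ?_) ?_
        · -- `t = 1/u - 256`
          have : t = u⁻¹ - 256 := by rw [hu, inv_inv]; ring
          rw [this]
          exact Subalgebra.sub_mem _ (inv_mem_locSub _ _) (ofNat_mem_sub _ 256)
        · exact le_locSub _ _ (self_mem_Aof u)
      · refine locSub_le (Aof_le ?_) ?_
        · exact inv_mem_locSub _ _
        · rw [hu, inv_inv]
          exact le_locSub _ _ (Subalgebra.add_mem _ (self_mem_Aof t) (ofNat_mem_sub _ 256))
    · -- `R[u, 1/(1-256u)] = R[1/t, 1/(1+256/t)]`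
      refine (hg'.loc (s := 1 + 256 * t⁻¹)
        (Subalgebra.add_mem _ (Subalgebra.one_mem _)
          (Subalgebra.mul_mem _ (ofNat_mem_sub _ 256) (self_mem_Aof t⁻¹)))
        h1t0 (V.add_mem V.one_mem (V.mul_mem h256V htV')) ?_).of_le_of_le ?_ ?_
      · rw [hinv2, ← htu]
        exact V.mul_mem htV huV
      · refine locSub_le (Aof_le ?_) ?_
        · -- `1/t = i ((1 - 256 u)⁻¹ - 1)`
          have : t⁻¹ = algebraMap R F i * ((1 - 256 * u)⁻¹ - 1) := by
            rw [hinv1]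
            linear_combination (-t⁻¹) * hi'
          rw [this]
          exact Subalgebra.mul_mem _ (Subalgebra.algebraMap_mem _ _)
            (Subalgebra.sub_mem _ (inv_mem_locSub _ _) (Subalgebra.one_mem _))
        · rw [hinv2]
          exact le_locSub _ _ (Subalgebra.sub_mem _ (Subalgebra.one_mem _)
            (Subalgebra.mul_mem _ (ofNat_mem_sub _ 256) (self_mem_Aof u)))
      · refine locSub_le (Aof_le ?_) ?_
        · -- `u = (1/t) (1 + 256/t)⁻¹`
          have : u = t⁻¹ * (1 + 256 * t⁻¹)⁻¹ := by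
            rw [hinv2, ← htu]
            field_simp
          rw [this]
          exact Subalgebra.mul_mem _ (le_locSub _ _ (self_mem_Aof t⁻¹)) (inv_mem_locSub _ _)
        · rw [hinv1]
          exact le_locSub _ _ (Subalgebra.add_mem _ (Subalgebra.one_mem _)
            (Subalgebra.mul_mem _ (ofNat_mem_sub _ 256) (self_mem_Aof t⁻¹)))
  -- `IC(R[1/j]) = IC(R[u])`
  refine hgu.congr ?_ ?_
  · intro a ha
    refine isIntegral_of_mem_adjoin (A := Aof R j⁻¹) (S := {u}) (fun x hx => ?_) ha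
    rw [Set.mem_singleton_iff] at hx
    subst hx
    -- `65536 u ^ 3 - 512 u ^ 2 + u - 1/j = 0`
    refine isIntegral_of_cubic (a := 65536) (v := algebraMap R F (i ^ 2))
      (c₂ := -512) (c₁ := 1) (c₀ := -j⁻¹) (Subalgebra.algebraMap_mem _ _) ?_
      (Subalgebra.neg_mem _ (ofNat_mem_sub _ 512)) (Subalgebra.one_mem _)
      (Subalgebra.neg_mem _ (self_mem_Aof j⁻¹)) ?_
    · rw [map_pow]
      have : (65536 : F) = 256 ^ 2 := by norm_num
      rw [this, ← mul_pow, mul_comm, hi', one_pow]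
    · rw [hjinv]
      ring
  · intro a ha
    refine isIntegral_of_mem (Aof_le (B := Aof R u) ?_ ha)
    rw [hjinv]
    exact Subalgebra.mul_mem _ (Subalgebra.pow_mem _ (Subalgebra.sub_mem _ (Subalgebra.one_mem _)
      (Subalgebra.mul_mem _ (ofNat_mem_sub _ 256) (self_mem_Aof u))) 2) (self_mem_Aof u)

end T2

end Fermat.Agent.A2.Mod.H189

end
-- ===== PACK-END A2/Mod/H189/ChartChangeT2.lean

-- ===== PACK-BEGIN A2/H672/Generic.lean
section




/-!
# A2 / node purity (helper672): a generic `m`-th root of `u` up to a unit at finitely many primes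

`R` an integrally closed domain, `u ≠ 0`, `m > 0`.  If at each prime `P` of a finite set of
pairwise incomparable primes there are `z_P, σ_P` with `z_P ^ m = σ_P * u` and `σ_P ∉ P`
(i.e. `u` is an `m`-th power up to a unit of `R_P`), then there are `z, r` with `z ^ m = r * u`
and `r` outside all these primes (`exists_generic_root`).  The proof is a prime avoidance
induction; the combination step `exists_combine` uses the ideals `powRootIdeal` of helper969.
-/

set_option autoImplicit false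

namespace Fermat.Agent.A2.H672

open Finset

variable {R : Type*} [CommRing R] [IsDomain R] [IsIntegrallyClosed R]

theorem geomSum_pow_dvd {u : R} (hu : u ≠ 0) {m : ℕ} (hm : 0 < m) {x y : R} (hx : u ∣ x ^ m)
    (hy : u ∣ y ^ m) (n : ℕ) :
    u ^ (n - 1) ∣ (∑ i ∈ range n, x ^ i * y ^ (n - 1 - i)) ^ m := by
  have key : ∀ i ∈ range n, x ^ i * y ^ (n - 1 - i) ∈ H969.powRootIdeal u hu m hm (n - 1) := by
    intro i hi
    have hi' : i + (n - 1 - i) = n - 1 := by
      have := mem_range.1 hi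
      omega
    rw [H969.mem_powRootIdeal, mul_pow, ← pow_mul, ← pow_mul, mul_comm i m,
      mul_comm (n - 1 - i) m, pow_mul, pow_mul]
    conv_lhs => rw [← hi', pow_add]
    exact mul_dvd_mul (pow_dvd_pow_of_dvd hx i) (pow_dvd_pow_of_dvd hy _)
  exact H969.mem_powRootIdeal.1 (Ideal.sum_mem _ key)

/-- If `u ∣ x ^ m` and `u ^ (m - 1) ∣ S ^ m` then `u ∣ x * S`. -/
theorem dvd_mul_of_dvd_pow {u : R} (hu : u ≠ 0) {m : ℕ} (hm : 0 < m) {x S : R} (hx : u ∣ x ^ m)
    (hS : u ^ (m - 1) ∣ S ^ m) : u ∣ x * S := by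
  refine H969.dvd_of_pow_dvd_pow hu hm ?_
  have h : u ^ m = u * u ^ (m - 1) := by
    rw [← pow_succ', Nat.sub_add_cancel hm]
  rw [mul_pow, h]
  exact mul_dvd_mul hx hS

/-- The combination step of the prime avoidance induction. -/
theorem exists_combine {u : R} (hu : u ≠ 0) {m : ℕ} (hm : 0 < m) {z r z' σ : R}
    (hz : z ^ m = r * u) (hz' : z' ^ m = σ * u) (b : R) :
    ∃ r' t' t c : R, (z + b * z') ^ m = r' * u ∧ r' = r + b * t' ∧ r' = b ^ m * σ + t ∧
      t ^ m = r * c := by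
  have hzI : u ∣ z ^ m := ⟨r, by rw [hz, mul_comm]⟩
  have hz'I : u ∣ z' ^ m := ⟨σ, by rw [hz', mul_comm]⟩
  have hbz'I : u ∣ (b * z') ^ m := by
    rw [mul_pow]
    exact hz'I.mul_left _
  have hwI : u ∣ (z + b * z') ^ m := H969.pow_add_dvd_of_dvd_pow hu hm hzI hbz'I
  -- first comparison
  have hS₁ := geomSum_pow_dvd hu hm hwI hzI m
  have h1 := (Commute.all (z + b * z') z).geom_sum₂_mul m
  obtain ⟨t', ht'⟩ := dvd_mul_of_dvd_pow hu hm hz'I hS₁
  have hw1 : (z + b * z') ^ m = (r + b * t') * u := by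
    have : (z + b * z') ^ m = z ^ m + b * (z' * ∑ i ∈ range m, (z + b * z') ^ i * z ^ (m - 1 - i)) := by
      rw [← sub_eq_iff_eq_add', ← h1]
      ring
    rw [this, ht', hz]
    ring
  -- second comparison
  have hS₂ := geomSum_pow_dvd hu hm hwI hbz'I m
  have h2 := (Commute.all (z + b * z') (b * z')).geom_sum₂_mul m
  obtain ⟨t, ht⟩ := dvd_mul_of_dvd_pow hu hm hzI hS₂
  obtain ⟨c, hc⟩ := hS₂
  have hw2 : (z + b * z') ^ m = (b ^ m * σ + t) * u := by
    have : (z + b * z') ^ m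
        = (b * z') ^ m + z * ∑ i ∈ range m, (z + b * z') ^ i * (b * z') ^ (m - 1 - i) := by
      rw [← sub_eq_iff_eq_add', ← h2]
      ring
    rw [this, ht, mul_pow, hz']
    ring
  have htm : t ^ m = r * c := by
    have h3 : (u * t) ^ m = u ^ m * (r * c) := by
      rw [← ht, mul_pow, hz, hc]
      have h : u ^ m = u * u ^ (m - 1) := by
        rw [← pow_succ', Nat.sub_add_cancel hm]
      rw [h]
      ring
    rw [mul_pow] at h3
    exact mul_left_cancel₀ (pow_ne_zero m hu) h3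
  refine ⟨r + b * t', t', t, c, hw1, rfl, ?_, htm⟩
  have := hw1.symm.trans hw2
  exact mul_right_cancel₀ hu this

/-- Prime avoidance induction: a generic `m`-th root of `u` at finitely many primes. -/
theorem exists_generic_root_finset {u : R} (hu : u ≠ 0) {m : ℕ} (hm : 0 < m)
    (s : Finset (Ideal R)) (hprime : ∀ P ∈ s, P.IsPrime)
    (hinc : ∀ P ∈ s, ∀ Q ∈ s, Q ≤ P → Q = P)
    (hloc : ∀ P ∈ s, ∃ z σ : R, σ ∉ P ∧ z ^ m = σ * u) :
    ∃ z r : R, z ^ m = r * u ∧ r ≠ 0 ∧ ∀ P ∈ s, r ∉ P := by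
  classical
  induction s using Finset.induction_on with
  | empty =>
    refine ⟨u, u ^ (m - 1), ?_, pow_ne_zero _ hu, by simp⟩
    rw [← pow_succ, Nat.sub_add_cancel hm]
  | insert P s hPs ih =>
    obtain ⟨z, r, hz, hr0, hr⟩ := ih (fun Q hQ => hprime Q (mem_insert_of_mem hQ))
      (fun Q hQ Q' hQ' => hinc Q (mem_insert_of_mem hQ) Q' (mem_insert_of_mem hQ'))
      (fun Q hQ => hloc Q (mem_insert_of_mem hQ))
    have hP : P.IsPrime := hprime P (mem_insert_self P s)
    by_cases hrP : r ∈ P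
    · obtain ⟨z', σ, hσ, hz'⟩ := hloc P (mem_insert_self P s)
      -- an element of all `Q ∈ s` outside `P`
      have hex : ∀ Q : Ideal R, ∃ b : R, Q ∈ s → b ∈ Q ∧ b ∉ P := by
        intro Q
        by_cases hQ : Q ∈ s
        · have hne : ¬ Q ≤ P := by
            intro hle
            have := hinc P (mem_insert_self P s) Q (mem_insert_of_mem hQ) hle
            exact hPs (this ▸ hQ)
          obtain ⟨b, hbQ, hbP⟩ := SetLike.not_le_iff_exists.1 hne
          exact ⟨b, fun _ => ⟨hbQ, hbP⟩⟩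
        · exact ⟨0, fun h => absurd h hQ⟩
      choose bf hbf using hex
      set b := ∏ Q ∈ s, bf Q with hb
      have hbP : b ∉ P := by
        rw [hb, Ideal.IsPrime.prod_mem_iff]
        rintro ⟨Q, hQ, hQP⟩
        exact (hbf Q hQ).2 hQP
      have hbQ : ∀ Q ∈ s, b ∈ Q := by
        intro Q hQ
        obtain ⟨d, hd⟩ := Finset.dvd_prod_of_mem bf hQ
        rw [hb, hd]
        exact Ideal.mul_mem_right _ _ (hbf Q hQ).1
      obtain ⟨r', t', t, c, hw, hr1, hr2, htm⟩ := exists_combine hu hm hz hz' b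
      have hr'P : r' ∉ P := by
        intro h
        have htP : t ∈ P := hP.mem_of_pow_mem m (by rw [htm]; exact Ideal.mul_mem_right _ _ hrP)
        have : b ^ m * σ ∈ P := by
          have h' : b ^ m * σ = r' - t := by rw [hr2]; ring
          rw [h']
          exact P.sub_mem h htP
        rcases hP.mem_or_mem this with h1 | h1
        · exact hbP (hP.mem_of_pow_mem m h1)
        · exact hσ h1
      refine ⟨z + b * z', r', hw, ?_, ?_⟩
      · rintro rfl
        exact hr'P P.zero_mem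
      · intro Q hQ
        rcases mem_insert.1 hQ with rfl | hQ
        · exact hr'P
        · intro h
          apply hr Q hQ
          have h' : r = r' - b * t' := by rw [hr1]; ring
          rw [h']
          exact Q.sub_mem h (Ideal.mul_mem_right _ _ (hbQ Q hQ))
    · refine ⟨z, r, hz, hr0, ?_⟩
      intro Q hQ
      rcases mem_insert.1 hQ with rfl | hQ
      · exact hrP
      · exact hr Q hQ

/-- Set version of `exists_generic_root_finset`. -/
theorem exists_generic_root {u : R} (hu : u ≠ 0) {m : ℕ} (hm : 0 < m)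
    (F : Set (Ideal R)) (hF : F.Finite) (hprime : ∀ P ∈ F, P.IsPrime)
    (hinc : ∀ P ∈ F, ∀ Q ∈ F, Q ≤ P → Q = P)
    (hloc : ∀ P ∈ F, ∃ z σ : R, σ ∉ P ∧ z ^ m = σ * u) :
    ∃ z r : R, z ^ m = r * u ∧ r ≠ 0 ∧ ∀ P ∈ F, r ∉ P := by
  obtain ⟨z, r, h1, h2, h3⟩ := exists_generic_root_finset hu hm hF.toFinset
    (fun P hP => hprime P (hF.mem_toFinset.1 hP))
    (fun P hP Q hQ => hinc P (hF.mem_toFinset.1 hP) Q (hF.mem_toFinset.1 hQ))
    (fun P hP => hloc P (hF.mem_toFinset.1 hP))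
  exact ⟨z, r, h1, h2, fun P hP => h3 P (hF.mem_toFinset.2 hP)⟩

end Fermat.Agent.A2.H672

end
-- ===== PACK-END A2/H672/Generic.lean

-- ===== PACK-BEGIN Ribet/H472/PlaceCore.lean
section





/-!
# RIBET row 38, WALL-p, CoreOut leaf INST-E — abstract core (helper472)

`V ⊆ F` a valuation ring with a reduction `ρ : V →+* κ`, `Q` a place of `κ / k`, `B ⊆ F` a chart
(a subalgebra of `F` contained in `V`) which is integral over a subring whose reduction lies in
`O_Q`.  Then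

* `mem_of_isIntegral472`, `red_mem_of_isIntegral` : elements integral over a ring mapping into `V`
                              (reducing into `O_Q`) lie in `V` (reduce into `O_Q`);
* `ptOf`                    : the closed point `n_Q = {b ∈ B | ρ b ∈ 𝔪_Q}` of the chart;
* `ptOf_isMaximal`          : it is a maximal ideal (residue field of `Q` is `k`, constants lift);
* `unitAt_of_locUnit`       : a unit of `B_{n_Q}` is a unit of `V` whose reduction is a unit of
                              `O_Q` (so `ord_Q = 0`).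

Mathlib + Prelude (`AlgebraicCurve.Place`) + `A2.Alg.LocUnit` only.
-/

set_option autoImplicit false

namespace Fermat.Agent.Ribet.H472

open AlgebraicCurve

section Core

variable {R F : Type*} [CommRing R] [Field F] [Algebra R F]
variable {k κ : Type*} [Field k] [Field κ] [Algebra k κ]

/-- A unit of the valuation ring of a place has order `0`. -/
theorem ord_eq_zero_of_unit472 (Q : Place k κ) {z : κ}
    (hz : z ∈ Q.toValuationSubring) (hz' : z⁻¹ ∈ Q.toValuationSubring) (hz0 : z ≠ 0) :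
    Q.ord z = 0 := by
  have h1 : (⟨z, hz⟩ : Q.toValuationSubring) * ⟨z⁻¹, hz'⟩ = 1 :=
    Subtype.ext (mul_inv_cancel₀ hz0)
  have h2 : (⟨z⁻¹, hz'⟩ : Q.toValuationSubring) * ⟨z, hz⟩ = 1 :=
    Subtype.ext (inv_mul_cancel₀ hz0)
  exact Q.ord_coe_unit ⟨⟨z, hz⟩, ⟨z⁻¹, hz'⟩, h1, h2⟩

/-- An element of `O_Q` outside `𝔪_Q` has its inverse in `O_Q`. -/
theorem inv_mem_of_notMem_max472 (Q : Place k κ) (z : Q.toValuationSubring)
    (hz : z ∉ IsLocalRing.maximalIdeal Q.toValuationSubring) :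
    ((z : κ))⁻¹ ∈ Q.toValuationSubring := by
  have hu : IsUnit z := by
    by_contra h
    exact hz ((IsLocalRing.mem_maximalIdeal z).mpr h)
  obtain ⟨u, rfl⟩ := hu
  have h1 : ((u : Q.toValuationSubring) : κ) * ((u⁻¹ : (Q.toValuationSubring)ˣ) :
      Q.toValuationSubring) = 1 :=
    congrArg Subtype.val u.mul_inv
  have h2 : (((u : Q.toValuationSubring) : κ))⁻¹ =
      (((u⁻¹ : (Q.toValuationSubring)ˣ) : Q.toValuationSubring) : κ) :=
    inv_eq_of_mul_eq_one_right h1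
  rw [h2]
  exact Subtype.mem _

variable (V : ValuationSubring F) (ρ : V →+* κ)

/-- Valuation rings are integrally closed: an element integral over a ring mapping into `V` lies
in `V`. -/
theorem mem_of_isIntegral472 {S : Type*} [CommRing S] [Algebra S F]
    (hSV : ∀ s : S, algebraMap S F s ∈ V) {b : F} (hb : IsIntegral S b) : b ∈ V := by
  let ι : S →+* V := (algebraMap S F).codRestrict V.toSubring hSV
  obtain ⟨P, hP, hPb⟩ := hb
  have hint' : IsIntegral V b := by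
    refine ⟨P.map ι, hP.map ι, ?_⟩
    rw [Polynomial.eval₂_map]
    have h1 : (algebraMap V F).comp ι = algebraMap S F := by
      ext s
      rfl
    rw [h1]
    exact hPb
  obtain ⟨z, hz⟩ := IsIntegrallyClosed.isIntegral_iff.mp hint'
  rw [← hz]
  exact z.2

/-- **Integrality.**  If a ring `S → V` reduces into `O_Q`, then every element of `V` which is
integral over `S` reduces into `O_Q`. -/
theorem red_mem_of_isIntegral (Q : Place k κ) {S : Type*} [CommRing S] [Algebra S F]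
    (hSV : ∀ s : S, algebraMap S F s ∈ V)
    (hSQ : ∀ s : S, ρ ⟨algebraMap S F s, hSV s⟩ ∈ Q.toValuationSubring)
    {b : F} (hbV : b ∈ V) (hb : IsIntegral S b) :
    ρ ⟨b, hbV⟩ ∈ Q.toValuationSubring := by
  -- `S → V → κ` lands in `O_Q`
  let ι : S →+* V := (algebraMap S F).codRestrict V.toSubring hSV
  let ψ : S →+* Q.toValuationSubring :=
    (ρ.comp ι).codRestrict Q.toValuationSubring.toSubring hSQ
  obtain ⟨P, hP, hPb⟩ := hb
  -- the relation holds in `V`
  have hV0 : Polynomial.eval₂ ι (⟨b, hbV⟩ : V) P = 0 := by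
    apply Subtype.ext
    have h1 : (V.subtype : V →+* F).comp ι = algebraMap S F := by
      ext s
      rfl
    have h2 := Polynomial.hom_eval₂ P ι (V.subtype : V →+* F) (⟨b, hbV⟩ : V)
    rw [h1] at h2
    show (V.subtype : V →+* F) (Polynomial.eval₂ ι (⟨b, hbV⟩ : V) P) = 0
    rw [h2]
    exact hPb
  have hint' : IsIntegral Q.toValuationSubring (ρ ⟨b, hbV⟩) := by
    refine ⟨P.map ψ, hP.map ψ, ?_⟩
    rw [Polynomial.eval₂_map]
    have h1 : (algebraMap Q.toValuationSubring κ).comp ψ = ρ.comp ι := by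
      ext s
      rfl
    rw [h1, ← Polynomial.hom_eval₂, hV0, map_zero]
  obtain ⟨z, hz⟩ := IsIntegrallyClosed.isIntegral_iff.mp hint'
  rw [← hz]
  exact z.2

variable (B : Subalgebra R F) (hBV : ∀ b : B, (b : F) ∈ V)

/-- The restriction of the reduction to the chart. -/
def chartRed472 : B →+* κ :=
  ρ.comp ((B.val : B →+* F).codRestrict V.toSubring (fun b => hBV b))

theorem chartRed472_apply (b : B) : chartRed472 V ρ B hBV b = ρ ⟨(b : F), hBV b⟩ := rfl

variable {hBV}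
variable (Q : Place k κ) (hmem : ∀ b : B, chartRed472 V ρ B hBV b ∈ Q.toValuationSubring)

/-- The reduction of the chart, with values in `O_Q`. -/
def chartRedQ472 : B →+* Q.toValuationSubring :=
  (chartRed472 V ρ B hBV).codRestrict Q.toValuationSubring.toSubring hmem

/-- **The closed point of the chart attached to `Q`**: `n_Q = {b | ρ b ∈ 𝔪_Q}`. -/
def ptOf : Ideal B :=
  Ideal.comap (chartRedQ472 V ρ B Q hmem) (IsLocalRing.maximalIdeal Q.toValuationSubring)

theorem mem_ptOf (b : B) :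
    b ∈ ptOf V ρ B Q hmem ↔
      (⟨chartRed472 V ρ B hBV b, hmem b⟩ : Q.toValuationSubring) ∈
        IsLocalRing.maximalIdeal Q.toValuationSubring := Iff.rfl

instance ptOf_isPrime : (ptOf V ρ B Q hmem).IsPrime :=
  Ideal.comap_isPrime _ _

/-- the kernel of the reduction lies in the point -/
theorem mem_ptOf_of_eq_zero {b : B} (hb : chartRed472 V ρ B hBV b = 0) :
    b ∈ ptOf V ρ B Q hmem := by
  rw [mem_ptOf]
  have : (⟨chartRed472 V ρ B hBV b, hmem b⟩ : Q.toValuationSubring) = 0 := Subtype.ext hb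
  rw [this]
  exact Ideal.zero_mem _

theorem inv_mem_of_notMem_ptOf {b : B} (hb : b ∉ ptOf V ρ B Q hmem) :
    (chartRed472 V ρ B hBV b)⁻¹ ∈ Q.toValuationSubring :=
  inv_mem_of_notMem_max472 Q ⟨chartRed472 V ρ B hBV b, hmem b⟩ hb

theorem ne_zero_of_notMem_ptOf {b : B} (hb : b ∉ ptOf V ρ B Q hmem) :
    chartRed472 V ρ B hBV b ≠ 0 :=
  fun h => hb (mem_ptOf_of_eq_zero V ρ B Q hmem h)

/-- **The point of a place is closed** when the residue field of `Q` is `k` and the constants of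
`R` reduce onto `k`. -/
theorem ptOf_isMaximal
    (hQ : Function.Surjective (algebraMap k Q.ResidueField))
    (hsurj : ∀ c : k, ∃ r : R, chartRed472 V ρ B hBV (algebraMap R B r) = algebraMap k κ c) :
    (ptOf V ρ B Q hmem).IsMaximal := by
  set n := ptOf V ρ B Q hmem with hn
  set φ := chartRedQ472 V ρ B Q hmem with hφ
  rw [Ideal.isMaximal_iff]
  refine ⟨fun h1 => (ptOf_isPrime V ρ B Q hmem).ne_top ((Ideal.eq_top_iff_one _).mpr h1), ?_⟩
  intro J b hnJ hb hbJ
  obtain ⟨c₀, hc₀⟩ := hQ (IsLocalRing.residue Q.toValuationSubring (φ b))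
  have hc₀0 : c₀ ≠ 0 := by
    rintro rfl
    rw [map_zero] at hc₀
    exact hb ((IsLocalRing.residue_eq_zero_iff _).mp hc₀.symm)
  obtain ⟨r, hr⟩ := hsurj c₀⁻¹
  have hφr : φ (algebraMap R B r) = algebraMap k Q.toValuationSubring c₀⁻¹ :=
    Subtype.ext hr
  have hres : IsLocalRing.residue Q.toValuationSubring (φ (b * algebraMap R B r) - 1) = 0 := by
    rw [map_sub, map_mul, map_mul, map_one, hφr, ← hc₀]
    have h2 : IsLocalRing.residue Q.toValuationSubring
        (algebraMap k Q.toValuationSubring c₀⁻¹) = algebraMap k Q.ResidueField c₀⁻¹ := rfl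
    rw [h2, ← map_mul, mul_inv_cancel₀ hc₀0, map_one, sub_self]
  have hmemn : b * algebraMap R B r - 1 ∈ n := by
    show φ (b * algebraMap R B r - 1) ∈ IsLocalRing.maximalIdeal _
    rw [map_sub, map_one]
    exact (IsLocalRing.residue_eq_zero_iff _).mp hres
  have h3 : b * algebraMap R B r ∈ J := J.mul_mem_right _ hbJ
  have h4 : b * algebraMap R B r - (b * algebraMap R B r - 1) ∈ J :=
    J.sub_mem h3 (hnJ hmemn)
  simpa using h4

/-- **Units of `B_{n_Q}`**: if `ρ` detects the units of `V`, a unit `u` of the local ring of the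
chart at the point of `Q` is a unit of `V`, and its reduction is a unit of `O_Q`. -/
theorem unitAt_of_locUnit
    (hunit : ∀ s : V, ρ s ≠ 0 → ((s : F))⁻¹ ∈ V)
    {u : F} (hu : Fermat.Agent.A2.Alg.LocUnit B (ptOf V ρ B Q hmem) u) :
    ∃ (hV : u ∈ V), u⁻¹ ∈ V ∧ ρ ⟨u, hV⟩ ≠ 0 ∧ ρ ⟨u, hV⟩ ∈ Q.toValuationSubring ∧
      (ρ ⟨u, hV⟩)⁻¹ ∈ Q.toValuationSubring ∧ Q.ord (ρ ⟨u, hV⟩) = 0 := by
  obtain ⟨a, b, ha, hb, hab⟩ := hu
  have hρa := ne_zero_of_notMem_ptOf V ρ B Q hmem ha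
  have hρb := ne_zero_of_notMem_ptOf V ρ B Q hmem hb
  have hb0 : (b : F) ≠ 0 := by
    intro h0
    apply hρb
    rw [chartRed472_apply]
    have : (⟨(b : F), hBV b⟩ : V) = 0 := Subtype.ext h0
    rw [this, map_zero]
  have ha0 : (a : F) ≠ 0 := by
    intro h0
    apply hρa
    rw [chartRed472_apply]
    have : (⟨(a : F), hBV a⟩ : V) = 0 := Subtype.ext h0
    rw [this, map_zero]
  have hbinv : ((b : F))⁻¹ ∈ V := hunit ⟨(b : F), hBV b⟩ hρb
  have hainv : ((a : F))⁻¹ ∈ V := hunit ⟨(a : F), hBV a⟩ hρa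
  have hu_eq : u = (a : F) * ((b : F))⁻¹ := by
    rw [← hab, mul_assoc, mul_inv_cancel₀ hb0, mul_one]
  have huV : u ∈ V := by
    rw [hu_eq]
    exact V.mul_mem _ _ (hBV a) hbinv
  have huinv : u⁻¹ ∈ V := by
    rw [hu_eq, mul_inv, inv_inv]
    exact V.mul_mem _ _ hainv (hBV b)
  have hρ : ρ ⟨u, huV⟩ * chartRed472 V ρ B hBV b = chartRed472 V ρ B hBV a := by
    rw [chartRed472_apply, chartRed472_apply, ← map_mul]
    congr 1
    exact Subtype.ext hab
  have hρu : ρ ⟨u, huV⟩ = chartRed472 V ρ B hBV a * (chartRed472 V ρ B hBV b)⁻¹ := by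
    rw [← hρ, mul_assoc, mul_inv_cancel₀ hρb, mul_one]
  have hρu0 : ρ ⟨u, huV⟩ ≠ 0 := by
    rw [hρu]
    exact mul_ne_zero hρa (inv_ne_zero hρb)
  have hm1 : ρ ⟨u, huV⟩ ∈ Q.toValuationSubring := by
    rw [hρu]
    exact Q.toValuationSubring.mul_mem _ _ (hmem a) (inv_mem_of_notMem_ptOf V ρ B Q hmem hb)
  have hm2 : (ρ ⟨u, huV⟩)⁻¹ ∈ Q.toValuationSubring := by
    rw [hρu, mul_inv, inv_inv]
    exact Q.toValuationSubring.mul_mem _ _ (inv_mem_of_notMem_ptOf V ρ B Q hmem ha) (hmem b)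
  exact ⟨huV, huinv, hρu0, hm1, hm2, ord_eq_zero_of_unit472 Q hm1 hm2 hρu0⟩

end Core

end Fermat.Agent.Ribet.H472

end
-- ===== PACK-END Ribet/H472/PlaceCore.lean

-- ===== PACK-BEGIN Ribet/H339/RootDesc.lean
section
/-
# RIBET row 38, WALL-p, (S4) CORE-OUT WILD, piece DEEP-SPLIT: descent of `p`-th roots  (helper339)

`E ⊆ ℚ̄` a level, `F₀` a function field over `ℚ`, `F_E = laurentBaseChange E F₀ ⊆ E((t))`,
`ι : F_E → F_{ℚ̄}`.

* `order_coeffMap339`            : an injective map on the coefficients preserves the order;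
* `exists_const_mul_pow339`      : `X ∈ F_E`, `ι X = g ^ p` with `g ∈ F_{ℚ̄}`  ⟹
                                   `X = e · h ^ p` with `e ∈ E`, `h ∈ F_E`
  (normalise the leading coefficient, take the `p`-th root in `E((t))`, compare with `g` over
  `ℚ̄`, descend the membership in the function field).

Application: the norms `N_α f_t`, `N_β f_t` of the rational Kummer generator of a NEW class are
constants times `p`-th powers AT THE LEVEL `E` (hypotheses `hNα`, `hNβ` of `H703.deepSplit_E`,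
`H944.LcConst.deepSplit_lc`).
-/





set_option autoImplicit false
set_option linter.unusedSectionVars false
set_option linter.style.haveILetI false
set_option synthInstance.maxHeartbeats 400000
set_option maxHeartbeats 1000000

noncomputable section

namespace Fermat.Agent.Ribet.H339

open ModularCurve HahnSeries
open Fermat.Agent.A2

local notation "Qb" => AlgebraicClosure ℚ

section Order

variable {R S : Type*} [CommRing R] [CommRing S]

/-- An injective map on the coefficients preserves the order of a Laurent series. -/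
theorem order_coeffMap339 (φ : R →+* S) (hφ : Function.Injective φ) (x : LaurentSeries R) :
    (coeffMap φ x).order = x.order := by
  by_cases hx : x = 0
  · subst hx
    simp
  · have hx' : coeffMap φ x ≠ 0 := by
      intro h
      apply hx
      ext k
      have h1 := congrArg (fun z : LaurentSeries S => z.coeff k) h
      simp only [coeffMap_coeff, HahnSeries.coeff_zero] at h1
      exact hφ (h1.trans (map_zero φ).symm)
    apply le_antisymm
    · apply HahnSeries.order_le_of_coeff_ne_zero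
      rw [coeffMap_coeff]
      intro h
      have h0 : x.coeff x.order = 0 := hφ (h.trans (map_zero φ).symm)
      exact hx (HahnSeries.coeff_order_eq_zero.1 h0)
    · apply HahnSeries.order_le_of_coeff_ne_zero
      intro h
      have h2 : (coeffMap φ x).coeff (coeffMap φ x).order ≠ 0 :=
        fun h0 => hx' (HahnSeries.coeff_order_eq_zero.1 h0)
      rw [coeffMap_coeff, h, map_zero] at h2
      exact h2 rfl

end Order

section Root

variable (E : IntermediateField ℚ Qb) (F₀ : IntermediateField ℚ (LaurentSeries ℚ))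

/-- **Descent of `p`-th roots.**  If the image over `ℚ̄` of `X ∈ F_E` is a `p`-th power, then `X`
is a constant of `E` times a `p`-th power in `F_E`. -/
theorem exists_const_mul_pow339 (p : ℕ) (hp0 : p ≠ 0)
    (X : ↥(laurentBaseChange E F₀)) (hX : X ≠ 0) (g : ↥(laurentBaseChange Qb F₀))
    (hg : T1.H669.iota E F₀ X = g ^ p) :
    ∃ (e : E) (h : ↥(laurentBaseChange E F₀)), e ≠ 0 ∧ h ≠ 0 ∧
      X = algebraMap E ↥(laurentBaseChange E F₀) e * h ^ p := by
  classical
  set Xs : LaurentSeries E := (X : LaurentSeries E) with hXs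
  set gs : LaurentSeries Qb := (g : LaurentSeries Qb) with hgs
  have hXs0 : Xs ≠ 0 := fun h => hX (Subtype.ext h)
  have hinj : Function.Injective (algebraMap E Qb) := (algebraMap E Qb).injective
  -- the relation over `ℚ̄`
  have hrel : coeffMap (algebraMap E Qb) Xs = gs ^ p := by
    have h1 := congrArg (fun z : ↥(laurentBaseChange Qb F₀) => (z : LaurentSeries Qb)) hg
    simpa using h1
  have hgs0 : gs ≠ 0 := by
    intro h0
    rw [h0, zero_pow hp0] at hrel
    apply hXs0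
    exact Fermat.Agent.S29.H991.desc_coeffMap_injective (algebraMap E Qb)
      (hrel.trans (map_zero _).symm)
  -- normalisation
  set e : E := Xs.leadingCoeff with he
  have he0 : e ≠ 0 := HahnSeries.leadingCoeff_ne_zero.mpr hXs0
  set Y : LaurentSeries E := HahnSeries.C e⁻¹ * Xs with hY
  have hC0 : (HahnSeries.C e⁻¹ : LaurentSeries E) ≠ 0 := by
    intro h0
    have h1 := congrArg (fun z : LaurentSeries E => z.coeff 0) h0
    simp only [HahnSeries.C_apply, HahnSeries.coeff_single_same, HahnSeries.coeff_zero] at h1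
    exact inv_ne_zero he0 h1
  have hYlc : Y.leadingCoeff = 1 := by
    rw [hY, HahnSeries.leadingCoeff_mul]
    have : (HahnSeries.C e⁻¹ : LaurentSeries E).leadingCoeff = e⁻¹ := by
      rw [HahnSeries.C_apply]
      exact HahnSeries.leadingCoeff_of_single
    rw [this, ← he, inv_mul_cancel₀ he0]
  have hYord : (p : ℤ) ∣ Y.order := by
    have h1 : Y.order = Xs.order := by
      rw [hY, HahnSeries.order_mul hC0 hXs0]
      have : (HahnSeries.C e⁻¹ : LaurentSeries E).order = 0 := by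
        rw [HahnSeries.C_apply]
        exact HahnSeries.order_single (inv_ne_zero he0)
      rw [this, zero_add]
    have h2 : Xs.order = (gs ^ p).order := by
      rw [← hrel, order_coeffMap339 _ hinj]
    rw [h1, h2, HahnSeries.order_pow]
    exact ⟨gs.order, by rw [nsmul_eq_mul]⟩
  have hpE : (p : E) ≠ 0 := by exact_mod_cast hp0
  obtain ⟨h, hhp, hh0, -, -⟩ := H819.exists_root_laurent_h819 p hp0 hpE Y hYlc hYord
  -- compare with `g` over `ℚ̄`
  have hpow : (coeffMap (algebraMap E Qb) h) ^ p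
      = HahnSeries.C (algebraMap E Qb e⁻¹) * gs ^ p := by
    rw [← map_pow, hhp, hY, map_mul, hrel]
    congr 1
    rw [HahnSeries.C_apply, HahnSeries.C_apply, coeffMap_single]
  obtain ⟨c', -, hc'⟩ := H708.h708_eq_C_mul_of_pow_eq hp0 hgs0 hpow
  have hmemQ : coeffMap (algebraMap E Qb) h ∈ laurentBaseChange Qb F₀ := by
    rw [hc']
    refine mul_mem ?_ g.2
    have : (HahnSeries.C c' : LaurentSeries Qb) = algebraMap Qb (LaurentSeries Qb) c' := by
      rw [HahnSeries.C_apply, algebraMap_laurentSeries_eq_single]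
    rw [this]
    exact IntermediateField.algebraMap_mem _ c'
  have hmemE : h ∈ laurentBaseChange E F₀ :=
    Fermat.Agent.S29.H991.mem_laurentBaseChange_of_coeffMap_mem (algebraMap E Qb) h hmemQ
  refine ⟨e, ⟨h, hmemE⟩, he0, fun h0 => hh0 (congrArg Subtype.val h0), ?_⟩
  apply Subtype.ext
  show Xs = algebraMap E (LaurentSeries E) e * h ^ p
  rw [hhp, hY, ← mul_assoc]
  have : algebraMap E (LaurentSeries E) e * HahnSeries.C e⁻¹ = 1 := by
    have h1 : (algebraMap E (LaurentSeries E) e : LaurentSeries E) = HahnSeries.C e := by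
      rw [HahnSeries.C_apply, algebraMap_laurentSeries_eq_single]
    rw [h1, ← map_mul, mul_inv_cancel₀ he0, map_one]
  rw [this, one_mul]

end Root

end Fermat.Agent.Ribet.H339

end

end
-- ===== PACK-END Ribet/H339/RootDesc.lean

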