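import Mathlib
import Fermat.Prelude.Def_ModularCurve_X0ModL
import Fermat.Prelude.Def_EllipticCurve_FrobeniusTrace
import Fermat.Prelude.Def_AlgebraicCurve_DivisorClassGroup
import Fermat.Agent.Pack.S44.G0E10L0
import Fermat.Agent.Pack.S44.G0E10L3
import Fermat.Agent.Pack.S44.G0E0L2
import Fermat.Agent.Pack.S44.G0E6L0
import Fermat.Agent.Pack.S44.G0E10L1
import Fermat.Agent.Pack.S44.G0E0L3
import Fermat.Agent.Pack.S44.G0E6L1
import Fermat.Agent.Pack.S44.G0E6L2
import Fermat.Agent.Pack.S44.G0E1L2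
import Fermat.Agent.Pack.S44.G0E9L2
import Fermat.Agent.Pack.S44.G0E9L1
import Fermat.Agent.Pack.S44.G0E9L0
import Fermat.Agent.Pack.S44.G0E7L3
import Fermat.Agent.Pack.S44.G0E4L1
import Fermat.Agent.Pack.S44.G0E7L1

-- ===== PACK-BEGIN S24/H624/SL2Z.lean
section


/-!
# `SL(2, ℤ)` acting on holomorphic functions; divisibility of orders at elliptic points
-/

set_option autoImplicit false

namespace Fermat.Agent.S24.H624

open UpperHalfPlane Complex
open scoped Manifold Topology MatrixGroups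

theorem det_coe_SL_pos (γ : SL(2, ℤ)) : 0 < ((γ : GL (Fin 2) ℝ).det.val : ℝ) := by
  simp

theorem det_coe_SL (γ : SL(2, ℤ)) : ((γ : GL (Fin 2) ℝ).det.val : ℝ) = 1 := by
  simp

/-- Precomposition with `γ ∈ SL(2, ℤ)` as an algebra endomorphism of `holoRing`. -/
noncomputable def precompSL (γ : SL(2, ℤ)) : holoRing →ₐ[ℂ] holoRing where
  toFun f := ⟨fun τ => (f : ℍ → ℂ) (γ • τ), mdiff_comp_smul (det_coe_SL_pos γ) f.2⟩
  map_one' := rfl
  map_mul' _ _ := rfl
  map_zero' := rfl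
  map_add' _ _ := rfl
  commutes' _ := rfl

@[simp]
theorem precompSL_apply (γ : SL(2, ℤ)) (f : holoRing) (τ : ℍ) :
    (precompSL γ f : ℍ → ℂ) τ = (f : ℍ → ℂ) (γ • τ) := rfl

theorem precompSL_one (f : holoRing) : precompSL 1 f = f := by
  ext τ
  simp

theorem precompSL_mul (γ δ : SL(2, ℤ)) (f : holoRing) :
    precompSL (γ * δ) f = precompSL δ (precompSL γ f) := by
  ext τ
  simp [mul_smul]

/-- Left action of `SL(2, ℤ)` on holomorphic functions: `(γ • f) τ = f (γ⁻¹ • τ)`. -/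
noncomputable instance instMulSemiringActionHoloRing : MulSemiringAction SL(2, ℤ) holoRing where
  smul γ f := precompSL γ⁻¹ f
  one_smul f := by
    show precompSL (1 : SL(2, ℤ))⁻¹ f = f
    rw [inv_one, precompSL_one]
  mul_smul γ δ f := by
    show precompSL (γ * δ)⁻¹ f = precompSL γ⁻¹ (precompSL δ⁻¹ f)
    rw [mul_inv_rev, precompSL_mul]
  smul_zero γ := map_zero _
  smul_add γ f g := map_add _ f g
  smul_one γ := map_one _
  smul_mul γ f g := map_mul _ f g

theorem smul_holoRing_apply (γ : SL(2, ℤ)) (f : holoRing) (τ : ℍ) :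
    ((γ • f : holoRing) : ℍ → ℂ) τ = (f : ℍ → ℂ) (γ⁻¹ • τ) := rfl

theorem smul_holoRing_def (γ : SL(2, ℤ)) (f : holoRing) : γ • f = precompSL γ⁻¹ f := rfl

instance instSMulCommClassHoloRing : SMulCommClass SL(2, ℤ) ℂ holoRing where
  smul_comm γ c f := by
    ext τ
    rfl

theorem ordAt_precompSL (γ : SL(2, ℤ)) (f : holoRing) (τ : ℍ) :
    ordAt τ (precompSL γ f : ℍ → ℂ) = ordAt (γ • τ) (f : ℍ → ℂ) :=
  ordAt_comp_smul (det_coe_SL_pos γ) (f : ℍ → ℂ) τ

theorem ordAt_smul_holoRing (γ : SL(2, ℤ)) (f : holoRing) (τ : ℍ) :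
    ordAt (γ • τ) ((γ • f : holoRing) : ℍ → ℂ) = ordAt τ (f : ℍ → ℂ) := by
  rw [smul_holoRing_def, ordAt_precompSL, inv_smul_smul]

/-- Rotation lemma for `SL(2, ℤ)`: if `γ` fixes `τ` and `f ≠ 0` is `γ`-invariant of order `n`
at `τ`, then `(c τ + d) ^ (2 n) = 1`. -/
theorem denom_pow_eq_one {γ : SL(2, ℤ)} {f : ℍ → ℂ} (hf : MDiff f) (hf0 : f ≠ 0) {τ : ℍ}
    (hτ : γ • τ = τ) (hinv : ∀ z : ℍ, f (γ • z) = f z) :
    denom (γ : GL (Fin 2) ℝ) (τ : ℂ) ^ (2 * (ordAt τ f).toNat) = 1 := by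
  have h := rotation_lemma (g := (γ : GL (Fin 2) ℝ)) (det_coe_SL_pos γ) hf hf0 hτ hinv
  rw [det_coe_SL γ] at h
  have hd : denom (γ : GL (Fin 2) ℝ) (τ : ℂ) ≠ 0 := denom_ne_zero _ τ
  rw [Complex.ofReal_one, div_pow, one_pow, ← pow_mul] at h
  have h2 := (div_eq_one_iff_eq (pow_ne_zero _ hd)).mp h
  exact h2.symm

/-- The quadratic relation satisfied by `λ = c τ + d` at a fixed point:
`λ ^ 2 - (a + d) λ + 1 = 0`. -/
theorem denom_sq_eq_of_fixed {γ : SL(2, ℤ)} {τ : ℍ} (hτ : γ • τ = τ) :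
    denom (γ : GL (Fin 2) ℝ) (τ : ℂ) ^ 2
      = (((γ 0 0 + γ 1 1 : ℤ) : ℂ)) * denom (γ : GL (Fin 2) ℝ) (τ : ℂ) - 1 := by
  have hd : denom (γ : GL (Fin 2) ℝ) (τ : ℂ) ≠ 0 := denom_ne_zero _ τ
  have h1 : ((γ • τ : ℍ) : ℂ) = num (γ : GL (Fin 2) ℝ) τ / denom (γ : GL (Fin 2) ℝ) τ :=
    coe_smul_of_det_pos (det_coe_SL_pos γ) τ
  rw [hτ] at h1
  have h2 : (τ : ℂ) * denom (γ : GL (Fin 2) ℝ) τ = num (γ : GL (Fin 2) ℝ) τ :=
    (eq_div_iff hd).mp h1
  have hdet : ((γ 0 0 : ℤ) : ℂ) * ((γ 1 1 : ℤ) : ℂ) - ((γ 0 1 : ℤ) : ℂ) * ((γ 1 0 : ℤ) : ℂ) = 1 := by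
    have := γ.det_coe
    rw [Matrix.det_fin_two] at this
    exact_mod_cast this
  have hnum : num (γ : GL (Fin 2) ℝ) (τ : ℂ) = ((γ 0 0 : ℤ) : ℂ) * τ + ((γ 0 1 : ℤ) : ℂ) := by
    simp [num]
  have hden : denom (γ : GL (Fin 2) ℝ) (τ : ℂ) = ((γ 1 0 : ℤ) : ℂ) * τ + ((γ 1 1 : ℤ) : ℂ) := by
    simp [denom]
  rw [hnum, hden] at h2
  rw [hden]
  push_cast
  linear_combination (((γ 1 0 : ℤ) : ℂ)) * h2 - hdet

/-- At a fixed point of an element of trace `0`, invariant functions vanish to even order. -/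
theorem even_ordAt_of_trace_zero {γ : SL(2, ℤ)} {f : ℍ → ℂ} (hf : MDiff f) (hf0 : f ≠ 0)
    {τ : ℍ} (hτ : γ • τ = τ) (htr : γ 0 0 + γ 1 1 = 0) (hinv : ∀ z : ℍ, f (γ • z) = f z) :
    Even (ordAt τ f).toNat := by
  have h1 := denom_pow_eq_one hf hf0 hτ hinv
  have h2 := denom_sq_eq_of_fixed hτ
  rw [htr] at h2
  simp only [Int.cast_zero, zero_mul, zero_sub] at h2
  rw [pow_mul, h2] at h1
  by_contra hodd
  rw [Nat.not_even_iff_odd] at hodd
  rw [hodd.neg_one_pow] at h1
  norm_num at h1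

theorem three_dvd_of_root {μ : ℂ} (hμ : μ ^ 2 + μ + 1 = 0) {n : ℕ} (hn : μ ^ n = 1) : 3 ∣ n := by
  have h3 : μ ^ 3 = 1 := by linear_combination (μ - 1) * hμ
  have hμ1 : μ ≠ 1 := by
    rintro rfl
    norm_num at hμ
  have hμ2 : μ ^ 2 ≠ 1 := by
    intro h
    have : μ = -2 := by linear_combination hμ - h
    rw [this] at h
    norm_num at h
  have hdiv : μ ^ n = μ ^ (n % 3) := by
    conv_lhs => rw [← Nat.div_add_mod n 3, pow_add, pow_mul, h3, one_pow, one_mul]
  rw [hdiv] at hn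
  have hlt : n % 3 < 3 := Nat.mod_lt _ (by norm_num)
  interval_cases h : n % 3
  · exact Nat.dvd_of_mod_eq_zero h
  · rw [pow_one] at hn; exact absurd hn hμ1
  · exact absurd hn hμ2

/-- At a fixed point of an element of trace `±1`, invariant functions vanish to order divisible
by `3`. -/
theorem three_dvd_ordAt_of_trace {γ : SL(2, ℤ)} {f : ℍ → ℂ} (hf : MDiff f) (hf0 : f ≠ 0)
    {τ : ℍ} (hτ : γ • τ = τ) (htr : γ 0 0 + γ 1 1 = 1 ∨ γ 0 0 + γ 1 1 = -1)
    (hinv : ∀ z : ℍ, f (γ • z) = f z) :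
    3 ∣ (ordAt τ f).toNat := by
  have h1 := denom_pow_eq_one hf hf0 hτ hinv
  have h2 := denom_sq_eq_of_fixed hτ
  rw [pow_mul] at h1
  set lam := denom (γ : GL (Fin 2) ℝ) (τ : ℂ) with hlam
  refine three_dvd_of_root (μ := lam ^ 2) ?_ h1
  rcases htr with htr | htr
  · rw [htr] at h2
    simp only [Int.cast_one, one_mul] at h2
    linear_combination (lam ^ 2 + lam + 1) * h2
  · rw [htr] at h2
    simp only [Int.cast_neg, Int.cast_one, neg_mul, one_mul] at h2
    linear_combination (lam ^ 2 - lam + 1) * h2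

end Fermat.Agent.S24.H624

end
-- ===== PACK-END S24/H624/SL2Z.lean

-- ===== PACK-BEGIN S28/H867/Transfer.lean
section



set_option autoImplicit false
noncomputable section
open ModularCurve HahnSeries IntermediateField Polynomial

namespace Fermat.Agent.S28.H867

section Transfer

variable (k : Type*) [Field k]

/-- `coeffMap` commutes with `evalAt`. -/
theorem coeffMap_comp_evalAt (y : LaurentSeries ℤ) :
    (coeffMap (Int.castRingHom k)).comp (evalAt y) = evalAt (coeffMap (Int.castRingHom k) y) := by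
  apply Polynomial.ringHom_ext
  · intro a
    simp [evalAt]
  · simp [evalAt]

/-- `qExpand` commutes with `evalAt`. -/
theorem qExpand_comp_evalAt (p : ℕ) [NeZero p] (y : LaurentSeries k) :
    (qExpand k p).comp (evalAt y) = evalAt (qExpand k p y) := by
  apply Polynomial.ringHom_ext
  · intro a
    simp [evalAt]
  · simp [evalAt]

variable {k} in
theorem eval₂_evalAt_transfer (Φ : Polynomial (Polynomial ℤ)) (y x : LaurentSeries ℤ)
    (h : Φ.eval₂ (evalAt y) x = 0) :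
    Φ.eval₂ (evalAt (coeffMap (Int.castRingHom k) y)) (coeffMap (Int.castRingHom k) x) = 0 := by
  rw [← coeffMap_comp_evalAt, ← Polynomial.hom_eval₂, h, map_zero]

variable {k} in
theorem eval₂_evalAt_qExpand (p : ℕ) [NeZero p] (Φ : Polynomial (Polynomial ℤ))
    (y x : LaurentSeries k) (h : Φ.eval₂ (evalAt y) x = 0) :
    Φ.eval₂ (evalAt (qExpand k p y)) (qExpand k p x) = 0 := by
  rw [← qExpand_comp_evalAt, ← Polynomial.hom_eval₂, h, map_zero]

theorem coeffMap_jp (p : ℕ) [NeZero p] :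
    coeffMap (Int.castRingHom k) (qExpand ℤ p (jqModC ℤ)) = jp k p := by
  rw [coeffMap_qExpand, coeffMap_jqModC]

/-- `Φ_p(j_p, j) = 0` over `k`. -/
theorem modPoly_eval_jp_field {p : ℕ} [NeZero p] (D : ModPolyData p) :
    D.Φ.eval₂ (evalAt (jqModC k)) (jp k p) = 0 := by
  have := eval₂_evalAt_transfer (k := k) D.Φ _ _ D.eval_jp
  rwa [coeffMap_jp, coeffMap_jqModC] at this

/-- `Φ_p(j, j_p) = 0` over `k`. -/
theorem modPoly_eval_j_field {p : ℕ} [NeZero p] (D : ModPolyData p) :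
    D.Φ.eval₂ (evalAt (jp k p)) (jqModC k) = 0 := by
  have := eval₂_evalAt_transfer (k := k) D.Φ _ _ D.eval_j
  rwa [coeffMap_jp, coeffMap_jqModC] at this

end Transfer

section PolyOver

variable {k : Type*} [Field k]

/-- The polynomial `Φ(X, y)` with coefficients in a subfield `A ∋ y`. -/
def polyOver (A : IntermediateField k (LaurentSeries k)) (y : A) (Φ : Polynomial (Polynomial ℤ)) :
    Polynomial A :=
  Φ.map (Polynomial.aeval (R := ℤ) y).toRingHom

theorem polyOver_monic (A : IntermediateField k (LaurentSeries k)) (y : A)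
    {Φ : Polynomial (Polynomial ℤ)} (h : Φ.Monic) : (polyOver A y Φ).Monic :=
  h.map _

theorem polyOver_natDegree (A : IntermediateField k (LaurentSeries k)) (y : A)
    {Φ : Polynomial (Polynomial ℤ)} (h : Φ.Monic) : (polyOver A y Φ).natDegree = Φ.natDegree :=
  h.natDegree_map _

theorem aeval_polyOver (A : IntermediateField k (LaurentSeries k)) (y : A)
    (Φ : Polynomial (Polynomial ℤ)) (x : LaurentSeries k) :
    Polynomial.aeval x (polyOver A y Φ) = Φ.eval₂ (evalAt (y : LaurentSeries k)) x := by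
  rw [polyOver, Polynomial.aeval_def, Polynomial.eval₂_map]
  congr 1
  apply Polynomial.ringHom_ext
  · intro a
    simp [evalAt]
  · simp [evalAt]

end PolyOver

end Fermat.Agent.S28.H867

end
end
-- ===== PACK-END S28/H867/Transfer.lean

-- ===== PACK-BEGIN S28/H626/Tower.lean
section
/-
S28 helper (helper626): generation of `k(j(q^d) : d ∣ Mp)` over `k(j(q^d) : d ∣ M)` by a single
element, and the degree bounds `≤ p + 1` (`p ∤ M`), `≤ p` (`p ∣ M`).
-/




set_option autoImplicit false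

noncomputable section

open ModularCurve HahnSeries Polynomial IntermediateField

namespace Fermat.Agent.S28.H626

section Hyp

variable (k : Type*) [Field k]

/-- Hypothesis package for level `N`: every prime `p ∣ N` is invertible in `k` and has a
modular polynomial. -/
def HasModPolys (N : ℕ) : Prop :=
  ∀ p (hp : p.Prime), p ∣ N →
    (p : k) ≠ 0 ∧ ∃ Φ : Polynomial (Polynomial ℤ), @IsModPoly p ⟨hp.ne_zero⟩ Φ

variable {k}

theorem HasModPolys.mono {N M : ℕ} (H : HasModPolys k N) (h : M ∣ N) : HasModPolys k M :=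
  fun p hp hpM => H p hp (hpM.trans h)

end Hyp

section Generation

variable {k : Type*} [Field k]

/-- **Generation.** If an intermediate field `E` contains `j(q^d)` for all `d ∣ M` and
`j(q^{p^{b+1}})` for the exact power `p^b ∥ M`, then it contains `j(q^d)` for all `d ∣ M p`. -/
theorem jd_mem_of_gen {M p : ℕ} (hp : p.Prime) (H : HasModPolys k (M * p))
    (E : IntermediateField k (LaurentSeries k))
    (h1 : ∀ (d : ℕ) [NeZero d], d ∣ M → jd k d ∈ E)
    (h2 : ∀ (b : ℕ) [NeZero (p ^ (b + 1))], p ^ b ∣ M → ¬ p ^ (b + 1) ∣ M →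
      jd k (p ^ (b + 1)) ∈ E) :
    ∀ (d : ℕ) [NeZero d], d ∣ M * p → jd k d ∈ E := by
  intro d
  induction d using Nat.strong_induction_on with
  | _ d ih =>
    intro inst hd
    by_cases hdM : d ∣ M
    · exact h1 d hdM
    have hpd : p ∣ d := by
      by_contra hpd
      have hcop : Nat.Coprime d p := ((Nat.Prime.coprime_iff_not_dvd hp).2 hpd).symm
      exact hdM (hcop.dvd_of_dvd_mul_right hd)
    obtain ⟨g, rfl⟩ := hpd
    have hg0 : g ≠ 0 := by
      rintro rfl
      exact (NeZero.ne (p * 0)) (mul_zero p)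
    have hgM : g ∣ M := by
      rw [mul_comm M p] at hd
      exact Nat.dvd_of_mul_dvd_mul_left hp.pos hd
    have : NeZero p := ⟨hp.ne_zero⟩
    by_cases hg : ∃ r, r.Prime ∧ r ∣ g ∧ r ≠ p
    · obtain ⟨r, hr, ⟨e, rfl⟩, hrp⟩ := hg
      have he0 : e ≠ 0 := by
        rintro rfl
        exact hg0 (mul_zero r)
      have : NeZero r := ⟨hr.ne_zero⟩
      have : NeZero e := ⟨he0⟩
      have hrM : r ∣ M * p := (Dvd.intro e rfl : r ∣ r * e).trans (hgM.trans (Dvd.intro p rfl))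
      obtain ⟨hpk, Φp, hΦp⟩ := H p hp (Dvd.intro_left M rfl)
      obtain ⟨hrk, Φr, hΦr⟩ := H r hr hrM
      have : NeZero (p : k) := ⟨hpk⟩
      have : NeZero (r : k) := ⟨hrk⟩
      have m1 : jd k (r * e) ∈ E := h1 (r * e) hgM
      have m2 : jd k (p * e) ∈ E := by
        refine ih (p * e) ?_ ?_
        · have : e < r * e := by
            have := hr.one_lt
            have he : 0 < e := Nat.pos_of_ne_zero he0
            nlinarith
          exact Nat.mul_lt_mul_of_pos_left this hp.pos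
        · refine Dvd.dvd.trans ?_ hd
          exact mul_dvd_mul_left p (Dvd.intro_left r rfl)
      have := jd_mem_of_pair hp hr hrp.symm hΦp hΦr e E m1 m2
      rwa [jd_congr k (show p * r * e = p * (r * e) by ring)] at this
    · have hg' : ∀ {r : ℕ}, r.Prime → r ∣ g → r = p := by
        intro r hr hrg
        by_contra hne
        exact hg ⟨r, hr, hrg, hne⟩
      have hgp := Nat.eq_prime_pow_of_unique_prime_dvd hg0 hg'
      set b := g.primeFactorsList.length with hb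
      have hd' : p * g = p ^ (b + 1) := by rw [pow_succ, mul_comm, ← hgp]
      have : NeZero (p ^ (b + 1)) := ⟨pow_ne_zero _ hp.ne_zero⟩
      rw [jd_congr k hd']
      refine h2 b ?_ ?_
      · rw [← hgp]; exact hgM
      · rw [← hd']; exact hdM

end Generation

/-! ### Degree of a simple extension, in `relrank` form -/

section Degree

variable {K L : Type*} [Field K] [Field L] [Algebra K L]

/-- If `A ≤ B ≤ A(x)`, `x ∈ B` and `x` is a root of a monic `P ∈ A[X]`, then `[B : A] ≤ deg P`. -/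
theorem relrank_le_natDegree (A B : IntermediateField K L) (hAB : A ≤ B)
    (x : L) (P : Polynomial A) (hP : P.Monic) (hx : Polynomial.aeval x P = 0)
    (hB : B ≤ (IntermediateField.adjoin A {x}).restrictScalars K) (hxB : x ∈ B) :
    IntermediateField.relrank A B ≤ (P.natDegree : Cardinal) := by
  have hint : IsIntegral A x := ⟨P, hP, hx⟩
  have hBeq : B = (IntermediateField.adjoin A {x}).restrictScalars K := by
    refine le_antisymm hB ?_
    rw [IntermediateField.restrictScalars_adjoin_eq_sup]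
    refine sup_le hAB ?_
    rw [IntermediateField.adjoin_le_iff]
    intro y hy
    rw [Set.mem_singleton_iff] at hy
    rw [hy]
    exact hxB
  rw [IntermediateField.relrank_eq_rank_of_le hAB]
  have hext : IntermediateField.extendScalars hAB = IntermediateField.adjoin A {x} := by
    ext y
    rw [IntermediateField.mem_extendScalars, hBeq]
    rfl
  rw [hext]
  have := IntermediateField.adjoin.finiteDimensional hint
  rw [← Module.finrank_eq_rank, IntermediateField.adjoin.finrank hint, Nat.cast_le]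
  exact Polynomial.natDegree_le_natDegree (minpoly.degree_le_of_ne_zero A x hP.ne_zero hx)

end Degree

/-! ### The tower steps -/

section Steps

variable {k : Type*} [Field k]

theorem jd_mem_full (N : ℕ) [NeZero N] (d : ℕ) [NeZero d] (hd : d ∣ N) :
    jd k d ∈ modularFunctionFieldFullC k N :=
  jqModCd_mem_full k N hd

theorem full_le_of_forall_mem (N : ℕ) [NeZero N] (E : IntermediateField k (LaurentSeries k))
    (h : ∀ (d : ℕ) [NeZero d], d ∣ N → jd k d ∈ E) : modularFunctionFieldFullC k N ≤ E := by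
  rw [modularFunctionFieldFullC, IntermediateField.adjoin_le_iff]
  rintro x ⟨d, hne, hdvd, rfl⟩
  exact h d hdvd

theorem jd_one : jd k 1 = jqModC k := qExpand_one_apply _

/-- uniqueness of the exact exponent -/
theorem exact_pow_unique {p M a b : ℕ} (ha : p ^ a ∣ M) (ha' : ¬ p ^ (a + 1) ∣ M)
    (hb : p ^ b ∣ M) (hb' : ¬ p ^ (b + 1) ∣ M) : b = a := by
  rcases lt_trichotomy b a with h | h | h
  · exact absurd ((pow_dvd_pow p (Nat.succ_le_of_lt h)).trans ha) hb'
  · exact h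
  · exact absurd ((pow_dvd_pow p (Nat.succ_le_of_lt h)).trans hb) ha'

/-- **Generation, packaged.** `k(j_d : d ∣ Mp) ≤ k(j_d : d ∣ M)(j_{p^{a+1}})` for `p^a ∥ M`. -/
theorem full_mul_le_adjoin {M p a : ℕ} [NeZero M] [NeZero (M * p)] [NeZero (p ^ (a + 1))]
    (hp : p.Prime) (H : HasModPolys k (M * p))
    (ha : p ^ a ∣ M) (ha' : ¬ p ^ (a + 1) ∣ M) :
    modularFunctionFieldFullC k (M * p) ≤
      (IntermediateField.adjoin (modularFunctionFieldFullC k M)
        {jd k (p ^ (a + 1))}).restrictScalars k := by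
  refine full_le_of_forall_mem (M * p) _ ?_
  refine jd_mem_of_gen hp H _ ?_ ?_
  · intro d _ hd
    rw [IntermediateField.mem_restrictScalars]
    exact IntermediateField.algebraMap_mem _ (⟨jd k d, jd_mem_full M d hd⟩ :
      modularFunctionFieldFullC k M)
  · intro b _ hb hb'
    have hba : b = a := exact_pow_unique ha ha' hb hb'
    subst hba
    rw [IntermediateField.mem_restrictScalars]
    exact IntermediateField.subset_adjoin _ _ (Set.mem_singleton _)

/-- **Step, `p ∤ M`**: `[k(j_d : d ∣ Mp) : k(j_d : d ∣ M)] ≤ p + 1`. -/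
theorem relrank_full_step_of_not_dvd {M p : ℕ} [NeZero M] [NeZero (M * p)]
    (hp : p.Prime) (H : HasModPolys k (M * p)) (hpM : ¬ p ∣ M) :
    IntermediateField.relrank (modularFunctionFieldFullC k M)
      (modularFunctionFieldFullC k (M * p)) ≤ ((p + 1 : ℕ) : Cardinal) := by
  have instp : NeZero p := ⟨hp.ne_zero⟩
  have instp1 : NeZero (p ^ (0 + 1)) := ⟨pow_ne_zero _ hp.ne_zero⟩
  obtain ⟨-, Φ, hΦ⟩ := H p hp (Dvd.intro_left M rfl)
  have hAB : modularFunctionFieldFullC k M ≤ modularFunctionFieldFullC k (M * p) :=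
    full_degeneracyC_le k (Dvd.intro p rfl)
  have hj : jqModC k ∈ modularFunctionFieldFullC k M := jqModC_mem_full k M
  have hx : jd k (p ^ (0 + 1)) = jd k p := jd_congr k (by simp)
  have key := relrank_le_natDegree (modularFunctionFieldFullC k M)
    (modularFunctionFieldFullC k (M * p)) hAB (jd k (p ^ (0 + 1)))
    (spec Φ (⟨jqModC k, hj⟩ : modularFunctionFieldFullC k M)) (spec_monic hΦ.monic _) ?_
    (full_mul_le_adjoin hp H (by simp) (by simpa using hpM)) ?_
  · rwa [spec_natDegree hΦ.monic, hΦ.natDegree_eq] at key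
  · rw [Polynomial.aeval_def, Polynomial.eval₂_eq_eval_map, map_spec, eval_spec, hx]
    show ev2 Φ (jqModC k) (jd k p) = 0
    have := ev2_jd_up (k := k) hΦ 1
    rwa [jd_one, jd_congr k (one_mul p)] at this
  · rw [hx]
    exact jd_mem_full (M * p) p (Dvd.intro_left M rfl)

/-- **Step, `p ∣ M`**: `[k(j_d : d ∣ Mp) : k(j_d : d ∣ M)] ≤ p`. -/
theorem relrank_full_step_of_dvd {M p : ℕ} [NeZero M] [NeZero (M * p)]
    (hp : p.Prime) (H : HasModPolys k (M * p)) (hpM : p ∣ M) :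
    IntermediateField.relrank (modularFunctionFieldFullC k M)
      (modularFunctionFieldFullC k (M * p)) ≤ ((p : ℕ) : Cardinal) := by
  classical
  have instp : NeZero p := ⟨hp.ne_zero⟩
  obtain ⟨-, Φ, hΦ⟩ := H p hp (Dvd.intro_left M rfl)
  -- the exact exponent
  obtain ⟨a, M', hM', hMeq⟩ := Nat.exists_eq_pow_mul_and_not_dvd (NeZero.ne M) p hp.ne_one
  have ha : p ^ a ∣ M := ⟨M', hMeq⟩
  have ha' : ¬ p ^ (a + 1) ∣ M := by
    rintro ⟨c, hc⟩
    apply hM'
    have h3 : p ^ a * M' = p ^ a * (p * c) := by rw [← hMeq, hc, pow_succ]; ring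
    exact ⟨c, Nat.eq_of_mul_eq_mul_left (pow_pos hp.pos a) h3⟩
  have ha1 : a ≠ 0 := by
    rintro rfl
    apply hM'
    rw [pow_zero, one_mul] at hMeq
    rwa [← hMeq]
  obtain ⟨a', rfl⟩ := Nat.exists_eq_succ_of_ne_zero ha1
  have inst1 : NeZero (p ^ (a' + 1 + 1)) := ⟨pow_ne_zero _ hp.ne_zero⟩
  have inst2 : NeZero (p ^ (a' + 1)) := ⟨pow_ne_zero _ hp.ne_zero⟩
  have inst3 : NeZero (p ^ a') := ⟨pow_ne_zero _ hp.ne_zero⟩
  have hAB : modularFunctionFieldFullC k M ≤ modularFunctionFieldFullC k (M * p) :=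
    full_degeneracyC_le k (Dvd.intro p rfl)
  have hy : jd k (p ^ (a' + 1)) ∈ modularFunctionFieldFullC k M := jd_mem_full M _ ha
  have hz : jd k (p ^ a') ∈ modularFunctionFieldFullC k M :=
    jd_mem_full M _ ((pow_dvd_pow p (Nat.le_succ a')).trans ha)
  set y' : modularFunctionFieldFullC k M := ⟨jd k (p ^ (a' + 1)), hy⟩ with hy'
  set z' : modularFunctionFieldFullC k M := ⟨jd k (p ^ a'), hz⟩ with hz'
  set x : LaurentSeries k := jd k (p ^ (a' + 1 + 1)) with hxdef
  -- `z'` is a root of `P₀ = Φ(y', X)`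
  have hroot : (spec Φ y').IsRoot z' := by
    rw [Polynomial.IsRoot, eval_spec]
    apply (algebraMap (modularFunctionFieldFullC k M) (LaurentSeries k)).injective
    rw [map_ev2, map_zero]
    show ev2 Φ (jd k (p ^ (a' + 1))) (jd k (p ^ a')) = 0
    have := ev2_jd_down (k := k) hΦ (p ^ a')
    rwa [jd_congr k (show p ^ a' * p = p ^ (a' + 1) from (pow_succ p a').symm)] at this
  have hfac : (Polynomial.X - Polynomial.C z') * (spec Φ y' /ₘ (Polynomial.X - Polynomial.C z')) = spec Φ y' :=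
    Polynomial.mul_divByMonic_eq_iff_isRoot.mpr hroot
  have hmonic0 : (spec Φ y').Monic := spec_monic hΦ.monic _
  have hmonic : (spec Φ y' /ₘ (Polynomial.X - Polynomial.C z')).Monic := by
    refine Polynomial.Monic.of_mul_monic_left (Polynomial.monic_X_sub_C z') ?_
    rw [hfac]
    exact hmonic0
  have hdeg : (spec Φ y' /ₘ (Polynomial.X - Polynomial.C z')).natDegree = p := by
    rw [Polynomial.natDegree_divByMonic _ (Polynomial.monic_X_sub_C z'),
      spec_natDegree hΦ.monic, hΦ.natDegree_eq, Polynomial.natDegree_X_sub_C]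
    rfl
  have hx0 : Polynomial.aeval x (spec Φ y') = 0 := by
    rw [Polynomial.aeval_def, Polynomial.eval₂_eq_eval_map, map_spec, eval_spec]
    show ev2 Φ (jd k (p ^ (a' + 1))) (jd k (p ^ (a' + 1 + 1))) = 0
    have := ev2_jd_up (k := k) hΦ (p ^ (a' + 1))
    rwa [jd_congr k (show p ^ (a' + 1) * p = p ^ (a' + 1 + 1) from (pow_succ p (a' + 1)).symm)]
      at this
  have hxz : x - jd k (p ^ a') ≠ 0 := by
    rw [sub_ne_zero]
    refine jd_ne_of_ne ?_
    intro h
    have := Nat.pow_right_injective hp.two_le h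
    omega
  have hx1 : Polynomial.aeval x (spec Φ y' /ₘ (Polynomial.X - Polynomial.C z')) = 0 := by
    have h := hx0
    rw [← hfac, map_mul, map_sub, Polynomial.aeval_X, Polynomial.aeval_C] at h
    rcases mul_eq_zero.mp h with h | h
    · exact absurd h hxz
    · exact h
  have key := relrank_le_natDegree (modularFunctionFieldFullC k M)
    (modularFunctionFieldFullC k (M * p)) hAB x
    (spec Φ y' /ₘ (Polynomial.X - Polynomial.C z')) hmonic hx1
    (full_mul_le_adjoin hp H ha ha') ?_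
  · rwa [hdeg] at key
  · refine jd_mem_full (M * p) _ ?_
    rw [pow_succ]
    exact mul_dvd_mul_right ha p

end Steps

end Fermat.Agent.S28.H626

end

end
-- ===== PACK-END S28/H626/Tower.lean

-- ===== PACK-BEGIN S28/H565/PolyPrinciple.lean
section






/-!
# S28 analytic bridge, part 4: the polynomial principle (helper565)

A holomorphic function on `ℍ` which is invariant under `SL(2, ℤ)` and has a convergent Laurent
expansion at `∞` (finitely many negative exponents) is a polynomial in `j`; consequently its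
expansion is the same polynomial in the formal series `jqModC ℂ`.
-/

set_option autoImplicit false

noncomputable section

open UpperHalfPlane Complex Function Filter Topology ModularForm
open scoped Real MatrixGroups Manifold

namespace Fermat.Agent.S28.H565

local notation "𝕢" => Periodic.qParam
local notation "Δ" => ModularForm.discriminant

theorem discriminant_slash (γ : SL(2, ℤ)) : (Δ ∣[(12 : ℤ)] γ) = Δ :=
  SlashInvariantForm.slash_action_generators_SL2Z discriminant_S_invariant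
    discriminant_T_invariant γ

theorem discriminant_smul (γ : SL(2, ℤ)) (τ : ℍ) :
    Δ (γ • τ) = ((γ 1 0 : ℂ) * τ + (γ 1 1 : ℂ)) ^ (12 : ℤ) * Δ τ :=
  (slash_action_eq'_iff 12 Δ γ τ).mp (congrFun (discriminant_slash γ) τ)

theorem E₄_smul (γ : SL(2, ℤ)) (τ : ℍ) :
    E₄ (γ • τ) = ((γ 1 0 : ℂ) * τ + (γ 1 1 : ℂ)) ^ (4 : ℤ) * E₄ τ := by
  have h : (⇑E₄ ∣[(4 : ℤ)] γ) = ⇑E₄ :=
    SlashInvariantForm.slash_action_eqn E₄ _ ⟨γ, rfl⟩
  exact (slash_action_eq'_iff 4 E₄ γ τ).mp (congrFun h τ)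

theorem denom_ne_zero' (γ : SL(2, ℤ)) (τ : ℍ) : ((γ 1 0 : ℂ) * τ + (γ 1 1 : ℂ)) ≠ 0 := by
  have := UpperHalfPlane.denom_ne_zero (γ : GL (Fin 2) ℝ) τ
  simpa [UpperHalfPlane.denom] using this

/-- `j` is invariant under `SL(2, ℤ)`. -/
theorem jFun_smul (γ : SL(2, ℤ)) (τ : ℍ) : jFun (γ • τ) = jFun τ := by
  have hd := denom_ne_zero' γ τ
  have hΔ := discriminant_ne_zero τ
  simp only [jFun]
  rw [discriminant_smul, E₄_smul]
  rw [mul_pow, ← zpow_natCast (((γ 1 0 : ℂ) * τ + (γ 1 1 : ℂ)) ^ (4 : ℤ)) 3, ← zpow_mul]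
  norm_num
  field_simp

theorem mdifferentiable_discriminant : MDiff Δ := CuspForm.discriminant.holo'

theorem mdifferentiable_jFun : MDiff jFun := by
  have h1 : MDiff (fun τ => E₄ τ ^ 3) := (ModularFormClass.holo E₄).pow 3
  exact h1.div mdifferentiable_discriminant discriminant_ne_zero

theorem E₄_pow_three (τ : ℍ) : E₄ τ ^ 3 = jFun τ * Δ τ := by
  rw [jFun, div_mul_cancel₀ _ (discriminant_ne_zero τ)]

theorem hasPExp_modularForm {k : ℤ} (G : ModularForm 𝒮ℒ k) :
    HasPExp 1 G (qExpansion 1 G) :=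
  fun τ => ModularForm.hasSum_qExpansion G one_pos one_mem_strictPeriods_SL τ

theorem constantCoeff_e4C : PowerSeries.constantCoeff e4C = 1 := by
  rw [e4C, ← PowerSeries.coeff_zero_eq_constantCoeff, PowerSeries.coeff_map,
    PowerSeries.coeff_zero_eq_constantCoeff, ModularCurve.constantCoeff_eisenstein4]
  simp

/-- Level one modular forms of weight `12 m` are of the form `Q(j) Δ^m` with `deg Q ≤ m`. -/
theorem exists_polynomial_of_modularForm (m : ℕ) : ∀ (k : ℤ), k = 12 * m →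
    ∀ G : ModularForm 𝒮ℒ k,
      ∃ Q : Polynomial ℂ, Q.natDegree ≤ m ∧ ∀ τ, G τ = Q.eval (jFun τ) * Δ τ ^ m := by
  induction m with
  | zero =>
    intro k hk G
    have hk0 : k = 0 := by simpa using hk
    obtain ⟨c, hc⟩ := ModularFormClass.levelOne_weight_zero_const (ModularForm.mcast hk0 G)
    refine ⟨Polynomial.C c, by simp, fun τ => ?_⟩
    have := congrFun hc τ
    simpa using this
  | succ m ih =>
    intro k hk G
    set c : ℂ := PowerSeries.coeff 0 (qExpansion 1 G) with hc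
    have hw : ((3 * (m + 1) : ℕ) : ℤ) * 4 = k := by rw [hk]; push_cast; ring
    set E4pow : ModularForm 𝒮ℒ k := ModularForm.mcast hw (E₄.pow (3 * (m + 1))) with hE4pow
    have hE4pow_apply : ∀ τ, E4pow τ = E₄ τ ^ (3 * (m + 1)) := by
      intro τ
      rw [hE4pow, ModularForm.coe_mcast, ModularForm.coe_pow]
      rfl
    set G₁ : ModularForm 𝒮ℒ k := G - c • E4pow with hG₁
    have hG₁_apply : ∀ τ, G₁ τ = G τ - c * E₄ τ ^ (3 * (m + 1)) := by
      intro τ
      simp [hG₁, hE4pow_apply]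
    have hexp1 : HasPExp 1 G₁ (qExpansion 1 G - c • e4C ^ (3 * (m + 1))) := by
      refine ((hasPExp_modularForm G).sub ((hasPExp_E₄.pow (3 * (m + 1))).smul c)).congr ?_
      intro τ
      simp [hG₁_apply]
    have hq : qExpansion 1 G₁ = qExpansion 1 G - c • e4C ^ (3 * (m + 1)) :=
      (hasPExp_modularForm G₁).unique one_pos hexp1
    have hcusp : PowerSeries.coeff 0 (qExpansion 1 G₁) = 0 := by
      rw [hq, map_sub, PowerSeries.coeff_smul, ← hc]
      simp [constantCoeff_e4C]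
    have hw' : k - 12 = 12 * (m : ℤ) := by rw [hk]; push_cast; ring
    obtain ⟨Q', hQ'deg, hQ'⟩ := ih (k - 12) hw' (CuspForm.discriminantEquiv (G₁.toCuspForm hcusp))
    refine ⟨Polynomial.C c * Polynomial.X ^ (m + 1) + Q', ?_, fun τ => ?_⟩
    · refine (Polynomial.natDegree_add_le _ _).trans (max_le ?_ (hQ'deg.trans (Nat.le_succ m)))
      exact Polynomial.natDegree_C_mul_X_pow_le c (m + 1)
    · have h1 := hQ' τ
      rw [CuspForm.discriminantEquiv_apply, ModularForm.toCuspForm_apply, hG₁_apply] at h1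
      have hΔ := discriminant_ne_zero τ
      have h2 : G τ - c * E₄ τ ^ (3 * (m + 1)) = Q'.eval (jFun τ) * Δ τ ^ m * Δ τ := by
        rw [← h1, div_mul_cancel₀ _ hΔ]
      have h3 : E₄ τ ^ (3 * (m + 1)) = (jFun τ * Δ τ) ^ (m + 1) := by
        rw [pow_mul, E₄_pow_three]
      rw [h3] at h2
      simp only [Polynomial.eval_add, Polynomial.eval_mul, Polynomial.eval_C, Polynomial.eval_pow,
        Polynomial.eval_X]
      linear_combination h2

/-- `q = t^N` for the parameters `q = exp (2πiτ)` and `t = exp (2πiτ/N)`. -/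
theorem qParam_one_eq_pow (N : ℕ) (hN : N ≠ 0) (z : ℂ) : 𝕢 1 z = 𝕢 N z ^ N := by
  have h := qParam_mul_pow 1 N hN z 1
  rw [one_mul, mul_one, zpow_one, zpow_natCast] at h
  exact h.symm

theorem isBoundedAtImInfty_mul_discriminant_pow {N : ℕ} [NeZero N] {f : ℍ → ℂ}
    {φ : LaurentSeries ℂ} (hexp : HasTExp N f φ) (m : ℕ) (hm : 0 ≤ φ.order + N * m) :
    IsBoundedAtImInfty (fun τ => f τ * Δ τ ^ m) := by
  have hN : (0 : ℝ) < N := by exact_mod_cast Nat.pos_of_ne_zero (NeZero.ne N)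
  obtain ⟨k, hk⟩ := Int.eq_ofNat_of_zero_le hm
  have b1 := hexp.hasPExp.isBoundedAtImInfty hN
  have b2 := ((HasPExp.X (h := N)).pow k).isBoundedAtImInfty hN
  have b3 := ((hasPExp_eulerFun one_pos).pow (24 * m)).isBoundedAtImInfty one_pos
  have b := (b1.mul b2).mul b3
  have hfun : (fun τ : ℍ => f τ * Δ τ ^ m) =
      ((fun τ : ℍ => f τ * 𝕢 N τ ^ (-φ.order)) * ((fun τ : ℍ => 𝕢 N τ) ^ k)) *
        ((fun τ : ℍ => eulerFun (𝕢 1 τ)) ^ (24 * m)) := by
    funext τ
    have ht : 𝕢 N (τ : ℂ) ≠ 0 := Periodic.qParam_ne_zero _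
    simp only [Pi.mul_apply, Pi.pow_apply]
    rw [discriminant_eq_eulerFun, qParam_one_eq_pow N (NeZero.ne N)]
    have e1 : 𝕢 N (τ : ℂ) ^ (-φ.order) * 𝕢 N (τ : ℂ) ^ k = 𝕢 N (τ : ℂ) ^ (N * m) := by
      rw [← zpow_natCast (𝕢 N (τ : ℂ)) k, ← zpow_add₀ ht, ← hk, ← zpow_natCast]
      congr 1
      push_cast
      ring
    rw [mul_pow, ← pow_mul]
    linear_combination (-(f τ * eulerFun (𝕢 N (τ : ℂ) ^ N) ^ (24 * m))) * e1
  rw [hfun]
  exact b

/-- **Polynomial principle.** A holomorphic `SL(2, ℤ)`-invariant function on `ℍ` with a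
convergent Laurent expansion `φ` in `t = exp (2πiτ/N)` is a polynomial `Q` in `j`, and
`φ = Q (j(t^N))` as formal Laurent series. -/
theorem exists_polynomial_of_invariant {N : ℕ} [NeZero N] {f : ℍ → ℂ} {φ : LaurentSeries ℂ}
    (hf : MDiff f) (hinv : ∀ (γ : SL(2, ℤ)) (τ : ℍ), f (γ • τ) = f τ)
    (hexp : HasTExp N f φ) :
    ∃ Q : Polynomial ℂ, (∀ τ, f τ = Q.eval (jFun τ)) ∧
      φ = Polynomial.aeval (ModularCurve.qExpand ℂ N (ModularCurve.jqModC ℂ)) Q := by
  have hN : (0 : ℝ) < N := by exact_mod_cast Nat.pos_of_ne_zero (NeZero.ne N)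
  set m : ℕ := (-φ.order).toNat with hm
  have hm0 : 0 ≤ φ.order + N * m := by
    have h1 : -φ.order ≤ (m : ℤ) := Int.self_le_toNat _
    have h2 : (1 : ℤ) ≤ N := by exact_mod_cast Nat.pos_of_ne_zero (NeZero.ne N)
    nlinarith [Int.natCast_nonneg m]
  have hbdd := isBoundedAtImInfty_mul_discriminant_pow hexp m hm0
  have hslash : ∀ γ : SL(2, ℤ),
      ((fun τ => f τ * Δ τ ^ m) ∣[(12 * m : ℤ)] γ) = fun τ => f τ * Δ τ ^ m := by
    intro γ
    funext τ
    rw [slash_action_eq'_iff, hinv, discriminant_smul, mul_pow, ← zpow_natCast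
      (((γ 1 0 : ℂ) * τ + (γ 1 1 : ℂ)) ^ (12 : ℤ)) m, ← zpow_mul]
    ring
  let G : ModularForm 𝒮ℒ (12 * m) :=
    { toFun := fun τ => f τ * Δ τ ^ m
      slash_action_eq' := fun _ ⟨γ, hγ⟩ => hγ ▸ hslash γ
      holo' := hf.mul (mdifferentiable_discriminant.pow m)
      bdd_at_cusps' := fun {c} hc => by
        rw [Subgroup.IsArithmetic.isCusp_iff_isCusp_SL2Z] at hc
        rw [OnePoint.isBoundedAt_iff_forall_SL2Z hc]
        intro γ _
        rw [hslash γ]
        exact hbdd }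
  obtain ⟨Q, -, hQ⟩ := exists_polynomial_of_modularForm m _ rfl G
  have hfQ : ∀ τ, f τ = Q.eval (jFun τ) := by
    intro τ
    have h1 : f τ * Δ τ ^ m = Q.eval (jFun τ) * Δ τ ^ m := hQ τ
    exact mul_right_cancel₀ (pow_ne_zero m (discriminant_ne_zero τ)) h1
  refine ⟨Q, hfQ, ?_⟩
  have h1 : HasTExp N jFun (ModularCurve.qExpand ℂ N (ModularCurve.jqModC ℂ)) :=
    hasTExp_jFun.qExpand_one N
  have h2 := h1.polynomial_aeval Q
  have h3 : HasTExp N f (Polynomial.aeval (ModularCurve.qExpand ℂ N (ModularCurve.jqModC ℂ)) Q) :=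
    h2.congr fun τ => (hfQ τ).symm
  exact hexp.unique hN h3

end Fermat.Agent.S28.H565

end
end
-- ===== PACK-END S28/H565/PolyPrinciple.lean

-- ===== PACK-BEGIN Lib/Cheb/H221/CycDeg.lean
section





/-!
# CYC, twisted prime sums: prime ideals versus rational primes (helper221)
-/

set_option autoImplicit false

open NumberField IsDedekindDomain Filter Topology

namespace Fermat.Agent.Lib.Cheb.H221

set_option linter.unusedSectionVars false

section

variable (F : Type) [Field F] [NumberField F] {m : ℕ} [NeZero m] (χ : DirichletCharacter ℂ m)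

/-- `χ(N 𝔭) N(𝔭)^(-s)` -/
noncomputable def twP (s : ℝ) (𝔭 : HeightOneSpectrum (𝓞 F)) : ℂ :=
  χ (Ideal.absNorm 𝔭.asIdeal : ZMod m) * (((Ideal.absNorm 𝔭.asIdeal : ℝ) ^ (-s) : ℝ) : ℂ)

lemma norm_twP_le (s : ℝ) (𝔭 : HeightOneSpectrum (𝓞 F)) :
    ‖twP F χ s 𝔭‖ ≤ H761.normPow F s 𝔭.asIdeal := by
  unfold twP H761.normPow
  rw [norm_mul, Complex.norm_real, Real.norm_of_nonneg (Real.rpow_nonneg (Nat.cast_nonneg _) _)]
  calc ‖χ (Ideal.absNorm 𝔭.asIdeal : ZMod m)‖ * (Ideal.absNorm 𝔭.asIdeal : ℝ) ^ (-s)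
      ≤ 1 * (Ideal.absNorm 𝔭.asIdeal : ℝ) ^ (-s) :=
        mul_le_mul_of_nonneg_right (DirichletCharacter.norm_le_one χ _)
          (Real.rpow_nonneg (Nat.cast_nonneg _) _)
    _ = _ := one_mul _

lemma summable_twP {s : ℝ} (hs : 1 < s) : Summable (twP F χ s) :=
  Summable.of_norm_bounded (H761.summable_primeSum F hs) (norm_twP_le F χ s)

lemma tsum_fibre_twP (s : ℝ) (p : Nat.Primes) :
    ∑' x : {𝔭 : H761.lowPrimes F // H761.lowNorm F 𝔭 = p}, twP F χ s x.1.1 =
      χ ((p : ℕ) : ZMod m) * (((Spec.primeCount F p : ℝ) * ((p : ℕ) : ℝ) ^ (-s) : ℝ) : ℂ) := by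
  have := H761.finite_fibre F p
  have : Fintype {𝔭 : H761.lowPrimes F // H761.lowNorm F 𝔭 = p} := Fintype.ofFinite _
  rw [tsum_fintype]
  have h : ∀ x : {𝔭 : H761.lowPrimes F // H761.lowNorm F 𝔭 = p},
      twP F χ s x.1.1 = χ ((p : ℕ) : ZMod m) * ((((p : ℕ) : ℝ) ^ (-s) : ℝ) : ℂ) := by
    intro x
    have := congrArg Subtype.val x.2
    simp only [H761.lowNorm] at this
    simp only [twP, this]
  simp only [h, Finset.sum_const, Finset.card_univ, nsmul_eq_mul, ← H761.card_fibre F p,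
    Nat.card_eq_fintype_card]
  push_cast
  ring

lemma summable_primeCount {s : ℝ} (hs : 1 < s) :
    Summable (fun p : Nat.Primes => (Spec.primeCount F p : ℝ) * ((p : ℕ) : ℝ) ^ (-s)) := by
  have hsum : Summable (fun 𝔭 : H761.lowPrimes F => H761.normPow F s 𝔭.1.asIdeal) :=
    (H761.summable_primeSum F hs).subtype _
  have hsum' : Summable (fun y : Σ p : Nat.Primes,
      {𝔭 : H761.lowPrimes F // H761.lowNorm F 𝔭 = p} => H761.normPow F s y.2.1.1.asIdeal) :=
    ((Equiv.sigmaFiberEquiv (H761.lowNorm F)).summable_iff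
      (f := fun 𝔭 : H761.lowPrimes F => H761.normPow F s 𝔭.1.asIdeal)).mpr hsum
  have := hsum'.sigma
  refine this.congr fun p => ?_
  exact H761.tsum_fibre F s p

lemma tsum_lowPrimes_twP {s : ℝ} (hs : 1 < s) :
    ∑' 𝔭 : H761.lowPrimes F, twP F χ s 𝔭.1 =
      ∑' p : Nat.Primes, χ ((p : ℕ) : ZMod m) *
        (((Spec.primeCount F p : ℝ) * ((p : ℕ) : ℝ) ^ (-s) : ℝ) : ℂ) := by
  have hsum : Summable (fun 𝔭 : H761.lowPrimes F => twP F χ s 𝔭.1) :=
    (summable_twP F χ hs).subtype _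
  have hsum' : Summable (fun y : Σ p : Nat.Primes,
      {𝔭 : H761.lowPrimes F // H761.lowNorm F 𝔭 = p} => twP F χ s y.2.1.1) :=
    ((Equiv.sigmaFiberEquiv (H761.lowNorm F)).summable_iff
      (f := fun 𝔭 : H761.lowPrimes F => twP F χ s 𝔭.1)).mpr hsum
  calc ∑' 𝔭 : H761.lowPrimes F, twP F χ s 𝔭.1
      = ∑' y : Σ p : Nat.Primes, {𝔭 : H761.lowPrimes F // H761.lowNorm F 𝔭 = p},
          twP F χ s y.2.1.1 :=
        ((Equiv.sigmaFiberEquiv (H761.lowNorm F)).tsum_eq
          (fun 𝔭 : H761.lowPrimes F => twP F χ s 𝔭.1)).symm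
    _ = ∑' p : Nat.Primes, ∑' x : {𝔭 : H761.lowPrimes F // H761.lowNorm F 𝔭 = p},
          twP F χ s x.1.1 := hsum'.tsum_sigma
    _ = _ := tsum_congr fun p => tsum_fibre_twP F χ s p

theorem twistedPrimeSum : TwistedPrimeSumStatement := by
  intro _ F _ _ m _ χ
  refine ⟨H761.highBound F, fun s hs1 _ => ⟨summable_primeCount F hs1, ?_⟩⟩
  have hsum := summable_twP F χ hs1
  have hsplit : ∑' 𝔭 : HeightOneSpectrum (𝓞 F), twP F χ s 𝔭 =
      (∑' 𝔭 : H761.lowPrimes F, twP F χ s 𝔭.1) +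
        ∑' 𝔭 : H761.highPrimes F, twP F χ s 𝔭.1 := by
    have hc : H761.highPrimes F = (H761.lowPrimes F)ᶜ := rfl
    rw [hc]
    exact ((hsum.subtype _).tsum_add_tsum_compl (hsum.subtype _)).symm
  have hhigh : ‖∑' 𝔭 : H761.highPrimes F, twP F χ s 𝔭.1‖ ≤ H761.highBound F := by
    have hs' : Summable (fun 𝔭 : H761.highPrimes F => H761.normPow F s 𝔭.1.asIdeal) :=
      (H761.summable_primeSum F hs1).subtype _
    calc ‖∑' 𝔭 : H761.highPrimes F, twP F χ s 𝔭.1‖
        ≤ ∑' 𝔭 : H761.highPrimes F, H761.normPow F s 𝔭.1.asIdeal :=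
          tsum_of_norm_bounded hs'.hasSum (fun 𝔭 => norm_twP_le F χ s 𝔭.1)
      _ ≤ _ := H761.tsum_highPrimes_le F hs1
  change ‖(∑' 𝔭 : HeightOneSpectrum (𝓞 F), twP F χ s 𝔭) - _‖ ≤ _
  rw [hsplit, tsum_lowPrimes_twP F χ hs1, add_sub_cancel_left]
  exact hhigh

end

end Fermat.Agent.Lib.Cheb.H221

end
-- ===== PACK-END Lib/Cheb/H221/CycDeg.lean

-- ===== PACK-BEGIN Lib/Cheb/H761/PrimeCountBound.lean
section


/-!
# Piece B0 of the shared library CHEB: `Spec.PrimeCountBoundStatement`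

There are at most `[F : ℚ]` prime ideals of `𝓞 F` of any given norm.
-/

set_option autoImplicit false

namespace Fermat.Agent.Lib.Cheb.H761

open IsDedekindDomain NumberField Ideal

/-- A nonzero prime ideal of norm `n` contains the least prime factor of `n`. -/
lemma minFac_mem_of_absNorm_eq {F : Type} [Field F] [NumberField F]
    (𝔭 : HeightOneSpectrum (𝓞 F)) : ((absNorm 𝔭.asIdeal).minFac : 𝓞 F) ∈ 𝔭.asIdeal := by
  have := 𝔭.isMaximal
  obtain ⟨p, n, hn, hmem, hp, hN⟩ := Ideal.exists_prime_and_absNorm_eq_pow 𝔭.asIdeal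
  rw [hN, hp.pow_minFac hn.ne']
  exact hmem

/-- **Piece B0**: `Spec.PrimeCountBoundStatement`. -/
theorem primeCountBound_statement : Spec.PrimeCountBoundStatement := by
  classical
  intro F _ _ p
  rw [Spec.primeCount]
  have hfinset : {𝔮 : Ideal (𝓞 F) | 𝔮.IsPrime ∧ Ideal.absNorm 𝔮 = p}.Finite :=
    (Ideal.finite_setOfPred_absNorm_eq (S := 𝓞 F) p).subset (fun 𝔮 h𝔮 => h𝔮.2)
  have hd : 1 ≤ Module.finrank ℚ F := Module.finrank_pos
  rcases Nat.eq_zero_or_pos p with rfl | hp0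
  · -- only the zero ideal has norm `0`
    have hsub : Subsingleton {𝔮 : Ideal (𝓞 F) // 𝔮.IsPrime ∧ Ideal.absNorm 𝔮 = 0} := by
      refine ⟨fun a b => Subtype.ext ?_⟩
      rw [Ideal.absNorm_eq_zero_iff.mp a.2.2, Ideal.absNorm_eq_zero_iff.mp b.2.2]
    exact (Finite.card_le_one_iff_subsingleton.mpr hsub).trans hd
  · have hfin : Finite {𝔮 : Ideal (𝓞 F) // 𝔮.IsPrime ∧ Ideal.absNorm 𝔮 = p} :=
      hfinset.to_subtype
    have : Fintype {𝔮 : Ideal (𝓞 F) // 𝔮.IsPrime ∧ Ideal.absNorm 𝔮 = p} := Fintype.ofFinite _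
    rw [Nat.card_eq_fintype_card]
    by_cases hne : Nonempty {𝔮 : Ideal (𝓞 F) // 𝔮.IsPrime ∧ Ideal.absNorm 𝔮 = p}
    · -- every such prime contains `p.minFac`, which is prime
      let ι : {𝔮 : Ideal (𝓞 F) // 𝔮.IsPrime ∧ Ideal.absNorm 𝔮 = p} → HeightOneSpectrum (𝓞 F) :=
        fun 𝔮 => ⟨𝔮.1, 𝔮.2.1, by
          rintro h
          have := 𝔮.2.2
          rw [h, Ideal.absNorm_bot] at this
          omega⟩
      have hι : Function.Injective ι := by
        intro a b h
        apply Subtype.ext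
        exact congrArg HeightOneSpectrum.asIdeal h
      have hp1 : p ≠ 1 := by
        rintro rfl
        obtain ⟨𝔮⟩ := hne
        exact 𝔮.2.1.ne_top (Ideal.absNorm_eq_one_iff.mp 𝔮.2.2)
      have hprime : p.minFac.Prime := Nat.minFac_prime hp1
      have hcard := card_le_of_natCast_mem F hprime (Finset.univ.image ι) (by
        intro 𝔭 h𝔭
        obtain ⟨𝔮, -, rfl⟩ := Finset.mem_image.mp h𝔭
        have := minFac_mem_of_absNorm_eq (ι 𝔮)
        have hN : absNorm (ι 𝔮).asIdeal = p := 𝔮.2.2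
        rwa [hN] at this)
      rw [Finset.card_image_of_injective _ hι, Finset.card_univ,
        NumberField.RingOfIntegers.rank] at hcard
      exact hcard
    · rw [not_nonempty_iff] at hne
      rw [Fintype.card_eq_zero]
      exact Nat.zero_le _

end Fermat.Agent.Lib.Cheb.H761

end
-- ===== PACK-END Lib/Cheb/H761/PrimeCountBound.lean

-- ===== PACK-BEGIN Lib/Cheb/H476/Core.lean
section






/-!
# CHEB piece F6 (bridge), part 2: from a prime of a Galois number field inside `ℚ̄`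
to a valuation subring of `ℚ̄` with a Frobenius element
-/

set_option autoImplicit false

open NumberField
open scoped Pointwise

namespace Fermat.Agent.Lib.Cheb.H476

open Fermat.Agent.Lib.Cheb.Spec

/-- The inclusion of the ring of integers of a subfield of `ℚ̄` into `ℚ̄`. -/
noncomputable def incl (L : IntermediateField ℚ Qb) : 𝓞 L →+* Qb :=
  (algebraMap L Qb).comp (algebraMap (𝓞 L) L)

theorem incl_apply (L : IntermediateField ℚ Qb) (x : 𝓞 L) :
    incl L x = ((x : L) : Qb) := rfl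

theorem incl_injective (L : IntermediateField ℚ Qb) : Function.Injective (incl L) := by
  intro x y h
  have h1 : ((x : L) : Qb) = ((y : L) : Qb) := h
  exact RingOfIntegers.ext (Subtype.ext h1)

theorem incl_isIntegral (L : IntermediateField ℚ Qb) (x : 𝓞 L) : IsIntegral ℤ (incl L x) := by
  have h1 : IsIntegral ℤ (x : L) := RingOfIntegers.isIntegral_coe x
  exact h1.map (IsScalarTower.toAlgHom ℤ L Qb)

/-- A valuation subring of `ℚ̄` whose maximal ideal contains a given proper ideal of the ring of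
integers of a subfield. -/
theorem exists_valuationSubring_over (L : IntermediateField ℚ Qb) (P : Ideal (𝓞 L))
    (hP : P ≠ ⊤) : ∃ A : ValuationSubring Qb, ∀ x ∈ P, incl L x ∈ A.nonunits := by
  let I : Ideal (incl L).range := P.map (incl L).rangeRestrict
  have hI : I ≠ ⊤ := by
    intro h
    have h1 : (1 : (incl L).range) ∈ I := by rw [h]; trivial
    rw [Ideal.mem_map_iff_of_surjective _ (incl L).rangeRestrict_surjective] at h1
    obtain ⟨x, hx, hx1⟩ := h1
    have h2 : incl L x = incl L 1 := by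
      have := congrArg Subtype.val hx1
      simpa using this
    have h3 : x = 1 := incl_injective L h2
    exact hP ((Ideal.eq_top_iff_one P).mpr (h3 ▸ hx))
  obtain ⟨A, -, hA⟩ := Ideal.image_subset_nonunits_valuationSubring I hI
  refine ⟨A, fun x hx => hA ⟨(incl L).rangeRestrict x, Ideal.mem_map_of_mem _ hx, rfl⟩⟩

/-- The maximal ideal of `A` cuts out exactly `P`. -/
theorem incl_mem_nonunits_iff (L : IntermediateField ℚ Qb) [NumberField L]
    (A : ValuationSubring Qb) (P : Ideal (𝓞 L)) (hP : P.IsMaximal)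
    (hA : ∀ x ∈ P, incl L x ∈ A.nonunits) (x : 𝓞 L) :
    incl L x ∈ A.nonunits ↔ x ∈ P := by
  refine ⟨fun hx => ?_, hA x⟩
  by_contra hxP
  obtain ⟨y, m, hm, hxy⟩ := hP.exists_inv hxP
  have h1 : incl L y * incl L x + incl L m = 1 := by
    rw [← map_mul, ← map_add, hxy, map_one]
  have hy : A.valuation (incl L y) ≤ 1 :=
    (A.valuation_le_one_iff _).mpr
      (Fermat.Agent.S54.isIntegral_mem_valuationSubring A (incl_isIntegral L y))
  have hx' : A.valuation (incl L x) < 1 := A.mem_nonunits_iff.mp hx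
  have hm' : A.valuation (incl L m) < 1 := A.mem_nonunits_iff.mp (hA m hm)
  have h2 : A.valuation (incl L y * incl L x) < 1 := by
    rw [map_mul]
    exact mul_lt_of_le_one_of_lt hy hx'
  have h3 : A.valuation (incl L y * incl L x + incl L m) < 1 :=
    lt_of_le_of_lt (A.valuation.map_add _ _) (max_lt h2 hm')
  rw [h1, map_one] at h3
  exact lt_irrefl _ h3


/-- The prime of `ℤ` below a prime of `𝓞 L` containing the prime number `p` has residue field of
cardinality `p`. -/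
theorem card_quot_under (L : IntermediateField ℚ Qb) [NumberField L] (p : ℕ) (hp : p.Prime)
    (P : Ideal (𝓞 L)) (hP : P.IsPrime) (hpP : (p : 𝓞 L) ∈ P) :
    Nat.card (ℤ ⧸ P.under ℤ) = p := by
  have : Fact p.Prime := ⟨hp⟩
  have hle : Ideal.span {(p : ℤ)} ≤ P.under ℤ := by
    rw [Ideal.span_le, Set.singleton_subset_iff]
    show algebraMap ℤ (𝓞 L) (p : ℤ) ∈ P
    simpa using hpP
  have hne : P.under ℤ ≠ ⊤ := (Ideal.IsPrime.under ℤ P).ne_top
  have heq : Ideal.span {(p : ℤ)} = P.under ℤ :=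
    (Int.ideal_span_isMaximal_of_prime p).eq_of_le hne hle
  rw [← heq, Int.card_ideal_quot]

/-- **Core of the bridge.**  A prime `P` of a Galois number field `L ⊆ ℚ̄` above `p`, with trivial
inertia group and arithmetic Frobenius `τ`, is induced by a valuation subring `A` of `ℚ̄`
over `p` carrying a Frobenius element `φ` which restricts to `τ`; the inertia group of `A` acts
trivially on `L`. -/
theorem exists_frobenius_restrict (L : IntermediateField ℚ Qb) [NumberField L] [IsGalois ℚ L]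
    (p : ℕ) (hp : p.Prime) (P : Ideal (𝓞 L)) (hP : P.IsPrime) (hpP : (p : 𝓞 L) ∈ P)
    (hI : InertiaTrivial L P) (τ : L ≃ₐ[ℚ] L) (hτ : IsArithFrobAt ℤ τ P) :
    ∃ (A : ValuationSubring Qb) (φ : GQ), A.LiesOverPrime p ∧ A.IsFrobeniusAt φ p ∧
      (∀ ι ∈ A.inertiaSubgroupIn ℚ, ∀ x : L, ι (x : Qb) = x) ∧
      (∀ x : L, φ (x : Qb) = (τ x : L)) := by
  have hP0 : P ≠ ⊥ := by
    intro h
    rw [h, Ideal.mem_bot] at hpP
    exact hp.ne_zero (by exact_mod_cast hpP)
  have hPmax : P.IsMaximal := hP.isMaximal hP0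
  obtain ⟨A, hA⟩ := exists_valuationSubring_over L P hP.ne_top
  have hAp : A.LiesOverPrime p := by
    have h := hA _ hpP
    have h' : incl L (p : 𝓞 L) = (p : Qb) := by simp
    rw [h'] at h
    exact h
  obtain ⟨φ, hφ, hφF⟩ := exists_frobenius_at p hp A hAp
  have hmem := incl_mem_nonunits_iff L A P hPmax hA
  have hres : ∀ (g : GQ) (x : L), ((AlgEquiv.restrictNormal g L x : L) : Qb) = g (x : Qb) :=
    fun g x => AlgEquiv.restrictNormal_commutes g L x
  have hcard := card_quot_under L p hp P hP hpP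
  refine ⟨A, φ, hAp, hφ, ?_, ?_⟩
  · intro ι hι x
    have h1 : AlgEquiv.restrictNormal ι L = 1 := by
      apply hI
      intro y
      rw [← hmem]
      have h2 : incl L (AlgEquiv.restrictNormal ι L • y - y) = ι (incl L y) - incl L y := by
        rw [map_sub]
        congr 1
        exact hres ι y
      rw [h2]
      exact sub_mem_nonunits_of_mem_inertia A ι hι _
        (Fermat.Agent.S54.isIntegral_mem_valuationSubring A (incl_isIntegral L y))
    rw [← hres, h1]
    rfl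
  · have h1 : IsArithFrobAt ℤ (AlgEquiv.restrictNormal φ L) P := by
      intro y
      rw [hcard]
      rw [← hmem]
      have h2 : incl L ((MulSemiringAction.toAlgHom ℤ (𝓞 L) (AlgEquiv.restrictNormal φ L)) y
          - y ^ p) = φ (incl L y) - incl L y ^ p := by
        rw [map_sub, map_pow]
        congr 1
        exact hres φ y
      rw [h2]
      exact hφF ⟨incl L y, incl_isIntegral L y⟩
    have h2 := IsArithFrobAt.mul_inv_mem_inertia h1 hτ
    have h3 : AlgEquiv.restrictNormal φ L * τ⁻¹ = 1 := hI _ h2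
    have h4 : AlgEquiv.restrictNormal φ L = τ := mul_inv_eq_one.mp h3
    intro x
    rw [← hres, h4]

end Fermat.Agent.Lib.Cheb.H476

end
-- ===== PACK-END Lib/Cheb/H476/Core.lean

-- ===== PACK-BEGIN S55/H414/CycloPow.lean
section




/-!
# S55, leaf CYC-INF (helper414), part 3: the cyclotomic character mod `N` on `G_ℚ`, Frobenius

* `cycloPow N : G_ℚ →* (ZMod N)ˣ`, `σ ζ_N = ζ_N ^ (cycloPow N σ)`, with kernel the fixing subgroup
  of `ℚ(ζ_N)`;
* every valuation subring `A` of `ℚ̄` over a prime `q` has a Frobenius element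
  (`exists_isFrobeniusAt`, the proof of `Fermat.Agent.S54.exists_frobenius` for a given `A`);
* a Frobenius element at `A | q`, `q ∤ N`, acts on `ζ_N` by `ζ ↦ ζ ^ q`;
* hence for `q ≠ p` the local degree of `ℚ(ζ_{p^n})` at `A` is divisible by `p ^ k` for `n ≫ 0`.
-/

set_option autoImplicit false

namespace Fermat.Agent.S55.H414

open ExtCitation Fermat.Agent.S55.Bridge

/-- The cyclotomic character modulo `N` of `G_ℚ`. -/
noncomputable def cycloPow (N : ℕ) [NeZero N] :
    (AlgebraicClosure ℚ ≃ₐ[ℚ] AlgebraicClosure ℚ) →* (ZMod N)ˣ :=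
  (zetaBar_spec N).autToPow ℚ

theorem cycloPow_spec (N : ℕ) [NeZero N] (σ : AlgebraicClosure ℚ ≃ₐ[ℚ] AlgebraicClosure ℚ) :
    σ (zetaBar N) = zetaBar N ^ ((cycloPow N σ : (ZMod N)ˣ) : ZMod N).val :=
  ((zetaBar_spec N).autToPow_spec ℚ σ).symm

/-- Two powers of a primitive `N`-th root of unity agree iff the exponents agree in `ZMod N`. -/
theorem pow_eq_pow_iff_natCast_eq {R : Type*} [CommRing R] [IsDomain R] {ζ : R} {N : ℕ}
    [NeZero N] (hζ : IsPrimitiveRoot ζ N) (a b : ℕ) :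
    ζ ^ a = ζ ^ b ↔ (a : ZMod N) = (b : ZMod N) := by
  obtain ⟨u, rfl⟩ := hζ.isUnit (NeZero.ne N)
  have hu : IsPrimitiveRoot u N := IsPrimitiveRoot.coe_units_iff.1 hζ
  rw [ZMod.natCast_eq_natCast_iff, ← Units.val_pow_eq_pow_val, ← Units.val_pow_eq_pow_val,
    Units.val_inj, pow_eq_pow_iff_modEq, ← hu.eq_orderOf]

/-- Characterisation of the value of the cyclotomic character. -/
theorem cycloPow_eq_iff (N : ℕ) [NeZero N] (σ : AlgebraicClosure ℚ ≃ₐ[ℚ] AlgebraicClosure ℚ)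
    (u : (ZMod N)ˣ) :
    cycloPow N σ = u ↔ σ (zetaBar N) = zetaBar N ^ (u : ZMod N).val := by
  rw [cycloPow_spec, pow_eq_pow_iff_natCast_eq (zetaBar_spec N), ZMod.natCast_zmod_val,
    ZMod.natCast_zmod_val]
  exact Units.ext_iff

/-- If `σ ζ = ζ ^ a` then `cycloPow N σ` is the class of `a`. -/
theorem coe_cycloPow_of_apply_eq_pow (N : ℕ) [NeZero N]
    (σ : AlgebraicClosure ℚ ≃ₐ[ℚ] AlgebraicClosure ℚ) (a : ℕ)
    (h : σ (zetaBar N) = zetaBar N ^ a) :
    ((cycloPow N σ : (ZMod N)ˣ) : ZMod N) = (a : ZMod N) := by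
  rw [cycloPow_spec, pow_eq_pow_iff_natCast_eq (zetaBar_spec N), ZMod.natCast_zmod_val] at h
  exact h

theorem ker_cycloPow (N : ℕ) [NeZero N] :
    (cycloPow N).ker = (cycloLevel N).fixingSubgroup := by
  ext σ
  rw [MonoidHom.mem_ker, mem_fixingSubgroup_cycloLevel_iff, cycloPow_eq_iff]
  have h1 : zetaBar N ^ ((1 : (ZMod N)ˣ) : ZMod N).val = zetaBar N := by
    conv_rhs => rw [← pow_one (zetaBar N)]
    rw [pow_eq_pow_iff_natCast_eq (zetaBar_spec N), ZMod.natCast_zmod_val, Units.val_one,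
      Nat.cast_one]
  rw [h1]

/-- The local degree `[D : D ∩ G_F]` for `F = ℚ(ζ_N)` is the order of the image of `D` under the
cyclotomic character. -/
theorem relIndex_fixingSubgroup_cycloLevel (N : ℕ) [NeZero N]
    (D : Subgroup (AlgebraicClosure ℚ ≃ₐ[ℚ] AlgebraicClosure ℚ)) :
    (cycloLevel N).fixingSubgroup.relIndex D = Nat.card (D.map (cycloPow N)) := by
  rw [← ker_cycloPow, Subgroup.relIndex_ker]

/-- The local degree `[D : D ∩ G_F]` is the order of the image of `D` in `Gal(F/ℚ)`. -/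
theorem relIndex_fixingSubgroup_eq_card_map_restrictNormalHom
    (F : IntermediateField ℚ (AlgebraicClosure ℚ)) [Normal ℚ F]
    (D : Subgroup (AlgebraicClosure ℚ ≃ₐ[ℚ] AlgebraicClosure ℚ)) :
    F.fixingSubgroup.relIndex D = Nat.card (D.map (AlgEquiv.restrictNormalHom F)) := by
  have hker : (AlgEquiv.restrictNormalHom (F := ℚ) (K₁ := AlgebraicClosure ℚ) F).ker
      = F.fixingSubgroup := by
    ext x
    rw [MonoidHom.mem_ker, IntermediateField.mem_fixingSubgroup_iff]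
    constructor
    · intro h a ha
      have h1 := AlgEquiv.restrictNormal_commutes x F ⟨a, ha⟩
      have h2 : x.restrictNormal F = 1 := h
      rw [h2] at h1
      exact h1.symm
    · intro h
      apply AlgEquiv.ext
      intro a
      apply Subtype.ext
      have h1 := AlgEquiv.restrictNormal_commutes x F a
      have h2 := h a a.2
      exact h1.trans h2
  rw [← hker, Subgroup.relIndex_ker]

/-- Every valuation subring of `ℚ̄` over a prime number `ℓ` has a Frobenius element. -/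
theorem exists_isFrobeniusAt (A : ValuationSubring (AlgebraicClosure ℚ)) (ℓ : ℕ) (hℓ : ℓ.Prime)
    (hA : A.LiesOverPrime ℓ) :
    ∃ σ : AlgebraicClosure ℚ ≃ₐ[ℚ] AlgebraicClosure ℚ, A.IsFrobeniusAt σ ℓ := by
  open Fermat.Agent.S54 in
  open scoped Pointwise in
  have : Algebra.IsAlgebraic ℚ (AlgebraicClosure ℚ) := AlgebraicClosure.isAlgebraic ℚ
  have := primeBelow_isPrime A
  have hℓQ : (ℓ : integralClosure ℤ (AlgebraicClosure ℚ)) ∈ primeBelow A := by
    rw [mem_primeBelow]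
    exact hA
  obtain ⟨σ, hσQ', hσF⟩ := exists_frob_integralClosure ℓ hℓ (primeBelow A) hℓQ
  have hσQ : ∀ x, σ • x ∈ primeBelow A ↔ x ∈ primeBelow A := by
    intro x
    conv_lhs => rw [← hσQ']
    exact Ideal.smul_mem_pointwise_smul_iff
  have key : ∀ τ : AlgebraicClosure ℚ ≃ₐ[ℚ] AlgebraicClosure ℚ,
      (∀ x, τ • x ∈ primeBelow A ↔ x ∈ primeBelow A) → ∀ x ∈ A, τ x ∈ A := by
    intro τ hτ x hx
    obtain ⟨b, s, hb, hs, hsA, hxs⟩ := (mem_valuationSubring_iff A ℓ hℓ hA x).mp hx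
    refine (mem_valuationSubring_iff A ℓ hℓ hA (τ x)).mpr
      ⟨τ b, τ s, hb.map τ, hs.map τ, ?_, ?_⟩
    · exact (hτ ⟨s, hs⟩).not.mpr hsA
    · rw [← map_mul, hxs]
  have hσA : σ ∈ A.decompositionSubgroup ℚ := by
    rw [MulAction.mem_stabilizer_iff]
    ext x
    rw [ValuationSubring.mem_smul_pointwise_iff_exists]
    constructor
    · rintro ⟨s, hs, rfl⟩
      exact key σ hσQ s hs
    · intro hx
      refine ⟨σ⁻¹ • x, key σ⁻¹ ?_ x hx, by simp⟩
      intro y
      rw [← hσQ (σ⁻¹ • y)]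
      simp
  refine ⟨σ, hσA, ?_⟩
  intro x
  obtain ⟨a, rfl⟩ := IsLocalRing.residue_surjective x
  obtain ⟨b, s, hb, hs, hsA, hxs⟩ := (mem_valuationSubring_iff A ℓ hℓ hA a).mp a.2
  have hbA : b ∈ A := isIntegral_mem_valuationSubring A hb
  have hsA' : s ∈ A := isIntegral_mem_valuationSubring A hs
  have hint : ∀ (y : AlgebraicClosure ℚ) (hy : IsIntegral ℤ y),
      (⟨σ, hσA⟩ : A.decompositionSubgroup ℚ) •
        IsLocalRing.residue A ⟨y, isIntegral_mem_valuationSubring A hy⟩ =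
      (IsLocalRing.residue A ⟨y, isIntegral_mem_valuationSubring A hy⟩) ^ ℓ := by
    intro y hy
    rw [← IsLocalRing.ResidueField.residue_smul, ← map_pow, ← sub_eq_zero, ← map_sub,
      IsLocalRing.residue_eq_zero_iff, ← ValuationSubring.coe_mem_nonunits_iff]
    exact hσF ⟨y, hy⟩
  have h1 : IsLocalRing.residue A a * IsLocalRing.residue A ⟨s, hsA'⟩ =
      IsLocalRing.residue A ⟨b, hbA⟩ := by
    rw [← map_mul]
    congr 1
    exact Subtype.ext hxs
  have h2 : IsLocalRing.residue A ⟨s, hsA'⟩ ≠ 0 := by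
    rw [Ne, IsLocalRing.residue_eq_zero_iff, ← ValuationSubring.coe_mem_nonunits_iff]
    exact hsA
  have h3 := congrArg (fun z => (⟨σ, hσA⟩ : A.decompositionSubgroup ℚ) • z) h1
  simp only [smul_mul'] at h3
  rw [hint s hs, hint b hb, ← h1, mul_pow] at h3
  exact mul_right_cancel₀ (pow_ne_zero _ h2) h3

/-- A Frobenius element at `A` is congruent to the `q`-th power map on `A`. -/
theorem IsFrobeniusAt_val_sub_pow_lt_one {A : ValuationSubring (AlgebraicClosure ℚ)}
    {σ : AlgebraicClosure ℚ ≃ₐ[ℚ] AlgebraicClosure ℚ} {q : ℕ} (hσ : A.IsFrobeniusAt σ q)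
    (z : AlgebraicClosure ℚ) (hz : z ∈ A) : A.valuation (σ z - z ^ q) < 1 := by
  obtain ⟨hσD, hF⟩ := hσ
  have h2 := hF (IsLocalRing.residue A ⟨z, hz⟩)
  rw [← IsLocalRing.ResidueField.residue_smul, ← map_pow] at h2
  have h3 : ((⟨σ, hσD⟩ : A.decompositionSubgroup ℚ) • (⟨z, hz⟩ : A)) - (⟨z, hz⟩ : A) ^ q
      ∈ IsLocalRing.maximalIdeal A := by
    rw [← Ideal.Quotient.eq]
    exact h2
  rw [ValuationSubring.valuation_lt_one_iff] at h3
  exact h3

/-- A Frobenius element at `A | q` acts on `N`-th roots of unity (`N` a unit at `A`) by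
`ζ ↦ ζ ^ q`. -/
theorem IsFrobeniusAt_apply_root {A : ValuationSubring (AlgebraicClosure ℚ)}
    {σ : AlgebraicClosure ℚ ≃ₐ[ℚ] AlgebraicClosure ℚ} {q : ℕ} (hσ : A.IsFrobeniusAt σ q)
    {N : ℕ} (hN : N ≠ 0) (hNv : A.valuation (N : AlgebraicClosure ℚ) = 1)
    {z : AlgebraicClosure ℚ} (hz : z ^ N = 1) : σ z = z ^ q := by
  by_contra hne
  have hσz : (σ z) ^ N = 1 := by rw [← map_pow, hz, map_one]
  have hzq : (z ^ q) ^ N = 1 := by rw [← pow_mul, mul_comm, pow_mul, hz, one_pow]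
  have h1 := val_sub_roots_eq_one (A := A) hN hNv hσz hzq hne
  have hzA : z ∈ A := (A.valuation_le_one_iff z).1 (valuation_eq_one_of_pow_eq_one A hN hz).le
  have h2 := IsFrobeniusAt_val_sub_pow_lt_one hσ z hzA
  rw [h1] at h2
  exact lt_irrefl _ h2

/-- **CYC-INF, case `q ≠ p`.** For a valuation subring `A` of `ℚ̄` over a prime `q ≠ p` and every
`k`, for all large `n` the local degree at `A` of `ℚ(ζ_{p^n})/ℚ` is divisible by `p ^ k`. -/
theorem exists_forall_pow_dvd_relIndex_of_ne (p : ℕ) [Fact p.Prime] (q : ℕ) (hq : q.Prime)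
    (hqp : q ≠ p) (A : ValuationSubring (AlgebraicClosure ℚ)) (hA : A.LiesOverPrime q) (k : ℕ) :
    ∃ n₀ : ℕ, ∀ n, n₀ ≤ n →
      p ^ k ∣ (cycloLevel (p ^ n)).fixingSubgroup.relIndex (A.decompositionSubgroup ℚ) := by
  have hp : p.Prime := Fact.out
  obtain ⟨n₀, hn₀⟩ := exists_forall_pow_dvd_orderOf p q hp hq.two_le k
  obtain ⟨σ, hσ⟩ := exists_isFrobeniusAt A q hq hA
  refine ⟨n₀, fun n hn => ?_⟩
  rw [relIndex_fixingSubgroup_cycloLevel]
  have hNv : A.valuation ((p ^ n : ℕ) : AlgebraicClosure ℚ) = 1 := by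
    rw [Nat.cast_pow, map_pow, val_prime_eq_one (A := A) hA hq hp hqp, one_pow]
  have hζ : σ (zetaBar (p ^ n)) = zetaBar (p ^ n) ^ q :=
    IsFrobeniusAt_apply_root hσ (NeZero.ne _) hNv (zetaBar_spec (p ^ n)).pow_eq_one
  have hu := coe_cycloPow_of_apply_eq_pow (p ^ n) σ q hζ
  have hdvd := hn₀ n hn (cycloPow (p ^ n) σ) hu
  have hmem : cycloPow (p ^ n) σ ∈ (A.decompositionSubgroup ℚ).map (cycloPow (p ^ n)) :=
    Subgroup.mem_map_of_mem _ hσ.mem_decompositionSubgroup
  have h2 : orderOf (cycloPow (p ^ n) σ) ∣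
      Nat.card ((A.decompositionSubgroup ℚ).map (cycloPow (p ^ n))) := by
    have := Subgroup.orderOf_dvd_natCard
      ((A.decompositionSubgroup ℚ).map (cycloPow (p ^ n))) hmem
    exact this
  exact hdvd.trans h2

end Fermat.Agent.S55.H414

end
-- ===== PACK-END S55/H414/CycloPow.lean

-- ===== PACK-BEGIN Ribet/H399/CuspDict.lean
section




/-!
# RIBET row 38, WALL-p: chart purity ⇒ slopes `0`  — abstract core
  (author helper280, `origin/helper280:Ribet/H280/PureFinCore.lean`; copy in the namespace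
  `Fermat.Agent.Ribet.H399.Dict` so that the CUSP chain of helper399 is self-contained)

`B ⊆ V ⊆ F` a chart inside a valuation ring (`V = V∞` or `V₀`), `ρ : V → κ` the reduction
(`ker ρ = 𝔪_V`), `κ / k` a function field, `Q` a place of `κ` with residue field `k`,
`y ∈ B` a coordinate with `B` integral over `R[y]` and `ρ y ∈ O_Q`.

* `chartRed`, `chartRed_mem` : `ρ` restricted to the chart has values in `O_Q`;
* `pointOfPlace`, `pointOfPlace_isPrime`, `pointOfPlace_isMaximal` : `n := {b ∈ B | ρ b ∈ 𝔪_Q}` is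
  a maximal ideal of `B` containing `B ∩ ker ρ`, and `ρ` maps `B ∖ n` into `O_Qˣ`
  (`inv_mem_of_not_mem_pointOfPlace`);
* `dvd_ord_of_locUnit` : if `u · d ^ m ∈ (B_n)ˣ` with `u ∈ V`, `d ∈ Vˣ`, then `m ∣ ord_Q (ρ u)`.
-/

set_option autoImplicit false

namespace Fermat.Agent.Ribet.H399.Dict

open AlgebraicCurve

section Core

variable {R F : Type*} [CommRing R] [Field F] [Algebra R F]
variable {k κ : Type*} [Field k] [Field κ] [Algebra k κ]

/-- A unit of the valuation ring of a place has order `0`. -/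
theorem ord_eq_zero_of_mem_of_inv_mem (Q : Place k κ) {z : κ}
    (hz : z ∈ Q.toValuationSubring) (hz' : z⁻¹ ∈ Q.toValuationSubring) (hz0 : z ≠ 0) :
    Q.ord z = 0 := by
  have h1 : (⟨z, hz⟩ : Q.toValuationSubring) * ⟨z⁻¹, hz'⟩ = 1 :=
    Subtype.ext (mul_inv_cancel₀ hz0)
  have h2 : (⟨z⁻¹, hz'⟩ : Q.toValuationSubring) * ⟨z, hz⟩ = 1 :=
    Subtype.ext (inv_mul_cancel₀ hz0)
  exact Q.ord_coe_unit ⟨⟨z, hz⟩, ⟨z⁻¹, hz'⟩, h1, h2⟩

/-- An element of `O_Q` which is not in `𝔪_Q` has its inverse in `O_Q`. -/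
theorem inv_mem_of_not_mem_maximalIdeal (Q : Place k κ) (z : Q.toValuationSubring)
    (hz : z ∉ IsLocalRing.maximalIdeal Q.toValuationSubring) :
    ((z : κ))⁻¹ ∈ Q.toValuationSubring := by
  have hu : IsUnit z := by
    by_contra h
    exact hz ((IsLocalRing.mem_maximalIdeal z).mpr h)
  obtain ⟨u, rfl⟩ := hu
  have h1 : ((u : Q.toValuationSubring) : κ) * ((u⁻¹ : (Q.toValuationSubring)ˣ) :
      Q.toValuationSubring) = 1 :=
    congrArg Subtype.val u.mul_inv
  have h2 : (((u : Q.toValuationSubring) : κ))⁻¹ =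
      (((u⁻¹ : (Q.toValuationSubring)ˣ) : Q.toValuationSubring) : κ) :=
    inv_eq_of_mul_eq_one_right h1
  rw [h2]
  exact Subtype.mem _

variable (B : Subalgebra R F) (V : ValuationSubring F) (hBV : ∀ b : B, (b : F) ∈ V)
  (ρ : V →+* κ)

/-- The restriction of the reduction to the chart. -/
def chartRed : B →+* κ :=
  ρ.comp ((B.val : B →+* F).codRestrict V.toSubring (fun b => hBV b))

theorem chartRed_apply (b : B) : chartRed B V hBV ρ b = ρ ⟨(b : F), hBV b⟩ := rfl

section Place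

variable {hBV}
variable (Q : Place k κ)

/-- The chart maps into `O_Q` as soon as the constants and the coordinate do. -/
theorem chartRed_mem (y : B) (hint : ∀ b : B, IsIntegral (Algebra.adjoin R ({y} : Set B)) b)
    (hR : ∀ r : R, chartRed B V hBV ρ (algebraMap R B r) ∈ Q.toValuationSubring)
    (hy : chartRed B V hBV ρ y ∈ Q.toValuationSubring) (b : B) :
    chartRed B V hBV ρ b ∈ Q.toValuationSubring := by
  set φ := chartRed B V hBV ρ with hφ
  -- the subring `adjoin R {y}` maps into `O_Q`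
  have hS : ∀ s : Algebra.adjoin R ({y} : Set B), φ (s : B) ∈ Q.toValuationSubring := by
    rintro ⟨s, hs⟩
    induction hs using Algebra.adjoin_induction with
    | mem x hx =>
      rw [Set.mem_singleton_iff] at hx
      subst hx
      exact hy
    | algebraMap r => exact hR r
    | add x z _ _ hx hz =>
      show φ (x + z) ∈ _
      rw [map_add]
      exact add_mem hx hz
    | mul x z _ _ hx hz =>
      show φ (x * z) ∈ _
      rw [map_mul]
      exact mul_mem hx hz
  let ψ : Algebra.adjoin R ({y} : Set B) →+* Q.toValuationSubring :=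
    (φ.comp (Algebra.adjoin R ({y} : Set B)).val.toRingHom).codRestrict
      Q.toValuationSubring.toSubring (fun s => hS s)
  obtain ⟨P, hP, hPb⟩ := hint b
  have hint' : IsIntegral Q.toValuationSubring (φ b) := by
    refine ⟨P.map ψ, hP.map ψ, ?_⟩
    rw [Polynomial.eval₂_map]
    have h1 : (algebraMap Q.toValuationSubring κ).comp ψ =
        φ.comp (algebraMap (Algebra.adjoin R ({y} : Set B)) B) := by
      ext s
      rfl
    rw [h1, ← Polynomial.hom_eval₂, hPb, map_zero]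
  obtain ⟨z, hz⟩ := IsIntegrallyClosed.isIntegral_iff.mp hint'
  rw [← hz]
  exact z.2

/-- The reduction of the chart, with values in `O_Q`. -/
def chartRedQ (hmem : ∀ b : B, chartRed B V hBV ρ b ∈ Q.toValuationSubring) :
    B →+* Q.toValuationSubring :=
  (chartRed B V hBV ρ).codRestrict Q.toValuationSubring.toSubring hmem

/-- **The closed point of the chart attached to the place `Q`**: `n = {b | ρ b ∈ 𝔪_Q}`. -/
def pointOfPlace (hmem : ∀ b : B, chartRed B V hBV ρ b ∈ Q.toValuationSubring) : Ideal B :=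
  Ideal.comap (chartRedQ B V ρ Q hmem) (IsLocalRing.maximalIdeal Q.toValuationSubring)

theorem mem_pointOfPlace (hmem : ∀ b : B, chartRed B V hBV ρ b ∈ Q.toValuationSubring) (b : B) :
    b ∈ pointOfPlace B V ρ Q hmem ↔
      (⟨chartRed B V hBV ρ b, hmem b⟩ : Q.toValuationSubring) ∈
        IsLocalRing.maximalIdeal Q.toValuationSubring := Iff.rfl

instance pointOfPlace_isPrime (hmem : ∀ b : B, chartRed B V hBV ρ b ∈ Q.toValuationSubring) :
    (pointOfPlace B V ρ Q hmem).IsPrime :=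
  Ideal.comap_isPrime _ _

/-- elements of the kernel of the reduction lie in the point -/
theorem mem_pointOfPlace_of_eq_zero
    (hmem : ∀ b : B, chartRed B V hBV ρ b ∈ Q.toValuationSubring) {b : B}
    (hb : chartRed B V hBV ρ b = 0) : b ∈ pointOfPlace B V ρ Q hmem := by
  rw [mem_pointOfPlace]
  have : (⟨chartRed B V hBV ρ b, hmem b⟩ : Q.toValuationSubring) = 0 := Subtype.ext hb
  rw [this]
  exact Ideal.zero_mem _

/-- `ρ` maps the complement of the point into `O_Qˣ`. -/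
theorem inv_mem_of_not_mem_pointOfPlace
    (hmem : ∀ b : B, chartRed B V hBV ρ b ∈ Q.toValuationSubring) {b : B}
    (hb : b ∉ pointOfPlace B V ρ Q hmem) :
    (chartRed B V hBV ρ b)⁻¹ ∈ Q.toValuationSubring :=
  inv_mem_of_not_mem_maximalIdeal Q ⟨chartRed B V hBV ρ b, hmem b⟩ hb

theorem ne_zero_of_not_mem_pointOfPlace
    (hmem : ∀ b : B, chartRed B V hBV ρ b ∈ Q.toValuationSubring) {b : B}
    (hb : b ∉ pointOfPlace B V ρ Q hmem) : chartRed B V hBV ρ b ≠ 0 :=
  fun h => hb (mem_pointOfPlace_of_eq_zero B V ρ Q hmem h)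

/-- **The point of a place is a closed point** when the residue field of `Q` is `k` and the
constants of `R` reduce onto `k`. -/
theorem pointOfPlace_isMaximal
    (hmem : ∀ b : B, chartRed B V hBV ρ b ∈ Q.toValuationSubring)
    (hQ : Function.Surjective (algebraMap k Q.ResidueField))
    (hsurj : ∀ c : k, ∃ r : R, chartRed B V hBV ρ (algebraMap R B r) = algebraMap k κ c) :
    (pointOfPlace B V ρ Q hmem).IsMaximal := by
  set n := pointOfPlace B V ρ Q hmem with hn
  set φ := chartRedQ B V ρ Q hmem with hφ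
  rw [Ideal.isMaximal_iff]
  refine ⟨fun h1 => (pointOfPlace_isPrime B V ρ Q hmem).ne_top
    ((Ideal.eq_top_iff_one _).mpr h1), ?_⟩
  intro J b hnJ hb hbJ
  obtain ⟨c₀, hc₀⟩ := hQ (IsLocalRing.residue Q.toValuationSubring (φ b))
  have hc₀0 : c₀ ≠ 0 := by
    rintro rfl
    rw [map_zero] at hc₀
    exact hb ((IsLocalRing.residue_eq_zero_iff _).mp hc₀.symm)
  obtain ⟨r, hr⟩ := hsurj c₀⁻¹
  have hφr : φ (algebraMap R B r) = algebraMap k Q.toValuationSubring c₀⁻¹ :=
    Subtype.ext hr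
  have hres : IsLocalRing.residue Q.toValuationSubring (φ (b * algebraMap R B r) - 1) = 0 := by
    rw [map_sub, map_mul, map_mul, map_one, hφr, ← hc₀]
    have h2 : IsLocalRing.residue Q.toValuationSubring
        (algebraMap k Q.toValuationSubring c₀⁻¹) = algebraMap k Q.ResidueField c₀⁻¹ := rfl
    rw [h2, ← map_mul, mul_inv_cancel₀ hc₀0, map_one, sub_self]
  have hmemn : b * algebraMap R B r - 1 ∈ n := by
    show φ (b * algebraMap R B r - 1) ∈ IsLocalRing.maximalIdeal _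
    rw [map_sub, map_one]
    exact (IsLocalRing.residue_eq_zero_iff _).mp hres
  have h3 : b * algebraMap R B r ∈ J := J.mul_mem_right _ hbJ
  have h4 : b * algebraMap R B r - (b * algebraMap R B r - 1) ∈ J :=
    J.sub_mem h3 (hnJ hmemn)
  simpa using h4

/-- **Purity at the point of `Q` ⇒ `m ∣ ord_Q`.**  If `u · d ^ m` is a unit of `B_n` at the point
`n` of `Q`, with `u, d ∈ Vˣ`, then `m ∣ ord_Q (ρ u)`. -/
theorem dvd_ord_of_locUnit
    (hmem : ∀ b : B, chartRed B V hBV ρ b ∈ Q.toValuationSubring)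
    (m : ℕ) {u d : F} (hu : u ∈ V) (hd : d ∈ V) (hd' : d⁻¹ ∈ V) (hd0 : d ≠ 0)
    (hpure : Fermat.Agent.A2.Alg.LocUnit B (pointOfPlace B V ρ Q hmem) (u * d ^ m)) :
    (m : ℤ) ∣ Q.ord (ρ ⟨u, hu⟩) := by
  obtain ⟨a, b, ha, hb, hab⟩ := hpure
  -- apply `ρ` to `u * d ^ m * b = a`
  have h1 : ρ ⟨u, hu⟩ * ρ ⟨d, hd⟩ ^ m * chartRed B V hBV ρ b = chartRed B V hBV ρ a := by
    rw [chartRed_apply, chartRed_apply, ← map_pow, ← map_mul, ← map_mul]
    congr 1
    exact Subtype.ext hab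
  have hρd : ρ ⟨d, hd⟩ ≠ 0 := by
    intro h0
    have h2 : ρ (⟨d, hd⟩ * ⟨d⁻¹, hd'⟩) = 1 := by
      have : (⟨d, hd⟩ * ⟨d⁻¹, hd'⟩ : V) = 1 := Subtype.ext (mul_inv_cancel₀ hd0)
      rw [this, map_one]
    rw [map_mul, h0, zero_mul] at h2
    exact zero_ne_one h2
  have hρa := ne_zero_of_not_mem_pointOfPlace B V ρ Q hmem ha
  have hρb := ne_zero_of_not_mem_pointOfPlace B V ρ Q hmem hb
  have hρu : ρ ⟨u, hu⟩ ≠ 0 := by
    intro h0
    rw [h0, zero_mul, zero_mul] at h1
    exact hρa h1.symm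
  have ha0 : Q.ord (chartRed B V hBV ρ a) = 0 :=
    ord_eq_zero_of_mem_of_inv_mem Q (hmem a) (inv_mem_of_not_mem_pointOfPlace B V ρ Q hmem ha) hρa
  have hb0 : Q.ord (chartRed B V hBV ρ b) = 0 :=
    ord_eq_zero_of_mem_of_inv_mem Q (hmem b) (inv_mem_of_not_mem_pointOfPlace B V ρ Q hmem hb) hρb
  have h3 := congrArg Q.ord h1
  rw [Q.ord_mul (mul_ne_zero hρu (pow_ne_zero _ hρd)) hρb, Q.ord_mul hρu (pow_ne_zero _ hρd),
    ha0, hb0, add_zero] at h3
  have h4 : Q.ord (ρ ⟨d, hd⟩ ^ m) = m * Q.ord (ρ ⟨d, hd⟩) := by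
    have := Q.ord_zpow (ρ ⟨d, hd⟩) (m : ℤ)
    rwa [zpow_natCast] at this
  rw [h4] at h3
  exact ⟨-Q.ord (ρ ⟨d, hd⟩), by linarith⟩

end Place

end Core

end Fermat.Agent.Ribet.H399.Dict

end
-- ===== PACK-END Ribet/H399/CuspDict.lean

-- ===== PACK-BEGIN S36/H756/WireAbs.lean
section





/-!
# S36 engine, cell DESC-WIRE (owner helper756) — generic lemmas

`G ≤ Gal(Q̄/ℚ)` any subgroup, `E = fixedField G`, `F_E = laurentBaseChange E F₀`,
`F̄ = laurentBaseChange Q̄ F₀`, `ι = A2.T1.H669.iota E F₀ : F_E → F̄`.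

* `act_iota` : elements of `ι F_E` are `G`-fixed.
* `exists_iota_eq_of_fixed` : `G`-fixed elements of `F̄` lie in `ι F_E` (T4).
* `descend_const_mul_pow` : if `ι g = c · H ^ m` (`c ∈ Q̄ˣ`, `H ∈ F̄ˣ`, `m > 0`) then
  `g = c₁ · h ^ m` with `c₁ ∈ Eˣ`, `h ∈ F_Eˣ`.
* `pow_primePow_of_pow` : `f ^ C = w ^ (p ^ n)`, `C ≠ 0` ⟹ `f ^ (p ^ v_p(C))` is a `p ^ n`-th
  power.
-/

set_option autoImplicit false
set_option synthInstance.maxHeartbeats 400000
set_option maxHeartbeats 1600000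

noncomputable section

namespace Fermat.Agent.S36.H756

open ModularCurve HahnSeries IntermediateField
open Fermat.Agent.S18.H602 (DescendsTo)
open Fermat.Agent.A2.T1.H669 (iota)

local notation "Q̄" => AlgebraicClosure ℚ

section Iota

variable {F₀ : IntermediateField ℚ (LaurentSeries ℚ)} (G : Subgroup (Q̄ ≃ₐ[ℚ] Q̄))

/-- Elements defined over the fixed field are fixed. -/
theorem act_iota {τ : Q̄ ≃ₐ[ℚ] Q̄} (hτ : τ ∈ G)
    (x : laurentBaseChange (IntermediateField.fixedField G) F₀) :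
    arithmeticRingAut F₀ τ (iota (IntermediateField.fixedField G) F₀ x)
      = iota (IntermediateField.fixedField G) F₀ x := by
  apply Subtype.ext
  show coeffMap (τ : Q̄ →+* Q̄) (coeffMap (algebraMap (IntermediateField.fixedField G) Q̄)
      (x : LaurentSeries (IntermediateField.fixedField G)))
    = coeffMap (algebraMap (IntermediateField.fixedField G) Q̄)
      (x : LaurentSeries (IntermediateField.fixedField G))
  rw [coeffMap_coeffMap]
  refine coeffMap_congr (RingHom.ext fun e => ?_) _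
  exact (IntermediateField.mem_fixedField_iff G (e : Q̄)).1 e.2 τ hτ

/-- **T4, `iota` form.** -/
theorem exists_iota_eq_of_fixed (f : laurentBaseChange Q̄ F₀)
    (hfix : ∀ τ ∈ G, arithmeticRingAut F₀ τ f = f) :
    ∃ y : laurentBaseChange (IntermediateField.fixedField G) F₀,
      iota (IntermediateField.fixedField G) F₀ y = f := by
  obtain ⟨y, hy, hyf⟩ := descendsTo_fixedField_of_fixed G f hfix
  exact ⟨⟨y, hy⟩, Subtype.ext hyf⟩

theorem iota_algebraMap_E (c : IntermediateField.fixedField G) :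
    iota (IntermediateField.fixedField G) F₀
        (algebraMap (IntermediateField.fixedField G)
          (laurentBaseChange (IntermediateField.fixedField G) F₀) c)
      = algebraMap Q̄ (laurentBaseChange Q̄ F₀) (c : Q̄) := by
  apply Subtype.ext
  show coeffMap (algebraMap (IntermediateField.fixedField G) Q̄)
      (algebraMap (IntermediateField.fixedField G)
        (LaurentSeries (IntermediateField.fixedField G)) c)
    = algebraMap Q̄ (LaurentSeries Q̄) (c : Q̄)
  rw [Fermat.Agent.S18.H602.coeffMap_algebraMap']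
  rfl

/-- The leading coefficient of `ι g` is (the image of) the leading coefficient of `g`. -/
theorem lcK_iota (g : laurentBaseChange (IntermediateField.fixedField G) F₀) :
    lcK F₀ (iota (IntermediateField.fixedField G) F₀ g)
      = iota (IntermediateField.fixedField G) F₀
          (algebraMap (IntermediateField.fixedField G)
            (laurentBaseChange (IntermediateField.fixedField G) F₀)
            (g : LaurentSeries (IntermediateField.fixedField G)).leadingCoeff) := by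
  rw [iota_algebraMap_E, lcK_apply]
  congr 1
  exact leadingCoeff_coeffMap _ (algebraMap (IntermediateField.fixedField G) Q̄).injective _

/-- **Descent of `constant × m-th power`.** -/
theorem descend_const_mul_pow {m : ℕ} (hm : 0 < m)
    (g : laurentBaseChange (IntermediateField.fixedField G) F₀) (c : Q̄)
    (H : laurentBaseChange Q̄ F₀) (hc : c ≠ 0) (hH : H ≠ 0)
    (h : iota (IntermediateField.fixedField G) F₀ g
      = algebraMap Q̄ (laurentBaseChange Q̄ F₀) c * H ^ m) :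
    ∃ (c₁ : IntermediateField.fixedField G)
      (h₁ : laurentBaseChange (IntermediateField.fixedField G) F₀), c₁ ≠ 0 ∧ h₁ ≠ 0 ∧
      g = algebraMap (IntermediateField.fixedField G)
        (laurentBaseChange (IntermediateField.fixedField G) F₀) c₁ * h₁ ^ m := by
  set ι := iota (IntermediateField.fixedField G) F₀ with hι
  have hcK : algebraMap Q̄ (laurentBaseChange Q̄ F₀) c ≠ 0 := by simpa using hc
  have hg0 : g ≠ 0 := by
    rintro rfl
    rw [map_zero] at h
    exact mul_ne_zero hcK (pow_ne_zero m hH) h.symm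
  have hlH : lcK F₀ H ≠ 0 := lcK_ne_zero hH
  -- the normalised root
  obtain ⟨H₁, hH₁⟩ : ∃ H₁ : laurentBaseChange Q̄ F₀, H₁ = (lcK F₀ H)⁻¹ * H := ⟨_, rfl⟩
  have hH₁0 : H₁ ≠ 0 := by
    rw [hH₁]
    exact mul_ne_zero (inv_ne_zero hlH) hH
  have hlH₁ : lcK F₀ H₁ = 1 := by
    rw [hH₁, map_mul, map_inv₀, lcK_lcK, inv_mul_cancel₀ hlH]
  -- the constant
  set c₁ : IntermediateField.fixedField G :=
    (g : LaurentSeries (IntermediateField.fixedField G)).leadingCoeff with hc₁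
  have hc₁0 : c₁ ≠ 0 := by
    rw [hc₁]
    exact HahnSeries.leadingCoeff_ne_zero.2 fun h0 => hg0 (Subtype.ext h0)
  set C₁ := algebraMap (IntermediateField.fixedField G)
    (laurentBaseChange (IntermediateField.fixedField G) F₀) c₁ with hC₁
  have hC₁0 : C₁ ≠ 0 := by
    rw [hC₁]
    simpa using hc₁0
  have hιC₁0 : ι C₁ ≠ 0 := Fermat.Agent.A2.T1.H669.iota_ne_zero _ F₀ hC₁0
  have hlc : ι C₁ = algebraMap Q̄ (laurentBaseChange Q̄ F₀) c * (lcK F₀ H) ^ m := by
    have h1 := congrArg (lcK F₀) h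
    rw [lcK_iota, map_mul, lcK_algebraMap, map_pow] at h1
    exact h1
  have hpow : H₁ ^ m = ι (C₁⁻¹ * g) := by
    rw [map_mul, map_inv₀, h, hlc, hH₁, mul_pow, inv_pow]
    have : lcK F₀ H ^ m ≠ 0 := pow_ne_zero m hlH
    field_simp
  -- `H₁` is fixed
  have hfix : ∀ τ ∈ G, arithmeticRingAut F₀ τ H₁ = H₁ := by
    intro τ hτ
    refine fixed_of_pow_fixed hm τ H₁ ?_ ?_
    · rw [hlH₁, map_one]
    · rw [hpow]
      exact act_iota G hτ _
  obtain ⟨h₁, hh₁⟩ := exists_iota_eq_of_fixed G H₁ hfix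
  have hh₁0 : h₁ ≠ 0 := by
    rintro rfl
    rw [map_zero] at hh₁
    exact hH₁0 hh₁.symm
  refine ⟨c₁, h₁, hc₁0, hh₁0, ?_⟩
  apply Fermat.Agent.A2.T1.H669.iota_injective _ F₀
  rw [map_mul, map_pow, hh₁, hpow, map_mul, map_inv₀, mul_inv_cancel_left₀ hιC₁0]

end Iota

section Bezout

variable {F : Type*} [Field F]

theorem zpow_pow_comm' (w : F) (m : ℕ) (u : ℤ) : (w ^ m) ^ u = (w ^ u) ^ m := by
  rw [← zpow_natCast w m, ← zpow_natCast (w ^ u) m, ← zpow_mul, ← zpow_mul, mul_comm]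

/-- If `f ^ C` is a `p ^ n`-th power (`C ≠ 0`), then `f ^ (p ^ v_p(C))` is a `p ^ n`-th power. -/
theorem pow_primePow_of_pow {p : ℕ} (hp : p.Prime) {C : ℕ} (hC : C ≠ 0) (n : ℕ) {f w : F}
    (hf : f ≠ 0) (h : f ^ C = w ^ (p ^ n)) :
    ∃ y : F, y ≠ 0 ∧ f ^ (p ^ (C.factorization p)) = y ^ (p ^ n) := by
  obtain ⟨k, hk⟩ : ∃ k, k = C.factorization p := ⟨_, rfl⟩
  rw [← hk]
  obtain ⟨C', hC'⟩ : p ^ k ∣ C := hk ▸ Nat.ordProj_dvd C p
  have hC'p : ¬ p ∣ C' := by
    have := Nat.not_dvd_ordCompl hp hC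
    have e : C / p ^ k = C' := by
      rw [hC', Nat.mul_div_cancel_left _ (pow_pos hp.pos k)]
    rwa [← hk, e] at this
  have hcop : Nat.Coprime C' (p ^ n) :=
    Nat.Coprime.pow_right n ((Nat.Prime.coprime_iff_not_dvd hp).2 hC'p).symm
  obtain ⟨m, hm⟩ : ∃ m, m = p ^ n := ⟨_, rfl⟩
  rw [← hm] at hcop h ⊢
  obtain ⟨u, v, hbez⟩ : ∃ u v : ℤ, (C' : ℤ) * u + (m : ℤ) * v = 1 := by
    refine ⟨Nat.gcdA C' m, Nat.gcdB C' m, ?_⟩
    have := Nat.gcd_eq_gcd_ab C' m
    rw [hcop.gcd_eq_one] at this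
    exact_mod_cast this.symm
  have hm0 : m ≠ 0 := by rw [hm]; exact (pow_pos hp.pos n).ne'
  have hw : w ≠ 0 := by
    rintro rfl
    rw [zero_pow hm0] at h
    exact pow_ne_zero C hf h
  obtain ⟨g, hg⟩ : ∃ g, g = f ^ (p ^ k) := ⟨_, rfl⟩
  rw [← hg]
  have hg0 : g ≠ 0 := by rw [hg]; exact pow_ne_zero _ hf
  have hgC : g ^ C' = w ^ m := by rw [hg, ← pow_mul, ← hC', h]
  refine ⟨w ^ u * g ^ v, mul_ne_zero (zpow_ne_zero u hw) (zpow_ne_zero v hg0), ?_⟩
  calc g = g ^ (1 : ℤ) := (zpow_one g).symm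
    _ = g ^ ((C' : ℤ) * u + (m : ℤ) * v) := by rw [hbez]
    _ = (g ^ C') ^ u * (g ^ m) ^ v := by
        rw [zpow_add₀ hg0, zpow_mul, zpow_mul, zpow_natCast, zpow_natCast]
    _ = (w ^ m) ^ u * (g ^ m) ^ v := by rw [hgC]
    _ = (w ^ u * g ^ v) ^ m := by rw [mul_pow, zpow_pow_comm', zpow_pow_comm']

end Bezout

end Fermat.Agent.S36.H756

end
end
-- ===== PACK-END S36/H756/WireAbs.lean

-- ===== PACK-BEGIN Ribet/H819/PerInst.lean
section



/-!
# Row 38, WALL-p, crux (I6), leaf INST-D: PER instantiated on `L = F₁(u, h)` (helper819)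

`c : PerCtx K` (`PerField.lean`).  For a Kummer generator `f ∈ F₂ = F₁(u)` of `x` with
`σ f = f · c₀ · (h G) ^ p` (`G ∈ F₂`, `c₀` a constant) — this is `σ x = x + t` — the PERIOD
package `H704.I6.period_proved` gives `f' , G₂ ∈ Fc = F₁(h)` (the function field of the cover,
over the TAME level `E₁`) and `b ∈ L` with

  `f = lc f · f' · b ^ p`,     `τ f' = f' · u ^ p · G₂ ^ p`     (`τ` = deck transformation).
-/

set_option autoImplicit false
set_option linter.unusedSectionVars false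
set_option linter.style.haveILetI false

noncomputable section

namespace Fermat.Agent.Ribet.H819

open ModularCurve HahnSeries

namespace PerCtx

variable {K : Type} [Field K] (c : PerCtx K)

/-- **PER, instantiated.** -/
theorem period (f G c₀ : ↥c.L) (hf0 : f ≠ 0) (hf : (f : LaurentSeries K) ∈ c.F₂)
    (hG : (G : LaurentSeries K) ∈ c.F₂) (hc₀ : c.lc c₀ = c₀)
    (hσf : c.sigma f = f * c₀ * (c.hL * G) ^ c.p) :
    ∃ f' b G₂ : ↥c.L, f' ≠ 0 ∧ b ≠ 0 ∧ G₂ ≠ 0 ∧ (f' : LaurentSeries K) ∈ c.Fc ∧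
      (G₂ : LaurentSeries K) ∈ c.Fc ∧ f = c.lc f * f' * b ^ c.p ∧
      c.tau f' = f' * c.uL ^ c.p * G₂ ^ c.p := by
  have hτH : c.tauR (c.hL * G) = c.zL * (c.hL * G) := by
    rw [map_mul, tauR_apply, tauR_apply, c.tau_hL, c.tau_of_mem_F₂ G hG, mul_assoc]
  obtain ⟨f', b, G₂, hf'0, hb0, hG0, hσf', hfeq, hσG, hτf'⟩ :=
    Fermat.Agent.Ribet.H704.I6.period_proved ↥c.L c.p c.hp c.sigma c.tauR c.sigma_tau
      c.sigma_pow c.sigma_ne_one c.zL c.zL_isPrimitiveRoot c.lc c.lc_lc c.lc_sigma c.tau_lc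
      c.lc_zL f (c.hL * G) c₀ hf0 hc₀ (c.tau_of_mem_F₂ f hf) hτH hσf c.uL c.uL_ne_zero
      c.sigma_uL
  exact ⟨f', b, G₂, hf'0, hb0, hG0, c.mem_Fc_of_sigma_eq f' hσf', c.mem_Fc_of_sigma_eq G₂ hσG,
    hfeq, hτf'⟩

end PerCtx

end Fermat.Agent.Ribet.H819

end

end
-- ===== PACK-END Ribet/H819/PerInst.lean

-- ===== PACK-BEGIN Ribet/H769/HorDesc.lean
section



/-!
# RIBET row 38, CORE-OUT WILD, `WildFrame` piece HOR-DESC (helper769)

Abstract descent of horizontal `p`-divisibility along a constant-field extension.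

Fields `E₁ ⊆ L₁` and `E₂ ⊆ K₂`, a field `L₂` over `K₂` and over `L₁`, generated over `L₁` by
elements algebraic over `E₁` (e.g. by the constants of `E₂`).  If `f₂ ∈ K₂` is horizontally
`p`-divisible (`A2.DivisibleDiv E₂ p f₂`) and `f₂ = lc · f' · b ^ p` in `L₂` with `lc ∈ E₂ˣ`,
`f' ∈ L₁`, `b ∈ L₂ˣ`, then `f'` is horizontally `p`-divisible on `L₁`
(`A2.DivisibleDiv E₁ p f'`) — the field `hf'_div` of `H704.CoreOut.WildFrame`.

Route: a discrete valuation ring `V` of `L₁` containing `E₁` extends to a discrete valuation ring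
`B` of `L₂` with the SAME uniformiser (`S18.H845.exists_dvr_extension`); `B ∩ K₂` is trivial or a
discrete valuation ring containing `E₂` (`comap_trivial_or_dvr769`); count valuations.
-/

set_option autoImplicit false
set_option linter.unusedSectionVars false
set_option linter.style.haveILetI false

namespace Fermat.Agent.Ribet.H769

open Polynomial

section Restrict

variable {K L : Type*} [Field K] [Field L]

/-- The valuation of `x` is `1` iff `x` is a unit of the valuation subring. -/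
theorem val_eq_one_iff769 (A : ValuationSubring K) (x : K) :
    A.valuation x = 1 ↔ x ∈ A ∧ x⁻¹ ∈ A ∧ x ≠ 0 := by
  constructor
  · intro h
    have hx0 : x ≠ 0 := by
      rintro rfl
      rw [map_zero] at h
      exact zero_ne_one h
    refine ⟨(A.valuation_le_one_iff x).mp h.le, ?_, hx0⟩
    apply (A.valuation_le_one_iff _).mp
    rw [map_inv₀, h, inv_one]
  · rintro ⟨h1, h2, h0⟩
    have h1' := (A.valuation_le_one_iff x).mpr h1
    have h2' := (A.valuation_le_one_iff _).mpr h2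
    rw [map_inv₀] at h2'
    have hv0 : A.valuation x ≠ 0 := (Valuation.ne_zero_iff _).mpr h0
    have h3 : 1 ≤ A.valuation x := (inv_le_one₀ (zero_lt_iff.mpr hv0)).mp h2'
    exact le_antisymm h1' h3

/-- Units of the restriction of a valuation subring to a subfield. -/
theorem comap_val_eq_one_iff769 (B : ValuationSubring L) (κ : K →+* L) (x : K) :
    (B.comap κ).valuation x = 1 ↔ B.valuation (κ x) = 1 := by
  rw [val_eq_one_iff769, val_eq_one_iff769, ValuationSubring.mem_comap,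
    ValuationSubring.mem_comap, map_inv₀]
  have : κ x ≠ 0 ↔ x ≠ 0 := by
    rw [Ne, Ne, map_eq_zero]
  rw [this]

/-- **Restriction of a discrete valuation to a subfield** is trivial or discrete. -/
theorem comap_trivial_or_dvr769 (B : ValuationSubring L) {ϖ : L} (hϖ0 : ϖ ≠ 0)
    (hϖ : B.valuation ϖ < 1)
    (hval : ∀ f : L, f ≠ 0 → ∃ k : ℤ, B.valuation f = B.valuation ϖ ^ k) (κ : K →+* L) :
    (∀ x : K, x ≠ 0 → B.valuation (κ x) = 1) ∨ IsDiscreteValuationRing (B.comap κ) := by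
  classical
  by_cases htriv : ∀ x : K, x ≠ 0 → B.valuation (κ x) = 1
  · exact Or.inl htriv
  right
  push Not at htriv
  obtain ⟨x, hx0, hx1⟩ := htriv
  set c := B.valuation ϖ with hc
  have hc0 : 0 < c := zero_lt_iff.mpr ((Valuation.ne_zero_iff _).mpr hϖ0)
  have hc1 : c ≠ 1 := hϖ.ne
  have hκ0 : ∀ y : K, y ≠ 0 → κ y ≠ 0 := fun y hy => (map_ne_zero κ).mpr hy
  -- a positive exponent occurs
  have hex : ∃ n : ℕ, 0 < n ∧ ∃ y : K, y ≠ 0 ∧ B.valuation (κ y) = c ^ (n : ℤ) := by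
    obtain ⟨k, hk⟩ := hval (κ x) (hκ0 x hx0)
    have hk0 : k ≠ 0 := by
      rintro rfl
      rw [zpow_zero] at hk
      exact hx1 hk
    rcases lt_or_gt_of_ne hk0 with hneg | hpos
    · refine ⟨(-k).toNat, by omega, x⁻¹, inv_ne_zero hx0, ?_⟩
      rw [map_inv₀, map_inv₀, hk, ← zpow_neg]
      congr 1
      omega
    · refine ⟨k.toNat, by omega, x, hx0, ?_⟩
      rw [hk]
      congr 1
      omega
  set d := Nat.find hex with hd
  obtain ⟨hdpos, y₀, hy₀, hy₀v⟩ := Nat.find_spec hex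
  have hmin : ∀ n : ℕ, n < d → ¬ (0 < n ∧ ∃ y : K, y ≠ 0 ∧ B.valuation (κ y) = c ^ (n : ℤ)) :=
    fun n hn => Nat.find_min hex hn
  have hdZ : (0 : ℤ) < (d : ℤ) := by exact_mod_cast hdpos
  -- the uniformiser of the restriction
  have hy₀lt : (B.comap κ).valuation y₀ < 1 := by
    have hle : (B.comap κ).valuation y₀ ≤ 1 := by
      rw [ValuationSubring.valuation_le_one_iff, ValuationSubring.mem_comap,
        ← ValuationSubring.valuation_le_one_iff, hy₀v]
      exact (zpow_le_one_iff_right_of_lt_one₀ hc0 hϖ).mpr hdZ.le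
    refine lt_of_le_of_ne hle ?_
    intro h1
    rw [comap_val_eq_one_iff769, hy₀v] at h1
    have := (zpow_eq_one_iff_right₀ hc0.le hc1).mp h1
    omega
  refine Fermat.Agent.S18.H845.isDiscreteValuationRing_of_val (B.comap κ) hy₀ hy₀lt ?_
  intro f hf
  obtain ⟨k, hk⟩ := hval (κ f) (hκ0 f hf)
  -- Euclidean division of `k` by `d`
  set m := k / (d : ℤ) with hm
  set r := k % (d : ℤ) with hr
  have hr0 : 0 ≤ r := Int.emod_nonneg _ hdZ.ne'
  have hrd : r < d := Int.emod_lt_of_pos _ hdZ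
  have hkr : k = d * m + r := (Int.mul_ediv_add_emod k d).symm
  -- the element `g = f * y₀ ^ (-m)` has exponent `r`
  have hgv : B.valuation (κ (f * y₀ ^ (-m))) = c ^ r := by
    rw [map_mul, map_zpow₀, map_mul, map_zpow₀, hk, hy₀v, ← zpow_mul, ← zpow_add₀ hc0.ne']
    congr 1
    rw [hkr]
    ring
  have hg0 : f * y₀ ^ (-m) ≠ 0 := mul_ne_zero hf (zpow_ne_zero _ hy₀)
  have hr_zero : r = 0 := by
    by_contra hne
    have hrpos : 0 < r := lt_of_le_of_ne hr0 (Ne.symm hne)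
    refine hmin r.toNat (by omega) ⟨by omega, f * y₀ ^ (-m), hg0, ?_⟩
    rw [hgv]
    congr 1
    omega
  refine ⟨m, ?_⟩
  rw [hr_zero, zpow_zero, ← comap_val_eq_one_iff769, map_mul, map_zpow₀] at hgv
  have hv0 : (B.comap κ).valuation y₀ ≠ 0 := (Valuation.ne_zero_iff _).mpr hy₀
  have h2 : (B.comap κ).valuation f
      = (B.comap κ).valuation f * (B.comap κ).valuation y₀ ^ (-m)
        * (B.comap κ).valuation y₀ ^ m := by
    rw [mul_assoc, ← zpow_add₀ hv0, neg_add_cancel, zpow_zero, mul_one]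
  rw [h2, hgv, one_mul]

end Restrict

section Main

variable {E₁ L₁ E₂ K₂ L₂ : Type*} [Field E₁] [CharZero E₁] [Field L₁] [Algebra E₁ L₁]
  [Field E₂] [Field K₂] [Algebra E₂ K₂] [Field L₂] [Algebra K₂ L₂] [Algebra L₁ L₂]

/-- **HOR-DESC** (abstract).  Descent of horizontal `p`-divisibility from `K₂` to `L₁` through
`L₂ = L₁(constants algebraic over E₁)`.  `S` is any set of generators of `L₂ / L₁` consisting of
elements integral (= algebraic) over `E₁`. -/
theorem horDesc769 (p : ℕ)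
    (hE₂ : ∀ e : E₂, ((algebraMap L₁ L₂).comp (algebraMap E₁ L₁)).IsIntegralElem
      (algebraMap K₂ L₂ (algebraMap E₂ K₂ e)))
    (S : Set L₂)
    (hS : ∀ α ∈ S, ((algebraMap L₁ L₂).comp (algebraMap E₁ L₁)).IsIntegralElem α)
    (hgen : IntermediateField.adjoin L₁ S = ⊤)
    {f₂ : K₂} (hdiv : Fermat.Agent.A2.DivisibleDiv E₂ p f₂)
    {f' : L₁} {lc : E₂} {b : L₂} (hlc : lc ≠ 0) (hb : b ≠ 0)
    (hf₂ : algebraMap K₂ L₂ f₂ =
      algebraMap K₂ L₂ (algebraMap E₂ K₂ lc) * algebraMap L₁ L₂ f' * b ^ p) :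
    Fermat.Agent.A2.DivisibleDiv E₁ p f' := by
  classical
  intro V hV hEV
  by_cases hf'0 : f' = 0
  · exact ⟨1, 0, one_ne_zero, V.zero_mem, by rw [inv_zero]; exact V.zero_mem, by
      rw [hf'0, zero_mul]⟩
  letI : Algebra E₁ L₂ := ((algebraMap L₁ L₂).comp (algebraMap E₁ L₁)).toAlgebra
  haveI : IsScalarTower E₁ L₁ L₂ := IsScalarTower.of_algebraMap_eq (fun _ => rfl)
  haveI := hV
  have halg_of : ∀ α : L₂, ((algebraMap L₁ L₂).comp (algebraMap E₁ L₁)).IsIntegralElem α →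
      IsAlgebraic E₁ α := fun α hα => IsIntegral.isAlgebraic hα
  have hgen' : IntermediateField.adjoin L₁ {α : L₂ | IsAlgebraic E₁ α} = ⊤ := by
    apply top_unique
    rw [← hgen]
    exact IntermediateField.adjoin.mono _ _ _ (fun α hα => halg_of α (hS α hα))
  obtain ⟨B, hcomap, -, hBalg, hBirr, hBval⟩ :=
    Fermat.Agent.S18.H845.exists_dvr_extension (E := E₁) (K := L₁) (L := L₂) V hEV hgen'
  obtain ⟨π, hπ⟩ := IsDiscreteValuationRing.exists_irreducible V
  obtain ⟨hπB, hπirr⟩ := hBirr π hπ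
  have hval := hBval π hπ
  set ι : L₁ →+* L₂ := algebraMap L₁ L₂ with hι
  set κ : K₂ →+* L₂ := algebraMap K₂ L₂ with hκ
  set c := B.valuation (ι (π : L₁)) with hc
  have hπ0 : ι (π : L₁) ≠ 0 := by
    rw [Ne, map_eq_zero]
    exact fun h => hπ.ne_zero (Subtype.ext h)
  have hc0 : 0 < c := zero_lt_iff.mpr ((Valuation.ne_zero_iff _).mpr hπ0)
  have hclt : c < 1 := by
    rcases B.valuation_lt_one_or_eq_one ⟨ι (π : L₁), hπB⟩ with h | h
    · exact h
    · exact absurd ((B.valuation_eq_one_iff _).mpr h) hπirr.not_isUnit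
  have hc1 : c ≠ 1 := hclt.ne
  have hmemV : ∀ z : L₁, z ∈ V ↔ ι z ∈ B := fun z => by
    rw [← hcomap, ValuationSubring.mem_comap]
  -- constants of `E₂` are units of `B`
  have hconst : ∀ e : E₂, κ (algebraMap E₂ K₂ e) ∈ B := fun e => hBalg _ (halg_of _ (hE₂ e))
  have hlcv : B.valuation (κ (algebraMap E₂ K₂ lc)) = 1 := by
    rw [val_eq_one_iff769]
    refine ⟨hconst lc, ?_, ?_⟩
    · rw [← map_inv₀, ← map_inv₀]
      exact hconst _
    · rw [Ne, map_eq_zero, map_eq_zero]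
      exact hlc
  -- `f₂ ≠ 0`
  have hιf' : ι f' ≠ 0 := by
    rw [Ne, map_eq_zero]
    exact hf'0
  have hκf₂ : κ f₂ ≠ 0 := by
    rw [hf₂]
    refine mul_ne_zero (mul_ne_zero ?_ hιf') (pow_ne_zero _ hb)
    rw [Ne, map_eq_zero, map_eq_zero]
    exact hlc
  have hf₂0 : f₂ ≠ 0 := fun h => hκf₂ (by rw [h, map_zero])
  -- the valuation of `f₂` is a `p`-th power
  have hf₂v : ∃ m : ℤ, B.valuation (κ f₂) = c ^ ((p : ℤ) * m) := by
    rcases comap_trivial_or_dvr769 B hπ0 hclt hval κ with htriv | hdvr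
    · exact ⟨0, by rw [mul_zero, zpow_zero]; exact htriv f₂ hf₂0⟩
    · obtain ⟨h₂, u₂, hh₂, hu₂, hu₂', hfu⟩ := hdiv (B.comap κ) hdvr
        (fun e => by rw [ValuationSubring.mem_comap]; exact hconst e)
      have hu₂0 : u₂ ≠ 0 := by
        rintro rfl
        rw [zero_mul] at hfu
        exact hf₂0 hfu
      have hu₂v : B.valuation (κ u₂) = 1 := by
        rw [← comap_val_eq_one_iff769, val_eq_one_iff769]
        exact ⟨hu₂, hu₂', hu₂0⟩
      obtain ⟨m, hm⟩ := hval (κ h₂) ((map_ne_zero κ).mpr hh₂)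
      refine ⟨m, ?_⟩
      rw [hfu, map_mul, map_mul, hu₂v, one_mul, map_pow, map_pow, hm, ← zpow_natCast,
        ← zpow_mul, mul_comm]
  obtain ⟨m, hm⟩ := hf₂v
  obtain ⟨k, hk⟩ := hval (ι f') hιf'
  obtain ⟨j, hj⟩ := hval b hb
  -- `k = p * (m - j)`
  have hkey : k = (p : ℤ) * (m - j) := by
    have h1 : B.valuation (κ f₂) = c ^ (k + j * p) := by
      rw [hf₂, map_mul, map_mul, hlcv, one_mul, hk, map_pow, hj, ← zpow_natCast, ← zpow_mul,
        ← zpow_add₀ hc0.ne']
    rw [hm] at h1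
    have h2 := (zpow_right_inj₀ hc0 hc1).mp h1
    linarith
  -- the decomposition
  set n := m - j with hn
  refine ⟨(π : L₁) ^ n, f' * ((π : L₁) ^ n)⁻¹ ^ p, ?_, ?_, ?_, ?_⟩
  · exact zpow_ne_zero _ (fun h => hπ.ne_zero (Subtype.ext h))
  · rw [hmemV, ← ValuationSubring.valuation_le_one_iff]
    apply le_of_eq
    rw [map_mul, map_mul, map_pow, map_pow, map_inv₀, map_inv₀, map_zpow₀, map_zpow₀, hk,
      ← hc, hkey, ← zpow_neg, ← zpow_natCast, ← zpow_mul, ← zpow_add₀ hc0.ne']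
    rw [show (p : ℤ) * n + -n * (p : ℤ) = 0 by ring, zpow_zero]
  · rw [hmemV, ← ValuationSubring.valuation_le_one_iff]
    apply le_of_eq
    rw [map_inv₀, map_inv₀, map_mul, map_mul, map_pow, map_pow, map_inv₀, map_inv₀, map_zpow₀,
      map_zpow₀, hk, ← hc, hkey, ← zpow_neg, ← zpow_natCast, ← zpow_mul,
      ← zpow_add₀ hc0.ne', ← zpow_neg]
    rw [show -((p : ℤ) * n + -n * (p : ℤ)) = 0 by ring, zpow_zero]
  · have hπ0' : (π : L₁) ^ n ≠ 0 := zpow_ne_zero _ (fun h => hπ.ne_zero (Subtype.ext h))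
    rw [inv_pow, mul_assoc, inv_mul_cancel₀ (pow_ne_zero _ hπ0'), mul_one]

end Main

/-- Constants algebraic over `ℚ` are integral over any field `E₁` of characteristic zero, for ANY
pair of ring homomorphisms `E₁ → L₂`, `E₂ → L₂` (ring homomorphisms out of `ℚ` are unique). -/
theorem isIntegralElem_of_isAlgebraic_rat769 {E₁ E₂ L₂ : Type*} [Field E₁] [CharZero E₁]
    [Field E₂] [Algebra ℚ E₂] [Field L₂] (φ : E₁ →+* L₂) (ψ : E₂ →+* L₂) {e : E₂}
    (he : IsAlgebraic ℚ e) : φ.IsIntegralElem (ψ e) := by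
  obtain ⟨P, hP, hPe⟩ := he.isIntegral
  refine ⟨P.map (algebraMap ℚ E₁), hP.map _, ?_⟩
  rw [Polynomial.eval₂_map]
  have hhom : φ.comp (algebraMap ℚ E₁) = ψ.comp (algebraMap ℚ E₂) := Subsingleton.elim _ _
  rw [hhom, ← Polynomial.hom_eval₂, hPe, map_zero]

section Frame

variable {E₁ K₁ L₁ E₂ K₂ L₂ : Type*} [Field E₁] [CharZero E₁] [Field K₁] [Field L₁]
  [Algebra E₁ L₁] [Field E₂] [Field K₂] [Algebra E₂ K₂] [Field L₂] [Algebra K₂ L₂]
  [Algebra L₁ L₂] [Algebra K₁ K₂] [Algebra K₁ L₁] [Algebra K₁ L₂]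
  [IsScalarTower K₁ K₂ L₂] [IsScalarTower K₁ L₁ L₂]

/-- If `K₂ = K₁(constants of E₂)` and `L₂ = K₂(h)` with `h ∈ L₁`, then `L₂` is generated over
`L₁` by the constants of `E₂`. -/
theorem adjoin_const_eq_top769
    (hK₂ : IntermediateField.adjoin K₁ (Set.range (algebraMap E₂ K₂)) = ⊤)
    (h : L₁) (hadj₂ : IntermediateField.adjoin K₂ ({algebraMap L₁ L₂ h} : Set L₂) = ⊤) :
    IntermediateField.adjoin L₁
      (Set.range ((algebraMap K₂ L₂).comp (algebraMap E₂ K₂))) = ⊤ := by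
  set T : IntermediateField L₁ L₂ :=
    IntermediateField.adjoin L₁ (Set.range ((algebraMap K₂ L₂).comp (algebraMap E₂ K₂))) with hT
  -- the image of `K₂` lies in `T`
  have hK₂T : ∀ z : K₂, algebraMap K₂ L₂ z ∈ T := by
    intro z
    have hz : z ∈ IntermediateField.adjoin K₁ (Set.range (algebraMap E₂ K₂)) := by
      rw [hK₂]; exact IntermediateField.mem_top
    induction hz using IntermediateField.adjoin_induction with
    | mem x hx =>
      obtain ⟨e, rfl⟩ := hx
      exact IntermediateField.subset_adjoin L₁ _ ⟨e, rfl⟩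
    | algebraMap x =>
      rw [← IsScalarTower.algebraMap_apply K₁ K₂ L₂, IsScalarTower.algebraMap_apply K₁ L₁ L₂]
      exact T.algebraMap_mem _
    | add x y _ _ hx hy => rw [map_add]; exact T.add_mem hx hy
    | inv x _ hx => rw [map_inv₀]; exact T.inv_mem hx
    | mul x y _ _ hx hy => rw [map_mul]; exact T.mul_mem hx hy
  have key : ∀ z : L₂, z ∈ T := by
    intro z
    have hz : z ∈ IntermediateField.adjoin K₂ ({algebraMap L₁ L₂ h} : Set L₂) := by
      rw [hadj₂]; exact IntermediateField.mem_top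
    induction hz using IntermediateField.adjoin_induction with
    | mem x hx =>
      rw [Set.mem_singleton_iff] at hx
      rw [hx]
      exact T.algebraMap_mem _
    | algebraMap x => exact hK₂T x
    | add x y _ _ hx hy => exact T.add_mem hx hy
    | inv x _ hx => exact T.inv_mem hx
    | mul x y _ _ hx hy => exact T.mul_mem hx hy
  exact top_unique (fun z _ => key z)

/-- **HOR-DESC, frame form**: the field `hf'_div` of `H704.CoreOut.WildFrame` from
`DivisibleDiv E₂ p f₂`, the relation `hf₂`, `hadj₂`, and `K₂ = K₁(constants of E₂)`. -/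
theorem horDesc_frame769 [Algebra ℚ E₂] (halgE₂ : Algebra.IsAlgebraic ℚ E₂) (p : ℕ)
    (hK₂ : IntermediateField.adjoin K₁ (Set.range (algebraMap E₂ K₂)) = ⊤)
    (h : L₁) (hadj₂ : IntermediateField.adjoin K₂ ({algebraMap L₁ L₂ h} : Set L₂) = ⊤)
    {f₂ : K₂} (hdiv : Fermat.Agent.A2.DivisibleDiv E₂ p f₂)
    {f' : L₁} {lc : E₂} {b : L₂} (hlc : lc ≠ 0) (hb : b ≠ 0)
    (hf₂ : algebraMap K₂ L₂ f₂ =
      algebraMap K₂ L₂ (algebraMap E₂ K₂ lc) * algebraMap L₁ L₂ f' * b ^ p) :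
    Fermat.Agent.A2.DivisibleDiv E₁ p f' := by
  have hE₂ : ∀ e : E₂, ((algebraMap L₁ L₂).comp (algebraMap E₁ L₁)).IsIntegralElem
      (algebraMap K₂ L₂ (algebraMap E₂ K₂ e)) := fun e =>
    isIntegralElem_of_isAlgebraic_rat769 ((algebraMap L₁ L₂).comp (algebraMap E₁ L₁))
      ((algebraMap K₂ L₂).comp (algebraMap E₂ K₂)) (halgE₂.isAlgebraic e)
  refine horDesc769 p hE₂ (Set.range ((algebraMap K₂ L₂).comp (algebraMap E₂ K₂))) ?_
    (adjoin_const_eq_top769 hK₂ h hadj₂) hdiv hlc hb hf₂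
  rintro α ⟨e, rfl⟩
  exact hE₂ e

end Frame

end Fermat.Agent.Ribet.H769

end
-- ===== PACK-END Ribet/H769/HorDesc.lean

-- ===== PACK-BEGIN A2/H549/Desc.lean
section




/-!
# A2 / DESC (concrete part): the arithmetic Galois action on the concrete S18 objects

`Ω = Om N = modularFunctionFieldBar N`, `g_σ = arithmeticRingAut σ` (action through coefficients).

* T1 `galOm_mem_Ec`, `galOm_mem_Fc`, `galOm_jd`      : `σ E ⊆ E` ⟹ `g_σ` preserves `Ec`, `Fc`.
* T2 `galOm_mem_Rc`, `galOm_mem_VcSet`               : `σ` in the decomposition group of `A`.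
* T3 `galOm_sub_mem_McRc`, `galOm_sub_mem_McSet`     : `σ` in the inertia group of `A`:
     `g_σ r - r` is a non-unit constant, `g_σ f - f` lies in the maximal ideal `McSet` of `VcSet`.
-/

set_option autoImplicit false

noncomputable section

namespace Fermat.Agent.A2.H549

open ModularCurve AlgebraicCurve HahnSeries Fermat.Agent.S18 Fermat.Agent.S18.Mod

variable (N : ℕ)

/-- the Galois action on `Ω = Om N` through the coefficients -/
abbrev galOm (σ : _root_.Fermat.Agent.S18.Qb ≃ₐ[ℚ] _root_.Fermat.Agent.S18.Qb) : Om N ≃+* Om N :=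
  arithmeticRingAut (modularFunctionFieldFull N) σ

theorem coe_galOm (σ : _root_.Fermat.Agent.S18.Qb ≃ₐ[ℚ] _root_.Fermat.Agent.S18.Qb) (f : Om N) :
    ((galOm N σ f : Om N) : LaurentSeries _root_.Fermat.Agent.S18.Qb) = coeffMap (σ : _root_.Fermat.Agent.S18.Qb →+* _root_.Fermat.Agent.S18.Qb) (f : LaurentSeries _root_.Fermat.Agent.S18.Qb) :=
  rfl

theorem galOm_algebraMap (σ : _root_.Fermat.Agent.S18.Qb ≃ₐ[ℚ] _root_.Fermat.Agent.S18.Qb) (c : _root_.Fermat.Agent.S18.Qb) :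
    galOm N σ (algebraMap _root_.Fermat.Agent.S18.Qb (Om N) c) = algebraMap _root_.Fermat.Agent.S18.Qb (Om N) (σ c) :=
  arithmeticRingAut_algebraMap (modularFunctionFieldFull N) σ c

theorem galOm_jd (σ : _root_.Fermat.Agent.S18.Qb ≃ₐ[ℚ] _root_.Fermat.Agent.S18.Qb) (d : ℕ) [NeZero d] (hd : d ∣ N) :
    galOm N σ (jd N d hd) = jd N d hd := by
  apply Subtype.ext
  show coeffMap (σ : _root_.Fermat.Agent.S18.Qb →+* _root_.Fermat.Agent.S18.Qb) (coeffEmb _root_.Fermat.Agent.S18.Qb (qExpand ℚ d jq)) = _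
  rw [coeffMap_coeffEmb]
  rfl

theorem galOm_mem_Lc (σ : _root_.Fermat.Agent.S18.Qb ≃ₐ[ℚ] _root_.Fermat.Agent.S18.Qb) {f : Om N} (hf : f ∈ Lc N) : galOm N σ f ∈ Lc N := by
  obtain ⟨c, rfl⟩ := hf
  exact ⟨σ c, (galOm_algebraMap N σ c).symm⟩

/-- T1: `g_σ` preserves the constants from `E`. -/
theorem galOm_mem_Ec (σ : _root_.Fermat.Agent.S18.Qb ≃ₐ[ℚ] _root_.Fermat.Agent.S18.Qb) {E : IntermediateField ℚ _root_.Fermat.Agent.S18.Qb} (hE : ∀ a ∈ E, σ a ∈ E)
    {f : Om N} (hf : f ∈ Ec N E) : galOm N σ f ∈ Ec N E := by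
  obtain ⟨c, hc, rfl⟩ := hf
  exact ⟨σ c, hE c hc, (galOm_algebraMap N σ c).symm⟩

/-- T1: `g_σ` preserves `Fc = E(j_d)`. -/
theorem galOm_mem_Fc (σ : _root_.Fermat.Agent.S18.Qb ≃ₐ[ℚ] _root_.Fermat.Agent.S18.Qb) {E : IntermediateField ℚ _root_.Fermat.Agent.S18.Qb} (hE : ∀ a ∈ E, σ a ∈ E)
    {f : Om N} (hf : f ∈ Fc N E) : galOm N σ f ∈ Fc N E := by
  have hle : Fc N E ≤ (Fc N E).comap (galOm N σ : Om N →+* Om N) := by
    refine Subfield.closure_le.mpr ?_
    rintro y (hy | hy)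
    · exact Subfield.subset_closure (Or.inl (galOm_mem_Ec N σ hE hy))
    · obtain ⟨d, hne, hd, rfl⟩ := hy
      show galOm N σ (jd N d hd) ∈ Fc N E
      rw [galOm_jd]
      exact Subfield.subset_closure (Or.inr ⟨d, hne, hd, rfl⟩)
  exact hle hf

/-- T2: `g_σ` preserves the constants from `A ∩ E` (`σ` in the decomposition group of `A`). -/
theorem galOm_mem_Rc {σ : _root_.Fermat.Agent.S18.Qb ≃ₐ[ℚ] _root_.Fermat.Agent.S18.Qb} {A : ValuationSubring _root_.Fermat.Agent.S18.Qb}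
    (hσ : σ ∈ A.decompositionSubgroup ℚ) {E : IntermediateField ℚ _root_.Fermat.Agent.S18.Qb} (hE : ∀ a ∈ E, σ a ∈ E)
    {f : Om N} (hf : f ∈ Rc N A E) : galOm N σ f ∈ Rc N A E := by
  obtain ⟨c, ⟨hcA, hcE⟩, rfl⟩ := hf
  exact ⟨σ c, ⟨H708.apply_mem_of_mem_decomposition A hσ hcA, hE c hcE⟩,
    (galOm_algebraMap N σ c).symm⟩


/-! ## Series over `A` -/

section series

variable {N}
variable {A : ValuationSubring _root_.Fermat.Agent.S18.Qb} {E : IntermediateField ℚ _root_.Fermat.Agent.S18.Qb}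

/-- the subring `A ∩ E` of `A` -/
def AE (A : ValuationSubring _root_.Fermat.Agent.S18.Qb) (E : IntermediateField ℚ _root_.Fermat.Agent.S18.Qb) : Subring A :=
  E.toSubfield.toSubring.comap A.subtype

theorem mem_AE {x : A} : x ∈ AE A E ↔ (x : _root_.Fermat.Agent.S18.Qb) ∈ E := Iff.rfl

/-- coefficients in `E` ⟺ the series comes from a series over `A ∩ E`. -/
theorem coeff_mem_iff_range (U : LaurentSeries A) :
    (∀ n : ℤ, ((U.coeff n : A) : _root_.Fermat.Agent.S18.Qb) ∈ E) ↔ U ∈ (coeffMap (AE A E).subtype).range := by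
  constructor
  · intro h
    obtain ⟨x, hx⟩ := H602.exists_coeffMap_eq (AE A E).subtype Subtype.val_injective U
      (fun n => ⟨⟨U.coeff n, h n⟩, rfl⟩)
    exact ⟨x, hx⟩
  · rintro ⟨x, rfl⟩ n
    exact (x.coeff n).2

theorem isIntE_mul {U U' : LaurentSeries A} (h : IsIntE N A E U) (h' : IsIntE N A E U') :
    IsIntE N A E (U * U') := by
  obtain ⟨h1, f, hf, hfU⟩ := h
  obtain ⟨h1', f', hf', hfU'⟩ := h'
  refine ⟨(coeff_mem_iff_range _).mpr
    (Subring.mul_mem _ ((coeff_mem_iff_range _).mp h1) ((coeff_mem_iff_range _).mp h1')),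
    f * f', (Fc N E).mul_mem hf hf', ?_⟩
  rw [map_mul, ← hfU, ← hfU']
  rfl

theorem isIntE_sub {U U' : LaurentSeries A} (h : IsIntE N A E U) (h' : IsIntE N A E U') :
    IsIntE N A E (U - U') := by
  obtain ⟨h1, f, hf, hfU⟩ := h
  obtain ⟨h1', f', hf', hfU'⟩ := h'
  refine ⟨(coeff_mem_iff_range _).mpr
    (Subring.sub_mem _ ((coeff_mem_iff_range _).mp h1) ((coeff_mem_iff_range _).mp h1')),
    f - f', (Fc N E).sub_mem hf hf', ?_⟩
  rw [map_sub, ← hfU, ← hfU']
  rfl

variable {σ : _root_.Fermat.Agent.S18.Qb ≃ₐ[ℚ] _root_.Fermat.Agent.S18.Qb}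

/-- the restriction of `σ` (in the decomposition group of `A`) to `A` -/
def sigA (hσ : σ ∈ A.decompositionSubgroup ℚ) : A →+* A where
  toFun x := ⟨σ x, H708.apply_mem_of_mem_decomposition A hσ x.2⟩
  map_one' := Subtype.ext (map_one σ)
  map_mul' x y := Subtype.ext (map_mul σ (x : _root_.Fermat.Agent.S18.Qb) (y : _root_.Fermat.Agent.S18.Qb))
  map_zero' := Subtype.ext (map_zero σ)
  map_add' x y := Subtype.ext (map_add σ (x : _root_.Fermat.Agent.S18.Qb) (y : _root_.Fermat.Agent.S18.Qb))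

@[simp]
theorem coe_sigA (hσ : σ ∈ A.decompositionSubgroup ℚ) (x : A) :
    ((sigA hσ x : A) : _root_.Fermat.Agent.S18.Qb) = σ x := rfl

theorem subtype_comp_sigA (hσ : σ ∈ A.decompositionSubgroup ℚ) :
    A.subtype.comp (sigA hσ) = (σ : _root_.Fermat.Agent.S18.Qb →+* _root_.Fermat.Agent.S18.Qb).comp A.subtype :=
  RingHom.ext fun _ => rfl

theorem coeffMap_subtype_sigA (hσ : σ ∈ A.decompositionSubgroup ℚ) (U : LaurentSeries A) :
    coeffMap A.subtype (coeffMap (sigA hσ) U)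
      = coeffMap (σ : _root_.Fermat.Agent.S18.Qb →+* _root_.Fermat.Agent.S18.Qb) (coeffMap A.subtype U) := by
  rw [coeffMap_coeffMap, coeffMap_coeffMap, subtype_comp_sigA]

theorem isUnit_sigA (hσ : σ ∈ A.decompositionSubgroup ℚ) {x : A} (hx : IsUnit x) :
    IsUnit (sigA hσ x) := hx.map (sigA hσ)

/-- the reduction of `σ U` is nonzero if that of `U` is. -/
theorem residue_sigA_ne_zero (hσ : σ ∈ A.decompositionSubgroup ℚ) {U : LaurentSeries A}
    (hU : coeffMap (IsLocalRing.residue A) U ≠ 0) :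
    coeffMap (IsLocalRing.residue A) (coeffMap (sigA hσ) U) ≠ 0 := by
  obtain ⟨n, hn⟩ : ∃ n, (coeffMap (IsLocalRing.residue A) U).coeff n ≠ 0 := by
    by_contra h
    simp only [not_exists, not_not] at h
    exact hU (HahnSeries.ext (funext h))
  rw [coeffMap_coeff, ne_eq, IsLocalRing.residue_eq_zero_iff,
    IsLocalRing.mem_maximalIdeal, mem_nonunits_iff, not_not] at hn
  intro h0
  have := congrArg (fun z => z.coeff n) h0
  simp only [coeffMap_coeff, HahnSeries.coeff_zero] at this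
  rw [IsLocalRing.residue_eq_zero_iff, IsLocalRing.mem_maximalIdeal, mem_nonunits_iff] at this
  exact this (isUnit_sigA hσ hn)

theorem isIntE_sigA (hσ : σ ∈ A.decompositionSubgroup ℚ) (hE : ∀ a ∈ E, σ a ∈ E)
    {U : LaurentSeries A} (hU : IsIntE N A E U) : IsIntE N A E (coeffMap (sigA hσ) U) := by
  obtain ⟨h1, f, hf, hfU⟩ := hU
  refine ⟨fun n => hE _ (h1 n), galOm N σ f, galOm_mem_Fc N σ hE hf, ?_⟩
  rw [coe_galOm, hfU, coeffMap_subtype_sigA]

/-- T2: `g_σ` preserves the Gauss valuation ring `VcSet`. -/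
theorem galOm_mem_VcSet (hσ : σ ∈ A.decompositionSubgroup ℚ) (hE : ∀ a ∈ E, σ a ∈ E)
    {f : Om N} (hf : f ∈ VcSet N A E) : galOm N σ f ∈ VcSet N A E := by
  obtain ⟨hfF, U₁, U₂, h₁, h₂, hred, heq⟩ := hf
  refine ⟨galOm_mem_Fc N σ hE hfF, coeffMap (sigA hσ) U₁, coeffMap (sigA hσ) U₂,
    isIntE_sigA hσ hE h₁, isIntE_sigA hσ hE h₂, residue_sigA_ne_zero hσ hred, ?_⟩
  rw [coe_galOm, coeffMap_subtype_sigA, coeffMap_subtype_sigA, ← map_mul, heq]

/-! ### The maximal ideal of the Gauss ring and the inertia group -/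

variable (N A E) in
/-- the maximal ideal of the Gauss valuation ring `VcSet`, as a set: quotients `U₁/U₂` of integral
series with `U₂ ≢ 0` and `U₁ ≡ 0` modulo the maximal ideal of `A`. -/
def McSet : Set (Om N) :=
  {f | f ∈ Fc N E ∧ ∃ U₁ U₂ : LaurentSeries A, IsIntE N A E U₁ ∧ IsIntE N A E U₂ ∧
    coeffMap (IsLocalRing.residue A) U₂ ≠ 0 ∧ coeffMap (IsLocalRing.residue A) U₁ = 0 ∧
    (f : LaurentSeries _root_.Fermat.Agent.S18.Qb) * coeffMap A.subtype U₂ = coeffMap A.subtype U₁}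

theorem McSet_subset_VcSet : McSet N A E ⊆ VcSet N A E := by
  rintro f ⟨hfF, U₁, U₂, h₁, h₂, hred, -, heq⟩
  exact ⟨hfF, U₁, U₂, h₁, h₂, hred, heq⟩

theorem coeffMap_subtype_injective :
    Function.Injective (coeffMap (A.subtype : A →+* _root_.Fermat.Agent.S18.Qb)) :=
  H602.coeffMap_injective _ Subtype.val_injective

/-- a nonzero element of the maximal ideal `McSet` is not a unit of `VcSet`. -/
theorem inv_not_mem_VcSet {f : Om N} (hf : f ∈ McSet N A E) (h0 : f ≠ 0) :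
    f⁻¹ ∉ VcSet N A E := by
  rintro ⟨-, W₁, W₂, -, -, hredW, heqW⟩
  obtain ⟨-, U₁, U₂, -, -, hredU, hU0, heqU⟩ := hf
  have hf0 : (f : LaurentSeries _root_.Fermat.Agent.S18.Qb) ≠ 0 := fun h => h0 (Subtype.ext h)
  have hinv : ((f⁻¹ : Om N) : LaurentSeries _root_.Fermat.Agent.S18.Qb) = (f : LaurentSeries _root_.Fermat.Agent.S18.Qb)⁻¹ := rfl
  have key : coeffMap A.subtype (U₂ * W₂) = coeffMap A.subtype (U₁ * W₁) := by
    rw [map_mul, map_mul, ← heqU, ← heqW, hinv]
    field_simp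
  have key' := coeffMap_subtype_injective key
  have := congrArg (coeffMap (IsLocalRing.residue A)) key'
  rw [map_mul, map_mul, hU0, zero_mul] at this
  exact mul_ne_zero hredU hredW this

variable {σ : _root_.Fermat.Agent.S18.Qb ≃ₐ[ℚ] _root_.Fermat.Agent.S18.Qb}

theorem residue_sigA (hσ : σ ∈ A.inertiaSubgroupIn ℚ) (x : A) :
    IsLocalRing.residue A (sigA (H708.mem_decomposition_of_mem_inertiaIn A hσ) x)
      = IsLocalRing.residue A x := by
  rw [← sub_eq_zero, ← map_sub, IsLocalRing.residue_eq_zero_iff,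
    ← ValuationSubring.coe_mem_nonunits_iff]
  exact H708.sub_mem_nonunits_of_mem_inertiaIn A hσ x.2

theorem coeffMap_residue_sigA (hσ : σ ∈ A.inertiaSubgroupIn ℚ) (U : LaurentSeries A) :
    coeffMap (IsLocalRing.residue A)
        (coeffMap (sigA (H708.mem_decomposition_of_mem_inertiaIn A hσ)) U)
      = coeffMap (IsLocalRing.residue A) U := by
  ext n
  simp only [coeffMap_coeff]
  exact residue_sigA hσ _

/-- T3 (constants): for `σ` in the inertia group, `g_σ r - r` is a constant in `𝔪_A ∩ E`. -/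
theorem galOm_sub_mem_nonunits (hσ : σ ∈ A.inertiaSubgroupIn ℚ) (hE : ∀ a ∈ E, σ a ∈ E)
    {r : Om N} (hr : r ∈ Rc N A E) :
    ∃ a : _root_.Fermat.Agent.S18.Qb, a ∈ A.nonunits ∧ a ∈ E ∧ galOm N σ r - r = algebraMap _root_.Fermat.Agent.S18.Qb (Om N) a := by
  obtain ⟨c, ⟨hcA, hcE⟩, rfl⟩ := hr
  refine ⟨σ c - c, H708.sub_mem_nonunits_of_mem_inertiaIn A hσ hcA, E.sub_mem (hE c hcE) hcE, ?_⟩
  show galOm N σ (algebraMap _root_.Fermat.Agent.S18.Qb (Om N) c) - algebraMap _root_.Fermat.Agent.S18.Qb (Om N) c = _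
  rw [galOm_algebraMap, map_sub]

/-- T3: for `σ` in the inertia group of `A`, `g_σ f - f` lies in the maximal ideal of the Gauss
valuation ring, for every `f` in the Gauss valuation ring. -/
theorem galOm_sub_mem_McSet (hσ : σ ∈ A.inertiaSubgroupIn ℚ) (hE : ∀ a ∈ E, σ a ∈ E)
    {f : Om N} (hf : f ∈ VcSet N A E) : galOm N σ f - f ∈ McSet N A E := by
  have hσD := H708.mem_decomposition_of_mem_inertiaIn A hσ
  obtain ⟨hfF, U₁, U₂, h₁, h₂, hred, heq⟩ := hf
  have h₁' := isIntE_sigA (N := N) hσD hE h₁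
  have h₂' := isIntE_sigA (N := N) hσD hE h₂
  refine ⟨(Fc N E).sub_mem (galOm_mem_Fc N σ hE hfF) hfF,
    coeffMap (sigA hσD) U₁ * U₂ - U₁ * coeffMap (sigA hσD) U₂, U₂ * coeffMap (sigA hσD) U₂,
    isIntE_sub (isIntE_mul h₁' h₂) (isIntE_mul h₁ h₂'), isIntE_mul h₂ h₂', ?_, ?_, ?_⟩
  · rw [map_mul]
    exact mul_ne_zero hred (residue_sigA_ne_zero hσD hred)
  · rw [map_sub, map_mul, map_mul, coeffMap_residue_sigA hσ, coeffMap_residue_sigA hσ, sub_self]
  · have e1 : ((galOm N σ f : Om N) : LaurentSeries _root_.Fermat.Agent.S18.Qb) * coeffMap A.subtype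
        (coeffMap (sigA hσD) U₂) = coeffMap A.subtype (coeffMap (sigA hσD) U₁) := by
      rw [coe_galOm, coeffMap_subtype_sigA, coeffMap_subtype_sigA, ← map_mul, heq]
    have hsub : ((galOm N σ f - f : Om N) : LaurentSeries _root_.Fermat.Agent.S18.Qb)
        = ((galOm N σ f : Om N) : LaurentSeries _root_.Fermat.Agent.S18.Qb) - (f : LaurentSeries _root_.Fermat.Agent.S18.Qb) := rfl
    rw [hsub, map_mul, map_sub, map_mul, map_mul, ← e1, ← heq]
    ring

end series

/-! ## T4, T5: finite normal fields of definition -/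

section normal

theorem normal_Qb : Normal ℚ _root_.Fermat.Agent.S18.Qb := by
  haveI : Algebra.IsAlgebraic ℚ _root_.Fermat.Agent.S18.Qb := AlgebraicClosure.isAlgebraic ℚ
  haveI : IsAlgClosure ℚ _root_.Fermat.Agent.S18.Qb := ⟨inferInstance, inferInstance⟩
  exact IsAlgClosure.normal ℚ _root_.Fermat.Agent.S18.Qb

/-- T4: every finite extension `E₀` of `ℚ` inside `Q̄` lies in a finite extension `E` that is
stable under every `σ ∈ Gal(Q̄/ℚ)` (the normal closure). -/
theorem exists_stable_finite (E₀ : IntermediateField ℚ _root_.Fermat.Agent.S18.Qb) [FiniteDimensional ℚ E₀] :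
    ∃ E : IntermediateField ℚ _root_.Fermat.Agent.S18.Qb, FiniteDimensional ℚ E ∧ E₀ ≤ E ∧
      ∀ σ : _root_.Fermat.Agent.S18.Qb ≃ₐ[ℚ] _root_.Fermat.Agent.S18.Qb, ∀ a ∈ E, σ a ∈ E := by
  haveI := normal_Qb
  refine ⟨IntermediateField.normalClosure ℚ E₀ _root_.Fermat.Agent.S18.Qb, inferInstance,
    IntermediateField.le_normalClosure E₀, fun σ a ha => ?_⟩
  have h := (IntermediateField.normal_iff_forall_map_le'
    (K := IntermediateField.normalClosure ℚ E₀ _root_.Fermat.Agent.S18.Qb)).mp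
      (normalClosure.normal ℚ E₀ _root_.Fermat.Agent.S18.Qb) σ
  exact h ⟨a, ha, rfl⟩

theorem exists_stable_finite_of_finset (T : Finset _root_.Fermat.Agent.S18.Qb) :
    ∃ E : IntermediateField ℚ _root_.Fermat.Agent.S18.Qb, FiniteDimensional ℚ E ∧ (∀ a ∈ T, a ∈ E) ∧
      ∀ σ : _root_.Fermat.Agent.S18.Qb ≃ₐ[ℚ] _root_.Fermat.Agent.S18.Qb, ∀ a ∈ E, σ a ∈ E := by
  haveI : Algebra.IsAlgebraic ℚ _root_.Fermat.Agent.S18.Qb := AlgebraicClosure.isAlgebraic ℚ
  haveI hfin : FiniteDimensional ℚ (IntermediateField.adjoin ℚ (T : Set _root_.Fermat.Agent.S18.Qb)) :=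
    IntermediateField.finiteDimensional_adjoin
      (fun x _ => (Algebra.IsAlgebraic.isAlgebraic x).isIntegral)
  obtain ⟨E, h1, h3, h4⟩ := exists_stable_finite (IntermediateField.adjoin ℚ (T : Set _root_.Fermat.Agent.S18.Qb))
  exact ⟨E, h1, fun a ha => h3 (IntermediateField.subset_adjoin ℚ _ ha), h4⟩

end normal

/-! ## T5: every element of `Ω` lies in `Fc N E` for a finite, Galois-stable `E` -/

section descent

theorem Ec_mono {E E' : IntermediateField ℚ _root_.Fermat.Agent.S18.Qb} (h : E ≤ E') : Ec N E ≤ Ec N E' := by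
  rintro f ⟨c, hc, rfl⟩
  exact ⟨c, h hc, rfl⟩

theorem Fc_mono {E E' : IntermediateField ℚ _root_.Fermat.Agent.S18.Qb} (h : E ≤ E') : Fc N E ≤ Fc N E' := by
  refine Subfield.closure_le.mpr ?_
  rintro y (hy | hy)
  · exact Subfield.subset_closure (Or.inl (Ec_mono N h hy))
  · exact Subfield.subset_closure (Or.inr hy)

/-- the image of `Fc N E` in `Q̄((q))` -/
def FcL (E : IntermediateField ℚ _root_.Fermat.Agent.S18.Qb) : Subfield (LaurentSeries _root_.Fermat.Agent.S18.Qb) :=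
  (Fc N E).map (modularFunctionFieldBar N).toSubfield.subtype

theorem mem_FcL {E : IntermediateField ℚ _root_.Fermat.Agent.S18.Qb} {x : LaurentSeries _root_.Fermat.Agent.S18.Qb} :
    x ∈ FcL N E ↔ ∃ f ∈ Fc N E, (f : LaurentSeries _root_.Fermat.Agent.S18.Qb) = x := Iff.rfl

theorem FcL_mono {E E' : IntermediateField ℚ _root_.Fermat.Agent.S18.Qb} (h : E ≤ E') : FcL N E ≤ FcL N E' := by
  rintro x ⟨f, hf, rfl⟩
  exact ⟨f, Fc_mono N h hf, rfl⟩

theorem algebraMap_mem_FcL {E : IntermediateField ℚ _root_.Fermat.Agent.S18.Qb} {a : _root_.Fermat.Agent.S18.Qb} (ha : a ∈ E) :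
    algebraMap _root_.Fermat.Agent.S18.Qb (LaurentSeries _root_.Fermat.Agent.S18.Qb) a ∈ FcL N E :=
  ⟨algebraMap _root_.Fermat.Agent.S18.Qb (Om N) a, Subfield.subset_closure (Or.inl ⟨a, ha, rfl⟩), rfl⟩

theorem coeffEmb_mem_FcL (E : IntermediateField ℚ _root_.Fermat.Agent.S18.Qb) {z : LaurentSeries ℚ}
    (hz : z ∈ modularFunctionFieldFull N) : coeffEmb _root_.Fermat.Agent.S18.Qb z ∈ FcL N E := by
  have h1 : Set.range (algebraMap ℚ (LaurentSeries ℚ))
      ⊆ ((FcL N E).comap (coeffEmb _root_.Fermat.Agent.S18.Qb : LaurentSeries ℚ →+* LaurentSeries _root_.Fermat.Agent.S18.Qb) :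
        Set (LaurentSeries ℚ)) := by
    rintro _ ⟨c, rfl⟩
    show coeffEmb _root_.Fermat.Agent.S18.Qb (algebraMap ℚ (LaurentSeries ℚ) c) ∈ FcL N E
    have : coeffEmb _root_.Fermat.Agent.S18.Qb (algebraMap ℚ (LaurentSeries ℚ) c)
        = algebraMap _root_.Fermat.Agent.S18.Qb (LaurentSeries _root_.Fermat.Agent.S18.Qb) (algebraMap ℚ _root_.Fermat.Agent.S18.Qb c) :=
      H602.coeffMap_algebraMap' (algebraMap ℚ _root_.Fermat.Agent.S18.Qb) c
    rw [this]
    exact algebraMap_mem_FcL N (E.algebraMap_mem c)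
  have h2 : divisorExpansions N
      ⊆ ((FcL N E).comap (coeffEmb _root_.Fermat.Agent.S18.Qb : LaurentSeries ℚ →+* LaurentSeries _root_.Fermat.Agent.S18.Qb) :
        Set (LaurentSeries ℚ)) := by
    rintro _ ⟨d, hne, hd, rfl⟩
    haveI := hne
    exact ⟨jd N d hd, Subfield.subset_closure (Or.inr ⟨d, hne, hd, rfl⟩), rfl⟩
  have hle : (modularFunctionFieldFull N).toSubfield
      ≤ (FcL N E).comap (coeffEmb _root_.Fermat.Agent.S18.Qb : LaurentSeries ℚ →+* LaurentSeries _root_.Fermat.Agent.S18.Qb) :=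
    IntermediateField.adjoin_le_subfield ℚ _ h1 h2
  exact hle hz

/-- every element of `Ω` lies in `Fc N E` for some finite extension `E` of `ℚ`. -/
theorem exists_finite_mem_FcL {x : LaurentSeries _root_.Fermat.Agent.S18.Qb} (hx : x ∈ modularFunctionFieldBar N) :
    ∃ E : IntermediateField ℚ _root_.Fermat.Agent.S18.Qb, FiniteDimensional ℚ E ∧ x ∈ FcL N E := by
  haveI : Algebra.IsAlgebraic ℚ _root_.Fermat.Agent.S18.Qb := AlgebraicClosure.isAlgebraic ℚ
  rw [mem_laurentBaseChange_iff] at hx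
  induction hx using Subfield.closure_induction with
  | mem y hy =>
      rcases hy with ⟨a, rfl⟩ | ⟨z, hz, rfl⟩
      · exact ⟨IntermediateField.adjoin ℚ {a}, IntermediateField.adjoin.finiteDimensional
          (Algebra.IsAlgebraic.isAlgebraic a).isIntegral,
          algebraMap_mem_FcL N (IntermediateField.mem_adjoin_simple_self ℚ a)⟩
      · exact ⟨⊥, inferInstance, coeffEmb_mem_FcL N ⊥ hz⟩
  | one => exact ⟨⊥, inferInstance, one_mem _⟩
  | add x y _ _ hx hy =>
      obtain ⟨E₁, h₁, hx⟩ := hx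
      obtain ⟨E₂, h₂, hy⟩ := hy
      exact ⟨E₁ ⊔ E₂, IntermediateField.finiteDimensional_sup E₁ E₂,
        add_mem (FcL_mono N le_sup_left hx) (FcL_mono N le_sup_right hy)⟩
  | neg x _ hx =>
      obtain ⟨E₁, h₁, hx⟩ := hx
      exact ⟨E₁, h₁, neg_mem hx⟩
  | inv x _ hx =>
      obtain ⟨E₁, h₁, hx⟩ := hx
      exact ⟨E₁, h₁, inv_mem hx⟩
  | mul x y _ _ hx hy =>
      obtain ⟨E₁, h₁, hx⟩ := hx
      obtain ⟨E₂, h₂, hy⟩ := hy
      exact ⟨E₁ ⊔ E₂, IntermediateField.finiteDimensional_sup E₁ E₂,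
        mul_mem (FcL_mono N le_sup_left hx) (FcL_mono N le_sup_right hy)⟩

theorem exists_finite_mem_Fc (f : Om N) :
    ∃ E : IntermediateField ℚ _root_.Fermat.Agent.S18.Qb, FiniteDimensional ℚ E ∧ f ∈ Fc N E := by
  obtain ⟨E, hE, g, hg, hgf⟩ := exists_finite_mem_FcL N f.2
  have : g = f := Subtype.ext hgf
  exact ⟨E, hE, this ▸ hg⟩

/-- **T5**: for finitely many constants `T ⊆ Q̄` and finitely many functions `Φ ⊆ Ω` there is a
finite extension `E` of `ℚ` in `Q̄`, stable under all of `Gal(Q̄/ℚ)`, with `T ⊆ E` and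
`Φ ⊆ Fc N E = E(j_d : d ∣ N)`. -/
theorem exists_stable_finite_mem_Fc (T : Finset _root_.Fermat.Agent.S18.Qb) (Φ : Finset (Om N)) :
    ∃ E : IntermediateField ℚ _root_.Fermat.Agent.S18.Qb, FiniteDimensional ℚ E ∧ (∀ a ∈ T, a ∈ E) ∧
      (∀ f ∈ Φ, f ∈ Fc N E) ∧ ∀ σ : _root_.Fermat.Agent.S18.Qb ≃ₐ[ℚ] _root_.Fermat.Agent.S18.Qb, ∀ a ∈ E, σ a ∈ E := by
  classical
  -- first a finite `E₀` containing `T` with `Φ ⊆ Fc N E₀`
  have step : ∃ E₀ : IntermediateField ℚ _root_.Fermat.Agent.S18.Qb, FiniteDimensional ℚ E₀ ∧ (∀ a ∈ T, a ∈ E₀) ∧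
      ∀ f ∈ Φ, f ∈ Fc N E₀ := by
    induction Φ using Finset.induction_on with
    | empty =>
        obtain ⟨E, h1, h2, -⟩ := exists_stable_finite_of_finset T
        exact ⟨E, h1, h2, fun f hf => absurd hf (Finset.notMem_empty f)⟩
    | insert f Φ _ ih =>
        obtain ⟨E₁, h₁, hT, hΦ⟩ := ih
        obtain ⟨E₂, h₂, hf⟩ := exists_finite_mem_Fc N f
        refine ⟨E₁ ⊔ E₂, IntermediateField.finiteDimensional_sup E₁ E₂,
          fun a ha => (le_sup_left : E₁ ≤ E₁ ⊔ E₂) (hT a ha), fun g hg => ?_⟩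
        rcases Finset.mem_insert.mp hg with rfl | hg
        · exact Fc_mono N le_sup_right hf
        · exact Fc_mono N le_sup_left (hΦ g hg)
  obtain ⟨E₀, h₀, hT, hΦ⟩ := step
  obtain ⟨E, h1, h2, h3⟩ := exists_stable_finite E₀
  exact ⟨E, h1, fun a ha => h2 (hT a ha), fun f hf => Fc_mono N h2 (hΦ f hf), h3⟩

end descent

end Fermat.Agent.A2.H549

end
end
-- ===== PACK-END A2/H549/Desc.lean

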