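import Mathlib
import Fermat.Prelude.Def_FLTPrelim_Ramification
import Fermat.Prelude.Def_FLTPrelim_GaloisRep
import Fermat.Prelude.Def_GaloisRep_Residual
import Fermat.Prelude.Def_ModularCurve_HeckeModule
import Fermat.Prelude.Def_EllipticCurve_FrobeniusTrace
import Fermat.Prelude.Thm_ModularForm_sturm_bound_Gamma0
import Fermat.Prelude.Def_AlgebraicCurve_DivisorClassGroup
import Fermat.Agent.Pack.S44.G0E10L2
import Fermat.Agent.Pack.S44.G0E0L1
import Fermat.Agent.Pack.S44.G0E6L1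
import Fermat.Agent.Pack.S44.G0E6L0
import Fermat.Agent.Pack.S44.G0E1L3
import Fermat.Agent.Pack.S44.G0E10L1
import Fermat.Agent.Pack.S44.G0E6L2
import Fermat.Agent.Pack.S44.G0E1L0
import Fermat.Agent.Pack.S44.G0E1L1
import Fermat.Agent.Pack.S44.G0E10L0
import Fermat.Agent.Pack.S44.G0E11L0
import Fermat.Agent.Pack.S44.G0E1L2
import Fermat.Agent.Pack.S44.G0E11L1
import Fermat.Agent.Pack.S44.G0E11L2
import Fermat.Agent.Pack.S44.G0E7L0
import Fermat.Agent.Pack.S44.G0E7L1
import Fermat.Agent.Pack.S44.G0E7L2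
import Fermat.Agent.Pack.S44.G0E11L3
import Fermat.Agent.Pack.S44.G0E2L3
import Fermat.Agent.Pack.S44.G0E2L0
import Fermat.Agent.Pack.S44.G0E8L0
import Fermat.Agent.Pack.S44.G0E12L0
import Fermat.Agent.Pack.S44.G0E3L1
import Fermat.Agent.Pack.S44.G0E3L0
import Fermat.Agent.Pack.S44.G0E8L1
import Fermat.Agent.Pack.S44.G0E12L1
import Fermat.Agent.Pack.S44.G0E12L3

-- ===== PACK-BEGIN S05/AssembleMain.lean
section
/-
S05 final assembly (helper665): the two abstract theorems [Good] and [Node].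
-/


set_option autoImplicit false

namespace Fermat.Agent.S05.Assemble

open WeierstrassCurve WeierstrassCurve.Affine
open Fermat.Agent.S05.SameRed

set_option linter.unusedSectionVars false
set_option linter.unusedVariables false

variable {K : Type*} [Field K] [DecidableEq K]
  {Γ₀ : Type*} [LinearOrderedCommGroupWithZero Γ₀]
variable {W : Affine K} {v : Valuation K Γ₀}

/-- (C3c) in hypothesis form. -/
def NodeTorsion (W : Affine K) (v : Valuation K Γ₀) (e₁ α : K) (n : ℕ) : Prop :=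
  ∀ (x y : K) (h : W.Nonsingular x y), n • Point.some x y h = 0 → v (x - e₁) < 1 →
    v α < v (x - e₁) ∧ ∃ j : ℕ, v (x - e₁) ^ n = v α ^ (2 * j)

lemma pow_eq_pow_imp_eq {a b : Γ₀} {n : ℕ} (hn : n ≠ 0) (h : a ^ n = b ^ n) : a = b := by
  rcases lt_trichotomy a b with hlt | heq | hgt
  · exact absurd h (pow_lt_pow_left₀ hlt zero_le hn).ne
  · exact heq
  · exact absurd h (pow_lt_pow_left₀ hgt zero_le hn).ne'

lemma val_sub_eq_of_lt {a b : K} (h : v b < v a) : v (a - b) = v a := by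
  rw [sub_eq_add_neg]
  exact v.map_add_eq_of_lt_left (by rwa [Valuation.map_neg])

lemma val_sub_eq_of_lt' {a b : K} (h : v a < v b) : v (a - b) = v b := by
  rw [← Valuation.map_neg, neg_sub]
  exact val_sub_eq_of_lt h

/-- If the product of three integral elements lies in the maximal ideal, one of them does. -/
lemma exists_lt_one_of_mul {a b c : K} (ha : v a ≤ 1) (hb : v b ≤ 1) (hc : v c ≤ 1)
    (h : v (a * b * c) < 1) : v a < 1 ∨ v b < 1 ∨ v c < 1 := by
  by_contra hcon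
  simp only [not_or, not_lt] at hcon
  obtain ⟨h1, h2, h3⟩ := hcon
  have ha1 : v a = 1 := le_antisymm ha h1
  have hb1 : v b = 1 := le_antisymm hb h2
  have hc1 : v c = 1 := le_antisymm hc h3
  rw [map_mul, map_mul, ha1, hb1, hc1, one_mul, one_mul] at h
  exact lt_irrefl _ h

lemma val_eta_sq_lt_one {a : K} (h : v a < 1) : v (a ^ 2) < 1 := by
  rw [map_pow]
  exact pow_lt_one' h (by norm_num)

/-- **[Good]** If the three roots of the 2-division cubic are integral and pairwise distinct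
modulo the maximal ideal, an inertia-like `σ` fixes all odd torsion points prime to the
residue characteristic. -/
theorem fixed_of_good (hW : IntegralCoeffs W v) (h2 : v (2 : K) = 1)
    (σ : K →+* K) (hres : ∀ z, v z ≤ 1 → v (σ z - z) < 1)
    (hσ₁ : σ W.a₁ = W.a₁) (hσ₃ : σ W.a₃ = W.a₃)
    (τ : W.Point →+ W.Point)
    (hτ : ∀ (x y : K) (h : W.Nonsingular x y),
      ∃ h' : W.Nonsingular (σ x) (σ y), τ (Point.some x y h) = Point.some (σ x) (σ y) h')
    {n : ℕ} (hn : Odd n) (hC1 : KerTorsionFree W v n)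
    {r₁ r₂ r₃ : K} (hr : Roots W r₁ r₂ r₃) (hr₁ : v r₁ ≤ 1) (hr₂ : v r₂ ≤ 1) (hr₃ : v r₃ ≤ 1)
    (h12 : v (r₁ - r₂) = 1) (h13 : v (r₁ - r₃) = 1) (h23 : v (r₂ - r₃) = 1)
    (P : W.Point) (hP : n • P = 0) : τ P = P := by
  rcases P with _ | ⟨x, y, h⟩
  · exact map_zero τ
  have hx : v x ≤ 1 := val_x_le_one_of_torsion hC1 h hP
  have hy : v y ≤ 1 := val_y_le_one hW h.1 hx
  have h4 := val_four (v := v) h2
  have h21 : v (r₂ - r₁) = 1 := by rw [← Valuation.map_neg, neg_sub]; exact h12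
  have h31 : v (r₃ - r₁) = 1 := by rw [← Valuation.map_neg, neg_sub]; exact h13
  have h32 : v (r₃ - r₂) = 1 := by rw [← Valuation.map_neg, neg_sub]; exact h23
  have hη1 : v (2 * y + W.a₁ * x + W.a₃) = 1 := by
    apply val_eta_eq_one_of_torsion hW h2 hn hC1 h hP
    intro hη
    have hsq := val_eta_sq_lt_one hη
    rw [hr.eta_sq h.1, map_mul, h4, one_mul] at hsq
    rcases exists_lt_one_of_mul (val_sub_le_one hx hr₁) (val_sub_le_one hx hr₂)
      (val_sub_le_one hx hr₃) hsq with h1 | h1 | h1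
    · exact hr.val_WX_eq_one hW h2 hx hr₁ hr₂ hr₃ hη h1 h12 h13
    · exact hr.swap₁₂.val_WX_eq_one hW h2 hx hr₂ hr₁ hr₃ hη h1 h21 h23
    · exact hr.swap₁₃.val_WX_eq_one hW h2 hx hr₃ hr₂ hr₁ hη h1 h32 h31
  exact fixed_of_scaled hW h2 σ hres hσ₁ hσ₃ τ hτ hC1 h hP (c := 1) (e := 0)
    (map_one σ) (map_zero σ) (by rw [hη1, map_one]) (by rw [sub_zero, map_one]; exact hx)

/-- **[Node]** The multiplicative case. -/
theorem fixed_of_node (hW : IntegralCoeffs W v) (h2 : v (2 : K) = 1)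
    (σ : K →+* K) (hres : ∀ z, v z ≤ 1 → v (σ z - z) < 1)
    (hσ₁ : σ W.a₁ = W.a₁) (hσ₃ : σ W.a₃ = W.a₃)
    (τ : W.Point →+ W.Point)
    (hτ : ∀ (x y : K) (h : W.Nonsingular x y),
      ∃ h' : W.Nonsingular (σ x) (σ y), τ (Point.some x y h) = Point.some (σ x) (σ y) h')
    {n : ℕ} (hn : Odd n) (hC1 : KerTorsionFree W v n)
    {e₁ α β : K} (hr : Roots W e₁ (e₁ + α) (e₁ + β)) (he₁ : v e₁ ≤ 1) (hα : v α < 1)
    (hβ : v β = 1) (hσe : σ e₁ = e₁)
    {π : K} (hσπ : σ π = π) (hπ : v π ^ n = v α ^ 2)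
    (hC3 : NodeTorsion W v e₁ α n)
    (P : W.Point) (hP : n • P = 0) : τ P = P := by
  rcases P with _ | ⟨x, y, h⟩
  · exact map_zero τ
  have hx : v x ≤ 1 := val_x_le_one_of_torsion hC1 h hP
  have hy : v y ≤ 1 := val_y_le_one hW h.1 hx
  have h4 := val_four (v := v) h2
  have hn0 : n ≠ 0 := hn.pos.ne'
  have hxe : v (x - e₁) ≤ 1 := val_sub_le_one hx he₁
  have hr₂ : v (e₁ + α) ≤ 1 := val_add_le_one he₁ hα.le
  have hr₃ : v (e₁ + β) ≤ 1 := val_add_le_one he₁ hβ.le
  have hβα : v (β - α) = 1 := by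
    rw [val_sub_eq_of_lt (by rw [hβ]; exact hα), hβ]
  rcases hxe.lt_or_eq with hlt | heq
  · -- off `E₀`
    obtain ⟨hαx, j, hj⟩ := hC3 x y h hP hlt
    have hvc : v (π ^ j) = v (x - e₁) := by
      apply pow_eq_pow_imp_eq hn0
      rw [hj, map_pow, ← pow_mul, mul_comm, pow_mul, hπ, ← pow_mul]
    have hxα : v (x - (e₁ + α)) = v (x - e₁) := by
      have : x - (e₁ + α) = (x - e₁) - α := by ring
      rw [this, val_sub_eq_of_lt hαx]
    have hxβ : v (x - (e₁ + β)) = 1 := by
      have : x - (e₁ + β) = (x - e₁) - β := by ring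
      rw [this, val_sub_eq_of_lt' (by rw [hβ]; exact hlt), hβ]
    have hη : v (2 * y + W.a₁ * x + W.a₃) = v (π ^ j) := by
      apply pow_eq_pow_imp_eq (n := 2) (by norm_num)
      rw [← map_pow, hr.eta_sq h.1, map_mul, map_mul, map_mul, h4, hxα, hxβ, hvc]
      simp [pow_two]
    exact fixed_of_scaled hW h2 σ hres hσ₁ hσ₃ τ hτ hC1 h hP (c := π ^ j) (e := e₁)
      (by rw [map_pow, hσπ]) hσe hη (by rw [hvc])
  · -- on `E₀`
    have hη1 : v (2 * y + W.a₁ * x + W.a₃) = 1 := by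
      apply val_eta_eq_one_of_torsion hW h2 hn hC1 h hP
      intro hη
      have hsq := val_eta_sq_lt_one hη
      rw [hr.eta_sq h.1, map_mul, h4, one_mul] at hsq
      have hxα : v (x - (e₁ + α)) = 1 := by
        have : x - (e₁ + α) = (x - e₁) - α := by ring
        rw [this, val_sub_eq_of_lt (by rw [heq]; exact hα), heq]
      have h3 : v (x - (e₁ + β)) < 1 := by
        rw [map_mul, map_mul, heq, hxα, one_mul, one_mul] at hsq
        exact hsq
      have h31 : v (e₁ + β - e₁) = 1 := by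
        have : e₁ + β - e₁ = β := by ring
        rw [this, hβ]
      have h32 : v (e₁ + β - (e₁ + α)) = 1 := by
        have : e₁ + β - (e₁ + α) = β - α := by ring
        rw [this, hβα]
      exact hr.swap₁₃.val_WX_eq_one hW h2 hx hr₃ hr₂ he₁ hη h3 h32 h31
    exact fixed_of_scaled hW h2 σ hres hσ₁ hσ₃ τ hτ hC1 h hP (c := 1) (e := 0)
      (map_one σ) (map_zero σ) (by rw [hη1, map_one]) (by rw [sub_zero, map_one]; exact hx)

end Fermat.Agent.S05.Assemble

end
-- ===== PACK-END S05/AssembleMain.lean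

-- ===== PACK-BEGIN S13/H64/LineP.lean
section










/-!
# S13 / T5: the analysis at `ℓ = p`

`A` a valuation subring of `K = ℚ̄` over `p`, `v` its valuation, `E₁ = InKer` the kernel of
reduction, `V = E[p](K)`, `N0 ⊆ V` a Galois-stable line.

* `mem_of_inKer_of_line_le`: if `N0 ⊆ E₁` then `V ∩ E₁ ⊆ N0`
  (Gauss bound on the `p`-division polynomial + rationality of the product over `N0`).
* `inertia_line_dichotomy`: inertia at `A` acts trivially on `N0` or on `V / N0`.
-/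

set_option autoImplicit false
set_option linter.unusedSectionVars false
set_option linter.unusedVariables false

namespace Fermat.Agent.S13.H64

open WeierstrassCurve WeierstrassCurve.Affine WeierstrassCurve.Affine.Point Polynomial
open Fermat.Agent.S05 Fermat.Agent.S05.SameRed

section kernel

variable {K : Type*} [Field K] [DecidableEq K]
  {Γ₀ : Type*} [LinearOrderedCommGroupWithZero Γ₀]
  {W : Affine K} {v : Valuation K Γ₀}

lemma inKer_neg {P : W.Point} (hP : InKer W v P) : InKer W v (-P) := by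
  rcases P with _ | ⟨x, y, h⟩
  · exact hP
  · rw [Point.neg_some]; exact hP

/-- The kernel of reduction is stable under multiplication by natural numbers. -/
lemma inKer_nsmul (hW : IntegralCoeffs W v) {P : W.Point} (hP : InKer W v P) (k : ℕ) :
    InKer W v (k • P) := by
  rcases P with _ | ⟨x, y, h⟩
  · rw [show (Point.zero : W.Point) = 0 from rfl, smul_zero]; exact inKer_zero
  · have hx : 1 < v x := hP
    have hx0 : x ≠ 0 := by
      rintro rfl
      rw [_root_.map_zero] at hx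
      exact not_lt_zero hx
    have hs : v x⁻¹ < 1 := by
      rw [map_inv₀]; exact inv_lt_one_of_one_lt₀ hx
    rcases (FG.good_all (C1b.isIntegralAt_of_integralCoeffs hW) h hx k).1 with
      ⟨h0, -⟩ | ⟨xk, yk, hk, hkP, hxk0, hlt⟩
    · rw [h0]; exact inKer_zero
    · rw [hkP, inKer_some]
      have h1 : v ((k : K) ^ 2 * x⁻¹) ≤ v x⁻¹ := by
        rw [map_mul]
        exact mul_le_of_le_one_left' (by
          rw [map_pow]; exact pow_le_one₀ zero_le (FG.v_natCast_le_one v k))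
      have h2 : v xk⁻¹ ≤ v x⁻¹ := by
        have : xk⁻¹ = (xk⁻¹ - (k : K) ^ 2 * x⁻¹) + (k : K) ^ 2 * x⁻¹ := by ring
        rw [this]
        exact (v.map_add _ _).trans (max_le hlt.le h1)
      have h3 : v xk⁻¹ < 1 := h2.trans_lt hs
      rw [map_inv₀] at h3
      have hxkpos : 0 < v xk := (Valuation.pos_iff v).mpr hxk0
      by_contra hcon
      rw [not_lt] at hcon
      have : 1 ≤ (v xk)⁻¹ := (one_le_inv₀ hxkpos).mpr hcon
      exact absurd h3 (not_lt.mpr this)

/-- The kernel of reduction is stable under multiplication by integers. -/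
lemma inKer_zsmul (hW : IntegralCoeffs W v) {P : W.Point} (hP : InKer W v P) (k : ℤ) :
    InKer W v (k • P) := by
  rcases Int.eq_nat_or_neg k with ⟨n, rfl | rfl⟩
  · rw [natCast_zsmul]; exact inKer_nsmul hW hP n
  · rw [neg_smul, natCast_zsmul]; exact inKer_neg (inKer_nsmul hW hP n)

end kernel

section main

variable {K : Type*} [Field K] [CharZero K] [Algebra ℚ K] [IsGalois ℚ K] [IsAlgClosed K]
  [DecidableEq K] {W' : Affine ℚ}

/-- `r` is the `x`-coordinate of a nonzero point of `N0`. -/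
def IsXOf {p : ℕ} (N0 : Submodule (ZMod p) (Submodule.torsionBy ℤ (W'⁄K).Point p)) (r : K) :
    Prop :=
  ∃ P ∈ N0, ∃ (y : K) (h : (W'⁄K).Nonsingular r y),
    (P : (W'⁄K).Point) = Point.some r y h

lemma smul_coe {p : ℕ} (σ : K ≃ₐ[ℚ] K) (P : Submodule.torsionBy ℤ (W'⁄K).Point p) :
    ((σ • P : Submodule.torsionBy ℤ (W'⁄K).Point p) : (W'⁄K).Point) =
      σ • (P : (W'⁄K).Point) := rfl

lemma isXOf_map {p : ℕ} {N0 : Submodule (ZMod p) (Submodule.torsionBy ℤ (W'⁄K).Point p)}
    (hstab : IsGaloisStable ℚ N0) (σ : K ≃ₐ[ℚ] K) {r : K} (hr : IsXOf N0 r) :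
    IsXOf N0 (σ r) := by
  obtain ⟨P, hP, y, h, hPe⟩ := hr
  refine ⟨σ • P, hstab σ P hP, σ y,
    (W'.baseChange_nonsingular σ.toAlgHom.injective r y).mpr h, ?_⟩
  rw [smul_coe, hPe]
  rfl

lemma aeval_eq_zero_of_mem {p : ℕ} (Q : ℤ[X])
    (hQ : ∀ (x y : K) (h : (W'⁄K).Nonsingular x y),
      (p : ℤ) • Point.some x y h = 0 → aeval x Q = 0)
    (P : Submodule.torsionBy ℤ (W'⁄K).Point p) {x y : K} {h : (W'⁄K).Nonsingular x y}
    (hP : (P : (W'⁄K).Point) = Point.some x y h) : aeval x Q = 0 := by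
  apply hQ x y h
  rw [← hP]
  exact (Submodule.mem_torsionBy_iff _ _).mp P.2

/-- **(T5b3)** If the Galois-stable nonzero submodule `N0` of `E[p]` lies in the kernel of
reduction at `A` (over `p`), then every `p`-torsion point in the kernel of reduction lies in
`N0`. -/
theorem mem_of_inKer_of_line_le
    (A : ValuationSubring K) (p : ℕ) (hp : p.Prime) (hA : A.LiesOverPrime p)
    (Q : ℤ[X]) (hQlc : Q.leadingCoeff = p)
    (hQ : ∀ (x y : K) (h : (W'⁄K).Nonsingular x y),
      (p : ℤ) • Point.some x y h = 0 → aeval x Q = 0)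
    (N0 : Submodule (ZMod p) (Submodule.torsionBy ℤ (W'⁄K).Point p))
    (hstab : IsGaloisStable ℚ N0) (hN0 : N0 ≠ ⊥)
    (hsub : ∀ P ∈ N0, InKer (W'⁄K) A.valuation (P : (W'⁄K).Point))
    (P' : Submodule.torsionBy ℤ (W'⁄K).Point p)
    (hP' : InKer (W'⁄K) A.valuation (P' : (W'⁄K).Point)) : P' ∈ N0 := by
  classical
  set v := A.valuation with hv
  have hp0 : (p : K) ≠ 0 := by exact_mod_cast hp.ne_zero
  -- the polynomial over `K`
  set f : K[X] := Q.map (Int.castRingHom K) with hf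
  have hinj : Function.Injective (Int.castRingHom K) := Int.cast_injective
  have hflc : f.leadingCoeff = (p : K) := by
    rw [hf, leadingCoeff_map_of_injective hinj, hQlc]; simp
  have hf0 : f ≠ 0 := by
    intro h0
    rw [h0, leadingCoeff_zero] at hflc
    exact hp0 hflc.symm
  have hroot : ∀ x : K, aeval x Q = 0 → x ∈ f.roots := by
    intro x hx
    rw [aeval_def, algebraMap_int_eq] at hx
    rw [mem_roots hf0, IsRoot, hf, eval_map]
    exact hx
  have hfsplit : f = C (p : K) * (f.roots.map (fun r => X - C r)).prod := by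
    have := (IsAlgClosed.splits f).eq_prod_roots
    rw [hflc] at this
    exact this
  have hint : ∀ n, v ((C (p : K) * (f.roots.map (fun r => X - C r)).prod).coeff n) ≤ 1 := by
    intro n
    rw [← hfsplit, hf, coeff_map]
    exact valuation_intCast_le_one A _
  -- the set of `x`-coordinates of `N0`
  set T : Finset K := f.roots.toFinset.filter (fun r => IsXOf N0 r) with hT
  have hTmem : ∀ r, r ∈ T ↔ IsXOf N0 r := by
    intro r
    rw [hT, Finset.mem_filter, Multiset.mem_toFinset]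
    refine ⟨fun h => h.2, fun h => ⟨?_, h⟩⟩
    obtain ⟨P, -, y, hns, hPe⟩ := h
    exact hroot r (aeval_eq_zero_of_mem Q hQ P hPe)
  have hTstab : ∀ σ : K ≃ₐ[ℚ] K, ∀ r ∈ T, σ r ∈ T := fun σ r hr =>
    (hTmem _).mpr (isXOf_map hstab σ ((hTmem r).mp hr))
  have hTv : ∀ r ∈ T, 1 < v r := by
    intro r hr
    obtain ⟨P, hPN, y, hns, hPe⟩ := (hTmem r).mp hr
    have := hsub P hPN
    rw [hPe] at this
    exact this
  have hTne : T.Nonempty := by
    obtain ⟨P, hPN, hP0⟩ := (Submodule.ne_bot_iff N0).mp hN0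
    rcases hPc : (P : (W'⁄K).Point) with _ | ⟨x, y, h⟩
    · exact absurd (Subtype.ext hPc) hP0
    · exact ⟨x, (hTmem x).mpr ⟨P, hPN, y, h, hPc⟩⟩
  have hlow : (v (p : K))⁻¹ ≤ ∏ r ∈ T, v r :=
    inv_valuation_prime_le_prod A p hp hA T hTne hTstab hTv
  have hvp : 0 < v (p : K) := (Valuation.pos_iff _).mpr hp0
  -- every root of valuation `> 1` is in `T`
  have hall : ∀ r ∈ f.roots, 1 < v r → r ∈ T := by
    intro r hr hvr
    by_contra hrT
    have hT' : ∀ s ∈ insert r T, s ∈ f.roots ∧ 1 < v s := by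
      intro s hs
      rcases Finset.mem_insert.mp hs with rfl | hs
      · exact ⟨hr, hvr⟩
      · exact ⟨Multiset.mem_toFinset.mp (Finset.mem_filter.mp hs).1, hTv s hs⟩
    have hg := gauss_bound_finset v (p : K) f.roots hint (insert r T) hT'
    rw [Finset.prod_insert hrT] at hg
    have h1 : v (p : K) * (v r * (v (p : K))⁻¹) ≤ 1 :=
      le_trans (by gcongr) hg
    rw [mul_comm (v r), ← mul_assoc, mul_inv_cancel₀ hvp.ne', one_mul] at h1
    exact absurd hvr (not_lt.mpr h1)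
  -- conclusion
  rcases hPc : (P' : (W'⁄K).Point) with _ | ⟨x, y, h⟩
  · have : P' = 0 := Subtype.ext hPc
    rw [this]; exact N0.zero_mem
  · rw [hPc] at hP'
    have hxT : x ∈ T := hall x (hroot x (aeval_eq_zero_of_mem Q hQ P' hPc)) hP'
    obtain ⟨P, hPN, y₀, h₀, hPe⟩ := (hTmem x).mp hxT
    rcases Affine.Y_eq_of_X_eq h.1 h₀.1 rfl with hy | hy
    · have : P' = P := by
        apply Subtype.ext
        rw [hPc, hPe]
        subst hy
        rfl
      rw [this]; exact hPN
    · have : P' = -P := by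
        apply Subtype.ext
        rw [hPc, Submodule.coe_neg, hPe, Point.neg_some]
        subst hy
        rfl
      rw [this]; exact N0.neg_mem hPN

/-- **(T5c)** Dichotomy at `p`: the inertia group at `A` acts trivially on the line `N0` or on
`E[p] / N0`.  The hypothesis `ha` is (T5a). -/
theorem inertia_line_dichotomy
    (A : ValuationSubring K) (p : ℕ) (hp : p.Prime) (hA : A.LiesOverPrime p)
    (hW : IntegralCoeffs (W'⁄K) A.valuation)
    (Q : ℤ[X]) (hQlc : Q.leadingCoeff = p)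
    (hQ : ∀ (x y : K) (h : (W'⁄K).Nonsingular x y),
      (p : ℤ) • Point.some x y h = 0 → aeval x Q = 0)
    (N0 : Submodule (ZMod p) (Submodule.torsionBy ℤ (W'⁄K).Point p))
    (hstab : IsGaloisStable ℚ N0) (hN0 : N0 ≠ ⊥)
    (hline : ∀ x ∈ N0, x ≠ 0 → ∀ y ∈ N0, ∃ k : ℤ, y = k • x)
    (ha : ∀ σ ∈ A.inertiaSubgroupIn ℚ, ∀ P : Submodule.torsionBy ℤ (W'⁄K).Point p,
      ¬ InKer (W'⁄K) A.valuation (P : (W'⁄K).Point) →
      InKer (W'⁄K) A.valuation ((σ • P - P : Submodule.torsionBy ℤ (W'⁄K).Point p) :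
        (W'⁄K).Point)) :
    (∀ σ ∈ A.inertiaSubgroupIn ℚ, ∀ x ∈ N0, σ • x = x) ∨
    (∀ σ ∈ A.inertiaSubgroupIn ℚ, ∀ x : Submodule.torsionBy ℤ (W'⁄K).Point p,
      σ • x - x ∈ N0) := by
  classical
  by_cases hsub : ∀ P ∈ N0, InKer (W'⁄K) A.valuation (P : (W'⁄K).Point)
  · right
    intro σ hσ x
    by_cases hx : InKer (W'⁄K) A.valuation (x : (W'⁄K).Point)
    · have hxN : x ∈ N0 := mem_of_inKer_of_line_le A p hp hA Q hQlc hQ N0 hstab hN0 hsub x hx
      exact N0.sub_mem (hstab σ x hxN) hxN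
    · exact mem_of_inKer_of_line_le A p hp hA Q hQlc hQ N0 hstab hN0 hsub _ (ha σ hσ x hx)
  · left
    push Not at hsub
    obtain ⟨P1, hP1N, hP1⟩ := hsub
    -- no nonzero element of `N0` is in the kernel of reduction
    have hnone : ∀ x ∈ N0, x ≠ 0 → ¬ InKer (W'⁄K) A.valuation (x : (W'⁄K).Point) := by
      intro x hxN hx0 hxK
      obtain ⟨k, hk⟩ := hline x hxN hx0 P1 hP1N
      apply hP1
      rw [hk, Submodule.coe_smul_of_tower]
      exact inKer_zsmul hW hxK k
    intro σ hσ x hxN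
    by_cases hx0 : x = 0
    · rw [hx0]
      exact smul_zero (A := Submodule.torsionBy ℤ (W'⁄K).Point (p : ℤ)) σ
    · have h1 := ha σ hσ x (hnone x hxN hx0)
      have h2 : σ • x - x ∈ N0 := N0.sub_mem (hstab σ x hxN) hxN
      by_contra hne
      exact hnone _ h2 (sub_ne_zero.mpr hne) h1

end main

end Fermat.Agent.S13.H64

end
-- ===== PACK-END S13/H64/LineP.lean

-- ===== PACK-BEGIN S14/H937/GalLift.lean
section



/-!
# S14, LOCAL-I / LOCAL-D (helper937): lifting from `Gal(M/K)` to `Gal(ℚ̄/K)`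

`K ⊆ M ⊆ ℚ̄`, `M/K` finite Galois, `A` a valuation subring of `ℚ̄`.  An element of the inertia
(resp. decomposition) group of the prime of `𝓞 M` below `A` lifts to an element of
`Gal(ℚ̄/K)` acting trivially modulo (resp. stabilising) the prime of `ℤ̄` below `A`.
-/

set_option autoImplicit false
set_option linter.style.haveILetI false

open NumberField
open scoped Pointwise

namespace Fermat.Agent.S14.H937

theorem isGalois_Qb_over (K : IntermediateField ℚ Qb) : IsGalois K Qb :=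
  haveI := Fermat.Agent.S54.isGalois_algebraicClosure_rat
  IsGalois.tower_top_of_isGalois ℚ K Qb

/-- `Gal(ℚ̄/K)` acts continuously on the discrete ring of all algebraic integers. -/
theorem continuousSMul_over (K : IntermediateField ℚ Qb) :
    letI : TopologicalSpace (integralClosure ℤ Qb) := ⊥
    ContinuousSMul (Qb ≃ₐ[K] Qb) (integralClosure ℤ Qb) := by
  letI : TopologicalSpace (integralClosure ℤ Qb) := ⊥
  haveI : DiscreteTopology (integralClosure ℤ Qb) := ⟨rfl⟩
  haveI := isGalois_Qb_over K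
  refine ⟨?_⟩
  rw [continuous_prod_of_discrete_right]
  intro b
  rw [continuous_discrete_rng]
  intro c
  rw [isOpen_iff_mem_nhds]
  intro g hg
  let E : IntermediateField K Qb := IntermediateField.adjoin K {(b : Qb)}
  haveI : FiniteDimensional K E :=
    IntermediateField.adjoin.finiteDimensional (Algebra.IsIntegral.isIntegral _)
  have hopen : IsOpen ((g • (E.fixingSubgroup : Set (Qb ≃ₐ[K] Qb)))) :=
    (E.fixingSubgroup_isOpen).smul g
  refine Filter.mem_of_superset (hopen.mem_nhds ⟨1, one_mem _, by simp⟩) ?_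
  rintro _ ⟨h, hh, rfl⟩
  simp only [Set.mem_preimage, Set.mem_singleton_iff] at hg ⊢
  rw [← hg]
  apply Subtype.ext
  have hb : h (b : Qb) = b := by
    have := (IntermediateField.mem_fixingSubgroup_iff E h).mp hh b
      (IntermediateField.subset_adjoin K _ (Set.mem_singleton _))
    exact this
  show (g * h) (b : Qb) = g (b : Qb)
  rw [AlgEquiv.mul_apply, hb]

section

variable (K : IntermediateField ℚ Qb)
variable (M : IntermediateField K Qb) [FiniteDimensional K M] [IsGalois K M]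
variable (A : ValuationSubring Qb)

omit [FiniteDimensional K M] [IsGalois K M] in
/-- An algebraic integer fixed by `Gal(ℚ̄/M)` comes from `𝓞 M`. -/
theorem exists_integer_of_fixed (x : integralClosure ℤ Qb)
    (hx : ∀ n ∈ (M.fixingSubgroup : Subgroup (Qb ≃ₐ[K] Qb)), n • x = x) :
    ∃ y : 𝓞 M, toZbar M y = x := by
  haveI := isGalois_Qb_over K
  have hxM : (x : Qb) ∈ M := by
    rw [← InfiniteGalois.fixedField_fixingSubgroup M, IntermediateField.mem_fixedField_iff]
    intro f hf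
    exact congrArg Subtype.val (hx f hf)
  have hxint : IsIntegral ℤ (⟨(x : Qb), hxM⟩ : M) := by
    have h1 : IsIntegral ℤ (x : Qb) := x.2
    exact (isIntegral_algebraMap_iff (A := M) (B := Qb)
      (FaithfulSMul.algebraMap_injective M Qb)).mp h1
  exact ⟨⟨⟨(x : Qb), hxM⟩, hxint⟩, Subtype.ext rfl⟩

theorem exists_lift_inertia (τ : M ≃ₐ[K] M) (hτ : ∀ x : 𝓞 M, τ • x - x ∈ primeOf M A) :
    ∃ σ : Qb ≃ₐ[K] Qb, (∀ x : M, σ (x : Qb) = ((τ x : M) : Qb)) ∧
      ∀ x : Qb, IsIntegral ℤ x → σ x - x ∈ A.nonunits := by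
  haveI := isGalois_Qb_over K
  haveI hQ := Fermat.Agent.S54.primeBelow_isPrime A
  obtain ⟨g₀, hg₀⟩ := AlgEquiv.restrictNormalHom_surjective (F := K) (K₁ := M) Qb τ
  have hg₀M : ∀ x : M, g₀ (x : Qb) = ((τ x : M) : Qb) := by
    intro x
    rw [← hg₀]
    exact (AlgEquiv.restrictNormal_commutes g₀ M x).symm
  have h₀ : ∀ x : integralClosure ℤ Qb,
      (∀ n ∈ (M.fixingSubgroup : Subgroup (Qb ≃ₐ[K] Qb)), n • x = x) →
        g₀ • x - x ∈ Fermat.Agent.S54.primeBelow A := by
    intro x hx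
    obtain ⟨y, rfl⟩ := exists_integer_of_fixed K M x hx
    have h2 := hτ y
    rw [mem_primeOf] at h2
    rw [Fermat.Agent.S54.mem_primeBelow]
    have h4 : ((g₀ • toZbar M y - toZbar M y : integralClosure ℤ Qb) : Qb) =
        g₀ ((y : M) : Qb) - ((y : M) : Qb) := rfl
    rw [h4, hg₀M]
    exact h2
  letI : TopologicalSpace (integralClosure ℤ Qb) := ⊥
  haveI : DiscreteTopology (integralClosure ℤ Qb) := ⟨rfl⟩
  haveI := continuousSMul_over K
  have hclosed : IsClosed ((M.fixingSubgroup : Subgroup (Qb ≃ₐ[K] Qb)) : Set (Qb ≃ₐ[K] Qb)) :=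
    IntermediateField.fixingSubgroup_isClosed M
  obtain ⟨σ, hσN, hσ⟩ := Fermat.Agent.S13.H175.exists_inertia_lift
    (G := Qb ≃ₐ[K] Qb) (M.fixingSubgroup) hclosed (Fermat.Agent.S54.primeBelow A) g₀ h₀
  refine ⟨σ, fun x => ?_, fun x hx => hσ ⟨x, hx⟩⟩
  have h1 := (IntermediateField.mem_fixingSubgroup_iff M _).mp hσN x x.2
  rw [AlgEquiv.mul_apply] at h1
  have h2 : σ (x : Qb) = g₀ (x : Qb) := by
    have := congrArg g₀ h1
    simpa using this
  rw [h2, hg₀M]

theorem exists_lift_decomp (τ : M ≃ₐ[K] M)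
    (hτ : ∀ x : 𝓞 M, τ • x ∈ primeOf M A ↔ x ∈ primeOf M A) :
    ∃ σ : Qb ≃ₐ[K] Qb, (∀ x : M, σ (x : Qb) = ((τ x : M) : Qb)) ∧
      ∀ x : Qb, IsIntegral ℤ x → (σ x ∈ A.nonunits ↔ x ∈ A.nonunits) := by
  haveI := isGalois_Qb_over K
  haveI hQ := Fermat.Agent.S54.primeBelow_isPrime A
  obtain ⟨g₀, hg₀⟩ := AlgEquiv.restrictNormalHom_surjective (F := K) (K₁ := M) Qb τ
  have hg₀M : ∀ x : M, g₀ (x : Qb) = ((τ x : M) : Qb) := by
    intro x
    rw [← hg₀]
    exact (AlgEquiv.restrictNormal_commutes g₀ M x).symm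
  have h₀ : ∀ x : integralClosure ℤ Qb,
      (∀ n ∈ (M.fixingSubgroup : Subgroup (Qb ≃ₐ[K] Qb)), n • x = x) →
        (g₀ • x ∈ Fermat.Agent.S54.primeBelow A ↔ x ∈ Fermat.Agent.S54.primeBelow A) := by
    intro x hx
    obtain ⟨y, rfl⟩ := exists_integer_of_fixed K M x hx
    have h2 := hτ y
    rw [mem_primeOf, mem_primeOf] at h2
    rw [Fermat.Agent.S54.mem_primeBelow, Fermat.Agent.S54.mem_primeBelow]
    have h4 : ((g₀ • toZbar M y : integralClosure ℤ Qb) : Qb) = g₀ ((y : M) : Qb) := rfl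
    rw [h4, hg₀M]
    exact h2
  letI : TopologicalSpace (integralClosure ℤ Qb) := ⊥
  haveI : DiscreteTopology (integralClosure ℤ Qb) := ⟨rfl⟩
  haveI := continuousSMul_over K
  have hclosed : IsClosed ((M.fixingSubgroup : Subgroup (Qb ≃ₐ[K] Qb)) : Set (Qb ≃ₐ[K] Qb)) :=
    IntermediateField.fixingSubgroup_isClosed M
  obtain ⟨σ, hσN, hσ⟩ := exists_stabilizer_lift
    (G := Qb ≃ₐ[K] Qb) (M.fixingSubgroup) hclosed (Fermat.Agent.S54.primeBelow A) g₀ h₀
  refine ⟨σ, fun x => ?_, fun x hx => ?_⟩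
  · have h1 := (IntermediateField.mem_fixingSubgroup_iff M _).mp hσN x x.2
    rw [AlgEquiv.mul_apply] at h1
    have h2 : σ (x : Qb) = g₀ (x : Qb) := by
      have := congrArg g₀ h1
      simpa using this
    rw [h2, hg₀M]
  · have h2 : (σ • (⟨x, hx⟩ : integralClosure ℤ Qb)) ∈ Fermat.Agent.S54.primeBelow A ↔
        (⟨x, hx⟩ : integralClosure ℤ Qb) ∈ Fermat.Agent.S54.primeBelow A := by
      conv_lhs => rw [← hσ]
      exact Ideal.smul_mem_pointwise_smul_iff
    exact h2

end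

end Fermat.Agent.S14.H937

end
-- ===== PACK-END S14/H937/GalLift.lean

-- ===== PACK-BEGIN S29/H642/EigenRel.lean
section






/-!
# S29 / E2 (helper642): a normalised eigenform is a `T_p`-eigenvector; its period lattice
-/

set_option autoImplicit false

namespace Fermat.Agent.S29.H642

open CongruenceSubgroup ModularCurve ModularCurve.Period ModularFormClass
open UpperHalfPlane hiding I
open scoped MatrixGroups ModularForm

variable {N : ℕ}

/-- The Hecke relation `a_{np} + p a_{n/p} = a_p a_n` for a normalised eigenform, `p ∤ N`. -/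
theorem qCoeff_hecke_relation {g : CuspForm (Gamma0 N) 2} (hg : g.IsNormalizedEigenform)
    {p : ℕ} (hp : p.Prime) (hpN : ¬ p ∣ N) (n : ℕ) :
    qCoeff ⇑g (n * p) + (if p ∣ n then (p : ℂ) * qCoeff ⇑g (n / p) else 0)
      = qCoeff ⇑g p * qCoeff ⇑g n := by
  rcases Nat.eq_zero_or_pos n with rfl | hn
  · have h0 := Fermat.Agent.S49.glue_qCoeff_zero_idx g
    simp [h0]
  obtain ⟨r, m, hm, rfl⟩ := Nat.exists_eq_pow_mul_and_not_dvd hn.ne' p hp.ne_one
  have hcop : ∀ s : ℕ, (p ^ s).Coprime m :=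
    fun s => Nat.Coprime.pow_left s ((Nat.Prime.coprime_iff_not_dvd hp).mpr hm)
  have e1 : p ^ r * m * p = p ^ (r + 1) * m := by ring
  rw [e1, hg.qCoeff_mul_of_coprime _ _ (hcop (r + 1)), hg.qCoeff_mul_of_coprime _ _ (hcop r)]
  rcases Nat.eq_zero_or_pos r with rfl | hr
  · have hnd : ¬ p ∣ p ^ 0 * m := by simpa using hm
    rw [if_neg hnd]
    simp [hg.qCoeff_one]
  · obtain ⟨s, rfl⟩ : ∃ s, r = s + 1 := ⟨r - 1, by omega⟩
    have hd : p ∣ p ^ (s + 1) * m := Dvd.dvd.mul_right (dvd_pow_self p (by omega)) m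
    have hdiv : p ^ (s + 1) * m / p = p ^ s * m := by
      rw [pow_succ, mul_assoc, mul_comm p m, ← mul_assoc]
      exact Nat.mul_div_cancel _ hp.pos
    rw [if_pos hd, hdiv, hg.qCoeff_mul_of_coprime _ _ (hcop s),
      hg.qCoeff_prime_pow_of_not_dvd p s hp hpN]
    ring

/-- A normalised eigenform is an eigenvector of `T_p` with eigenvalue `a_p` (`p ∤ N`). -/
theorem heckeTLin_eq_smul {g : CuspForm (Gamma0 N) 2} (hg : g.IsNormalizedEigenform)
    {p : ℕ} (hp : p.Prime) (hpN : ¬ p ∣ N) :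
    CuspForm.heckeTLin 2 hp hpN g = qCoeff ⇑g p • g := by
  rw [← sub_eq_zero]
  apply Fermat.Agent.S49.glue_eq_zero_of_qCoeff
  intro n
  rw [Fermat.Agent.S49.glue_qCoeff_sub, Fermat.Agent.S49.glue_qCoeff_heckeTLin,
    Fermat.Agent.S49.glue_qCoeff_smul, qCoeff_hecke_relation hg hp hpN n, sub_self]

theorem ne_zero_of_isNormalizedEigenform {g : CuspForm (Gamma0 N) 2}
    (hg : g.IsNormalizedEigenform) : g ≠ 0 := by
  rintro rfl
  have h1 := hg.qCoeff_one
  have h0 : qCoeff ⇑(0 : CuspForm (Gamma0 N) 2) 1 = 0 := by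
    have := Fermat.Agent.S49.glue_qCoeff_smul (N := N) 0 0 1
    simpa using this
  rw [h0] at h1
  exact zero_ne_one h1

variable [NeZero N]

/-- The period map of a nonzero cusp form is nonzero. -/
theorem periodMap_ne_zero {f : CuspForm (Gamma0 N) 2} (hf : f ≠ 0) : periodMap N f ≠ 0 := by
  intro h0
  apply hf
  obtain ⟨F, hF⟩ := Fermat.Agent.S21.H381.exists_hasEquivariantPrimitive f
  have hder : ∀ τ : ℍ, deriv (F ∘ ofComplex) (τ : ℂ) = 0 := by
    intro τ
    refine Fermat.Agent.S21.H81.injCore_deriv_eq_zero (N := N) (A := F)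
      (fun τ => (hF.1 τ).differentiableAt) ?_ hF.2.2.2 τ
    intro γ hγ
    refine ⟨0, rfl, fun z => ?_⟩
    have := Fermat.Agent.S21.H381.periodMap_apply hF ⟨γ, hγ⟩ z
    rw [h0] at this
    simpa using this.symm
  ext τ
  have := (hF.1 τ).deriv
  rw [hder τ] at this
  simpa using this.symm

end Fermat.Agent.S29.H642

end
-- ===== PACK-END S29/H642/EigenRel.lean

-- ===== PACK-BEGIN S29/HCoh.lean
section



/-!
# S29 layer M, piece `HCoh` (wrapper with the exact skeleton statement; proof in `H149/HCoh.lean`)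
-/

set_option autoImplicit false

noncomputable section

namespace Fermat.Agent.S29

open ModularCurve AlgebraicCurve Polynomial
open scoped TensorProduct

section

variable (N : ℕ) [NeZero N]

/-- PIECE `HCoh` (pure group theory): for a prime `ℓ ∤ N` the factorisation `heckeFac` exists, is
unique, permutes the index set, and `heckeCoh` preserves parabolic characters. -/
theorem isParHom_heckeCoh {ℓ : ℕ} (hℓ : ℓ.Prime) (hℓN : ¬ ℓ ∣ N) {A : Type*} [AddCommGroup A]
    {c : G0 N → A} (hc : IsParHom c) : IsParHom (heckeCoh N ℓ c) :=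
  H149.isParHom_heckeCoh hℓ hℓN hc

end

end Fermat.Agent.S29

end
end
-- ===== PACK-END S29/HCoh.lean

-- ===== PACK-BEGIN S29/H222/ESKSpec.lean
section
/-
S29 / helper222 — piece ESK: the Eichler–Shimura input of layer M ("ES raw": inertia acts trivially
on `J₀(N)(ℚ̄)[m]`, Frobenius satisfies `σ² - T_ℓ σ + ℓ = 0` on `J₀(N)(ℚ̄)[m]`) DIRECTLY from the
S18 hub `CoreStatement N A m`, WITHOUT S37 (no special fibre, no place reduction map, no `J'`, no
commutativity of Hecke operators).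

This file: the interface (definitions + the two target statements as `Prop`s).
-/





set_option autoImplicit false

noncomputable section

namespace Fermat.Agent.S29.H222

open ModularCurve AlgebraicCurve HahnSeries
open Fermat.Agent.S18 (Qb IsInt toF CoreStatement)

/-- The absolute Galois group of `ℚ`. -/
abbrev GQ' : Type := Qb ≃ₐ[ℚ] Qb

/-- The norm along `α : F_N → F_{Nℓ}` (inclusion) of `β y` (`β = q ↦ q^ℓ`): the function whose
divisor is `T_ℓ (div y)` for the Prelude Hecke correspondence. -/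
def heckeNorm (N ℓ : ℕ) [NeZero N] [NeZero ℓ] (y : modularFunctionFieldBar N) :
    modularFunctionFieldBar N :=
  letI := algebraAlong (heckeAlphaBar Qb N ℓ)
  Algebra.norm (modularFunctionFieldBar N) (heckeBetaBar Qb N ℓ y)

/-- **NORM-ID** (piece NKI of the S37 row): the norm along `α` of `β y` has `q`-expansion the
formal Kronecker norm `V_ℓ y · det (secMat ℓ y)` (`Fermat.Agent.S37.H400.kronNorm`, on main). -/
def NormId (N ℓ : ℕ) [NeZero N] [NeZero ℓ] : Prop :=
  ∀ y : modularFunctionFieldBar N,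
    ((heckeNorm N ℓ y : modularFunctionFieldBar N) : LaurentSeries Qb)
      = Fermat.Agent.S37.H400.kronNorm ℓ (y : LaurentSeries Qb)

/-- Target (U): inertia at `A` acts trivially on the `m`-torsion of `J₀(N)(ℚ̄)`. -/
def InertiaTrivialOn (N : ℕ) (A : ValuationSubring Qb) (m : ℕ) : Prop :=
  ∀ τ ∈ A.inertiaSubgroupIn ℚ, ∀ x : JZero N, (m : ℤ) • x = 0 → τ • x = x

/-- Target (F): every Frobenius element at `A` satisfies the Eichler–Shimura relation
`σ² - T_ℓ σ + ℓ = 0` on the `m`-torsion of `J₀(N)(ℚ̄)` (`T_ℓ` = the RAW Prelude operator). -/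
def FrobQuadraticOn (N : ℕ) [NeZero N] (ℓ : ℕ) (hℓ : ℓ.Prime) (A : ValuationSubring Qb)
    (m : ℕ) : Prop :=
  ∀ σ : GQ', A.IsFrobeniusAt σ ℓ → ∀ x : JZero N, (m : ℤ) • x = 0 →
    σ • σ • x - heckeOperatorBar N ⟨ℓ, hℓ⟩ (σ • x) + (ℓ : ℤ) • x = 0

/-- The statement of piece ESK-U. -/
def ESKInertiaStatement : Prop :=
  ∀ (N : ℕ) [NeZero N] (m : ℕ), m ≠ 0 → ∀ A : ValuationSubring Qb,
    CoreStatement N A m → PrincipalGeneratedByIntegral A (IsLocalRing.residue A) N →
      InertiaTrivialOn N A m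

/-- The statement of piece ESK-F. -/
def ESKFrobStatement : Prop :=
  ∀ (N : ℕ) [NeZero N] (ℓ : ℕ) (hℓ : ℓ.Prime) (m : ℕ), m ≠ 0 → ∀ A : ValuationSubring Qb,
    A.LiesOverPrime ℓ →
    CoreStatement N A m → PrincipalGeneratedByIntegral A (IsLocalRing.residue A) N →
    (haveI : NeZero ℓ := ⟨hℓ.ne_zero⟩; HeckeInputsAlong Qb N ℓ) →
    (haveI : NeZero ℓ := ⟨hℓ.ne_zero⟩; NormId N ℓ) →
      FrobQuadraticOn N ℓ hℓ A m

end Fermat.Agent.S29.H222

end
end
-- ===== PACK-END S29/H222/ESKSpec.lean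

-- ===== PACK-BEGIN S29/H942/MeroRootGlue.lean
section


/-!
# Gluing meromorphic `p`-th roots along an exhaustion by simply connected open sets
-/

set_option autoImplicit false

noncomputable section

open Filter Topology Set Complex MeromorphicOn Function

namespace Fermat.Agent.S29.H942

/-- Existence of a root in normal form on a simply connected open set on which `f` has finitely
many zeros and poles. -/
theorem exists_isNFRootOn_of_finite {f : ℂ → ℂ} {U : Set ℂ}
    (hUc : IsSimplyConnected U) (hU : IsOpen U) (hf : MeromorphicOn f U)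
    (h₂f : ∀ x ∈ U, meromorphicOrderAt f x ≠ ⊤) (h₃f : (divisor f U).support.Finite)
    {p : ℕ} (hp : p ≠ 0) (hdiv : ∀ x ∈ U, (p : ℤ) ∣ (meromorphicOrderAt f x).untop₀) :
    ∃ h : ℂ → ℂ, IsNFRootOn h f U p := by
  have hdiv' : ∀ z, (p : ℤ) ∣ divisor f U z := by
    intro z
    by_cases hz : z ∈ U
    · rw [divisor_apply hf hz]
      exact hdiv z hz
    · have : divisor f U z = 0 := by
        rw [divisor_def]
        simp [hz]
      rw [this]
      exact dvd_zero _
  obtain ⟨h, hh, hpow⟩ := exists_meromorphicOn_pow_eq_of_finite hUc hU hf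
    (fun u => h₂f u u.2) h₃f hp hdiv'
  exact ⟨_, isNFRootOn_toMeromorphicNFOn hU hh hpow⟩

/-- Multiplying a root by a root of unity gives a root. -/
lemma IsNFRootOn.const_mul {h f : ℂ → ℂ} {V : Set ℂ} {p : ℕ} (hh : IsNFRootOn h f V p)
    {ζ : ℂ} (hζ : ζ ^ p = 1) (hζ0 : ζ ≠ 0) : IsNFRootOn (fun z => ζ * h z) f V p := by
  refine ⟨fun x hx => ?_, fun x hx => ?_⟩
  · have := (hh.1 hx).smul_analytic (g := fun _ : ℂ => ζ) analyticAt_const hζ0
    exact this
  · filter_upwards [hh.2 x hx] with y hy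
    simp only [Pi.pow_apply] at hy ⊢
    rw [mul_pow, hζ, one_mul, hy]

/-- A root (of a function of finite order) on a nonempty open set is non-zero somewhere. -/
lemma IsNFRootOn.exists_ne_zero {h f : ℂ → ℂ} {V : Set ℂ} {p : ℕ} (hp : p ≠ 0)
    (hh : IsNFRootOn h f V p) (hV : IsOpen V) (hne : V.Nonempty)
    (hf : ∀ x ∈ V, meromorphicOrderAt f x ≠ ⊤) : ∃ y ∈ V, h y ≠ 0 := by
  obtain ⟨x, hx⟩ := hne
  have h1 := hh.eventually_ne_zero hp hx (hf x hx)
  have h2 : V ∈ 𝓝[≠] x := mem_nhdsWithin_of_mem_nhds (hV.mem_nhds hx)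
  obtain ⟨y, hy1, hy2⟩ := (h1.and h2).exists
  exact ⟨y, hy2, hy1⟩

/-- **Gluing.** -/
theorem exists_isNFRootOn_iUnion {f : ℂ → ℂ} {p : ℕ} (hp : p ≠ 0) (V : ℕ → Set ℂ)
    (hVo : ∀ n, IsOpen (V n)) (hVsc : ∀ n, IsSimplyConnected (V n)) (hmono : Monotone V)
    (hf : ∀ n, MeromorphicOn f (V n)) (hford : ∀ n, ∀ x ∈ V n, meromorphicOrderAt f x ≠ ⊤)
    (hfin : ∀ n, (divisor f (V n)).support.Finite)
    (hdiv : ∀ n, ∀ x ∈ V n, (p : ℤ) ∣ (meromorphicOrderAt f x).untop₀) :
    ∃ h : ℂ → ℂ, IsNFRootOn h f (⋃ n, V n) p := by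
  classical
  -- roots on each `V n`
  have h1 : ∀ n, ∃ h : ℂ → ℂ, IsNFRootOn h f (V n) p := fun n =>
    exists_isNFRootOn_of_finite (hVsc n) (hVo n) (hf n) (hford n) (hfin n) hp (hdiv n)
  choose H hH using h1
  have hpc : ∀ n, IsPreconnected (V n) := fun n =>
    (hVsc n).isPathConnected.isConnected.isPreconnected
  have hV0 : ∀ n, V 0 ⊆ V n := fun n => hmono (Nat.zero_le n)
  -- normalisation against `H 0` on `V 0`
  have h2 : ∀ n, ∃ ζ : ℂ, ζ ^ p = 1 ∧ ∀ x ∈ V 0, H n x = ζ * H 0 x := fun n =>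
    IsNFRootOn.exists_eq_mul hp (hVo 0) (hpc 0) (hford 0) (hH 0) ((hH n).mono (hV0 n))
  choose ζ hζ hζH using h2
  have hζ0 : ∀ n, ζ n ≠ 0 := by
    intro n h0
    have := hζ n
    rw [h0, zero_pow hp] at this
    exact zero_ne_one this
  set H' : ℕ → ℂ → ℂ := fun n z => (ζ n)⁻¹ * H n z with hH'def
  have hH' : ∀ n, IsNFRootOn (H' n) f (V n) p := fun n =>
    (hH n).const_mul (by rw [inv_pow, hζ n, inv_one]) (inv_ne_zero (hζ0 n))
  have hH'0 : ∀ n, ∀ x ∈ V 0, H' n x = H 0 x := by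
    intro n x hx
    simp only [hH'def]
    rw [hζH n x hx, ← mul_assoc, inv_mul_cancel₀ (hζ0 n), one_mul]
  obtain ⟨y₀, hy₀V, hy₀⟩ := (hH 0).exists_ne_zero hp (hVo 0) (hVsc 0).nonempty (hford 0)
  -- compatibility
  have h3 : ∀ n m, n ≤ m → ∀ x ∈ V n, H' m x = H' n x := by
    intro n m hnm x hx
    obtain ⟨ξ, -, hξH⟩ := IsNFRootOn.exists_eq_mul hp (hVo n) (hpc n) (hford n) (hH' n)
      ((hH' m).mono (hmono hnm))
    have h4 := hξH y₀ (hV0 n hy₀V)
    rw [hH'0 m y₀ hy₀V, hH'0 n y₀ hy₀V] at h4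
    have h5 : ξ = 1 := by
      have : (ξ - 1) * H 0 y₀ = 0 := by rw [sub_mul, one_mul, ← h4, sub_self]
      rcases mul_eq_zero.1 this with h | h
      · exact sub_eq_zero.1 h
      · exact absurd h hy₀
    rw [hξH x hx, h5, one_mul]
  -- the glued function
  set idx : ℂ → ℕ := fun z => if hz : ∃ n, z ∈ V n then Nat.find hz else 0 with hidx
  set h : ℂ → ℂ := fun z => H' (idx z) z with hh
  have h6 : ∀ m, ∀ x ∈ V m, h x = H' m x := by
    intro m x hx
    have hex : ∃ n, x ∈ V n := ⟨m, hx⟩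
    have hi : idx x = Nat.find hex := by simp only [hidx, dif_pos hex]
    have hle : idx x ≤ m := by rw [hi]; exact Nat.find_min' hex hx
    have hmem : x ∈ V (idx x) := by rw [hi]; exact Nat.find_spec hex
    exact (h3 (idx x) m hle x hmem).symm
  refine ⟨h, fun x hx => ?_, fun x hx => ?_⟩
  · obtain ⟨m, hm⟩ := mem_iUnion.1 hx
    have heq : h =ᶠ[𝓝 x] H' m := by
      filter_upwards [(hVo m).mem_nhds hm] with y hy using h6 m y hy
    exact (meromorphicNFAt_congr heq).2 ((hH' m).1 hm)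
  · obtain ⟨m, hm⟩ := mem_iUnion.1 hx
    have hVn : V m ∈ 𝓝[≠] x := mem_nhdsWithin_of_mem_nhds ((hVo m).mem_nhds hm)
    filter_upwards [(hH' m).2 x hm, hVn] with y hy hyV
    simp only [Pi.pow_apply] at hy ⊢
    rw [h6 m y hyV, hy]

end Fermat.Agent.S29.H942

end
end
-- ===== PACK-END S29/H942/MeroRootGlue.lean

-- ===== PACK-BEGIN S18/H333/Sturm.lean
section






/-!
# S18 / c3 (helper333): the formal level-2 / level-3 identities via the Sturm bound
-/

set_option autoImplicit false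
set_option linter.unusedSectionVars false

noncomputable section

namespace Fermat.Agent.S18.H333

open UpperHalfPlane ModularForm CongruenceSubgroup MatrixGroups EisensteinSeries

/-- coefficient map `ℤ⟦X⟧ → ℂ⟦X⟧` -/
abbrev toCs : PowerSeries ℤ →+* PowerSeries ℂ := PowerSeries.map (Int.castRingHom ℂ)

theorem toCs_injective : Function.Injective toCs := by
  intro f g h
  ext n
  have := congrArg (PowerSeries.coeff n) h
  simpa using this

theorem toCs_zsmul (c : ℤ) (f : PowerSeries ℤ) : toCs (c • f) = (c : ℂ) • toCs f := by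
  ext n
  rw [PowerSeries.coeff_map, map_zsmul, PowerSeries.coeff_smul, PowerSeries.coeff_map]
  simp

theorem toCs_Vser (p : ℕ) (f : PowerSeries ℤ) : toCs (Vser p f) = Vser p (toCs f) :=
  Vser_map _ _ _

/-- `Δ` as a level-one modular form -/
def DeltaMF : ModularForm 𝒮ℒ 12 := CuspForm.toModularFormₗ CuspForm.discriminant

theorem qExpansion_E4 : qExpansion 1 E₄ = toCs Ez :=
  Fermat.Agent.S28.H505.qExpansion_E₄_eq_e4C

theorem qExpansion_DeltaMF : qExpansion 1 DeltaMF = toCs Dz := by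
  have h : qExpansion 1 DeltaMF = Fermat.Agent.S28.H505.deltaC :=
    Fermat.Agent.S28.H505.qExpansion_discriminant_eq_deltaC
  rw [h, Fermat.Agent.S28.H505.deltaC, Dz, map_mul, map_pow, PowerSeries.map_X]

variable (p : ℕ) [NeZero p]

local notation "Γp" => (Gamma0 p : Subgroup (GL (Fin 2) ℝ))

theorem qExp_restr {k : ℤ} (H : ModularForm 𝒮ℒ k) :
    qExpansion 1 (restr p H) = qExpansion 1 H := rfl

theorem qExp_mul {a b : ℤ} (f : ModularForm Γp a) (g : ModularForm Γp b) :
    qExpansion 1 (f.mul g) = qExpansion 1 f * qExpansion 1 g :=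
  ModularForm.qExpansion_mul one_pos (_root_.Fermat.Agent.S18.H333.one_mem_strictPeriods_Gamma0 p) f g

theorem qExp_add {a : ℤ} (f g : ModularForm Γp a) :
    qExpansion 1 (⇑(f + g)) = qExpansion 1 f + qExpansion 1 g := by
  rw [FunLike.coe_add]
  exact ModularForm.qExpansion_add one_pos (_root_.Fermat.Agent.S18.H333.one_mem_strictPeriods_Gamma0 p) f g

theorem qExp_sub {a : ℤ} (f g : ModularForm Γp a) :
    qExpansion 1 (⇑(f - g)) = qExpansion 1 f - qExpansion 1 g := by
  rw [FunLike.coe_sub]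
  exact ModularForm.qExpansion_sub one_pos (_root_.Fermat.Agent.S18.H333.one_mem_strictPeriods_Gamma0 p) f g

theorem qExp_smul {a : ℤ} (c : ℂ) (f : ModularForm Γp a) :
    qExpansion 1 (⇑(c • f)) = c • qExpansion 1 f := by
  rw [FunLike.coe_smul]
  exact ModularForm.qExpansion_smul one_pos (_root_.Fermat.Agent.S18.H333.one_mem_strictPeriods_Gamma0 p) c f

theorem qExp_pow {a : ℤ} (f : ModularForm Γp a) (n : ℕ) :
    qExpansion 1 (f.pow n) = qExpansion 1 f ^ n :=
  ModularForm.qExpansion_pow one_pos (_root_.Fermat.Agent.S18.H333.one_mem_strictPeriods_Gamma0 p) f n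

/-- the Sturm bound in the form we use: vanishing of `q`-expansion coefficients below `n`
with `k * ψ(p) / 12 < n` forces a form whose `q`-expansion comes from `ℤ⟦X⟧` to vanish. -/
theorem series_eq_zero_of_sturm {k : ℤ} (F : ModularForm Γp k) (Φ : PowerSeries ℤ)
    (hF : qExpansion 1 F = toCs Φ) (n : ℕ)
    (hn : (k * ((Gamma0 p).index : ℤ)).toNat / 12 < n) (hΦ : tl n Φ = tzero n) : Φ = 0 := by
  have hzero : F = 0 := by
    refine ModularForm.sturm_bound_Gamma0 p F fun m hm => ?_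
    rw [hF, PowerSeries.coeff_map, (tl_eq_tzero_iff n Φ).mp hΦ m (lt_of_le_of_lt hm hn), map_zero]
  apply toCs_injective
  rw [map_zero, ← hF, hzero]
  exact qExpansion_zero 1

/-! ### level 2 -/

theorem index_Gamma0_two : (Gamma0 2).index = 3 := by
  rw [Fermat.Agent.S20.Comb.index_Gamma0]
  decide +kernel

theorem index_Gamma0_three : (Gamma0 3).index = 4 := by
  rw [Fermat.Agent.S20.Comb.index_Gamma0]
  decide +kernel

/-- `E₄³` on `Γ₀(p)`, weight 12 -/
def EcubeF : ModularForm Γp 12 := ((restr p E₄).pow 3).mcast (by norm_num)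

/-- `E₄(p·)³` on `Γ₀(p)`, weight 12 -/
def EpcubeF : ModularForm Γp 12 := ((raise p E₄).pow 3).mcast (by norm_num)

/-- `Δ` on `Γ₀(p)` -/
def XF : ModularForm Γp 12 := restr p DeltaMF

/-- `Δ(p·)` on `Γ₀(p)` -/
def YF : ModularForm Γp 12 := raise p DeltaMF

theorem qExp_EcubeF : qExpansion 1 (EcubeF p) = toCs (Ez ^ 3) := by
  rw [EcubeF, ModularForm.qExpansion_mcast, qExp_pow, qExp_restr, qExpansion_E4, map_pow]

theorem qExp_EpcubeF : qExpansion 1 (EpcubeF p) = toCs (Vser p Ez ^ 3) := by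
  rw [EpcubeF, ModularForm.qExpansion_mcast, qExp_pow, qExpansion_raise, qExpansion_E4, map_pow,
    toCs_Vser]

theorem qExp_XF : qExpansion 1 (XF p) = toCs Dz := by
  rw [XF, qExp_restr, qExpansion_DeltaMF]

theorem qExp_YF : qExpansion 1 (YF p) = toCs (Vser p Dz) := by
  rw [YF, qExpansion_raise, qExpansion_DeltaMF, toCs_Vser]

/-- the weight-36 form `E³ X Y - (X + c Y)³` -/
def cubicF (E : ModularForm Γp 12) (c : ℤ) : ModularForm Γp ((12 + 12) + 12) :=
  ((E.mul (XF p)).mul (YF p)) -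
    (((XF p + (c : ℂ) • YF p).mul (XF p + (c : ℂ) • YF p)).mul (XF p + (c : ℂ) • YF p))

theorem qExp_cubicF (E : ModularForm Γp 12) (c : ℤ) (e : PowerSeries ℤ)
    (hE : qExpansion 1 E = toCs e) :
    qExpansion 1 (cubicF p E c) =
      toCs (e * Dz * Vser p Dz - (Dz + c • Vser p Dz) ^ 3) := by
  rw [cubicF, qExp_sub, qExp_mul, qExp_mul, qExp_mul, qExp_mul, qExp_add, qExp_smul, hE, qExp_XF,
    qExp_YF, map_sub, map_mul, map_mul, map_pow, map_add, toCs_zsmul]
  ring

theorem Phi2a_eq_zero : Phi2a = 0 := by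
  refine series_eq_zero_of_sturm 2 (cubicF 2 (EcubeF 2) 256) Phi2a ?_ 10 ?_ tl_Phi2a
  · rw [qExp_cubicF 2 _ 256 _ (qExp_EcubeF 2)]; rfl
  · rw [index_Gamma0_two]; decide

theorem Phi2b_eq_zero : Phi2b = 0 := by
  refine series_eq_zero_of_sturm 2 (cubicF 2 (EpcubeF 2) 16) Phi2b ?_ 10 ?_ tl_Phi2b
  · rw [qExp_cubicF 2 _ 16 _ (qExp_EpcubeF 2)]; rfl
  · rw [index_Gamma0_two]; decide

/-! ### level 3 -/

/-- the weight-48 form `A² - X Y (E - B)²`, `A = X² + c₂ X Y + c₄ Y²`, `B = c₁ X + c₃ Y` -/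
def quarticF (E : ModularForm Γp 12) (c₁ c₂ c₃ c₄ : ℤ) :
    ModularForm Γp ((12 + 12) + (12 + 12)) :=
  (((XF p).mul (XF p) + (c₂ : ℂ) • (XF p).mul (YF p) + (c₄ : ℂ) • (YF p).mul (YF p)).mul
    ((XF p).mul (XF p) + (c₂ : ℂ) • (XF p).mul (YF p) + (c₄ : ℂ) • (YF p).mul (YF p))) -
  ((XF p).mul (YF p)).mul
    ((E - ((c₁ : ℂ) • XF p + (c₃ : ℂ) • YF p)).mul (E - ((c₁ : ℂ) • XF p + (c₃ : ℂ) • YF p)))

theorem qExp_quarticF (E : ModularForm Γp 12) (c₁ c₂ c₃ c₄ : ℤ) (e : PowerSeries ℤ)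
    (hE : qExpansion 1 E = toCs e) :
    qExpansion 1 (quarticF p E c₁ c₂ c₃ c₄) =
      toCs ((Dz * Dz + c₂ • (Dz * Vser p Dz) + c₄ • (Vser p Dz * Vser p Dz)) *
          (Dz * Dz + c₂ • (Dz * Vser p Dz) + c₄ • (Vser p Dz * Vser p Dz)) -
        (Dz * Vser p Dz) * ((e - (c₁ • Dz + c₃ • Vser p Dz)) * (e - (c₁ • Dz + c₃ • Vser p Dz)))) := by
  simp only [quarticF, qExp_sub, qExp_mul, qExp_add, qExp_smul, hE, qExp_XF, qExp_YF, map_sub,
    map_mul, map_add, toCs_zsmul]

theorem Phi3a_eq_zero : Phi3a = 0 := by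
  refine series_eq_zero_of_sturm 3 (quarticF 3 (EcubeF 3) 756 196830 19131876 387420489) Phi3a
    ?_ 17 ?_ tl_Phi3a
  · rw [qExp_quarticF 3 _ _ _ _ _ _ (qExp_EcubeF 3)]; rfl
  · rw [index_Gamma0_three]; decide

theorem Phi3b_eq_zero : Phi3b = 0 := by
  refine series_eq_zero_of_sturm 3 (quarticF 3 (EpcubeF 3) 36 270 756 729) Phi3b
    ?_ 17 ?_ tl_Phi3b
  · rw [qExp_quarticF 3 _ _ _ _ _ _ (qExp_EpcubeF 3)]; rfl
  · rw [index_Gamma0_three]; decide

end Fermat.Agent.S18.H333

end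
end
-- ===== PACK-END S18/H333/Sturm.lean

-- ===== PACK-BEGIN Lib/RR/Zeros.lean
section



/-!
# RR library, layer L2: the zeros of `x` number at most `[F : K(x)]`  (Stichtenoth 1.3.3)

Proof.  Let `P_1, …, P_r` be distinct zeros of `x`, `e_i = ord_{P_i} x`.  Choose
uniformizers `t_i` at `P_i` and (approximation) `s_i` with `ord_{P_i} s_i = 0` and
`ord_{P_k} s_i ≥ M` for `k ≠ i`, `M` large.  The `∑ e_i` elements `t_i ^ a * s_i`
(`0 ≤ a < e_i`) are linearly independent over `K(x)`: the order of a nonzero element of `K(x)`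
at `P_i` is `n * e_i` with `n` independent of `i`; in a nontrivial relation pick the term with
lexicographically least `(n, a)`; at its place it has strictly smaller order than all others.
-/

set_option autoImplicit false

noncomputable section

open AlgebraicCurve Polynomial

namespace Fermat.Agent.Lib.RR

variable {K F : Type*} [Field K] [Field F] [Algebra K F]

theorem add_ne_zero_of_ord_lt (v : Place K F) {f g : F}
    (h : v.ord f < v.ord g) : f + g ≠ 0 := by
  intro h0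
  have : g = -f := by rw [← sub_eq_zero, sub_neg_eq_add, add_comm]; exact h0
  rw [this, ord_neg] at h
  exact lt_irrefl _ h

theorem aeval_mem (v : Place K F) {x : F} (hx : 0 ≤ v.ord x) (p : K[X]) :
    aeval x p ∈ v.toValuationSubring := by
  induction p using Polynomial.induction_on' with
  | add p q hp hq => rw [map_add]; exact add_mem hp hq
  | monomial n c =>
    rw [aeval_monomial]
    exact mul_mem (v.algebraMap_mem' c) (pow_mem (mem_of_ord_nonneg v hx) n)

/-- A polynomial in `x` with nonzero constant term is a unit at every zero of `x`. -/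
theorem aeval_of_coeff_zero_ne (v : Place K F) {x : F} (hx : 0 < v.ord x) {p : K[X]}
    (hp : p.coeff 0 ≠ 0) : aeval x p ≠ 0 ∧ v.ord (aeval x p) = 0 := by
  have hdecomp : aeval x p = algebraMap K F (p.coeff 0) + aeval x p.divX * x := by
    conv_lhs => rw [← Polynomial.divX_mul_X_add p]
    simp [add_comm]
  have hc0 : algebraMap K F (p.coeff 0) ≠ 0 := by
    simpa using hp
  have hc : v.ord (algebraMap K F (p.coeff 0)) = 0 := ord_algebraMap v _
  rcases eq_or_ne (aeval x p.divX * x) 0 with h0 | h0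
  · rw [hdecomp, h0, add_zero]; exact ⟨hc0, hc⟩
  · have hx0 : x ≠ 0 := right_ne_zero_of_mul h0
    have hr0 : aeval x p.divX ≠ 0 := left_ne_zero_of_mul h0
    have hr : 0 ≤ v.ord (aeval x p.divX) := ord_nonneg_of_mem v (aeval_mem v hx.le _)
    have hlt : v.ord (algebraMap K F (p.coeff 0)) < v.ord (aeval x p.divX * x) := by
      rw [hc, v.ord_mul hr0 hx0]; omega
    rw [hdecomp]
    exact ⟨add_ne_zero_of_ord_lt v hlt, by rw [ord_add_eq_of_lt v hc0 h0 hlt, hc]⟩

/-- The order of a nonzero polynomial in `x` at a zero of `x`. -/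
theorem aeval_ord (v : Place K F) {x : F} (hx : 0 < v.ord x) {p : K[X]} (hp : p ≠ 0) :
    aeval x p ≠ 0 ∧ v.ord (aeval x p) = (p.rootMultiplicity 0 : ℤ) * v.ord x := by
  obtain ⟨q, hq, hq'⟩ := Polynomial.exists_eq_pow_rootMultiplicity_mul_and_not_dvd p hp 0
  have hq0 : q.coeff 0 ≠ 0 := by
    intro h; apply hq'
    rw [C_0, sub_zero]; exact Polynomial.X_dvd_iff.mpr h
  obtain ⟨h1, h2⟩ := aeval_of_coeff_zero_ne v hx hq0
  have hx0 : x ≠ 0 := ne_zero_of_ord_ne_zero v hx.ne'
  have hval : aeval x p = x ^ (p.rootMultiplicity 0) * aeval x q := by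
    conv_lhs => rw [hq]
    simp
  rw [hval]
  refine ⟨mul_ne_zero (pow_ne_zero _ hx0) h1, ?_⟩
  rw [v.ord_mul (pow_ne_zero _ hx0) h1, ord_pow, h2, add_zero]

/-- **Lemma A**: the order of a nonzero element of `K(x)` at a zero `v` of `x` is a multiple
`n * ord_v x`, with `n` independent of `v`. -/
theorem exists_ord_eq_mul {x : F} (c : IntermediateField.adjoin K {x}) (hc : c ≠ 0) :
    ∃ n : ℤ, ∀ v : Place K F, 0 < v.ord x → v.ord (c : F) = n * v.ord x := by
  obtain ⟨r, s, hrs⟩ := (IntermediateField.mem_adjoin_simple_iff K (c : F)).mp c.2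
  have hcF : (c : F) ≠ 0 := by simpa using hc
  have hr : r ≠ 0 := by
    rintro rfl; apply hcF; rw [hrs]; simp
  have hs : s ≠ 0 := by
    rintro rfl; apply hcF; rw [hrs]; simp
  refine ⟨(r.rootMultiplicity 0 : ℤ) - (s.rootMultiplicity 0 : ℤ), fun v hv => ?_⟩
  obtain ⟨hr1, hr2⟩ := aeval_ord v hv hr
  obtain ⟨hs1, hs2⟩ := aeval_ord v hv hs
  rw [hrs, div_eq_mul_inv, v.ord_mul hr1 (inv_ne_zero hs1), v.ord_inv, hr2, hs2]
  ring


/-- **L2** (zeros): the zeros of `x`, counted with multiplicity, number at most `[F : K(x)]`. -/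
theorem sum_ord_le_finrank (hdeg : ∀ v : Place K F, v.deg = 1) (x : F)
    [FiniteDimensional (IntermediateField.adjoin K {x}) F]
    (S : Finset (Place K F)) (hS : ∀ v ∈ S, 0 < v.ord x) :
    ∑ v ∈ S, v.ord x ≤ (Module.finrank (IntermediateField.adjoin K {x}) F : ℤ) := by
  classical
  have _ := hdeg
  -- multiplicities
  set e : Place K F → ℕ := fun v => (v.ord x).toNat with he
  have he_cast : ∀ v ∈ S, (e v : ℤ) = v.ord x := fun v hv =>
    Int.toNat_of_nonneg (hS v hv).le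
  -- uniformizers
  choose t ht using fun v : Place K F => exists_ord_eq_one v
  have ht0 : ∀ v, t v ≠ 0 := fun v => ne_zero_of_ord_ne_zero v (by rw [ht v]; omega)
  -- the bound `M`
  set M : ℕ := ∑ v ∈ S, e v + ∑ v ∈ S, ∑ w ∈ S, e w * (v.ord (t w)).natAbs with hM
  have hMbound : ∀ v ∈ S, ∀ w ∈ S, e v + e w * (v.ord (t w)).natAbs ≤ M := by
    intro v hv w hw
    have h1 : e v ≤ ∑ v ∈ S, e v := Finset.single_le_sum (fun _ _ => Nat.zero_le _) hv
    have h2 : e w * (v.ord (t w)).natAbs ≤ ∑ w ∈ S, e w * (v.ord (t w)).natAbs :=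
      Finset.single_le_sum (f := fun w => e w * (v.ord (t w)).natAbs)
        (fun _ _ => Nat.zero_le _) hw
    have h3 : ∑ w ∈ S, e w * (v.ord (t w)).natAbs
        ≤ ∑ v ∈ S, ∑ w ∈ S, e w * (v.ord (t w)).natAbs :=
      Finset.single_le_sum (f := fun v => ∑ w ∈ S, e w * (v.ord (t w)).natAbs)
        (fun _ _ => Nat.zero_le _) hv
    omega
  -- approximating units
  choose s hs0 hsv hsw using fun w : Place K F =>
    exists_unit_zeros w (S.erase w) (Finset.notMem_erase w S) M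
  -- the family
  let I := Σ v : S, Fin (e v)
  let b : I → F := fun i => t i.1 ^ (i.2 : ℕ) * s i.1
  have hb0 : ∀ i, b i ≠ 0 := fun i => mul_ne_zero (pow_ne_zero _ (ht0 _)) (hs0 _)
  -- orders of the family
  have hb_self : ∀ (i : I) (v : Place K F), v = i.1 → v.ord (b i) = ((i.2 : ℕ) : ℤ) := by
    rintro i v rfl
    show (i.1 : Place K F).ord (t i.1 ^ (i.2 : ℕ) * s i.1) = _
    rw [Place.ord_mul _ (pow_ne_zero _ (ht0 _)) (hs0 _), ord_pow, ht, hsv]
    simp
  have hb_other : ∀ (i : I) (v : Place K F), v ∈ S → v ≠ i.1 → (e v : ℤ) ≤ v.ord (b i) := by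
    intro i v hv hne
    show (e v : ℤ) ≤ v.ord (t i.1 ^ (i.2 : ℕ) * s i.1)
    rw [Place.ord_mul _ (pow_ne_zero _ (ht0 _)) (hs0 _), ord_pow]
    have h1 : (M : ℤ) ≤ v.ord (s i.1) :=
      hsw i.1 v (Finset.mem_erase.mpr ⟨hne, hv⟩)
    have h2 := hMbound v hv i.1 i.1.2
    have h3 : ((i.2 : ℕ) : ℤ) < e i.1 := by exact_mod_cast i.2.2
    have h4 : -(((v.ord (t i.1)).natAbs : ℕ) : ℤ) ≤ v.ord (t i.1) := by
      rw [Int.natCast_natAbs]; exact neg_abs_le _
    have h5 : -((e i.1 : ℤ) * ((v.ord (t i.1)).natAbs : ℤ)) ≤ ((i.2 : ℕ) : ℤ) * v.ord (t i.1) := by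
      have h6 : (0 : ℤ) ≤ ((i.2 : ℕ) : ℤ) := Int.natCast_nonneg _
      have h7 : (0 : ℤ) ≤ ((v.ord (t i.1)).natAbs : ℤ) := Int.natCast_nonneg _
      nlinarith
    have h2' : (e v : ℤ) + (e i.1 : ℤ) * ((v.ord (t i.1)).natAbs : ℤ) ≤ M := by
      exact_mod_cast h2
    omega
  -- linear independence over `K(x)`
  have hli : LinearIndependent (IntermediateField.adjoin K {x}) b := by
    rw [Fintype.linearIndependent_iff]
    intro g hg
    by_contra hcon
    simp only [not_forall] at hcon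
    obtain ⟨j, hj⟩ := hcon
    -- orders of the coefficients
    have hn : ∀ i : I, ∃ n : ℤ, g i ≠ 0 →
        ∀ v : Place K F, 0 < v.ord x → v.ord ((g i : F)) = n * v.ord x := by
      intro i
      by_cases hgi : g i = 0
      · exact ⟨0, fun h => absurd hgi h⟩
      · obtain ⟨n, hn⟩ := exists_ord_eq_mul (g i) hgi
        exact ⟨n, fun _ => hn⟩
    choose n hn using hn
    set E : ℤ := ∑ v ∈ S, (e v : ℤ) with hE
    have hE_ge : ∀ v ∈ S, (e v : ℤ) ≤ E := fun v hv =>
      Finset.single_le_sum (f := fun v => (e v : ℤ)) (fun _ _ => Int.natCast_nonneg _) hv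
    let T : Finset I := Finset.univ.filter fun i => g i ≠ 0
    have hT : T.Nonempty := ⟨j, by simp [T, hj]⟩
    obtain ⟨i₀, hi₀T, hmin⟩ := T.exists_min_image (fun i => n i * E + ((i.2 : ℕ) : ℤ)) hT
    have hgi₀ : g i₀ ≠ 0 := by simpa [T] using hi₀T
    set v₀ : Place K F := i₀.1.1 with hv₀
    have hv₀S : v₀ ∈ S := i₀.1.2
    have hv₀x : 0 < v₀.ord x := hS v₀ hv₀S
    have ha₀ : ((i₀.2 : ℕ) : ℤ) < e v₀ := by exact_mod_cast i₀.2.2
    have he₀ : (e v₀ : ℤ) = v₀.ord x := he_cast v₀ hv₀S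
    let y : I → F := fun i => (g i : F) * b i
    have hy : ∀ i, g i • b i = y i := fun i => by
      show g i • b i = (g i : F) * b i
      rw [Algebra.smul_def]; rfl
    have hgF : ∀ i, g i ≠ 0 → (g i : F) ≠ 0 := fun i h => by simpa using h
    have hy₀ : y i₀ ≠ 0 := mul_ne_zero (hgF i₀ hgi₀) (hb0 i₀)
    have hord₀ : v₀.ord (y i₀) = n i₀ * v₀.ord x + ((i₀.2 : ℕ) : ℤ) := by
      show v₀.ord ((g i₀ : F) * b i₀) = _
      rw [v₀.ord_mul (hgF i₀ hgi₀) (hb0 i₀), hn i₀ hgi₀ v₀ hv₀x, hb_self i₀ v₀ rfl]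
    have hothers : ∀ i ∈ Finset.univ.erase i₀, y i = 0 ∨ v₀.ord (y i₀) < v₀.ord (y i) := by
      intro i hi
      have hne : i ≠ i₀ := Finset.ne_of_mem_erase hi
      by_cases hgi : g i = 0
      · left; show (g i : F) * b i = 0; rw [hgi]; simp
      right
      have hiT : i ∈ T := by simp [T, hgi]
      have hmin_i := hmin i hiT
      have hai : ((i.2 : ℕ) : ℤ) < e i.1 := by exact_mod_cast i.2.2
      have hai0 : (0 : ℤ) ≤ ((i.2 : ℕ) : ℤ) := Int.natCast_nonneg _
      have ha₀0 : (0 : ℤ) ≤ ((i₀.2 : ℕ) : ℤ) := Int.natCast_nonneg _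
      have hEi : (e i.1 : ℤ) ≤ E := hE_ge i.1 i.1.2
      have hE₀ : (e v₀ : ℤ) ≤ E := hE_ge v₀ hv₀S
      -- `n i ≥ n i₀`
      have hnge : n i₀ ≤ n i := by
        by_contra hlt
        have hlt' : n i + 1 ≤ n i₀ := by omega
        have : (n i + 1) * E ≤ n i₀ * E :=
          mul_le_mul_of_nonneg_right hlt' (by linarith)
        nlinarith
      have hordi : v₀.ord (y i) = n i * v₀.ord x + v₀.ord (b i) := by
        show v₀.ord ((g i : F) * b i) = _
        rw [v₀.ord_mul (hgF i hgi) (hb0 i), hn i hgi v₀ hv₀x]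
      rw [hord₀, hordi]
      by_cases hvi : (i.1 : Place K F) = v₀
      · -- same place
        have hbi : v₀.ord (b i) = ((i.2 : ℕ) : ℤ) := hb_self i v₀ hvi.symm
        rw [hbi]
        rcases hnge.lt_or_eq with hlt | heq
        · have hlt' : n i₀ + 1 ≤ n i := by omega
          have : (n i₀ + 1) * v₀.ord x ≤ n i * v₀.ord x :=
            mul_le_mul_of_nonneg_right hlt' hv₀x.le
          nlinarith
        · have h1 : ((i₀.2 : ℕ) : ℤ) ≤ ((i.2 : ℕ) : ℤ) := by
            rw [heq] at hmin_i; linarith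
          have h2 : ((i₀.2 : ℕ) : ℤ) ≠ ((i.2 : ℕ) : ℤ) := by
            intro h
            apply hne
            have h3 : (i.2 : ℕ) = (i₀.2 : ℕ) := by exact_mod_cast h.symm
            have h4 : i.1 = i₀.1 := Subtype.ext hvi
            obtain ⟨iv, ia⟩ := i
            obtain ⟨jv, ja⟩ := i₀
            simp only at h4 h3
            subst h4
            congr 1
            exact Fin.ext h3
          rw [heq]
          omega
      · -- different place
        have hbi : (e v₀ : ℤ) ≤ v₀.ord (b i) := hb_other i v₀ hv₀S (fun h => hvi h.symm)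
        have : n i₀ * v₀.ord x ≤ n i * v₀.ord x :=
          mul_le_mul_of_nonneg_right hnge hv₀x.le
        omega
    have hsum : y i₀ + ∑ i ∈ Finset.univ.erase i₀, y i = 0 := by
      rw [Finset.add_sum_erase _ _ (Finset.mem_univ i₀)]
      simpa [hy] using hg
    rcases ord_sum_gt v₀ (Finset.univ.erase i₀) y (v₀.ord (y i₀)) hothers with h0 | hgt
    · rw [h0, add_zero] at hsum; exact hy₀ hsum
    · have : ∑ i ∈ Finset.univ.erase i₀, y i = -y i₀ := by
        rw [← sub_eq_zero, sub_neg_eq_add, add_comm]; exact hsum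
      rw [this, ord_neg] at hgt
      exact lt_irrefl _ hgt
  have hcard := hli.fintype_card_le_finrank
  have hcardI : Fintype.card I = ∑ v ∈ S, e v := by
    simp only [I, Fintype.card_sigma, Fintype.card_fin]
    exact Finset.sum_coe_sort S e
  rw [hcardI] at hcard
  have hsum : ∑ v ∈ S, v.ord x = ((∑ v ∈ S, e v : ℕ) : ℤ) := by
    push_cast
    exact Finset.sum_congr rfl fun v hv => (he_cast v hv).symm
  rw [hsum]
  exact_mod_cast hcard


theorem sum_ord_le_finrank_of_eq (hdeg : ∀ v : Place K F, v.deg = 1) (x : F)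
    (L : IntermediateField K F) (hL : L = IntermediateField.adjoin K {x})
    [FiniteDimensional L F]
    (S : Finset (Place K F)) (hS : ∀ v ∈ S, 0 < v.ord x) :
    ∑ v ∈ S, v.ord x ≤ (Module.finrank L F : ℤ) := by
  subst hL
  exact sum_ord_le_finrank hdeg x S hS

theorem adjoin_inv_eq (x : F) :
    IntermediateField.adjoin K {x} = IntermediateField.adjoin K {x⁻¹} := by
  apply le_antisymm
  · rw [IntermediateField.adjoin_simple_le_iff]
    have := inv_mem (IntermediateField.mem_adjoin_simple_self K x⁻¹)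
    rwa [inv_inv] at this
  · rw [IntermediateField.adjoin_simple_le_iff]
    exact inv_mem (IntermediateField.mem_adjoin_simple_self K x)

/-- **L2** (poles): the poles of `x`, counted with multiplicity, number at most `[F : K(x)]`. -/
theorem sum_neg_ord_le_finrank (hdeg : ∀ v : Place K F, v.deg = 1) (x : F)
    [FiniteDimensional (IntermediateField.adjoin K {x}) F]
    (S : Finset (Place K F)) (hS : ∀ v ∈ S, v.ord x < 0) :
    ∑ v ∈ S, -v.ord x ≤ (Module.finrank (IntermediateField.adjoin K {x}) F : ℤ) := by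
  have h := sum_ord_le_finrank_of_eq hdeg x⁻¹ (IntermediateField.adjoin K {x})
    (adjoin_inv_eq x) S (fun v hv => by rw [v.ord_inv]; have := hS v hv; omega)
  simpa [Place.ord_inv] using h

end Fermat.Agent.Lib.RR

end
end
-- ===== PACK-END Lib/RR/Zeros.lean

-- ===== PACK-BEGIN S18/H107/T2Qep.lean
section






/-!
# helper107 — S18 / M3-T : QEP for the Hauptmodul `t = t₂` of `X₀(2)` (case `ℓ = 3`)

Input: the relation `j * t ^ 2 = (t + 256) ^ 3`, `2⁻¹ ∈ R`, QEP for the charts of `j` and `j⁻¹`.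
Output: QEP for the charts of `t` and `t⁻¹` (`qep_t2_fin107`, `qep_t2_inf107`).
-/

set_option autoImplicit false

namespace Fermat.Agent.S18.H107

open Polynomial Fermat.Agent.S18.Alg

variable {Ω : Type*} [Field Ω]

/-- The Hauptmodul relation for `X₀(2)` together with the needed side conditions. -/
structure HauptT2107 (Fc : Subfield Ω) (R V : Subring Ω) (j t : Ω) : Prop where
  rel : j * t ^ 2 = (t + 256) ^ 3
  two_inv : (2 : Ω)⁻¹ ∈ R
  two_ne : (2 : Ω) ≠ 0
  j_ne : j ≠ 0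
  t_mem_Fc : t ∈ Fc
  t_mem_V : t ∈ V
  t256_inv_mem_V : (t + 256)⁻¹ ∈ V

namespace HauptT2107

variable {Fc : Subfield Ω} {R V : Subring Ω} {j t : Ω}

theorem c256_ne (h : HauptT2107 Fc R V j t) : (256 : Ω) ≠ 0 := by
  have : (256 : Ω) = 2 ^ 8 := by norm_num
  rw [this]
  exact pow_ne_zero _ h.two_ne

theorem inv256_mem (h : HauptT2107 Fc R V j t) : (256 : Ω)⁻¹ ∈ R := by
  have := R.pow_mem h.two_inv 8
  have e : ((2 : Ω)⁻¹) ^ 8 = (256 : Ω)⁻¹ := by norm_num
  rwa [e] at this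

theorem t_ne (h : HauptT2107 Fc R V j t) : t ≠ 0 := by
  intro ht
  have := h.rel
  rw [ht] at this
  have h256 := h.c256_ne
  have h3 : (256 : Ω) ^ 3 = 0 := by
    have e : ((0 : Ω) + 256) ^ 3 = 256 ^ 3 := by ring
    rw [← e, ← this]
    ring
  exact h256 (pow_eq_zero_iff (by norm_num) |>.1 h3)

theorem t256_ne (h : HauptT2107 Fc R V j t) : t + 256 ≠ 0 := by
  intro ht
  have := h.rel
  rw [ht] at this
  have h0 : j * t ^ 2 = 0 := by rw [this]; ring
  rcases mul_eq_zero.1 h0 with hj | ht0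
  · exact h.j_ne hj
  · exact h.t_ne (pow_eq_zero_iff (by norm_num) |>.1 ht0)

/-- `t` is integral over `R[j]`. -/
theorem t_int (h : HauptT2107 Fc R V j t) : t ∈ intCl107 (polyRing R j) := by
  refine mem_intCl_of_cubic107 _ t (768 - j) 196608 16777216 ?_ (ofNat_mem _ _) (ofNat_mem _ _) ?_
  · exact Subring.sub_mem _ (ofNat_mem _ _) (self_mem_polyRing107 R j)
  · linear_combination -h.rel

/-- `h = t / (t + 256)` is integral over `R[j⁻¹]`. -/
theorem h_int (h : HauptT2107 Fc R V j t) : t * (t + 256)⁻¹ ∈ intCl107 (polyRing R j⁻¹) := by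
  refine mem_intCl_of_cubic107 _ _ (-1) 0 (256 * j⁻¹) ?_ (Subring.zero_mem _) ?_ ?_
  · exact Subring.neg_mem _ (Subring.one_mem _)
  · exact Subring.mul_mem _ (ofNat_mem _ _) (self_mem_polyRing107 R j⁻¹)
  · have hj := h.j_ne
    have ht := h.t256_ne
    field_simp
    linear_combination (-256 : Ω) * h.rel

/-- `t⁻¹` is integral over `R[j]` (uses `2⁻¹ ∈ R`). -/
theorem tinv_int (h : HauptT2107 Fc R V j t) : t⁻¹ ∈ intCl107 (polyRing R j) := by
  have h256 := h.inv256_mem
  have hR := le_polyRing107 R j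
  refine mem_intCl_of_cubic107 _ _ (3 * (256 : Ω)⁻¹) ((768 - j) * ((256 : Ω)⁻¹) ^ 3)
    (((256 : Ω)⁻¹) ^ 3) ?_ ?_ ?_ ?_
  · exact Subring.mul_mem _ (ofNat_mem _ _) (hR h256)
  · exact Subring.mul_mem _ (Subring.sub_mem _ (ofNat_mem _ _) (self_mem_polyRing107 R j))
      (Subring.pow_mem _ (hR h256) 3)
  · exact Subring.pow_mem _ (hR h256) 3
  · have ht := h.t_ne
    have hc := h.c256_ne
    field_simp
    linear_combination -h.rel

theorem open1_fin (h : HauptT2107 Fc R V j t) : OpenData107 Fc R V t j t 1 where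
  g_mem := self_mem_polyRing107 R t
  e_mem_Fc := Fc.one_mem
  e_mem_V := V.one_mem
  e_int := Subring.one_mem _
  xe_int := by rw [mul_one]; exact h.t_int
  y_loc := ⟨2, by
    rw [h.rel]
    exact le_intCl107 _ (Subring.pow_mem _
      (Subring.add_mem _ (self_mem_polyRing107 R t) (ofNat_mem _ _)) 3)⟩
  e_inv := ⟨1, Subring.one_mem _, 0, by simp⟩

theorem open2_fin (h : HauptT2107 Fc R V j t) :
    OpenData107 Fc R V t j⁻¹ (t + 256) (256 * (t + 256)⁻¹) where
  g_mem := Subring.add_mem _ (self_mem_polyRing107 R t) (ofNat_mem _ _)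
  e_mem_Fc := Fc.mul_mem (ofNat_mem _ _)
    (Fc.inv_mem (Fc.add_mem h.t_mem_Fc (ofNat_mem _ _)))
  e_mem_V := V.mul_mem (ofNat_mem _ _) h.t256_inv_mem_V
  e_int := by
    have e : 256 * (t + 256)⁻¹ = 1 - t * (t + 256)⁻¹ := by
      have ht := h.t256_ne
      field_simp
      ring
    rw [e]
    exact Subring.sub_mem _ (Subring.one_mem _) h.h_int
  xe_int := by
    have e : t * (256 * (t + 256)⁻¹) = 256 * (t * (t + 256)⁻¹) := by ring
    rw [e]
    exact Subring.mul_mem _ (ofNat_mem _ _) h.h_int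
  y_loc := ⟨3, by
    have e : j⁻¹ * (t + 256) ^ 3 = t ^ 2 := by
      have hj := h.j_ne
      field_simp
      linear_combination -h.rel
    rw [e]
    exact le_intCl107 _ (Subring.pow_mem _ (self_mem_polyRing107 R t) 2)⟩
  e_inv := ⟨(t + 256) * (256 : Ω)⁻¹,
    le_intCl107 _ (Subring.mul_mem _ (Subring.add_mem _ (self_mem_polyRing107 R t) (ofNat_mem _ _))
      (le_polyRing107 R t h.inv256_mem)), 0, by
    have ht := h.t256_ne
    have hc := h.c256_ne
    field_simp⟩

theorem open1_inf (h : HauptT2107 Fc R V j t) : OpenData107 Fc R V t⁻¹ j t⁻¹ 1 where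
  g_mem := self_mem_polyRing107 R t⁻¹
  e_mem_Fc := Fc.one_mem
  e_mem_V := V.one_mem
  e_int := Subring.one_mem _
  xe_int := by rw [mul_one]; exact h.tinv_int
  y_loc := ⟨1, by
    have e : j * t⁻¹ ^ 1 = (1 + 256 * t⁻¹) ^ 3 := by
      have ht := h.t_ne
      field_simp
      linear_combination h.rel
    rw [e]
    exact le_intCl107 _ (Subring.pow_mem _ (Subring.add_mem _ (Subring.one_mem _)
      (Subring.mul_mem _ (ofNat_mem _ _) (self_mem_polyRing107 R t⁻¹))) 3)⟩
  e_inv := ⟨1, Subring.one_mem _, 0, by simp⟩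

theorem open2_inf (h : HauptT2107 Fc R V j t) :
    OpenData107 Fc R V t⁻¹ j⁻¹ (1 + 256 * t⁻¹) (t * (t + 256)⁻¹) where
  g_mem := Subring.add_mem _ (Subring.one_mem _)
    (Subring.mul_mem _ (ofNat_mem _ _) (self_mem_polyRing107 R t⁻¹))
  e_mem_Fc := Fc.mul_mem h.t_mem_Fc (Fc.inv_mem (Fc.add_mem h.t_mem_Fc (ofNat_mem _ _)))
  e_mem_V := V.mul_mem h.t_mem_V h.t256_inv_mem_V
  e_int := h.h_int
  xe_int := by
    have e : t⁻¹ * (t * (t + 256)⁻¹) = (1 - t * (t + 256)⁻¹) * (256 : Ω)⁻¹ := by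
      have ht := h.t_ne
      have ht' := h.t256_ne
      have hc := h.c256_ne
      field_simp
      ring
    rw [e]
    exact Subring.mul_mem _ (Subring.sub_mem _ (Subring.one_mem _) h.h_int)
      (le_intCl107 _ (le_polyRing107 R j⁻¹ h.inv256_mem))
  y_loc := ⟨3, by
    have e : j⁻¹ * (1 + 256 * t⁻¹) ^ 3 = t⁻¹ := by
      have hj := h.j_ne
      have ht := h.t_ne
      field_simp
      linear_combination -h.rel
    rw [e]
    exact le_intCl107 _ (self_mem_polyRing107 R t⁻¹)⟩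
  e_inv := ⟨1 + 256 * t⁻¹, le_intCl107 _ (Subring.add_mem _ (Subring.one_mem _)
      (Subring.mul_mem _ (ofNat_mem _ _) (self_mem_polyRing107 R t⁻¹))), 0, by
    have ht := h.t_ne
    have ht' := h.t256_ne
    field_simp⟩

/-- **QEP for the chart of `t₂`.** -/
theorem qep_fin (h : HauptT2107 Fc R V j t) {w : Ω} (hw : w ∈ Fc)
    (q₁ : Qep107 Fc R V w j) (q₂ : Qep107 Fc R V w j⁻¹) : Qep107 Fc R V w t := by
  refine qep_transfer107 (a := -(256 : Ω)⁻¹) (b := (256 : Ω)⁻¹) hw q₁ q₂ h.open1_fin h.open2_fin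
    (Subring.neg_mem _ (le_polyRing107 R t h.inv256_mem)) (le_polyRing107 R t h.inv256_mem) ?_
  have hc := h.c256_ne
  field_simp
  ring

/-- **QEP for the chart of `t₂⁻¹`.** -/
theorem qep_inf (h : HauptT2107 Fc R V j t) {w : Ω} (hw : w ∈ Fc)
    (q₁ : Qep107 Fc R V w j) (q₂ : Qep107 Fc R V w j⁻¹) : Qep107 Fc R V w t⁻¹ := by
  refine qep_transfer107 (a := -256) (b := 1) hw q₁ q₂ h.open1_inf h.open2_inf
    (Subring.neg_mem _ (ofNat_mem _ _)) (Subring.one_mem _) ?_
  ring

end HauptT2107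

end Fermat.Agent.S18.H107

end
-- ===== PACK-END S18/H107/T2Qep.lean

-- ===== PACK-BEGIN S18/B12/H444/GenericDiscr.lean
section




/-!
# S18 / b2.5 / A5 (helper444): the generic-fibre discriminant bound

Frozen statement: `GenericDiscrStatement` of `Fermat/Agent/S18/B12/Spec2.lean` (helper33);
exact-shape theorem `genericDiscr : GenericDiscrStatement` in `GenericDiscrSpec.lean`.

Main theorem here (abstract over the localisations `Λ = P[1/w]`, `C₀ = B[1/w]`):

    theorem genericDiscr_abs  -- P int. closed noetherian domain, B normal finite torsion-free / P,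
        (w : P) (hw0 : w ≠ 0) Λ C₀ [IsLocalization (powers w) Λ]
        [IsLocalization (algebraMapSubmonoid B (powers w)) C₀] [IsPrincipalIdealRing Λ] [Algebra ℚ Λ]
        (π : P) (hπ : Prime π) (hπw : ¬ π ∣ w) (n) (x : Fin n → B) (hli : LinearIndependent P x)
        (g : P) (hgπ : ¬ π ∣ g) (hg : ∀ b, g • b ∈ span P (range x)) (r) (y : Fin r → B)
        (hy : ∀ a, ∑ i, a i • y i ∈ (span {algebraMap P B π}).radical → ∀ i, π ∣ a i) :
        ¬ π ^ (n - r + 1) ∣ (Matrix.of fun i j => Algebra.intTrace P B (x i * x j)).det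

Proof: `C₀` is a Dedekind domain, free of rank `n` over the PID `Λ`; the integral trace localises
(`Algebra.intTrace_eq_of_isLocalization`); the base-change matrix `U` from a `Λ`-basis `β` of `C₀`
to `x` has `t ∤ det U` (`t` = image of `π`), so `t^k ∣ disc(x) = det U² · disc β` forces
`t^k ∣ disc β`, contradicting helper274's tame bound `H274.tameDiscr`.  The independence of `y`
modulo `rad(t C₀)` descends from `B` by clearing denominators and the regular-sequence lemma
`dvd_of_mul_eq_mul` (A0-type, via helper203's `isIntegral_of_isIntegral_mul`).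
-/

set_option autoImplicit false

noncomputable section

namespace Fermat.Agent.S18.B12.H444

open Polynomial Module Matrix

universe u v

section RegSeq

variable {P : Type u} [CommRing P] [IsDomain P] [IsIntegrallyClosed P]
  {B : Type v} [CommRing B] [IsDomain B] [IsIntegrallyClosed B] [Algebra P B]
  [Algebra.IsIntegral P B] [Module.IsTorsionFree P B]

/-- Regular sequence (A0-type): `π` prime in `P`, `π ∤ u`, `u z ∈ π B` implies `z ∈ π B`. -/
theorem dvd_of_mul_eq_mul {π u : P} (hπ : Prime π) (hu : ¬ π ∣ u) {z b : B}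
    (h : algebraMap P B u * z = algebraMap P B π * b) :
    ∃ b'' : B, z = algebraMap P B π * b'' := by
  let K := FractionRing P
  let F := FractionRing B
  letI : Algebra K F := FractionRing.liftAlgebra P F
  haveI : IsScalarTower P K F := FractionRing.isScalarTower_liftAlgebra P F
  have hinjPB : Function.Injective (algebraMap P B) := FaithfulSMul.algebraMap_injective P B
  have hπB : algebraMap P B π ≠ 0 := (map_ne_zero_iff _ hinjPB).mpr hπ.ne_zero
  have hπF : algebraMap P F π ≠ 0 := by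
    rw [IsScalarTower.algebraMap_apply P B F]
    exact (map_ne_zero_iff _ (IsFractionRing.injective B F)).mpr hπB
  set ζ : F := (algebraMap P F π)⁻¹ * algebraMap B F z with hζ
  have h1 : algebraMap P F π * ζ = algebraMap B F z := by
    rw [hζ, mul_inv_cancel_left₀ hπF]
  have h2 : algebraMap P F u * ζ = algebraMap B F b := by
    have h' := congrArg (algebraMap B F) h
    rw [map_mul, map_mul, ← IsScalarTower.algebraMap_apply P B F,
      ← IsScalarTower.algebraMap_apply P B F] at h'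
    rw [hζ, mul_left_comm, h', inv_mul_cancel_left₀ hπF]
  have hint : IsIntegral P ζ := by
    refine Fermat.Agent.S18.H203.isIntegral_of_isIntegral_mul K hπ hu ?_ ?_
    · rw [h1]
      exact (Algebra.IsIntegral.isIntegral (R := P) z).map (IsScalarTower.toAlgHom P B F)
    · rw [h2]
      exact (Algebra.IsIntegral.isIntegral (R := P) b).map (IsScalarTower.toAlgHom P B F)
  have hintB : IsIntegral B ζ := hint.tower_top
  obtain ⟨b'', hb''⟩ := (IsIntegrallyClosed.isIntegral_iff (R := B) (K := F)).mp hintB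
  refine ⟨b'', ?_⟩
  apply IsFractionRing.injective B F
  rw [map_mul, hb'', ← h1, IsScalarTower.algebraMap_apply P B F]

end RegSeq

section Loc

theorem powers_le_nonZeroDivisors' {P : Type u} [CommRing P] [IsDomain P] (w : P) (hw0 : w ≠ 0) :
    Submonoid.powers w ≤ nonZeroDivisors P := by
  rintro a ⟨k, rfl⟩
  exact mem_nonZeroDivisors_of_ne_zero (pow_ne_zero k hw0)

theorem map_powers_le_nonZeroDivisors' {P : Type u} [CommRing P] [IsDomain P]
    (B : Type v) [CommRing B] [IsDomain B] [Algebra P B] [Module.IsTorsionFree P B]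
    (w : P) (hw0 : w ≠ 0) :
    Algebra.algebraMapSubmonoid B (Submonoid.powers w) ≤ nonZeroDivisors B := by
  rintro a ⟨b, ⟨k, rfl⟩, rfl⟩
  refine mem_nonZeroDivisors_of_ne_zero ?_
  exact (map_ne_zero_iff _ (FaithfulSMul.algebraMap_injective P B)).mpr (pow_ne_zero k hw0)

theorem isDomain_loc {P : Type u} [CommRing P] [IsDomain P]
    (B : Type v) [CommRing B] [IsDomain B] [Algebra P B] [Module.IsTorsionFree P B]
    (w : P) (C₀ : Type v) [CommRing C₀] [Algebra B C₀]
    [IsLocalization (Algebra.algebraMapSubmonoid B (Submonoid.powers w)) C₀]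
    (hw0 : w ≠ 0) : IsDomain C₀ :=
  IsLocalization.isDomain_of_le_nonZeroDivisors _ (map_powers_le_nonZeroDivisors' B w hw0)

theorem injective_algebraMap_loc {P : Type u} [CommRing P] [IsDomain P]
    (B : Type v) [CommRing B] [IsDomain B] [Algebra P B] [Module.IsTorsionFree P B]
    (w : P)
    (Λ : Type u) [CommRing Λ] [Algebra P Λ] [IsLocalization (Submonoid.powers w) Λ]
    (C₀ : Type v) [CommRing C₀] [Algebra B C₀] [Algebra Λ C₀] [Algebra P C₀]
    [IsScalarTower P Λ C₀] [IsScalarTower P B C₀]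
    [IsLocalization (Algebra.algebraMapSubmonoid B (Submonoid.powers w)) C₀]
    (hw0 : w ≠ 0) : Function.Injective (algebraMap Λ C₀) := by
  have hBC : Function.Injective (algebraMap B C₀) :=
    IsLocalization.injective C₀ (map_powers_le_nonZeroDivisors' B w hw0)
  have hPB : Function.Injective (algebraMap P B) := FaithfulSMul.algebraMap_injective P B
  rw [injective_iff_map_eq_zero]
  intro a ha
  obtain ⟨⟨p, s⟩, hps⟩ := IsLocalization.surj (Submonoid.powers w) a
  simp only at hps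
  have h1 : algebraMap Λ C₀ (algebraMap P Λ p) = 0 := by
    rw [← hps, map_mul, ha, zero_mul]
  rw [← IsScalarTower.algebraMap_apply, IsScalarTower.algebraMap_apply P B C₀] at h1
  have h2 : p = 0 := by
    have := (map_eq_zero_iff _ hBC).mp h1
    exact (map_eq_zero_iff _ hPB).mp this
  rw [h2, map_zero] at hps
  have hu : IsUnit (algebraMap P Λ s) := IsLocalization.map_units Λ s
  exact (hu.mul_left_eq_zero).mp hps

theorem isDedekindDomain_loc {P : Type u} [CommRing P] [IsDomain P] [IsNoetherianRing P]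
    (B : Type v) [CommRing B] [IsDomain B] [IsIntegrallyClosed B] [Algebra P B]
    [Module.Finite P B] [Module.IsTorsionFree P B]
    (w : P)
    (Λ : Type u) [CommRing Λ] [Algebra P Λ] [IsLocalization (Submonoid.powers w) Λ]
    (C₀ : Type v) [CommRing C₀] [Algebra B C₀] [Algebra Λ C₀] [Algebra P C₀]
    [IsScalarTower P Λ C₀] [IsScalarTower P B C₀]
    [IsLocalization (Algebra.algebraMapSubmonoid B (Submonoid.powers w)) C₀]
    [IsDomain Λ] [IsPrincipalIdealRing Λ] (hw0 : w ≠ 0) :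
    IsDedekindDomain C₀ := by
  have : IsDomain C₀ := isDomain_loc B w C₀ hw0
  have : IsNoetherianRing B := IsNoetherianRing.of_finite P B
  have : IsNoetherianRing C₀ :=
    IsLocalization.isNoetherianRing (Algebra.algebraMapSubmonoid B (Submonoid.powers w)) C₀
      inferInstance
  have : IsIntegrallyClosed C₀ :=
    isIntegrallyClosed_of_isLocalization C₀ _ (map_powers_le_nonZeroDivisors' B w hw0)
  have : Module.Finite Λ C₀ := Module.Finite.of_isLocalization P B (Submonoid.powers w)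
  have : Algebra.IsIntegral Λ C₀ := Algebra.IsIntegral.of_finite Λ C₀
  have : Ring.DimensionLEOne C₀ := Ring.DimensionLEOne.of_isIntegral Λ C₀
  exact { }

end Loc

section Abstract

variable {P : Type u} [CommRing P] [IsDomain P]
  (w : P)
  (Λ : Type u) [CommRing Λ] [Algebra P Λ] [IsLocalization (Submonoid.powers w) Λ]

include w in
omit [IsDomain P] in
theorem not_dvd_pow_of_not_dvd {π : P} (hπ : Prime π) (hπw : ¬ π ∣ w) (k : ℕ) : ¬ π ∣ w ^ k :=
  fun h => hπw (hπ.dvd_of_dvd_pow h)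

omit [IsDomain P] in
theorem disjoint_powers {π : P} (hπ : Prime π) (hπw : ¬ π ∣ w) :
    Disjoint (Submonoid.powers w : Set P) (Ideal.span {π} : Ideal P) := by
  rw [Set.disjoint_left]
  rintro a ⟨k, rfl⟩ ha
  exact not_dvd_pow_of_not_dvd w hπ hπw k (Ideal.mem_span_singleton.mp ha)

theorem prime_map {π : P} (hπ : Prime π) (hπw : ¬ π ∣ w) (hw0 : w ≠ 0) :
    Prime (algebraMap P Λ π) := by
  have hinj : Function.Injective (algebraMap P Λ) :=
    IsLocalization.injective Λ (powers_le_nonZeroDivisors' w hw0)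
  have h0 : algebraMap P Λ π ≠ 0 := (map_ne_zero_iff _ hinj).mpr hπ.ne_zero
  rw [← Ideal.span_singleton_prime h0]
  have := IsLocalization.isPrime_of_isPrime_disjoint (Submonoid.powers w) Λ (Ideal.span {π})
    ((Ideal.span_singleton_prime hπ.ne_zero).mpr hπ) (disjoint_powers w hπ hπw)
  rwa [Ideal.map_span, Set.image_singleton] at this

omit [IsDomain P] in
theorem dvd_of_map_dvd {π : P} (hπ : Prime π) (hπw : ¬ π ∣ w) {a : P}
    (h : algebraMap P Λ π ∣ algebraMap P Λ a) : π ∣ a := by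
  have h1 := IsLocalization.under_map_of_isPrime_disjoint (Submonoid.powers w) Λ
    ((Ideal.span_singleton_prime hπ.ne_zero).mpr hπ) (disjoint_powers w hπ hπw)
  have h2 : a ∈ (Ideal.map (algebraMap P Λ) (Ideal.span {π})).under P := by
    rw [Ideal.under_def, Ideal.mem_comap, Ideal.map_span, Set.image_singleton]
    exact Ideal.mem_span_singleton.mpr h
  rw [h1] at h2
  exact Ideal.mem_span_singleton.mp h2

end Abstract
section Loc2

/-- The trace of `B[1/w]` over `P[1/w]` restricts to the integral trace of `B` over `P`. -/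
theorem map_intTrace_eq_trace {P : Type u} [CommRing P] [IsDomain P] [IsIntegrallyClosed P]
    (B : Type v) [CommRing B] [IsDomain B] [IsIntegrallyClosed B] [Algebra P B]
    [Module.Finite P B] [Module.IsTorsionFree P B]
    (w : P)
    (Λ : Type u) [CommRing Λ] [Algebra P Λ] [IsLocalization (Submonoid.powers w) Λ]
    (C₀ : Type v) [CommRing C₀] [Algebra B C₀] [Algebra Λ C₀] [Algebra P C₀]
    [IsScalarTower P Λ C₀] [IsScalarTower P B C₀]
    [IsLocalization (Algebra.algebraMapSubmonoid B (Submonoid.powers w)) C₀]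
    [IsDomain Λ] [IsPrincipalIdealRing Λ] (hw0 : w ≠ 0) (b : B) :
    algebraMap P Λ (Algebra.intTrace P B b) = Algebra.trace Λ C₀ (algebraMap B C₀ b) := by
  have : IsDomain C₀ := isDomain_loc B w C₀ hw0
  have : IsIntegrallyClosed C₀ :=
    isIntegrallyClosed_of_isLocalization C₀ _ (map_powers_le_nonZeroDivisors' B w hw0)
  have : Module.Finite Λ C₀ := Module.Finite.of_isLocalization P B (Submonoid.powers w)
  have : Module.IsTorsionFree Λ C₀ :=
    isTorsionFree_iff_algebraMap_injective.mpr (injective_algebraMap_loc B w Λ C₀ hw0)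
  have : Module.Free Λ C₀ := Module.free_of_finite_type_torsion_free'
  rw [Algebra.intTrace_eq_of_isLocalization P B (Submonoid.powers w) (Aₘ := Λ) (Bₘ := C₀) b,
    Algebra.intTrace_eq_trace]

/-- Radical membership descends from `B[1/w]` to `B` (regular sequence `π, w`). -/
theorem mem_radical_of_map_mem_radical {P : Type u} [CommRing P] [IsDomain P]
    [IsIntegrallyClosed P]
    (B : Type v) [CommRing B] [IsDomain B] [IsIntegrallyClosed B] [Algebra P B]
    [Module.Finite P B] [Module.IsTorsionFree P B]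
    (w : P)
    (Λ : Type u) [CommRing Λ] [Algebra P Λ]
    (C₀ : Type v) [CommRing C₀] [Algebra B C₀] [Algebra Λ C₀] [Algebra P C₀]
    [IsScalarTower P Λ C₀] [IsScalarTower P B C₀]
    [IsLocalization (Algebra.algebraMapSubmonoid B (Submonoid.powers w)) C₀]
    (hw0 : w ≠ 0) {π : P} (hπ : Prime π) (hπw : ¬ π ∣ w) {z : B}
    (h : algebraMap B C₀ z ∈ (Ideal.span {algebraMap Λ C₀ (algebraMap P Λ π)}).radical) :
    z ∈ (Ideal.span {algebraMap P B π}).radical := by
  have hBC : Function.Injective (algebraMap B C₀) :=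
    IsLocalization.injective C₀ (map_powers_le_nonZeroDivisors' B w hw0)
  obtain ⟨N, hN⟩ := h
  obtain ⟨c, hc⟩ := Ideal.mem_span_singleton'.mp hN
  obtain ⟨⟨b, s⟩, hbs⟩ :=
    IsLocalization.surj (Algebra.algebraMapSubmonoid B (Submonoid.powers w)) c
  simp only at hbs
  obtain ⟨s', ⟨k, rfl⟩, hs'⟩ := s.2
  have hs'' : (s : B) = algebraMap P B (w ^ k) := hs'.symm
  have e1 : algebraMap Λ C₀ (algebraMap P Λ π) = algebraMap B C₀ (algebraMap P B π) := by
    rw [← IsScalarTower.algebraMap_apply, ← IsScalarTower.algebraMap_apply]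
  have key : algebraMap P B (w ^ k) * z ^ N = algebraMap P B π * b := by
    apply hBC
    rw [map_mul, map_mul, map_pow (algebraMap B C₀) z N, ← hc, e1, ← hbs, hs'']
    ring
  have hnd : ¬ π ∣ w ^ k := fun h => hπw (hπ.dvd_of_dvd_pow h)
  obtain ⟨b'', hb''⟩ := dvd_of_mul_eq_mul hπ hnd key
  refine ⟨N, Ideal.mem_span_singleton'.mpr ⟨b'', ?_⟩⟩
  rw [hb'', mul_comm]

/-- A local spanning family stays spanning (up to `g`) after inverting `w`. -/
theorem smul_mem_span_loc {P : Type u} [CommRing P]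
    (B : Type v) [CommRing B] [Algebra P B]
    (w : P)
    (Λ : Type u) [CommRing Λ] [Algebra P Λ] [IsLocalization (Submonoid.powers w) Λ]
    (C₀ : Type v) [CommRing C₀] [Algebra B C₀] [Algebra Λ C₀] [Algebra P C₀]
    [IsScalarTower P Λ C₀] [IsScalarTower P B C₀]
    [IsLocalization (Algebra.algebraMapSubmonoid B (Submonoid.powers w)) C₀]
    {n : ℕ} (x : Fin n → B) (g : P)
    (hg : ∀ b : B, g • b ∈ Submodule.span P (Set.range x)) (c : C₀) :
    algebraMap P Λ g • c ∈ Submodule.span Λ (Set.range (algebraMap B C₀ ∘ x)) := by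
  obtain ⟨⟨b, s⟩, hbs⟩ :=
    IsLocalization.surj (Algebra.algebraMapSubmonoid B (Submonoid.powers w)) c
  simp only at hbs
  obtain ⟨s', ⟨k, rfl⟩, hs'⟩ := s.2
  have hs'' : (s : B) = algebraMap P B (w ^ k) := hs'.symm
  have hu : IsUnit (algebraMap P Λ (w ^ k)) :=
    IsLocalization.map_units Λ (⟨w ^ k, k, rfl⟩ : Submonoid.powers w)
  obtain ⟨v, hv⟩ := hu.exists_left_inv
  -- `c = v • ι b`
  have hc : c = v • algebraMap B C₀ b := by
    rw [← hbs, hs'', ← IsScalarTower.algebraMap_apply P B C₀,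
      IsScalarTower.algebraMap_apply P Λ C₀, Algebra.smul_def, ← mul_assoc, mul_comm _ c,
      mul_assoc, ← map_mul, hv, map_one, mul_one]
  -- `ι (g • b)` lies in the span
  have h1 : algebraMap B C₀ (g • b) ∈ Submodule.span Λ (Set.range (algebraMap B C₀ ∘ x)) := by
    have h2 := hg b
    have h3 : (IsScalarTower.toAlgHom P B C₀).toLinearMap (g • b) ∈
        Submodule.map (IsScalarTower.toAlgHom P B C₀).toLinearMap
          (Submodule.span P (Set.range x)) := Submodule.mem_map_of_mem h2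
    rw [Submodule.map_span, ← Set.range_comp] at h3
    have h4 : Submodule.span P (Set.range ((IsScalarTower.toAlgHom P B C₀).toLinearMap ∘ x)) ≤
        (Submodule.span Λ (Set.range (algebraMap B C₀ ∘ x))).restrictScalars P :=
      Submodule.span_le_restrictScalars P Λ _
    exact h4 h3
  have h5 : algebraMap P Λ g • c = v • algebraMap B C₀ (g • b) := by
    rw [hc, Algebra.smul_def g b, map_mul, ← IsScalarTower.algebraMap_apply P B C₀,
      IsScalarTower.algebraMap_apply P Λ C₀, ← Algebra.smul_def, smul_comm]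
  rw [h5]
  exact Submodule.smul_mem _ _ h1

end Loc2

section Main

/-- **A5, abstract form.**  `Λ = P[1/w]` a PID containing `ℚ`, `C₀ = B[1/w]`. -/
theorem genericDiscr_abs {P : Type u} [CommRing P] [IsDomain P] [IsIntegrallyClosed P]
    [IsNoetherianRing P]
    (B : Type v) [CommRing B] [IsDomain B] [IsIntegrallyClosed B] [Algebra P B]
    [Module.Finite P B] [Module.IsTorsionFree P B]
    (w : P) (hw0 : w ≠ 0)
    (Λ : Type u) [CommRing Λ] [Algebra P Λ] [IsLocalization (Submonoid.powers w) Λ]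
    (C₀ : Type v) [CommRing C₀] [Algebra B C₀] [Algebra Λ C₀] [Algebra P C₀]
    [IsScalarTower P Λ C₀] [IsScalarTower P B C₀]
    [IsLocalization (Algebra.algebraMapSubmonoid B (Submonoid.powers w)) C₀]
    [IsDomain Λ] [IsPrincipalIdealRing Λ] [Algebra ℚ Λ]
    (π : P) (hπ : Prime π) (hπw : ¬ π ∣ w)
    (n : ℕ) (x : Fin n → B) (hli : LinearIndependent P x)
    (g : P) (hgπ : ¬ π ∣ g) (hg : ∀ b : B, g • b ∈ Submodule.span P (Set.range x))
    (r : ℕ) (y : Fin r → B)
    (hy : ∀ a : Fin r → P,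
      (∑ i, a i • y i) ∈ (Ideal.span {algebraMap P B π}).radical → ∀ i, π ∣ a i) :
    ¬ π ^ (n - r + 1) ∣ (Matrix.of fun i j => Algebra.intTrace P B (x i * x j)).det := by
  classical
  have hD : IsDedekindDomain C₀ := isDedekindDomain_loc B w Λ C₀ hw0
  have : Module.Finite Λ C₀ := Module.Finite.of_isLocalization P B (Submonoid.powers w)
  have hinjΛ := injective_algebraMap_loc B w Λ C₀ hw0
  have : Module.IsTorsionFree Λ C₀ := isTorsionFree_iff_algebraMap_injective.mpr hinjΛ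
  have : Module.Free Λ C₀ := Module.free_of_finite_type_torsion_free'
  have hinjP : Function.Injective (algebraMap P Λ) :=
    IsLocalization.injective Λ (powers_le_nonZeroDivisors' w hw0)
  set t := algebraMap P Λ π with ht_def
  have ht : Prime t := prime_map w Λ hπ hπw hw0
  set x' : Fin n → C₀ := algebraMap B C₀ ∘ x with hx'
  have hli' : LinearIndependent Λ x' :=
    hli.localization_localization (Rₛ := Λ) (Submonoid.powers w) C₀
  have hg0 : algebraMap P Λ g ≠ 0 := by
    intro h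
    apply hgπ
    have : g = 0 := hinjP (by rw [h, map_zero])
    rw [this]
    exact dvd_zero π
  have hspan : ∀ c : C₀, algebraMap P Λ g • c ∈ Submodule.span Λ (Set.range x') :=
    fun c => smul_mem_span_loc B w Λ C₀ x g hg c
  -- rank
  have hn : Module.finrank Λ C₀ = n := by
    apply le_antisymm
    · let φ : C₀ →ₗ[Λ] Submodule.span Λ (Set.range x') :=
        LinearMap.codRestrict _ (algebraMap P Λ g • LinearMap.id) hspan
      have hφ : Function.Injective φ := by
        intro c c' hcc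
        have h1 : algebraMap P Λ g • c = algebraMap P Λ g • c' := congrArg Subtype.val hcc
        exact smul_right_injective C₀ hg0 h1
      calc Module.finrank Λ C₀
          ≤ Module.finrank Λ (Submodule.span Λ (Set.range x')) :=
            LinearMap.finrank_le_finrank_of_injective hφ
        _ ≤ Fintype.card (Fin n) := finrank_range_le_card x'
        _ = n := Fintype.card_fin n
    · have := hli'.fintype_card_le_finrank
      simpa using this
  let β : Module.Basis (Fin n) Λ C₀ := Module.finBasisOfFinrankEq Λ C₀ hn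
  let U : Matrix (Fin n) (Fin n) Λ := fun i j => β.repr (x' i) j
  have hU : x' = (U.map (algebraMap Λ C₀)) *ᵥ β := by
    ext i
    simp only [Matrix.mulVec, dotProduct]
    calc x' i = ∑ j, β.repr (x' i) j • β j := (β.sum_repr (x' i)).symm
      _ = _ := Finset.sum_congr rfl (fun j _ => by rw [Matrix.map_apply, Algebra.smul_def])
  have hV : ∀ j, ∃ c : Fin n → Λ, ∑ i, c i • x' i = algebraMap P Λ g • β j := fun j =>
    (Submodule.mem_span_range_iff_exists_fun Λ).mp (hspan (β j))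
  choose V hVeq using hV
  have hVU : (Matrix.of V) * U = algebraMap P Λ g • (1 : Matrix (Fin n) (Fin n) Λ) := by
    ext j l
    have h1 := congrArg (fun z => β.repr z l) (hVeq j)
    simp only [map_sum, map_smul, Finsupp.coe_finsetSum, Finsupp.coe_smul, Finset.sum_apply,
      Pi.smul_apply, smul_eq_mul, Module.Basis.repr_self] at h1
    rw [Matrix.mul_apply, Matrix.smul_apply, Matrix.one_apply, smul_eq_mul]
    simp only [Matrix.of_apply, U]
    rw [h1, Finsupp.single_apply]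
  have hdetU : ¬ t ∣ U.det := by
    intro hdvd
    have h1 : (Matrix.of V).det * U.det = (algebraMap P Λ g) ^ n := by
      rw [← Matrix.det_mul, hVU, Matrix.det_smul, Matrix.det_one, mul_one, Fintype.card_fin]
    have h2 : t ∣ algebraMap P Λ g ^ n := h1 ▸ Dvd.dvd.mul_left hdvd _
    have h3 : t ∣ algebraMap P Λ g := ht.dvd_of_dvd_pow h2
    exact hgπ (dvd_of_map_dvd w Λ hπ hπw h3)
  have hdisc : algebraMap P Λ ((Matrix.of fun i j => Algebra.intTrace P B (x i * x j)).det)
      = U.det ^ 2 * Algebra.discr Λ β := by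
    rw [← Algebra.discr_of_matrix_mulVec, ← hU, Algebra.discr_def, RingHom.map_det]
    congr 1
    ext i j
    simp only [RingHom.mapMatrix_apply, Matrix.map_apply, Matrix.of_apply,
      Algebra.traceMatrix_apply, Algebra.traceForm_apply, hx', Function.comp_apply]
    rw [map_intTrace_eq_trace B w Λ C₀ hw0, map_mul]
  have hy' : ∀ a : Fin r → Λ,
      (∑ i, a i • (algebraMap B C₀ ∘ y) i) ∈ (Ideal.span {algebraMap Λ C₀ t}).radical →
        ∀ i, t ∣ a i := by
    intro a ha i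
    obtain ⟨s, hs⟩ := IsLocalization.exist_integer_multiples_of_finite (Submonoid.powers w) a
    choose a' ha' using hs
    have hz : algebraMap B C₀ (∑ i, a' i • y i) =
        algebraMap Λ C₀ (algebraMap P Λ (s : P)) * ∑ i, a i • (algebraMap B C₀ ∘ y) i := by
      rw [map_sum, Finset.mul_sum]
      refine Finset.sum_congr rfl fun i _ => ?_
      rw [Algebra.smul_def (a' i) (y i), map_mul, ← IsScalarTower.algebraMap_apply P B C₀,
        IsScalarTower.algebraMap_apply P Λ C₀, ha' i, Algebra.smul_def, map_mul,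
        Algebra.smul_def, Function.comp_apply]
      ring
    have hmem : algebraMap B C₀ (∑ i, a' i • y i) ∈
        (Ideal.span {algebraMap Λ C₀ (algebraMap P Λ π)}).radical := by
      rw [hz]
      exact Ideal.mul_mem_left _ _ ha
    have h1 : π ∣ a' i :=
      hy a' (mem_radical_of_map_mem_radical B w Λ C₀ hw0 hπ hπw hmem) i
    have h2 : t ∣ algebraMap P Λ (a' i) := map_dvd (algebraMap P Λ) h1
    rw [ha' i, Algebra.smul_def] at h2
    exact ((IsLocalization.map_units Λ s).dvd_mul_left).mp h2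
  have htame := Fermat.Agent.S18.H274.tameDiscr Λ t ht C₀ n β r (algebraMap B C₀ ∘ y) hy'
  intro hdvd
  apply htame
  have h4 : t ^ (n - r + 1) ∣ U.det ^ 2 * Algebra.discr Λ β := by
    rw [← hdisc, ht_def, ← map_pow]
    exact map_dvd (algebraMap P Λ) hdvd
  exact ht.pow_dvd_of_dvd_mul_left _ (fun h => hdetU (ht.dvd_of_dvd_pow h)) h4

end Main

end Fermat.Agent.S18.B12.H444

end
end
-- ===== PACK-END S18/B12/H444/GenericDiscr.lean

-- ===== PACK-BEGIN S23/Cap/Converse.lean
section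



/-!
# S23 / Cap : from formal relations back to a cusp form
(adapter around helper803's `Converse.lean`, `ConversePkg.lean`, `ConverseQ.lean`).
-/

set_option autoImplicit false

namespace Fermat.Agent.S23.Cap

open UpperHalfPlane ModularForm ModularFormClass MatrixGroups CongruenceSubgroup
open scoped Manifold

/-- **WP4 main statement.** -/
theorem exists_cuspForm_of_relations (N : ℕ) [NeZero N] (k w' : ℤ) (U V : ℍ → ℂ)
    (hU : IsMF (G0 N) w' U) (hV : IsMF (G0 N) (w' + k) V) (hU0 : U ≠ 0)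
    (μ : ℕ) (hμ : 0 < μ) (c : ℕ → ℍ → ℂ) (hc : ∀ i < μ, IsCF SLZ (k * (i + 1)) (c i))
    (G : PowerSeries ℂ) (h1 : qx U * G = qx V)
    (h2 : G ^ μ + ∑ i ∈ Finset.range μ, qx (c i) * G ^ (μ - 1 - i) = 0) :
    ∃ g : ℍ → ℂ, IsCF (G0 N) k g ∧ qx g = G := by
  obtain ⟨Uf, rfl⟩ := hU
  obtain ⟨Vf, rfl⟩ := hV
  have hUf : Uf ≠ 0 := fun h => hU0 (by rw [h]; rfl)
  have hb : ∀ i < μ, ∃ (wi : ℤ) (B : CuspForm 𝒮ℒ wi), wi = k * ((μ : ℤ) - i) ∧
      ⇑B = c (μ - 1 - i) := by
    intro i hi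
    obtain ⟨B, hB⟩ := hc (μ - 1 - i) (by omega)
    refine ⟨_, B, ?_, hB⟩
    have : ((μ - 1 - i : ℕ) : ℤ) = (μ : ℤ) - 1 - i := by omega
    rw [this]; ring
  have hmonic : G ^ μ + ∑ i ∈ Finset.range μ, qExpansion 1 (c (μ - 1 - i)) * G ^ i = 0 := by
    rw [← h2]
    congr 1
    rw [← Finset.sum_range_reflect]
    refine Finset.sum_congr rfl fun i hi => ?_
    have : i < μ := Finset.mem_range.mp hi
    have h' : μ - 1 - (μ - 1 - i) = i := by omega
    rw [h']
  obtain ⟨F, hF⟩ := Fermat.Agent.S23.Conv.exists_cuspForm_Gamma0_qExpansion_eq N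
    (k := k) (w := w') (m := w' + k) rfl Vf Uf hUf hμ (fun i => c (μ - 1 - i)) hb G
    (by rw [mul_comm]; exact h1) hmonic
  exact ⟨F, ⟨F, rfl⟩, hF⟩

end Fermat.Agent.S23.Cap

end
-- ===== PACK-END S23/Cap/Converse.lean

-- ===== PACK-BEGIN S23/Cap/BddDenom.lean
section





/-!
# S23 / WP9 : a cusp form on `Γ₀(N)` with rational q-expansion has bounded denominators.

Math: take the relations (A1), (A2) of WP3 for `f`; all level one forms and `t` have q-expansions
in `IntSpan` (the `ℂ`-span of integral power series, by the landed `LevelOne` leaf); apply the pure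
power-series theorem `Fermat.Agent.S23.BddDenom.bdd` (ρ-trick + normality of `ℤ⟦q⟧`).
(helper263, T8.)
-/

set_option autoImplicit false

namespace Fermat.Agent.S23.Cap

open UpperHalfPlane ModularForm ModularFormClass MatrixGroups CongruenceSubgroup

/-- The q-expansion of a level one modular form lies in the `ℂ`-span of integral series. -/
theorem qx_mem_IntSpan_of_levelOne {k : ℤ} {g : ℍ → ℂ} (hg : IsMF SLZ k g) :
    qx g ∈ BddDenom.IntSpan := by
  obtain ⟨G, rfl⟩ := hg
  have h := LevelOne.levelOne_qExpansion_mem_span k G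
  have hsub : Submodule.span ℂ (LevelOne.monoSet k) ≤
      Subalgebra.toSubmodule BddDenom.IntSpan := by
    rw [Submodule.span_le]
    rintro P ⟨a, b, -, rfl⟩
    exact BddDenom.iZC_mem_IntSpan _
  exact hsub h

theorem qx_mem_IntSpan_of_isIntSeries {F : PowerSeries ℂ} (hF : IsIntSeries F) :
    F ∈ BddDenom.IntSpan :=
  BddDenom.mem_IntSpan_of_int_coeff hF

/-- **WP9 main statement.** -/
theorem bounded_denominators (N : ℕ) [NeZero N] (k : ℤ) (f : ℍ → ℂ) (hf : IsCF (G0 N) k f)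
    (hrat : IsRatSeries (qx f)) :
    ∃ D : ℕ, D ≠ 0 ∧ IsIntSeries (qx ((D : ℂ) • f)) := by
  have hfM : IsMF (G0 N) k f := hf.isMF
  obtain ⟨μ, c, hμ, hc, hrel⟩ := exists_monic_relation N k f hf
  obtain ⟨w, t, ht, htint, hdist⟩ := exists_tForm N
  obtain ⟨ν, a, b, hν, ha, hb, hne, hlag⟩ := exists_lagrange N k w f t hfM ht hdist
  have htI : qx t ∈ BddDenom.IntSpan := qx_mem_IntSpan_of_isIntSeries htint
  -- weights of the terms
  have hcM : ∀ i < μ, IsMF (G0 N) (k * (i + 1)) (c i) := fun i hi =>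
    (IsCF.of_levelOne N (hc i hi)).isMF
  have hterm : ∀ i ∈ Finset.range μ, IsMF (G0 N) (k * μ) (c i * f ^ (μ - 1 - i)) := by
    intro i hi
    have hi' : i < μ := Finset.mem_range.mp hi
    refine IsMF.congr_weight ?_ ((hcM i hi').mul (hfM.pow (μ - 1 - i)))
    have : ((μ - 1 - i : ℕ) : ℤ) = (μ : ℤ) - 1 - i := by omega
    rw [this]
    ring
  -- the monic equation on q-expansions
  have h1 : qx f ^ μ + ∑ i ∈ Finset.range μ, qx (c i) * qx f ^ (μ - 1 - i) = 0 := by
    have h := congrArg qx hrel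
    rw [qx_zero, qx_add N (hfM.pow μ) (IsMF.sum _ _ hterm), qx_pow N hfM,
      qx_sum N _ _ (fun _ => k * μ) hterm] at h
    rw [← h]
    congr 1
    refine Finset.sum_congr rfl fun i hi => ?_
    have hi' : i < μ := Finset.mem_range.mp hi
    rw [qx_mul N (hcM i hi') (hfM.pow _), qx_pow N hfM]
  have h1' : qx f ^ μ + ∑ m ∈ Finset.range μ, qx (c (μ - 1 - m)) * qx f ^ m = 0 := by
    rw [← h1]
    congr 1
    rw [← Finset.sum_range_reflect]
    refine Finset.sum_congr rfl fun m hm => ?_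
    have hm' : m < μ := Finset.mem_range.mp hm
    have : μ - 1 - (μ - 1 - m) = m := by omega
    rw [this]
  -- the fraction relation on q-expansions
  have hbM : ∀ j < ν, IsMF (G0 N) (w * ((ν : ℤ) - 1 - j)) (b j) := fun j hj =>
    IsMF.of_levelOne N (hb j hj)
  have haM : ∀ j < ν, IsMF (G0 N) (k + w * ((ν : ℤ) - 1 - j)) (a j) := fun j hj =>
    IsMF.of_levelOne N (ha j hj)
  have hbt : ∀ j ∈ Finset.range ν, IsMF (G0 N) (w * ((ν : ℤ) - 1)) (b j * t ^ j) := by
    intro j hj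
    have hj' : j < ν := Finset.mem_range.mp hj
    refine IsMF.congr_weight ?_ ((hbM j hj').mul (ht.pow j))
    ring
  have hat : ∀ j ∈ Finset.range ν, IsMF (G0 N) (k + w * ((ν : ℤ) - 1)) (a j * t ^ j) := by
    intro j hj
    have hj' : j < ν := Finset.mem_range.mp hj
    refine IsMF.congr_weight ?_ ((haM j hj').mul (ht.pow j))
    ring
  have hDM : IsMF (G0 N) (w * ((ν : ℤ) - 1)) (∑ j ∈ Finset.range ν, b j * t ^ j) :=
    IsMF.sum _ _ hbt
  have hqD : qx (∑ j ∈ Finset.range ν, b j * t ^ j) =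
      ∑ j ∈ Finset.range ν, qx (b j) * qx t ^ j := by
    rw [qx_sum N _ _ (fun _ => w * ((ν : ℤ) - 1)) hbt]
    refine Finset.sum_congr rfl fun j hj => ?_
    have hj' : j < ν := Finset.mem_range.mp hj
    rw [qx_mul N (hbM j hj') (ht.pow j), qx_pow N ht]
  have hqF : qx (∑ j ∈ Finset.range ν, a j * t ^ j) =
      ∑ j ∈ Finset.range ν, qx (a j) * qx t ^ j := by
    rw [qx_sum N _ _ (fun _ => k + w * ((ν : ℤ) - 1)) hat]
    refine Finset.sum_congr rfl fun j hj => ?_
    have hj' : j < ν := Finset.mem_range.mp hj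
    rw [qx_mul N (haM j hj') (ht.pow j), qx_pow N ht]
  have hD0 : (∑ j ∈ Finset.range ν, qx (b j) * qx t ^ j) ≠ 0 := by
    rw [← hqD]
    intro h
    exact hne (eq_zero_of_qx_eq_zero N hDM h)
  have hDF : (∑ j ∈ Finset.range ν, qx (b j) * qx t ^ j) * qx f =
      ∑ j ∈ Finset.range ν, qx (a j) * qx t ^ j := by
    rw [← hqD, ← hqF, ← hlag, qx_mul N hDM hfM]
  have hDI : (∑ j ∈ Finset.range ν, qx (b j) * qx t ^ j) ∈ BddDenom.IntSpan :=
    Subalgebra.sum_mem _ fun j hj =>
      Subalgebra.mul_mem _ (qx_mem_IntSpan_of_levelOne (hb j (Finset.mem_range.mp hj)))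
        (Subalgebra.pow_mem _ htI j)
  have hFI : (∑ j ∈ Finset.range ν, qx (a j) * qx t ^ j) ∈ BddDenom.IntSpan :=
    Subalgebra.sum_mem _ fun j hj =>
      Subalgebra.mul_mem _ (qx_mem_IntSpan_of_levelOne (ha j (Finset.mem_range.mp hj)))
        (Subalgebra.pow_mem _ htI j)
  obtain ⟨c₀, hc₀, hint⟩ := BddDenom.bdd (qx f) hrat μ (fun m => qx (c (μ - 1 - m)))
    (fun m hm => qx_mem_IntSpan_of_levelOne (hc (μ - 1 - m) (by omega)).isMF) h1'
    _ _ hDI hFI hD0 hDF
  refine ⟨c₀, hc₀.ne', fun n => ?_⟩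
  obtain ⟨m, hm⟩ := hint n
  refine ⟨m, ?_⟩
  rw [qx_smul N _ hfM, PowerSeries.coeff_smul, smul_eq_mul]
  exact hm

end Fermat.Agent.S23.Cap

end
-- ===== PACK-END S23/Cap/BddDenom.lean

-- ===== PACK-BEGIN S37/H940/Frac.lean
section




/-!
# S37 / RIM (helper940): the reduction context of fractions

Given a subring `O ⊆ F` ("integral functions") with a ring homomorphism `ρ₀ : O → F_k`
extending the residue map `π : A → k`, the ring `V` of fractions `a / b` (`a, b ∈ O`,
`ρ₀ b ≠ 0`) carries the reduction map `ρ (a / b) = ρ₀ a / ρ₀ b`, and `(A, π, V, ρ)` is a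
reduction context in the sense of `Core.lean`.
-/

set_option autoImplicit false

noncomputable section

namespace Fermat.Agent.S37.H940

open AlgebraicCurve

variable {K F k Fk : Type*} [Field K] [Field F] [Algebra K F] [Field k] [Field Fk]
  [Algebra k Fk]

/-- Input data for the context of fractions. -/
structure FracData (K F k Fk : Type*) [Field K] [Field F] [Algebra K F] [Field k] [Field Fk]
    [Algebra k Fk] where
  /-- the valuation ring of the base field -/
  A : ValuationSubring K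
  /-- the residue map -/
  π : A →+* k
  π_surj : Function.Surjective π
  π_eq_zero : ∀ a : A, π a = 0 ↔ ¬ IsUnit a
  /-- the integral functions -/
  O : Subring F
  /-- the reduction of integral functions -/
  ρ₀ : O →+* Fk
  A_mem : ∀ a : A, algebraMap K F (a : K) ∈ O
  ρ₀_A : ∀ a : A, ρ₀ ⟨algebraMap K F (a : K), A_mem a⟩ = algebraMap k Fk (π a)

namespace FracData

variable (𝔇 : FracData K F k Fk)

/-- `f` is a fraction `a / b` with `a, b` integral and `ρ₀ b ≠ 0`. -/
def IsFrac (f : F) : Prop := ∃ a b : 𝔇.O, 𝔇.ρ₀ b ≠ 0 ∧ f * (b : F) = (a : F)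

theorem coe_ne_zero {b : 𝔇.O} (hb : 𝔇.ρ₀ b ≠ 0) : (b : F) ≠ 0 := by
  intro h
  apply hb
  have : b = 0 := Subtype.ext h
  rw [this, map_zero]

theorem isFrac_of_mem (a : 𝔇.O) : 𝔇.IsFrac (a : F) :=
  ⟨a, 1, by rw [map_one]; exact one_ne_zero, by simp⟩

theorem IsFrac.add {f g : F} (hf : 𝔇.IsFrac f) (hg : 𝔇.IsFrac g) : 𝔇.IsFrac (f + g) := by
  obtain ⟨a, b, hb, hab⟩ := hf
  obtain ⟨c, d, hd, hcd⟩ := hg
  refine ⟨a * d + c * b, b * d, by rw [map_mul]; exact mul_ne_zero hb hd, ?_⟩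
  push_cast
  rw [← hab, ← hcd]
  ring

theorem IsFrac.mul {f g : F} (hf : 𝔇.IsFrac f) (hg : 𝔇.IsFrac g) : 𝔇.IsFrac (f * g) := by
  obtain ⟨a, b, hb, hab⟩ := hf
  obtain ⟨c, d, hd, hcd⟩ := hg
  refine ⟨a * c, b * d, by rw [map_mul]; exact mul_ne_zero hb hd, ?_⟩
  push_cast
  rw [← hab, ← hcd]
  ring

theorem IsFrac.neg {f : F} (hf : 𝔇.IsFrac f) : 𝔇.IsFrac (-f) := by
  obtain ⟨a, b, hb, hab⟩ := hf
  refine ⟨-a, b, hb, ?_⟩
  push_cast
  rw [← hab]
  ring

/-- the ring of fractions -/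
def V : Subring F where
  carrier := {f | 𝔇.IsFrac f}
  mul_mem' := fun hf hg => hf.mul 𝔇 hg
  one_mem' := by
    have := 𝔇.isFrac_of_mem 1
    simpa using this
  add_mem' := fun hf hg => hf.add 𝔇 hg
  zero_mem' := by
    have := 𝔇.isFrac_of_mem 0
    simpa using this
  neg_mem' := fun hf => hf.neg 𝔇

theorem mem_V {f : F} : f ∈ 𝔇.V ↔ 𝔇.IsFrac f := Iff.rfl

/-- numerator of a fraction -/
def num (f : 𝔇.V) : 𝔇.O := (f.2 : 𝔇.IsFrac f).choose

/-- denominator of a fraction -/
def den (f : 𝔇.V) : 𝔇.O := (f.2 : 𝔇.IsFrac f).choose_spec.choose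

theorem ρ₀_den_ne_zero (f : 𝔇.V) : 𝔇.ρ₀ (𝔇.den f) ≠ 0 :=
  (f.2 : 𝔇.IsFrac f).choose_spec.choose_spec.1

theorem mul_den (f : 𝔇.V) : (f : F) * (𝔇.den f : F) = (𝔇.num f : F) :=
  (f.2 : 𝔇.IsFrac f).choose_spec.choose_spec.2

/-- the reduction of a fraction, as a function -/
def ρfun (f : 𝔇.V) : Fk := 𝔇.ρ₀ (𝔇.num f) / 𝔇.ρ₀ (𝔇.den f)

/-- the reduction of a fraction does not depend on the representation -/
theorem ρfun_eq (f : 𝔇.V) {a b : 𝔇.O} (hb : 𝔇.ρ₀ b ≠ 0) (hab : (f : F) * (b : F) = (a : F)) :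
    𝔇.ρfun f = 𝔇.ρ₀ a / 𝔇.ρ₀ b := by
  unfold ρfun
  rw [div_eq_div_iff (𝔇.ρ₀_den_ne_zero f) hb, ← map_mul, ← map_mul]
  congr 1
  apply Subtype.ext
  push_cast
  rw [← 𝔇.mul_den f, ← hab]
  ring

/-- the reduction map on fractions -/
def ρ : 𝔇.V →+* Fk where
  toFun := 𝔇.ρfun
  map_one' := by
    rw [𝔇.ρfun_eq 1 (a := 1) (b := 1) (by rw [map_one]; exact one_ne_zero) (by simp)]
    simp
  map_mul' f g := by
    rw [𝔇.ρfun_eq (f * g) (a := 𝔇.num f * 𝔇.num g) (b := 𝔇.den f * 𝔇.den g)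
      (by rw [map_mul]; exact mul_ne_zero (𝔇.ρ₀_den_ne_zero f) (𝔇.ρ₀_den_ne_zero g))
      (by push_cast; rw [← 𝔇.mul_den f, ← 𝔇.mul_den g]; ring)]
    unfold ρfun
    rw [map_mul, map_mul, mul_div_mul_comm]
  map_zero' := by
    rw [𝔇.ρfun_eq 0 (a := 0) (b := 1) (by rw [map_one]; exact one_ne_zero) (by simp)]
    simp
  map_add' f g := by
    rw [𝔇.ρfun_eq (f + g) (a := 𝔇.num f * 𝔇.den g + 𝔇.num g * 𝔇.den f)
      (b := 𝔇.den f * 𝔇.den g)
      (by rw [map_mul]; exact mul_ne_zero (𝔇.ρ₀_den_ne_zero f) (𝔇.ρ₀_den_ne_zero g))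
      (by push_cast; rw [← 𝔇.mul_den f, ← 𝔇.mul_den g]; ring)]
    unfold ρfun
    rw [map_add, map_mul, map_mul, map_mul, div_add_div _ _ (𝔇.ρ₀_den_ne_zero f)
      (𝔇.ρ₀_den_ne_zero g)]
    ring

theorem ρ_apply (f : 𝔇.V) {a b : 𝔇.O} (hb : 𝔇.ρ₀ b ≠ 0) (hab : (f : F) * (b : F) = (a : F)) :
    𝔇.ρ f = 𝔇.ρ₀ a / 𝔇.ρ₀ b :=
  𝔇.ρfun_eq f hb hab

/-- integral functions as fractions -/
def ofO (a : 𝔇.O) : 𝔇.V := ⟨(a : F), 𝔇.isFrac_of_mem a⟩

@[simp] theorem coe_ofO (a : 𝔇.O) : ((𝔇.ofO a : 𝔇.V) : F) = (a : F) := rfl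

@[simp] theorem ρ_ofO (a : 𝔇.O) : 𝔇.ρ (𝔇.ofO a) = 𝔇.ρ₀ a := by
  rw [𝔇.ρ_apply (𝔇.ofO a) (a := a) (b := 1) (by rw [map_one]; exact one_ne_zero) (by simp)]
  simp

/-- **The reduction context of fractions.** -/
def ctx : Ctx K F k Fk where
  A := 𝔇.A
  π := 𝔇.π
  π_surj := 𝔇.π_surj
  π_eq_zero := 𝔇.π_eq_zero
  V := 𝔇.V
  ρ := 𝔇.ρ
  A_mem a := 𝔇.isFrac_of_mem ⟨_, 𝔇.A_mem a⟩
  ρ_A a := by
    have := 𝔇.ρ_ofO ⟨_, 𝔇.A_mem a⟩
    rw [𝔇.ρ₀_A] at this
    exact this
  inv_mem u hu := by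
    have hnum : 𝔇.ρ₀ (𝔇.num u) ≠ 0 := by
      intro h
      apply hu
      show 𝔇.ρfun u = 0
      unfold ρfun
      rw [h, zero_div]
    refine ⟨𝔇.den u, 𝔇.num u, hnum, ?_⟩
    have hu0 : (u : F) ≠ 0 := by
      intro h
      apply 𝔇.coe_ne_zero hnum
      rw [← 𝔇.mul_den u, h, zero_mul]
    rw [← 𝔇.mul_den u]
    field_simp

@[simp] theorem ctx_V : 𝔇.ctx.V = 𝔇.V := rfl

@[simp] theorem ctx_ρ : 𝔇.ctx.ρ = 𝔇.ρ := rfl

@[simp] theorem ctx_A : 𝔇.ctx.A = 𝔇.A := rfl

@[simp] theorem ctx_π : 𝔇.ctx.π = 𝔇.π := rfl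

end FracData

end Fermat.Agent.S37.H940

end
end
-- ===== PACK-END S37/H940/Frac.lean

-- ===== PACK-BEGIN S37/Red/H217/Sat.lean
section



/-!
# S37-RED, (H4') saturation is a CONSEQUENCE of (H1)  (helper217)

For a reduction datum `G : Red.Datum A π F Fk` (helper40's `Red/Spec.lean`), the two saturation
fields `sat_fin`, `sat_inf` of `Datum.Good` follow from the degree equality
`[F : K(x)] = [F_k : k(x̄)] < ∞` alone (`sat_fin_of_finrank_eq`, `sat_inf_of_finrank_eq`);
`good_of` assembles `G.Good` from (H1) and (H3).  No noetherian hypothesis, no descent.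
-/

set_option autoImplicit false

namespace Fermat.Agent.S37.Red.H217

open AlgebraicCurve IntermediateField Fermat.Agent.S37.H217

universe u

variable {K k : Type u} [Field K] [Field k] {A : ValuationSubring K} {π : A →+* k}
  {F Fk : Type u} [Field F] [Field Fk] [Algebra K F] [Algebra k Fk]

/-- the abstract Gauss context underlying a datum -/
def toRedCtx (G : Datum A π F Fk) : RedCtx A π F Fk where
  π_surj := G.π_surj
  O := G.O
  ρ := G.ρ
  ρ_surj := G.ρ_surj
  const_mem := G.const_mem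
  ρ_const := G.ρ_const

theorem mem_chart_iff (G : Datum A π F Fk) (t f : F) :
    f ∈ G.chart t ↔ IsIntegral (G.polyRing t) f := Iff.rfl

theorem mem_chartK_iff (G : Datum A π F Fk) (t f : F) :
    f ∈ G.chartK t ↔ IsIntegral (Algebra.adjoin K {t}) f := Iff.rfl

/-- saturation for an arbitrary coordinate `t ∈ O` with transcendental reduction and equal
degrees -/
theorem sat_of_finrank_eq (G : Datum A π F Fk) {t : F} (ht : t ∈ G.O)
    (htr : Transcendental k (G.ρ ⟨t, ht⟩))
    [FiniteDimensional K⟮t⟯ F] [hk : FiniteDimensional k⟮G.ρ ⟨t, ht⟩⟯ Fk]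
    (hfr : Module.finrank K⟮t⟯ F = Module.finrank k⟮G.ρ ⟨t, ht⟩⟯ Fk) :
    ∀ f ∈ G.O, f ∈ G.chartK t → f ∈ G.chart t := by
  intro f hfO hf
  rw [mem_chart_iff]
  rw [mem_chartK_iff] at hf
  have hk' : FiniteDimensional k⟮(toRedCtx G).ρ ⟨t, ht⟩⟯ Fk := hk
  exact (toRedCtx G).isIntegral_polyRing_of_isIntegral ht htr hfr hfO hf

/-- **(H4') at the finite chart from (H1).** -/
theorem sat_fin_of_finrank_eq (G : Datum A π F Fk)
    [FiniteDimensional K⟮G.x⟯ F] [hk : FiniteDimensional k⟮G.xk⟯ Fk]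
    (hfr : Module.finrank K⟮G.x⟯ F = Module.finrank k⟮G.xk⟯ Fk) :
    ∀ f ∈ G.O, f ∈ G.chartK G.x → f ∈ G.chart G.x := by
  have hk' : FiniteDimensional k⟮G.ρ ⟨G.x, G.x_mem⟩⟯ Fk := hk
  exact sat_of_finrank_eq G G.x_mem G.xk_transc hfr

theorem adjoin_inv_eq' {K F : Type*} [Field K] [Field F] [Algebra K F] (f : F) :
    K⟮f⁻¹⟯ = K⟮f⟯ := by
  apply le_antisymm
  · rw [adjoin_simple_le_iff]
    exact inv_mem (mem_adjoin_simple_self K f)
  · rw [adjoin_simple_le_iff]
    have := inv_mem (mem_adjoin_simple_self K f⁻¹)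
    rwa [inv_inv] at this

theorem xk_ne_zero (G : Datum A π F Fk) : G.xk ≠ 0 := by
  intro h
  have := G.xk_transc
  rw [show G.ρ ⟨G.x, G.x_mem⟩ = 0 from h] at this
  exact this (isAlgebraic_zero)

theorem x_inv_mem (G : Datum A π F Fk) : G.x⁻¹ ∈ G.O := by
  rcases G.O.mem_or_inv_mem G.x with h | h
  · by_contra hn
    have hnon : G.x ∈ G.O.nonunits := by
      rw [ValuationSubring.mem_nonunits_iff_or]
      exact Or.inr hn
    have := ((toRedCtx G).ρ_eq_zero_iff ⟨G.x, G.x_mem⟩).mpr hnon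
    exact xk_ne_zero G this
  · exact h

theorem ρ_x_inv (G : Datum A π F Fk) : G.ρ ⟨G.x⁻¹, x_inv_mem G⟩ = G.xk⁻¹ := by
  have hx0 : G.x ≠ 0 := by
    intro h
    apply xk_ne_zero G
    have : (⟨G.x, G.x_mem⟩ : G.O) = 0 := Subtype.ext h
    show G.ρ ⟨G.x, G.x_mem⟩ = 0
    rw [this, map_zero]
  have h1 : (⟨G.x⁻¹, x_inv_mem G⟩ : G.O) * ⟨G.x, G.x_mem⟩ = 1 :=
    Subtype.ext (inv_mul_cancel₀ hx0)
  have h2 := congrArg G.ρ h1
  rw [map_mul, map_one] at h2
  exact eq_inv_of_mul_eq_one_left h2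

/-- **(H4') at the chart at infinity from (H1).** -/
theorem sat_inf_of_finrank_eq (G : Datum A π F Fk)
    [hfin : FiniteDimensional K⟮G.x⟯ F] [hfink : FiniteDimensional k⟮G.xk⟯ Fk]
    (hfr : Module.finrank K⟮G.x⟯ F = Module.finrank k⟮G.xk⟯ Fk) :
    ∀ f ∈ G.O, f ∈ G.chartK G.x⁻¹ → f ∈ G.chart G.x⁻¹ := by
  have hρ := ρ_x_inv G
  have htr : Transcendental k (G.ρ ⟨G.x⁻¹, x_inv_mem G⟩) := by
    rw [hρ]
    intro h
    apply G.xk_transc
    have := h.inv
    rwa [inv_inv] at this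
  have : FiniteDimensional K⟮G.x⁻¹⟯ F := by
    rw [adjoin_inv_eq']; exact hfin
  have : FiniteDimensional k⟮G.ρ ⟨G.x⁻¹, x_inv_mem G⟩⟯ Fk := by
    rw [hρ, adjoin_inv_eq']; exact hfink
  have hfr' : Module.finrank K⟮G.x⁻¹⟯ F =
      Module.finrank k⟮G.ρ ⟨G.x⁻¹, x_inv_mem G⟩⟯ Fk := by
    rw [hρ, adjoin_inv_eq', adjoin_inv_eq']
    exact hfr
  exact sat_of_finrank_eq G (x_inv_mem G) htr hfr'

/-- `G.Good` from (H1) and (H3) alone. -/
theorem good_of (G : Datum A π F Fk)
    (finite : FiniteDimensional K⟮G.x⟯ F) (finite_k : FiniteDimensional k⟮G.xk⟯ Fk)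
    (sep_k : Algebra.IsSeparable k⟮G.xk⟯ Fk)
    (finrank_eq : Module.finrank K⟮G.x⟯ F = Module.finrank k⟮G.xk⟯ Fk)
    (lift_fin : ∀ c ∈ G.chartk G.xk, ∃ b ∈ G.chart G.x, ∃ hb : b ∈ G.O, G.ρ ⟨b, hb⟩ = c)
    (lift_inf : ∀ c ∈ G.chartk G.xk⁻¹, ∃ b ∈ G.chart G.x⁻¹, ∃ hb : b ∈ G.O, G.ρ ⟨b, hb⟩ = c) :
    G.Good where
  finite := finite
  finite_k := finite_k
  sep_k := sep_k
  finrank_eq := finrank_eq
  lift_fin := lift_fin
  lift_inf := lift_inf
  sat_fin := sat_fin_of_finrank_eq G finrank_eq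
  sat_inf := sat_inf_of_finrank_eq G finrank_eq

end Fermat.Agent.S37.Red.H217

end
-- ===== PACK-END S37/Red/H217/Sat.lean

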