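import Mathlib
import Fermat.Prelude.Def_EllipticCurve_FrobeniusTrace
import Fermat.Prelude.Def_GaloisRep_Residual
import Fermat.Prelude.Def_AlgebraicCurve_DivisorPushPull
import Fermat.Statements.S21
import Fermat.Prelude.Def_AlgebraicCurve_DivisorClassGroup
import Fermat.Agent.Pack.S44.G0E0L3
import Fermat.Agent.Pack.S44.G0E6L2
import Fermat.Agent.Pack.S44.G0E10L0
import Fermat.Agent.Pack.S44.G0E11L0
import Fermat.Agent.Pack.S44.G0E11L1
import Fermat.Agent.Pack.S44.G0E1L2
import Fermat.Agent.Pack.S44.G0E10L1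
import Fermat.Agent.Pack.S44.G0E2L3
import Fermat.Agent.Pack.S44.G0E7L1
import Fermat.Agent.Pack.S44.G0E7L3
import Fermat.Agent.Pack.S44.G0E2L1
import Fermat.Agent.Pack.S44.G0E11L3
import Fermat.Agent.Pack.S44.G0E2L2
import Fermat.Agent.Pack.S44.G0E11L2
import Fermat.Agent.Pack.S44.G0E7L0
import Fermat.Agent.Pack.S44.G0E8L2
import Fermat.Agent.Pack.S44.G0E10L2
import Fermat.Agent.Pack.S44.G0E8L1
import Fermat.Agent.Pack.S44.G1E0L0
import Fermat.Agent.Pack.S44.G0E12L0

-- ===== PACK-BEGIN Lib/Cheb/H476/FrobConj.lean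
section







/-!
# Frobenius elements at a prime form one conjugacy class modulo inertia

For a prime number `ℓ`:

* `exists_smul_eq` : `Gal(ℚ̄/ℚ)` acts transitively on the valuation subrings of `ℚ̄` over `ℓ`;
* `isFrobeniusAt_iff`, `mem_inertiaSubgroupIn_iff'` : elementwise descriptions;
* `isFrobeniusAt_conj`, `conj_mem_inertia` : conjugation;
* `mul_inv_mem_inertia_of_isFrobeniusAt` : two Frobenius elements at `A` differ by inertia;
* `exists_conj_of_isFrobeniusAt` : any two Frobenius elements at (possibly different) valuation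
  subrings over `ℓ` are conjugate modulo inertia;
* consequences for homomorphisms: `map_inertia_eq_one_of_liesOver` (unramified at one valuation
  subring over `ℓ` ⇒ unramified at all of them), `charpoly_eq_of_isFrobeniusAt`
  (for `ResidualGaloisRep`, unramified at `ℓ`: the characteristic polynomial of Frobenius at `ℓ`
  is well defined).
-/

set_option autoImplicit false
set_option linter.style.haveILetI false

open scoped Pointwise

namespace Fermat.Agent.Lib.Cheb.H476

open Fermat.Agent.Lib.Cheb.Spec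

/-! ### Elementwise descriptions -/

theorem mem_smul_iff (g : GQ) (A : ValuationSubring Qb) (x : Qb) :
    x ∈ g • A ↔ g⁻¹ x ∈ A := by
  rw [ValuationSubring.mem_pointwise_smul_iff_inv_smul_mem]
  rfl

theorem apply_inv_apply (g : GQ) (x : Qb) : g (g⁻¹ x) = x := by
  show (g * g⁻¹) x = x
  rw [mul_inv_cancel]
  rfl

theorem inv_apply_apply (g : GQ) (x : Qb) : g⁻¹ (g x) = x := by
  show (g⁻¹ * g) x = x
  rw [inv_mul_cancel]
  rfl

theorem mem_nonunits_iff_or (A : ValuationSubring Qb) (x : Qb) :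
    x ∈ A.nonunits ↔ x = 0 ∨ x⁻¹ ∉ A :=
  A.mem_nonunits_iff_or

theorem mem_nonunits_smul_iff (g : GQ) (A : ValuationSubring Qb) (x : Qb) :
    x ∈ (g • A).nonunits ↔ g⁻¹ x ∈ A.nonunits := by
  rw [mem_nonunits_iff_or, mem_nonunits_iff_or, mem_smul_iff, map_inv₀,
    map_eq_zero_iff _ (g⁻¹).injective]

theorem liesOverPrime_smul' (g : GQ) {A : ValuationSubring Qb} {ℓ : ℕ}
    (hA : A.LiesOverPrime ℓ) : (g • A).LiesOverPrime ℓ := by
  show (ℓ : Qb) ∈ (g • A).nonunits
  rw [mem_nonunits_smul_iff, map_natCast]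
  exact hA

theorem mem_decomposition_iff (A : ValuationSubring Qb) (σ : GQ) :
    σ ∈ A.decompositionSubgroup ℚ ↔ ∀ x, σ x ∈ A ↔ x ∈ A := by
  rw [MulAction.mem_stabilizer_iff]
  constructor
  · intro h x
    have h1 : σ x ∈ σ • A ↔ x ∈ A := by
      rw [mem_smul_iff, inv_apply_apply]
    rw [h] at h1
    exact h1
  · intro h
    apply SetLike.ext
    intro x
    rw [mem_smul_iff, ← h (σ⁻¹ x), apply_inv_apply]

/-- Elementwise description of Frobenius elements. -/
theorem isFrobeniusAt_iff (A : ValuationSubring Qb) (σ : GQ) (ℓ : ℕ) :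
    A.IsFrobeniusAt σ ℓ ↔
      σ ∈ A.decompositionSubgroup ℚ ∧ ∀ x ∈ A, σ x - x ^ ℓ ∈ A.nonunits := by
  constructor
  · rintro ⟨hσ, h⟩
    refine ⟨hσ, fun x hx => ?_⟩
    have h1 := h (IsLocalRing.residue A ⟨x, hx⟩)
    rw [← IsLocalRing.ResidueField.residue_smul, ← map_pow, ← sub_eq_zero, ← map_sub,
      IsLocalRing.residue_eq_zero_iff, ← ValuationSubring.coe_mem_nonunits_iff] at h1
    exact h1
  · rintro ⟨hσ, h⟩
    refine ⟨hσ, fun y => ?_⟩
    obtain ⟨a, rfl⟩ := IsLocalRing.residue_surjective y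
    rw [← IsLocalRing.ResidueField.residue_smul, ← map_pow, ← sub_eq_zero, ← map_sub,
      IsLocalRing.residue_eq_zero_iff, ← ValuationSubring.coe_mem_nonunits_iff]
    exact h a.1 a.2

/-- Elementwise description of the inertia group. -/
theorem mem_inertiaSubgroupIn_iff' (A : ValuationSubring Qb) (σ : GQ) :
    σ ∈ A.inertiaSubgroupIn ℚ ↔
      σ ∈ A.decompositionSubgroup ℚ ∧ ∀ x ∈ A, σ x - x ∈ A.nonunits := by
  constructor
  · intro hσ
    have hD : σ ∈ A.decompositionSubgroup ℚ := by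
      obtain ⟨g, -, rfl⟩ := hσ
      exact g.2
    exact ⟨hD, fun x hx => sub_mem_nonunits_of_mem_inertia A σ hσ x hx⟩
  · rintro ⟨hD, h⟩
    refine ⟨⟨σ, hD⟩, ?_, rfl⟩
    show (⟨σ, hD⟩ : A.decompositionSubgroup ℚ) ∈ MonoidHom.ker
      (MulSemiringAction.toRingAut (A.decompositionSubgroup ℚ) (IsLocalRing.ResidueField A))
    rw [MonoidHom.mem_ker]
    apply RingEquiv.ext
    intro y
    obtain ⟨x, rfl⟩ := IsLocalRing.residue_surjective y
    show (⟨σ, hD⟩ : A.decompositionSubgroup ℚ) • (IsLocalRing.residue A x)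
      = IsLocalRing.residue A x
    rw [← IsLocalRing.ResidueField.residue_smul, ← sub_eq_zero, ← map_sub,
      IsLocalRing.residue_eq_zero_iff, ← ValuationSubring.coe_mem_nonunits_iff]
    exact h x.1 x.2

/-! ### Conjugation -/

theorem conj_apply (g σ : GQ) (x : Qb) : (g * σ * g⁻¹) x = g (σ (g⁻¹ x)) := rfl

theorem conj_mem_decomposition (g : GQ) {A : ValuationSubring Qb} {σ : GQ}
    (hσ : σ ∈ A.decompositionSubgroup ℚ) : g * σ * g⁻¹ ∈ (g • A).decompositionSubgroup ℚ := by
  rw [mem_decomposition_iff] at hσ ⊢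
  intro x
  rw [mem_smul_iff, mem_smul_iff, conj_apply, inv_apply_apply, hσ]

/-- Conjugation carries Frobenius elements at `A` to Frobenius elements at `g • A`. -/
theorem isFrobeniusAt_conj (g : GQ) {A : ValuationSubring Qb} {σ : GQ} {ℓ : ℕ}
    (hσ : A.IsFrobeniusAt σ ℓ) : (g • A).IsFrobeniusAt (g * σ * g⁻¹) ℓ := by
  rw [isFrobeniusAt_iff] at hσ ⊢
  refine ⟨conj_mem_decomposition g hσ.1, fun x hx => ?_⟩
  rw [mem_smul_iff] at hx
  rw [mem_nonunits_smul_iff, map_sub, map_pow, conj_apply, inv_apply_apply]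
  exact hσ.2 _ hx

/-- Conjugation carries the inertia group of `A` into the inertia group of `g • A`. -/
theorem conj_mem_inertia (g : GQ) {A : ValuationSubring Qb} {σ : GQ}
    (hσ : σ ∈ A.inertiaSubgroupIn ℚ) : g * σ * g⁻¹ ∈ (g • A).inertiaSubgroupIn ℚ := by
  rw [mem_inertiaSubgroupIn_iff'] at hσ ⊢
  refine ⟨conj_mem_decomposition g hσ.1, fun x hx => ?_⟩
  rw [mem_smul_iff] at hx
  rw [mem_nonunits_smul_iff, map_sub, conj_apply, inv_apply_apply]
  exact hσ.2 _ hx

/-- Two Frobenius elements at the same valuation subring differ by an element of the inertia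
group. -/
theorem mul_inv_mem_inertia_of_isFrobeniusAt {A : ValuationSubring Qb} {σ τ : GQ} {ℓ : ℕ}
    (hσ : A.IsFrobeniusAt σ ℓ) (hτ : A.IsFrobeniusAt τ ℓ) :
    τ * σ⁻¹ ∈ A.inertiaSubgroupIn ℚ := by
  rw [isFrobeniusAt_iff] at hσ hτ
  rw [mem_inertiaSubgroupIn_iff']
  refine ⟨mul_mem hτ.1 (inv_mem hσ.1), fun x hx => ?_⟩
  have hy : σ⁻¹ x ∈ A := ((mem_decomposition_iff A σ⁻¹).mp (inv_mem hσ.1) x).mpr hx
  have h1 := hτ.2 _ hy
  have h2 := hσ.2 _ hy
  rw [apply_inv_apply] at h2
  have h3 : (τ * σ⁻¹) x - x = (τ (σ⁻¹ x) - (σ⁻¹ x) ^ ℓ) - (x - (σ⁻¹ x) ^ ℓ) := by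
    rw [AlgEquiv.mul_apply]
    ring
  rw [h3]
  exact A.nonunits.sub_mem h1 h2

/-! ### Transitivity -/

/-- A valuation subring of `ℚ̄` over `ℓ` is determined by the prime of `ℤ̄` below it. -/
theorem map_mem_of_primeBelow {ℓ : ℕ} (hℓ : ℓ.Prime) {A A' : ValuationSubring Qb}
    (hA : A.LiesOverPrime ℓ) (hA' : A'.LiesOverPrime ℓ) (τ : GQ)
    (h : ∀ x : integralClosure ℤ Qb,
      τ • x ∈ Fermat.Agent.S54.primeBelow A' ↔ x ∈ Fermat.Agent.S54.primeBelow A)
    (x : Qb) (hx : x ∈ A) : τ x ∈ A' := by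
  haveI : Algebra.IsAlgebraic ℚ Qb := AlgebraicClosure.isAlgebraic ℚ
  obtain ⟨b, s, hb, hs, hsA, hxs⟩ := (Fermat.Agent.S54.mem_valuationSubring_iff A ℓ hℓ hA x).mp hx
  refine (Fermat.Agent.S54.mem_valuationSubring_iff A' ℓ hℓ hA' (τ x)).mpr
    ⟨τ b, τ s, hb.map τ, hs.map τ, ?_, ?_⟩
  · exact (h ⟨s, hs⟩).not.mpr hsA
  · rw [← map_mul, hxs]

theorem smul_eq_of_primeBelow {ℓ : ℕ} (hℓ : ℓ.Prime) {A A' : ValuationSubring Qb}
    (hA : A.LiesOverPrime ℓ) (hA' : A'.LiesOverPrime ℓ) (τ : GQ)
    (h : ∀ x : integralClosure ℤ Qb,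
      τ • x ∈ Fermat.Agent.S54.primeBelow A' ↔ x ∈ Fermat.Agent.S54.primeBelow A) :
    τ • A = A' := by
  apply SetLike.ext
  intro x
  rw [mem_smul_iff]
  constructor
  · intro hx
    have := map_mem_of_primeBelow hℓ hA hA' τ h _ hx
    rwa [apply_inv_apply] at this
  · intro hx
    refine map_mem_of_primeBelow hℓ hA' hA τ⁻¹ (fun y => ?_) x hx
    rw [← h (τ⁻¹ • y), smul_inv_smul]

/-- **Transitivity**: `Gal(ℚ̄/ℚ)` acts transitively on the valuation subrings of `ℚ̄` over a
prime number. -/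
theorem exists_smul_eq {ℓ : ℕ} (hℓ : ℓ.Prime) {A A' : ValuationSubring Qb}
    (hA : A.LiesOverPrime ℓ) (hA' : A'.LiesOverPrime ℓ) : ∃ g : GQ, g • A = A' := by
  haveI := Fermat.Agent.S54.isGalois_algebraicClosure_rat
  haveI : Algebra.IsAlgebraic ℚ (AlgebraicClosure ℚ) := AlgebraicClosure.isAlgebraic ℚ
  letI : TopologicalSpace (integralClosure ℤ (AlgebraicClosure ℚ)) := ⊥
  haveI : DiscreteTopology (integralClosure ℤ (AlgebraicClosure ℚ)) := ⟨rfl⟩
  haveI := Fermat.Agent.S54.continuousSMul_integralClosure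
  haveI := Fermat.Agent.S54.isInvariant_integralClosure
  haveI := Fermat.Agent.S54.primeBelow_isPrime A
  haveI := Fermat.Agent.S54.primeBelow_isPrime A'
  have hmax : (Ideal.span {(ℓ : ℤ)}).IsMaximal :=
    PrincipalIdealRing.isMaximal_of_irreducible (Nat.prime_iff_prime_int.mp hℓ).irreducible
  have hunder : ∀ B : ValuationSubring Qb, B.LiesOverPrime ℓ →
      (Fermat.Agent.S54.primeBelow B).under ℤ = Ideal.span {(ℓ : ℤ)} := by
    intro B hB
    haveI := Fermat.Agent.S54.primeBelow_isPrime B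
    have hle : Ideal.span {(ℓ : ℤ)} ≤ (Fermat.Agent.S54.primeBelow B).under ℤ := by
      rw [Ideal.span_le, Set.singleton_subset_iff]
      show algebraMap ℤ (integralClosure ℤ (AlgebraicClosure ℚ)) (ℓ : ℤ) ∈
        Fermat.Agent.S54.primeBelow B
      rw [Fermat.Agent.S54.mem_primeBelow]
      have : ((algebraMap ℤ (integralClosure ℤ (AlgebraicClosure ℚ)) (ℓ : ℤ) :
          integralClosure ℤ (AlgebraicClosure ℚ)) : AlgebraicClosure ℚ) = (ℓ : Qb) := by
        simp
      rw [this]
      exact hB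
    have hne : (Fermat.Agent.S54.primeBelow B).under ℤ ≠ ⊤ :=
      (Ideal.IsPrime.under ℤ (Fermat.Agent.S54.primeBelow B)).ne_top
    exact (hmax.eq_of_le hne hle).symm
  obtain ⟨g, hg⟩ := Algebra.IsInvariant.exists_smul_of_under_eq_of_profinite
    (A := ℤ) (G := GQ) (Fermat.Agent.S54.primeBelow A) (Fermat.Agent.S54.primeBelow A')
    ((hunder A hA).trans (hunder A' hA').symm)
  refine ⟨g, smul_eq_of_primeBelow hℓ hA hA' g fun x => ?_⟩
  rw [hg]
  exact Ideal.smul_mem_pointwise_smul_iff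

/-! ### Conjugacy of Frobenius elements -/

/-- **Frobenius elements over `ℓ` are conjugate modulo inertia.** -/
theorem exists_conj_of_isFrobeniusAt {ℓ : ℕ} (hℓ : ℓ.Prime) {A A' : ValuationSubring Qb}
    (hA : A.LiesOverPrime ℓ) (hA' : A'.LiesOverPrime ℓ) {φ φ' : GQ}
    (hφ : A.IsFrobeniusAt φ ℓ) (hφ' : A'.IsFrobeniusAt φ' ℓ) :
    ∃ g : GQ, g • A = A' ∧ φ' * (g * φ * g⁻¹)⁻¹ ∈ A'.inertiaSubgroupIn ℚ := by
  obtain ⟨g, hg⟩ := exists_smul_eq hℓ hA hA'
  refine ⟨g, hg, ?_⟩
  have h1 := isFrobeniusAt_conj g hφ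
  rw [hg] at h1
  exact mul_inv_mem_inertia_of_isFrobeniusAt h1 hφ'

/-- The inertia groups at the valuation subrings over `ℓ` are conjugate. -/
theorem exists_conj_of_mem_inertia {ℓ : ℕ} (hℓ : ℓ.Prime) {A A' : ValuationSubring Qb}
    (hA : A.LiesOverPrime ℓ) (hA' : A'.LiesOverPrime ℓ) {ι' : GQ}
    (hι' : ι' ∈ A'.inertiaSubgroupIn ℚ) :
    ∃ g : GQ, ∃ ι ∈ A.inertiaSubgroupIn ℚ, ι' = g * ι * g⁻¹ := by
  obtain ⟨g, hg⟩ := exists_smul_eq hℓ hA' hA
  have h1 := conj_mem_inertia g hι'
  rw [hg] at h1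
  refine ⟨g⁻¹, _, h1, ?_⟩
  group

/-! ### Consequences for homomorphisms -/

/-- A homomorphism which is trivial on the inertia group at ONE valuation subring over `ℓ` is
trivial on the inertia groups at ALL valuation subrings over `ℓ`. -/
theorem map_inertia_eq_one_of_liesOver {M : Type*} [Monoid M] (ρ : GQ →* M) {ℓ : ℕ}
    (hℓ : ℓ.Prime) {A A' : ValuationSubring Qb} (hA : A.LiesOverPrime ℓ)
    (hA' : A'.LiesOverPrime ℓ) (h : ∀ ι ∈ A.inertiaSubgroupIn ℚ, ρ ι = 1) :
    ∀ ι ∈ A'.inertiaSubgroupIn ℚ, ρ ι = 1 := by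
  intro ι' hι'
  obtain ⟨g, ι, hι, rfl⟩ := exists_conj_of_mem_inertia hℓ hA hA' hι'
  rw [map_mul, map_mul, h ι hι, mul_one, ← map_mul, mul_inv_cancel, map_one]

/-- If `ρ` is trivial on inertia at `ℓ`, the values of `ρ` at any two Frobenius elements over `ℓ`
are conjugate: `ρ φ' * ρ g = ρ g * ρ φ`. -/
theorem exists_map_conj_of_isFrobeniusAt {M : Type*} [Monoid M] (ρ : GQ →* M) {ℓ : ℕ}
    (hℓ : ℓ.Prime) {A A' : ValuationSubring Qb} (hA : A.LiesOverPrime ℓ)
    (hA' : A'.LiesOverPrime ℓ) (h : ∀ ι ∈ A'.inertiaSubgroupIn ℚ, ρ ι = 1) {φ φ' : GQ}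
    (hφ : A.IsFrobeniusAt φ ℓ) (hφ' : A'.IsFrobeniusAt φ' ℓ) :
    ∃ g : GQ, ρ φ' = ρ g * ρ φ * ρ g⁻¹ := by
  obtain ⟨g, -, hg⟩ := exists_conj_of_isFrobeniusAt hℓ hA hA' hφ hφ'
  refine ⟨g, ?_⟩
  have h1 := h _ hg
  have h2 : φ' = (φ' * (g * φ * g⁻¹)⁻¹) * (g * φ * g⁻¹) := by group
  rw [h2, map_mul, h1, one_mul, map_mul, map_mul]

/-- For a residual representation unramified at `ℓ`, the characteristic polynomial of Frobenius
at `ℓ` does not depend on the choice of the valuation subring over `ℓ` and of the Frobenius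
element. -/
theorem charpoly_eq_of_isFrobeniusAt {k : Type} [Field k] (ρ : ResidualGaloisRep k) {ℓ : ℕ}
    (hℓ : ℓ.Prime) (hur : ρ.IsUnramifiedAt ℓ) {A A' : ValuationSubring Qb}
    (hA : A.LiesOverPrime ℓ) (hA' : A'.LiesOverPrime ℓ) {φ φ' : GQ}
    (hφ : A.IsFrobeniusAt φ ℓ) (hφ' : A'.IsFrobeniusAt φ' ℓ) :
    LinearMap.charpoly (ρ.ρ φ') = LinearMap.charpoly (ρ.ρ φ) := by
  obtain ⟨g, hg⟩ := exists_map_conj_of_isFrobeniusAt ρ.ρ hℓ hA hA' (hur A' hA') hφ hφ'
  have h1 : ρ.ρ g * ρ.ρ g⁻¹ = 1 := by rw [← map_mul, mul_inv_cancel, map_one]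
  have h2 : ρ.ρ g⁻¹ * ρ.ρ g = 1 := by rw [← map_mul, inv_mul_cancel, map_one]
  let e : ρ.V ≃ₗ[k] ρ.V :=
    { toLinearMap := ρ.ρ g
      invFun := ρ.ρ g⁻¹
      left_inv := fun x => by
        show (ρ.ρ g⁻¹ * ρ.ρ g) x = x
        rw [h2]; rfl
      right_inv := fun x => by
        show (ρ.ρ g * ρ.ρ g⁻¹) x = x
        rw [h1]; rfl }
  have h3 : ρ.ρ φ' = e.conj (ρ.ρ φ) := by
    rw [hg]
    rfl
  rw [h3, LinearEquiv.charpoly_conj]

end Fermat.Agent.Lib.Cheb.H476

end
-- ===== PACK-END Lib/Cheb/H476/FrobConj.lean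

-- ===== PACK-BEGIN S52/H297/MGroup.lean
section



/-!
# The group `M` of "anti-invariant" points and its exact height

`F` a field, `W : y² = x³ + a₂x² + a₄x + a₆` over `F` (`a₁ = a₃ = 0`), `K` a field over `F`
with an `F`-embedding `ι : F(X) → K` and an element `y` with `y² = f(X)`.

`M = {O} ∪ {(ι u, y · ι Y) : u, Y ∈ F(X)} ⊆ W(K)` is a subgroup, every point of `M` has an
`x`-coordinate in `ι (F(X))`, the height `ptHt P = hgt u` satisfies the exact parallelogram law
on `M` (helper720's theorem).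
-/

set_option autoImplicit false

open Polynomial WeierstrassCurve
open scoped WeierstrassCurve.Affine

namespace Fermat.Agent.S52.H297

variable {F : Type*} [Field F] (W : WeierstrassCurve F)
variable {K : Type*} [Field K] [Algebra F K]
variable (ι : RatFunc F →ₐ[F] K) (y : K)

/-- Hypotheses: `a₁ = a₃ = 0` and `y² = f(X)` in `K`. -/
structure TwistSetup : Prop where
  a₁ : W.a₁ = 0
  a₃ : W.a₃ = 0
  hy : y ^ 2 = ι (algebraMap F[X] (RatFunc F) (cubic W.a₂ W.a₄ W.a₆))

/-- membership in `M` -/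
def InM : (W⁄K).Point → Prop
  | .zero => True
  | .some x v _ => ∃ u Y : RatFunc F, x = ι u ∧ v = y * ι Y

lemma inM_zero : InM W ι y 0 := trivial

lemma inM_some {x v : K} {h : (W⁄K).Nonsingular x v} :
    InM W ι y (.some x v h) ↔ ∃ u Y : RatFunc F, x = ι u ∧ v = y * ι Y := Iff.rfl

variable {W ι y}

lemma TwistSetup.a₁K (hs : TwistSetup W ι y) : (W⁄K).a₁ = 0 := by
  show algebraMap F K W.a₁ = 0
  rw [hs.a₁, map_zero]

lemma TwistSetup.a₃K (hs : TwistSetup W ι y) : (W⁄K).a₃ = 0 := by
  show algebraMap F K W.a₃ = 0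
  rw [hs.a₃, map_zero]

lemma a₂K : (W⁄K).a₂ = ι (RatFunc.C W.a₂) := by
  show algebraMap F K W.a₂ = _
  rw [← RatFunc.algebraMap_eq_C, AlgHom.commutes]

lemma a₄K : (W⁄K).a₄ = ι (RatFunc.C W.a₄) := by
  show algebraMap F K W.a₄ = _
  rw [← RatFunc.algebraMap_eq_C, AlgHom.commutes]

lemma a₆K : (W⁄K).a₆ = ι (RatFunc.C W.a₆) := by
  show algebraMap F K W.a₆ = _
  rw [← RatFunc.algebraMap_eq_C, AlgHom.commutes]

lemma TwistSetup.negY (hs : TwistSetup W ι y) (x v : K) : (W⁄K).negY x v = -v := by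
  simp only [Affine.negY, hs.a₁K, hs.a₃K]
  ring

/-- the cubic as a rational function -/
noncomputable def fRat (W : WeierstrassCurve F) : RatFunc F :=
  RatFunc.X ^ 3 + RatFunc.C W.a₂ * RatFunc.X ^ 2 + RatFunc.C W.a₄ * RatFunc.X + RatFunc.C W.a₆

lemma fRat_eq (W : WeierstrassCurve F) :
    algebraMap F[X] (RatFunc F) (cubic W.a₂ W.a₄ W.a₆) = fRat W := by
  simp only [cubic, fRat, map_add, map_mul, map_pow, RatFunc.algebraMap_X, RatFunc.algebraMap_C]

lemma TwistSetup.hy' (hs : TwistSetup W ι y) : y ^ 2 = ι (fRat W) := by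
  rw [hs.hy, fRat_eq]

lemma inM_neg (hs : TwistSetup W ι y) {P : (W⁄K).Point} (hP : InM W ι y P) :
    InM W ι y (-P) := by
  rcases P with _ | ⟨x, v, h⟩
  · exact trivial
  · obtain ⟨u, Y, hx, hv⟩ := hP
    refine ⟨u, -Y, hx, ?_⟩
    show (W⁄K).negY x v = y * ι (-Y)
    rw [hs.negY, hv, map_neg]
    ring

variable [DecidableEq K]

/-- the slope of the chord/tangent through two points of `M` lies in `y · ι(F(X))`. -/
lemma exists_slope (hs : TwistSetup W ι y) {x₁ x₂ v₁ v₂ : K}
    (h₁ : (W⁄K).Nonsingular x₁ v₁) (h₂ : (W⁄K).Nonsingular x₂ v₂)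
    (hP : InM W ι y (.some x₁ v₁ h₁)) (hQ : InM W ι y (.some x₂ v₂ h₂))
    (hxy : ¬(x₁ = x₂ ∧ v₁ = (W⁄K).negY x₂ v₂)) :
    ∃ Λ : RatFunc F, (W⁄K).slope x₁ x₂ v₁ v₂ = y * ι Λ := by
  obtain ⟨u₁, Y₁, hx₁, hv₁⟩ := hP
  obtain ⟨u₂, Y₂, hx₂, hv₂⟩ := hQ
  by_cases hx : x₁ = x₂
  · have hv : v₁ ≠ (W⁄K).negY x₂ v₂ := fun h => hxy ⟨hx, h⟩
    have hvv : v₁ = v₂ := Affine.Y_eq_of_Y_ne h₁.1 h₂.1 hx hv
    rw [Affine.slope_of_Y_ne hx hv, hs.negY, hs.a₁K, a₂K (ι := ι), a₄K (ι := ι)]
    rw [hs.negY, ← hvv] at hv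
    have h2v : v₁ - -v₁ ≠ 0 := fun h => hv (by linear_combination h)
    have hv0 : v₁ ≠ 0 := by
      rintro h0
      apply h2v
      rw [h0]; ring
    have hy0 : y ≠ 0 := by
      rintro h0
      apply hv0
      rw [hv₁, h0, zero_mul]
    have hY0 : ι Y₁ ≠ 0 := by
      rintro h0
      apply hv0
      rw [hv₁, h0, mul_zero]
    have h2 : (2 : K) ≠ 0 := by
      rintro h0
      apply h2v
      linear_combination v₁ * h0
    refine ⟨(3 * u₁ ^ 2 + 2 * RatFunc.C W.a₂ * u₁ + RatFunc.C W.a₄) / (2 * fRat W * Y₁), ?_⟩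
    have hf : ι (fRat W) = y ^ 2 := hs.hy'.symm
    simp only [map_div₀, map_add, map_mul, map_pow, map_ofNat, hf, ← hx₁]
    rw [hv₁]
    have hden : y * ι Y₁ - -(y * ι Y₁) = 2 * y * ι Y₁ := by ring
    rw [hden, zero_mul, sub_zero]
    have hd1 : 2 * y * ι Y₁ ≠ 0 := mul_ne_zero (mul_ne_zero h2 hy0) hY0
    have hd2 : 2 * y ^ 2 * ι Y₁ ≠ 0 := mul_ne_zero (mul_ne_zero h2 (pow_ne_zero 2 hy0)) hY0
    rw [mul_div_assoc', div_eq_div_iff hd1 hd2]
    ring
  · rw [Affine.slope_of_X_ne hx]
    refine ⟨(Y₁ - Y₂) / (u₁ - u₂), ?_⟩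
    rw [hx₁, hx₂, hv₁, hv₂, map_div₀, map_sub, map_sub]
    ring

lemma inM_add (hs : TwistSetup W ι y) {P Q : (W⁄K).Point} (hP : InM W ι y P)
    (hQ : InM W ι y Q) : InM W ι y (P + Q) := by
  rcases P with _ | ⟨x₁, v₁, h₁⟩
  · have : (Affine.Point.zero : (W⁄K).Point) + Q = Q := zero_add Q
    rw [this]; exact hQ
  rcases Q with _ | ⟨x₂, v₂, h₂⟩
  · have : Affine.Point.some x₁ v₁ h₁ + (Affine.Point.zero : (W⁄K).Point)
        = Affine.Point.some x₁ v₁ h₁ := add_zero _
    rw [this]; exact hP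
  by_cases hxy : x₁ = x₂ ∧ v₁ = (W⁄K).negY x₂ v₂
  · rw [Affine.Point.add_of_Y_eq hxy.1 hxy.2]
    exact trivial
  · obtain ⟨Λ, hΛ⟩ := exists_slope hs h₁ h₂ hP hQ hxy
    rw [Affine.Point.add_some hxy]
    obtain ⟨u₁, Y₁, hx₁, hv₁⟩ := hP
    obtain ⟨u₂, Y₂, hx₂, hv₂⟩ := hQ
    have hX : (W⁄K).addX x₁ x₂ ((W⁄K).slope x₁ x₂ v₁ v₂)
        = ι (fRat W * Λ ^ 2 - RatFunc.C W.a₂ - u₁ - u₂) := by
      have hf : ι (fRat W) = y ^ 2 := hs.hy'.symm
      rw [Affine.addX, hΛ, hs.a₁K, a₂K (ι := ι)]
      simp only [map_sub, map_mul, map_pow, hf, hx₁, hx₂]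
      ring
    refine ⟨fRat W * Λ ^ 2 - RatFunc.C W.a₂ - u₁ - u₂,
      -(Λ * (fRat W * Λ ^ 2 - RatFunc.C W.a₂ - u₁ - u₂ - u₁) + Y₁), hX, ?_⟩
    rw [Affine.addY, hs.negY, Affine.negAddY, hX, hΛ, hx₁, hv₁]
    simp only [map_neg, map_add, map_mul, map_sub]
    ring

/-- The subgroup `M` of `W(K)`. -/
def Msub (hs : TwistSetup W ι y) : AddSubgroup (W⁄K).Point where
  carrier := {P | InM W ι y P}
  zero_mem' := trivial
  add_mem' := fun hP hQ => inM_add hs hP hQ
  neg_mem' := fun hP => inM_neg hs hP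

lemma mem_Msub (hs : TwistSetup W ι y) {P : (W⁄K).Point} : P ∈ Msub hs ↔ InM W ι y P := Iff.rfl

end Fermat.Agent.S52.H297

end
-- ===== PACK-END S52/H297/MGroup.lean

-- ===== PACK-BEGIN S29/M4a/Top.lean
section
/-
S29 / M4a-TOP (helper391) — `exists_eigen_parHom` (interface `M4a` of `SkeletonM.lean`, exact
statement) from the output of helper201's E2 layer (`H201.exists_eigen_parabolicHom`, plus the
torsion clause which is needed for `p = 2, 3`).

* `M4aTop_E2Output`            : the E2 output as a `Prop`.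
* `M4aTop_exists_eigen_parHom` : `M4aTop_E2Output → ` conclusion of `exists_eigen_parHom`.
-/


set_option autoImplicit false

noncomputable section

namespace Fermat.Agent.S29

open CongruenceSubgroup Matrix.SpecialLinearGroup ModularCurve.Period
open scoped MatrixGroups

/-- Output of the E2 layer in helper201's shape (`H201.exists_eigen_parabolicHom`), together with
the torsion clause: a nonzero parabolic character `χ : Γ₀(N) → F`, trivial on elements of finite
order, with `T_ℓ χ = ψ(a_ℓ) χ` for every prime `ℓ ∤ N`. -/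
def M4aTop_E2Output (N : ℕ) (g : CuspForm (Gamma0 N) 2) (F : Type) [Field F]
    (ψ : integralClosure ℤ ℂ →+* F) : Prop :=
  ∃ χ : Additive (Gamma0 N) →+ F, χ ≠ 0 ∧ IsParabolicHom (Gamma0 N) χ ∧
    (∀ (γ : Gamma0 N) (n : ℕ), 0 < n → γ ^ n = 1 → χ (Additive.ofMul γ) = 0) ∧
    ∀ (ℓ : ℕ) [Fact ℓ.Prime] (hℓN : ¬ ℓ ∣ N),
      ∃ a : integralClosure ℤ ℂ, (a : ℂ) = ModularFormClass.qCoeff g ℓ ∧
        H201.heckeHom ℓ hℓN F χ = (AddMonoidHom.mulLeft (ψ a)).comp χ

theorem M4aTop_fg_SL2Z : Group.FG SL(2, ℤ) :=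
  Group.fg_iff.mpr ⟨{ModularGroup.S, ModularGroup.T}, SpecialLinearGroup.SL2Z_generators,
    Set.toFinite _⟩

theorem M4aTop_fg_Gamma0 (N : ℕ) [NeZero N] : Group.FG (Gamma0 N) := by
  have := M4aTop_fg_SL2Z
  infer_instance

/-- The values of an additive character of a finitely generated group lie in the span of the values
on a finite generating set. -/
theorem M4aTop_mem_span {G : Type*} [Group G] {R M : Type*} [Ring R] [AddCommGroup M]
    [Module R M] (χ : Additive G →+ M) (S : Set G) (hS : Subgroup.closure S = ⊤) (γ : G) :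
    χ (Additive.ofMul γ) ∈ Submodule.span R ((fun x : G => χ (Additive.ofMul x)) '' S) := by
  have hγ : γ ∈ Subgroup.closure S := hS ▸ Subgroup.mem_top γ
  induction hγ using Subgroup.closure_induction with
  | mem x hx => exact Submodule.subset_span ⟨x, hx, rfl⟩
  | one => rw [ofMul_one, map_zero]; exact Submodule.zero_mem _
  | mul x y _ _ hx hy => rw [ofMul_mul, map_add]; exact Submodule.add_mem _ hx hy
  | inv x _ hx => rw [ofMul_inv, map_neg]; exact Submodule.neg_mem _ hx

/-- **M4a-TOP.**  The conclusion of `exists_eigen_parHom` (`SkeletonM.lean`) from the output of the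
E2 layer. -/
theorem M4aTop_exists_eigen_parHom (N : ℕ) [NeZero N]
    {g : CuspForm (CongruenceSubgroup.Gamma0 N) 2} {p : ℕ} [Fact p.Prime] {F : Type} [Field F]
    [Algebra (ZMod p) F]
    (ψ : integralClosure ℤ ℂ →+* F) (a : ℕ → integralClosure ℤ ℂ)
    (ha : ∀ ℓ : ℕ, ℓ.Prime → ¬ ℓ ∣ N →
      ((a ℓ : integralClosure ℤ ℂ) : ℂ) = ModularFormClass.qCoeff g ℓ)
    (hE2 : M4aTop_E2Output N g F ψ) :
    ∃ (n : ℕ) (w : Fin n → F) (c : Fin n → G0 N → ZMod p),
      LinearIndependent (ZMod p) w ∧ (∀ j, IsParHom (c j)) ∧ (∃ j, c j ≠ 0) ∧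
      ∀ ℓ : ℕ, ℓ.Prime → ¬ ℓ ∣ N * p → ∀ γ : G0 N,
        ∑ j, w j * algebraMap (ZMod p) F (heckeCoh N ℓ (c j) γ)
          = ψ (a ℓ) * ∑ j, w j * algebraMap (ZMod p) F (c j γ) := by
  obtain ⟨χ, hχ0, hpar, htor, hecke⟩ := hE2
  -- a finite generating set
  obtain ⟨S, hS, hSfin⟩ := Group.fg_iff.mp (M4aTop_fg_Gamma0 N)
  set W : Submodule (ZMod p) F :=
    Submodule.span (ZMod p) ((fun x : Gamma0 N => χ (Additive.ofMul x)) '' S) with hW
  have hmem : ∀ γ : Gamma0 N, χ (Additive.ofMul γ) ∈ W := fun γ => M4aTop_mem_span χ S hS γ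
  have : Module.Finite (ZMod p) W := Module.Finite.span_of_finite (ZMod p) (hSfin.image _)
  let b := Module.finBasis (ZMod p) W
  -- the coordinates
  let X : G0 N → W := fun γ => ⟨χ (Additive.ofMul γ), hmem γ⟩
  have hXmul : ∀ γ γ' : G0 N, X (γ * γ') = X γ + X γ' := fun γ γ' =>
    Subtype.ext (by simp only [X, ofMul_mul, map_add, Submodule.coe_add])
  have hX0 : ∀ γ : G0 N, χ (Additive.ofMul γ) = 0 → X γ = 0 := fun γ h => Subtype.ext h
  have hsum : ∀ γ : G0 N, χ (Additive.ofMul γ)
      = ∑ j, (b j : F) * algebraMap (ZMod p) F (b.repr (X γ) j) := by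
    intro γ
    have h1 := congrArg (fun x : W => (x : F)) (b.sum_repr (X γ))
    simp only [Submodule.coe_sum, Submodule.coe_smul] at h1
    rw [show χ (Additive.ofMul γ) = ((X γ : W) : F) from rfl, ← h1]
    refine Finset.sum_congr rfl fun j _ => ?_
    rw [Algebra.smul_def, mul_comm]
  refine ⟨Module.finrank (ZMod p) W, fun j => (b j : F), fun j γ => b.repr (X γ) j, ?_, ?_, ?_, ?_⟩
  · exact b.linearIndependent.map' W.subtype (Submodule.ker_subtype W)
  · intro j
    refine ⟨fun γ γ' => ?_, fun γ hγ => ?_, fun γ n hn hγ => ?_⟩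
    · show b.repr (X (γ * γ')) j = b.repr (X γ) j + b.repr (X γ') j
      rw [hXmul, map_add, Finsupp.add_apply]
    · show b.repr (X γ) j = 0
      have h4 : (((γ : Gamma0 N) : SL(2, ℤ)) : Matrix (Fin 2) (Fin 2) ℤ).trace ^ 2 = 4 := by
        have h5 : G0.mat γ = (((γ : Gamma0 N) : SL(2, ℤ)) : Matrix (Fin 2) (Fin 2) ℤ) := rfl
        rw [h5] at hγ
        rcases hγ with h | h <;> rw [h] <;> norm_num
      rw [hX0 γ (hpar γ h4), map_zero, Finsupp.zero_apply]
    · show b.repr (X γ) j = 0
      rw [hX0 γ (htor γ n hn hγ), map_zero, Finsupp.zero_apply]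
  · by_contra hcon
    rw [not_exists] at hcon
    replace hcon : ∀ j, (fun γ : G0 N => b.repr (X γ) j) = 0 := fun j => not_not.mp (hcon j)
    apply hχ0
    ext γ
    have hz : X (Additive.toMul γ) = 0 := by
      apply b.repr.injective
      ext j
      rw [map_zero, Finsupp.zero_apply]
      exact congrFun (hcon j) (Additive.toMul γ)
    show χ (Additive.ofMul (Additive.toMul γ)) = 0
    exact congrArg (fun x : W => (x : F)) hz
  · intro ℓ hℓ hℓNp γ
    have : Fact ℓ.Prime := ⟨hℓ⟩
    have hℓN : ¬ ℓ ∣ N := fun h => hℓNp (Dvd.dvd.mul_right h p)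
    obtain ⟨a', ha', hT⟩ := hecke ℓ hℓN
    have haa : a' = a ℓ := Subtype.ext (by rw [ha', ha ℓ hℓ hℓN])
    subst haa
    have hTγ : ∑ x : OnePoint (ZMod ℓ), χ (Additive.ofMul (H201.trf hℓN γ x))
        = ψ (a ℓ) * χ (Additive.ofMul γ) := DFunLike.congr_fun hT (Additive.ofMul γ)
    rw [← hsum γ, ← hTγ]
    -- expand the Hecke operator on coordinates
    have hco : ∀ j, heckeCoh N ℓ (fun γ => b.repr (X γ) j) γ
        = ∑ x : OnePoint (ZMod ℓ), b.repr (X (H201.trf hℓN γ x)) j := fun j =>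
      M4aTop_heckeCoh_eq_sum_trf hℓN _ γ
    simp only [hco, map_sum, Finset.mul_sum]
    rw [Finset.sum_comm]
    refine Finset.sum_congr rfl fun x _ => ?_
    exact (hsum (H201.trf hℓN γ x)).symm

end Fermat.Agent.S29

end
end
-- ===== PACK-END S29/M4a/Top.lean

-- ===== PACK-BEGIN S29/H812/OrdSum.lean
section





/-!
# S29 / H812 — order of a finite sum with a unique strictly minimal term, and local
"indicator" functions at the places of a finite set (from weak approximation).
-/

set_option autoImplicit false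

noncomputable section

open AlgebraicCurve WithZero

namespace Fermat.Agent.S29.H812

open Fermat.Agent.S24

variable {K F : Type*} [Field K] [Field F] [Algebra K F] (v : Place K F)

/-- If one term of a finite sum has strictly smaller order than all other nonzero terms, then the
sum is nonzero and has the order of that term. -/
theorem ord_sum_eq_of_lt {ι : Type*} (s : Finset ι) (f : ι → F) (j : ι) (hj : j ∈ s)
    (hfj : f j ≠ 0) (h : ∀ i ∈ s, i ≠ j → f i = 0 ∨ v.ord (f j) < v.ord (f i)) :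
    (∑ i ∈ s, f i) ≠ 0 ∧ v.ord (∑ i ∈ s, f i) = v.ord (f j) := by
  classical
  have key : v.adicValuation (∑ i ∈ s, f i) = v.adicValuation (f j) := by
    apply Valuation.map_sum_eq_of_lt _ hj
    intro i hi
    rw [Finset.mem_sdiff, Finset.mem_singleton] at hi
    by_cases hi0 : f i = 0
    · rw [hi0, map_zero]
      exact zero_lt_iff.mpr (v.adicValuation_ne_zero hfj)
    · rcases h i hi.1 hi.2 with h0 | hlt
      · exact absurd h0 hi0
      · rw [H504.adicValuation_eq_exp_neg_ord v hi0, H504.adicValuation_eq_exp_neg_ord v hfj,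
          exp_lt_exp]
        omega
  have hne : (∑ i ∈ s, f i) ≠ 0 := by
    intro h0
    rw [h0, map_zero] at key
    exact v.adicValuation_ne_zero hfj key.symm
  refine ⟨hne, ?_⟩
  rw [H504.adicValuation_eq_exp_neg_ord v hne, H504.adicValuation_eq_exp_neg_ord v hfj] at key
  have := WithZero.exp_injective key
  omega

/-- `ord` of a finite sum is at least a common lower bound of the orders of the nonzero terms,
provided the sum is nonzero. -/
theorem le_ord_sum {ι : Type*} (s : Finset ι) (f : ι → F) (m : ℤ)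
    (h : ∀ i ∈ s, f i = 0 ∨ m ≤ v.ord (f i)) (hne : (∑ i ∈ s, f i) ≠ 0) :
    m ≤ v.ord (∑ i ∈ s, f i) := by
  classical
  have key : v.adicValuation (∑ i ∈ s, f i) ≤ exp (-m) := by
    apply Valuation.map_sum_le
    intro i hi
    by_cases hi0 : f i = 0
    · rw [hi0, map_zero]; exact zero_le
    · rcases h i hi with h0 | hle
      · exact absurd h0 hi0
      · rw [H504.adicValuation_eq_exp_neg_ord v hi0, exp_le_exp]
        omega
  rw [H504.adicValuation_eq_exp_neg_ord v hne, exp_le_exp] at key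
  omega

/-- Membership version: a finite sum of elements of the valuation ring is in the valuation
ring. -/
theorem ord_one_add_of_neg {f : F} (hf : v.ord f < 0) :
    1 + f ≠ 0 ∧ v.ord (1 + f) = v.ord f := by
  have hf0 : f ≠ 0 := H117.ne_zero_of_ord_ne_zero v hf.ne
  have h := H117.ord_add_eq_of_lt v (f := f) (g := 1) (by rw [v.ord_one]; exact hf) hf0
  rw [add_comm] at h
  refine ⟨?_, h⟩
  intro h0
  rw [h0, v.ord_zero] at h
  omega

theorem ord_one_add_of_pos {f : F} (hf : 0 < v.ord f) :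
    1 + f ≠ 0 ∧ v.ord (1 + f) = 0 := by
  have h := H117.ord_add_eq_of_lt v (f := 1) (g := f) (by rw [v.ord_one]; exact hf) one_ne_zero
  rw [v.ord_one] at h
  refine ⟨?_, h⟩
  intro h0
  have hf1 : f = -1 := by linear_combination h0
  rw [hf1, H117.ord_neg, v.ord_one] at hf
  exact lt_irrefl _ hf

/-- **Indicator functions.**  For a place `w` and a finite set `s` of other places there is
`ε` with `ε ≡ 1` at `w` (i.e. `ord_w (1 - ε) > 0`, `ord_w ε = 0`) and `ord_{w'} ε > 0`,
`ord_{w'} (1 - ε) = 0` for `w' ∈ s`. -/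
theorem exists_indicator (w : Place K F) (s : Finset (Place K F)) (hw : w ∉ s) :
    ∃ ε : F, ε ≠ 0 ∧ 1 - ε ≠ 0 ∧ w.ord ε = 0 ∧ 0 < w.ord (1 - ε) ∧
      ∀ w' ∈ s, 0 < w'.ord ε ∧ w'.ord (1 - ε) = 0 := by
  obtain ⟨f, hf1, hf2⟩ := H117.exists_ord_neg_forall_pos w s hw
  have hf0 : f ≠ 0 := H117.ne_zero_of_ord_ne_zero w hf1.ne
  obtain ⟨h1, h2⟩ := ord_one_add_of_neg w hf1
  have hinv : (1 + f)⁻¹ ≠ 0 := inv_ne_zero h1
  have hε : 1 - f / (1 + f) = (1 + f)⁻¹ := by field_simp; ring
  refine ⟨f / (1 + f), div_ne_zero hf0 h1, by rw [hε]; exact hinv, ?_, ?_, ?_⟩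
  · rw [H117.ord_div w hf0 h1, h2]; ring
  · rw [hε, w.ord_inv, h2]; omega
  · intro w' hw'
    obtain ⟨h3, h4⟩ := ord_one_add_of_pos w' (hf2 w' hw')
    constructor
    · rw [H117.ord_div w' hf0 h3, h4]; have := hf2 w' hw'; omega
    · rw [hε, w'.ord_inv, h4]; rfl

end Fermat.Agent.S29.H812

end
end
-- ===== PACK-END S29/H812/OrdSum.lean

-- ===== PACK-BEGIN S18/H107/Base.lean
section






/-!
# helper107 — S18 / M3-T : `BaseModel107` = `GoodModel` without the branch-set fields

`BaseModel107 Lc Ec Fc R V w x` consists of all fields of the frozen `Alg.GoodModel` (v4) except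
`S_mem`, `S_distinct`, `S_unit`, `unramified`.  For `x = j` it holds for every `ℓ ∤ M`
(including `ℓ = 2, 3`, where `GoodModel … j {0, 1728}` is FALSE because `0 ≡ 1728`).

Generic transfer lemmas `j ↦ t` for the easy fields: `transcendental`, `finite`, `separable`,
`t ∈ V` (integral closedness of `V` in `Fc`).
-/

set_option autoImplicit false

namespace Fermat.Agent.S18.H107

open Polynomial Fermat.Agent.S18.Alg

variable {Ω : Type*} [Field Ω]

/-- All fields of `Alg.GoodModel` that do not mention the branch set `S`. -/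
structure BaseModel107 (Lc Ec Fc : Subfield Ω) (R V : Subring Ω) (w x : Ω) : Prop where
  charZero : CharZero Ω
  R_le : (R : Set Ω) ⊆ Ec
  R_total : ∀ e ∈ Ec, e ∈ R ∨ e⁻¹ ∈ R
  w_mem : w ∈ R
  w_ne_zero : w ≠ 0
  w_inv_not_mem : w⁻¹ ∉ R
  w_gen : ∀ r ∈ R, r⁻¹ ∉ R → r * w⁻¹ ∈ R
  w_discrete : ∀ r ∈ R, r ≠ 0 → ∃ n : ℕ, r * (w⁻¹) ^ n ∈ R ∧ (r * (w⁻¹) ^ n)⁻¹ ∈ R
  residue_perfect : ∃ p : ℕ, p.Prime ∧ (p : Ω) * w⁻¹ ∈ R ∧
    ∀ r ∈ R, ∃ s ∈ R, (r - s ^ p) * w⁻¹ ∈ R
  E_le_L : Ec ≤ Lc
  E_le_F : Ec ≤ Fc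
  L_algebraic : ∀ a ∈ Lc, IsAlgebraic Ec a
  L_algClosed : IsAlgClosed Lc
  E_closed_in_F : ∀ f ∈ Fc, IsAlgebraic Ec f → f ∈ Ec
  compositum : Subfield.closure ((Fc : Set Ω) ∪ Lc) = ⊤
  x_mem : x ∈ Fc
  x_transcendental : Transcendental Lc x
  finite : ∃ s : Finset Ω, (s : Set Ω) ⊆ Fc ∧
    ∀ f ∈ Fc, f ∈ Submodule.span (ratField Ec x) (s : Set Ω)
  V_le : (V : Set Ω) ⊆ Fc
  V_total : ∀ f ∈ Fc, f ∈ V ∨ f⁻¹ ∈ V
  R_le_V : R ≤ V
  w_inv_not_mem_V : w⁻¹ ∉ V
  V_gen : ∀ f ∈ V, f⁻¹ ∉ V → f * w⁻¹ ∈ V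
  x_mem_V : x ∈ V
  gauss : ∀ P : Polynomial Ω, (∀ i, P.coeff i ∈ R) → (∃ i, P.coeff i ≠ 0 ∧ (P.coeff i)⁻¹ ∈ R) →
    (P.eval x)⁻¹ ∈ V
  qep_fin : ∀ b ∈ chart Fc R x, b * w⁻¹ ∈ V → b * w⁻¹ ∈ chart Fc R x
  qep_inf : ∀ b ∈ chart Fc R x⁻¹, b * w⁻¹ ∈ V → b * w⁻¹ ∈ chart Fc R x⁻¹
  separable : ∀ f ∈ V, ∃ P : Polynomial Ω, (∀ i, P.coeff i ∈ polyRing R x) ∧
    P.eval f * w⁻¹ ∈ V ∧ (Polynomial.derivative P).eval f ≠ 0 ∧
    ((Polynomial.derivative P).eval f)⁻¹ ∈ V

theorem baseModel_of_goodModel107 {Lc Ec Fc : Subfield Ω} {R V : Subring Ω} {w x : Ω}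
    {S : Finset Ω} (h : GoodModel Lc Ec Fc R V w x S) : BaseModel107 Lc Ec Fc R V w x where
  charZero := h.charZero
  R_le := h.R_le
  R_total := h.R_total
  w_mem := h.w_mem
  w_ne_zero := h.w_ne_zero
  w_inv_not_mem := h.w_inv_not_mem
  w_gen := h.w_gen
  w_discrete := h.w_discrete
  residue_perfect := h.residue_perfect
  E_le_L := h.E_le_L
  E_le_F := h.E_le_F
  L_algebraic := h.L_algebraic
  L_algClosed := h.L_algClosed
  E_closed_in_F := h.E_closed_in_F
  compositum := h.compositum
  x_mem := h.x_mem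
  x_transcendental := h.x_transcendental
  finite := h.finite
  V_le := h.V_le
  V_total := h.V_total
  R_le_V := h.R_le_V
  w_inv_not_mem_V := h.w_inv_not_mem_V
  V_gen := h.V_gen
  x_mem_V := h.x_mem_V
  gauss := h.gauss
  qep_fin := h.qep_fin
  qep_inf := h.qep_inf
  separable := h.separable

theorem BaseModel107.toGoodModel {Lc Ec Fc : Subfield Ω} {R V : Subring Ω} {w x : Ω}
    (h : BaseModel107 Lc Ec Fc R V w x) (S : Finset Ω) (S_mem : ∀ s ∈ S, s ∈ R)
    (S_distinct : ∀ s ∈ S, ∀ t ∈ S, s ≠ t → (s - t)⁻¹ ∈ R)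
    (S_unit : ∀ s ∈ S, s ≠ 0 → s⁻¹ ∈ R)
    (unramified : ∀ O : ValuationSubring Ω, (∀ a ∈ Lc, a ∈ O) → ∀ c ∈ Lc, c ∉ S →
      x - c ∈ O → (x - c)⁻¹ ∉ O → ∀ t ∈ O, t⁻¹ ∉ O → t * (x - c)⁻¹ ∈ O) :
    GoodModel Lc Ec Fc R V w x S where
  charZero := h.charZero
  R_le := h.R_le
  R_total := h.R_total
  w_mem := h.w_mem
  w_ne_zero := h.w_ne_zero
  w_inv_not_mem := h.w_inv_not_mem
  w_gen := h.w_gen
  w_discrete := h.w_discrete
  residue_perfect := h.residue_perfect
  E_le_L := h.E_le_L
  E_le_F := h.E_le_F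
  L_algebraic := h.L_algebraic
  L_algClosed := h.L_algClosed
  E_closed_in_F := h.E_closed_in_F
  compositum := h.compositum
  x_mem := h.x_mem
  x_transcendental := h.x_transcendental
  finite := h.finite
  V_le := h.V_le
  V_total := h.V_total
  R_le_V := h.R_le_V
  w_inv_not_mem_V := h.w_inv_not_mem_V
  V_gen := h.V_gen
  x_mem_V := h.x_mem_V
  gauss := h.gauss
  qep_fin := h.qep_fin
  qep_inf := h.qep_inf
  separable := h.separable
  S_mem := S_mem
  S_distinct := S_distinct
  S_unit := S_unit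
  unramified := unramified

/-- A subring `V` that is "total at `b`" contains `b` as soon as `b` is integral over a subring
of `V` (valuation rings are integrally closed). -/
theorem mem_of_isIntegral_of_total107 (V T : Subring Ω) (hT : T ≤ V) {b : Ω}
    (hb : b ∈ V ∨ b⁻¹ ∈ V) (hint : IsIntegral T b) : b ∈ V := by
  rcases hb with h | h
  · exact h
  obtain ⟨P, hP, hc, hPb⟩ := (isIntegral_iff_exists_poly107 T b).1 hint
  rcases eq_or_ne b 0 with rfl | hb0
  · exact V.zero_mem
  have hn : P.natDegree ≠ 0 := by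
    intro h0
    have h1 : P = 1 := by
      have := Polynomial.eq_C_of_natDegree_eq_zero h0
      rw [this, ← h0]
      have hl : P.coeff P.natDegree = 1 := hP
      rw [hl, map_one]
    rw [h1, eval_one] at hPb
    exact one_ne_zero hPb
  obtain ⟨n, hn'⟩ := Nat.exists_eq_succ_of_ne_zero hn
  rw [eval_eq_sum_range, hn', Finset.sum_range_succ] at hPb
  have hlead : P.coeff (n + 1) = 1 := by
    have : P.coeff P.natDegree = 1 := hP
    rwa [hn'] at this
  rw [hlead, one_mul] at hPb
  -- `b = - ∑ i < n+1, a_i * (b⁻¹) ^ (n - i)`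
  have key : b = -∑ i ∈ Finset.range (n + 1), P.coeff i * (b⁻¹) ^ (n - i) := by
    have h1 : b ^ (n + 1) = -∑ i ∈ Finset.range (n + 1), P.coeff i * b ^ i := by
      linear_combination hPb
    calc b = b ^ (n + 1) * (b⁻¹) ^ n := by
          rw [pow_succ, inv_pow]
          field_simp
      _ = (-∑ i ∈ Finset.range (n + 1), P.coeff i * b ^ i) * (b⁻¹) ^ n := by rw [h1]
      _ = -∑ i ∈ Finset.range (n + 1), P.coeff i * (b⁻¹) ^ (n - i) := by
          rw [neg_mul, Finset.sum_mul]
          congr 1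
          refine Finset.sum_congr rfl fun i hi => ?_
          have hi' : i ≤ n := Nat.lt_succ_iff.1 (Finset.mem_range.1 hi)
          have e : (b⁻¹) ^ n = (b⁻¹) ^ i * (b⁻¹) ^ (n - i) := by
            rw [← pow_add, Nat.add_sub_cancel' hi']
          rw [e, mul_assoc, ← mul_assoc (b ^ i), inv_pow b i,
            mul_inv_cancel₀ (pow_ne_zero _ hb0), one_mul]
  rw [key]
  refine V.neg_mem (V.sum_mem fun i _ => V.mul_mem (hT (hc i)) (V.pow_mem h _))

theorem ratField_le107 {Ec : Subfield Ω} {x y : Ω} (h : x ∈ ratField Ec y) :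
    ratField Ec x ≤ ratField Ec y := by
  refine Subfield.closure_le.2 ?_
  rintro c (hc | hc)
  · exact Subfield.subset_closure (Or.inl hc)
  · rw [Set.mem_singleton_iff] at hc
    rw [hc]
    exact h

theorem self_mem_ratField107 (Ec : Subfield Ω) (x : Ω) : x ∈ ratField Ec x :=
  Subfield.subset_closure (Or.inr rfl)

theorem natCast_mem_ratField107 (Ec : Subfield Ω) (x : Ω) (n : ℕ) [n.AtLeastTwo] :
    (OfNat.ofNat n : Ω) ∈ ratField Ec x := ofNat_mem _ n

/-- Spans over a bigger subfield are bigger. -/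
theorem span_mono_subfield107 {K₁ K₂ : Subfield Ω} (h : K₁ ≤ K₂) (s : Set Ω) {f : Ω}
    (hf : f ∈ Submodule.span K₁ s) : f ∈ Submodule.span K₂ s := by
  induction hf using Submodule.span_induction with
  | mem x hx => exact Submodule.subset_span hx
  | zero => exact Submodule.zero_mem _
  | add x y _ _ hx hy => exact Submodule.add_mem _ hx hy
  | smul a x _ hx =>
    have : a • x = (⟨(a : Ω), h a.2⟩ : K₂) • x := rfl
    rw [this]
    exact Submodule.smul_mem _ _ hx

theorem finite_transfer107 {Ec Fc : Subfield Ω} {j t : Ω} (hj : j ∈ ratField Ec t)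
    (h : ∃ s : Finset Ω, (s : Set Ω) ⊆ Fc ∧
      ∀ f ∈ Fc, f ∈ Submodule.span (ratField Ec j) (s : Set Ω)) :
    ∃ s : Finset Ω, (s : Set Ω) ⊆ Fc ∧
      ∀ f ∈ Fc, f ∈ Submodule.span (ratField Ec t) (s : Set Ω) := by
  obtain ⟨s, hs, hspan⟩ := h
  exact ⟨s, hs, fun f hf => span_mono_subfield107 (ratField_le107 hj) _ (hspan f hf)⟩

/-- `separable` passes from `j` to `t` when `j * e ∈ R[t]` for some `e ∈ R[t]` that is a unit
of `V`. -/
theorem separable_transfer107 {R V : Subring Ω} {w j t e : Ω} (he : e ∈ polyRing R t)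
    (hje : j * e ∈ polyRing R t) (heV : e ∈ V) (heV' : e⁻¹ ∈ V) (he0 : e ≠ 0)
    (h : ∀ f ∈ V, ∃ P : Polynomial Ω, (∀ i, P.coeff i ∈ polyRing R j) ∧
      P.eval f * w⁻¹ ∈ V ∧ (Polynomial.derivative P).eval f ≠ 0 ∧
      ((Polynomial.derivative P).eval f)⁻¹ ∈ V) :
    ∀ f ∈ V, ∃ P : Polynomial Ω, (∀ i, P.coeff i ∈ polyRing R t) ∧
      P.eval f * w⁻¹ ∈ V ∧ (Polynomial.derivative P).eval f ≠ 0 ∧
      ((Polynomial.derivative P).eval f)⁻¹ ∈ V := by
  intro f hf
  obtain ⟨P, hc, hPf, hd0, hdV⟩ := h f hf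
  have hex : ∀ i, ∃ d : ℕ, ∀ d', d ≤ d' → P.coeff i * e ^ d' ∈ polyRing R t := fun i =>
    exists_pow_mul_mem107 (le_polyRing107 R t) he hje (hc i)
  choose d hd using hex
  set D := (Finset.range (P.natDegree + 1)).sup d with hD
  have hDi : ∀ i, P.coeff i * e ^ D ∈ polyRing R t := by
    intro i
    by_cases hi : i ∈ Finset.range (P.natDegree + 1)
    · exact hd i D (Finset.le_sup hi)
    · rw [Finset.mem_range, not_lt] at hi
      rw [coeff_eq_zero_of_natDegree_lt (by omega), zero_mul]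
      exact Subring.zero_mem _
  refine ⟨C (e ^ D) * P, fun i => ?_, ?_, ?_, ?_⟩
  · rw [coeff_C_mul, mul_comm]
    exact hDi i
  · rw [eval_mul, eval_C, mul_assoc]
    exact V.mul_mem (V.pow_mem heV D) hPf
  · rw [derivative_C_mul, eval_mul, eval_C]
    exact mul_ne_zero (pow_ne_zero _ he0) hd0
  · rw [derivative_C_mul, eval_mul, eval_C, mul_inv, ← inv_pow]
    exact V.mul_mem (V.pow_mem heV' D) hdV

end Fermat.Agent.S18.H107

end
-- ===== PACK-END S18/H107/Base.lean

-- ===== PACK-BEGIN S18/H438/Front/Divisor.lean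
section





/-!
# S18 / ALG-FRONT (helper438), part 8: `H754.DivisibleDivisor` for a chart

* `divisibleDivisor_of_places` (generic, Mathlib + `H754/KummerSpec`): `B` a Noetherian
  integrally closed domain with fraction field `F`, `ϖ ∈ B` prime, `u ≡ 1 mod ϖ`
  (`H754.OneModPi ϖ u`), and at every discrete valuation subring `W ⊇ B[1/ϖ]` of `F` the element
  `u` is a unit times an `m`-th power.  Then `H754.DivisibleDivisor B m u`.
* `GoodModelFront.exists_pow_unit_of_dvr` : the place hypothesis from the divisor hypothesis of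
  `Alg.AlgMainStatement` (over valuation subrings of `Ω` containing `Lc`), via
  `H845.exists_pow_unit_of_forall_over`.
* `GoodModelFront.divisibleDivisor` : `H754.DivisibleDivisor B m u` for ANY realisation `B` of a
  chart of a good model (`B ⊇ R`, `ϖ ↦ w`).
-/

set_option autoImplicit false
set_option linter.style.haveILetI false
set_option linter.unusedSectionVars false

noncomputable section

namespace Fermat.Agent.S18.H438

/-- **`DivisibleDivisor` from the places over `B[1/ϖ]`.** -/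
theorem divisibleDivisor_of_places {B : Type*} [CommRing B] [IsDomain B] [IsNoetherianRing B]
    [IsIntegrallyClosed B] {F : Type*} [Field F] [Algebra B F] [IsFractionRing B F]
    (ϖ : B) (hϖ : Prime ϖ) (u : F) (hu1 : H754.OneModPi ϖ u) (m : ℕ)
    (hplace : ∀ W : ValuationSubring F, IsDiscreteValuationRing W →
      (∀ b : B, algebraMap B F b ∈ W) → (algebraMap B F ϖ)⁻¹ ∈ W →
      ∃ s : F, s ≠ 0 ∧ u * s ^ m ∈ W ∧ (u * s ^ m)⁻¹ ∈ W) :
    H754.DivisibleDivisor B m u := by
  have hinj : Function.Injective (algebraMap B F) := IsFractionRing.injective B F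
  obtain ⟨a₀, s₀, hs₀, has₀, hu₀⟩ := hu1
  have ha₀ : a₀ ∉ Ideal.span {ϖ} := by
    intro ha
    apply hs₀
    have := Ideal.sub_mem _ ha has₀
    simpa using this
  have hu0 : u ≠ 0 := by
    rintro rfl
    rw [zero_mul] at hu₀
    have : a₀ = 0 := hinj (by rw [← hu₀, map_zero])
    exact ha₀ (this ▸ Ideal.zero_mem _)
  intro 𝔭 h𝔭 hht
  haveI := h𝔭
  by_cases hϖ𝔭 : ϖ ∈ 𝔭
  · -- `𝔭 = (ϖ)`
    have hP : (Ideal.span {ϖ} : Ideal B).IsPrime :=
      (Ideal.span_singleton_prime hϖ.ne_zero).2 hϖ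
    have hle : Ideal.span {ϖ} ≤ 𝔭 := (Ideal.span_singleton_le_iff_mem _).2 hϖ𝔭
    have hne : (Ideal.span {ϖ} : Ideal B) ≠ ⊥ := by
      rw [Ne, Ideal.span_singleton_eq_bot]; exact hϖ.ne_zero
    have h1 : 𝔭.height ≤ (Ideal.span {ϖ} : Ideal B).height := by
      rw [hht, Order.one_le_iff_pos, pos_iff_ne_zero, Ne, Ideal.height_eq_zero_iff_eq_bot]
      exact hne
    have heq : Ideal.span {ϖ} = 𝔭 := Ideal.eq_of_le_of_height_le (h := hle) (h_height := h1)
    refine ⟨1, a₀, s₀, ?_, ?_, ?_⟩
    · rw [← heq]; exact ha₀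
    · rw [← heq]; exact hs₀
    · rw [one_pow, mul_one]; exact hu₀
  · -- a horizontal prime: `B_𝔭` is a DVR containing `B[1/ϖ]`
    obtain ⟨W, hW, hmem⟩ := exists_dvr_of_height_one (F := F) 𝔭 hht
    have h1𝔭 : (1 : B) ∉ 𝔭 := fun h => h𝔭.ne_top ((Ideal.eq_top_iff_one _).2 h)
    have hBW : ∀ b : B, algebraMap B F b ∈ W := fun b =>
      (hmem _).2 ⟨b, 1, h1𝔭, by rw [map_one, mul_one]⟩
    have hϖ0 : algebraMap B F ϖ ≠ 0 := fun h => hϖ.ne_zero (hinj (by rw [h, map_zero]))
    have hϖW : (algebraMap B F ϖ)⁻¹ ∈ W :=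
      (hmem _).2 ⟨1, ϖ, hϖ𝔭, by rw [inv_mul_cancel₀ hϖ0, map_one]⟩
    obtain ⟨t, ht0, h1, h2⟩ := hplace W hW hBW hϖW
    obtain ⟨a, s, hs, has⟩ := (hmem _).1 h1
    obtain ⟨a', s', hs', has'⟩ := (hmem _).1 h2
    refine ⟨t, a, s, ?_, hs, has⟩
    intro ha
    have hut : u * t ^ m ≠ 0 := mul_ne_zero hu0 (pow_ne_zero _ ht0)
    have h3 : algebraMap B F (a * a') = algebraMap B F (s * s') := by
      rw [map_mul, map_mul, ← has, ← has']
      field_simp
    have h4 : a * a' = s * s' := hinj h3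
    have h5 : s * s' ∈ 𝔭 := h4 ▸ 𝔭.mul_mem_right _ ha
    rcases h𝔭.mem_or_mem h5 with h | h
    · exact hs h
    · exact hs' h

open Alg

variable {Ω : Type*} [Field Ω] {Lc Ec Fc : Subfield Ω} {R V : Subring Ω} {w x : Ω}
  {S : Finset Ω}

namespace GoodModelFront

variable (G : GoodModel Lc Ec Fc R V w x S)

include G

/-- A valuation subring of `Fc` containing `R` and `w⁻¹` contains `Ec`. -/
theorem ec_mem_of_inv_mem (W : ValuationSubring Fc) (hRW : ∀ r ∈ Rf Fc R, r ∈ W)
    (hwW : (wf G)⁻¹ ∈ W) : ∀ e : Fc, (e : Ω) ∈ Ec → e ∈ W := by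
  intro e he
  rcases G.R_total e he with h1 | h1
  · exact hRW e h1
  · by_cases he0 : e = 0
    · rw [he0]; exact W.zero_mem
    have he0' : (e : Ω) ≠ 0 := fun h => he0 (Subtype.ext h)
    obtain ⟨n, -, hn⟩ := G.w_discrete (e : Ω)⁻¹ h1 (inv_ne_zero he0')
    have hmem : (e⁻¹ * (wf G)⁻¹ ^ n)⁻¹ ∈ W := hRW _ hn
    have hw0 : wf G ≠ 0 := wf_ne_zero G
    have : e = (e⁻¹ * (wf G)⁻¹ ^ n)⁻¹ * (wf G)⁻¹ ^ n := by
      field_simp
    rw [this]
    exact mul_mem hmem (pow_mem hwW n)

/-- **The place hypothesis** of `divisibleDivisor_of_places` from the divisor hypothesis of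
`Alg.AlgMainStatement`. -/
theorem exists_pow_unit_of_dvr {u : Fc} (hu : u ≠ 0) {m : ℕ}
    (hdiv : ∀ O : ValuationSubring Ω, (∀ a ∈ Lc, a ∈ O) →
      ∃ t : Ω, t ≠ 0 ∧ (u : Ω) * t ^ m ∈ O ∧ ((u : Ω) * t ^ m)⁻¹ ∈ O)
    (W : ValuationSubring Fc) (hW : IsDiscreteValuationRing W)
    (hRW : ∀ r ∈ Rf Fc R, r ∈ W) (hwW : (wf G)⁻¹ ∈ W) :
    ∃ s : Fc, s ≠ 0 ∧ u * s ^ m ∈ W ∧ (u * s ^ m)⁻¹ ∈ W := by
  haveI := G.charZero
  exact H845.exists_pow_unit_of_forall_over Lc Ec Fc G.E_le_F G.L_algebraic G.compositum hu hdiv W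
    (ec_mem_of_inv_mem G W hRW hwW)

/-- **`DivisibleDivisor` for any realisation `B` of a chart of a good model.** -/
theorem divisibleDivisor {B : Type*} [CommRing B] [IsDomain B] [IsNoetherianRing B]
    [IsIntegrallyClosed B] [Algebra B Fc] [IsFractionRing B Fc]
    (hRB : ∀ r ∈ Rf Fc R, ∃ b : B, algebraMap B Fc b = r)
    (ϖ : B) (hϖ : Prime ϖ) (hϖw : algebraMap B Fc ϖ = wf G)
    {u : Fc} (hu1 : H754.OneModPi ϖ u) {m : ℕ}
    (hdiv : ∀ O : ValuationSubring Ω, (∀ a ∈ Lc, a ∈ O) →
      ∃ t : Ω, t ≠ 0 ∧ (u : Ω) * t ^ m ∈ O ∧ ((u : Ω) * t ^ m)⁻¹ ∈ O) :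
    H754.DivisibleDivisor B m u := by
  have hinj : Function.Injective (algebraMap B Fc) := IsFractionRing.injective B Fc
  have hu0 : u ≠ 0 := by
    obtain ⟨a₀, s₀, hs₀, has₀, hu₀⟩ := hu1
    rintro rfl
    rw [zero_mul] at hu₀
    have : a₀ = 0 := hinj (by rw [← hu₀, map_zero])
    apply hs₀
    have := Ideal.sub_mem _ (this ▸ Ideal.zero_mem (Ideal.span {ϖ}) : a₀ ∈ Ideal.span {ϖ}) has₀
    simpa using this
  refine divisibleDivisor_of_places ϖ hϖ u hu1 m fun W hW hBW hϖW => ?_
  refine exists_pow_unit_of_dvr G hu0 hdiv W hW (fun r hr => ?_) (by rwa [hϖw] at hϖW)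
  obtain ⟨b, hb⟩ := hRB r hr
  rw [← hb]
  exact hBW b

end GoodModelFront

end Fermat.Agent.S18.H438

end
end
-- ===== PACK-END S18/H438/Front/Divisor.lean

-- ===== PACK-BEGIN S18/H138/Connected.lean
section



/-!
# S18, Route K, ASM (helper138): the special fibre of the `x`-line model is connected

Setting: `R` a noetherian domain with `R[X]` integrally closed (e.g. a DVR), `w ∈ R` a prime
element, `F` a field of characteristic `0` containing `R`, `x ∈ F` transcendental over `R`,
`F` finite over the subfield `baseField R x` generated by `R` and `x`, and `R` integrally closed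
in `F` (i.e. `Frac R` is algebraically closed in `F` and `R` is normal).

`B_fin = chart R {x}`, `B_inf = chart R {x⁻¹}`, `B_mid = chart R {x, x⁻¹}` are the integral
closures of `R[x]`, `R[x⁻¹]`, `R[x, x⁻¹]` in `F`.

**Theorem** (`connected_special_fibre`).  If `e₁ ∈ B_fin`, `e₂ ∈ B_inf` are idempotent modulo
`w` (in their charts) and `e₁ ≡ e₂ mod w B_mid`, then `(e₁, e₂) ≡ (0, 0)` or `(1, 1)` modulo `w`.

This is the statement "`H⁰(X_k, O) = k`" for the normal model `X = Spec B_fin ∪ Spec B_inf`,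
proved by the two-chart Čech argument of `H558.cech_connected` (`H¹(X, O)` is a finitely
generated `R`-module).
-/

set_option autoImplicit false
set_option linter.style.haveILetI false

namespace Fermat.Agent.S18.H138

open Polynomial

variable {R : Type*} [CommRing R] {F : Type*} [Field F] [Algebra R F]

/-- Elements of the base field integral over an integrally closed subalgebra with that
fraction field lie in the subalgebra. -/
theorem mem_of_isIntegral_of_mem (A : Subalgebra R F) [IsIntegrallyClosed A] (K : Subfield F)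
    (hAK : ∀ a ∈ A, a ∈ K) (hfrac : ∀ z ∈ K, ∃ a ∈ A, ∃ b ∈ A, z = a / b)
    {z : F} (hzK : z ∈ K) (hz : IsIntegral A z) : z ∈ A := by
  have h := minpoly_coeff_mem A K hAK hfrac hz 0
  have h2 : minpoly K z = X - C (⟨z, hzK⟩ : K) :=
    minpoly.eq_X_sub_C_of_algebraMap_inj (⟨z, hzK⟩ : K) (algebraMap K F).injective
  rw [h2] at h
  simp only [coeff_sub, coeff_X_zero, coeff_C_zero, zero_sub] at h
  have : -(-z) ∈ A := A.neg_mem h
  simpa using this

/-- `R / w → B_fin / w` is injective. -/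
theorem dvd_of_algebraMap_eq_mul [IsIntegrallyClosed R[X]]
    (hinjR : Function.Injective (algebraMap R F)) {x : F} (hx : Transcendental R x)
    (w a : R) {t : F} (ht : t ∈ chart R ({x} : Set F))
    (h : algebraMap R F a = algebraMap R F w * t) : w ∣ a := by
  by_cases hw : w = 0
  · subst hw
    rw [map_zero, zero_mul] at h
    have : a = 0 := hinjR (by rw [h, map_zero])
    rw [this]
  have hwF : algebraMap R F w ≠ 0 := fun h0 => hw (hinjR (by rw [h0, map_zero]))
  haveI := isIntegrallyClosed_adjoin_singleton (R := R) hx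
  have htK : t ∈ baseField R x := by
    have : t = algebraMap R F a / algebraMap R F w := by
      rw [h, mul_div_cancel_left₀ _ hwF]
    rw [this]
    exact (baseField R x).div_mem (Subfield.subset_closure (Or.inl ⟨a, rfl⟩))
      (Subfield.subset_closure (Or.inl ⟨w, rfl⟩))
  have htA : t ∈ Algebra.adjoin R ({x} : Set F) :=
    mem_of_isIntegral_of_mem _ (baseField R x) (fun a ha => adjoin_le_baseField x ha)
      (fun z hz => exists_div_of_mem_baseField x hz) htK ht
  obtain ⟨P, rfl⟩ := mem_adjoin_singleton_iff.1 htA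
  have h3 : aeval x (C a - C w * P) = 0 := by
    rw [map_sub, map_mul, aeval_C, aeval_C, h, sub_self]
  have h4 := (transcendental_iff.1 hx) _ h3
  have h5 : C a = C w * P := sub_eq_zero.1 h4
  refine ⟨P.coeff 0, ?_⟩
  have := congrArg (fun p : R[X] => p.coeff 0) h5
  simpa using this

section Finite

variable [IsNoetherianRing R] [IsIntegrallyClosed R[X]] [CharZero F]

/-- `B_fin` is generated as an `R`-module by finitely many families `x ^ j * bs i`. -/
theorem exists_finite_gens {x : F} (hx : Transcendental R x)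
    [FiniteDimensional (baseField R x) F] :
    ∃ (n : ℕ) (bs : Fin n → F), (∀ i, bs i ∈ chart R ({x} : Set F)) ∧
      ∀ b ∈ chart R ({x} : Set F),
        b ∈ Submodule.span R {z : F | ∃ (j : ℕ) (i : Fin n), z = x ^ j * bs i} := by
  classical
  set A : Subalgebra R F := Algebra.adjoin R ({x} : Set F) with hA
  set K : Subfield F := baseField R x with hK
  haveI := isIntegrallyClosed_adjoin_singleton (R := R) hx
  haveI := isNoetherianRing_adjoin_singleton (R := R) hx
  let φ : A →+* K :=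
    { toFun := fun a => ⟨a, adjoin_le_baseField x a.2⟩
      map_one' := rfl
      map_mul' := fun _ _ => rfl
      map_zero' := rfl
      map_add' := fun _ _ => rfl }
  letI : Algebra A K := φ.toAlgebra
  haveI : IsScalarTower A K F := IsScalarTower.of_algebraMap_eq (fun _ => rfl)
  have hinj : Function.Injective (algebraMap A K) := by
    intro a b hab
    have : (a : F) = b := congrArg (fun t : K => (t : F)) hab
    exact Subtype.ext this
  haveI : FaithfulSMul A K := (faithfulSMul_iff_algebraMap_injective A K).2 hinj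
  haveI : IsFractionRing A K := by
    refine IsFractionRing.of_field A K (fun z => ?_)
    obtain ⟨a, ha, b, hb, h⟩ := exists_div_of_mem_baseField (R := R) x z.2
    exact ⟨⟨a, ha⟩, ⟨b, hb⟩, Subtype.ext h⟩
  haveI : CharZero K := (algebraMap K F).charZero
  haveI : Module.Finite A (integralClosure A F) :=
    IsIntegralClosure.finite A K F (integralClosure A F)
  obtain ⟨n, s, hs⟩ := Module.Finite.exists_fin (R := A) (M := integralClosure A F)
  refine ⟨n, fun i => (s i : F), fun i => (s i).2, ?_⟩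
  intro b hb
  set T : Submodule R F :=
    Submodule.span R {z : F | ∃ (j : ℕ) (i : Fin n), z = x ^ j * (s i : F)} with hT
  -- `T` is stable under multiplication by `x`, hence by `A`
  have hxT : ∀ z ∈ T, x * z ∈ T := by
    intro z hz
    induction hz using Submodule.span_induction with
    | mem z hz =>
      obtain ⟨j, i, rfl⟩ := hz
      exact Submodule.subset_span ⟨j + 1, i, by ring⟩
    | zero => simp
    | add y z _ _ hy hz => rw [mul_add]; exact T.add_mem hy hz
    | smul r z _ hz => rw [mul_smul_comm]; exact T.smul_mem r hz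
  have hAT : ∀ a ∈ A, ∀ z ∈ T, a * z ∈ T := by
    intro a ha
    induction ha using Algebra.adjoin_induction with
    | mem y hy =>
      rw [Set.mem_singleton_iff] at hy
      subst hy
      exact hxT
    | algebraMap r =>
      intro z hz
      rw [← Algebra.smul_def]
      exact T.smul_mem r hz
    | add y z _ _ hy hz =>
      intro u hu
      rw [add_mul]
      exact T.add_mem (hy u hu) (hz u hu)
    | mul y z _ _ hy hz =>
      intro u hu
      rw [mul_assoc]
      exact hy _ (hz u hu)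
  have hb' : (⟨b, hb⟩ : integralClosure A F) ∈ Submodule.span A (Set.range s) := by
    rw [hs]; trivial
  have key : ∀ c : integralClosure A F, c ∈ Submodule.span A (Set.range s) → (c : F) ∈ T := by
    intro c hc
    induction hc using Submodule.span_induction with
    | mem c hc =>
      obtain ⟨i, rfl⟩ := hc
      exact Submodule.subset_span ⟨0, i, by simp⟩
    | zero => simp
    | add y z _ _ hy hz => exact T.add_mem hy hz
    | smul a z _ hz => exact hAT a a.2 _ hz
  exact key _ hb'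

/-- **Connectedness of the special fibre of the normal `x`-line model.** -/
theorem connected_special_fibre
    (hinjR : Function.Injective (algebraMap R F))
    (hRF : ∀ y : F, IsIntegral R y → y ∈ Set.range (algebraMap R F))
    {x : F} (hx : Transcendental R x) [FiniteDimensional (baseField R x) F]
    (w : R) (hw : Prime w)
    (e₁ e₂ : F) (he₁ : e₁ ∈ chart R ({x} : Set F)) (he₂ : e₂ ∈ chart R ({x⁻¹} : Set F))
    (hi₁ : ∃ t ∈ chart R ({x} : Set F), e₁ ^ 2 - e₁ = algebraMap R F w * t)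
    (hi₂ : ∃ t ∈ chart R ({x⁻¹} : Set F), e₂ ^ 2 - e₂ = algebraMap R F w * t)
    (h₁₂ : ∃ t ∈ chart R ({x, x⁻¹} : Set F), e₁ - e₂ = algebraMap R F w * t) :
    ((∃ t ∈ chart R ({x} : Set F), e₁ = algebraMap R F w * t) ∧
      (∃ t ∈ chart R ({x⁻¹} : Set F), e₂ = algebraMap R F w * t)) ∨
    ((∃ t ∈ chart R ({x} : Set F), 1 - e₁ = algebraMap R F w * t) ∧
      (∃ t ∈ chart R ({x⁻¹} : Set F), 1 - e₂ = algebraMap R F w * t)) := by
  have hx0 : x ≠ 0 := ne_zero_of_transcendental hx
  obtain ⟨n, bs, hbs, hgen⟩ := exists_finite_gens (R := R) hx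
  exact cech_connected_sub (ι := Fin n) w x x⁻¹ (mul_inv_cancel₀ hx0)
    (chart R {x}) (chart R {x⁻¹}) (chart R {x, x⁻¹})
    (chart_mono (by simp)) (chart_mono (by simp))
    (mem_chart_of_mem rfl) (mem_chart_of_mem rfl) bs hbs hgen
    (fun b hb => exists_pow_mul_mem_chart hx0 hb)
    (fun i => exists_inv_pow_mul_mem_chart hx0 (hbs i))
    (fun b hbf hbi => by
      obtain ⟨a, ha⟩ := hRF b (isIntegral_of_mem_chart_inter hx hbf hbi)
      exact ⟨a, ha⟩)
    (fun a ⟨t, ht, h⟩ => dvd_of_algebraMap_eq_mul hinjR hx w a ht h)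
    (fun a b h => hw.dvd_or_dvd h)
    e₁ e₂ he₁ he₂ hi₁ hi₂ h₁₂

end Finite

end Fermat.Agent.S18.H138

end
-- ===== PACK-END S18/H138/Connected.lean

-- ===== PACK-BEGIN S18/H203/LiftBasis.lean
section


/-!
# S18 / b1 (helper203): lifting a basis of the special fibre — local freeness along `w = 0`

`S` a Noetherian integrally closed domain, `w ∈ S` prime, `S̄ = S ⧸ (w)`, `B` the integral
closure of `S` in a finite extension `F` of `K = Frac S`, finite over `S`, `B̄ = B ⧸ (w) B`.
Let `b : ι → B` be a finite family whose reduction is an `S̄`-basis of `B̄`.  Then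

* `exists_smul_mem_span` : there is `r ∈ S`, `r ≡ 1 mod w`, with `r • B ⊆ span_S b`
  (Nakayama), i.e. `b` generates `B` over the localisation `S[1/r]`;
* `linearIndependent_lift` : `b` is linearly independent over `S`;
* `basisOfLift` : the image of `b` in `F` is a `K`-basis of `F`; in particular
  `card ι = [F : K]` (`card_eq_finrank`).

So `B` is free with basis `b` over the semi-local ring `(1 + w S)⁻¹ S`, in particular over the
local rings of `S` at all primes containing `w`: "B is locally free of rank `[F : K]` along the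
special fibre".
-/

set_option autoImplicit false

namespace Fermat.Agent.S18.H203

open Ideal

section

variable {S B : Type*} [CommRing S] [CommRing B] [Algebra S B]

/-- The reduction map `B → B ⧸ (w) B`. -/
abbrev redB (w : S) : B →+* B ⧸ (Ideal.span {w}).map (algebraMap S B) :=
  Ideal.Quotient.mk _

/-- The reduction map `S → S ⧸ (w)`. -/
abbrev redS (w : S) : S →+* S ⧸ Ideal.span {w} :=
  Ideal.Quotient.mk _

theorem redB_smul (w : S) (s : S) (β : B) :
    redB w (s • β) = redS w s • redB (S := S) w β := by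
  rw [Ideal.Quotient.mk_smul_mk_quotient_map_quotient, Algebra.smul_def]

theorem redB_eq_zero_iff (w : S) (β : B) :
    redB (S := S) w β = 0 ↔ algebraMap S B w ∣ β := by
  rw [Ideal.Quotient.eq_zero_iff_mem, mem_map_span_singleton_iff]

theorem redS_eq_zero_iff (w : S) (s : S) : redS w s = 0 ↔ w ∣ s := by
  rw [Ideal.Quotient.eq_zero_iff_mem, Ideal.mem_span_singleton]

variable {ι : Type*} [Fintype ι]

/-- Every element of `B` is congruent mod `w` to an `S`-combination of the lifts. -/
theorem exists_sum_add_mul (w : S) (b : ι → B)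
    (hspan : Submodule.span (S ⧸ Ideal.span {w}) (Set.range fun i => redB (S := S) w (b i)) = ⊤)
    (β : B) : ∃ (c : ι → S) (β' : B), β = ∑ i, c i • b i + algebraMap S B w * β' := by
  have hβ : redB (S := S) w β ∈
      Submodule.span (S ⧸ Ideal.span {w}) (Set.range fun i => redB (S := S) w (b i)) := by
    rw [hspan]; exact Submodule.mem_top
  obtain ⟨cb, hcb⟩ := (Submodule.mem_span_range_iff_exists_fun _).mp hβ
  choose c hc using fun i => Ideal.Quotient.mk_surjective (cb i)
  have h1 : redB (S := S) w (β - ∑ i, c i • b i) = 0 := by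
    rw [map_sub, map_sum, ← hcb, sub_eq_zero]
    refine Finset.sum_congr rfl fun i _ => ?_
    rw [redB_smul, hc i]
  rw [redB_eq_zero_iff] at h1
  obtain ⟨β', hβ'⟩ := h1
  exact ⟨c, β', by rw [← hβ']; ring⟩

/-- **Nakayama**: a single `r ≡ 1 mod w` with `r • B ⊆ span_S b`. -/
theorem exists_smul_mem_span [Module.Finite S B] (w : S) (b : ι → B)
    (hspan : Submodule.span (S ⧸ Ideal.span {w}) (Set.range fun i => redB (S := S) w (b i)) = ⊤) :
    ∃ r : S, r - 1 ∈ Ideal.span {w} ∧
      ∀ β : B, r • β ∈ Submodule.span S (Set.range b) := by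
  set N : Submodule S B := Submodule.span S (Set.range b) with hN
  have hfg : (⊤ : Submodule S (B ⧸ N)).FG := Module.finite_def.mp inferInstance
  have hle : (⊤ : Submodule S (B ⧸ N)) ≤ Ideal.span {w} • ⊤ := by
    intro x _
    obtain ⟨β, rfl⟩ := N.mkQ_surjective x
    obtain ⟨c, β', hβ⟩ := exists_sum_add_mul w b hspan β
    have h1 : N.mkQ β = w • N.mkQ β' := by
      rw [hβ, map_add, ← map_smul, Algebra.smul_def]
      have h2 : N.mkQ (∑ i, c i • b i) = 0 := by
        rw [Submodule.mkQ_apply, Submodule.Quotient.mk_eq_zero]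
        exact Submodule.sum_mem _ fun i _ =>
          Submodule.smul_mem _ _ (Submodule.subset_span ⟨i, rfl⟩)
      rw [h2, zero_add]
    rw [h1]
    exact Submodule.smul_mem_smul (Ideal.mem_span_singleton_self w) Submodule.mem_top
  obtain ⟨r, hr1, hr⟩ :=
    Submodule.exists_sub_one_mem_and_smul_eq_zero_of_fg_of_le_smul (Ideal.span {w}) ⊤ hfg hle
  refine ⟨r, hr1, fun β => ?_⟩
  have h3 := hr (N.mkQ β) Submodule.mem_top
  rw [← map_smul, Submodule.mkQ_apply, Submodule.Quotient.mk_eq_zero] at h3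
  exact h3

end

section Indep

variable {S B : Type*} [CommRing S] [IsDomain S] [IsNoetherianRing S]
  [CommRing B] [Algebra S B] [Module.IsTorsionFree S B]
  {ι : Type*} [Fintype ι]

/-- In a Noetherian domain, an element divisible by all powers of a prime element is zero. -/
theorem eq_zero_of_forall_pow_dvd {w : S} (hw : Prime w) {a : S} (h : ∀ k : ℕ, w ^ k ∣ a) :
    a = 0 := by
  by_contra ha
  have hfin : FiniteMultiplicity w a := FiniteMultiplicity.of_not_isUnit hw.not_isUnit ha
  obtain ⟨n, hn⟩ := hfin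
  exact hn (h (n + 1))

/-- **Linear independence of the lifts.** -/
theorem linearIndependent_lift {w : S} (hw : Prime w) (b : ι → B)
    (hli : LinearIndependent (S ⧸ Ideal.span {w}) fun i => redB (S := S) w (b i)) :
    LinearIndependent S b := by
  rw [Fintype.linearIndependent_iff]
  intro a ha
  -- all coefficients are divisible by all powers of `w`
  have key : ∀ k : ℕ, ∀ a : ι → S, ∑ i, a i • b i = 0 → ∀ i, w ^ k ∣ a i := by
    intro k
    induction k with
    | zero => intro a _ i; simp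
    | succ k ih =>
      intro a ha i
      have h1 := ih a ha
      choose a' ha' using h1
      have h2 : ∑ i, a' i • b i = 0 := by
        have h3 : w ^ k • ∑ i, a' i • b i = 0 := by
          rw [Finset.smul_sum, ← ha]
          refine Finset.sum_congr rfl fun i _ => ?_
          rw [smul_smul, ← ha' i]
        exact (smul_eq_zero_iff_right (pow_ne_zero k hw.ne_zero)).mp h3
      have h4 : ∑ i, redS w (a' i) • redB (S := S) w (b i) = 0 := by
        have := congrArg (redB (S := S) w) h2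
        rw [map_sum, map_zero] at this
        rw [← this]
        refine Finset.sum_congr rfl fun i _ => ?_
        rw [redB_smul]
      have h5 := Fintype.linearIndependent_iff.mp hli _ h4 i
      rw [redS_eq_zero_iff] at h5
      obtain ⟨c, hc⟩ := h5
      exact ⟨c, by rw [ha' i, hc, pow_succ]; ring⟩
  intro i
  exact eq_zero_of_forall_pow_dvd hw fun k => key k a ha i

end Indep

end Fermat.Agent.S18.H203

end
-- ===== PACK-END S18/H203/LiftBasis.lean

-- ===== PACK-BEGIN S18/H754/HncTyped.lean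
section


/-!
# S18 / ALG-FRONT / hNC adapter, typed form

The hypothesis `hNC` of `B12.B2RegularStatement`, from the `unramified` field of `Alg.GoodModel`:

    hNC_typed : ∀ π : R[X], Prime π → ¬ Associated π (C w) → (∀ c ∈ S, ¬ Associated π (X - C c)) →
        (Ideal.span {algebraMap R[X] B π}).IsRadical

for `R` a DVR of characteristic `0`, `B` a finite torsion-free integrally closed `R[X]`-algebra,
domain, with `C w` prime in `B`, embedded in a field `Ω` with an algebraically closed subfield of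
constants `Lc ⊇ R`, algebraic over `R`.
-/

set_option autoImplicit false

noncomputable section

namespace Fermat.Agent.S18.H754

open Polynomial

section Dvd

variable {A B : Type*} [CommRing A] [IsDomain A] [IsIntegrallyClosed A]
  [CommRing B] [IsDomain B] [Algebra A B] [Module.IsTorsionFree A B] [Algebra.IsIntegral A B]

/-- Divisibility in an integral torsion-free extension domain of an integrally closed domain
descends. -/
theorem dvd_of_algebraMap_dvd {a q : A} (ha : a ≠ 0)
    (h : algebraMap A B a ∣ algebraMap A B q) : a ∣ q := by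
  have hinj : Function.Injective (algebraMap A B) := FaithfulSMul.algebraMap_injective A B
  obtain ⟨b, hb⟩ := h
  have hbint : IsIntegral A b := Algebra.IsIntegral.isIntegral b
  set p : A[X] := C a * X - C q with hp
  have hpb : aeval b p = 0 := by
    rw [hp, map_sub, map_mul, aeval_C, aeval_C, aeval_X, hb, sub_self]
  have hdvd : minpoly A b ∣ p := minpoly.isIntegrallyClosed_dvd hbint hpb
  have hp1 : p.coeff 1 = a := by
    rw [hp]
    simp
  have hp0 : p ≠ 0 := by
    intro h0
    rw [h0, coeff_zero] at hp1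
    exact ha hp1.symm
  have hpdeg : p.natDegree ≤ 1 := by
    rw [hp]
    refine (natDegree_sub_le _ _).trans (max_le ?_ ?_)
    · exact (natDegree_C_mul_X a ha).le
    · rw [natDegree_C]; exact Nat.zero_le _
  have hmdeg : (minpoly A b).natDegree ≤ 1 := (natDegree_le_of_dvd hdvd hp0).trans hpdeg
  have hmpos : 0 < (minpoly A b).natDegree := minpoly.natDegree_pos hbint
  have hm1 : (minpoly A b).natDegree = 1 := le_antisymm hmdeg hmpos
  have hmonic : (minpoly A b).Monic := minpoly.monic hbint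
  have hmeq := eq_X_add_C_of_natDegree_le_one hmdeg
  have hlead : (minpoly A b).coeff 1 = 1 := by
    have := hmonic.coeff_natDegree
    rwa [hm1] at this
  rw [hlead, C_1, one_mul] at hmeq
  have hmb : aeval b (minpoly A b) = 0 := minpoly.aeval A b
  rw [hmeq, map_add, aeval_X, aeval_C] at hmb
  have hb' : b = algebraMap A B (-(minpoly A b).coeff 0) := by
    rw [map_neg]
    exact eq_neg_of_add_eq_zero_left hmb
  refine ⟨-(minpoly A b).coeff 0, ?_⟩
  apply hinj
  rw [map_mul, ← hb', hb]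

end Dvd

section Constants

variable {R : Type*} [CommRing R] [IsDomain R] [IsDiscreteValuationRing R]
  {Ω : Type*} [Field Ω]

/-- An element algebraic over a DVR `R` becomes integral after multiplication by a power of the
uniformiser. -/
theorem exists_pow_mul_isIntegralElem (ι : R →+* Ω) (w : R) (hw : Irreducible w)
    (a : Ω) (ha : ∃ p : R[X], p ≠ 0 ∧ eval₂ ι a p = 0) :
    ∃ n : ℕ, ι.IsIntegralElem (ι w ^ n * a) := by
  letI : Algebra R Ω := ι.toAlgebra
  have halg : IsAlgebraic R a := by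
    obtain ⟨p, hp0, hp⟩ := ha
    exact ⟨p, hp0, by rw [aeval_def]; exact hp⟩
  obtain ⟨y, hy0, hy⟩ := halg.exists_integral_multiple
  obtain ⟨n, u, rfl⟩ := IsDiscreteValuationRing.eq_unit_mul_pow_irreducible hy0 hw
  refine ⟨n, ?_⟩
  have h1 : IsIntegral R ((((u⁻¹ : Rˣ) : R)) • ((u : R) * w ^ n) • a) :=
    IsIntegral.smul _ hy
  have h2 : (((u⁻¹ : Rˣ) : R)) • ((u : R) * w ^ n) • a = ι w ^ n * a := by
    rw [smul_smul, ← mul_assoc, Units.inv_mul, one_mul, Algebra.smul_def, map_pow]
    rfl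
  rw [h2] at h1
  exact h1

variable [CharZero R]

/-- Factorisation over the constants of a nonconstant irreducible polynomial over `R`: pairwise
distinct roots. -/
theorem exists_factorization_of_irreducible (ι : R →+* Ω) (hι : Function.Injective ι)
    (Lc : Subfield Ω) (hLcl : IsAlgClosed Lc) (hRL : ∀ r, ι r ∈ Lc)
    (π : R[X]) (hπ : Irreducible π) (hdeg : π.natDegree ≠ 0) :
    ∃ (roots : Finset Ω) (lc : Ω), lc ∈ Lc ∧ lc ≠ 0 ∧
      (∀ c ∈ roots, c ∈ Lc ∧ eval₂ ι c π = 0) ∧
      ∀ x : Ω, eval₂ ι x π = lc * ∏ c ∈ roots, (x - c) := by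
  classical
  haveI := hLcl
  let K := FractionRing R
  have hprim : π.IsPrimitive := hπ.isPrimitive hdeg
  have hK : Irreducible (π.map (algebraMap R K)) :=
    (hprim.irreducible_iff_irreducible_map_fraction_map).1 hπ
  haveI : CharZero K := charZero_of_injective_algebraMap (IsFractionRing.injective R K)
  have hsepK : (π.map (algebraMap R K)).Separable := hK.separable
  let ιL : R →+* Lc := ι.codRestrict Lc hRL
  have hιL : Function.Injective ιL := by
    intro a b hab
    apply hι
    exact congrArg Subtype.val hab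
  let φ : K →+* Lc := IsFractionRing.lift hιL
  have hφ : φ.comp (algebraMap R K) = ιL := by
    ext r
    exact congrArg Subtype.val (IsFractionRing.lift_algebraMap hιL r)
  set Q : Lc[X] := π.map ιL with hQ
  have hQ' : Q = (π.map (algebraMap R K)).map φ := by
    rw [Polynomial.map_map, hφ]
  have hsepQ : Q.Separable := by
    rw [hQ']
    exact hsepK.map
  have hsplit : Q.Splits := IsAlgClosed.splits Q
  have hQfac := hsplit.eq_prod_roots
  have hnodup : Q.roots.Nodup := nodup_roots hsepQ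
  have hQ0 : Q ≠ 0 := by
    rw [hQ]
    exact (Polynomial.map_ne_zero_iff hιL).2 hπ.ne_zero
  have hsub : (Lc.subtype).comp ιL = ι := by
    ext r
    rfl
  have heval : ∀ x : Ω, eval₂ ι x π = eval₂ Lc.subtype x Q := by
    intro x
    rw [hQ, eval₂_map, hsub]
  refine ⟨Q.roots.toFinset.map ⟨Subtype.val, Subtype.val_injective⟩, (Q.leadingCoeff : Ω),
    Q.leadingCoeff.2, ?_, ?_, ?_⟩
  · intro h0
    have : Q.leadingCoeff = 0 := Subtype.ext h0
    exact hQ0 (leadingCoeff_eq_zero.1 this)
  · intro c hc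
    rw [Finset.mem_map] at hc
    obtain ⟨a, ha, rfl⟩ := hc
    rw [Multiset.mem_toFinset] at ha
    refine ⟨a.2, ?_⟩
    have hroot : Q.eval a = 0 := (mem_roots hQ0).1 ha
    rw [heval]
    change eval₂ Lc.subtype (Lc.subtype a) Q = 0
    rw [eval₂_at_apply, hroot, map_zero]
  · intro x
    rw [heval]
    conv_lhs => rw [hQfac]
    rw [eval₂_mul, eval₂_C, eval₂_multiset_prod, Multiset.map_map, Finset.prod_map,
      Finset.prod_eq_multiset_prod, Multiset.toFinset_val, Multiset.dedup_eq_self.2 hnodup]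
    congr 2
    refine Multiset.map_congr rfl fun a _ => ?_
    simp [eval₂_sub, eval₂_X, eval₂_C]

end Constants

section Typed

variable (R : Type*) [CommRing R] [IsDomain R] [IsDiscreteValuationRing R] [CharZero R]
  (B : Type*) [CommRing B] [IsDomain B] [IsIntegrallyClosed B] [Algebra R[X] B]
  [Module.Finite R[X] B] [Module.IsTorsionFree R[X] B]
  {Ω : Type*} [Field Ω] [Algebra B Ω] [FaithfulSMul B Ω]

/-- **hNC, typed form** = the hypothesis `hNC` of `B12.B2RegularStatement`, from the `unramified`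
field of `Alg.GoodModel` (with `x = algebraMap B Ω (algebraMap R[X] B X)`). -/
theorem hNC_typed (w : R) (hw : Irreducible w)
    (hwB : Prime (algebraMap R[X] B (C w)))
    (Lc : Subfield Ω) (hLcl : IsAlgClosed Lc)
    (hRL : ∀ r : R, algebraMap B Ω (algebraMap R[X] B (C r)) ∈ Lc)
    (hLalg : ∀ a ∈ Lc, ∃ p : R[X], p ≠ 0 ∧
      eval₂ ((algebraMap B Ω).comp ((algebraMap R[X] B).comp C)) a p = 0)
    (S : Finset R) (SΩ : Finset Ω)
    (hS : ∀ c ∈ SΩ, ∃ s ∈ S, algebraMap B Ω (algebraMap R[X] B (C s)) = c)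
    (hunr : ∀ O : ValuationSubring Ω, (∀ a ∈ Lc, a ∈ O) → ∀ c ∈ Lc, c ∉ SΩ →
        algebraMap B Ω (algebraMap R[X] B X) - c ∈ O →
        (algebraMap B Ω (algebraMap R[X] B X) - c)⁻¹ ∉ O →
        ∀ t ∈ O, t⁻¹ ∉ O → t * (algebraMap B Ω (algebraMap R[X] B X) - c)⁻¹ ∈ O) :
    ∀ π : R[X], Prime π → ¬ Associated π (C w) → (∀ c ∈ S, ¬ Associated π (X - C c)) →
        (Ideal.span {algebraMap R[X] B π}).IsRadical := by
  classical
  intro π hπ hπw hπS
  haveI : IsNoetherianRing B := IsNoetherianRing.of_finite R[X] B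
  haveI : Algebra.IsIntegral R[X] B := Algebra.IsIntegral.of_finite R[X] B
  have hinjRB : Function.Injective (algebraMap R[X] B) :=
    FaithfulSMul.algebraMap_injective R[X] B
  have hinjBΩ : Function.Injective (algebraMap B Ω) := FaithfulSMul.algebraMap_injective B Ω
  set ι : R →+* Ω := (algebraMap B Ω).comp ((algebraMap R[X] B).comp C) with hιdef
  have hι : Function.Injective ι := by
    intro a b hab
    exact C_injective (hinjRB (hinjBΩ hab))
  have hwprime : Prime w := hw.prime
  have hCw : Irreducible (C w : R[X]) := (prime_C_iff.2 hwprime).irreducible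
  -- `π` is not constant
  have hdeg : π.natDegree ≠ 0 := by
    intro h0
    obtain ⟨r, hr⟩ : ∃ r : R, π = C r := ⟨π.coeff 0, eq_C_of_natDegree_eq_zero h0⟩
    have hrp : Prime r := by
      rw [hr] at hπ
      exact prime_C_iff.1 hπ
    have hass : Associated r w :=
      IsDiscreteValuationRing.associated_of_irreducible R hrp.irreducible hw
    apply hπw
    rw [hr]
    obtain ⟨u, hu⟩ := hass
    refine ⟨Units.map (C : R →+* R[X]).toMonoidHom u, ?_⟩
    simp only [Units.coe_map, RingHom.toMonoidHom_eq_coe, MonoidHom.coe_coe]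
    rw [← map_mul, hu]
  have hπ'0 : algebraMap R[X] B π ≠ 0 := by
    intro h0
    exact hπ.ne_zero (hinjRB (by rw [h0, map_zero]))
  -- `w` lies in no height-one prime containing `π`
  have hwP : ∀ 𝔓 : Ideal B, 𝔓.IsPrime → 𝔓.height = 1 → algebraMap R[X] B π ∈ 𝔓 →
      algebraMap R[X] B (C w) ∉ 𝔓 := by
    intro 𝔓 h𝔓 hht hπ𝔓 hw𝔓
    haveI := h𝔓
    haveI hwI : (Ideal.span {algebraMap R[X] B (C w)}).IsPrime :=
      (Ideal.span_singleton_prime hwB.ne_zero).2 hwB
    have hle : Ideal.span {algebraMap R[X] B (C w)} ≤ 𝔓 :=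
      (Ideal.span_singleton_le_iff_mem _).2 hw𝔓
    by_cases heq : Ideal.span {algebraMap R[X] B (C w)} = 𝔓
    · rw [← heq, Ideal.mem_span_singleton] at hπ𝔓
      have hCw0 : (C w : R[X]) ≠ 0 := hCw.ne_zero
      have hdvd : (C w : R[X]) ∣ π := dvd_of_algebraMap_dvd (B := B) hCw0 hπ𝔓
      exact hπw (hCw.associated_of_dvd hπ.irreducible hdvd).symm
    · have hlt : Ideal.span {algebraMap R[X] B (C w)} < 𝔓 := lt_of_le_of_ne hle heq
      have hfin : (Ideal.span {algebraMap R[X] B (C w)}).FiniteHeight := by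
        refine ⟨Or.inr ?_⟩
        intro htop
        have h2 := Ideal.height_mono hle
        rw [htop, hht, top_le_iff] at h2
        exact ENat.one_ne_top h2
      have h3 := Ideal.height_strict_mono_of_isPrime hlt
      rw [hht, ENat.lt_one_iff_eq_zero] at h3
      rw [Ideal.height_eq_zero_iff, IsDomain.minimalPrimes_eq_singleton_bot,
        Set.mem_singleton_iff, Ideal.span_singleton_eq_bot] at h3
      exact hwB.ne_zero h3
  -- constants become integral after multiplication by a power of `w`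
  have hLc' : ∀ a ∈ Lc, ∃ n : ℕ,
      IsIntegral B (algebraMap B Ω (algebraMap R[X] B (C w)) ^ n * a) := by
    intro a ha
    obtain ⟨n, P, hP, hPa⟩ := exists_pow_mul_isIntegralElem ι w hw a (hLalg a ha)
    refine ⟨n, P.map ((algebraMap R[X] B).comp C), hP.map _, ?_⟩
    rw [eval₂_map]
    exact hPa
  -- factorisation of `π` over the constants
  obtain ⟨roots, lc, hlc, hlc0, hroots, hfac⟩ :=
    exists_factorization_of_irreducible ι hι Lc hLcl hRL π hπ.irreducible hdeg
  have hcomp : (algebraMap B Ω).comp (algebraMap R[X] B) =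
      eval₂RingHom ι (algebraMap B Ω (algebraMap R[X] B X)) := by
    apply Polynomial.ringHom_ext
    · intro r
      simp [hιdef]
    · simp
  have hfac' : algebraMap B Ω (algebraMap R[X] B π) =
      lc * ∏ c ∈ roots, (algebraMap B Ω (algebraMap R[X] B X) - c) := by
    rw [← hfac]
    have := congrArg (fun f : R[X] →+* Ω => f π) hcomp
    simpa using this
  have hroots' : ∀ c ∈ roots, c ∈ Lc ∧ c ∉ SΩ := by
    intro c hc
    refine ⟨(hroots c hc).1, fun hcS => ?_⟩
    obtain ⟨s, hs, rfl⟩ := hS c hcS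
    have h1 := (hroots _ hc).2
    change eval₂ ι (ι s) π = 0 at h1
    rw [eval₂_at_apply] at h1
    have h2 : π.eval s = 0 := hι (by rw [h1, map_zero])
    have h3 : (X - C s : R[X]) ∣ π := dvd_iff_isRoot.2 h2
    exact hπS s hs ((prime_X_sub_C s).irreducible.associated_of_dvd hπ.irreducible h3).symm
  exact isRadical_span_of_unramified Lc (algebraMap R[X] B π) hπ'0 (algebraMap R[X] B (C w))
    hwP hLc' (algebraMap B Ω (algebraMap R[X] B X)) SΩ roots hroots' lc hlc hlc0 hfac' hunr

end Typed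

end Fermat.Agent.S18.H754

end

end
-- ===== PACK-END S18/H754/HncTyped.lean

-- ===== PACK-BEGIN S18/H394/KummerMain.lean
section




/-!
# S18, Route K, pieces b3+b4 (helper394): the Kummer endgame, user-facing form

`kummer_endgame`: two charts `B₀ ∋ x`, `B₁ ∋ x⁻¹` of a "curve over `R`" inside a field `F`
(`M = B₀[1/x] = B₁[x]`, `B₀ ∩ B₁ = R`, `B₀` finite over `R[x]`, all three `m`-root closed), `m`
invertible in `R`, `m ≥ 2`.  Then there is NO `u ∈ Fˣ` such that
* `u` has exact order `m` modulo constants and `m`-th powers (`hord`), and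
* `u` is "congruent to an `m`-th power modulo `w`" on both charts, compatibly
  (`σ₀ ^ m * u ≡ 1 mod w B₀`, `σ₁ ^ m * u ≡ 1 mod w B₁`, `σ₀ ≡ σ₁ mod w`, in the graded sense),
where `w ∈ R` is not a unit of `B₀`.

No Kummer field, no integral closure, no discriminant: the proof applies the two-chart
connectedness theorem (b5) to the graded algebra `⨁ᵢ {f | f ^ m * u ^ i ∈ B} Tⁱ ⊆ F[T]/(T^m - u)`.
-/

set_option autoImplicit false

namespace Fermat.Agent.S18.H394

open Polynomial

variable {R F : Type*} [CommRing R] [IsLocalRing R] [IsNoetherianRing R] [Field F] [Algebra R F]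

/-- **Kummer endgame** (pieces b3+b4+b5 of Route K in one statement). -/
theorem kummer_endgame
    (m : ℕ) (hm : 2 ≤ m) (ν : R) (hν : ν * (m : R) = 1)
    (w : R) (u : F) (hu : u ≠ 0)
    (B₀ B₁ M : Subalgebra R F)
    (hrc0 : RootClosed m B₀) (hrc1 : RootClosed m B₁) (hrcM : RootClosed m M)
    (x : F) (hx0 : x ≠ 0) (hx : x ∈ B₀) (hx' : x⁻¹ ∈ B₁)
    (h0M : B₀ ≤ M) (h1M : B₁ ≤ M)
    (hloc0 : ∀ y ∈ M, ∃ n : ℕ, x ^ n * y ∈ B₀)
    (hloc1 : ∀ y ∈ M, ∃ n : ℕ, x⁻¹ ^ n * y ∈ B₁)
    (hint : ∀ y : F, y ∈ B₀ → y ∈ B₁ → ∃ r : R, algebraMap R F r = y)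
    (hfin : ∃ s : Finset F, ∀ b ∈ B₀, ∃ P : F → Polynomial R,
      b = ∑ β ∈ s, Polynomial.aeval x (P β) * β)
    (hden : ∃ d ∈ B₀, d ≠ 0 ∧ d * u⁻¹ ∈ B₀)
    (hw1 : ∀ b ∈ B₀, algebraMap R F w * b ≠ 1)
    (hord : ∀ i : ℕ, 0 < i → i < m → ∀ f : F, f ≠ 0 → ∀ r : R,
        f ^ m * u ^ i ≠ algebraMap R F r)
    (σ₀ σ₁ : F)
    (h₀ : ∃ b ∈ B₀, σ₀ ^ m * u - 1 = algebraMap R F w * b)
    (h₁ : ∃ b ∈ B₁, σ₁ ^ m * u - 1 = algebraMap R F w * b)
    (h₀₁ : ∃ γ : F, σ₀ - σ₁ = algebraMap R F w * γ ∧ γ ^ m * u ∈ M) : False := by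
  classical
  have hm0 : m ≠ 0 := by omega
  have hp : (X ^ m - C u : F[X]).Monic := monic_X_pow_sub_C u hm0
  set pb := AdjoinRoot.powerBasis' hp with hpb
  have hdim : pb.dim = m := by
    rw [hpb, AdjoinRoot.powerBasis'_dim]
    exact natDegree_X_pow_sub_C
  have hT : pb.gen ^ pb.dim = algebraMap F (AdjoinRoot (X ^ m - C u : F[X])) u := by
    rw [hdim, hpb, AdjoinRoot.powerBasis'_gen]
    have := AdjoinRoot.eval₂_root (X ^ m - C u : F[X])
    simp only [eval₂_sub, eval₂_pow, eval₂_X, eval₂_C] at this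
    rw [sub_eq_zero] at this
    rw [this]
    rfl
  have hd0 : 0 < pb.dim := by omega
  have hd1 : 1 < pb.dim := by omega
  have hrc0' : RootClosed pb.dim B₀ := by rw [hdim]; exact hrc0
  have hrc1' : RootClosed pb.dim B₁ := by rw [hdim]; exact hrc1
  have hrcM' : RootClosed pb.dim M := by rw [hdim]; exact hrcM
  obtain ⟨S, hS, hgen⟩ := kummerSub_fg pb u hu hT hd0 B₀ hrc0' x hx hfin hden
  refine kummer_endgame_aux pb u hT hd0 hd1 ν (by rw [hdim]; exact hν) w B₀ B₁ M hrc0' hrc1' hrcM'
    x hx0 hx hx' h0M h1M hloc0 hloc1 hint (↥S) (fun c => (c : AdjoinRoot (X ^ m - C u : F[X])))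
    (fun c => hS c c.2) ?_ hw1 (by rw [hdim]; exact hord) σ₀ σ₁ (by rw [hdim]; exact h₀)
    (by rw [hdim]; exact h₁) (by rw [hdim]; exact h₀₁)
  intro b hb
  obtain ⟨P, hP⟩ := hgen b hb
  refine ⟨fun c => P c, ?_⟩
  rw [finsum_eq_sum_of_fintype, hP]
  exact (Finset.sum_coe_sort S (fun c => Polynomial.aeval (algebraMap F _ x) (P c) * c)).symm

end Fermat.Agent.S18.H394

end
-- ===== PACK-END S18/H394/KummerMain.lean

-- ===== PACK-BEGIN S21/Interface.lean
section





/-!
# S21 (Eichler–Shimura, weight 2, Γ₀(N)) — interface statements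

The analytic inputs `A1 A2 B C'` (proved by helper381 / helper81; `E1` is in `ConjPartner.lean`
by helper759, `D'` is in `HodgeAssembly.lean`).  Everything else is glue (`Glue.lean`).
-/

set_option autoImplicit false

open ModularCurve ModularCurve.Period UpperHalfPlane CongruenceSubgroup
open scoped MatrixGroups ComplexConjugate

namespace Fermat.Agent.S21

/-- **A1**: every weight-2 cusp form on `Γ₀(N)` has an equivariant primitive. -/
theorem exists_primitive (N : ℕ) [NeZero N] (f : CuspForm (Gamma0 N) 2) :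
    ∃ F : ℍ → ℂ, HasEquivariantPrimitive N f F :=
  H381.exists_hasEquivariantPrimitive f

/-- **A2**: the equivariant primitive is unique (only the derivative and the limit at `i∞` are
used). -/
theorem primitive_unique (N : ℕ) (f : CuspForm (Gamma0 N) 2) {F₁ F₂ : ℍ → ℂ}
    (h₁ : HasEquivariantPrimitive N f F₁) (h₂ : HasEquivariantPrimitive N f F₂) : F₁ = F₂ :=
  H381.hasEquivariantPrimitive_unique h₁ h₂

/-- **B**: periods of cusp forms vanish on parabolic elements. -/
theorem periodMap_mem_parabolicHoms' (N : ℕ) [NeZero N] (f : CuspForm (Gamma0 N) 2) :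
    periodMap N f ∈ parabolicHoms ℂ (Gamma0 N) ℂ :=
  H381.periodMap_mem_parabolicHoms f

/-- **C'**: a cusp form all of whose periods are purely imaginary is zero. -/
theorem eq_zero_of_re_period_eq_zero (N : ℕ) [NeZero N] (f : CuspForm (Gamma0 N) 2) {F : ℍ → ℂ}
    (hF : HasEquivariantPrimitive N f F)
    (h : ∀ γ : Gamma0 N, (F ((γ : SL(2, ℤ)) • UpperHalfPlane.I) - F UpperHalfPlane.I).re = 0) :
    f = 0 :=
  H81.eq_zero_of_re_period_eq_zero N f hF h

end Fermat.Agent.S21

end
-- ===== PACK-END S21/Interface.lean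

-- ===== PACK-BEGIN Lib/RR/H383/ValRing.lean
section





/-!
# RR library (helper383): valuation rings of a function field are discrete (any characteristic)

`K` any field, `F / K` a field extension which is finite over `K(y)` for every transcendental `y`
(equivalently for one).  Then every valuation subring `V` of `F` containing `K` is a principal ideal
ring (Stichtenoth, Thm 1.1.6), and every transcendental `t` has a zero: there is a
`Place K F` with `0 < ord t` (Chevalley's extension theorem, Stichtenoth Cor. 1.1.20).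
No separability, no characteristic assumption.

Main statements
* `isPrincipalIdealRing_of_finite`
* `exists_place_ord_pos`, `exists_place_ord_neg`
-/

set_option autoImplicit false

noncomputable section

open AlgebraicCurve Polynomial IntermediateField

namespace Fermat.Agent.Lib.RR.H383

variable {K F : Type*} [Field K] [Field F] [Algebra K F]

section Val

variable (V : ValuationSubring F)

theorem valuation_algebraMap_eq_one (hK : ∀ a : K, algebraMap K F a ∈ V) {a : K} (ha : a ≠ 0) :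
    V.valuation (algebraMap K F a) = 1 := by
  have h1 : V.valuation (algebraMap K F a) ≤ 1 := (V.valuation_le_one_iff _).mpr (hK a)
  have h2 : V.valuation (algebraMap K F a⁻¹) ≤ 1 := (V.valuation_le_one_iff _).mpr (hK a⁻¹)
  have hne : V.valuation (algebraMap K F a) ≠ 0 :=
    (Valuation.ne_zero_iff _).mpr (by simpa using ha)
  rw [map_inv₀, map_inv₀] at h2
  have h3 : 1 ≤ V.valuation (algebraMap K F a) :=
    (inv_le_one₀ (zero_lt_iff.mpr hne)).mp h2
  exact le_antisymm h1 h3

theorem valuation_algebraMap_le_one (hK : ∀ a : K, algebraMap K F a ∈ V) (a : K) :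
    V.valuation (algebraMap K F a) ≤ 1 :=
  (V.valuation_le_one_iff _).mpr (hK a)

/-- A finite sum of terms, the nonzero ones having pairwise distinct valuations and at least one
being nonzero, is nonzero. -/
theorem sum_ne_zero_of_valuation_injOn {ι : Type*} (s : Finset ι) (f : ι → F)
    (hne : ∃ i ∈ s, f i ≠ 0)
    (hinj : ∀ i ∈ s, ∀ j ∈ s, f i ≠ 0 → f j ≠ 0 → V.valuation (f i) = V.valuation (f j) → i = j) :
    ∑ i ∈ s, f i ≠ 0 := by
  classical
  set s' := s.filter (fun i => f i ≠ 0) with hs'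
  have hsum : ∑ i ∈ s, f i = ∑ i ∈ s', f i := by
    rw [hs', Finset.sum_filter]
    refine Finset.sum_congr rfl fun i _ => ?_
    by_cases h : f i = 0
    · simp [h]
    · simp [h]
  have hne' : s'.Nonempty := by
    obtain ⟨i, hi, hfi⟩ := hne
    exact ⟨i, Finset.mem_filter.mpr ⟨hi, hfi⟩⟩
  obtain ⟨i₀, hi₀, hmax⟩ := Finset.exists_max_image s' (fun i => V.valuation (f i)) hne'
  have hi₀' := Finset.mem_filter.mp hi₀
  have hv0 : V.valuation (f i₀) ≠ 0 := (Valuation.ne_zero_iff _).mpr hi₀'.2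
  have hlt : V.valuation (∑ i ∈ s'.erase i₀, f i) < V.valuation (f i₀) := by
    refine Valuation.map_sum_lt _ hv0 fun i hi => ?_
    have hi' := Finset.mem_erase.mp hi
    have hi'' := Finset.mem_filter.mp hi'.2
    refine lt_of_le_of_ne (hmax i hi'.2) fun heq => ?_
    exact hi'.1 (hinj i hi''.1 i₀ hi₀'.1 hi''.2 hi₀'.2 heq)
  rw [hsum, ← Finset.add_sum_erase s' f hi₀]
  intro h0
  have := Valuation.map_add_eq_of_lt_left V.valuation hlt
  rw [h0, map_zero] at this
  exact hv0 this.symm

/-- The valuation of a nonzero polynomial in a nonzero non-unit `x`, with coefficients in `K`,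
is a power of the valuation of `x`. -/
theorem valuation_aeval (hK : ∀ a : K, algebraMap K F a ∈ V) {x : F} (hx0 : x ≠ 0)
    (hx : V.valuation x < 1) {p : K[X]} (hp : p ≠ 0) :
    V.valuation (aeval x p) = V.valuation x ^ p.natTrailingDegree := by
  classical
  have hvx0 : V.valuation x ≠ 0 := (Valuation.ne_zero_iff _).mpr hx0
  have hk : p.natTrailingDegree ∈ p.support :=
    Polynomial.natTrailingDegree_mem_support_of_nonzero hp
  have hck : p.coeff p.natTrailingDegree ≠ 0 := Polynomial.mem_support_iff.mp hk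
  rw [aeval_def, eval₂_eq_sum, Polynomial.sum_def, ← Finset.add_sum_erase _ _ hk]
  have hmain : V.valuation (algebraMap K F (p.coeff p.natTrailingDegree) * x ^ p.natTrailingDegree)
      = V.valuation x ^ p.natTrailingDegree := by
    rw [map_mul, valuation_algebraMap_eq_one V hK hck, one_mul, map_pow]
  have hpow0 : V.valuation x ^ p.natTrailingDegree ≠ 0 := pow_ne_zero _ hvx0
  have hlt : V.valuation (∑ i ∈ p.support.erase p.natTrailingDegree,
      algebraMap K F (p.coeff i) * x ^ i) < V.valuation x ^ p.natTrailingDegree := by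
    refine Valuation.map_sum_lt _ hpow0 fun i hi => ?_
    have hi' := Finset.mem_erase.mp hi
    have hle : p.natTrailingDegree ≤ i := Polynomial.natTrailingDegree_le_of_mem_supp i hi'.2
    have hlt' : p.natTrailingDegree < i := lt_of_le_of_ne hle (Ne.symm hi'.1)
    rw [map_mul, map_pow]
    calc V.valuation (algebraMap K F (p.coeff i)) * V.valuation x ^ i
        ≤ 1 * V.valuation x ^ i :=
          mul_le_mul_left (valuation_algebraMap_le_one V hK _) _
      _ = V.valuation x ^ i := one_mul _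
      _ < V.valuation x ^ p.natTrailingDegree :=
          pow_lt_pow_right_of_lt_one₀ (zero_lt_iff.mpr hvx0) hx hlt'
  rw [Valuation.map_add_eq_of_lt_left V.valuation (by rw [hmain]; exact hlt), hmain]

/-- The valuation of a nonzero element of `K(x)` is an integral power of the valuation of `x`. -/
theorem exists_valuation_eq_zpow (hK : ∀ a : K, algebraMap K F a ∈ V) {x : F} (hx0 : x ≠ 0)
    (hx : V.valuation x < 1) {φ : F} (hφ : φ ∈ K⟮x⟯) (hφ0 : φ ≠ 0) :
    ∃ m : ℤ, V.valuation φ = V.valuation x ^ m := by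
  obtain ⟨r, s, hrs⟩ := (IntermediateField.mem_adjoin_simple_iff K φ).mp hφ
  have hr : aeval x r ≠ 0 := by
    intro h
    rw [hrs, h, zero_div] at hφ0
    exact hφ0 rfl
  have hs : aeval x s ≠ 0 := by
    intro h
    rw [hrs, h, div_zero] at hφ0
    exact hφ0 rfl
  have hr0 : r ≠ 0 := fun h => hr (by rw [h, map_zero])
  have hs0 : s ≠ 0 := fun h => hs (by rw [h, map_zero])
  refine ⟨(r.natTrailingDegree : ℤ) - s.natTrailingDegree, ?_⟩
  have hvx0 : V.valuation x ≠ 0 := (Valuation.ne_zero_iff _).mpr hx0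
  rw [hrs, map_div₀, valuation_aeval V hK hx0 hx hr0, valuation_aeval V hK hx0 hx hs0,
    zpow_sub₀ hvx0, zpow_natCast, zpow_natCast]

/-- No integral power of `γ < 1` lies strictly between `γ` and `1`. -/
theorem zpow_ne_of_lt_of_lt {Γ : Type*} [LinearOrderedCommGroupWithZero Γ] {γ r : Γ}
    (hγ0 : γ ≠ 0) (hγ : γ < 1) (h1 : γ < r) (h2 : r < 1) (m : ℤ) : r ≠ γ ^ m := by
  intro h
  rcases le_or_gt m 0 with hm | hm
  · -- γ^m ≥ 1
    have : (1 : Γ) ≤ γ ^ m := by
      obtain ⟨n, rfl⟩ : ∃ n : ℕ, m = -n := ⟨(-m).toNat, by omega⟩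
      rw [zpow_neg, zpow_natCast]
      exact (one_le_inv₀ (pow_pos (zero_lt_iff.mpr hγ0) n)).mpr (pow_le_one₀ zero_le hγ.le)
    rw [← h] at this
    exact absurd h2 (not_lt.mpr this)
  · -- γ^m ≤ γ
    have : γ ^ m ≤ γ := by
      obtain ⟨n, rfl⟩ : ∃ n : ℕ, m = (n + 1 : ℕ) := ⟨(m - 1).toNat, by omega⟩
      rw [zpow_natCast, pow_succ]
      exact mul_le_of_le_one_left' (pow_le_one₀ zero_le hγ.le)
    rw [← h] at this
    exact absurd h1 (not_lt.mpr this)

/-- Elements whose valuations increase strictly inside `[v x, 1)` are linearly independent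
over `K(x)`. -/
theorem linearIndependent_of_strictMono (hK : ∀ a : K, algebraMap K F a ∈ V) {x : F} (hx0 : x ≠ 0)
    (hx : V.valuation x < 1) {n : ℕ} (y : Fin n → F)
    (hmono : StrictMono fun i => V.valuation (y i))
    (hlow : ∀ i, V.valuation x ≤ V.valuation (y i))
    (hhigh : ∀ i, V.valuation (y i) < 1) :
    LinearIndependent K⟮x⟯ y := by
  classical
  have hvx0 : V.valuation x ≠ 0 := (Valuation.ne_zero_iff _).mpr hx0
  have hy0 : ∀ i, y i ≠ 0 := fun i h => by
    have := hlow i
    rw [h, map_zero] at this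
    exact hvx0 (le_antisymm this zero_le)
  rw [Fintype.linearIndependent_iff]
  intro g hg
  by_contra hcon
  push Not at hcon
  obtain ⟨i₁, hi₁⟩ := hcon
  have hsum : ∑ i ∈ (Finset.univ : Finset (Fin n)), (g i : F) * y i ≠ 0 := by
    refine sum_ne_zero_of_valuation_injOn V Finset.univ (fun i => (g i : F) * y i)
      ⟨i₁, Finset.mem_univ _, mul_ne_zero (by simpa using hi₁) (hy0 i₁)⟩ ?_
    intro i _ j _ hi hj hij
    by_contra hne
    have hgi : (g i : F) ≠ 0 := left_ne_zero_of_mul hi
    have hgj : (g j : F) ≠ 0 := left_ne_zero_of_mul hj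
    obtain ⟨a, ha⟩ := exists_valuation_eq_zpow V hK hx0 hx (g i).2 hgi
    obtain ⟨b, hb⟩ := exists_valuation_eq_zpow V hK hx0 hx (g j).2 hgj
    simp only [map_mul] at hij
    rw [ha, hb] at hij
    have hvi0 : V.valuation (y i) ≠ 0 := (Valuation.ne_zero_iff _).mpr (hy0 i)
    have hvj0 : V.valuation (y j) ≠ 0 := (Valuation.ne_zero_iff _).mpr (hy0 j)
    -- wlog i < j
    have key : ∀ (i j : Fin n) (a b : ℤ), i < j →
        V.valuation x ^ a * V.valuation (y i) = V.valuation x ^ b * V.valuation (y j) →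
        False := by
      intro i j a b hlt h
      have hvi0 : V.valuation (y i) ≠ 0 := (Valuation.ne_zero_iff _).mpr (hy0 i)
      have hvj0 : V.valuation (y j) ≠ 0 := (Valuation.ne_zero_iff _).mpr (hy0 j)
      have hr : V.valuation (y i) * (V.valuation (y j))⁻¹ = V.valuation x ^ (b - a) := by
        rw [zpow_sub₀ hvx0]
        field_simp
        rw [mul_comm, h, mul_comm]
      have hlt' : V.valuation (y i) < V.valuation (y j) := hmono hlt
      have h2 : V.valuation (y i) * (V.valuation (y j))⁻¹ < 1 := by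
        rw [mul_inv_lt_iff₀ (zero_lt_iff.mpr hvj0), one_mul]
        exact hlt'
      have h1 : V.valuation x < V.valuation (y i) * (V.valuation (y j))⁻¹ := by
        rw [lt_mul_inv_iff₀ (zero_lt_iff.mpr hvj0)]
        calc V.valuation x * V.valuation (y j) < V.valuation x * 1 :=
              mul_lt_mul_of_pos_left (hhigh j) (zero_lt_iff.mpr hvx0)
          _ = V.valuation x := mul_one _
          _ ≤ V.valuation (y i) := hlow i
      exact zpow_ne_of_lt_of_lt hvx0 hx h1 h2 (b - a) hr
    rcases lt_or_gt_of_ne hne with h | h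
    · exact key i j a b h hij
    · exact key j i b a h hij.symm
  apply hsum
  have : ∑ i, g i • y i = ∑ i ∈ (Finset.univ : Finset (Fin n)), (g i : F) * y i := by
    refine Finset.sum_congr rfl fun i _ => ?_
    rfl
  rw [← this]
  exact hg

/-- A nonzero non-unit of a valuation ring containing `K` is transcendental over `K`. -/
theorem transcendental_of_valuation_lt_one (hK : ∀ a : K, algebraMap K F a ∈ V) {x : F}
    (hx0 : x ≠ 0) (hx : V.valuation x < 1) : Transcendental K x := by
  intro halg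
  have hint : IsIntegral K x := halg.isIntegral
  have hxV : x ∈ V := (V.valuation_le_one_iff x).mp hx.le
  let S : Subalgebra K F :=
    { V.toSubring with
      algebraMap_mem' := fun a => hK a }
  have hxS : x ∈ S := hxV
  have hinv : x⁻¹ ∈ S := hint.inv_mem hxS
  have hinvV : x⁻¹ ∈ V := hinv
  have h1 : V.valuation x⁻¹ ≤ 1 := (V.valuation_le_one_iff _).mpr hinvV
  rw [map_inv₀] at h1
  have hvx0 : V.valuation x ≠ 0 := (Valuation.ne_zero_iff _).mpr hx0
  have h2 : 1 ≤ V.valuation x := (inv_le_one₀ (zero_lt_iff.mpr hvx0)).mp h1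
  exact absurd hx (not_lt.mpr h2)

/-- **Stichtenoth 1.1.6.** A valuation ring of a function field (containing the constants) is a
principal ideal ring. -/
theorem isPrincipalIdealRing_of_finite (hK : ∀ a : K, algebraMap K F a ∈ V)
    (hfin : ∀ y : F, Transcendental K y → FiniteDimensional K⟮y⟯ F) :
    IsPrincipalIdealRing V := by
  classical
  have hwf : WfDvdMonoid V := by
    refine ⟨wellFounded_iff_isEmpty_descending_chain.mpr ⟨?_⟩⟩
    rintro ⟨f, hf⟩
    -- y i := f (i + 1), nonzero, with strictly increasing valuations < 1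
    have hne : ∀ i, f (i + 1) ≠ 0 := fun i => (hf i).1
    have hstep : ∀ i, V.valuation (f i : F) < V.valuation (f (i + 1) : F) := by
      intro i
      obtain ⟨-, c, hc, hfc⟩ := hf i
      have hc' : V.valuation (c : F) < 1 := by
        rcases V.valuation_lt_one_or_eq_one c with h | h
        · exact h
        · exact absurd ((V.valuation_eq_one_iff c).mpr h) hc
      have hv0 : V.valuation (f (i + 1) : F) ≠ 0 :=
        (Valuation.ne_zero_iff _).mpr (by simpa using hne i)
      rw [hfc]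
      push_cast
      rw [map_mul]
      calc V.valuation (f (i + 1) : F) * V.valuation (c : F)
          < V.valuation (f (i + 1) : F) * 1 :=
            mul_lt_mul_of_pos_left hc' (zero_lt_iff.mpr hv0)
        _ = _ := mul_one _
    have hmonoN : StrictMono fun i : ℕ => V.valuation (f i : F) := strictMono_nat_of_lt_succ hstep
    have hlt1 : ∀ i, V.valuation (f i : F) < 1 := fun i =>
      lt_of_lt_of_le (hstep i) (V.valuation_le_one _)
    set x : F := (f 1 : F) with hxdef
    have hx0 : x ≠ 0 := fun h => hne 0 (Subtype.ext (by simpa [hxdef] using h))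
    have hx : V.valuation x < 1 := hlt1 1
    have hxt : Transcendental K x := transcendental_of_valuation_lt_one V hK hx0 hx
    have := hfin x hxt
    set n := Module.finrank K⟮x⟯ F with hn
    let y : Fin (n + 1) → F := fun i => (f (i + 1) : F)
    have hli : LinearIndependent K⟮x⟯ y := by
      refine linearIndependent_of_strictMono V hK hx0 hx y ?_ ?_ ?_
      · intro i j hij
        exact hmonoN (by simpa using hij)
      · intro i
        exact hmonoN.monotone (by omega)
      · intro i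
        exact hlt1 _
    have := hli.fintype_card_le_finrank
    rw [Fintype.card_fin] at this
    omega
  exact ((IsBezout.TFAE (R := V)).out 3 1).mp hwf

end Val

section Exists

/-- In `K[t]`, `t` transcendental, the ideal generated by `t` is proper. -/
theorem span_ne_top_of_transcendental {t : F} (ht : Transcendental K t) :
    Ideal.span {(⟨t, Algebra.subset_adjoin (Set.mem_singleton t)⟩ :
      (Algebra.adjoin K {t}).toSubring)} ≠ ⊤ := by
  intro h
  rw [Ideal.span_singleton_eq_top] at h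
  obtain ⟨⟨s, hs⟩, hts⟩ := isUnit_iff_exists_inv.mp h
  have hs' : s ∈ Algebra.adjoin K {t} := hs
  rw [Algebra.adjoin_singleton_eq_range_aeval] at hs'
  obtain ⟨p, rfl⟩ := hs'
  have h1 : t * aeval t p = 1 := congrArg Subtype.val hts
  have h2 : aeval t (X * p - 1 : K[X]) = 0 := by
    rw [map_sub, map_mul, aeval_X, map_one, h1, sub_self]
  have h3 : (X * p - 1 : K[X]) = 0 := by
    by_contra hne
    exact ht ⟨_, hne, h2⟩
  have h4 := congrArg (Polynomial.eval 0) h3
  simp at h4

/-- **Existence of a zero** (Chevalley + discreteness): every transcendental function has a zero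
at some place. -/
theorem exists_place_ord_pos (hfin : ∀ y : F, Transcendental K y → FiniteDimensional K⟮y⟯ F)
    {t : F} (ht : Transcendental K t) : ∃ v : Place K F, 0 < v.ord t := by
  classical
  have ht0 : t ≠ 0 := fun h => ht (h ▸ isAlgebraic_zero)
  obtain ⟨B, hAB, hIB⟩ :=
    Ideal.image_subset_nonunits_valuationSubring _ (span_ne_top_of_transcendental ht)
  have hK : ∀ a : K, algebraMap K F a ∈ B := fun a =>
    hAB (show algebraMap K F a ∈ (Algebra.adjoin K {t}).toSubring from
      (Algebra.adjoin K {t}).algebraMap_mem a)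
  have htB : t ∈ B.nonunits := by
    apply hIB
    exact ⟨⟨t, Algebra.subset_adjoin (Set.mem_singleton t)⟩,
      Ideal.subset_span (Set.mem_singleton _), rfl⟩
  have hvt : B.valuation t < 1 := (ValuationSubring.mem_nonunits_iff B).mp htB
  have htop : B ≠ ⊤ := by
    intro h
    have hinv : t⁻¹ ∈ B := h ▸ ValuationSubring.mem_top _
    have h1 : B.valuation t⁻¹ ≤ 1 := (B.valuation_le_one_iff _).mpr hinv
    rw [map_inv₀] at h1
    have hv0 : B.valuation t ≠ 0 := (Valuation.ne_zero_iff _).mpr ht0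
    have h2 : 1 ≤ B.valuation t := (inv_le_one₀ (zero_lt_iff.mpr hv0)).mp h1
    exact absurd hvt (not_lt.mpr h2)
  let v : Place K F :=
    { toValuationSubring := B
      algebraMap_mem' := hK
      ne_top' := htop
      isPrincipalIdealRing' := isPrincipalIdealRing_of_finite B hK hfin }
  refine ⟨v, ?_⟩
  have htV : t ∈ v.toValuationSubring := (B.valuation_le_one_iff t).mp hvt.le
  have hmem : (⟨t, htV⟩ : v.toValuationSubring) ∈
      IsLocalRing.maximalIdeal v.toValuationSubring :=
    ValuationSubring.coe_mem_nonunits_iff.mp htB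
  rcases (Fermat.Agent.Lib.RR.mem_maximalIdeal_iff v _).mp hmem with h | h
  · exact absurd h ht0
  · exact h

/-- **Existence of a pole**: every transcendental function has a pole at some place. -/
theorem exists_place_ord_neg (hfin : ∀ y : F, Transcendental K y → FiniteDimensional K⟮y⟯ F)
    {t : F} (ht : Transcendental K t) : ∃ v : Place K F, v.ord t < 0 := by
  have ht' : Transcendental K t⁻¹ := fun h => ht (by simpa using h.inv)
  obtain ⟨v, hv⟩ := exists_place_ord_pos hfin ht'
  refine ⟨v, ?_⟩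
  rw [v.ord_inv] at hv
  omega

end Exists

end Fermat.Agent.Lib.RR.H383

end
end
-- ===== PACK-END Lib/RR/H383/ValRing.lean

-- ===== PACK-BEGIN S37/H28/NCGen.lean
section



/-!
# S37 / node_rim, NC producer (helper28), part 1: generic form

`K` a field of characteristic `0`, `F` a field with `[Algebra K[X] F]` (the coordinate is
`x = algebraMap K[X] F X`), finite over `L₀ = Frac K[X]`.  `B_η = integralClosure K[X] F`.

* `isRadical_span_X_sub_C` : if `F` is unramified over `x = c` (in the valuation-subring shape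
  of the field `unramified` of `S18.Alg.GoodModel`), then `(X - C c)` generates a radical ideal
  of `B_η`.  This is the hypothesis `hNC` of `S37.H159.RedCtx.lift_integral` (Theorem M).
* `isIntegralElem_div_of_pow` : the elementwise form.
* `unramified_inv` : the `unramified` shape for the coordinate `x⁻¹`.
-/

set_option autoImplicit false
set_option linter.unusedSectionVars false
set_option linter.style.haveILetI false

noncomputable section

namespace Fermat.Agent.S37.H28

open Polynomial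

section Generic

variable {K : Type*} [Field K] [CharZero K] {F : Type*} [Field F] [Algebra K[X] F]
variable (L₀ : Type*) [Field L₀] [Algebra K[X] L₀] [IsFractionRing K[X] L₀] [Algebra L₀ F]
  [IsScalarTower K[X] L₀ F] [FiniteDimensional L₀ F]

include L₀ in
theorem algebraMap_polynomial_injective : Function.Injective (algebraMap K[X] F) := by
  rw [IsScalarTower.algebraMap_eq K[X] L₀ F]
  exact (algebraMap L₀ F).injective.comp (IsFractionRing.injective K[X] L₀)

omit [Algebra K[X] F] [Algebra L₀ F] [IsScalarTower K[X] L₀ F] [FiniteDimensional L₀ F] in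
theorem charZero_of_fractionRing (K : Type*) [Field K] [CharZero K] (L₀ : Type*) [Field L₀]
    [Algebra K[X] L₀] [IsFractionRing K[X] L₀] : CharZero L₀ := by
  have h : Function.Injective ((algebraMap K[X] L₀).comp (C : K →+* K[X])) :=
    (IsFractionRing.injective K[X] L₀).comp Polynomial.C_injective
  exact charZero_of_injective_ringHom h

include L₀ in
theorem isNoetherianRing_integralClosure : IsNoetherianRing (integralClosure K[X] F) := by
  haveI : CharZero L₀ := charZero_of_fractionRing K L₀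
  exact IsIntegralClosure.isNoetherianRing K[X] L₀ F (integralClosure K[X] F)

include L₀ in
theorem isIntegrallyClosed_integralClosure : IsIntegrallyClosed (integralClosure K[X] F) :=
  integralClosure.isIntegrallyClosedOfFiniteExtension L₀

include L₀ in
/-- **NC, typed form** (= `hNC` of Theorem M): unramified over `x = c` implies that `X - C c`
generates a radical ideal of `B_η`. -/
theorem isRadical_span_X_sub_C (Lc : Subfield F)
    (hLc : ∀ a ∈ Lc, ∃ a₀ : K, algebraMap K[X] F (C a₀) = a)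
    (S : Finset F)
    (hunr : ∀ O : ValuationSubring F, (∀ a ∈ Lc, a ∈ O) → ∀ c ∈ Lc, c ∉ S →
      algebraMap K[X] F X - c ∈ O → (algebraMap K[X] F X - c)⁻¹ ∉ O →
        ∀ t ∈ O, t⁻¹ ∉ O → t * (algebraMap K[X] F X - c)⁻¹ ∈ O)
    (c : K) (hcL : algebraMap K[X] F (C c) ∈ Lc) (hcS : algebraMap K[X] F (C c) ∉ S) :
    (Ideal.span {algebraMap K[X] (integralClosure K[X] F) (X - C c)}).IsRadical := by
  classical
  haveI := isNoetherianRing_integralClosure (K := K) (F := F) L₀
  haveI := isIntegrallyClosed_integralClosure (K := K) (F := F) L₀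
  have hinj := algebraMap_polynomial_injective (K := K) (F := F) L₀
  have hπ : algebraMap K[X] (integralClosure K[X] F) (X - C c) ≠ 0 := by
    intro h0
    have h1 : algebraMap K[X] F (X - C c) = 0 := by
      have := congrArg (algebraMap (integralClosure K[X] F) F) h0
      rwa [← IsScalarTower.algebraMap_apply, map_zero] at this
    have h2 : (X - C c : K[X]) = 0 := hinj (by rw [h1, map_zero])
    exact Polynomial.X_sub_C_ne_zero c h2
  refine Fermat.Agent.S18.H754.isRadical_span_of_unramified (Ω := F) Lc _ hπ 1 ?_ ?_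
    (algebraMap K[X] F X) S {algebraMap K[X] F (C c)} ?_ 1 (one_mem _) one_ne_zero ?_ hunr
  · intro 𝔓 h𝔓 _ _ h1
    exact h𝔓.ne_top ((Ideal.eq_top_iff_one _).2 h1)
  · intro a ha
    obtain ⟨a₀, rfl⟩ := hLc a ha
    refine ⟨0, ?_⟩
    rw [pow_zero, one_mul]
    have : algebraMap K[X] F (C a₀) =
        algebraMap (integralClosure K[X] F) F (algebraMap K[X] (integralClosure K[X] F) (C a₀)) := by
      rw [← IsScalarTower.algebraMap_apply]
    rw [this]
    exact isIntegral_algebraMap
  · intro c' hc'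
    rw [Finset.mem_singleton] at hc'
    subst hc'
    exact ⟨hcL, hcS⟩
  · rw [Finset.prod_singleton, one_mul, ← IsScalarTower.algebraMap_apply, map_sub]

end Generic

end Fermat.Agent.S37.H28

end
end
-- ===== PACK-END S37/H28/NCGen.lean

-- ===== PACK-BEGIN S37/H939/Normal.lean
section



/-!
# Normality from the discriminant criterion
(row S37 / S18, piece b2 = R-b; seat helper939)

`T` a domain, free of rank `n` over `k[X]` with basis `b`.  If the discriminant of `b` is nonzero,
splits, and `ord_c (discr b) + redRank T c ≤ n` at each root `c`, then `T` is integrally closed.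
-/

set_option autoImplicit false
set_option linter.unusedSectionVars false
set_option linter.style.haveILetI false

namespace Fermat.Agent.S37.H939

open Polynomial Matrix

variable {k : Type*} [Field k]
variable {T : Type*} [CommRing T] [IsDomain T]
  [Algebra k[X] T] [Algebra k T] [IsScalarTower k k[X] T]
variable {ι : Type*} [Fintype ι] [DecidableEq ι] (b : Module.Basis ι k[X] T)

include b in
/-- An overorder `T₂ ⊆ Frac T` which is a finite `T`-module has the same rank as `T`. -/
lemma finrank_overorder_eq (L : Type*) [Field L] [Algebra T L] [IsFractionRing T L]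
    [Algebra k[X] L] [IsScalarTower k[X] T L]
    (T₂ : Subalgebra k[X] L) [Module.Finite k[X] T₂]
    (hT : ∀ t : T, algebraMap T L t ∈ T₂)
    (hfrac : ∃ s : T, s ≠ 0 ∧ ∀ z ∈ T₂, ∃ t : T, algebraMap T L t = algebraMap T L s * z) :
    Module.finrank k[X] T₂ = Fintype.card ι := by
  classical
  haveI : Module.Finite k[X] T := Module.Finite.of_basis b
  have hn : Module.finrank k[X] T = Fintype.card ι := Module.finrank_eq_card_basis b
  have hinj : Function.Injective (algebraMap T L) := IsFractionRing.injective T L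
  -- the inclusion `T → T₂`
  let f : T →ₗ[k[X]] T₂ :=
    ((IsScalarTower.toAlgHom k[X] T L).toLinearMap).codRestrict (Subalgebra.toSubmodule T₂)
      (fun t => hT t)
  have hf : Function.Injective f := by
    intro x y hxy
    apply hinj
    exact congrArg (fun z : T₂ => (z : L)) hxy
  have h1 : Module.finrank k[X] T ≤ Module.finrank k[X] T₂ :=
    LinearMap.finrank_le_finrank_of_injective hf
  -- multiplication by the denominator `T₂ → T`
  obtain ⟨s, hs0, hs⟩ := hfrac
  choose! g hg using hs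
  let φ : T₂ →ₗ[k[X]] T :=
    { toFun := fun z => g z
      map_add' := by
        intro x y
        apply hinj
        rw [map_add, hg _ x.2, hg _ y.2, hg _ (x + y).2]
        push_cast
        ring
      map_smul' := by
        intro a x
        apply hinj
        have e1 : ((a • x : T₂) : L) = algebraMap k[X] L a * (x : L) := by
          rw [Subalgebra.coe_smul, Algebra.smul_def]
        have e2 : algebraMap T L (a • g x) = algebraMap k[X] L a * algebraMap T L (g x) := by
          rw [Algebra.smul_def, map_mul, ← IsScalarTower.algebraMap_apply]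
        rw [RingHom.id_apply, e2, hg _ (a • x).2, hg _ x.2, e1]
        ring }
  have hφ : Function.Injective φ := by
    intro x y hxy
    have h2 : algebraMap T L (g x) = algebraMap T L (g y) := congrArg _ hxy
    rw [hg _ x.2, hg _ y.2] at h2
    have hs' : algebraMap T L s ≠ 0 := fun h0 => hs0 (hinj (by rw [h0, map_zero]))
    exact Subtype.ext (mul_left_cancel₀ hs' h2)
  have h2 : Module.finrank k[X] T₂ ≤ Module.finrank k[X] T :=
    LinearMap.finrank_le_finrank_of_injective hφ
  omega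

/-- **Normality criterion.** -/
theorem isIntegrallyClosed_of_discr_criterion
    (hd : Algebra.discr k[X] b ≠ 0) (hs : (Algebra.discr k[X] b).Splits)
    (h : ∀ c : k, (Algebra.discr k[X] b).IsRoot c →
      (Algebra.discr k[X] b).rootMultiplicity c + redRank T c ≤ Fintype.card ι) :
    IsIntegrallyClosed T := by
  classical
  haveI : Module.Finite k[X] T := Module.Finite.of_basis b
  haveI : Module.Free k[X] T := Module.Free.of_basis b
  refine (isIntegrallyClosed_iff (FractionRing T)).mpr ?_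
  intro y hy
  let L := FractionRing T
  have hinj : Function.Injective (algebraMap T L) := IsFractionRing.injective T L
  have hinjX : Function.Injective (algebraMap k[X] T) := FaithfulSMul.algebraMap_injective _ _
  have hinjXL : Function.Injective (algebraMap k[X] L) := by
    rw [IsScalarTower.algebraMap_eq k[X] T L]
    exact hinj.comp hinjX
  let T₂' : Subalgebra T L := Algebra.adjoin T {y}
  let T₂ : Subalgebra k[X] L := T₂'.restrictScalars k[X]
  haveI hfin' : Module.Finite T T₂' := by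
    have := Module.Finite.of_fg hy.fg_adjoin_singleton
    exact this
  haveI hfinT₂ : Module.Finite k[X] T₂ := by
    have : Module.Finite k[X] T₂' := Module.Finite.trans T T₂'
    exact this
  haveI : Module.IsTorsionFree k[X] L := Module.isTorsionFree_iff_algebraMap_injective.mpr hinjXL
  haveI : Module.IsTorsionFree k[X] T₂ := inferInstance
  haveI : Module.Free k[X] T₂ := inferInstance
  -- denominators
  have hfrac : ∃ s : T, s ≠ 0 ∧ ∀ z ∈ T₂, ∃ t : T, algebraMap T L t = algebraMap T L s * z := by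
    obtain ⟨s, hs, hs'⟩ := FractionalIdeal.isFractional_adjoin_integral (nonZeroDivisors T) y hy
    refine ⟨s, nonZeroDivisors.ne_zero hs, fun z hz => ?_⟩
    obtain ⟨t, ht⟩ := hs' z hz
    exact ⟨t, by rw [ht, Algebra.smul_def]⟩
  have hT : ∀ t : T, algebraMap T L t ∈ T₂ := fun t => T₂'.algebraMap_mem t
  have hrank : Module.finrank k[X] T₂ = Fintype.card ι :=
    finrank_overorder_eq b L T₂ hT hfrac
  -- a basis of the overorder
  let b₂ : Module.Basis ι k[X] T₂ :=
    (Module.finBasisOfFinrankEq k[X] T₂ hrank).reindex (Fintype.equivFin ι).symm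
  let f : T →ₐ[k[X]] T₂ := (IsScalarTower.toAlgHom k[X] T L).codRestrict T₂ hT
  have hf : Function.Injective f := by
    intro x x' hxx
    apply hinj
    exact congrArg (fun z : T₂ => (z : L)) hxx
  obtain ⟨-, hsurj⟩ := bijective_of_discr_criterion b b₂ f hf hd hs h
  obtain ⟨t, ht⟩ := hsurj ⟨y, Algebra.self_mem_adjoin_singleton T y⟩
  exact ⟨t, congrArg (fun z : T₂ => (z : L)) ht⟩

end Fermat.Agent.S37.H939

end
-- ===== PACK-END S37/H939/Normal.lean

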