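import Mathlib
import Fermat.Prelude.Def_FLTPrelim_FreyPackage
import Fermat.Prelude.Def_ModularForm_HeckeOperatorForms
import Fermat.Prelude.Thm_ModularFormClass_qCoeff_heckeT
import Fermat.Prelude.Def_AlgebraicCurve_DivisorClassGroup
import Fermat.Agent.Pack.S44.G0E11L3
import Fermat.Agent.Pack.S44.G0E7L2
import Fermat.Agent.Pack.S44.G0E1L1
import Fermat.Agent.Pack.S44.G0E1L0
import Fermat.Agent.Pack.S44.G0E10L2
import Fermat.Agent.Pack.S44.G0E7L0
import Fermat.Agent.Pack.S44.G0E11L1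
import Fermat.Agent.Pack.S44.G0E11L2
import Fermat.Agent.Pack.S44.G0E0L3
import Fermat.Agent.Pack.S44.G0E11L0
import Fermat.Agent.Pack.S44.G0E7L3
import Fermat.Agent.Pack.S44.G0E2L2
import Fermat.Agent.Pack.S44.G0E2L3
import Fermat.Agent.Pack.S44.G0E7L1
import Fermat.Agent.Pack.S44.G0E12L3
import Fermat.Agent.Pack.S44.G0E12L0

-- ===== PACK-BEGIN S52/H545/Frob.lean
section






/-!
# S52 Part A (helper545): Frobenius on the generic-point model

`F` a finite field with `q` elements, `W₀/F` elliptic, `κ ⊇ F` of characteristic `≠ 2`.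
`PhiP : W₀(KK) →+ W₀(KK)` is the `q`-power Frobenius on coordinates.  We show that it preserves
`MM`, that `hgt (Φ P) = q * hgt P` on `MM`, and that `hgt (Φ P - P) = N * hgt P` on `MM` as soon
as Manin's rational function `Ũ/Ṽ` has reduced form `U₁/V₁` with `deg U₁ = N > deg V₁`
(`ManinData`).
-/

set_option autoImplicit false

namespace Fermat.Agent.S52.H545

open WeierstrassCurve WeierstrassCurve.Affine Polynomial

variable {F : Type*} [Field F] [Fintype F] (W₀ : WeierstrassCurve F)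
variable (κ : Type*) [Field κ] [Algebra F κ]

/-- The `q`-power Frobenius of the function field, as an `F`-algebra endomorphism. -/
noncomputable def frobK : KK W₀ κ →ₐ[F] KK W₀ κ := FiniteField.frobeniusAlgHom F (KK W₀ κ)

lemma frobK_apply (z : KK W₀ κ) : frobK W₀ κ z = z ^ Fintype.card F := rfl

/-- Frobenius on points. -/
noncomputable def PhiP : EK W₀ κ →+ EK W₀ κ := Point.map (W' := W₀) (frobK W₀ κ)

lemma PhiP_zero : PhiP W₀ κ 0 = 0 := map_zero _

lemma PhiP_some {X Y : KK W₀ κ} (h : (W₀⁄(KK W₀ κ)).Nonsingular X Y) :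
    ∃ h', PhiP W₀ κ (Point.some X Y h) =
      Point.some (X ^ Fintype.card F) (Y ^ Fintype.card F) h' :=
  ⟨_, rfl⟩

lemma tauP_PhiP (P : EK W₀ κ) : tauP W₀ κ (PhiP W₀ κ P) = PhiP W₀ κ (tauP W₀ κ P) := by
  rcases P with _ | ⟨X, Y, h⟩
  · rfl
  · obtain ⟨h1, e1⟩ := PhiP_some W₀ κ h
    obtain ⟨hs, e2⟩ := tauP_some W₀ κ h
    obtain ⟨h3, e3⟩ := tauP_some W₀ κ h1
    obtain ⟨h4, e4⟩ := PhiP_some W₀ κ hs
    rw [e1, e3, e2, e4]
    simp only [map_pow]

lemma PhiP_mem {P : EK W₀ κ} (hP : P ∈ MM W₀ κ) : PhiP W₀ κ P ∈ MM W₀ κ := by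
  rw [mem_MM] at hP ⊢
  rw [tauP_PhiP, hP, map_neg]

/-- Any primitive pair representing the `x`-coordinate computes the height. -/
lemma hgt_eq_of_repr (hs : Sep (Wκ W₀ κ)) {P : EK W₀ κ} (hP : P ∈ MM W₀ κ) {a : Fin 2 → κ[X]}
    (ha : Prim a) {c : KK W₀ κ} (hc : c ≠ 0) (h : (ιP (Wκ W₀ κ)) ∘ a = c • P.xRep) :
    hgt W₀ κ P = maxDeg a := by
  obtain ⟨c', hc', h'⟩ := ιP_xvec W₀ κ hs hP
  apply maxDeg_eq_of_cross (prim_xvec W₀ κ P) ha
  intro i j
  apply ιP_injective (Wκ W₀ κ)
  have e1 := congrFun h i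
  have e2 := congrFun h j
  have e3 := congrFun h' i
  have e4 := congrFun h' j
  simp only [Function.comp_apply, Pi.smul_apply, smul_eq_mul] at e1 e2 e3 e4
  rw [map_mul, map_mul, e1, e2, e3, e4]
  ring

variable [W₀.IsElliptic]

lemma hgt_neg (hs : Sep (Wκ W₀ κ)) {P : EK W₀ κ} (hP : P ∈ MM W₀ κ) :
    hgt W₀ κ (-P) = hgt W₀ κ P := by
  have := hgt_parallelogram W₀ κ hs (MM W₀ κ).zero_mem hP
  rw [zero_add, zero_sub, hgt_zero] at this
  omega

/-- `hgt (Φ P) = q * hgt P` on `MM`. -/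
theorem hgt_PhiP (hs : Sep (Wκ W₀ κ)) {P : EK W₀ κ} (hP : P ∈ MM W₀ κ) :
    hgt W₀ κ (PhiP W₀ κ P) = Fintype.card F * hgt W₀ κ P := by
  rcases P with _ | ⟨X, Y, h⟩
  · change hgt W₀ κ (PhiP W₀ κ 0) = _ * hgt W₀ κ 0
    rw [PhiP_zero, hgt_zero, mul_zero]
  · obtain ⟨r, hr⟩ := exists_ιK_eq_of_mem W₀ κ hs hP
    obtain ⟨h1, e1⟩ := PhiP_some W₀ κ h
    have hd : ιP (Wκ W₀ κ) r.denom ≠ 0 := fun h0 =>
      r.denom_ne_zero ((ιP_eq_zero _).mp h0)
    have hX : X = ιP (Wκ W₀ κ) r.num / ιP (Wκ W₀ κ) r.denom := by rw [← hr, ιK_apply]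
    have hq : 0 < Fintype.card F := Fintype.card_pos
    have hrep : hgt W₀ κ (PhiP W₀ κ (Point.some X Y h)) =
        maxDeg ![r.num ^ Fintype.card F, r.denom ^ Fintype.card F] := by
      apply hgt_eq_of_repr W₀ κ hs (PhiP_mem W₀ κ hP) (c := ιP (Wκ W₀ κ) r.denom ^ Fintype.card F)
      · rw [prim_pair_iff]
        exact (RatFunc.isCoprime_num_denom r).pow
      · exact pow_ne_zero _ hd
      · rw [e1]
        funext i
        fin_cases i
        · simp only [Point.xRep, Function.comp_apply, Pi.smul_apply, smul_eq_mul, Fin.zero_eta,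
            Fin.isValue, Matrix.cons_val_zero, map_pow]
          rw [hX, div_pow, mul_div_cancel₀ _ (pow_ne_zero _ hd)]
        · simp [Point.xRep]
    rw [hrep, hgt, xvec_some W₀ κ r hr, maxDeg_fin2, maxDeg_fin2]
    simp only [Fin.isValue, Matrix.cons_val_zero, Matrix.cons_val_one, natDegree_pow]
    rw [Nat.mul_max_mul_left]

/-! ### Manin's rational function -/

omit [W₀.IsElliptic] in
/-- The `2`-division cubic `4X³ + b₂X² + 2b₄X + b₆`. -/
noncomputable def gPoly : F[X] := 4 * X ^ 3 + C W₀.b₂ * X ^ 2 + 2 * C W₀.b₄ * X + C W₀.b₆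

/-- Numerator of Manin's rational function `x(Φ P - P)` as a function of `x(P)`. -/
noncomputable def manU : F[X] :=
  2 * (2 * (X ^ Fintype.card F + X) * (X ^ Fintype.card F * X)
      + C W₀.b₂ * (X ^ Fintype.card F * X) + C W₀.b₄ * (X ^ Fintype.card F + X) + C W₀.b₆)
    + 2 * gPoly W₀ ^ (Fintype.card F / 2 + 1)

/-- Denominator of Manin's rational function. -/
noncomputable def manV (F : Type*) [Field F] [Fintype F] : F[X] :=
  4 * (X ^ Fintype.card F - X) ^ 2

/-- The reduced form `U₁/V₁` of Manin's rational function `Ũ/Ṽ`, of degree `N`. -/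
structure ManinData (N : ℕ) where
  /-- the common factor -/
  G : F[X]
  /-- reduced numerator -/
  U₁ : F[X]
  /-- reduced denominator -/
  V₁ : F[X]
  hU : manU W₀ = G * U₁
  hV : manV F = G * V₁
  cop : IsCoprime U₁ V₁
  degU : U₁.natDegree = N
  degV : V₁.natDegree ≤ N

/-- A pair `(U, V)` of polynomials over `F` computing the `x`-coordinate of `Φ P - P` as the
rational function `U / V` of the `x`-coordinate of `P`. -/
structure ManinPair (U V : F[X]) : Prop where
  formula : ∀ {X Y : KK W₀ κ} (h : (W₀⁄(KK W₀ κ)).Nonsingular X Y), X ^ Fintype.card F ≠ X →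
    ∃ (x₃ y₃ : KK W₀ κ) (h₃ : (W₀⁄(KK W₀ κ)).Nonsingular x₃ y₃),
      PhiP W₀ κ (Point.some X Y h) - Point.some X Y h = Point.some x₃ y₃ h₃ ∧
      eval₂ (algebraMap F (KK W₀ κ)) X V * x₃ = eval₂ (algebraMap F (KK W₀ κ)) X U
  ne_zero : ∀ {X : KK W₀ κ}, X ^ Fintype.card F ≠ X → eval₂ (algebraMap F (KK W₀ κ)) X V ≠ 0

/-- The reduced form `U₁ / V₁` of a rational function `U / V`, of degree `N`. -/
structure RedData (U V : F[X]) (N : ℕ) where
  /-- the common factor -/
  G : F[X]
  /-- reduced numerator -/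
  U₁ : F[X]
  /-- reduced denominator -/
  V₁ : F[X]
  hU : U = G * U₁
  hV : V = G * V₁
  cop : IsCoprime U₁ V₁
  degU : U₁.natDegree = N
  degV : V₁.natDegree ≤ N

/-- `ManinData` is `RedData` for Manin's pair in odd characteristic. -/
def ManinData.toRedData {N : ℕ} (D : ManinData W₀ N) : RedData (manU W₀) (manV F) N :=
  ⟨D.G, D.U₁, D.V₁, D.hU, D.hV, D.cop, D.degU, D.degV⟩

omit [W₀.IsElliptic] in
lemma card_odd (h2 : (2 : κ) ≠ 0) : Fintype.card F % 2 = 1 := by
  apply FiniteField.odd_card_of_char_ne_two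
  intro h
  have _ : CharP F 2 := by rw [← h]; exact ringChar.charP F
  have h20 : (2 : F) = 0 := CharTwo.two_eq_zero
  apply h2
  have h20' := congrArg (algebraMap F κ) h20
  rw [map_ofNat, map_zero] at h20'
  exact h20'

open Fermat.Agent.S05 in
omit [W₀.IsElliptic] in
/-- The `x`-coordinate of `Φ P - P`. -/
lemma PhiP_sub_some (h2 : (2 : κ) ≠ 0) {X Y : KK W₀ κ}
    (h : (W₀⁄(KK W₀ κ)).Nonsingular X Y) (hX : X ^ Fintype.card F ≠ X) :
    ∃ (x₃ y₃ : KK W₀ κ) (h₃ : (W₀⁄(KK W₀ κ)).Nonsingular x₃ y₃),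
      PhiP W₀ κ (Point.some X Y h) - Point.some X Y h = Point.some x₃ y₃ h₃ ∧
      eval₂ (algebraMap F (KK W₀ κ)) X (manV F) * x₃ =
        eval₂ (algebraMap F (KK W₀ κ)) X (manU W₀) := by
  obtain ⟨h1, e1⟩ := PhiP_some W₀ κ h
  obtain ⟨xp, yp, xm, ym, hp, hm, -, esub, -, eform⟩ :=
    XOnly.add_sub_of_X_ne (W₀⁄(KK W₀ κ)) h1 h hX
  refine ⟨xm, ym, hm, by rw [e1, esub], ?_⟩
  have hodd := card_odd (F := F) κ h2
  have hq : Fintype.card F + 1 = 2 * (Fintype.card F / 2 + 1) := by omega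
  have heta : XOnly.eta (W₀⁄(KK W₀ κ)) (X ^ Fintype.card F) (Y ^ Fintype.card F) =
      XOnly.eta (W₀⁄(KK W₀ κ)) X Y ^ Fintype.card F := by
    simp only [XOnly.eta, WeierstrassCurve.baseChange, WeierstrassCurve.map_a₁,
      WeierstrassCurve.map_a₃, ← frobK_apply W₀ κ, map_add, map_mul, AlgHom.commutes, map_ofNat]
  have hsq := XOnly.eta_sq (W₀⁄(KK W₀ κ)) h.1
  have hprod : XOnly.eta (W₀⁄(KK W₀ κ)) (X ^ Fintype.card F) (Y ^ Fintype.card F) *
      XOnly.eta (W₀⁄(KK W₀ κ)) X Y =
      XOnly.twoF (W₀⁄(KK W₀ κ)) X ^ (Fintype.card F / 2 + 1) := by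
    rw [heta, ← pow_succ, hq, pow_mul, hsq]
  have eform' : 4 * (X ^ Fintype.card F - X) ^ 2 * xm =
      2 * XOnly.sumNum (W₀⁄(KK W₀ κ)) (X ^ Fintype.card F) X +
        2 * XOnly.twoF (W₀⁄(KK W₀ κ)) X ^ (Fintype.card F / 2 + 1) := by
    rw [← hprod, eform]; ring
  have eV : eval₂ (algebraMap F (KK W₀ κ)) X (manV F) = 4 * (X ^ Fintype.card F - X) ^ 2 := by
    simp [manV, eval₂_mul, eval₂_pow, eval₂_sub, eval₂_X]
  have eU : eval₂ (algebraMap F (KK W₀ κ)) X (manU W₀) =
      2 * XOnly.sumNum (W₀⁄(KK W₀ κ)) (X ^ Fintype.card F) X +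
        2 * XOnly.twoF (W₀⁄(KK W₀ κ)) X ^ (Fintype.card F / 2 + 1) := by
    simp only [manU, gPoly, XOnly.sumNum, XOnly.twoF, WeierstrassCurve.baseChange,
      WeierstrassCurve.map_b₂, WeierstrassCurve.map_b₄, WeierstrassCurve.map_b₆, eval₂_add,
      eval₂_mul, eval₂_pow, eval₂_X, eval₂_C, eval₂_ofNat]
  rw [eV, eU, ← eform']

omit [Fintype F] [W₀.IsElliptic] in
lemma some_eq_some_h545 {x y x' y' : KK W₀ κ} (hx : x = x') (hy : y = y')
    (h : (W₀⁄(KK W₀ κ)).Nonsingular x y) (h' : (W₀⁄(KK W₀ κ)).Nonsingular x' y') :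
    (Point.some x y h : EK W₀ κ) = Point.some x' y' h' := by
  subst hx hy; rfl

omit [Fintype F] [W₀.IsElliptic] in
lemma algebraMap_comp_eq :
    ((ιP (Wκ W₀ κ)).comp (C : κ →+* κ[X])).comp (algebraMap F κ) = algebraMap F (KK W₀ κ) := by
  ext a
  simp only [RingHom.comp_apply, ιP_C, ← algebraMap_KK]

omit [W₀.IsElliptic] in
lemma ιP_hom2 (U : F[X]) {N : ℕ} (hU : U.natDegree ≤ N) (n : κ[X]) {d : κ[X]}
    (hd : ιP (Wκ W₀ κ) d ≠ 0) :
    ιP (Wκ W₀ κ) (hom2 (C : κ →+* κ[X]) (U.map (algebraMap F κ)) N n d) =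
      ιP (Wκ W₀ κ) d ^ N *
        eval₂ (algebraMap F (KK W₀ κ)) (ιP (Wκ W₀ κ) n / ιP (Wκ W₀ κ) d) U := by
  rw [map_hom2, hom2_of_ne_zero _ ((natDegree_map_le).trans hU) _ hd, eval₂_map,
    algebraMap_comp_eq]

/-- `hgt (Φ P - P) = N * hgt P` on `MM`, given a pair `(U, V)` computing `x(Φ P - P)` and its
reduced form. -/
theorem hgt_PhiP_sub_of_pair (hs : Sep (Wκ W₀ κ)) {U V : F[X]} (MP : ManinPair W₀ κ U V)
    {N : ℕ} (D : RedData U V N) {P : EK W₀ κ} (hP : P ∈ MM W₀ κ) : hgt W₀ κ (PhiP W₀ κ P - P) = N * hgt W₀ κ P := by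
  rcases P with _ | ⟨X, Y, h⟩
  · change hgt W₀ κ (PhiP W₀ κ 0 - 0) = _ * hgt W₀ κ 0
    rw [PhiP_zero, sub_zero, hgt_zero, mul_zero]
  · obtain ⟨h1, e1⟩ := PhiP_some W₀ κ h
    by_cases hX : X ^ Fintype.card F = X
    · -- constant `x`-coordinate
      obtain ⟨c, hc⟩ := exists_eq_algebraMap_of_pow_card_eq (F := F) hX
      have h0 : hgt W₀ κ (Point.some X Y h) = 0 := by
        have hrep : hgt W₀ κ (Point.some X Y h) = maxDeg ![C (algebraMap F κ c), (1 : κ[X])] := by
          apply hgt_eq_of_repr W₀ κ hs hP (c := 1)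
          · rw [prim_pair_iff]
            exact ⟨0, 1, by simp⟩
          · exact one_ne_zero
          · funext i
            fin_cases i
            · simp [Point.xRep, ιP_C, ← algebraMap_KK, hc]
            · simp [Point.xRep]
        rw [hrep, maxDeg_fin2]
        simp
      rw [h0, mul_zero]
      rcases Affine.Y_eq_of_X_eq h1.1 h.1 hX with hY | hY
      · have : PhiP W₀ κ (Point.some X Y h) = Point.some X Y h := by
          rw [e1]; exact some_eq_some_h545 W₀ κ hX hY _ _
        rw [this, sub_self, hgt_zero]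
      · have : PhiP W₀ κ (Point.some X Y h) = -Point.some X Y h := by
          rw [e1, Point.neg_some]; exact some_eq_some_h545 W₀ κ hX hY _ _
        rw [this]
        have hneg : -Point.some X Y h ∈ MM W₀ κ := (MM W₀ κ).neg_mem hP
        have hpar := hgt_parallelogram W₀ κ hs hneg hP
        rw [hgt_neg W₀ κ hs hP, h0, neg_add_cancel, hgt_zero] at hpar
        omega
    · obtain ⟨x₃, y₃, h₃, esub, eform⟩ := MP.formula h hX
      obtain ⟨r, hr⟩ := exists_ιK_eq_of_mem W₀ κ hs hP
      have hd : ιP (Wκ W₀ κ) r.denom ≠ 0 := fun h0 =>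
        r.denom_ne_zero ((ιP_eq_zero _).mp h0)
      have hXr : X = ιP (Wκ W₀ κ) r.num / ιP (Wκ W₀ κ) r.denom := by rw [← hr, ιK_apply]
      -- the reduced equation
      have hVne : eval₂ (algebraMap F (KK W₀ κ)) X V ≠ 0 := MP.ne_zero hX
      have eV : eval₂ (algebraMap F (KK W₀ κ)) X V =
          eval₂ (algebraMap F (KK W₀ κ)) X D.G * eval₂ (algebraMap F (KK W₀ κ)) X D.V₁ := by
        rw [← eval₂_mul, ← D.hV]
      have eU : eval₂ (algebraMap F (KK W₀ κ)) X U =
          eval₂ (algebraMap F (KK W₀ κ)) X D.G * eval₂ (algebraMap F (KK W₀ κ)) X D.U₁ := by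
        rw [← eval₂_mul, ← D.hU]
      rw [eV] at hVne eform
      rw [eU, mul_assoc] at eform
      have hG := left_ne_zero_of_mul hVne
      have hV1 := right_ne_zero_of_mul hVne
      have ered : eval₂ (algebraMap F (KK W₀ κ)) X D.V₁ * x₃ =
          eval₂ (algebraMap F (KK W₀ κ)) X D.U₁ := mul_left_cancel₀ hG eform
      -- the representation
      set A := hom2 (C : κ →+* κ[X]) (D.U₁.map (algebraMap F κ)) N r.num r.denom with hA
      set B := hom2 (C : κ →+* κ[X]) (D.V₁.map (algebraMap F κ)) N r.num r.denom with hB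
      have eA : ιP (Wκ W₀ κ) A = ιP (Wκ W₀ κ) r.denom ^ N *
          eval₂ (algebraMap F (KK W₀ κ)) X D.U₁ := by
        rw [hA, ιP_hom2 W₀ κ _ D.degU.le _ hd, ← hXr]
      have eB : ιP (Wκ W₀ κ) B = ιP (Wκ W₀ κ) r.denom ^ N *
          eval₂ (algebraMap F (KK W₀ κ)) X D.V₁ := by
        rw [hB, ιP_hom2 W₀ κ _ D.degV _ hd, ← hXr]
      have hcop : IsCoprime (D.U₁.map (algebraMap F κ)) (D.V₁.map (algebraMap F κ)) :=
        D.cop.map (Polynomial.mapRingHom (algebraMap F κ))
      have hdU : (D.U₁.map (algebraMap F κ)).natDegree = N := by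
        rw [natDegree_map, D.degU]
      have hdV : (D.V₁.map (algebraMap F κ)).natDegree ≤ N := by
        rw [natDegree_map]; exact D.degV
      have hprim : Prim ![A, B] := prim_hom2' hcop hdU hdV (RatFunc.isCoprime_num_denom r)
      have hdeg : maxDeg ![A, B] = N * maxDeg ![r.num, r.denom] :=
        maxDeg_hom2' hcop hdU hdV (RatFunc.isCoprime_num_denom r)
      have hmem : PhiP W₀ κ (Point.some X Y h) - Point.some X Y h ∈ MM W₀ κ :=
        (MM W₀ κ).sub_mem (PhiP_mem W₀ κ hP) hP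
      have hrep : hgt W₀ κ (PhiP W₀ κ (Point.some X Y h) - Point.some X Y h) = maxDeg ![A, B] := by
        apply hgt_eq_of_repr W₀ κ hs hmem hprim (c := ιP (Wκ W₀ κ) B)
        · rw [eB]; exact mul_ne_zero (pow_ne_zero _ hd) hV1
        · rw [esub]
          funext i
          fin_cases i
          · simp only [Point.xRep, Function.comp_apply, Pi.smul_apply, smul_eq_mul, Fin.zero_eta,
              Fin.isValue, Matrix.cons_val_zero]
            rw [eA, eB, ← ered]; ring
          · simp [Point.xRep]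
      rw [hrep, hdeg, hgt, xvec_some W₀ κ r hr]

/-- Manin's pair in odd characteristic. -/
theorem maninPair_odd (h2 : (2 : κ) ≠ 0) : ManinPair W₀ κ (manU W₀) (manV F) where
  formula := fun h hX => PhiP_sub_some W₀ κ h2 h hX
  ne_zero := by
    intro X hX
    have h4 : (4 : KK W₀ κ) ≠ 0 := by
      have h2' : (2 : KK W₀ κ) ≠ 0 := by
        intro h0
        apply h2
        have : algebraMap κ (KK W₀ κ) 2 = 0 := by rw [map_ofNat]; exact h0
        exact (map_eq_zero _).mp this
      have : (4 : KK W₀ κ) = 2 * 2 := by norm_num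
      rw [this]; exact mul_ne_zero h2' h2'
    have : eval₂ (algebraMap F (KK W₀ κ)) X (manV F) = 4 * (X ^ Fintype.card F - X) ^ 2 := by
      simp [manV, eval₂_mul, eval₂_pow, eval₂_sub, eval₂_X]
    rw [this]
    exact mul_ne_zero h4 (pow_ne_zero _ (sub_ne_zero.mpr hX))

/-- `hgt (Φ P - P) = N * hgt P` on `MM`, given the reduced form of Manin's rational function
(odd characteristic). -/
theorem hgt_PhiP_sub (h2 : (2 : κ) ≠ 0) {N : ℕ} (D : ManinData W₀ N) {P : EK W₀ κ}
    (hP : P ∈ MM W₀ κ) : hgt W₀ κ (PhiP W₀ κ P - P) = N * hgt W₀ κ P :=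
  hgt_PhiP_sub_of_pair W₀ κ (sep_of_two_ne_zero _ h2) (maninPair_odd W₀ κ h2) D.toRedData hP

end Fermat.Agent.S52.H545

end
-- ===== PACK-END S52/H545/Frob.lean

-- ===== PACK-BEGIN S13/H164/Frey.lean
section



/-!
# S13 / T1 (helper164): the `p`-torsion of the Frey curve

Specialisation of the ladder results to `P.freyCurve` over any algebraically closed field `K`
with an `Algebra ℚ K` structure (in particular `AlgebraicClosure ℚ`, with whatever instances the
frozen statement uses).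

Main results (`V := Submodule.torsionBy ℤ (P.freyCurve⁄K).Point P.p`):
* `frey_nontrivial_torsion : Nontrivial V`
* `frey_finite_card_torsion : Finite V ∧ Nat.card V ≤ P.p ^ 2`
* `freyQ P : ℤ[X]` with `leadingCoeff = p`, `natDegree = (p² - 1) / 2` and
  `P.p • (x, y) = 0 ↔ aeval x (freyQ P) = 0`.
-/

set_option autoImplicit false

namespace Fermat.Agent.S13.H164

open Polynomial WeierstrassCurve
open scoped WeierstrassCurve.Affine

variable (P : FreyPackage)

lemma frey_four_dvd : (4 : ℤ) ∣ P.b ^ P.p - 1 - P.a ^ P.p := by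
  have hp := P.hp5
  have hb : (2 : ℤ) ∣ P.b := (ZMod.intCast_zmod_eq_zero_iff_dvd P.b 2).1 P.hb2
  have hb4 : (4 : ℤ) ∣ P.b ^ P.p := by
    obtain ⟨k, hk⟩ := hb
    obtain ⟨j, hj⟩ : ∃ j, P.p = j + 2 := ⟨P.p - 2, by omega⟩
    have : P.b ^ P.p = 4 * (2 ^ j * k ^ P.p) := by
      rw [hk, hj]
      ring
    exact ⟨_, this⟩
  have ha : ((P.a ^ P.p : ℤ) : ZMod 4) = 3 := by
    push_cast
    rw [P.ha4]
    obtain ⟨m, hm⟩ := P.hp_odd
    rw [hm, pow_succ, pow_mul]
    have : (3 : ZMod 4) ^ 2 = 1 := by decide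
    rw [this, one_pow, one_mul]
  have hb' : ((P.b ^ P.p : ℤ) : ZMod 4) = 0 :=
    (ZMod.intCast_zmod_eq_zero_iff_dvd _ 4).2 hb4
  apply (ZMod.intCast_zmod_eq_zero_iff_dvd _ 4).1
  push_cast at ha hb' ⊢
  rw [ha, hb']
  decide

lemma frey_sixteen_dvd : (16 : ℤ) ∣ -(P.a ^ P.p) * P.b ^ P.p := by
  have hp := P.hp5
  have hb : (2 : ℤ) ∣ P.b := (ZMod.intCast_zmod_eq_zero_iff_dvd P.b 2).1 P.hb2
  obtain ⟨k, hk⟩ := hb
  obtain ⟨j, hj⟩ : ∃ j, P.p = j + 4 := ⟨P.p - 4, by omega⟩
  have : -(P.a ^ P.p) * P.b ^ P.p = 16 * (-(P.a ^ P.p) * (2 ^ j * k ^ P.p)) := by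
    rw [hk, hj]
    ring
  exact ⟨_, this⟩

/-- The Frey curve over `ℚ` is the base change of the integral Frey curve. -/
theorem freyCurve_eq_map : P.freyCurve = P.freyCurveInt.map (Int.castRingHom ℚ) := by
  have h4 := frey_four_dvd P
  have h16 := frey_sixteen_dvd P
  ext
  · simp [FreyPackage.freyCurve, FreyPackage.freyCurveInt, WeierstrassCurve.map]
  · simp only [FreyPackage.freyCurve, FreyPackage.freyCurveInt, WeierstrassCurve.map,
      eq_intCast]
    rw [Int.cast_div h4 (by norm_num)]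
    push_cast
    ring
  · simp [FreyPackage.freyCurve, FreyPackage.freyCurveInt, WeierstrassCurve.map]
  · simp only [FreyPackage.freyCurve, FreyPackage.freyCurveInt, WeierstrassCurve.map,
      eq_intCast]
    rw [Int.cast_div h16 (by norm_num)]
    push_cast
    ring
  · simp [FreyPackage.freyCurve, FreyPackage.freyCurveInt, WeierstrassCurve.map]

/-- The discriminant of the Frey curve is `(abc)^{2p} / 2^8`. -/
theorem freyCurve_Δ : P.freyCurve.Δ = ((P.a * P.b * P.c : ℤ) : ℚ) ^ (2 * P.p) / 2 ^ 8 := by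
  have hc : ((P.c : ℤ) : ℚ) ^ P.p = (P.a : ℚ) ^ P.p + (P.b : ℚ) ^ P.p := by
    have := congrArg (Int.cast : ℤ → ℚ) P.hFLT
    push_cast at this
    exact this.symm
  simp only [WeierstrassCurve.Δ, WeierstrassCurve.b₂, WeierstrassCurve.b₄, WeierstrassCurve.b₆,
    WeierstrassCurve.b₈, FreyPackage.freyCurve]
  push_cast
  rw [pow_mul', mul_pow, mul_pow, hc]
  ring

theorem freyCurve_Δ_ne_zero : P.freyCurve.Δ ≠ 0 := by
  rw [freyCurve_Δ]
  have h := P.habc0
  have : ((P.a * P.b * P.c : ℤ) : ℚ) ≠ 0 := by exact_mod_cast h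
  positivity

section BaseChange

variable {K : Type*} [Field K] [Algebra ℚ K]

theorem frey_baseChange_Δ_ne_zero : (P.freyCurve⁄K).Δ ≠ 0 := by
  simp only [WeierstrassCurve.baseChange, WeierstrassCurve.map_Δ]
  exact (map_ne_zero_iff _ (algebraMap ℚ K).injective).mpr (freyCurve_Δ_ne_zero P)

lemma frey_charZero : CharZero K := charZero_of_injective_algebraMap (algebraMap ℚ K).injective

lemma frey_p_ne_zero : ((P.p : ℕ) : K) ≠ 0 := by
  have : CharZero K := frey_charZero
  exact Nat.cast_ne_zero.mpr P.hp0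

variable [DecidableEq K]

/-- `E[p](K)` is nontrivial for the Frey curve. -/
theorem frey_nontrivial_torsion [IsAlgClosed K] :
    Nontrivial (Submodule.torsionBy ℤ (P.freyCurve⁄K).Point P.p) :=
  nontrivial_odd_torsion (P.freyCurve⁄K).toAffine (frey_baseChange_Δ_ne_zero P) P.p P.hp_odd
    (le_trans (by norm_num) P.hp5) (frey_p_ne_zero P)

/-- `#E[p](K) ≤ p²` for the Frey curve. -/
theorem frey_finite_card_torsion :
    Finite (Submodule.torsionBy ℤ (P.freyCurve⁄K).Point P.p) ∧
      Nat.card (Submodule.torsionBy ℤ (P.freyCurve⁄K).Point P.p) ≤ P.p ^ 2 :=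
  finite_card_torsion_of_odd (P.freyCurve⁄K).toAffine P.p P.hp_odd (frey_p_ne_zero P)

/-- The integral `p`-division polynomial (in `x`) of the Frey curve. -/
noncomputable def freyQ : ℤ[X] := Qpoly P.freyCurveInt (P.p / 2)

lemma frey_two_mul_half : 2 * (P.p / 2) + 1 = P.p := by
  obtain ⟨m, hm⟩ := P.hp_odd
  omega

theorem freyQ_leadingCoeff : (freyQ P).leadingCoeff = (P.p : ℤ) := by
  have h : (((2 * (P.p / 2) + 1 : ℕ)) : ℤ) ≠ 0 := by
    rw [frey_two_mul_half]; exact_mod_cast P.hp0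
  rw [freyQ, leadingCoeff_Qpoly _ _ h, frey_two_mul_half]

theorem freyQ_natDegree : (freyQ P).natDegree = (P.p ^ 2 - 1) / 2 := by
  have h : (((2 * (P.p / 2) + 1 : ℕ)) : ℤ) ≠ 0 := by
    rw [frey_two_mul_half]; exact_mod_cast P.hp0
  rw [freyQ, natDegree_Qpoly _ _ h]
  obtain ⟨m, hm⟩ := P.hp_odd
  have e : P.p / 2 = m := by omega
  rw [e, hm]
  have : (2 * m + 1) ^ 2 - 1 = 2 * (2 * m * m + 2 * m) := by
    have : (2 * m + 1) ^ 2 = 2 * (2 * m * m + 2 * m) + 1 := by ring
    omega
  rw [this, Nat.mul_div_cancel_left _ (by norm_num : 0 < 2)]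

omit [DecidableEq K] in
lemma frey_baseChange_eq :
    (P.freyCurve⁄K) = P.freyCurveInt.map (Int.castRingHom K) := by
  change P.freyCurve.map (algebraMap ℚ K) = _
  rw [freyCurve_eq_map, WeierstrassCurve.map_map]
  congr 1
  exact RingHom.ext_int _ _

/-- **Torsion criterion for the Frey curve**, with an integral polynomial. -/
theorem frey_nsmul_eq_zero_iff {x y : K} (h : (P.freyCurve⁄K).toAffine.Nonsingular x y) :
    P.p • Affine.Point.some x y h = 0 ↔ aeval x (freyQ P) = 0 := by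
  have key : ∀ (W : WeierstrassCurve K) (hW : W = P.freyCurveInt.map (Int.castRingHom K))
      (h : W.toAffine.Nonsingular x y),
      P.p • Affine.Point.some x y h = 0 ↔ aeval x (freyQ P) = 0 := by
    intro W hW h
    subst hW
    have := odd_nsmul_eq_zero_iff_eval₂ (Int.castRingHom K) P.freyCurveInt h (P.p / 2)
    rw [frey_two_mul_half] at this
    rw [this, freyQ, aeval_def]
    rfl
  exact key _ (frey_baseChange_eq P) h

end BaseChange

end Fermat.Agent.S13.H164

end
-- ===== PACK-END S13/H164/Frey.lean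

-- ===== PACK-BEGIN S29/H201/E2.lean
section






/-!
# S29 / P5-E2 (helper201) — the eigensystem of a normalized eigenform occurs in
`Hom_par(Γ₀(N), F)`, `F` any field of characteristic `q > 0`.
-/

set_option autoImplicit false

open CongruenceSubgroup Matrix.SpecialLinearGroup UpperHalfPlane ModularCurve ModularCurve.Period
open scoped MatrixGroups

namespace Fermat.Agent.S29.H201

variable {N : ℕ}

/-- The period map is injective (from helper81's injectivity of `periodHomPair`). -/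
theorem periodMap_ne_zero [NeZero N] {g : CuspForm (Gamma0 N) 2} (hg : g ≠ 0) :
    periodMap N g ≠ 0 := by
  intro h
  have hinj := Fermat.Agent.S21.H81.injective_periodHomPair_of N
    (Fermat.Agent.S21.H381.existsPeriodMapLinear N)
    (fun f => Fermat.Agent.S21.H381.exists_hasEquivariantPrimitive f)
  have h0 : periodMap N (0 : CuspForm (Gamma0 N) 2) = 0 :=
    (Fermat.Agent.S21.H381.periodMapLin N).map_zero
  have h1 : periodHomPair N (g, 0) = 0 := by
    rw [Fermat.Agent.S21.H381.periodHomPair_apply, h, h0]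
    simp
  have h2 := hinj (h1.trans (map_zero (periodHomPair N)).symm)
  exact hg (congrArg Prod.fst h2)

theorem isNormalizedEigenform_ne_zero {g : CuspForm (Gamma0 N) 2}
    (hg : g.IsNormalizedEigenform) : g ≠ 0 := by
  rintro rfl
  have h1 := hg.qCoeff_one
  have h0 : ModularFormClass.qCoeff (⇑(0 : CuspForm (Gamma0 N) 2)) 1 = 0 := by
    unfold ModularFormClass.qCoeff
    rw [FunLike.coe_zero, qExpansion_zero]
    simp
  rw [h0] at h1
  exact zero_ne_one h1

instance instFGSL2Z : Group.FG SL(2, ℤ) := by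
  rw [Group.fg_iff]
  exact ⟨{ModularGroup.S, ModularGroup.T}, SpecialLinearGroup.SL2Z_generators, by simp⟩

theorem fg_Gamma0 [NeZero N] : AddGroup.FG (Additive (Gamma0 N)) := by
  haveI : Group.FG (Gamma0 N) := inferInstance
  exact AddGroup.fg_iff_mul_fg.mpr ‹_›

/-- **E2c, strong form**: for a normalized eigenform `g` of level `N ≥ 1`, a field `F` of
characteristic `q > 0` and a ring hom `ψ : ℤ̄ → F`, there is a nonzero parabolic homomorphism
`χ : Γ₀(N) → F`, vanishing on every element on which the period of `g` vanishes (in particular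
on all elements of finite order), with `T_ℓ χ = ψ(a_ℓ) χ` for every prime `ℓ ∤ N`. -/
theorem exists_eigen_parabolicHom_strong [NeZero N] {g : CuspForm (Gamma0 N) 2}
    (hg : g.IsNormalizedEigenform)
    {F : Type*} [Field F] (q : ℕ) [Fact q.Prime] [CharP F q]
    (ψ : integralClosure ℤ ℂ →+* F) :
    ∃ χ : Additive (Gamma0 N) →+ F, χ ≠ 0 ∧ IsParabolicHom (Gamma0 N) χ ∧
      (∀ γ : Gamma0 N, periodMap N g (Additive.ofMul γ) = 0 → χ (Additive.ofMul γ) = 0) ∧
      (∀ γ : Gamma0 N, IsOfFinOrder γ → χ (Additive.ofMul γ) = 0) ∧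
      ∀ (ℓ : ℕ) [Fact ℓ.Prime] (hℓN : ¬ ℓ ∣ N),
        ∃ a : integralClosure ℤ ℂ, (a : ℂ) = ModularFormClass.qCoeff g ℓ ∧
          heckeHom ℓ hℓN F χ = (AddMonoidHom.mulLeft (ψ a)).comp χ := by
  set v : Additive (Gamma0 N) →+ ℂ := periodMap N g with hv
  have hv0 : v ≠ 0 := periodMap_ne_zero (isNormalizedEigenform_ne_zero hg)
  set L : AddSubgroup ℂ := v.range with hLdef
  have hLfg : L.FG := by
    haveI := fg_Gamma0 (N := N)
    rw [hLdef, ← AddGroup.fg_iff_addSubgroup_fg]
    exact AddGroup.fg_of_surjective (f := v.rangeRestrict) v.rangeRestrict_surjective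
  have hL0 : L ≠ ⊥ := by
    intro h
    apply hv0
    refine AddMonoidHom.ext fun γ => ?_
    have : v γ ∈ L := ⟨γ, rfl⟩
    rw [h, AddSubgroup.mem_bot] at this
    simpa using this
  -- the Hecke eigenvalue relation on periods
  have hT : ∀ (ℓ : ℕ) [Fact ℓ.Prime] (hℓN : ¬ ℓ ∣ N),
      heckeHom ℓ hℓN ℂ v = (AddMonoidHom.mulLeft (ModularFormClass.qCoeff g ℓ)).comp v := by
    intro ℓ _ hℓN
    have hℓ : ℓ.Prime := Fact.out
    rw [hv, ← periodMap_heckeTLin hℓ hℓN g, heckeTLin_eq_smul_of_isNormalizedEigenform hg hℓ hℓN,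
      Fermat.Agent.S21.H381.periodMap_smul]
    refine AddMonoidHom.ext fun γ => ?_
    rfl
  have hmult : ∀ (ℓ : ℕ) [Fact ℓ.Prime] (_hℓN : ¬ ℓ ∣ N), ∀ y ∈ L,
      ModularFormClass.qCoeff g ℓ * y ∈ L := by
    intro ℓ _ hℓN y hy
    obtain ⟨γ, rfl⟩ := hy
    obtain ⟨γ, rfl⟩ : ∃ γ' : Gamma0 N, Additive.ofMul γ' = γ := ⟨Additive.toMul γ, rfl⟩
    have h1 := DFunLike.congr_fun (hT ℓ hℓN) (Additive.ofMul γ)
    rw [heckeHom_apply] at h1
    have h2 : ModularFormClass.qCoeff g ℓ * v (Additive.ofMul γ)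
        = ∑ x : OnePoint (ZMod ℓ), v (Additive.ofMul (trf hℓN γ x)) := h1.symm
    rw [h2]
    exact L.sum_mem fun x _ => ⟨_, rfl⟩
  obtain ⟨μ, hμ0, hμ⟩ := exists_eigen_functional L hLfg hL0 q ψ
  set vr : Additive (Gamma0 N) →+ L := v.rangeRestrict with hvr
  have hker : ∀ γ : Gamma0 N, v (Additive.ofMul γ) = 0 → (μ.comp vr) (Additive.ofMul γ) = 0 := by
    intro γ h2
    have h3 : vr (Additive.ofMul γ) = 0 := Subtype.ext h2
    rw [AddMonoidHom.comp_apply, h3, map_zero]
  refine ⟨μ.comp vr, ?_, ?_, hker, ?_, ?_⟩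
  · intro h
    apply hμ0
    refine AddMonoidHom.ext fun y => ?_
    obtain ⟨γ, hγ⟩ := y.2
    have h1 := DFunLike.congr_fun h γ
    have h2 : vr γ = y := Subtype.ext hγ
    rw [AddMonoidHom.comp_apply, h2] at h1
    simpa using h1
  · intro γ hγ
    have h1 := Fermat.Agent.S21.H381.periodMap_mem_parabolicHoms g
    rw [mem_parabolicHoms_iff] at h1
    exact hker γ (h1 γ hγ)
  · intro γ hγ
    apply hker
    obtain ⟨n, hn, hγn⟩ := hγ.exists_pow_eq_one
    have h1 : (n : ℂ) * v (Additive.ofMul γ) = 0 := by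
      have h2 : v (Additive.ofMul (γ ^ n)) = n • v (Additive.ofMul γ) := by
        rw [ofMul_pow, map_nsmul]
      rw [hγn] at h2
      have h3 : v (Additive.ofMul (1 : Gamma0 N)) = 0 := by
        rw [ofMul_one, map_zero]
      rw [h3, nsmul_eq_mul] at h2
      exact h2.symm
    rcases mul_eq_zero.mp h1 with h | h
    · exact absurd (by exact_mod_cast h) hn.ne'
    · exact h
  · intro ℓ _ hℓN
    have hint : IsIntegral ℤ (ModularFormClass.qCoeff g ℓ) :=
      isIntegral_of_mul_mem L hLfg hL0 _ (hmult ℓ hℓN)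
    refine ⟨⟨ModularFormClass.qCoeff g ℓ, hint⟩, rfl, ?_⟩
    rw [heckeHom_comp]
    refine AddMonoidHom.ext fun γ => ?_
    obtain ⟨γ, rfl⟩ : ∃ γ' : Gamma0 N, Additive.ofMul γ' = γ := ⟨Additive.toMul γ, rfl⟩
    have h1 : heckeHom ℓ hℓN L vr (Additive.ofMul γ)
        = ⟨ModularFormClass.qCoeff g ℓ * (vr (Additive.ofMul γ) : ℂ),
            hmult ℓ hℓN _ (vr (Additive.ofMul γ)).2⟩ := by
      apply Subtype.ext
      have h2 := DFunLike.congr_fun (heckeHom_comp hℓN L.subtype vr) (Additive.ofMul γ)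
      have h3 : L.subtype.comp vr = v := AddMonoidHom.ext fun γ' => rfl
      rw [h3, hT ℓ hℓN] at h2
      exact h2.symm
    rw [AddMonoidHom.comp_apply, h1]
    exact hμ ⟨ModularFormClass.qCoeff g ℓ, hint⟩ (hmult ℓ hℓN) (vr (Additive.ofMul γ))

/-- **E2c**: for a normalized eigenform `g` of level `N ≥ 1`, a field `F` of characteristic
`q > 0` and a ring hom `ψ : ℤ̄ → F`, there is a nonzero parabolic homomorphism
`χ : Γ₀(N) → F` with `T_ℓ χ = ψ(a_ℓ) χ` for every prime `ℓ ∤ N`. -/
theorem exists_eigen_parabolicHom [NeZero N] {g : CuspForm (Gamma0 N) 2}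
    (hg : g.IsNormalizedEigenform)
    {F : Type*} [Field F] (q : ℕ) [Fact q.Prime] [CharP F q]
    (ψ : integralClosure ℤ ℂ →+* F) :
    ∃ χ : Additive (Gamma0 N) →+ F, χ ≠ 0 ∧ IsParabolicHom (Gamma0 N) χ ∧
      ∀ (ℓ : ℕ) [Fact ℓ.Prime] (hℓN : ¬ ℓ ∣ N),
        ∃ a : integralClosure ℤ ℂ, (a : ℂ) = ModularFormClass.qCoeff g ℓ ∧
          heckeHom ℓ hℓN F χ = (AddMonoidHom.mulLeft (ψ a)).comp χ := by
  obtain ⟨χ, h1, h2, -, -, h3⟩ := exists_eigen_parabolicHom_strong hg q ψ
  exact ⟨χ, h1, h2, h3⟩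

end Fermat.Agent.S29.H201

end
-- ===== PACK-END S29/H201/E2.lean

-- ===== PACK-BEGIN S37/H700/GaussNorm.lean
section


/-!
# S37 / piece GAUSS (helper700): normal forms

* `exists_normaliser` : among finitely many elements of `L`, not all zero, one divides all
  the others in the valuation ring `A`.
* `normalize_family`  : a finite family of polynomials over `L`, not all zero, can be scaled
  into `A[X]` such that one member has nonzero reduction.
* `exists_denominator`: every element of the span satisfies `Q(j)·x = ∑ Pᵢ(j)·yᵢ`.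
-/

set_option autoImplicit false

noncomputable section

namespace Fermat.Agent.S37.H700

open ModularCurve HahnSeries Polynomial
open Fermat.Agent.S28 (jField intDivisorExpansions)

section Normalise

variable {L : Type*} [Field L] (A : ValuationSubring L)

theorem exists_normaliser (C : Finset L) (hC : ∃ x ∈ C, x ≠ 0) :
    ∃ x₀ ∈ C, x₀ ≠ 0 ∧ ∀ x ∈ C, x₀⁻¹ * x ∈ A := by
  obtain ⟨x₁, hx₁, hx₁0⟩ := hC
  obtain ⟨x₀, hx₀, hmax⟩ := Finset.exists_max_image C (fun x => A.valuation x) ⟨x₁, hx₁⟩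
  have hx₀0 : x₀ ≠ 0 := by
    intro h
    have h1 := hmax x₁ hx₁
    simp only [h, map_zero] at h1
    exact hx₁0 ((map_eq_zero _).mp (le_antisymm h1 zero_le))
  refine ⟨x₀, hx₀, hx₀0, fun x hx => ?_⟩
  rw [← A.valuation_le_one_iff, map_mul, map_inv₀]
  have hv0 : A.valuation x₀ ≠ 0 := (_root_.map_ne_zero _).mpr hx₀0
  rw [inv_mul_le_iff₀ (lt_of_le_of_ne zero_le hv0.symm), mul_one]
  exact hmax x hx

theorem exists_lift_of_coeff_mem (P : L[X]) (h : ∀ m, P.coeff m ∈ A) :
    ∃ P' : Polynomial A, P'.map A.subtype = P := by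
  have : P ∈ Polynomial.lifts A.subtype := by
    rw [Polynomial.lifts_iff_coeff_lifts]
    intro m
    exact ⟨⟨P.coeff m, h m⟩, rfl⟩
  exact (Polynomial.mem_lifts P).mp this

theorem normalize_family {ι : Type*} [Fintype ι] (P : ι → L[X]) (h : ∃ i, P i ≠ 0) :
    ∃ c : L, c ≠ 0 ∧ ∃ P' : ι → Polynomial A,
      (∀ i, (P' i).map A.subtype = Polynomial.C c * P i) ∧
      ∃ i, (P' i).map (IsLocalRing.residue A) ≠ 0 := by
  classical
  set C : Finset L := Finset.univ.biUnion (fun i => (P i).coeffs) with hCdef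
  have hCne : ∃ x ∈ C, x ≠ 0 := by
    obtain ⟨i, hi⟩ := h
    refine ⟨(P i).leadingCoeff, ?_, Polynomial.leadingCoeff_ne_zero.mpr hi⟩
    rw [hCdef, Finset.mem_biUnion]
    exact ⟨i, Finset.mem_univ _, Polynomial.coeff_mem_coeffs (Polynomial.leadingCoeff_ne_zero.mpr hi)⟩
  obtain ⟨x₀, hx₀C, hx₀0, hx₀⟩ := exists_normaliser A C hCne
  have hcoeff : ∀ i m, x₀⁻¹ * (P i).coeff m ∈ A := by
    intro i m
    by_cases hz : (P i).coeff m = 0
    · rw [hz, mul_zero]; exact A.zero_mem
    · apply hx₀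
      rw [hCdef, Finset.mem_biUnion]
      exact ⟨i, Finset.mem_univ _, Polynomial.coeff_mem_coeffs hz⟩
  have hlift : ∀ i, ∃ P' : Polynomial A, P'.map A.subtype = Polynomial.C x₀⁻¹ * P i := by
    intro i
    apply exists_lift_of_coeff_mem
    intro m
    rw [Polynomial.coeff_C_mul]
    exact hcoeff i m
  choose P' hP' using hlift
  refine ⟨x₀⁻¹, inv_ne_zero hx₀0, P', hP', ?_⟩
  rw [hCdef, Finset.mem_biUnion] at hx₀C
  obtain ⟨i₀, -, hi₀⟩ := hx₀C
  rw [Polynomial.mem_coeffs_iff] at hi₀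
  obtain ⟨m₀, -, hm₀⟩ := hi₀
  refine ⟨i₀, fun hzero => ?_⟩
  have h1 : ((P' i₀).coeff m₀ : L) = 1 := by
    have := congrArg (fun p => Polynomial.coeff p m₀) (hP' i₀)
    simp only [Polynomial.coeff_map, Polynomial.coeff_C_mul] at this
    rw [← hm₀, inv_mul_cancel₀ hx₀0] at this
    exact this
  have h2 : (P' i₀).coeff m₀ = 1 := Subtype.ext h1
  have h3 := congrArg (fun p => Polynomial.coeff p m₀) hzero
  simp only [Polynomial.coeff_map, Polynomial.coeff_zero, h2, map_one] at h3
  exact one_ne_zero h3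

end Normalise

section Denominator

variable (L : Type*) [Field L] {n : ℕ} (y : Fin n → LaurentSeries ℤ)

/-- Every element of the `L(j)`-span has a polynomial denominator. -/
theorem exists_denominator {x : LaurentSeries L} (hx : x ∈ spanL L y) :
    ∃ (Q : L[X]) (P : Fin n → L[X]), Q ≠ 0 ∧
      evalJ L Q * x = ∑ i, evalJ L (P i) * coeffMap (Int.castRingHom L) (y i) := by
  classical
  induction hx using Submodule.span_induction with
  | mem x hx =>
    obtain ⟨i, rfl⟩ := hx
    refine ⟨1, fun j => if j = i then 1 else 0, one_ne_zero, ?_⟩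
    rw [evalJ_one, one_mul, Finset.sum_eq_single i]
    · simp [evalJ_one]
    · intro j _ hj
      simp [hj, evalJ_zero]
    · intro h
      exact absurd (Finset.mem_univ i) h
  | zero =>
    exact ⟨1, fun _ => 0, one_ne_zero, by simp [evalJ_zero]⟩
  | add x z _ _ hx hz =>
    obtain ⟨Q₁, P₁, hQ₁, h₁⟩ := hx
    obtain ⟨Q₂, P₂, hQ₂, h₂⟩ := hz
    refine ⟨Q₁ * Q₂, fun i => Q₂ * P₁ i + Q₁ * P₂ i, mul_ne_zero hQ₁ hQ₂, ?_⟩
    simp only [evalJ_mul, evalJ_add, add_mul, Finset.sum_add_distrib, mul_assoc]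
    rw [← Finset.mul_sum, ← Finset.mul_sum, ← h₁, ← h₂]
    ring
  | smul c x _ hx =>
    obtain ⟨Q, P, hQ, h⟩ := hx
    obtain ⟨r, s, hs, hrs⟩ := exists_evalJ_of_mem_jField L c.2
    refine ⟨s * Q, fun i => r * P i, mul_ne_zero hs hQ, ?_⟩
    simp only [evalJ_mul, mul_assoc]
    rw [← Finset.mul_sum, ← h, smul_jField_def, ← hrs]
    ring

end Denominator

end Fermat.Agent.S37.H700

end
end
-- ===== PACK-END S37/H700/GaussNorm.lean

-- ===== PACK-BEGIN S24/H117/Integral.lean
section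




/-!
# S24 / H117 — integrality at all places over `t = 0` from the embeddings

Key lemma for LT2: if `F / E` (`E ⊆ K(t)`) has degree `#X` and `L : LocalData K F C X t`, then an
element `f : F` whose images under all the embeddings `L.σ x` have non-negative order has
non-negative order at **every** place `v` of `F` with `0 < v.ord t`.
-/

set_option autoImplicit false
set_option linter.style.haveILetI false

noncomputable section

open AlgebraicCurve Polynomial IntermediateField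

namespace Fermat.Agent.S24.H117

variable {K F : Type*} [Field K] [Field F] [Algebra K F]
variable {C : Type*} [Field C] {X : Type*}
variable {t : F} (L : LocalData K F C X t)

theorem σ_aeval_eq (x y : X) (p : K[X]) : L.σ x (aeval t p) = L.σ y (aeval t p) := by
  rw [aeval_eq_sum_range]
  simp only [map_sum, Algebra.smul_def, map_mul, map_pow, L.σ_const, L.σ_t_eq x y]

/-- All the embeddings of a `LocalData` agree on `K(t)`. -/
theorem σ_eq_of_mem_adjoin (x y : X) {e : F} (he : e ∈ K⟮t⟯) : L.σ x e = L.σ y e := by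
  obtain ⟨r, s, rfl⟩ := (mem_adjoin_simple_iff K e).mp he
  rw [map_div₀, map_div₀, σ_aeval_eq L x y r, σ_aeval_eq L x y s]

variable [CharZero K]

/-- **Integrality lemma.** -/
theorem ord_nonneg_of_forall_order_nonneg
    (E : IntermediateField K F) (hE : E ≤ K⟮t⟯) [FiniteDimensional E F]
    (hrank : Module.finrank E F = Nat.card X)
    (f : F) (hf : ∀ x, 0 ≤ ((L.σ x) f).order)
    (v : Place K F) (hv : 0 < v.ord t) : 0 ≤ v.ord f := by
  classical
  have hXne : Nonempty X := by
    have h0 : 0 < Nat.card X := hrank ▸ Module.finrank_pos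
    exact (Nat.card_pos_iff.mp h0).1
  obtain ⟨x₀⟩ := hXne
  have : CharZero E := charZero_of_injective_algebraMap (algebraMap K E).injective
  let σ₀ : E →+* LaurentSeries C := (L.σ x₀).comp (algebraMap E F)
  letI algELS : Algebra E (LaurentSeries C) := σ₀.toAlgebra
  -- the embeddings as `E`-algebra homomorphisms into the algebraic closure
  let τ : X → (F →ₐ[E] AlgebraicClosure (LaurentSeries C)) := fun x =>
    { toRingHom := (algebraMap (LaurentSeries C) (AlgebraicClosure (LaurentSeries C))).comp (L.σ x)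
      commutes' := fun e => by
        show algebraMap (LaurentSeries C) (AlgebraicClosure (LaurentSeries C)) (L.σ x (e : F))
          = algebraMap (LaurentSeries C) (AlgebraicClosure (LaurentSeries C)) (L.σ x₀ (e : F))
        rw [σ_eq_of_mem_adjoin L x x₀ (hE e.2)] }
  have hτapply : ∀ x g, τ x g
      = algebraMap (LaurentSeries C) (AlgebraicClosure (LaurentSeries C)) (L.σ x g) :=
    fun _ _ => rfl
  have hτinj : Function.Injective τ := by
    intro x y hxy
    apply L.σ_inj
    ext g : 1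
    have := DFunLike.congr_fun hxy g
    rw [hτapply, hτapply] at this
    exact (algebraMap (LaurentSeries C) (AlgebraicClosure (LaurentSeries C))).injective this
  have hcard : Nat.card (F →ₐ[E] AlgebraicClosure (LaurentSeries C)) = Nat.card X := by
    rw [← hrank, ← Fintype.card_eq_nat_card]
    exact AlgHom.card E F (AlgebraicClosure (LaurentSeries C))
  have hτsurj : Function.Surjective τ :=
    ((Nat.bijective_iff_injective_and_card τ).mpr ⟨hτinj, hcard.symm⟩).2
  -- the minimal polynomial of `f`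
  have hfint : IsIntegral E f := Algebra.IsIntegral.isIntegral f
  have hPmonic : (minpoly E f).Monic := minpoly.monic hfint
  -- coefficients of the minimal polynomial are integral at `x₀`
  have hcoeff : ∀ i, 0 ≤ ((L.σ x₀) (((minpoly E f).coeff i : E) : F)).order := by
    intro i
    have hint : IsIntegral (OL C)
        (((minpoly E f).map (algebraMap E (AlgebraicClosure (LaurentSeries C)))).coeff i) := by
      refine Polynomial.isIntegral_coeff_of_factors _ ?_ (IsAlgClosed.splits _) ?_ i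
      · rw [(hPmonic.map _).leadingCoeff]
        exact isIntegral_one
      · intro r hr
        have hr' : r ∈ (minpoly E f).rootSet (AlgebraicClosure (LaurentSeries C)) := by
          rw [mem_rootSet']
          refine ⟨(hPmonic.map _).ne_zero, ?_⟩
          rw [IsRoot, eval_map_algebraMap] at hr
          exact hr
        rw [← Algebra.IsAlgebraic.range_eval_eq_rootSet_minpoly] at hr'
        obtain ⟨ψ, rfl⟩ := hr'
        obtain ⟨x, rfl⟩ := hτsurj ψ
        show IsIntegral (OL C) (τ x f)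
        rw [hτapply]
        have : algebraMap (LaurentSeries C) (AlgebraicClosure (LaurentSeries C)) (L.σ x f)
            = algebraMap (OL C) (AlgebraicClosure (LaurentSeries C)) ⟨L.σ x f, hf x⟩ := rfl
        rw [this]
        exact isIntegral_algebraMap
    rw [coeff_map] at hint
    have h2 : IsIntegral (OL C) (σ₀ ((minpoly E f).coeff i)) := by
      have : algebraMap E (AlgebraicClosure (LaurentSeries C)) ((minpoly E f).coeff i)
          = algebraMap (LaurentSeries C) (AlgebraicClosure (LaurentSeries C))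
            (σ₀ ((minpoly E f).coeff i)) := rfl
      rw [this] at hint
      exact (isIntegral_algebraMap_iff
        (algebraMap (LaurentSeries C) (AlgebraicClosure (LaurentSeries C))).injective).mp hint
    obtain ⟨y, hy⟩ := IsIntegrallyClosed.isIntegral_iff.mp h2
    have : σ₀ ((minpoly E f).coeff i) ∈ OL C := hy ▸ y.2
    exact this
  -- transfer to `v`
  have hcoeffv : ∀ i, (((minpoly E f).coeff i : E) : F) ∈ v.toValuationSubring := fun i =>
    mem_of_ord_nonneg v (ord_nonneg_of_mem_adjoin (hE ((minpoly E f).coeff i).2) hv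
      (ord_t_pos L x₀) ((ord_placeOf_nonneg_iff L x₀ _).mpr (hcoeff i)))
  -- `f` is integral over `O_v`
  have hint : IsIntegral v.toValuationSubring f := by
    have hlifts : (minpoly E f).map (algebraMap E F)
        ∈ Polynomial.lifts (algebraMap v.toValuationSubring F) := by
      rw [lifts_iff_coeff_lifts]
      intro n
      rw [coeff_map]
      exact ⟨⟨_, hcoeffv n⟩, rfl⟩
    obtain ⟨q, hq, -, hqm⟩ := lifts_and_natDegree_eq_and_monic hlifts (hPmonic.map _)
    refine ⟨q, hqm, ?_⟩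
    rw [← eval_map, hq, eval_map_algebraMap]
    exact minpoly.aeval E f
  obtain ⟨y, hy⟩ := IsIntegrallyClosed.isIntegral_iff.mp hint
  exact ord_nonneg_of_mem v (hy ▸ y.2)

end Fermat.Agent.S24.H117

end
end
-- ===== PACK-END S24/H117/Integral.lean

-- ===== PACK-BEGIN S24/H504/FF1.lean
section



/-!
# The fundamental inequality `n ≤ ∑_{v | t} e_v` from local embedding data

Dedekind-free: every embedding `σ x` induces a place over `t = 0`, and at most `e_v = v(t)`
embeddings induce a given place `v` (rigidity, `card_induces_le`).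
-/

set_option autoImplicit false

namespace Fermat.Agent.S24.H504

open AlgebraicCurve

variable {K F : Type*} [Field K] [Field F] [Algebra K F]
variable {C : Type*} [Field C] {X : Type*} {t : F}

theorem LocalData.order_const_nonneg (L : LocalData K F C X t) (x : X) (c : K) :
    0 ≤ (L.σ x (algebraMap K F c)).order := by
  rw [L.σ_const, HahnSeries.order_C]

theorem LocalData.exists_order_ne_zero (L : LocalData K F C X t) (x : X) :
    ∃ f : F, (L.σ x f).order ≠ 0 :=
  ⟨t, by rw [L.σ_t_order]; exact_mod_cast L.m_pos.ne'⟩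

/-- The place of `F/K` induced by the embedding `σ x`. -/
noncomputable def LocalData.placeAt (L : LocalData K F C X t) (x : X) : Place K F :=
  placeOfEmb (L.σ x) (LocalData.order_const_nonneg L x) (LocalData.exists_order_ne_zero L x)

theorem LocalData.induces_placeAt (L : LocalData K F C X t) (x : X) :
    Induces (L.σ x) (LocalData.placeAt L x) :=
  induces_placeOfEmb _ _ _

theorem LocalData.ord_t_pos_of_induces (L : LocalData K F C X t) {x : X} {v : Place K F}
    (h : Induces (L.σ x) v) : 0 < v.ord t := by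
  have hm : 0 < (L.σ x t).order := by rw [L.σ_t_order]; exact_mod_cast L.m_pos
  have h1 := (h.order_nonneg_iff t).mp hm.le
  have h2 := (h.order_eq_zero_iff t).not.mp hm.ne'
  omega

theorem LocalData.placeAt_ord_t_pos (L : LocalData K F C X t) (x : X) :
    0 < (LocalData.placeAt L x).ord t :=
  LocalData.ord_t_pos_of_induces L (LocalData.induces_placeAt L x)

theorem LocalData.placeAt_eq_iff (L : LocalData K F C X t) (x : X) (v : Place K F) :
    LocalData.placeAt L x = v ↔ Induces (L.σ x) v :=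
  ⟨fun h => h ▸ LocalData.induces_placeAt L x,
    fun h => (LocalData.induces_placeAt L x).unique h⟩

/-- **Fibre bound** in `LocalData` language: at most `v(t)` of the embeddings induce `v`. -/
theorem LocalData.card_fibre_le [IsAlgClosed K] [CharZero C] [Finite X]
    [Algebra.IsAlgebraic (IntermediateField.adjoin K {t}) F]
    (L : LocalData K F C X t) (v : Place K F) (hv : 0 < v.ord t) :
    (Nat.card {x : X // Induces (L.σ x) v} : ℤ) ≤ v.ord t := by
  have := card_induces_le hv L.ι L.σ L.σ_inj L.σ_const L.σ_t_eq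
  have h2 : ((v.ord t).toNat : ℤ) = v.ord t := Int.toNat_of_nonneg hv.le
  rw [← h2]
  exact_mod_cast this

/-- **Fundamental inequality (FF1).** `n = #X ≤ ∑_{v over t = 0} v(t)`. -/
theorem LocalData.card_le_sum_ord [IsAlgClosed K] [CharZero C] [Finite X]
    [Algebra.IsAlgebraic (IntermediateField.adjoin K {t}) F]
    (L : LocalData K F C X t) (s : Finset (Place K F)) (hs : ∀ v, v ∈ s ↔ 0 < v.ord t) :
    (Nat.card X : ℤ) ≤ ∑ v ∈ s, v.ord t := by
  classical
  have := Fintype.ofFinite X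
  have hmaps : ∀ x ∈ (Finset.univ : Finset X), LocalData.placeAt L x ∈ s :=
    fun x _ => (hs _).mpr (LocalData.placeAt_ord_t_pos L x)
  have hcard := Finset.card_eq_sum_card_fiberwise hmaps
  rw [Nat.card_eq_fintype_card, ← Finset.card_univ, hcard]
  push_cast
  apply Finset.sum_le_sum
  intro v hv
  have hfib := LocalData.card_fibre_le L v ((hs v).mp hv)
  refine le_trans (le_of_eq ?_) hfib
  congr 1
  rw [Nat.card_eq_fintype_card, Fintype.card_subtype]
  congr 1
  ext x
  simp only [Finset.mem_filter, Finset.mem_univ, true_and]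
  exact LocalData.placeAt_eq_iff L x v

end Fermat.Agent.S24.H504

end
-- ===== PACK-END S24/H504/FF1.lean

-- ===== PACK-BEGIN S28/H326/Hecke.lean
section
/-
S28 / helper326: the analytic input `HeckeInput p` from the Prelude Hecke operator `T_p`
on level-one modular forms and the level-one structure theorem (helper505).
-/






set_option autoImplicit false
set_option linter.unusedSectionVars false

noncomputable section

namespace Fermat.Agent.S28.H326

open ModularCurve HahnSeries UpperHalfPlane ModularForm MatrixGroups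

/-! ### `T_p` on level one forms -/

theorem gamma0_one_coe :
    ((CongruenceSubgroup.Gamma0 1 : Subgroup SL(2, ℤ)) : Subgroup (GL (Fin 2) ℝ)) = 𝒮ℒ := by
  have h : CongruenceSubgroup.Gamma0 1 = ⊤ := by
    ext g
    simp [CongruenceSubgroup.Gamma0_mem, Subsingleton.elim (_ : ZMod 1) 0]
  rw [h, MonoidHom.range_eq_map]

/-- `T_p f` as a level one modular form. -/
def heckeForm (k : ℤ) {p : ℕ} (hp : p.Prime) (f : ModularForm 𝒮ℒ k) : ModularForm 𝒮ℒ k where
  toFun := ModularForm.heckeT k p ⇑f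
  slash_action_eq' := fun γ hγ =>
    ModularForm.heckeT_slash_eq_self_of_mem_Gamma0 (N := 1) k hp
      (by rw [Nat.dvd_one]; exact hp.one_lt.ne')
      (fun γ' hγ' => SlashInvariantFormClass.slash_action_eq f γ' (gamma0_one_coe ▸ hγ'))
      γ (gamma0_one_coe.symm ▸ hγ)
  holo' := ModularForm.mdifferentiable_heckeT (ModularFormClass.holo f) k p
  bdd_at_cusps' := fun hc => ModularFormClass.isBoundedAt_heckeT f p hc

theorem coe_heckeForm (k : ℤ) {p : ℕ} (hp : p.Prime) (f : ModularForm 𝒮ℒ k) :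
    ⇑(heckeForm k hp f) = ModularForm.heckeT k p ⇑f := rfl

theorem qExpansion_heckeForm_coeff (k : ℤ) {p : ℕ} (hp : p.Prime) (f : ModularForm 𝒮ℒ k)
    (n : ℕ) :
    (qExpansion 1 (heckeForm k hp f)).coeff n =
      (qExpansion 1 f).coeff (n * p) +
        if p ∣ n then (p : ℂ) ^ (k - 1) * (qExpansion 1 f).coeff (n / p) else 0 := by
  have := ModularFormClass.qCoeff_heckeT f one_mem_strictPeriods_SL hp.ne_zero n
  simpa [ModularFormClass.qCoeff, coe_heckeForm, ModularForm.coeffHeckeT] using this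

/-! ### The forms `E₄^{3a} Δ^r` -/

/-- `Δ` as a modular form -/
def deltaForm : ModularForm 𝒮ℒ 12 := CuspForm.toModularFormₗ CuspForm.discriminant

theorem qExpansion_deltaForm : qExpansion 1 deltaForm = H505.deltaC :=
  H505.qExpansion_discriminant_eq_deltaC

/-- `E₄^{3a} Δ^r` -/
def monoE4Delta (a r : ℕ) (k : ℤ) (hk : ((3 * a : ℕ) : ℤ) * 4 + ((r : ℕ) : ℤ) * 12 = k) :
    ModularForm 𝒮ℒ k :=
  ModularForm.mcast hk ((E₄.pow (3 * a)).mul (deltaForm.pow r))

theorem toC_EZ : toC EZ = H505.e4C ^ 3 := by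
  rw [EZ, map_pow, H505.e4C]

theorem toC_DZ : toC DZ = H505.deltaC := by
  rw [DZ, map_mul, PowerSeries.map_X, H505.deltaC, dedekindEtaUnit, map_pow]

theorem qExpansion_monoE4Delta (a r : ℕ) (k : ℤ)
    (hk : ((3 * a : ℕ) : ℤ) * 4 + ((r : ℕ) : ℤ) * 12 = k) :
    qExpansion 1 (monoE4Delta a r k hk) = toC (EZ ^ a * DZ ^ r) := by
  rw [monoE4Delta, ModularForm.qExpansion_mcast,
    ModularForm.qExpansion_mul one_pos one_mem_strictPeriods_SL,
    ModularForm.qExpansion_pow one_pos one_mem_strictPeriods_SL,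
    ModularForm.qExpansion_pow one_pos one_mem_strictPeriods_SL,
    H505.qExpansion_E₄_eq_e4C, qExpansion_deltaForm, map_mul, map_pow, map_pow, toC_EZ, toC_DZ,
    ← pow_mul]

/-! ### Integrality by leading terms, over `ℂ` -/

theorem C_mul_coeff (c : ℂ) (x : LaurentSeries ℂ) (n : ℤ) :
    (HahnSeries.C c * x).coeff n = c * x.coeff n := by
  rw [HahnSeries.C_mul_eq_smul, HahnSeries.coeff_smul, smul_eq_mul]

theorem aeval_jC_coeff (Q : Polynomial ℂ) {n : ℕ} (hn : Q.natDegree ≤ n) :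
    (Polynomial.aeval (jqModC ℂ) Q).coeff (-(n : ℤ)) = Q.coeff n := by
  rw [H505.aeval_laurent_eq_eval₂, Polynomial.eval₂_eq_sum_range' _ (Nat.lt_succ_of_le hn),
    HahnSeries.coeff_sum, Finset.sum_range_succ]
  rw [Finset.sum_eq_zero, zero_add, C_mul_coeff, coeff_jqModC_pow_self, mul_one]
  intro i hi
  rw [C_mul_coeff, coeff_jqModC_pow_of_lt ℂ (by have := Finset.mem_range.mp hi; omega),
    mul_zero]

theorem exists_int_poly_of_kap (Q : Polynomial ℂ) (x : LaurentSeries ℤ)
    (h : Polynomial.aeval (jqModC ℂ) Q = kap x) :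
    ∃ Q' : Polynomial ℤ, Polynomial.aeval (jqModC ℤ) Q' = x := by
  suffices H : ∀ d : ℕ, ∀ (Q : Polynomial ℂ) (x : LaurentSeries ℤ), Q.natDegree < d →
      Polynomial.aeval (jqModC ℂ) Q = kap x →
        ∃ Q' : Polynomial ℤ, Polynomial.aeval (jqModC ℤ) Q' = x from
    H (Q.natDegree + 1) Q x (Nat.lt_succ_self _) h
  intro d
  induction d with
  | zero => intro Q x hQ; omega
  | succ d ih =>
    intro Q x hQ hx
    have hle : Q.natDegree ≤ d := Nat.lt_succ_iff.mp hQ
    have hlead := aeval_jC_coeff Q hle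
    rw [hx, coeffMap_coeff] at hlead
    set m : ℤ := x.coeff (-(d : ℤ)) with hm
    set Q1 : Polynomial ℂ := Q - Polynomial.C (Q.coeff d) * Polynomial.X ^ d with hQ1
    have hx1 : Polynomial.aeval (jqModC ℂ) Q1 = kap (x - (m : LaurentSeries ℤ) * jqModC ℤ ^ d) := by
      rw [hQ1, map_sub, map_mul, Polynomial.aeval_C, map_pow, Polynomial.aeval_X, hx, map_sub,
        map_mul, map_pow, coeffMap_jqModC, ← hlead]
      congr 2
      rw [H505.algebraMap_laurent_eq_C, map_intCast]
      simp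
    by_cases h0 : Q1 = 0
    · refine ⟨Polynomial.C m * Polynomial.X ^ d, ?_⟩
      rw [h0, map_zero] at hx1
      have h1 : x - (m : LaurentSeries ℤ) * jqModC ℤ ^ d = 0 :=
        kap_injective (by rw [← hx1, map_zero])
      rw [map_mul, Polynomial.aeval_C, map_pow, Polynomial.aeval_X]
      rw [sub_eq_zero] at h1
      rw [h1]
      simp
    · have hdeg : Q1.natDegree < d := by
        have h1 : Q1.natDegree ≤ d := by
          refine (Polynomial.natDegree_sub_le _ _).trans (max_le hle ?_)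
          exact Polynomial.natDegree_C_mul_X_pow_le _ _
        rcases Nat.lt_or_ge Q1.natDegree d with h2 | h2
        · exact h2
        · have h3 : Q1.natDegree = d := le_antisymm h1 h2
          have h4 : Q1.coeff d = 0 := by simp [hQ1]
          have h5 : Q1.leadingCoeff = 0 := by rw [Polynomial.leadingCoeff, h3, h4]
          exact absurd (Polynomial.leadingCoeff_eq_zero.mp h5) h0
      obtain ⟨Q', hQ'⟩ := ih Q1 _ hdeg hx1
      refine ⟨Q' + Polynomial.C m * Polynomial.X ^ d, ?_⟩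
      rw [map_add, hQ', map_mul, Polynomial.aeval_C, map_pow, Polynomial.aeval_X]
      simp

/-! ### The Hecke input -/

theorem kap_heckeL_eq_gen (p : ℕ) [NeZero p] (hp : p.Prime) (φ : PowerSeries ℤ) (k' : ℕ) (k : ℤ)
    (hk' : k = (k' : ℤ)) (F : ModularForm 𝒮ℒ k) (hF : qExpansion 1 F = toC φ) :
    kap (heckeL p k' φ) =
      (p : LaurentSeries ℂ) * ofPS (qExpansion 1 (heckeForm k hp F)) := by
  have hp0 : (p : ℂ) ≠ 0 := Nat.cast_ne_zero.mpr hp.ne_zero
  ext n
  rw [heckeL]
  simp only [map_add, map_mul, map_pow, map_natCast, coeffMap_qExpand, kap_ofPS, toC_UpZ]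
  rw [HahnSeries.coeff_add, ← Nat.cast_pow, natCast_mul_coeff, natCast_mul_coeff,
    natCast_mul_coeff]
  rcases lt_or_ge n 0 with hn | hn
  · rw [ofPS_coeff_neg _ hn, ofPS_coeff_neg _ hn, mul_zero, add_zero]
    have := cBase_coeff_neg p (toC φ) hn
    rw [cBase, RingHom.comp_apply] at this
    rw [this, mul_zero]
  · lift n to ℕ using hn
    rw [ofPS_coeff_nat, ofPS_coeff_nat, qExpansion_heckeForm_coeff, hF, coeff_Up]
    by_cases hdvd : p ∣ n
    · obtain ⟨m, rfl⟩ := hdvd
      rw [if_pos (dvd_mul_right p m)]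
      have h1 : ((p * m : ℕ) : ℤ) = (p : ℤ) * m := by push_cast; ring
      rw [h1, qExpand_coeff_mul, ofPS_coeff_nat, Nat.mul_div_cancel_left m hp.pos]
      have h2 : (p : ℂ) * (p : ℂ) ^ (k - 1) = ((p ^ k' : ℕ) : ℂ) := by
        rw [hk', ← zpow_one_add₀ hp0]
        push_cast
        rw [show (1 : ℤ) + ((k' : ℤ) - 1) = (k' : ℤ) by ring, zpow_natCast]
      rw [mul_add, ← mul_assoc, h2]
      ring
    · rw [if_neg hdvd, add_zero]
      have h1 : ¬ (p : ℤ) ∣ (n : ℤ) := by exact_mod_cast hdvd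
      rw [qExpand_coeff_of_not_dvd p _ h1, mul_zero, zero_add]

theorem kap_heckeL_eq (p : ℕ) [NeZero p] (hp : p.Prime) (a r : ℕ) (k : ℤ)
    (hk : ((3 * a : ℕ) : ℤ) * 4 + ((r : ℕ) : ℤ) * 12 = k) :
    kap (heckeL p (12 * (a + r)) (EZ ^ a * DZ ^ r)) =
      (p : LaurentSeries ℂ) *
        ofPS (qExpansion 1 (heckeForm k hp (monoE4Delta a r k hk))) :=
  kap_heckeL_eq_gen p hp _ _ k (by rw [← hk]; push_cast; ring) _ (qExpansion_monoE4Delta a r k hk)

/-- **The Hecke input holds.** -/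
theorem heckeInput (p : ℕ) [NeZero p] (hp : p.Prime) : HeckeInput p := by
  intro a r
  have hk : ((3 * a : ℕ) : ℤ) * 4 + ((r : ℕ) : ℤ) * 12 = (12 * ((a + r : ℕ) : ℤ)) := by
    push_cast; ring
  obtain ⟨P, -, -, hP⟩ := H505.levelOne_structure (a + r) _ rfl
    (heckeForm _ hp (monoE4Delta a r _ hk))
  have h1 := kap_heckeL_eq p hp a r _ hk
  rw [hP] at h1
  have hD : HahnSeries.ofPowerSeries ℤ ℂ H505.deltaC = kap deltaZ := by
    rw [deltaZ, kap_ofPS, toC_DZ]
  have h2 : Polynomial.aeval (jqModC ℂ) (Polynomial.C (p : ℂ) * P) =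
      kap (heckeL p (12 * (a + r)) (EZ ^ a * DZ ^ r) * deltaInvZ ^ (a + r)) := by
    have h3 : kap deltaZ * kap deltaInvZ = 1 := by
      rw [← map_mul, deltaZ_mul_deltaInvZ, map_one]
    have h4 : (p : LaurentSeries ℂ) = HahnSeries.C (p : ℂ) := by simp
    have h5 : kap (heckeL p (12 * (a + r)) (EZ ^ a * DZ ^ r) * deltaInvZ ^ (a + r)) =
        kap (heckeL p (12 * (a + r)) (EZ ^ a * DZ ^ r)) * kap deltaInvZ ^ (a + r) := by
      rw [map_mul, map_pow]
    have h6 : Polynomial.aeval (jqModC ℂ) (Polynomial.C (p : ℂ) * P) =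
        HahnSeries.C (p : ℂ) * Polynomial.aeval (jqModC ℂ) P := by
      rw [map_mul, Polynomial.aeval_C, H505.algebraMap_laurent_eq_C]
    rw [h5, h6, h1, hD, h4]
    calc HahnSeries.C (p : ℂ) * Polynomial.aeval (jqModC ℂ) P
        = HahnSeries.C (p : ℂ) * Polynomial.aeval (jqModC ℂ) P *
            (kap deltaZ * kap deltaInvZ) ^ (a + r) := by rw [h3, one_pow, mul_one]
      _ = _ := by rw [mul_pow]; ring
  obtain ⟨Q', hQ'⟩ := exists_int_poly_of_kap _ _ h2
  refine ⟨Q', ?_⟩
  rw [hQ', mul_assoc, ← mul_pow, mul_comm deltaInvZ, deltaZ_mul_deltaInvZ, one_pow, mul_one]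

end Fermat.Agent.S28.H326

end
end
-- ===== PACK-END S28/H326/Hecke.lean

-- ===== PACK-BEGIN Lib/RR/H443/Discrete.lean
section




/-!
# RR bridge (helper443), part 1: valuation rings of a function field are discrete

Characteristic-free.  Let `F / K` be a field extension such that `F` is finite over `K(x)` for
every transcendental `x`.  Then every valuation subring `O ≠ ⊤` of `F` containing `K` is a
principal ideal ring (Stichtenoth, Thm. 1.1.6), hence defines a `Place K F`.
-/

set_option autoImplicit false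

noncomputable section

open AlgebraicCurve Polynomial IntermediateField

namespace Fermat.Agent.Lib.RR.H443

variable {K F : Type*} [Field K] [Field F] [Algebra K F]

section Valuation

variable {Γ : Type*} [LinearOrderedCommGroupWithZero Γ] (v : Valuation F Γ)

/-- A finite sum whose nonzero terms have pairwise distinct valuations vanishes only if all
terms vanish. -/
theorem eq_zero_of_sum_eq_zero {ι : Type*} (s : Finset ι) (f : ι → F)
    (hinj : ∀ i ∈ s, ∀ j ∈ s, f i ≠ 0 → f j ≠ 0 → v (f i) = v (f j) → i = j)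
    (hsum : ∑ i ∈ s, f i = 0) : ∀ i ∈ s, f i = 0 := by
  classical
  by_contra hcon
  push Not at hcon
  obtain ⟨i₁, hi₁, hfi₁⟩ := hcon
  have hne : (s.filter fun i => f i ≠ 0).Nonempty := ⟨i₁, Finset.mem_filter.mpr ⟨hi₁, hfi₁⟩⟩
  obtain ⟨i₀, hi₀, hmax⟩ := Finset.exists_max_image _ (fun i => v (f i)) hne
  rw [Finset.mem_filter] at hi₀
  have hv0 : v (f i₀) ≠ 0 := (Valuation.ne_zero_iff v).mpr hi₀.2
  have hrest : v (∑ j ∈ s.erase i₀, f j) < v (f i₀) := by
    refine Valuation.map_sum_lt v hv0 fun j hj => ?_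
    rw [Finset.mem_erase] at hj
    by_cases hfj : f j = 0
    · rw [hfj, map_zero]
      exact zero_lt_iff.mpr hv0
    · have hle := hmax j (Finset.mem_filter.mpr ⟨hj.2, hfj⟩)
      refine lt_of_le_of_ne hle fun heq => hj.1 ?_
      exact hinj j hj.2 i₀ hi₀.1 hfj hi₀.2 heq
  have htot : v (∑ j ∈ s, f j) = v (f i₀) := by
    rw [← Finset.add_sum_erase s f hi₀.1]
    exact Valuation.map_add_eq_of_lt_left v hrest
  rw [hsum, map_zero] at htot
  exact hv0 htot.symm

variable (hK : ∀ a : K, a ≠ 0 → v (algebraMap K F a) = 1)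

include hK in
theorem v_algebraMap_le_one (a : K) : v (algebraMap K F a) ≤ 1 := by
  rcases eq_or_ne a 0 with rfl | ha
  · simp
  · exact (hK a ha).le

include hK in
theorem v_aeval_le_one {x : F} (hx : v x ≤ 1) (p : K[X]) : v (aeval x p) ≤ 1 := by
  rw [aeval_eq_sum_range]
  refine Valuation.map_sum_le v fun i _ => ?_
  rw [Algebra.smul_def, map_mul, map_pow]
  exact mul_le_one' (v_algebraMap_le_one v hK _) (pow_le_one' hx i)

include hK in
/-- `v (p(x)) = 1` when `p(0) ≠ 0` and `v x < 1`. -/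
theorem v_aeval_eq_one {x : F} (hx : v x < 1) (p : K[X]) (hp : p.coeff 0 ≠ 0) :
    v (aeval x p) = 1 := by
  have hdecomp : aeval x p = algebraMap K F (p.coeff 0) + x * aeval x p.divX := by
    have := congrArg (aeval x) (Polynomial.divX_mul_X_add p)
    simp only [map_add, map_mul, aeval_X, aeval_C] at this
    rw [← this]
    ring
  rw [hdecomp]
  have h1 : v (x * aeval x p.divX) < v (algebraMap K F (p.coeff 0)) := by
    rw [hK _ hp, map_mul]
    calc v x * v (aeval x p.divX) ≤ v x * 1 :=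
          mul_le_mul' le_rfl (v_aeval_le_one v hK hx.le _)
      _ = v x := mul_one _
      _ < 1 := hx
  rw [Valuation.map_add_eq_of_lt_left v h1, hK _ hp]

include hK in
/-- `v (p(x)) = v(x) ^ ord₀ p` for `p ≠ 0`, when `v x < 1`. -/
theorem v_aeval {x : F} (hx : v x < 1) (p : K[X]) (hp : p ≠ 0) :
    v (aeval x p) = v x ^ p.rootMultiplicity 0 := by
  obtain ⟨q, hq, hndvd⟩ := Polynomial.exists_eq_pow_rootMultiplicity_mul_and_not_dvd p hp 0
  have hq0 : q.coeff 0 ≠ 0 := by
    intro h0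
    apply hndvd
    rw [map_zero, sub_zero]
    exact Polynomial.X_dvd_iff.mpr h0
  conv_lhs => rw [hq]
  rw [map_zero, sub_zero, map_mul, map_pow, aeval_X, map_mul, map_pow,
    v_aeval_eq_one v hK hx q hq0, mul_one]

include hK in
/-- **Chain lemma** (Stichtenoth 1.1.6 (a)). -/
theorem chain_le_finrank {x : F} (hx0 : x ≠ 0) (hx : v x < 1) [FiniteDimensional K⟮x⟯ F]
    {m : ℕ} (y : Fin m → F) (hy1 : ∀ i, v (y i) < 1) (hyx : ∀ i, v x ≤ v (y i))
    (hmono : StrictMono fun i => v (y i)) :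
    m ≤ Module.finrank K⟮x⟯ F := by
  classical
  have hvx0 : v x ≠ 0 := (Valuation.ne_zero_iff v).mpr hx0
  have hy0 : ∀ i, y i ≠ 0 := fun i h => by
    have := hyx i
    rw [h, map_zero] at this
    exact hvx0 (le_antisymm this zero_le)
  open scoped IntermediateField.algebraAdjoinAdjoin in
  have hli : LinearIndependent K⟮x⟯ y := by
    rw [← LinearIndependent.iff_fractionRing (R := Algebra.adjoin K {x}) (K := K⟮x⟯)]
    rw [Fintype.linearIndependent_iff]
    intro c hc i
    -- choose polynomials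
    have hex : ∀ j, ∃ p : K[X], aeval x p = (c j : F) := fun j => by
      have : (c j : F) ∈ (aeval x : K[X] →ₐ[K] F).range := by
        rw [← Algebra.adjoin_singleton_eq_range_aeval]
        exact (c j).2
      exact this
    choose p hp using hex
    have hsum : ∑ j ∈ Finset.univ, aeval x (p j) * y j = 0 := by
      rw [← hc]
      refine Finset.sum_congr rfl fun j _ => ?_
      rw [hp j]
      rfl
    have hval : ∀ j, aeval x (p j) * y j ≠ 0 →
        v (aeval x (p j) * y j) = v x ^ (p j).rootMultiplicity 0 * v (y j) := by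
      intro j hj
      have hpj : p j ≠ 0 := by
        rintro h
        rw [h, map_zero, zero_mul] at hj
        exact hj rfl
      rw [map_mul, v_aeval v hK hx (p j) hpj]
    have key := eq_zero_of_sum_eq_zero v Finset.univ (fun j => aeval x (p j) * y j) (by
      intro i _ j _ hi hj heq
      rw [hval i hi, hval j hj] at heq
      -- wlog on the multiplicities
      have aux : ∀ (a b : ℕ) (i j : Fin m), a ≤ b →
          v x ^ a * v (y i) = v x ^ b * v (y j) → i = j := by
        intro a b i j hab h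
        obtain ⟨d, rfl⟩ := Nat.exists_eq_add_of_le hab
        rw [pow_add, mul_assoc] at h
        have hpa : v x ^ a ≠ 0 := pow_ne_zero _ hvx0
        have h' : v (y i) = v x ^ d * v (y j) := mul_left_cancel₀ hpa h
        rcases Nat.eq_zero_or_pos d with rfl | hd
        · rw [pow_zero, one_mul] at h'
          exact hmono.injective h'
        · exfalso
          have h1 : v x ^ d ≤ v x := by
            calc v x ^ d = v x ^ (d - 1 + 1) := by rw [Nat.sub_add_cancel hd]
              _ = v x ^ (d - 1) * v x := pow_succ _ _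
              _ ≤ 1 * v x := mul_le_mul' (pow_le_one' hx.le _) le_rfl
              _ = v x := one_mul _
          have h2 : v x ^ d * v (y j) < v x := by
            calc v x ^ d * v (y j) ≤ v x * v (y j) := mul_le_mul' h1 le_rfl
              _ < v x * 1 := by
                  exact mul_lt_mul_of_pos_left (hy1 j) (zero_lt_iff.mpr hvx0)
              _ = v x := mul_one _
          have h3 := hyx i
          rw [h'] at h3
          exact absurd h2 (not_lt.mpr h3)
      rcases le_total ((p i).rootMultiplicity 0) ((p j).rootMultiplicity 0) with h | h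
      · exact aux _ _ i j h heq
      · exact (aux _ _ j i h heq.symm).symm) hsum
    have hi := key i (Finset.mem_univ i)
    have : aeval x (p i) = 0 := (mul_eq_zero.mp hi).resolve_right (hy0 i)
    apply Subtype.ext
    rw [← hp i, this]
    rfl
  simpa using hli.fintype_card_le_finrank

end Valuation

section ValuationSubring

variable (O : ValuationSubring F)

/-- The valuation of a valuation subring containing `K` is trivial on `Kˣ`. -/
theorem valuation_algebraMap_eq_one (hK : ∀ a : K, algebraMap K F a ∈ O) (a : K) (ha : a ≠ 0) :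
    O.valuation (algebraMap K F a) = 1 := by
  have h1 : O.valuation (algebraMap K F a) ≤ 1 := (O.valuation_le_one_iff _).mpr (hK a)
  have h2 : O.valuation (algebraMap K F a⁻¹) ≤ 1 := (O.valuation_le_one_iff _).mpr (hK a⁻¹)
  have hne : algebraMap K F a ≠ 0 := (map_ne_zero (algebraMap K F)).mpr ha
  have hv0 : O.valuation (algebraMap K F a) ≠ 0 := (Valuation.ne_zero_iff _).mpr hne
  have hprod : O.valuation (algebraMap K F a) * O.valuation (algebraMap K F a⁻¹) = 1 := by
    rw [← map_mul, ← map_mul, mul_inv_cancel₀ ha, map_one, map_one]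
  have h3 : 1 ≤ O.valuation (algebraMap K F a) := by
    by_contra hlt
    rw [not_le] at hlt
    have h4 : O.valuation (algebraMap K F a) * O.valuation (algebraMap K F a⁻¹) < 1 := by
      calc O.valuation (algebraMap K F a) * O.valuation (algebraMap K F a⁻¹)
          ≤ O.valuation (algebraMap K F a) * 1 := mul_le_mul' le_rfl h2
        _ = O.valuation (algebraMap K F a) := mul_one _
        _ < 1 := hlt
    rw [hprod] at h4
    exact lt_irrefl _ h4
  exact le_antisymm h1 h3

/-- A nonzero nonunit of a valuation subring containing `K` is transcendental over `K`. -/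
theorem transcendental_of_valuation_lt_one (hK : ∀ a : K, algebraMap K F a ∈ O) {x : F}
    (hx : O.valuation x < 1) (hx0 : x ≠ 0) : Transcendental K x := by
  intro halg
  have hint : IsIntegral K x := halg.isIntegral
  have hinv : x⁻¹ ∈ Algebra.adjoin K {x} := by
    have h := IntermediateField.adjoin_simple_toSubalgebra_of_isAlgebraic halg
    have hmem' : x⁻¹ ∈ K⟮x⟯ := inv_mem (mem_adjoin_simple_self K x)
    have hmem : x⁻¹ ∈ (K⟮x⟯).toSubalgebra := hmem'
    rwa [h] at hmem
  have hxO : x ∈ O := (O.valuation_le_one_iff _).mp hx.le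
  let S : Subalgebra K F := { O.toSubring with algebraMap_mem' := hK }
  have hle : Algebra.adjoin K {x} ≤ S :=
    Algebra.adjoin_le (Set.singleton_subset_iff.mpr (show x ∈ S from hxO))
  have hinvO : x⁻¹ ∈ O := hle hinv
  have h1 : O.valuation x⁻¹ ≤ 1 := (O.valuation_le_one_iff _).mpr hinvO
  have hv0 : O.valuation x ≠ 0 := (Valuation.ne_zero_iff _).mpr hx0
  have h2 : O.valuation x * O.valuation x⁻¹ = 1 := by
    rw [← map_mul, mul_inv_cancel₀ hx0, map_one]
  have h3 : O.valuation x * O.valuation x⁻¹ < 1 := by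
    calc O.valuation x * O.valuation x⁻¹ ≤ O.valuation x * 1 := mul_le_mul' le_rfl h1
      _ = O.valuation x := mul_one _
      _ < 1 := hx
  rw [h2] at h3
  exact lt_irrefl _ h3

/-- **Stichtenoth 1.1.6**: divisibility is well-founded in a valuation ring of a function
field. -/
theorem wfDvdMonoid_of_finite (hK : ∀ a : K, algebraMap K F a ∈ O)
    (hfin : ∀ x : F, Transcendental K x → FiniteDimensional K⟮x⟯ F) : WfDvdMonoid O := by
  constructor
  rw [wellFounded_iff_isEmpty_descending_chain]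
  refine ⟨fun ⟨f, hf⟩ => ?_⟩
  set v := O.valuation with hv
  have hne : ∀ n, ((f (n + 1) : O) : F) ≠ 0 := fun n h => by
    have := (hf n).1
    exact this (Subtype.ext h)
  have hle1 : ∀ n, v (f n : F) ≤ 1 := fun n => (O.valuation_le_one_iff _).mpr (f n).2
  have hstep : ∀ n, v (f (n + 1) : F) < v (f (n + 2) : F) := by
    intro n
    obtain ⟨-, c, hc, hfc⟩ := hf (n + 1)
    have hcv : v (c : F) < 1 := by
      have : c ∈ IsLocalRing.maximalIdeal O := by
        rw [IsLocalRing.mem_maximalIdeal, mem_nonunits_iff]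
        exact hc
      exact (O.valuation_lt_one_iff c).mp this
    have h0 : v (f (n + 2) : F) ≠ 0 := (Valuation.ne_zero_iff _).mpr (hne (n + 1))
    have : (f (n + 1) : F) = (f (n + 1 + 1) : F) * (c : F) := by
      rw [hfc]; rfl
    rw [this, map_mul]
    calc v (f (n + 1 + 1) : F) * v (c : F) < v (f (n + 1 + 1) : F) * 1 :=
          mul_lt_mul_of_pos_left hcv (zero_lt_iff.mpr h0)
      _ = v (f (n + 2) : F) := mul_one _
  have hmono : StrictMono fun n : ℕ => v (f (n + 1) : F) := strictMono_nat_of_lt_succ hstep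
  have hlt1 : ∀ n, v (f (n + 1) : F) < 1 := fun n => lt_of_lt_of_le (hstep n) (hle1 _)
  set x : F := (f 1 : F) with hx
  have hx0 : x ≠ 0 := hne 0
  have hxt : Transcendental K x := transcendental_of_valuation_lt_one O hK (hlt1 0) hx0
  have := hfin x hxt
  have key := chain_le_finrank v (valuation_algebraMap_eq_one O hK) hx0 (hlt1 0)
    (m := Module.finrank K⟮x⟯ F + 1) (fun i => (f (i.1 + 1) : F)) (fun i => hlt1 _)
    (fun i => hmono.monotone (Nat.zero_le _)) (fun i j hij => hmono hij)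
  omega

/-- A valuation subring `≠ ⊤` of a function field, containing the constants, is a place. -/
def placeOfValuationSubring (hK : ∀ a : K, algebraMap K F a ∈ O) (hO : O ≠ ⊤)
    (hfin : ∀ x : F, Transcendental K x → FiniteDimensional K⟮x⟯ F) : Place K F where
  toValuationSubring := O
  algebraMap_mem' := hK
  ne_top' := hO
  isPrincipalIdealRing' := by
    have h := wfDvdMonoid_of_finite O hK hfin
    exact ((IsBezout.TFAE (R := O)).out 3 1).mp h

@[simp]
theorem placeOfValuationSubring_toValuationSubring (hK : ∀ a : K, algebraMap K F a ∈ O)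
    (hO : O ≠ ⊤) (hfin : ∀ x : F, Transcendental K x → FiniteDimensional K⟮x⟯ F) :
    (placeOfValuationSubring O hK hO hfin).toValuationSubring = O := rfl

end ValuationSubring

section Existence

variable (hfin : ∀ x : F, Transcendental K x → FiniteDimensional K⟮x⟯ F)

include hfin in
/-- Every transcendental element has a zero. -/
theorem exists_place_ord_pos {t : F} (ht : Transcendental K t) :
    ∃ v : Place K F, 0 < v.ord t := by
  have ht0 : t ≠ 0 := fun h => ht (h ▸ isAlgebraic_zero)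
  let A : Subring F := (Algebra.adjoin K {t}).toSubring
  have htA : t ∈ A := Algebra.self_mem_adjoin_singleton K t
  let I : Ideal A := Ideal.span {⟨t, htA⟩}
  have hI : I ≠ ⊤ := by
    intro h
    rw [Ideal.eq_top_iff_one, Ideal.mem_span_singleton'] at h
    obtain ⟨g, hg⟩ := h
    have hgF : (g : F) * t = 1 := congrArg Subtype.val hg
    have hgmem : (g : F) ∈ (aeval t : K[X] →ₐ[K] F).range := by
      rw [← Algebra.adjoin_singleton_eq_range_aeval]
      exact g.2
    obtain ⟨p, hp⟩ := hgmem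
    have hp' : aeval t p = (g : F) := hp
    apply ht
    refine ⟨p * X - 1, ?_, ?_⟩
    · intro h0
      have := congrArg (fun q => Polynomial.coeff q 0) h0
      simp at this
    · simp [hp', hgF]
  obtain ⟨B, hAB, hIB⟩ := Ideal.image_subset_nonunits_valuationSubring I hI
  have hK : ∀ a : K, algebraMap K F a ∈ B := fun a =>
    hAB ((Algebra.adjoin K {t}).algebraMap_mem a)
  have htB : t ∈ B.nonunits := hIB ⟨⟨t, htA⟩, Ideal.subset_span rfl, rfl⟩
  have htv : B.valuation t < 1 := (B.mem_nonunits_iff).mp htB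
  have hB : B ≠ ⊤ := by
    intro h
    have h1 : t⁻¹ ∈ B := h ▸ ValuationSubring.mem_top _
    have h2 : B.valuation t⁻¹ ≤ 1 := (B.valuation_le_one_iff _).mpr h1
    have h3 : B.valuation t * B.valuation t⁻¹ = 1 := by
      rw [← map_mul, mul_inv_cancel₀ ht0, map_one]
    have h4 : B.valuation t * B.valuation t⁻¹ < 1 := by
      calc B.valuation t * B.valuation t⁻¹ ≤ B.valuation t * 1 := mul_le_mul' le_rfl h2
        _ = B.valuation t := mul_one _
        _ < 1 := htv
    rw [h3] at h4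
    exact lt_irrefl _ h4
  refine ⟨placeOfValuationSubring B hK hB hfin, ?_⟩
  set v := placeOfValuationSubring B hK hB hfin with hv
  have hmem : (⟨t, (B.valuation_le_one_iff _).mp htv.le⟩ : v.toValuationSubring) ∈
      IsLocalRing.maximalIdeal v.toValuationSubring :=
    (B.valuation_lt_one_iff _).mpr htv
  rcases (mem_maximalIdeal_iff v _).mp hmem with h | h
  · exact absurd h ht0
  · exact h

include hfin in
/-- Every transcendental element has a pole. -/
theorem exists_place_ord_neg {t : F} (ht : Transcendental K t) :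
    ∃ v : Place K F, v.ord t < 0 := by
  have ht' : Transcendental K t⁻¹ := fun h => ht (by simpa using h.inv)
  obtain ⟨v, hv⟩ := exists_place_ord_pos hfin ht'
  refine ⟨v, ?_⟩
  rw [v.ord_inv] at hv
  omega

end Existence

end Fermat.Agent.Lib.RR.H443

end
end
-- ===== PACK-END Lib/RR/H443/Discrete.lean

-- ===== PACK-BEGIN S18/Mod/H216/IntE.lean
section



/-!
# S18 / MOD (helper216): the ring `intE` of `E`-rational integral series and its two homs

* `toOm : intE M A E →+* Om M`   (injective, image in `Fc M E`),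
* `redE : intE M A E →+* κ((q))` (`κ` = residue field of `A`),
* `mem_Vc_iff'` : `f ∈ Vc ↔ ∃ U₁ U₂ : intE, redE U₂ ≠ 0 ∧ f * toOm U₂ = toOm U₁`,
* constants `cInt`, the coordinate `jInt`, and division of a series by a constant (`divC`).
-/

set_option autoImplicit false
set_option linter.unusedSectionVars false

noncomputable section

namespace Fermat.Agent.S18.Mod.H216

open ModularCurve AlgebraicCurve HahnSeries Fermat.Agent.S18 Fermat.Agent.S18.Mod

variable (M : ℕ) (A : ValuationSubring Qb) (E : IntermediateField ℚ Qb)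

/-- `A((q)) → Q̄((q))`. -/
abbrev inclA : LaurentSeries ↥A →+* LaurentSeries Qb := coeffMap A.subtype

/-- `A((q)) → κ((q))`. -/
abbrev redA : LaurentSeries ↥A →+* LaurentSeries (IsLocalRing.ResidueField ↥A) :=
  coeffMap (IsLocalRing.residue ↥A)

theorem inclA_injective : Function.Injective (inclA A) := H516.incl_injective A

theorem inclA_mem_bar (U : ↥(intE M A E)) :
    inclA A (U : LaurentSeries ↥A) ∈ modularFunctionFieldBar M := by
  obtain ⟨f, -, hfU⟩ := U.2.2
  rw [← hfU]
  exact f.2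

/-- The element of `Ω` defined by an integral series. -/
def toOm : ↥(intE M A E) →+* Om M where
  toFun U := ⟨inclA A (U : LaurentSeries ↥A), inclA_mem_bar M A E U⟩
  map_one' := Subtype.ext (by simp)
  map_mul' U W := Subtype.ext (by simp)
  map_zero' := Subtype.ext (by simp)
  map_add' U W := Subtype.ext (by simp)

@[simp] theorem coe_toOm (U : ↥(intE M A E)) :
    ((toOm M A E U : Om M) : LaurentSeries Qb) = inclA A (U : LaurentSeries ↥A) := rfl

theorem toOm_injective : Function.Injective (toOm M A E) := by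
  intro U W h
  apply Subtype.ext
  apply inclA_injective A
  exact congrArg Subtype.val h

theorem toOm_mem_Fc (U : ↥(intE M A E)) : toOm M A E U ∈ Fc M E := by
  obtain ⟨f, hf, hfU⟩ := U.2.2
  have : toOm M A E U = f := Subtype.ext hfU.symm
  rw [this]
  exact hf

/-- The reduction of an integral series. -/
def redE : ↥(intE M A E) →+* LaurentSeries (IsLocalRing.ResidueField ↥A) :=
  (redA A).comp (intE M A E).subtype

@[simp] theorem redE_apply (U : ↥(intE M A E)) :
    redE M A E U = redA A (U : LaurentSeries ↥A) := rfl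

theorem toOm_ne_zero_of_redE {U : ↥(intE M A E)} (h : redE M A E U ≠ 0) :
    toOm M A E U ≠ 0 := by
  intro h0
  apply h
  have : U = 0 := toOm_injective M A E (by rw [h0, map_zero])
  rw [this, map_zero]

theorem mem_Vc_iff' {f : Om M} :
    f ∈ Vc M A E ↔ ∃ U₁ U₂ : ↥(intE M A E), redE M A E U₂ ≠ 0 ∧
      f * toOm M A E U₂ = toOm M A E U₁ := by
  constructor
  · rintro ⟨-, U₁, U₂, h₁, h₂, hne, heq⟩
    exact ⟨⟨U₁, (mem_intE M A E).mpr h₁⟩, ⟨U₂, (mem_intE M A E).mpr h₂⟩, hne, Subtype.ext heq⟩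
  · rintro ⟨U₁, U₂, hne, heq⟩
    have h2 := toOm_ne_zero_of_redE M A E hne
    have hf : f = toOm M A E U₁ * (toOm M A E U₂)⁻¹ := by
      rw [← heq, mul_assoc, mul_inv_cancel₀ h2, mul_one]
    refine ⟨?_, U₁, U₂, (mem_intE M A E).mp U₁.2, (mem_intE M A E).mp U₂.2, hne, ?_⟩
    · rw [hf]
      exact mul_mem (toOm_mem_Fc M A E U₁) (inv_mem (toOm_mem_Fc M A E U₂))
    · exact congrArg Subtype.val heq

theorem toOm_mem_Vc (U : ↥(intE M A E)) : toOm M A E U ∈ Vc M A E :=
  (mem_Vc_iff' M A E).mpr ⟨U, 1, by rw [map_one]; exact one_ne_zero, by rw [map_one, mul_one]⟩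

theorem inv_toOm_mem_Vc {U : ↥(intE M A E)} (h : redE M A E U ≠ 0) :
    (toOm M A E U)⁻¹ ∈ Vc M A E :=
  (mem_Vc_iff' M A E).mpr ⟨1, U, h, by
    rw [map_one, inv_mul_cancel₀ (toOm_ne_zero_of_redE M A E h)]⟩

/-! ### Constants -/

theorem mem_Ec_iff {r : Om M} : r ∈ Ec M E ↔ ∃ c : Qb, c ∈ E ∧ algebraMap Qb (Om M) c = r := by
  constructor
  · rintro ⟨c, hc, rfl⟩
    exact ⟨c, hc, rfl⟩
  · rintro ⟨c, hc, rfl⟩
    exact ⟨c, hc, rfl⟩

theorem mem_Rc_iff {r : Om M} :
    r ∈ Rc M A E ↔ ∃ c : Qb, c ∈ A ∧ c ∈ E ∧ algebraMap Qb (Om M) c = r := by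
  constructor
  · rintro ⟨c, ⟨hcA, hcE⟩, rfl⟩
    exact ⟨c, hcA, hcE, rfl⟩
  · rintro ⟨c, hcA, hcE, rfl⟩
    exact ⟨c, ⟨hcA, hcE⟩, rfl⟩

theorem coe_algebraMap_Om (c : Qb) :
    ((algebraMap Qb (Om M) c : Om M) : LaurentSeries Qb) = HahnSeries.C c := by
  show algebraMap Qb (LaurentSeries Qb) c = _
  rw [algebraMap_laurentSeries_eq_single, ← HahnSeries.C_apply]

theorem Ec_le_Fc : Ec M E ≤ Fc M E := fun _ h => Subfield.subset_closure (Or.inl h)

theorem Rc_le_Ec : (Rc M A E : Set (Om M)) ⊆ Ec M E := by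
  intro r hr
  obtain ⟨c, -, hcE, rfl⟩ := (mem_Rc_iff M A E).mp hr
  exact (mem_Ec_iff M E).mpr ⟨c, hcE, rfl⟩

theorem C_mem_intE {c : Qb} (hcA : c ∈ A) (hcE : c ∈ E) :
    (HahnSeries.C (⟨c, hcA⟩ : ↥A) : LaurentSeries ↥A) ∈ intE M A E := by
  rw [mem_intE]
  refine ⟨fun n => ?_, algebraMap Qb (Om M) c, Ec_le_Fc M E ((mem_Ec_iff M E).mpr ⟨c, hcE, rfl⟩), ?_⟩
  · rw [HahnSeries.C_apply, HahnSeries.coeff_single]
    split_ifs
    · exact hcE
    · exact zero_mem _
  · rw [coe_algebraMap_Om, H516.coeffMap_C]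
    rfl

/-- The constant series of `c ∈ A ∩ E`. -/
def cInt {c : Qb} (hcA : c ∈ A) (hcE : c ∈ E) : ↥(intE M A E) :=
  ⟨HahnSeries.C (⟨c, hcA⟩ : ↥A), C_mem_intE M A E hcA hcE⟩

theorem toOm_cInt {c : Qb} (hcA : c ∈ A) (hcE : c ∈ E) :
    toOm M A E (cInt M A E hcA hcE) = algebraMap Qb (Om M) c := by
  apply Subtype.ext
  rw [coe_toOm, coe_algebraMap_Om]
  show coeffMap A.subtype (HahnSeries.C (⟨c, hcA⟩ : ↥A)) = _
  rw [H516.coeffMap_C]
  rfl

theorem redE_cInt {c : Qb} (hcA : c ∈ A) (hcE : c ∈ E) :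
    redE M A E (cInt M A E hcA hcE) = HahnSeries.C (IsLocalRing.residue ↥A ⟨c, hcA⟩) := by
  show coeffMap (IsLocalRing.residue ↥A) (HahnSeries.C (⟨c, hcA⟩ : ↥A)) = _
  rw [H516.coeffMap_C]

/-! ### The coordinate `j` -/

theorem coe_jOm : ((jOm M : Om M) : LaurentSeries Qb) = jqModC Qb := by
  show coeffEmb Qb (qExpand ℚ 1 jq) = _
  rw [qExpand_one_apply, H516.coeffEmb_jq]

theorem jOm_mem_Fc : jOm M ∈ Fc M E :=
  Subfield.subset_closure (Or.inr ⟨1, inferInstance, one_dvd M, rfl⟩)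

theorem jqModC_mem_intE : (jqModC ↥A : LaurentSeries ↥A) ∈ intE M A E := by
  rw [mem_intE]
  refine ⟨fun n => ?_, jOm M, jOm_mem_Fc M E, ?_⟩
  · have h : ((jqModC ↥A).coeff n : Qb) = (((jqModC ℤ).coeff n : ℤ) : Qb) := by
      have h1 : jqModC ↥A = coeffMap (Int.castRingHom ↥A) (jqModC ℤ) := (coeffMap_jqModC (Int.castRingHom ↥A)).symm
      rw [h1, coeffMap_coeff]
      simp
    rw [h]
    exact intCast_mem E _
  · rw [coe_jOm, coeffMap_jqModC]

/-- `j` as an integral series. -/
def jInt : ↥(intE M A E) := ⟨jqModC ↥A, jqModC_mem_intE M A E⟩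

theorem toOm_jInt : toOm M A E (jInt M A E) = jOm M := by
  apply Subtype.ext
  rw [coe_toOm, coe_jOm]
  show coeffMap A.subtype (jqModC ↥A) = _
  rw [coeffMap_jqModC]

theorem redE_jInt : redE M A E (jInt M A E) = jqModC (IsLocalRing.ResidueField ↥A) := by
  show coeffMap (IsLocalRing.residue ↥A) (jqModC ↥A) = _
  rw [coeffMap_jqModC]

theorem jOm_mem_Vc : jOm M ∈ Vc M A E := by
  rw [← toOm_jInt M A E]
  exact toOm_mem_Vc M A E _

end Fermat.Agent.S18.Mod.H216

end
end
-- ===== PACK-END S18/Mod/H216/IntE.lean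

-- ===== PACK-BEGIN S18/Mod/H216/Asm.lean
section




/-!
# S18 / MOD-ASM (helper216): node_mod from the six PARTS at the concrete objects

Targets for the MOD owners (exact statements; `E` ranges over ALL number fields `E ⊆ Q̄`):

| part | statement to prove | content |
|---|---|---|
| G-R   | `PartRStatement M A`         | `A ∩ E` is a DVR of `E`, finite residue field (needs `A.LiesOverPrime ℓ`) |
| G-FLD | `PartFldStatement M x`       | constants, `x` transcendental, `[Fc : Ec(x)] < ∞` |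
| G-V   | `PartVStatement M A x`       | `Vc M A E` is the Gauss valuation ring (needs S28 `CoreData`, i.e. `ℓ ∤ M`) |
| G-QEP | `PartQepStatement M A x`     | q-expansion principle on the charts `R[x]`, `R[x⁻¹]` |
| G-SEP | `PartSepStatement M A x`     | separability of the residue field of `Vc` over `κ(x̄)` |
| G-BR  | `PartBrStatement M A x S`    | branch values |

`goodAt_of_parts` : the six statements give `GoodAt M A x S`.
`goodModelStatement_of_parts` : the frozen node `Mod.GoodModelStatement M ℓ A` from the six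
statements for `x = j` (`ℓ ≥ 5`) and `GoodAt` for the Hauptmodul coordinates (`ℓ = 2, 3`; M3-T).
-/

set_option autoImplicit false

noncomputable section

namespace Fermat.Agent.S18.Mod.H216

open ModularCurve AlgebraicCurve HahnSeries Fermat.Agent.S18 Fermat.Agent.S18.Mod
open Fermat.Agent.S18.Alg

/-- **G-R** at the concrete objects. -/
def PartRStatement (M : ℕ) (A : ValuationSubring Qb) : Prop :=
  ∀ E : IntermediateField ℚ Qb, FiniteDimensional ℚ E →
    ∃ w : Om M, PartR (Ec M E) (Rc M A E) w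

/-- **G-FLD** at the concrete objects. -/
def PartFldStatement (M : ℕ) (x : Om M) : Prop :=
  ∀ E : IntermediateField ℚ Qb, FiniteDimensional ℚ E →
    PartFld (Lc M) (Ec M E) (Fc M E) x

/-- **G-V** at the concrete objects, for every uniformiser `w`. -/
def PartVStatement (M : ℕ) (A : ValuationSubring Qb) (x : Om M) : Prop :=
  ∀ E : IntermediateField ℚ Qb, FiniteDimensional ℚ E →
    ∀ w : Om M, PartR (Ec M E) (Rc M A E) w →
      PartV (Fc M E) (Rc M A E) (Vc M A E) w x

/-- **G-QEP** at the concrete objects, for every uniformiser `w`. -/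
def PartQepStatement (M : ℕ) (A : ValuationSubring Qb) (x : Om M) : Prop :=
  ∀ E : IntermediateField ℚ Qb, FiniteDimensional ℚ E →
    ∀ w : Om M, PartR (Ec M E) (Rc M A E) w →
      PartQep (Fc M E) (Rc M A E) (Vc M A E) w x

/-- **G-SEP** at the concrete objects, for every uniformiser `w`. -/
def PartSepStatement (M : ℕ) (A : ValuationSubring Qb) (x : Om M) : Prop :=
  ∀ E : IntermediateField ℚ Qb, FiniteDimensional ℚ E →
    ∀ w : Om M, PartR (Ec M E) (Rc M A E) w →
      PartSep (Rc M A E) (Vc M A E) w x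

/-- **G-BR** at the concrete objects. -/
def PartBrStatement (M : ℕ) (A : ValuationSubring Qb) (x : Om M) (S : Finset (Om M)) : Prop :=
  ∀ E : IntermediateField ℚ Qb, FiniteDimensional ℚ E →
    PartBr (Lc M) (Rc M A E) x S

theorem charZero_Om (M : ℕ) : CharZero (Om M) :=
  charZero_of_injective_algebraMap (algebraMap Qb (Om M)).injective

/-- The six parts give `GoodAt`. -/
theorem goodAt_of_parts {M : ℕ} {A : ValuationSubring Qb} {x : Om M} {S : Finset (Om M)}
    (hR : PartRStatement M A) (hF : PartFldStatement M x) (hV : PartVStatement M A x)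
    (hQ : PartQepStatement M A x) (hS : PartSepStatement M A x)
    (hB : PartBrStatement M A x S) : GoodAt M A x S := by
  intro E hE
  obtain ⟨w, hw⟩ := hR E hE
  exact ⟨Vc M A E, w, coe_Vc M A E,
    goodModel_of_parts (charZero_Om M) hw (hF E hE) (hV E hE w hw) (hQ E hE w hw)
      (hS E hE w hw) (hB E hE)⟩

/-- **MOD assembly**: the frozen node `Mod.GoodModelStatement M ℓ A` from the parts for the
coordinate `j` (used when `ℓ ≥ 5`) and `GoodAt` for the Hauptmodul coordinates (`ℓ = 2, 3`). -/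
theorem goodModelStatement_of_parts (M ℓ : ℕ) (A : ValuationSubring Qb)
    (hR : 5 ≤ ℓ → PartRStatement M A)
    (hF : 5 ≤ ℓ → PartFldStatement M (jOm M))
    (hV : 5 ≤ ℓ → PartVStatement M A (jOm M))
    (hQ : 5 ≤ ℓ → PartQepStatement M A (jOm M))
    (hS : 5 ≤ ℓ → PartSepStatement M A (jOm M))
    (hB : 5 ≤ ℓ → ∀ S : Finset (Om M), (∀ s, s ∈ S ↔ s = 0 ∨ s = 1728) →
      PartBrStatement M A (jOm M) S)
    (ht : ¬ 5 ≤ ℓ → ∀ (x : Om M) (S : Finset (Om M)), IsCoordinate M ℓ x S → GoodAt M A x S) :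
    GoodModelStatement M ℓ A := by
  refine goodModelStatement_of_goodAt M ℓ A fun x S hxS => ?_
  by_cases h5 : 5 ≤ ℓ
  · rcases hxS with ⟨-, rfl, hS'⟩ | ⟨h | h, -⟩
    · exact goodAt_of_parts (hR h5) (hF h5) (hV h5) (hQ h5) (hS h5) (hB h5 S hS')
    · omega
    · omega
  · exact ht h5 x S hxS

end Fermat.Agent.S18.Mod.H216

end
end
-- ===== PACK-END S18/Mod/H216/Asm.lean

-- ===== PACK-BEGIN S20/Comb/OrbitCounts.lean
section




/-!
# Orbit counts of `S` and `S * T` on `SL(2,ℤ) ⧸ Gamma0 N`, and the genus identity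

* `two_mul_card_orbits_S : 2 * #(Q / ⟨S⟩) = ψ(N) + ν₂(N)`
* `three_mul_card_orbits_ST : 3 * #(Q / ⟨S * T⟩) = ψ(N) + 2 * ν₃(N)`
* `genusFormula_eq_of_card_orbits_T` : the Euler-characteristic identity
  `genusFormula N = 1 + (μ - o₂ - o₃ - o∞) / 2`.
-/

set_option autoImplicit false

namespace Fermat.Agent.S20.Comb

open Matrix MatrixGroups CongruenceSubgroup MulAction Subgroup

/-- `-1` acts trivially on `SL(2,ℤ) ⧸ Γ₀(N)`. -/
lemma neg_one_smul_quotient (N : ℕ) (q : SL(2, ℤ) ⧸ Gamma0 N) : (-1 : SL(2, ℤ)) • q = q := by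
  obtain ⟨g, rfl⟩ := QuotientGroup.mk_surjective q
  rw [smul_mk_eq_mk_iff]
  have h : ∀ i j, ((-1 : SL(2, ℤ)) * g) i j = - g i j := by
    intro i j
    rw [neg_mul, one_mul, Matrix.SpecialLinearGroup.coe_neg, Matrix.neg_apply]
  rw [h, h]
  push_cast
  ring

lemma S_pow_two : ModularGroup.S ^ 2 = (-1 : SL(2, ℤ)) := by
  apply Subtype.ext
  rw [pow_two, Matrix.SpecialLinearGroup.coe_mul, ModularGroup.coe_S,
    Matrix.SpecialLinearGroup.coe_neg, Matrix.SpecialLinearGroup.coe_one]
  ext i j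
  fin_cases i <;> fin_cases j <;> simp [Matrix.mul_apply, Fin.sum_univ_two]

lemma ST_pow_three : (ModularGroup.S * ModularGroup.T) ^ 3 = (-1 : SL(2, ℤ)) := by
  apply Subtype.ext
  rw [pow_succ, pow_two, Matrix.SpecialLinearGroup.coe_mul, Matrix.SpecialLinearGroup.coe_mul,
    coe_S_mul_T, Matrix.SpecialLinearGroup.coe_neg, Matrix.SpecialLinearGroup.coe_one]
  ext i j
  fin_cases i <;> fin_cases j <;> simp [Matrix.mul_apply, Fin.sum_univ_two]

/-- `2 * #(S-orbits) = ψ(N) + ν₂(N)`. -/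
theorem two_mul_card_orbits_S (N : ℕ) [NeZero N] :
    2 * Nat.card (orbitRel.Quotient (zpowers ModularGroup.S) (SL(2, ℤ) ⧸ Gamma0 N))
      = ModularCurve.dedekindPsi N + ModularCurve.nuTwo N := by
  have h := prime_mul_card_orbits (X := SL(2, ℤ) ⧸ Gamma0 N) ModularGroup.S 2 Nat.prime_two
    (fun x => by rw [S_pow_two]; exact neg_one_smul_quotient N x)
  rw [card_quotient_Gamma0, card_fixedBy_S] at h
  exact h.trans (by norm_num)

/-- `3 * #(ST-orbits) = ψ(N) + 2 * ν₃(N)`. -/
theorem three_mul_card_orbits_ST (N : ℕ) [NeZero N] :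
    3 * Nat.card (orbitRel.Quotient (zpowers (ModularGroup.S * ModularGroup.T))
        (SL(2, ℤ) ⧸ Gamma0 N))
      = ModularCurve.dedekindPsi N + 2 * ModularCurve.nuThree N := by
  have h := prime_mul_card_orbits (X := SL(2, ℤ) ⧸ Gamma0 N)
    (ModularGroup.S * ModularGroup.T) 3 Nat.prime_three
    (fun x => by rw [ST_pow_three]; exact neg_one_smul_quotient N x)
  rw [card_quotient_Gamma0, card_fixedBy_ST] at h
  exact h.trans (by norm_num)

/-- The Euler-characteristic identity: with `μ = #Q`, `o₂`, `o₃`, `o∞` the numbers of orbits of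
`S`, `S * T`, `T` on `Q = SL(2,ℤ) ⧸ Γ₀(N)`, one has `genusFormula N = 1 + (μ - o₂ - o₃ - o∞) / 2`,
provided `o∞ = cuspCount N`. -/
theorem genusFormula_eq_of_card_orbits_T (N : ℕ) [NeZero N]
    (hT : Nat.card (orbitRel.Quotient (zpowers ModularGroup.T) (SL(2, ℤ) ⧸ Gamma0 N))
      = ModularCurve.cuspCount N) :
    ModularCurve.genusFormula N
      = 1 + ((Nat.card (SL(2, ℤ) ⧸ Gamma0 N) : ℚ)
          - (Nat.card (orbitRel.Quotient (zpowers ModularGroup.S) (SL(2, ℤ) ⧸ Gamma0 N)) : ℚ)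
          - (Nat.card (orbitRel.Quotient (zpowers (ModularGroup.S * ModularGroup.T))
              (SL(2, ℤ) ⧸ Gamma0 N)) : ℚ)
          - (Nat.card (orbitRel.Quotient (zpowers ModularGroup.T)
              (SL(2, ℤ) ⧸ Gamma0 N)) : ℚ)) / 2 := by
  have h2 := two_mul_card_orbits_S N
  have h3 := three_mul_card_orbits_ST N
  have h2' := congrArg (Nat.cast : ℕ → ℚ) h2
  have h3' := congrArg (Nat.cast : ℕ → ℚ) h3
  push_cast at h2' h3'
  rw [hT, card_quotient_Gamma0, ModularCurve.genusFormula]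
  linear_combination (1 / 4 : ℚ) * h2' + (1 / 6 : ℚ) * h3'

/-- Orbit-count form used by dimension bounds: `μ + 2 - o₂ - o₃ - o∞ = 2 * genusFormula N`. -/
theorem two_mul_genusFormula_of_card_orbits_T (N : ℕ) [NeZero N]
    (hT : Nat.card (orbitRel.Quotient (zpowers ModularGroup.T) (SL(2, ℤ) ⧸ Gamma0 N))
      = ModularCurve.cuspCount N) :
    2 * ModularCurve.genusFormula N
      + (Nat.card (orbitRel.Quotient (zpowers ModularGroup.S) (SL(2, ℤ) ⧸ Gamma0 N)) : ℚ)
      + (Nat.card (orbitRel.Quotient (zpowers (ModularGroup.S * ModularGroup.T))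
          (SL(2, ℤ) ⧸ Gamma0 N)) : ℚ)
      + (Nat.card (orbitRel.Quotient (zpowers ModularGroup.T) (SL(2, ℤ) ⧸ Gamma0 N)) : ℚ)
      = (Nat.card (SL(2, ℤ) ⧸ Gamma0 N) : ℚ) + 2 := by
  rw [genusFormula_eq_of_card_orbits_T N hT]
  ring

end Fermat.Agent.S20.Comb

end
-- ===== PACK-END S20/Comb/OrbitCounts.lean

-- ===== PACK-BEGIN S18/H107/T3Qep.lean
section






/-!
# helper107 — S18 / M3-T : QEP for the Hauptmodul `t = t₃` of `X₀(3)` (case `ℓ = 2`)

Input: the relation `j * t ^ 3 = (t + 27) * (t + 243) ^ 3`, `3⁻¹ ∈ R`, QEP for the charts of `j`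
and `j⁻¹`.  Output: QEP for the charts of `t` and `t⁻¹`.
-/

set_option autoImplicit false

namespace Fermat.Agent.S18.H107

open Polynomial Fermat.Agent.S18.Alg

variable {Ω : Type*} [Field Ω]

/-- The Hauptmodul relation for `X₀(3)` together with the needed side conditions. -/
structure HauptT3107 (Fc : Subfield Ω) (R V : Subring Ω) (j t : Ω) : Prop where
  rel : j * t ^ 3 = (t + 27) * (t + 243) ^ 3
  three_inv : (3 : Ω)⁻¹ ∈ R
  three_ne : (3 : Ω) ≠ 0
  j_ne : j ≠ 0
  t_mem_Fc : t ∈ Fc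
  t_mem_V : t ∈ V
  t27_inv_mem_V : (t + 27)⁻¹ ∈ V

namespace HauptT3107

variable {Fc : Subfield Ω} {R V : Subring Ω} {j t : Ω}

theorem c27_ne (h : HauptT3107 Fc R V j t) : (27 : Ω) ≠ 0 := by
  have : (27 : Ω) = 3 ^ 3 := by norm_num
  rw [this]
  exact pow_ne_zero _ h.three_ne

theorem c243_ne (h : HauptT3107 Fc R V j t) : (243 : Ω) ≠ 0 := by
  have : (243 : Ω) = 3 ^ 5 := by norm_num
  rw [this]
  exact pow_ne_zero _ h.three_ne

theorem c6561_ne (h : HauptT3107 Fc R V j t) : (6561 : Ω) ≠ 0 := by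
  have : (6561 : Ω) = 3 ^ 8 := by norm_num
  rw [this]
  exact pow_ne_zero _ h.three_ne

theorem cBig_ne (h : HauptT3107 Fc R V j t) : (387420489 : Ω) ≠ 0 := by
  have : (387420489 : Ω) = 3 ^ 18 := by norm_num
  rw [this]
  exact pow_ne_zero _ h.three_ne

theorem inv27_mem (h : HauptT3107 Fc R V j t) : (27 : Ω)⁻¹ ∈ R := by
  have := R.pow_mem h.three_inv 3
  have e : ((3 : Ω)⁻¹) ^ 3 = (27 : Ω)⁻¹ := by norm_num
  rwa [e] at this

theorem inv6561_mem (h : HauptT3107 Fc R V j t) : (6561 : Ω)⁻¹ ∈ R := by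
  have := R.pow_mem h.three_inv 8
  have e : ((3 : Ω)⁻¹) ^ 8 = (6561 : Ω)⁻¹ := by norm_num
  rwa [e] at this

theorem invBig_mem (h : HauptT3107 Fc R V j t) : (387420489 : Ω)⁻¹ ∈ R := by
  have := R.pow_mem h.three_inv 18
  have e : ((3 : Ω)⁻¹) ^ 18 = (387420489 : Ω)⁻¹ := by norm_num
  rwa [e] at this

theorem t_ne (h : HauptT3107 Fc R V j t) : t ≠ 0 := by
  intro ht
  have := h.rel
  rw [ht] at this
  have h0 : (27 : Ω) * 243 ^ 3 = 0 := by
    have e : ((0 : Ω) + 27) * (0 + 243) ^ 3 = 27 * 243 ^ 3 := by ring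
    rw [← e, ← this]
    ring
  rcases mul_eq_zero.1 h0 with h1 | h1
  · exact h.c27_ne h1
  · exact h.c243_ne (pow_eq_zero_iff (by norm_num) |>.1 h1)

theorem t27_ne (h : HauptT3107 Fc R V j t) : t + 27 ≠ 0 := by
  intro ht
  have := h.rel
  rw [ht] at this
  have h0 : j * t ^ 3 = 0 := by rw [this]; ring
  rcases mul_eq_zero.1 h0 with hj | ht0
  · exact h.j_ne hj
  · exact h.t_ne (pow_eq_zero_iff (by norm_num) |>.1 ht0)

theorem t243_ne (h : HauptT3107 Fc R V j t) : t + 243 ≠ 0 := by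
  intro ht
  have := h.rel
  rw [ht] at this
  have h0 : j * t ^ 3 = 0 := by rw [this]; ring
  rcases mul_eq_zero.1 h0 with hj | ht0
  · exact h.j_ne hj
  · exact h.t_ne (pow_eq_zero_iff (by norm_num) |>.1 ht0)

/-- `t` is integral over `R[j]`. -/
theorem t_int (h : HauptT3107 Fc R V j t) : t ∈ intCl107 (polyRing R j) := by
  refine mem_intCl_of_quartic107 _ t (756 - j) 196830 19131876 387420489 ?_ (ofNat_mem _ _)
    (ofNat_mem _ _) (ofNat_mem _ _) ?_
  · exact Subring.sub_mem _ (ofNat_mem _ _) (self_mem_polyRing107 R j)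
  · linear_combination -h.rel

/-- `h₁ = t / (t + 27)` is integral over `R[j⁻¹]`. -/
theorem h_int (h : HauptT3107 Fc R V j t) : t * (t + 27)⁻¹ ∈ intCl107 (polyRing R j⁻¹) := by
  have hj' := self_mem_polyRing107 R j⁻¹
  refine mem_intCl_of_quartic107 _ _ (-1 - 13824 * j⁻¹) (46656 * j⁻¹) (-(52488 * j⁻¹))
    (19683 * j⁻¹) ?_ ?_ ?_ ?_ ?_
  · exact Subring.sub_mem _ (Subring.neg_mem _ (Subring.one_mem _))
      (Subring.mul_mem _ (ofNat_mem _ _) hj')
  · exact Subring.mul_mem _ (ofNat_mem _ _) hj'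
  · exact Subring.neg_mem _ (Subring.mul_mem _ (ofNat_mem _ _) hj')
  · exact Subring.mul_mem _ (ofNat_mem _ _) hj'
  · have hj := h.j_ne
    have ht := h.t27_ne
    field_simp
    linear_combination (-27 : Ω) * h.rel

/-- `t⁻¹` is integral over `R[j]` (uses `3⁻¹ ∈ R`). -/
theorem tinv_int (h : HauptT3107 Fc R V j t) : t⁻¹ ∈ intCl107 (polyRing R j) := by
  have hB := le_polyRing107 R j h.invBig_mem
  refine mem_intCl_of_quartic107 _ _ (19131876 * (387420489 : Ω)⁻¹) (196830 * (387420489 : Ω)⁻¹)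
    ((756 - j) * (387420489 : Ω)⁻¹) ((387420489 : Ω)⁻¹) ?_ ?_ ?_ hB ?_
  · exact Subring.mul_mem _ (ofNat_mem _ _) hB
  · exact Subring.mul_mem _ (ofNat_mem _ _) hB
  · exact Subring.mul_mem _ (Subring.sub_mem _ (ofNat_mem _ _) (self_mem_polyRing107 R j)) hB
  · have ht := h.t_ne
    have hc := h.cBig_ne
    field_simp
    linear_combination -h.rel

theorem open1_fin (h : HauptT3107 Fc R V j t) : OpenData107 Fc R V t j t 1 where
  g_mem := self_mem_polyRing107 R t
  e_mem_Fc := Fc.one_mem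
  e_mem_V := V.one_mem
  e_int := Subring.one_mem _
  xe_int := by rw [mul_one]; exact h.t_int
  y_loc := ⟨3, by
    rw [h.rel]
    have ht := self_mem_polyRing107 R t
    exact le_intCl107 _ (Subring.mul_mem _ (Subring.add_mem _ ht (ofNat_mem _ _))
      (Subring.pow_mem _ (Subring.add_mem _ ht (ofNat_mem _ _)) 3))⟩
  e_inv := ⟨1, Subring.one_mem _, 0, by simp⟩

theorem open2_fin (h : HauptT3107 Fc R V j t) :
    OpenData107 Fc R V t j⁻¹ ((t + 27) * (t + 243)) (27 * (t + 27)⁻¹) where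
  g_mem := by
    have ht := self_mem_polyRing107 R t
    exact Subring.mul_mem _ (Subring.add_mem _ ht (ofNat_mem _ _))
      (Subring.add_mem _ ht (ofNat_mem _ _))
  e_mem_Fc := Fc.mul_mem (ofNat_mem _ _)
    (Fc.inv_mem (Fc.add_mem h.t_mem_Fc (ofNat_mem _ _)))
  e_mem_V := V.mul_mem (ofNat_mem _ _) h.t27_inv_mem_V
  e_int := by
    have e : 27 * (t + 27)⁻¹ = 1 - t * (t + 27)⁻¹ := by
      have ht := h.t27_ne
      field_simp
      ring
    rw [e]
    exact Subring.sub_mem _ (Subring.one_mem _) h.h_int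
  xe_int := by
    have e : t * (27 * (t + 27)⁻¹) = 27 * (t * (t + 27)⁻¹) := by ring
    rw [e]
    exact Subring.mul_mem _ (ofNat_mem _ _) h.h_int
  y_loc := ⟨3, by
    have e : j⁻¹ * ((t + 27) * (t + 243)) ^ 3 = t ^ 3 * (t + 27) ^ 2 := by
      have hj := h.j_ne
      field_simp
      linear_combination (-(t + 27) ^ 2) * h.rel
    rw [e]
    have ht := self_mem_polyRing107 R t
    exact le_intCl107 _ (Subring.mul_mem _ (Subring.pow_mem _ ht 3)
      (Subring.pow_mem _ (Subring.add_mem _ ht (ofNat_mem _ _)) 2))⟩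
  e_inv := ⟨(t + 27) * (27 : Ω)⁻¹,
    le_intCl107 _ (Subring.mul_mem _ (Subring.add_mem _ (self_mem_polyRing107 R t) (ofNat_mem _ _))
      (le_polyRing107 R t h.inv27_mem)), 0, by
    have ht := h.t27_ne
    have hc := h.c27_ne
    field_simp⟩

theorem open1_inf (h : HauptT3107 Fc R V j t) : OpenData107 Fc R V t⁻¹ j t⁻¹ 1 where
  g_mem := self_mem_polyRing107 R t⁻¹
  e_mem_Fc := Fc.one_mem
  e_mem_V := V.one_mem
  e_int := Subring.one_mem _
  xe_int := by rw [mul_one]; exact h.tinv_int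
  y_loc := ⟨1, by
    have e : j * t⁻¹ ^ 1 = (1 + 27 * t⁻¹) * (1 + 243 * t⁻¹) ^ 3 := by
      have ht := h.t_ne
      field_simp
      linear_combination h.rel
    rw [e]
    have hs := self_mem_polyRing107 R t⁻¹
    exact le_intCl107 _ (Subring.mul_mem _
      (Subring.add_mem _ (Subring.one_mem _) (Subring.mul_mem _ (ofNat_mem _ _) hs))
      (Subring.pow_mem _ (Subring.add_mem _ (Subring.one_mem _)
        (Subring.mul_mem _ (ofNat_mem _ _) hs)) 3))⟩
  e_inv := ⟨1, Subring.one_mem _, 0, by simp⟩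

theorem open2_inf (h : HauptT3107 Fc R V j t) :
    OpenData107 Fc R V t⁻¹ j⁻¹ ((1 + 27 * t⁻¹) * (1 + 243 * t⁻¹)) (t * (t + 27)⁻¹) where
  g_mem := by
    have hs := self_mem_polyRing107 R t⁻¹
    exact Subring.mul_mem _
      (Subring.add_mem _ (Subring.one_mem _) (Subring.mul_mem _ (ofNat_mem _ _) hs))
      (Subring.add_mem _ (Subring.one_mem _) (Subring.mul_mem _ (ofNat_mem _ _) hs))
  e_mem_Fc := Fc.mul_mem h.t_mem_Fc (Fc.inv_mem (Fc.add_mem h.t_mem_Fc (ofNat_mem _ _)))
  e_mem_V := V.mul_mem h.t_mem_V h.t27_inv_mem_V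
  e_int := h.h_int
  xe_int := by
    have e : t⁻¹ * (t * (t + 27)⁻¹) = (1 - t * (t + 27)⁻¹) * (27 : Ω)⁻¹ := by
      have ht := h.t_ne
      have ht' := h.t27_ne
      have hc := h.c27_ne
      field_simp
      ring
    rw [e]
    exact Subring.mul_mem _ (Subring.sub_mem _ (Subring.one_mem _) h.h_int)
      (le_intCl107 _ (le_polyRing107 R j⁻¹ h.inv27_mem))
  y_loc := ⟨3, by
    have e : j⁻¹ * ((1 + 27 * t⁻¹) * (1 + 243 * t⁻¹)) ^ 3 = t⁻¹ * (1 + 27 * t⁻¹) ^ 2 := by
      have hj := h.j_ne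
      have ht := h.t_ne
      field_simp
      linear_combination (-(t + 27) ^ 2) * h.rel
    rw [e]
    have hs := self_mem_polyRing107 R t⁻¹
    exact le_intCl107 _ (Subring.mul_mem _ hs (Subring.pow_mem _
      (Subring.add_mem _ (Subring.one_mem _) (Subring.mul_mem _ (ofNat_mem _ _) hs)) 2))⟩
  e_inv := ⟨1 + 27 * t⁻¹, le_intCl107 _ (Subring.add_mem _ (Subring.one_mem _)
      (Subring.mul_mem _ (ofNat_mem _ _) (self_mem_polyRing107 R t⁻¹))), 0, by
    have ht := h.t_ne
    have ht' := h.t27_ne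
    field_simp⟩

/-- **QEP for the chart of `t₃`.** -/
theorem qep_fin (h : HauptT3107 Fc R V j t) {w : Ω} (hw : w ∈ Fc)
    (q₁ : Qep107 Fc R V w j) (q₂ : Qep107 Fc R V w j⁻¹) : Qep107 Fc R V w t := by
  have h6 := le_polyRing107 R t h.inv6561_mem
  refine qep_transfer107 (a := -((t + 270) * (6561 : Ω)⁻¹)) (b := (6561 : Ω)⁻¹) hw q₁ q₂
    h.open1_fin h.open2_fin
    (Subring.neg_mem _ (Subring.mul_mem _
      (Subring.add_mem _ (self_mem_polyRing107 R t) (ofNat_mem _ _)) h6)) h6 ?_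
  have hc := h.c6561_ne
  field_simp
  ring

/-- **QEP for the chart of `t₃⁻¹`.** -/
theorem qep_inf (h : HauptT3107 Fc R V j t) {w : Ω} (hw : w ∈ Fc)
    (q₁ : Qep107 Fc R V w j) (q₂ : Qep107 Fc R V w j⁻¹) : Qep107 Fc R V w t⁻¹ := by
  refine qep_transfer107 (a := -(270 + 6561 * t⁻¹)) (b := 1) hw q₁ q₂ h.open1_inf h.open2_inf
    (Subring.neg_mem _ (Subring.add_mem _ (ofNat_mem _ _)
      (Subring.mul_mem _ (ofNat_mem _ _) (self_mem_polyRing107 R t⁻¹)))) (Subring.one_mem _) ?_
  ring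

end HauptT3107

end Fermat.Agent.S18.H107

end
-- ===== PACK-END S18/H107/T3Qep.lean

-- ===== PACK-BEGIN S21/IntD.lean
section



/-!
# S21 / INT-D — folding inequality and finite energy of `u₀` (exact interface statements)

`mult_compact` and `mult_strip` are in `IntDCore.lean`.
-/

set_option autoImplicit false
set_option linter.unusedVariables false

open UpperHalfPlane CongruenceSubgroup MeasureTheory
open scoped MatrixGroups ContDiff

namespace Fermat.Agent.S21

section INT

variable (N : ℕ) [NeZero N] {χ₁ : ℂ → ℝ}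

theorem folding (hχ : IsSL2ZPartition χ₁) (G : ℂ → ℂ) (hG : ContinuousOn G Uhp)
    (hinv : ∀ γ : Gamma0 N, ∀ z ∈ Uhp,
      G (mob (γ : SL(2, ℤ)) z) = (cd (γ : SL(2, ℤ)) z) ^ 2 * G z)
    (hfin : Integrable (fun z => ‖G z‖ ^ 2 * chi N χ₁ z))
    (A : Set ℂ) (hA : MeasurableSet A) (hAU : A ⊆ Uhp) (M : ℕ)
    (hM : ∀ w ∈ Uhp, {g : SL(2, ℤ) | mob g w ∈ A}.encard ≤ M) :
    ∫ z in A, ‖G z‖ ^ 2 ≤ M * ∫ z, ‖G z‖ ^ 2 * chi N χ₁ z := by
  refine IntDAux.folding_of N (chi_nonneg N hχ) (measurable_chi N hχ) (fun z hz => ?_)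
    (chi_sum_eq_one N hχ) G hG hinv hfin A hA hAU M hM
  refine (chi_locfin N hχ {z} isCompact_singleton (by simpa using hz)).subset ?_
  intro γ hγ
  exact ⟨z, rfl, hγ⟩

/-- finite energy of `u₀` -/
theorem integrable_energy_u0 (hχ : IsSL2ZPartition χ₁) (u₀ : ℂ → ℝ)
    (hu : ContDiffOn ℝ ∞ u₀ Uhp)
    (hcusp : ∀ (δ : SL(2, ℤ)) (z : ℂ), 2 < z.im → dz u₀ (mob δ z) = 0) :
    Integrable (fun z => ‖dz u₀ z‖ ^ 2 * chi N χ₁ z) :=
  IntDAux.integrable_energy_u0_of N hχ (continuousOn_chi N hχ) u₀ hu hcusp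

end INT

end Fermat.Agent.S21

end
-- ===== PACK-END S21/IntD.lean

-- ===== PACK-BEGIN S37/H940/Assembly.lean
section




/-!
# S37 / RIM (helper940): assembling the fibres into a global place reduction map

If the places of `F` and of `F_k` are partitioned into fibres `(𝔉 i, 𝔊 i)` each satisfying the
hypotheses of the fibre-local core, the fibre-local reduction maps glue to a map
`r : Place K F → Place k F_k` such that, for every `u ∈ V` with `ρ u ≠ 0` and every divisor `D`
with `D = div u`,  `r_* D = div (ρ u)`  — the shape of clause (ii) of the Prelude's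
`ModularCurve.IsPlaceReductionAlong`.  Degrees are preserved as soon as residue fields are trivial.
-/

set_option autoImplicit false

noncomputable section

namespace Fermat.Agent.S37.H940

open AlgebraicCurve
open Fermat.Agent.S24.FF

variable {K F k Fk : Type*} [Field K] [Field F] [Algebra K F] [Field k] [Field Fk]
  [Algebra k Fk]

/-- `Finsupp.mapDomain` evaluated at a point, as a sum over the support. -/
theorem mapDomain_apply_eq_sum {α β : Type*} [DecidableEq β] (r : α → β) (D : α →₀ ℤ) (Q : β) :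
    Finsupp.mapDomain r D Q = ∑ P ∈ D.support, if r P = Q then D P else 0 := by
  rw [Finsupp.mapDomain, Finsupp.sum_apply, Finsupp.sum]
  refine Finset.sum_congr rfl fun P _ => ?_
  rw [Finsupp.single_apply]

/-- a place all of whose regular functions have a value in `K` has degree one -/
theorem deg_eq_one_of_res (P : Place K F)
    (h : ∀ f : F, 0 ≤ P.ord f → ∃ c : K, InMax P (f - algebraMap K F c)) : P.deg = 1 := by
  unfold Place.deg
  rw [finrank_eq_one_iff_of_nonzero' (1 : P.ResidueField) one_ne_zero]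
  intro w
  obtain ⟨f, rfl⟩ := IsLocalRing.residue_surjective (R := P.toValuationSubring) w
  obtain ⟨c, hc⟩ := h (f : F) (ord_nonneg_of_mem P f.2)
  refine ⟨c, ?_⟩
  rw [Algebra.smul_def, mul_one]
  rw [inMax_iff_exists_mem_maximalIdeal] at hc
  obtain ⟨hmem, hmax⟩ := hc
  have e : (⟨(f : F) - algebraMap K F c, hmem⟩ : P.toValuationSubring)
      = f - algebraMap K P.toValuationSubring c := by
    apply Subtype.ext
    rfl
  rw [e, ← IsLocalRing.residue_eq_zero_iff, map_sub, sub_eq_zero] at hmax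
  rw [hmax]
  rfl

/-- A partition of the places of `F` and of `F_k` into fibres. -/
structure Atlas (C : Ctx K F k Fk) (ι : Type*) where
  /-- the fibres -/
  Φ : ι → Fibre C
  cover : ∀ P : Place K F, ∃ i, P ∈ (Φ i).𝔉
  disj : ∀ i j, ∀ P : Place K F, P ∈ (Φ i).𝔉 → P ∈ (Φ j).𝔉 → i = j
  cover' : ∀ Q : Place k Fk, ∃ i, Q ∈ (Φ i).𝔊
  disj' : ∀ i j, ∀ Q : Place k Fk, Q ∈ (Φ i).𝔊 → Q ∈ (Φ j).𝔊 → i = j

namespace Atlas

variable {C : Ctx K F k Fk} {ι : Type*} (𝔄 : Atlas C ι)

/-- the index of the fibre of a place of `F` -/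
def idx (P : Place K F) : ι := (𝔄.cover P).choose

theorem mem_idx (P : Place K F) : P ∈ (𝔄.Φ (𝔄.idx P)).𝔉 := (𝔄.cover P).choose_spec

theorem idx_eq {P : Place K F} {i : ι} (h : P ∈ (𝔄.Φ i).𝔉) : 𝔄.idx P = i :=
  𝔄.disj _ _ P (𝔄.mem_idx P) h

/-- **The global reduction map.** -/
def red (P : Place K F) : Place k Fk := (𝔄.Φ (𝔄.idx P)).red P

theorem red_eq {P : Place K F} {i : ι} (h : P ∈ (𝔄.Φ i).𝔉) : 𝔄.red P = (𝔄.Φ i).red P := by
  unfold red
  rw [𝔄.idx_eq h]

theorem red_mem {P : Place K F} {i : ι} (h : P ∈ (𝔄.Φ i).𝔉) : 𝔄.red P ∈ (𝔄.Φ i).𝔊 := by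
  rw [𝔄.red_eq h]
  exact (𝔄.Φ i).red_mem P

theorem mem_of_red_mem {P : Place K F} {i : ι} (h : 𝔄.red P ∈ (𝔄.Φ i).𝔊) :
    P ∈ (𝔄.Φ i).𝔉 := by
  have h1 := 𝔄.red_mem (𝔄.mem_idx P)
  have := 𝔄.disj' _ _ _ h1 h
  rw [← this]
  exact 𝔄.mem_idx P

theorem red_surj [Infinite k] (Q : Place k Fk) : ∃ P, 𝔄.red P = Q := by
  obtain ⟨i, hi⟩ := 𝔄.cover' Q
  obtain ⟨P, hP, hPQ⟩ := (𝔄.Φ i).red_surj hi
  exact ⟨P, by rw [𝔄.red_eq hP, hPQ]⟩

/-- value compatibility of the global reduction map -/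
theorem red_value [Infinite k] {i : ι} (b : C.V)
    (hreg : ∀ P ∈ (𝔄.Φ i).𝔉, 0 ≤ P.ord (b : F)) {P : Place K F} (hP : P ∈ (𝔄.Φ i).𝔉)
    {c : C.A} (hc : InMax P ((b : F) - algebraMap K F (c : K))) :
    InMax (𝔄.red P) (C.ρ b - algebraMap k Fk (C.π c)) := by
  rw [𝔄.red_eq hP]
  exact (𝔄.Φ i).red_value b hreg hP hc

open Classical in
/-- **Specialisation of principal divisors** (clause (ii) of `IsPlaceReductionAlong`):
`r_* div u = div (ρ u)` for every `u ∈ V` with `ρ u ≠ 0`. -/
theorem mapDomain_red [Infinite k] (u : C.V) (hu : C.ρ u ≠ 0) (D : Divisor K F)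
    (hD : ∀ P, D P = P.ord (u : F)) (Q : Place k Fk) :
    Finsupp.mapDomain 𝔄.red D Q = Q.ord (C.ρ u) := by
  obtain ⟨i, hi⟩ := 𝔄.cover' Q
  rw [← (𝔄.Φ i).finsum_red_eq u hu hi, mapDomain_apply_eq_sum]
  symm
  rw [← Finset.sum_filter]
  have hsum : ∑ P ∈ D.support with 𝔄.red P = Q, D P
      = ∑ P ∈ D.support with 𝔄.red P = Q, P.ord (u : F) :=
    Finset.sum_congr rfl fun P _ => hD P
  rw [hsum]
  apply finsum_mem_eq_sum_of_inter_support_eq
  ext P
  simp only [Set.mem_inter_iff, Function.mem_support, ne_eq, Finset.coe_filter,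
    Finsupp.mem_support_iff]
  constructor
  · rintro ⟨⟨h1, h2⟩, h3⟩
    refine ⟨⟨?_, ?_⟩, h3⟩
    · rw [hD P]; exact h3
    · rw [𝔄.red_eq h1]; exact h2
  · rintro ⟨⟨h1, h2⟩, h3⟩
    have hP : P ∈ (𝔄.Φ i).𝔉 := 𝔄.mem_of_red_mem (by rw [h2]; exact hi)
    refine ⟨⟨hP, ?_⟩, h3⟩
    rw [← 𝔄.red_eq hP]; exact h2

/-- **Existence of the place reduction map** from an atlas of fibres. -/
theorem exists_red [Infinite k] (𝔄 : Atlas C ι)
    (hresK : ∀ (P : Place K F) (f : F), 0 ≤ P.ord f → ∃ c : K, InMax P (f - algebraMap K F c))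
    (hresk : ∀ (Q : Place k Fk) (g : Fk), 0 ≤ Q.ord g →
      ∃ a : k, InMax Q (g - algebraMap k Fk a)) :
    ∃ r : Place K F → Place k Fk,
      (∀ P, (r P).deg = P.deg) ∧
      (∀ u : C.V, C.ρ u ≠ 0 → ∀ D : Divisor K F, (∀ P, D P = P.ord (u : F)) →
        ∀ Q, Finsupp.mapDomain r D Q = Q.ord (C.ρ u)) :=
  ⟨𝔄.red, fun P => by
      rw [deg_eq_one_of_res P (hresK P), deg_eq_one_of_res (𝔄.red P) (hresk _)],
    fun u hu D hD Q => 𝔄.mapDomain_red u hu D hD Q⟩

end Atlas

end Fermat.Agent.S37.H940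

end
end
-- ===== PACK-END S37/H940/Assembly.lean

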