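import Mathlib.RingTheory.Ideal.KrullsHeightTheorem
import Fermat.Agent.Pack.S44.G0E11L3
import Fermat.Agent.Pack.S44.G0E12L3
import Fermat.Agent.Pack.S44.G0E7L3
import Fermat.Agent.Pack.S44.G0E8L2
import Fermat.Agent.Pack.S44.G0E11L1
import Fermat.Agent.Pack.S44.G0E12L2
import Fermat.Agent.Pack.S44.G0E9L2
import Fermat.Agent.Pack.S44.G0E9L3
import Fermat.Agent.Pack.S44.G0E10L1
import Fermat.Agent.Pack.S44.G0E4L0
import Fermat.Agent.Pack.S44.G0E13L0
import Fermat.Agent.Pack.S44.G0E13L2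
import Fermat.Agent.Pack.S44.G0E9L0
import Fermat.Agent.Pack.S44.G0E9L1
import Fermat.Agent.Pack.S44.G0E5L1

-- ===== PACK-BEGIN Lib/RR/H653/MemRepartitions.lean
section


/-!
# RR library, piece L4.0: the repartitions are exactly the families with finitely many poles

`repartitions K F` is defined in the Prelude as the `F`-subalgebra of `Place K F → F` generated by
the families with finitely many poles.  Under `HasPrincipalDivisors` (constants have finitely many
poles) this generating set is already a subalgebra.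
-/

set_option autoImplicit false

noncomputable section

open AlgebraicCurve

namespace Fermat.Agent.Lib.RR.H653

variable {K F : Type*} [Field K] [Field F] [Algebra K F]

/-- The poles of a nonzero function are finitely many (from `HasPrincipalDivisors`). -/
theorem finite_poles_const [HasPrincipalDivisors K F] (f : F) :
    {v : Place K F | v.ord f < 0}.Finite := by
  rcases eq_or_ne f 0 with rfl | hf
  · simp
  obtain ⟨D, hD, -⟩ := HasPrincipalDivisors.exists_divisor (K := K) f hf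
  refine D.support.finite_toSet.subset fun v hv => ?_
  rw [Finset.mem_coe, Finsupp.mem_support_iff, hD v]
  exact ne_of_lt hv

/-- Poles of a sum are among the poles of the summands. -/
theorem poles_add_subset (α β : Place K F → F) :
    {v : Place K F | v.ord ((α + β) v) < 0} ⊆
      {v : Place K F | v.ord (α v) < 0} ∪ {v : Place K F | v.ord (β v) < 0} := by
  intro v hv
  simp only [Set.mem_ofPred_eq, Pi.add_apply, Set.mem_union] at hv ⊢
  by_contra hcon
  rw [not_or, not_lt, not_lt] at hcon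
  have h := Fermat.Agent.Lib.RR.ord_add_of_le v (n := 0) (Or.inr hcon.1) (Or.inr hcon.2)
  rcases h with h | h
  · rw [h, v.ord_zero] at hv; exact lt_irrefl _ hv
  · exact absurd hv (not_lt.mpr h)

/-- Poles of a product are among the poles of the factors. -/
theorem poles_mul_subset (α β : Place K F → F) :
    {v : Place K F | v.ord ((α * β) v) < 0} ⊆
      {v : Place K F | v.ord (α v) < 0} ∪ {v : Place K F | v.ord (β v) < 0} := by
  intro v hv
  simp only [Set.mem_ofPred_eq, Pi.mul_apply, Set.mem_union] at hv ⊢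
  by_contra hcon
  rw [not_or, not_lt, not_lt] at hcon
  rcases eq_or_ne (α v) 0 with h0 | h0
  · rw [h0, zero_mul, v.ord_zero] at hv; exact lt_irrefl _ hv
  rcases eq_or_ne (β v) 0 with h1 | h1
  · rw [h1, mul_zero, v.ord_zero] at hv; exact lt_irrefl _ hv
  rw [v.ord_mul h0 h1] at hv
  omega

/-- **L4.0**: the repartitions are exactly the families with finitely many poles. -/
theorem mem_repartitions_iff [HasPrincipalDivisors K F] {α : Place K F → F} :
    α ∈ repartitions K F ↔ {v : Place K F | v.ord (α v) < 0}.Finite := by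
  refine ⟨fun h => ?_, mem_repartitions_of_finite_ord⟩
  unfold repartitions at h
  induction h using Algebra.adjoin_induction with
  | mem x hx =>
    have hx' : {v : Place K F | ¬v.adicValuation (x v) ≤ 1}.Finite := hx
    rwa [show {v : Place K F | ¬v.adicValuation (x v) ≤ 1}
        = {v : Place K F | v.ord (x v) < 0} from
      Set.ext fun v => v.not_adicValuation_le_one_iff] at hx'
  | algebraMap r => exact finite_poles_const r
  | add x y _ _ hx hy => exact (hx.union hy).subset (poles_add_subset x y)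
  | mul x y _ _ hx hy => exact (hx.union hy).subset (poles_mul_subset x y)

end Fermat.Agent.Lib.RR.H653

end
end
-- ===== PACK-END Lib/RR/H653/MemRepartitions.lean

-- ===== PACK-BEGIN Lib/RR/H80/Weil.lean
section


/-!
# RR library, layer L5 (helper80): Weil differentials

`𝔸 = repartitions K F`, `AF D = 𝔸(D) + F`, `Om D = (AF D)^⊥ ⊆ Hom_K(𝔸, K)` the space of Weil
differentials vanishing on `𝔸(D) + F`; `smulD x ω = ω (x • ·)` the action of `F`.

This file: basic API (no Riemann–Roch input).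
-/

set_option autoImplicit false

noncomputable section

open AlgebraicCurve

namespace Fermat.Agent.Lib.RR.H80

open Fermat.Agent.Lib.RR

variable {K F : Type*} [Field K] [Field F] [Algebra K F]

/-- `𝔸(D) + F`. -/
def AF (D : Divisor K F) : Submodule K ↥(repartitions K F) :=
  repartitionsOf D ⊔ principalRepartitions K F

/-- Weil differentials vanishing on `𝔸(D) + F`. -/
def Om (D : Divisor K F) : Submodule K (Module.Dual K ↥(repartitions K F)) :=
  (AF D).dualAnnihilator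

theorem mem_Om_iff {D : Divisor K F} {ω : Module.Dual K ↥(repartitions K F)} :
    ω ∈ Om D ↔ (∀ α ∈ repartitionsOf D, ω α = 0) ∧
      ∀ α ∈ principalRepartitions K F, ω α = 0 := by
  unfold Om AF
  rw [Submodule.dualAnnihilator_sup_eq, Submodule.mem_inf, Submodule.mem_dualAnnihilator,
    Submodule.mem_dualAnnihilator]

/-- `dim Ω(D) = dim H¹(D)` (both sides are `0` in the infinite-dimensional case). -/
theorem finrank_Om (D : Divisor K F) :
    Module.finrank K (Om D) = Module.finrank K (H1 D) := by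
  have e : Module.Dual K (H1 D) ≃ₗ[K] Om D :=
    Submodule.dualQuotEquivDualAnnihilator (AF D)
  rw [← e.finrank_eq, Subspace.dual_finrank_eq]

theorem finite_Om (D : Divisor K F) [Module.Finite K (H1 D)] : Module.Finite K (Om D) := by
  have e : Module.Dual K (H1 D) ≃ₗ[K] Om D :=
    Submodule.dualQuotEquivDualAnnihilator (AF D)
  exact Module.Finite.equiv e

theorem AF_mono {D D' : Divisor K F} (h : D ≤ D') : AF D ≤ AF D' :=
  sup_le_sup_right (repartitionsOf_mono h) _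

theorem Om_anti {D D' : Divisor K F} (h : D ≤ D') : Om D' ≤ Om D :=
  Submodule.dualAnnihilator_anti (AF_mono h)

/-- Multiplication by `x ∈ F` on repartitions, as a `K`-linear map. -/
def mulA (x : F) : ↥(repartitions K F) →ₗ[K] ↥(repartitions K F) :=
  (LinearMap.lsmul F ↥(repartitions K F) x).restrictScalars K

@[simp] theorem mulA_apply (x : F) (α : ↥(repartitions K F)) : mulA (K := K) x α = x • α := rfl

theorem coe_smul_apply (x : F) (α : ↥(repartitions K F)) (v : Place K F) :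
    ((x • α : ↥(repartitions K F)) : Place K F → F) v = x * (α : Place K F → F) v := rfl

theorem mulA_mul (x y : F) (α : ↥(repartitions K F)) :
    mulA (K := K) x (mulA y α) = mulA (x * y) α := by
  simp [mulA_apply, mul_smul]

theorem mulA_one (α : ↥(repartitions K F)) : mulA (K := K) (1 : F) α = α := by
  simp [mulA_apply]

/-- The action of `F` on `Hom_K(𝔸, K)`: `(x ω)(α) = ω (x α)`. -/
def smulD (x : F) (ω : Module.Dual K ↥(repartitions K F)) : Module.Dual K ↥(repartitions K F) :=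
  ω.comp (mulA x)

@[simp] theorem smulD_apply (x : F) (ω : Module.Dual K ↥(repartitions K F))
    (α : ↥(repartitions K F)) : smulD x ω α = ω (x • α) := rfl

theorem smulD_smulD (x y : F) (ω : Module.Dual K ↥(repartitions K F)) :
    smulD x (smulD y ω) = smulD (x * y) ω := by
  ext α
  simp only [smulD_apply]
  rw [← mul_smul, mul_comm]

theorem smulD_one (ω : Module.Dual K ↥(repartitions K F)) : smulD (1 : F) ω = ω := by
  ext α; simp

theorem smulD_zero_left (ω : Module.Dual K ↥(repartitions K F)) : smulD (0 : F) ω = 0 := by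
  ext α; simp

theorem smulD_zero_right (x : F) : smulD x (0 : Module.Dual K ↥(repartitions K F)) = 0 := by
  ext α; simp

/-- `x ↦ x ω`, as a `K`-linear map `F → Hom_K(𝔸, K)`. -/
def muMap (ω : Module.Dual K ↥(repartitions K F)) :
    F →ₗ[K] Module.Dual K ↥(repartitions K F) where
  toFun x := smulD x ω
  map_add' x y := by
    ext α
    simp only [smulD_apply, LinearMap.add_apply, add_smul, map_add]
  map_smul' c x := by
    ext α
    simp only [smulD_apply, RingHom.id_apply, LinearMap.smul_apply]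
    rw [smul_assoc, map_smul]

@[simp] theorem muMap_apply (ω : Module.Dual K ↥(repartitions K F)) (x : F) :
    muMap ω x = smulD x ω := rfl

theorem muMap_injective {ω : Module.Dual K ↥(repartitions K F)} (hω : ω ≠ 0) :
    Function.Injective (muMap ω) := by
  rw [← LinearMap.ker_eq_bot, eq_bot_iff]
  intro x hx
  rw [LinearMap.mem_ker, muMap_apply] at hx
  rw [Submodule.mem_bot]
  by_contra hx0
  apply hω
  have := congrArg (smulD x⁻¹) hx
  rwa [smulD_smulD, inv_mul_cancel₀ hx0, smulD_one, smulD_zero_right] at this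

/-! ### Action on `𝔸(D)` and on principal repartitions -/

theorem smul_mem_principal (x : F) {α : ↥(repartitions K F)}
    (hα : α ∈ principalRepartitions K F) : x • α ∈ principalRepartitions K F := by
  rw [mem_principalRepartitions_iff] at hα ⊢
  obtain ⟨f, hf⟩ := hα
  refine ⟨x * f, ?_⟩
  funext v
  rw [coe_smul_apply, hf]

/-- If `E = div x` then `x • 𝔸(D + E) ⊆ 𝔸(D)`. -/
theorem smul_mem_repartitionsOf {x : F} (hx : x ≠ 0) {D E : Divisor K F}
    (hE : ∀ v : Place K F, E v = v.ord x) {α : ↥(repartitions K F)}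
    (hα : α ∈ repartitionsOf (D + E)) : x • α ∈ repartitionsOf D := by
  rw [mem_repartitionsOf_iff] at hα ⊢
  intro v
  rw [coe_smul_apply]
  rcases hα v with h | h
  · left; rw [h, mul_zero]
  · rcases eq_or_ne ((α : Place K F → F) v) 0 with h0 | h0
    · left; rw [h0, mul_zero]
    right
    rw [v.ord_mul hx h0]
    simp only [Finsupp.coe_add, Pi.add_apply, hE v] at h
    omega

theorem smul_mem_AF {x : F} (hx : x ≠ 0) {D E : Divisor K F}
    (hE : ∀ v : Place K F, E v = v.ord x) {α : ↥(repartitions K F)}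
    (hα : α ∈ AF (D + E)) : x • α ∈ AF D := by
  unfold AF at hα ⊢
  rw [Submodule.mem_sup] at hα ⊢
  obtain ⟨β, hβ, γ, hγ, rfl⟩ := hα
  exact ⟨x • β, smul_mem_repartitionsOf hx hE hβ, x • γ, smul_mem_principal x hγ,
    (smul_add x β γ).symm⟩

/-- If `ω` vanishes on `𝔸(D) + F` and `E = div x`, then `x ω` vanishes on `𝔸(D + E) + F`. -/
theorem smulD_mem_Om {x : F} (hx : x ≠ 0) {D E : Divisor K F}
    (hE : ∀ v : Place K F, E v = v.ord x) {ω : Module.Dual K ↥(repartitions K F)}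
    (hω : ω ∈ Om D) : smulD x ω ∈ Om (D + E) := by
  unfold Om at hω ⊢
  rw [Submodule.mem_dualAnnihilator] at hω ⊢
  intro α hα
  rw [smulD_apply]
  exact hω _ (smul_mem_AF hx hE hα)

end Fermat.Agent.Lib.RR.H80

end
end
-- ===== PACK-END Lib/RR/H80/Weil.lean

-- ===== PACK-BEGIN S20/H800/IndepMain.lean
section


/-!
# S20 / helper800 : local independence of a graded basis at every point of `ℍ`

Main results:
* `indep_ev` : for a `GradedBasis Γ wt F` (any index type), `-1 ∈ Γ`, and the division property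
  (`DivAt`) at `i`, at the fixed point `ρ` of `S * T`, and at every generic point, the vectors of
  conjugates `ev Γ (wt j) τ (F j)` are linearly independent at EVERY `τ : ℍ`.
* `indep_ev_of_levelOneDivisor` : the same with hypotheses in the shape of the captain's skeleton
  (`LevelOneDivisor` + `ker_ev`).
* `finite_index_of_gradedBasis`, `card_le_of_gradedBasis` : the index type is finite, of cardinality
  at most the index of `Γ`.
-/

set_option autoImplicit false

noncomputable section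

namespace Fermat.Agent.S20.H800

open Fermat.Agent.S20
open UpperHalfPlane ModularForm CongruenceSubgroup MatrixGroups Filter EisensteinSeries
open scoped Manifold Topology Real

variable {Γ : Subgroup SL(2, ℤ)} {J : Type*} {wt : J → ℤ} {F : J → ℍ → ℂ}

lemma S_smul_I : ModularGroup.S • UpperHalfPlane.I = UpperHalfPlane.I := by
  rw [modular_S_smul]
  ext
  simp [UpperHalfPlane.I]

lemma denom_S_I : denom ModularGroup.S UpperHalfPlane.I = Complex.I := by
  rw [ModularGroup.denom_S]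
  rfl

lemma I_zpow_sep {a b : ℤ} (ha : Even a) (hb : Even b) (h : Complex.I ^ a = Complex.I ^ b) :
    (4 : ℤ) ∣ a - b := by
  obtain ⟨m, hm⟩ := ha.sub hb
  have h1 : Complex.I ^ (a - b) = 1 := by
    rw [zpow_sub₀ Complex.I_ne_zero, h, div_self (zpow_ne_zero _ Complex.I_ne_zero)]
  have h2 : Complex.I ^ (a - b) = (-1 : ℂ) ^ m := by
    rw [hm, ← two_mul, zpow_mul, zpow_ofNat, Complex.I_sq]
  rw [h2] at h1
  rcases Int.even_or_odd m with he | ho
  · obtain ⟨r, hr⟩ := he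
    exact ⟨r, by omega⟩
  · rw [Odd.neg_one_zpow ho] at h1
    norm_num at h1

lemma coe_ST : ((ModularGroup.S * ModularGroup.T : SL(2, ℤ)) : Matrix (Fin 2) (Fin 2) ℤ) =
    !![0, -1; 1, 1] := by
  rw [Matrix.SpecialLinearGroup.coe_mul, ModularGroup.coe_S, ModularGroup.coe_T]
  simp

lemma ST_denom (z : ℍ) :
    denom ((ModularGroup.S * ModularGroup.T : SL(2, ℤ))) z = (z : ℂ) + 1 := by
  rw [ModularGroup.denom_apply, coe_ST]
  simp

lemma ST_fixed_eq {ρ : ℍ} (hρ : (ModularGroup.S * ModularGroup.T) • ρ = ρ) :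
    (ρ : ℂ) ^ 2 + ρ + 1 = 0 := by
  have h1 : (((ModularGroup.S * ModularGroup.T : SL(2, ℤ)) • ρ : ℍ) : ℂ) = ρ := by rw [hρ]
  rw [coe_specialLinearGroup_apply, coe_ST] at h1
  have hd : ((ρ : ℂ) + 1) ≠ 0 := by
    rw [← ST_denom]
    exact denom_ne_zero _ ρ
  simp at h1
  field_simp at h1
  linear_combination -h1

lemma rho_zpow_eq_one {ρ : ℍ} (hρ : (ρ : ℂ) ^ 2 + ρ + 1 = 0) {m : ℤ} (h : (ρ : ℂ) ^ m = 1) :
    (3 : ℤ) ∣ m := by
  have h0 : (ρ : ℂ) ≠ 0 := ne_zero ρ
  have h3 : (ρ : ℂ) ^ (3 : ℤ) = 1 := by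
    rw [zpow_ofNat]
    linear_combination ((ρ : ℂ) - 1) * hρ
  have hm : (ρ : ℂ) ^ m = (ρ : ℂ) ^ (m % 3) := by
    conv_lhs => rw [← Int.mul_ediv_add_emod m 3]
    rw [zpow_add₀ h0, zpow_mul, h3, one_zpow, one_mul]
  rw [hm] at h
  have hr0 : 0 ≤ m % 3 := Int.emod_nonneg m (by norm_num)
  have hr3 : m % 3 < 3 := Int.emod_lt_of_pos m (by norm_num)
  have him : (ρ : ℂ).im ≠ 0 := ρ.im_ne_zero
  have hcases : m % 3 = 0 ∨ m % 3 = 1 ∨ m % 3 = 2 := by omega
  rcases hcases with h' | h' | h'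
  · exact Int.dvd_of_emod_eq_zero h'
  · exfalso
    rw [h', zpow_one] at h
    apply him
    rw [h]
    simp
  · exfalso
    rw [h'] at h
    have h5 : (ρ : ℂ) ^ (2 : ℤ) = (ρ : ℂ) ^ 2 := zpow_ofNat _ 2
    rw [h5] at h
    have h4 : (ρ : ℂ) = -2 := by linear_combination hρ - h
    apply him
    rw [h4]
    simp

lemma rho_add_one_zpow_sep {ρ : ℍ} (hρ : (ρ : ℂ) ^ 2 + ρ + 1 = 0) {a b : ℤ} (ha : Even a)
    (hb : Even b) (h : ((ρ : ℂ) + 1) ^ a = ((ρ : ℂ) + 1) ^ b) : (6 : ℤ) ∣ a - b := by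
  have hε : ((ρ : ℂ) + 1) ≠ 0 := by
    intro h0
    have : (ρ : ℂ) = -1 := by linear_combination h0
    have him : (ρ : ℂ).im ≠ 0 := ρ.im_ne_zero
    apply him
    rw [this]
    simp
  obtain ⟨m, hm⟩ := ha.sub hb
  have h1 : ((ρ : ℂ) + 1) ^ (a - b) = 1 := by
    rw [zpow_sub₀ hε, h, div_self (zpow_ne_zero _ hε)]
  have h2 : ((ρ : ℂ) + 1) ^ (a - b) = (ρ : ℂ) ^ m := by
    rw [hm, ← two_mul, zpow_mul, zpow_ofNat]
    congr 1
    linear_combination hρ
  rw [h2] at h1
  obtain ⟨r, hr⟩ := rho_zpow_eq_one hρ h1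
  exact ⟨r, by omega⟩

lemma E₄_ne_zero_of_E₆_eq_zero {z : ℍ} (h : E₆ z = 0) : E₄ z ≠ 0 := by
  intro h4
  have := discriminant_eq_E₄_cube_sub_E₆_sq z
  rw [h, h4] at this
  exact discriminant_ne_zero z (by rw [this]; simp)

lemma E₆_ne_zero_of_E₄_eq_zero {z : ℍ} (h : E₄ z = 0) : E₆ z ≠ 0 := by
  intro h6
  have := discriminant_eq_E₄_cube_sub_E₆_sq z
  rw [h, h6] at this
  exact discriminant_ne_zero z (by rw [this]; simp)

/-- Local independence at `i`. -/
theorem indep_at_I (B : GradedBasis Γ wt F) (hneg : -1 ∈ Γ)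
    (hdiv : DivAt Γ UpperHalfPlane.I 6 ⇑E₆) :
    LinearIndependent ℂ fun j => ev Γ (wt j) UpperHalfPlane.I (F j) := by
  refine indep_fixed B hdiv ModularGroup.S S_smul_I (n := 4) (by norm_num) E₄_mem
    (E₄_ne_zero_of_E₆_eq_zero hdiv.zero) fun j j' h => ?_
  rw [denom_S_I] at h
  exact I_zpow_sep (B.wt_even hneg j) (B.wt_even hneg j') h

/-- Local independence at the fixed point `ρ` of `S * T`. -/
theorem indep_at_rho (B : GradedBasis Γ wt F) (hneg : -1 ∈ Γ) {ρ : ℍ}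
    (hρ : (ModularGroup.S * ModularGroup.T) • ρ = ρ) (hdiv : DivAt Γ ρ 4 ⇑E₄) :
    LinearIndependent ℂ fun j => ev Γ (wt j) ρ (F j) := by
  refine indep_fixed B hdiv (ModularGroup.S * ModularGroup.T) hρ (n := 6) (by norm_num) E₆_mem
    (E₆_ne_zero_of_E₄_eq_zero hdiv.zero) fun j j' h => ?_
  rw [ST_denom] at h
  exact rho_add_one_zpow_sep (ST_fixed_eq hρ) (B.wt_even hneg j) (B.wt_even hneg j') h

/-- **Local independence of a graded basis at every point of the upper half plane.** -/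
theorem indep_ev (B : GradedBasis Γ wt F) (hneg : -1 ∈ Γ)
    (h6 : ∀ z : ℍ, E₆ z = 0 → ∃ γ : SL(2, ℤ), γ • UpperHalfPlane.I = z)
    {ρ : ℍ} (hρ : (ModularGroup.S * ModularGroup.T) • ρ = ρ)
    (h4 : ∀ z : ℍ, E₄ z = 0 → ∃ γ : SL(2, ℤ), γ • ρ = z)
    (dI : DivAt Γ UpperHalfPlane.I 6 ⇑E₆) (dρ : DivAt Γ ρ 4 ⇑E₄)
    (dgen : ∀ z₀ : ℍ, E₄ z₀ ≠ 0 → E₆ z₀ ≠ 0 → ∃ (w : ℤ) (P : ℍ → ℂ), DivAt Γ z₀ w P)
    (τ : ℍ) : LinearIndependent ℂ fun j => ev Γ (wt j) τ (F j) := by
  by_cases hτ6 : E₆ τ = 0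
  · obtain ⟨γ, rfl⟩ := h6 τ hτ6
    exact indep_smul B.mem γ _ (indep_at_I B hneg dI)
  by_cases hτ4 : E₄ τ = 0
  · obtain ⟨γ, rfl⟩ := h4 τ hτ4
    exact indep_smul B.mem γ _ (indep_at_rho B hneg hρ dρ)
  obtain ⟨w, P, hP⟩ := dgen τ hτ4 hτ6
  exact indep_generic B hneg hτ4 hτ6 hP

/-- `DivAt` from the captain's `LevelOneDivisor` and `ker_ev`. -/
lemma DivAt.of_levelOneDivisor {z₀ : ℍ} {w : ℤ} {P : ℍ → ℂ} (hP : LevelOneDivisor z₀ w P)
    (hker : ∀ {k : ℤ} {f : ℍ → ℂ}, f ∈ MF Γ k → ev Γ k z₀ f = 0 → ∃ g ∈ MF Γ (k - w), f = P * g) :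
    DivAt Γ z₀ w P :=
  ⟨hP.mem, (hP.zero_iff z₀).mpr ⟨1, one_smul _ _⟩, fun _ _ hf h0 => hker hf h0⟩

/-- `indep_ev` with hypotheses in the shape of the captain's skeleton. -/
theorem indep_ev_of_levelOneDivisor (B : GradedBasis Γ wt F) (hneg : -1 ∈ Γ)
    (hker : ∀ {z₀ : ℍ} {w : ℤ} {P : ℍ → ℂ}, LevelOneDivisor z₀ w P → ∀ {k : ℤ} {f : ℍ → ℂ},
      f ∈ MF Γ k → ev Γ k z₀ f = 0 → ∃ g ∈ MF Γ (k - w), f = P * g)
    (hE6 : LevelOneDivisor UpperHalfPlane.I 6 ⇑E₆)
    {ρ : ℍ} (hρ : (ModularGroup.S * ModularGroup.T) • ρ = ρ)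
    (hE4 : LevelOneDivisor ρ 4 ⇑E₄)
    (hgen : ∀ z₀ : ℍ, E₄ z₀ ≠ 0 → E₆ z₀ ≠ 0 → ∃ (w : ℤ) (P : ℍ → ℂ), LevelOneDivisor z₀ w P)
    (τ : ℍ) : LinearIndependent ℂ fun j => ev Γ (wt j) τ (F j) :=
  indep_ev B hneg (fun z hz => (hE6.zero_iff z).mp hz) hρ (fun z hz => (hE4.zero_iff z).mp hz)
    (DivAt.of_levelOneDivisor hE6 (hker hE6)) (DivAt.of_levelOneDivisor hE4 (hker hE4))
    (fun z₀ h4 h6 => by
      obtain ⟨w, P, hP⟩ := hgen z₀ h4 h6
      exact ⟨w, P, DivAt.of_levelOneDivisor hP (hker hP)⟩) τ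

end Fermat.Agent.S20.H800

noncomputable section

namespace Fermat.Agent.S20.H800

open Fermat.Agent.S20
open UpperHalfPlane ModularForm CongruenceSubgroup MatrixGroups Filter EisensteinSeries
open scoped Manifold Topology Real

variable {Γ : Subgroup SL(2, ℤ)} {J : Type*} {wt : J → ℤ} {F : J → ℍ → ℂ}

/-- A family with linearly independent vectors of conjugates at one point is finite. -/
theorem finite_of_indep [Γ.FiniteIndex] {τ : ℍ}
    (h : LinearIndependent ℂ fun j : J => ev Γ (wt j) τ (F j)) : Finite J := by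
  have : Finite (X Γ) := Subgroup.finite_quotient_of_finiteIndex
  exact h.finite_of_isNoetherian

/-- A family with linearly independent vectors of conjugates at one point has at most
`[SL(2,ℤ) : Γ]` members. -/
theorem card_le_of_indep [Γ.FiniteIndex] [Fintype J] {τ : ℍ}
    (h : LinearIndependent ℂ fun j : J => ev Γ (wt j) τ (F j)) :
    Fintype.card J ≤ Nat.card (X Γ) := by
  have : Finite (X Γ) := Subgroup.finite_quotient_of_finiteIndex
  have : Fintype (X Γ) := Fintype.ofFinite _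
  have h1 := h.fintype_card_le_finrank
  rw [Module.finrank_pi] at h1
  rwa [Nat.card_eq_fintype_card]

/-- Passage from the `Fintype` form (sums over all of `J`) to `GradedBasis`. -/
theorem GradedBasis.of_fintype [Fintype J] (mem : ∀ j, F j ∈ MF Γ (wt j))
    (gen : ∀ (k : ℤ) (f : ℍ → ℂ), f ∈ MF Γ k →
      ∃ c : J → ℍ → ℂ, (∀ j, c j ∈ MF ⊤ (k - wt j)) ∧ f = ∑ j, c j * F j)
    (free : ∀ (k : ℤ) (c : J → ℍ → ℂ), (∀ j, c j ∈ MF ⊤ (k - wt j)) →
      ∑ j, c j * F j = 0 → ∀ j, c j = 0) : GradedBasis Γ wt F := by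
  classical
  refine ⟨mem, fun k f hf => ?_, fun k s c hc hsum j hj => ?_⟩
  · obtain ⟨c, hc, hfc⟩ := gen k f hf
    exact ⟨Finset.univ, c, fun j _ => hc j, hfc⟩
  · have h1 := free k (fun j => if j ∈ s then c j else 0)
      (fun j => by
        split_ifs with h
        · exact hc j h
        · exact Submodule.zero_mem _)
      (by
        have e : ∑ j, (if j ∈ s then c j else 0) * F j = ∑ j ∈ s, c j * F j := by
          rw [← Finset.sum_subset (Finset.subset_univ s)]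
          · exact Finset.sum_congr rfl fun j hj => by rw [if_pos hj]
          · intro j _ hj
            rw [if_neg hj, zero_mul]
        rw [e, hsum]) j
    rwa [if_pos hj] at h1

end Fermat.Agent.S20.H800

end
end
end
-- ===== PACK-END S20/H800/IndepMain.lean

-- ===== PACK-BEGIN S37/H340/KronBridge.lean
section




/-!
# S37 / R3-K : bridge between the two landed Kronecker libraries (helper340)

`Fermat.Agent.S37.H400` (`secL`, `secMat`, `kronPoly`, `kronNorm`) and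
`Fermat.Agent.S37.H340` (`sect`, `kronMat`, `kron`, twists `tw`) define the same objects.
This file identifies them and transports the **product formula over the twists** to
`H400.kronPoly` / `H400.kronNorm`, the shape consumed by NORM-ID
(`charpoly_{F_{Nℓ}/β F_N}(α f) = (Y - f(q^{ℓ²})) ∏_{b<ℓ} (Y - f(ζ^b q))`):

* `secL_eq_sect`, `secMat_eq_kronMat`, `kronPoly_eq_mul_kron`;
* `qExpand_det_kronMat` : `V (det (kronMat ℓ f)) = ∏_b f(ζ^b q)`;
* `qExpand_kronNorm` : `V (kronNorm ℓ f) = f(q^{ℓ²}) · ∏_b f(ζ^b q)`;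
* `kronPoly_map_qExpand_eq_prod` :
  `(kronPoly ℓ f).map V = (Y - f(q^{ℓ²})) · ∏_b (Y - f(ζ^b q))`;
* `det_kronMat_char` : in characteristic `ℓ`, `det (kronMat ℓ f) = f^φ`.
-/

set_option autoImplicit false

noncomputable section

namespace Fermat.Agent.S37.H340

open ModularCurve Polynomial Matrix

variable {R : Type*} [CommRing R] (ℓ : ℕ) [NeZero ℓ]

theorem secL_eq_sect (r : ℤ) (f : LaurentSeries R) : H400.secL ℓ r f = sect ℓ r f := by
  ext n
  rw [H400.secL_coeff, sect_coeff]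

theorem secMat_eq_kronMat (f : LaurentSeries R) : H400.secMat ℓ f = kronMat ℓ f := by
  refine Matrix.ext fun i j => ?_
  rw [H400.secMat_apply', secL_eq_sect, kronMat_apply]

theorem kronPoly_eq_mul_kron (f : LaurentSeries R) :
    H400.kronPoly ℓ f = (X - C (qExpand R ℓ f)) * kron ℓ f := by
  rw [H400.kronPoly, secMat_eq_kronMat, kron]

theorem kronNorm_eq (f : LaurentSeries R) :
    H400.kronNorm ℓ f = qExpand R ℓ f * (kronMat ℓ f).det := by
  rw [H400.kronNorm, secMat_eq_kronMat]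

variable {ℓ}

/-- `V (det (kronMat ℓ f)) = ∏_{b<ℓ} f(ζ^b q)`. -/
theorem qExpand_det_kronMat [IsDomain R] {ζ : R} (hζ : IsPrimitiveRoot ζ ℓ)
    (f : LaurentSeries R) :
    qExpand R ℓ (kronMat ℓ f).det = ∏ b : Fin ℓ, tw ℓ (ζ ^ (b : ℕ)) f := by
  classical
  have h := congrArg (fun P : (LaurentSeries R)[X] => P.coeff 0) (kron_map_qExpand_eq_prod hζ f)
  simp only [Polynomial.coeff_map] at h
  have h1 : (kron ℓ f).coeff 0 = (-1) ^ ℓ * (kronMat ℓ f).det := by
    have := Matrix.det_eq_sign_charpoly_coeff (kronMat ℓ f)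
    rw [Fintype.card_fin] at this
    rw [kron, this, ← mul_assoc, ← pow_two, ← pow_mul, mul_comm ℓ 2, pow_mul, neg_one_sq,
      one_pow, one_mul]
  have h2 : (∏ b : Fin ℓ, (X - Polynomial.C (tw ℓ (ζ ^ (b : ℕ)) f))).coeff 0 =
      (-1) ^ ℓ * ∏ b : Fin ℓ, tw ℓ (ζ ^ (b : ℕ)) f := by
    rw [Polynomial.coeff_zero_eq_eval_zero, Polynomial.eval_prod]
    simp only [Polynomial.eval_sub, Polynomial.eval_X, Polynomial.eval_C, zero_sub]
    rw [Finset.prod_neg, Finset.card_univ, Fintype.card_fin]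
  rw [h1, h2, map_mul, map_pow, map_neg, map_one] at h
  have hu : IsUnit ((-1 : LaurentSeries R) ^ ℓ) := (isUnit_one.neg).pow ℓ
  exact hu.mul_left_cancel h

/-- `V (kronNorm ℓ f) = f(q^{ℓ²}) · ∏_{b<ℓ} f(ζ^b q)`. -/
theorem qExpand_kronNorm [IsDomain R] {ζ : R} (hζ : IsPrimitiveRoot ζ ℓ)
    (f : LaurentSeries R) :
    qExpand R ℓ (H400.kronNorm ℓ f) =
      qExpand R ℓ (qExpand R ℓ f) * ∏ b : Fin ℓ, tw ℓ (ζ ^ (b : ℕ)) f := by
  rw [kronNorm_eq, map_mul, qExpand_det_kronMat hζ]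

/-- `(kronPoly ℓ f).map V = (Y - f(q^{ℓ²})) · ∏_{b<ℓ} (Y - f(ζ^b q))`. -/
theorem kronPoly_map_qExpand_eq_prod [IsDomain R] {ζ : R} (hζ : IsPrimitiveRoot ζ ℓ)
    (f : LaurentSeries R) :
    (H400.kronPoly ℓ f).map (qExpand R ℓ) =
      (X - C (qExpand R ℓ (qExpand R ℓ f))) *
        ∏ b : Fin ℓ, (X - Polynomial.C (tw ℓ (ζ ^ (b : ℕ)) f)) := by
  rw [kronPoly_eq_mul_kron, Polynomial.map_mul, kron_map_qExpand_eq_prod hζ,
    Polynomial.map_sub, Polynomial.map_X, Polynomial.map_C]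

variable (ℓ)

/-- In characteristic `ℓ` the determinant of the section matrix is the coefficientwise
Frobenius twist of `f`. -/
theorem det_kronMat_char [hℓ : Fact ℓ.Prime] [CharP R ℓ] [IsDomain R] (f : LaurentSeries R) :
    (kronMat ℓ f).det = coeffMap (frobenius R ℓ) f := by
  rw [← secMat_eq_kronMat]
  exact H400.det_secMat_char ℓ f

end Fermat.Agent.S37.H340

end
end
-- ===== PACK-END S37/H340/KronBridge.lean

-- ===== PACK-BEGIN Ribet/H132/NodeVal.lean
section





/-!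
# RIBET wall-p, I6: the node-ring library for the assembly (helper132)

`R` a noetherian integrally closed local domain with fraction field `K`, `hN : I6.IsNode 𝔭₁ 𝔭₂ π x y`
(a node ring in the sense of `Ribet/H704/I6Spec.lean`).  The assembly of (S4) (`I6Core.i6core`)
consumes FUNCTIONS `W₁ W₂ S : K → ℤ` (branch valuations and slope).  This file provides them.

## Branch valuations (any `VertData π 𝔭 𝔮`, e.g. both branches of a node ring)
* `valAt_iff`        : `I6.ValAt K 𝔭 π u v ↔ u π ^ (-v)` is a unit of the valuation subring `R_𝔭`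
                       (`A2.Alg.H132.vertVal`);
* `exists_valAt`, `valAt_unique`, `valAt_mul`, `valAt_inv`, `valAt_pi`, `valAt_of_notMem`;
* `branchVal h : K → ℤ` with `branchVal_spec`, `branchVal_mul`, `branchVal_eq`, `branchVal_eq_iff`;
* `branchVal_map`, `branchVal_comap` : transport along field isomorphisms (SHEETS) and field
  inclusions (covers).

## Slopes (node rings)
* `ordOn_unique`, `ordOn_mul`, `exists_slopeAt`, `slopeAt_unique`, `slopeAt_mul`, `slopeAt_inv`,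
  `slopeAt_of_ordOn`, `slopeAt_pi`;
* `BranchData π 𝔭 𝔮 ϖ`, `branchSlope h : K → ℤ` with `branchSlope_spec`, `branchSlope_mul`,
  `branchSlope_eq`; `branchData_left/right`, `vertData_left/right` for a node ring.

## Horizontal divisibility
* `horizontal_height_one` : a prime of a node ring not containing `π` has height `≤ 1`;
* `horDiv_of_divisible`, `horDivFrac_of_divisible` : `I6.HorDiv` / `I6.HorDivFrac` from
  "`u` is locally a unit times an `m`-th power at every discrete valuation ring of `K` containing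
  `R[1/π]`" (the shape of `A2.DivisibleDiv` and of `hdiv` in `A2.H609.exists_pureAt_node`).

Mathlib + `A2.H849` only.
-/

set_option autoImplicit false
set_option linter.unusedSectionVars false
set_option linter.style.haveILetI false

namespace Fermat.Agent.Ribet.H132

open Fermat.Agent.Ribet.H704 Fermat.Agent.A2.H849 Fermat.Agent.A2.Alg.H132

section Branch

variable {R : Type*} [CommRing R] [IsDomain R] [IsNoetherianRing R] [IsIntegrallyClosed R]
variable {K : Type*} [Field K] [Algebra R K] [IsFractionRing R K]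
variable {π : R} {𝔭 𝔮 : Ideal R}

/-- A unit of `R_𝔭` is a fraction of two elements outside `𝔭`. -/
theorem exists_frac_of_unit_vertVal (h : VertData π 𝔭 𝔮) {ε : K} (hε : ε ∈ vertVal (F := K) h)
    (hε' : ε⁻¹ ∈ vertVal (F := K) h) (hε0 : ε ≠ 0) :
    ∃ a b : R, a ∉ 𝔭 ∧ b ∉ 𝔭 ∧ ε * algebraMap R K b = algebraMap R K a := by
  have hp := h.prime
  obtain ⟨a, s, hs, has⟩ := (mem_vertVal_iff h ε).1 hε
  obtain ⟨a', s', hs', has'⟩ := (mem_vertVal_iff h ε⁻¹).1 hε'
  have hs0 : algebraMap R K s ≠ 0 := algebraMap_ne_zero (fun h0 => hs (h0 ▸ 𝔭.zero_mem))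
  have hs'0 : algebraMap R K s' ≠ 0 := algebraMap_ne_zero (fun h0 => hs' (h0 ▸ 𝔭.zero_mem))
  refine ⟨a, s, ?_, hs, ?_⟩
  · intro ha
    have e : a * a' = s * s' := by
      apply IsFractionRing.injective R K
      have h1 : (algebraMap R K a * (algebraMap R K s)⁻¹) *
          (algebraMap R K a' * (algebraMap R K s')⁻¹) = 1 := by
        rw [← has, ← has']
        exact mul_inv_cancel₀ hε0
      rw [map_mul, map_mul]
      field_simp at h1
      linear_combination h1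
    have : s * s' ∈ 𝔭 := e ▸ 𝔭.mul_mem_right _ ha
    exact (hp.mem_or_mem this).elim hs hs'
  · rw [has]
    field_simp

/-- `ValAt` in terms of the valuation subring `R_𝔭`. -/
theorem valAt_iff (h : VertData π 𝔭 𝔮) (u : K) (v : ℤ) :
    I6.ValAt K 𝔭 π u v ↔
      u * (algebraMap R K π) ^ (-v) ∈ vertVal (F := K) h ∧
        (u * (algebraMap R K π) ^ (-v))⁻¹ ∈ vertVal (F := K) h ∧ u ≠ 0 := by
  have hp := h.prime
  have hπ : algebraMap R K π ≠ 0 := algebraMap_ne_zero h.w_ne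
  constructor
  · rintro ⟨a, b, ha, hb, hab⟩
    have ha0 : algebraMap R K a ≠ 0 := algebraMap_ne_zero (fun h0 => ha (h0 ▸ 𝔭.zero_mem))
    have hb0 : algebraMap R K b ≠ 0 := algebraMap_ne_zero (fun h0 => hb (h0 ▸ 𝔭.zero_mem))
    have e : u * (algebraMap R K π) ^ (-v) = algebraMap R K a * (algebraMap R K b)⁻¹ := by
      have : u = (algebraMap R K π) ^ v * algebraMap R K a * (algebraMap R K b)⁻¹ := by
        rw [← hab]; field_simp
      rw [this, zpow_neg]
      field_simp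
    have hu0 : u ≠ 0 := by
      rintro rfl
      rw [zero_mul] at hab
      exact mul_ne_zero (zpow_ne_zero _ hπ) ha0 hab.symm
    refine ⟨?_, ?_, hu0⟩
    · rw [e]
      exact mul_mem (algebraMap_mem_vertVal h a) (inv_mem_vertVal h hb)
    · rw [e, mul_inv, inv_inv, mul_comm]
      exact mul_mem (algebraMap_mem_vertVal h b) (inv_mem_vertVal h ha)
  · rintro ⟨h1, h2, hu0⟩
    obtain ⟨a, b, ha, hb, hab⟩ := exists_frac_of_unit_vertVal h h1 h2
      (mul_ne_zero hu0 (zpow_ne_zero _ hπ))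
    refine ⟨a, b, ha, hb, ?_⟩
    rw [← hab, zpow_neg]
    field_simp

/-- Every nonzero element of `K` has a valuation along the branch `𝔭`. -/
theorem exists_valAt (h : VertData π 𝔭 𝔮) {u : K} (hu : u ≠ 0) : ∃ v : ℤ, I6.ValAt K 𝔭 π u v := by
  obtain ⟨n, h1, h2⟩ := exists_zpow_mul_unit (F := K) h hu
  refine ⟨-n, (valAt_iff h u (-n)).2 ⟨?_, ?_, hu⟩⟩
  · rwa [neg_neg]
  · rwa [neg_neg]

theorem valAt_ne_zero (h : VertData π 𝔭 𝔮) {u : K} {v : ℤ} (hv : I6.ValAt K 𝔭 π u v) : u ≠ 0 :=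
  ((valAt_iff h u v).1 hv).2.2

/-- The valuation along a branch is unique. -/
theorem valAt_unique (h : VertData π 𝔭 𝔮) {u : K} {v v' : ℤ} (hv : I6.ValAt K 𝔭 π u v)
    (hv' : I6.ValAt K 𝔭 π u v') : v = v' := by
  have hp := h.prime
  have hπ : algebraMap R K π ≠ 0 := algebraMap_ne_zero h.w_ne
  -- it suffices to exclude `v < v'` for any two representations
  have key : ∀ {v v' : ℤ}, I6.ValAt K 𝔭 π u v → I6.ValAt K 𝔭 π u v' → ¬ v < v' := by
    rintro v v' ⟨a, b, ha, hb, hab⟩ ⟨a', b', ha', hb', hab'⟩ hlt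
    obtain ⟨k, hk⟩ : ∃ k : ℕ, v' = v + (k + 1 : ℕ) := by
      obtain ⟨k, hk⟩ := Int.eq_ofNat_of_zero_le (by omega : 0 ≤ v' - v - 1)
      exact ⟨k, by push_cast; omega⟩
    have hb0 : algebraMap R K b ≠ 0 := algebraMap_ne_zero (fun h0 => hb (h0 ▸ 𝔭.zero_mem))
    have hb'0 : algebraMap R K b' ≠ 0 := algebraMap_ne_zero (fun h0 => hb' (h0 ▸ 𝔭.zero_mem))
    have e : a * b' = π ^ (k + 1) * a' * b := by
      apply IsFractionRing.injective R K
      simp only [map_mul, map_pow]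
      have h1 : (algebraMap R K π) ^ v * algebraMap R K a * algebraMap R K b' =
          (algebraMap R K π) ^ v' * algebraMap R K a' * algebraMap R K b := by
        rw [← hab, ← hab']; ring
      rw [hk, zpow_add₀ hπ, zpow_natCast] at h1
      have h2 := mul_left_cancel₀ (zpow_ne_zero v hπ)
        (by linear_combination h1 :
          (algebraMap R K π) ^ v * (algebraMap R K a * algebraMap R K b') =
          (algebraMap R K π) ^ v * ((algebraMap R K π) ^ (k + 1) * algebraMap R K a' *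
            algebraMap R K b))
      exact h2
    have hmem : a * b' ∈ 𝔭 := by
      rw [e, mul_assoc, pow_succ, mul_assoc]
      exact 𝔭.mul_mem_left _ (𝔭.mul_mem_right _ h.w_mem)
    exact (hp.mem_or_mem hmem).elim ha hb'
  rcases lt_trichotomy v v' with hlt | heq | hgt
  · exact absurd hlt (key hv hv')
  · exact heq
  · exact absurd hgt (key hv' hv)

theorem valAt_mul (h : VertData π 𝔭 𝔮) {u u' : K} {v v' : ℤ} (hv : I6.ValAt K 𝔭 π u v)
    (hv' : I6.ValAt K 𝔭 π u' v') : I6.ValAt K 𝔭 π (u * u') (v + v') := by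
  have hp := h.prime
  have hπ : algebraMap R K π ≠ 0 := algebraMap_ne_zero h.w_ne
  obtain ⟨a, b, ha, hb, hab⟩ := hv
  obtain ⟨a', b', ha', hb', hab'⟩ := hv'
  refine ⟨a * a', b * b', fun hm => (hp.mem_or_mem hm).elim ha ha',
    fun hm => (hp.mem_or_mem hm).elim hb hb', ?_⟩
  rw [map_mul, map_mul, zpow_add₀ hπ]
  linear_combination (u' * algebraMap R K b') * hab +
    ((algebraMap R K π) ^ v * algebraMap R K a) * hab'

theorem valAt_inv (h : VertData π 𝔭 𝔮) {u : K} {v : ℤ} (hv : I6.ValAt K 𝔭 π u v) :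
    I6.ValAt K 𝔭 π u⁻¹ (-v) := by
  have hp := h.prime
  have hπ : algebraMap R K π ≠ 0 := algebraMap_ne_zero h.w_ne
  have hu0 := valAt_ne_zero h hv
  obtain ⟨a, b, ha, hb, hab⟩ := hv
  have ha0 : algebraMap R K a ≠ 0 := algebraMap_ne_zero (fun h0 => ha (h0 ▸ 𝔭.zero_mem))
  refine ⟨b, a, hb, ha, ?_⟩
  have hz : (algebraMap R K π) ^ v ≠ 0 := zpow_ne_zero _ hπ
  rw [zpow_neg]
  field_simp
  linear_combination -hab

theorem valAt_of_notMem (h : VertData π 𝔭 𝔮) {a : R} (ha : a ∉ 𝔭) :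
    I6.ValAt K 𝔭 π (algebraMap R K a) 0 :=
  ⟨a, 1, ha, fun h1 => h.prime.ne_top ((Ideal.eq_top_iff_one _).2 h1), by simp⟩

theorem valAt_one (h : VertData π 𝔭 𝔮) : I6.ValAt K 𝔭 π (1 : K) 0 := by
  have := valAt_of_notMem (K := K) h (a := 1)
    (fun h1 => h.prime.ne_top ((Ideal.eq_top_iff_one _).2 h1))
  rwa [map_one] at this

theorem valAt_pi (h : VertData π 𝔭 𝔮) : I6.ValAt K 𝔭 π (algebraMap R K π) 1 := by
  have h1 : (1 : R) ∉ 𝔭 := fun h1 => h.prime.ne_top ((Ideal.eq_top_iff_one _).2 h1)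
  exact ⟨1, 1, h1, h1, by simp⟩

theorem valAt_pow (h : VertData π 𝔭 𝔮) {u : K} {v : ℤ} (hv : I6.ValAt K 𝔭 π u v) (n : ℕ) :
    I6.ValAt K 𝔭 π (u ^ n) (n * v) := by
  induction n with
  | zero => simpa using valAt_one (K := K) h
  | succ n ih =>
    rw [pow_succ]
    have := valAt_mul h ih hv
    have e : (n : ℤ) * v + v = ((n + 1 : ℕ) : ℤ) * v := by push_cast; ring
    rwa [e] at this

open Classical in
/-- The valuation of `K` along the branch `𝔭` (normalised by `π ↦ 1`; junk value `0` at `0`). -/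
noncomputable def branchVal (h : VertData π 𝔭 𝔮) (u : K) : ℤ :=
  if hu : u = 0 then 0 else (exists_valAt (K := K) h hu).choose

theorem branchVal_spec (h : VertData π 𝔭 𝔮) {u : K} (hu : u ≠ 0) :
    I6.ValAt K 𝔭 π u (branchVal h u) := by
  unfold branchVal
  rw [dif_neg hu]
  exact (exists_valAt (K := K) h hu).choose_spec

theorem branchVal_eq (h : VertData π 𝔭 𝔮) {u : K} {v : ℤ} (hv : I6.ValAt K 𝔭 π u v) :
    branchVal h u = v :=
  valAt_unique h (branchVal_spec h (valAt_ne_zero h hv)) hv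

theorem branchVal_mul (h : VertData π 𝔭 𝔮) (a b : K) (ha : a ≠ 0) (hb : b ≠ 0) :
    branchVal h (a * b) = branchVal h a + branchVal h b :=
  branchVal_eq h (valAt_mul h (branchVal_spec h ha) (branchVal_spec h hb))

theorem branchVal_pi (h : VertData π 𝔭 𝔮) : branchVal h (algebraMap R K π) = 1 :=
  branchVal_eq h (valAt_pi h)

/-- `branchVal` is determined by the valuation subring `R_𝔭` and the uniformiser `π`. -/
theorem branchVal_eq_iff (h : VertData π 𝔭 𝔮) {u : K} (hu : u ≠ 0) (v : ℤ) :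
    branchVal h u = v ↔
      u * (algebraMap R K π) ^ (-v) ∈ vertVal (F := K) h ∧
        (u * (algebraMap R K π) ^ (-v))⁻¹ ∈ vertVal (F := K) h := by
  constructor
  · rintro rfl
    have := (valAt_iff h u _).1 (branchVal_spec h hu)
    exact ⟨this.1, this.2.1⟩
  · rintro ⟨h1, h2⟩
    exact branchVal_eq h ((valAt_iff h u v).2 ⟨h1, h2, hu⟩)

end Branch

section Transport

variable {R : Type*} [CommRing R] [IsDomain R] [IsNoetherianRing R] [IsIntegrallyClosed R]
variable {R' : Type*} [CommRing R'] [IsDomain R'] [IsNoetherianRing R'] [IsIntegrallyClosed R']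
variable {K : Type*} [Field K] [Algebra R K] [IsFractionRing R K]
variable {K' : Type*} [Field K'] [Algebra R' K'] [IsFractionRing R' K']
variable {π : R} {𝔭 𝔮 : Ideal R} {π' : R'} {𝔭' 𝔮' : Ideal R'}

/-- **Transport of branch valuations** (for SHEETS and for base change): if a field isomorphism
`σ : K ≃+* K'` maps the valuation subring `R_𝔭` onto `R'_𝔭'` and `π` to `π'`, then
`branchVal h' (σ u) = branchVal h u`. -/
theorem branchVal_map (h : VertData π 𝔭 𝔮) (h' : VertData π' 𝔭' 𝔮') (σ : K ≃+* K')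
    (hσ : ∀ z : K, z ∈ vertVal (F := K) h ↔ σ z ∈ vertVal (F := K') h')
    (hπ : σ (algebraMap R K π) = algebraMap R' K' π') (u : K) :
    branchVal h' (σ u) = branchVal h u := by
  by_cases hu : u = 0
  · subst hu
    simp [branchVal]
  have hσu : σ u ≠ 0 := fun h0 => hu (by simpa using h0)
  rw [branchVal_eq_iff h' hσu]
  obtain ⟨h1, h2⟩ := (branchVal_eq_iff h hu (branchVal h u)).1 rfl
  have e : σ u * (algebraMap R' K' π') ^ (-branchVal h u) =
      σ (u * (algebraMap R K π) ^ (-branchVal h u)) := by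
    rw [map_mul, map_zpow₀, hπ]
  rw [e]
  refine ⟨(hσ _).1 h1, ?_⟩
  rw [← map_inv₀]
  exact (hσ _).1 h2

/-- Transport along an inclusion of fields `K → K'` (base ring `R ⊆ R'`, e.g. a cover): if the
valuation subring `R'_𝔭'` contracts to `R_𝔭` and `π ↦ π'`, then `branchVal h' (φ u) =
branchVal h u`  (the extension is unramified along the branch). -/
theorem branchVal_comap (h : VertData π 𝔭 𝔮) (h' : VertData π' 𝔭' 𝔮') (φ : K →+* K')
    (hφ : ∀ z : K, z ∈ vertVal (F := K) h → φ z ∈ vertVal (F := K') h')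
    (hπ : φ (algebraMap R K π) = algebraMap R' K' π') (u : K) :
    branchVal h' (φ u) = branchVal h u := by
  by_cases hu : u = 0
  · subst hu
    simp [branchVal]
  have hφu : φ u ≠ 0 := fun h0 => hu ((map_eq_zero φ).1 h0)
  rw [branchVal_eq_iff h' hφu]
  obtain ⟨h1, h2⟩ := (branchVal_eq_iff h hu (branchVal h u)).1 rfl
  have e : φ u * (algebraMap R' K' π') ^ (-branchVal h u) =
      φ (u * (algebraMap R K π) ^ (-branchVal h u)) := by
    rw [map_mul, map_zpow₀, hπ]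
  rw [e]
  refine ⟨hφ _ h1, ?_⟩
  rw [← map_inv₀]
  exact hφ _ h2

end Transport

/-! ## Orders on a branch and slopes -/

section Ord

variable {R : Type*} [CommRing R]

theorem ordOn_mul {𝔭 : Ideal R} {ϖ a b : R} {i j : ℕ} (hi : I6.OrdOn 𝔭 ϖ a i)
    (hj : I6.OrdOn 𝔭 ϖ b j) : I6.OrdOn 𝔭 ϖ (a * b) (i + j) := by
  unfold I6.OrdOn at *
  rw [map_mul, pow_add]
  exact hi.mul_mul hj

theorem ordOn_one {𝔭 : Ideal R} {ϖ : R} : I6.OrdOn 𝔭 ϖ 1 0 := by
  unfold I6.OrdOn
  rw [map_one, pow_zero]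

/-- The order on a branch is unique. -/
theorem ordOn_unique {𝔭 : Ideal R} [h𝔭 : 𝔭.IsPrime] {ϖ a : R} (hϖ : ϖ ∉ 𝔭)
    (hnu : ¬ IsUnit (Ideal.Quotient.mk 𝔭 ϖ)) {i j : ℕ} (hi : I6.OrdOn 𝔭 ϖ a i)
    (hj : I6.OrdOn 𝔭 ϖ a j) : i = j := by
  have hq0 : Ideal.Quotient.mk 𝔭 ϖ ≠ 0 := fun h => hϖ (Ideal.Quotient.eq_zero_iff_mem.1 h)
  have hass : Associated ((Ideal.Quotient.mk 𝔭 ϖ) ^ i) ((Ideal.Quotient.mk 𝔭 ϖ) ^ j) :=
    hi.symm.trans hj
  have key : ∀ {i j : ℕ}, i ≤ j →
      Associated ((Ideal.Quotient.mk 𝔭 ϖ) ^ i) ((Ideal.Quotient.mk 𝔭 ϖ) ^ j) → i = j := by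
    intro i j hij h
    obtain ⟨c, hc⟩ := h
    obtain ⟨k, rfl⟩ := Nat.exists_eq_add_of_le hij
    rw [pow_add] at hc
    have h2 := mul_left_cancel₀ (pow_ne_zero i hq0) hc
    by_contra hne
    have hk : k ≠ 0 := fun h0 => hne (by rw [h0, add_zero])
    exact hnu ((isUnit_pow_iff hk).1 (h2 ▸ c.isUnit))
  rcases le_total i j with hij | hji
  · exact key hij hass
  · exact (key hji hass.symm).symm

end Ord

section Slope

variable {R : Type*} [CommRing R] [IsDomain R] [IsNoetherianRing R] [IsIntegrallyClosed R]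
variable {K : Type*} [Field K] [Algebra R K] [IsFractionRing R K]
variable {π ϖ : R} {𝔭 𝔮 : Ideal R}

/-- A branch `𝔭` of the special fibre `π = 0` (complementary ideal `𝔮`) with a uniformiser `ϖ` of
the discrete valuation ring `R ⧸ 𝔭`. -/
structure BranchData (π : R) (𝔭 𝔮 : Ideal R) (ϖ : R) : Prop where
  vert : VertData π 𝔭 𝔮
  notMem : ϖ ∉ 𝔭
  nonunit : ¬ IsUnit (Ideal.Quotient.mk 𝔭 ϖ)
  unif : ∀ a : R, a ∉ 𝔭 → ∃ s : ℕ, I6.OrdOn 𝔭 ϖ a s

theorem exists_slopeAt (h : BranchData π 𝔭 𝔮 ϖ) {u : K} (hu : u ≠ 0) :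
    ∃ s : ℤ, I6.SlopeAt K 𝔭 π ϖ u s := by
  obtain ⟨v, a, b, ha, hb, hab⟩ := exists_valAt (K := K) h.vert hu
  obtain ⟨i, hi⟩ := h.unif a ha
  obtain ⟨j, hj⟩ := h.unif b hb
  exact ⟨(i : ℤ) - j, v, a, b, i, j, ha, hb, hab, hi, hj, rfl⟩

theorem slopeAt_ne_zero (h : BranchData π 𝔭 𝔮 ϖ) {u : K} {s : ℤ}
    (hs : I6.SlopeAt K 𝔭 π ϖ u s) : u ≠ 0 := by
  obtain ⟨v, a, b, i, j, ha, hb, hab, -, -, -⟩ := hs
  exact valAt_ne_zero h.vert ⟨a, b, ha, hb, hab⟩

theorem slopeAt_unique (h : BranchData π 𝔭 𝔮 ϖ) {u : K} {s s' : ℤ}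
    (hs : I6.SlopeAt K 𝔭 π ϖ u s) (hs' : I6.SlopeAt K 𝔭 π ϖ u s') : s = s' := by
  have hp := h.vert.prime
  have hπ : algebraMap R K π ≠ 0 := algebraMap_ne_zero h.vert.w_ne
  obtain ⟨v, a, b, i, j, ha, hb, hab, hi, hj, rfl⟩ := hs
  obtain ⟨v', a', b', i', j', ha', hb', hab', hi', hj', rfl⟩ := hs'
  have hv : v = v' := valAt_unique h.vert ⟨a, b, ha, hb, hab⟩ ⟨a', b', ha', hb', hab'⟩
  subst hv
  have e : a * b' = a' * b := by
    apply IsFractionRing.injective R K
    simp only [map_mul]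
    have h1 : (algebraMap R K π) ^ v * (algebraMap R K a * algebraMap R K b') =
        (algebraMap R K π) ^ v * (algebraMap R K a' * algebraMap R K b) := by
      linear_combination (-algebraMap R K b') * hab + (algebraMap R K b) * hab'
    exact mul_left_cancel₀ (zpow_ne_zero v hπ) h1
  have h1 : I6.OrdOn 𝔭 ϖ (a * b') (i + j') := ordOn_mul hi hj'
  have h2 : I6.OrdOn 𝔭 ϖ (a * b') (i' + j) := e ▸ ordOn_mul hi' hj
  have := ordOn_unique h.notMem h.nonunit h1 h2
  omega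

theorem slopeAt_mul (h : BranchData π 𝔭 𝔮 ϖ) {u u' : K} {s s' : ℤ}
    (hs : I6.SlopeAt K 𝔭 π ϖ u s) (hs' : I6.SlopeAt K 𝔭 π ϖ u' s') :
    I6.SlopeAt K 𝔭 π ϖ (u * u') (s + s') := by
  have hp := h.vert.prime
  have hπ : algebraMap R K π ≠ 0 := algebraMap_ne_zero h.vert.w_ne
  obtain ⟨v, a, b, i, j, ha, hb, hab, hi, hj, rfl⟩ := hs
  obtain ⟨v', a', b', i', j', ha', hb', hab', hi', hj', rfl⟩ := hs'
  refine ⟨v + v', a * a', b * b', i + i', j + j', fun hm => (hp.mem_or_mem hm).elim ha ha',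
    fun hm => (hp.mem_or_mem hm).elim hb hb', ?_, ordOn_mul hi hi', ordOn_mul hj hj', ?_⟩
  · rw [map_mul, map_mul, zpow_add₀ hπ]
    linear_combination (u' * algebraMap R K b') * hab +
      ((algebraMap R K π) ^ v * algebraMap R K a) * hab'
  · push_cast; ring

theorem slopeAt_inv (h : BranchData π 𝔭 𝔮 ϖ) {u : K} {s : ℤ}
    (hs : I6.SlopeAt K 𝔭 π ϖ u s) : I6.SlopeAt K 𝔭 π ϖ u⁻¹ (-s) := by
  have hu0 := slopeAt_ne_zero h hs
  obtain ⟨v, a, b, i, j, ha, hb, hab, hi, hj, rfl⟩ := hs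
  obtain ⟨a₁, b₁, ha₁, hb₁, hab₁⟩ := valAt_inv h.vert ⟨a, b, ha, hb, hab⟩
  have hπ : algebraMap R K π ≠ 0 := algebraMap_ne_zero h.vert.w_ne
  have hz : (algebraMap R K π) ^ v ≠ 0 := zpow_ne_zero _ hπ
  refine ⟨-v, b, a, j, i, hb, ha, ?_, hj, hi, by ring⟩
  rw [zpow_neg]
  field_simp
  linear_combination -hab

theorem slopeAt_one (h : BranchData π 𝔭 𝔮 ϖ) : I6.SlopeAt K 𝔭 π ϖ (1 : K) 0 := by
  have h1 : (1 : R) ∉ 𝔭 := fun h1 => h.vert.prime.ne_top ((Ideal.eq_top_iff_one _).2 h1)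
  exact ⟨0, 1, 1, 0, 0, h1, h1, by simp, ordOn_one, ordOn_one, by simp⟩

theorem slopeAt_pi (h : BranchData π 𝔭 𝔮 ϖ) : I6.SlopeAt K 𝔭 π ϖ (algebraMap R K π) 0 := by
  have h1 : (1 : R) ∉ 𝔭 := fun h1 => h.vert.prime.ne_top ((Ideal.eq_top_iff_one _).2 h1)
  exact ⟨1, 1, 1, 0, 0, h1, h1, by simp, ordOn_one, ordOn_one, by simp⟩

/-- The slope of an element of `R ∖ 𝔭` is its order on the branch. -/
theorem slopeAt_of_ordOn (h : BranchData π 𝔭 𝔮 ϖ) {a : R} (ha : a ∉ 𝔭) {i : ℕ}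
    (hi : I6.OrdOn 𝔭 ϖ a i) : I6.SlopeAt K 𝔭 π ϖ (algebraMap R K a) i := by
  have h1 : (1 : R) ∉ 𝔭 := fun h1 => h.vert.prime.ne_top ((Ideal.eq_top_iff_one _).2 h1)
  exact ⟨0, a, 1, i, 0, ha, h1, by simp, hi, ordOn_one, by simp⟩

theorem slopeAt_pow (h : BranchData π 𝔭 𝔮 ϖ) {u : K} {s : ℤ}
    (hs : I6.SlopeAt K 𝔭 π ϖ u s) (n : ℕ) : I6.SlopeAt K 𝔭 π ϖ (u ^ n) (n * s) := by
  induction n with
  | zero => simpa using slopeAt_one (K := K) h
  | succ n ih =>
    rw [pow_succ]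
    have := slopeAt_mul h ih hs
    have e : (n : ℤ) * s + s = ((n + 1 : ℕ) : ℤ) * s := by push_cast; ring
    rwa [e] at this

open Classical in
/-- The slope of `u ∈ Kˣ` along the branch `𝔭` at the closed point (junk value `0` at `0`). -/
noncomputable def branchSlope (h : BranchData π 𝔭 𝔮 ϖ) (u : K) : ℤ :=
  if hu : u = 0 then 0 else (exists_slopeAt (K := K) h hu).choose

theorem branchSlope_spec (h : BranchData π 𝔭 𝔮 ϖ) {u : K} (hu : u ≠ 0) :
    I6.SlopeAt K 𝔭 π ϖ u (branchSlope h u) := by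
  unfold branchSlope
  rw [dif_neg hu]
  exact (exists_slopeAt (K := K) h hu).choose_spec

theorem branchSlope_eq (h : BranchData π 𝔭 𝔮 ϖ) {u : K} {s : ℤ}
    (hs : I6.SlopeAt K 𝔭 π ϖ u s) : branchSlope h u = s :=
  slopeAt_unique h (branchSlope_spec h (slopeAt_ne_zero h hs)) hs

theorem branchSlope_mul (h : BranchData π 𝔭 𝔮 ϖ) (a b : K) (ha : a ≠ 0) (hb : b ≠ 0) :
    branchSlope h (a * b) = branchSlope h a + branchSlope h b :=
  branchSlope_eq h (slopeAt_mul h (branchSlope_spec h ha) (branchSlope_spec h hb))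

end Slope

/-! ## Node rings -/

section Node

variable {R : Type*} [CommRing R] [IsDomain R] [IsLocalRing R]
variable {𝔭₁ 𝔭₂ : Ideal R} {π x y : R}

omit [IsDomain R] in
/-- The two branches of a node play symmetric roles. -/
theorem isNode_symm (hN : I6.IsNode 𝔭₁ 𝔭₂ π x y) : I6.IsNode 𝔭₂ 𝔭₁ π y x where
  prime₁ := hN.prime₂
  prime₂ := hN.prime₁
  inf_eq := by rw [inf_comm]; exact hN.inf_eq
  sup_eq := by rw [sup_comm]; exact hN.sup_eq
  hx := hN.hy
  hy := hN.hx
  unif₁ := hN.unif₂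
  unif₂ := hN.unif₁
  hx₁ := hN.hy₂
  hy₂ := hN.hx₁
  nonunit₁ := hN.nonunit₂
  nonunit₂ := hN.nonunit₁

theorem isNode_pi_ne_zero (hN : I6.IsNode 𝔭₁ 𝔭₂ π x y) : π ≠ 0 := by
  rintro rfl
  have hxy : x * y ∈ 𝔭₁ ⊓ 𝔭₂ := ⟨𝔭₁.mul_mem_left _ hN.hy, 𝔭₂.mul_mem_right _ hN.hx⟩
  rw [hN.inf_eq, Ideal.mem_span_singleton, zero_dvd_iff] at hxy
  rcases mul_eq_zero.1 hxy with h0 | h0
  · exact hN.hx₁ (h0 ▸ 𝔭₁.zero_mem)
  · exact hN.hy₂ (h0 ▸ 𝔭₂.zero_mem)

theorem vertData_left (hN : I6.IsNode 𝔭₁ 𝔭₂ π x y) : VertData π 𝔭₁ 𝔭₂ where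
  prime := hN.prime₁
  w_ne := isNode_pi_ne_zero hN
  not_le := fun h => hN.hx₁ (h hN.hx)
  inf_eq := hN.inf_eq

theorem vertData_right (hN : I6.IsNode 𝔭₁ 𝔭₂ π x y) : VertData π 𝔭₂ 𝔭₁ :=
  vertData_left (isNode_symm hN)

variable [IsNoetherianRing R] [IsIntegrallyClosed R]

/-- The first branch of a node ring, with its uniformiser `x`. -/
theorem branchData_left (hN : I6.IsNode 𝔭₁ 𝔭₂ π x y) : BranchData π 𝔭₁ 𝔭₂ x where
  vert := vertData_left hN
  notMem := hN.hx₁
  nonunit := hN.nonunit₁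
  unif := hN.unif₁

/-- The second branch of a node ring, with its uniformiser `y`. -/
theorem branchData_right (hN : I6.IsNode 𝔭₁ 𝔭₂ π x y) : BranchData π 𝔭₂ 𝔭₁ y :=
  branchData_left (isNode_symm hN)

/-! ### Horizontal primes of a node ring have height one -/

omit [IsDomain R] [IsNoetherianRing R] [IsIntegrallyClosed R] in
/-- `𝔪 = 𝔭₁ + (x)`. -/
theorem isNode_mem_sup_span (hN : I6.IsNode 𝔭₁ 𝔭₂ π x y) {z : R}
    (hz : z ∈ IsLocalRing.maximalIdeal R) : z ∈ 𝔭₁ ⊔ Ideal.span {x} := by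
  have hp := hN.prime₁
  by_cases hz₁ : z ∈ 𝔭₁
  · exact Ideal.mem_sup_left hz₁
  obtain ⟨s, hs⟩ := hN.unif₁ z hz₁
  have hs0 : s ≠ 0 := by
    rintro rfl
    unfold I6.OrdOn at hs
    rw [pow_zero] at hs
    have hu : IsUnit (Ideal.Quotient.mk 𝔭₁ z) := hs.symm.isUnit isUnit_one
    obtain ⟨c, hc⟩ := hu.exists_right_inv
    obtain ⟨c, rfl⟩ := Ideal.Quotient.mk_surjective c
    rw [← map_mul, ← map_one (Ideal.Quotient.mk 𝔭₁), Ideal.Quotient.eq] at hc
    have h1 : z * c - 1 ∈ IsLocalRing.maximalIdeal R := IsLocalRing.le_maximalIdeal hp.ne_top hc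
    have h2 : z * c ∈ IsLocalRing.maximalIdeal R := Ideal.mul_mem_right _ _ hz
    have h3 : (1 : R) ∈ IsLocalRing.maximalIdeal R := by
      have : (1 : R) = z * c - (z * c - 1) := by ring
      rw [this]
      exact Ideal.sub_mem _ h2 h1
    exact (Ideal.ne_top_iff_one _).1 (IsLocalRing.maximalIdeal.isMaximal R).ne_top h3
  obtain ⟨c, hc⟩ := hs.symm
  obtain ⟨c', hc'⟩ := Ideal.Quotient.mk_surjective (c : R ⧸ 𝔭₁)
  obtain ⟨k, rfl⟩ := Nat.exists_eq_succ_of_ne_zero hs0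
  have e : Ideal.Quotient.mk 𝔭₁ z = Ideal.Quotient.mk 𝔭₁ (x ^ (k + 1) * c') := by
    rw [map_mul, map_pow, hc', hc]
  rw [Ideal.Quotient.eq] at e
  have : z = (z - x ^ (k + 1) * c') + x * (x ^ k * c') := by ring
  rw [this]
  exact Ideal.add_mem _ (Ideal.mem_sup_left e)
    (Ideal.mem_sup_right (Ideal.mul_mem_right _ _ (Ideal.mem_span_singleton_self x)))

omit [IsDomain R] [IsNoetherianRing R] [IsIntegrallyClosed R] in
/-- The maximal ideal of a node ring is a minimal prime over `(π, x + y)`. -/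
theorem isNode_maximalIdeal_mem_minimalPrimes (hN : I6.IsNode 𝔭₁ 𝔭₂ π x y) :
    IsLocalRing.maximalIdeal R ∈ (Ideal.span ({π, x + y} : Set R)).minimalPrimes := by
  have hπ₁ : π ∈ 𝔭₁ := (inf_le_left : 𝔭₁ ⊓ 𝔭₂ ≤ 𝔭₁) (hN.inf_eq ▸ Ideal.mem_span_singleton_self π)
  have hle₁ : 𝔭₁ ≤ IsLocalRing.maximalIdeal R := IsLocalRing.le_maximalIdeal hN.prime₁.ne_top
  have hle₂ : 𝔭₂ ≤ IsLocalRing.maximalIdeal R := IsLocalRing.le_maximalIdeal hN.prime₂.ne_top
  refine ⟨⟨(IsLocalRing.maximalIdeal.isMaximal R).isPrime, ?_⟩, ?_⟩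
  · rw [Ideal.span_le]
    rintro z (rfl | rfl)
    · exact hle₁ hπ₁
    · exact Ideal.add_mem _ (hle₂ hN.hx) (hle₁ hN.hy)
  · rintro Q ⟨hQ, hQle⟩ -
    have hπQ : π ∈ Q := hQle (Ideal.subset_span (by simp))
    have hxyQ : x + y ∈ Q := hQle (Ideal.subset_span (by simp))
    have hinf : 𝔭₁ ⊓ 𝔭₂ ≤ Q := by
      rw [hN.inf_eq, Ideal.span_le, Set.singleton_subset_iff]
      exact hπQ
    -- the symmetric statement
    have key : ∀ {𝔭₁ 𝔭₂ : Ideal R} {x y : R}, I6.IsNode 𝔭₁ 𝔭₂ π x y → x + y ∈ Q → 𝔭₁ ≤ Q →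
        IsLocalRing.maximalIdeal R ≤ Q := by
      intro 𝔭₁ 𝔭₂ x y hN hxy h₁ z hz
      have hx : x ∈ Q := by
        have : x = (x + y) - y := by ring
        rw [this]
        exact Q.sub_mem hxy (h₁ hN.hy)
      have := isNode_mem_sup_span hN hz
      exact (sup_le h₁ ((Ideal.span_singleton_le_iff_mem Q).2 hx)) this
    rcases (Ideal.IsPrime.inf_le hQ).1 hinf with h₁ | h₂
    · exact key hN hxyQ h₁
    · exact key (isNode_symm hN) (by rwa [add_comm]) h₂

omit [IsDomain R] [IsIntegrallyClosed R] in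
theorem isNode_height_le_two (hN : I6.IsNode 𝔭₁ 𝔭₂ π x y) :
    (IsLocalRing.maximalIdeal R).height ≤ 2 := by
  classical
  have h := Ideal.height_le_card_of_mem_minimalPrimes_span_finset
    (p := IsLocalRing.maximalIdeal R) (s := ({π, x + y} : Finset R))
    (by
      have : ((({π, x + y} : Finset R) : Set R)) = ({π, x + y} : Set R) := by simp
      rw [this]
      exact isNode_maximalIdeal_mem_minimalPrimes hN)
  refine h.trans ?_
  have : ({π, x + y} : Finset R).card ≤ 2 := Finset.card_le_two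
  exact_mod_cast this

omit [IsIntegrallyClosed R] in
/-- A prime of a node ring which does not contain `π` has height `≤ 1`. -/
theorem horizontal_height_one (hN : I6.IsNode 𝔭₁ 𝔭₂ π x y) (𝔓 : Ideal R) [h𝔓 : 𝔓.IsPrime]
    (hπ : π ∉ 𝔓) : ∀ Q : Ideal R, Q.IsPrime → Q ≠ ⊥ → Q ≤ 𝔓 → Q = 𝔓 := by
  intro Q hQ hQ0 hQ𝔓
  by_contra hne
  have hlt₂ : Q < 𝔓 := lt_of_le_of_ne hQ𝔓 hne
  have hlt₁ : (⊥ : Ideal R) < Q := bot_lt_iff_ne_bot.2 hQ0
  have hπ₁ : π ∈ 𝔭₁ := (inf_le_left : 𝔭₁ ⊓ 𝔭₂ ≤ 𝔭₁) (hN.inf_eq ▸ Ideal.mem_span_singleton_self π)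
  have hπm : π ∈ IsLocalRing.maximalIdeal R := IsLocalRing.le_maximalIdeal hN.prime₁.ne_top hπ₁
  have hlt₃ : 𝔓 < IsLocalRing.maximalIdeal R :=
    lt_of_le_of_ne (IsLocalRing.le_maximalIdeal h𝔓.ne_top) (fun h => hπ (h ▸ hπm))
  haveI : (⊥ : Ideal R).IsPrime := Ideal.isPrime_bot
  haveI := hQ
  have h1 := Ideal.height_strict_mono_of_isPrime_of_isPrime hlt₁
  have h2 := Ideal.height_strict_mono_of_isPrime_of_isPrime hlt₂
  have h3 := Ideal.height_strict_mono_of_isPrime_of_isPrime hlt₃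
  have h4 := isNode_height_le_two hN
  have hfin : (IsLocalRing.maximalIdeal R).height ≠ ⊤ :=
    ne_top_of_le_ne_top (by simp) h4
  have hfin𝔓 : 𝔓.height ≠ ⊤ := ne_top_of_lt h3
  have hfinQ : Q.height ≠ ⊤ := ne_top_of_lt h2
  have hfin0 : (⊥ : Ideal R).height ≠ ⊤ := ne_top_of_lt h1
  lift (IsLocalRing.maximalIdeal R).height to ℕ using hfin with a
  lift 𝔓.height to ℕ using hfin𝔓 with b
  lift Q.height to ℕ using hfinQ with c
  lift (⊥ : Ideal R).height to ℕ using hfin0 with d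
  norm_cast at h1 h2 h3 h4
  omega

/-- **Horizontal divisibility in a node ring.**  If `u' ∈ R ∖ {0}` equals `u · bᵐ` in `K` and
`u` is a unit times an `m`-th power at every discrete valuation ring of `K` containing
`R[1/π]`, then `u'` is horizontally `m`-divisible. -/
theorem horDiv_of_divisible {K : Type*} [Field K] [Algebra R K] [IsFractionRing R K]
    (hN : I6.IsNode 𝔭₁ 𝔭₂ π x y) {m : ℕ} (hm : m ≠ 0) {u : K} (hu : u ≠ 0) {u' b : R}
    (hu' : algebraMap R K u' = u * algebraMap R K b ^ m)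
    (hdiv : ∀ V : ValuationSubring K, IsDiscreteValuationRing V →
      (∀ r : R, algebraMap R K r ∈ V) → (algebraMap R K π)⁻¹ ∈ V →
      ∃ h u₀ : K, u₀ ∈ V ∧ u₀⁻¹ ∈ V ∧ u = u₀ * h ^ m) :
    I6.HorDiv π m u' := by
  intro 𝔓 h𝔓 hu'𝔓 hπ𝔓
  by_cases h0 : u' = 0
  · exact ⟨0, 1, fun h1 => h𝔓.ne_top ((Ideal.eq_top_iff_one _).2 h1), by
      rw [h0, zero_mul, zero_pow hm]⟩
  have h𝔓0 : 𝔓 ≠ ⊥ := fun hb => h0 (by rw [hb, Ideal.mem_bot] at hu'𝔓; exact hu'𝔓)
  obtain ⟨O, hO⟩ := exists_isLocDVR_of_height_one (F := K) 𝔓 h𝔓0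
    (horizontal_height_one hN 𝔓 hπ𝔓)
  obtain ⟨h, u₀, hu₀, hu₀', huh⟩ := hdiv O hO.dvr hO.le (hO.inv_mem π hπ𝔓)
  have hu₀0 : u₀ ≠ 0 := by
    rintro rfl
    rw [zero_mul] at huh
    exact hu huh
  exact exists_pow_eq_mul_of_isLocDVR hO hm hu' hu₀ hu₀' hu₀0 huh

/-- **`I6.HorDivFrac` from divisibility** (the shape of `A2.DivisibleDiv`). -/
theorem horDivFrac_of_divisible {K : Type*} [Field K] [Algebra R K] [IsFractionRing R K]
    (hN : I6.IsNode 𝔭₁ 𝔭₂ π x y) {m : ℕ} (hm : m ≠ 0) {u : K} (hu : u ≠ 0)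
    (hdiv : ∀ V : ValuationSubring K, IsDiscreteValuationRing V →
      (∀ r : R, algebraMap R K r ∈ V) → (algebraMap R K π)⁻¹ ∈ V →
      ∃ h u₀ : K, u₀ ∈ V ∧ u₀⁻¹ ∈ V ∧ u = u₀ * h ^ m) :
    I6.HorDivFrac K π m u := by
  obtain ⟨a, b, hb, hab⟩ := IsFractionRing.div_surjective (A := R) u
  have hb0 : b ≠ 0 := nonZeroDivisors.ne_zero hb
  have hbK : algebraMap R K b ≠ 0 := algebraMap_ne_zero hb0
  have hub : u * algebraMap R K b = algebraMap R K a := by
    rw [← hab]; field_simp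
  refine ⟨a, b, hb0, hub, horDiv_of_divisible hN hm hu (b := b) ?_ hdiv⟩
  obtain ⟨k, rfl⟩ := Nat.exists_eq_succ_of_ne_zero hm
  rw [Nat.succ_sub_one, map_mul, map_pow, ← hub, pow_succ]
  ring

end Node

end Fermat.Agent.Ribet.H132

end
-- ===== PACK-END Ribet/H132/NodeVal.lean

-- ===== PACK-BEGIN Ribet/H103/AlgPSpec.lean
section


/-!
# RIBET, wall at `p`, target S2 (I4 + I5) — ALG-p: frozen abstract interface (helper103)

Sub-architect file for `Fermat.Agent.Ribet.H944.Wall.S2For` ("inertia acts through the cyclotomic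
character on the new part of the split part").  This file is the ABSTRACT half (Mathlib + the
definitions of `A2/Spec.lean`, `A2/Alg/Spec.lean` only): the analogue at `m = p = ` residue
characteristic of A2's `AlgSSStatement`.  It contains definitions, three leaf `Prop`s and the
PROVED assembly `algP_of_leaves`.

Setting (verbatim the context of `A2.AlgSSStatement`): `R` henselian DVR with algebraically closed
residue field of characteristic `p`, `E = Frac R` of characteristic `0`, `ζ ∈ R` a primitive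
`p`-th root of unity, `lam := ζ - 1` (so `p = unit * lam ^ (p - 1)` and `w ∣ lam`), `F / E` a
function field, `B` a chart with `c : SSChart w B` (components `p₁`, `p₂`; `V_i := B_{p_i}`),
`τ` a semilinear automorphism, `≡ id` modulo `w` on the charts, with `τ ζ = ζ ^ k`.

Predicates (all elementwise, in the style of `A2/Alg/Spec.lean`):

* `DeepAt B 𝔮 π u`        : `u ∈ 1 + π · B_𝔮`;
* `IsDeepSplit B c π u`   : `u ∈ 1 + π V₁` and `u ∈ 1 + π V₂`   (used with `π = lam ^ p * w`: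
                            then `u` is a `p`-th power in the completions at `V₁`, `V₂`, and the
                            sheet `Y ≡ 0` of the Artin–Schreier cover
                            `(1 + lam Y) ^ p = u`, i.e. `Y ^ p - Y ≡ (u - 1) / lam ^ p`, is
                            canonical on both components);
* `WildPureAt B c p lam u n` : `u · g ^ p ∈ 1 + lam ^ p · B_n` for some `g ≡ 1 mod lam` on the
                            components through `n` (the Kummer cover is Artin–Schreier, hence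
                            ETALE, over `B_n`);
* `LocalFactorP B c p lam u n` : `u · h ^ p ∈ 1 + lam ^ p w · B_n` for some `h ≡ 1 mod lam w` on
                            the components through `n` (étale at `n` with TRIVIAL label: the
                            canonical sheets of the components through `n` meet over `n`).

Leaves:

* `WildPurityLeaf` (WP)  : `PureAt` (A2) + `IsDeepSplit` ⟹ `WildPureAt`.
     Proof sketch: `u d ^ p = υ ∈ B_nˣ`.  Induction on `0 ≤ j ≤ a` (`lam = unit * w ^ a`): there is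
     `s ∈ B_nˣ` with `s / d ∈ 1 + w ^ j V_i` for the components through `n`.  Step: write
     `s / d = 1 + w ^ j b_i`; then `υ / s ^ p ≡ 1 - w ^ (j p) b_i ^ p  mod w ^ (j p + 1) V_i`
     (`j < a`), so `(1 - υ / s ^ p) / w ^ (j p) ∈ B_n` (`p₁ ⊓ p₂ = (w)`) has residue `b̄_i ^ p` on
     `C_i`; `B ⧸ p_i` is normal, so `b̄_i` is regular at `n`; at a crossing point the two values
     `b̄_1(n)`, `b̄_2(n)` are `p`-th roots of the same element of `k`, hence equal, and
     `(p₁ ⊔ p₂)` radical gives `b ∈ B_n` lifting both; replace `s` by `s (1 + w ^ j b)`.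
     At `j = a`: `g := d / s`, `u g ^ p = υ / s ^ p ∈ (1 + lam ^ p V₁) ∩ (1 + lam ^ p V₂) ∩ B_n`.
* `LabelLeaf` (LABEL)    : `WildPureAt u n` ⟹ `LocalFactorP (τ u / u ^ k) n`   (`τ ζ = ζ ^ k`).
     Proof: `v := u g ^ p = 1 + lam ^ p z`, `h := τ g / g ^ k`; `τ lam = lam (k + lam r)`,
     `(k + lam r) ^ p ∈ k + lam ^ (p - 1) R`, `τ z - z ∈ w B_n`, `τ g' - g' ∈ w V_i`.
* `GluePLeaf` (GLUE-p)   : `LocallyFactoredP` on both charts ⟹ `u` is a `p`-th power.
     Proof: `A2.H729.generic_idempotent_trivial` for the field `F(y)`, `y ^ p = u`, and the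
     generic idempotent `e₀ = 1 - Y ^ (p - 1)`, `Y = (y - 1) / lam` (`Y ^ p ≡ Y mod w`); the
     generator of `Gal(F(y)/F)` acts by `Y ↦ Y + 1 mod lam`, so `e₀ ≢ 0, 1` if `y ∉ F`.
     (`E` is algebraically closed in `F(y)`: `V₁` splits completely, cf. `A2/H552/HConst.lean`.)

Assembly (PROVED here): `algP_of_leaves : WP → LABEL → GLUE-p → AlgPStatement`.
-/

set_option autoImplicit false

namespace Fermat.Agent.Ribet.H103.AlgP

open Fermat.Agent.A2 Fermat.Agent.A2.Alg Fermat.Agent.A2.Alg.H34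

section Defs

variable {R F : Type*} [CommRing R] [Field F] [Algebra R F]

/-- `u ∈ 1 + π · B_𝔮`: `u = a / b` with `b ∉ 𝔮` and `a - b ∈ π B`. -/
def DeepAt (B : Subalgebra R F) (𝔮 : Ideal B) (π : R) (u : F) : Prop :=
  LocOne B 𝔮 (Ideal.span {algebraMap R B π}) u

/-- `u ≡ 1` modulo `π` on both components of the chart. -/
def IsDeepSplit {w : R} (B : Subalgebra R F) (c : SSChart w B) (π : R) (u : F) : Prop :=
  DeepAt B c.p₁ π u ∧ DeepAt B c.p₂ π u

/-- **Wild purity datum at `n`**: `u · g ^ p ∈ 1 + lam ^ p · B_n` with `g ≡ 1 mod lam` on the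
components through `n`. -/
def WildPureAt {w : R} (B : Subalgebra R F) (c : SSChart w B) (p : ℕ) (lam : R) (u : F)
    (n : Ideal B) : Prop :=
  ∃ g : F, g ≠ 0 ∧ DeepAt B n (lam ^ p) (u * g ^ p) ∧
    (c.p₁ ≤ n → DeepAt B c.p₁ lam g) ∧ (c.p₂ ≤ n → DeepAt B c.p₂ lam g)

/-- **Local factorisation at `n` (wild form, trivial label)**:
`u · h ^ p ∈ 1 + lam ^ p w · B_n` with `h ≡ 1 mod lam w` on the components through `n`. -/
def LocalFactorP {w : R} (B : Subalgebra R F) (c : SSChart w B) (p : ℕ) (lam : R) (u : F)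
    (n : Ideal B) : Prop :=
  ∃ h : F, h ≠ 0 ∧ DeepAt B n (lam ^ p * w) (u * h ^ p) ∧
    (c.p₁ ≤ n → DeepAt B c.p₁ (lam * w) h) ∧ (c.p₂ ≤ n → DeepAt B c.p₂ (lam * w) h)

/-- Wild local factorisations at ALL closed points of the special fibre of the chart `B`. -/
def LocallyFactoredP {w : R} (B : Subalgebra R F) (c : SSChart w B) (p : ℕ) (lam : R)
    (u : F) : Prop :=
  ∀ n : Ideal B, n.IsMaximal → algebraMap R B w ∈ n → LocalFactorP B c p lam u n

end Defs

/-! ## The three leaves -/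

/-- **Leaf WP** (wild purity): a deeply split class which is pure at the closed point `n` is
wildly pure at `n`. -/
def WildPurityLeaf : Prop :=
  ∀ {R E F : Type} [CommRing R] [IsDomain R] [IsDiscreteValuationRing R]
    [HenselianLocalRing R] [IsAlgClosed (IsLocalRing.ResidueField R)]
    [Field E] [CharZero E] [Algebra R E] [IsFractionRing R E]
    [Field F] [Algebra E F] [Algebra R F] [IsScalarTower R E F]
    (p : ℕ) (_ : p.Prime) (_ : (p : R) ∈ IsLocalRing.maximalIdeal R)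
    (ζ : R) (_ : IsPrimitiveRoot ζ p)
    (w : R) (x : F) (B : Subalgebra R F) (_ : ChartCtx E w x B)
    (c : SSChart w B)
    (u : F) (_ : u ≠ 0) (_ : IsDeepSplit B c ((ζ - 1) ^ p * w) u)
    (n : Ideal B) (_ : n.IsMaximal) (_ : algebraMap R B w ∈ n)
    (_ : PureAt B c p u n), WildPureAt B c p (ζ - 1) u n

/-- **Leaf LABEL**: inertia multiplies the Artin–Schreier labels by the cyclotomic character:
if `u` is wildly pure at `n` and `τ ζ = ζ ^ k`, then `τ u / u ^ k` is locally factored at `n`. -/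
def LabelLeaf : Prop :=
  ∀ {R E F : Type} [CommRing R] [IsDomain R] [IsDiscreteValuationRing R]
    [HenselianLocalRing R] [IsAlgClosed (IsLocalRing.ResidueField R)]
    [Field E] [CharZero E] [Algebra R E] [IsFractionRing R E]
    [Field F] [Algebra E F] [Algebra R F] [IsScalarTower R E F]
    (p : ℕ) (_ : p.Prime) (_ : (p : R) ∈ IsLocalRing.maximalIdeal R)
    (ζ : R) (_ : IsPrimitiveRoot ζ p)
    (w : R) (_ : Irreducible w) (B : Subalgebra R F) (c : SSChart w B)
    (τ : F ≃+* F) (τE : E ≃+* E) (τR : R ≃+* R) (_ : TauCtx w B τ τE τR)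
    (k : ℕ) (_ : τR ζ = ζ ^ k)
    (u : F) (_ : u ≠ 0)
    (n : Ideal B) (_ : n.IsPrime) (_ : algebraMap R B w ∈ n)
    (_ : WildPureAt B c p (ζ - 1) u n),
    LocalFactorP B c p (ζ - 1) (τ u * (u ^ k)⁻¹) n

/-- **Leaf GLUE-p**: a class of order `p` which is locally factored (wild form) at every closed
point of the special fibre of both charts is trivial. -/
def GluePLeaf : Prop :=
  ∀ {R E F : Type} [CommRing R] [IsDomain R] [IsDiscreteValuationRing R]
    [HenselianLocalRing R] [IsAlgClosed (IsLocalRing.ResidueField R)]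
    [Field E] [CharZero E] [Algebra R E] [IsFractionRing R E]
    [Field F] [Algebra E F] [Algebra R F] [IsScalarTower R E F]
    (p : ℕ) (_ : p.Prime) (_ : (p : R) ∈ IsLocalRing.maximalIdeal R)
    (ζ : R) (_ : IsPrimitiveRoot ζ p)
    (w : R) (x : F) (Bf Bi : Subalgebra R F)
    (_ : ChartCtx E w x Bf) (_ : ChartCtx E w x⁻¹ Bi)
    (cf : SSChart w Bf) (ci : SSChart w Bi)
    (u : F) (_ : u ≠ 0) (_ : DivisibleDiv E p u)
    (_ : LocallyFactoredP Bf cf p (ζ - 1) u) (_ : LocallyFactoredP Bi ci p (ζ - 1) u),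
    ∃ y : F, y ≠ 0 ∧ u = y ^ p

/-! ## The interface statement and the assembly -/

/-- **ALG-p (interface statement).**  In the setting of `A2.AlgSSStatement` with residue
characteristic `p` and `ζ_p ∈ R`: if `u` has divisor divisible by `p`, is deeply split
(`≡ 1 mod (ζ-1)^p w` on both components of both charts) and pure at every closed point of the
special fibre, and `τ ζ = ζ ^ k`, then `τ u = h ^ p * u ^ k`. -/
def AlgPStatement : Prop :=
  ∀ {R E F : Type} [CommRing R] [IsDomain R] [IsDiscreteValuationRing R]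
    [HenselianLocalRing R] [IsAlgClosed (IsLocalRing.ResidueField R)]
    [Field E] [CharZero E] [Algebra R E] [IsFractionRing R E]
    [Field F] [Algebra E F] [Algebra R F] [IsScalarTower R E F]
    (p : ℕ) (_ : p.Prime) (_ : (p : R) ∈ IsLocalRing.maximalIdeal R)
    (ζ : R) (_ : IsPrimitiveRoot ζ p)
    (w : R) (_ : Irreducible w)
    (x : F) (_ : Transcendental E x)
    (_ : FiniteDimensional (IntermediateField.adjoin E ({x} : Set F)) F)
    (_ : ∀ f : F, IsAlgebraic E f → f ∈ (algebraMap E F).range)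
    (Bf Bi : Subalgebra R F)
    (_ : ∀ f : F, f ∈ Bf ↔ IsIntegral (Algebra.adjoin R ({x} : Set F)) f)
    (_ : ∀ f : F, f ∈ Bi ↔ IsIntegral (Algebra.adjoin R ({x⁻¹} : Set F)) f)
    (cf : SSChart w Bf) (ci : SSChart w Bi)
    (τ : F ≃+* F) (τE : E ≃+* E) (τR : R ≃+* R)
    (_ : ∀ e : E, τ (algebraMap E F e) = algebraMap E F (τE e))
    (_ : ∀ r : R, τE (algebraMap R E r) = algebraMap R E (τR r))
    (_ : ∀ b ∈ Bf, ∃ c ∈ Bf, τ b - b = algebraMap R F w * c)
    (_ : ∀ b ∈ Bi, ∃ c ∈ Bi, τ b - b = algebraMap R F w * c)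
    (k : ℕ) (_ : τR ζ = ζ ^ k)
    (u : F) (_ : u ≠ 0) (_ : DivisibleDiv E p u)
    (_ : IsDeepSplit Bf cf ((ζ - 1) ^ p * w) u) (_ : IsDeepSplit Bi ci ((ζ - 1) ^ p * w) u)
    (_ : ∀ n : Ideal Bf, n.IsMaximal → algebraMap R Bf w ∈ n → PureAt Bf cf p u n)
    (_ : ∀ n : Ideal Bi, n.IsMaximal → algebraMap R Bi w ∈ n → PureAt Bi ci p u n),
    ∃ h : F, h ≠ 0 ∧ τ u = h ^ p * u ^ k

section Asm

variable {R E F : Type} [CommRing R] [Field E] [Algebra R E] [Field F] [Algebra E F]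
  [Algebra R F]

/-- `m ∣ div (f ^ k)` if `m ∣ div f`. -/
theorem divisibleDiv_pow_h103 (m k : ℕ) (f : F) (hf : DivisibleDiv E m f) :
    DivisibleDiv E m (f ^ k) := by
  intro V hV hE
  obtain ⟨h, u, hh, hu, hu', rfl⟩ := hf V hV hE
  refine ⟨h ^ k, u ^ k, pow_ne_zero k hh, V.pow_mem hu k, ?_, ?_⟩
  · rw [← inv_pow]
    exact V.pow_mem hu' k
  · rw [mul_pow, ← pow_mul, ← pow_mul, mul_comm m k]

end Asm

/-- **ALG-p from its three leaves.** -/
theorem algP_of_leaves (hWP : WildPurityLeaf) (hL : LabelLeaf) (hG : GluePLeaf) :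
    AlgPStatement := by
  intro R E F _ _ _ _ _ _ _ _ _ _ _ _ _ p hp hpR ζ hζ w hw x hx hfin hconst Bf Bi hBf hBi
    cf ci τ τE τR hτE hτR hτf hτi k hk u hu hdiv hsf hsi hpf hpi
  have hCf : ChartCtx E w x Bf := ⟨hw, hx, hfin, hconst, hBf⟩
  have hCi : ChartCtx E w x⁻¹ Bi := chartCtx_inv w hw x hx hfin hconst Bi hBi
  have hTf : TauCtx w Bf τ τE τR := ⟨hτE, hτR, hτf⟩
  have hTi : TauCtx w Bi τ τE τR := ⟨hτE, hτR, hτi⟩
  have hτu : τ u ≠ 0 := (map_ne_zero τ).2 hu
  have huk : u ^ k ≠ 0 := pow_ne_zero k hu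
  have hu' : τ u * (u ^ k)⁻¹ ≠ 0 := mul_ne_zero hτu (inv_ne_zero huk)
  have hdiv' : DivisibleDiv E p (τ u * (u ^ k)⁻¹) :=
    divisibleDiv_mul_inv p _ _ (divisibleDiv_tau τ τE hτE p u hdiv)
      (divisibleDiv_pow_h103 p k u hdiv)
  have hf : LocallyFactoredP Bf cf p (ζ - 1) (τ u * (u ^ k)⁻¹) := fun n hn hwn =>
    hL p hp hpR ζ hζ w hw Bf cf τ τE τR hTf k hk u hu n hn.isPrime hwn
      (hWP p hp hpR ζ hζ w x Bf hCf cf u hu hsf n hn hwn (hpf n hn hwn))
  have hi : LocallyFactoredP Bi ci p (ζ - 1) (τ u * (u ^ k)⁻¹) := fun n hn hwn =>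
    hL p hp hpR ζ hζ w hw Bi ci τ τE τR hTi k hk u hu n hn.isPrime hwn
      (hWP p hp hpR ζ hζ w x⁻¹ Bi hCi ci u hu hsi n hn hwn (hpi n hn hwn))
  obtain ⟨y, hy, hyu⟩ := hG p hp hpR ζ hζ w x Bf Bi hCf hCi cf ci _ hu' hdiv' hf hi
  refine ⟨y, hy, ?_⟩
  rw [← hyu, mul_assoc, inv_mul_cancel₀ huk, mul_one]

end Fermat.Agent.Ribet.H103.AlgP

end
-- ===== PACK-END Ribet/H103/AlgPSpec.lean

-- ===== PACK-BEGIN Ribet/H704/I6Inst.lean
section
/-
# RIBET row 38, WALL-p, crux (I6) = (S4): SPEC v3 of the PERIOD package  (sub-architect helper704)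

Leaves of v1/v2 (`I6Spec.lean`, `I6Core.lean`) — ALL DONE, on main:
PER/SHIFT/CORE (H704), NODE (`H403.nodeRel_403`, `nodeRelExact_403`, `nodeRelFrac_403`),
WPUR (`H524.wildPurity524`, `H7.wildPurity`), ETNODE (`H600.etaleNode`), INST-A (`H132.InstA`),
PEU (`H785.PeuWall`).

This file freezes the Mathlib-only leaves of the COVER part of the assembly (Props only):

| leaf      | Prop                   | content |
|---|---|---|
| NODEVAL   | `NodeValStatement`     | branch valuations and slopes exist and are unique in a node ring |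
| NODE-V    | `NodeRelValStatement`  | `NodeRelFracStatement` with horizontal divisibility in VALUATION form |
| SHEETS    | `SheetsStatement`      | two branch valuations of `F'` with the same restriction to `F` are conjugate |
| COVER-NODE| `CoverNodeStatement`   | WPUR + ETNODE: a node ring `R' ⊆ K(h)`, `h ^ p = g`, above a node ring `R` |
| SPLIT-LOC | `SplitLocStatement`    | a split horizontally `p`-divisible `u ∈ Frac R` is `g · d ^ p`, `g` as in WPUR |

Owners prove `theorem foo : FooStatement` VERBATIM in `Fermat/Agent/Ribet/H<seat>/...`.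
The assembly `CoverCore.lean` (helper704) consumes exactly these Props.
-/


set_option autoImplicit false

namespace Fermat.Agent.Ribet.H704.I6

open Ideal

section Vocabulary

variable {R : Type*} [CommRing R] (K : Type*) [Field K] [Algebra R K]

/-- Horizontal `m`-divisibility of `u ∈ K = Frac R` in VALUATION form (the form of
`H463.IsNode463.dvd_slope_left`): at every discrete valuation ring `V ⊇ R[1/π]` of `K`,
`u = unit · g ^ m`. -/
def HorDivVal (π : R) (m : ℕ) (u : K) : Prop :=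
  ∀ V : ValuationSubring K, IsDiscreteValuationRing V →
    (∀ r : R, algebraMap R K r ∈ V) → (algebraMap R K π)⁻¹ ∈ V →
    ∃ g u₀ : K, u₀ ∈ V ∧ u₀⁻¹ ∈ V ∧ u = u₀ * g ^ m

/-- `u ∈ K` is a `p`-th power in the `π`-adic completion of `R_𝔭`:
for every `k`, `u = h ^ p · (1 + π ^ k · t / r)` with `h ∈ K`, `r ∈ R ∖ 𝔭`, `t ∈ R`. -/
def SplitAt (𝔭 : Ideal R) (π : R) (p : ℕ) (u : K) : Prop :=
  ∀ k : ℕ, ∃ (h : K) (r t : R), r ∉ 𝔭 ∧
    u * algebraMap R K r = h ^ p * (algebraMap R K r + algebraMap R K π ^ k * algebraMap R K t)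

end Vocabulary

/-! ## NODEVAL -/

/-- **NODEVAL.**  In a node ring the localisation at the branch `𝔭₂` is a discrete valuation ring
with uniformiser `π`, and the slope along `𝔭₂` is well defined: `ValAt` and `SlopeAt`
(`I6Core.lean`) exist for every `u ≠ 0` and are unique.
(By symmetry of `IsNode` the same holds for `𝔭₁`, `x`.) -/
def NodeValStatement : Prop :=
  ∀ (R K : Type) [CommRing R] [IsDomain R] [IsIntegrallyClosed R] [IsNoetherianRing R]
    [IsLocalRing R] [Field K] [Algebra R K] [IsFractionRing R K]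
    (𝔭₁ 𝔭₂ : Ideal R) (π x y : R), IsNode 𝔭₁ 𝔭₂ π x y →
    (∀ u : K, u ≠ 0 → ∃ v : ℤ, ValAt K 𝔭₂ π u v) ∧
    (∀ (u : K) (v v' : ℤ), ValAt K 𝔭₂ π u v → ValAt K 𝔭₂ π u v' → v = v') ∧
    (∀ u : K, u ≠ 0 → ∃ s : ℤ, SlopeAt K 𝔭₂ π y u s) ∧
    (∀ (u : K) (s s' : ℤ), SlopeAt K 𝔭₂ π y u s → SlopeAt K 𝔭₂ π y u s' → s = s')

/-! ## NODE-V -/

/-- **NODE, valuation form**: `NodeRelFracStatement` with `HorDivVal` instead of `HorDivFrac`. -/
def NodeRelValStatement : Prop :=
  ∀ (R K : Type) [CommRing R] [IsDomain R] [IsIntegrallyClosed R] [IsNoetherianRing R]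
    [IsLocalRing R] [Field K] [Algebra R K] [IsFractionRing R K]
    (𝔭₁ 𝔭₂ : Ideal R) (π x y : R), IsNode 𝔭₁ 𝔭₂ π x y →
    ∀ (m N : ℕ), m ≠ 0 → Nat.Coprime N m → ∀ D D' : R, IsUnitPair 𝔭₁ 𝔭₂ π D D' N →
    ∀ (u : K), u ≠ 0 → HorDivVal K π m u →
    ∀ (v₁ v₂ s : ℤ) (k : ℕ), ValAt K 𝔭₁ π u v₁ → ValAt K 𝔭₂ π u v₂ → SlopeAt K 𝔭₂ π y u s →
      OrdOn 𝔭₁ x D k → (m : ℤ) ∣ (N : ℤ) * s - (v₁ - v₂) * k

/-! ## SHEETS -/

/-- **SHEETS.**  `F' / F` finite Galois with cyclic group generated by `τ`.  Two discrete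
valuations of `F'` (given as branches `(R₁, 𝔮₁)`, `(R₂, 𝔮₂)` with the same uniformiser `ϖ ∈ F`;
"`ValAt` exists" says that `(Rᵢ)_{𝔮ᵢ}` is a discrete valuation ring of `F'` with uniformiser `ϖ`)
which agree on `F` are conjugate under a power of `τ`. -/
def SheetsStatement : Prop :=
  ∀ (F F' : Type) [Field F] [Field F'] [Algebra F F'] [FiniteDimensional F F'] [IsGalois F F']
    (τ : F' ≃ₐ[F] F'), (∀ g : F' ≃ₐ[F] F', ∃ j : ℕ, g = τ ^ j) →
    ∀ (R₁ R₂ : Type) [CommRing R₁] [CommRing R₂] [Algebra R₁ F'] [Algebra R₂ F']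
      [IsFractionRing R₁ F'] [IsFractionRing R₂ F']
      (𝔮₁ : Ideal R₁) (𝔮₂ : Ideal R₂) (π₁ : R₁) (π₂ : R₂) (ϖ : F),
      algebraMap R₁ F' π₁ = algebraMap F F' ϖ → algebraMap R₂ F' π₂ = algebraMap F F' ϖ →
      𝔮₁.IsPrime → 𝔮₂.IsPrime → π₁ ∈ 𝔮₁ → π₂ ∈ 𝔮₂ →
      (∀ u : F', u ≠ 0 → ∃ v : ℤ, ValAt F' 𝔮₁ π₁ u v) →
      (∀ u : F', u ≠ 0 → ∃ v : ℤ, ValAt F' 𝔮₂ π₂ u v) →
      (∀ (a : F) (v : ℤ), a ≠ 0 →
        (ValAt F' 𝔮₁ π₁ (algebraMap F F' a) v ↔ ValAt F' 𝔮₂ π₂ (algebraMap F F' a) v)) →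
      ∃ j : ℕ, ∀ (u : F') (v : ℤ), u ≠ 0 →
        (ValAt F' 𝔮₂ π₂ u v ↔ ValAt F' 𝔮₁ π₁ ((τ ^ j) u) v)

/-! ## COVER-NODE -/

/-- **COVER-NODE.**  `R` a node ring with algebraically closed residue field, `K = Frac R`,
`g ∈ R` as in WPUR (`WildPurityStatement`), `L = K(h)` with `h ^ p = g`.  Then there is a node
ring `R' ⊆ L` above `R` (a localisation of `R[Y]`, `Y` a root of the Artin–Schreier type
polynomial of WPUR, at a maximal ideal): local, normal, noetherian, `Frac R' = L`, with the SAME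
`π, x, y` and branches `𝔭₁ R'`, `𝔭₂ R'` lying over `𝔭₁`, `𝔭₂`.
(`ζ ∈ R` a primitive `p`-th root of unity, `λ = ζ - 1`: so `[L : K] ∈ {1, p}`; if `h ∈ K` take
`R' = R`.) -/
def CoverNodeStatement : Prop :=
  ∀ (R K L : Type) [CommRing R] [IsDomain R] [IsIntegrallyClosed R] [IsNoetherianRing R]
    [IsLocalRing R] [Field K] [Algebra R K] [IsFractionRing R K] [Field L] [Algebra K L]
    [Algebra R L] [IsScalarTower R K L]
    (𝔭₁ 𝔭₂ : Ideal R) (π x y : R), IsNode 𝔭₁ 𝔭₂ π x y →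
    IsAlgClosed (IsLocalRing.ResidueField R) →
    ∀ (p : ℕ), p.Prime → ∀ ζ : R, IsPrimitiveRoot ζ p →
    ∀ (lam ε η : R) (e : ℕ), lam = ζ - 1 → IsUnit ε → lam ^ (p - 1) = (p : R) * ε →
      IsUnit η → 0 < e → lam = η * π ^ e →
    ∀ g : R, g ∉ 𝔭₁ → g ∉ 𝔭₂ → HorDiv π p g →
      (∀ k : ℕ, ∃ h r t : R, r ∉ 𝔭₁ ∧ g * r ^ p - h ^ p = π ^ k * t) →
      (∀ k : ℕ, ∃ h r t : R, r ∉ 𝔭₂ ∧ g * r ^ p - h ^ p = π ^ k * t) →
    ∀ h : L, h ^ p = algebraMap R L g → IntermediateField.adjoin K ({h} : Set L) = ⊤ →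
    ∃ (R' : Subalgebra R L) (_ : IsLocalRing R'),
      IsIntegrallyClosed R' ∧ IsNoetherianRing R' ∧ IsFractionRing R' L ∧
      IsNode (𝔭₁.map (algebraMap R R')) (𝔭₂.map (algebraMap R R')) (algebraMap R R' π)
        (algebraMap R R' x) (algebraMap R R' y) ∧
      (∀ a : R, algebraMap R R' a ∈ 𝔭₁.map (algebraMap R R') → a ∈ 𝔭₁) ∧
      (∀ a : R, algebraMap R R' a ∈ 𝔭₂.map (algebraMap R R') → a ∈ 𝔭₂)

/-! ## SPLIT-LOC -/

/-- **SPLIT-LOC.**  In a node ring `R` with `K = Frac R`: a horizontally `p`-divisible `u ∈ Kˣ`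
which is a `p`-th power in the completions of both branches is `u = g · d ^ p` with `d ∈ Kˣ` and
`g ∈ R ∖ (𝔭₁ ∪ 𝔭₂)` satisfying the hypotheses of WPUR.
(Write `u = a / b`; change `b` by elements of `𝔭₂ ∖ (𝔭₂⁽²⁾ ∪ 𝔭₁)`, `𝔭₁ ∖ (𝔭₁⁽²⁾ ∪ 𝔭₂)` until
`v₁(a b ^ (p-1)) = v₂(a b ^ (p-1)) = p c`; `g := a b ^ (p-1) / π ^ (p c) ∈ R` by Hartogs.) -/
def SplitLocStatement : Prop :=
  ∀ (R K : Type) [CommRing R] [IsDomain R] [IsIntegrallyClosed R] [IsNoetherianRing R]
    [IsLocalRing R] [Field K] [Algebra R K] [IsFractionRing R K]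
    (𝔭₁ 𝔭₂ : Ideal R) (π x y : R), IsNode 𝔭₁ 𝔭₂ π x y →
    ∀ (p : ℕ), p.Prime → ∀ u : K, u ≠ 0 → HorDivVal K π p u →
      SplitAt K 𝔭₁ π p u → SplitAt K 𝔭₂ π p u →
      ∃ (g : R) (d : K), d ≠ 0 ∧ u = algebraMap R K g * d ^ p ∧ g ∉ 𝔭₁ ∧ g ∉ 𝔭₂ ∧
        HorDiv π p g ∧
        (∀ k : ℕ, ∃ h r t : R, r ∉ 𝔭₁ ∧ g * r ^ p - h ^ p = π ^ k * t) ∧
        (∀ k : ℕ, ∃ h r t : R, r ∉ 𝔭₂ ∧ g * r ^ p - h ^ p = π ^ k * t)

end Fermat.Agent.Ribet.H704.I6

end
-- ===== PACK-END Ribet/H704/I6Inst.lean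

-- ===== PACK-BEGIN A2/Mod/H872/GaussJ.lean
section



/-!
# A2 / MOD leaf L7 (helper872), part 2: elementary facts on the Gauss valuation ring

`L ⊇ ℚ` a field, `A` a valuation subring of `L`, `F₀ ⊆ ℚ((t))`, `F = L·F₀ ⊆ L((t))`,
`V` a valuation subring of `F` with `f ∈ V ↔ H708.IsGaussInt A F₀ f` (the Gauss valuation ring).

* `mem_of_incl`, `inv_mem_of_incl` : integral series lie in `V`; primitive ones are units;
* `red_eq_zero_of_mul_inv_mem` : an integral series divisible by a non-unit constant in `V` has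
  zero reduction;
* `isUnif_of_isGauss` : if `A` is a discrete valuation ring with uniformiser `w`, then `w`
  generates the maximal ideal of `V` (`H48.IsUnif`).
-/

set_option autoImplicit false

noncomputable section

namespace Fermat.Agent.A2.Mod.H872

open ModularCurve HahnSeries Fermat.Agent.A2.H708 Fermat.Agent.A2.H48

variable {L : Type*} [Field L] [Algebra ℚ L] {A : ValuationSubring L}
  {F₀ : IntermediateField ℚ (LaurentSeries ℚ)}
  {V : ValuationSubring ↥(laurentBaseChange L F₀)}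

/-- Integral series lie in the Gauss ring. -/
theorem mem_of_incl (hV : ∀ f : ↥(laurentBaseChange L F₀), f ∈ V ↔
      IsGaussInt A F₀ (f : LaurentSeries L))
    {f : ↥(laurentBaseChange L F₀)} {U : LaurentSeries A}
    (hf : (f : LaurentSeries L) = incl A U) : f ∈ V := by
  rw [hV, hf]
  exact IsGaussInt.of_incl U

/-- Primitive integral series are units of the Gauss ring. -/
theorem inv_mem_of_incl (hV : ∀ f : ↥(laurentBaseChange L F₀), f ∈ V ↔
      IsGaussInt A F₀ (f : LaurentSeries L))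
    {f : ↥(laurentBaseChange L F₀)} {U : LaurentSeries A}
    (hf : (f : LaurentSeries L) = incl A U) (hU : red A U ≠ 0) : f⁻¹ ∈ V := by
  rw [hV]
  have hU0 : incl A U ≠ 0 := incl_ne_zero A (ne_zero_of_red_ne_zero A hU)
  refine ⟨1, U, hU, ?_, ?_⟩
  · rw [← hf]; exact f.2
  · rw [IntermediateField.coe_inv, hf, inv_mul_cancel₀ hU0, map_one]

/-- The constant `c ∈ A` as an integral series. -/
theorem coe_algebraMap_eq_incl (c : A) :
    ((algebraMap L ↥(laurentBaseChange L F₀) (c : L) : ↥(laurentBaseChange L F₀)) :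
      LaurentSeries L) = incl A (cstA A c) := by
  rw [incl_cstA]
  rfl

/-- An integral series which is divisible in `V` by a non-unit constant has zero reduction. -/
theorem red_eq_zero_of_mul_inv_mem (hV : ∀ f : ↥(laurentBaseChange L F₀), f ∈ V ↔
      IsGaussInt A F₀ (f : LaurentSeries L))
    {f : ↥(laurentBaseChange L F₀)} {U : LaurentSeries A}
    (hf : (f : LaurentSeries L) = incl A U) {w : A} (hw0 : (w : L) ≠ 0)
    (hw : IsLocalRing.residue A w = 0)
    (h : f * (algebraMap L ↥(laurentBaseChange L F₀) (w : L))⁻¹ ∈ V) : red A U = 0 := by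
  rw [hV] at h
  obtain ⟨U₁, U₂, hU₂, -, he⟩ := h
  have hcw : cst (w : L) ≠ 0 := cst_ne_zero hw0
  have h1 : incl A (U * U₂) = incl A (cstA A w * U₁) := by
    rw [map_mul, map_mul, incl_cstA, ← he, ← hf]
    have : ((f * (algebraMap L ↥(laurentBaseChange L F₀) (w : L))⁻¹ :
        ↥(laurentBaseChange L F₀)) : LaurentSeries L) =
        (f : LaurentSeries L) * (cst (w : L))⁻¹ := by
      rw [IntermediateField.coe_mul, IntermediateField.coe_inv]
      rfl
    rw [this]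
    field_simp
  have h2 : U * U₂ = cstA A w * U₁ := incl_injective A h1
  have h3 := congrArg (red A) h2
  rw [map_mul, map_mul, red_cstA, hw, HahnSeries.single_eq_zero, zero_mul] at h3
  rcases mul_eq_zero.mp h3 with h4 | h4
  · exact h4
  · exact absurd h4 hU₂

section Unif

variable [IsDiscreteValuationRing A]

/-- `V` is the valuation subring `H708.gaussInf`. -/
theorem eq_gaussInf (hV : ∀ f : ↥(laurentBaseChange L F₀), f ∈ V ↔
      IsGaussInt A F₀ (f : LaurentSeries L)) (hgen : IntGen F₀) :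
    V = gaussInf A F₀ hgen (attainsMax_of_isNoetherianRing A F₀) := by
  ext f
  rw [hV, mem_gaussInf_iff]

/-- If `A` is a discrete valuation ring with uniformiser `w`, then `w` generates the maximal
ideal of the Gauss valuation ring. -/
theorem isUnif_of_isGauss (hV : ∀ f : ↥(laurentBaseChange L F₀), f ∈ V ↔
      IsGaussInt A F₀ (f : LaurentSeries L)) (hgen : IntGen F₀)
    {w : A} (hw : Irreducible w) :
    IsUnif V (algebraMap L ↥(laurentBaseChange L F₀) (w : L)) := by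
  have hVG := eq_gaussInf hV hgen
  set G := gaussInf A F₀ hgen (attainsMax_of_isNoetherianRing A F₀) with hG
  have hw0 : (w : L) ≠ 0 := by
    intro h
    exact hw.ne_zero (Subtype.ext h)
  have hconst : ∀ c : L, algebraMap L ↥(laurentBaseChange L F₀) c ∈ V ↔ c ∈ A := by
    intro c
    rw [hVG]
    exact algebraMap_mem_gaussInf_iff hgen _ c
  have hwinv : (w : L)⁻¹ ∉ A := by
    intro h
    apply hw.not_isUnit
    refine isUnit_iff_exists_inv.mpr ⟨⟨(w : L)⁻¹, h⟩, ?_⟩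
    apply Subtype.ext
    show (w : L) * (w : L)⁻¹ = 1
    exact mul_inv_cancel₀ hw0
  refine ⟨(hconst _).mpr w.2, ?_, ?_⟩
  · rw [← map_inv₀, hconst]
    exact hwinv
  · intro f hf hfinv
    have hf0 : f ≠ 0 := by
      rintro rfl
      exact hfinv (by rw [inv_zero]; exact zero_mem _)
    rw [hVG] at hf hfinv ⊢
    obtain ⟨c, hc0, hc⟩ := exists_const_mul_unit hgen (attainsMax_of_isNoetherianRing A F₀) hf0
    -- `v(f) < 1`
    have hvf : G.valuation f < 1 := by
      have h1 : G.valuation f ≤ 1 := (G.valuation_le_one_iff f).mpr hf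
      rcases lt_or_eq_of_le h1 with h2 | h2
      · exact h2
      · exfalso
        apply hfinv
        rw [← G.valuation_le_one_iff, map_inv₀, h2, inv_one]
    -- `v(c) = v(f)`
    have hvc0 : G.valuation (algebraMap L ↥(laurentBaseChange L F₀) c) ≠ 0 :=
      (Valuation.ne_zero_iff _).mpr (by
        intro h
        exact hc0 ((map_eq_zero _).mp h))
    have hvc : G.valuation (algebraMap L ↥(laurentBaseChange L F₀) c) = G.valuation f := by
      rw [map_mul, map_inv₀] at hc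
      have := (mul_inv_eq_one₀ hvc0).mp hc
      exact this.symm
    -- `c ∈ A`, `c` not a unit
    have hcA : c ∈ A := by
      rw [← algebraMap_mem_gaussInf_iff hgen (attainsMax_of_isNoetherianRing A F₀) c,
        ← G.valuation_le_one_iff, hvc]
      exact hvf.le
    have hcinv : c⁻¹ ∉ A := by
      intro h
      have h1 : algebraMap L ↥(laurentBaseChange L F₀) c⁻¹ ∈ G :=
        (algebraMap_mem_gaussInf_iff hgen (attainsMax_of_isNoetherianRing A F₀) c⁻¹).mpr h
      rw [← G.valuation_le_one_iff, map_inv₀, map_inv₀, hvc] at h1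
      have hvf0 : G.valuation f ≠ 0 := (Valuation.ne_zero_iff _).mpr hf0
      rw [inv_le_one₀ (zero_lt_iff.mpr hvf0)] at h1
      exact absurd hvf (not_lt.mpr h1)
    -- `w ∣ c` in `A`
    have hcm : (⟨c, hcA⟩ : A) ∈ IsLocalRing.maximalIdeal A := by
      rw [IsLocalRing.mem_maximalIdeal, mem_nonunits_iff]
      intro hu
      obtain ⟨d, hd⟩ := isUnit_iff_exists_inv.mp hu
      apply hcinv
      have h1 : c * (d : L) = 1 := congrArg Subtype.val hd
      have : c⁻¹ = (d : L) := inv_eq_of_mul_eq_one_right h1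
      rw [this]
      exact d.2
    rw [hw.maximalIdeal_eq, Ideal.mem_span_singleton] at hcm
    obtain ⟨r, hr⟩ := hcm
    have hcr : c = (w : L) * (r : L) := congrArg Subtype.val hr
    -- conclusion
    rw [← G.valuation_le_one_iff]
    have hfw : f * (algebraMap L ↥(laurentBaseChange L F₀) (w : L))⁻¹ =
        (f * (algebraMap L ↥(laurentBaseChange L F₀) c)⁻¹) *
          algebraMap L ↥(laurentBaseChange L F₀) (r : L) := by
      have hwF : algebraMap L ↥(laurentBaseChange L F₀) (w : L) ≠ 0 := by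
        intro h
        exact hw0 ((map_eq_zero _).mp h)
      have hcF : algebraMap L ↥(laurentBaseChange L F₀) c ≠ 0 := by
        intro h
        exact hc0 ((map_eq_zero _).mp h)
      have hcr' : algebraMap L ↥(laurentBaseChange L F₀) c =
          algebraMap L ↥(laurentBaseChange L F₀) (w : L) *
            algebraMap L ↥(laurentBaseChange L F₀) (r : L) := by
        rw [hcr, map_mul]
      have hrF : algebraMap L ↥(laurentBaseChange L F₀) (r : L) ≠ 0 := by
        intro h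
        rw [hcr', h, mul_zero] at hcF
        exact hcF rfl
      rw [hcr']
      field_simp
    rw [hfw, map_mul, hc, one_mul, G.valuation_le_one_iff]
    exact (algebraMap_mem_gaussInf_iff hgen (attainsMax_of_isNoetherianRing A F₀) _).mpr r.2

end Unif

end Fermat.Agent.A2.Mod.H872

end
end
-- ===== PACK-END A2/Mod/H872/GaussJ.lean

-- ===== PACK-BEGIN S18/H576/Objects.lean
section


/-!
# S18 / MOD-ASM (helper576): basic facts about the concrete objects of `Mod/Defs.lean`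
-/

set_option autoImplicit false

noncomputable section

namespace Fermat.Agent.S18.H576

open ModularCurve AlgebraicCurve HahnSeries Fermat.Agent.S18 Fermat.Agent.S18.Mod

variable {M : ℕ} {A : ValuationSubring Qb} {E : IntermediateField ℚ Qb}

/-- The inclusion of the constants. -/
abbrev iota (M : ℕ) : Qb →+* Om M := algebraMap Qb (Om M)

theorem iota_injective (M : ℕ) : Function.Injective (iota M) :=
  (algebraMap Qb (Om M)).injective

theorem coe_iota (a : Qb) :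
    ((iota M a : Om M) : LaurentSeries Qb) = algebraMap Qb (LaurentSeries Qb) a := rfl

theorem coe_iota_single (a : Qb) :
    ((iota M a : Om M) : LaurentSeries Qb) = HahnSeries.single 0 a := by
  rw [coe_iota, algebraMap_laurentSeries_eq_single]

theorem mem_Lc_iff {y : Om M} : y ∈ Lc M ↔ ∃ a : Qb, iota M a = y := by
  unfold Lc
  exact RingHom.mem_fieldRange

theorem mem_Ec_iff {y : Om M} : y ∈ Ec M E ↔ ∃ a : Qb, a ∈ E ∧ iota M a = y := by
  unfold Ec
  rw [Subfield.mem_map]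
  constructor
  · rintro ⟨a, ha, rfl⟩
    exact ⟨a, ha, rfl⟩
  · rintro ⟨a, ha, rfl⟩
    exact ⟨a, ha, rfl⟩

theorem mem_Rc_iff {y : Om M} : y ∈ Rc M A E ↔ ∃ a : Qb, a ∈ A ∧ a ∈ E ∧ iota M a = y := by
  unfold Rc
  rw [Subring.mem_map]
  constructor
  · rintro ⟨a, ha, rfl⟩
    rw [Subring.mem_inf] at ha
    exact ⟨a, ha.1, ha.2, rfl⟩
  · rintro ⟨a, haA, haE, rfl⟩
    exact ⟨a, Subring.mem_inf.mpr ⟨haA, haE⟩, rfl⟩

theorem iota_mem_Lc (a : Qb) : iota M a ∈ Lc M := mem_Lc_iff.mpr ⟨a, rfl⟩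

theorem iota_mem_Ec {a : Qb} (ha : a ∈ E) : iota M a ∈ Ec M E := mem_Ec_iff.mpr ⟨a, ha, rfl⟩

theorem iota_mem_Rc {a : Qb} (haA : a ∈ A) (haE : a ∈ E) : iota M a ∈ Rc M A E :=
  mem_Rc_iff.mpr ⟨a, haA, haE, rfl⟩

theorem iota_mem_Ec_iff {a : Qb} : iota M a ∈ Ec M E ↔ a ∈ E := by
  constructor
  · intro h
    obtain ⟨b, hb, hab⟩ := mem_Ec_iff.mp h
    rwa [← iota_injective M hab]
  · exact iota_mem_Ec

theorem iota_mem_Rc_iff {a : Qb} : iota M a ∈ Rc M A E ↔ a ∈ A ∧ a ∈ E := by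
  constructor
  · intro h
    obtain ⟨b, hbA, hbE, hab⟩ := mem_Rc_iff.mp h
    rw [← iota_injective M hab]
    exact ⟨hbA, hbE⟩
  · exact fun h => iota_mem_Rc h.1 h.2

theorem Rc_subset_Ec : (Rc M A E : Set (Om M)) ⊆ Ec M E := by
  intro y hy
  obtain ⟨a, -, haE, rfl⟩ := mem_Rc_iff.mp hy
  exact iota_mem_Ec haE

theorem Ec_le_Lc : Ec M E ≤ Lc M := by
  intro y hy
  obtain ⟨a, -, rfl⟩ := mem_Ec_iff.mp hy
  exact iota_mem_Lc a

theorem Ec_le_Fc : Ec M E ≤ Fc M E := by
  intro y hy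
  exact Subfield.subset_closure (Or.inl hy)

theorem Rc_total : ∀ e ∈ Ec M E, e ∈ Rc M A E ∨ e⁻¹ ∈ Rc M A E := by
  intro e he
  obtain ⟨a, haE, rfl⟩ := mem_Ec_iff.mp he
  rcases A.mem_or_inv_mem a with h | h
  · exact Or.inl (iota_mem_Rc h haE)
  · right
    rw [← map_inv₀]
    exact iota_mem_Rc h (inv_mem haE)

instance charZero_Om (M : ℕ) : CharZero (Om M) :=
  charZero_of_injective_algebraMap (iota_injective M)

theorem isAlgebraic_Ec_of_mem_Lc : ∀ a ∈ Lc M, IsAlgebraic (Ec M E) a := by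
  intro a ha
  obtain ⟨b, rfl⟩ := mem_Lc_iff.mp ha
  have hb : IsAlgebraic ℚ b := (AlgebraicClosure.isAlgebraic ℚ).isAlgebraic b
  have h1 : IsAlgebraic ℚ (iota M b) := hb.algebraMap
  exact h1.tower_top (Ec M E)

theorem isAlgClosed_Lc (M : ℕ) : IsAlgClosed (Lc M) := by
  have e : Qb ≃+* (Lc M) := RingEquiv.ofBijective (iota M).rangeRestrictField
    ⟨fun a b h => iota_injective M (congrArg Subtype.val h),
      fun ⟨y, hy⟩ => by
        obtain ⟨a, rfl⟩ := mem_Lc_iff.mp hy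
        exact ⟨a, rfl⟩⟩
  exact IsAlgClosed.of_ringEquiv Qb (Lc M) e

end Fermat.Agent.S18.H576

end
end
-- ===== PACK-END S18/H576/Objects.lean

-- ===== PACK-BEGIN A2/Mod/H189/ChartChangeT3.lean
section


/-!
# Cell A2 / MOD, GOODRED part G3 (helper189): from the `t₃`-charts to the `j`-charts (`q = 2`)

Abstract setting (Mathlib only): `F` a field over `R`, `3` a unit of `R`, `t, j ∈ F` with
`j t³ = (t + 27)(t + 243)³` (`t` = Hauptmodul of `X₀(3)`), `j ≠ 0`; `V` a subring of `F`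
containing `R` in which `t`, `t + 27`, `t + 243` are units (the Gauss valuation ring), `w : F`.

* `goodOn_j_of_t3`    : `GoodOn` for the chart of `R[t]` ⟹ `GoodOn` for the chart of `R[j]`;
* `goodOn_jinv_of_t3` : `GoodOn` for the charts of `R[t]` and `R[1/t]` ⟹ `GoodOn` for the chart of
  `R[1/j]`  (`IC(R[1/j]) = IC(R[u₁, u₂])`, `u₁ = 1/(t+27)`, `u₂ = 1/(t+243)`, glued from
  `IC(R[t])[1/((t+27)(t+243))]` and `IC(R[1/t])[1/((1+27/t)(1+243/t))]`).
-/

set_option autoImplicit false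

namespace Fermat.Agent.A2.Mod.H189

variable {R : Type*} [CommRing R] {F : Type*} [Field F] [Algebra R F]

section T3

variable {V : Subring F} {w : F} {t j : F} (i : R)

include i in
theorem t3_facts (hi : (3 : R) * i = 1) (hj : j ≠ 0)
    (hrel : j * t ^ 3 = (t + 27) * (t + 243) ^ 3) :
    (3 : F) * algebraMap R F i = 1 ∧ (3 : F) ≠ 0 ∧ t ≠ 0 ∧ t + 27 ≠ 0 ∧ t + 243 ≠ 0 := by
  have h1 : (3 : F) * algebraMap R F i = 1 := by
    have := congrArg (algebraMap R F) hi
    rwa [map_mul, map_one, map_ofNat] at this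
  have h2 : (3 : F) ≠ 0 := fun h => by rw [h, zero_mul] at h1; exact zero_ne_one h1
  have h27 : (27 : F) ≠ 0 := by
    have : (27 : F) = 3 ^ 3 := by norm_num
    rw [this]
    exact pow_ne_zero 3 h2
  have h243 : (243 : F) ≠ 0 := by
    have : (243 : F) = 3 ^ 5 := by norm_num
    rw [this]
    exact pow_ne_zero 5 h2
  have h3 : t ≠ 0 := by
    intro h
    rw [h] at hrel
    simp only [ne_eq, OfNat.ofNat_ne_zero, not_false_eq_true, zero_pow, mul_zero, zero_add] at hrel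
    exact mul_ne_zero h27 (pow_ne_zero 3 h243) hrel.symm
  have hjt : j * t ^ 3 ≠ 0 := mul_ne_zero hj (pow_ne_zero 3 h3)
  refine ⟨h1, h2, h3, fun h => hjt ?_, fun h => hjt ?_⟩
  · rw [hrel, h, zero_mul]
  · rw [hrel, h]
    simp

include i in
/-- **`t₃ → j`, finite chart.** -/
theorem goodOn_j_of_t3 (hi : (3 : R) * i = 1) (hj : j ≠ 0)
    (hrel : j * t ^ 3 = (t + 27) * (t + 243) ^ 3)
    (htV : t ∈ V) (htV' : t⁻¹ ∈ V) (hg : GoodOn V w (Aof R t)) : GoodOn V w (Aof R j) := by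
  obtain ⟨hi', h3, ht0, -, -⟩ := t3_facts i hi hj hrel
  have hjeq : j = (t + 27) * (t + 243) ^ 3 * t⁻¹ ^ 3 := by
    field_simp
    exact hrel
  refine (hg.loc (self_mem_Aof t) ht0 htV htV').congr ?_ ?_
  · intro a ha
    refine isIntegral_of_mem_locSub (A' := Aof R j) (fun a ha => ?_) ?_ ha
    · refine isIntegral_of_mem_adjoin (A := Aof R j) (S := {t}) (fun x hx => ?_) ha
      rw [Set.mem_singleton_iff] at hx
      subst hx
      refine isIntegral_of_quartic (a := 1) (v := 1) (c₃ := 756 - j) (c₂ := 196830)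
        (c₁ := 19131876) (c₀ := 387420489) (Subalgebra.one_mem _) (one_mul 1)
        (Subalgebra.sub_mem _ (ofNat_mem_sub _ 756) (self_mem_Aof j))
        (ofNat_mem_sub _ 196830) (ofNat_mem_sub _ 19131876) (ofNat_mem_sub _ 387420489) ?_
      linear_combination -hrel
    · refine isIntegral_of_quartic (a := 387420489) (v := algebraMap R F (i ^ 18))
        (c₃ := 19131876) (c₂ := 196830) (c₁ := 756 - j) (c₀ := 1)
        (Subalgebra.algebraMap_mem _ _) ?_
        (ofNat_mem_sub _ 19131876) (ofNat_mem_sub _ 196830)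
        (Subalgebra.sub_mem _ (ofNat_mem_sub _ 756) (self_mem_Aof j)) (Subalgebra.one_mem _) ?_
      · rw [map_pow]
        have : (387420489 : F) = 3 ^ 18 := by norm_num
        rw [this, ← mul_pow, mul_comm, hi', one_pow]
      · field_simp
        linear_combination -hrel
  · intro a ha
    refine isIntegral_of_mem (Aof_le (B := locSub (Aof R t) t) ?_ ha)
    rw [hjeq]
    refine Subalgebra.mul_mem _ (Subalgebra.mul_mem _ (Subalgebra.add_mem _
        (le_locSub _ _ (self_mem_Aof t)) (ofNat_mem_sub _ 27))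
      (Subalgebra.pow_mem _ (Subalgebra.add_mem _
        (le_locSub _ _ (self_mem_Aof t)) (ofNat_mem_sub _ 243)) 3))
      (Subalgebra.pow_mem _ (inv_mem_locSub _ _) 3)

include i in
/-- **`t₃ → j`, chart at infinity.** -/
theorem goodOn_jinv_of_t3 (hi : (3 : R) * i = 1) (hj : j ≠ 0)
    (hrel : j * t ^ 3 = (t + 27) * (t + 243) ^ 3) (hRV : ∀ r : R, algebraMap R F r ∈ V)
    (htV : t ∈ V) (htV' : t⁻¹ ∈ V) (hu₁V : (t + 27)⁻¹ ∈ V) (hu₂V : (t + 243)⁻¹ ∈ V)
    (hg : GoodOn V w (Aof R t)) (hg' : GoodOn V w (Aof R t⁻¹)) : GoodOn V w (Aof R j⁻¹) := by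
  obtain ⟨hi', h3, ht0, ht27, ht243⟩ := t3_facts i hi hj hrel
  have hi27 : (27 : F) * algebraMap R F (i ^ 3) = 1 := by
    rw [map_pow]
    have : (27 : F) = 3 ^ 3 := by norm_num
    rw [this, ← mul_pow, hi', one_pow]
  have h27V : (27 : F) ∈ V := by
    have := hRV 27
    rwa [map_ofNat] at this
  have h243V : (243 : F) ∈ V := by
    have := hRV 243
    rwa [map_ofNat] at this
  set u₁ : F := (t + 27)⁻¹ with hu₁
  set u₂ : F := (t + 243)⁻¹ with hu₂
  have hu₁0 : u₁ ≠ 0 := inv_ne_zero ht27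
  have hu₂0 : u₂ ≠ 0 := inv_ne_zero ht243
  have htu₁ : t * u₁ = 1 - 27 * u₁ := by
    rw [hu₁]
    field_simp
    ring
  have htu₂ : t * u₂ = 1 - 243 * u₂ := by
    rw [hu₂]
    field_simp
    ring
  have hjinv : j⁻¹ = (1 - 243 * u₂) ^ 2 * (1 - 27 * u₁) * u₂ := by
    rw [← htu₁, ← htu₂, hu₁, hu₂]
    field_simp
    linear_combination -hrel
  have h1u₁0 : 1 - 27 * u₁ ≠ 0 := by
    rw [← htu₁]
    exact mul_ne_zero ht0 hu₁0
  have h1u₂0 : 1 - 243 * u₂ ≠ 0 := by
    rw [← htu₂]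
    exact mul_ne_zero ht0 hu₂0
  have hinv1 : (1 - 27 * u₁)⁻¹ = 1 + 27 * t⁻¹ := by
    rw [← htu₁, hu₁]
    field_simp
  have hinv2 : (1 - 243 * u₂)⁻¹ = 1 + 243 * t⁻¹ := by
    rw [← htu₂, hu₂]
    field_simp
  -- the two denominators
  set D : F := (t + 27) * (t + 243) with hD
  set D' : F := (1 + 27 * t⁻¹) * (1 + 243 * t⁻¹) with hD'
  have hD0 : D ≠ 0 := mul_ne_zero ht27 ht243
  have hDinv : D⁻¹ = u₁ * u₂ := by rw [hD, mul_inv]
  have hD'inv : D'⁻¹ = (1 - 27 * u₁) * (1 - 243 * u₂) := by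
    rw [hD', mul_inv, ← hinv1, ← hinv2, inv_inv, inv_inv]
  have hD'0 : D' ≠ 0 := by
    intro h
    rw [h, inv_zero] at hD'inv
    exact mul_ne_zero h1u₁0 h1u₂0 hD'inv.symm
  -- the chart of `R[u₁, u₂]`
  set A' : Subalgebra R F := Algebra.adjoin R ({u₁, u₂} : Set F) with hA'
  have hu₁A : u₁ ∈ A' := Algebra.subset_adjoin (Set.mem_insert _ _)
  have hu₂A : u₂ ∈ A' := Algebra.subset_adjoin (Set.mem_insert_of_mem _ rfl)
  have hA'le : ∀ {B : Subalgebra R F}, u₁ ∈ B → u₂ ∈ B → A' ≤ B := by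
    intro B h1 h2
    refine Algebra.adjoin_le ?_
    rintro x (hx | hx)
    · rw [hx]; exact h1
    · rw [Set.mem_singleton_iff] at hx
      rw [hx]; exact h2
  have hgA : GoodOn V w A' := by
    refine GoodOn.glue (s₁ := u₁) (s₂ := 1 - 27 * u₁) (α := 27) (β := 1)
      (adjoin_subset_subring hRV (by
        rintro x (hx | hx)
        · rw [hx]; exact hu₁V
        · rw [Set.mem_singleton_iff] at hx
          rw [hx]; exact hu₂V))
      hu₁A
      (Subalgebra.sub_mem _ (Subalgebra.one_mem _)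
        (Subalgebra.mul_mem _ (ofNat_mem_sub _ 27) hu₁A))
      (ofNat_mem_sub _ 27) (Subalgebra.one_mem _) (by ring) ?_ ?_
    · -- `R[u₁, u₂, 1/u₁] = R[t, 1/D]`
      refine (hg.loc (s := D) (Subalgebra.mul_mem _
          (Subalgebra.add_mem _ (self_mem_Aof t) (ofNat_mem_sub _ 27))
          (Subalgebra.add_mem _ (self_mem_Aof t) (ofNat_mem_sub _ 243)))
        hD0 (V.mul_mem (V.add_mem htV h27V) (V.add_mem htV h243V)) ?_).of_le_of_le ?_ ?_
      · rw [hDinv]
        exact V.mul_mem hu₁V hu₂V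
      · refine locSub_le (Aof_le ?_) ?_
        · have : t = u₁⁻¹ - 27 := by rw [hu₁, inv_inv]; ring
          rw [this]
          exact Subalgebra.sub_mem _ (inv_mem_locSub _ _) (ofNat_mem_sub _ 27)
        · rw [hDinv]
          exact le_locSub _ _ (Subalgebra.mul_mem _ hu₁A hu₂A)
      · refine locSub_le (hA'le ?_ ?_) ?_
        · have : u₁ = (t + 243) * D⁻¹ := by
            rw [hD, hu₁]
            field_simp
          rw [this]
          exact Subalgebra.mul_mem _ (le_locSub _ _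
            (Subalgebra.add_mem _ (self_mem_Aof t) (ofNat_mem_sub _ 243))) (inv_mem_locSub _ _)
        · have : u₂ = (t + 27) * D⁻¹ := by
            rw [hD, hu₂]
            field_simp
          rw [this]
          exact Subalgebra.mul_mem _ (le_locSub _ _
            (Subalgebra.add_mem _ (self_mem_Aof t) (ofNat_mem_sub _ 27))) (inv_mem_locSub _ _)
        · rw [hu₁, inv_inv]
          exact le_locSub _ _ (Subalgebra.add_mem _ (self_mem_Aof t) (ofNat_mem_sub _ 27))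
    · -- `R[u₁, u₂, 1/(1 - 27 u₁)] = R[1/t, 1/D']`
      refine (hg'.loc (s := D') (Subalgebra.mul_mem _
          (Subalgebra.add_mem _ (Subalgebra.one_mem _)
            (Subalgebra.mul_mem _ (ofNat_mem_sub _ 27) (self_mem_Aof t⁻¹)))
          (Subalgebra.add_mem _ (Subalgebra.one_mem _)
            (Subalgebra.mul_mem _ (ofNat_mem_sub _ 243) (self_mem_Aof t⁻¹))))
        hD'0 (V.mul_mem (V.add_mem V.one_mem (V.mul_mem h27V htV'))
          (V.add_mem V.one_mem (V.mul_mem h243V htV'))) ?_).of_le_of_le ?_ ?_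
      · rw [hD'inv, ← htu₁, ← htu₂]
        exact V.mul_mem (V.mul_mem htV hu₁V) (V.mul_mem htV hu₂V)
      · refine locSub_le (Aof_le ?_) ?_
        · have : t⁻¹ = algebraMap R F (i ^ 3) * ((1 - 27 * u₁)⁻¹ - 1) := by
            rw [hinv1]
            linear_combination (-t⁻¹) * hi27
          rw [this]
          exact Subalgebra.mul_mem _ (Subalgebra.algebraMap_mem _ _)
            (Subalgebra.sub_mem _ (inv_mem_locSub _ _) (Subalgebra.one_mem _))
        · rw [hD'inv]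
          exact le_locSub _ _ (Subalgebra.mul_mem _
            (Subalgebra.sub_mem _ (Subalgebra.one_mem _)
              (Subalgebra.mul_mem _ (ofNat_mem_sub _ 27) hu₁A))
            (Subalgebra.sub_mem _ (Subalgebra.one_mem _)
              (Subalgebra.mul_mem _ (ofNat_mem_sub _ 243) hu₂A)))
      · refine locSub_le (hA'le ?_ ?_) ?_
        · have : u₁ = t⁻¹ * (1 + 243 * t⁻¹) * D'⁻¹ := by
            rw [hD', hu₁]
            field_simp
          rw [this]
          exact Subalgebra.mul_mem _ (le_locSub _ _ (Subalgebra.mul_mem _ (self_mem_Aof t⁻¹)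
            (Subalgebra.add_mem _ (Subalgebra.one_mem _)
              (Subalgebra.mul_mem _ (ofNat_mem_sub _ 243) (self_mem_Aof t⁻¹)))))
            (inv_mem_locSub _ _)
        · have : u₂ = t⁻¹ * (1 + 27 * t⁻¹) * D'⁻¹ := by
            rw [hD', hu₂]
            field_simp
          rw [this]
          exact Subalgebra.mul_mem _ (le_locSub _ _ (Subalgebra.mul_mem _ (self_mem_Aof t⁻¹)
            (Subalgebra.add_mem _ (Subalgebra.one_mem _)
              (Subalgebra.mul_mem _ (ofNat_mem_sub _ 27) (self_mem_Aof t⁻¹)))))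
            (inv_mem_locSub _ _)
        · rw [hinv1]
          exact le_locSub _ _ (Subalgebra.add_mem _ (Subalgebra.one_mem _)
            (Subalgebra.mul_mem _ (ofNat_mem_sub _ 27) (self_mem_Aof t⁻¹)))
  -- `IC(R[1/j]) = IC(R[u₁, u₂])`
  refine hgA.congr ?_ ?_
  · intro a ha
    refine isIntegral_of_mem_adjoin (A := Aof R j⁻¹) (S := {u₁, u₂}) (fun x hx => ?_) ha
    rcases hx with hx | hx
    · rw [hx]
      -- `(1 - 27 u₁)³ u₁ = (1/j) (1 + 216 u₁)³`
      have hrel₁ : (1 - 27 * u₁) ^ 3 * u₁ = j⁻¹ * (1 + 216 * u₁) ^ 3 := by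
        rw [hjinv, hu₁, hu₂]
        field_simp
        ring
      refine isIntegral_of_quartic (a := -19683) (v := algebraMap R F (-(i ^ 9)))
        (c₃ := 2187 - 10077696 * j⁻¹) (c₂ := -81 - 139968 * j⁻¹) (c₁ := 1 - 648 * j⁻¹)
        (c₀ := -j⁻¹) (Subalgebra.algebraMap_mem _ _) ?_ ?_ ?_ ?_ ?_ ?_
      · rw [map_neg, map_pow]
        have : (-19683 : F) = -(3 ^ 9) := by norm_num
        rw [this, neg_mul_neg, ← mul_pow, mul_comm, hi', one_pow]
      · exact Subalgebra.sub_mem _ (ofNat_mem_sub _ 2187)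
          (Subalgebra.mul_mem _ (ofNat_mem_sub _ 10077696) (self_mem_Aof j⁻¹))
      · exact Subalgebra.sub_mem _ (Subalgebra.neg_mem _ (ofNat_mem_sub _ 81))
          (Subalgebra.mul_mem _ (ofNat_mem_sub _ 139968) (self_mem_Aof j⁻¹))
      · exact Subalgebra.sub_mem _ (Subalgebra.one_mem _)
          (Subalgebra.mul_mem _ (ofNat_mem_sub _ 648) (self_mem_Aof j⁻¹))
      · exact Subalgebra.neg_mem _ (self_mem_Aof j⁻¹)
      · linear_combination hrel₁
    · rw [Set.mem_singleton_iff] at hx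
      rw [hx]
      -- `(1 - 243 u₂)³ u₂ = (1/j) (1 - 216 u₂)`
      have hrel₂ : (1 - 243 * u₂) ^ 3 * u₂ = j⁻¹ * (1 - 216 * u₂) := by
        rw [hjinv, hu₁, hu₂]
        field_simp
        ring
      refine isIntegral_of_quartic (a := -14348907) (v := algebraMap R F (-(i ^ 15)))
        (c₃ := 177147) (c₂ := -729) (c₁ := 1 + 216 * j⁻¹)
        (c₀ := -j⁻¹) (Subalgebra.algebraMap_mem _ _) ?_ ?_ ?_ ?_ ?_ ?_
      · rw [map_neg, map_pow]
        have : (-14348907 : F) = -(3 ^ 15) := by norm_num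
        rw [this, neg_mul_neg, ← mul_pow, mul_comm, hi', one_pow]
      · exact ofNat_mem_sub _ 177147
      · exact Subalgebra.neg_mem _ (ofNat_mem_sub _ 729)
      · exact Subalgebra.add_mem _ (Subalgebra.one_mem _)
          (Subalgebra.mul_mem _ (ofNat_mem_sub _ 216) (self_mem_Aof j⁻¹))
      · exact Subalgebra.neg_mem _ (self_mem_Aof j⁻¹)
      · linear_combination hrel₂
  · intro a ha
    refine isIntegral_of_mem (Aof_le (B := A') ?_ ha)
    rw [hjinv]
    exact Subalgebra.mul_mem _ (Subalgebra.mul_mem _ (Subalgebra.pow_mem _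
      (Subalgebra.sub_mem _ (Subalgebra.one_mem _)
        (Subalgebra.mul_mem _ (ofNat_mem_sub _ 243) hu₂A)) 2)
      (Subalgebra.sub_mem _ (Subalgebra.one_mem _)
        (Subalgebra.mul_mem _ (ofNat_mem_sub _ 27) hu₁A))) hu₂A

end T3

end Fermat.Agent.A2.Mod.H189

end
-- ===== PACK-END A2/Mod/H189/ChartChangeT3.lean

-- ===== PACK-BEGIN A2/H672/Count.lean
section






/-!
# A2 / node purity (helper672): the multiplicity identity

`R` a noetherian local integrally closed domain, `π ∈ 𝔪`, `π ≠ 0`, `u ≠ 0`, `m > 0` with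
* `u` a nonzerodivisor modulo `π`,
* `(u, π)` primary to the maximal ideal (`𝔪 ^ k ≤ (u, π)`),
* (H1) at every prime `P ∋ u`, `π ∉ P`: `u` is an `m`-th power up to a unit of `R_P`
  (`∃ z σ, σ ∉ P ∧ z ^ m = σ * u`).

Then, with `I₁ = {f | u ∣ f ^ m}`,

  `length (R ⧸ (u, π)) = m * length (R ⧸ (I₁ + πR))`        (`length_eq_mul_length`).

This is the identity `(D · F) = m (D/m · F)` of intersection numbers of the horizontal divisor
`D = div u` with the special fibre `F = div π`.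
-/

set_option autoImplicit false
set_option linter.unusedSectionVars false
set_option linter.style.haveILetI false

namespace Fermat.Agent.A2.H672

open IsLocalRing

section regular

variable {R : Type*} [CommRing R] [IsDomain R]

theorem dvd_of_dvd_pow_mul {π u : R} (hreg : ∀ x : R, π ∣ u * x → π ∣ x) :
    ∀ (j : ℕ) (y : R), π ∣ u ^ j * y → π ∣ y
  | 0, y, h => by simpa using h
  | j + 1, y, h => by
    refine dvd_of_dvd_pow_mul hreg j y (hreg _ ?_)
    rw [← mul_assoc, ← pow_succ']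
    exact h

theorem pow_dvd_of_pow_dvd_mul {π u : R} (hπ0 : π ≠ 0) (hreg : ∀ x : R, π ∣ u * x → π ∣ x)
    (j : ℕ) (x : R) (h : u ^ j ∣ π * x) : u ^ j ∣ x := by
  obtain ⟨y, hy⟩ := h
  obtain ⟨y', rfl⟩ := dvd_of_dvd_pow_mul hreg j y ⟨x, hy.symm⟩
  refine ⟨y', mul_left_cancel₀ hπ0 ?_⟩
  rw [hy]
  ring

end regular

variable {R : Type*} [CommRing R] [IsDomain R] [IsIntegrallyClosed R] [IsNoetherianRing R]
  [IsLocalRing R]

/-- The associated primes of `R ⧸ (u)` are horizontal. -/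
theorem mem_horizontalPrimes_of_isAssociatedPrime {u π : R} (hπ0 : π ≠ 0)
    (hreg : ∀ x : R, π ∣ u * x → π ∣ x) (P : Ideal R)
    (hP : IsAssociatedPrime P (R ⧸ Ideal.span {u})) : P ∈ horizontalPrimes u π := by
  obtain ⟨-, xb, hPx⟩ := isAssociatedPrime_iff.1 hP
  have hxb : xb ≠ 0 := by
    rintro rfl
    have h1 : (1 : R) ∈ P := by
      rw [hPx, Submodule.mem_colon_singleton, smul_zero]
      exact Submodule.zero_mem _
    exact hP.isPrime.ne_top ((Ideal.eq_top_iff_one _).2 h1)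
  obtain ⟨x, rfl⟩ := Ideal.Quotient.mk_surjective xb
  have hmem : ∀ r : R, r ∈ P ↔ r * x ∈ Ideal.span {u} := fun r => by
    rw [hPx]; exact H969.mem_colon_bot_mk_iff u x r
  have hx : x ∉ Ideal.span {u} := by
    rwa [Ne, Ideal.Quotient.eq_zero_iff_mem] at hxb
  refine ⟨hP.isPrime, (hmem u).2 (Ideal.mem_span_singleton'.2 ⟨x, mul_comm _ _⟩), ?_⟩
  intro hπP
  apply hx
  have := (hmem π).1 hπP
  rw [Ideal.mem_span_singleton] at this ⊢
  have h := pow_dvd_of_pow_dvd_mul hπ0 hreg 1 x (by simpa using this)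
  simpa using h

/-- An element outside all horizontal primes is a nonzerodivisor modulo `u`. -/
theorem dvd_of_dvd_mul_of_forall_not_mem {u π : R} (hπ0 : π ≠ 0)
    (hreg : ∀ x : R, π ∣ u * x → π ∣ x) {r : R} (hr : ∀ P ∈ horizontalPrimes u π, r ∉ P)
    (x : R) (h : u ∣ r * x) : u ∣ x := by
  rw [← Ideal.mem_span_singleton] at h ⊢
  exact H969.mem_span_singleton_of_mul_mem u r x
    (fun P hP => hr P (mem_horizontalPrimes_of_isAssociatedPrime hπ0 hreg P hP)) h

section count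

variable (u : R) (hu : u ≠ 0) (m : ℕ) (hm : 0 < m) (π : R)

local notation "I" => H969.powRootIdeal u hu m hm

theorem powRoot_sat (hπ0 : π ≠ 0) (hreg : ∀ x : R, π ∣ u * x → π ∣ x) (j : ℕ) (x : R)
    (h : π * x ∈ I j) : x ∈ I j :=
  H969.mem_powRootIdeal_of_mul_mem (pow_dvd_of_pow_dvd_mul hπ0 hreg j) h

variable {u m π}

/-- (z1) -/
theorem pow_mul_mem_powRoot {z r : R} (hz : z ^ m = r * u) (j : ℕ) {a : R} (ha : a ∈ I 1) :
    z ^ j * a ∈ I (j + 1) := by
  have hzI : z ∈ I 1 := by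
    rw [H969.mem_powRootIdeal, pow_one, hz]
    exact Dvd.intro_left r rfl
  have hzj : z ^ j ∈ I j := by
    rw [H969.mem_powRootIdeal, ← pow_mul, mul_comm, pow_mul, hz, mul_pow]
    exact Dvd.intro_left _ rfl
  exact H969.mul_mem_powRootIdeal_add hzj ha

/-- (z2) -/
theorem mem_powRoot_of_pow_mul_mem (hπ0 : π ≠ 0) (hreg : ∀ x : R, π ∣ u * x → π ∣ x) {z r : R}
    (hz : z ^ m = r * u) (hr : ∀ P ∈ horizontalPrimes u π, r ∉ P) (j : ℕ) {a : R}
    (ha : z ^ j * a ∈ I (j + 1)) : a ∈ I 1 := by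
  rw [H969.mem_powRootIdeal] at ha ⊢
  rw [pow_one]
  obtain ⟨c, hc⟩ := ha
  have h1 : u ^ j * (r ^ j * a ^ m) = u ^ j * (u * c) := by
    have : (z ^ j * a) ^ m = u ^ j * (r ^ j * a ^ m) := by
      rw [mul_pow, ← pow_mul, mul_comm j m, pow_mul, hz, mul_pow]
      ring
    rw [← this, hc, pow_succ]
    ring
  have h2 : r ^ j * a ^ m = u * c := mul_left_cancel₀ (pow_ne_zero j hu) h1
  refine dvd_of_dvd_mul_of_forall_not_mem hπ0 hreg (r := r ^ j) (fun P hP h => ?_) _ ⟨c, h2⟩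
  exact hr P hP (hP.1.mem_of_pow_mem j h)

/-- `r ^ j • I_j ≤ (z ^ j)`. -/
theorem pow_mul_mem_span_pow {z r : R} (hz : z ^ m = r * u) (hr0 : r ≠ 0) (j : ℕ) {f : R}
    (hf : f ∈ I j) : r ^ j * f ∈ Ideal.span {z ^ j} := by
  rw [H969.mem_powRootIdeal] at hf
  obtain ⟨c, hc⟩ := hf
  rw [Ideal.mem_span_singleton]
  have hz0 : z ≠ 0 := by
    rintro rfl
    rw [zero_pow hm.ne'] at hz
    exact mul_ne_zero hr0 hu hz.symm
  refine H969.dvd_of_pow_dvd_pow (pow_ne_zero j hz0) hm ⟨r ^ (j * (m - 1)) * c, ?_⟩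
  have h1 : (z ^ j) ^ m = r ^ j * u ^ j := by
    rw [← pow_mul, mul_comm j m, pow_mul, hz, mul_pow]
  have h2 : r ^ (j * m) = r ^ j * r ^ (j * (m - 1)) := by
    rw [← pow_add]
    congr 1
    have : m = 1 + (m - 1) := by omega
    conv_lhs => rw [this]
    ring
  rw [mul_pow, hc, h1, ← pow_mul, h2]
  ring

/-- (z3) -/
theorem exists_pow_mul_mem {k : ℕ} (hfin : maximalIdeal R ^ k ≤ Ideal.span {u, π}) {z r : R}
    (hz : z ^ m = r * u) (hr0 : r ≠ 0) (hr : ∀ P ∈ horizontalPrimes u π, r ∉ P) (j : ℕ) :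
    ∃ K : ℕ, ∀ a ∈ maximalIdeal R ^ K, ∀ f ∈ I j,
      a * f ∈ Ideal.span {z ^ j} ⊔ I (j + 1) := by
  have hrad : maximalIdeal R ≤ (Ideal.span {u, r ^ j}).radical := by
    rw [Ideal.radical_eq_sInf]
    refine le_sInf ?_
    rintro P ⟨hle, hP⟩
    have huP : u ∈ P := hle (Ideal.subset_span (by simp))
    have hrP : r ∈ P := hP.mem_of_pow_mem j (hle (Ideal.subset_span (by simp)))
    rcases mem_horizontalPrimes_or_eq hfin hP huP with h | h
    · exact absurd hrP (hr P h)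
    · exact h.ge
  obtain ⟨K, hK⟩ := Ideal.exists_pow_le_of_le_radical_of_fg hrad
    (IsNoetherian.noetherian _)
  refine ⟨K, fun a ha f hf => ?_⟩
  obtain ⟨α, β, hαβ⟩ := Ideal.mem_span_pair.1 (hK ha)
  rw [← hαβ, add_mul]
  refine Ideal.add_mem _ (Ideal.mem_sup_right ?_) (Ideal.mem_sup_left ?_)
  · have : α * u * f = α * (u * f) := by ring
    rw [this]
    refine Ideal.mul_mem_left _ _ ?_
    have h1 := H969.self_mul_mem_powRootIdeal hf
    exact H969.powRootIdeal_antitone (by omega) h1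
  · have : β * r ^ j * f = β * (r ^ j * f) := by ring
    rw [this]
    exact Ideal.mul_mem_left _ _ (pow_mul_mem_span_pow hu hm hz hr0 j hf)

/-- Lemma C: multiplication by `z ^ j` identifies `R/(I₁ + πR)` with `X/(I_{j+1} + πX)`,
`X = (z ^ j) + I_{j+1}`. -/
theorem relLen_generic (hπ0 : π ≠ 0) (hreg : ∀ x : R, π ∣ u * x → π ∣ x) {z r : R}
    (hz : z ^ m = r * u) (hr : ∀ P ∈ horizontalPrimes u π, r ∉ P) (j : ℕ) :
    relLen (I (j + 1) ⊔ Ideal.span {π} * (Ideal.span {z ^ j} ⊔ I (j + 1)))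
        (Ideal.span {z ^ j} ⊔ I (j + 1))
      = relLen (I 1 ⊔ Ideal.span {π}) ⊤ := by
  symm
  refine relLen_eq_of_map (LinearMap.mulLeft R (z ^ j)) ?_ ?_ ?_
  · intro b _
    exact Ideal.mem_sup_left (Ideal.mul_mem_right _ _ (Ideal.mem_span_singleton_self _))
  · intro b _
    simp only [LinearMap.mulLeft_apply]
    rw [mem_sup_span_singleton, mem_sup_span_singleton_mul]
    constructor
    · rintro ⟨i', hi', x, hx, h⟩
      obtain ⟨y, hy, i'', hi'', rfl⟩ := Submodule.mem_sup.1 hx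
      obtain ⟨c, rfl⟩ := Ideal.mem_span_singleton'.1 hy
      have h1 : z ^ j * (b - π * c) ∈ I (j + 1) := by
        have : z ^ j * (b - π * c) = i' + π * i'' := by
          rw [mul_sub, h]
          ring
        rw [this]
        exact Ideal.add_mem _ hi' (Ideal.mul_mem_left _ _ hi'')
      exact ⟨b - π * c, mem_powRoot_of_pow_mul_mem hu hm hπ0 hreg hz hr j h1, c, by ring⟩
    · rintro ⟨i, hi, c, rfl⟩
      refine ⟨z ^ j * i, pow_mul_mem_powRoot hu hm hz j hi, z ^ j * c,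
        Ideal.mem_sup_left (Ideal.mul_mem_right _ _ (Ideal.mem_span_singleton_self _)), by ring⟩
  · intro b' hb'
    obtain ⟨y, hy, i', hi', rfl⟩ := Submodule.mem_sup.1 hb'
    obtain ⟨c, rfl⟩ := Ideal.mem_span_singleton'.1 hy
    refine ⟨c, trivial, ?_⟩
    simp only [LinearMap.mulLeft_apply]
    have : c * z ^ j + i' - z ^ j * c = i' := by ring
    rw [this]
    exact Ideal.mem_sup_left hi'

theorem pow_mem_powRoot {z r : R} (hz : z ^ m = r * u) (j : ℕ) : z ^ j ∈ I j := by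
  rw [H969.mem_powRootIdeal, ← pow_mul, mul_comm, pow_mul, hz, mul_pow]
  exact Dvd.intro_left _ rfl

/-- One step of the filtration: `ℓ((I_j + πR)/(I_{j+1} + πR)) = ℓ(R/(I₁ + πR))`. -/
theorem relLen_step (hπ0 : π ≠ 0) (hreg : ∀ x : R, π ∣ u * x → π ∣ x) {k : ℕ}
    (hfin : maximalIdeal R ^ k ≤ Ideal.span {u, π}) {z r : R}
    (hz : z ^ m = r * u) (hr0 : r ≠ 0) (hr : ∀ P ∈ horizontalPrimes u π, r ∉ P) (j : ℕ) :
    relLen (I (j + 1) ⊔ Ideal.span {π}) (I j ⊔ Ideal.span {π})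
      = relLen (I 1 ⊔ Ideal.span {π}) ⊤ := by
  have hle : I (j + 1) ≤ I j := H969.powRootIdeal_antitone (Nat.le_succ j)
  have hX : Ideal.span {z ^ j} ⊔ I (j + 1) ≤ I j := by
    refine sup_le ?_ hle
    rw [Ideal.span_singleton_le_iff_mem]
    exact pow_mem_powRoot hu hm hz j
  obtain ⟨K, hK⟩ := exists_pow_mul_mem hu hm hfin hz hr0 hr j
  have hfinX : relLen (Ideal.span {z ^ j} ⊔ I (j + 1)) (I j) ≠ ⊤ :=
    relLen_ne_top_of_pow_mul_le _ _ K hX hK
  rw [relLen_sup_span_eq π hle (powRoot_sat u hu m hm π hπ0 hreg j),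
    relLen_chi π le_sup_right hX (powRoot_sat u hu m hm π hπ0 hreg (j + 1)) hfinX,
    relLen_generic hu hm hπ0 hreg hz hr j]

/-- Telescoping: `ℓ(R/(I_j + πR)) = j · ℓ(R/(I₁ + πR))`. -/
theorem relLen_powRoot (hπ0 : π ≠ 0) (hreg : ∀ x : R, π ∣ u * x → π ∣ x) {k : ℕ}
    (hfin : maximalIdeal R ^ k ≤ Ideal.span {u, π}) {z r : R}
    (hz : z ^ m = r * u) (hr0 : r ≠ 0) (hr : ∀ P ∈ horizontalPrimes u π, r ∉ P) (j : ℕ) :
    relLen (I j ⊔ Ideal.span {π}) ⊤ = j * relLen (I 1 ⊔ Ideal.span {π}) ⊤ := by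
  induction j with
  | zero =>
    rw [H969.powRootIdeal_zero, top_sup_eq, relLen_self]
    simp
  | succ j ih =>
    have hle : I (j + 1) ⊔ Ideal.span {π} ≤ I j ⊔ Ideal.span {π} :=
      sup_le_sup_right (H969.powRootIdeal_antitone (Nat.le_succ j)) _
    rw [relLen_add hle le_top, ih, relLen_step hu hm hπ0 hreg hfin hz hr0 hr j]
    push_cast
    ring

end count

/-- **The multiplicity identity.**  `ℓ(R/(u, π)) = m · ℓ(R/(I₁ + πR))`, `I₁ = {f | u ∣ f ^ m}`. -/
theorem length_eq_mul_length (u : R) (hu : u ≠ 0) (m : ℕ) (hm : 0 < m) (π : R) (hπ0 : π ≠ 0)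
    (hπm : π ∈ maximalIdeal R) (hreg : ∀ x : R, π ∣ u * x → π ∣ x) (k : ℕ)
    (hfin : maximalIdeal R ^ k ≤ Ideal.span {u, π})
    (hloc : ∀ P : Ideal R, P.IsPrime → u ∈ P → π ∉ P → ∃ z σ : R, σ ∉ P ∧ z ^ m = σ * u) :
    Module.length R (R ⧸ Ideal.span {u, π})
      = m * Module.length R (R ⧸ (H969.powRootIdeal u hu m hm 1 ⊔ Ideal.span {π})) := by
  obtain ⟨z, r, hz, hr0, hr⟩ := exists_generic_root hu hm (horizontalPrimes u π)
    (finite_horizontalPrimes hπm hfin) (fun P hP => hP.1)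
    (fun P hP Q hQ hQP => eq_of_le_of_mem_horizontalPrimes hπm hfin hP hQ hQP)
    (fun P hP => hloc P hP.1 hP.2.1 hP.2.2)
  have h := relLen_powRoot hu hm hπ0 hreg hfin hz hr0 hr m
  rw [H969.powRootIdeal_self, relLen_top, relLen_top, ← Ideal.span_insert] at h
  exact h

end Fermat.Agent.A2.H672

end
-- ===== PACK-END A2/H672/Count.lean

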