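import Fermat.Statements.S37
import Fermat.Prelude.Def_ModularCurve_HeckeModule
import Mathlib
import Fermat.Prelude.Def_AlgebraicCurve_Correspondence
import Fermat.Prelude.Def_ModularCurve_X0ModL
import Fermat.Prelude.Def_ModularCurve_LaurentCoeff
import Fermat.Agent.Pack.S44.G0E12L2
import Fermat.Agent.Pack.S44.G0E3L0
import Fermat.Agent.Pack.S44.G1E0L0
import Fermat.Agent.Pack.S44.G0E12L3
import Fermat.Agent.Pack.S44.G0E10L3
import Fermat.Agent.Pack.S44.G0E11L1
import Fermat.Agent.Pack.S44.G0E7L3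
import Fermat.Agent.Pack.S44.G0E10L2
import Fermat.Agent.Pack.S44.G0E13L1
import Fermat.Agent.Pack.S44.G0E5L2
import Fermat.Agent.Pack.S44.G0E13L3

-- ===== PACK-BEGIN S37/H99/Formal.lean
section



/-!
# S37 (helper99): formal reduction R1

`SpecializationExists N p J` follows from the existence, for every prime `ℓ ∤ N * p` and every
valuation subring `A` over `ℓ`, of an additive "reduction map" `red : J →+ Y` (into ANY additive
group, no Hecke structure on `Y`) with four pointwise properties.  The quotient `J'`, the map `sp`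
and the Frobenius `F` of `IsSpecialization` are then constructed formally.
-/

set_option autoImplicit false

noncomputable section

namespace Fermat.Agent.S37.H99

open ModularCurve ValuationSubring

section Abstract

variable {K L : Type*} [Field K] [Field L] [Algebra K L]
variable (p : ℕ) (J : Type) [AddCommGroup J] [Module HeckeAlg J]
  [DistribMulAction (L ≃ₐ[K] L) J] [SMulCommClass (L ≃ₐ[K] L) HeckeAlg J]

/-- The four pointwise properties of a reduction map at `(A, ℓ)`. -/
structure IsRed (A : ValuationSubring L) (ℓ : ℕ) (hℓ : ℓ.Prime) {Y : Type*} [AddCommGroup Y]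
    (red : J →+ Y) : Prop where
  inertia : ∀ τ ∈ A.inertiaSubgroupIn K, ∀ x : J, red (τ • x) = red x
  frob_ker : ∀ σ : L ≃ₐ[K] L, A.IsFrobeniusAt σ ℓ → ∀ x : J, red x = 0 → red (σ • x) = 0
  inj_torsion : ∀ x : J, (∃ n : ℕ, p ^ n • x = 0) → red x = 0 → x = 0
  relation : ∀ σ : L ≃ₐ[K] L, A.IsFrobeniusAt σ ℓ → ∀ x : J,
    red (σ • σ • x - heckeGen ⟨ℓ, hℓ⟩ • (σ • x) + ℓ • x) = 0

variable {p J}

/-- The largest Hecke submodule contained in the kernel of `red`. -/
def redKer {Y : Type*} [AddCommGroup Y] (red : J →+ Y) : Submodule HeckeAlg J where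
  carrier := {x | ∀ t : HeckeAlg, red (t • x) = 0}
  zero_mem' := fun t => by simp
  add_mem' := by
    intro x y hx hy t
    rw [smul_add, map_add, hx t, hy t, add_zero]
  smul_mem' := by
    intro c x hx t
    rw [← mul_smul]
    exact hx (t * c)

theorem mem_redKer {Y : Type*} [AddCommGroup Y] (red : J →+ Y) (x : J) :
    x ∈ redKer red ↔ ∀ t : HeckeAlg, red (t • x) = 0 := Iff.rfl

/-- two Frobenius elements at `A` differ by inertia -/
theorem inv_mul_mem_inertiaSubgroupIn {A : ValuationSubring L} {ℓ : ℕ} {σ₀ σ : L ≃ₐ[K] L}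
    (h₀ : A.IsFrobeniusAt σ₀ ℓ) (h : A.IsFrobeniusAt σ ℓ) :
    σ₀⁻¹ * σ ∈ A.inertiaSubgroupIn K := by
  have hσ₀ := h₀.mem_decompositionSubgroup
  have hσ := h.mem_decompositionSubgroup
  let d₀ : A.decompositionSubgroup K := ⟨σ₀, hσ₀⟩
  let d : A.decompositionSubgroup K := ⟨σ, hσ⟩
  refine ⟨d₀⁻¹ * d, ?_, rfl⟩
  refine MonoidHom.mem_ker.mpr ?_
  ext x
  show (d₀⁻¹ * d) • x = x
  rw [mul_smul]
  have h1 : d • x = x ^ ℓ := h.smul_residue_eq x
  have h2 : d₀ • x = x ^ ℓ := h₀.smul_residue_eq x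
  rw [h1, ← h2, inv_smul_smul]

variable (p) in
/-- **R1 at one place.** -/
theorem exists_specialization_of_isRed (A : ValuationSubring L) (ℓ : ℕ) (hℓ : ℓ.Prime)
    (hfrob : ∃ σ₀ : L ≃ₐ[K] L, A.IsFrobeniusAt σ₀ ℓ)
    {Y : Type*} [AddCommGroup Y] (red : J →+ Y) (hred : IsRed (K := K) p J A ℓ hℓ red) :
    ∃ (J' : Type) (_ : AddCommGroup J') (_ : Module HeckeAlg J') (sp : J →+ J')
      (F : J' →+ J'),
      IsSpecialization (K := K) p J J' A ℓ sp F ∧ SpecialFibreRelation J' ℓ hℓ F := by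
  obtain ⟨σ₀, hσ₀⟩ := hfrob
  let M : Submodule HeckeAlg J := redKer red
  -- commutation of Galois with Hecke
  have hcomm : ∀ (g : L ≃ₐ[K] L) (t : HeckeAlg) (x : J), t • (g • x) = g • (t • x) :=
    fun g t x => (smul_comm g t x).symm
  -- Frobenius elements preserve `M`
  have hFM : ∀ σ : L ≃ₐ[K] L, A.IsFrobeniusAt σ ℓ → ∀ x ∈ M, σ • x ∈ M := by
    intro σ hσ x hx t
    rw [hcomm]
    exact hred.frob_ker σ hσ _ (hx t)
  -- inertia acts trivially modulo `M`
  have hIM : ∀ τ ∈ A.inertiaSubgroupIn K, ∀ x : J, τ • x - x ∈ M := by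
    intro τ hτ x t
    rw [smul_sub, map_sub, hcomm, hred.inertia τ hτ, sub_self]
  -- the additive endomorphism `x ↦ σ₀ • x` of `J`
  let φ : J →+ J := DistribSMul.toAddMonoidHom J σ₀
  have hφ : ∀ x, φ x = σ₀ • x := fun _ => rfl
  -- the induced map on the quotient
  let F : (J ⧸ M) →+ (J ⧸ M) :=
    QuotientAddGroup.map M.toAddSubgroup M.toAddSubgroup φ (by
      intro x hx
      exact hFM σ₀ hσ₀ x hx)
  have hF : ∀ x : J, F (Submodule.Quotient.mk x) = Submodule.Quotient.mk (σ₀ • x) := fun _ => rfl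
  let sp : J →+ (J ⧸ M) := (Submodule.mkQ M).toAddMonoidHom
  have hsp : ∀ x : J, sp x = Submodule.Quotient.mk x := fun _ => rfl
  refine ⟨J ⧸ M, inferInstance, inferInstance, sp, F, ⟨?_, ?_, ?_, ?_⟩, ?_⟩
  · -- hecke_comm
    intro T x
    rfl
  · -- inertia_comm
    intro τ hτ x
    rw [hsp, hsp, Submodule.Quotient.eq]
    exact hIM τ hτ x
  · -- frobenius_comm
    intro σ hσ x
    rw [hsp, hsp, hF, Submodule.Quotient.eq]
    have hτ := inv_mul_mem_inertiaSubgroupIn hσ₀ hσ
    have h1 : σ • x - σ₀ • x = σ₀ • ((σ₀⁻¹ * σ) • x - x) := by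
      rw [smul_sub, ← mul_smul, mul_inv_cancel_left]
    rw [h1]
    exact hFM σ₀ hσ₀ _ (hIM _ hτ x)
  · -- injective_torsion
    intro x hx hx0
    rw [hsp, Submodule.Quotient.mk_eq_zero] at hx0
    have := hx0 1
    rw [one_smul] at this
    exact hred.inj_torsion x hx this
  · -- special fibre relation
    intro y
    obtain ⟨x, rfl⟩ := Submodule.Quotient.mk_surjective M y
    rw [hF, hF]
    have h2 : (Submodule.Quotient.mk (σ₀ • σ₀ • x) : J ⧸ M)
        - heckeGen ⟨ℓ, hℓ⟩ • (Submodule.Quotient.mk (σ₀ • x) : J ⧸ M)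
        + ℓ • (Submodule.Quotient.mk x : J ⧸ M)
        = Submodule.Quotient.mk (σ₀ • σ₀ • x - heckeGen ⟨ℓ, hℓ⟩ • (σ₀ • x) + ℓ • x) := by
      rfl
    rw [h2, Submodule.Quotient.mk_eq_zero]
    intro t
    have h3 : t • (σ₀ • σ₀ • x - heckeGen ⟨ℓ, hℓ⟩ • (σ₀ • x) + ℓ • x)
        = σ₀ • σ₀ • (t • x) - heckeGen ⟨ℓ, hℓ⟩ • (σ₀ • (t • x)) + ℓ • (t • x) := by
      rw [smul_add, smul_sub, hcomm, hcomm, smul_comm t (heckeGen ⟨ℓ, hℓ⟩), hcomm,
        smul_comm t ℓ]
    rw [h3]
    exact hred.relation σ₀ hσ₀ (t • x)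

end Abstract

section Rat

variable (N p : ℕ) (J : Type) [AddCommGroup J] [Module HeckeAlg J]
  [DistribMulAction (AlgebraicClosure ℚ ≃ₐ[ℚ] AlgebraicClosure ℚ) J]
  [SMulCommClass (AlgebraicClosure ℚ ≃ₐ[ℚ] AlgebraicClosure ℚ) HeckeAlg J]

/-- **R1.**  Over `ℚ`, `SpecializationExists` follows from the existence of reduction maps. -/
theorem specializationExists_of_isRed
    (H : ∀ ℓ : ℕ, (hℓ : ℓ.Prime) → ¬ ℓ ∣ N * p →
      ∀ A : ValuationSubring (AlgebraicClosure ℚ), A.LiesOverPrime ℓ →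
        ∃ (Y : Type) (_ : AddCommGroup Y) (red : J →+ Y),
          IsRed (K := ℚ) p J A ℓ hℓ red) :
    SpecializationExists (K := ℚ) (L := AlgebraicClosure ℚ) N p J := by
  intro ℓ hℓ hdvd A hA
  obtain ⟨Y, _, red, hred⟩ := H ℓ hℓ hdvd A hA
  exact exists_specialization_of_isRed p A ℓ hℓ (exists_isFrobeniusAt ℓ hℓ A hA) red hred

end Rat

end Fermat.Agent.S37.H99

end
end
-- ===== PACK-END S37/H99/Formal.lean

-- ===== PACK-BEGIN S37/Red/H160/DatumBasic.lean
section




/-!
# S37-RED (helper160): basic facts on a reduction datum `G : Datum A π F Fk`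

* `ker_π`, `ρ_eq_zero_iff` : kernels of `π` and `ρ` are the maximal ideals;
* `inv_mem` : elements of `O` with nonzero reduction are units of `O`;
* `mem_of_algebraMap_mem` : `O ∩ K = A`;
* `aeval_mem`, `ρ_aeval` : polynomials over `A` in `t ∈ O` lie in `O`, and reduce coefficientwise;
* `valAt_iff_ord_pos`, `valAt_unique` : on helper40's `ValAt`.
-/

set_option autoImplicit false

noncomputable section

namespace Fermat.Agent.S37.Red.H160

open AlgebraicCurve Polynomial IntermediateField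
open Fermat.Agent.S37.Red

universe u

section Datum

variable {K k F Fk : Type u} [Field K] [Field k] [Field F] [Field Fk]
  [Algebra K F] [Algebra k Fk] {A : ValuationSubring K} {π : A →+* k} (G : Datum A π F Fk)

include G in
theorem ker_π (a : A) : π a = 0 ↔ a ∈ IsLocalRing.maximalIdeal A := by
  have hmax := RingHom.ker_isMaximal_of_surjective π G.π_surj
  rw [← IsLocalRing.eq_maximalIdeal hmax, RingHom.mem_ker]

theorem ρ_eq_zero_iff (f : G.O) : G.ρ f = 0 ↔ f ∈ IsLocalRing.maximalIdeal G.O := by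
  have hmax := RingHom.ker_isMaximal_of_surjective G.ρ G.ρ_surj
  rw [← IsLocalRing.eq_maximalIdeal hmax, RingHom.mem_ker]

theorem isUnit_of_ρ_ne_zero {f : G.O} (h : G.ρ f ≠ 0) : IsUnit f := by
  by_contra hu
  exact h ((ρ_eq_zero_iff G f).mpr ((IsLocalRing.mem_maximalIdeal f).mpr hu))

theorem inv_mem {y : F} (hy : y ∈ G.O) (h : G.ρ ⟨y, hy⟩ ≠ 0) : y⁻¹ ∈ G.O := by
  obtain ⟨u, hu⟩ := isUnit_of_ρ_ne_zero G h
  have h1 : ((u⁻¹ : G.Oˣ) : G.O) * ⟨y, hy⟩ = 1 := by rw [← hu]; simp
  have h2 : (((u⁻¹ : G.Oˣ) : G.O) : F) * y = 1 := by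
    have := congrArg Subtype.val h1
    simpa using this
  have hy0 : y ≠ 0 := by
    rintro rfl
    rw [mul_zero] at h2
    exact zero_ne_one h2
  have h3 : y⁻¹ = (((u⁻¹ : G.Oˣ) : G.O) : F) := by
    field_simp
    rw [mul_comm]
    exact h2.symm
  rw [h3]
  exact ((u⁻¹ : G.Oˣ) : G.O).2

theorem ρ_inv {y : F} (hy : y ∈ G.O) (h : G.ρ ⟨y, hy⟩ ≠ 0) :
    G.ρ ⟨y⁻¹, inv_mem G hy h⟩ = (G.ρ ⟨y, hy⟩)⁻¹ := by
  have hy0 : y ≠ 0 := by
    rintro rfl
    apply h
    have : (⟨0, hy⟩ : G.O) = 0 := rfl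
    rw [this, map_zero]
  have h1 : (⟨y⁻¹, inv_mem G hy h⟩ : G.O) * ⟨y, hy⟩ = 1 := by
    apply Subtype.ext
    simp [hy0]
  have h2 := congrArg G.ρ h1
  rw [map_mul, map_one] at h2
  exact eq_inv_of_mul_eq_one_left h2

/-- `O ∩ K = A`. -/
theorem mem_of_algebraMap_mem {u : K} (h : algebraMap K F u ∈ G.O) : u ∈ A := by
  by_contra hu
  have hinv : u⁻¹ ∈ A := (A.mem_or_inv_mem u).resolve_left hu
  have hu0 : u ≠ 0 := by
    rintro rfl
    exact hu A.zero_mem
  have hker : π ⟨u⁻¹, hinv⟩ = 0 := by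
    rw [ker_π G, IsLocalRing.mem_maximalIdeal, mem_nonunits_iff]
    rintro ⟨w, hw⟩
    apply hu
    have h1 : ((w⁻¹ : Aˣ) : A) * ⟨u⁻¹, hinv⟩ = 1 := by rw [← hw]; simp
    have h2 : (((w⁻¹ : Aˣ) : A) : K) * u⁻¹ = 1 := by
      have := congrArg Subtype.val h1
      simpa using this
    have h3 : (((w⁻¹ : Aˣ) : A) : K) = u := by
      field_simp at h2
      exact h2
    rw [← h3]
    exact ((w⁻¹ : Aˣ) : A).2
  have h1 := G.ρ_const ⟨u⁻¹, hinv⟩
  rw [hker, map_zero] at h1
  have h2 : (⟨algebraMap K F u, h⟩ : G.O) * ⟨algebraMap K F (u⁻¹), G.const_mem ⟨u⁻¹, hinv⟩⟩ = 1 := by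
    apply Subtype.ext
    simp [hu0]
  have h3 := congrArg G.ρ h2
  rw [map_mul, h1, mul_zero, map_one] at h3
  exact zero_ne_one h3

/-- The inclusion `A → O`. -/
def constHom : A →+* G.O where
  toFun a := ⟨algebraMap K F (a : K), G.const_mem a⟩
  map_one' := by apply Subtype.ext; simp
  map_mul' a b := by apply Subtype.ext; simp
  map_zero' := by apply Subtype.ext; simp
  map_add' a b := by apply Subtype.ext; simp

theorem ρ_comp_constHom : G.ρ.comp (constHom G) = (algebraMap k Fk).comp π := by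
  ext a
  exact G.ρ_const a

theorem coe_eval₂_constHom {t : F} (ht : t ∈ G.O) (p : A[X]) :
    ((eval₂ (constHom G) ⟨t, ht⟩ p : G.O) : F) = aeval t (p.map A.subtype) := by
  have h := hom_eval₂ p (constHom G) G.O.subtype ⟨t, ht⟩
  rw [aeval_def, eval₂_map]
  exact h

theorem aeval_mem {t : F} (ht : t ∈ G.O) (p : A[X]) : aeval t (p.map A.subtype) ∈ G.O := by
  rw [← coe_eval₂_constHom G ht p]
  exact (eval₂ (constHom G) ⟨t, ht⟩ p).2

theorem ρ_aeval {t : F} (ht : t ∈ G.O) (p : A[X]) :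
    G.ρ ⟨aeval t (p.map A.subtype), aeval_mem G ht p⟩ = aeval (G.ρ ⟨t, ht⟩) (p.map π) := by
  have h1 : (⟨aeval t (p.map A.subtype), aeval_mem G ht p⟩ : G.O)
      = eval₂ (constHom G) ⟨t, ht⟩ p := Subtype.ext (coe_eval₂_constHom G ht p).symm
  rw [h1, hom_eval₂, ρ_comp_constHom, aeval_def, eval₂_map]

theorem red_of_mem {f : F} (hf : f ∈ G.O) : G.red f = G.ρ ⟨f, hf⟩ := by
  simp [Datum.red, hf]

/-- A coordinate with transcendental reduction is transcendental. -/
theorem transcendental_of_red [IsAlgClosed K] {t : F} (ht : t ∈ G.O)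
    (htb : Transcendental k (G.red t)) : Transcendental K t := by
  intro halg
  obtain ⟨u, hu⟩ := Fermat.Agent.S24.FF.mem_range_of_isAlgebraic halg
  apply htb
  have hu' : algebraMap K F u = t := hu
  have huO : algebraMap K F u ∈ G.O := hu' ▸ ht
  have huA := mem_of_algebraMap_mem G huO
  have h1 := G.ρ_const ⟨u, huA⟩
  have h2 : G.red t = algebraMap k Fk (π ⟨u, huA⟩) := by
    rw [red_of_mem G ht, ← h1]
    congr 1
    exact Subtype.ext hu'.symm
  rw [h2]
  exact isAlgebraic_algebraMap _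

end Datum

section ValAt

variable {K F : Type u} [Field K] [Field F] [Algebra K F]

theorem valAt_iff_mem_nonunits (P : Place K F) (f : F) (a : K) :
    ValAt P f a ↔ f - algebraMap K F a ∈ P.toValuationSubring.nonunits :=
  (ValuationSubring.mem_nonunits_iff _).symm

theorem valAt_iff_ord_pos (P : Place K F) {f : F} {a : K} (h : f - algebraMap K F a ≠ 0) :
    ValAt P f a ↔ 0 < P.ord (f - algebraMap K F a) := by
  rw [valAt_iff_mem_nonunits, Fermat.Agent.S24.FF.ord_pos_iff_mem_nonunits P h]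

theorem valAt_unique (P : Place K F) {f : F} {a a' : K} (h : ValAt P f a) (h' : ValAt P f a') :
    a = a' := by
  by_contra hne
  rw [valAt_iff_mem_nonunits] at h h'
  have h1 : algebraMap K F (a - a') ∈ P.toValuationSubring.nonunits := by
    have h2 : algebraMap K F (a - a') = (f - algebraMap K F a') - (f - algebraMap K F a) := by
      rw [map_sub]; ring
    rw [h2, ValuationSubring.mem_nonunits_iff] at *
    calc P.toValuationSubring.valuation ((f - algebraMap K F a') - (f - algebraMap K F a))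
        ≤ max (P.toValuationSubring.valuation (f - algebraMap K F a'))
            (P.toValuationSubring.valuation (f - algebraMap K F a)) :=
          Valuation.map_sub _ _ _
      _ < 1 := max_lt h' h
  have hne' : algebraMap K F (a - a') ≠ 0 := by
    rw [Ne, map_eq_zero, sub_eq_zero]
    exact hne
  have h3 := (Fermat.Agent.S24.FF.ord_pos_iff_mem_nonunits P hne').mpr h1
  rw [Fermat.Agent.S24.FF.ord_algebraMap] at h3
  exact lt_irrefl _ h3

end ValAt

end Fermat.Agent.S37.Red.H160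

end
end
-- ===== PACK-END S37/Red/H160/DatumBasic.lean

-- ===== PACK-BEGIN S37/H697/Relation.lean
section



/-!
# S37 (helper697): the Eichler–Shimura relation on divisors, from the Kronecker congruence for norms

`r` a place reduction, `Tdiv = heckeDivBar = pushforwardAlong α ∘ pullbackAlong β` the Hecke
correspondence on divisors, `Φ = coeffSL N φ` (`φ` an automorphism of the residue field — the
Frobenius in the application).  If for every integral `y` the norm `Nm_α (β y)` is integral with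
reduction `(Φ⁻¹ ȳ) ^ ℓ * Φ ȳ` (`KroneckerNorm`), then

  `r_* (Tdiv D) = Φ • r_* D + ℓ • Φ⁻¹ • r_* D`    for every divisor `D` of degree `0`.

No pointwise description of `Tdiv` or of `r` is used: the difference of the two sides kills
principal divisors and is bounded, hence vanishes in degree zero by the Riemann bound.
-/

set_option autoImplicit false
set_option linter.style.haveILetI false

noncomputable section

open HahnSeries IntermediateField AlgebraicCurve ModularCurve

namespace Fermat.Agent.S37.H697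

section AlongLemmas

variable {K F F' : Type*} [Field K] [Field F] [Field F'] [Algebra K F] [Algebra K F']

/-- The norm along an algebra homomorphism `φ : F → F'`. -/
def normAlong (φ : F →ₐ[K] F') : F' → F :=
  letI := algebraAlong φ
  Algebra.norm F

theorem pullbackAlong_apply_eq_ord [HasPrincipalDivisors K F'] (φ : F →ₐ[K] F')
    (hφ : φ.toRingHom.IsIntegral) {f : F} {D : Divisor K F}
    (hD : ∀ v : Place K F, D v = v.ord f) (w : Place K F') :
    Divisor.pullbackAlong φ hφ D w = w.ord (φ f) := by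
  letI := algebraAlong φ
  haveI := isScalarTower_along φ
  haveI := isIntegral_along φ hφ
  exact Divisor.pullback_apply_eq_ord hD w

theorem pushforwardAlong_apply_eq_ord (φ : F →ₐ[K] F') (hφ : φ.toRingHom.IsIntegral)
    (hfin : FiniteAlong K φ) (hN : NormFormulaAlong K φ hfin) {f : F'} (hf : f ≠ 0)
    {D : Divisor K F'} (hD : ∀ w : Place K F', D w = w.ord f) (v : Place K F) :
    Divisor.pushforwardAlong φ hφ D v = v.ord (normAlong φ f) := by
  letI := algebraAlong φ
  haveI := isScalarTower_along φ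
  haveI := isIntegral_along φ hφ
  haveI : Module.Finite F F' := hfin
  exact hN f hf D hD v

theorem normAlong_ne_zero (φ : F →ₐ[K] F') (hfin : FiniteAlong K φ) {f : F'} (hf : f ≠ 0) :
    normAlong φ f ≠ 0 := by
  letI := algebraAlong φ
  haveI : Module.Finite F F' := hfin
  exact Algebra.norm_ne_zero_iff.mpr hf

end AlongLemmas

section Relation

variable {L : Type*} [Field L] [Algebra ℚ L] {A : ValuationSubring L}
variable {k : Type*} [Field k] {π : A →+* k} {N ℓ : ℕ} [NeZero N] [NeZero ℓ]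

/-- **Kronecker congruence for norms** (hypothesis of the relation): for every integral `y` with
nonzero reduction `ȳ`, the norm of `β y = y(q^ℓ)` along `α` is integral, with reduction
`(Φ⁻¹ ȳ) ^ ℓ * Φ ȳ`. -/
def KroneckerNorm (A : ValuationSubring L) (π : A →+* k) (N ℓ : ℕ) [NeZero N] [NeZero ℓ]
    (φ : k ≃+* k) : Prop :=
  ∀ (y : LaurentSeries A)
    (hy : coeffMap A.subtype y ∈ laurentBaseChange L (modularFunctionFieldFull N)),
    coeffMap π y ∈ modularFunctionFieldFullC k N → coeffMap π y ≠ 0 →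
    ∃ (z : LaurentSeries A)
      (hz : coeffMap A.subtype z ∈ laurentBaseChange L (modularFunctionFieldFull N)),
      normAlong (heckeAlphaBar L N ℓ) (heckeBetaBar L N ℓ ⟨coeffMap A.subtype y, hy⟩)
          = ⟨coeffMap A.subtype z, hz⟩ ∧
        coeffMap π z = (coeffMap (φ.symm : k →+* k) (coeffMap π y)) ^ ℓ
          * coeffMap (φ : k →+* k) (coeffMap π y)

variable (hα : HeckeAlphaBarIntegral L N ℓ) (hβ : HeckeBetaBarIntegral L N ℓ)
variable [HasPrincipalDivisors L (laurentBaseChange L (modularFunctionFieldFull (N * ℓ)))]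

/-- The relation on integral principal divisors. -/
theorem relation_integral
    {r : Place L (laurentBaseChange L (modularFunctionFieldFull N)) →
      Place k (modularFunctionFieldFullC k N)}
    (hr : IsPlaceReductionAlong A π N r)
    (hfin : FiniteAlong L (heckeAlphaBar L N ℓ))
    (hN : NormFormulaAlong L (heckeAlphaBar L N ℓ) hfin)
    (φ : k ≃+* k) (hK : KroneckerNorm A π N ℓ φ)
    {D : Divisor L (laurentBaseChange L (modularFunctionFieldFull N))}
    (hD : D ∈ integralPrincipalDivisors A π N) :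
    Finsupp.mapDomain r (heckeDivBar hα hβ D)
      = coeffSL N φ • Finsupp.mapDomain r D
        + ℓ • ((coeffSL N φ)⁻¹ • Finsupp.mapDomain r D) := by
  obtain ⟨y, hy, hyk, hne, hDy⟩ := hD
  set Φ := coeffSL N φ with hΦ
  obtain ⟨z, hz, hnorm, hzred⟩ := hK y hy hyk hne
  -- the reduction of `y`
  set ybar : modularFunctionFieldFullC k N := ⟨coeffMap π y, hyk⟩ with hybar
  have hybar0 : ybar ≠ 0 := fun h => hne (congrArg Subtype.val h)
  have hΦy0 : Φ • ybar ≠ 0 := by simpa using hybar0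
  have hΦiy0 : Φ⁻¹ • ybar ≠ 0 := by simpa using hybar0
  -- the reduction of `z`
  have hzk_eq : coeffMap π z = (((Φ⁻¹ • ybar) ^ ℓ * (Φ • ybar) :
      modularFunctionFieldFullC k N) : LaurentSeries k) := by
    rw [hzred]
    rfl
  have hzk : coeffMap π z ∈ modularFunctionFieldFullC k N := by
    rw [hzk_eq]; exact Subtype.property _
  have hzbar : (⟨coeffMap π z, hzk⟩ : modularFunctionFieldFullC k N)
      = (Φ⁻¹ • ybar) ^ ℓ * (Φ • ybar) := Subtype.ext hzk_eq
  have hzne : coeffMap π z ≠ 0 := by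
    intro h0
    have : ((Φ⁻¹ • ybar) ^ ℓ * (Φ • ybar) : modularFunctionFieldFullC k N) = 0 := by
      rw [← hzbar]; exact Subtype.ext h0
    exact mul_ne_zero (pow_ne_zero _ hΦiy0) hΦy0 this
  -- the divisor `Tdiv D` is the divisor of the norm
  have hy0 : (⟨coeffMap A.subtype y, hy⟩ : laurentBaseChange L (modularFunctionFieldFull N)) ≠ 0 := by
    intro h0
    apply hne
    have h1 : coeffMap A.subtype y = 0 := congrArg Subtype.val h0
    have h2 : y = 0 := by
      apply coeffMap_injective_of_injective A.subtype Subtype.val_injective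
      rw [h1, map_zero]
    rw [h2, map_zero]
  have hβy0 : heckeBetaBar L N ℓ ⟨coeffMap A.subtype y, hy⟩ ≠ 0 := by
    simpa using hy0
  have hT : ∀ P, (heckeDivBar hα hβ D) P
      = P.ord (⟨coeffMap A.subtype z, hz⟩ : laurentBaseChange L (modularFunctionFieldFull N)) := by
    intro P
    show Divisor.pushforwardAlong (heckeAlphaBar L N ℓ) hα
      (Divisor.pullbackAlong (heckeBetaBar L N ℓ) hβ D) P = _
    rw [pushforwardAlong_apply_eq_ord (heckeAlphaBar L N ℓ) hα hfin hN hβy0
        (fun w => pullbackAlong_apply_eq_ord (heckeBetaBar L N ℓ) hβ hDy w) P, hnorm]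
  have key1 := hr.2 z hz hzk hzne (heckeDivBar hα hβ D) hT
  have key0 := hr.2 y hy hyk hne D hDy
  ext Q
  rw [key1 Q, Finsupp.add_apply, Finsupp.smul_apply, SemilinearAut.divisor_smul_apply,
    SemilinearAut.divisor_smul_apply, inv_inv, key0, key0, hzbar,
    Place.ord_mul _ (pow_ne_zero _ hΦiy0) hΦy0]
  have h1 : Q.ord ((Φ⁻¹ • ybar) ^ ℓ) = ℓ * Q.ord (Φ⁻¹ • ybar) := by
    have := Q.ord_zpow (Φ⁻¹ • ybar) (ℓ : ℤ)
    rwa [zpow_natCast] at this
  have h2 : Q.ord (Φ⁻¹ • ybar) = (Φ • Q).ord ybar := by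
    have := SemilinearAut.ord_smul Φ⁻¹ (Φ • Q) ybar
    rwa [inv_smul_smul] at this
  have h3 : Q.ord (Φ • ybar) = (Φ⁻¹ • Q).ord ybar := by
    have := SemilinearAut.ord_smul Φ (Φ⁻¹ • Q) ybar
    rwa [smul_inv_smul] at this
  rw [h1, h2, h3, nsmul_eq_mul]
  ring

/-- **Eichler–Shimura relation on divisors of degree zero.** -/
theorem relation_divisor
    {r : Place L (laurentBaseChange L (modularFunctionFieldFull N)) →
      Place k (modularFunctionFieldFullC k N)}
    (hr : IsPlaceReductionAlong A π N r) (hgen : PrincipalGeneratedByIntegral A π N)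
    (hR : RiemannBound L (laurentBaseChange L (modularFunctionFieldFull N)))
    (hfin : FiniteAlong L (heckeAlphaBar L N ℓ))
    (hN : NormFormulaAlong L (heckeAlphaBar L N ℓ) hfin)
    (φ : k ≃+* k) (hK : KroneckerNorm A π N ℓ φ)
    (C : ℕ) (hC : ∀ P : Place L (laurentBaseChange L (modularFunctionFieldFull N)),
      l1norm (heckeDivBar hα hβ (Finsupp.single P 1)) ≤ C)
    (D : Divisor L (laurentBaseChange L (modularFunctionFieldFull N)))
    (hD : Divisor.degree D = 0) :
    Finsupp.mapDomain r (heckeDivBar hα hβ D)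
      = coeffSL N φ • Finsupp.mapDomain r D
        + ℓ • ((coeffSL N φ)⁻¹ • Finsupp.mapDomain r D) := by
  classical
  set Φ := coeffSL N φ with hΦ
  set T := heckeDivBar (L := L) hα hβ with hTdef
  set δ : Divisor L (laurentBaseChange L (modularFunctionFieldFull N)) →+
      Divisor k (modularFunctionFieldFullC k N) :=
    (Finsupp.mapDomain.addMonoidHom r).comp T
      - (DistribSMul.toAddMonoidHom (Divisor k (modularFunctionFieldFullC k N)) Φ
          + ℓ • DistribSMul.toAddMonoidHom (Divisor k (modularFunctionFieldFullC k N)) Φ⁻¹).comp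
        (Finsupp.mapDomain.addMonoidHom r) with hδ
  have hδapp : ∀ E, δ E = Finsupp.mapDomain r (T E)
      - (Φ • Finsupp.mapDomain r E + ℓ • (Φ⁻¹ • Finsupp.mapDomain r E)) := fun E => rfl
  have hδprin : ∀ E ∈ Divisor.principal (K := L)
      (F := laurentBaseChange L (modularFunctionFieldFull N)), δ E = 0 := by
    intro E hE
    have hE' := hgen hE
    clear hE
    induction hE' using AddSubgroup.closure_induction with
    | mem E hE => rw [hδapp, relation_integral hα hβ hr hfin hN φ hK hE, sub_self]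
    | zero => exact map_zero δ
    | add E E' _ _ hE hE' => rw [map_add, hE, hE', add_zero]
    | neg E _ hE => rw [map_neg, hE, neg_zero]
  have hl1map : ∀ (E : Divisor L (laurentBaseChange L (modularFunctionFieldFull N))),
      l1norm (Finsupp.mapDomain r E) ≤ l1norm E := by
    intro E
    induction E using Finsupp.induction with
    | zero => simp
    | single_add P n E hP hn ih =>
      rw [Finsupp.mapDomain_add, Finsupp.mapDomain_single]
      refine (l1norm_add_le _ _).trans ?_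
      have : l1norm (Finsupp.single P n + E) = n.natAbs + l1norm E := by
        unfold l1norm
        rw [Finsupp.sum_add_index_of_disjoint]
        · simp
        · rw [Finset.disjoint_left]
          intro x hx hx'
          have : x = P := by
            have := Finsupp.support_single_subset hx
            simpa using this
          exact hP (this ▸ hx')
      rw [this, l1norm_single]
      exact Nat.add_le_add_left ih _
  have hδC : ∀ P : Place L (laurentBaseChange L (modularFunctionFieldFull N)),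
      l1norm (δ (Finsupp.single P 1)) ≤ C + (1 + ℓ) := by
    intro P
    rw [hδapp]
    refine (l1norm_sub_le _ _).trans (Nat.add_le_add ((hl1map _).trans (hC P)) ?_)
    rw [Finsupp.mapDomain_single, SemilinearAut.smul_single, SemilinearAut.smul_single,
      Finsupp.smul_single]
    refine (l1norm_add_le _ _).trans ?_
    rw [l1norm_single, l1norm_single]
    simp
  have h0 := eq_zero_of_kills_principal hR δ hδprin _ hδC D hD
  rw [hδapp, sub_eq_zero] at h0
  exact h0

end Relation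

end Fermat.Agent.S37.H697

end
end
-- ===== PACK-END S37/H697/Relation.lean

-- ===== PACK-BEGIN S37/H818/GaloisEquiv.lean
section
/-
S37 / LEVEL TRANSFER (helper818), part 7: pullback of divisors / `Pic0` classes along `i`
commutes with intertwined semilinear automorphisms (Galois equivariance of `π^*`).
-/




set_option autoImplicit false
set_option linter.style.haveILetI false

noncomputable section

namespace Fermat.Agent.S37.H818

open AlgebraicCurve
open scoped Pointwise

variable {K F G : Type*} [Field K] [Field F] [Field G] [Algebra K F] [Algebra K G]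

section

variable (i : F →ₐ[K] G) (hi : i.toRingHom.IsIntegral)
  {g : SemilinearAut K F} {g' : SemilinearAut K G}
  (h : SemilinearAut.IntertwinesAlong (i : F →+* G) g g')

theorem mem_restrictAlong_iff (W : Place K G) (x : F) :
    x ∈ (W.restrictAlong i hi).toValuationSubring ↔ i x ∈ W.toValuationSubring := Iff.rfl

include h in
theorem restrictAlong_smul (W : Place K G) :
    (g' • W).restrictAlong i hi = g • (W.restrictAlong i hi) := by
  apply Place.ext
  ext x
  rw [mem_restrictAlong_iff, SemilinearAut.smul_toValuationSubring,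
    SemilinearAut.smul_toValuationSubring,
    ValuationSubring.mem_pointwise_smul_iff_inv_smul_mem,
    ValuationSubring.mem_pointwise_smul_iff_inv_smul_mem, mem_restrictAlong_iff]
  have := h.inv x
  simp only [RingHom.coe_coe] at this
  rw [this]

include h hi in
theorem ramificationIndexAlong_smul (W : Place K G) :
    Place.ramificationIndexAlong i (g' • W) = Place.ramificationIndexAlong i W := by
  obtain ⟨f, -, hf⟩ := exists_ord_eq_one (W.restrictAlong i hi)
  have h1 := Place.ord_restrictAlong i hi W f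
  rw [hf, mul_one] at h1
  have h2 := Place.ord_restrictAlong i hi (g' • W) (g • f)
  rw [restrictAlong_smul i hi h W, SemilinearAut.ord_smul, hf, mul_one] at h2
  have h3 : i (g • f) = g' • (i f) := by
    have := h f
    simp only [RingHom.coe_coe] at this
    exact this.symm
  rw [h3, SemilinearAut.ord_smul, h1] at h2
  exact_mod_cast h2.symm

variable [HasPrincipalDivisors K G]

include h in
/-- Pullback of divisors is equivariant. -/
theorem pullbackAlong_smul (D : Divisor K F) :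
    Divisor.pullbackAlong i hi (g • D) = g' • Divisor.pullbackAlong i hi D := by
  ext W
  rw [Divisor.pullbackAlong_apply, SemilinearAut.divisor_smul_apply,
    SemilinearAut.divisor_smul_apply, Divisor.pullbackAlong_apply,
    restrictAlong_smul i hi h.inv W, ramificationIndexAlong_smul i hi h.inv W]

include h in
/-- `π^*` is equivariant on `Pic0`. -/
theorem pullbackPic0Along_smul (hFI : FundamentalIdentityAlong K i hi) (x : Pic0 K F) :
    pullbackPic0Along i hi hFI (g • x) = g' • pullbackPic0Along i hi hFI x := by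
  obtain ⟨D, rfl⟩ := Pic0.mk_surjective x
  rw [SemilinearAut.pic0_smul_mk, pullbackPic0Along_mk, pullbackPic0Along_mk,
    SemilinearAut.pic0_smul_mk]
  congr 1
  apply Subtype.ext
  simp only [coe_pullbackDegZeroAlong, SemilinearAut.coe_degZeroSMulHom]
  exact pullbackAlong_smul i hi h D

end

end Fermat.Agent.S37.H818

end

end
-- ===== PACK-END S37/H818/GaloisEquiv.lean

-- ===== PACK-BEGIN S28/H988/Tower.lean
section
/-
S28 / [L.UP] upper bound, helper988.
The tower step over ANY field `k`:  `E_{Mp} = E_M(j(q^{p^{a+1}}))` and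
`[E_{Mp} : E_M] ≤ p + 1` (`p ∤ M`), `≤ p` (`p ∣ M`), where `E_N = k(j(q^d) : d ∣ N)`.
Input: the modular relations `PhiRel k r (Φ r)` for the primes `r ∣ M p`.
-/




set_option autoImplicit false

noncomputable section

open Polynomial ModularCurve

namespace Fermat.Agent.S28.H988

variable (k : Type*) [Field k]

/-! ### The fields `E_N` -/

theorem jd_mem_full {N d : ℕ} (hN : N ≠ 0) (hd : d ∣ N) :
    jd k d ∈ modularFunctionFieldFullC k N := by
  have hd0 : d ≠ 0 := fun h => hN (by rw [h] at hd; exact Nat.eq_zero_of_zero_dvd hd)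
  have : NeZero d := ⟨hd0⟩
  rw [jd_eq k d]
  exact jqModCd_mem_full k N hd

theorem full_le_iff {N : ℕ} (hN : N ≠ 0) (F : IntermediateField k (LaurentSeries k)) :
    modularFunctionFieldFullC k N ≤ F ↔ ∀ d, d ∣ N → jd k d ∈ F := by
  constructor
  · intro h d hd
    exact h (jd_mem_full k hN hd)
  · intro h
    rw [modularFunctionFieldFullC, IntermediateField.adjoin_le_iff]
    rintro x ⟨d, hne, hdvd, rfl⟩
    have := h d hdvd
    rwa [jd_eq k d] at this

theorem full_mono {M N : ℕ} (hN : N ≠ 0) (h : M ∣ N) :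
    modularFunctionFieldFullC k M ≤ modularFunctionFieldFullC k N := by
  have hM : M ≠ 0 := fun h0 => hN (by rw [h0] at h; exact Nat.eq_zero_of_zero_dvd h)
  rw [full_le_iff k hM]
  intro d hd
  exact jd_mem_full k hN (hd.trans h)

/-! ### Generation -/

variable {k}

/-- **Generation.** If `F ⊇ E_M` contains `j(q^{p^b})` for all `p^b ∣ M p`, then `F ⊇ E_{Mp}`. -/
theorem jd_mem_of_dvd_mul (Φ : ℕ → Polynomial (Polynomial ℤ)) {M p : ℕ} (hM : M ≠ 0)
    (hp : p.Prime) (hΦ : ∀ r, r.Prime → r ∣ M * p → PhiRel k r (Φ r))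
    (F : IntermediateField k (LaurentSeries k)) (hF : ∀ d, d ∣ M → jd k d ∈ F)
    (hpow : ∀ b, p ^ b ∣ M * p → jd k (p ^ b) ∈ F) :
    ∀ d, d ∣ M * p → jd k d ∈ F := by
  intro d
  induction d using Nat.strong_induction_on with
  | _ d ih =>
    intro hd
    have hMp : M * p ≠ 0 := Nat.mul_ne_zero hM hp.ne_zero
    have hd0 : d ≠ 0 := fun h => hMp (by rw [h] at hd; exact Nat.eq_zero_of_zero_dvd hd)
    by_cases hdM : d ∣ M
    · exact hF d hdM
    have hpd : p ∣ d := by
      by_contra hnp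
      have hcop : Nat.Coprime d p := (Nat.Coprime.symm ((Nat.Prime.coprime_iff_not_dvd hp).mpr hnp))
      exact hdM (hcop.dvd_of_dvd_mul_right hd)
    by_cases hex : ∃ r, r.Prime ∧ r ∣ d ∧ r ≠ p
    · obtain ⟨r, hr, hrd, hrp⟩ := hex
      have hcop : Nat.Coprime p r := (Nat.coprime_primes hp hr).mpr (Ne.symm hrp)
      have hprd : p * r ∣ d := hcop.mul_dvd_of_dvd_of_dvd hpd hrd
      obtain ⟨e, he⟩ := hprd
      have hde : d = e * p * r := by rw [he]; ring
      have he0 : e ≠ 0 := by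
        rintro rfl
        apply hd0
        rw [hde]; simp
      have h1 : jd k (e * r) ∈ F := by
        apply hF
        have : e * r * p ∣ M * p := by
          rw [show e * r * p = d by rw [hde]; ring]; exact hd
        exact (Nat.mul_dvd_mul_iff_right hp.pos).mp this
      have h2 : jd k (e * p) ∈ F := by
        apply ih (e * p)
        · rw [hde]
          have : 1 < r := hr.one_lt
          have hpos : 0 < e * p := Nat.pos_of_ne_zero (Nat.mul_ne_zero he0 hp.ne_zero)
          nlinarith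
        · exact (Dvd.intro r hde.symm).trans hd
      rw [hde]
      exact jd_mem_of_mem (hΦ p hp (Dvd.intro_left M rfl)) (hΦ r hr (hrd.trans hd))
        hp.one_lt hr.one_lt (Ne.symm hrp) he0 F h1 h2
    · push Not at hex
      have hdpow : d = p ^ d.primeFactorsList.length :=
        Nat.eq_prime_pow_of_unique_prime_dvd hd0 (fun {r} hr hrd => hex r hr hrd)
      rw [hdpow]
      apply hpow
      rw [← hdpow]
      exact hd

/-! ### The top generator and its polynomial -/

/-- The exponent of the top `p`-power: `p ^ (topExp M p) ∣ M * p` exactly. -/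
def topExp (M p : ℕ) : ℕ := M.factorization p + 1

theorem pow_dvd_mul_iff {M p : ℕ} (hM : M ≠ 0) (hp : p.Prime) (b : ℕ) :
    p ^ b ∣ M * p ↔ b ≤ topExp M p := by
  have hMp : M * p ≠ 0 := Nat.mul_ne_zero hM hp.ne_zero
  rw [hp.pow_dvd_iff_le_factorization hMp, Nat.factorization_mul hM hp.ne_zero]
  simp only [Finsupp.coe_add, Pi.add_apply, hp.factorization_self, topExp]

theorem pow_dvd_iff' {M p : ℕ} (hM : M ≠ 0) (hp : p.Prime) (b : ℕ) :
    p ^ b ∣ M ↔ b + 1 ≤ topExp M p := by
  rw [hp.pow_dvd_iff_le_factorization hM, topExp]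
  omega

variable (k) in
/-- The top generator `j(q^{p^{a+1}})`, `a = v_p(M)`. -/
def topGen (M p : ℕ) : LaurentSeries k := jd k (p ^ topExp M p)

theorem topGen_mem {M p : ℕ} (hM : M ≠ 0) (hp : p.Prime) :
    topGen k M p ∈ modularFunctionFieldFullC k (M * p) :=
  jd_mem_full k (Nat.mul_ne_zero hM hp.ne_zero) ((pow_dvd_mul_iff hM hp _).mpr le_rfl)

/-- **Generation, packaged**: `E_{Mp} = E_M(topGen)`. -/
theorem full_mul_eq (Φ : ℕ → Polynomial (Polynomial ℤ)) {M p : ℕ} (hM : M ≠ 0)
    (hp : p.Prime) (hΦ : ∀ r, r.Prime → r ∣ M * p → PhiRel k r (Φ r)) :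
    modularFunctionFieldFullC k (M * p) =
      (IntermediateField.adjoin (modularFunctionFieldFullC k M) {topGen k M p}).restrictScalars k := by
  have hMp : M * p ≠ 0 := Nat.mul_ne_zero hM hp.ne_zero
  set L' := IntermediateField.adjoin (modularFunctionFieldFullC k M) {topGen k M p} with hL'
  have hsub : ∀ x ∈ modularFunctionFieldFullC k M, x ∈ L'.restrictScalars k := by
    intro x hx
    rw [IntermediateField.mem_restrictScalars]
    exact L'.algebraMap_mem ⟨x, hx⟩
  have htop : topGen k M p ∈ L'.restrictScalars k := by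
    rw [IntermediateField.mem_restrictScalars]
    exact IntermediateField.mem_adjoin_simple_self _ _
  apply le_antisymm
  · rw [full_le_iff k hMp]
    refine jd_mem_of_dvd_mul Φ hM hp hΦ _ (fun d hd => hsub _ (jd_mem_full k hM hd)) ?_
    intro b hb
    rw [pow_dvd_mul_iff hM hp] at hb
    rcases Nat.lt_or_ge b (topExp M p) with hlt | hge
    · exact hsub _ (jd_mem_full k hM ((pow_dvd_iff' hM hp b).mpr hlt))
    · have : b = topExp M p := le_antisymm hb hge
      rw [this]
      exact htop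
  · intro x hx
    rw [IntermediateField.mem_restrictScalars] at hx
    have hle : L' ≤ IntermediateField.extendScalars
        (full_mono k hMp (Dvd.intro p rfl) :
          modularFunctionFieldFullC k M ≤ modularFunctionFieldFullC k (M * p)) := by
      rw [hL', IntermediateField.adjoin_le_iff]
      rintro y hy
      rw [Set.mem_singleton_iff] at hy
      rw [hy]
      exact (IntermediateField.mem_extendScalars _).mpr (topGen_mem hM hp)
    exact (IntermediateField.mem_extendScalars _).mp (hle hx)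

/-! ### The degree of the top generator -/

/-- `topGen` is a root of a monic polynomial over `E_M` of degree `p + 1`, and of degree `p`
if `p ∣ M`. -/
theorem exists_monic_root_topGen (Φ : Polynomial (Polynomial ℤ)) {M p : ℕ} (hM : M ≠ 0)
    (hp : p.Prime) (hΦ : PhiRel k p Φ) :
    ∃ Q : Polynomial (modularFunctionFieldFullC k M), Q.Monic ∧
      Q.natDegree = (if p ∣ M then p else p + 1) ∧ aeval (topGen k M p) Q = 0 := by
  set E := modularFunctionFieldFullC k M with hE
  have hp0 : p ≠ 0 := hp.ne_zero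
  by_cases hpM : p ∣ M
  · rw [if_pos hpM]
    -- `a ≥ 1`
    obtain ⟨a, ha⟩ : ∃ a, topExp M p = a + 2 := by
      have h1 : 1 + 1 ≤ topExp M p := (pow_dvd_iff' hM hp 1).mp (by rwa [pow_one])
      exact ⟨topExp M p - 2, by omega⟩
    have hmemy : jd k (p ^ (a + 1)) ∈ E :=
      jd_mem_full k hM ((pow_dvd_iff' hM hp (a + 1)).mpr (by omega))
    have hmemc : jd k (p ^ a) ∈ E :=
      jd_mem_full k hM ((pow_dvd_iff' hM hp a).mpr (by omega))
    set y : E := ⟨jd k (p ^ (a + 1)), hmemy⟩ with hy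
    set c : E := ⟨jd k (p ^ a), hmemc⟩ with hc
    set A : Polynomial E := PhiAt Φ y with hA
    have hAmap : A.map (algebraMap E (LaurentSeries k)) = PhiAt Φ (jd k (p ^ (a + 1))) := by
      rw [hA, PhiAt_map]; rfl
    have hpa0 : p ^ a ≠ 0 := pow_ne_zero _ hp0
    have hpa1 : p ^ (a + 1) ≠ 0 := pow_ne_zero _ hp0
    have hrootc : A.IsRoot c := by
      have h1 : (A.map (algebraMap E (LaurentSeries k))).IsRoot
          (algebraMap E (LaurentSeries k) c) := by
        rw [hAmap]
        have := hΦ.root2 hp0 hpa0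
        rwa [← pow_succ] at this
      exact IsRoot.of_map h1 (algebraMap E (LaurentSeries k)).injective
    have hAeq : (X - C c) * (A /ₘ (X - C c)) = A := mul_divByMonic_eq_iff_isRoot.mpr hrootc
    have hAmonic : A.Monic := PhiAt_monic hΦ.monic _
    have hAdeg : A.natDegree = p + 1 := by rw [hA, PhiAt_natDegree hΦ.monic, hΦ.natDegree_eq]
    refine ⟨A /ₘ (X - C c), ?_, ?_, ?_⟩
    · have hd : (X - C c : Polynomial E).degree ≤ A.degree := by
        rw [degree_X_sub_C, degree_eq_natDegree hAmonic.ne_zero, hAdeg]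
        exact_mod_cast Nat.le_add_left 1 p
      rw [Monic, leadingCoeff_divByMonic_of_monic (monic_X_sub_C _) hd]
      exact hAmonic
    · rw [natDegree_divByMonic _ (monic_X_sub_C _), natDegree_X_sub_C, hAdeg]
      rfl
    · have hrootA : aeval (topGen k M p) A = 0 := by
        rw [aeval_def, eval₂_eq_eval_map, hAmap]
        have := hΦ.root1 hp0 hpa1
        rw [← pow_succ] at this
        unfold topGen
        rw [ha]
        exact this
      rw [← hAeq, map_mul, map_sub, aeval_X, aeval_C] at hrootA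
      rcases mul_eq_zero.mp hrootA with h | h
      · exfalso
        have h' : topGen k M p = jd k (p ^ a) := sub_eq_zero.mp h
        unfold topGen at h'
        rw [ha] at h'
        refine jd_ne k (pow_ne_zero _ hp0) hpa0 ?_ h'
        intro hcon
        have := Nat.pow_right_injective hp.two_le hcon
        omega
      · exact h
  · rw [if_neg hpM]
    have htop : topExp M p = 1 := by
      unfold topExp
      rw [Nat.factorization_eq_zero_of_not_dvd hpM]
    have hmemy : jd k 1 ∈ E := jd_mem_full k hM (one_dvd M)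
    set y : E := ⟨jd k 1, hmemy⟩ with hy
    set A : Polynomial E := PhiAt Φ y with hA
    have hAmap : A.map (algebraMap E (LaurentSeries k)) = PhiAt Φ (jd k 1) := by
      rw [hA, PhiAt_map]; rfl
    refine ⟨A, PhiAt_monic hΦ.monic _, ?_, ?_⟩
    · rw [hA, PhiAt_natDegree hΦ.monic, hΦ.natDegree_eq]
    · rw [aeval_def, eval₂_eq_eval_map, hAmap]
      have := hΦ.root1 hp0 one_ne_zero
      rw [one_mul] at this
      unfold topGen
      rw [htop, pow_one]
      exact this

/-- **Tower step.** `0 < [E_{Mp} : E_M] ≤ p + 1`, and `≤ p` if `p ∣ M`. -/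
theorem relfinrank_step (Φ : ℕ → Polynomial (Polynomial ℤ)) {M p : ℕ} (hM : M ≠ 0)
    (hp : p.Prime) (hΦ : ∀ r, r.Prime → r ∣ M * p → PhiRel k r (Φ r)) :
    0 < IntermediateField.relfinrank (modularFunctionFieldFullC k M)
        (modularFunctionFieldFullC k (M * p)) ∧
    IntermediateField.relfinrank (modularFunctionFieldFullC k M)
        (modularFunctionFieldFullC k (M * p)) ≤ (if p ∣ M then p else p + 1) := by
  have hMp : M * p ≠ 0 := Nat.mul_ne_zero hM hp.ne_zero
  have hle : modularFunctionFieldFullC k M ≤ modularFunctionFieldFullC k (M * p) :=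
    full_mono k hMp (Dvd.intro p rfl)
  obtain ⟨Q, hQm, hQd, hQr⟩ :=
    exists_monic_root_topGen (Φ p) hM hp (hΦ p hp (Dvd.intro_left M rfl))
  have hint : IsIntegral (modularFunctionFieldFullC k M) (topGen k M p) := ⟨Q, hQm, by
    rwa [← aeval_def]⟩
  have heq : IntermediateField.extendScalars hle =
      IntermediateField.adjoin (modularFunctionFieldFullC k M) {topGen k M p} := by
    ext x
    rw [IntermediateField.mem_extendScalars, full_mul_eq Φ hM hp hΦ,
      IntermediateField.mem_restrictScalars]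
  rw [IntermediateField.relfinrank_eq_finrank_of_le hle, heq,
    IntermediateField.adjoin.finrank hint]
  refine ⟨minpoly.natDegree_pos hint, ?_⟩
  rw [← hQd]
  exact natDegree_le_of_dvd (minpoly.dvd _ _ hQr) hQm.ne_zero

end Fermat.Agent.S28.H988

end

end
-- ===== PACK-END S28/H988/Tower.lean

-- ===== PACK-BEGIN S37/H400/KronBridge.lean
section
/-
S37 / helper400 — KRON bridge between the two formal Kronecker libraries on main
(`Fermat.Agent.S37.H340` of helper340 and `Fermat.Agent.S37.H400`) and the twist-product form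
of the norm used by the NORM-ID pieces (helper819 et al.).

* `secL_eq_sect`, `secMat_eq_kronMat`, `charpoly_secMat_eq_kron`, `kronPoly_eq_mul_kron` :
    the two libraries define the SAME section matrix / Kronecker polynomial.
* `qExpand_det_secMat_eq_prod` : over a domain with a primitive `ℓ`-th root of unity `ζ`,
    `V_ℓ (det (secMat ℓ f)) = ∏_b f(ζ^b q)`.
* `qExpand_kronNorm_eq_prod` : `V_ℓ (kronNorm ℓ f) = V_ℓ (V_ℓ f) * ∏_b f(ζ^b q)`.
* `eq_kronNorm_of_qExpand_eq_prod` : ANY series `n` with `V_ℓ n = V_ℓ (V_ℓ f) * ∏_b f(ζ^b q)`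
    (e.g. the q-expansion of `Nm_α (β f)`, by NORM-ID) equals `kronNorm ℓ f`.
* `coeffMap_eq_of_qExpand_eq_prod` : hence, for `f = coeffMap ι y` with `y ∈ A((q))`, `ι` injective,
    and a reduction `π : A → k` to a domain of characteristic `ℓ`:
    `n = coeffMap ι (kronNorm ℓ y)` and `coeffMap π (kronNorm ℓ y) = V_ℓ ȳ * frob ȳ`.
-/



set_option autoImplicit false

noncomputable section

set_option linter.style.haveILetI false

open ModularCurve Polynomial Matrix

namespace Fermat.Agent.S37.H400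

variable {R : Type*} [CommRing R]

theorem secL_eq_sect (p : ℕ) [NeZero p] (r : ℤ) (f : LaurentSeries R) :
    secL p r f = H340.sect p r f := by
  ext m
  rw [secL_coeff, H340.sect_coeff]

theorem secMat_eq_kronMat (p : ℕ) [NeZero p] (f : LaurentSeries R) :
    secMat p f = H340.kronMat p f := by
  ext i' i : 2
  rw [secMat_apply', H340.kronMat_apply, secL_eq_sect]

theorem charpoly_secMat_eq_kron (p : ℕ) [NeZero p] (f : LaurentSeries R) :
    (secMat p f).charpoly = H340.kron p f := by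
  rw [H340.kron, secMat_eq_kronMat]

theorem kronPoly_eq_mul_kron (p : ℕ) [NeZero p] (f : LaurentSeries R) :
    kronPoly p f = (X - C (qExpand R p f)) * H340.kron p f := by
  rw [kronPoly, charpoly_secMat_eq_kron]

/-- Twist-product form of the determinant of the section matrix. -/
theorem qExpand_det_secMat_eq_prod [IsDomain R] (p : ℕ) [NeZero p] {ζ : R}
    (hζ : IsPrimitiveRoot ζ p) (f : LaurentSeries R) :
    qExpand R p (secMat p f).det = ∏ b : Fin p, H340.tw p (ζ ^ (b : ℕ)) f := by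
  have h := H340.kron_map_qExpand_eq_prod hζ f
  have h0 := congrArg (fun P : (LaurentSeries R)[X] => P.coeff 0) h
  simp only [Polynomial.coeff_map] at h0
  rw [← charpoly_secMat_eq_kron] at h0
  have hprod : (∏ b : Fin p, (X - C (H340.tw p (ζ ^ (b : ℕ)) f))).coeff 0 =
      (-1) ^ p * ∏ b : Fin p, H340.tw p (ζ ^ (b : ℕ)) f := by
    rw [Polynomial.coeff_zero_eq_eval_zero, Polynomial.eval_prod]
    simp only [eval_sub, eval_X, eval_C, zero_sub]
    rw [Finset.prod_neg]
    simp
  rw [hprod] at h0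
  rw [Matrix.det_eq_sign_charpoly_coeff, Fintype.card_fin, map_mul, map_pow, map_neg, map_one,
    h0, ← mul_assoc, ← mul_pow]
  simp

/-- Twist-product form of the Kronecker norm:
`V_ℓ (kronNorm ℓ f) = f(q^{ℓ²}) · ∏_b f(ζ^b q)`. -/
theorem qExpand_kronNorm_eq_prod [IsDomain R] (p : ℕ) [NeZero p] {ζ : R}
    (hζ : IsPrimitiveRoot ζ p) (f : LaurentSeries R) :
    qExpand R p (kronNorm p f) =
      qExpand R p (qExpand R p f) * ∏ b : Fin p, H340.tw p (ζ ^ (b : ℕ)) f := by
  rw [kronNorm, map_mul, qExpand_det_secMat_eq_prod p hζ]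

/-- Any series whose `V_ℓ`-image is the twist product is the Kronecker norm. -/
theorem eq_kronNorm_of_qExpand_eq_prod [IsDomain R] (p : ℕ) [NeZero p] {ζ : R}
    (hζ : IsPrimitiveRoot ζ p) (f n : LaurentSeries R)
    (hn : qExpand R p n =
      qExpand R p (qExpand R p f) * ∏ b : Fin p, H340.tw p (ζ ^ (b : ℕ)) f) :
    n = kronNorm p f :=
  qExpand_injective (R := R) (N := p) (by rw [hn, qExpand_kronNorm_eq_prod p hζ])

/-- **Integrality and reduction of a norm given in twist-product form.**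
`ι : A → K` injective (`A` a valuation ring of the field `K`), `π : A → k` a reduction to a
domain of characteristic `ℓ`.  If `n ∈ K((q))` has `V_ℓ n = f(q^{ℓ²}) ∏_b f(ζ^b q)` for
`f = coeffMap ι y`, `y ∈ A((q))`, then `n` is `A`-integral, `n = coeffMap ι (kronNorm ℓ y)`, and
the reduction of `kronNorm ℓ y` is `V_ℓ ȳ · frob ȳ`. -/
theorem coeffMap_eq_of_qExpand_eq_prod {A K k : Type*} [CommRing A] [CommRing K] [IsDomain K]
    [CommRing k] [IsDomain k] (ℓ : ℕ) [Fact ℓ.Prime] [CharP k ℓ] (ι : A →+* K) (π : A →+* k)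
    {ζ : K} (hζ : haveI : NeZero ℓ := ⟨(Fact.out : ℓ.Prime).ne_zero⟩; IsPrimitiveRoot ζ ℓ)
    (y : LaurentSeries A) (n : LaurentSeries K)
    (hn : haveI : NeZero ℓ := ⟨(Fact.out : ℓ.Prime).ne_zero⟩;
      qExpand K ℓ n = qExpand K ℓ (qExpand K ℓ (coeffMap ι y)) *
        ∏ b : Fin ℓ, H340.tw ℓ (ζ ^ (b : ℕ)) (coeffMap ι y)) :
    haveI : NeZero ℓ := ⟨(Fact.out : ℓ.Prime).ne_zero⟩
    n = coeffMap ι (kronNorm ℓ y) ∧
      coeffMap π (kronNorm ℓ y) =
        qExpand k ℓ (coeffMap π y) * coeffMap (frobenius k ℓ) (coeffMap π y) := by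
  haveI : NeZero ℓ := ⟨(Fact.out : ℓ.Prime).ne_zero⟩
  show n = coeffMap ι (kronNorm ℓ y) ∧
      coeffMap π (kronNorm ℓ y) =
        qExpand k ℓ (coeffMap π y) * coeffMap (frobenius k ℓ) (coeffMap π y)
  refine ⟨?_, coeffMap_kronNorm_char ℓ π y⟩
  rw [coeffMap_kronNorm]
  exact eq_kronNorm_of_qExpand_eq_prod ℓ hζ _ n hn

end Fermat.Agent.S37.H400

end

end
-- ===== PACK-END S37/H400/KronBridge.lean

-- ===== PACK-BEGIN S28/H88/Degree.lean
section
/-
S28 (Igusa) -- helper88: [L.I] `1, j, …, j^{p-1}` are independent over `k((q^p))`, and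
[L.B2] the degree of `j(q^p)` over `k(j)` is `p + 1`.
-/


set_option autoImplicit false

noncomputable section

open ModularCurve HahnSeries

namespace Fermat.Agent.S28

section Independence

variable (k : Type*) [Field k]

theorem h88_order_qExpand (p : ℕ) [NeZero p] {x : LaurentSeries k} (hx : x ≠ 0) :
    (qExpand k p x).order = (p : ℤ) * x.order := by
  have hVx : qExpand k p x ≠ 0 := fun h => hx (qExpand_injective p (by rw [h, map_zero]))
  apply le_antisymm
  · apply HahnSeries.order_le_of_coeff_ne_zero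
    rw [qExpand_coeff_mul]
    exact HahnSeries.coeff_order_eq_zero.not.mpr hx
  · have h := HahnSeries.coeff_order_eq_zero.not.mpr hVx
    by_cases hdvd : (p : ℤ) ∣ (qExpand k p x).order
    · obtain ⟨m, hm⟩ := hdvd
      have h' : (qExpand k p x).coeff ((p : ℤ) * m) ≠ 0 := by rw [← hm]; exact h
      rw [qExpand_coeff_mul] at h'
      have h2 := HahnSeries.order_le_of_coeff_ne_zero h'
      rw [hm]
      exact mul_le_mul_of_nonneg_left h2 (by positivity)
    · exact absurd (qExpand_coeff_of_not_dvd p x hdvd) h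

theorem h88_order_jqModC : (jqModC k).order = -1 := by
  have hne : jqModC k ≠ 0 := jqModC_ne_zero_of_nontrivial k
  apply le_antisymm
  · exact HahnSeries.order_le_of_coeff_ne_zero (by rw [coeff_jqModC_neg_one]; exact one_ne_zero)
  · by_contra h
    rw [not_le] at h
    have h0 := coeff_jqModC_of_lt k (by omega : (jqModC k).order < -1)
    exact (HahnSeries.coeff_order_eq_zero.not.mpr hne) h0

/-- **[L.I]**, elementary form: `1, j, …, j^{p-1}` are linearly independent over the
image of `q ↦ q^p`. -/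
theorem h88_linIndep_core (p : ℕ) [NeZero p] (c : ℕ → LaurentSeries k)
    (h : ∑ i ∈ Finset.range p, qExpand k p (c i) * (jqModC k) ^ i = 0) :
    ∀ i ∈ Finset.range p, c i = 0 := by
  classical
  by_contra hcon
  rw [not_forall] at hcon
  obtain ⟨i₁, hcon⟩ := hcon
  rw [Classical.not_imp] at hcon
  obtain ⟨hi₁, hci₁⟩ := hcon
  have hj0 : jqModC k ≠ 0 := jqModC_ne_zero_of_nontrivial k
  have hS : ((Finset.range p).filter (fun i => c i ≠ 0)).Nonempty :=
    ⟨i₁, Finset.mem_filter.mpr ⟨hi₁, hci₁⟩⟩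
  obtain ⟨i₀, hi₀S, hmin⟩ := Finset.exists_min_image _
    (fun i => (qExpand k p (c i) * (jqModC k) ^ i).order) hS
  have hi₀ := Finset.mem_filter.mp hi₀S
  have hV : ∀ i, c i ≠ 0 → qExpand k p (c i) ≠ 0 := fun i hci h0 =>
    hci (qExpand_injective p (by rw [h0, map_zero]))
  have hord : ∀ i, c i ≠ 0 →
      (qExpand k p (c i) * (jqModC k) ^ i).order = (p : ℤ) * (c i).order - i := by
    intro i hci
    rw [HahnSeries.order_mul (hV i hci) (pow_ne_zero _ hj0), HahnSeries.order_pow,
      h88_order_qExpand k p hci, h88_order_jqModC]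
    simp
    ring
  have hne : ∀ i, c i ≠ 0 → qExpand k p (c i) * (jqModC k) ^ i ≠ 0 := fun i hci =>
    mul_ne_zero (hV i hci) (pow_ne_zero _ hj0)
  have hcoeff : (∑ i ∈ Finset.range p, qExpand k p (c i) * (jqModC k) ^ i).coeff
      (qExpand k p (c i₀) * (jqModC k) ^ i₀).order = 0 := by
    rw [h, HahnSeries.coeff_zero]
  rw [HahnSeries.coeff_sum, Finset.sum_eq_single_of_mem i₀ hi₀.1] at hcoeff
  · exact (HahnSeries.coeff_order_eq_zero.not.mpr (hne i₀ hi₀.2)) hcoeff
  · intro i hi hii₀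
    by_cases hci : c i = 0
    · rw [hci, map_zero, zero_mul, HahnSeries.coeff_zero]
    · apply HahnSeries.coeff_eq_zero_of_lt_order
      have h1 := hmin i (Finset.mem_filter.mpr ⟨hi, hci⟩)
      rw [hord i hci, hord i₀ hi₀.2] at h1 ⊢
      rcases lt_or_eq_of_le h1 with h2 | h2
      · exact h2
      · exfalso
        have hip := Finset.mem_range.mp hi
        have hi₀p := Finset.mem_range.mp hi₀.1
        have hdvd : (p : ℤ) ∣ (i₀ : ℤ) - i := ⟨(c i₀).order - (c i).order, by linarith⟩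
        have h0 := Int.eq_zero_of_abs_lt_dvd hdvd (by rw [abs_lt]; constructor <;> omega)
        omega

/-- **[L.I]**, polynomial form: no nonzero polynomial of degree `< p` over `k((q^p))`
vanishes at `j`. -/
theorem h88_aeval_ne_zero_of_natDegree_lt (p : ℕ) [NeZero p]
    (Q : Polynomial (qExpandAlgHomC k p).fieldRange) (hQ : Q ≠ 0) (hdeg : Q.natDegree < p) :
    Polynomial.aeval (jqModC k) Q ≠ 0 := by
  intro h
  rw [Polynomial.aeval_eq_sum_range' hdeg] at h
  have hc : ∀ i, ∃ y, qExpand k p y = (Q.coeff i : LaurentSeries k) := fun i =>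
    AlgHom.mem_fieldRange.mp (Q.coeff i).2
  choose c hc using hc
  have h' : ∑ i ∈ Finset.range p, qExpand k p (c i) * (jqModC k) ^ i = 0 := by
    rw [← h]
    refine Finset.sum_congr rfl fun i _ => ?_
    rw [hc, Algebra.smul_def]
    rfl
  have h0 := h88_linIndep_core k p c h'
  apply hQ
  refine Polynomial.ext fun i => ?_
  by_cases hi : i < p
  · have h1 : (Q.coeff i : LaurentSeries k) = 0 := by
      rw [← hc, h0 i (Finset.mem_range.mpr hi), map_zero]
    rw [Polynomial.coeff_zero]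
    exact ZeroMemClass.coe_eq_zero.mp h1
  · rw [Polynomial.coeff_eq_zero_of_natDegree_lt (by omega), Polynomial.coeff_zero]

/-- **[L.I]**, `LinearIndependent` form. -/
theorem h88_linearIndependent_pow (p : ℕ) [NeZero p] :
    LinearIndependent (qExpandAlgHomC k p).fieldRange
      (fun i : Fin p => (jqModC k) ^ (i : ℕ)) := by
  rw [Fintype.linearIndependent_iff]
  intro g hg i
  have hc : ∀ i : Fin p, ∃ y, qExpand k p y = (g i : LaurentSeries k) := fun i =>
    AlgHom.mem_fieldRange.mp (g i).2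
  choose c hc using hc
  have h' : ∑ n ∈ Finset.range p,
      qExpand k p (if h : n < p then c ⟨n, h⟩ else 0) * (jqModC k) ^ n = 0 := by
    rw [Finset.sum_range, ← hg]
    refine Finset.sum_congr rfl fun i _ => ?_
    rw [dif_pos i.2, Fin.eta, hc, Algebra.smul_def]
    rfl
  have h0 := h88_linIndep_core k p _ h' i (Finset.mem_range.mpr i.2)
  rw [dif_pos i.2, Fin.eta] at h0
  have h1 : (g i : LaurentSeries k) = 0 := by rw [← hc, h0, map_zero]
  exact ZeroMemClass.coe_eq_zero.mp h1

end Independence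

section Degree

variable (k : Type*) [Field k] (p : ℕ) [NeZero p]

theorem h88_comp_evalAt {A A' : Type*} [CommRing A] [CommRing A']
    (g : LaurentSeries A →+* LaurentSeries A') (y : LaurentSeries A) :
    g.comp (evalAt y) = evalAt (g y) := by
  apply Polynomial.ringHom_ext
  · intro a
    simp [evalAt]
  · simp [evalAt]

/-- `Φ(j_p, j) = 0` over `k`. -/
theorem h88_modPoly_eval_jp (Φ : ModPolyData p) :
    Φ.Φ.eval₂ (evalAt (jqModC k)) (qExpand k p (jqModC k)) = 0 := by
  have h := congrArg (coeffMap (Int.castRingHom k)) Φ.eval_jp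
  rw [Polynomial.hom_eval₂, map_zero, h88_comp_evalAt, coeffMap_qExpand, coeffMap_jqModC] at h
  exact h

/-- `Φ(j, j_p) = 0` over `k`. -/
theorem h88_modPoly_eval_j (Φ : ModPolyData p) :
    Φ.Φ.eval₂ (evalAt (qExpand k p (jqModC k))) (jqModC k) = 0 := by
  have h := congrArg (coeffMap (Int.castRingHom k)) Φ.eval_j
  rw [Polynomial.hom_eval₂, map_zero, h88_comp_evalAt, coeffMap_qExpand, coeffMap_jqModC] at h
  exact h

/-- `Φ(j_{p²}, j_p) = 0` over `k`. -/
theorem h88_modPoly_eval_jpp (Φ : ModPolyData p) :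
    Φ.Φ.eval₂ (evalAt (qExpand k p (jqModC k)))
      (qExpand k p (qExpand k p (jqModC k))) = 0 := by
  have h := congrArg (qExpand k p) (h88_modPoly_eval_jp k p Φ)
  rw [Polynomial.hom_eval₂, map_zero, h88_comp_evalAt] at h
  exact h

/-- Specialisation `ℤ[Y] → E`, `Y ↦ y`, for an intermediate field `E ∋ y`. -/
def h88_evalSub (E : IntermediateField k (LaurentSeries k)) {y : LaurentSeries k}
    (hy : y ∈ E) : Polynomial ℤ →+* E :=
  (Polynomial.aeval (R := ℤ) (⟨y, hy⟩ : E)).toRingHom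

theorem h88_algebraMap_comp_evalSub (E : IntermediateField k (LaurentSeries k))
    {y : LaurentSeries k} (hy : y ∈ E) :
    (algebraMap E (LaurentSeries k)).comp (h88_evalSub k E hy) = evalAt y := by
  apply Polynomial.ringHom_ext
  · intro a
    simp [evalAt, h88_evalSub]
  · simp [evalAt, h88_evalSub]

theorem h88_aeval_map_evalSub (E : IntermediateField k (LaurentSeries k))
    {y : LaurentSeries k} (hy : y ∈ E) (Φ : Polynomial (Polynomial ℤ))
    (x : LaurentSeries k) :
    Polynomial.aeval x (Φ.map (h88_evalSub k E hy)) = Φ.eval₂ (evalAt y) x := by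
  rw [Polynomial.aeval_def, Polynomial.eval₂_map, h88_algebraMap_comp_evalSub]

theorem h88_jp_mem_map :
    qExpand k p (jqModC k) ∈ (jField k).map (qExpandAlgHomC k p) :=
  (IntermediateField.mem_map (jField k)).mpr ⟨jqModC k, h88_jqModC_mem_jField k, rfl⟩

theorem h88_map_le_fieldRange :
    (jField k).map (qExpandAlgHomC k p) ≤ (qExpandAlgHomC k p).fieldRange := by
  intro x hx
  obtain ⟨y, -, hy⟩ := (IntermediateField.mem_map (jField k)).mp hx
  exact AlgHom.mem_fieldRange.mpr ⟨y, hy⟩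

theorem h88_jqModC_ne_qExpand (hp1 : 1 < p) (y : LaurentSeries k) :
    jqModC k ≠ qExpand k p y := by
  intro h
  have h1 := coeff_jqModC_neg_one k
  rw [h, qExpand_coeff_of_not_dvd p y] at h1
  · exact zero_ne_one h1
  · intro hdvd
    have h2 : (p : ℤ) ∣ 1 := (dvd_neg).mp hdvd
    have h3 := Int.le_of_dvd (by norm_num) h2
    have h4 : (1 : ℤ) < p := by exact_mod_cast hp1
    omega

/-- The modular polynomial specialised at `Y = j_p`, over `K₁ = k(j_p) = V_p(k(j))`. -/
def h88_Phi1 (Φ : ModPolyData p) :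
    Polynomial ((jField k).map (qExpandAlgHomC k p)) :=
  Φ.Φ.map (h88_evalSub k _ (h88_jp_mem_map k p))

/-- The modular polynomial specialised at `Y = j`, over `k(j)`. -/
def h88_Phi0 (Φ : ModPolyData p) : Polynomial (jField k) :=
  Φ.Φ.map (h88_evalSub k _ (h88_jqModC_mem_jField k))

theorem h88_Phi1_monic (Φ : ModPolyData p) : (h88_Phi1 k p Φ).Monic := Φ.monic.map _

theorem h88_Phi0_monic (Φ : ModPolyData p) : (h88_Phi0 k p Φ).Monic := Φ.monic.map _

theorem h88_Phi1_natDegree (Φ : ModPolyData p) : (h88_Phi1 k p Φ).natDegree = p + 1 := by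
  rw [h88_Phi1, Φ.monic.natDegree_map, Φ.natDegree_eq]

theorem h88_Phi0_natDegree (Φ : ModPolyData p) : (h88_Phi0 k p Φ).natDegree = p + 1 := by
  rw [h88_Phi0, Φ.monic.natDegree_map, Φ.natDegree_eq]

theorem h88_Phi1_aeval_j (Φ : ModPolyData p) :
    Polynomial.aeval (jqModC k) (h88_Phi1 k p Φ) = 0 := by
  rw [h88_Phi1, h88_aeval_map_evalSub]
  exact h88_modPoly_eval_j k p Φ

theorem h88_Phi1_aeval_jpp (Φ : ModPolyData p) :
    Polynomial.aeval (qExpand k p (qExpand k p (jqModC k))) (h88_Phi1 k p Φ) = 0 := by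
  rw [h88_Phi1, h88_aeval_map_evalSub]
  exact h88_modPoly_eval_jpp k p Φ

theorem h88_Phi0_aeval_jp (Φ : ModPolyData p) :
    Polynomial.aeval (qExpand k p (jqModC k)) (h88_Phi0 k p Φ) = 0 := by
  rw [h88_Phi0, h88_aeval_map_evalSub]
  exact h88_modPoly_eval_jp k p Φ

theorem h88_isIntegral_j_K1 (Φ : ModPolyData p) :
    IsIntegral ((jField k).map (qExpandAlgHomC k p)) (jqModC k) :=
  ⟨h88_Phi1 k p Φ, h88_Phi1_monic k p Φ, h88_Phi1_aeval_j k p Φ⟩

theorem h88_isIntegral_jp (Φ : ModPolyData p) :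
    IsIntegral (jField k) (qExpand k p (jqModC k)) :=
  ⟨h88_Phi0 k p Φ, h88_Phi0_monic k p Φ, h88_Phi0_aeval_jp k p Φ⟩

/-- Key step: a polynomial over `K₁ ⊆ k((q^p))` vanishing at `j` is zero or has degree `≥ p`. -/
theorem h88_le_natDegree_of_aeval_j_eq_zero
    (Q : Polynomial ((jField k).map (qExpandAlgHomC k p))) (hQ : Q ≠ 0)
    (h : Polynomial.aeval (jqModC k) Q = 0) : p ≤ Q.natDegree := by
  by_contra hlt
  rw [not_le] at hlt
  let incl : ((jField k).map (qExpandAlgHomC k p)) →+* (qExpandAlgHomC k p).fieldRange :=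
    (IntermediateField.inclusion (h88_map_le_fieldRange k p)).toRingHom
  have hinj : Function.Injective incl :=
    (IntermediateField.inclusion (h88_map_le_fieldRange k p)).toRingHom.injective
  have h1 : Q.map incl ≠ 0 := (Polynomial.map_ne_zero_iff hinj).mpr hQ
  have h2 : (Q.map incl).natDegree < p := by
    rw [Polynomial.natDegree_map_eq_of_injective hinj]; exact hlt
  apply h88_aeval_ne_zero_of_natDegree_lt k p (Q.map incl) h1 h2
  rw [Polynomial.aeval_def, Polynomial.eval₂_map]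
  exact h

/-- **[L.B2], first half**: the minimal polynomial of `j` over `K₁ = k(j_p)` is `Φ_p(X, j_p)`,
of degree `p + 1`. -/
theorem h88_minpoly_j_eq_Phi1 (hpk : (p : k) ≠ 0) (hp1 : 1 < p) (Φ : ModPolyData p)
    (W : UnitPolyData p)
    (hθ : (thetaL ℤ (jqModC ℤ)) ^ 6 = deltaL ℤ * (jqModC ℤ) ^ 4 * (jqModC ℤ - 1728) ^ 3) :
    minpoly ((jField k).map (qExpandAlgHomC k p)) (jqModC k) = h88_Phi1 k p Φ := by
  have hint := h88_isIntegral_j_K1 k p Φ
  have hm_monic := minpoly.monic hint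
  have hm_dvd : minpoly ((jField k).map (qExpandAlgHomC k p)) (jqModC k) ∣ h88_Phi1 k p Φ :=
    minpoly.dvd _ _ (h88_Phi1_aeval_j k p Φ)
  have hm_ge := h88_le_natDegree_of_aeval_j_eq_zero k p _ hm_monic.ne_zero (minpoly.aeval _ _)
  have hm_le : (minpoly ((jField k).map (qExpandAlgHomC k p)) (jqModC k)).natDegree ≤ p + 1 := by
    rw [← h88_Phi1_natDegree k p Φ]
    exact Polynomial.natDegree_le_of_dvd hm_dvd (h88_Phi1_monic k p Φ).ne_zero
  have hm_eq : (minpoly ((jField k).map (qExpandAlgHomC k p)) (jqModC k)).natDegree = p + 1 := by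
    by_contra hne
    have hmp : (minpoly ((jField k).map (qExpandAlgHomC k p)) (jqModC k)).natDegree = p := by
      omega
    obtain ⟨R, hR⟩ := hm_dvd
    have hRmonic : R.Monic := hm_monic.of_mul_monic_left (hR ▸ h88_Phi1_monic k p Φ)
    have hRdeg : R.natDegree = 1 := by
      have h := congrArg Polynomial.natDegree hR
      rw [hm_monic.natDegree_mul hRmonic, h88_Phi1_natDegree, hmp] at h
      omega
    have hR' : R = Polynomial.X + Polynomial.C (R.coeff 0) := hRmonic.eq_X_add_C hRdeg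
    have h1 : Polynomial.aeval (qExpand k p (qExpand k p (jqModC k)))
          (minpoly ((jField k).map (qExpandAlgHomC k p)) (jqModC k))
        * Polynomial.aeval (qExpand k p (qExpand k p (jqModC k))) R = 0 := by
      rw [← map_mul, ← hR]
      exact h88_Phi1_aeval_jpp k p Φ
    rcases mul_eq_zero.mp h1 with h2 | h2
    · -- `m` has the root `j_{p²} ∈ k((q^p))`: split off a linear factor over `k((q^p))`
      let incl : ((jField k).map (qExpandAlgHomC k p)) →+* (qExpandAlgHomC k p).fieldRange :=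
        (IntermediateField.inclusion (h88_map_le_fieldRange k p)).toRingHom
      have hinj : Function.Injective incl :=
        (IntermediateField.inclusion (h88_map_le_fieldRange k p)).toRingHom.injective
      let b₂ : (qExpandAlgHomC k p).fieldRange :=
        ⟨qExpand k p (qExpand k p (jqModC k)),
          AlgHom.mem_fieldRange.mpr ⟨qExpand k p (jqModC k), rfl⟩⟩
      have hroot : ((minpoly ((jField k).map (qExpandAlgHomC k p)) (jqModC k)).map incl).IsRoot
          b₂ := by
        rw [Polynomial.IsRoot.def]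
        apply (algebraMap (qExpandAlgHomC k p).fieldRange (LaurentSeries k)).injective
        rw [map_zero, Polynomial.eval_map, Polynomial.hom_eval₂]
        exact h2
      obtain ⟨M', hM'⟩ := Polynomial.dvd_iff_isRoot.mpr hroot
      have hmapne : (minpoly ((jField k).map (qExpandAlgHomC k p)) (jqModC k)).map incl ≠ 0 :=
        (Polynomial.map_ne_zero_iff hinj).mpr hm_monic.ne_zero
      have hM'ne : M' ≠ 0 := by
        intro h0
        rw [h0, mul_zero] at hM'
        exact hmapne hM'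
      have hM'deg : M'.natDegree < p := by
        have h := congrArg Polynomial.natDegree hM'
        rw [Polynomial.natDegree_map_eq_of_injective hinj, hmp,
          Polynomial.natDegree_mul (Polynomial.X_sub_C_ne_zero b₂) hM'ne,
          Polynomial.natDegree_X_sub_C] at h
        omega
      apply h88_aeval_ne_zero_of_natDegree_lt k p M' hM'ne hM'deg
      have h3 : Polynomial.aeval (jqModC k)
          ((minpoly ((jField k).map (qExpandAlgHomC k p)) (jqModC k)).map incl) = 0 := by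
        rw [Polynomial.aeval_def, Polynomial.eval₂_map]
        exact minpoly.aeval _ _
      rw [hM', map_mul, map_sub, Polynomial.aeval_X, Polynomial.aeval_C] at h3
      rcases mul_eq_zero.mp h3 with h4 | h4
      · exact absurd (sub_eq_zero.mp h4) (h88_jqModC_ne_qExpand k p hp1 _)
      · exact h4
    · -- `j_{p²} ∈ K₁ = V_p(k(j))`, hence `j_p ∈ k(j)`
      rw [hR', map_add, Polynomial.aeval_X, Polynomial.aeval_C] at h2
      have h3 : qExpand k p (qExpand k p (jqModC k))
          ∈ (jField k).map (qExpandAlgHomC k p) := by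
        have h4 : qExpand k p (qExpand k p (jqModC k))
            = -(algebraMap ((jField k).map (qExpandAlgHomC k p)) (LaurentSeries k)
                (R.coeff 0)) := eq_neg_of_add_eq_zero_left h2
        rw [h4]
        exact neg_mem (R.coeff 0).2
      obtain ⟨r, hr, hVr⟩ := (IntermediateField.mem_map (jField k)).mp h3
      have hr' : r = qExpand k p (jqModC k) := qExpand_injective p hVr
      exact h88_jp_not_mem_jField k p hpk hp1 W hθ (hr' ▸ hr)
  exact (Polynomial.eq_of_monic_of_dvd_of_natDegree_le hm_monic (h88_Phi1_monic k p Φ) hm_dvd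
    (by rw [h88_Phi1_natDegree, hm_eq])).symm

theorem h88_irreducible_Phi1 (hpk : (p : k) ≠ 0) (hp1 : 1 < p) (Φ : ModPolyData p)
    (W : UnitPolyData p)
    (hθ : (thetaL ℤ (jqModC ℤ)) ^ 6 = deltaL ℤ * (jqModC ℤ) ^ 4 * (jqModC ℤ - 1728) ^ 3) :
    Irreducible (h88_Phi1 k p Φ) := by
  rw [← h88_minpoly_j_eq_Phi1 k p hpk hp1 Φ W hθ]
  exact minpoly.irreducible (h88_isIntegral_j_K1 k p Φ)

theorem h88_natDegree_minpoly_j (hpk : (p : k) ≠ 0) (hp1 : 1 < p) (Φ : ModPolyData p)
    (W : UnitPolyData p)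
    (hθ : (thetaL ℤ (jqModC ℤ)) ^ 6 = deltaL ℤ * (jqModC ℤ) ^ 4 * (jqModC ℤ - 1728) ^ 3) :
    (minpoly ((jField k).map (qExpandAlgHomC k p)) (jqModC k)).natDegree = p + 1 := by
  rw [h88_minpoly_j_eq_Phi1 k p hpk hp1 Φ W hθ, h88_Phi1_natDegree]

/-- **[L.B2]**: the minimal polynomial of `j(q^p)` over `k(j)` has degree `p + 1`. -/
theorem h88_natDegree_minpoly_jp (hpk : (p : k) ≠ 0) (hp1 : 1 < p) (Φ : ModPolyData p)
    (W : UnitPolyData p)
    (hθ : (thetaL ℤ (jqModC ℤ)) ^ 6 = deltaL ℤ * (jqModC ℤ) ^ 4 * (jqModC ℤ - 1728) ^ 3) :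
    (minpoly (jField k) (qExpand k p (jqModC k))).natDegree = p + 1 := by
  have hint := h88_isIntegral_jp k p Φ
  have hm_monic := minpoly.monic hint
  apply le_antisymm
  · rw [← h88_Phi0_natDegree k p Φ]
    exact Polynomial.natDegree_le_of_dvd (minpoly.dvd _ _ (h88_Phi0_aeval_jp k p Φ))
      (h88_Phi0_monic k p Φ).ne_zero
  · -- transport the minimal polynomial through `V_p`
    let e : (jField k) →+* ((jField k).map (qExpandAlgHomC k p)) :=
      ((jField k).equivMap (qExpandAlgHomC k p)).toAlgHom.toRingHom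
    have hcomp : (algebraMap ((jField k).map (qExpandAlgHomC k p)) (LaurentSeries k)).comp e
        = (qExpand k p).comp (algebraMap (jField k) (LaurentSeries k)) := by
      ext x
      rfl
    have hQ : Polynomial.aeval (qExpand k p (qExpand k p (jqModC k)))
        ((minpoly (jField k) (qExpand k p (jqModC k))).map e) = 0 := by
      rw [Polynomial.aeval_def, Polynomial.eval₂_map, hcomp, ← Polynomial.hom_eval₂,
        ← Polynomial.aeval_def, minpoly.aeval, map_zero]
    have hirr := h88_irreducible_Phi1 k p hpk hp1 Φ W hθ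
    have hmin := minpoly.eq_of_irreducible_of_monic hirr (h88_Phi1_aeval_jpp k p Φ)
      (h88_Phi1_monic k p Φ)
    have hdvd := minpoly.dvd _ _ hQ
    rw [← hmin] at hdvd
    have h1 := Polynomial.natDegree_le_of_dvd hdvd ((hm_monic.map e).ne_zero)
    rw [h88_Phi1_natDegree, hm_monic.natDegree_map] at h1
    exact h1

end Degree

end Fermat.Agent.S28

end

end
-- ===== PACK-END S28/H88/Degree.lean

-- ===== PACK-BEGIN A2/H12/WallG.lean
section


/-!
# Cell A2 — route G: the WALL assembly in field form (helper12)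

Mathlib-only.  Setting: `L` a field (the split Kummer cover), `R → L` the base ring, `w ∈ R`,
three charts `Bfin, Binf ≤ Bmid` (subalgebras of `L`), a finite family of *sheets* `s ↦ M s`,
`M s` an additive subgroup of `L` absorbing `Bmid` (in the application `M s = 𝔪_{W_s}` is the maximal
ideal of the valuation ring of the sheet, or a height-one prime of `Bmid`), a ring automorphism
`τ` of `L` (the lift `τ̃`) preserving the charts and permuting the sheets by `τS`.

* `sheetGraph_connected_sub` : GRAPH-CONN in this language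
  (`hcech` = conclusion of `S18.H138.connected_special_fibre` for `L`).
* `wallG_fixes`  : `τ̃` fixes one sheet + `h_triv` + COUNT (`h_uni_*`) + reduced fibres + `hcech`
                   ⟹ `τ̃` fixes every sheet.
* `wallG_comm`   : free action of `Γ` on the sheets, `τ̃` normalises `Γ` ⟹ `τ̃` commutes with `Γ`.
* `wallG`        : all together, Kummer conclusion: `σ (τ̃ y / y) = τ̃ y / y` for all `σ ∈ Γ`.
-/

set_option autoImplicit false

namespace Fermat.Agent.A2.H12

open scoped Classical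

section Val

variable {R : Type*} [CommRing R] {L : Type*} [Field L] [Algebra R L]

/-- The ideal of a chart `C` cut out by an additive subgroup `M` of `L` absorbing `C`. -/
def chartIdeal (C : Subalgebra R L) (M : AddSubgroup L) (habs : ∀ c ∈ C, ∀ a ∈ M, c * a ∈ M) :
    Ideal C where
  carrier := {c | (c : L) ∈ M}
  add_mem' := fun ha hb => M.add_mem ha hb
  zero_mem' := M.zero_mem
  smul_mem' := fun c a ha => habs c c.2 a ha

theorem mem_chartIdeal (C : Subalgebra R L) (M : AddSubgroup L)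
    (habs : ∀ c ∈ C, ∀ a ∈ M, c * a ∈ M) (c : C) :
    c ∈ chartIdeal C M habs ↔ (c : L) ∈ M := Iff.rfl

variable {S : Type*}

/-- Sheets `s`, `t` are separated in the chart `C` (comaximal there). -/
def SepAt (C : Subalgebra R L) (M : S → AddSubgroup L) (s t : S) : Prop :=
  ∃ a ∈ C, a ∈ M s ∧ ∃ b ∈ C, b ∈ M t ∧ a + b = 1

/-- Adjacency in the sheet graph: not separated in one of the two charts. -/
def SubAdj (Bfin Binf : Subalgebra R L) (M : S → AddSubgroup L) (s t : S) : Prop :=
  ¬ SepAt Bfin M s t ∨ ¬ SepAt Binf M s t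

private theorem exists_chart_idem_sub [Fintype S] (C : Subalgebra R L) (M : S → AddSubgroup L)
    (habs : ∀ s, ∀ c ∈ C, ∀ a ∈ M s, c * a ∈ M s) (col : S → Prop)
    (hsep : ∀ s t, col s → ¬ col t → SepAt C M s t) :
    ∃ e ∈ C, (∀ s, col s → 1 - e ∈ M s) ∧ (∀ t, ¬ col t → e ∈ M t) := by
  obtain ⟨e, he1, he2⟩ := exists_idem_of_partition (C := C)
    (fun s => chartIdeal C (M s) (habs s)) col (by
      intro s t hs ht
      obtain ⟨a, haC, haP, b, hbC, hbP, hab⟩ := hsep s t hs ht
      exact ⟨⟨a, haC⟩, haP, ⟨b, hbC⟩, hbP, Subtype.ext hab⟩)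
  refine ⟨e, e.2, ?_, ?_⟩
  · intro s hs
    have := he1 s hs
    rw [mem_chartIdeal] at this
    simpa using this
  · intro t ht
    exact he2 t ht

/-- **GRAPH-CONN, field form.** -/
theorem sheetGraph_connected_sub [Fintype S] (w : R) (Bfin Binf Bmid : Subalgebra R L)
    (M : S → AddSubgroup L)
    (habs : ∀ s, ∀ c ∈ Bmid, ∀ a ∈ M s, c * a ∈ M s)
    (hfm : Bfin ≤ Bmid) (him : Binf ≤ Bmid)
    (hM1 : ∀ s, (1 : L) ∉ M s) (hwM : ∀ s, algebraMap R L w ∈ M s)
    (hred_mid : ∀ b ∈ Bmid, (∀ s, b ∈ M s) → ∃ t ∈ Bmid, b = algebraMap R L w * t)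
    (hred_fin : ∀ b ∈ Bfin, (∀ s, b ∈ M s) → ∃ t ∈ Bfin, b = algebraMap R L w * t)
    (hred_inf : ∀ b ∈ Binf, (∀ s, b ∈ M s) → ∃ t ∈ Binf, b = algebraMap R L w * t)
    (hcech : ∀ e₁ e₂ : L, e₁ ∈ Bfin → e₂ ∈ Binf →
      (∃ t ∈ Bfin, e₁ ^ 2 - e₁ = algebraMap R L w * t) →
      (∃ t ∈ Binf, e₂ ^ 2 - e₂ = algebraMap R L w * t) →
      (∃ t ∈ Bmid, e₁ - e₂ = algebraMap R L w * t) →
      ((∃ t ∈ Bfin, e₁ = algebraMap R L w * t) ∧ (∃ t ∈ Binf, e₂ = algebraMap R L w * t)) ∨
      ((∃ t ∈ Bfin, 1 - e₁ = algebraMap R L w * t) ∧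
        (∃ t ∈ Binf, 1 - e₂ = algebraMap R L w * t)))
    (s₀ t₀ : S) : Relation.ReflTransGen (SubAdj Bfin Binf M) s₀ t₀ := by
  by_contra hcon
  set col : S → Prop := fun s => Relation.ReflTransGen (SubAdj Bfin Binf M) s₀ s with hcol
  have hs₀ : col s₀ := Relation.ReflTransGen.refl
  have ht₀ : ¬ col t₀ := hcon
  have hsep : ∀ s t, col s → ¬ col t → SepAt Bfin M s t ∧ SepAt Binf M s t := by
    intro s t hs ht
    by_contra h
    apply ht
    refine Relation.ReflTransGen.tail hs ?_
    rcases not_and_or.1 h with h | h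
    · exact Or.inl h
    · exact Or.inr h
  obtain ⟨e₁, he₁C, he₁a, he₁b⟩ := exists_chart_idem_sub Bfin M
    (fun s c hc => habs s c (hfm hc)) col (fun s t hs ht => (hsep s t hs ht).1)
  obtain ⟨e₂, he₂C, he₂a, he₂b⟩ := exists_chart_idem_sub Binf M
    (fun s c hc => habs s c (him hc)) col (fun s t hs ht => (hsep s t hs ht).2)
  -- `e (1 - e) ∈ M s` for every sheet
  have hidem : ∀ e ∈ Bmid, (∀ s, col s → 1 - e ∈ M s) → (∀ t, ¬ col t → e ∈ M t) →
      ∀ s, e ^ 2 - e ∈ M s := by
    intro e heB ha hb s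
    by_cases hs : col s
    · have h : e ^ 2 - e = -(e * (1 - e)) := by ring
      rw [h]
      exact (M s).neg_mem (habs s e heB _ (ha s hs))
    · have h : e ^ 2 - e = -((1 - e) * e) := by ring
      rw [h]
      exact (M s).neg_mem (habs s _ (Bmid.sub_mem Bmid.one_mem heB) _ (hb s hs))
  have h1 := hred_fin _ (Bfin.sub_mem (Bfin.pow_mem he₁C 2) he₁C)
    (hidem e₁ (hfm he₁C) he₁a he₁b)
  have h2 := hred_inf _ (Binf.sub_mem (Binf.pow_mem he₂C 2) he₂C)
    (hidem e₂ (him he₂C) he₂a he₂b)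
  have h12 : ∃ t ∈ Bmid, e₁ - e₂ = algebraMap R L w * t := by
    apply hred_mid _ (Bmid.sub_mem (hfm he₁C) (him he₂C))
    intro s
    by_cases hs : col s
    · have : e₁ - e₂ = (1 - e₂) - (1 - e₁) := by ring
      rw [this]
      exact (M s).sub_mem (he₂a s hs) (he₁a s hs)
    · exact (M s).sub_mem (he₁b s hs) (he₂b s hs)
  have hwmul : ∀ s, ∀ t ∈ Bfin, algebraMap R L w * t ∈ M s := by
    intro s t ht
    rw [mul_comm]
    exact habs s t (hfm ht) _ (hwM s)
  rcases hcech e₁ e₂ he₁C he₂C h1 h2 h12 with ⟨⟨t, htC, ht⟩, _⟩ | ⟨⟨t, htC, ht⟩, _⟩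
  · -- `e₁ ∈ (w)`, but `1 - e₁ ∈ M s₀`
    apply hM1 s₀
    have h3 : e₁ ∈ M s₀ := by rw [ht]; exact hwmul s₀ t htC
    have : (1 : L) = (1 - e₁) + e₁ := by ring
    rw [this]
    exact (M s₀).add_mem (he₁a s₀ hs₀) h3
  · apply hM1 t₀
    have h3 : 1 - e₁ ∈ M t₀ := by rw [ht]; exact hwmul t₀ t htC
    have : (1 : L) = (1 - e₁) + e₁ := by ring
    rw [this]
    exact (M t₀).add_mem h3 (he₁b t₀ ht₀)

/-- **Route G, step "τ̃ fixes every sheet".** -/
theorem wallG_fixes [Fintype S] (w : R) (Bfin Binf Bmid : Subalgebra R L)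
    (M : S → AddSubgroup L)
    (habs : ∀ s, ∀ c ∈ Bmid, ∀ a ∈ M s, c * a ∈ M s)
    (hfm : Bfin ≤ Bmid) (him : Binf ≤ Bmid)
    (hM1 : ∀ s, (1 : L) ∉ M s) (hwM : ∀ s, algebraMap R L w ∈ M s)
    (hred_mid : ∀ b ∈ Bmid, (∀ s, b ∈ M s) → ∃ t ∈ Bmid, b = algebraMap R L w * t)
    (hred_fin : ∀ b ∈ Bfin, (∀ s, b ∈ M s) → ∃ t ∈ Bfin, b = algebraMap R L w * t)
    (hred_inf : ∀ b ∈ Binf, (∀ s, b ∈ M s) → ∃ t ∈ Binf, b = algebraMap R L w * t)
    (hcech : ∀ e₁ e₂ : L, e₁ ∈ Bfin → e₂ ∈ Binf →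
      (∃ t ∈ Bfin, e₁ ^ 2 - e₁ = algebraMap R L w * t) →
      (∃ t ∈ Binf, e₂ ^ 2 - e₂ = algebraMap R L w * t) →
      (∃ t ∈ Bmid, e₁ - e₂ = algebraMap R L w * t) →
      ((∃ t ∈ Bfin, e₁ = algebraMap R L w * t) ∧ (∃ t ∈ Binf, e₂ = algebraMap R L w * t)) ∨
      ((∃ t ∈ Bfin, 1 - e₁ = algebraMap R L w * t) ∧
        (∃ t ∈ Binf, 1 - e₂ = algebraMap R L w * t)))
    (τ : L ≃+* L) (hτfin : ∀ b, b ∈ Bfin ↔ τ b ∈ Bfin) (hτinf : ∀ b, b ∈ Binf ↔ τ b ∈ Binf)
    (τS : S → S) (hτM : ∀ s b, b ∈ M s ↔ τ b ∈ M (τS s))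
    {C : Type*} (col : S → C) (h_col : ∀ s, col (τS s) = col s)
    (h_triv : ∀ s, τS s = s → ∀ b, b ∈ Bfin ∨ b ∈ Binf → τ b - b ∈ M s)
    (h_uni_fin : ∀ 𝔫 : Ideal Bfin, 𝔫.IsMaximal → ∀ s t, col s = col t →
      (∀ c : Bfin, (c : L) ∈ M s → c ∈ 𝔫) → (∀ c : Bfin, (c : L) ∈ M t → c ∈ 𝔫) → s = t)
    (h_uni_inf : ∀ 𝔫 : Ideal Binf, 𝔫.IsMaximal → ∀ s t, col s = col t →
      (∀ c : Binf, (c : L) ∈ M s → c ∈ 𝔫) → (∀ c : Binf, (c : L) ∈ M t → c ∈ 𝔫) → s = t)
    (s₀ : S) (h₀ : τS s₀ = s₀) : ∀ s, τS s = s := by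
  -- the restrictions of `τ⁻¹` to the two charts
  have hsymm_fin : ∀ b ∈ Bfin, (τ.symm : L →+* L) b ∈ Bfin := by
    intro b hb
    rw [hτfin]
    simpa using hb
  have hsymm_inf : ∀ b ∈ Binf, (τ.symm : L →+* L) b ∈ Binf := by
    intro b hb
    rw [hτinf]
    simpa using hb
  let ρ₁ : Bfin →+* Bfin := RingHom.restrict (τ.symm : L →+* L) Bfin Bfin hsymm_fin
  let ρ₂ : Binf →+* Binf := RingHom.restrict (τ.symm : L →+* L) Binf Binf hsymm_inf
  have hρ₁ : ∀ b : Bfin, ((ρ₁ b : Bfin) : L) = τ.symm (b : L) := fun b => rfl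
  have hρ₂ : ∀ b : Binf, ((ρ₂ b : Binf) : L) = τ.symm (b : L) := fun b => rfl
  have hsurj₁ : Function.Surjective ρ₁ := by
    intro b
    refine ⟨⟨τ (b : L), (hτfin _).1 b.2⟩, Subtype.ext ?_⟩
    rw [hρ₁]
    simp
  have hsurj₂ : Function.Surjective ρ₂ := by
    intro b
    refine ⟨⟨τ (b : L), (hτinf _).1 b.2⟩, Subtype.ext ?_⟩
    rw [hρ₂]
    simp
  refine fixes_all_two ρ₁ hsurj₁ ρ₂ hsurj₂
    (fun s => chartIdeal Bfin (M s) (fun c hc => habs s c (hfm hc)))
    (fun s => chartIdeal Binf (M s) (fun c hc => habs s c (him hc)))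
    τS col ?_ ?_ h_col ?_ ?_ ?_ ?_ ?_ s₀ h₀
  · intro s b hb
    rw [mem_chartIdeal] at hb ⊢
    rw [hρ₁, hτM s]
    simpa using hb
  · intro s b hb
    rw [mem_chartIdeal] at hb ⊢
    rw [hρ₂, hτM s]
    simpa using hb
  · intro s hs b
    rw [mem_chartIdeal]
    have h := h_triv s hs (τ.symm (b : L)) (Or.inl (hsymm_fin _ b.2))
    have h2 : ((ρ₁ b - b : Bfin) : L) = -(τ (τ.symm (b : L)) - τ.symm (b : L)) := by
      rw [Subalgebra.coe_sub, hρ₁]
      simp
    rw [h2]
    exact (M s).neg_mem h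
  · intro s hs b
    rw [mem_chartIdeal]
    have h := h_triv s hs (τ.symm (b : L)) (Or.inr (hsymm_inf _ b.2))
    have h2 : ((ρ₂ b - b : Binf) : L) = -(τ (τ.symm (b : L)) - τ.symm (b : L)) := by
      rw [Subalgebra.coe_sub, hρ₂]
      simp
    rw [h2]
    exact (M s).neg_mem h
  · intro 𝔫 h𝔫 s t hc hs ht
    exact h_uni_fin 𝔫 h𝔫 s t hc (fun c hcM => hs hcM) (fun c hcM => ht hcM)
  · intro 𝔫 h𝔫 s t hc hs ht
    exact h_uni_inf 𝔫 h𝔫 s t hc (fun c hcM => hs hcM) (fun c hcM => ht hcM)
  · intro s t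
    refine Relation.ReflTransGen.mono ?_ _ _
      (sheetGraph_connected_sub w Bfin Binf Bmid M habs hfm him hM1 hwM hred_mid hred_fin
        hred_inf hcech s t)
    rintro a b (h | h)
    · left
      rintro ⟨c, hc, d, hd, hcd⟩
      exact h ⟨c.1, c.2, hc, d.1, d.2, hd, congrArg Subtype.val hcd⟩
    · right
      rintro ⟨c, hc, d, hd, hcd⟩
      exact h ⟨c.1, c.2, hc, d.1, d.2, hd, congrArg Subtype.val hcd⟩

/-- **Route G, group part.**  `Γ` acts freely on the sheets, `τ̃` normalises `Γ` and fixes every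
sheet: then `τ̃` commutes with `Γ`. -/
theorem wallG_comm (M : S → AddSubgroup L) (τ : L ≃+* L)
    (hall : ∀ s b, b ∈ M s ↔ τ b ∈ M s)
    (Γ : Subgroup (L ≃+* L))
    (hΓM : ∀ σ ∈ Γ, ∀ s, ∃ s', ∀ b, b ∈ M s ↔ σ b ∈ M s')
    (hfree : ∀ σ ∈ Γ, ∀ s, (∀ b, b ∈ M s ↔ σ b ∈ M s) → σ = 1)
    (hnorm : ∀ σ ∈ Γ, τ * σ * τ⁻¹ ∈ Γ) (s₀ : S) :
    ∀ σ ∈ Γ, ∀ b, τ (σ b) = σ (τ b) := by
  intro σ hσ
  have hρ : σ⁻¹ * (τ * σ * τ⁻¹) ∈ Γ := Γ.mul_mem (Γ.inv_mem hσ) (hnorm σ hσ)
  obtain ⟨s', hs'⟩ := hΓM σ hσ s₀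
  have h1 : σ⁻¹ * (τ * σ * τ⁻¹) = 1 := by
    refine hfree _ hρ s₀ (fun b => ?_)
    have e1 : (σ⁻¹ * (τ * σ * τ⁻¹)) b = σ.symm (τ (σ (τ.symm b))) := rfl
    rw [e1]
    -- `b ∈ M s₀ ↔ τ⁻¹ b ∈ M s₀ ↔ σ τ⁻¹ b ∈ M s' ↔ τ σ τ⁻¹ b ∈ M s' ↔ σ⁻¹ τ σ τ⁻¹ b ∈ M s₀`
    have a1 : b ∈ M s₀ ↔ τ.symm b ∈ M s₀ := by
      rw [hall s₀ (τ.symm b)]
      simp
    have a2 : τ.symm b ∈ M s₀ ↔ σ (τ.symm b) ∈ M s' := hs' _
    have a3 : σ (τ.symm b) ∈ M s' ↔ τ (σ (τ.symm b)) ∈ M s' := hall s' _
    have a4 : σ.symm (τ (σ (τ.symm b))) ∈ M s₀ ↔ τ (σ (τ.symm b)) ∈ M s' := by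
      rw [hs' (σ.symm (τ (σ (τ.symm b))))]
      simp
    rw [a1, a2, a3, a4]
  have h2 : τ * σ * τ⁻¹ = σ := by
    have := congrArg (fun ρ => σ * ρ) h1
    simpa [mul_assoc] using this
  have h3 : τ * σ = σ * τ := by
    have := congrArg (fun ρ => ρ * τ) h2
    simpa [mul_assoc] using this
  intro b
  have := congrArg (fun ρ : L ≃+* L => ρ b) h3
  simpa using this

/-- **Route G: the WALL, field form.**  Under the hypotheses of `wallG_fixes` and `wallG_comm`,
for every Kummer generator `y` (each `σ ∈ Γ` multiplies `y` by a `τ̃`-fixed root of unity) the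
quotient `τ̃ y / y` is `Γ`-invariant. -/
theorem wallG [Fintype S] (w : R) (Bfin Binf Bmid : Subalgebra R L)
    (M : S → AddSubgroup L)
    (habs : ∀ s, ∀ c ∈ Bmid, ∀ a ∈ M s, c * a ∈ M s)
    (hfm : Bfin ≤ Bmid) (him : Binf ≤ Bmid)
    (hM1 : ∀ s, (1 : L) ∉ M s) (hwM : ∀ s, algebraMap R L w ∈ M s)
    (hred_mid : ∀ b ∈ Bmid, (∀ s, b ∈ M s) → ∃ t ∈ Bmid, b = algebraMap R L w * t)
    (hred_fin : ∀ b ∈ Bfin, (∀ s, b ∈ M s) → ∃ t ∈ Bfin, b = algebraMap R L w * t)
    (hred_inf : ∀ b ∈ Binf, (∀ s, b ∈ M s) → ∃ t ∈ Binf, b = algebraMap R L w * t)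
    (hcech : ∀ e₁ e₂ : L, e₁ ∈ Bfin → e₂ ∈ Binf →
      (∃ t ∈ Bfin, e₁ ^ 2 - e₁ = algebraMap R L w * t) →
      (∃ t ∈ Binf, e₂ ^ 2 - e₂ = algebraMap R L w * t) →
      (∃ t ∈ Bmid, e₁ - e₂ = algebraMap R L w * t) →
      ((∃ t ∈ Bfin, e₁ = algebraMap R L w * t) ∧ (∃ t ∈ Binf, e₂ = algebraMap R L w * t)) ∨
      ((∃ t ∈ Bfin, 1 - e₁ = algebraMap R L w * t) ∧
        (∃ t ∈ Binf, 1 - e₂ = algebraMap R L w * t)))
    (τ : L ≃+* L) (hτfin : ∀ b, b ∈ Bfin ↔ τ b ∈ Bfin) (hτinf : ∀ b, b ∈ Binf ↔ τ b ∈ Binf)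
    (hτM : ∀ s, ∃ s', ∀ b, b ∈ M s ↔ τ b ∈ M s')
    (hMinj : Function.Injective M)
    {C : Type*} (col : S → C)
    (h_col : ∀ s s', (∀ b, b ∈ M s ↔ τ b ∈ M s') → col s' = col s)
    (h_triv : ∀ s, (∀ b, b ∈ M s ↔ τ b ∈ M s) → ∀ b, b ∈ Bfin ∨ b ∈ Binf → τ b - b ∈ M s)
    (h_uni_fin : ∀ 𝔫 : Ideal Bfin, 𝔫.IsMaximal → ∀ s t, col s = col t →
      (∀ c : Bfin, (c : L) ∈ M s → c ∈ 𝔫) → (∀ c : Bfin, (c : L) ∈ M t → c ∈ 𝔫) → s = t)
    (h_uni_inf : ∀ 𝔫 : Ideal Binf, 𝔫.IsMaximal → ∀ s t, col s = col t →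
      (∀ c : Binf, (c : L) ∈ M s → c ∈ 𝔫) → (∀ c : Binf, (c : L) ∈ M t → c ∈ 𝔫) → s = t)
    (s₀ : S) (h₀ : ∀ b, b ∈ M s₀ ↔ τ b ∈ M s₀)
    (Γ : Subgroup (L ≃+* L))
    (hΓM : ∀ σ ∈ Γ, ∀ s, ∃ s', ∀ b, b ∈ M s ↔ σ b ∈ M s')
    (hfree : ∀ σ ∈ Γ, ∀ s, (∀ b, b ∈ M s ↔ σ b ∈ M s) → σ = 1)
    (hnorm : ∀ σ ∈ Γ, τ * σ * τ⁻¹ ∈ Γ)
    (y : L) (hy : y ≠ 0) (hζ : ∀ σ ∈ Γ, ∃ ζ : L, σ y = ζ * y ∧ τ ζ = ζ) :
    ∀ σ ∈ Γ, σ (τ y / y) = τ y / y := by
  choose τS hτS using hτM
  -- a sheet `s'` with `τ (M s) = M s'` is `τS s`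
  have huniq : ∀ s s', (∀ b, b ∈ M s ↔ τ b ∈ M s') → τS s = s' := by
    intro s s' h
    apply hMinj
    ext c
    have h1 := hτS s (τ.symm c)
    have h2 := h (τ.symm c)
    simp only [RingEquiv.apply_symm_apply] at h1 h2
    rw [← h1, h2]
  have hfix := wallG_fixes w Bfin Binf Bmid M habs hfm him hM1 hwM hred_mid hred_fin hred_inf
    hcech τ hτfin hτinf τS hτS col (fun s => h_col s (τS s) (hτS s))
    (fun s hs b hb => h_triv s (fun c => by
      have := hτS s c
      rwa [hs] at this) b hb)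
    h_uni_fin h_uni_inf s₀ (huniq s₀ s₀ h₀)
  have hall : ∀ s b, b ∈ M s ↔ τ b ∈ M s := by
    intro s b
    have := hτS s b
    rwa [hfix s] at this
  have hcomm := wallG_comm M τ hall Γ hΓM hfree hnorm s₀
  exact kummer_of_commute (Γ : Set (L ≃+* L)) τ y hy (fun g hg => hcomm g hg y)
    (fun g hg => hζ g hg)

end Val

end Fermat.Agent.A2.H12

end
-- ===== PACK-END A2/H12/WallG.lean

-- ===== PACK-BEGIN A2/H489/TwoExtD.lean
section


/-!
# A2 / M1-abs, part D (helper489): the theorem `TwoExt`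

`A` a discrete valuation ring with fraction field `K`, `L/K` finite separable,
`V₁ ≠ V₂` valuation subrings of `L` over `A`, with families `u₁ : Fin f₁ → V₁`,
`u₂ : Fin f₂ → V₂` whose residues are linearly independent over the residue field of `A`, and
`[L : K] ≤ f₁ + f₂`.  Then

* `twoExt_only`        : `V₁`, `V₂` are the only valuation subrings of `L` over `A`;
* `twoExt_uniformizer` : a uniformiser of `A` is a uniformiser of `V₁` and `V₂` (`e = 1`);
* `twoExt_integral`    : `x` is integral over `A` iff `x ∈ V₁ ∩ V₂`;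
* `twoExt_span`        : the residues of `u₁` (`u₂`) span the residue field of `V₁` (`V₂`).
-/

set_option autoImplicit false

namespace Fermat.Agent.A2.H489

open IsDedekindDomain IsLocalRing WithZero

section Val

variable {S F : Type*} [CommRing S] [IsDedekindDomain S] [Field F] [Algebra S F]
  [IsFractionRing S F]

theorem valuation_eq_exp_neg_one (v : HeightOneSpectrum S) {w : S} (hw : w ∈ v.asIdeal)
    (hw2 : w ∉ v.asIdeal ^ 2) : v.valuation F (algebraMap S F w) = exp (-1 : ℤ) := by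
  have hw0 : w ≠ 0 := by
    rintro rfl
    exact hw2 (Ideal.zero_mem _)
  rw [HeightOneSpectrum.valuation_of_algebraMap]
  have h1 : v.intValuation w < 1 := (v.intValuation_lt_one_iff_mem w).mpr hw
  have h2 : ¬ v.intValuation w ≤ exp (-((2 : ℕ) : ℤ)) := fun h =>
    hw2 ((v.intValuation_le_pow_iff_mem w 2).mp h)
  rw [v.intValuation_if_neg hw0] at h1 h2 ⊢
  rw [← exp_zero, exp_lt_exp] at h1
  rw [exp_le_exp] at h2
  congr 1
  push_cast at h2
  omega

theorem mul_inv_mem_of_lt_one (v : HeightOneSpectrum S) {w : S} (hw : w ∈ v.asIdeal)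
    (hw2 : w ∉ v.asIdeal ^ 2) {x : F} (hx : v.valuation F x < 1) :
    v.valuation F (x * (algebraMap S F w)⁻¹) ≤ 1 := by
  have hv := valuation_eq_exp_neg_one (F := F) v hw hw2
  rw [map_mul, map_inv₀, hv]
  have h1 : x = 0 ∨ x ≠ 0 := eq_or_ne x 0
  rcases h1 with rfl | hx0
  · simp
  have hne : v.valuation F x ≠ 0 := (Valuation.ne_zero_iff _).mpr hx0
  have h3 : v.valuation F x ≤ exp (-1 : ℤ) := by
    rw [← lt_mul_exp_iff_le (by simp)]
    rw [← exp_add]
    simpa using hx
  calc v.valuation F x * (exp (-1 : ℤ))⁻¹ ≤ exp (-1 : ℤ) * (exp (-1 : ℤ))⁻¹ :=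
        mul_le_mul_left h3 _
    _ = 1 := mul_inv_cancel₀ (by simp)

theorem mem_nonunits_valuationSubring_iff (v : HeightOneSpectrum S) (x : F) :
    x ∈ (v.valuation F).valuationSubring.nonunits ↔ v.valuation F x < 1 := by
  rw [ValuationSubring.mem_nonunits_iff_or]
  rcases eq_or_ne x 0 with rfl | hx
  · simp
  · have hne : v.valuation F x ≠ 0 := (Valuation.ne_zero_iff _).mpr hx
    rw [Valuation.mem_valuationSubring_iff, map_inv₀, not_le]
    constructor
    · rintro (h | h)
      · exact absurd h hx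
      · exact (one_lt_inv₀ (zero_lt_iff.mpr hne)).mp h
    · intro h
      exact Or.inr ((one_lt_inv₀ (zero_lt_iff.mpr hne)).mpr h)

end Val

section Main

variable (K : Type*) {A L : Type*} [CommRing A] [IsDomain A] [IsDiscreteValuationRing A]
  [Field K] [Algebra A K] [IsFractionRing A K]
  [Field L] [Algebra K L] [Algebra A L] [IsScalarTower A K L]
  [FiniteDimensional K L] [Algebra.IsSeparable K L]

/-- Hypotheses of `TwoExt`. -/
structure TwoExtHyp (K A : Type*) {L : Type*} [CommRing A] [IsDomain A]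
    [IsDiscreteValuationRing A] [Field K] [Algebra A K]
    [Field L] [Algebra K L] [Algebra A L]
    (V₁ V₂ : ValuationSubring L) {f₁ f₂ : ℕ} (u₁ : Fin f₁ → L) (u₂ : Fin f₂ → L) : Prop where
  over₁ : IsOver A V₁
  over₂ : IsOver A V₂
  ne : V₁ ≠ V₂
  deg : Module.finrank K L ≤ f₁ + f₂
  mem₁ : ∀ i, u₁ i ∈ V₁
  mem₂ : ∀ i, u₂ i ∈ V₂
  indep₁ : ∀ a : Fin f₁ → A, (∑ i, algebraMap A L (a i) * u₁ i) ∈ V₁.nonunits →
    ∀ i, a i ∈ maximalIdeal A
  indep₂ : ∀ a : Fin f₂ → A, (∑ i, algebraMap A L (a i) * u₂ i) ∈ V₂.nonunits →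
    ∀ i, a i ∈ maximalIdeal A

variable {K} {V₁ V₂ : ValuationSubring L} {f₁ f₂ : ℕ} {u₁ : Fin f₁ → L} {u₂ : Fin f₂ → L}

omit [IsFractionRing A K] [IsScalarTower A K L] [FiniteDimensional K L]
  [Algebra.IsSeparable K L] in
theorem TwoExtHyp.symm (h : TwoExtHyp K A V₁ V₂ u₁ u₂) : TwoExtHyp K A V₂ V₁ u₂ u₁ where
  over₁ := h.over₂
  over₂ := h.over₁
  ne := h.ne.symm
  deg := by have := h.deg; omega
  mem₁ := h.mem₂
  mem₂ := h.mem₁
  indep₁ := h.indep₂
  indep₂ := h.indep₁

theorem TwoExtHyp.core (h : TwoExtHyp K A V₁ V₂ u₁ u₂) :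
    (∀ P : Ideal (integralClosure A L), P.IsPrime → P.LiesOver (maximalIdeal A) →
        P = center V₁ h.over₁.mem_integralClosure ∨
        P = center V₂ h.over₂.mem_integralClosure) ∧
      Ideal.ramificationIdx' (maximalIdeal A) (center V₁ h.over₁.mem_integralClosure) = 1 ∧
      Ideal.ramificationIdx' (maximalIdeal A) (center V₂ h.over₂.mem_integralClosure) = 1 ∧
      Ideal.inertiaDeg' (maximalIdeal A) (center V₁ h.over₁.mem_integralClosure) = f₁ ∧
      Ideal.inertiaDeg' (maximalIdeal A) (center V₂ h.over₂.mem_integralClosure) = f₂ :=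
  twoExt_core K h.over₁ h.over₂ h.ne h.deg
    (h.over₁.le_inertiaDeg K u₁ h.mem₁ h.indep₁) (h.over₂.le_inertiaDeg K u₂ h.mem₂ h.indep₂)

/-- **TwoExt (1)**: `V₁` and `V₂` are the only valuation subrings of `L` over `A`. -/
theorem TwoExtHyp.only (h : TwoExtHyp K A V₁ V₂ u₁ u₂) {V : ValuationSubring L}
    (hV : IsOver A V) : V = V₁ ∨ V = V₂ := by
  have hD : IsDedekindDomain (integralClosure A L) := integralClosure.isDedekindDomain A K L
  have hFr : IsFractionRing (integralClosure A L) L :=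
    integralClosure.isFractionRing_of_finite_extension K L
  rcases h.core.1 (center V hV.mem_integralClosure) inferInstance hV.center_liesOver with h1 | h1
  · exact Or.inl (eq_of_center_eq V V₁ hV.mem_integralClosure h.over₁.mem_integralClosure
      (hV.ne_top K) (h.over₁.ne_top K) h1)
  · exact Or.inr (eq_of_center_eq V V₂ hV.mem_integralClosure h.over₂.mem_integralClosure
      (hV.ne_top K) (h.over₂.ne_top K) h1)

include K in
/-- `e = 1` in valuation form. -/
theorem IsOver.mul_inv_mem_of_ramificationIdx_eq_one {V : ValuationSubring L} (hV : IsOver A V)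
    (he : Ideal.ramificationIdx' (maximalIdeal A) (center V hV.mem_integralClosure) = 1)
    {w : A} (hw : Irreducible w) {x : L} (hx : x ∈ V.nonunits) :
    x * (algebraMap A L w)⁻¹ ∈ V := by
  have hD : IsDedekindDomain (integralClosure A L) := integralClosure.isDedekindDomain A K L
  have hFr : IsFractionRing (integralClosure A L) L :=
    integralClosure.isFractionRing_of_finite_extension K L
  have hne : V ≠ ⊤ := hV.ne_top K
  set v := centerSpec V hV.mem_integralClosure hne with hvdef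
  have hVv : V = (v.valuation L).valuationSubring :=
    eq_valuationSubring_centerSpec V hV.mem_integralClosure hne
  have hwmax : w ∈ maximalIdeal A := by
    rw [IsLocalRing.mem_maximalIdeal, _root_.mem_nonunits_iff]
    exact hw.not_isUnit
  have hw1 : algebraMap A (integralClosure A L) w ∈ v.asIdeal := by
    show algebraMap A (integralClosure A L) w ∈ center V hV.mem_integralClosure
    rw [mem_center_iff, ← IsScalarTower.algebraMap_apply]
    exact hV.nonunit w hwmax
  have hmap : Ideal.map (algebraMap A (integralClosure A L)) (maximalIdeal A)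
      = Ideal.span {algebraMap A (integralClosure A L) w} := by
    rw [hw.maximalIdeal_eq, Ideal.map_span, Set.image_singleton]
  have hle : Ideal.map (algebraMap A (integralClosure A L)) (maximalIdeal A)
      ≤ center V hV.mem_integralClosure := by
    rw [hmap, Ideal.span_singleton_le_iff_mem]
    exact hw1
  have hw2 : algebraMap A (integralClosure A L) w ∉ v.asIdeal ^ 2 := by
    intro hmem
    have h2 : Ideal.map (algebraMap A (integralClosure A L)) (maximalIdeal A)
        ≤ center V hV.mem_integralClosure ^ 2 := by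
      rw [hmap, Ideal.span_singleton_le_iff_mem]
      exact hmem
    exact ((Ideal.ramificationIdx'_ne_one_iff hle).mpr h2) he
  have hx' : v.valuation L x < 1 := by
    rw [← mem_nonunits_valuationSubring_iff, ← hVv]
    exact hx
  have key := mul_inv_mem_of_lt_one (F := L) v hw1 hw2 hx'
  rw [← IsScalarTower.algebraMap_apply] at key
  rw [hVv]
  exact key

/-- **TwoExt (2)**: a uniformiser of `A` is a uniformiser of `V₁`. -/
theorem TwoExtHyp.uniformizer₁ (h : TwoExtHyp K A V₁ V₂ u₁ u₂) {w : A} (hw : Irreducible w)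
    {x : L} (hx : x ∈ V₁.nonunits) : x * (algebraMap A L w)⁻¹ ∈ V₁ :=
  h.over₁.mul_inv_mem_of_ramificationIdx_eq_one (K := K) h.core.2.1 hw hx

/-- **TwoExt (2')**: a uniformiser of `A` is a uniformiser of `V₂`. -/
theorem TwoExtHyp.uniformizer₂ (h : TwoExtHyp K A V₁ V₂ u₁ u₂) {w : A} (hw : Irreducible w)
    {x : L} (hx : x ∈ V₂.nonunits) : x * (algebraMap A L w)⁻¹ ∈ V₂ :=
  h.over₂.mul_inv_mem_of_ramificationIdx_eq_one (K := K) h.core.2.2.1 hw hx

/-- **TwoExt (3)**: the integral closure of `A` in `L` is `V₁ ∩ V₂`. -/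
theorem TwoExtHyp.isIntegral_iff (h : TwoExtHyp K A V₁ V₂ u₁ u₂) (x : L) :
    IsIntegral A x ↔ x ∈ V₁ ∧ x ∈ V₂ := by
  constructor
  · intro hx
    exact ⟨h.over₁.integral_mem hx, h.over₂.integral_mem hx⟩
  · rintro ⟨hx₁, hx₂⟩
    have hD : IsDedekindDomain (integralClosure A L) := integralClosure.isDedekindDomain A K L
    have hFr : IsFractionRing (integralClosure A L) L :=
      integralClosure.isFractionRing_of_finite_extension K L
    have hint : Algebra.IsIntegral A (integralClosure A L) :=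
      IsIntegralClosure.isIntegral_algebra A L
    have key : ∀ v : HeightOneSpectrum (integralClosure A L), v.valuation L x ≤ 1 := by
      intro v
      have hmax : (v.asIdeal.comap (algebraMap A (integralClosure A L))).IsMaximal :=
        Ideal.isMaximal_comap_of_isIntegral_of_isMaximal v.asIdeal
      have hlo : v.asIdeal.LiesOver (maximalIdeal A) :=
        ⟨(IsLocalRing.eq_maximalIdeal hmax).symm⟩
      rcases h.core.1 v.asIdeal v.isPrime hlo with h1 | h1
      · have := eq_valuationSubring_of_center V₁ h.over₁.mem_integralClosure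
          (h.over₁.ne_top K) v h1
        rw [this] at hx₁
        exact hx₁
      · have := eq_valuationSubring_of_center V₂ h.over₂.mem_integralClosure
          (h.over₂.ne_top K) v h1
        rw [this] at hx₂
        exact hx₂
    obtain ⟨c, hc⟩ := HeightOneSpectrum.mem_integers_of_valuation_le_one L x key
    rw [← hc]
    exact c.2

include K in
/-- spanning of the residue field by an independent family of the right size -/
theorem IsOver.exists_sub_sum_mem_nonunits {V : ValuationSubring L} (hV : IsOver A V) {f : ℕ}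
    (hf : Ideal.inertiaDeg' (maximalIdeal A) (center V hV.mem_integralClosure) = f)
    (u : Fin f → L) (hu : ∀ i, u i ∈ V)
    (hind : ∀ a : Fin f → A, (∑ i, algebraMap A L (a i) * u i) ∈ V.nonunits →
      ∀ i, a i ∈ maximalIdeal A) {x : L} (hx : x ∈ V) :
    ∃ a : Fin f → A, x - ∑ i, algebraMap A L (a i) * u i ∈ V.nonunits := by
  have hlo := hV.center_liesOver
  have hfin : Module.Finite A (integralClosure A L) := IsIntegralClosure.finite A K L _
  rw [Ideal.inertiaDeg'_algebraMap] at hf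
  choose s hs using fun i => hV.exists_sub_mem_nonunits K (hu i)
  have hli := hV.linearIndependent_mk u s hs hind
  have hcard : Fintype.card (Fin f)
      = Module.finrank (A ⧸ maximalIdeal A)
          (integralClosure A L ⧸ center V hV.mem_integralClosure) := by
    rw [hf, Fintype.card_fin]
  let _ : Field (A ⧸ maximalIdeal A) := Ideal.Quotient.field (maximalIdeal A)
  have hspan := LinearIndependent.span_eq_top_of_card_eq_finrank' (K := A ⧸ maximalIdeal A)
    hli hcard
  obtain ⟨t, ht⟩ := hV.exists_sub_mem_nonunits K hx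
  have hmem : Ideal.Quotient.mk (center V hV.mem_integralClosure) t ∈
      Submodule.span (A ⧸ maximalIdeal A)
        (Set.range fun i => Ideal.Quotient.mk (center V hV.mem_integralClosure) (s i)) := by
    rw [hspan]
    exact Submodule.mem_top
  rw [Submodule.mem_span_range_iff_exists_fun] at hmem
  obtain ⟨c, hc⟩ := hmem
  choose a ha using fun i => Ideal.Quotient.mk_surjective (c i)
  refine ⟨a, ?_⟩
  have h1 : ∀ i, c i • Ideal.Quotient.mk (center V hV.mem_integralClosure) (s i)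
      = Ideal.Quotient.mk (center V hV.mem_integralClosure)
          (algebraMap A (integralClosure A L) (a i) * s i) := by
    intro i
    rw [Algebra.smul_def, ← ha i, Ideal.Quotient.algebraMap_mk_of_liesOver, map_mul]
  simp only [h1] at hc
  rw [← map_sum, Ideal.Quotient.eq, mem_center_iff] at hc
  have h2 : x - ∑ i, algebraMap A L (a i) * u i
      = (x - algebraMap (integralClosure A L) L t)
        - algebraMap (integralClosure A L) L
            (∑ i, algebraMap A (integralClosure A L) (a i) * s i - t)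
        - ∑ i, algebraMap A L (a i) * (u i - algebraMap (integralClosure A L) L (s i)) := by
    rw [map_sub, map_sum]
    have h3 : ∀ i, algebraMap (integralClosure A L) L
        (algebraMap A (integralClosure A L) (a i) * s i)
        = algebraMap A L (a i) * algebraMap (integralClosure A L) L (s i) := by
      intro i
      rw [map_mul, ← IsScalarTower.algebraMap_apply]
    simp only [h3, mul_sub, Finset.sum_sub_distrib]
    ring
  rw [h2]
  refine sub_mem (sub_mem ht hc) (sum_mem fun i _ => ?_)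
  exact mul_mem_nonunits (hV.mem _) (hs i)

/-- **TwoExt (4)**: the residues of `u₁` span the residue field of `V₁`. -/
theorem TwoExtHyp.span₁ (h : TwoExtHyp K A V₁ V₂ u₁ u₂) {x : L} (hx : x ∈ V₁) :
    ∃ a : Fin f₁ → A, x - ∑ i, algebraMap A L (a i) * u₁ i ∈ V₁.nonunits :=
  h.over₁.exists_sub_sum_mem_nonunits (K := K) h.core.2.2.2.1 u₁ h.mem₁ h.indep₁ hx

/-- **TwoExt (4')**: the residues of `u₂` span the residue field of `V₂`. -/
theorem TwoExtHyp.span₂ (h : TwoExtHyp K A V₁ V₂ u₁ u₂) {x : L} (hx : x ∈ V₂) :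
    ∃ a : Fin f₂ → A, x - ∑ i, algebraMap A L (a i) * u₂ i ∈ V₂.nonunits :=
  h.over₂.exists_sub_sum_mem_nonunits (K := K) h.core.2.2.2.2 u₂ h.mem₂ h.indep₂ hx

end Main

end Fermat.Agent.A2.H489

end
-- ===== PACK-END A2/H489/TwoExtD.lean

-- ===== PACK-BEGIN A2/Mod/H732/SepGauss.lean
section



/-!
# A2 / MOD, piece S4 (SepCoord producer), part 3 (helper732): integral basis with discriminant
prime to `ϖ`, in the `H48.GaussPair` framework

`R` factorial with prime `ϖ`, `R[X]` integrally closed, `K = Frac R[X]`, `F / K` finite,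
`GaussPair ϖ V₁ V₂ b c` (two extensions of the Gauss valuation, `e = 1`, residue degrees
`f₁ + f₂ = [F : K]`) with separable residue extensions (liftable elementwise form over `R[X]`).
Then there are `[F : K]` elements of `F`, integral over `R[X]`, `K`-linearly independent, whose
discriminant is `d(X)` with `d ∈ R[X]` not divisible by `ϖ`.

* `GaussPair.exists_mul_isIntegral` : elements of `V₁ ∩ V₂` are integral over `R[X]` up to a
  denominator prime to `ϖ`;
* `GaussPair.exists_integral_basis_discr` : the theorem.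
-/

set_option autoImplicit false
set_option linter.style.haveILetI false
set_option linter.unusedSectionVars false

noncomputable section

namespace Fermat.Agent.A2.Mod.H732

open Polynomial Fermat.Agent.A2.H48

variable {R : Type*} [CommRing R] [IsDomain R] [UniqueFactorizationMonoid R]
variable {K F : Type*} [Field K] [Field F] [Algebra R[X] K] [IsFractionRing R[X] K]
  [Algebra K F] [Algebra R[X] F] [IsScalarTower R[X] K F]
variable {ϖ : R} {V₁ V₂ : ValuationSubring F} {f₁ f₂ : ℕ} {b : Fin f₁ → F} {c : Fin f₂ → F}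

/-- Elements of `V₁ ∩ V₂` are integral over `R[X]` up to a denominator prime to `ϖ`. -/
theorem exists_mul_isIntegral [FiniteDimensional K F] (h : GaussPair (K := K) ϖ V₁ V₂ b c)
    {z : F} (hz₁ : z ∈ V₁) (hz₂ : z ∈ V₂) :
    ∃ g : R[X], ¬ C ϖ ∣ g ∧ IsIntegral R[X] (algebraMap R[X] F g * z) := by
  classical
  obtain ⟨p, hp, hpc, hpz⟩ := h.exists_monic_of_mem hz₁ hz₂
  have hex : ∀ i : ℕ, ∃ P Q : R[X], ¬ C ϖ ∣ Q ∧
      p.coeff i = algebraMap R[X] K P / algebraMap R[X] K Q := fun i =>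
    exists_div_of_mem_gaussRing h.prime h.unif₁ h.poly₁ h.gauss₁ (hpc i)
  choose P Q hQ hPQ using hex
  have hQ0 : ∀ i, algebraMap R[X] K (Q i) ≠ 0 := by
    intro i h0
    have := (IsFractionRing.injective R[X] K) (h0.trans (map_zero _).symm)
    exact hQ i (this ▸ dvd_zero _)
  set g : R[X] := ∏ i ∈ Finset.range p.natDegree, Q i with hg
  have hgϖ : ¬ C ϖ ∣ g := by
    rw [hg, (prime_C h.prime).dvd_finsetProd_iff]
    rintro ⟨i, -, hi⟩
    exact hQ i hi
  have hgcoef : ∀ i ∈ Finset.range p.natDegree,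
      p.coeff i * algebraMap R[X] K g ∈ Set.range (algebraMap R[X] K) := by
    intro i hi
    refine ⟨P i * ∏ j ∈ (Finset.range p.natDegree).erase i, Q j, ?_⟩
    rw [hg, ← Finset.mul_prod_erase _ _ hi, map_mul, map_mul, hPQ i]
    field_simp [hQ0 i]
  refine ⟨g, hgϖ, ?_⟩
  set q := p.scaleRoots (algebraMap R[X] K g) with hq
  have hqm : q.Monic := (monic_scaleRoots_iff _).2 hp
  have hqlift : q ∈ lifts (algebraMap R[X] K) := by
    rw [lifts_iff_coeff_lifts]
    intro i
    rw [hq, coeff_scaleRoots]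
    rcases lt_trichotomy i p.natDegree with hi | hi | hi
    · obtain ⟨r, hr⟩ : ∃ r, p.natDegree - i = r + 1 := ⟨p.natDegree - i - 1, by omega⟩
      obtain ⟨a, ha⟩ := hgcoef i (Finset.mem_range.2 hi)
      refine ⟨a * g ^ r, ?_⟩
      rw [map_mul, map_pow, ha, hr, pow_succ]
      ring
    · refine ⟨1, ?_⟩
      rw [hi, hp.coeff_natDegree, Nat.sub_self, pow_zero, mul_one, map_one]
    · refine ⟨0, ?_⟩
      rw [coeff_eq_zero_of_natDegree_lt hi, zero_mul, map_zero]
  obtain ⟨q', hq', -, hq'm⟩ := lifts_and_natDegree_eq_and_monic hqlift hqm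
  refine ⟨q', hq'm, ?_⟩
  have e : eval₂ (algebraMap R[X] F) (algebraMap R[X] F g * z) q' =
      aeval (algebraMap K F (algebraMap R[X] K g) * z) (q'.map (algebraMap R[X] K)) := by
    rw [aeval_def, eval₂_map, ← IsScalarTower.algebraMap_eq, map_eq]
  rw [e, hq', hq]
  exact scaleRoots_aeval_eq_zero hpz

/-- **Integral basis with discriminant prime to `ϖ`.** -/
theorem exists_integral_basis_discr [FiniteDimensional K F] [IsIntegrallyClosed R[X]]
    (h : GaussPair (K := K) ϖ V₁ V₂ b c)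
    (hs₁ : ∀ f : F, f ∈ V₁ → f ∈ V₂ → ∃ Q : R[X][X],
        V₁.valuation (Q.eval₂ (algebraMap R[X] F) f) < 1 ∧
        V₁.valuation ((derivative Q).eval₂ (algebraMap R[X] F) f) = 1)
    (hs₂ : ∀ f : F, f ∈ V₁ → f ∈ V₂ → ∃ Q : R[X][X],
        V₂.valuation (Q.eval₂ (algebraMap R[X] F) f) < 1 ∧
        V₂.valuation ((derivative Q).eval₂ (algebraMap R[X] F) f) = 1) :
    ∃ y : Fin (f₁ + f₂) → F, (∀ i, IsIntegral R[X] (y i)) ∧ LinearIndependent K y ∧
      ∃ d : R[X], ¬ C ϖ ∣ d ∧ algebraMap R[X] K d = Algebra.discr K y := by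
  classical
  have T := h.twoExt
  set O := gaussRing K V₁ with hOdef
  set ϖK := algebraMap R[X] K (C ϖ) with hϖK
  obtain ⟨m, hm⟩ := T.exists_good
  have hcard : Fintype.card (Fin f₁ ⊕ Fin f₂) = Module.finrank K F := by
    rw [Fintype.card_sum, Fintype.card_fin, Fintype.card_fin, h.card]
  haveI : Nonempty (Fin f₁ ⊕ Fin f₂) := by
    rw [← Fintype.card_pos_iff, hcard]; exact Module.finrank_pos
  -- polynomials over `R[X]` as polynomials over the Gauss ring
  let ψ : R[X] →+* O :=
    { toFun := fun P => ⟨algebraMap R[X] K P, by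
        rw [hOdef, mem_gaussRing, map_eq]; exact h.poly₁ P⟩
      map_one' := Subtype.ext (map_one _)
      map_mul' := fun P Q => Subtype.ext (map_mul _ P Q)
      map_zero' := Subtype.ext (map_zero _)
      map_add' := fun P Q => Subtype.ext (map_add _ P Q) }
  have hψ : ((algebraMap K F).comp O.subtype).comp ψ = algebraMap R[X] F := by
    ext P
    · show algebraMap K F (algebraMap R[X] K (C P)) = algebraMap R[X] F (C P)
      exact map_eq (C P)
    · show algebraMap K F (algebraMap R[X] K X) = algebraMap R[X] F X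
      exact map_eq X
  have hconv : ∀ (Q : R[X][X]) (f : F),
      (Q.map ψ).eval₂ ((algebraMap K F).comp O.subtype) f = Q.eval₂ (algebraMap R[X] F) f := by
    intro Q f
    rw [eval₂_map, hψ]
  have hs₁' : ∀ f : F, f ∈ V₁ → f ∈ V₂ → ∃ Q : Polynomial O,
      V₁.valuation (Q.eval₂ ((algebraMap K F).comp O.subtype) f) < 1 ∧
      V₁.valuation ((derivative Q).eval₂ ((algebraMap K F).comp O.subtype) f) = 1 := by
    intro f hf1 hf2
    obtain ⟨Q, hQ1, hQ2⟩ := hs₁ f hf1 hf2
    refine ⟨Q.map ψ, ?_, ?_⟩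
    · rw [hconv]; exact hQ1
    · rw [derivative_map, hconv]; exact hQ2
  have hs₂' : ∀ f : F, f ∈ V₁ → f ∈ V₂ → ∃ Q : Polynomial O,
      V₂.valuation (Q.eval₂ ((algebraMap K F).comp O.subtype) f) < 1 ∧
      V₂.valuation ((derivative Q).eval₂ ((algebraMap K F).comp O.subtype) f) = 1 := by
    intro f hf1 hf2
    obtain ⟨Q, hQ1, hQ2⟩ := hs₂ f hf1 hf2
    refine ⟨Q.map ψ, ?_, ?_⟩
    · rw [hconv]; exact hQ1
    · rw [derivative_map, hconv]; exact hQ2
  have hdm : O.valuation (Algebra.discr K m) = 1 :=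
    discr_unit_of_isGood T.unifO T.unif₁ T.unif₂ T.le₁ T.le₂ T.ne hm hcard hs₁' hs₂'
  -- clearing denominators
  have hex : ∀ l, ∃ g : R[X], ¬ C ϖ ∣ g ∧ IsIntegral R[X] (algebraMap R[X] F g * m l) :=
    fun l => exists_mul_isIntegral h (hm.1 l) (hm.2.1 l)
  choose g hgϖ hgint using hex
  set G : R[X] := ∏ l, g l with hG
  have hGϖ : ¬ C ϖ ∣ G := by
    rw [hG, (prime_C h.prime).dvd_finsetProd_iff]
    rintro ⟨l, -, hl⟩
    exact hgϖ l hl
  set GK : K := algebraMap R[X] K G with hGK
  have hGK0 : GK ≠ 0 := by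
    intro h0
    have := (IsFractionRing.injective R[X] K) (h0.trans (map_zero _).symm)
    exact hGϖ (this ▸ dvd_zero _)
  set y₀ : Fin f₁ ⊕ Fin f₂ → F := fun l => algebraMap R[X] F G * m l with hy₀
  have hy₀int : ∀ l, IsIntegral R[X] (y₀ l) := by
    intro l
    have e : y₀ l = algebraMap R[X] F (∏ l' ∈ Finset.univ.erase l, g l') *
        (algebraMap R[X] F (g l) * m l) := by
      rw [hy₀, hG, ← Finset.mul_prod_erase _ _ (Finset.mem_univ l), map_mul]
      ring
    rw [e]
    exact isIntegral_algebraMap.mul (hgint l)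
  have hy₀smul : ∀ l, y₀ l = GK • m l := by
    intro l
    rw [hy₀, Algebra.smul_def, hGK, map_eq]
  -- the discriminant of `y₀`
  have hdy₀ : Algebra.discr K y₀ = (GK ^ 2) ^ (f₁ + f₂) * Algebra.discr K m := by
    have hmat : Algebra.traceMatrix K y₀ = GK ^ 2 • Algebra.traceMatrix K m := by
      ext i j
      rw [Matrix.smul_apply, Algebra.traceMatrix_apply, Algebra.traceMatrix_apply,
        Algebra.traceForm_apply, Algebra.traceForm_apply, hy₀smul, hy₀smul, smul_mul_smul_comm,
        map_smul, pow_two]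
    rw [Algebra.discr_def, Algebra.discr_def, hmat, Matrix.det_smul, Fintype.card_sum,
      Fintype.card_fin, Fintype.card_fin]
  have hGKinv : O.valuation GK = 1 := by
    have h1 : GK ∈ O := by rw [hOdef, mem_gaussRing, hGK, map_eq]; exact h.poly₁ G
    have h2 : GK⁻¹ ∈ O := by
      rw [hOdef, mem_gaussRing, map_inv₀, hGK, map_eq]; exact h.gauss₁ G hGϖ
    have h3 : O.valuation GK ≤ 1 := (O.valuation_le_one_iff _).2 h1
    have h4 : O.valuation GK⁻¹ ≤ 1 := (O.valuation_le_one_iff _).2 h2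
    rw [map_inv₀] at h4
    have h5 : O.valuation GK ≠ 0 := (Valuation.ne_zero_iff _).2 hGK0
    have h6 : 1 ≤ O.valuation GK := (inv_le_one₀ (zero_lt_iff.2 h5)).1 h4
    exact le_antisymm h3 h6
  have hvy₀ : O.valuation (Algebra.discr K y₀) = 1 := by
    rw [hdy₀, map_mul, map_pow, map_pow, hGKinv, hdm, one_pow, one_pow, one_mul]
  have hli₀ : LinearIndependent K y₀ := by
    by_contra hcon
    rw [Algebra.discr_zero_of_not_linearIndependent K hcon, map_zero] at hvy₀
    exact zero_ne_one hvy₀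
  -- reindexing
  let B₀ : Module.Basis (Fin f₁ ⊕ Fin f₂) K F :=
    basisOfLinearIndependentOfCardEqFinrank hli₀ hcard
  have hB₀ : ⇑B₀ = y₀ := coe_basisOfLinearIndependentOfCardEqFinrank hli₀ hcard
  refine ⟨y₀ ∘ finSumFinEquiv.symm, fun i => hy₀int _, ?_, ?_⟩
  · exact hli₀.comp _ finSumFinEquiv.symm.injective
  · have hre : Algebra.discr K (y₀ ∘ finSumFinEquiv.symm) = Algebra.discr K y₀ := by
      have := Algebra.discr_reindex K B₀ finSumFinEquiv
      rwa [hB₀] at this
    obtain ⟨d, hd⟩ := (IsIntegrallyClosed.isIntegral_iff (R := R[X]) (K := K)).1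
      (Algebra.discr_isIntegral K hy₀int)
    refine ⟨d, ?_, ?_⟩
    · rintro ⟨d', rfl⟩
      rw [map_mul] at hd
      have h1 : O.valuation (algebraMap R[X] K (C ϖ) * algebraMap R[X] K d') = 1 := by
        rw [hd]; exact hvy₀
      rw [map_mul] at h1
      have h2 : O.valuation (algebraMap R[X] K (C ϖ)) < 1 := T.unifO.val_lt_one
      have h3 : O.valuation (algebraMap R[X] K d') ≤ 1 := by
        rw [O.valuation_le_one_iff, hOdef, mem_gaussRing, map_eq]
        exact h.poly₁ d'
      have h4 : O.valuation (algebraMap R[X] K (C ϖ)) * O.valuation (algebraMap R[X] K d') < 1 := by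
        calc O.valuation (algebraMap R[X] K (C ϖ)) * O.valuation (algebraMap R[X] K d')
            ≤ O.valuation (algebraMap R[X] K (C ϖ)) * 1 := mul_le_mul_right h3 _
          _ < 1 := by rw [mul_one]; exact h2
      rw [h1] at h4
      exact lt_irrefl _ h4
    · rw [hd, hre]

end Fermat.Agent.A2.Mod.H732

end
end
-- ===== PACK-END A2/Mod/H732/SepGauss.lean

-- ===== PACK-BEGIN Ribet/H819/PerFrame.lean
section




/-!
# Row 38, WALL-p, crux (I6), leaf INST-D: the Kummer frame of `PerCtx` (helper819)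

`c : PerCtx K`.  Both Kummer extensions `FcI = F₁(h) / F₁` (the cover at the TAME level) and
`L = F₂(h) / F₂` (the cover at the level of `x`) in the form consumed by
`H132.WildData` / `H704.CoreOut.CoverNode2Statement`:

* `isGalois_FcI`, `adjoin_hI : F₁⟮hI⟯ = ⊤`, `mem_zpowers_tauA` (`gen`);
* `finrank_L`, `finiteDimensional_L`, `isGalois_L`, `adjoin_hL : F₂⟮hL⟯ = ⊤`, `mem_zpowers_tau`,
  `tau_pow`;
* `upF : F₁` the constant `u ^ p`; `coe_tau_of_mem_Fc` (`tau = tauA` on the cover field);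
* **`period_FcI`** : PER with `f', G₂` as ELEMENTS of the cover field `FcI`:
  `f = lc f · f' · b ^ p` (in `K((t))`), `tauA f' = f' · u ^ p · G₂ ^ p`.
-/

set_option autoImplicit false
set_option linter.unusedSectionVars false
set_option linter.style.haveILetI false
set_option maxHeartbeats 400000

noncomputable section

namespace Fermat.Agent.Ribet.H819

open ModularCurve Polynomial

namespace PerCtx

variable {K : Type} [Field K] (c : PerCtx K)

/-! ### `FcI / F₁` -/

instance isGalois_FcI : IsGalois ↥c.F₁ ↥c.FcI :=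
  kummer_isGalois_h819 c.F₁ c.hp c.zC_isPrimitiveRoot c.zC_mem_F₁ c.hhp c.hhF

theorem adjoin_hI : IntermediateField.adjoin ↥c.F₁ ({c.hI} : Set ↥c.FcI) = ⊤ :=
  kummer_adjoin_gen_h819 c.F₁ c.hp c.hhp

theorem mem_zpowers_tauA (g : ↥c.FcI ≃ₐ[↥c.F₁] ↥c.FcI) : g ∈ Subgroup.zpowers c.tauA :=
  kummer_mem_zpowers_h819 c.F₁ c.hp c.zC_isPrimitiveRoot c.zC_mem_F₁ c.hhp c.hhF c.tauA
    c.coe_tauA_hI g

theorem hI_pow : c.hI ^ c.p = algebraMap ↥c.F₁ ↥c.FcI c.aF := Subtype.ext rfl

theorem hI_ne_zero : c.hI ≠ 0 := fun h0 => c.h_ne_zero (congrArg Subtype.val h0)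

/-! ### `L / F₂` -/

theorem finrank_L : Module.finrank ↥c.F₂ ↥c.L = c.p :=
  kummer_finrank_h819 c.F₂ c.hp c.zC_isPrimitiveRoot c.zC_mem_F₂ c.h_pow_mem_F₂ c.h_notMem_F₂

instance finiteDimensional_L : FiniteDimensional ↥c.F₂ ↥c.L :=
  kummer_finiteDimensional_h819 c.F₂ c.hp c.h_pow_mem_F₂

instance isGalois_L : IsGalois ↥c.F₂ ↥c.L :=
  kummer_isGalois_h819 c.F₂ c.hp c.zC_isPrimitiveRoot c.zC_mem_F₂ c.h_pow_mem_F₂ c.h_notMem_F₂

theorem adjoin_hL : IntermediateField.adjoin ↥c.F₂ ({c.hL} : Set ↥c.L) = ⊤ :=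
  kummer_adjoin_gen_h819 c.F₂ c.hp c.h_pow_mem_F₂

theorem mem_zpowers_tau (g : ↥c.L ≃ₐ[↥c.F₂] ↥c.L) : g ∈ Subgroup.zpowers c.tau :=
  kummer_mem_zpowers_h819 c.F₂ c.hp c.zC_isPrimitiveRoot c.zC_mem_F₂ c.h_pow_mem_F₂
    c.h_notMem_F₂ c.tau c.coe_tau_hL g

theorem tau_pow : c.tau ^ c.p = 1 :=
  kummer_pow_eq_one_h819 c.F₂ c.hp c.zC_isPrimitiveRoot c.zC_mem_F₂ c.h_pow_mem_F₂ c.tau
    c.coe_tau_hL

/-- `h ^ p` as an element of `F₂`. -/
def aF₂ : ↥c.F₂ := ⟨c.h ^ c.p, c.h_pow_mem_F₂⟩

theorem hL_pow : c.hL ^ c.p = algebraMap ↥c.F₂ ↥c.L c.aF₂ := Subtype.ext rfl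

/-! ### PER on the cover field -/

/-- The constant `u ^ p`, as an element of `F₁`. -/
def upF : ↥c.F₁ := ⟨c.uC ^ c.p, c.uC_pow_mem_F₁⟩

theorem coe_upF : ((c.upF : ↥c.F₁) : LaurentSeries K) = HahnSeries.C (c.u ^ c.p) := by
  show c.uC ^ c.p = _
  rw [uC, ← map_pow]

/-- `c.tau` and `c.tauA` agree on the cover field (element form). -/
theorem coe_tau_of_mem_Fc (z : ↥c.L) (hz : (z : LaurentSeries K) ∈ c.Fc) :
    ((c.tau z : ↥c.L) : LaurentSeries K) =
      ((c.tauA ⟨(z : LaurentSeries K), (c.mem_FcI_iff _).mpr hz⟩ : ↥c.FcI) : LaurentSeries K) :=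
  c.coe_tau_eq_tauA (z : LaurentSeries K) ((c.mem_FcI_iff _).mpr hz)

/-- **PER on the cover field.**  For a Kummer generator `f ∈ F₂ = F₁(u)` with
`σ f = f · c₀ · (h G) ^ p` (`G ∈ F₂`, `c₀` a constant): there are `f', G₂` in the cover field
`FcI = F₁(h)` over the TAME level and `b ∈ L` with `f = lc f · f' · b ^ p` (in `K((t))`) and
`tauA f' = f' · u ^ p · G₂ ^ p`. -/
theorem period_FcI (f G c₀ : ↥c.L) (hf0 : f ≠ 0) (hf : (f : LaurentSeries K) ∈ c.F₂)
    (hG : (G : LaurentSeries K) ∈ c.F₂) (hc₀ : c.lc c₀ = c₀)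
    (hσf : c.sigma f = f * c₀ * (c.hL * G) ^ c.p) :
    ∃ (f' G₂ : ↥c.FcI) (b : ↥c.L), f' ≠ 0 ∧ G₂ ≠ 0 ∧ b ≠ 0 ∧
      (f : LaurentSeries K) =
        ((c.lc f : ↥c.L) : LaurentSeries K) * (f' : LaurentSeries K) *
          (b : LaurentSeries K) ^ c.p ∧
      c.tauA f' = f' * algebraMap ↥c.F₁ ↥c.FcI c.upF * G₂ ^ c.p := by
  obtain ⟨f', b, G₂, hf'0, hb0, hG0, hf'c, hGc, hfeq, hτ⟩ := c.period f G c₀ hf0 hf hG hc₀ hσf
  refine ⟨⟨(f' : LaurentSeries K), (c.mem_FcI_iff _).mpr hf'c⟩,
    ⟨(G₂ : LaurentSeries K), (c.mem_FcI_iff _).mpr hGc⟩, b, ?_, ?_, hb0, ?_, ?_⟩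
  · intro h0
    apply hf'0
    apply Subtype.ext
    have := congrArg (fun z : ↥c.FcI => (z : LaurentSeries K)) h0
    simpa using this
  · intro h0
    apply hG0
    apply Subtype.ext
    have := congrArg (fun z : ↥c.FcI => (z : LaurentSeries K)) h0
    simpa using this
  · have := congrArg (fun z : ↥c.L => (z : LaurentSeries K)) hfeq
    simpa only [IntermediateField.coe_mul, IntermediateField.coe_pow] using this
  · apply Subtype.ext
    rw [← c.coe_tau_of_mem_Fc f' hf'c, hτ]
    simp only [IntermediateField.coe_mul, IntermediateField.coe_pow]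
    rfl

end PerCtx

end Fermat.Agent.Ribet.H819

end

end
-- ===== PACK-END Ribet/H819/PerFrame.lean

-- ===== PACK-BEGIN Ribet/H769/HorDescFE.lean
section



/-!
# RIBET row 38, CORE-OUT WILD, HOR-DESC: the concrete input `K₂ = K₁(E₂)` (helper769)

For fields `E₁ → E₂` of characteristic zero and ANY `Algebra` structure
`laurentBaseChange E₁ F₀ → laurentBaseChange E₂ F₀` which is coefficientwise
(`coeffMap` of the embedding `E₁ → E₂`), the upper field is generated over the lower one by the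
constants of `E₂`.  This is hypothesis `hK₂` of `horDesc_frame769` for
`K₁ = A2.Mod.FE E₁ N`, `K₂ = A2.Mod.FE E₂ N`.
-/

set_option autoImplicit false
set_option linter.unusedSectionVars false
set_option linter.style.haveILetI false

namespace Fermat.Agent.Ribet.H769

open ModularCurve

variable {E₁ E₂ : Type*} [Field E₁] [Algebra ℚ E₁] [Field E₂] [Algebra ℚ E₂]
  (F₀ : IntermediateField ℚ (LaurentSeries ℚ))

/-- `K₂ = K₁(constants of E₂)` for every coefficientwise level map. -/
theorem adjoin_const_laurentBaseChange769 (j : E₁ →+* E₂)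
    [Algebra (laurentBaseChange E₁ F₀) (laurentBaseChange E₂ F₀)]
    (hφ : ∀ f : laurentBaseChange E₁ F₀,
      ((algebraMap (laurentBaseChange E₁ F₀) (laurentBaseChange E₂ F₀) f :
        laurentBaseChange E₂ F₀) : LaurentSeries E₂) = coeffMap j (f : LaurentSeries E₁)) :
    IntermediateField.adjoin (laurentBaseChange E₁ F₀)
      (Set.range (algebraMap E₂ (laurentBaseChange E₂ F₀))) = ⊤ := by
  set T : IntermediateField (laurentBaseChange E₁ F₀) (laurentBaseChange E₂ F₀) :=
    IntermediateField.adjoin (laurentBaseChange E₁ F₀)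
      (Set.range (algebraMap E₂ (laurentBaseChange E₂ F₀))) with hT
  have hj : j.comp (algebraMap ℚ E₁) = algebraMap ℚ E₂ := Subsingleton.elim _ _
  -- the image of `T` in the Laurent series field
  set T' : Subfield (LaurentSeries E₂) :=
    T.toSubfield.map ((laurentBaseChange E₂ F₀).val : laurentBaseChange E₂ F₀ →+* _) with hT'
  have hle : Subfield.closure (Set.range (algebraMap E₂ (LaurentSeries E₂)) ∪
      (⇑(coeffEmb E₂) '' (F₀ : Set (LaurentSeries ℚ)))) ≤ T' := by
    rw [Subfield.closure_le]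
    rintro x (⟨e, rfl⟩ | ⟨g, hg, rfl⟩)
    · refine ⟨algebraMap E₂ (laurentBaseChange E₂ F₀) e, ?_, ?_⟩
      · exact IntermediateField.subset_adjoin _ _ ⟨e, rfl⟩
      · exact (IsScalarTower.algebraMap_apply E₂ (laurentBaseChange E₂ F₀)
          (LaurentSeries E₂) e).symm
    · refine ⟨algebraMap (laurentBaseChange E₁ F₀) (laurentBaseChange E₂ F₀)
        ⟨coeffEmb E₁ g, coeffEmb_mem_laurentBaseChange E₁ hg⟩, T.algebraMap_mem _, ?_⟩
      show ((algebraMap (laurentBaseChange E₁ F₀) (laurentBaseChange E₂ F₀)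
        ⟨coeffEmb E₁ g, coeffEmb_mem_laurentBaseChange E₁ hg⟩ : laurentBaseChange E₂ F₀) :
          LaurentSeries E₂) = coeffEmb E₂ g
      rw [hφ]
      show coeffMap j (coeffEmb E₁ g) = coeffEmb E₂ g
      rw [coeffEmb, coeffEmb, coeffMap_coeffMap, hj]
  refine top_unique (fun z _ => ?_)
  have hz : (z : LaurentSeries E₂) ∈ T' := hle (mem_laurentBaseChange_iff.mp z.2)
  obtain ⟨z', hz', hzz⟩ := hz
  have : z' = z := Subtype.ext hzz
  rw [← this]
  exact hz'

/-- Intermediate fields of an algebraic extension of `ℚ` are algebraic over `ℚ`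
(hypothesis `halgE₂` of `horDesc_frame769` for `E₂ : IntermediateField ℚ ℚ̄`). -/
theorem isAlgebraic_rat_intermediateField769 {K : Type*} [Field K] [Algebra ℚ K]
    [Algebra.IsAlgebraic ℚ K] (E : IntermediateField ℚ K) : Algebra.IsAlgebraic ℚ E := by
  refine ⟨fun x => ?_⟩
  have h := Algebra.IsAlgebraic.isAlgebraic (R := ℚ) (x : K)
  exact (isAlgebraic_algebraMap_iff (algebraMap E K).injective).mp h

end Fermat.Agent.Ribet.H769

end
-- ===== PACK-END Ribet/H769/HorDescFE.lean

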