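import Mathlib
import Mathlib.FieldTheory.IsAlgClosed.Basic
import Mathlib.Algebra.Polynomial.Reverse
import Fermat.Prelude.Def_AlgebraicCurve_Correspondence
import Fermat.Prelude.Def_ModularCurve_LaurentCoeff
import Fermat.Prelude.Thm_ModularCurve_coeffMap_qExpand
import Fermat.Agent.Pack.S44.G0E12L0
import Fermat.Agent.Pack.S44.G0E11L1
import Fermat.Agent.Pack.S44.G0E11L3
import Fermat.Agent.Pack.S44.G0E10L3
import Fermat.Agent.Pack.S44.G0E3L3
import Fermat.Agent.Pack.S44.G0E12L1
import Fermat.Agent.Pack.S44.G0E12L3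
import Fermat.Agent.Pack.S44.G0E6L2
import Fermat.Agent.Pack.S44.G0E5L1
import Fermat.Agent.Pack.S44.G0E12L2
import Fermat.Agent.Pack.S44.G0E5L0
import Fermat.Agent.Pack.S44.G0E4L3

-- ===== PACK-BEGIN S37/H159/MOrder.lean
section



/-!
# Theorem M, part 3: the order `T = ρ(O ∩ B_η)` of the special fibre
(row S37, piece R-b; seat helper159)

`B_η` = integral closure of `K[x]` in `F`, `B = O ∩ B_η`, `T = ρ(B) ⊆ F_k`.
`T` is a `k[X]`-subalgebra of `F_k`, integral over `k[X]`, with fraction field `F_k`, finite free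
of rank `n = [F_k : k(x̄)]` over `k[X]`.
-/

set_option autoImplicit false
set_option linter.unusedSectionVars false
set_option linter.style.haveILetI false

namespace Fermat.Agent.S37.H159

open Polynomial

namespace RedCtx

variable {K : Type*} [Field K] {A : ValuationSubring K} {k : Type*} [Field k]
  {F : Type*} [Field F] [Algebra K[X] F] {Fk : Type*} [Field Fk] [Algebra k[X] Fk]
  (G : RedCtx A k F Fk)

/-- `B = O ∩ B_η` as a subring of `O`. -/
noncomputable def Bsub : Subring G.O := (integralClosure K[X] F).toSubring.comap G.O.subtype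

theorem mem_Bsub (f : G.O) : f ∈ G.Bsub ↔ IsIntegral K[X] (f : F) := Iff.rfl

/-- the order `T = ρ(B)` of the special fibre -/
noncomputable def Tk : Subalgebra k[X] Fk :=
  { (G.Bsub.map G.ρ).toSubsemiring with
    algebraMap_mem' := fun p => by
      obtain ⟨P, rfl⟩ := Polynomial.map_surjective G.π G.π_surj p
      exact ⟨G.polyO P, (isIntegral_algebraMap : IsIntegral K[X] (algebraMap K[X] F _)),
        G.ρ_polyO P⟩ }

theorem mem_Tk (z : Fk) : z ∈ G.Tk ↔ ∃ f : G.O, IsIntegral K[X] (f : F) ∧ G.ρ f = z :=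
  Iff.rfl

theorem ρ_mem_Tk (f : G.O) (hf : IsIntegral K[X] (f : F)) : G.ρ f ∈ G.Tk := ⟨f, hf, rfl⟩

section Rational

variable (L₀ : Type*) [Field L₀] [Algebra K[X] L₀] [IsFractionRing K[X] L₀] [Algebra L₀ F]
  [IsScalarTower K[X] L₀ F] [FiniteDimensional L₀ F]
variable (L₀k : Type*) [Field L₀k] [Algebra k[X] L₀k] [IsFractionRing k[X] L₀k] [Algebra L₀k Fk]
  [IsScalarTower k[X] L₀k Fk] [FiniteDimensional L₀k Fk]

/-- `T` is contained in the integral closure of `k[x̄]`. -/
theorem Tk_le (hdeg : Module.finrank L₀ F = Module.finrank L₀k Fk) :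
    G.Tk ≤ integralClosure k[X] Fk := by
  rintro z ⟨f, hf, rfl⟩
  exact G.isIntegral_ρ L₀ L₀k hdeg f hf

theorem isIntegral_Tk (hdeg : Module.finrank L₀ F = Module.finrank L₀k Fk) :
    Algebra.IsIntegral k[X] G.Tk := by
  refine ⟨fun z => ?_⟩
  have h := G.Tk_le L₀ L₀k hdeg z.2
  exact (isIntegral_algebraMap_iff (A := G.Tk) (B := Fk) (R := k[X])
    Subtype.coe_injective).mp h

include L₀ L₀k in
/-- Every element of `F_k` is a quotient of two elements of `T`, the denominator being the
image of a nonzero polynomial. -/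
theorem exists_eq_div (z : Fk) :
    ∃ (t : G.Tk) (s : k[X]), s ≠ 0 ∧ z * algebraMap k[X] Fk s = t := by
  classical
  have hinj := algebraMap_injective_k (k := k) (Fk := Fk) L₀k
  obtain ⟨g, rfl⟩ := G.ρ_surj z
  have hgint : IsIntegral L₀ (g : F) := Algebra.IsIntegral.isIntegral _
  obtain ⟨⟨P, hPmem⟩, hP⟩ :=
    IsIntegral.exists_multiple_integral_of_isLocalization (nonZeroDivisors K[X]) (g : F) hgint
  have hP0 : P ≠ 0 := nonZeroDivisors.ne_zero hPmem
  have hP' : IsIntegral K[X] (algebraMap K[X] F P * (g : F)) := by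
    have : (⟨P, hPmem⟩ : nonZeroDivisors K[X]) • (g : F) = algebraMap K[X] F P * (g : F) := by
      rw [Submonoid.smul_def, Algebra.smul_def]
    rwa [this] at hP
  obtain ⟨lam, P₀, m, hlam, hm, hPeq⟩ := exists_primitive A P hP0
  have hne := G.map_π_ne_zero_of_coeff_eq_one P₀ m hm
  -- `P₀(x) * g` is integral over `K[x]`
  have hint : IsIntegral K[X] (algebraMap K[X] F (P₀.map A.subtype) * (g : F)) := by
    have h1 : algebraMap K[X] F (P₀.map A.subtype) * (g : F) =
        algebraMap K[X] F (C lam⁻¹) * (algebraMap K[X] F P * (g : F)) := by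
      rw [hPeq, map_mul, ← mul_assoc, ← mul_assoc, ← map_mul, ← C_mul, inv_mul_cancel₀ hlam,
        C_1, map_one, one_mul]
    rw [h1]
    exact isIntegral_algebraMap.mul hP'
  refine ⟨⟨G.ρ (G.polyO P₀ * g), G.ρ_mem_Tk _ hint⟩, P₀.map G.π, hne, ?_⟩
  show G.ρ g * algebraMap k[X] Fk (P₀.map G.π) = G.ρ (G.polyO P₀ * g)
  rw [map_mul, G.ρ_polyO, mul_comm]

instance instFaithfulSMul_Tk : FaithfulSMul G.Tk Fk :=
  (faithfulSMul_iff_algebraMap_injective _ _).mpr Subtype.coe_injective

include L₀ L₀k in
theorem isFractionRing_Tk : IsFractionRing G.Tk Fk := by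
  refine IsFractionRing.of_field (R := G.Tk) Fk fun z => ?_
  have hinj := algebraMap_injective_k (k := k) (Fk := Fk) L₀k
  obtain ⟨t, s, hs, hz⟩ := G.exists_eq_div L₀ L₀k z
  refine ⟨t, algebraMap k[X] G.Tk s, ?_⟩
  have hs' : algebraMap k[X] Fk s ≠ 0 := fun h0 => hs (hinj (by rw [h0, map_zero]))
  have e : algebraMap G.Tk Fk (algebraMap k[X] G.Tk s) = algebraMap k[X] Fk s := rfl
  rw [e, eq_div_iff hs', hz]
  rfl

variable [Algebra.IsSeparable L₀k Fk]

theorem finite_Tk (hdeg : Module.finrank L₀ F = Module.finrank L₀k Fk) :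
    Module.Finite k[X] G.Tk := by
  have hN : IsNoetherian k[X] (integralClosure k[X] Fk) :=
    IsIntegralClosure.isNoetherian k[X] L₀k Fk (integralClosure k[X] Fk)
  have hle := G.Tk_le L₀ L₀k hdeg
  exact Module.Finite.of_injective (Subalgebra.inclusion hle).toLinearMap
    (Subalgebra.inclusion_injective hle)

include L₀ in
theorem finrank_Tk : Module.finrank k[X] G.Tk = Module.finrank L₀k Fk := by
  haveI := G.isFractionRing_Tk L₀ L₀k
  exact (IsFractionRing.finrank_eq k[X] L₀k G.Tk Fk).symm

include L₀k in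
theorem algebraMap_Tk_injective : Function.Injective (algebraMap k[X] G.Tk) := by
  intro p q hpq
  apply algebraMap_injective_k (k := k) (Fk := Fk) L₀k
  exact congrArg (fun z : G.Tk => (z : Fk)) hpq

include L₀k in
theorem isTorsionFree_Tk : Module.IsTorsionFree k[X] G.Tk :=
  Module.isTorsionFree_iff_algebraMap_injective.mpr (G.algebraMap_Tk_injective L₀k)

/-- A `k[X]`-basis `b` of `T`, together with lifts `y i ∈ B` of the `b i` forming a residually
independent `K(x)`-basis of `F`, and the `k(x̄)`-basis `bk` of `F_k` underlying `b`. -/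
theorem exists_basis_Tk (hdeg : Module.finrank L₀ F = Module.finrank L₀k Fk) :
    ∃ (b : Module.Basis (Fin (Module.finrank L₀k Fk)) k[X] G.Tk)
      (y : Module.Basis (Fin (Module.finrank L₀k Fk)) L₀ F)
      (bk : Module.Basis (Fin (Module.finrank L₀k Fk)) L₀k Fk),
      (∀ i, IsIntegral K[X] (y i)) ∧ H217.ResidIndep (G.V₀ L₀) G.O y ∧
      (∀ i, bk i = (b i : Fk)) ∧ ∃ hyO : ∀ i, y i ∈ G.O, ∀ i, G.ρ ⟨y i, hyO i⟩ = (b i : Fk) := by
  classical
  set n := Module.finrank L₀k Fk with hn
  have hpos : 0 < n := Module.finrank_pos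
  have : Nonempty (Fin n) := ⟨⟨0, hpos⟩⟩
  haveI := G.finite_Tk L₀ L₀k hdeg
  haveI := G.isTorsionFree_Tk L₀k
  haveI : Module.Free k[X] G.Tk := inferInstance
  let b : Module.Basis (Fin n) k[X] G.Tk :=
    Module.finBasisOfFinrankEq k[X] G.Tk (G.finrank_Tk L₀ L₀k)
  -- lifts
  choose u hu using fun i => (G.mem_Tk (b i : Fk)).mp (b i).2
  let y : Fin n → F := fun i => (u i : F)
  have hy : ∀ i, y i ∈ G.O := fun i => (u i).2
  have hρ : ∀ i, G.ρ ⟨y i, hy i⟩ = (b i : Fk) := fun i => (hu i).2
  -- linear independence over `k(x̄)`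
  have hli0 : LinearIndependent k[X] (fun i => ((b i : G.Tk) : Fk)) := by
    have h1 := b.linearIndependent
    have h2 := h1.map' (IsScalarTower.toAlgHom k[X] G.Tk Fk).toLinearMap
      (LinearMap.ker_eq_bot.mpr Subtype.coe_injective)
    exact h2
  have hli : LinearIndependent L₀k (fun i => ((b i : G.Tk) : Fk)) :=
    (LinearIndependent.iff_fractionRing k[X] L₀k).mp hli0
  let bk : Module.Basis (Fin n) L₀k Fk :=
    basisOfLinearIndependentOfCardEqFinrank hli (by rw [Fintype.card_fin])
  have hbk : ∀ i, bk i = (b i : Fk) := fun i => by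
    show basisOfLinearIndependentOfCardEqFinrank hli _ i = _
    rw [coe_basisOfLinearIndependentOfCardEqFinrank]
  have hli' : LinearIndependent L₀k (fun i => G.ρ ⟨y i, hy i⟩) := by
    have : (fun i => G.ρ ⟨y i, hy i⟩) = fun i => ((b i : G.Tk) : Fk) := funext hρ
    rw [this]
    exact hli
  have hR := G.residIndep_of_linearIndependent L₀ L₀k y hy hli'
  obtain ⟨yb, hyb⟩ := H217.exists_basis_of_residIndep hR (by rw [Fintype.card_fin, hdeg])
  refine ⟨b, yb, bk, fun i => ?_, ?_, hbk, fun i => ?_, fun i => ?_⟩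
  · rw [hyb]; exact (hu i).1
  · rw [hyb]; exact hR
  · rw [hyb]; exact hy i
  · simp only [hyb]; exact hρ i

end Rational

end RedCtx

end Fermat.Agent.S37.H159

end
-- ===== PACK-END S37/H159/MOrder.lean

-- ===== PACK-BEGIN S24/H324/RatOrd.lean
section




/-!
# S24 / ALG (helper324) — orders of elements of `K(j)` at the places of `F`; the divisor of a
rational function on `ℙ¹` has degree zero

For `r ∈ K(j)`, `r ≠ 0` (`K` algebraically closed) there are integers `ν a` (`a : K`, almost all
zero) and `νinf` with `νinf + ∑ ν a = 0` such that for every place `v` of `F`: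
`v.ord r = ν a * v.ord (j - a)` if `v` lies over `a`, and `v.ord r = νinf * v.ord j⁻¹` if `v` is a
pole of `j`.
-/

set_option autoImplicit false

noncomputable section

open AlgebraicCurve Polynomial IntermediateField
open Fermat.Agent.S24.H117

namespace Fermat.Agent.S24.H324

variable {K F : Type*} [Field K] [Field F] [Algebra K F]

/-- Order of `P(j)` at a place over `j = a`. -/
theorem ord_aeval_at (v : Place K F) (j : F) (a : K)
    (hv : 0 < v.ord (j - algebraMap K F a)) (P : K[X]) (hP : P ≠ 0) :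
    aeval j P ≠ 0 ∧
      v.ord (aeval j P) = (P.rootMultiplicity a : ℤ) * v.ord (j - algebraMap K F a) := by
  have hcomp : P.comp (X + C a) ≠ 0 := fun h => hP (comp_X_add_C_eq_zero_iff.mp h)
  have h := ord_aeval_eq v hv (P.comp (X + C a)) hcomp
  have he : aeval (j - algebraMap K F a) (P.comp (X + C a)) = aeval j P := by
    rw [aeval_comp]
    congr 1
    simp
  rw [he, ← rootMultiplicity_eq_rootMultiplicity] at h
  exact h

/-- Order of `P(j)` at a pole of `j`. -/
theorem ord_aeval_at_inf (v : Place K F) (j : F) (hv : v.ord j < 0) (P : K[X]) (hP : P ≠ 0) :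
    aeval j P ≠ 0 ∧ v.ord (aeval j P) = (P.natDegree : ℤ) * v.ord j := by
  have hj0 : j ≠ 0 := ne_zero_of_ord_ne_zero v hv.ne
  have hinv : 0 < v.ord j⁻¹ := by rw [v.ord_inv]; omega
  letI : Invertible j := invertibleOfNonzero hj0
  have hrev := eval₂_reverse_mul_pow (algebraMap K F) j P
  rw [invOf_eq_inv] at hrev
  have hq : P.reverse.coeff 0 ≠ 0 := by
    rw [coeff_zero_reverse]
    exact leadingCoeff_ne_zero.mpr hP
  have hrev0 : P.reverse ≠ 0 := fun h => hq (by rw [h, coeff_zero])
  have h1 := ord_aeval_of_coeff_zero_ne v hinv P.reverse hq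
  have h2 := (ord_aeval_eq v hinv P.reverse hrev0).1
  have he : aeval j P = aeval j⁻¹ P.reverse * j ^ P.natDegree := hrev.symm
  refine ⟨?_, ?_⟩
  · rw [he]
    exact mul_ne_zero h2 (pow_ne_zero _ hj0)
  · rw [he, v.ord_mul h2 (pow_ne_zero _ hj0), h1, ord_pow, zero_add]

/-- Sum of the root multiplicities over any finite set containing the roots. -/
theorem sum_rootMultiplicity [IsAlgClosed K] [DecidableEq K] (P : K[X]) (T : Finset K)
    (hT : ∀ a ∈ P.roots, a ∈ T) :
    ∑ a ∈ T, (P.rootMultiplicity a : ℤ) = P.natDegree := by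
  have h := Multiset.sum_count_eq_card hT
  rw [IsAlgClosed.card_roots_eq_natDegree] at h
  simp only [count_roots] at h
  exact_mod_cast h

/-- **The divisor of a rational function on `ℙ¹`**, read on the places of `F`. -/
theorem exists_pointOrd [IsAlgClosed K] (j r : F) (hr : r ∈ K⟮j⟯) (hr0 : r ≠ 0) :
    ∃ (ν : K → ℤ) (νinf : ℤ) (T : Finset K), (∀ a, a ∉ T → ν a = 0) ∧
      νinf + ∑ a ∈ T, ν a = 0 ∧
      (∀ (v : Place K F) (a : K), 0 < v.ord (j - algebraMap K F a) →
        v.ord r = ν a * v.ord (j - algebraMap K F a)) ∧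
      (∀ v : Place K F, 0 < v.ord j⁻¹ → v.ord r = νinf * v.ord j⁻¹) := by
  classical
  obtain ⟨P, Q, rfl⟩ := (mem_adjoin_simple_iff K r).mp hr
  have hP0 : aeval j P ≠ 0 := fun h => hr0 (by rw [h, zero_div])
  have hQ0 : aeval j Q ≠ 0 := fun h => hr0 (by rw [h, div_zero])
  have hP : P ≠ 0 := fun h => hP0 (by rw [h, map_zero])
  have hQ : Q ≠ 0 := fun h => hQ0 (by rw [h, map_zero])
  refine ⟨fun a => (P.rootMultiplicity a : ℤ) - Q.rootMultiplicity a,
    (Q.natDegree : ℤ) - P.natDegree, P.roots.toFinset ∪ Q.roots.toFinset, ?_, ?_, ?_, ?_⟩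
  · intro a ha
    have haP : ¬ P.IsRoot a := fun h =>
      ha (Finset.mem_union_left _ (Multiset.mem_toFinset.mpr ((mem_roots hP).mpr h)))
    have haQ : ¬ Q.IsRoot a := fun h =>
      ha (Finset.mem_union_right _ (Multiset.mem_toFinset.mpr ((mem_roots hQ).mpr h)))
    simp only [rootMultiplicity_eq_zero haP, rootMultiplicity_eq_zero haQ]
    simp
  · rw [Finset.sum_sub_distrib,
      sum_rootMultiplicity P _ (fun a ha => Finset.mem_union_left _ (Multiset.mem_toFinset.mpr ha)),
      sum_rootMultiplicity Q _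
        (fun a ha => Finset.mem_union_right _ (Multiset.mem_toFinset.mpr ha))]
    ring
  · intro v a hv
    obtain ⟨-, h1⟩ := ord_aeval_at v j a hv P hP
    obtain ⟨-, h2⟩ := ord_aeval_at v j a hv Q hQ
    rw [ord_div v hP0 hQ0, h1, h2]
    ring
  · intro v hv
    have hj : v.ord j < 0 := by
      rw [v.ord_inv] at hv
      omega
    obtain ⟨-, h1⟩ := ord_aeval_at_inf v j hj P hP
    obtain ⟨-, h2⟩ := ord_aeval_at_inf v j hj Q hQ
    rw [ord_div v hP0 hQ0, h1, h2, v.ord_inv]
    ring

end Fermat.Agent.S24.H324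

end
end
-- ===== PACK-END S24/H324/RatOrd.lean

-- ===== PACK-BEGIN Lib/RR/H409/RiemannOf.lean
section


/-!
# RR library, layer L3.1: Riemann's theorem, with the pole bound (L2) as an explicit hypothesis

`exists_riemann_bound_of`: if for every `x` with `F` finite over `K(x)` the poles of `x`, counted
with multiplicity, number at most `[F : K(x)]`, then `deg D - ℓ(D)` is bounded above.
(Stichtenoth 1.4.17.)
-/

set_option autoImplicit false

noncomputable section

open AlgebraicCurve

namespace Fermat.Agent.Lib.RR.H409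

open Fermat.Agent.Lib.RR

variable {K F : Type*} [Field K] [Field F] [Algebra K F]

/-- The negative part `v ↦ max 0 (-(D v))` of a divisor. -/
def negPartDiv (D : Divisor K F) : Divisor K F :=
  Finsupp.mapRange (fun n : ℤ => max 0 (-n)) (by simp) D

@[simp] theorem negPartDiv_apply (D : Divisor K F) (v : Place K F) :
    negPartDiv D v = max 0 (-(D v)) := by
  simp [negPartDiv]

/-- The positive part `v ↦ max 0 (D v)` of a divisor. -/
def posPartDiv (D : Divisor K F) : Divisor K F :=
  Finsupp.mapRange (fun n : ℤ => max 0 n) (by simp) D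

@[simp] theorem posPartDiv_apply (D : Divisor K F) (v : Place K F) :
    posPartDiv D v = max 0 (D v) := by
  simp [posPartDiv]

theorem negPartDiv_nonneg (D : Divisor K F) : 0 ≤ negPartDiv D := by
  rw [Finsupp.le_def]; intro v; simp

theorem posPartDiv_nonneg (D : Divisor K F) : 0 ≤ posPartDiv D := by
  rw [Finsupp.le_def]; intro v; simp

theorem le_posPartDiv (D : Divisor K F) : D ≤ posPartDiv D := by
  rw [Finsupp.le_def]; intro v; simp

/-- The `K`-linear independence of the powers of a transcendental element. -/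
theorem linearIndependent_pow_of_transcendental {x : F} (hx : Transcendental K x) :
    LinearIndependent K (fun i : ℕ => x ^ i) := by
  have h1 := (Polynomial.basisMonomials K).linearIndependent.map'
    (Polynomial.aeval x).toLinearMap
    (LinearMap.ker_eq_bot.mpr (transcendental_iff_injective.mp hx))
  have h2 : (fun i : ℕ => x ^ i)
      = (Polynomial.aeval x).toLinearMap ∘ (Polynomial.basisMonomials K) := by
    ext i
    simp [Polynomial.coe_basisMonomials]
  rw [h2]
  exact h1

/-- Key independence: `x ^ i * u j` are `K`-linearly independent. -/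
theorem linearIndependent_pow_mul {x : F} (hx : Transcendental K x) {n : ℕ}
    (u : Fin n → F) (hu : LinearIndependent (IntermediateField.adjoin K {x}) u) (l : ℕ) :
    LinearIndependent K (fun p : Fin (l + 1) × Fin n => x ^ (p.1 : ℕ) * u p.2) := by
  let x' : IntermediateField.adjoin K {x} := IntermediateField.AdjoinSimple.gen K x
  have hx' : ∀ i : ℕ, ((x' ^ i : IntermediateField.adjoin K {x}) : F) = x ^ i := by
    intro i; simp [x']
  have hb : LinearIndependent K (fun i : Fin (l + 1) => x' ^ (i : ℕ)) := by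
    have h0 : LinearIndependent K (fun i : ℕ => x' ^ i) := by
      apply LinearIndependent.of_comp
        (IsScalarTower.toAlgHom K (IntermediateField.adjoin K {x}) F).toLinearMap
      have h3 := linearIndependent_pow_of_transcendental (K := K) hx
      have h4 : (⇑(IsScalarTower.toAlgHom K (IntermediateField.adjoin K {x}) F).toLinearMap ∘
          fun i : ℕ => x' ^ i) = fun i : ℕ => x ^ i := by
        ext i
        simp [x']
      rw [h4]
      exact h3
    exact h0.comp _ Fin.val_injective
  have h := linearIndependent_smul hb hu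
  have h5 : (fun p : Fin (l + 1) × Fin n => x ^ (p.1 : ℕ) * u p.2)
      = fun p : Fin (l + 1) × Fin n => x' ^ (p.1 : ℕ) • u p.2 := by
    ext p
    rw [IntermediateField.smul_def, smul_eq_mul, hx']
  rw [h5]
  exact h

section FF1

variable [hFF : FF1 K F]

/-- The pole divisor `(z)_∞` of a nonzero function. -/
def poleDiv (z : F) (hz : z ≠ 0) : Divisor K F := negPartDiv (divOf z hz)

theorem poleDiv_apply (z : F) (hz : z ≠ 0) (v : Place K F) :
    poleDiv z hz v = max 0 (-(v.ord z)) := by
  simp [poleDiv, divOf_apply]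

theorem poleDiv_nonneg (z : F) (hz : z ≠ 0) : 0 ≤ poleDiv (K := K) z hz := negPartDiv_nonneg _

theorem neg_poleDiv_le_ord (z : F) (hz : z ≠ 0) (v : Place K F) :
    -(poleDiv z hz v) ≤ v.ord z := by
  rw [poleDiv_apply]
  have := le_max_right 0 (-(v.ord z))
  omega

/-- The degree of the pole divisor, as the sum of the pole orders. -/
theorem degree_poleDiv_le (z : F) (hz : z ≠ 0) (n : ℤ)
    (h : ∀ S : Finset (Place K F), (∀ v ∈ S, v.ord z < 0) → ∑ v ∈ S, -v.ord z ≤ n) :
    Divisor.degree (poleDiv (K := K) z hz) ≤ n := by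
  rw [degree_eq_sum]
  have hS : ∀ v ∈ (poleDiv (K := K) z hz).support, v.ord z < 0 := by
    intro v hv
    rw [Finsupp.mem_support_iff, poleDiv_apply] at hv
    by_contra hcon
    apply hv
    rw [max_eq_left (by omega)]
  refine le_trans (le_of_eq ?_) (h _ hS)
  refine Finset.sum_congr rfl fun v hv => ?_
  have := hS v hv
  rw [poleDiv_apply, deg_eq_one v, max_eq_right (by omega)]
  simp

/-- Step 1: the `n (l + 1)` functions `x ^ i * u j` lie in `L(l B + C)`. -/
theorem le_ell_of_basis {x : F} (hx : Transcendental K x) {n : ℕ} (u : Fin n → F)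
    (hu : LinearIndependent (IntermediateField.adjoin K {x}) u)
    (B C : Divisor K F) (hB0 : 0 ≤ B) (hB : ∀ v : Place K F, -(B v) ≤ v.ord x)
    (hC : ∀ (j : Fin n) (v : Place K F), -(C v) ≤ v.ord (u j)) (l : ℕ) :
    n * (l + 1) ≤ ell (l • B + C) := by
  classical
  have hx0 : x ≠ 0 := fun h => hx (h ▸ isAlgebraic_zero)
  have hli := linearIndependent_pow_mul hx u hu l
  have hmem : ∀ p : Fin (l + 1) × Fin n,
      x ^ (p.1 : ℕ) * u p.2 ∈ riemannRochSpace (l • B + C) := by
    intro p
    rw [mem_L_iff]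
    intro v
    right
    rw [v.ord_mul (pow_ne_zero _ hx0) (hu.ne_zero p.2), ord_pow]
    have h1 := hB v
    have h2 := hC p.2 v
    have h3 : 0 ≤ B v := by simpa using Finsupp.le_def.mp hB0 v
    have h4 : ((p.1 : ℕ) : ℤ) ≤ (l : ℤ) := by exact_mod_cast Nat.lt_succ_iff.mp p.1.2
    have h5 : (0 : ℤ) ≤ ((p.1 : ℕ) : ℤ) := Nat.cast_nonneg _
    rw [Finsupp.add_apply, Finsupp.smul_apply, nsmul_eq_mul]
    nlinarith [mul_nonneg h5 (show (0 : ℤ) ≤ v.ord x + B v by omega),
      mul_nonneg (show (0 : ℤ) ≤ (l : ℤ) - ((p.1 : ℕ) : ℤ) by omega) h3]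
  have hspan : Submodule.span K
      (Set.range fun p : Fin (l + 1) × Fin n => x ^ (p.1 : ℕ) * u p.2)
        ≤ riemannRochSpace (l • B + C) :=
    Submodule.span_le.mpr (by rintro _ ⟨p, rfl⟩; exact hmem p)
  have h1 := Submodule.finrank_mono hspan
  rw [finrank_span_eq_card hli] at h1
  simpa [ell, Fintype.card_prod, mul_comm] using h1

/-- **Riemann's theorem**, with the pole bound (layer L2) as an explicit hypothesis. -/
theorem exists_riemann_bound_of
    (hL2 : ∀ (x : F) [FiniteDimensional (IntermediateField.adjoin K {x}) F]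
      (S : Finset (Place K F)), (∀ v ∈ S, v.ord x < 0) →
      ∑ v ∈ S, -v.ord x ≤ (Module.finrank (IntermediateField.adjoin K {x}) F : ℤ)) :
    ∃ γ : ℤ, ∀ D : Divisor K F, Divisor.degree D - ell D ≤ γ := by
  classical
  obtain ⟨x, hx, hfin⟩ := hFF.exists_finite
  have hfin' : FiniteDimensional (IntermediateField.adjoin K {x}) F := hfin
  have hx0 : x ≠ 0 := fun h => hx (h ▸ isAlgebraic_zero)
  obtain ⟨n, hn⟩ : ∃ n : ℕ, n = Module.finrank (IntermediateField.adjoin K {x}) F := ⟨_, rfl⟩
  have hnpos : 0 < n := hn ▸ Module.finrank_pos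
  let b := Module.finBasis (IntermediateField.adjoin K {x}) F
  have hu : LinearIndependent (IntermediateField.adjoin K {x}) (fun j => b j) :=
    b.linearIndependent
  let B : Divisor K F := poleDiv x hx0
  let C : Divisor K F := ∑ j, poleDiv (b j) (hu.ne_zero j)
  have hC0 : 0 ≤ C := Finset.sum_nonneg fun j _ => poleDiv_nonneg _ _
  have hC : ∀ (j : Fin (Module.finrank (IntermediateField.adjoin K {x}) F)) (v : Place K F),
      -(C v) ≤ v.ord (b j) := by
    intro j v
    have h1 : poleDiv (b j) (hu.ne_zero j) ≤ C :=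
      Finset.single_le_sum (f := fun j => poleDiv (K := K) (b j) (hu.ne_zero j))
        (fun i _ => poleDiv_nonneg _ _) (Finset.mem_univ j)
    have h2 := Finsupp.le_def.mp h1 v
    have h3 := neg_poleDiv_le_ord (K := K) (b j) (hu.ne_zero j) v
    omega
  have hdegB : Divisor.degree B ≤ n :=
    degree_poleDiv_le x hx0 n (fun S hS => hn ▸ hL2 x S hS)
  have key : ∀ l : ℕ, (n : ℤ) * (l + 1) - Divisor.degree C ≤ ell (l • B) := by
    intro l
    have h1 := le_ell_of_basis hx (fun j => b j) hu B C (poleDiv_nonneg _ _)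
      (neg_poleDiv_le_ord _ _) hC l
    have h2 := degree_sub_ell_mono (D := l • B) (D' := l • B + C) (le_add_of_nonneg_right hC0)
    rw [map_add] at h2
    have h3 : ((Module.finrank (IntermediateField.adjoin K {x}) F * (l + 1) : ℕ) : ℤ)
        ≤ ell (l • B + C) := by exact_mod_cast h1
    rw [← hn] at h3
    push_cast at h3
    linarith
  have keyB : ∀ l : ℕ, Divisor.degree (l • B) - ell (l • B) ≤ Divisor.degree C - n := by
    intro l
    have h1 := key l
    have h2 : Divisor.degree (l • B) = l * Divisor.degree B := by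
      rw [map_nsmul, nsmul_eq_mul]
    have h3 : (l : ℤ) * Divisor.degree B ≤ l * n :=
      mul_le_mul_of_nonneg_left hdegB (Nat.cast_nonneg l)
    rw [h2]
    linarith
  refine ⟨Divisor.degree C - n, fun A => ?_⟩
  have hA : Divisor.degree A - ell A
      ≤ Divisor.degree (posPartDiv A) - ell (posPartDiv A) :=
    degree_sub_ell_mono (le_posPartDiv A)
  obtain ⟨A₁, hA₁, hA₁0⟩ : ∃ A₁ : Divisor K F, A₁ = posPartDiv A ∧ 0 ≤ A₁ :=
    ⟨_, rfl, posPartDiv_nonneg A⟩
  rw [← hA₁] at hA
  refine hA.trans ?_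
  obtain ⟨l, hl⟩ : ∃ l : ℕ, l = (Divisor.degree C + Divisor.degree A₁).toNat := ⟨_, rfl⟩
  have hl1 : Divisor.degree C + Divisor.degree A₁ ≤ l := hl ▸ Int.self_le_toNat _
  have hpos : 0 < ell (l • B - A₁) := by
    have h1 := degree_sub_ell_mono (D := l • B - A₁) (D' := l • B)
      (sub_le_self _ hA₁0)
    rw [map_sub] at h1
    have h2 := key l
    have h3 : (l : ℤ) + 1 ≤ (n : ℤ) * (l + 1) := by
      have : (1 : ℤ) ≤ n := by exact_mod_cast hnpos
      nlinarith
    have h4 : (0 : ℤ) < ell (l • B - A₁) := by linarith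
    exact_mod_cast h4
  obtain ⟨⟨z, hzL⟩, hz⟩ := Module.finrank_pos_iff_exists_ne_zero.mp hpos
  have hz0 : z ≠ 0 := fun h => hz (Subtype.ext h)
  have hD' : A₁ + divOf z⁻¹ (inv_ne_zero hz0) ≤ l • B := by
    rw [Finsupp.le_def]
    intro v
    have h1 := (mem_L_iff.mp hzL v).resolve_left hz0
    rw [Finsupp.sub_apply, Finsupp.smul_apply, nsmul_eq_mul] at h1
    rw [Finsupp.add_apply, Finsupp.smul_apply, nsmul_eq_mul, divOf_apply, v.ord_inv]
    omega
  have h5 := degree_sub_ell_mono hD'
  rw [map_add, degree_divOf, add_zero, ell_add_divOf] at h5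
  exact h5.trans (keyB l)

end FF1

end Fermat.Agent.Lib.RR.H409

end
end
-- ===== PACK-END Lib/RR/H409/RiemannOf.lean

-- ===== PACK-BEGIN Lib/RR/H98/DegreeBoundCore.lean
section


/-!
# RR library, L3.2 (helper98): `ℓ(D) = deg D + 1 - g` for all divisors of large degree

Stichtenoth 1.4.17(b).  Take `D₀` attaining Riemann's bound (`exists_ell_eq`) and
`c := deg D₀ + g`.  If `deg D ≥ c`, Riemann's inequality gives `ℓ(D - D₀) ≥ 1`, so there is
`z ≠ 0` in `L(D - D₀)`; then `D₀ ≤ D + div z`, hence the bound is attained at `D + div z`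
(`ell_eq_of_le`), and `ℓ`, `deg` do not change when adding `div z`.

`ell_eq_of_degree_ge` is the hypothesis-explicit form (any `g` satisfying Riemann's inequality
and attained at some `D₀`); it only needs layer L1 (`Lib/RR/Basic`, on main).  The frozen skeleton
statement `exists_degree_bound` is deduced from it in `H98/DegreeBound.lean`.
-/

set_option autoImplicit false

noncomputable section

open AlgebraicCurve

namespace Fermat.Agent.Lib.RR.H98

open Fermat.Agent.Lib.RR

variable {K F : Type*} [Field K] [Field F] [Algebra K F]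

/-- A nonzero element of `L(D)` exists as soon as `ℓ(D) ≥ 1`. -/
theorem exists_ne_zero_mem_L_of_ell_pos {D : Divisor K F} (h : 0 < ell D) :
    ∃ z : F, z ≠ 0 ∧ z ∈ riemannRochSpace D := by
  have hne : riemannRochSpace D ≠ ⊥ := by
    intro hbot
    unfold ell at h
    rw [hbot, finrank_bot] at h
    exact lt_irrefl _ h
  obtain ⟨z, hz, hz0⟩ := Submodule.exists_mem_ne_zero_of_ne_bot hne
  exact ⟨z, hz0, hz⟩

/-- If `z ≠ 0` lies in `L(D - D₀)` then `D₀ ≤ D + div z`. -/
theorem le_add_divOf_of_mem_L [FF1 K F] {D D₀ : Divisor K F} {z : F}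
    (hz : z ≠ 0) (hmem : z ∈ riemannRochSpace (D - D₀)) : D₀ ≤ D + divOf (K := K) z hz := by
  rw [Finsupp.le_def]
  intro v
  rw [mem_L_iff] at hmem
  rcases hmem v with h0 | h
  · exact absurd h0 hz
  · have h1 : (D + divOf (K := K) z hz : Divisor K F) v = D v + v.ord z := by
      rw [Finsupp.add_apply, divOf_apply]
    have h2 : (D - D₀) v = D v - D₀ v := Finsupp.sub_apply (g₁ := D) (g₂ := D₀) (a := v)
    rw [h1]
    rw [h2] at h
    omega

/-- Hypothesis-explicit form of L3.2: if `g` satisfies Riemann's inequality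
`deg D + 1 - g ≤ ℓ(D)` for all `D`, and `D₀` attains it, then `ℓ(D) = deg D + 1 - g` for all `D`
with `deg D ≥ deg D₀ + g`. -/
theorem ell_eq_of_degree_ge [FF1 K F] (g : ℤ)
    (hR : ∀ D : Divisor K F, Divisor.degree D + 1 - g ≤ ell D)
    {D₀ : Divisor K F} (h₀ : (ell D₀ : ℤ) = Divisor.degree D₀ + 1 - g)
    {D : Divisor K F} (hD : Divisor.degree D₀ + g ≤ Divisor.degree D) :
    (ell D : ℤ) = Divisor.degree D + 1 - g := by
  -- `ℓ(D - D₀) ≥ 1`
  have h1 := hR (D - D₀)
  rw [map_sub] at h1
  have hpos : 0 < ell (D - D₀) := by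
    have : (0 : ℤ) < ell (D - D₀) := by omega
    exact_mod_cast this
  obtain ⟨z, hz, hmem⟩ := exists_ne_zero_mem_L_of_ell_pos hpos
  have hle : D₀ ≤ D + divOf z hz := le_add_divOf_of_mem_L hz hmem
  -- the bound is attained above `D₀`
  have h2 := degree_sub_ell_mono hle
  have h3 := hR (D + divOf z hz)
  rw [ell_add_divOf] at h2 h3
  rw [map_add, degree_divOf, add_zero] at h2 h3
  have h4 := hR D
  omega

end Fermat.Agent.Lib.RR.H98

end
end
-- ===== PACK-END Lib/RR/H98/DegreeBoundCore.lean

-- ===== PACK-BEGIN S37/H818/PushPull.lean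
section
/-
S37 / LEVEL TRANSFER (helper818), part 6: `i_* i^* = [G : F]` on divisors, from the norm formula
alone; consequences: `SumRamificationInertia`, `FundamentalIdentityAlong`, and
`π^* x = 0 → [G:F] • x = 0` on `Pic0`.
-/




set_option autoImplicit false
set_option linter.style.haveILetI false

noncomputable section

namespace Fermat.Agent.S37.H818

open AlgebraicCurve

variable {K F G : Type*} [Field K] [Field F] [Field G] [Algebra K F] [Algebra K G]

section

variable (i : F →ₐ[K] G) (hi : i.toRingHom.IsIntegral)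
variable [HasPrincipalDivisors K G]

/-- The defect of `i_* i^* = d`. -/
def ppDefect : Divisor K F →+ Divisor K F :=
  (Divisor.pushforwardAlong i hi).comp (Divisor.pullbackAlong i hi) -
    (finrankAlong K i : ℤ) • AddMonoidHom.id (Divisor K F)

theorem ppDefect_apply (D : Divisor K F) :
    ppDefect i hi D =
      Divisor.pushforwardAlong i hi (Divisor.pullbackAlong i hi D) - (finrankAlong K i : ℤ) • D :=
  rfl

theorem ppDefect_single_apply_of_ne (v : Place K F) (n : ℤ) (u : Place K F) (hu : u ≠ v) :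
    ppDefect i hi (Finsupp.single v n) u = 0 := by
  classical
  rw [ppDefect_apply, Finsupp.sub_apply, Finsupp.smul_apply, Finsupp.single_eq_of_ne hu,
    smul_zero, sub_zero, Divisor.pullbackAlong_single, map_sum, Finset.sum_apply']
  refine Finset.sum_eq_zero fun W hW => ?_
  rw [Divisor.pushforwardAlong_single]
  refine Finsupp.single_eq_of_ne ?_
  rw [Place.mem_fiberAlong.mp hW]
  exact hu

theorem ppDefect_principal (hfin : FiniteAlong K i) (hN : NormFormulaAlong K i hfin)
    {f : F} (hf : f ≠ 0) {D : Divisor K F} (hD : ∀ v, D v = v.ord f) :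
    ppDefect i hi D = 0 := by
  rw [ppDefect_apply, sub_eq_zero]
  ext u
  have hD' : ∀ W : Place K G, Divisor.pullbackAlong i hi D W = W.ord (i f) := by
    intro W
    letI := algebraAlong i
    haveI := isScalarTower_along i
    haveI := isIntegral_along i hi
    exact Divisor.pullback_apply_eq_ord (F' := G) hD W
  have h1 : Divisor.pushforwardAlong i hi (Divisor.pullbackAlong i hi D) u =
      u.ord (f ^ finrankAlong K i) := by
    letI := algebraAlong i
    haveI := isScalarTower_along i
    haveI := isIntegral_along i hi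
    haveI : Module.Finite F G := hfin
    have hf' : i f ≠ 0 := by simpa using hf
    have := hN (i f) hf' _ hD' u
    rw [show Divisor.pushforwardAlong i hi (Divisor.pullbackAlong i hi D) =
      Divisor.pushforward F (Divisor.pullbackAlong i hi D) from rfl, this]
    have hnorm : Algebra.norm F (i f) = f ^ Module.finrank F G :=
      Algebra.norm_algebraMap (S := G) f
    rw [hnorm]
    rfl
  rw [h1, Finsupp.smul_apply, hD, smul_eq_mul]
  have := u.ord_zpow f (finrankAlong K i : ℤ)
  rwa [zpow_natCast] at this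

variable [HasPrincipalDivisors K F]

/-- `i_* i^* = [G : F]` on divisors. -/
theorem pushforward_pullback_eq (hfin : FiniteAlong K i) (hN : NormFormulaAlong K i hfin)
    (D : Divisor K F) :
    Divisor.pushforwardAlong i hi (Divisor.pullbackAlong i hi D) = (finrankAlong K i : ℤ) • D := by
  classical
  rw [← sub_eq_zero, ← ppDefect_apply]
  set δ := ppDefect i hi with hδ
  suffices h : ∀ w : Place K F, δ (Finsupp.single w 1) = 0 by
    induction D using Finsupp.induction with
    | zero => simp
    | single_add w n D _ _ ih =>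
      rw [map_add, ih, add_zero]
      have : Finsupp.single w n = n • Finsupp.single w (1 : ℤ) := by
        rw [Finsupp.smul_single, smul_eq_mul, mul_one]
      rw [this, map_zsmul, h w, smul_zero]
  intro w₀
  ext u
  rw [Finsupp.zero_apply]
  by_cases hu : u = w₀
  swap
  · exact ppDefect_single_apply_of_ne i hi w₀ 1 u hu
  subst hu
  obtain ⟨f, hf0, hfu⟩ := exists_ord_eq_one u
  obtain ⟨D, hD, -⟩ := HasPrincipalDivisors.exists_divisor (K := K) f hf0
  have h0 : δ D = 0 := ppDefect_principal i hi hfin hN hf0 hD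
  have hsum : δ D u = ∑ w ∈ D.support, δ (Finsupp.single w (D w)) u := by
    conv_lhs => rw [← Finsupp.sum_single D]
    rw [Finsupp.sum, map_sum, Finset.sum_apply']
  have hu₀ : u ∈ D.support := by
    rw [Finsupp.mem_support_iff, hD, hfu]
    exact one_ne_zero
  rw [Finset.sum_eq_single_of_mem u hu₀ (fun w _ hw =>
    ppDefect_single_apply_of_ne i hi w (D w) u (Ne.symm hw)), h0, Finsupp.zero_apply, hD,
    hfu] at hsum
  exact hsum.symm

/-- The fundamental identity `∑ e f = n` follows from the norm formula. -/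
theorem fundamentalIdentityAlong_of_normFormula (hfin : FiniteAlong K i)
    (hN : NormFormulaAlong K i hfin) : FundamentalIdentityAlong K i hi := by
  classical
  letI := algebraAlong i
  haveI := isScalarTower_along i
  haveI := isIntegral_along i hi
  refine ⟨fun v => ?_⟩
  have h := congrArg Divisor.degree (pushforward_pullback_eq i hi hfin hN (Finsupp.single v 1))
  rw [Divisor.degree_pushforwardAlong, map_zsmul, Divisor.degree_single, one_mul,
    show Divisor.pullbackAlong i hi (Finsupp.single v 1) =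
      Divisor.pullback G (Finsupp.single v 1) from rfl,
    Divisor.pullback_single, map_sum] at h
  simp only [Divisor.degree_single, one_mul, smul_eq_mul] at h
  rw [h]
  rfl

/-- `π^* x = 0` implies `[G : F] • x = 0`. -/
theorem nsmul_eq_zero_of_pullbackPic0Along_eq_zero (hfin : FiniteAlong K i)
    (hN : NormFormulaAlong K i hfin) (hFI : FundamentalIdentityAlong K i hi)
    (x : Pic0 K F) (hx : pullbackPic0Along i hi hFI x = 0) :
    (finrankAlong K i) • x = 0 := by
  obtain ⟨D, rfl⟩ := Pic0.mk_surjective x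
  rw [pullbackPic0Along_mk] at hx
  have hprin : Divisor.IsPrincipal (Divisor.pullbackAlong i hi (D : Divisor K F)) := by
    have := (QuotientAddGroup.eq_zero_iff _).mp hx
    rw [AddSubgroup.mem_addSubgroupOf] at this
    exact this
  have hpush := Divisor.isPrincipal_pushforwardAlong i hi hfin hN hprin
  rw [pushforward_pullback_eq i hi hfin hN] at hpush
  have : (finrankAlong K i) • (Pic0.mk D) = Pic0.mk ((finrankAlong K i) • D) := rfl
  rw [this]
  refine (QuotientAddGroup.eq_zero_iff _).mpr ?_
  rw [AddSubgroup.mem_addSubgroupOf]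
  have hcoe : (((finrankAlong K i) • D : Divisor.degZero (K := K) (F := F)) : Divisor K F) =
      (finrankAlong K i : ℤ) • (D : Divisor K F) := by
    rw [AddSubgroupClass.coe_nsmul, natCast_zsmul]
  rw [hcoe]
  exact hpush

end

end Fermat.Agent.S37.H818

end

end
-- ===== PACK-END S37/H818/PushPull.lean

-- ===== PACK-BEGIN Lib/RR/H742/AdelesCore.lean
section


/-!
# RR library, layer L4 (core, hypothesis-explicit): repartitions and `H¹(D)`

Everything here depends only on layer L1 (`Basic.lean`).  The input from Riemann's theorem is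
taken as explicit hypotheses `hg` (Riemann's inequality with constant `g`) and `h₀` (the bound is
attained at `D₀`).
-/

set_option autoImplicit false

noncomputable section

open AlgebraicCurve

namespace Fermat.Agent.Lib.RR.H742

open Fermat.Agent.Lib.RR

variable {K F : Type*} [Field K] [Field F] [Algebra K F]

/-! ### L4.0 : repartitions = families with finitely many poles -/

theorem finite_poles [HasPrincipalDivisors K F] (f : F) :
    {v : Place K F | v.ord f < 0}.Finite := by
  rcases eq_or_ne f 0 with rfl | hf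
  · simp
  obtain ⟨D, hD, -⟩ := HasPrincipalDivisors.exists_divisor (K := K) f hf
  refine D.support.finite_toSet.subset fun v hv => ?_
  simp only [Set.mem_ofPred_eq] at hv
  rw [Finset.mem_coe, Finsupp.mem_support_iff, hD v]
  omega

theorem ord_add_nonneg (v : Place K F) {a b : F} (ha : 0 ≤ v.ord a) (hb : 0 ≤ v.ord b) :
    0 ≤ v.ord (a + b) :=
  ord_nonneg_of_mem v (add_mem (mem_of_ord_nonneg v ha) (mem_of_ord_nonneg v hb))

theorem ord_mul_nonneg (v : Place K F) {a b : F} (ha : 0 ≤ v.ord a) (hb : 0 ≤ v.ord b) :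
    0 ≤ v.ord (a * b) :=
  ord_nonneg_of_mem v (mul_mem (mem_of_ord_nonneg v ha) (mem_of_ord_nonneg v hb))

theorem finite_poles_of_mem_repartitions [HasPrincipalDivisors K F] {α : Place K F → F}
    (hα : α ∈ repartitions K F) : {v : Place K F | v.ord (α v) < 0}.Finite := by
  unfold repartitions at hα
  induction hα using Algebra.adjoin_induction with
  | mem x hx =>
    have : {v : Place K F | v.ord (x v) < 0} = {v : Place K F | ¬v.adicValuation (x v) ≤ 1} :=
      Set.ext fun v => (v.not_adicValuation_le_one_iff).symm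
    rw [this]; exact hx
  | algebraMap f => exact finite_poles f
  | add x y _ _ hx hy =>
    refine (hx.union hy).subset fun v hv => ?_
    simp only [Set.mem_ofPred_eq, Pi.add_apply, Set.mem_union] at hv ⊢
    by_contra hcon
    push Not at hcon
    have := ord_add_nonneg v hcon.1 hcon.2
    omega
  | mul x y _ _ hx hy =>
    refine (hx.union hy).subset fun v hv => ?_
    simp only [Set.mem_ofPred_eq, Pi.mul_apply, Set.mem_union] at hv ⊢
    by_contra hcon
    push Not at hcon
    have := ord_mul_nonneg v hcon.1 hcon.2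
    omega

/-- **L4.0** -/
theorem mem_repartitions_iff' [HasPrincipalDivisors K F] {α : Place K F → F} :
    α ∈ repartitions K F ↔ {v : Place K F | v.ord (α v) < 0}.Finite :=
  ⟨finite_poles_of_mem_repartitions, mem_repartitions_of_finite_ord⟩

/-! ### Single-place repartitions -/

/-- The repartition which is `x` at `v` and `0` elsewhere. -/
def single (v : Place K F) (x : F) : ↥(repartitions K F) :=
  ⟨fun w => by classical exact if w = v then x else 0,
    mem_repartitions_of_finite_ord <| (Set.finite_singleton v).subset fun w hw => by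
      classical
      simp only [Set.mem_ofPred_eq] at hw
      by_contra hne
      rw [Set.mem_singleton_iff] at hne
      simp [hne] at hw⟩

@[simp] theorem single_apply_self (v : Place K F) (x : F) :
    (single v x : Place K F → F) v = x := by
  simp [single]

theorem single_apply_of_ne {v w : Place K F} (h : w ≠ v) (x : F) :
    (single v x : Place K F → F) w = 0 := by
  simp [single, h]

/-- The principal repartition of `f`. -/
def iota (f : F) : ↥(repartitions K F) := algebraMap F ↥(repartitions K F) f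

@[simp] theorem iota_apply (f : F) (v : Place K F) :
    (iota (K := K) f : Place K F → F) v = f := rfl

theorem iota_mem_principal (f : F) : iota (K := K) f ∈ principalRepartitions K F :=
  mem_principalRepartitions_iff.mpr ⟨f, rfl⟩

theorem iota_mem_repartitionsOf_iff {D : Divisor K F} {f : F} :
    iota (K := K) f ∈ repartitionsOf D ↔ f ∈ riemannRochSpace D := by
  rw [mem_repartitionsOf_iff, mem_riemannRochSpace_iff]
  rfl

@[simp] theorem coe_smul_apply (c : K) (α : ↥(repartitions K F)) (v : Place K F) :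
    ((c • α : ↥(repartitions K F)) : Place K F → F) v =
      algebraMap K F c * (α : Place K F → F) v := by
  show c • ((α : Place K F → F) v) = _
  rw [Algebra.smul_def]

@[simp] theorem coe_sub_apply (α β : ↥(repartitions K F)) (v : Place K F) :
    ((α - β : ↥(repartitions K F)) : Place K F → F) v =
      (α : Place K F → F) v - (β : Place K F → F) v := rfl

@[simp] theorem coe_add_apply (α β : ↥(repartitions K F)) (v : Place K F) :
    ((α + β : ↥(repartitions K F)) : Place K F → F) v =
      (α : Place K F → F) v + (β : Place K F → F) v := rfl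

/-! ### One step -/

/-- One step for repartitions: `𝔸(D + P) ⊆ 𝔸(D) + K α₀` whenever `α₀` has order exactly
`-(D P + 1)` at `P`. -/
theorem repartitionsOf_add_prim_le (v : Place K F) (hv : v.deg = 1) (D : Divisor K F)
    {α₀ : ↥(repartitions K F)} (hα₀ : α₀ ∈ repartitionsOf (D + prim v))
    (h0 : (α₀ : Place K F → F) v ≠ 0) (hord : v.ord ((α₀ : Place K F → F) v) = -(D v + 1)) :
    repartitionsOf (D + prim v) ≤ repartitionsOf D ⊔ Submodule.span K {α₀} := by
  intro α hα
  have hg : 0 ≤ v.ord ((α : Place K F → F) v * ((α₀ : Place K F → F) v)⁻¹) := by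
    rcases eq_or_ne ((α : Place K F → F) v) 0 with h | h
    · simp [h]
    · have h1 := ((mem_repartitionsOf_iff.mp hα) v).resolve_left h
      simp only [Finsupp.coe_add, Pi.add_apply, prim_apply_self] at h1
      rw [v.ord_mul h (inv_ne_zero h0), v.ord_inv, hord]
      omega
  obtain ⟨c, hc⟩ := exists_const_sub v hv hg
  have hdecomp : α = (α - c • α₀) + c • α₀ := by abel
  rw [hdecomp]
  refine Submodule.add_mem _ (Submodule.mem_sup_left ?_)
    (Submodule.mem_sup_right (Submodule.smul_mem _ _ (Submodule.mem_span_singleton_self _)))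
  have hmem' : α - c • α₀ ∈ repartitionsOf (D + prim v) :=
    Submodule.sub_mem _ hα (Submodule.smul_mem _ _ hα₀)
  rw [mem_repartitionsOf_iff]
  intro w
  by_cases hw : w = v
  · subst hw
    have hfac : ((α - c • α₀ : ↥(repartitions K F)) : Place K F → F) w =
        ((α : Place K F → F) w * ((α₀ : Place K F → F) w)⁻¹ - algebraMap K F c) *
          (α₀ : Place K F → F) w := by
      rw [coe_sub_apply, coe_smul_apply]
      field_simp
    rcases hc with hc | hc
    · left; rw [hfac, hc, zero_mul]
    · rcases eq_or_ne (((α - c • α₀ : ↥(repartitions K F)) : Place K F → F) w) 0 with h0' | h0'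
      · exact Or.inl h0'
      right
      have hne : (α : Place K F → F) w * ((α₀ : Place K F → F) w)⁻¹ - algebraMap K F c ≠ 0 := by
        intro h; rw [hfac, h, zero_mul] at h0'; exact h0' rfl
      rw [hfac, w.ord_mul hne h0, hord]
      omega
  · have h2 := mem_repartitionsOf_iff.mp hmem' w
    simpa [prim_apply_of_ne hw] using h2

/-- A repartition in `𝔸(D + P)` of exact order `-(D P + 1)` at `P`. -/
theorem exists_alpha0 (v : Place K F) (D : Divisor K F) :
    ∃ α₀ : ↥(repartitions K F), α₀ ∈ repartitionsOf (D + prim v) ∧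
      (α₀ : Place K F → F) v ≠ 0 ∧ v.ord ((α₀ : Place K F → F) v) = -(D v + 1) := by
  obtain ⟨t, ht⟩ := exists_ord_eq_one v
  have ht0 : t ≠ 0 := ne_zero_of_ord_ne_zero v (by omega)
  refine ⟨single v (t ^ (-(D v + 1))), ?_, ?_, ?_⟩
  · rw [mem_repartitionsOf_iff]
    intro w
    by_cases hw : w = v
    · subst hw
      right
      rw [single_apply_self, w.ord_zpow, ht]
      simp
    · left; exact single_apply_of_ne hw _
  · rw [single_apply_self]; exact zpow_ne_zero _ ht0
  · rw [single_apply_self, v.ord_zpow, ht, mul_one]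

/-- `𝔸(D) + F`. -/
abbrev SS (D : Divisor K F) : Submodule K ↥(repartitions K F) :=
  repartitionsOf D ⊔ principalRepartitions K F

theorem SS_mono {D D' : Divisor K F} (h : D ≤ D') : SS D ≤ SS D' :=
  sup_le_sup_right (repartitionsOf_mono h) _

theorem not_mem_repartitionsOf_of_ord (v : Place K F) (D : Divisor K F)
    {α₀ : ↥(repartitions K F)} (h0 : (α₀ : Place K F → F) v ≠ 0)
    (hord : v.ord ((α₀ : Place K F → F) v) = -(D v + 1)) : α₀ ∉ repartitionsOf D := by
  intro h
  have := ((mem_repartitionsOf_iff.mp h) v).resolve_left h0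
  omega

theorem mem_SS_iff {D : Divisor K F} {α : ↥(repartitions K F)} :
    α ∈ SS D ↔ ∃ f : F, α - iota f ∈ repartitionsOf D := by
  constructor
  · intro h
    obtain ⟨β, hβ, γ, hγ, rfl⟩ := Submodule.mem_sup.mp h
    obtain ⟨f, hf⟩ := mem_principalRepartitions_iff.mp hγ
    refine ⟨f, ?_⟩
    have : γ = iota f := Subtype.ext hf
    rw [this, add_sub_cancel_right]
    exact hβ
  · rintro ⟨f, hf⟩
    have : α = (α - iota f) + iota f := by abel
    rw [this]
    exact Submodule.add_mem _ (Submodule.mem_sup_left hf)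
      (Submodule.mem_sup_right (iota_mem_principal f))

section FF1

variable [hFF : FF1 K F]

/-- Case A of the step: if `ℓ` jumps, `𝔸(D + P) + F = 𝔸(D) + F`. -/
theorem SS_add_prim_of_ell (D : Divisor K F) (v : Place K F)
    (h : ell (D + prim v) = ell D + 1) : SS (D + prim v) = SS D := by
  apply le_antisymm _ (SS_mono (le_add_of_nonneg_right (by simp [prim])))
  have hle : riemannRochSpace D ≤ riemannRochSpace (D + prim v) :=
    L_mono (le_add_of_nonneg_right (by simp [prim]))
  have hne : ¬ riemannRochSpace (D + prim v) ≤ riemannRochSpace D := by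
    intro hcon
    have := Submodule.finrank_mono hcon
    unfold ell at h
    omega
  obtain ⟨f, hf, hf'⟩ := SetLike.not_le_iff_exists.mp hne
  have hf0 : f ≠ 0 := fun h => hf' (h ▸ Submodule.zero_mem _)
  have hord : v.ord f = -(D v + 1) := by
    have h1 := (mem_L_iff.mp hf v).resolve_left hf0
    simp only [Finsupp.coe_add, Pi.add_apply, prim_apply_self] at h1
    by_contra hne'
    apply hf'
    rw [mem_L_iff]
    intro w
    right
    by_cases hw : w = v
    · subst hw; omega
    · have h2 := (mem_L_iff.mp hf w).resolve_left hf0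
      simpa [prim_apply_of_ne hw] using h2
  have hstep := repartitionsOf_add_prim_le v (deg_eq_one v) D
    (α₀ := iota f) (iota_mem_repartitionsOf_iff.mpr hf) (by simpa using hf0)
    (by simpa using hord)
  refine sup_le (hstep.trans (sup_le le_sup_left ?_)) le_sup_right
  rw [Submodule.span_singleton_le_iff_mem]
  exact Submodule.mem_sup_right (iota_mem_principal f)

/-- Case B of the step: if `ℓ` does not jump, `α₀ ∉ 𝔸(D) + F`. -/
theorem not_mem_SS_of_ell (D : Divisor K F) (v : Place K F)
    (h : ell (D + prim v) = ell D) {α₀ : ↥(repartitions K F)}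
    (hα₀ : α₀ ∈ repartitionsOf (D + prim v))
    (h0 : (α₀ : Place K F → F) v ≠ 0) (hord : v.ord ((α₀ : Place K F → F) v) = -(D v + 1)) :
    α₀ ∉ SS D := by
  intro hmem
  obtain ⟨f, hf⟩ := mem_SS_iff.mp hmem
  have hle : riemannRochSpace D ≤ riemannRochSpace (D + prim v) :=
    L_mono (le_add_of_nonneg_right (by simp [prim]))
  have heq : riemannRochSpace D = riemannRochSpace (D + prim v) :=
    Submodule.eq_of_le_of_finrank_eq hle h.symm
  have hf' : α₀ - iota f ∈ repartitionsOf (D + prim v) :=
    repartitionsOf_mono (le_add_of_nonneg_right (by simp [prim])) hf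
  have hif : iota (K := K) f ∈ repartitionsOf (D + prim v) := by
    have := Submodule.sub_mem _ hα₀ hf'
    rwa [sub_sub_cancel] at this
  have hfL : f ∈ riemannRochSpace D := by
    rw [heq]; exact iota_mem_repartitionsOf_iff.mp hif
  have : α₀ ∈ repartitionsOf D := by
    have := Submodule.add_mem _ hf (iota_mem_repartitionsOf_iff.mpr hfL)
    rwa [sub_add_cancel] at this
  exact not_mem_repartitionsOf_of_ord v D h0 hord this

theorem SS_add_prim_eq_sup (D : Divisor K F) (v : Place K F) {α₀ : ↥(repartitions K F)}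
    (hα₀ : α₀ ∈ repartitionsOf (D + prim v))
    (h0 : (α₀ : Place K F → F) v ≠ 0) (hord : v.ord ((α₀ : Place K F → F) v) = -(D v + 1)) :
    SS (D + prim v) = SS D ⊔ Submodule.span K {α₀} := by
  apply le_antisymm
  · refine sup_le ((repartitionsOf_add_prim_le v (deg_eq_one v) D hα₀ h0 hord).trans ?_) ?_
    · exact sup_le (le_sup_left.trans le_sup_left) le_sup_right
    · exact le_sup_right.trans le_sup_left
  · refine sup_le (SS_mono (le_add_of_nonneg_right (by simp [prim]))) ?_
    rw [Submodule.span_singleton_le_iff_mem]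
    exact Submodule.mem_sup_left hα₀

/-- Linear algebra: extending a complement by one vector. -/
theorem ext_step {A : Type*} [AddCommGroup A] [Module K A] (S W : Submodule K A)
    [Module.Finite K W] (hd : Disjoint S W) {a : A} (ha : a ∉ S ⊔ W) :
    Disjoint S (W ⊔ Submodule.span K {a}) ∧ Module.Finite K ↥(W ⊔ Submodule.span K {a}) ∧
      Module.finrank K ↥(W ⊔ Submodule.span K {a}) = Module.finrank K W + 1 := by
  have haW : a ∉ W := fun h => ha (Submodule.mem_sup_right h)
  have ha0 : a ≠ 0 := fun h => haW (h ▸ Submodule.zero_mem _)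
  refine ⟨?_, inferInstance, ?_⟩
  · rw [Submodule.disjoint_def]
    intro x hxS hx
    obtain ⟨w, hw, y, hy, rfl⟩ := Submodule.mem_sup.mp hx
    obtain ⟨c, rfl⟩ := Submodule.mem_span_singleton.mp hy
    by_cases hc : c = 0
    · subst hc
      rw [zero_smul, add_zero] at hxS ⊢
      exact (Submodule.disjoint_def.mp hd) w hxS hw
    · exfalso
      apply ha
      have : a = c⁻¹ • (w + c • a) + (-(c⁻¹ • w)) := by
        rw [smul_add, smul_smul, inv_mul_cancel₀ hc, one_smul]; abel
      rw [this]
      exact Submodule.add_mem _ (Submodule.mem_sup_left (Submodule.smul_mem _ _ hxS))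
        (Submodule.mem_sup_right (Submodule.neg_mem _ (Submodule.smul_mem _ _ hw)))
  · have h1 := Submodule.finrank_sup_add_finrank_inf_eq W (Submodule.span K {a})
    have h2 : W ⊓ Submodule.span K {a} = ⊥ := by
      rw [← disjoint_iff, Submodule.disjoint_span_singleton]
      intro h; exact absurd h haW
    rw [h2, finrank_bot, add_zero, finrank_span_singleton ha0] at h1
    exact h1

/-- For `D ≤ D'`, the space `𝔸(D') + F` is the direct sum of `𝔸(D) + F` and a finite-dimensional
space of dimension `(deg D' - ℓ(D')) - (deg D - ℓ(D))`. -/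
theorem exists_compl_of_le (D : Divisor K F) : ∀ D' : Divisor K F, D ≤ D' →
    ∃ W : Submodule K ↥(repartitions K F), Module.Finite K W ∧ Disjoint (SS D) W ∧
      SS D ⊔ W = SS D' ∧
      (Module.finrank K W : ℤ) =
        (Divisor.degree D' - ell D') - (Divisor.degree D - ell D) := by
  refine induction_ge D ?_ ?_
  · exact ⟨⊥, inferInstance, disjoint_bot_right, sup_bot_eq _, by simp⟩
  · rintro D'' v - ⟨W, hfin, hdisj, hsup, hrank⟩
    have h1 := ell_add_prim_le D'' v
    have h2 : ell D'' ≤ ell (D'' + prim v) :=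
      ell_mono (le_add_of_nonneg_right (by simp [prim]))
    have hdeg : Divisor.degree (D'' + prim v) = Divisor.degree D'' + 1 := by
      rw [map_add, degree_prim']
    by_cases hA : ell (D'' + prim v) = ell D'' + 1
    · refine ⟨W, hfin, hdisj, ?_, ?_⟩
      · rw [hsup, SS_add_prim_of_ell D'' v hA]
      · rw [hrank, hdeg, hA]; push_cast; ring
    · have hB : ell (D'' + prim v) = ell D'' := by omega
      obtain ⟨α₀, hα₀, h0, hord⟩ := exists_alpha0 v D''
      have hnot : α₀ ∉ SS D ⊔ W := by
        rw [hsup]; exact not_mem_SS_of_ell D'' v hB hα₀ h0 hord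
      obtain ⟨hd', hfin', hrank'⟩ := ext_step (SS D) W hdisj hnot
      refine ⟨W ⊔ Submodule.span K {α₀}, hfin', hd', ?_, ?_⟩
      · rw [← sup_assoc, hsup, SS_add_prim_eq_sup D'' v hα₀ h0 hord]
      · rw [hrank', hdeg, hB]; push_cast; rw [hrank]; ring

/-- Every repartition lies in some `𝔸(E)`. -/
theorem exists_mem_repartitionsOf (α : ↥(repartitions K F)) :
    ∃ E : Divisor K F, α ∈ repartitionsOf E := by
  classical
  have hfin := finite_poles_of_mem_repartitions α.2
  let E : Divisor K F := Finsupp.ofSupportFinite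
    (fun v => if v.ord ((α : Place K F → F) v) < 0 then -v.ord ((α : Place K F → F) v) else 0)
    (hfin.subset fun v hv => by
      simp only [Function.mem_support, ne_eq, ite_eq_right_iff, not_forall] at hv
      exact hv.1)
  refine ⟨E, mem_repartitionsOf_iff.mpr fun v => Or.inr ?_⟩
  show -(if v.ord ((α : Place K F → F) v) < 0 then -v.ord ((α : Place K F → F) v) else 0) ≤ _
  split_ifs with h
  · omega
  · omega

/-- If Riemann's bound is attained at `D₀` then `𝔸 = 𝔸(D₀) + F`. -/
theorem SS_eq_top_of_attained (g : ℤ)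
    (hg : ∀ D : Divisor K F, Divisor.degree D + 1 - g ≤ ell D) {D₀ : Divisor K F}
    (h₀ : (ell D₀ : ℤ) = Divisor.degree D₀ + 1 - g) : SS D₀ = ⊤ := by
  rw [eq_top_iff]
  intro α _
  obtain ⟨E, hE⟩ := exists_mem_repartitionsOf α
  obtain ⟨W, hfin, -, hsup, hrank⟩ := exists_compl_of_le D₀ (D₀ ⊔ E) le_sup_left
  have h1 := hg (D₀ ⊔ E)
  have h2 : Module.finrank K W = 0 := by omega
  have h3 : W = ⊥ := Submodule.finrank_eq_zero.mp h2
  rw [h3, sup_bot_eq] at hsup
  rw [hsup]
  exact Submodule.mem_sup_left (repartitionsOf_mono le_sup_right hE)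

/-- **L4.1 + L4.2, hypothesis-explicit**: `H¹(D)` is finite-dimensional and
`ℓ(D) - dim H¹(D) = deg D + 1 - g`, where `g` is the constant of Riemann's inequality,
attained at some `D₀`. -/
theorem H1_core (g : ℤ)
    (hg : ∀ D : Divisor K F, Divisor.degree D + 1 - g ≤ ell D) {D₀ : Divisor K F}
    (h₀ : (ell D₀ : ℤ) = Divisor.degree D₀ + 1 - g) (D : Divisor K F) :
    Module.Finite K (H1 D) ∧
      (ell D : ℤ) - Module.finrank K (H1 D) = Divisor.degree D + 1 - g := by
  have hmono := degree_sub_ell_mono (le_sup_right : D₀ ≤ D ⊔ D₀)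
  have h1 := hg (D ⊔ D₀)
  have hatt : (ell (D ⊔ D₀) : ℤ) = Divisor.degree (D ⊔ D₀) + 1 - g := by omega
  have htop := SS_eq_top_of_attained g hg hatt
  obtain ⟨W, hfin, hdisj, hsup, hrank⟩ := exists_compl_of_le D (D ⊔ D₀) le_sup_left
  rw [htop] at hsup
  have hcompl : IsCompl (SS D) W := ⟨hdisj, codisjoint_iff.mpr hsup⟩
  let e : (↥(repartitions K F) ⧸ SS D) ≃ₗ[K] W := Submodule.quotientEquivOfIsCompl _ _ hcompl
  have hfinH : Module.Finite K (H1 D) := Module.Finite.equiv e.symm
  refine ⟨hfinH, ?_⟩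
  have hr : Module.finrank K (H1 D) = Module.finrank K W := e.finrank_eq
  rw [hr, hrank]
  omega

end FF1

end Fermat.Agent.Lib.RR.H742

end
end
-- ===== PACK-END Lib/RR/H742/AdelesCore.lean

-- ===== PACK-BEGIN Lib/RR/H980/Adele.lean
section
/-
Shared library RR (Riemann–Roch for function fields), helper980:
the adelic layer in the language of the Prelude (`repartitions`, `repartitionsOf`, `H1`).
Sorry-free.
-/



set_option autoImplicit false

noncomputable section

namespace Fermat.Agent.Lib.RR.H980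

open AlgebraicCurve Module
open Fermat.Agent.Lib.RR

variable {K F : Type*} [Field K] [Field F] [Algebra K F]

/-! ### Uniformizers -/

/-- A chosen uniformizer at the place `v`. -/
def unif (v : Place K F) : F := (exists_ord_eq_one v).choose

lemma ord_unif (v : Place K F) : v.ord (unif v) = 1 :=
  (exists_ord_eq_one v).choose_spec

lemma unif_ne_zero (v : Place K F) : unif v ≠ 0 := by
  intro h
  have := ord_unif v
  rw [h, Place.ord_zero] at this
  exact zero_ne_one this

lemma ord_unif_zpow_mul (v : Place K F) (n : ℤ) {f : F} (hf : f ≠ 0) :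
    v.ord (unif v ^ n * f) = n + v.ord f := by
  rw [v.ord_mul (zpow_ne_zero _ (unif_ne_zero v)) hf, v.ord_zpow, ord_unif, mul_one]

/-! ### Elements of `repartitionsOf` -/

lemma val_apply_add (α β : ↥(repartitions K F)) (v : Place K F) :
    ((α + β : ↥(repartitions K F)) : Place K F → F) v =
      (α : Place K F → F) v + (β : Place K F → F) v := rfl

lemma val_apply_smul (c : K) (α : ↥(repartitions K F)) (v : Place K F) :
    ((c • α : ↥(repartitions K F)) : Place K F → F) v =
      algebraMap K F c * (α : Place K F → F) v := by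
  show (c • (α : Place K F → F)) v = _
  rw [Pi.smul_apply, Algebra.smul_def]

lemma ord_ge_of_mem {D : Divisor K F} {α : ↥(repartitions K F)} (h : α ∈ repartitionsOf D)
    (v : Place K F) (hne : (α : Place K F → F) v ≠ 0) :
    -D v ≤ v.ord ((α : Place K F → F) v) :=
  ((mem_repartitionsOf_iff.mp h) v).resolve_left hne

/-! ### The step `A(D) ⊆ A(D + v)` -/

/-- `D + v`. -/
def addPt (D : Divisor K F) (v : Place K F) : Divisor K F := D + prim v

lemma addPt_def (D : Divisor K F) (v : Place K F) : addPt D v = D + prim v := rfl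

lemma addPt_apply_self (D : Divisor K F) (v : Place K F) : addPt D v v = D v + 1 := by
  simp [addPt, prim]

lemma addPt_apply_of_ne (D : Divisor K F) {v w : Place K F} (h : w ≠ v) :
    addPt D v w = D w := by
  simp [addPt, prim, Ne.symm h]

lemma le_addPt (D : Divisor K F) (v : Place K F) : D ≤ addPt D v := by
  rw [Finsupp.le_def]
  intro w
  by_cases h : w = v
  · subst h; rw [addPt_apply_self]; omega
  · rw [addPt_apply_of_ne D h]

lemma repartitionsOf_le_addPt (D : Divisor K F) (v : Place K F) :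
    repartitionsOf D ≤ repartitionsOf (addPt D v) :=
  repartitionsOf_mono (le_addPt D v)

lemma degree_addPt (D : Divisor K F) (v : Place K F) :
    Divisor.degree (addPt D v) = Divisor.degree D + v.deg := by
  rw [addPt, prim, map_add, Divisor.degree_single, one_mul]

/-- The twisted value `π ^ (D v + 1) * α v` is integral at `v` for `α ∈ A(D + v)`. -/
lemma twist_mem (D : Divisor K F) (v : Place K F) {α : ↥(repartitions K F)}
    (h : α ∈ repartitionsOf (addPt D v)) :
    unif v ^ (D v + 1) * (α : Place K F → F) v ∈ v.toValuationSubring := by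
  by_cases hne : (α : Place K F → F) v = 0
  · rw [hne, mul_zero]; exact zero_mem _
  · apply mem_of_ord_nonneg
    rw [ord_unif_zpow_mul v _ hne]
    have := ord_ge_of_mem h v hne
    rw [addPt_apply_self] at this
    omega

/-- The residue map `A(D + v) → k(v)`, `α ↦ (π ^ (D v + 1) * α v) mod 𝔪_v`. -/
def resMap (D : Divisor K F) (v : Place K F) :
    ↥(repartitionsOf (addPt D v)) →ₗ[K] v.ResidueField where
  toFun α := IsLocalRing.residue _
    (⟨unif v ^ (D v + 1) * ((α : ↥(repartitions K F)) : Place K F → F) v,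
      twist_mem D v α.2⟩ : v.toValuationSubring)
  map_add' α β := by
    rw [← map_add]
    congr 1
    apply Subtype.ext
    show unif v ^ (D v + 1) * (((α + β : ↥(repartitionsOf (addPt D v))) : ↥(repartitions K F)) :
      Place K F → F) v = _
    rw [Submodule.coe_add, val_apply_add, mul_add]
    rfl
  map_smul' c α := by
    rw [RingHom.id_apply, Algebra.smul_def,
      IsScalarTower.algebraMap_apply K v.toValuationSubring v.ResidueField]
    show _ = IsLocalRing.residue _ _ * IsLocalRing.residue _ _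
    rw [← map_mul]
    congr 1
    apply Subtype.ext
    show unif v ^ (D v + 1) * (((c • α : ↥(repartitionsOf (addPt D v))) : ↥(repartitions K F)) :
      Place K F → F) v = _
    rw [Submodule.coe_smul, val_apply_smul]
    show _ = algebraMap K F c * (unif v ^ (D v + 1) * _)
    ring

lemma resMap_apply (D : Divisor K F) (v : Place K F) (α : ↥(repartitionsOf (addPt D v))) :
    resMap D v α = IsLocalRing.residue _
      (⟨unif v ^ (D v + 1) * ((α : ↥(repartitions K F)) : Place K F → F) v,
        twist_mem D v α.2⟩ : v.toValuationSubring) := rfl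

lemma mem_maximalIdeal_mk_iff (v : Place K F) {x : F} (hx : x ∈ v.toValuationSubring) :
    (⟨x, hx⟩ : v.toValuationSubring) ∈ IsLocalRing.maximalIdeal v.toValuationSubring ↔
      x = 0 ∨ 0 < v.ord x :=
  Fermat.Agent.Lib.RR.mem_maximalIdeal_iff v ⟨x, hx⟩

lemma ker_resMap (D : Divisor K F) (v : Place K F) :
    LinearMap.ker (resMap D v) =
      (repartitionsOf D).submoduleOf (repartitionsOf (addPt D v)) := by
  ext α
  rw [LinearMap.mem_ker, resMap_apply, IsLocalRing.residue_eq_zero_iff,
    mem_maximalIdeal_mk_iff, mem_submoduleOf_iff, mem_repartitionsOf_iff]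
  have hα := mem_repartitionsOf_iff.mp α.2
  constructor
  · intro h w
    by_cases hw : w = v
    · subst hw
      by_cases hne : ((α : ↥(repartitions K F)) : Place K F → F) w = 0
      · exact Or.inl hne
      · right
        rcases h with h | h
        · exact absurd h (mul_ne_zero (zpow_ne_zero _ (unif_ne_zero w)) hne)
        · rw [ord_unif_zpow_mul w _ hne] at h
          omega
    · have := hα w
      rw [addPt_apply_of_ne D hw] at this
      exact this
  · intro h
    by_cases hne : ((α : ↥(repartitions K F)) : Place K F → F) v = 0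
    · left; rw [hne, mul_zero]
    · right
      rw [ord_unif_zpow_mul v _ hne]
      have := (h v).resolve_left hne
      omega

open Classical in
/-- The repartition supported at the single place `v` with value `x`. -/
def singleRep (v : Place K F) (x : F) : ↥(repartitions K F) :=
  ⟨Pi.single v x, mem_repartitions_of_finite_ord (by
    refine (Set.finite_singleton v).subset fun w hw => ?_
    by_contra hne
    have hne' : w ≠ v := hne
    simp only [Set.mem_ofPred_eq, Pi.single_apply, hne', if_false, Place.ord_zero,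
      lt_self_iff_false] at hw)⟩

lemma singleRep_apply_self (v : Place K F) (x : F) :
    ((singleRep v x : ↥(repartitions K F)) : Place K F → F) v = x := by
  simp [singleRep]

lemma singleRep_apply_of_ne (v : Place K F) (x : F) {w : Place K F} (h : w ≠ v) :
    ((singleRep v x : ↥(repartitions K F)) : Place K F → F) w = 0 := by
  simp [singleRep, h]

lemma singleRep_mem (D : Divisor K F) (v : Place K F) {x : F}
    (hx : x = 0 ∨ -D v ≤ v.ord x) : singleRep v x ∈ repartitionsOf D := by
  rw [mem_repartitionsOf_iff]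
  intro w
  by_cases hw : w = v
  · subst hw
    rw [singleRep_apply_self]
    exact hx
  · left
    exact singleRep_apply_of_ne v x hw

lemma resMap_surjective (D : Divisor K F) (v : Place K F) :
    Function.Surjective (resMap D v) := by
  intro c
  obtain ⟨u, rfl⟩ := IsLocalRing.residue_surjective c
  have hmem : singleRep v (unif v ^ (-(D v + 1)) * (u : F)) ∈ repartitionsOf (addPt D v) := by
    apply singleRep_mem
    by_cases hu : (u : F) = 0
    · left; rw [hu, mul_zero]
    · right
      rw [ord_unif_zpow_mul v _ hu, addPt_apply_self]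
      have := ord_nonneg_of_mem v u.2
      omega
  refine ⟨⟨_, hmem⟩, ?_⟩
  rw [resMap_apply]
  congr 1
  apply Subtype.ext
  show unif v ^ (D v + 1) * ((singleRep v (unif v ^ (-(D v + 1)) * (u : F)) :
    ↥(repartitions K F)) : Place K F → F) v = u
  rw [singleRep_apply_self, ← mul_assoc, ← zpow_add₀ (unif_ne_zero v)]
  simp

/-- `A(D + v) / A(D) ≃ k(v)`. -/
def quoAddPtEquiv (D : Divisor K F) (v : Place K F) :
    Quo (repartitionsOf D) (repartitionsOf (addPt D v)) ≃ₗ[K] v.ResidueField :=
  (Submodule.quotEquivOfEq _ _ (ker_resMap D v).symm).trans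
    ((resMap D v).quotKerEquivOfSurjective (resMap_surjective D v))

lemma idx_addPt (D : Divisor K F) (v : Place K F) :
    idx (repartitionsOf D) (repartitionsOf (addPt D v)) = v.deg :=
  (quoAddPtEquiv D v).finrank_eq

lemma finIdx_addPt (D : Divisor K F) (v : Place K F) [Module.Finite K v.ResidueField] :
    FinIdx (repartitionsOf D) (repartitionsOf (addPt D v)) :=
  Module.Finite.equiv (quoAddPtEquiv D v).symm

/-! ### `dim A(D') / A(D) = deg D' - deg D` -/

section FF1

variable [hFF : FF1 K F]

lemma finite_residueField (v : Place K F) : Module.Finite K v.ResidueField := by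
  have h : Module.finrank K v.ResidueField = 1 := deg_eq_one v
  exact Module.finite_of_finrank_pos (by rw [h]; exact Nat.one_pos)

/-- For `D ≤ D'`, `A(D')/A(D)` has dimension `deg D' - deg D`. -/
theorem finIdx_and_idx_repartitionsOf {D D' : Divisor K F} (h : D ≤ D') :
    FinIdx (repartitionsOf D) (repartitionsOf D') ∧
      (idx (repartitionsOf D) (repartitionsOf D') : ℤ) =
        Divisor.degree D' - Divisor.degree D := by
  refine induction_ge (P := fun D' => FinIdx (repartitionsOf D) (repartitionsOf D') ∧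
      (idx (repartitionsOf D) (repartitionsOf D') : ℤ) =
        Divisor.degree D' - Divisor.degree D) D ?_ ?_ D' h
  · exact ⟨finIdx_self _, by rw [idx_self]; simp⟩
  · intro D'' v hle ⟨hfin, hidx⟩
    have h1 : repartitionsOf D ≤ repartitionsOf D'' := repartitionsOf_mono hle
    have h2 : repartitionsOf D'' ≤ repartitionsOf (D'' + prim v) := repartitionsOf_le_addPt D'' v
    have : Module.Finite K v.ResidueField := finite_residueField v
    have hfin2 : FinIdx (repartitionsOf D'') (repartitionsOf (D'' + prim v)) :=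
      finIdx_addPt D'' v
    have hidx2 : idx (repartitionsOf D'') (repartitionsOf (D'' + prim v)) = 1 := by
      have := idx_addPt D'' v
      rw [deg_eq_one v] at this
      exact this
    have hfin3 := FinIdx.trans h1 h2 hfin hfin2
    refine ⟨hfin3, ?_⟩
    rw [idx_tower h1 h2 hfin3, hidx2, map_add, degree_prim']
    push_cast
    omega

/-! ### `A(D) ∩ F = L(D)` -/

/-- The diagonal embedding `F → 𝔸`, as a `K`-linear map. -/
def diag : F →ₗ[K] ↥(repartitions K F) :=
  (Algebra.linearMap F ↥(repartitions K F)).restrictScalars K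

omit hFF in
lemma diag_apply (f : F) (v : Place K F) :
    ((diag f : ↥(repartitions K F)) : Place K F → F) v = f := by
  show ((algebraMap F ↥(repartitions K F) f : ↥(repartitions K F)) : Place K F → F) v = f
  rw [Subalgebra.coe_algebraMap]
  rfl

lemma diag_injective : Function.Injective (diag (K := K) (F := F)) := by
  intro f g hfg
  obtain ⟨v₀⟩ := hFF.nonempty_place
  have := congrArg (fun α : ↥(repartitions K F) => (α : Place K F → F) v₀) hfg
  simpa [diag_apply] using this

omit hFF in
lemma range_diag : LinearMap.range (diag (K := K) (F := F)) = principalRepartitions K F := by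
  ext α
  rw [mem_principalRepartitions_iff]
  constructor
  · rintro ⟨f, rfl⟩
    exact ⟨f, funext fun v => diag_apply f v⟩
  · rintro ⟨f, hf⟩
    refine ⟨f, Subtype.ext ?_⟩
    rw [hf]
    exact funext fun v => diag_apply f v

omit hFF in
lemma diag_mem_repartitionsOf_iff (D : Divisor K F) (f : F) :
    diag f ∈ repartitionsOf D ↔ f ∈ riemannRochSpace D := by
  rw [mem_repartitionsOf_iff, mem_L_iff]
  simp only [diag_apply]

omit hFF in
lemma map_diag_L (D : Divisor K F) :
    (riemannRochSpace D).map (diag (K := K) (F := F)) =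
      repartitionsOf D ⊓ principalRepartitions K F := by
  ext α
  rw [Submodule.mem_map, Submodule.mem_inf, ← range_diag]
  constructor
  · rintro ⟨f, hf, rfl⟩
    exact ⟨(diag_mem_repartitionsOf_iff D f).mpr hf, ⟨f, rfl⟩⟩
  · rintro ⟨hα, ⟨f, rfl⟩⟩
    exact ⟨f, (diag_mem_repartitionsOf_iff D f).mp hα, rfl⟩

/-- `L(D) ≃ A(D) ∩ F`. -/
def LEquiv (D : Divisor K F) :
    ↥(riemannRochSpace D) ≃ₗ[K] ↥(repartitionsOf D ⊓ principalRepartitions K F) :=
  (Submodule.equivMapOfInjective diag diag_injective (riemannRochSpace D)).trans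
    (LinearEquiv.ofEq _ _ (map_diag_L D))

lemma finrank_inf (D : Divisor K F) :
    finrank K ↥(repartitionsOf D ⊓ principalRepartitions K F) = ell D :=
  (LEquiv D).finrank_eq.symm

instance finite_inf (D : Divisor K F) :
    Module.Finite K ↥(repartitionsOf D ⊓ principalRepartitions K F) :=
  Module.Finite.equiv (LEquiv D)

lemma idx_inf_eq {D D' : Divisor K F} (h : D ≤ D') :
    (idx (repartitionsOf D ⊓ principalRepartitions K F)
      (repartitionsOf D' ⊓ principalRepartitions K F) : ℤ) = (ell D' : ℤ) - ell D := by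
  have h1 : repartitionsOf D ⊓ principalRepartitions K F ≤
      repartitionsOf D' ⊓ principalRepartitions K F :=
    inf_le_inf_right _ (repartitionsOf_mono h)
  have h2 := idx_add_finrank h1
  rw [finrank_inf, finrank_inf] at h2
  omega

/-- `dim (A(D') + F)/(A(D) + F) = (deg D' - ℓ(D')) - (deg D - ℓ(D))` for `D ≤ D'`. -/
theorem finIdx_and_idx_sup {D D' : Divisor K F} (h : D ≤ D') :
    FinIdx (repartitionsOf D ⊔ principalRepartitions K F)
        (repartitionsOf D' ⊔ principalRepartitions K F) ∧
      (idx (repartitionsOf D ⊔ principalRepartitions K F)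
        (repartitionsOf D' ⊔ principalRepartitions K F) : ℤ) =
        (Divisor.degree D' - ell D') - (Divisor.degree D - ell D) := by
  obtain ⟨hfin, hidx⟩ := finIdx_and_idx_repartitionsOf h
  have hle := repartitionsOf_mono h
  refine ⟨FinIdx.sup _ hle hfin, ?_⟩
  have h1 := idx_sup_add_idx_inf (principalRepartitions K F) hle hfin
  have h2 := idx_inf_eq h
  omega

end FF1

end Fermat.Agent.Lib.RR.H980

end

end
-- ===== PACK-END Lib/RR/H980/Adele.lean

-- ===== PACK-BEGIN S20/C1_helper980.lean
section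
/-
S20 long shot — L0.4 and C1.1 (kernel of the evaluation at a fibre) of captain helper20's
skeleton, statements exactly as in `origin/helper20:Fermat/Agent/S20/Skeleton.lean`.  (helper980)
Sorry-free.
-/



set_option autoImplicit false

noncomputable section

namespace Fermat.Agent.S20.C980

open Fermat.Agent.S20
open UpperHalfPlane ModularForm CongruenceSubgroup MatrixGroups Filter Module
open scoped Manifold Topology Real

local notation "Δ" => ModularForm.discriminant

/-- L0.4 : a level one form without zeros on `ℍ` and not vanishing at `∞` has weight `0`. -/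
theorem weight_eq_zero_of_nonvanishing {k : ℤ} {f : ℍ → ℂ} (hf : f ∈ MF ⊤ k)
    (h0 : ∀ z, f z ≠ 0) (hinf : ¬ IsZeroAtImInfty f) : k = 0 := by
  rcases lt_trichotomy k 0 with hk | hk | hk
  · exfalso
    have := ModularFormClass.levelOne_neg_weight_eq_zero hk (ofMFtop hf)
    exact h0 UpperHalfPlane.I (by simpa using congrFun this UpperHalfPlane.I)
  · exact hk
  · exfalso
    let P : ModularForm 𝒮ℒ k := ofMFtop hf
    let g : ModularForm 𝒮ℒ (0 - k) :=
      B980.divModularForm (𝒢 := 𝒮ℒ) le_rfl P (fun τ hτ => absurd hτ (h0 τ)) hinf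
        (ModularForm.const (1 : ℂ)) (fun τ hτ => absurd hτ (h0 τ))
    have hg : ∀ τ, P τ * g τ = 1 := fun τ =>
      B980.mul_divModularForm_apply (𝒢 := 𝒮ℒ) le_rfl P
        (fun τ hτ => absurd hτ (h0 τ)) hinf
        (ModularForm.const (1 : ℂ)) (fun τ hτ => absurd hτ (h0 τ)) τ
    have hz := ModularFormClass.levelOne_neg_weight_eq_zero (k := 0 - k) (by omega) g
    have := hg UpperHalfPlane.I
    rw [hz] at this
    simp at this

variable {Γ : Subgroup SL(2, ℤ)} [Γ.FiniteIndex]

/-- C1.1 : kernel of the evaluation at the fibre over `z₀` (uses leaf B). -/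
theorem ker_ev {z₀ : ℍ} {w : ℤ} {P : ℍ → ℂ} (hP : LevelOneDivisor z₀ w P) {k : ℤ} {f : ℍ → ℂ}
    (hf : f ∈ MF Γ k) (h0 : ev Γ k z₀ f = 0) : ∃ g ∈ MF Γ (k - w), f = P * g := by
  have hvan : ∀ z : ℍ, P z = 0 → f z = 0 := by
    intro z hz
    obtain ⟨γ, rfl⟩ := (hP.zero_iff z).mp hz
    exact (ev_eq_zero_iff hf.2.1 z₀).mp h0 γ
  obtain ⟨g, hg⟩ := B980.exists_eq_mul_of_vanishing (Γ := Γ) (ofMFtop hP.mem) hP.simple
    hP.not_zero_at_infty (ofMF Γ hf) hvan
  exact ⟨⇑g, coe_mem_MF Γ g, funext hg⟩

/-- C1.1, cusp form version. -/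
theorem ker_ev_SF {z₀ : ℍ} {w : ℤ} {P : ℍ → ℂ} (hP : LevelOneDivisor z₀ w P) {k : ℤ}
    {f : ℍ → ℂ} (hf : f ∈ SF Γ k) (h0 : ev Γ k z₀ f = 0) : ∃ g ∈ SF Γ (k - w), f = P * g := by
  have hvan : ∀ z : ℍ, P z = 0 → f z = 0 := by
    intro z hz
    obtain ⟨γ, rfl⟩ := (hP.zero_iff z).mp hz
    exact (ev_eq_zero_iff hf.2.1 z₀).mp h0 γ
  obtain ⟨g, hg⟩ := B980.exists_eq_mul_of_vanishing_cuspForm (Γ := Γ) (ofMFtop hP.mem) hP.simple
    hP.not_zero_at_infty (ofSF Γ hf) hvan
  exact ⟨⇑g, coe_mem_SF Γ g, funext hg⟩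

end Fermat.Agent.S20.C980

end

end
-- ===== PACK-END S20/C1_helper980.lean

-- ===== PACK-BEGIN S55/Bridge/H594/PrimeBelow.lean
section



/-!
# S55 bridge (helper594): valuation subrings of `ℚ̄` versus primes of `ℤ̄`

For a valuation subring `A` of `ℚ̄` lying over a prime number `q`, the decomposition group of `A`
is the stabiliser of the prime `primeBelow A` of the ring `ℤ̄` of all algebraic integers, and the
inertia group of `A` is the inertia group of `primeBelow A`.
-/

set_option autoImplicit false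

namespace Fermat.Agent.S55.Bridge.H594

open Fermat.Agent.S54 Fermat.Agent.S55.Bridge
open scoped Pointwise

attribute [local instance] isAlgebraic_Qbar isGalois_Qbar

section basic

variable (A : ValuationSubring (AlgebraicClosure ℚ))

/-- Algebraic integers lie in every valuation subring. -/
theorem coe_mem (b : integralClosure ℤ (AlgebraicClosure ℚ)) : (b : AlgebraicClosure ℚ) ∈ A :=
  isIntegral_mem_valuationSubring A b.2

theorem coe_smul (σ : AlgebraicClosure ℚ ≃ₐ[ℚ] AlgebraicClosure ℚ)
    (b : integralClosure ℤ (AlgebraicClosure ℚ)) :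
    ((σ • b : integralClosure ℤ (AlgebraicClosure ℚ)) : AlgebraicClosure ℚ) = σ b := rfl

/-- `σ` stabilises `primeBelow A` iff it preserves membership. -/
theorem smul_primeBelow_eq_iff (σ : AlgebraicClosure ℚ ≃ₐ[ℚ] AlgebraicClosure ℚ) :
    σ • primeBelow A = primeBelow A ↔
      ∀ b : integralClosure ℤ (AlgebraicClosure ℚ), σ • b ∈ primeBelow A ↔ b ∈ primeBelow A := by
  constructor
  · intro h b
    conv_lhs => rw [← h]
    exact Ideal.smul_mem_pointwise_smul_iff
  · intro h
    ext b
    rw [Ideal.mem_pointwise_smul_iff_inv_smul_mem]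
    rw [← h (σ⁻¹ • b), smul_inv_smul]

/-- If `σ` preserves the prime below `A`, it maps `A` into `A`. -/
theorem map_mem_of_smul_primeBelow {q : ℕ} (hq : q.Prime) (hA : A.LiesOverPrime q)
    (τ : AlgebraicClosure ℚ ≃ₐ[ℚ] AlgebraicClosure ℚ)
    (hτ : ∀ b : integralClosure ℤ (AlgebraicClosure ℚ), τ • b ∈ primeBelow A ↔ b ∈ primeBelow A)
    (x : AlgebraicClosure ℚ) (hx : x ∈ A) : τ x ∈ A := by
  obtain ⟨b, s, hb, hs, hsA, hxs⟩ := (mem_valuationSubring_iff A q hq hA x).mp hx
  refine (mem_valuationSubring_iff A q hq hA (τ x)).mpr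
    ⟨τ b, τ s, hb.map τ, hs.map τ, ?_, ?_⟩
  · exact (hτ ⟨s, hs⟩).not.mpr hsA
  · rw [← map_mul, hxs]

/-- The decomposition group of `A` is the stabiliser of the prime of `ℤ̄` below `A`. -/
theorem mem_decompositionSubgroup_iff_smul_primeBelow {q : ℕ} (hq : q.Prime)
    (hA : A.LiesOverPrime q) (σ : AlgebraicClosure ℚ ≃ₐ[ℚ] AlgebraicClosure ℚ) :
    σ ∈ A.decompositionSubgroup ℚ ↔ σ • primeBelow A = primeBelow A := by
  rw [smul_primeBelow_eq_iff]
  constructor
  · intro hσ b
    have h1 := (mem_decompositionSubgroup_iff A σ).mp hσ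
    rw [mem_primeBelow, mem_primeBelow, coe_smul, ValuationSubring.mem_nonunits_iff_or,
      ValuationSubring.mem_nonunits_iff_or, ← map_inv₀, h1, map_eq_zero_iff σ σ.injective]
  · intro hσ
    rw [mem_decompositionSubgroup_iff]
    intro x
    constructor
    · intro hx
      have h2 : ∀ b : integralClosure ℤ (AlgebraicClosure ℚ),
          σ⁻¹ • b ∈ primeBelow A ↔ b ∈ primeBelow A := by
        intro b
        rw [← hσ (σ⁻¹ • b), smul_inv_smul]
      have := map_mem_of_smul_primeBelow A hq hA σ⁻¹ h2 (σ x) hx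
      simpa using this
    · exact map_mem_of_smul_primeBelow A hq hA σ hσ x

/-- An integral element outside the prime below `A` has valuation `1`. -/
theorem valuation_eq_one_of_not_mem_nonunits {s : AlgebraicClosure ℚ} (hs : IsIntegral ℤ s)
    (hsA : s ∉ A.nonunits) : A.valuation s = 1 := by
  have h1 : A.valuation s ≤ 1 :=
    (A.valuation_le_one_iff _).mpr (isIntegral_mem_valuationSubring A hs)
  rw [ValuationSubring.mem_nonunits_iff, not_lt] at hsA
  exact le_antisymm h1 hsA

/-- The inertia group of `A` is the inertia group of the prime of `ℤ̄` below `A`. -/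
theorem mem_inertiaSubgroupIn_iff_primeBelow {q : ℕ} (hq : q.Prime)
    (hA : A.LiesOverPrime q) (σ : AlgebraicClosure ℚ ≃ₐ[ℚ] AlgebraicClosure ℚ) :
    σ ∈ A.inertiaSubgroupIn ℚ ↔
      ∀ b : integralClosure ℤ (AlgebraicClosure ℚ), σ • b - b ∈ primeBelow A := by
  constructor
  · intro hσ b
    exact ((mem_inertiaSubgroupIn_iff A σ).mp hσ).2 b (coe_mem A b)
  · intro hσ
    have hstab : ∀ b : integralClosure ℤ (AlgebraicClosure ℚ),
        σ • b ∈ primeBelow A ↔ b ∈ primeBelow A := by
      intro b
      constructor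
      · intro h
        have := (primeBelow A).sub_mem h (hσ b)
        simpa using this
      · intro h
        have := (primeBelow A).add_mem (hσ b) h
        simpa using this
    have hD : σ ∈ A.decompositionSubgroup ℚ :=
      (mem_decompositionSubgroup_iff_smul_primeBelow A hq hA σ).mpr
        ((smul_primeBelow_eq_iff A σ).mpr hstab)
    rw [mem_inertiaSubgroupIn_iff]
    refine ⟨hD, fun z hz => ?_⟩
    obtain ⟨b, s, hb, hs, hsA, hzs⟩ := (mem_valuationSubring_iff A q hq hA z).mp hz
    have hs0 : s ≠ 0 := fun h => hsA (h ▸ A.nonunits.zero_mem)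
    have hσs0 : σ s ≠ 0 := (map_ne_zero_iff σ σ.injective).mpr hs0
    have hσsA : σ s ∉ A.nonunits := (hstab ⟨s, hs⟩).not.mpr hsA
    have hvs : A.valuation s = 1 := valuation_eq_one_of_not_mem_nonunits A hs hsA
    have hvσs : A.valuation (σ s) = 1 :=
      valuation_eq_one_of_not_mem_nonunits A (hs.map σ) hσsA
    have hz' : z = b / s := by rw [← hzs]; field_simp
    have hnum : (σ b - b) * s - b * (σ s - s) ∈ A.nonunits := by
      rw [ValuationSubring.mem_nonunits_iff]
      have h1 : A.valuation ((σ b - b) * s) < 1 := by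
        rw [map_mul, hvs, mul_one]
        exact (ValuationSubring.mem_nonunits_iff A).mp (hσ ⟨b, hb⟩)
      have h2 : A.valuation (b * (σ s - s)) < 1 := by
        rw [map_mul]
        have hb1 : A.valuation b ≤ 1 :=
          (A.valuation_le_one_iff _).mpr (isIntegral_mem_valuationSubring A hb)
        have hs1 : A.valuation (σ s - s) < 1 :=
          (ValuationSubring.mem_nonunits_iff A).mp (hσ ⟨s, hs⟩)
        exact mul_lt_one_of_nonneg_of_lt_one_right hb1 zero_le hs1
      exact lt_of_le_of_lt (Valuation.map_sub _ _ _) (max_lt h1 h2)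
    have hval : σ z - z = ((σ b - b) * s - b * (σ s - s)) / (s * σ s) := by
      rw [hz', map_div₀]
      field_simp
      ring
    rw [hval, ValuationSubring.mem_nonunits_iff, map_div₀, map_mul, hvs, hvσs, mul_one,
      div_one]
    exact (ValuationSubring.mem_nonunits_iff A).mp hnum

end basic

end Fermat.Agent.S55.Bridge.H594

end
-- ===== PACK-END S55/Bridge/H594/PrimeBelow.lean

-- ===== PACK-BEGIN A2/H553/Discrete.lean
section





/-!
# A2 / K2c (helper553): every element of `Q̄ · F₀` is a constant times a Gauss unit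

`A ⊆ Q̄` a valuation subring over a prime `ℓ` (value group `ℚ`, NOT discrete).  The Gauss
"valuation" `inf v(coefficients)` is not defined on all of `Q̄((q))`, but it is on series whose
coefficients lie in a finite extension `E/ℚ` (where `A ∩ E` is a DVR, helper602).

* `coeffSubring S` : series with coefficients in the subring `S`;
* `FinFrac A x` : `x = a / b` with `a`, `b` having coefficients in `A ∩ E`, `E/ℚ` finite;
  closed under the field operations (`FinFrac.add`, `.mul`, `.inv`, …);
* `exists_prim_factor` : a nonzero series with coefficients in `A ∩ E` is a constant times a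
  primitive `A`-integral series;
* `FinFrac.hasGaussForm` : `FinFrac A x`, `x ≠ 0`  ⟹  `HasGaussForm A x`;
* `finFrac_of_mem_laurentBaseChange` : all elements of `laurentBaseChange Q̄ F₀` are `FinFrac`
  as soon as the elements of `F₀` are.
-/

set_option autoImplicit false
set_option linter.unusedSectionVars false

noncomputable section

namespace Fermat.Agent.A2.H553

open ModularCurve HahnSeries IntermediateField Fermat.Agent.S28.H86 Fermat.Agent.S18.H602

local notation "Q̄" => AlgebraicClosure ℚ

/-! ### Series with coefficients in a subring -/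

section CoeffSubring

variable {K : Type*} [Field K]

/-- Laurent series with coefficients in the subring `S`. -/
def coeffSubring (S : Subring K) : Subring (LaurentSeries K) where
  carrier := {a | ∀ n, a.coeff n ∈ S}
  zero_mem' := fun n => by simp
  one_mem' := fun n => by
    rw [HahnSeries.coeff_one]
    split_ifs
    · exact S.one_mem
    · exact S.zero_mem
  add_mem' := fun {a b} ha hb n => by
    rw [HahnSeries.coeff_add]
    exact S.add_mem (ha n) (hb n)
  neg_mem' := fun {a} ha n => by
    rw [HahnSeries.coeff_neg]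
    exact S.neg_mem (ha n)
  mul_mem' := fun {a b} ha hb n => by
    rw [HahnSeries.coeff_mul]
    exact S.sum_mem fun ij _ => S.mul_mem (ha _) (hb _)

theorem mem_coeffSubring {S : Subring K} {a : LaurentSeries K} :
    a ∈ coeffSubring S ↔ ∀ n, a.coeff n ∈ S := Iff.rfl

theorem coeffSubring_mono {S T : Subring K} (h : S ≤ T) : coeffSubring S ≤ coeffSubring T :=
  fun _ ha n => h (ha n)

theorem C_mem_coeffSubring {S : Subring K} {c : K} (hc : c ∈ S) :
    (HahnSeries.C c : LaurentSeries K) ∈ coeffSubring S := fun n => by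
  rw [HahnSeries.C_apply, HahnSeries.coeff_single]
  split_ifs
  · exact hc
  · exact S.zero_mem

/-- a series with coefficients in `S` comes from a series over `S`. -/
theorem exists_inclL_eq {S : Subring K} {a : LaurentSeries K} (ha : a ∈ coeffSubring S) :
    ∃ a' : LaurentSeries ↥S, inclL S a' = a :=
  exists_coeffMap_eq S.subtype Subtype.val_injective a fun n => ⟨⟨a.coeff n, ha n⟩, rfl⟩

theorem inclL_mem_coeffSubring {S : Subring K} (a' : LaurentSeries ↥S) :
    inclL S a' ∈ coeffSubring S := fun n => by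
  rw [inclL_coeff]
  exact (a'.coeff n).2

end CoeffSubring

/-! ### The coefficient rings `A ∩ E` -/

section FinFrac

variable (A : ValuationSubring Q̄)

/-- `A ∩ E` as a subring of `Q̄`. -/
def capSubring (E : IntermediateField ℚ Q̄) : Subring Q̄ := A.toSubring ⊓ E.toSubfield.toSubring

variable {A}

theorem mem_capSubring {E : IntermediateField ℚ Q̄} {x : Q̄} :
    x ∈ capSubring A E ↔ x ∈ A ∧ x ∈ E := Iff.rfl

theorem capSubring_mono {E E' : IntermediateField ℚ Q̄} (h : E ≤ E') :
    capSubring A E ≤ capSubring A E' := fun _ hx => ⟨hx.1, h hx.2⟩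

theorem capSubring_le (E : IntermediateField ℚ Q̄) : capSubring A E ≤ A.toSubring :=
  fun _ hx => hx.1

variable (A)

/-- `x` is a quotient of two series with coefficients in `A ∩ E`, `E/ℚ` finite. -/
def FinFrac (x : LaurentSeries Q̄) : Prop :=
  ∃ E : IntermediateField ℚ Q̄, FiniteDimensional ℚ E ∧
    ∃ a b : LaurentSeries Q̄, a ∈ coeffSubring (capSubring A E) ∧
      b ∈ coeffSubring (capSubring A E) ∧ b ≠ 0 ∧ x * b = a

variable {A}

theorem FinFrac.zero : FinFrac A 0 :=
  ⟨⊥, inferInstance, 0, 1, zero_mem _, one_mem _, one_ne_zero, by simp⟩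

theorem FinFrac.one : FinFrac A 1 :=
  ⟨⊥, inferInstance, 1, 1, one_mem _, one_mem _, one_ne_zero, by simp⟩

theorem FinFrac.neg {x : LaurentSeries Q̄} (h : FinFrac A x) : FinFrac A (-x) := by
  obtain ⟨E, hE, a, b, ha, hb, hb0, hab⟩ := h
  exact ⟨E, hE, -a, b, neg_mem ha, hb, hb0, by rw [← hab]; ring⟩

theorem FinFrac.add {x y : LaurentSeries Q̄} (hx : FinFrac A x) (hy : FinFrac A y) :
    FinFrac A (x + y) := by
  obtain ⟨E, hE, a, b, ha, hb, hb0, hab⟩ := hx
  obtain ⟨E', hE', a', b', ha', hb', hb0', hab'⟩ := hy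
  have h1 := coeffSubring_mono (capSubring_mono (A := A) (le_sup_left : E ≤ E ⊔ E'))
  have h2 := coeffSubring_mono (capSubring_mono (A := A) (le_sup_right : E' ≤ E ⊔ E'))
  refine ⟨E ⊔ E', IntermediateField.finiteDimensional_sup E E', a * b' + a' * b, b * b',
    add_mem (mul_mem (h1 ha) (h2 hb')) (mul_mem (h2 ha') (h1 hb)),
    mul_mem (h1 hb) (h2 hb'), mul_ne_zero hb0 hb0', ?_⟩
  rw [← hab, ← hab']
  ring

theorem FinFrac.mul {x y : LaurentSeries Q̄} (hx : FinFrac A x) (hy : FinFrac A y) :
    FinFrac A (x * y) := by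
  obtain ⟨E, hE, a, b, ha, hb, hb0, hab⟩ := hx
  obtain ⟨E', hE', a', b', ha', hb', hb0', hab'⟩ := hy
  have h1 := coeffSubring_mono (capSubring_mono (A := A) (le_sup_left : E ≤ E ⊔ E'))
  have h2 := coeffSubring_mono (capSubring_mono (A := A) (le_sup_right : E' ≤ E ⊔ E'))
  refine ⟨E ⊔ E', IntermediateField.finiteDimensional_sup E E', a * a', b * b',
    mul_mem (h1 ha) (h2 ha'), mul_mem (h1 hb) (h2 hb'), mul_ne_zero hb0 hb0', ?_⟩
  rw [← hab, ← hab']
  ring

theorem FinFrac.inv {x : LaurentSeries Q̄} (hx : FinFrac A x) : FinFrac A x⁻¹ := by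
  rcases eq_or_ne x 0 with rfl | hx0
  · rw [inv_zero]; exact FinFrac.zero
  obtain ⟨E, hE, a, b, ha, hb, hb0, hab⟩ := hx
  have ha0 : a ≠ 0 := by rw [← hab]; exact mul_ne_zero hx0 hb0
  refine ⟨E, hE, b, a, hb, ha, ha0, ?_⟩
  rw [← hab, ← mul_assoc, inv_mul_cancel₀ hx0, one_mul]

/-- constants are `FinFrac`. -/
theorem FinFrac.const (c : Q̄) : FinFrac A (HahnSeries.C c) := by
  haveI := isAlgebraic_Qbar
  have hfin : FiniteDimensional ℚ ℚ⟮c⟯ := IntermediateField.adjoin.finiteDimensional
    (Algebra.IsAlgebraic.isAlgebraic (R := ℚ) c).isIntegral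
  have hcE : c ∈ ℚ⟮c⟯ := mem_adjoin_simple_self ℚ c
  rcases A.mem_or_inv_mem c with h | h
  · exact ⟨ℚ⟮c⟯, hfin, HahnSeries.C c, 1, C_mem_coeffSubring ⟨h, hcE⟩, one_mem _, one_ne_zero,
      by simp⟩
  · rcases eq_or_ne c 0 with rfl | hc
    · rw [map_zero]; exact FinFrac.zero
    refine ⟨ℚ⟮c⟯, hfin, 1, HahnSeries.C c⁻¹, one_mem _,
      C_mem_coeffSubring ⟨h, (inv_mem hcE : c⁻¹ ∈ ℚ⟮c⟯)⟩, C_ne_zero' (inv_ne_zero hc), ?_⟩
    rw [← map_mul, mul_inv_cancel₀ hc, map_one]

theorem FinFrac.algebraMap (c : Q̄) : FinFrac A (algebraMap Q̄ (LaurentSeries Q̄) c) := by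
  rw [algebraMap_laurentSeries_eq_single]
  exact FinFrac.const c

/-- `A`-integral series with coefficients in a finite extension are `FinFrac`. -/
theorem FinFrac.of_mem {E : IntermediateField ℚ Q̄} [hE : FiniteDimensional ℚ E]
    {a : LaurentSeries Q̄} (ha : a ∈ coeffSubring (capSubring A E)) : FinFrac A a :=
  ⟨E, hE, a, 1, ha, one_mem _, one_ne_zero, by simp⟩

/-- All elements of `Q̄ · F₀` are `FinFrac` if the elements of `F₀` are. -/
theorem finFrac_of_mem_laurentBaseChange {F₀ : IntermediateField ℚ (LaurentSeries ℚ)}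
    (hF₀ : ∀ z ∈ F₀, FinFrac A (coeffEmb Q̄ z)) {x : LaurentSeries Q̄}
    (hx : x ∈ laurentBaseChange Q̄ F₀) : FinFrac A x := by
  rw [mem_laurentBaseChange_iff] at hx
  induction hx using Subfield.closure_induction with
  | mem y hy =>
      rcases hy with ⟨a, rfl⟩ | ⟨z, hz, rfl⟩
      · exact FinFrac.algebraMap a
      · exact hF₀ z hz
  | one => exact FinFrac.one
  | add x y _ _ hx hy => exact hx.add hy
  | neg x _ hx => exact hx.neg
  | inv x _ hx => exact hx.inv
  | mul x y _ _ hx hy => exact hx.mul hy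

/-- `F₀`-side: it is enough to check generators of `F₀ = ℚ(S)`. -/
theorem finFrac_coeffEmb_of_adjoin {S : Set (LaurentSeries ℚ)}
    (hS : ∀ z ∈ S, FinFrac A (coeffEmb Q̄ z)) {z : LaurentSeries ℚ}
    (hz : z ∈ IntermediateField.adjoin ℚ S) : FinFrac A (coeffEmb Q̄ z) := by
  have hz' : z ∈ Subfield.closure (Set.range (algebraMap ℚ (LaurentSeries ℚ)) ∪ S) := hz
  clear hz
  induction hz' using Subfield.closure_induction with
  | mem y hy =>
      rcases hy with ⟨r, rfl⟩ | hy
      · have : coeffEmb Q̄ (algebraMap ℚ (LaurentSeries ℚ) r) =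
            algebraMap Q̄ (LaurentSeries Q̄) (algebraMap ℚ Q̄ r) := by
          rw [algebraMap_laurentSeries_eq_single, algebraMap_laurentSeries_eq_single]
          exact coeffMap_single _ _ _
        rw [this]
        exact FinFrac.algebraMap _
      · exact hS y hy
  | one => rw [map_one]; exact FinFrac.one
  | add x y _ _ hx hy => rw [map_add]; exact hx.add hy
  | neg x _ hx => rw [map_neg]; exact hx.neg
  | inv x _ hx => rw [map_inv₀]; exact hx.inv
  | mul x y _ _ hx hy => rw [map_mul]; exact hx.mul hy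

end FinFrac

end Fermat.Agent.A2.H553

end
end
-- ===== PACK-END A2/H553/Discrete.lean

-- ===== PACK-BEGIN A2/H48/Qep2Le.lean
section


/-!
# A2 / piece QEP2, part 4 (helper48): the degree hypothesis as an inequality

In `TwoExt` / `GaussPair` the hypothesis `card : f₁ + f₂ = [F : K]` can be weakened to
`[F : K] ≤ f₁ + f₂` (the other inequality is automatic: the lifts of the two families are
linearly independent).  This is the form in which the modular side supplies it (upper bound for
the degree of the function field in characteristic `0`, lower bounds for the residue degrees in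
characteristic `q`).

* `TwoExtLe`, `TwoExtLe.card`, `TwoExtLe.twoExt`;
* `GaussPairLe`, `GaussPairLe.gaussPair`, hence `GaussPairLe.qep2`, `GaussPairLe.reduced`,
  `GaussPairLe.exists_monic_of_mem`.
-/

set_option autoImplicit false
set_option linter.unusedSectionVars false

namespace Fermat.Agent.A2.H48

open Polynomial

section Main

variable {K F : Type*} [Field K] [Field F] [Algebra K F]

/-- `TwoExt` with the degree hypothesis weakened to an inequality. -/
structure TwoExtLe (O : ValuationSubring K) (V₁ V₂ : ValuationSubring F) (ϖ : K)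
    {f₁ f₂ : ℕ} (b : Fin f₁ → F) (c : Fin f₂ → F) : Prop where
  unifO : IsUnif O ϖ
  unif₁ : IsUnif V₁ (algebraMap K F ϖ)
  unif₂ : IsUnif V₂ (algebraMap K F ϖ)
  le₁ : ∀ a ∈ O, algebraMap K F a ∈ V₁
  le₂ : ∀ a ∈ O, algebraMap K F a ∈ V₂
  ne : V₁ ≠ V₂
  arch : ∀ a : K, ∃ k : ℕ, ϖ ^ k * a ∈ O
  b_mem : ∀ i, b i ∈ V₁
  c_mem : ∀ j, c j ∈ V₂
  b_indep : ∀ a : Fin f₁ → K, (∀ i, a i ∈ O) →
    (∑ i, algebraMap K F (a i) * b i) * (algebraMap K F ϖ)⁻¹ ∈ V₁ → ∀ i, a i * ϖ⁻¹ ∈ O
  c_indep : ∀ a : Fin f₂ → K, (∀ j, a j ∈ O) →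
    (∑ j, algebraMap K F (a j) * c j) * (algebraMap K F ϖ)⁻¹ ∈ V₂ → ∀ j, a j * ϖ⁻¹ ∈ O
  le : Module.finrank K F ≤ f₁ + f₂

namespace TwoExtLe

variable {O : ValuationSubring K} {V₁ V₂ : ValuationSubring F} {ϖ : K}
  {f₁ f₂ : ℕ} {b : Fin f₁ → F} {c : Fin f₂ → F}

theorem exists_good [FiniteDimensional K F] (h : TwoExtLe O V₁ V₂ ϖ b c) :
    ∃ m : Fin f₁ ⊕ Fin f₂ → F, TwoExt.IsGood O V₁ V₂ ϖ m := by
  classical
  set π := algebraMap K F ϖ with hπ
  have hπ0 : π ≠ 0 := h.unif₁.ne_zero
  have hA₁ : ∀ i, ∃ g : F, g ∈ V₁ ∧ (g - b i) * π⁻¹ ∈ V₁ ∧ g * π⁻¹ ∈ V₂ := fun i => by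
    obtain ⟨k, hk⟩ := exists_pow_mul_mem h.unifO.mem h.arch V₂ h.le₂
      (Algebra.IsIntegral.isIntegral (R := K) (b i))
    exact exists_approx h.unif₁ h.unif₂ h.ne (h.b_mem i) hk
  have hA₂ : ∀ j, ∃ g : F, g ∈ V₂ ∧ (g - c j) * π⁻¹ ∈ V₂ ∧ g * π⁻¹ ∈ V₁ := fun j => by
    obtain ⟨k, hk⟩ := exists_pow_mul_mem h.unifO.mem h.arch V₁ h.le₁
      (Algebra.IsIntegral.isIntegral (R := K) (c j))
    exact exists_approx h.unif₂ h.unif₁ (Ne.symm h.ne) (h.c_mem j) hk
  choose g hg1 hg2 hg3 using hA₁
  choose g' hg'1 hg'2 hg'3 using hA₂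
  have hgV₂ : ∀ i, g i ∈ V₂ := fun i => by
    have : g i = g i * π⁻¹ * π := by field_simp
    rw [this]; exact mul_mem (hg3 i) h.unif₂.mem
  have hg'V₁ : ∀ j, g' j ∈ V₁ := fun j => by
    have : g' j = g' j * π⁻¹ * π := by field_simp
    rw [this]; exact mul_mem (hg'3 j) h.unif₁.mem
  refine ⟨Sum.elim g g', ?_, ?_, ?_⟩
  · rintro (i | j)
    · exact hg1 i
    · exact hg'V₁ j
  · rintro (i | j)
    · exact hgV₂ i
    · exact hg'1 j
  · intro a ha hS₁ hS₂
    have hsplit : (∑ l, algebraMap K F (a l) * Sum.elim g g' l) =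
        (∑ i, algebraMap K F (a (Sum.inl i)) * g i) +
          ∑ j, algebraMap K F (a (Sum.inr j)) * g' j := by
      rw [Fintype.sum_sum_type]; simp only [Sum.elim_inl, Sum.elim_inr]
    rw [hsplit] at hS₁ hS₂
    rintro (i | j)
    · refine h.b_indep (fun i => a (Sum.inl i)) (fun i => ha _) ?_ i
      have e1 : (∑ i, algebraMap K F (a (Sum.inl i)) * b i) * π⁻¹ =
          ((∑ i, algebraMap K F (a (Sum.inl i)) * g i) +
            ∑ j, algebraMap K F (a (Sum.inr j)) * g' j) * π⁻¹
          - ∑ i, algebraMap K F (a (Sum.inl i)) * ((g i - b i) * π⁻¹)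
          - ∑ j, algebraMap K F (a (Sum.inr j)) * (g' j * π⁻¹) := by
        have hW : ∑ i, algebraMap K F (a (Sum.inl i)) * ((g i - b i) * π⁻¹) =
            (∑ i, algebraMap K F (a (Sum.inl i)) * g i) * π⁻¹ -
              (∑ i, algebraMap K F (a (Sum.inl i)) * b i) * π⁻¹ := by
          rw [Finset.sum_mul, Finset.sum_mul, ← Finset.sum_sub_distrib]
          exact Finset.sum_congr rfl fun i _ => by ring
        have hZ : ∑ j, algebraMap K F (a (Sum.inr j)) * (g' j * π⁻¹) =
            (∑ j, algebraMap K F (a (Sum.inr j)) * g' j) * π⁻¹ := by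
          rw [Finset.sum_mul]
          exact Finset.sum_congr rfl fun j _ => by ring
        rw [hW, hZ]; ring
      rw [e1]
      refine sub_mem (sub_mem hS₁ (sum_mem fun i _ => mul_mem (h.le₁ _ (ha _)) (hg2 i)))
        (sum_mem fun j _ => mul_mem (h.le₁ _ (ha _)) (hg'3 j))
    · refine h.c_indep (fun j => a (Sum.inr j)) (fun j => ha _) ?_ j
      have e1 : (∑ j, algebraMap K F (a (Sum.inr j)) * c j) * π⁻¹ =
          ((∑ i, algebraMap K F (a (Sum.inl i)) * g i) +
            ∑ j, algebraMap K F (a (Sum.inr j)) * g' j) * π⁻¹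
          - ∑ j, algebraMap K F (a (Sum.inr j)) * ((g' j - c j) * π⁻¹)
          - ∑ i, algebraMap K F (a (Sum.inl i)) * (g i * π⁻¹) := by
        have hW : ∑ j, algebraMap K F (a (Sum.inr j)) * ((g' j - c j) * π⁻¹) =
            (∑ j, algebraMap K F (a (Sum.inr j)) * g' j) * π⁻¹ -
              (∑ j, algebraMap K F (a (Sum.inr j)) * c j) * π⁻¹ := by
          rw [Finset.sum_mul, Finset.sum_mul, ← Finset.sum_sub_distrib]
          exact Finset.sum_congr rfl fun j _ => by ring
        have hZ : ∑ i, algebraMap K F (a (Sum.inl i)) * (g i * π⁻¹) =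
            (∑ i, algebraMap K F (a (Sum.inl i)) * g i) * π⁻¹ := by
          rw [Finset.sum_mul]
          exact Finset.sum_congr rfl fun i _ => by ring
        rw [hW, hZ]; ring
      rw [e1]
      refine sub_mem (sub_mem hS₂ (sum_mem fun j _ => mul_mem (h.le₂ _ (ha _)) (hg'2 j)))
        (sum_mem fun i _ => mul_mem (h.le₂ _ (ha _)) (hg3 i))

/-- The fundamental inequality is an equality. -/
theorem card [FiniteDimensional K F] (h : TwoExtLe O V₁ V₂ ϖ b c) :
    f₁ + f₂ = Module.finrank K F := by
  obtain ⟨m, hm⟩ := h.exists_good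
  have hli := TwoExt.IsGood.linearIndependent h.unifO hm
  have h1 := hli.fintype_card_le_finrank
  rw [Fintype.card_sum, Fintype.card_fin, Fintype.card_fin] at h1
  exact le_antisymm h1 h.le

theorem twoExt [FiniteDimensional K F] (h : TwoExtLe O V₁ V₂ ϖ b c) :
    TwoExt O V₁ V₂ ϖ b c where
  unifO := h.unifO
  unif₁ := h.unif₁
  unif₂ := h.unif₂
  le₁ := h.le₁
  le₂ := h.le₂
  ne := h.ne
  arch := h.arch
  b_mem := h.b_mem
  c_mem := h.c_mem
  b_indep := h.b_indep
  c_indep := h.c_indep
  card := h.card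

end TwoExtLe

end Main

section Gauss

variable {R : Type*} [CommRing R] [IsDomain R] [UniqueFactorizationMonoid R]
variable {K F : Type*} [Field K] [Field F] [Algebra R[X] K] [IsFractionRing R[X] K]
  [Algebra K F] [Algebra R[X] F] [IsScalarTower R[X] K F]

/-- `GaussPair` with the degree hypothesis weakened to an inequality. -/
structure GaussPairLe (ϖ : R) (V₁ V₂ : ValuationSubring F)
    {f₁ f₂ : ℕ} (b : Fin f₁ → F) (c : Fin f₂ → F) : Prop where
  prime : Prime ϖ
  unif₁ : IsUnif V₁ (algebraMap R[X] F (C ϖ))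
  unif₂ : IsUnif V₂ (algebraMap R[X] F (C ϖ))
  poly₁ : ∀ P : R[X], algebraMap R[X] F P ∈ V₁
  poly₂ : ∀ P : R[X], algebraMap R[X] F P ∈ V₂
  gauss₁ : ∀ P : R[X], ¬ C ϖ ∣ P → (algebraMap R[X] F P)⁻¹ ∈ V₁
  gauss₂ : ∀ P : R[X], ¬ C ϖ ∣ P → (algebraMap R[X] F P)⁻¹ ∈ V₂
  ne : V₁ ≠ V₂
  b_mem : ∀ i, b i ∈ V₁
  c_mem : ∀ j, c j ∈ V₂
  b_indep : ∀ a : Fin f₁ → R[X],
    (∑ i, algebraMap R[X] F (a i) * b i) * (algebraMap R[X] F (C ϖ))⁻¹ ∈ V₁ → ∀ i, C ϖ ∣ a i
  c_indep : ∀ a : Fin f₂ → R[X],
    (∑ j, algebraMap R[X] F (a j) * c j) * (algebraMap R[X] F (C ϖ))⁻¹ ∈ V₂ → ∀ j, C ϖ ∣ a j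
  le : Module.finrank K F ≤ f₁ + f₂

namespace GaussPairLe

variable {ϖ : R} {V₁ V₂ : ValuationSubring F} {f₁ f₂ : ℕ} {b : Fin f₁ → F} {c : Fin f₂ → F}

theorem gaussRing_eq (h : GaussPairLe (K := K) ϖ V₁ V₂ b c) :
    gaussRing K V₁ = gaussRing K V₂ := by
  apply le_antisymm
  · intro a ha
    obtain ⟨P, Q, hQ, rfl⟩ := exists_div_of_mem_gaussRing h.prime h.unif₁ h.poly₁ h.gauss₁ ha
    exact div_mem_gaussRing h.poly₂ h.gauss₂ P hQ
  · intro a ha
    obtain ⟨P, Q, hQ, rfl⟩ := exists_div_of_mem_gaussRing h.prime h.unif₂ h.poly₂ h.gauss₂ ha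
    exact div_mem_gaussRing h.poly₁ h.gauss₁ P hQ

theorem twoExtLe (h : GaussPairLe (K := K) ϖ V₁ V₂ b c) :
    TwoExtLe (gaussRing K V₁) V₁ V₂ (algebraMap R[X] K (C ϖ)) b c where
  unifO := isUnif_gaussRing h.unif₁
  unif₁ := by rw [map_eq]; exact h.unif₁
  unif₂ := by rw [map_eq]; exact h.unif₂
  le₁ := fun a ha => mem_gaussRing.1 ha
  le₂ := fun a ha => mem_gaussRing.1 (h.gaussRing_eq ▸ ha)
  ne := h.ne
  arch := arch_gaussRing h.prime h.poly₁ h.gauss₁
  b_mem := h.b_mem
  c_mem := h.c_mem
  b_indep := fun a ha hsum i =>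
    indep_gaussRing h.prime h.unif₁ h.poly₁ h.gauss₁ h.b_indep a ha hsum i
  c_indep := fun a ha hsum j => by
    rw [h.gaussRing_eq]
    exact indep_gaussRing h.prime h.unif₂ h.poly₂ h.gauss₂ h.c_indep a
      (fun j => h.gaussRing_eq ▸ ha j) hsum j
  le := h.le

/-- The fundamental inequality is an equality: `[F : K] = f₁ + f₂`. -/
theorem card [FiniteDimensional K F] (h : GaussPairLe (K := K) ϖ V₁ V₂ b c) :
    f₁ + f₂ = Module.finrank K F := h.twoExtLe.card

theorem gaussPair [FiniteDimensional K F] (h : GaussPairLe (K := K) ϖ V₁ V₂ b c) :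
    GaussPair (K := K) ϖ V₁ V₂ b c where
  prime := h.prime
  unif₁ := h.unif₁
  unif₂ := h.unif₂
  poly₁ := h.poly₁
  poly₂ := h.poly₂
  gauss₁ := h.gauss₁
  gauss₂ := h.gauss₂
  ne := h.ne
  b_mem := h.b_mem
  c_mem := h.c_mem
  b_indep := h.b_indep
  c_indep := h.c_indep
  card := h.card

/-- **`q`-expansion principle for the two-component model** (inequality form). -/
theorem qep2 [FiniteDimensional K F] (h : GaussPairLe (K := K) ϖ V₁ V₂ b c) {u : F}
    (hu : IsIntegral R[X] u)
    (h₁ : u * (algebraMap R[X] F (C ϖ))⁻¹ ∈ V₁) (h₂ : u * (algebraMap R[X] F (C ϖ))⁻¹ ∈ V₂) :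
    IsIntegral R[X] (u * (algebraMap R[X] F (C ϖ))⁻¹) :=
  h.gaussPair.qep2 hu h₁ h₂

/-- The special fibre is reduced (inequality form). -/
theorem reduced [FiniteDimensional K F] (h : GaussPairLe (K := K) ϖ V₁ V₂ b c) {u : F}
    (hu : IsIntegral R[X] u) {k : ℕ}
    (h₁ : u ^ k * (algebraMap R[X] F (C ϖ))⁻¹ ∈ V₁)
    (h₂ : u ^ k * (algebraMap R[X] F (C ϖ))⁻¹ ∈ V₂) :
    IsIntegral R[X] (u * (algebraMap R[X] F (C ϖ))⁻¹) :=
  h.gaussPair.reduced hu h₁ h₂

/-- No third extension (inequality form). -/
theorem exists_monic_of_mem [FiniteDimensional K F] (h : GaussPairLe (K := K) ϖ V₁ V₂ b c)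
    {u : F} (hu₁ : u ∈ V₁) (hu₂ : u ∈ V₂) :
    ∃ p : K[X], p.Monic ∧ (∀ i, p.coeff i ∈ gaussRing K V₁) ∧ aeval u p = 0 :=
  h.gaussPair.exists_monic_of_mem hu₁ hu₂

end GaussPairLe

end Gauss

end Fermat.Agent.A2.H48

end
-- ===== PACK-END A2/H48/Qep2Le.lean

-- ===== PACK-BEGIN S35/H858/NormBC.lean
section





/-!
# S35, cell FROB, leaf QNF (helper858) — norms commute with the constant field extension `E ⊆ ℚ̄`

`E ⊆ ℚ̄` an intermediate field, `F₀ ⊆ ℚ((t))`, `F_E = laurentBaseChange E F₀`,
`F̄ = laurentBaseChange ℚ̄ F₀`, `iota : F_E → F̄` (helper669).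

* `constFamily E F₀`          : the constants `ε_j`, `ε` an `E`-basis of `ℚ̄`, as elements of `F̄`;
* `linearIndependent_const`   : they are linearly independent over `F_E` (coefficientwise);
* `span_const_eq_top`         : they span `F̄` over `F_E` (`F̄ = F_E[ℚ̄]`, as `ℚ̄ / E` is algebraic);
* `constBasis E F₀`           : the resulting `F_E`-basis of `F̄`;
* `iota_normAlong`            : for compatible `ψ : F_{0,E} → F_{1,E}`, `ψ' : F̄_0 → F̄_1` with
  `ψ'` finite: `iota (N_ψ y) = N_ψ' (iota y)`;
* `finiteAlong_of_bar`        : `ψ'` finite ⟹ `ψ` finite;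
* `iota_normAlong_alpha`, `iota_normAlong_beta` : the modular instances
  (`heckeAlphaBar`, `heckeBetaBar`).
-/

set_option autoImplicit false
set_option linter.style.haveILetI false
set_option synthInstance.maxHeartbeats 400000
set_option maxHeartbeats 1600000

noncomputable section

namespace Fermat.Agent.S35.H858

open ModularCurve AlgebraicCurve Module Fermat.Agent.A2.T1.H669

variable (E : IntermediateField ℚ Qb) (F₀ : IntermediateField ℚ (LaurentSeries ℚ))

/-- The index set of a basis of `ℚ̄` over `E`. -/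
abbrev JE : Type := Basis.ofVectorSpaceIndex E Qb

/-- A basis of `ℚ̄` over `E`. -/
def epsE : Basis (JE E) E Qb := Basis.ofVectorSpace E Qb

/-- The constants `ε_j` as elements of `F̄`. -/
def constFamily (j : JE E) : ↥(laurentBaseChange Qb F₀) :=
  algebraMap Qb ↥(laurentBaseChange Qb F₀) (epsE E j)

theorem coeff_smul_const (g : ↥(laurentBaseChange E F₀)) (e : Qb) (n : ℤ) :
    ((iota E F₀ g * algebraMap Qb ↥(laurentBaseChange Qb F₀) e :
        ↥(laurentBaseChange Qb F₀)) : LaurentSeries Qb).coeff n =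
      ((g : LaurentSeries E).coeff n) • e := by
  have h1 : ((iota E F₀ g * algebraMap Qb ↥(laurentBaseChange Qb F₀) e :
        ↥(laurentBaseChange Qb F₀)) : LaurentSeries Qb) =
      coeffMap (algebraMap E Qb) (g : LaurentSeries E) * HahnSeries.single 0 e := by
    rw [← algebraMap_laurentSeries_eq_single]
    rfl
  rw [h1, HahnSeries.coeff_mul_single_zero, coeffMap_coeff, Algebra.smul_def]

/-- The constants `ε_j` are linearly independent over `F_E`. -/
theorem linearIndependent_const :
    letI := algFEFbar E F₀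
    LinearIndependent ↥(laurentBaseChange E F₀) (constFamily E F₀) := by
  letI := algFEFbar E F₀
  rw [linearIndependent_iff']
  intro s g hg i hi
  apply Subtype.ext
  apply HahnSeries.ext
  funext n
  have h1 : ∑ j ∈ s, ((g j : LaurentSeries E).coeff n) • (epsE E j) = 0 := by
    let φ : ↥(laurentBaseChange Qb F₀) →+ Qb :=
      (HahnSeries.coeff.addMonoidHom n).comp
        ((laurentBaseChange Qb F₀).val : ↥(laurentBaseChange Qb F₀) →+ LaurentSeries Qb)
    have h2 : φ (∑ j ∈ s, g j • constFamily E F₀ j) = 0 := by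
      rw [hg, map_zero]
    rw [map_sum] at h2
    rw [← h2]
    refine Finset.sum_congr rfl fun j _ => ?_
    rw [← coeff_smul_const E F₀ (g j) (epsE E j) n]
    rfl
  exact linearIndependent_iff'.mp (epsE E).linearIndependent s
    (fun j => (g j : LaurentSeries E).coeff n) h1 i hi

/-- `F̄` is generated over `F_E` by the constants. -/
theorem adjoin_const_eq_top :
    letI := algFEFbar E F₀
    IntermediateField.adjoin ↥(laurentBaseChange E F₀)
      (Set.range (algebraMap Qb ↥(laurentBaseChange Qb F₀))) = ⊤ := by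
  letI := algFEFbar E F₀
  rw [eq_top_iff]
  rintro ⟨z, hz⟩ -
  have key : ∃ w : ↥(laurentBaseChange Qb F₀),
      w ∈ IntermediateField.adjoin ↥(laurentBaseChange E F₀)
        (Set.range (algebraMap Qb ↥(laurentBaseChange Qb F₀))) ∧
      (w : LaurentSeries Qb) = z := by
    have hz2 := hz
    rw [mem_laurentBaseChange_iff] at hz2
    induction hz2 using Subfield.closure_induction with
    | mem y hy =>
        rcases hy with ⟨a, rfl⟩ | ⟨z₀, hz₀, rfl⟩
        · exact ⟨algebraMap Qb ↥(laurentBaseChange Qb F₀) a,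
            IntermediateField.subset_adjoin _ _ ⟨a, rfl⟩, rfl⟩
        · refine ⟨algebraMap ↥(laurentBaseChange E F₀) ↥(laurentBaseChange Qb F₀)
                ⟨coeffEmb E z₀, coeffEmb_mem_laurentBaseChange E hz₀⟩,
            IntermediateField.algebraMap_mem _ _, ?_⟩
          exact Fermat.Agent.S18.H602.coeffMap_coeffEmb' (algebraMap E Qb) z₀
    | one => exact ⟨1, one_mem _, rfl⟩
    | add x y hx' hy' hx hy =>
        obtain ⟨w₁, hw₁, rfl⟩ := hx ((mem_laurentBaseChange_iff).2 hx')
        obtain ⟨w₂, hw₂, rfl⟩ := hy ((mem_laurentBaseChange_iff).2 hy')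
        exact ⟨w₁ + w₂, add_mem hw₁ hw₂, rfl⟩
    | neg x hx' hx =>
        obtain ⟨w₁, hw₁, rfl⟩ := hx ((mem_laurentBaseChange_iff).2 hx')
        exact ⟨-w₁, neg_mem hw₁, rfl⟩
    | inv x hx' hx =>
        obtain ⟨w₁, hw₁, rfl⟩ := hx ((mem_laurentBaseChange_iff).2 hx')
        exact ⟨w₁⁻¹, inv_mem hw₁, IntermediateField.coe_inv _ _⟩
    | mul x y hx' hy' hx hy =>
        obtain ⟨w₁, hw₁, rfl⟩ := hx ((mem_laurentBaseChange_iff).2 hx')
        obtain ⟨w₂, hw₂, rfl⟩ := hy ((mem_laurentBaseChange_iff).2 hy')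
        exact ⟨w₁ * w₂, mul_mem hw₁ hw₂, rfl⟩
  obtain ⟨w, hw, hwz⟩ := key
  have hwz' : w = ⟨z, hz⟩ := Subtype.ext hwz
  rw [← hwz']
  exact hw

/-- Every constant is an `F_E`-combination of the `ε_j`. -/
theorem const_mem_span (e : Qb) :
    letI := algFEFbar E F₀
    algebraMap Qb ↥(laurentBaseChange Qb F₀) e ∈
      Submodule.span ↥(laurentBaseChange E F₀) (Set.range (constFamily E F₀)) := by
  letI := algFEFbar E F₀
  have h1 : e = ∑ j ∈ ((epsE E).repr e).support, ((epsE E).repr e j) • epsE E j := by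
    conv_lhs => rw [← (epsE E).linearCombination_repr e]
    rw [Finsupp.linearCombination_apply, Finsupp.sum]
  rw [h1, map_sum]
  refine Submodule.sum_mem _ fun j _ => ?_
  have h2 : algebraMap Qb ↥(laurentBaseChange Qb F₀) (((epsE E).repr e j) • epsE E j) =
      (algebraMap E ↥(laurentBaseChange E F₀) ((epsE E).repr e j)) • constFamily E F₀ j := by
    rw [Algebra.smul_def, Algebra.smul_def, map_mul]
    congr 1
    exact (iota_algebraMap E F₀ _).symm
  rw [h2]
  exact Submodule.smul_mem _ _ (Submodule.subset_span ⟨j, rfl⟩)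

/-- The constants `ε_j` span `F̄` over `F_E`. -/
theorem span_const_eq_top :
    letI := algFEFbar E F₀
    Submodule.span ↥(laurentBaseChange E F₀) (Set.range (constFamily E F₀)) = ⊤ := by
  letI := algFEFbar E F₀
  haveI := towerEFEFbar E F₀
  have halg : ∀ x ∈ Set.range (algebraMap Qb ↥(laurentBaseChange Qb F₀)),
      IsAlgebraic ↥(laurentBaseChange E F₀) x := by
    rintro _ ⟨a, rfl⟩
    exact (isAlgebraic_const E F₀ a).tower_top ↥(laurentBaseChange E F₀)
  have h1 := IntermediateField.adjoin_toSubalgebra_of_isAlgebraic halg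
  rw [adjoin_const_eq_top E F₀] at h1
  have h2 := Algebra.adjoin_eq_span (R := ↥(laurentBaseChange E F₀))
    (s := Set.range (algebraMap Qb ↥(laurentBaseChange Qb F₀)))
  rw [← h1] at h2
  have h3 : (Submonoid.closure (Set.range (algebraMap Qb ↥(laurentBaseChange Qb F₀))) :
      Set ↥(laurentBaseChange Qb F₀)) = Set.range (algebraMap Qb ↥(laurentBaseChange Qb F₀)) := by
    have : Set.range (algebraMap Qb ↥(laurentBaseChange Qb F₀)) =
        ((MonoidHom.mrange ((algebraMap Qb ↥(laurentBaseChange Qb F₀) : Qb →+* _) :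
          Qb →* ↥(laurentBaseChange Qb F₀)) : Submonoid _) : Set _) := by
      ext x; simp
    rw [this, Submonoid.closure_eq]
  rw [h3] at h2
  rw [eq_top_iff]
  have h4 : Submodule.span ↥(laurentBaseChange E F₀)
      (Set.range (algebraMap Qb ↥(laurentBaseChange Qb F₀))) ≤
      Submodule.span ↥(laurentBaseChange E F₀) (Set.range (constFamily E F₀)) := by
    rw [Submodule.span_le]
    rintro _ ⟨e, rfl⟩
    exact const_mem_span E F₀ e
  refine le_trans ?_ h4
  rw [← h2]
  intro z _
  exact @Algebra.mem_top ↥(laurentBaseChange E F₀) ↥(laurentBaseChange Qb F₀) _ _ _ z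

/-- The `F_E`-basis `ε_j` of `F̄`. -/
def constBasis :
    letI := algFEFbar E F₀
    Basis (JE E) ↥(laurentBaseChange E F₀) ↥(laurentBaseChange Qb F₀) :=
  letI := algFEFbar E F₀
  Basis.mk (linearIndependent_const E F₀) (span_const_eq_top E F₀).ge

theorem constBasis_apply (j : JE E) :
    letI := algFEFbar E F₀
    constBasis E F₀ j = algebraMap Qb ↥(laurentBaseChange Qb F₀) (epsE E j) := by
  letI := algFEFbar E F₀
  exact Basis.mk_apply (linearIndependent_const E F₀) (span_const_eq_top E F₀).ge j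

/-! ## Norms -/

section Norm

variable (F₁ : IntermediateField ℚ (LaurentSeries ℚ))
variable (ψ : ↥(laurentBaseChange E F₀) →ₐ[E] ↥(laurentBaseChange E F₁))
  (ψ' : ↥(laurentBaseChange Qb F₀) →ₐ[Qb] ↥(laurentBaseChange Qb F₁))

/-- If `ψ'` (over `ℚ̄`) is finite, so is `ψ` (over `E`). -/
theorem finiteAlong_of_bar (hc : ∀ a, iota E F₁ (ψ a) = ψ' (iota E F₀ a))
    (hfin : FiniteAlong Qb ψ') : FiniteAlong E ψ := by
  letI a1 : Algebra ↥(laurentBaseChange E F₀) ↥(laurentBaseChange E F₁) := algebraAlong ψ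
  letI a2 : Algebra ↥(laurentBaseChange E F₀) ↥(laurentBaseChange Qb F₀) := algFEFbar E F₀
  letI a3 : Algebra ↥(laurentBaseChange Qb F₀) ↥(laurentBaseChange Qb F₁) := algebraAlong ψ'
  letI a4 : Algebra ↥(laurentBaseChange E F₁) ↥(laurentBaseChange Qb F₁) := algFEFbar E F₁
  letI a5 : Algebra ↥(laurentBaseChange E F₀) ↥(laurentBaseChange Qb F₁) :=
    ((iota E F₁).comp ψ.toRingHom).toAlgebra
  haveI t1 : IsScalarTower ↥(laurentBaseChange E F₀) ↥(laurentBaseChange E F₁)
      ↥(laurentBaseChange Qb F₁) := IsScalarTower.of_algebraMap_eq fun a => rfl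
  haveI t2 : IsScalarTower ↥(laurentBaseChange E F₀) ↥(laurentBaseChange Qb F₀)
      ↥(laurentBaseChange Qb F₁) := IsScalarTower.of_algebraMap_eq fun a => hc a
  haveI : Module.Finite ↥(laurentBaseChange Qb F₀) ↥(laurentBaseChange Qb F₁) := hfin
  have hε : ∀ j, constBasis E F₁ j =
      algebraMap ↥(laurentBaseChange Qb F₀) ↥(laurentBaseChange Qb F₁) (constBasis E F₀ j) := by
    intro j
    rw [constBasis_apply, constBasis_apply]
    exact (ψ'.commutes _).symm
  exact finite_of_common_basis (constBasis E F₀) (constBasis E F₁) hε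

/-- **Norms commute with the constant field extension.** -/
theorem iota_normAlong (hc : ∀ a, iota E F₁ (ψ a) = ψ' (iota E F₀ a))
    (hfin : FiniteAlong Qb ψ') (y : ↥(laurentBaseChange E F₁)) :
    iota E F₀ (Fermat.Agent.S29.H395.normAlong ψ y) =
      Fermat.Agent.S29.H395.normAlong ψ' (iota E F₁ y) := by
  letI a1 : Algebra ↥(laurentBaseChange E F₀) ↥(laurentBaseChange E F₁) := algebraAlong ψ
  letI a2 : Algebra ↥(laurentBaseChange E F₀) ↥(laurentBaseChange Qb F₀) := algFEFbar E F₀
  letI a3 : Algebra ↥(laurentBaseChange Qb F₀) ↥(laurentBaseChange Qb F₁) := algebraAlong ψ'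
  letI a4 : Algebra ↥(laurentBaseChange E F₁) ↥(laurentBaseChange Qb F₁) := algFEFbar E F₁
  letI a5 : Algebra ↥(laurentBaseChange E F₀) ↥(laurentBaseChange Qb F₁) :=
    ((iota E F₁).comp ψ.toRingHom).toAlgebra
  haveI t1 : IsScalarTower ↥(laurentBaseChange E F₀) ↥(laurentBaseChange E F₁)
      ↥(laurentBaseChange Qb F₁) := IsScalarTower.of_algebraMap_eq fun a => rfl
  haveI t2 : IsScalarTower ↥(laurentBaseChange E F₀) ↥(laurentBaseChange Qb F₀)
      ↥(laurentBaseChange Qb F₁) := IsScalarTower.of_algebraMap_eq fun a => hc a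
  haveI : Module.Finite ↥(laurentBaseChange Qb F₀) ↥(laurentBaseChange Qb F₁) := hfin
  have hε : ∀ j, constBasis E F₁ j =
      algebraMap ↥(laurentBaseChange Qb F₀) ↥(laurentBaseChange Qb F₁) (constBasis E F₀ j) := by
    intro j
    rw [constBasis_apply, constBasis_apply]
    exact (ψ'.commutes _).symm
  haveI : Module.Finite ↥(laurentBaseChange E F₀) ↥(laurentBaseChange E F₁) :=
    finite_of_common_basis (constBasis E F₀) (constBasis E F₁) hε
  exact norm_algebraMap_of_common_basis (constBasis E F₀) (constBasis E F₁) hε y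

end Norm

/-! ## The modular instances -/

section Modular

variable (M q : ℕ) [NeZero M] [NeZero q]

theorem iota_heckeAlphaBar (a : ↥(laurentBaseChange E (modularFunctionFieldFull M))) :
    iota E (modularFunctionFieldFull (M * q)) (heckeAlphaBar E M q a) =
      heckeAlphaBar Qb M q (iota E (modularFunctionFieldFull M) a) :=
  Subtype.ext (by rw [coe_iota, coe_heckeAlphaBar, coe_heckeAlphaBar, coe_iota])

theorem iota_heckeBetaBar (a : ↥(laurentBaseChange E (modularFunctionFieldFull M))) :
    iota E (modularFunctionFieldFull (M * q)) (heckeBetaBar E M q a) =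
      heckeBetaBar Qb M q (iota E (modularFunctionFieldFull M) a) :=
  Subtype.ext (by
    rw [coe_iota, coe_heckeBetaBar, coe_heckeBetaBar, coe_iota, coeffMap_qExpand])

/-- The norm along `α` commutes with `E ⊆ ℚ̄`. -/
theorem iota_normAlong_alpha (hfin : FiniteAlong Qb (heckeAlphaBar Qb M q))
    (y : ↥(laurentBaseChange E (modularFunctionFieldFull (M * q)))) :
    iota E (modularFunctionFieldFull M)
        (Fermat.Agent.S29.H395.normAlong (heckeAlphaBar E M q) y) =
      Fermat.Agent.S29.H395.normAlong (heckeAlphaBar Qb M q)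
        (iota E (modularFunctionFieldFull (M * q)) y) :=
  iota_normAlong E _ _ _ _ (iota_heckeAlphaBar E M q) hfin y

/-- The norm along `β` commutes with `E ⊆ ℚ̄`. -/
theorem iota_normAlong_beta (hfin : FiniteAlong Qb (heckeBetaBar Qb M q))
    (y : ↥(laurentBaseChange E (modularFunctionFieldFull (M * q)))) :
    iota E (modularFunctionFieldFull M)
        (Fermat.Agent.S29.H395.normAlong (heckeBetaBar E M q) y) =
      Fermat.Agent.S29.H395.normAlong (heckeBetaBar Qb M q)
        (iota E (modularFunctionFieldFull (M * q)) y) :=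
  iota_normAlong E _ _ _ _ (iota_heckeBetaBar E M q) hfin y

end Modular

end Fermat.Agent.S35.H858

end
end
-- ===== PACK-END S35/H858/NormBC.lean

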