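import Mathlib
import Fermat.Prelude.Def_ModularCurve_HeckeModule
import Mathlib.RingTheory.PowerSeries.Expand
import Fermat.Prelude.Def_ModularCurve_ArithmeticGalois
import Fermat.Prelude.Def_ModularCurve_ModularUnit
import Fermat.Agent.Pack.S44.G0E13L0
import Fermat.Agent.Pack.S44.G0E13L3
import Fermat.Agent.Pack.S44.G0E13L2
import Fermat.Agent.Pack.S44.G0E14L2
import Fermat.Agent.Pack.S44.G0E14L3
import Fermat.Agent.Pack.S44.G0E10L1
import Fermat.Agent.Pack.S44.G0E0L0
import Fermat.Agent.Pack.S44.G0E13L1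
import Fermat.Agent.Pack.S44.G0E10L0
import Fermat.Agent.Pack.S44.G0E7L3
import Fermat.Agent.Pack.S44.G0E11L1
import Fermat.Agent.Pack.S44.G0E7L2
import Fermat.Agent.Pack.S44.G0E14L0
import Fermat.Agent.Pack.S44.G0E14L1
import Fermat.Agent.Pack.S44.G0E7L0
import Fermat.Agent.Pack.S44.G0E8L0
import Fermat.Agent.Pack.S44.G0E11L0

-- ===== PACK-BEGIN S29/H801/M1Modular.lean
section
/-
S29 / M1 (helper801), part 3: the Prelude Hecke operators `heckeOperatorAlong L N ℓ` commute
(`HeckeOperatorsCommuteBar N` for `L = ℚ̄`), from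

* `hi`  : the Prelude's `HeckeInputsAlong` at all levels (piece HI),
* `lg`  : local generators along the degeneracy maps `α` (weak approximation),
* `nc`  : norm compatibility of the mixed squares (`F_{Nℓℓ'} = F_{Nℓ} ⊗_{F_N} F_{Nℓ'}`).

No places ↔ points dictionary is used.
-/




set_option autoImplicit false
set_option linter.style.haveILetI false

noncomputable section

namespace Fermat.Agent.S29.H801

open AlgebraicCurve ModularCurve Fermat.Agent.S37.H818

variable (L : Type*) [Field L] [Algebra ℚ L]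

/-- The function field of level `N` over `L` (as a type). -/
abbrev FB (N : ℕ) [NeZero N] : Type _ := ↥(laurentBaseChange L (modularFunctionFieldFull N))

section Retarget

variable (M ℓ M' : ℕ) [NeZero M] [NeZero ℓ] [NeZero M']

/-- `heckeAlphaBar L M ℓ` with codomain level renamed along `M * ℓ = M'`. -/
def alphaTo (h : M * ℓ = M') : _root_.Fermat.Agent.S29.H801.FB L M →ₐ[L] _root_.Fermat.Agent.S29.H801.FB L M' := by
  subst h
  exact heckeAlphaBar L M ℓ

/-- `heckeBetaBar L M ℓ` with codomain level renamed along `M * ℓ = M'`. -/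
def betaTo (h : M * ℓ = M') : _root_.Fermat.Agent.S29.H801.FB L M →ₐ[L] _root_.Fermat.Agent.S29.H801.FB L M' := by
  subst h
  exact heckeBetaBar L M ℓ

variable {M ℓ M'}

@[simp] theorem coe_alphaTo (h : M * ℓ = M') (x : _root_.Fermat.Agent.S29.H801.FB L M) :
    ((alphaTo L M ℓ M' h x : _root_.Fermat.Agent.S29.H801.FB L M') : LaurentSeries L) = (x : LaurentSeries L) := by
  subst h
  exact coe_heckeAlphaBar M ℓ x

@[simp] theorem coe_betaTo (h : M * ℓ = M') (x : _root_.Fermat.Agent.S29.H801.FB L M) :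
    ((betaTo L M ℓ M' h x : _root_.Fermat.Agent.S29.H801.FB L M') : LaurentSeries L) = qExpand L ℓ (x : LaurentSeries L) := by
  subst h
  exact coe_heckeBetaBar M ℓ x

theorem alphaTo_rfl : alphaTo L M ℓ (M * ℓ) rfl = heckeAlphaBar L M ℓ := rfl

theorem betaTo_rfl : betaTo L M ℓ (M * ℓ) rfl = heckeBetaBar L M ℓ := rfl

theorem alphaTo_integral (h : M * ℓ = M') (hα : HeckeAlphaBarIntegral L M ℓ) :
    (alphaTo L M ℓ M' h).toRingHom.IsIntegral := by
  subst h
  exact hα

theorem betaTo_integral (h : M * ℓ = M') (hβ : HeckeBetaBarIntegral L M ℓ) :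
    (betaTo L M ℓ M' h).toRingHom.IsIntegral := by
  subst h
  exact hβ

theorem alphaTo_finite (h : M * ℓ = M') (hfin : FiniteAlong L (heckeAlphaBar L M ℓ)) :
    FiniteAlong L (alphaTo L M ℓ M' h) := by
  subst h
  exact hfin

theorem alphaTo_normFormula (h : M * ℓ = M') (hfin : FiniteAlong L (heckeAlphaBar L M ℓ))
    (hN : NormFormulaAlong L (heckeAlphaBar L M ℓ) hfin) :
    NormFormulaAlong L (alphaTo L M ℓ M' h) (alphaTo_finite L h hfin) := by
  subst h
  exact hN

theorem hasPrincipalDivisors_of_eq (h : M * ℓ = M')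
    (hP : HasPrincipalDivisors L (_root_.Fermat.Agent.S29.H801.FB L (M * ℓ))) : HasPrincipalDivisors L (_root_.Fermat.Agent.S29.H801.FB L M') := by
  subst h
  exact hP

end Retarget

/-- The inputs of the commutation theorem. -/
structure M1Inputs : Prop where
  /-- piece `HI` at all levels -/
  hi : ∀ (M ℓ : ℕ) [NeZero M] [NeZero ℓ], ℓ.Prime → HeckeInputsAlong L M ℓ
  /-- local generators along `α` -/
  lg : ∀ (M ℓ : ℕ) [NeZero M] [NeZero ℓ], ℓ.Prime → ∀ hα : HeckeAlphaBarIntegral L M ℓ,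
    HasLocalGenerators (heckeAlphaBar L M ℓ) hα
  /-- norm compatibility of the mixed square
  `F_N --α_{ℓ'}--> F_{Nℓ'}`, `F_N --β_ℓ--> F_{Nℓ}`, `F_{Nℓ} --α_{ℓ'}--> F_{Nℓℓ'}`,
  `F_{Nℓ'} --β_ℓ--> F_{Nℓℓ'}`. -/
  nc : ∀ (N ℓ ℓ' : ℕ) [NeZero N] [NeZero ℓ] [NeZero ℓ'], ℓ.Prime → ℓ'.Prime → ℓ ≠ ℓ' →
    NormCompat (heckeAlphaBar L N ℓ') (heckeBetaBar L N ℓ) (heckeAlphaBar L (N * ℓ) ℓ')
      (betaTo L (N * ℓ') ℓ (N * ℓ * ℓ') (Nat.mul_right_comm N ℓ' ℓ))

variable {L}

theorem M1Inputs.nc' (H : M1Inputs L) (N ℓ ℓ' M' : ℕ) [NeZero N] [NeZero ℓ] [NeZero ℓ']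
    [NeZero M'] (hℓ : ℓ.Prime) (hℓ' : ℓ'.Prime) (hne : ℓ ≠ ℓ')
    (h₁ : N * ℓ * ℓ' = M') (h₂ : N * ℓ' * ℓ = M') :
    NormCompat (heckeAlphaBar L N ℓ') (heckeBetaBar L N ℓ) (alphaTo L (N * ℓ) ℓ' M' h₁)
      (betaTo L (N * ℓ') ℓ M' h₂) := by
  subst h₁
  exact H.nc N ℓ ℓ' hℓ hℓ' hne

section Relations

variable (N ℓ ℓ' : ℕ) [NeZero N] [NeZero ℓ] [NeZero ℓ']

theorem rel_AA :
    (heckeAlphaBar L (N * ℓ) ℓ').comp (heckeAlphaBar L N ℓ) =
      (alphaTo L (N * ℓ') ℓ (N * ℓ * ℓ') (Nat.mul_right_comm N ℓ' ℓ)).comp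
        (heckeAlphaBar L N ℓ') := by
  refine AlgHom.ext fun x => Subtype.ext ?_
  simp only [AlgHom.comp_apply, coe_heckeAlphaBar, coe_alphaTo]

theorem rel_BB :
    (heckeBetaBar L (N * ℓ) ℓ').comp (heckeBetaBar L N ℓ) =
      (betaTo L (N * ℓ') ℓ (N * ℓ * ℓ') (Nat.mul_right_comm N ℓ' ℓ)).comp
        (heckeBetaBar L N ℓ') := by
  refine AlgHom.ext fun x => Subtype.ext ?_
  simp only [AlgHom.comp_apply, coe_heckeBetaBar, coe_betaTo]
  rw [qExpand_qExpand, qExpand_qExpand]
  exact qExpand_congr (mul_comm ℓ' ℓ) _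

theorem rel_sq₁ :
    (betaTo L (N * ℓ') ℓ (N * ℓ * ℓ') (Nat.mul_right_comm N ℓ' ℓ)).comp (heckeAlphaBar L N ℓ') =
      (heckeAlphaBar L (N * ℓ) ℓ').comp (heckeBetaBar L N ℓ) := by
  refine AlgHom.ext fun x => Subtype.ext ?_
  simp only [AlgHom.comp_apply, coe_heckeAlphaBar, coe_heckeBetaBar, coe_betaTo]

theorem rel_sq₂ :
    (heckeBetaBar L (N * ℓ) ℓ').comp (heckeAlphaBar L N ℓ) =
      (alphaTo L (N * ℓ') ℓ (N * ℓ * ℓ') (Nat.mul_right_comm N ℓ' ℓ)).comp
        (heckeBetaBar L N ℓ') := by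
  refine AlgHom.ext fun x => Subtype.ext ?_
  simp only [AlgHom.comp_apply, coe_heckeAlphaBar, coe_heckeBetaBar, coe_alphaTo]

end Relations

/-- **Commutation of the Prelude Hecke operators** `heckeOperatorAlong L N ℓ` for two
distinct primes. -/
theorem heckeOperatorAlong_comm_of_ne (H : M1Inputs L) (N ℓ ℓ' : ℕ) [NeZero N] [NeZero ℓ]
    [NeZero ℓ'] (hℓ : ℓ.Prime) (hℓ' : ℓ'.Prime) (hne : ℓ ≠ ℓ')
    (x : Pic0 L (laurentBaseChange L (modularFunctionFieldFull N))) :
    heckeOperatorAlong L N ℓ (heckeOperatorAlong L N ℓ' x) =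
      heckeOperatorAlong L N ℓ' (heckeOperatorAlong L N ℓ x) := by
  obtain ⟨hα₁, hβ₁, hP₁, hfin₁, hFI₁, hN₁⟩ := H.hi N ℓ hℓ
  obtain ⟨hα₂, hβ₂, hP₂, hfin₂, hFI₂, hN₂⟩ := H.hi N ℓ' hℓ'
  obtain ⟨hαA₂, hβB₂, hP₁₂, hfinA₂, hFIB₂, hNA₂⟩ := H.hi (N * ℓ) ℓ' hℓ'
  obtain ⟨hαA₁, hβB₁, hP₂₁, hfinA₁, hFIB₁, hNA₁⟩ := H.hi (N * ℓ') ℓ hℓ
  rw [heckeOperatorAlong_eq hα₁ hβ₁ hFI₁ hfin₁ hN₁, heckeOperatorAlong_eq hα₂ hβ₂ hFI₂ hfin₂ hN₂]
  have hc : N * ℓ' * ℓ = N * ℓ * ℓ' := Nat.mul_right_comm N ℓ' ℓ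
  exact pic0_correspondence_comm
    (heckeAlphaBar L N ℓ) (heckeBetaBar L N ℓ) (heckeAlphaBar L N ℓ') (heckeBetaBar L N ℓ')
    (heckeAlphaBar L (N * ℓ) ℓ') (heckeBetaBar L (N * ℓ) ℓ')
    (alphaTo L (N * ℓ') ℓ (N * ℓ * ℓ') hc) (betaTo L (N * ℓ') ℓ (N * ℓ * ℓ') hc)
    hα₁ hβ₁ hα₂ hβ₂ hαA₂ hβB₂ (alphaTo_integral L hc hαA₁) (betaTo_integral L hc hβB₁)
    (rel_AA N ℓ ℓ') (rel_BB N ℓ ℓ') (rel_sq₁ N ℓ ℓ') (rel_sq₂ N ℓ ℓ')
    hFI₁ hFI₂ hfin₁ hN₁ hfin₂ hN₂
    (alphaTo_finite L hc hfinA₁) (alphaTo_normFormula L hc hfinA₁ hNA₁) hfinA₂ hNA₂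
    (H.nc N ℓ ℓ' hℓ hℓ' hne)
    (H.nc' N ℓ' ℓ (N * ℓ * ℓ') hℓ' hℓ hne.symm hc rfl)
    (H.lg N ℓ hℓ hα₁) (H.lg N ℓ' hℓ' hα₂) x

/-- **Piece M1**: `HeckeOperatorsCommuteBar N` from the inputs over `ℚ̄`. -/
theorem heckeOperatorsCommuteBar_of_inputs (H : M1Inputs (AlgebraicClosure ℚ)) (N : ℕ)
    [NeZero N] : HeckeOperatorsCommuteBar N := by
  intro ℓ ℓ'
  by_cases hne : (ℓ : ℕ) = ℓ'
  · have : ℓ = ℓ' := Subtype.ext hne
    subst this
    rfl
  · haveI : NeZero (ℓ : ℕ) := ⟨ℓ.2.ne_zero⟩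
    haveI : NeZero (ℓ' : ℕ) := ⟨ℓ'.2.ne_zero⟩
    ext x
    simp only [Module.End.mul_apply, heckeOperatorBar_apply]
    exact heckeOperatorAlong_comm_of_ne H N ℓ ℓ' ℓ.2 ℓ'.2 hne x

end Fermat.Agent.S29.H801

end

end
-- ===== PACK-END S29/H801/M1Modular.lean

-- ===== PACK-BEGIN S28/H867/Prime.lean
section



set_option autoImplicit false
noncomputable section
open ModularCurve HahnSeries IntermediateField Polynomial

namespace Fermat.Agent.S28.H867

section Prime

variable (k : Type*) [Field k]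

theorem jq_mem_jField : jqModC k ∈ jField k := mem_adjoin_simple_self k _

theorem jp_mem_jpField (p : ℕ) [NeZero p] : jp k p ∈ jpField k p := mem_adjoin_simple_self k _

theorem jpField_le_fieldRange (p : ℕ) [NeZero p] :
    jpField k p ≤ (qExpandAlgHomC k p).fieldRange := by
  rw [jpField, adjoin_simple_le_iff]
  exact ⟨jqModC k, rfl⟩

theorem qExpand_injective' (p : ℕ) [NeZero p] : Function.Injective (qExpand k p) :=
  (qExpand k p).injective

/-- natDegree of the minimal polynomial of `j` over a subfield of `range V_p` is `≥ p`. -/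
theorem le_natDegree_minpoly {p : ℕ} [NeZero p] (hI : LeafI k p)
    (B : IntermediateField k (LaurentSeries k)) (hB : B ≤ (qExpandAlgHomC k p).fieldRange)
    (hint : IsIntegral B (jqModC k)) : p ≤ (minpoly B (jqModC k)).natDegree := by
  rw [← relfinrank_sup_adjoin_simple B hint]
  refine le_relfinrank_of_linearIndependent le_sup_left ?_ _ ?_ (hI B hB)
  · rw [relfinrank_sup_adjoin_simple B hint]
    exact (minpoly.natDegree_pos hint).ne'
  · intro i
    exact pow_mem ((le_sup_right : adjoin k {jqModC k} ≤ _) (mem_adjoin_simple_self k _)) _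

theorem primeLevel_of_leaves {p : ℕ} [NeZero p] (hp : p.Prime) (D : ModPolyData p)
    (hI : LeafI k p) (hB1 : LeafB1 k p) : PrimeLevel k p := by
  set j := jqModC k with hj
  set A := jpField k p with hA
  set R := (qExpandAlgHomC k p).fieldRange with hR
  have hAR : A ≤ R := jpField_le_fieldRange k p
  let y : A := ⟨jp k p, jp_mem_jpField k p⟩
  set ΦA := polyOver A y D.Φ with hΦA
  have hΦmonic : ΦA.Monic := polyOver_monic A y D.monic
  have hΦdeg : ΦA.natDegree = p + 1 := by
    rw [hΦA, polyOver_natDegree A y D.monic, D.natDegree_eq]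
  have hΦj : Polynomial.aeval j ΦA = 0 := by
    rw [hΦA, aeval_polyOver]; exact modPoly_eval_j_field k D
  have hΦjpp : Polynomial.aeval (qExpand k p (jp k p)) ΦA = 0 := by
    rw [hΦA, aeval_polyOver]
    exact eval₂_evalAt_qExpand p D.Φ _ _ (modPoly_eval_jp_field k D)
  have hint : IsIntegral A j := ⟨ΦA, hΦmonic, by rwa [Polynomial.aeval_def] at hΦj⟩
  set m := minpoly A j with hm
  have hmdvd : m ∣ ΦA := minpoly.dvd A j hΦj
  have hmmonic : m.Monic := minpoly.monic hint
  have hmle : m.natDegree ≤ p + 1 := by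
    rw [← hΦdeg]
    exact Polynomial.natDegree_le_of_dvd hmdvd hΦmonic.ne_zero
  have hmge : p ≤ m.natDegree := le_natDegree_minpoly k hI A hAR hint
  -- the key step: the degree is not `p`
  have hmne : m.natDegree ≠ p := by
    intro hmp
    obtain ⟨c, hc⟩ := hmdvd
    have hcmonic : c.Monic := hmmonic.of_mul_monic_left (hc ▸ hΦmonic)
    have hcdeg : c.natDegree = 1 := by
      have := congrArg Polynomial.natDegree hc
      rw [hmmonic.natDegree_mul hcmonic, hΦdeg, hmp] at this
      omega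
    have hroot : Polynomial.aeval (qExpand k p (jp k p)) m *
        Polynomial.aeval (qExpand k p (jp k p)) c = 0 := by
      rw [← map_mul, ← hc, hΦjpp]
    rcases mul_eq_zero.mp hroot with h0 | h0
    · -- `j_{p²}` is a root of `m`, but `m` is irreducible of degree `p ≥ 2` over `R`
      set incl : A →+* R := (IntermediateField.inclusion hAR).toRingHom with hincl
      have hcomp : (algebraMap R (LaurentSeries k)).comp incl = algebraMap A (LaurentSeries k) :=
        rfl
      set m' := m.map incl with hm'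
      have hm'monic : m'.Monic := hmmonic.map _
      have hm'deg : m'.natDegree = p := by rw [hm', hmmonic.natDegree_map, hmp]
      have hm'eval : ∀ x : LaurentSeries k, Polynomial.aeval x m' = Polynomial.aeval x m := by
        intro x
        rw [hm', Polynomial.aeval_def, Polynomial.eval₂_map, hcomp, ← Polynomial.aeval_def]
      have hintR : IsIntegral R j := by
        refine ⟨m', hm'monic, ?_⟩
        rw [← Polynomial.aeval_def, hm'eval]
        exact minpoly.aeval A j
      have hdvd : minpoly R j ∣ m' := minpoly.dvd R j (by rw [hm'eval]; exact minpoly.aeval A j)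
      have hge : p ≤ (minpoly R j).natDegree := le_natDegree_minpoly k hI R le_rfl hintR
      have heq : m' = minpoly R j :=
        Polynomial.eq_of_monic_of_dvd_of_natDegree_le (minpoly.monic hintR) hm'monic hdvd
          (by rw [hm'deg]; exact hge)
      have hirr : Irreducible m' := heq ▸ minpoly.irreducible hintR
      let r : R := ⟨qExpand k p (jp k p), ⟨jp k p, rfl⟩⟩
      have hr : m'.IsRoot r := by
        have h1 : Polynomial.aeval (algebraMap R (LaurentSeries k) r) m' = 0 := by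
          rw [hm'eval]; exact h0
        rw [Polynomial.aeval_algebraMap_apply] at h1
        have h3 : Polynomial.aeval r m' = 0 :=
          (algebraMap R (LaurentSeries k)).injective (by rw [h1, map_zero])
        simpa [Polynomial.IsRoot] using h3
      have hdeg1 := Polynomial.degree_eq_one_of_irreducible_of_root hirr hr
      have : m'.natDegree = 1 := Polynomial.natDegree_eq_of_degree_eq_some hdeg1
      have h2 := hp.two_le
      omega
    · -- `j_{p²} ∈ A`, hence `j_p ∈ k(j)`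
      have hc' : c = Polynomial.X + Polynomial.C (c.coeff 0) :=
        hcmonic.eq_X_add_C hcdeg
      rw [hc'] at h0
      simp only [map_add, Polynomial.aeval_X, Polynomial.aeval_C] at h0
      have hmem : qExpand k p (jp k p) ∈ A := by
        have : qExpand k p (jp k p) = -(algebraMap A (LaurentSeries k) (c.coeff 0)) :=
          eq_neg_of_add_eq_zero_left h0
        rw [this]
        exact neg_mem (c.coeff 0).2
      rw [hA, jpField_eq_map] at hmem
      obtain ⟨x, hx, hxe⟩ := hmem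
      have : x = jp k p := qExpand_injective' k p hxe
      exact hB1 (this ▸ hx)
  have hmdeg : m.natDegree = p + 1 := by omega
  have hmΦ : ΦA = m :=
    Polynomial.eq_of_monic_of_dvd_of_natDegree_le hmmonic hΦmonic hmdvd (by rw [hΦdeg, hmdeg])
  have hdeg_jp : A.relfinrank (jField k ⊔ A) = p + 1 := by
    rw [sup_comm, jField, relfinrank_sup_adjoin_simple A hint, ← hm, hmdeg]
  refine ⟨?_, hdeg_jp⟩
  -- transport along `V_p`
  set x := qExpand k p (jp k p) with hx
  have hintx : IsIntegral A x := ⟨ΦA, hΦmonic, by rwa [Polynomial.aeval_def] at hΦjpp⟩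
  have hirr : Irreducible ΦA := hmΦ ▸ minpoly.irreducible hint
  have hminx : ΦA = minpoly A x := minpoly.eq_of_irreducible_of_monic hirr hΦjpp hΦmonic
  have h1 : A.relfinrank (A ⊔ adjoin k {x}) = p + 1 := by
    rw [relfinrank_sup_adjoin_simple A hintx, ← hminx, hΦdeg]
  have h2 : A ⊔ adjoin k {x} = (jField k ⊔ jpField k p).map (qExpandAlgHomC k p) := by
    rw [IntermediateField.map_sup, ← jpField_eq_map, jpField, adjoin_map, Set.image_singleton]
    rfl
  rw [h2, hA, jpField_eq_map, relfinrank_map_map] at h1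
  rw [jpField_eq_map]
  exact h1

end Prime

end Fermat.Agent.S28.H867

end
end
-- ===== PACK-END S28/H867/Prime.lean

-- ===== PACK-BEGIN Ribet/H944/WallSpec5.lean
section


/-!
# Row 38, WALL-p: pointwise form of the filtration package and the `p ≥ 5` glue for S44
(wall architect helper944)

`AtPFiltrationStatement` of `WallSpec.lean` asks for the package at every odd `p`.  The Frey
form (S44) only needs `p ≥ 5`, where all nodes of `X₀(pM')` have thickness prime to `p`.
* `AtPFiltrationFor p M'`     : the package for a fixed pair `(p, M')`;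
* `AtPFiltration5Statement`   : the package for all primes `p ≥ 5`;
* `wallFrey_of_filtration5`   : Places + package (`p ≥ 5`) + ELOC-ord-Frey + NMT ⇒ `WallFreyStatement`;
* `S44_of_filtration5`        : the frozen S44 from the package and the landed/owned inputs.
-/

set_option autoImplicit false
set_option linter.style.haveILetI false

open WeierstrassCurve WeierstrassCurve.Affine WeierstrassCurve.Affine.Point
open CuspForm ModularFormClass UpperHalfPlane ModularCurve

namespace Fermat.Agent.Ribet.H944.Wall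

open Fermat.Agent.Ribet.Spec

/-- The at-`p` filtration package for a fixed pair `(p, M')` (same body as
`AtPFiltrationStatement`). -/
def AtPFiltrationFor (p M' : ℕ) [NeZero M'] [NeZero (p * M')] : Prop :=
  ∃ (S₀ : Finset ℕ) (α β : JZero (p * M') →+ JZero M'), IsDegPair p M' S₀ α β ∧
    ∀ A : ValuationSubring (AlgebraicClosure ℚ), A.LiesOverPrime p →
    ∃ 𝓕 𝒮 : AddSubgroup (JZero (p * M')),
      (∀ x : JZero (p * M'), p • x = 0 → ∀ σ ∈ A.inertiaSubgroupIn ℚ, σ • x - x ∈ 𝒮) ∧
      (∀ x ∈ 𝒮, p • x = 0 → α x = 0 → β x = 0 →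
        ∀ σ ∈ A.inertiaSubgroupIn ℚ, ∀ c : ℕ, CycloAt p σ c → σ • x = c • x) ∧
      (∀ (S : Finset ℕ) (a : ℕ → ℤ), ∀ x ∈ 𝓕, x ∉ 𝒮 → p • x = 0 → α x = 0 → β x = 0 →
        EigenAt (p * M') S a x → Lowered M' p S a) ∧
      (∀ (S : Finset ℕ) (a : ℕ → ℤ), NonEisAway p a → ∀ x t : JZero (p * M'),
        p • x = 0 → α x = 0 → β x = 0 → EigenAt (p * M') S a x →
        p • t = 0 → α t = 0 → β t = 0 → EigenAt (p * M') S a t →
        (∀ σ ∈ A.inertiaSubgroupIn ℚ, ∀ c : ℕ, CycloAt p σ c → σ • t = c • t) →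
        (∀ σ ∈ A.inertiaSubgroupIn ℚ, ∃ n : ℕ, σ • x = x + n • t) →
        (∀ σ : GQ, PeuFixes A p σ → σ • x = x) → x ∈ 𝓕)

theorem atPFiltrationStatement_iff :
    AtPFiltrationStatement ↔
      ∀ (p M' : ℕ) [NeZero M'] [NeZero (p * M')], p.Prime → p ≠ 2 → ¬ p ∣ M' →
        AtPFiltrationFor p M' :=
  Iff.rfl

/-- The package for all primes `p ≥ 5` (enough for S44). -/
def AtPFiltration5Statement : Prop :=
  ∀ (p M' : ℕ) [NeZero M'] [NeZero (p * M')], p.Prime → 5 ≤ p → ¬ p ∣ M' →
    AtPFiltrationFor p M'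

theorem atPFiltration5_of (h : AtPFiltrationStatement) : AtPFiltration5Statement :=
  fun p M' _ _ hp h5 hpM' => h p M' hp (by omega) hpM'

/-- Pointwise form of the total glue: the wall for one embedded curve from the package at
`(p, M')`, the local structure of `E[p]` in the ordinary case and NMT. -/
theorem lowered_of_filtrationFor {E : WeierstrassCurve ℚ} {p M' : ℕ} [NeZero M']
    [NeZero (p * M')] (hF : AtPFiltrationFor p M') {S : Finset ℕ} {a : ℕ → ℤ}
    {A : ValuationSubring (AlgebraicClosure ℚ)} (hA : A.LiesOverPrime p)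
    (hEL : OrdinaryInertiaAt E p A → ELOCOrdAt E p A)
    (hNMT : ¬ ∀ σ ∈ A.inertiaSubgroupIn ℚ, ∀ c : ℕ, CycloAt p σ c →
      ∀ x : ETorsion E p, σ • x = c • x)
    (hNE : NonEisAway p a)
    (hemb : EEmbedsIn E p (p * M') S a) : Lowered M' p S a := by
  obtain ⟨S₀, α, β, hdeg, hA'⟩ := hF
  obtain ⟨𝓕, 𝒮, h1, h2, h3, h4⟩ := hA' A hA
  obtain ⟨ι, hinj, hgal, hT⟩ := hemb
  by_cases h : ∃ x, α (ι x) ≠ 0 ∨ β (ι x) ≠ 0
  · exact ⟨S ∪ S₀, Finset.subset_union_left, Or.inl (occursIn_of_not_new hdeg ι hT h)⟩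
  have hnew : ∀ x, α (ι x) = 0 ∧ β (ι x) = 0 := by
    intro x
    by_contra hx
    apply h
    refine ⟨x, ?_⟩
    by_cases h1 : α (ι x) = 0
    · exact Or.inr (fun h2 => hx ⟨h1, h2⟩)
    · exact Or.inl h1
  -- (WP) on the image, from (S1) and (S2)
  have hH : OrdinaryInertiaAt E p A := by
    intro σ hσ c hc x
    apply hinj
    rw [map_add, map_nsmul, map_nsmul, hgal, hgal]
    have hpx := nsmul_emb_eq_zero ι x
    have hy : σ • ι x - ι x ∈ 𝒮 := h1 (ι x) hpx σ hσ
    have hpy : p • (σ • ι x - ι x) = 0 := by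
      rw [nsmul_sub, smul_comm p σ (ι x), hpx, sub_zero]
      exact smul_zero (A := JZero (p * M')) σ
    have hαy : α (σ • ι x - ι x) = 0 := by
      rw [map_sub, hdeg.galois_left, (hnew x).1, sub_zero]
      exact smul_zero (A := JZero M') σ
    have hβy : β (σ • ι x - ι x) = 0 := by
      rw [map_sub, hdeg.galois_right, (hnew x).2, sub_zero]
      exact smul_zero (A := JZero M') σ
    have hh := h2 _ hy hpy hαy hβy σ hσ c hc
    rw [smul_sub, nsmul_sub] at hh
    have h' : σ • σ • ι x = c • σ • ι x - c • ι x + σ • ι x := by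
      rw [← hh]; abel
    rw [h', add_nsmul, one_nsmul]; abel
  exact lowered_of_filtration hdeg h2 h3 h4 (hEL hH) hNMT hNE ⟨ι, hinj, hgal, hT⟩

/-- **Total glue, S44 form, `p ≥ 5`.** -/
theorem wallFrey_of_filtration5 (hPl : PlacesStatement) (hF : AtPFiltration5Statement)
    (hEL : ELOCOrdFreyStatement) (hNMT : NotMultiplicativeTypeStatement) :
    WallFreyStatement := by
  intro P M' _ _ hpM' hpabc hirr S a hNE hemb
  obtain ⟨A, hA, -⟩ := hPl P.p P.pp
  exact lowered_of_filtrationFor (hF P.p M' P.pp P.hp5 hpM') hA (fun _ => hEL P hpabc A hA)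
    (hNMT P A hA) hNE hemb

/-- **Total glue, S40 form**, pointwise (same as `wallGood_of_filtration`, via the pointwise
lemma). -/
theorem wallGood_of_filtrationFor (hPl : PlacesStatement)
    (hF : ∀ (p M' : ℕ) [NeZero M'] [NeZero (p * M')], p.Prime → p ≠ 2 → ¬ p ∣ M' →
      AtPFiltrationFor p M')
    (hEL : ELOCOrdGoodStatement) (hNMT : NotMultTypeWStatement) (hNE : NonEisWStatement) :
    WallGoodStatement := by
  intro W p M' _ _ hΔ hp hp2 hpM' hgood hirr S hemb
  obtain ⟨A, hA, -⟩ := hPl p hp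
  exact lowered_of_filtrationFor (hF p M' hp hp2 hpM') hA
    (fun hH => hEL W p hΔ hp hp2 hgood A hA hH) (hNMT W p hΔ hp hp2 hirr A hA)
    (hNE W p hΔ hp hp2 hirr) hemb

/-- **The frozen S44 from the package (`p ≥ 5`) and the row inputs.** -/
theorem S44_of_filtration5 (hE : EmbedStatement) (hPl : PlacesStatement)
    (hF : AtPFiltration5Statement) (hEL : ELOCOrdFreyStatement)
    (hNMT : NotMultiplicativeTypeStatement) (hNE : NonEisensteinStatement)
    (hR3 : EigenformOfOccursAwayStatement) (hR3' : AlmostAllToWitnessStatement) :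
    S44Statement :=
  S44_of_wall hE (wallFrey_of_filtration5 hPl hF hEL hNMT) hNE hR3 hR3'

end Fermat.Agent.Ribet.H944.Wall

end
-- ===== PACK-END Ribet/H944/WallSpec5.lean

-- ===== PACK-BEGIN S29/M4a.lean
section
/-
S29 layer M, SUB-LAYER `M4a` (helper391): `exists_eigen_parHom`, EXACT statement of
`SkeletonM.lean` (row-lead helper269).

Proof = helper201's E2 layer on main (`H201.exists_eigen_parabolicHom_strong`: nonzero parabolic
character `χ : Γ₀(N) → F` killing finite-order elements, with `T_ℓ χ = ψ(a_ℓ) χ`) + the adapter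
`M4a/Top.lean` (finite generation of `Γ₀(N)` ⇒ `𝔽_p`-coordinates; `H201.trf` = `heckeFac`).
-/




set_option autoImplicit false

noncomputable section

namespace Fermat.Agent.S29

open ModularCurve AlgebraicCurve Polynomial
open scoped TensorProduct

section

variable (N : ℕ) [NeZero N]

/-- SUB-LAYER `M4a`: the eigensystem of `g` modulo `ψ` occurs in the parabolic cohomology
`Hom_par(Γ₀(N), 𝔽_p) ⊗ F`, written in coordinates: finitely many parabolic characters `c j` with
`𝔽_p`-linearly independent coefficients `w j ∈ F`. -/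
theorem exists_eigen_parHom {g : CuspForm (CongruenceSubgroup.Gamma0 N) 2}
    (hg : g.IsNormalizedEigenform) {p : ℕ} [Fact p.Prime] {F : Type} [Field F] [IsAlgClosed F]
    [CharP F p] [Algebra (ZMod p) F]
    (ψ : integralClosure ℤ ℂ →+* F) (a : ℕ → integralClosure ℤ ℂ)
    (ha : ∀ ℓ : ℕ, ℓ.Prime → ¬ ℓ ∣ N →
      ((a ℓ : integralClosure ℤ ℂ) : ℂ) = ModularFormClass.qCoeff g ℓ) :
    ∃ (n : ℕ) (w : Fin n → F) (c : Fin n → G0 N → ZMod p),
      LinearIndependent (ZMod p) w ∧ (∀ j, IsParHom (c j)) ∧ (∃ j, c j ≠ 0) ∧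
      ∀ ℓ : ℕ, ℓ.Prime → ¬ ℓ ∣ N * p → ∀ γ : G0 N,
        ∑ j, w j * algebraMap (ZMod p) F (heckeCoh N ℓ (c j) γ)
          = ψ (a ℓ) * ∑ j, w j * algebraMap (ZMod p) F (c j γ) := by
  refine M4aTop_exists_eigen_parHom N ψ a ha ?_
  obtain ⟨χ, hχ0, hpar, -, hfin, hecke⟩ := H201.exists_eigen_parabolicHom_strong hg p ψ
  exact ⟨χ, hχ0, hpar,
    fun γ n hn hγ => hfin γ (isOfFinOrder_iff_pow_eq_one.mpr ⟨n, hn, hγ⟩), hecke⟩

end

/-- PIECE `M4a` in the `Prop` form consumed by `Main.lean` (`S29_of_parts`). -/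
theorem M4a_statement : M4aStatement :=
  fun N _ _ hg _ _ _ _ _ _ _ ψ a ha => exists_eigen_parHom N hg ψ a ha

end Fermat.Agent.S29

end
end
-- ===== PACK-END S29/M4a.lean

-- ===== PACK-BEGIN S37/H700/GaussMain.lean
section


/-!
# S37 / piece GAUSS (helper700): consequences of `S28.CoreData N k`

`A ⊆ Q̄` a valuation subring, `k = A/𝔪`, `F̄_N = Q̄(j(q^d) : d ∣ N) ⊆ Q̄((q))`,
`F_k = k(j(q^d) : d ∣ N) ⊆ k((q))`.  From `CoreData N k` (output of row S28):

* `normal_form`     : for `u ∈ A((q)) ∩ F̄_N` there are `Q, Pᵢ ∈ A[X]` with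
  `Q(j)·u = ∑ Pᵢ(j)·yᵢ` in `A((q))` and `Q mod 𝔪 ≠ 0`;
* `reduction_mem`   : (G1) the coefficientwise reduction of `u` lies in `F_k`;
* `pgi`             : (G2) `PrincipalGeneratedByIntegral A (residue A) N`.
-/

set_option autoImplicit false

noncomputable section

namespace Fermat.Agent.S37.H700

open ModularCurve HahnSeries Polynomial AlgebraicCurve
open Fermat.Agent.S28 (jField intDivisorExpansions CoreData)

/-- The field `Q̄`. -/
abbrev Qb : Type := AlgebraicClosure ℚ

section Main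

variable (N : ℕ) [NeZero N] (A : ValuationSubring Qb)

/-- Reductions of the integral monomials are linearly independent over `k(j)`: pointwise form. -/
theorem eq_zero_of_sum_evalJ_eq_zero {K : Type*} [Field K] {n : ℕ} (yK : Fin n → LaurentSeries K)
    (hind : LinearIndependent (jField K) yK) (P : Fin n → K[X])
    (h : ∑ i, evalJ K (P i) * yK i = 0) : ∀ i, P i = 0 := by
  intro i
  have h' : ∑ i, (⟨evalJ K (P i), evalJ_mem_jField K (P i)⟩ : jField K) • yK i = 0 := by
    simpa only [smul_jField_def] using h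
  have := Fintype.linearIndependent_iff.mp hind _ h' i
  exact (evalJ_eq_zero_iff K).mp (congrArg Subtype.val this)

theorem evalJ_C {R : Type*} [CommRing R] (c : R) :
    evalJ R (Polynomial.C c) = HahnSeries.C c := by
  unfold evalJ
  rw [Polynomial.eval₂_C]

variable {N A}

omit [NeZero N] in
/-- **Normal form** of a Gauss-integral element of `F̄_N`. -/
theorem normal_form {n : ℕ} (y : Fin n → LaurentSeries ℤ)
    (hy_mem : ∀ i, y i ∈ Subring.closure (intDivisorExpansions N))
    (hy_span : ∀ x ∈ modularFunctionFieldFull N,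
      x ∈ Submodule.span (jField ℚ) (Set.range fun i => coeffMap (Int.castRingHom ℚ) (y i)))
    (hy_ind : LinearIndependent (jField (IsLocalRing.ResidueField A))
      (fun i => coeffMap (Int.castRingHom (IsLocalRing.ResidueField A)) (y i)))
    (u : LaurentSeries A) (hu : coeffMap A.subtype u ∈ modularFunctionFieldBar N) :
    ∃ (Q : Polynomial A) (P : Fin n → Polynomial A),
      evalJ A Q * u = ∑ i, evalJ A (P i) * coeffMap (Int.castRingHom A) (y i) ∧
      Q.map (IsLocalRing.residue A) ≠ 0 := by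
  classical
  obtain ⟨Q₀, P₀, hQ₀, h₀⟩ := exists_denominator Qb y
    (mem_spanL_of_mem_baseChange Qb y N hy_mem hy_span hu)
  -- normalise the family `Q₀, P₀ i`
  obtain ⟨c, hc, P', hP', i₀, hi₀⟩ := normalize_family A
    (fun o : Option (Fin n) => o.elim Q₀ P₀) ⟨none, hQ₀⟩
  have hQ' : (P' none).map A.subtype = Polynomial.C c * Q₀ := hP' none
  have hPi : ∀ i, (P' (some i)).map A.subtype = Polynomial.C c * P₀ i := fun i => hP' (some i)
  have hid : evalJ A (P' none) * u =
      ∑ i, evalJ A (P' (some i)) * coeffMap (Int.castRingHom A) (y i) := by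
    apply coeffMap_injective A.subtype_injective
    rw [map_mul, map_sum, coeffMap_evalJ, hQ', evalJ_mul, mul_assoc, h₀, Finset.mul_sum]
    refine Finset.sum_congr rfl fun i _ => ?_
    rw [map_mul, coeffMap_evalJ, hPi, evalJ_mul, coeffMap_coeffMap, mul_assoc]
    congr 2
  refine ⟨P' none, fun i => P' (some i), hid, fun hzero => ?_⟩
  -- if `Q` reduces to zero, linear independence kills all `P i`, contradiction
  have hred := congrArg (coeffMap (IsLocalRing.residue A)) hid
  rw [map_mul, map_sum, coeffMap_evalJ, hzero, evalJ_zero, zero_mul] at hred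
  have hred' : ∑ i, evalJ (IsLocalRing.ResidueField A) ((P' (some i)).map (IsLocalRing.residue A)) *
      coeffMap (Int.castRingHom (IsLocalRing.ResidueField A)) (y i) = 0 := by
    rw [hred]
    refine Finset.sum_congr rfl fun i _ => ?_
    rw [map_mul, coeffMap_evalJ, coeffMap_coeffMap]
    congr 1
  have hall := eq_zero_of_sum_evalJ_eq_zero _ hy_ind _ hred'
  rcases i₀ with _ | i
  · exact hi₀ hzero
  · exact hi₀ (hall i)

/-- **(G1)** The coefficientwise reduction of a Gauss-integral element of `F̄_N` lies in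
`F_k = k(j(q^d) : d ∣ N)`. -/
theorem reduction_mem (hcore : CoreData N (IsLocalRing.ResidueField A))
    (u : LaurentSeries A) (hu : coeffMap A.subtype u ∈ modularFunctionFieldBar N) :
    coeffMap (IsLocalRing.residue A) u ∈
      modularFunctionFieldFullC (IsLocalRing.ResidueField A) N := by
  obtain ⟨n, y, hy_mem, hy_span, hy_ind⟩ := hcore.exists_basis
  obtain ⟨Q, P, hid, hQ⟩ := normal_form y hy_mem hy_span hy_ind u hu
  have hred := congrArg (coeffMap (IsLocalRing.residue A)) hid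
  rw [map_mul, map_sum, coeffMap_evalJ] at hred
  have hQ0 : evalJ (IsLocalRing.ResidueField A) (Q.map (IsLocalRing.residue A)) ≠ 0 :=
    fun h => hQ ((evalJ_eq_zero_iff _).mp h)
  have hjF : jField (IsLocalRing.ResidueField A) ≤
      modularFunctionFieldFullC (IsLocalRing.ResidueField A) N := by
    rw [jField, IntermediateField.adjoin_le_iff]
    rintro x rfl
    exact jqModC_mem_full _ N
  have hmem : ∀ R : Polynomial (IsLocalRing.ResidueField A),
      evalJ (IsLocalRing.ResidueField A) R ∈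
        modularFunctionFieldFullC (IsLocalRing.ResidueField A) N :=
    fun R => hjF (evalJ_mem_jField _ R)
  have : coeffMap (IsLocalRing.residue A) u =
      (evalJ (IsLocalRing.ResidueField A) (Q.map (IsLocalRing.residue A)))⁻¹ *
        ∑ i, coeffMap (IsLocalRing.residue A)
          (evalJ A (P i) * coeffMap (Int.castRingHom A) (y i)) := by
    rw [← hred, ← mul_assoc, inv_mul_cancel₀ hQ0, one_mul]
  rw [this]
  refine mul_mem (inv_mem (hmem _)) (sum_mem fun i _ => ?_)
  rw [map_mul, coeffMap_evalJ, coeffMap_coeffMap]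
  refine mul_mem (hmem _) ?_
  have := coeffMap_intCast_mem_fullC (IsLocalRing.ResidueField A) N (hy_mem i)
  rwa [coeffMap_congr (RingHom.ext_int _ (Int.castRingHom (IsLocalRing.ResidueField A))) (y i)]


/-- Constants have order zero at every place. -/
theorem ord_algebraMap_eq_zero {K F : Type*} [Field K] [Field F] [Algebra K F]
    (v : Place K F) {c : K} (hc : c ≠ 0) : v.ord (algebraMap K F c) = 0 := by
  have h1 : (⟨algebraMap K F c, v.algebraMap_mem' c⟩ : v.toValuationSubring) *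
      ⟨algebraMap K F c⁻¹, v.algebraMap_mem' c⁻¹⟩ = 1 := by
    apply Subtype.ext
    show algebraMap K F c * algebraMap K F c⁻¹ = 1
    rw [← map_mul, mul_inv_cancel₀ hc, map_one]
  have h2 : (⟨algebraMap K F c⁻¹, v.algebraMap_mem' c⁻¹⟩ : v.toValuationSubring) *
      ⟨algebraMap K F c, v.algebraMap_mem' c⟩ = 1 := by
    rw [mul_comm]; exact h1
  exact v.ord_coe_unit ⟨_, _, h1, h2⟩

omit [NeZero N] in
theorem jField_le_bar : jField Qb ≤ modularFunctionFieldBar N := by
  rw [jField, IntermediateField.adjoin_le_iff]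
  rintro x rfl
  have h1 : jqModC ℚ ∈ modularFunctionFieldFull N := by
    rw [← modularFunctionFieldFullC_rat]; exact jqModC_mem_full ℚ N
  have := coeffEmb_mem_laurentBaseChange Qb h1
  rwa [coeffEmb, coeffMap_jqModC] at this

omit [NeZero N] in
theorem C_mem_bar (c : Qb) : (HahnSeries.C c : LaurentSeries Qb) ∈ modularFunctionFieldBar N := by
  have := (modularFunctionFieldBar N).algebraMap_mem c
  rwa [algebraMap_laurentSeries_eq_single] at this

/-- **(G2)** PGI: every principal divisor of `F̄_N` is a difference of two divisors of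
Gauss-integral functions with nonzero reduction in `F_k`. -/
theorem pgi (hcore : CoreData N (IsLocalRing.ResidueField A))
    [HasPrincipalDivisors Qb (modularFunctionFieldBar N)] :
    PrincipalGeneratedByIntegral A (IsLocalRing.residue A) N := by
  classical
  obtain ⟨n, y, hy_mem, hy_span, hy_ind⟩ := hcore.exists_basis
  intro D hD
  obtain ⟨f, hf0, hDf⟩ := hD
  have hfU : (f : LaurentSeries Qb) ≠ 0 := fun h => hf0 (Subtype.ext h)
  obtain ⟨Q₀, P₀, hQ₀, h₀⟩ := exists_denominator Qb y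
    (mem_spanL_of_mem_baseChange Qb y N hy_mem hy_span f.2)
  have hQ₀e : evalJ Qb Q₀ ≠ 0 := fun h => hQ₀ ((evalJ_eq_zero_iff Qb).mp h)
  have hP₀ : ∃ i, P₀ i ≠ 0 := by
    by_contra hcon
    push Not at hcon
    have : evalJ Qb Q₀ * (f : LaurentSeries Qb) = 0 := by
      rw [h₀]
      exact Finset.sum_eq_zero fun i _ => by rw [hcon i, evalJ_zero, zero_mul]
    exact (mul_ne_zero hQ₀e hfU) this
  -- normalise `Q₀` and the `P₀ i` separately
  obtain ⟨cQ, hcQ, Q', hQ', u₀, hQ'red⟩ := normalize_family A (fun _ : Unit => Q₀) ⟨(), hQ₀⟩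
  obtain ⟨cP, hcP, P', hP', i₀, hi₀⟩ := normalize_family A P₀ hP₀
  set b : LaurentSeries A := evalJ A (Q' ()) with hb
  set a : LaurentSeries A := ∑ i, evalJ A (P' i) * coeffMap (Int.castRingHom A) (y i) with ha
  have hbL : coeffMap A.subtype b = HahnSeries.C cQ * evalJ Qb Q₀ := by
    rw [hb, coeffMap_evalJ, hQ' (), evalJ_mul, evalJ_C]
  have haL : coeffMap A.subtype a = HahnSeries.C cP * (evalJ Qb Q₀ * (f : LaurentSeries Qb)) := by
    rw [ha, map_sum, h₀, Finset.mul_sum]
    refine Finset.sum_congr rfl fun i _ => ?_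
    rw [map_mul, coeffMap_evalJ, hP' i, evalJ_mul, evalJ_C, coeffMap_coeffMap, mul_assoc]
    congr 2
  have hQmem : evalJ Qb Q₀ ∈ modularFunctionFieldBar N := jField_le_bar (evalJ_mem_jField Qb Q₀)
  have hbmem : coeffMap A.subtype b ∈ modularFunctionFieldBar N := by
    rw [hbL]; exact mul_mem (C_mem_bar cQ) hQmem
  have hamem : coeffMap A.subtype a ∈ modularFunctionFieldBar N := by
    rw [haL]; exact mul_mem (C_mem_bar cP) (mul_mem hQmem f.2)
  -- reductions
  have hbred : coeffMap (IsLocalRing.residue A) b ≠ 0 := by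
    rw [hb, coeffMap_evalJ]
    exact fun h => hQ'red ((evalJ_eq_zero_iff _).mp h)
  have hared : coeffMap (IsLocalRing.residue A) a ≠ 0 := by
    intro h
    rw [ha, map_sum] at h
    have h' : ∑ i, evalJ (IsLocalRing.ResidueField A) ((P' i).map (IsLocalRing.residue A)) *
        coeffMap (Int.castRingHom (IsLocalRing.ResidueField A)) (y i) = 0 := by
      rw [← h]
      refine Finset.sum_congr rfl fun i _ => ?_
      rw [map_mul, coeffMap_evalJ, coeffMap_coeffMap]
      congr 1
    exact hi₀ (eq_zero_of_sum_evalJ_eq_zero _ hy_ind _ h' i₀)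
  -- the elements of `F̄_N`
  set aF : modularFunctionFieldBar N := ⟨coeffMap A.subtype a, hamem⟩ with haF
  set bF : modularFunctionFieldBar N := ⟨coeffMap A.subtype b, hbmem⟩ with hbF
  set qF : modularFunctionFieldBar N := ⟨evalJ Qb Q₀, hQmem⟩ with hqF
  have hqF0 : qF ≠ 0 := fun h => hQ₀e (congrArg Subtype.val h)
  have haF_eq : aF = algebraMap Qb (modularFunctionFieldBar N) cP * (qF * f) := by
    apply Subtype.ext
    show coeffMap A.subtype a = algebraMap Qb (LaurentSeries Qb) cP * (evalJ Qb Q₀ * f)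
    rw [haL, algebraMap_laurentSeries_eq_single]; rfl
  have hbF_eq : bF = algebraMap Qb (modularFunctionFieldBar N) cQ * qF := by
    apply Subtype.ext
    show coeffMap A.subtype b = algebraMap Qb (LaurentSeries Qb) cQ * evalJ Qb Q₀
    rw [hbL, algebraMap_laurentSeries_eq_single]; rfl
  have hord : ∀ v : Place Qb (modularFunctionFieldBar N), v.ord f = v.ord aF - v.ord bF := by
    intro v
    have hcP' : algebraMap Qb (modularFunctionFieldBar N) cP ≠ 0 :=
      (_root_.map_ne_zero _).mpr hcP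
    have hcQ' : algebraMap Qb (modularFunctionFieldBar N) cQ ≠ 0 :=
      (_root_.map_ne_zero _).mpr hcQ
    rw [haF_eq, hbF_eq, v.ord_mul hcP' (mul_ne_zero hqF0 hf0), v.ord_mul hqF0 hf0,
      v.ord_mul hcQ' hqF0, ord_algebraMap_eq_zero v hcP, ord_algebraMap_eq_zero v hcQ]
    ring
  obtain ⟨Ea, hEa, -⟩ := HasPrincipalDivisors.exists_divisor (K := Qb) aF
    (fun h => hared (by
      have : coeffMap A.subtype a = 0 := congrArg Subtype.val h
      rw [(coeffMap_injective A.subtype_injective) (this.trans (map_zero _).symm), map_zero]))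
  obtain ⟨Eb, hEb, -⟩ := HasPrincipalDivisors.exists_divisor (K := Qb) bF
    (fun h => hbred (by
      have : coeffMap A.subtype b = 0 := congrArg Subtype.val h
      rw [(coeffMap_injective A.subtype_injective) (this.trans (map_zero _).symm), map_zero]))
  have hDeq : D = Ea - Eb := by
    ext v
    rw [Finsupp.sub_apply, hDf v, hEa v, hEb v, hord v]
  rw [hDeq]
  refine AddSubgroup.sub_mem _ (AddSubgroup.subset_closure ?_) (AddSubgroup.subset_closure ?_)
  · exact ⟨a, hamem, reduction_mem hcore a hamem, hared, hEa⟩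
  · exact ⟨b, hbmem, reduction_mem hcore b hbmem, hbred, hEb⟩

end Main

end Fermat.Agent.S37.H700

end
end
-- ===== PACK-END S37/H700/GaussMain.lean

-- ===== PACK-BEGIN S29/H395/Strip.lean
section
/-
S29 / layer M / bridge BR, piece NORM — helper395.

Growth lemma: a continuous, `M`-periodic function on `ℍ` of at most exponential growth on
`im τ ≥ 1` has at most exponential growth on every half plane `im τ ≥ c`, `c > 0`.
Consequence: composition with `τ ↦ (a τ + b) / d` preserves exponential growth.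
-/



set_option autoImplicit false
set_option linter.style.haveILetI false

noncomputable section

open UpperHalfPlane
open scoped Real

namespace Fermat.Agent.S29.H395

open Fermat.Agent.S24 Fermat.Agent.S24.H648

theorem periodic_int_of_periodic {F : ℍ → ℂ} {M : ℝ} (hper : ∀ τ : ℍ, F (M +ᵥ τ) = F τ)
    (k : ℤ) (τ : ℍ) : F ((k * M : ℝ) +ᵥ τ) = F τ := by
  induction k using Int.induction_on generalizing τ with
  | zero => simp
  | succ n ih =>
    have : (((n : ℤ) + 1 : ℤ) * M : ℝ) +ᵥ τ = M +ᵥ (((n : ℤ) * M : ℝ) +ᵥ τ) := by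
      rw [vadd_vadd]; congr 1; push_cast; ring
    rw [this, hper, ih]
  | pred n ih =>
    have h1 := hper ((((-(n : ℤ) - 1 : ℤ)) * M : ℝ) +ᵥ τ)
    have : M +ᵥ ((((-(n : ℤ) - 1 : ℤ)) * M : ℝ) +ᵥ τ) = (((-(n : ℤ) : ℤ)) * M : ℝ) +ᵥ τ := by
      rw [vadd_vadd]; congr 1; push_cast; ring
    rw [this] at h1
    rw [← h1, ih]

/-- Boundedness on a horizontal strip `c ≤ im τ ≤ 1` of a continuous periodic function. -/
theorem exists_bound_strip {F : ℍ → ℂ} (hF : Continuous F) {M : ℝ} (hM : 0 < M)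
    (hper : ∀ τ : ℍ, F (M +ᵥ τ) = F τ) {c : ℝ} (hc : 0 < c) :
    ∃ B : ℝ, 0 ≤ B ∧ ∀ τ : ℍ, c ≤ τ.im → τ.im ≤ 1 → ‖F τ‖ ≤ B := by
  -- the compact rectangle
  let K : Set ℂ := Set.Icc (0 : ℝ) M ×ℂ Set.Icc c 1
  have hK : IsCompact K := isCompact_Icc.reProdIm isCompact_Icc
  have hpos : ∀ z ∈ K, 0 < z.im := fun z hz => lt_of_lt_of_le hc hz.2.1
  haveI : CompactSpace K := isCompact_iff_compactSpace.mp hK
  let g : K → ℍ := fun z => ⟨z.1, hpos z.1 z.2⟩
  have hg : Continuous g := by
    rw [UpperHalfPlane.isEmbedding_coe.continuous_iff]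
    exact continuous_subtype_val
  obtain ⟨B, hB⟩ := (isCompact_range (hF.comp hg)).exists_bound_of_continuousOn
    (f := fun w : ℂ => w) continuousOn_id
  refine ⟨max B 0, le_max_right _ _, fun τ h1 h2 => ?_⟩
  -- translate the real part into `[0, M)`
  set k : ℤ := -⌊τ.re / M⌋ with hk
  have hτ' := periodic_int_of_periodic hper k τ
  set τ' : ℍ := ((k * M : ℝ) +ᵥ τ) with hτ'def
  have hre : τ'.re = k * M + τ.re := by rw [hτ'def, UpperHalfPlane.vadd_re]
  have him : τ'.im = τ.im := by rw [hτ'def, UpperHalfPlane.vadd_im]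
  have hfl := Int.floor_le (τ.re / M)
  have hfl' := Int.lt_floor_add_one (τ.re / M)
  have hkc : (k : ℝ) = -(⌊τ.re / M⌋ : ℝ) := by rw [hk]; push_cast; ring
  have h0 : 0 ≤ τ'.re := by
    rw [hre, hkc]
    have : (⌊τ.re / M⌋ : ℝ) * M ≤ τ.re := by
      have := mul_le_mul_of_nonneg_right hfl hM.le
      rwa [div_mul_cancel₀ _ hM.ne'] at this
    linarith
  have h1' : τ'.re ≤ M := by
    rw [hre, hkc]
    have : τ.re < ((⌊τ.re / M⌋ : ℝ) + 1) * M := by
      have := mul_lt_mul_of_pos_right hfl' hM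
      rwa [div_mul_cancel₀ _ hM.ne'] at this
    linarith
  have hmem : (τ' : ℂ) ∈ K := by
    refine ⟨⟨?_, ?_⟩, ⟨?_, ?_⟩⟩
    · simpa using h0
    · simpa using h1'
    · simpa [him] using h1
    · simpa [him] using h2
  have hb := hB (F τ') ⟨⟨(τ' : ℂ), hmem⟩, by
    show F (g ⟨(τ' : ℂ), hmem⟩) = F τ'
    congr 1⟩
  rw [← hτ']
  exact le_trans hb (le_max_left _ _)

/-- Exponential growth on `im τ ≥ c` for every `c > 0`. -/
theorem expGrowth_halfPlane {F : ℍ → ℂ} (hF : Continuous F) {M : ℝ} (hM : 0 < M)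
    (hper : ∀ τ : ℍ, F (M +ᵥ τ) = F τ) (hgr : ExpGrowth F) {c : ℝ} (hc : 0 < c) :
    ∃ (C : ℝ) (m : ℕ), 0 ≤ C ∧
      ∀ τ : ℍ, c ≤ τ.im → ‖F τ‖ ≤ C * Real.exp (2 * π * m * τ.im) := by
  obtain ⟨C0, m, h0⟩ := hgr
  obtain ⟨B, hB0, hB⟩ := exists_bound_strip hF hM hper hc
  refine ⟨max |C0| B, m, le_trans (abs_nonneg _) (le_max_left _ _), fun τ hτ => ?_⟩
  have hexp : 1 ≤ Real.exp (2 * π * m * τ.im) := by
    apply Real.one_le_exp
    have := τ.im_pos
    positivity
  by_cases h1 : 1 ≤ τ.im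
  · calc ‖F τ‖ ≤ C0 * Real.exp (2 * π * m * τ.im) := h0 τ h1
      _ ≤ |C0| * Real.exp (2 * π * m * τ.im) := by
          gcongr; exact le_abs_self _
      _ ≤ max |C0| B * Real.exp (2 * π * m * τ.im) := by
          gcongr; exact le_max_left _ _
  · have := hB τ hτ (le_of_not_ge h1)
    calc ‖F τ‖ ≤ B := this
      _ ≤ max |C0| B := le_max_right _ _
      _ = max |C0| B * 1 := (mul_one _).symm
      _ ≤ max |C0| B * Real.exp (2 * π * m * τ.im) :=
          mul_le_mul_of_nonneg_left hexp (le_trans (abs_nonneg _) (le_max_left _ _))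

theorem infAff_im {a d : ℕ} (ha : 0 < a) (hd : 0 < d) (b : ℤ) (τ : ℍ) :
    (infAff a b d τ).im = a * τ.im / d := by
  have h := congrArg Complex.im (infAff_coe ha hd b τ)
  rw [UpperHalfPlane.coe_im] at h
  rw [h]
  have : ((a : ℂ) * τ + b) / d = (((a : ℝ) : ℂ) * τ + ((b : ℝ) : ℂ)) / ((d : ℝ) : ℂ) := by
    push_cast; rfl
  rw [this, Complex.div_ofReal_im]
  simp

/-- Composition with `τ ↦ (a τ + b) / d` preserves exponential growth (for continuous periodic
functions). -/
theorem expGrowth_comp_infAff {F : ℍ → ℂ} (hF : Continuous F) {M : ℝ} (hM : 0 < M)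
    (hper : ∀ τ : ℍ, F (M +ᵥ τ) = F τ) (hgr : ExpGrowth F) {a d : ℕ} (ha : 0 < a) (hd : 0 < d)
    (b : ℤ) : ExpGrowth (fun τ => F (infAff a b d τ)) := by
  have hc : (0 : ℝ) < (a : ℝ) / d := by positivity
  obtain ⟨C, m, hC, h⟩ := expGrowth_halfPlane hF hM hper hgr hc
  refine ⟨C, m * a, fun τ hτ => ?_⟩
  have him := infAff_im ha hd b τ
  have h1 : (a : ℝ) / d ≤ (infAff a b d τ).im := by
    rw [him]
    have : (a : ℝ) * 1 / d ≤ a * τ.im / d := by gcongr
    simpa using this
  have h2 : (infAff a b d τ).im ≤ a * τ.im := by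
    rw [him]
    have hd1 : (1 : ℝ) ≤ d := by exact_mod_cast hd
    have := τ.im_pos
    exact div_le_self (by positivity) hd1
  calc ‖F (infAff a b d τ)‖ ≤ C * Real.exp (2 * π * m * (infAff a b d τ).im) := h _ h1
    _ ≤ C * Real.exp (2 * π * (m * a : ℕ) * τ.im) := by
        refine mul_le_mul_of_nonneg_left (Real.exp_le_exp.mpr ?_) hC
        push_cast
        have hpi := Real.pi_pos
        have : (2 * π * m) * (infAff a b d τ).im ≤ (2 * π * m) * (a * τ.im) :=
          mul_le_mul_of_nonneg_left h2 (by positivity)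
        linarith

end Fermat.Agent.S29.H395

end

end
-- ===== PACK-END S29/H395/Strip.lean

-- ===== PACK-BEGIN S29/H395/AnalyticKron.lean
section
/-
S29 / layer M / bridge BR, piece NORM (analytic half, `q`-expansions) — helper395.

**Analytic Kronecker norm.**  If `a : ℍ → ℂ` has the (everywhere convergent) `q`-expansion `A` at
`i∞` (`InfExp 1 a A`, S24), then

  `heckeProd ℓ a τ = a (ℓ τ) * ∏_{j < ℓ} a ((τ + j) / ℓ)`

has the `q`-expansion `kronNorm ℓ A = V_ℓ A * det (secMat ℓ A)` (helper400's formal Kronecker norm,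
which row S37 identifies with the `q`-expansion of `Nm_α (β y)`).
-/






set_option autoImplicit false

noncomputable section

open CongruenceSubgroup Matrix.SpecialLinearGroup UpperHalfPlane ModularCurve HahnSeries
open scoped MatrixGroups Real Polynomial OnePoint
open P2MW.S_ModularForm_heckeT_slash_eq_self_of_mem_Gamma0.ModularForm.HeckeSlashInvariance

namespace Fermat.Agent.S29.H395

open Fermat.Agent.S24 Fermat.Agent.S37.H340 Fermat.Agent.S37.H400

/-! ### `InfExp` bookkeeping -/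

theorem infExp_finset_prod {N : ℕ} {ι : Type*} (s : Finset ι) (f : ι → ℍ → ℂ)
    (φ : ι → LaurentSeries ℂ) (h : ∀ i ∈ s, InfExp N (f i) (φ i)) :
    InfExp N (fun τ => ∏ i ∈ s, f i τ) (∏ i ∈ s, φ i) := by
  classical
  induction s using Finset.induction_on with
  | empty => simpa using (InfExp.one (N := N))
  | insert i s hi ih =>
    have h1 := h i (Finset.mem_insert_self i s)
    have h2 := ih fun j hj => h j (Finset.mem_insert_of_mem hj)
    have := h1.mul h2
    simpa [Finset.prod_insert hi] using this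

theorem infZ_pow_eq (ℓ : ℕ) [NeZero ℓ] (τ : ℍ) : infZ ℓ τ ^ ℓ = infZ 1 τ := by
  rw [infZ_def, infZ_def, ← Complex.exp_nat_mul]
  congr 1
  have hℓ : (ℓ : ℂ) ≠ 0 := by exact_mod_cast NeZero.ne ℓ
  field_simp
  simp

/-- Descent of the variable: an expansion in `z_ℓ = q^{1/ℓ}` which only involves powers of
`z_ℓ^ℓ = q` is an expansion in `q`. -/
theorem infExp_of_qExpand {ℓ : ℕ} [NeZero ℓ] {f : ℍ → ℂ} {φ : LaurentSeries ℂ}
    (h : InfExp ℓ f (qExpand ℂ ℓ φ)) : InfExp 1 f φ := by
  intro τ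
  have h1 := h τ
  have he0 : (ℓ : ℤ) ≠ 0 := by exact_mod_cast NeZero.ne ℓ
  have hinj : Function.Injective (fun n : ℤ => (ℓ : ℤ) * n) := mul_right_injective₀ he0
  have hrange : ∀ m : ℤ, m ∉ Set.range (fun n : ℤ => (ℓ : ℤ) * n) →
      (qExpand ℂ ℓ φ).coeff m * infZ ℓ τ ^ m = 0 := by
    intro m hm
    rw [qExpand_coeff_of_not_dvd ℓ _ (fun ⟨j, hj⟩ => hm ⟨j, hj.symm⟩), zero_mul]
  rw [← hinj.hasSum_iff hrange] at h1
  convert h1 using 1
  funext n
  simp only [Function.comp_apply, qExpand_coeff_mul]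
  rw [← infZ_pow_eq ℓ τ, ← zpow_natCast (infZ ℓ τ) ℓ, ← zpow_mul]

/-! ### The Hecke representatives as affine maps -/

section Rep

variable {ℓ : ℕ} [Fact ℓ.Prime]

theorem heckeRep_infty_smul (τ : ℍ) : _root_.P2MW.S_ModularForm_heckeT_slash_eq_self_of_mem_Gamma0.ModularForm.HeckeSlashInvariance.heckeRep ℓ ∞ • τ = infAff ℓ 0 1 τ := by
  have hℓ : ℓ ≠ 0 := (Fact.out : ℓ.Prime).ne_zero
  apply UpperHalfPlane.ext
  rw [heckeRep_infty, ModularForm.coe_heckeDiagMatrix_smul hℓ,
    infAff_coe (Nat.pos_of_ne_zero hℓ) one_pos]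
  simp

theorem heckeRep_coe_smul (j : ZMod ℓ) (τ : ℍ) :
    _root_.P2MW.S_ModularForm_heckeT_slash_eq_self_of_mem_Gamma0.ModularForm.HeckeSlashInvariance.heckeRep ℓ (j : OnePoint (ZMod ℓ)) • τ = infAff 1 (j.val : ℤ) ℓ τ := by
  have hℓ : ℓ ≠ 0 := (Fact.out : ℓ.Prime).ne_zero
  apply UpperHalfPlane.ext
  rw [heckeRep_coe, ModularForm.coe_heckeMatrix_smul hℓ,
    infAff_coe one_pos (Nat.pos_of_ne_zero hℓ)]
  simp

theorem heckeProd_eq (a : ℍ → ℂ) (τ : ℍ) :
    heckeProd ℓ a τ = a (infAff ℓ 0 1 τ) * ∏ j : ZMod ℓ, a (infAff 1 (j.val : ℤ) ℓ τ) := by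
  rw [heckeProd_apply]
  have h := Fintype.prod_option (fun x : OnePoint (ZMod ℓ) => a (_root_.P2MW.S_ModularForm_heckeT_slash_eq_self_of_mem_Gamma0.ModularForm.HeckeSlashInvariance.heckeRep ℓ x • τ))
  rw [show (∏ x : OnePoint (ZMod ℓ), a (_root_.P2MW.S_ModularForm_heckeT_slash_eq_self_of_mem_Gamma0.ModularForm.HeckeSlashInvariance.heckeRep ℓ x • τ))
      = ∏ x : Option (ZMod ℓ), a (_root_.P2MW.S_ModularForm_heckeT_slash_eq_self_of_mem_Gamma0.ModularForm.HeckeSlashInvariance.heckeRep ℓ x • τ) from rfl, h]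
  congr 1
  · exact congrArg a (heckeRep_infty_smul τ)
  · exact Finset.prod_congr rfl fun j _ => congrArg a (heckeRep_coe_smul j τ)

end Rep

/-! ### Expansions of the translates -/

section Translates

variable {ℓ : ℕ} [NeZero ℓ] {a : ℍ → ℂ} {A : LaurentSeries ℂ}

theorem infExp_comp_mul (ha : InfExp 1 a A) :
    InfExp 1 (fun τ => a (infAff ℓ 0 1 τ)) (qExpand ℂ ℓ A) := by
  have hℓ : 0 < ℓ := Nat.pos_of_ne_zero (NeZero.ne ℓ)
  have h := ha.comp_infAff (N := 1) (e := ℓ) 0 hℓ one_pos one_pos one_pos (by ring)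
  rwa [infRoot_zero, infTwist_one] at h

theorem infExp_comp_div (ha : InfExp 1 a A) (j : ℤ) :
    InfExp ℓ (fun τ => a (infAff 1 j ℓ τ)) (infTwist (infRoot j ℓ) A) := by
  have hℓ : 0 < ℓ := Nat.pos_of_ne_zero (NeZero.ne ℓ)
  have h := ha.comp_infAff (N := ℓ) (e := 1) j one_pos hℓ one_pos hℓ (by ring)
  rwa [qExpand_one_apply, mul_one] at h

end Translates

/-! ### The formal product formula -/

section Formal

variable (ℓ : ℕ) [NeZero ℓ]

/-- `ζ_ℓ = exp (2πi/ℓ)`. -/
def zetaL : ℂ := Complex.exp (2 * π * Complex.I / ℓ)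

theorem isPrimitiveRoot_zetaL : IsPrimitiveRoot (zetaL ℓ) ℓ :=
  Complex.isPrimitiveRoot_exp ℓ (NeZero.ne ℓ)

omit [NeZero ℓ] in
theorem infRoot_eq_zetaL_pow (b : ℕ) : ((infRoot (b : ℤ) ℓ : ℂˣ) : ℂ) = zetaL ℓ ^ b := by
  rw [infRoot_coe, zetaL, ← Complex.exp_nat_mul]
  congr 1
  push_cast
  ring

theorem zpw_eq_zpow {w : ℂ} (hw : w ^ ℓ = 1) (hw0 : w ≠ 0) (n : ℤ) : zpw ℓ w n = w ^ n := by
  unfold zpw
  have hℓ : (0 : ℤ) < ℓ := by exact_mod_cast Nat.pos_of_ne_zero (NeZero.ne ℓ)
  have h1 : n = (ℓ : ℤ) * (n / ℓ) + n % ℓ := (Int.mul_ediv_add_emod n ℓ).symm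
  have h2 : 0 ≤ n % (ℓ : ℤ) := Int.emod_nonneg n hℓ.ne'
  conv_rhs => rw [h1]
  rw [zpow_add₀ hw0, zpow_mul, zpow_natCast, hw, one_zpow, one_mul]
  conv_rhs => rw [← Int.toNat_of_nonneg h2]
  rw [zpow_natCast]

theorem tw_eq_infTwist (b : ℕ) (A : LaurentSeries ℂ) :
    tw ℓ (zetaL ℓ ^ b) A = infTwist (infRoot (b : ℤ) ℓ) A := by
  ext n
  rw [tw_coeff, infTwist_coeff, Units.val_zpow_eq_zpow_val, infRoot_eq_zetaL_pow, mul_comm]
  congr 1
  have hζ := (isPrimitiveRoot_zetaL ℓ)
  refine zpw_eq_zpow ℓ ?_ (pow_ne_zero _ (hζ.ne_zero (NeZero.ne ℓ))) n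
  rw [← pow_mul, mul_comm, pow_mul, hζ.pow_eq_one, one_pow]

theorem kronMat_eq_secMat (A : LaurentSeries ℂ) : kronMat ℓ A = secMat ℓ A := by
  ext i j n
  rw [kronMat_apply, secMat_apply', sect_coeff, secL_coeff]

/-- **Product formula** `∏_{b < ℓ} A(ζ^b z) = (det secMat A)(z^ℓ)`. -/
theorem prod_infTwist_eq (A : LaurentSeries ℂ) :
    ∏ b : Fin ℓ, infTwist (infRoot ((b : ℕ) : ℤ) ℓ) A = qExpand ℂ ℓ (secMat ℓ A).det := by
  classical
  have h := kron_map_qExpand_eq_prod (isPrimitiveRoot_zetaL ℓ) A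
  have h0 : (Polynomial.map (qExpand ℂ ℓ) (kron ℓ A)).coeff 0
      = (∏ b : Fin ℓ, (Polynomial.X - Polynomial.C (tw ℓ (zetaL ℓ ^ (b : ℕ)) A))).coeff 0 := by
    rw [h]
  rw [Polynomial.coeff_map, kron, Polynomial.coeff_zero_eq_eval_zero (∏ b : Fin ℓ, _),
    Polynomial.eval_prod] at h0
  simp only [Polynomial.eval_sub, Polynomial.eval_X, Polynomial.eval_C, zero_sub] at h0
  rw [Finset.prod_neg, Finset.card_univ, Fintype.card_fin] at h0
  have hdet := Matrix.det_eq_sign_charpoly_coeff (kronMat ℓ A)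
  rw [Fintype.card_fin] at hdet
  rw [← kronMat_eq_secMat, hdet, map_mul, map_pow, map_neg, map_one, h0, ← mul_assoc,
    ← mul_pow]
  simp only [neg_mul_neg, one_mul, one_pow]
  exact Finset.prod_congr rfl fun b _ => (tw_eq_infTwist ℓ b A).symm

end Formal

/-! ### The main statement -/

/-- **Analytic Kronecker norm**: `heckeProd ℓ a` has the `q`-expansion `kronNorm ℓ A`. -/
theorem infExp_heckeProd {ℓ : ℕ} [Fact ℓ.Prime] {a : ℍ → ℂ} {A : LaurentSeries ℂ}
    (ha : InfExp 1 a A) : InfExp 1 (heckeProd ℓ a) (kronNorm ℓ A) := by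
  have h1 : InfExp 1 (fun τ => a (infAff ℓ 0 1 τ)) (qExpand ℂ ℓ A) := infExp_comp_mul ha
  have h2 : InfExp ℓ (fun τ => ∏ b : Fin ℓ, a (infAff 1 ((b : ℕ) : ℤ) ℓ τ))
      (∏ b : Fin ℓ, infTwist (infRoot ((b : ℕ) : ℤ) ℓ) A) :=
    infExp_finset_prod Finset.univ _ _ fun b _ => infExp_comp_div ha _
  rw [prod_infTwist_eq] at h2
  have h3 := infExp_of_qExpand h2
  have h4 := h1.mul h3
  rw [kronNorm]
  refine h4.congr fun τ => ?_
  rw [heckeProd_eq]
  congr 1
  -- reindex `Fin ℓ ≃ ZMod ℓ`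
  refine Finset.prod_nbij' (fun b : Fin ℓ => ((b : ℕ) : ZMod ℓ))
    (fun j : ZMod ℓ => ⟨j.val, ZMod.val_lt j⟩) (fun _ _ => Finset.mem_univ _)
    (fun _ _ => Finset.mem_univ _) (fun b _ => ?_) (fun j _ => ?_) (fun b _ => ?_)
  · exact Fin.ext (ZMod.val_natCast_of_lt b.2)
  · exact ZMod.natCast_zmod_val j
  · rw [ZMod.val_natCast_of_lt b.2]

end Fermat.Agent.S29.H395

end

end
-- ===== PACK-END S29/H395/AnalyticKron.lean

-- ===== PACK-BEGIN S29/H942/MeroRoot.lean
section


/-!
# `p`-th roots of meromorphic functions on the upper half plane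

Main result: `exists_meromorphic_root_upperHalfPlane`. If `f` is meromorphic on the upper half
plane `{z | 0 < z.im}`, nowhere locally zero, and all its orders are divisible by `p ≠ 0`, then
there is a function `h`, meromorphic (in normal form) on the upper half plane, with `h ^ p = f`
away from a discrete set.  The root is unique up to a `p`-th root of unity
(`IsNFRootOn.exists_eq_mul`).
-/

set_option autoImplicit false

noncomputable section

open Filter Topology Set Complex MeromorphicOn Function Metric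

namespace Fermat.Agent.S29.H942

/-- The upper half plane as a subset of `ℂ`. -/
def uhpSet : Set ℂ := {z : ℂ | 0 < z.im}

lemma mem_uhpSet {z : ℂ} : z ∈ uhpSet ↔ 0 < z.im := Iff.rfl

lemma isOpen_uhpSet : IsOpen uhpSet := isOpen_lt continuous_const Complex.continuous_im

/-- The centres of the exhausting balls. -/
def exhCenter (n : ℕ) : ℂ := ((n : ℝ) + 1 : ℝ) * I

/-- The radii of the exhausting balls. -/
def exhRadius (n : ℕ) : ℝ := (n : ℝ) + 1 - 1 / ((n : ℝ) + 2)

lemma exhRadius_pos (n : ℕ) : 0 < exhRadius n := by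
  unfold exhRadius
  have h1 : (0 : ℝ) ≤ n := Nat.cast_nonneg n
  have h2 : 1 / ((n : ℝ) + 2) < 1 := by
    rw [div_lt_one (by linarith)]
    linarith
  linarith

lemma exhRadius_lt (n : ℕ) : exhRadius n < (n : ℝ) + 1 := by
  unfold exhRadius
  have h1 : (0 : ℝ) ≤ n := Nat.cast_nonneg n
  have h2 : 0 < 1 / ((n : ℝ) + 2) := by positivity
  linarith

lemma exhCenter_im (n : ℕ) : (exhCenter n).im = (n : ℝ) + 1 := by
  simp [exhCenter]

lemma exhCenter_re (n : ℕ) : (exhCenter n).re = 0 := by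
  simp [exhCenter]

lemma closedBall_exh_subset (n : ℕ) : closedBall (exhCenter n) (exhRadius n) ⊆ uhpSet := by
  intro z hz
  rw [mem_closedBall, dist_eq_norm] at hz
  have h1 : |(z - exhCenter n).im| ≤ ‖z - exhCenter n‖ := Complex.abs_im_le_norm _
  have h2 : (z - exhCenter n).im = z.im - ((n : ℝ) + 1) := by
    rw [Complex.sub_im, exhCenter_im]
  have h3 := (abs_le.1 (h1.trans hz)).1
  rw [h2] at h3
  have h4 := exhRadius_lt n
  rw [mem_uhpSet]
  linarith

lemma ball_exh_subset (n : ℕ) : ball (exhCenter n) (exhRadius n) ⊆ uhpSet :=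
  ball_subset_closedBall.trans (closedBall_exh_subset n)

lemma ball_exh_mono : Monotone fun n => ball (exhCenter n) (exhRadius n) := by
  refine monotone_nat_of_le_succ fun n => ?_
  apply ball_subset_ball'
  have hd : dist (exhCenter n) (exhCenter (n + 1)) = 1 := by
    rw [dist_eq_norm]
    have : exhCenter n - exhCenter (n + 1) = -I := by
      simp only [exhCenter]
      push_cast
      ring
    rw [this, norm_neg, Complex.norm_I]
  rw [hd]
  unfold exhRadius
  have h1 : (0 : ℝ) ≤ n := Nat.cast_nonneg n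
  have h2 : 1 / (((n + 1 : ℕ) : ℝ) + 2) ≤ 1 / ((n : ℝ) + 2) := by
    apply one_div_le_one_div_of_le (by linarith)
    push_cast
    linarith
  push_cast at h2 ⊢
  linarith

lemma iUnion_ball_exh : (⋃ n, ball (exhCenter n) (exhRadius n)) = uhpSet := by
  apply Subset.antisymm
  · exact iUnion_subset fun n => ball_exh_subset n
  · intro z hz
    rw [mem_uhpSet] at hz
    obtain ⟨n, hn⟩ := exists_nat_gt ((z.re ^ 2 + z.im ^ 2 + 2) / (2 * z.im))
    refine mem_iUnion.2 ⟨n, ?_⟩
    rw [mem_ball, dist_eq_norm]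
    have hR : (0 : ℝ) < (n : ℝ) + 1 := by positivity
    have hr := exhRadius_pos n
    have hlt : (z.re ^ 2 + z.im ^ 2 + 2) < 2 * z.im * ((n : ℝ) + 1) := by
      have := (div_lt_iff₀ (by linarith : (0 : ℝ) < 2 * z.im)).1 hn
      nlinarith
    have hsq : ‖z - exhCenter n‖ ^ 2 < exhRadius n ^ 2 := by
      have h1 : ‖z - exhCenter n‖ ^ 2 = z.re ^ 2 + (z.im - ((n : ℝ) + 1)) ^ 2 := by
        rw [Complex.sq_norm, Complex.normSq_apply, Complex.sub_re, Complex.sub_im,
          exhCenter_re, exhCenter_im]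
        ring
      rw [h1]
      have h2 : exhRadius n ^ 2 ≥ ((n : ℝ) + 1) ^ 2 - 2 := by
        unfold exhRadius
        have h0 : (0 : ℝ) ≤ n := Nat.cast_nonneg n
        have h3 : 0 < 1 / ((n : ℝ) + 2) := by positivity
        have h4 : ((n : ℝ) + 1) * (1 / ((n : ℝ) + 2)) ≤ 1 := by
          rw [mul_one_div, div_le_one (by linarith)]
          linarith
        nlinarith [sq_nonneg (1 / ((n : ℝ) + 2))]
      nlinarith
    exact lt_of_pow_lt_pow_left₀ 2 hr.le hsq

/-- **Meromorphic `p`-th roots on the upper half plane** (normal form version). -/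
theorem exists_isNFRootOn_upperHalfPlane {f : ℂ → ℂ} (hf : MeromorphicOn f uhpSet)
    (hford : ∀ z ∈ uhpSet, meromorphicOrderAt f z ≠ ⊤) {p : ℕ} (hp : p ≠ 0)
    (hdiv : ∀ z ∈ uhpSet, (p : ℤ) ∣ (meromorphicOrderAt f z).untop₀) :
    ∃ h : ℂ → ℂ, IsNFRootOn h f uhpSet p := by
  have := exists_isNFRootOn_iUnion (f := f) hp (fun n => ball (exhCenter n) (exhRadius n))
    (fun n => isOpen_ball)
    (fun n => isSimplyConnected_of_convex (convex_ball _ _)
      ⟨exhCenter n, mem_ball_self (exhRadius_pos n)⟩)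
    ball_exh_mono
    (fun n => hf.mono_set (ball_exh_subset n))
    (fun n x hx => hford x (ball_exh_subset n hx))
    (fun n => divisor_support_finite_of_subset (hf.mono_set (closedBall_exh_subset n))
      (isCompact_closedBall _ _) ball_subset_closedBall)
    (fun n x hx => hdiv x (ball_exh_subset n hx))
  rwa [iUnion_ball_exh] at this

/-- Roots in normal form are roots modulo equality on codiscrete sets. -/
lemma IsNFRootOn.eventuallyEq_codiscreteWithin {h f : ℂ → ℂ} {V : Set ℂ} {p : ℕ}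
    (hh : IsNFRootOn h f V p) : (h ^ p) =ᶠ[codiscreteWithin V] f := by
  rw [EventuallyEq, eventually_iff, mem_codiscreteWithin_iff_forall_mem_nhdsNE]
  intro x hx
  filter_upwards [hh.2 x hx] with y hy
  exact Or.inl hy

/-- **Meromorphic `p`-th roots on the upper half plane.** -/
theorem exists_meromorphic_root_upperHalfPlane {f : ℂ → ℂ}
    (hf : MeromorphicOn f {z : ℂ | 0 < z.im})
    (hford : ∀ z : ℂ, 0 < z.im → meromorphicOrderAt f z ≠ ⊤) {p : ℕ} (hp : p ≠ 0)
    (hdiv : ∀ z : ℂ, 0 < z.im → (p : ℤ) ∣ (meromorphicOrderAt f z).untop₀) :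
    ∃ h : ℂ → ℂ, MeromorphicNFOn h {z : ℂ | 0 < z.im} ∧
      (∀ z : ℂ, 0 < z.im → (h ^ p) =ᶠ[𝓝[≠] z] f) ∧
      (h ^ p) =ᶠ[codiscreteWithin {z : ℂ | 0 < z.im}] f := by
  obtain ⟨h, hh⟩ := exists_isNFRootOn_upperHalfPlane (f := f) hf hford hp hdiv
  exact ⟨h, hh.1, hh.2, hh.eventuallyEq_codiscreteWithin⟩

/-- **Uniqueness of meromorphic `p`-th roots on the upper half plane** up to a root of unity. -/
theorem meromorphic_root_upperHalfPlane_unique {f h₁ h₂ : ℂ → ℂ}
    (hford : ∀ z : ℂ, 0 < z.im → meromorphicOrderAt f z ≠ ⊤) {p : ℕ} (hp : p ≠ 0)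
    (h₁NF : MeromorphicNFOn h₁ {z : ℂ | 0 < z.im})
    (h₁pow : ∀ z : ℂ, 0 < z.im → (h₁ ^ p) =ᶠ[𝓝[≠] z] f)
    (h₂NF : MeromorphicNFOn h₂ {z : ℂ | 0 < z.im})
    (h₂pow : ∀ z : ℂ, 0 < z.im → (h₂ ^ p) =ᶠ[𝓝[≠] z] f) :
    ∃ ζ : ℂ, ζ ^ p = 1 ∧ ∀ z : ℂ, 0 < z.im → h₂ z = ζ * h₁ z := by
  have hconv : Convex ℝ uhpSet := by
    have : uhpSet = Complex.im ⁻¹' (Ioi 0) := rfl
    rw [this]
    exact (convex_Ioi (0 : ℝ)).is_linear_preimage Complex.imLm.isLinear
  exact IsNFRootOn.exists_eq_mul hp isOpen_uhpSet hconv.isPreconnected hford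
    ⟨h₁NF, h₁pow⟩ ⟨h₂NF, h₂pow⟩

end Fermat.Agent.S29.H942

end
end
-- ===== PACK-END S29/H942/MeroRoot.lean

-- ===== PACK-BEGIN S18/H333/HauptPS.lean
section



/-!
# S18 / c3 (helper333): power-series preliminaries for the Hauptmoduln

* `Vser p` is the ring homomorphism `PowerSeries.expand p`;
* `Zz = X² η₁¹² η₃¹²` with `Zz² = Δ Δ₃`, and the LINEAR level-3 identities
  `A3a = Zz (E₄³ - B3a)`, `A3b = Zz (E₄(q³)³ - B3b)` (sign fixed by the `q²`-coefficient).
-/

set_option autoImplicit false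

noncomputable section

namespace Fermat.Agent.S18.H333

open PowerSeries ModularCurve

theorem Vser_eq_expand (p : ℕ) (hp : p ≠ 0) (f : PowerSeries ℤ) :
    Vser p f = PowerSeries.expand p hp f := by
  ext n
  rw [coeff_Vser, PowerSeries.coeff_expand]

theorem Vser_mul (p : ℕ) (hp : p ≠ 0) (f g : PowerSeries ℤ) :
    Vser p (f * g) = Vser p f * Vser p g := by
  simp only [Vser_eq_expand p hp, map_mul]

theorem Vser_pow (p : ℕ) (hp : p ≠ 0) (f : PowerSeries ℤ) (n : ℕ) :
    Vser p (f ^ n) = Vser p f ^ n := by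
  simp only [Vser_eq_expand p hp, map_pow]

theorem Vser_one (p : ℕ) (hp : p ≠ 0) : Vser p (1 : PowerSeries ℤ) = 1 := by
  simp only [Vser_eq_expand p hp, map_one]

theorem Vser_X (p : ℕ) (hp : p ≠ 0) : Vser p (X : PowerSeries ℤ) = X ^ p := by
  rw [Vser_eq_expand p hp, PowerSeries.expand_X]

/-- `η¹²` -/
def eta12 : PowerSeries ℤ := etaProd ^ 12

/-- `η⁻¹²` -/
def eta12Inv : PowerSeries ℤ := eta12.invOfUnit 1

theorem constantCoeff_eta12 : PowerSeries.constantCoeff eta12 = 1 := by
  rw [eta12, map_pow, constantCoeff_etaProd, one_pow]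

theorem eta12_mul_inv : eta12 * eta12Inv = 1 :=
  PowerSeries.mul_invOfUnit _ _ (by rw [constantCoeff_eta12]; rfl)

theorem eta12_sq : eta12 * eta12 = dedekindEtaUnit := by
  rw [eta12, dedekindEtaUnit]; ring

theorem Dz_eq : Dz = X * dedekindEtaUnit := rfl

theorem Vser_Dz (p : ℕ) (hp : p ≠ 0) : Vser p Dz = X ^ p * Vser p dedekindEtaUnit := by
  rw [Dz_eq, Vser_mul p hp, Vser_X p hp]

/-- `q² η₁¹² η₃¹²` -/
def Zz : PowerSeries ℤ := X ^ 2 * eta12 * Vser 3 eta12

theorem Zz_sq : Zz * Zz = Dz * Vser 3 Dz := by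
  rw [Vser_Dz 3 (by norm_num), Dz_eq, ← eta12_sq, Vser_mul 3 (by norm_num), Zz]
  ring

theorem tl_eta12 (n : ℕ) : tl n eta12 = tpow n (etaLrec n n) 12 := by
  rw [eta12, tl_pow, tl_etaProd]

theorem tl_Zz (n : ℕ) : tl n Zz =
    tmul n (tmul n (tpow n (tX n) 2) (tpow n (etaLrec n n) 12))
      (tV n 3 (tpow n (etaLrec n n) 12)) := by
  rw [Zz, tl_mul, tl_mul, tl_pow, tl_X, tl_Vser _ _ (by norm_num), tl_eta12]

theorem tl_Ez_3 : tl 3 Ez = [1, 240, 2160] := by
  rw [tl_Ez]; decide +kernel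

theorem tl_Dz_3 : tl 3 Dz = [0, 1, -24] := by
  rw [tl_Dz]; decide +kernel

theorem coeff_two_ne_of_tl {f : PowerSeries ℤ} {a b c : ℤ} (h : tl 3 f = [a, b, c]) (hc : c ≠ 0) :
    f ≠ 0 := by
  intro h0
  have h2 := tl_getD 3 f (i := 2) (by norm_num)
  rw [h, h0] at h2
  simp at h2
  exact hc h2

/-- linear form of `(t₃+27)(t₃+243)³ = j t₃³` -/
theorem A3a_eq : A3a = Zz * (Ez ^ 3 - B3a) := by
  have h := Phi3a_eq_zero
  rw [Phi3a, ← Zz_sq] at h
  have hprod : (A3a - Zz * (Ez ^ 3 - B3a)) * (A3a + Zz * (Ez ^ 3 - B3a)) = 0 := by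
    linear_combination h
  rcases mul_eq_zero.mp hprod with h1 | h1
  · exact sub_eq_zero.mp h1
  · exfalso
    have htl : tl 3 (A3a + Zz * (Ez ^ 3 - B3a)) = [0, 0, 2] := by
      rw [A3a, B3a]
      simp only [tl_sub, tl_mul, tl_pow, tl_add, tl_smul, tl_Vser _ _ (show 0 < 3 by norm_num),
        tl_Dz_3, tl_Ez_3, tl_Zz]
      decide +kernel
    exact coeff_two_ne_of_tl htl (by norm_num) h1

/-- linear form of `(t₃+27)(t₃+3)³ = j(q³) t₃` -/
theorem A3b_eq : A3b = Zz * (Vser 3 Ez ^ 3 - B3b) := by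
  have h := Phi3b_eq_zero
  rw [Phi3b, ← Zz_sq] at h
  have hprod : (A3b - Zz * (Vser 3 Ez ^ 3 - B3b)) * (A3b + Zz * (Vser 3 Ez ^ 3 - B3b)) = 0 := by
    linear_combination h
  rcases mul_eq_zero.mp hprod with h1 | h1
  · exact sub_eq_zero.mp h1
  · exfalso
    have htl : tl 3 (A3b + Zz * (Vser 3 Ez ^ 3 - B3b)) = [0, 0, 2] := by
      rw [A3b, B3b]
      simp only [tl_sub, tl_mul, tl_pow, tl_add, tl_smul, tl_Vser _ _ (show 0 < 3 by norm_num),
        tl_Dz_3, tl_Ez_3, tl_Zz]
      decide +kernel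
    exact coeff_two_ne_of_tl htl (by norm_num) h1

end Fermat.Agent.S18.H333

end
end
-- ===== PACK-END S18/H333/HauptPS.lean

-- ===== PACK-BEGIN S18/H438/Front/Finite.lean
section



/-!
# S18 / ALG-FRONT (helper438), part 6: finiteness and constants

For `G : Alg.GoodModel Lc Ec Fc R V w x S`, inside the field `Fc`:

* `GoodModelFront.isIntegral_Rf_mem_range` : `R` is integrally closed in `Fc`
  (hypothesis `hRF` of `H138.connected_special_fibre`);
* `GoodModelFront.finiteDimensional_baseField` : `Fc` is finite over `H138.baseField R x`;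
* `GoodModelFront.finiteDimensional_fractionRing` / `_inv` : `Fc` is finite over
  `FractionRing (baseRing R z)` for `z = x`, `z = x⁻¹` (hypothesis of `Front/Chart.lean`).
-/

set_option autoImplicit false
set_option linter.style.haveILetI false
set_option linter.unusedSectionVars false

noncomputable section

namespace Fermat.Agent.S18.H438

open Alg Polynomial

/-- Finite-dimensionality from a span statement inside an ambient field. -/
theorem finiteDimensional_of_span_subfield {K F Ω : Type*} [Field K] [Field F] [Field Ω]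
    [Algebra K F] (ι : F →+* Ω) (E' : Subfield Ω)
    (hE' : ∀ c ∈ E', ∃ k : K, ι (algebraMap K F k) = c)
    (s : Finset Ω) (hs : ∀ a ∈ s, ∃ f : F, ι f = a)
    (hspan : ∀ f : F, ι f ∈ Submodule.span E' (s : Set Ω)) :
    FiniteDimensional K F := by
  classical
  choose! g hg using hs
  refine (Module.finite_def (R := K) (M := F)).2 ⟨s.image g, ?_⟩
  rw [eq_top_iff]
  rintro f -
  obtain ⟨c, -, hc⟩ := Submodule.mem_span_finset.1 (hspan f)
  have hk : ∀ a : Ω, ∃ k : K, ι (algebraMap K F k) = (c a : Ω) := fun a => hE' _ (c a).2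
  choose k hk using hk
  have hf : f = ∑ a ∈ s, k a • g a := by
    apply ι.injective
    rw [← hc, map_sum]
    refine Finset.sum_congr rfl fun a ha => ?_
    have h1 : ι (k a • g a) = (c a : Ω) * a := by
      rw [Algebra.smul_def, map_mul, hk, hg a ha]
    rw [h1]
    rfl
  rw [hf]
  refine Submodule.sum_mem _ fun a ha => Submodule.smul_mem _ _ (Submodule.subset_span ?_)
  exact Finset.mem_coe.2 (Finset.mem_image_of_mem g ha)

variable {Ω : Type*} [Field Ω] {Lc Ec Fc : Subfield Ω} {R V : Subring Ω} {w x : Ω}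
  {S : Finset Ω}

namespace GoodModelFront

variable (G : GoodModel Lc Ec Fc R V w x S)

include G

/-- a subfield of `Ω` containing `R` and `x` contains `Ec(x)` -/
theorem ratField_le_of_mem (T : Subfield Ω) (hR : ∀ r ∈ R, r ∈ T) (hx : x ∈ T) :
    ratField Ec x ≤ T := by
  unfold ratField
  rw [Subfield.closure_le]
  rintro e (he | he)
  · rcases G.R_total e he with h | h
    · exact hR _ h
    · have := T.inv_mem (hR _ h)
      rwa [inv_inv] at this
  · rw [Set.mem_singleton_iff] at he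
    rw [he]
    exact hx

/-- **`Fc` is finite over any field `K → Fc` whose image contains `R` and `x`.** -/
theorem finiteDimensional_of_mem {K : Type*} [Field K] [Algebra K Fc]
    (hR : ∀ r : Rf Fc R, ∃ k : K, algebraMap K Fc k = (r : Fc))
    (hx : ∃ k : K, algebraMap K Fc k = xf G) : FiniteDimensional K Fc := by
  obtain ⟨s, hs, hspan⟩ := G.finite
  refine finiteDimensional_of_span_subfield Fc.subtype (ratField Ec x) ?_ s
    (fun a ha => ⟨⟨a, hs ha⟩, rfl⟩) (fun f => hspan f f.2)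
  have hle : ratField Ec x ≤ ((algebraMap K Fc).fieldRange).map Fc.subtype := by
    refine ratField_le_of_mem G _ (fun r hr => ?_) ?_
    · obtain ⟨k, hk⟩ := hR ⟨⟨r, R_le_Fc G hr⟩, hr⟩
      exact ⟨algebraMap K Fc k, ⟨k, rfl⟩, by rw [hk]; rfl⟩
    · obtain ⟨k, hk⟩ := hx
      exact ⟨algebraMap K Fc k, ⟨k, rfl⟩, by rw [hk]; rfl⟩
  intro c hc
  obtain ⟨f, ⟨k, rfl⟩, hf⟩ := hle hc
  exact ⟨k, hf⟩

/-- `Fc` is finite over `H138.baseField R x`. -/
theorem finiteDimensional_baseField :
    FiniteDimensional (H138.baseField (Rf Fc R) (xf G)) Fc :=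
  finiteDimensional_of_mem G
    (fun r => ⟨⟨(r : Fc), Subfield.subset_closure (Or.inl ⟨r, rfl⟩)⟩, rfl⟩)
    ⟨⟨xf G, Subfield.subset_closure (Or.inr rfl)⟩, rfl⟩

/-- `Fc` is finite over `H138.baseField R x⁻¹`. -/
theorem finiteDimensional_baseField_inv :
    FiniteDimensional (H138.baseField (Rf Fc R) (xf G)⁻¹) Fc := by
  rw [H138.baseField_inv]
  exact finiteDimensional_baseField G

section Frac

attribute [local instance] FractionRing.liftAlgebra

/-- `Fc` is finite over `Frac (R[x])`. -/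
theorem finiteDimensional_fractionRing :
    FiniteDimensional (FractionRing (baseRing (Rf Fc R) (xf G))) Fc :=
  finiteDimensional_of_mem G
    (fun r => ⟨algebraMap (baseRing (Rf Fc R) (xf G)) _
        (algebraMap (Rf Fc R) (baseRing (Rf Fc R) (xf G)) r), by
      rw [← IsScalarTower.algebraMap_apply]; rfl⟩)
    ⟨algebraMap (baseRing (Rf Fc R) (xf G)) _ ⟨xf G, self_mem_baseRing _ _⟩, by
      rw [← IsScalarTower.algebraMap_apply]; rfl⟩

/-- `Fc` is finite over `Frac (R[x⁻¹])`. -/
theorem finiteDimensional_fractionRing_inv :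
    FiniteDimensional (FractionRing (baseRing (Rf Fc R) (xf G)⁻¹)) Fc :=
  finiteDimensional_of_mem G
    (fun r => ⟨algebraMap (baseRing (Rf Fc R) (xf G)⁻¹) _
        (algebraMap (Rf Fc R) (baseRing (Rf Fc R) (xf G)⁻¹) r), by
      rw [← IsScalarTower.algebraMap_apply]; rfl⟩)
    ⟨(algebraMap (baseRing (Rf Fc R) (xf G)⁻¹) _ ⟨(xf G)⁻¹, self_mem_baseRing _ _⟩)⁻¹, by
      rw [map_inv₀, ← IsScalarTower.algebraMap_apply]
      show ((xf G)⁻¹)⁻¹ = xf G
      rw [inv_inv]⟩

end Frac

/-- the valuation ring `R` of the field `Ec` -/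
def Re : ValuationSubring Ec :=
  { R.comap Ec.subtype with
    mem_or_inv_mem' := fun e => by
      rcases G.R_total e e.2 with h | h
      · exact Or.inl h
      · exact Or.inr h }

theorem mem_Re {e : Ec} : e ∈ Re G ↔ (e : Ω) ∈ R := Iff.rfl

/-- **`R` is integrally closed in `Fc`.** -/
theorem isIntegral_Rf_mem_range (y : Fc) (hy : IsIntegral (Rf Fc R) y) :
    y ∈ Set.range (algebraMap (Rf Fc R) Fc) := by
  obtain ⟨p, hpm, hp⟩ := hy
  -- `y` is algebraic over `Ec`, hence lies in `Ec`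
  let φ : Rf Fc R →+* Ec :=
    (Fc.subtype.comp (Rf Fc R).subtype).codRestrict Ec.toSubring (fun r => G.R_le r.2)
  have hcomp : (algebraMap Ec Ω).comp φ = Fc.subtype.comp (algebraMap (Rf Fc R) Fc) := rfl
  have hφ : Function.Injective φ := by
    intro a b hab
    apply Subtype.ext
    apply Subtype.ext
    exact congrArg (fun t : Ec => (t : Ω)) hab
  have hyΩ : Polynomial.eval₂ ((algebraMap Ec Ω).comp φ) (y : Ω) p = 0 := by
    rw [hcomp]
    have h1 := Polynomial.hom_eval₂ p (algebraMap (Rf Fc R) Fc) Fc.subtype y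
    rw [hp, map_zero] at h1
    exact h1.symm
  have halg : IsAlgebraic Ec (y : Ω) := by
    refine ⟨p.map φ, (Polynomial.map_ne_zero_iff hφ).2 hpm.ne_zero, ?_⟩
    rw [Polynomial.aeval_def, Polynomial.eval₂_map]
    exact hyΩ
  have hyE : (y : Ω) ∈ Ec := G.E_closed_in_F y y.2 halg
  -- integrality over the valuation ring `Re`
  letI : Algebra (Rf Fc R) Ec := φ.toAlgebra
  have hint : IsIntegral (Rf Fc R) (⟨(y : Ω), hyE⟩ : Ec) := by
    refine ⟨p, hpm, ?_⟩
    apply Ec.subtype_injective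
    rw [Polynomial.hom_eval₂, map_zero]
    exact hyΩ
  have hmem : (⟨(y : Ω), hyE⟩ : Ec) ∈ Re G :=
    mem_valuationSubring_of_isIntegral (Re G) (fun a => a.2) hint
  exact ⟨⟨y, hmem⟩, rfl⟩

end GoodModelFront

end Fermat.Agent.S18.H438

end
end
-- ===== PACK-END S18/H438/Front/Finite.lean

-- ===== PACK-BEGIN S18/B12/H33/Core.lean
section



/-!
# S18 b2.5 (helper33): `B2CoreAbsStatement` from the assembly pieces A0, A2, A2', A3, A4, A5, A5'
-/

set_option autoImplicit false

noncomputable section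

namespace Fermat.Agent.S18.B12.H33

open Polynomial

universe u v

section Setup

variable {P : Type u} [CommRing P] [IsDomain P] [UniqueFactorizationMonoid P] [IsNoetherianRing P]
  {B : Type v} [CommRing B] [IsDomain B] [IsIntegrallyClosed B] [Algebra P B]
  [Module.Finite P B] [Module.IsTorsionFree P B]

/-- Local bases restrict to smaller ideals. -/
theorem IsLocalBasis.mono {𝔪 𝔫 : Ideal P} (h𝔫 : 𝔫 ≤ 𝔪) {n : ℕ} {x : Fin n → B}
    (hx : IsLocalBasis P B 𝔪 n x) : IsLocalBasis P B 𝔫 n x := by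
  obtain ⟨hli, g, hg, hsp⟩ := hx
  exact ⟨hli, g, fun h => hg (h𝔫 h), hsp⟩

/-- For a local basis at `𝔪 ∋ π` (prime), `π ∣ ∑ aᵢ xᵢ` in `B` forces `π ∣ aᵢ`. -/
theorem IsLocalBasis.dvd_coeff {𝔪 : Ideal P} {n : ℕ} {x : Fin n → B}
    (hx : IsLocalBasis P B 𝔪 n x) {π : P} (hπ : Prime π) (hπ𝔪 : π ∈ 𝔪)
    (a : Fin n → P) (h : (∑ i, a i • x i) ∈ Ideal.span {algebraMap P B π}) (i : Fin n) :
    π ∣ a i := by
  obtain ⟨hli, g, hg, hsp⟩ := hx
  rw [Ideal.mem_span_singleton] at h
  obtain ⟨b, hb⟩ := h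
  have hgb := hsp b
  rw [Submodule.mem_span_range_iff_exists_fun] at hgb
  obtain ⟨c, hc⟩ := hgb
  -- ∑ (g aᵢ - π cᵢ) xᵢ = 0
  have hrel : ∑ j, (g * a j - π * c j) • x j = 0 := by
    have h1 : ∑ j, (g * a j - π * c j) • x j
        = g • (∑ j, a j • x j) - π • (∑ j, c j • x j) := by
      rw [Finset.smul_sum, Finset.smul_sum, ← Finset.sum_sub_distrib]
      refine Finset.sum_congr rfl fun j _ => ?_
      rw [sub_smul, mul_smul, mul_smul]
    rw [h1, hc, hb, Algebra.smul_def, Algebra.smul_def, Algebra.smul_def]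
    ring
  have hz := Fintype.linearIndependent_iff.mp hli _ hrel i
  have hdvd : π ∣ g * a i := ⟨c i, by linear_combination hz⟩
  rcases hπ.dvd_or_dvd hdvd with h | h
  · exact absurd (Ideal.mem_of_dvd 𝔪 h hπ𝔪) hg
  · exact h

end Setup

end Fermat.Agent.S18.B12.H33

namespace Fermat.Agent.S18.B12.H33

open Polynomial

universe u v

set_option linter.unusedSectionVars false
set_option linter.unusedVariables false

section Main

variable {P : Type u} [CommRing P] [IsDomain P] (w : P)
  {B : Type v} [CommRing B] [Algebra P B]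


/-- Reduction of a radical-membership from `B` to `B/wB`. -/
theorem mk_sub_sum_mem_radical {r : ℕ} (y : Fin r → B) (q : P) (t : (P ⧸ Ideal.span {w}))
    (hqt : Associated (Ideal.Quotient.mk (Ideal.span {w}) q) t)
    (c : B) (a : Fin r → P)
    (h : c - ∑ i, a i • y i ∈ (Ideal.span {algebraMap P B w, algebraMap P B q}).radical) :
    (Ideal.Quotient.mk ((Ideal.span {w}).map (algebraMap P B)) c : (B ⧸ (Ideal.span {w}).map (algebraMap P B)))
      - ∑ i, (Ideal.Quotient.mk (Ideal.span {w}) (a i)) •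
          (Ideal.Quotient.mk ((Ideal.span {w}).map (algebraMap P B)) (y i) : (B ⧸ (Ideal.span {w}).map (algebraMap P B))) ∈
      (Ideal.span {algebraMap (P ⧸ Ideal.span {w}) (B ⧸ (Ideal.span {w}).map (algebraMap P B)) t}).radical := by
  obtain ⟨k, hk⟩ := h
  refine ⟨k, ?_⟩
  have e1 : (Ideal.Quotient.mk ((Ideal.span {w}).map (algebraMap P B)) c : (B ⧸ (Ideal.span {w}).map (algebraMap P B)))
      - ∑ i, (Ideal.Quotient.mk (Ideal.span {w}) (a i)) •
          (Ideal.Quotient.mk ((Ideal.span {w}).map (algebraMap P B)) (y i) : (B ⧸ (Ideal.span {w}).map (algebraMap P B)))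
      = Ideal.Quotient.mk ((Ideal.span {w}).map (algebraMap P B)) (c - ∑ i, a i • y i) := by
    rw [map_sub, map_sum]
    congr 1
  rw [e1, ← map_pow]
  rw [Ideal.mem_span_pair] at hk
  obtain ⟨c₁, c₂, hc⟩ := hk
  rw [← hc, map_add, map_mul, map_mul]
  have hw0 : Ideal.Quotient.mk ((Ideal.span {w}).map (algebraMap P B)) (algebraMap P B w) = 0 :=
    Ideal.Quotient.eq_zero_iff_mem.mpr
      (Ideal.mem_map_of_mem _ (Ideal.mem_span_singleton_self w))
  rw [hw0, mul_zero, zero_add]
  have hq' : Ideal.Quotient.mk ((Ideal.span {w}).map (algebraMap P B)) (algebraMap P B q)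
      = algebraMap (P ⧸ Ideal.span {w}) (B ⧸ (Ideal.span {w}).map (algebraMap P B)) (Ideal.Quotient.mk (Ideal.span {w}) q) := rfl
  rw [hq']
  obtain ⟨v, hv⟩ := hqt
  rw [Ideal.mem_span_singleton]
  refine Dvd.dvd.mul_left ?_ _
  rw [← hv, map_mul]
  exact ⟨algebraMap (P ⧸ Ideal.span {w}) (B ⧸ (Ideal.span {w}).map (algebraMap P B)) ((v⁻¹ : (P ⧸ Ideal.span {w})ˣ) : (P ⧸ Ideal.span {w})), by
    rw [mul_assoc, ← map_mul, Units.mul_inv, map_one, mul_one]⟩

end Main

end Fermat.Agent.S18.B12.H33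

end
end
-- ===== PACK-END S18/B12/H33/Core.lean

-- ===== PACK-BEGIN S18/B12/H444/GenericDiscrSpec.lean
section




/-!
# S18 / b2.5 / A5 (helper444): `GenericDiscrStatement` in the exact frozen shape

`theorem genericDiscr : GenericDiscrStatement` (frozen in `B12/Spec2.lean`, squad-lead helper33),
from `genericDiscr_abs` (`GenericDiscr.lean`) with `Λ := Localization.Away w`,
`C₀ := Localization (algebraMapSubmonoid B (powers w))` and helper274's tame discriminant bound
(`H274.tameDiscr`, on main).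
-/

set_option autoImplicit false

noncomputable section

namespace Fermat.Agent.S18.B12.H444

open Polynomial Module

universe u v

/-- A commutative ring in which all positive integers are units is a `ℚ`-algebra. -/
def ratAlgebraOfUnits (Λ : Type u) [CommRing Λ] (h : ∀ m : ℕ, m ≠ 0 → IsUnit ((m : ℕ) : Λ)) :
    Algebra ℚ Λ :=
  RingHom.toAlgebra
    (IsLocalization.lift (M := nonZeroDivisors ℤ) (S := ℚ) (g := Int.castRingHom Λ)
      (fun y => by
        have hy : (y : ℤ) ≠ 0 := nonZeroDivisors.coe_ne_zero y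
        have hn : (y : ℤ).natAbs ≠ 0 := Int.natAbs_ne_zero.mpr hy
        have hu := h _ hn
        rcases Int.natAbs_eq (y : ℤ) with h1 | h1
        · have : Int.castRingHom Λ (y : ℤ) = (((y : ℤ).natAbs : ℕ) : Λ) := by
            conv_lhs => rw [h1]
            simp
          rw [this]; exact hu
        · have : Int.castRingHom Λ (y : ℤ) = -(((y : ℤ).natAbs : ℕ) : Λ) := by
            conv_lhs => rw [h1]
            simp
          rw [this]; exact hu.neg))

theorem not_dvd_of_not_associated {P : Type u} [CommRing P] [IsDomain P] {π w : P}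
    (hπ : Prime π) (hw : Prime w) (h : ¬ Associated π w) : ¬ π ∣ w := by
  rintro ⟨c, hc⟩
  rcases hw.irreducible.isUnit_or_isUnit hc with h1 | h1
  · exact hπ.not_isUnit h1
  · exact h ⟨h1.unit, by simp [hc]⟩

/-- **A5** in the exact frozen shape of `B12/Spec2.lean`. -/
theorem genericDiscr : GenericDiscrStatement.{u, v} := by
  intro P _ _ _ _ w hw hPID hunits B _ _ _ _ _ _ π hπ hπw n x hx r y hy
  obtain ⟨hli, g, hgπ, hg⟩ := hx
  have hw0 : w ≠ 0 := hw.ne_zero
  let Λ := Localization.Away w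
  let C₀ := Localization (Algebra.algebraMapSubmonoid B (Submonoid.powers w))
  letI : Algebra Λ C₀ := localizationAlgebra (Submonoid.powers w) B
  haveI : IsScalarTower P Λ C₀ := IsScalarTower.of_algebraMap_eq'
    (by rw [RingHom.algebraMap_toAlgebra, IsLocalization.map_comp, ← IsScalarTower.algebraMap_eq])
  haveI : IsDomain Λ := IsLocalization.isDomain_localization (powers_le_nonZeroDivisors' w hw0)
  haveI : IsPrincipalIdealRing Λ := hPID
  letI : Algebra ℚ Λ := ratAlgebraOfUnits Λ (fun m hm => by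
    have := hunits m hm
    rwa [map_natCast] at this)
  unfold intDiscr
  exact genericDiscr_abs B w hw0 Λ C₀ π hπ (not_dvd_of_not_associated hπ hw hπw) n x hli g
    (fun h => hgπ (Ideal.mem_span_singleton.mpr h)) hg r y hy

end Fermat.Agent.S18.B12.H444

end
end
-- ===== PACK-END S18/B12/H444/GenericDiscrSpec.lean

-- ===== PACK-BEGIN S29/H201/PeTensor.lean
section



/-!
# S29 layer M, piece E2 (helper201): `F ⊗ peHoms` versus `F`-valued homomorphisms

* `evalT γ : F ⊗[ZMod p] peHoms N p →ₗ[F] F` — evaluation at `γ`;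
* `eq_zero_of_evalT_eq_zero` — an element of `F ⊗ peHoms` is determined by its evaluations;
* `exists_tensor_of_hom` — every `F`-valued "pe" homomorphism comes from `F ⊗ peHoms`.
-/

set_option autoImplicit false

open CongruenceSubgroup Matrix.SpecialLinearGroup ModularCurve ModularCurve.Period
open scoped MatrixGroups TensorProduct
open Fermat.Agent.S29.M (peHoms)

namespace Fermat.Agent.S29.H201

variable {N : ℕ} {p : ℕ} {F : Type} [Field F] [Algebra (ZMod p) F]

/-- "pe": vanishing on parabolic elements (`tr² = 4`) and on elements of finite order. -/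
def IsPe {A : Type*} [AddCommGroup A] (χ : Additive (Gamma0 N) →+ A) : Prop :=
  (∀ γ : Gamma0 N,
      ((γ : SL(2, ℤ)) : Matrix (Fin 2) (Fin 2) ℤ).trace ^ 2 = 4 → χ (Additive.ofMul γ) = 0) ∧
    (∀ γ : Gamma0 N, IsOfFinOrder γ → χ (Additive.ofMul γ) = 0)

theorem isPe_of_mem_peHoms (χ : peHoms N p) : IsPe (χ : Additive (Gamma0 N) →+ ZMod p) := χ.2

/-- evaluation at `γ`, as a `ZMod p`-linear map `peHoms → F`. -/
noncomputable def evalPe (N p : ℕ) (F : Type) [Field F] [Algebra (ZMod p) F] (γ : Gamma0 N) :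
    peHoms N p →ₗ[ZMod p] F where
  toFun χ := algebraMap (ZMod p) F ((χ : Additive (Gamma0 N) →+ ZMod p) (Additive.ofMul γ))
  map_add' χ χ' := by
    show algebraMap (ZMod p) F (_ + _) = _
    rw [map_add]
  map_smul' c χ := by
    show algebraMap (ZMod p) F (c • _) = _
    rw [smul_eq_mul, map_mul, Algebra.smul_def]
    rfl

/-- evaluation at `γ` on `F ⊗ peHoms`. -/
noncomputable def evalT (N p : ℕ) (F : Type) [Field F] [Algebra (ZMod p) F] (γ : Gamma0 N) :
    F ⊗[ZMod p] (peHoms N p) →ₗ[F] F :=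
  LinearMap.liftBaseChange F (evalPe N p F γ)

theorem evalT_tmul (γ : Gamma0 N) (f : F) (χ : peHoms N p) :
    evalT N p F γ (f ⊗ₜ χ)
      = f * algebraMap (ZMod p) F ((χ : Additive (Gamma0 N) →+ ZMod p) (Additive.ofMul γ)) := by
  rw [evalT, LinearMap.liftBaseChange_tmul, smul_eq_mul]
  rfl

/-- An element of `F ⊗ peHoms` is determined by its evaluations. -/
theorem eq_zero_of_evalT_eq_zero [Fact p.Prime] (c : F ⊗[ZMod p] (peHoms N p))
    (h : ∀ γ : Gamma0 N, evalT N p F γ c = 0) : c = 0 := by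
  classical
  set ℬ := Module.Free.chooseBasis (ZMod p) F with hℬ
  obtain ⟨w, rfl⟩ := TensorProduct.eq_repr_basis_left ℬ c
  have hw : ∀ i ∈ w.support, w i = 0 := by
    intro i hi
    apply Subtype.ext
    refine AddMonoidHom.ext fun γ => ?_
    obtain ⟨γ, rfl⟩ : ∃ γ' : Gamma0 N, Additive.ofMul γ' = γ := ⟨Additive.toMul γ, rfl⟩
    have h1 := h γ
    rw [Finsupp.sum, map_sum] at h1
    have h2 : ∑ j ∈ w.support,
        ((w j : Additive (Gamma0 N) →+ ZMod p) (Additive.ofMul γ)) • ℬ j = 0 := by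
      rw [← h1]
      refine Finset.sum_congr rfl fun j _ => ?_
      rw [evalT_tmul, Algebra.smul_def, mul_comm]
    have h3 := linearIndependent_iff'.mp ℬ.linearIndependent w.support
      (fun j => (w j : Additive (Gamma0 N) →+ ZMod p) (Additive.ofMul γ)) h2 i hi
    exact h3
  rw [Finsupp.sum]
  refine Finset.sum_eq_zero fun i hi => ?_
  rw [hw i hi, TensorProduct.tmul_zero]

/-- Every `F`-valued "pe" homomorphism of the finitely generated group `Γ₀(N)` comes from
`F ⊗ peHoms`. -/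
theorem exists_tensor_of_hom [Fact p.Prime] [NeZero N] (χ : Additive (Gamma0 N) →+ F)
    (hχ : IsPe χ) :
    ∃ c : F ⊗[ZMod p] (peHoms N p),
      ∀ γ : Gamma0 N, evalT N p F γ c = χ (Additive.ofMul γ) := by
  classical
  obtain ⟨S, hS⟩ := (fg_Gamma0 (N := N)).out
  set E : Submodule (ZMod p) F := Submodule.span (ZMod p) (χ '' (S : Set (Additive (Gamma0 N))))
    with hE
  have hfg : E.FG := Submodule.fg_span ((Finset.finite_toSet S).image χ)
  haveI : Module.Finite (ZMod p) E := Module.Finite.iff_fg.mpr hfg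
  have hmem : ∀ γ : Additive (Gamma0 N), χ γ ∈ E := by
    intro γ
    have hγ : γ ∈ AddSubgroup.closure (S : Set (Additive (Gamma0 N))) := by
      rw [hS]; trivial
    induction hγ using AddSubgroup.closure_induction with
    | mem x hx => exact Submodule.subset_span ⟨x, hx, rfl⟩
    | zero => rw [map_zero]; exact E.zero_mem
    | add x y _ _ hx hy => rw [map_add]; exact E.add_mem hx hy
    | neg x _ hx => rw [map_neg]; exact E.neg_mem hx
  let χE : Additive (Gamma0 N) →+ E := χ.codRestrict E hmem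
  set b := Module.finBasis (ZMod p) E with hb
  let coord : Fin (Module.finrank (ZMod p) E) → (Additive (Gamma0 N) →+ ZMod p) := fun i =>
    (((Finsupp.lapply i : (Fin (Module.finrank (ZMod p) E) →₀ ZMod p) →ₗ[ZMod p] ZMod p).comp
      b.repr.toLinearMap).toAddMonoidHom).comp χE
  have hcoord : ∀ i γ, coord i γ = b.repr (χE γ) i := fun i γ => rfl
  have hzero : ∀ γ : Additive (Gamma0 N), χ γ = 0 → ∀ i, coord i γ = 0 := by
    intro γ h0 i
    have h1 : χE γ = 0 := Subtype.ext h0
    rw [hcoord, h1, map_zero]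
    rfl
  have hpe : ∀ i, coord i ∈ peHoms N p := fun i =>
    ⟨fun γ hγ => hzero _ (hχ.1 γ hγ) i, fun γ hγ => hzero _ (hχ.2 γ hγ) i⟩
  refine ⟨∑ i, ((b i : E) : F) ⊗ₜ[ZMod p] (⟨coord i, hpe i⟩ : peHoms N p), fun γ => ?_⟩
  rw [map_sum]
  have h1 : ∀ i, evalT N p F γ (((b i : E) : F) ⊗ₜ[ZMod p] (⟨coord i, hpe i⟩ : peHoms N p))
      = (((b.repr (χE (Additive.ofMul γ)) i) • b i : E) : F) := by
    intro i
    rw [evalT_tmul, Submodule.coe_smul, Algebra.smul_def, mul_comm]
    rfl
  rw [Finset.sum_congr rfl fun i _ => h1 i, ← Submodule.coe_sum, b.sum_repr]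
  rfl

end Fermat.Agent.S29.H201

end
-- ===== PACK-END S29/H201/PeTensor.lean

-- ===== PACK-BEGIN Lib/RR/H383/Fundamental.lean
section



/-!
# RR library (helper383): the fundamental equality `deg (x)₀ = deg (x)_∞ = [F : K(x)]`,
# in any characteristic

`K` algebraically closed, `F / K` finite over `K(x)` for one transcendental `x`.
Following Stichtenoth, *Algebraic function fields and codes*, Thm 1.4.11 (no separability):

* `eq_algebraMap_of_forall_ord_nonneg` : a function without poles is constant;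
* `finite_and_ell_le` : `L(D)` is finite-dimensional and `ℓ(D) ≤ deg D + 1` for `D ≥ 0`;
* `finite_setOf_ord_neg`, `finite_setOf_ord_pos`, `finite_setOf_ord_ne_zero`;
* `sum_neg_ord_eq_finrank`, `sum_ord_eq_finrank` : the fundamental equality;
* `hasPrincipalDivisors_of_finite` : `HasPrincipalDivisors K F`.
-/

set_option autoImplicit false

noncomputable section

open AlgebraicCurve Polynomial IntermediateField

namespace Fermat.Agent.Lib.RR.H383

open Fermat.Agent.Lib.RR

variable {K F : Type*} [Field K] [Field F] [Algebra K F]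

/-- `F` is finite over `K(y)` for every transcendental `y` as soon as it is for one. -/
theorem finite_of_finite {x : F} (hx : Transcendental K x) [FiniteDimensional K⟮x⟯ F] :
    ∀ y : F, Transcendental K y → FiniteDimensional K⟮y⟯ F := fun _ hy =>
  Fermat.Agent.S24.FF.finiteDimensional_adjoin_of_transcendental hx hy

section AlgClosed

variable [IsAlgClosed K]

/-- All places have degree one. -/
theorem deg_eq_one_of_finite {x : F} (hx : Transcendental K x) [FiniteDimensional K⟮x⟯ F]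
    (v : Place K F) : v.deg = 1 :=
  Fermat.Agent.S24.FF.deg_eq_one v hx

/-- A function without poles is constant. -/
theorem eq_algebraMap_of_forall_ord_nonneg
    (hfin : ∀ y : F, Transcendental K y → FiniteDimensional K⟮y⟯ F) {f : F}
    (hf : ∀ v : Place K F, 0 ≤ v.ord f) : f ∈ (algebraMap K F).range := by
  by_contra hcon
  have ht : Transcendental K f := Fermat.Agent.S24.FF.transcendental_of_not_mem_range hcon
  obtain ⟨v, hv⟩ := exists_place_ord_neg hfin ht
  have := hf v
  omega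

/-- `L(0) = K`. -/
theorem L_zero_eq (hfin : ∀ y : F, Transcendental K y → FiniteDimensional K⟮y⟯ F) :
    riemannRochSpace (0 : Divisor K F) = LinearMap.range (Algebra.linearMap K F) := by
  ext f
  rw [mem_L_iff]
  constructor
  · intro h
    have hf : ∀ v : Place K F, 0 ≤ v.ord f := by
      intro v
      rcases h v with h0 | h0
      · rw [h0]; simp
      · simpa using h0
    obtain ⟨c, hc⟩ := eq_algebraMap_of_forall_ord_nonneg hfin hf
    exact ⟨c, hc⟩
  · rintro ⟨c, rfl⟩ v
    right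
    rw [Algebra.linearMap_apply, ord_algebraMap]
    simp

theorem finite_L_zero (hfin : ∀ y : F, Transcendental K y → FiniteDimensional K⟮y⟯ F) :
    Module.Finite K (riemannRochSpace (0 : Divisor K F)) := by
  rw [L_zero_eq hfin]
  exact LinearMap.finiteDimensional_range _

theorem ell_zero_le (hfin : ∀ y : F, Transcendental K y → FiniteDimensional K⟮y⟯ F) :
    ell (0 : Divisor K F) ≤ 1 := by
  unfold ell
  rw [L_zero_eq hfin]
  calc Module.finrank K (LinearMap.range (Algebra.linearMap K F))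
      ≤ Module.finrank K K := LinearMap.finrank_range_le _
    _ = 1 := Module.finrank_self K

/-- `ℓ(D) ≤ deg D + 1` for effective `D`. -/
theorem finite_and_ell_le (hfin : ∀ y : F, Transcendental K y → FiniteDimensional K⟮y⟯ F)
    (hdeg : ∀ v : Place K F, v.deg = 1) :
    ∀ (m : ℕ) (D : Divisor K F), 0 ≤ D → Divisor.degree D = m →
      Module.Finite K (riemannRochSpace D) ∧ ell D ≤ m + 1 := by
  classical
  intro m
  induction m with
  | zero =>
    intro D hD hm
    have hD0 : D = 0 := by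
      by_contra hne
      obtain ⟨v, hv⟩ := Finsupp.support_nonempty_iff.mpr hne
      have hDv : D v ≠ 0 := Finsupp.mem_support_iff.mp hv
      have hDv' : 0 < D v := lt_of_le_of_ne (by simpa using Finsupp.le_def.mp hD v) (Ne.symm hDv)
      have h1 : prim v ≤ D := by
        rw [Finsupp.le_def]
        intro w
        by_cases hw : w = v
        · subst hw; simp only [prim_apply_self]; omega
        · rw [prim_apply_of_ne hw]; simpa using Finsupp.le_def.mp hD w
      have h2 := degree_mono h1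
      rw [degree_prim v (hdeg v), hm] at h2
      simp at h2
    subst hD0
    exact ⟨finite_L_zero hfin, by simpa using ell_zero_le hfin⟩
  | succ m ih =>
    intro D hD hm
    have hne : D ≠ 0 := by
      rintro rfl
      simp at hm
      omega
    obtain ⟨v, hv⟩ := Finsupp.support_nonempty_iff.mpr hne
    have hDv : D v ≠ 0 := Finsupp.mem_support_iff.mp hv
    have hDv' : 0 < D v := lt_of_le_of_ne (by simpa using Finsupp.le_def.mp hD v) (Ne.symm hDv)
    set D' : Divisor K F := D - prim v with hD'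
    have hD'0 : 0 ≤ D' := by
      rw [Finsupp.le_def]
      intro w
      by_cases hw : w = v
      · subst hw
        simp only [hD', Finsupp.coe_sub, Pi.sub_apply, prim_apply_self, Finsupp.coe_zero,
          Pi.zero_apply]
        omega
      · simp only [hD', Finsupp.coe_sub, Pi.sub_apply, prim_apply_of_ne hw, Finsupp.coe_zero,
          Pi.zero_apply, sub_zero]
        simpa using Finsupp.le_def.mp hD w
    have hm' : Divisor.degree D' = m := by
      rw [hD', map_sub, degree_prim v (hdeg v), hm]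
      push_cast
      ring
    obtain ⟨h1, h2⟩ := ih D' hD'0 hm'
    have key := L_add_prim_finite v (hdeg v) D'
    have hDD : D' + prim v = D := by rw [hD']; abel
    rw [hDD] at key
    exact ⟨key.1, key.2.trans (by omega)⟩

theorem finite_L_of_nonneg (hfin : ∀ y : F, Transcendental K y → FiniteDimensional K⟮y⟯ F)
    (hdeg : ∀ v : Place K F, v.deg = 1) {D : Divisor K F} (hD : 0 ≤ D) :
    Module.Finite K (riemannRochSpace D) :=
  (_root_.Fermat.Agent.Lib.RR.H383.finite_and_ell_le hfin hdeg (Divisor.degree D).toNat D hD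
    (Int.toNat_of_nonneg (degree_nonneg hD)).symm).1

theorem ell_le_of_nonneg (hfin : ∀ y : F, Transcendental K y → FiniteDimensional K⟮y⟯ F)
    (hdeg : ∀ v : Place K F, v.deg = 1) {D : Divisor K F} (hD : 0 ≤ D) :
    (ell D : ℤ) ≤ Divisor.degree D + 1 := by
  have := (_root_.Fermat.Agent.Lib.RR.H383.finite_and_ell_le hfin hdeg (Divisor.degree D).toNat D hD
    (Int.toNat_of_nonneg (degree_nonneg hD)).symm).2
  have h2 := Int.toNat_of_nonneg (degree_nonneg hD)
  omega

end AlgClosed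

/-! ### Finiteness of zeros and poles -/

theorem finite_setOf_ord_pos' (hdeg : ∀ v : Place K F, v.deg = 1) (x : F)
    [FiniteDimensional K⟮x⟯ F] : {v : Place K F | 0 < v.ord x}.Finite := by
  classical
  by_contra hinf
  obtain ⟨t, hts, htc⟩ :=
    (Set.not_finite.mp hinf).exists_subset_card_eq (Module.finrank K⟮x⟯ F + 1)
  have h1 := sum_ord_le_finrank hdeg x t (fun v hv => hts hv)
  have h2 : (t.card : ℤ) ≤ ∑ v ∈ t, v.ord x := by
    have : ∑ _v ∈ t, (1 : ℤ) ≤ ∑ v ∈ t, v.ord x :=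
      Finset.sum_le_sum fun v hv => by
        have : 0 < v.ord x := hts hv
        omega
    simpa using this
  rw [htc] at h2
  push_cast at h2
  omega

theorem finite_setOf_ord_neg' (hdeg : ∀ v : Place K F, v.deg = 1) (x : F)
    [FiniteDimensional K⟮x⟯ F] : {v : Place K F | v.ord x < 0}.Finite := by
  have h : FiniteDimensional K⟮x⁻¹⟯ F := by
    rw [← adjoin_inv_eq x]
    infer_instance
  refine (finite_setOf_ord_pos' hdeg x⁻¹).subset ?_
  intro v hv
  have hv' : v.ord x < 0 := hv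
  show 0 < v.ord x⁻¹
  rw [v.ord_inv]
  omega

section AlgClosed

variable [IsAlgClosed K]

theorem finite_setOf_ord_neg (hfin : ∀ y : F, Transcendental K y → FiniteDimensional K⟮y⟯ F)
    (hdeg : ∀ v : Place K F, v.deg = 1) (f : F) : {v : Place K F | v.ord f < 0}.Finite := by
  by_cases hf : f ∈ (algebraMap K F).range
  · obtain ⟨c, rfl⟩ := hf
    convert Set.finite_empty (α := Place K F)
    ext v
    simp [ord_algebraMap]
  · have ht : Transcendental K f := Fermat.Agent.S24.FF.transcendental_of_not_mem_range hf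
    have := hfin f ht
    exact finite_setOf_ord_neg' hdeg f

theorem finite_setOf_ord_pos (hfin : ∀ y : F, Transcendental K y → FiniteDimensional K⟮y⟯ F)
    (hdeg : ∀ v : Place K F, v.deg = 1) (f : F) : {v : Place K F | 0 < v.ord f}.Finite := by
  refine (finite_setOf_ord_neg hfin hdeg f⁻¹).subset ?_
  intro v hv
  have hv' : 0 < v.ord f := hv
  show v.ord f⁻¹ < 0
  rw [v.ord_inv]
  omega

theorem finite_setOf_ord_ne_zero (hfin : ∀ y : F, Transcendental K y → FiniteDimensional K⟮y⟯ F)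
    (hdeg : ∀ v : Place K F, v.deg = 1) (f : F) : {v : Place K F | v.ord f ≠ 0}.Finite := by
  refine ((finite_setOf_ord_pos hfin hdeg f).union (finite_setOf_ord_neg hfin hdeg f)).subset ?_
  intro v hv
  have hv' : v.ord f ≠ 0 := hv
  rcases lt_or_gt_of_ne hv' with h | h
  · exact Or.inr h
  · exact Or.inl h

/-- The pole divisor `(f)_∞`. -/
def poleDiv (hfin : ∀ y : F, Transcendental K y → FiniteDimensional K⟮y⟯ F)
    (hdeg : ∀ v : Place K F, v.deg = 1) (f : F) : Divisor K F :=
  Finsupp.ofSupportFinite (fun v => max (-v.ord f) 0) <| by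
    refine (finite_setOf_ord_neg hfin hdeg f).subset ?_
    intro v hv
    have hv' : max (-v.ord f) 0 ≠ 0 := hv
    show v.ord f < 0
    by_contra h
    apply hv'
    rw [max_eq_right]
    omega

theorem poleDiv_apply (hfin : ∀ y : F, Transcendental K y → FiniteDimensional K⟮y⟯ F)
    (hdeg : ∀ v : Place K F, v.deg = 1) (f : F) (v : Place K F) :
    poleDiv hfin hdeg f v = max (-v.ord f) 0 := rfl

theorem poleDiv_nonneg (hfin : ∀ y : F, Transcendental K y → FiniteDimensional K⟮y⟯ F)
    (hdeg : ∀ v : Place K F, v.deg = 1) (f : F) : 0 ≤ poleDiv hfin hdeg f := by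
  rw [Finsupp.le_def]
  intro v
  rw [poleDiv_apply]
  simp

theorem poleDiv_support (hfin : ∀ y : F, Transcendental K y → FiniteDimensional K⟮y⟯ F)
    (hdeg : ∀ v : Place K F, v.deg = 1) (f : F) (S : Finset (Place K F))
    (hS : ∀ v, v ∈ S ↔ v.ord f < 0) : (poleDiv hfin hdeg f).support = S := by
  ext v
  rw [Finsupp.mem_support_iff, poleDiv_apply, hS]
  constructor
  · intro h
    by_contra hcon
    apply h
    rw [max_eq_right]
    omega
  · intro h h0
    have := le_max_left (-v.ord f) 0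
    omega

theorem degree_poleDiv (hfin : ∀ y : F, Transcendental K y → FiniteDimensional K⟮y⟯ F)
    (hdeg : ∀ v : Place K F, v.deg = 1) (f : F) (S : Finset (Place K F))
    (hS : ∀ v, v ∈ S ↔ v.ord f < 0) :
    Divisor.degree (poleDiv hfin hdeg f) = ∑ v ∈ S, -v.ord f := by
  rw [degree_eq_sum, poleDiv_support hfin hdeg f S hS]
  refine Finset.sum_congr rfl fun v hv => ?_
  have hv' : v.ord f < 0 := (hS v).mp hv
  rw [poleDiv_apply, hdeg v, max_eq_left (by omega)]
  simp

omit [IsAlgClosed K] in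
omit [IsAlgClosed K] in
/-- Powers of a transcendental element are linearly independent. -/
theorem linearIndependent_pow_of_transcendental {x : F} (hx : Transcendental K x) :
    LinearIndependent K (fun i : ℕ => x ^ i) := by
  have h1 := (Polynomial.basisMonomials K).linearIndependent.map' (aeval x).toLinearMap
    (LinearMap.ker_eq_bot.mpr (transcendental_iff_injective.mp hx))
  have h2 : (⇑(aeval x).toLinearMap ∘ ⇑(Polynomial.basisMonomials K)) = fun i : ℕ => x ^ i := by
    funext i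
    simp [Polynomial.coe_basisMonomials]
  rwa [h2] at h1

/-- **Stichtenoth 1.4.11, lower bound**: `[F : K(x)] ≤ deg (x)_∞`. -/
theorem finrank_le_degree_poleDiv
    (hfin : ∀ y : F, Transcendental K y → FiniteDimensional K⟮y⟯ F)
    (hdeg : ∀ v : Place K F, v.deg = 1) {x : F} (hx : Transcendental K x)
    [FiniteDimensional K⟮x⟯ F] :
    (Module.finrank K⟮x⟯ F : ℤ) ≤ Divisor.degree (poleDiv hfin hdeg x) := by
  classical
  set n := Module.finrank K⟮x⟯ F with hn
  let b := Module.finBasis K⟮x⟯ F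
  set B := poleDiv hfin hdeg x with hB
  let C : Divisor K F := ∑ j : Fin n, poleDiv hfin hdeg (b j)
  have hC0 : 0 ≤ C := Finset.sum_nonneg fun j _ => poleDiv_nonneg hfin hdeg (b j)
  have hCv : ∀ (j : Fin n) (v : Place K F), -C v ≤ v.ord (b j) := by
    intro j v
    have h1 : poleDiv hfin hdeg (b j) ≤ C :=
      Finset.single_le_sum (f := fun i => poleDiv hfin hdeg (b i))
        (fun i _ => poleDiv_nonneg hfin hdeg (b i)) (Finset.mem_univ j)
    have h2 := Finsupp.le_def.mp h1 v
    rw [poleDiv_apply] at h2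
    have := le_max_left (-v.ord (b j)) 0
    omega
  have hx0 : x ≠ 0 := fun h => hx (h ▸ isAlgebraic_zero)
  have key : ∀ l : ℕ, ((l : ℤ) + 1) * n ≤ l * Divisor.degree B + Divisor.degree C + 1 := by
    intro l
    set D : Divisor K F := l • B + C with hD
    have hD0 : 0 ≤ D := add_nonneg (nsmul_nonneg (poleDiv_nonneg hfin hdeg x) l) hC0
    have hfinD := finite_L_of_nonneg hfin hdeg hD0
    have hell := ell_le_of_nonneg hfin hdeg hD0
    let g : Fin (l + 1) → K⟮x⟯ := fun i => (AdjoinSimple.gen K x) ^ (i : ℕ)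
    have hg : LinearIndependent K g := by
      have h1 : LinearIndependent K (fun i : Fin (l + 1) => x ^ (i : ℕ)) :=
        (linearIndependent_pow_of_transcendental hx).comp _ Fin.val_injective
      refine LinearIndependent.of_comp (K⟮x⟯.val.toLinearMap) ?_
      have h2 : (⇑(K⟮x⟯.val.toLinearMap) ∘ g) = fun i : Fin (l + 1) => x ^ (i : ℕ) := by
        funext i
        simp [g]
      rw [h2]
      exact h1
    have hli : LinearIndependent K (fun p : Fin (l + 1) × Fin n => g p.1 • b p.2) :=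
      linearIndependent_smul hg b.linearIndependent
    have hval : ∀ p : Fin (l + 1) × Fin n, g p.1 • b p.2 = x ^ (p.1 : ℕ) * b p.2 := by
      intro p
      rw [IntermediateField.smul_def]
      simp [g]
    have hmem : ∀ p : Fin (l + 1) × Fin n, g p.1 • b p.2 ∈ riemannRochSpace D := by
      intro p
      rw [hval, mem_L_iff]
      intro v
      right
      have hb0 : b p.2 ≠ 0 := b.ne_zero p.2
      rw [v.ord_mul (pow_ne_zero _ hx0) hb0, ord_pow]
      have hDv : D v = l * B v + C v := by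
        simp [hD]
      rw [hDv, hB, poleDiv_apply]
      have h1 := hCv p.2 v
      have hi : ((p.1 : ℕ) : ℤ) ≤ l := by
        have := p.1.2
        omega
      have hi0 : (0 : ℤ) ≤ ((p.1 : ℕ) : ℤ) := Int.natCast_nonneg _
      rcases le_or_gt 0 (v.ord x) with h | h
      · rw [max_eq_right (by omega)]
        have := mul_nonneg hi0 h
        omega
      · rw [max_eq_left (by omega)]
        have : ((l : ℤ) - (p.1 : ℕ)) * v.ord x ≤ 0 :=
          mul_nonpos_of_nonneg_of_nonpos (by omega) h.le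
        nlinarith
    let w : Fin (l + 1) × Fin n → riemannRochSpace D := fun p => ⟨g p.1 • b p.2, hmem p⟩
    have hliw : LinearIndependent K w := by
      refine LinearIndependent.of_comp (riemannRochSpace D).subtype ?_
      exact hli
    have hcard := hliw.fintype_card_le_finrank
    rw [Fintype.card_prod, Fintype.card_fin, Fintype.card_fin] at hcard
    have hdegD : Divisor.degree D = l * Divisor.degree B + Divisor.degree C := by
      rw [hD, map_add, map_nsmul]
      simp
    unfold ell at hell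
    have h3 : (((l + 1) * n : ℕ) : ℤ) ≤ (Module.finrank K (riemannRochSpace D) : ℤ) := by
      exact_mod_cast hcard
    push_cast at h3
    rw [hdegD] at hell
    linarith
  by_contra hlt
  push Not at hlt
  have hB0 : 0 ≤ Divisor.degree B := degree_nonneg (poleDiv_nonneg hfin hdeg x)
  have hCdeg : 0 ≤ Divisor.degree C := degree_nonneg hC0
  have hk := key ((Divisor.degree C).toNat + 1)
  have hl : (((Divisor.degree C).toNat + 1 : ℕ) : ℤ) = Divisor.degree C + 1 := by
    push_cast
    rw [Int.toNat_of_nonneg hCdeg]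
  rw [hl] at hk
  have h4 : (Divisor.degree C + 1) * Divisor.degree B ≤ (Divisor.degree C + 1) * ((n : ℤ) - 1) :=
    mul_le_mul_of_nonneg_left (by omega) (by omega)
  nlinarith

/-- **Fundamental equality at the poles**, any characteristic. -/
theorem sum_neg_ord_eq_finrank
    (hfin : ∀ y : F, Transcendental K y → FiniteDimensional K⟮y⟯ F)
    (hdeg : ∀ v : Place K F, v.deg = 1) {x : F} (hx : Transcendental K x)
    [FiniteDimensional K⟮x⟯ F] (S : Finset (Place K F)) (hS : ∀ v, v ∈ S ↔ v.ord x < 0) :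
    ∑ v ∈ S, -v.ord x = (Module.finrank K⟮x⟯ F : ℤ) := by
  refine le_antisymm (sum_neg_ord_le_finrank hdeg x S fun v hv => (hS v).mp hv) ?_
  rw [← degree_poleDiv hfin hdeg x S hS]
  exact finrank_le_degree_poleDiv hfin hdeg hx

theorem sum_neg_ord_eq_finrank_of_eq
    (hfin : ∀ y : F, Transcendental K y → FiniteDimensional K⟮y⟯ F)
    (hdeg : ∀ v : Place K F, v.deg = 1) {x : F} (hx : Transcendental K x)
    (L : IntermediateField K F) (hL : L = K⟮x⟯) [FiniteDimensional L F]
    (S : Finset (Place K F)) (hS : ∀ v, v ∈ S ↔ v.ord x < 0) :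
    ∑ v ∈ S, -v.ord x = (Module.finrank L F : ℤ) := by
  subst hL
  exact sum_neg_ord_eq_finrank hfin hdeg hx S hS

/-- **Fundamental equality at the zeros**, any characteristic. -/
theorem sum_ord_eq_finrank
    (hfin : ∀ y : F, Transcendental K y → FiniteDimensional K⟮y⟯ F)
    (hdeg : ∀ v : Place K F, v.deg = 1) {x : F} (hx : Transcendental K x)
    [FiniteDimensional K⟮x⟯ F] (S : Finset (Place K F)) (hS : ∀ v, v ∈ S ↔ 0 < v.ord x) :
    ∑ v ∈ S, v.ord x = (Module.finrank K⟮x⟯ F : ℤ) := by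
  have hx' : Transcendental K x⁻¹ := fun h => hx (by simpa using h.inv)
  have h := sum_neg_ord_eq_finrank_of_eq hfin hdeg hx' K⟮x⟯ (adjoin_inv_eq x) S
    (fun v => by rw [hS, v.ord_inv]; omega)
  rw [← h]
  refine Finset.sum_congr rfl fun v _ => ?_
  rw [v.ord_inv, neg_neg]

/-- **Principal divisors have degree zero**, any characteristic. -/
theorem hasPrincipalDivisors_of_finite {x : F} (hx : Transcendental K x)
    [FiniteDimensional K⟮x⟯ F] : HasPrincipalDivisors K F := by
  classical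
  have hfin := finite_of_finite hx
  have hdeg : ∀ v : Place K F, v.deg = 1 := deg_eq_one_of_finite hx
  refine ⟨fun f hf0 => ?_⟩
  by_cases hf : f ∈ (algebraMap K F).range
  · obtain ⟨c, rfl⟩ := hf
    refine ⟨0, fun v => ?_, map_zero _⟩
    rw [ord_algebraMap]
    rfl
  have ht : Transcendental K f := Fermat.Agent.S24.FF.transcendental_of_not_mem_range hf
  have := hfin f ht
  let D : Divisor K F := Finsupp.ofSupportFinite (fun v => v.ord f)
    (finite_setOf_ord_ne_zero hfin hdeg f)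
  have hDv : ∀ v, D v = v.ord f := fun v => rfl
  refine ⟨D, hDv, ?_⟩
  rw [degree_eq_sum]
  have hsupp : ∀ v, v ∈ D.support ↔ v.ord f ≠ 0 := fun v => by
    rw [Finsupp.mem_support_iff, hDv]
  have h1 : ∑ v ∈ D.support, D v * (v.deg : ℤ) = ∑ v ∈ D.support, v.ord f := by
    refine Finset.sum_congr rfl fun v _ => ?_
    rw [hDv, hdeg v]
    simp
  rw [h1, ← Finset.sum_filter_add_sum_filter_not D.support (fun v => 0 < v.ord f)]
  have hP := sum_ord_eq_finrank hfin hdeg ht (D.support.filter fun v => 0 < v.ord f)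
    (fun v => by
      rw [Finset.mem_filter, hsupp]
      constructor
      · exact fun h => h.2
      · exact fun h => ⟨h.ne', h⟩)
  have hN := sum_neg_ord_eq_finrank hfin hdeg ht (D.support.filter fun v => ¬ 0 < v.ord f)
    (fun v => by
      rw [Finset.mem_filter, hsupp]
      constructor
      · rintro ⟨h1, h2⟩
        omega
      · intro h
        exact ⟨h.ne, by omega⟩)
  rw [Finset.sum_neg_distrib] at hN
  rw [hP]
  linarith

end AlgClosed

end Fermat.Agent.Lib.RR.H383

end
end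
-- ===== PACK-END Lib/RR/H383/Fundamental.lean

-- ===== PACK-BEGIN S15/H362/CuspDefs.lean
section




/-!
# S15 / piece CUSP (architect helper362): definitions

* `cuspInfty N` : the place `∞` of `ℚ̄(X₀(N))`, cut out by the `q`-adic order on `ℚ̄((q))`.
* `jBar N`, `jLevelBar N` : the functions `j(q)`, `j(q^N)` as elements of the function field.

Everything in this file is sorry-free.
-/

set_option autoImplicit false

noncomputable section

open AlgebraicCurve ModularCurve HahnSeries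

namespace Fermat.Agent.S15.H362

/-- The base field `ℚ̄`. -/
abbrev Qb : Type := AlgebraicClosure ℚ

/-- The function field of `X₀(N)` over `ℚ̄`, as a type. -/
abbrev FB (N : ℕ) : Type := ↥(modularFunctionFieldBar N)

/-- The tautological embedding `ℚ̄(X₀(N)) → ℚ̄((q))`. -/
def inclQ (N : ℕ) : FB N →+* LaurentSeries Qb :=
  (modularFunctionFieldBar N).val.toRingHom

@[simp] theorem inclQ_apply (N : ℕ) (f : FB N) : inclQ N f = (f : LaurentSeries Qb) := rfl

/-- `j(q)` as an element of `ℚ̄(X₀(N))`. -/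
def jBar (N : ℕ) [NeZero N] : FB N :=
  ⟨coeffEmb Qb jq,
    coeffEmb_mem_laurentBaseChange Qb (modularFunctionField_le_full N (jq_mem N))⟩

/-- `j(q^N)` as an element of `ℚ̄(X₀(N))`. -/
def jLevelBar (N : ℕ) [NeZero N] : FB N :=
  ⟨coeffEmb Qb (qExpand ℚ N jq),
    coeffEmb_mem_laurentBaseChange Qb (modularFunctionField_le_full N (jqN_mem N))⟩

@[simp] theorem coe_jBar (N : ℕ) [NeZero N] :
    ((jBar N : FB N) : LaurentSeries Qb) = coeffEmb Qb jq := rfl

@[simp] theorem coe_jLevelBar (N : ℕ) [NeZero N] :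
    ((jLevelBar N : FB N) : LaurentSeries Qb) = coeffEmb Qb (qExpand ℚ N jq) := rfl

theorem coeffEmb_jq_coeff_neg_one : (coeffEmb Qb jq).coeff (-1) = 1 := by
  rw [coeffEmb_coeff, coeff_jq_neg_one, map_one]

theorem coeffEmb_jq_ne_zero : coeffEmb Qb jq ≠ 0 := fun h => by
  have := coeffEmb_jq_coeff_neg_one
  rw [h] at this
  simp at this

theorem order_coeffEmb_jq : (coeffEmb Qb jq).order = -1 := by
  refine le_antisymm (HahnSeries.order_le_of_coeff_ne_zero ?_) ?_
  · rw [coeffEmb_jq_coeff_neg_one]; exact one_ne_zero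
  · by_contra hlt
    rw [not_le] at hlt
    apply coeffEmb_jq_ne_zero
    rw [← HahnSeries.coeff_order_eq_zero, coeffEmb_coeff, coeff_jq_of_lt (by omega), map_zero]

theorem order_algebraMap_nonneg (N : ℕ) (c : Qb) :
    0 ≤ (inclQ N (algebraMap Qb (FB N) c)).order := by
  have h : inclQ N (algebraMap Qb (FB N) c) = algebraMap Qb (LaurentSeries Qb) c := rfl
  rw [h, algebraMap_laurentSeries_eq_single]
  by_cases hc : c = 0
  · simp [hc]
  · rw [HahnSeries.order_single hc]

/-- **The cusp `∞`**: the place of `ℚ̄(X₀(N))` cut out by the `q`-adic order. -/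
def cuspInfty (N : ℕ) [NeZero N] : Place Qb (FB N) :=
  Fermat.Agent.S24.H144.placeOfEmb (K := Qb) (inclQ N) (order_algebraMap_nonneg N)
    ⟨jBar N, by rw [inclQ_apply, coe_jBar, order_coeffEmb_jq]; norm_num⟩

theorem mem_cuspInfty_iff (N : ℕ) [NeZero N] (f : FB N) :
    f ∈ (cuspInfty N).toValuationSubring ↔ 0 ≤ (f : LaurentSeries Qb).order :=
  Iff.rfl

/-- The modular unit `Δ(q)/Δ(q^p)` with coefficients in `ℚ̄`. -/
def unitSeriesBar (p : ℕ) [NeZero p] : LaurentSeries Qb := coeffEmb Qb (modularUnitSeries p)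

end Fermat.Agent.S15.H362

end
end
-- ===== PACK-END S15/H362/CuspDefs.lean

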