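import Mathlib
import Fermat.Prelude.Def_ModularCurve_X0ModL
import Fermat.Prelude.Def_EllipticCurve_FrobeniusTrace
import Fermat.Statements.S05
import Fermat.Prelude.Def_FLTPrelim_Ramification
import Mathlib.FieldTheory.Minpoly.Field
import Mathlib.RingTheory.Algebraic.Basic
import Mathlib.FieldTheory.IsAlgClosed.AlgebraicClosure
import Fermat.Prelude.Def_FLTPrelim_FreyPackage
import Fermat.Agent.Pack.S44.G0E13L3
import Fermat.Agent.Pack.S44.G0E0L1
import Fermat.Agent.Pack.S44.G0E13L0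
import Fermat.Agent.Pack.S44.G0E13L1
import Fermat.Agent.Pack.S44.G0E0L3
import Fermat.Agent.Pack.S44.G0E10L3
import Fermat.Agent.Pack.S44.G0E13L2
import Fermat.Agent.Pack.S44.G0E6L0
import Fermat.Agent.Pack.S44.G0E14L0
import Fermat.Agent.Pack.S44.G0E14L1
import Fermat.Agent.Pack.S44.G0E6L2
import Fermat.Agent.Pack.S44.G0E10L2
import Fermat.Agent.Pack.S44.G0E1L0
import Fermat.Agent.Pack.S44.G0E14L3
import Fermat.Agent.Pack.S44.G0E14L2

-- ===== PACK-BEGIN S24/H624/Germ.lean
section


/-!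
# Taylor coefficients of germs; leading coefficient under Möbius transformations
-/

set_option autoImplicit false

namespace Fermat.Agent.S24.H624

open UpperHalfPlane Complex
open scoped Manifold Topology MatrixGroups

/-- `n`-th Taylor coefficient at `z₀` of a function `ℂ → ℂ`. -/
noncomputable def germCoeff (z₀ : ℂ) (F : ℂ → ℂ) (n : ℕ) : ℂ :=
  iteratedDeriv n F z₀ / (n.factorial : ℂ)

theorem taylorCoeff_eq_germCoeff (τ : ℍ) (f : ℍ → ℂ) (n : ℕ) :
    taylorCoeff τ f n = germCoeff (τ : ℂ) (f ∘ ofComplex) n := rfl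

theorem germCoeff_congr {F G : ℂ → ℂ} {z₀ : ℂ} (h : F =ᶠ[𝓝 z₀] G) (n : ℕ) :
    germCoeff z₀ F n = germCoeff z₀ G n := by
  unfold germCoeff
  rw [h.iteratedDeriv_eq]

theorem germCoeff_zero_idx (z₀ : ℂ) (F : ℂ → ℂ) : germCoeff z₀ F 0 = F z₀ := by
  simp [germCoeff]

theorem germCoeff_mul {F G : ℂ → ℂ} {z₀ : ℂ} (hF : AnalyticAt ℂ F z₀) (hG : AnalyticAt ℂ G z₀)
    (n : ℕ) :
    germCoeff z₀ (F * G) n
      = ∑ p ∈ Finset.HasAntidiagonal.antidiagonal n, germCoeff z₀ F p.1 * germCoeff z₀ G p.2 := by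
  unfold germCoeff
  have hF' : ContDiffAt ℂ n F z₀ := hF.contDiffAt.of_le (by exact_mod_cast le_top)
  have hG' : ContDiffAt ℂ n G z₀ := hG.contDiffAt.of_le (by exact_mod_cast le_top)
  rw [iteratedDeriv_mul hF' hG',
    Finset.Nat.sum_antidiagonal_eq_sum_range_succ
      (fun i j => iteratedDeriv i F z₀ / (i.factorial : ℂ)
        * (iteratedDeriv j G z₀ / (j.factorial : ℂ))) n,
    Finset.sum_div]
  refine Finset.sum_congr rfl fun i hi => ?_
  have hi' : i ≤ n := Nat.lt_succ_iff.mp (Finset.mem_range.mp hi)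
  have h1 : (n.choose i : ℂ)
      = (n.factorial : ℂ) / ((i.factorial : ℂ) * ((n - i).factorial : ℂ)) := by
    rw [Nat.choose_eq_factorial_div_factorial hi']
    rw [Nat.cast_div (Nat.factorial_mul_factorial_dvd_factorial hi')
      (by exact_mod_cast (Nat.mul_pos (Nat.factorial_pos _) (Nat.factorial_pos _)).ne')]
    push_cast
    rfl
  rw [h1]
  have hn : (n.factorial : ℂ) ≠ 0 := by exact_mod_cast (Nat.factorial_pos n).ne'
  have hi0 : (i.factorial : ℂ) ≠ 0 := by exact_mod_cast (Nat.factorial_pos i).ne'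
  have hni : ((n - i).factorial : ℂ) ≠ 0 := by exact_mod_cast (Nat.factorial_pos (n - i)).ne'
  field_simp

theorem germCoeff_sub_id (z₀ : ℂ) (n : ℕ) :
    germCoeff z₀ (fun z => z - z₀) n = if n = 1 then 1 else 0 := by
  unfold germCoeff
  rcases n with _ | _ | n
  · simp
  · have h : deriv (fun z : ℂ => z - z₀) = fun _ => (1 : ℂ) := by
      funext z
      simp
    rw [iteratedDeriv_succ', h]
    simp
  · have h : deriv (fun z : ℂ => z - z₀) = fun _ => (1 : ℂ) := by
      funext z
      simp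
    rw [iteratedDeriv_succ', h, iteratedDeriv_succ']
    simp

theorem germCoeff_sub_mul {G : ℂ → ℂ} {z₀ : ℂ} (hG : AnalyticAt ℂ G z₀) (n : ℕ) :
    germCoeff z₀ (fun z => (z - z₀) * G z) (n + 1) = germCoeff z₀ G n := by
  have hF : AnalyticAt ℂ (fun z : ℂ => z - z₀) z₀ := by fun_prop
  have := germCoeff_mul hF hG (n + 1)
  rw [show (fun z => (z - z₀) * G z) = (fun z : ℂ => z - z₀) * G from rfl, this]
  rw [Finset.sum_eq_single (1, n)]
  · rw [germCoeff_sub_id]
    simp
  · rintro ⟨i, j⟩ hij hne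
    rw [germCoeff_sub_id]
    have hsum : i + j = n + 1 := by simpa using hij
    have hi : i ≠ 1 := by
      rintro rfl
      apply hne
      have : j = n := by omega
      rw [this]
    simp [hi]
  · intro h
    exfalso
    apply h
    simp
    omega

theorem germCoeff_pow_mul {G : ℂ → ℂ} {z₀ : ℂ} (hG : AnalyticAt ℂ G z₀) (n : ℕ) :
    germCoeff z₀ (fun z => (z - z₀) ^ n * G z) n = G z₀ := by
  induction n generalizing G with
  | zero => simp [germCoeff_zero_idx]
  | succ n ih =>
    have hG' : AnalyticAt ℂ (fun z => (z - z₀) ^ n * G z) z₀ := by fun_prop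
    have h1 : (fun z => (z - z₀) ^ (n + 1) * G z)
        = fun z => (z - z₀) * ((z - z₀) ^ n * G z) := by
      funext z
      ring
    rw [h1, germCoeff_sub_mul hG', ih hG]

/-- Leading Taylor coefficient via a local factorisation. -/
theorem germCoeff_of_eventuallyEq {F u : ℂ → ℂ} {z₀ : ℂ} (hu : AnalyticAt ℂ u z₀) {n : ℕ}
    (h : ∀ᶠ z in 𝓝 z₀, F z = (z - z₀) ^ n * u z) : germCoeff z₀ F n = u z₀ := by
  rw [germCoeff_congr (G := fun z => (z - z₀) ^ n * u z) h, germCoeff_pow_mul hu]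

/-- **Leading coefficient form of the rotation lemma.**  If `f` has order `n` at `g • τ`, the
`n`-th Taylor coefficient of `f ∘ g` at `τ` is `(g'(τ)) ^ n` times that of `f` at `g • τ`. -/
theorem taylorCoeff_comp_smul {g : GL (Fin 2) ℝ} (hg : 0 < g.det.val) {f : ℍ → ℂ} (hf : MDiff f)
    (τ : ℍ) {n : ℕ} (hn : ordAt (g • τ) f = n) :
    taylorCoeff τ (fun z : ℍ => f (g • z)) n
      = (((g.det.val : ℝ) : ℂ) / denom g (τ : ℂ) ^ 2) ^ n * taylorCoeff (g • τ) f n := by
  have hord : analyticOrderAt (f ∘ ofComplex) ((g • τ : ℍ) : ℂ) = (n : ℕ∞) := by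
    rw [← ordAt_def, hn]
  obtain ⟨u, hu, -, hfu⟩ :=
    ((analyticAt_of_mdiff hf (g • τ)).analyticOrderAt_eq_natCast).mp hord
  have hd : denom g (τ : ℂ) ≠ 0 := denom_ne_zero g τ
  have hmτ : moeb g (τ : ℂ) = ((g • τ : ℍ) : ℂ) := moeb_coe hg τ
  have hman : AnalyticAt ℂ (moeb g) (τ : ℂ) := analyticAt_moeb g hd
  have hmcont : ContinuousAt (moeb g) (τ : ℂ) := hman.continuousAt
  set c : ℂ := ((g.det.val : ℝ) : ℂ) with hc
  -- right-hand side: value of u at g τ
  have hR : taylorCoeff (g • τ) f n = u ((g • τ : ℍ) : ℂ) := by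
    rw [taylorCoeff_eq_germCoeff]
    refine germCoeff_of_eventuallyEq hu ?_
    filter_upwards [hfu] with z hz
    rw [hz, smul_eq_mul]
  -- left-hand side
  have h2 : ∀ᶠ z in 𝓝 (τ : ℂ), (f ∘ ofComplex) (moeb g z)
      = (moeb g z - ((g • τ : ℍ) : ℂ)) ^ n • u (moeb g z) := by
    have : Filter.Tendsto (moeb g) (𝓝 (τ : ℂ)) (𝓝 ((g • τ : ℍ) : ℂ)) := by
      have := hmcont.tendsto
      rwa [hmτ] at this
    exact this.eventually hfu
  have h3 : ∀ᶠ z in 𝓝 (τ : ℂ), denom g z ≠ 0 :=
    (hasDerivAt_denom g _).continuousAt.eventually_ne hd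
  have hden_an : AnalyticAt ℂ (fun z => denom g z * denom g (τ : ℂ)) (τ : ℂ) := by
    have : (fun z => denom g z * denom g (τ : ℂ))
        = fun w : ℂ => (((g 1 0 : ℝ) : ℂ) * w + ((g 1 1 : ℝ) : ℂ)) * denom g (τ : ℂ) := by
      funext w; simp [denom]
    rw [this]
    fun_prop
  have hU : AnalyticAt ℂ (fun z => (c / (denom g z * denom g (τ : ℂ))) ^ n * u (moeb g z))
      (τ : ℂ) := by
    have h1 : AnalyticAt ℂ (fun z => c / (denom g z * denom g (τ : ℂ))) (τ : ℂ) :=
      analyticAt_const.div hden_an (mul_ne_zero hd hd)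
    have h2' : AnalyticAt ℂ (fun z => u (moeb g z)) (τ : ℂ) := by
      have : AnalyticAt ℂ u (moeb g (τ : ℂ)) := by rw [hmτ]; exact hu
      exact AnalyticAt.fun_comp this hman
    exact (h1.pow n).mul h2'
  have hL : taylorCoeff τ (fun z : ℍ => f (g • z)) n
      = (c / (denom g (τ : ℂ) * denom g (τ : ℂ))) ^ n * u (moeb g (τ : ℂ)) := by
    rw [taylorCoeff_eq_germCoeff]
    refine germCoeff_of_eventuallyEq (u := fun z => (c / (denom g z * denom g (τ : ℂ))) ^ n
      * u (moeb g z)) hU ?_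
    filter_upwards [eventuallyEq_comp_smul hg f τ, h2, h3] with z e1 e2 e3
    rw [e1]
    simp only [Function.comp_apply] at e2 ⊢
    rw [e2, ← hmτ, moeb_sub_moeb g e3 hd, smul_eq_mul, ← mul_assoc, ← mul_pow]
    congr 2
    ring
  rw [hL, hR, hmτ, sq]

/-- `SL(2, ℤ)` version for the left action `(γ • f) τ = f (γ⁻¹ • τ)`. -/
theorem taylorCoeff_smul_holoRing (γ : SL(2, ℤ)) (f : holoRing) (τ : ℍ) {n : ℕ}
    (hn : ordAt (γ⁻¹ • τ) (f : ℍ → ℂ) = n) :
    taylorCoeff τ ((γ • f : holoRing) : ℍ → ℂ) n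
      = (1 / denom ((γ⁻¹ : SL(2, ℤ)) : GL (Fin 2) ℝ) (τ : ℂ) ^ 2) ^ n
        * taylorCoeff (γ⁻¹ • τ) (f : ℍ → ℂ) n := by
  have h := taylorCoeff_comp_smul (g := ((γ⁻¹ : SL(2, ℤ)) : GL (Fin 2) ℝ))
    (det_coe_SL_pos γ⁻¹) f.2 τ (n := n) hn
  rw [det_coe_SL, Complex.ofReal_one] at h
  exact h

end Fermat.Agent.S24.H624

end
-- ===== PACK-END S24/H624/Germ.lean

-- ===== PACK-BEGIN S28/H626/Upper.lean
section
/-
S28 helper (helper626): the upper bound `[k(j(q^d) : d ∣ N) : k(j)] ≤ ψ(N)` for every field `k`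
in which `N` is invertible, from the prime-level modular polynomials; and its
linear-independence / spanning forms.
-/




set_option autoImplicit false

noncomputable section

open ModularCurve HahnSeries Polynomial IntermediateField

namespace Fermat.Agent.S28.H626

/-! ### Arithmetic of `dedekindPsi` -/

section Psi

theorem psi_mul_prime_of_dvd {N p : ℕ} (hN : N ≠ 0) (hp : p.Prime) (hpN : p ∣ N) :
    dedekindPsi (N * p) = p * dedekindPsi N := by
  unfold dedekindPsi
  have hset : (N * p).divisors.filter Squarefree = N.divisors.filter Squarefree := by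
    ext d
    simp only [Finset.mem_filter, Nat.mem_divisors]
    constructor
    · rintro ⟨⟨hd, _⟩, hsq⟩
      refine ⟨⟨?_, hN⟩, hsq⟩
      have h2 : d ∣ N ^ 2 := by
        rw [pow_two]
        exact hd.trans (mul_dvd_mul_left N hpN)
      exact (hsq.dvd_pow_iff_dvd two_ne_zero).1 h2
    · rintro ⟨⟨hd, _⟩, hsq⟩
      exact ⟨⟨hd.mul_right p, mul_ne_zero hN hp.ne_zero⟩, hsq⟩
  rw [hset, Finset.mul_sum]
  refine Finset.sum_congr rfl fun d hd => ?_
  have hdN : d ∣ N := (Nat.mem_divisors.1 (Finset.mem_filter.1 hd).1).1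
  obtain ⟨e, rfl⟩ := hdN
  have hd0 : 0 < d := Nat.pos_of_ne_zero (by rintro rfl; simp at hN)
  rw [mul_assoc, Nat.mul_div_cancel_left _ hd0, Nat.mul_div_cancel_left _ hd0, mul_comm]

theorem psi_mul_prime_of_not_dvd {N p : ℕ} (hN : N ≠ 0) (hp : p.Prime) (hpN : ¬ p ∣ N) :
    dedekindPsi (N * p) = (p + 1) * dedekindPsi N := by
  unfold dedekindPsi
  have hcop : ∀ d, d ∣ N → Nat.Coprime d p := fun d hd =>
    (Nat.Coprime.symm ((Nat.Prime.coprime_iff_not_dvd hp).2 fun h => hpN (h.trans hd)))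
  have hset : (N * p).divisors.filter Squarefree
      = (N.divisors.filter Squarefree) ∪ (N.divisors.filter Squarefree).image (· * p) := by
    ext d
    simp only [Finset.mem_filter, Nat.mem_divisors, Finset.mem_union, Finset.mem_image]
    constructor
    · rintro ⟨⟨hd, _⟩, hsq⟩
      by_cases hpd : p ∣ d
      · right
        obtain ⟨e, rfl⟩ := hpd
        refine ⟨e, ⟨⟨?_, hN⟩, hsq.squarefree_of_dvd (Dvd.intro_left p rfl)⟩, mul_comm e p⟩
        rw [mul_comm p e] at hd
        exact Nat.dvd_of_mul_dvd_mul_right hp.pos hd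
      · left
        refine ⟨⟨?_, hN⟩, hsq⟩
        have : Nat.Coprime d p := (Nat.Coprime.symm ((Nat.Prime.coprime_iff_not_dvd hp).2 hpd))
        exact this.dvd_of_dvd_mul_right hd
    · rintro (⟨⟨hd, _⟩, hsq⟩ | ⟨e, ⟨⟨he, _⟩, hsq⟩, rfl⟩)
      · exact ⟨⟨hd.mul_right p, mul_ne_zero hN hp.ne_zero⟩, hsq⟩
      · refine ⟨⟨mul_dvd_mul_right he p, mul_ne_zero hN hp.ne_zero⟩, ?_⟩
        exact (Nat.squarefree_mul (hcop e he)).2 ⟨hsq, hp.squarefree⟩
  have hdisj : Disjoint (N.divisors.filter Squarefree)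
      ((N.divisors.filter Squarefree).image (· * p)) := by
    rw [Finset.disjoint_left]
    intro d hd hd'
    simp only [Finset.mem_filter, Nat.mem_divisors, Finset.mem_image] at hd hd'
    obtain ⟨e, _, rfl⟩ := hd'
    exact hpN ((Dvd.intro_left e rfl).trans hd.1.1)
  rw [hset, Finset.sum_union hdisj, Finset.sum_image, add_mul, one_mul, Finset.mul_sum]
  · congr 1
    · refine Finset.sum_congr rfl fun d hd => ?_
      have hdN : d ∣ N := (Nat.mem_divisors.1 (Finset.mem_filter.1 hd).1).1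
      obtain ⟨e, rfl⟩ := hdN
      have hd0 : 0 < d := Nat.pos_of_ne_zero (by rintro rfl; simp at hN)
      rw [mul_assoc, Nat.mul_div_cancel_left _ hd0, Nat.mul_div_cancel_left _ hd0, mul_comm]
    · refine Finset.sum_congr rfl fun d hd => ?_
      exact Nat.mul_div_mul_right N d hp.pos
  · intro a _ b _ hab
    exact Nat.eq_of_mul_eq_mul_right hp.pos hab

end Psi

/-! ### The upper bound -/

section Upper

variable {k : Type*} [Field k]

theorem full_one_eq : modularFunctionFieldFullC k 1 = IntermediateField.adjoin k {jqModC k} := by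
  apply le_antisymm
  · refine full_le_of_forall_mem 1 _ ?_
    intro d _ hd
    have hd1 : d = 1 := Nat.dvd_one.mp hd
    rw [jd_congr k hd1, jd_one]
    exact IntermediateField.subset_adjoin _ _ (Set.mem_singleton _)
  · rw [IntermediateField.adjoin_le_iff]
    intro y hy
    rw [Set.mem_singleton_iff] at hy
    rw [hy]
    exact jqModC_mem_full k 1

/-- **Upper bound**, `relrank` form (a `Cardinal` inequality, so it includes finiteness). -/
theorem relrank_full_le (N : ℕ) [NeZero N] (H : HasModPolys k N) :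
    IntermediateField.relrank (modularFunctionFieldFullC k 1) (modularFunctionFieldFullC k N) ≤
      ((dedekindPsi N : ℕ) : Cardinal) := by
  revert H
  have main : ∀ n : ℕ, ∀ (N : ℕ) [NeZero N], N = n → HasModPolys k N →
      IntermediateField.relrank (modularFunctionFieldFullC k 1) (modularFunctionFieldFullC k N) ≤
        ((dedekindPsi N : ℕ) : Cardinal) := by
    intro n
    induction n using Nat.strong_induction_on with
    | _ n ih =>
      intro N instN hNn H
      by_cases hN1 : N = 1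
      · subst hN1
        rw [IntermediateField.relrank_self, dedekindPsi_one, Nat.cast_one]
      obtain ⟨p, hp, hpN⟩ := Nat.exists_prime_and_dvd hN1
      obtain ⟨M, hM⟩ := hpN
      have hNM : N = M * p := by rw [hM, mul_comm]
      subst hNM
      have hM0 : M ≠ 0 := by
        rintro rfl
        exact (NeZero.ne (0 * p)) (zero_mul p)
      have instM : NeZero M := ⟨hM0⟩
      have hlt : M < n := by
        rw [← hNn]
        have := hp.one_lt
        have hMpos : 0 < M := Nat.pos_of_ne_zero hM0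
        nlinarith
      have IH := ih M hlt M rfl (H.mono (Dvd.intro p rfl))
      have h1 : modularFunctionFieldFullC k 1 ≤ modularFunctionFieldFullC k M :=
        full_degeneracyC_le k (one_dvd M)
      have h2 : modularFunctionFieldFullC k M ≤ modularFunctionFieldFullC k (M * p) :=
        full_degeneracyC_le k (Dvd.intro p rfl)
      rw [← IntermediateField.relrank_mul_relrank h1 h2]
      by_cases hpM : p ∣ M
      · rw [psi_mul_prime_of_dvd hM0 hp hpM, mul_comm p, Nat.cast_mul]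
        exact mul_le_mul' IH (relrank_full_step_of_dvd hp H hpM)
      · rw [psi_mul_prime_of_not_dvd hM0 hp hpM, mul_comm (p + 1), Nat.cast_mul]
        exact mul_le_mul' IH (relrank_full_step_of_not_dvd hp H hpM)
  exact main N N rfl

/-- `k(j) ≤ k(j(q^d) : d ∣ N)`. -/
theorem adjoin_j_le_full (N : ℕ) [NeZero N] :
    IntermediateField.adjoin k {jqModC k} ≤ modularFunctionFieldFullC k N := by
  rw [IntermediateField.adjoin_le_iff]
  intro y hy
  rw [Set.mem_singleton_iff] at hy
  rw [hy]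
  exact jqModC_mem_full k N

/-- **Upper bound** over `k(j) = IntermediateField.adjoin k {j}`. -/
theorem relrank_adjoin_j_full_le (N : ℕ) [NeZero N] (H : HasModPolys k N) :
    IntermediateField.relrank (IntermediateField.adjoin k {jqModC k})
      (modularFunctionFieldFullC k N) ≤ ((dedekindPsi N : ℕ) : Cardinal) := by
  rw [← full_one_eq]
  exact relrank_full_le N H

/-- The function field as a finite-dimensional `k(j)`-vector space: rank bound. -/
theorem rank_extendScalars_le (N : ℕ) [NeZero N] (H : HasModPolys k N) :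
    Module.rank (IntermediateField.adjoin k {jqModC k})
      (IntermediateField.extendScalars (adjoin_j_le_full (k := k) N)) ≤
        ((dedekindPsi N : ℕ) : Cardinal) := by
  rw [← IntermediateField.relrank_eq_rank_of_le]
  exact relrank_adjoin_j_full_le N H

theorem finiteDimensional_extendScalars (N : ℕ) [NeZero N] (H : HasModPolys k N) :
    FiniteDimensional (IntermediateField.adjoin k {jqModC k})
      (IntermediateField.extendScalars (adjoin_j_le_full (k := k) N)) := by
  rw [FiniteDimensional, ← Module.rank_lt_aleph0_iff]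
  exact lt_of_le_of_lt (rank_extendScalars_le N H) (Cardinal.nat_lt_aleph0 _)

theorem finrank_extendScalars_le (N : ℕ) [NeZero N] (H : HasModPolys k N) :
    Module.finrank (IntermediateField.adjoin k {jqModC k})
      (IntermediateField.extendScalars (adjoin_j_le_full (k := k) N)) ≤ dedekindPsi N := by
  have := finiteDimensional_extendScalars N H
  have h := rank_extendScalars_le N H
  rw [← Module.finrank_eq_rank, Nat.cast_le] at h
  exact h

/-- **Upper bound, linear-independence form.** A family of elements of `k(j(q^d) : d ∣ N)` which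
is linearly independent over `k(j)` has at most `ψ(N)` members. -/
theorem card_le_of_linearIndependent (N : ℕ) [NeZero N] (H : HasModPolys k N)
    {ι : Type*} [Fintype ι] (v : ι → LaurentSeries k)
    (hv : ∀ i, v i ∈ modularFunctionFieldFullC k N)
    (hli : LinearIndependent (IntermediateField.adjoin k {jqModC k}) v) :
    Fintype.card ι ≤ dedekindPsi N := by
  have := finiteDimensional_extendScalars N H
  set B := IntermediateField.extendScalars (adjoin_j_le_full (k := k) N) with hB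
  let w : ι → B := fun i => ⟨v i, hv i⟩
  have hw : LinearIndependent (IntermediateField.adjoin k {jqModC k}) w := by
    refine LinearIndependent.of_comp (B.val.toLinearMap) ?_
    exact hli
  exact (hw.fintype_card_le_finrank).trans (finrank_extendScalars_le N H)

/-- **Upper bound, spanning form.** A family of at least `ψ(N)` elements of
`k(j(q^d) : d ∣ N)` which is linearly independent over `k(j)` spans `k(j(q^d) : d ∣ N)`
over `k(j)`. -/
theorem mem_span_of_linearIndependent (N : ℕ) [NeZero N] (H : HasModPolys k N)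
    {ι : Type*} [Fintype ι] (v : ι → LaurentSeries k)
    (hv : ∀ i, v i ∈ modularFunctionFieldFullC k N)
    (hli : LinearIndependent (IntermediateField.adjoin k {jqModC k}) v)
    (hcard : dedekindPsi N ≤ Fintype.card ι)
    {x : LaurentSeries k} (hx : x ∈ modularFunctionFieldFullC k N) :
    x ∈ Submodule.span (IntermediateField.adjoin k {jqModC k}) (Set.range v) := by
  classical
  have := finiteDimensional_extendScalars N H
  set B := IntermediateField.extendScalars (adjoin_j_le_full (k := k) N) with hB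
  let w : ι → B := fun i => ⟨v i, hv i⟩
  have hw : LinearIndependent (IntermediateField.adjoin k {jqModC k}) w := by
    refine LinearIndependent.of_comp (B.val.toLinearMap) ?_
    exact hli
  have hcard' : Fintype.card ι = Module.finrank (IntermediateField.adjoin k {jqModC k}) B :=
    le_antisymm hw.fintype_card_le_finrank ((finrank_extendScalars_le N H).trans hcard)
  have htop : Submodule.span (IntermediateField.adjoin k {jqModC k}) (Set.range w) = ⊤ :=
    hw.span_eq_top_of_card_eq_finrank' hcard'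
  have hxB : (⟨x, hx⟩ : B) ∈ Submodule.span (IntermediateField.adjoin k {jqModC k})
      (Set.range w) := by
    rw [htop]; exact Submodule.mem_top
  have := Submodule.apply_mem_span_image_of_mem_span (B.val.toLinearMap) hxB
  have himg : (B.val.toLinearMap) '' (Set.range w) = Set.range v := by
    ext y
    constructor
    · rintro ⟨_, ⟨i, rfl⟩, rfl⟩
      exact ⟨i, rfl⟩
    · rintro ⟨i, rfl⟩
      exact ⟨w i, ⟨i, rfl⟩, rfl⟩
  rw [himg] at this
  exact this

end Upper

end Fermat.Agent.S28.H626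

end

end
-- ===== PACK-END S28/H626/Upper.lean

-- ===== PACK-BEGIN S28/H25/Theta.lean
section





/-!
# [A-θ] The `θ`-identity `(θ j)⁶ = Δ · j⁴ · (j - 1728)³` in `ℤ((q))` (helper25)

Unconditional, in the exact shape of the captain skeleton
(`Fermat.Agent.S28.thetaL`, `Fermat.Agent.S28.deltaL`, Prelude `jqModC`).
-/

set_option autoImplicit false

open UpperHalfPlane hiding I
open ModularCurve HahnSeries

noncomputable section

namespace Fermat.Agent.S28.H25

/-- Bridge B2: `qExpansion 1 Δ = q ∏ (1 - qⁿ)²⁴` (from helper685's eta bridge). -/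
theorem deltaBridge : DeltaBridge := by
  have h1 : Fermat.Agent.S28.H685.HasQExp 1 (fun τ => ModularForm.discriminant τ)
      (PowerSeries.X * Fermat.Agent.S28.H685.dedekindEtaUnitC) :=
    (Fermat.Agent.S28.H685.HasQExp.X.mul
      Fermat.Agent.S28.H685.hasQExp_dedekindEtaUnitC).congr_fun
      (fun τ => (Fermat.Agent.S28.H685.discriminant_eq_etaC τ).symm)
  have h2 : Fermat.Agent.S28.H685.HasQExp 1 (fun τ => ModularForm.discriminant τ)
      (qExpansion 1 ModularForm.discriminant) := by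
    intro τ
    exact ModularForm.hasSum_qExpansion (discForm) one_pos
      one_mem_strictPeriods_SL τ
  exact h2.unique one_pos h1

theorem thetaL_eq_thetaLaurent (R : Type*) [CommRing R] (f : LaurentSeries R) :
    Fermat.Agent.S28.thetaL R f = thetaLaurent R f := rfl

theorem deltaL_int_eq : Fermat.Agent.S28.deltaL ℤ = deltaLaurentInt := by
  have h : dedekindEtaUnit.map (Int.castRingHom ℤ) = dedekindEtaUnit := by
    ext n
    simp
  rw [Fermat.Agent.S28.deltaL, deltaLaurentInt, h]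

/-- **[A-θ]** `(θ j)⁶ = Δ · j⁴ · (j - 1728)³` in `ℤ((q))`. -/
theorem theta_identity :
    (Fermat.Agent.S28.thetaL ℤ (jqModC ℤ)) ^ 6 =
      Fermat.Agent.S28.deltaL ℤ * (jqModC ℤ) ^ 4 * (jqModC ℤ - 1728) ^ 3 := by
  rw [thetaL_eq_thetaLaurent, deltaL_int_eq]
  exact theta_identity_laurent deltaBridge

end Fermat.Agent.S28.H25

end
end
-- ===== PACK-END S28/H25/Theta.lean

-- ===== PACK-BEGIN Lib/Cheb/H476/Bridge.lean
section





/-!
# CHEB piece F6 (bridge): `Spec.BridgeDivisionStatement` and `Spec.BridgeStatement`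

From the finite-level statements (Galois number fields, primes of rings of integers, Mathlib's
`IsArithFrobAt`) to the Prelude-level statements (valuation subrings of `ℚ̄`, Prelude's
`IsFrobeniusAt`, `inertiaSubgroupIn`).
-/

set_option autoImplicit false
set_option linter.style.haveILetI false

open NumberField
open scoped Pointwise

namespace Fermat.Agent.Lib.Cheb.H476

open Fermat.Agent.Lib.Cheb.Spec

/-- The normal closure of a finite extension of `ℚ` inside `ℚ̄` is a number field. -/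
theorem numberField_normalClosure (E : IntermediateField ℚ Qb) [FiniteDimensional ℚ E] :
    NumberField (IntermediateField.normalClosure ℚ E Qb) :=
  { to_charZero := inferInstance
    to_finiteDimensional := inferInstance }

/-- The normal closure of a finite extension of `ℚ` inside `ℚ̄` is Galois over `ℚ`. -/
theorem isGalois_normalClosure (E : IntermediateField ℚ Qb) [FiniteDimensional ℚ E] :
    IsGalois ℚ (IntermediateField.normalClosure ℚ E Qb) := by
  haveI : Algebra.IsAlgebraic ℚ Qb := AlgebraicClosure.isAlgebraic ℚ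
  haveI : IsAlgClosure ℚ Qb := ⟨inferInstance, inferInstance⟩
  haveI : Normal ℚ Qb := IsAlgClosure.normal ℚ Qb
  have hn : Normal ℚ (IntermediateField.normalClosure ℚ E Qb) := normalClosure.normal ℚ E Qb
  exact isGalois_iff.mpr ⟨inferInstance, hn⟩

theorem restrictNormal_coe (L : IntermediateField ℚ Qb) [Normal ℚ L] (g : GQ) (x : L) :
    ((AlgEquiv.restrictNormal g L x : L) : Qb) = g (x : Qb) :=
  AlgEquiv.restrictNormal_commutes g L x

theorem restrictNormal_pow (L : IntermediateField ℚ Qb) [Normal ℚ L] (g : GQ) (n : ℕ) :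
    AlgEquiv.restrictNormal (g ^ n) L = (AlgEquiv.restrictNormal g L) ^ n :=
  map_pow (AlgEquiv.restrictNormalHom L) g n

/-- **F6 / W5, Tier 1**: the bridge from the finite-level Frobenius density theorem to the
Prelude-level division statement. -/
theorem bridgeDivision : BridgeDivisionStatement := by
  intro hF E hE σ S
  haveI := hE
  haveI := numberField_normalClosure E
  haveI := isGalois_normalClosure E
  obtain ⟨p, P, τ, hp, hpS, hP, hpP, hI, hτ, hz⟩ :=
    hF (IntermediateField.normalClosure ℚ E Qb)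
      (AlgEquiv.restrictNormal σ (IntermediateField.normalClosure ℚ E Qb)) S
  obtain ⟨A, φ, hAp, hφ, hin, hφτ⟩ :=
    exists_frobenius_restrict (IntermediateField.normalClosure ℚ E Qb) p hp P hP hpP hI τ hτ
  have h1 : τ ∈ Subgroup.zpowers
      (AlgEquiv.restrictNormal σ (IntermediateField.normalClosure ℚ E Qb)) :=
    hz ▸ Subgroup.mem_zpowers τ
  have h2 : AlgEquiv.restrictNormal σ (IntermediateField.normalClosure ℚ E Qb) ∈
      Subgroup.zpowers τ := hz.symm ▸ Subgroup.mem_zpowers _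
  obtain ⟨k, hk⟩ := (isOfFinOrder_of_finite
    (AlgEquiv.restrictNormal σ (IntermediateField.normalClosure ℚ E Qb))).mem_powers_iff_mem_zpowers.mpr h1
  obtain ⟨j, hj⟩ := (isOfFinOrder_of_finite τ).mem_powers_iff_mem_zpowers.mpr h2
  replace hk : AlgEquiv.restrictNormal σ (IntermediateField.normalClosure ℚ E Qb) ^ k = τ := hk
  replace hj : τ ^ j = AlgEquiv.restrictNormal σ (IntermediateField.normalClosure ℚ E Qb) := hj
  have hEL : E ≤ IntermediateField.normalClosure ℚ E Qb := IntermediateField.le_normalClosure E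
  refine ⟨p, A, φ, k, j, hp, hpS, hAp, hφ, ?_, ?_, ?_⟩
  · intro ι hι x hx
    exact hin ι hι ⟨x, hEL hx⟩
  · intro x hx
    have h3 := hφτ ⟨x, hEL hx⟩
    rw [← hk, ← restrictNormal_pow, restrictNormal_coe] at h3
    exact h3
  · intro x hx
    have h4 : AlgEquiv.restrictNormal (φ ^ j) (IntermediateField.normalClosure ℚ E Qb) =
        AlgEquiv.restrictNormal σ (IntermediateField.normalClosure ℚ E Qb) := by
      rw [restrictNormal_pow, ← hj]
      congr 1
      apply AlgEquiv.ext
      intro y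
      apply Subtype.ext
      rw [restrictNormal_coe]
      exact hφτ y
    have h5 := restrictNormal_coe (IntermediateField.normalClosure ℚ E Qb) (φ ^ j) ⟨x, hEL hx⟩
    rw [h4, restrictNormal_coe] at h5
    exact h5.symm

/-- **Bridge, Tier 2**: from finite-level qualitative Chebotarev to the Prelude-level
statement. -/
theorem bridge : BridgeStatement := by
  intro hF E hE σ S
  haveI := hE
  haveI := numberField_normalClosure E
  haveI := isGalois_normalClosure E
  obtain ⟨p, P, hp, hpS, hP, hpP, hI, hτ⟩ :=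
    hF (IntermediateField.normalClosure ℚ E Qb)
      (AlgEquiv.restrictNormal σ (IntermediateField.normalClosure ℚ E Qb)) S
  obtain ⟨A, φ, hAp, hφ, hin, hφτ⟩ :=
    exists_frobenius_restrict (IntermediateField.normalClosure ℚ E Qb) p hp P hP hpP hI _ hτ
  have hEL : E ≤ IntermediateField.normalClosure ℚ E Qb := IntermediateField.le_normalClosure E
  refine ⟨p, A, φ, hp, hpS, hAp, hφ, ?_, ?_⟩
  · intro ι hι x hx
    exact hin ι hι ⟨x, hEL hx⟩
  · intro x hx
    have h3 := hφτ ⟨x, hEL hx⟩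
    rw [restrictNormal_coe] at h3
    exact h3

end Fermat.Agent.Lib.Cheb.H476

end
-- ===== PACK-END Lib/Cheb/H476/Bridge.lean

-- ===== PACK-BEGIN Lib/Frob/A2/H230/Height.lean
section




/-!
# The degree height on the odd points (helper230)

Glue between helper311's exact parallelogram law (`H311.hgt_add_sub`), helper621's `ratDeg`
and the odd points of `OddPts.lean`.

* `hgt_some_eq`   : for an odd point `(x, y)` with `x = jhat S`, the height is `ratDeg S`.
* `hgt_parallelogram` : parallelogram law on the odd points.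
* `hgt_frob`      : `h (Φ P) = q · h P`.
-/

set_option linter.unusedSectionVars false

open WeierstrassCurve Polynomial
open scoped Polynomial.Bivariate WeierstrassCurve.Affine

namespace Fermat.Agent.Lib.Frob.A2.H230

open Fermat.Agent.Lib.FrobRel.H230 Fermat.Agent.S52.H311 Fermat.Agent.S52.H621

universe u

variable {F : Type u} [Field F] {W : WeierstrassCurve F} [DecidableEq (KK W)]

/-- The height on points of `W` over its function field. -/
noncomputable def hh (P : (W⁄(KK W)).Point) : ℕ := hgt (jj W) P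

lemma isXRep_of_jhat {x y : KK W} (h : (W⁄(KK W)).Nonsingular x y) (S : RatFunc F)
    (hx : x = jhat W S) : IsXRep (jj W) (Affine.Point.some x y h) S.num S.denom := by
  refine isXRep_some h (RatFunc.isCoprime_num_denom S) (jj_denom_ne_zero W S) ?_
  rw [hx, jhat_eq_num_div_denom, div_mul_cancel₀ _ (jj_denom_ne_zero W S)]

lemma hh_some_eq {x y : KK W} (h : (W⁄(KK W)).Nonsingular x y) (S : RatFunc F)
    (hx : x = jhat W S) : hh (Affine.Point.some x y h) = ratDeg S := by
  rw [hh, hgt_eq (jj_injective W) (isXRep_of_jhat h S hx)]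
  rfl

lemma hh_zero : hh (0 : (W⁄(KK W)).Point) = 0 := hgt_zero (jj_injective W)

lemma exists_isXRep_of_mem (ha₁ : W.a₁ = 0) (ha₃ : W.a₃ = 0) (h2 : (2 : F) ≠ 0)
    {P : (W⁄(KK W)).Point} (hP : P ∈ oddPts W) : ∃ a b, IsXRep (jj W) P a b := by
  rcases P with _ | ⟨x, y, h⟩
  · exact ⟨1, 0, isXRep_zero⟩
  · obtain ⟨S, hS⟩ := exists_ratFunc_of_mem_oddPts ha₁ ha₃ h2 hP
    exact ⟨_, _, isXRep_of_jhat h S hS⟩

/-- **Parallelogram law** for the height on the odd points. -/
theorem hh_parallelogram (ha₁ : W.a₁ = 0) (ha₃ : W.a₃ = 0) (h2 : (2 : F) ≠ 0) (hΔ : W.Δ ≠ 0)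
    {P Q : (W⁄(KK W)).Point} (hP : P ∈ oddPts W) (hQ : Q ∈ oddPts W) :
    hh (P + Q) + hh (P - Q) = 2 * hh P + 2 * hh Q := by
  have : W.IsElliptic := ⟨isUnit_iff_ne_zero.mpr hΔ⟩
  exact hgt_add_sub (W := W) (jj_injective W)
    (exists_isXRep_of_mem ha₁ ha₃ h2 hP) (exists_isXRep_of_mem ha₁ ha₃ h2 hQ)
    (exists_isXRep_of_mem ha₁ ha₃ h2 ((oddPts W).add_mem hP hQ))
    (exists_isXRep_of_mem ha₁ ha₃ h2 ((oddPts W).sub_mem hP hQ))

lemma hh_eq_zero_iff_isConst (ha₁ : W.a₁ = 0) (ha₃ : W.a₃ = 0) (h2 : (2 : F) ≠ 0)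
    {P : (W⁄(KK W)).Point} (hP : P ∈ oddPts W) (h0 : hh P = 0) :
    P = 0 ∨ ∃ (x y : KK W) (h : (W⁄(KK W)).Nonsingular x y),
      P = Affine.Point.some x y h ∧ IsAlgebraic F x := by
  rcases P with _ | ⟨x, y, h⟩
  · exact Or.inl rfl
  · obtain ⟨S, hS⟩ := exists_ratFunc_of_mem_oddPts ha₁ ha₃ h2 hP
    rw [hh_some_eq h S hS, ratDeg_eq_zero_iff] at h0
    obtain ⟨c, rfl⟩ := h0
    refine Or.inr ⟨x, y, h, rfl, ?_⟩
    rw [hS, jhat_C]
    exact isAlgebraic_algebraMap c

end Fermat.Agent.Lib.Frob.A2.H230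

end
-- ===== PACK-END Lib/Frob/A2/H230/Height.lean

-- ===== PACK-BEGIN S05/AssembleFrey.lean
section
/-
S05 final assembly (helper665): the concrete part for the Frey curve over `AlgebraicClosure ℚ`.
-/



set_option autoImplicit false

namespace Fermat.Agent.S05.Assemble

open WeierstrassCurve WeierstrassCurve.Affine WeierstrassCurve.Affine.Point
open Fermat.Agent.S05.SameRed

set_option linter.unusedSectionVars false
set_option linter.unusedVariables false

/-- `ℚ̄`. -/
abbrev Qb : Type := AlgebraicClosure ℚ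

section inertia

variable (A : ValuationSubring Qb)

/-- Elements of the inertia group act trivially on the residue field. -/
lemma inertia_res {σ : Qb ≃ₐ[ℚ] Qb} (hσ : σ ∈ A.inertiaSubgroupIn ℚ) (z : Qb)
    (hz : A.valuation z ≤ 1) : A.valuation (σ z - z) < 1 := by
  obtain ⟨g, hg, rfl⟩ := hσ
  have hzA : z ∈ A := (A.valuation_le_one_iff z).mp hz
  have h1 : MulSemiringAction.toRingAut (A.decompositionSubgroup ℚ)
      (IsLocalRing.ResidueField A) g = 1 := hg
  have h2 : g • (IsLocalRing.residue A ⟨z, hzA⟩) = IsLocalRing.residue A ⟨z, hzA⟩ := by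
    have := congrArg (fun f => f (IsLocalRing.residue A ⟨z, hzA⟩)) h1
    simpa using this
  rw [← IsLocalRing.ResidueField.residue_smul] at h2
  have h3 : (g • (⟨z, hzA⟩ : A)) - ⟨z, hzA⟩ ∈ IsLocalRing.maximalIdeal A := by
    rw [← Ideal.Quotient.eq]
    exact h2
  rw [ValuationSubring.valuation_lt_one_iff] at h3
  exact h3

variable {A}

lemma val_int_le_one (n : ℤ) : A.valuation (n : Qb) ≤ 1 :=
  (A.valuation_le_one_iff _).mpr (intCast_mem A n)

lemma val_nat_le_one (n : ℕ) : A.valuation (n : Qb) ≤ 1 :=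
  (A.valuation_le_one_iff _).mpr (natCast_mem A n)

/-- An integer divisible by `q` lies in the maximal ideal. -/
lemma val_int_lt_one {q : ℕ} (hq : A.LiesOverPrime q) {n : ℤ} (hn : (q : ℤ) ∣ n) :
    A.valuation (n : Qb) < 1 := by
  obtain ⟨m, rfl⟩ := hn
  have hq' : A.valuation (q : Qb) < 1 := (A.mem_nonunits_iff).mp hq
  push_cast
  rw [map_mul]
  exact (mul_le_of_le_one_right' (val_int_le_one m)).trans_lt hq'

/-- An integer prime to `q` is a unit. -/
lemma val_int_eq_one {q : ℕ} (hq : A.LiesOverPrime q) (hqp : q.Prime) {n : ℤ}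
    (hn : ¬ (q : ℤ) ∣ n) : A.valuation (n : Qb) = 1 := by
  have hq' : A.valuation (q : Qb) < 1 := (A.mem_nonunits_iff).mp hq
  have hcop : IsCoprime (q : ℤ) n := by
    have hp : Prime (q : ℤ) := Nat.prime_iff_prime_int.mp hqp
    exact (Prime.coprime_iff_not_dvd hp).mpr hn
  obtain ⟨u, w, huw⟩ := hcop
  have h1 : (u : Qb) * (q : Qb) + (w : Qb) * (n : Qb) = 1 := by exact_mod_cast congrArg (Int.cast : ℤ → Qb) huw
  have hsmall : A.valuation ((u : Qb) * (q : Qb)) < 1 := by
    rw [map_mul]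
    exact (mul_le_of_le_one_left' (val_int_le_one u)).trans_lt hq'
  have hwn : A.valuation ((w : Qb) * (n : Qb)) = 1 := by
    have : (w : Qb) * (n : Qb) = 1 + -((u : Qb) * (q : Qb)) := by linear_combination h1
    rw [this, (A.valuation).map_add_eq_of_lt_left (by rw [Valuation.map_neg, map_one]; exact hsmall),
      map_one]
  rw [map_mul] at hwn
  refine le_antisymm (val_int_le_one n) ?_
  calc (1 : A.ValueGroup) = A.valuation (w : Qb) * A.valuation (n : Qb) := hwn.symm
    _ ≤ 1 * A.valuation (n : Qb) := mul_le_mul_left (val_int_le_one w) _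
    _ = A.valuation (n : Qb) := one_mul _

lemma val_nat_eq_one {q : ℕ} (hq : A.LiesOverPrime q) (hqp : q.Prime) {n : ℕ}
    (hn : ¬ q ∣ n) : A.valuation (n : Qb) = 1 := by
  have := val_int_eq_one hq hqp (n := (n : ℤ)) (by exact_mod_cast hn)
  simpa using this

end inertia

end Fermat.Agent.S05.Assemble

namespace Fermat.Agent.S05.Assemble

open WeierstrassCurve WeierstrassCurve.Affine WeierstrassCurve.Affine.Point
open Fermat.Agent.S05.SameRed

set_option linter.unusedSectionVars false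
set_option linter.unusedVariables false

section frey

variable (P : FreyPackage)

/-- `a ^ p` in `ℚ̄`. -/
noncomputable def fA : Qb := ((P.a ^ P.p : ℤ) : Qb)
/-- `b ^ p` in `ℚ̄`. -/
noncomputable def fB : Qb := ((P.b ^ P.p : ℤ) : Qb)
/-- `c ^ p` in `ℚ̄`. -/
noncomputable def fC : Qb := ((P.c ^ P.p : ℤ) : Qb)

lemma fA_add_fB : fA P + fB P = fC P := by
  simp only [fA, fB, fC]
  exact_mod_cast congrArg (Int.cast : ℤ → Qb) P.hFLT

lemma frey_a₁ : (P.freyCurve⁄Qb).a₁ = 1 := by
  simp [FreyPackage.freyCurve, WeierstrassCurve.baseChange]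

lemma frey_a₃ : (P.freyCurve⁄Qb).a₃ = 0 := by
  simp [FreyPackage.freyCurve, WeierstrassCurve.baseChange]

lemma frey_a₆ : (P.freyCurve⁄Qb).a₆ = 0 := by
  simp [FreyPackage.freyCurve, WeierstrassCurve.baseChange]

lemma frey_a₂ : (P.freyCurve⁄Qb).a₂ = (fB P - 1 - fA P) / 4 := by
  simp [FreyPackage.freyCurve, WeierstrassCurve.baseChange, fA, fB]

lemma frey_a₄ : (P.freyCurve⁄Qb).a₄ = -(fA P) * (fB P) / 16 := by
  simp [FreyPackage.freyCurve, WeierstrassCurve.baseChange, fA, fB]

lemma four_ne_zero_Qb : (4 : Qb) ≠ 0 := by norm_num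

lemma frey_roots : Roots (P.freyCurve⁄Qb) 0 (fA P / 4) (-(fB P) / 4) := by
  refine ⟨?_, ?_, ?_⟩
  · simp only [WeierstrassCurve.b₂, frey_a₁, frey_a₂]
    field_simp
    ring
  · simp only [WeierstrassCurve.b₄, frey_a₁, frey_a₃, frey_a₄]
    field_simp
    ring
  · simp only [WeierstrassCurve.b₆, frey_a₃, frey_a₆]
    ring

variable {P}
variable {A : ValuationSubring Qb}

lemma val_two_eq_one {q : ℕ} (hq : A.LiesOverPrime q) (hqp : q.Prime) (hq2 : q ≠ 2) :
    A.valuation (2 : Qb) = 1 := by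
  have := val_nat_eq_one hq hqp (n := 2)
    (fun h => hq2 ((Nat.prime_dvd_prime_iff_eq hqp Nat.prime_two).mp h))
  simpa using this

lemma val_four_eq_one {q : ℕ} (hq : A.LiesOverPrime q) (hqp : q.Prime) (hq2 : q ≠ 2) :
    A.valuation (4 : Qb) = 1 :=
  val_four (val_two_eq_one hq hqp hq2)

lemma val_sixteen_eq_one {q : ℕ} (hq : A.LiesOverPrime q) (hqp : q.Prime) (hq2 : q ≠ 2) :
    A.valuation (16 : Qb) = 1 := by
  have : (16 : Qb) = 4 * 4 := by norm_num
  rw [this, map_mul, val_four_eq_one hq hqp hq2, one_mul]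

lemma val_p_eq_one {q : ℕ} (hq : A.LiesOverPrime q) (hqp : q.Prime) (hne : q ≠ P.p) :
    A.valuation (P.p : Qb) = 1 :=
  val_nat_eq_one hq hqp (fun h => hne ((Nat.prime_dvd_prime_iff_eq hqp P.pp).mp h))

lemma val_fA_le_one : A.valuation (fA P) ≤ 1 := val_int_le_one _
lemma val_fB_le_one : A.valuation (fB P) ≤ 1 := val_int_le_one _
lemma val_fC_le_one : A.valuation (fC P) ≤ 1 := val_int_le_one _

lemma frey_integral {q : ℕ} (hq : A.LiesOverPrime q) (hqp : q.Prime) (hq2 : q ≠ 2) :
    IntegralCoeffs (P.freyCurve⁄Qb) A.valuation := by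
  have h4 := val_four_eq_one hq hqp hq2
  have h16 := val_sixteen_eq_one hq hqp hq2
  refine ⟨?_, ?_, ?_, ?_, ?_⟩
  · rw [frey_a₁, map_one]
  · rw [frey_a₂, map_div₀, h4, div_one]
    exact val_sub_le_one (val_sub_le_one val_fB_le_one (by rw [map_one])) val_fA_le_one
  · rw [frey_a₃, _root_.map_zero]; exact zero_le_one
  · rw [frey_a₄, map_div₀, h16, div_one, map_mul, Valuation.map_neg]
    exact mul_le_one' val_fA_le_one val_fB_le_one
  · rw [frey_a₆, _root_.map_zero]; exact zero_le_one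

lemma int_pow_dvd_iff {q : ℕ} (hqp : q.Prime) (a : ℤ) {n : ℕ} (hn : n ≠ 0) :
    (q : ℤ) ∣ a ^ n ↔ (q : ℤ) ∣ a := by
  have hp : Prime (q : ℤ) := Nat.prime_iff_prime_int.mp hqp
  exact ⟨fun h => hp.dvd_of_dvd_pow h, fun h => dvd_pow h hn⟩

lemma val_fA_eq_one {q : ℕ} (hq : A.LiesOverPrime q) (hqp : q.Prime) (h : ¬ (q : ℤ) ∣ P.a) :
    A.valuation (fA P) = 1 :=
  val_int_eq_one hq hqp (fun h' => h ((int_pow_dvd_iff hqp _ P.hp0).mp h'))

lemma val_fB_eq_one {q : ℕ} (hq : A.LiesOverPrime q) (hqp : q.Prime) (h : ¬ (q : ℤ) ∣ P.b) :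
    A.valuation (fB P) = 1 :=
  val_int_eq_one hq hqp (fun h' => h ((int_pow_dvd_iff hqp _ P.hp0).mp h'))

lemma val_fC_eq_one {q : ℕ} (hq : A.LiesOverPrime q) (hqp : q.Prime) (h : ¬ (q : ℤ) ∣ P.c) :
    A.valuation (fC P) = 1 :=
  val_int_eq_one hq hqp (fun h' => h ((int_pow_dvd_iff hqp _ P.hp0).mp h'))

lemma val_fA_lt_one {q : ℕ} (hq : A.LiesOverPrime q) (h : (q : ℤ) ∣ P.a) :
    A.valuation (fA P) < 1 :=
  val_int_lt_one hq (dvd_pow h P.hp0)

lemma val_fB_lt_one {q : ℕ} (hq : A.LiesOverPrime q) (h : (q : ℤ) ∣ P.b) :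
    A.valuation (fB P) < 1 :=
  val_int_lt_one hq (dvd_pow h P.hp0)

lemma val_fC_lt_one {q : ℕ} (hq : A.LiesOverPrime q) (h : (q : ℤ) ∣ P.c) :
    A.valuation (fC P) < 1 :=
  val_int_lt_one hq (dvd_pow h P.hp0)

/-- A prime cannot divide two of `a`, `b`, `c`. -/
lemma not_dvd_of_gcd_eq_one {q : ℕ} (hqp : q.Prime) {x y : ℤ} (hg : gcd x y = 1)
    (hx : (q : ℤ) ∣ x) : ¬ (q : ℤ) ∣ y := by
  intro hy
  have h1 : (q : ℤ) ∣ gcd x y := dvd_gcd hx hy
  rw [hg] at h1
  have hp : Prime (q : ℤ) := Nat.prime_iff_prime_int.mp hqp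
  exact hp.not_dvd_one h1

end frey

end Fermat.Agent.S05.Assemble

end
-- ===== PACK-END S05/AssembleFrey.lean

-- ===== PACK-BEGIN S13/H129/AtTwoFrey.lean
section






/-!
# S13, piece T4: inertia at `2` acts unipotently on the `p`-torsion of the Frey curve

For every valuation subring `A` of `AlgebraicClosure ℚ` lying over `2`, every
`σ ∈ A.inertiaSubgroupIn ℚ` and every `p`-torsion point `x` of the Frey curve,
`σ • (σ • x - x) = σ • x - x`.

The inertia/valuation lemmas of the first sections follow `Fermat.Agent.S05.Inertia`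
(helper725); they are restated here so that this file only depends on modules already on main.
-/

set_option autoImplicit false
set_option linter.unusedSectionVars false
set_option linter.unusedVariables false

namespace Fermat.Agent.S13.H129

open ValuationSubring
open scoped Pointwise

section inertia

variable {K : Type*} [Field K] {L : Type*} [Field L] [Algebra K L]

theorem mem_inertiaSubgroupIn_iff (A : ValuationSubring L) (σ : L ≃ₐ[K] L) :
    σ ∈ A.inertiaSubgroupIn K ↔
      ∃ h : σ ∈ A.decompositionSubgroup K,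
        (⟨σ, h⟩ : A.decompositionSubgroup K) ∈ A.inertiaSubgroup K := by
  unfold ValuationSubring.inertiaSubgroupIn
  constructor
  · rintro ⟨τ, hτ, rfl⟩
    exact ⟨τ.2, hτ⟩
  · rintro ⟨h, hσ⟩
    exact ⟨⟨σ, h⟩, hσ, rfl⟩

theorem mem_decomp_of_mem_inertia {A : ValuationSubring L} {σ : L ≃ₐ[K] L}
    (hσ : σ ∈ A.inertiaSubgroupIn K) : σ ∈ A.decompositionSubgroup K :=
  ((mem_inertiaSubgroupIn_iff A σ).1 hσ).1

theorem apply_mem_of_mem_decomp {A : ValuationSubring L} {σ : L ≃ₐ[K] L}
    (hσ : σ ∈ A.decompositionSubgroup K) {t : L} (ht : t ∈ A) : σ t ∈ A := by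
  have h1 : σ • t ∈ σ • A := ValuationSubring.smul_mem_pointwise_smul σ t A ht
  have h2 : σ • A = A := hσ
  rw [h2] at h1
  exact h1

theorem apply_mem_iff_of_mem_decomp {A : ValuationSubring L} {σ : L ≃ₐ[K] L}
    (hσ : σ ∈ A.decompositionSubgroup K) {t : L} : σ t ∈ A ↔ t ∈ A := by
  constructor
  · intro h
    have h2 : σ⁻¹ ∈ A.decompositionSubgroup K := inv_mem hσ
    have := apply_mem_of_mem_decomp h2 h
    simpa using this
  · exact apply_mem_of_mem_decomp hσ

/-- the key property of inertia: `σ t - t` lies in the maximal ideal for `t ∈ A`. -/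
theorem apply_sub_mem_nonunits_of_mem_inertia {A : ValuationSubring L} {σ : L ≃ₐ[K] L}
    (hσ : σ ∈ A.inertiaSubgroupIn K) {t : L} (ht : t ∈ A) : σ t - t ∈ A.nonunits := by
  obtain ⟨h, hker⟩ := (mem_inertiaSubgroupIn_iff A σ).1 hσ
  have hmem : σ t ∈ A := apply_mem_of_mem_decomp h ht
  rw [ValuationSubring.mem_nonunits_iff_exists_mem_maximalIdeal]
  refine ⟨A.sub_mem hmem ht, ?_⟩
  have h1 : MulSemiringAction.toRingAut (A.decompositionSubgroup K)
      (IsLocalRing.ResidueField A) ⟨σ, h⟩ = 1 := hker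
  have h2 : (⟨σ, h⟩ : A.decompositionSubgroup K) • (IsLocalRing.residue A ⟨t, ht⟩) =
      IsLocalRing.residue A ⟨t, ht⟩ := by
    have := congrArg (fun f => f (IsLocalRing.residue A ⟨t, ht⟩)) h1
    simpa using this
  rw [← IsLocalRing.ResidueField.residue_smul] at h2
  have h3 : ((⟨σ, h⟩ : A.decompositionSubgroup K) • (⟨t, ht⟩ : A)) = ⟨σ t, hmem⟩ := rfl
  rw [h3] at h2
  have h4 : IsLocalRing.residue A (⟨σ t, hmem⟩ - ⟨t, ht⟩) = 0 := by
    rw [map_sub, h2, sub_self]
  exact (IsLocalRing.residue_eq_zero_iff _).1 h4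

theorem valuation_apply_sub_lt_one {A : ValuationSubring L} {σ : L ≃ₐ[K] L}
    (hσ : σ ∈ A.inertiaSubgroupIn K) {t : L} (ht : A.valuation t ≤ 1) :
    A.valuation (σ t - t) < 1 :=
  A.mem_nonunits_iff.1
    (apply_sub_mem_nonunits_of_mem_inertia hσ ((A.valuation_le_one_iff t).1 ht))

/-- every automorphism has finite order on an algebraic element. -/
theorem exists_pow_apply_eq_self (σ : L ≃ₐ[K] L) {x : L} (hx : IsAlgebraic K x) :
    ∃ n : ℕ, 0 < n ∧ (σ ^ n) x = x := by
  have hint : IsIntegral K x := hx.isIntegral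
  have hfin : ((minpoly K x).rootSet L).Finite := Polynomial.rootSet_finite _ _
  have hmem : ∀ k : ℕ, (σ ^ k) x ∈ (minpoly K x).rootSet L := by
    intro k
    rw [Polynomial.mem_rootSet]
    refine ⟨minpoly.ne_zero hint, ?_⟩
    have : Polynomial.aeval ((σ ^ k) x) (minpoly K x) =
        (σ ^ k) (Polynomial.aeval x (minpoly K x)) := by
      exact Polynomial.aeval_algHom_apply ((σ ^ k : L ≃ₐ[K] L) : L →ₐ[K] L) x (minpoly K x)
    rw [this, minpoly.aeval, map_zero]
  obtain ⟨i, j, hij, heq⟩ : ∃ i j : ℕ, i ≠ j ∧ (σ ^ i) x = (σ ^ j) x := by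
    by_contra hcon
    push Not at hcon
    have hinj : Function.Injective (fun k : ℕ => (σ ^ k) x) := by
      intro i j h
      by_contra hne
      exact hcon i j hne h
    have : (Set.range (fun k : ℕ => (σ ^ k) x)).Infinite := Set.infinite_range_of_injective hinj
    apply this
    apply hfin.subset
    rintro _ ⟨k, rfl⟩
    exact hmem k
  wlog hlt : i < j generalizing i j
  · exact this j i hij.symm heq.symm (lt_of_le_of_ne (not_lt.1 hlt) hij.symm)
  refine ⟨j - i, Nat.sub_pos_of_lt hlt, ?_⟩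
  have hj : j = (j - i) + i := by omega
  rw [hj, pow_add] at heq
  have h2 : (σ ^ i) x = (σ ^ i) ((σ ^ (j - i)) x) := by
    rw [heq]
    have hc : σ ^ (j - i) * σ ^ i = σ ^ i * σ ^ (j - i) := by
      rw [← pow_add, ← pow_add, add_comm]
    rw [hc]
    rfl
  exact ((σ ^ i).injective h2).symm

theorem apply_mem_nonunits_of_mem_decomp {A : ValuationSubring L} {σ : L ≃ₐ[K] L}
    (hσ : σ ∈ A.decompositionSubgroup K) {t : L} (ht : t ∈ A.nonunits) : σ t ∈ A.nonunits := by
  rw [ValuationSubring.mem_nonunits_iff_or] at ht ⊢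
  rcases ht with h | h
  · left; rw [h, map_zero]
  · right
    rw [← map_inv₀]
    rwa [apply_mem_iff_of_mem_decomp hσ]

theorem valuation_apply_le_of_mem_decomp {A : ValuationSubring L}
    {σ : L ≃ₐ[K] L} (hσ : σ ∈ A.decompositionSubgroup K) {x : L} (hxa : IsAlgebraic K x) :
    A.valuation (σ x) ≤ A.valuation x := by
  by_contra hlt
  rw [not_le] at hlt
  have hx0 : σ x ≠ 0 := by
    intro h
    rw [h, map_zero] at hlt
    exact absurd hlt (not_lt.2 zero_le)
  have hx : x ≠ 0 := fun h => hx0 (by rw [h, map_zero])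
  have hw : x / σ x ∈ A.nonunits := by
    rw [ValuationSubring.mem_nonunits_iff, map_div₀]
    exact (div_lt_one₀ (lt_of_le_of_ne zero_le
      (Ne.symm ((Valuation.ne_zero_iff _).2 hx0)))).2 hlt
  have key : ∀ n : ℕ, 0 < n → x / (σ ^ n) x ∈ A.nonunits := by
    intro n hn
    induction n with
    | zero => exact absurd hn (lt_irrefl 0)
    | succ k ih =>
      rcases Nat.eq_zero_or_pos k with hk | hk
      · subst hk
        simpa using hw
      · have h1 := ih hk
        have h2 : σ (x / (σ ^ k) x) ∈ A.nonunits := apply_mem_nonunits_of_mem_decomp hσ h1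
        have h3 : x / (σ ^ (k + 1)) x = (x / σ x) * σ (x / (σ ^ k) x) := by
          have e1 : (σ ^ (k + 1)) x = σ ((σ ^ k) x) := by
            rw [pow_succ']; rfl
          rw [e1, map_div₀]
          field_simp
        rw [h3]
        exact A.nonunits.mul_mem hw h2
  obtain ⟨n, hn, hfix⟩ := exists_pow_apply_eq_self σ hxa
  have := key n hn
  rw [hfix, div_self hx, ValuationSubring.mem_nonunits_iff, map_one] at this
  exact lt_irrefl _ this

theorem valuation_apply_eq_of_mem_decomp {A : ValuationSubring L}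
    {σ : L ≃ₐ[K] L} (hσ : σ ∈ A.decompositionSubgroup K) {x : L} (hxa : IsAlgebraic K x) :
    A.valuation (σ x) = A.valuation x := by
  apply le_antisymm (valuation_apply_le_of_mem_decomp hσ hxa)
  have h2 : σ⁻¹ ∈ A.decompositionSubgroup K := inv_mem hσ
  have hxa' : IsAlgebraic K (σ x) := by
    obtain ⟨p, hp0, hp⟩ := hxa
    refine ⟨p, hp0, ?_⟩
    have : Polynomial.aeval (σ x) p = σ (Polynomial.aeval x p) :=
      Polynomial.aeval_algHom_apply (σ : L →ₐ[K] L) x p
    rw [this, hp, map_zero]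
  have := valuation_apply_le_of_mem_decomp h2 hxa'
  simpa using this

end inertia

section integers

variable {L : Type*} [Field L]

theorem valuation_intCast_le_one (A : ValuationSubring L) (n : ℤ) : A.valuation (n : L) ≤ 1 :=
  (A.valuation_le_one_iff _).2 (_root_.intCast_mem A n)

theorem valuation_natCast_le_one (A : ValuationSubring L) (n : ℕ) : A.valuation (n : L) ≤ 1 :=
  (A.valuation_le_one_iff _).2 (_root_.natCast_mem A n)

/-- integers prime to `q` are units of `A` when `q` is a nonunit. -/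
theorem valuation_intCast_eq_one {A : ValuationSubring L} {q : ℕ}
    (hq : A.LiesOverPrime q) {n : ℤ} (hn : IsCoprime n (q : ℤ)) :
    A.valuation (n : L) = 1 := by
  obtain ⟨a, b, hab⟩ := hn
  have hqv : A.valuation (q : L) < 1 := A.mem_nonunits_iff.1 hq
  have h1 : (a : L) * (n : L) = 1 - (b : L) * (q : L) := by
    have : ((a * n + b * q : ℤ) : L) = 1 := by rw [hab]; simp
    push_cast at this
    linear_combination this
  have h2 : A.valuation ((b : L) * (q : L)) < 1 := by
    rw [map_mul]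
    calc A.valuation (b : L) * A.valuation (q : L) ≤ 1 * A.valuation (q : L) := by
          gcongr
          exact valuation_intCast_le_one A b
      _ < 1 := by simpa using hqv
  have h3 : A.valuation ((a : L) * (n : L)) = 1 := by
    rw [h1]
    exact Valuation.map_one_sub_of_lt _ h2
  rw [map_mul] at h3
  have ha := valuation_intCast_le_one A a
  have hn := valuation_intCast_le_one A n
  apply le_antisymm hn
  by_contra hlt
  rw [not_le] at hlt
  have : A.valuation (a : L) * A.valuation (n : L) < 1 := by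
    calc A.valuation (a : L) * A.valuation (n : L) ≤ 1 * A.valuation (n : L) := by gcongr
      _ < 1 := by simpa using hlt
  exact absurd h3 (ne_of_lt this)

/-- integers divisible by `q` are nonunits. -/
theorem valuation_intCast_lt_one {A : ValuationSubring L} {q : ℕ}
    (hq : A.LiesOverPrime q) {n : ℤ} (hn : (q : ℤ) ∣ n) :
    A.valuation (n : L) < 1 := by
  obtain ⟨k, rfl⟩ := hn
  have hqv : A.valuation (q : L) < 1 := A.mem_nonunits_iff.1 hq
  push_cast
  rw [map_mul]
  calc A.valuation (q : L) * A.valuation (k : L) ≤ A.valuation (q : L) * 1 := by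
        gcongr
        exact valuation_intCast_le_one A k
    _ < 1 := by simpa using hqv

end integers

section frey

open WeierstrassCurve WeierstrassCurve.Affine
open Fermat.Agent.S05 Fermat.Agent.S05.SameRed

variable (P : FreyPackage)

lemma frey_b_pow : ∃ k : ℤ, k ≠ 0 ∧ P.b ^ P.p = 32 * k := by
  obtain ⟨c, hc⟩ := (ZMod.intCast_zmod_eq_zero_iff_dvd P.b 2).1 P.hb2
  obtain ⟨d, hd⟩ := Nat.exists_eq_add_of_le P.hp5
  have hb := P.hb0
  have hc0 : c ≠ 0 := by
    rintro rfl
    exact hb (by simpa using hc)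
  refine ⟨2 ^ d * c ^ P.p, mul_ne_zero (pow_ne_zero _ two_ne_zero) (pow_ne_zero _ hc0), ?_⟩
  rw [hc, mul_pow]
  nth_rewrite 1 [hd]
  rw [pow_add]
  norm_num
  ring

lemma frey_a_pow : ∃ k : ℤ, P.a ^ P.p = 4 * k + 3 := by
  have h : (((P.a ^ P.p - 3 : ℤ)) : ZMod 4) = 0 := by
    push_cast
    rw [P.ha4]
    have h3 : (3 : ZMod 4) = -1 := by decide
    rw [h3, P.hp_odd.neg_one_pow]
    ring
  obtain ⟨k, hk⟩ := (ZMod.intCast_zmod_eq_zero_iff_dvd _ 4).1 h
  exact ⟨k, by push_cast at hk; linarith⟩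

/-- `a₂` of the Frey curve is an integer. -/
lemma frey_a₂_int : ∃ m : ℤ, P.freyCurve.a₂ = (m : ℚ) := by
  obtain ⟨k, _, hk⟩ := frey_b_pow P
  obtain ⟨k', hk'⟩ := frey_a_pow P
  refine ⟨8 * k - k' - 1, ?_⟩
  have hkq : (P.b : ℚ) ^ P.p = 32 * (k : ℚ) := by exact_mod_cast hk
  have hkq' : (P.a : ℚ) ^ P.p = 4 * (k' : ℚ) + 3 := by exact_mod_cast hk'
  simp only [FreyPackage.freyCurve]
  rw [hkq, hkq']
  push_cast
  ring

/-- `a₄` of the Frey curve is a nonzero even integer. -/
lemma frey_a₄_int : ∃ m : ℤ, m ≠ 0 ∧ P.freyCurve.a₄ = ((2 * m : ℤ) : ℚ) := by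
  obtain ⟨k, hk0, hk⟩ := frey_b_pow P
  refine ⟨-(P.a ^ P.p) * k, mul_ne_zero (neg_ne_zero.mpr (pow_ne_zero _ P.ha0)) hk0, ?_⟩
  have hkq : (P.b : ℚ) ^ P.p = 32 * (k : ℚ) := by exact_mod_cast hk
  simp only [FreyPackage.freyCurve]
  rw [hkq]
  push_cast
  ring

variable {K : Type*} [Field K] [DecidableEq K] [Algebra ℚ K]

lemma frey_a₁ : (P.freyCurve⁄K).a₁ = 1 := by
  simp [WeierstrassCurve.baseChange, FreyPackage.freyCurve]

lemma frey_a₃ : (P.freyCurve⁄K).a₃ = 0 := by
  simp [WeierstrassCurve.baseChange, FreyPackage.freyCurve]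

lemma frey_a₆ : (P.freyCurve⁄K).a₆ = 0 := by
  simp [WeierstrassCurve.baseChange, FreyPackage.freyCurve]

lemma frey_a₂ : ∃ m : ℤ, (P.freyCurve⁄K).a₂ = (m : K) := by
  obtain ⟨m, hm⟩ := frey_a₂_int P
  refine ⟨m, ?_⟩
  simp only [WeierstrassCurve.baseChange, WeierstrassCurve.map_a₂, hm]
  simp

lemma frey_a₄ : ∃ m : ℤ, m ≠ 0 ∧ (P.freyCurve⁄K).a₄ = ((2 * m : ℤ) : K) := by
  obtain ⟨m, hm0, hm⟩ := frey_a₄_int P
  refine ⟨m, hm0, ?_⟩
  have : CharZero K := algebraRat.charZero K
  simp only [WeierstrassCurve.baseChange, WeierstrassCurve.map_a₄, hm]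
  simp

/-- The Frey curve has a node at the origin at every place over `2`. -/
theorem frey_nodeTwo (A : ValuationSubring K) (hA : A.LiesOverPrime 2) :
    NodeTwo (P.freyCurve⁄K) A.valuation := by
  have hchar : CharZero K := algebraRat.charZero K
  have h2 : A.valuation (2 : K) < 1 := by
    have := A.mem_nonunits_iff.1 hA
    simpa using this
  obtain ⟨m₂, hm₂⟩ := frey_a₂ (K := K) P
  obtain ⟨m₄, hm₄0, hm₄⟩ := frey_a₄ (K := K) P
  have h4 : A.valuation (P.freyCurve⁄K).a₄ < 1 := by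
    rw [hm₄]
    exact valuation_intCast_lt_one hA (by push_cast; exact Dvd.intro _ rfl)
  refine
    { int := ⟨?_, ?_, ?_, h4.le, ?_⟩
      a₃ := frey_a₃ P
      a₆ := frey_a₆ P
      a₄ := h4
      a₄_ne := ?_
      a₁ := by rw [frey_a₁, map_one]
      two := h2 }
  · rw [frey_a₁, map_one]
  · rw [hm₂]; exact valuation_intCast_le_one A m₂
  · rw [frey_a₃, map_zero]; exact zero_le_one
  · rw [frey_a₆, map_zero]; exact zero_le_one
  · rw [hm₄]
    exact Int.cast_ne_zero.mpr (mul_ne_zero two_ne_zero hm₄0)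

/-- `p` is a unit at every place over `2`. -/
lemma frey_val_p (A : ValuationSubring K) (hA : A.LiesOverPrime 2) :
    A.valuation ((P.p : ℕ) : K) = 1 := by
  have hodd : Odd ((P.p : ℕ) : ℤ) := by exact_mod_cast P.hp_odd
  have hcop : IsCoprime ((P.p : ℕ) : ℤ) ((2 : ℕ) : ℤ) := by
    obtain ⟨k, hk⟩ := hodd
    exact ⟨1, -k, by rw [hk]; push_cast; ring⟩
  have := valuation_intCast_eq_one hA hcop
  simpa using this

/-- **S13/T4, general field form.**  Inertia at a place over `2` acts unipotently on the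
`p`-torsion of the Frey curve. -/
theorem frey_inertia_two_unipotent (halg : ∀ t : K, IsAlgebraic ℚ t)
    (A : ValuationSubring K) (hA : A.LiesOverPrime 2)
    (σ : K ≃ₐ[ℚ] K) (hσ : σ ∈ A.inertiaSubgroupIn ℚ)
    (x : Submodule.torsionBy ℤ (P.freyCurve⁄K).Point P.p) :
    σ • (σ • x - x) = σ • x - x := by
  have hN := frey_nodeTwo P A hA
  have hp := frey_val_p P A hA
  have hx : P.p • (x : (P.freyCurve⁄K).Point) = 0 := by
    have := (Submodule.mem_torsionBy_iff _ _).1 x.2
    rwa [natCast_zsmul] at this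
  have key := smul_sub_fixed (S := ℚ) hN σ
    (fun t ht => valuation_apply_sub_lt_one hσ ht)
    (fun t => valuation_apply_eq_of_mem_decomp (mem_decomp_of_mem_inertia hσ) (halg t))
    hp (x : (P.freyCurve⁄K).Point) hx
  apply Subtype.ext
  exact key

end frey

section Qbar

open WeierstrassCurve WeierstrassCurve.Affine

/-- every element of `AlgebraicClosure ℚ` is algebraic over `ℚ` for the default algebra
structure. -/
theorem isAlgebraic_algebraicClosure_rat (x : AlgebraicClosure ℚ) : IsAlgebraic ℚ x := by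
  have h : (AlgebraicClosure.instAlgebra ℚ : Algebra ℚ (AlgebraicClosure ℚ)) =
      DivisionRing.toRatAlgebra := Subsingleton.elim _ _
  have hx : @IsAlgebraic ℚ (AlgebraicClosure ℚ) _ _ (AlgebraicClosure.instAlgebra ℚ) x :=
    @Algebra.IsAlgebraic.isAlgebraic ℚ (AlgebraicClosure ℚ) _ _ (AlgebraicClosure.instAlgebra ℚ)
      (AlgebraicClosure.isAlgebraic ℚ) x
  rw [h] at hx
  exact hx

/-- **S13/T4.**  For every valuation subring `A` of `AlgebraicClosure ℚ` over `2`, inertia acts
unipotently on the `p`-torsion of the Frey curve. -/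
theorem frey_inertia_two_unipotent_Qbar [DecidableEq (AlgebraicClosure ℚ)] (P : FreyPackage)
    (A : ValuationSubring (AlgebraicClosure ℚ)) (hA : A.LiesOverPrime 2)
    (σ : AlgebraicClosure ℚ ≃ₐ[ℚ] AlgebraicClosure ℚ) (hσ : σ ∈ A.inertiaSubgroupIn ℚ)
    (x : Submodule.torsionBy ℤ (P.freyCurve⁄(AlgebraicClosure ℚ)).Point P.p) :
    σ • (σ • x - x) = σ • x - x :=
  frey_inertia_two_unipotent P isAlgebraic_algebraicClosure_rat A hA σ hσ x

end Qbar

end Fermat.Agent.S13.H129

end
-- ===== PACK-END S13/H129/AtTwoFrey.lean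

-- ===== PACK-BEGIN S13/H11/T7.lean
section





/-!
# S13 / T7 (helper11): no rational point of order `p` on the Frey curve, modulo the node law

`NodeLaw v W n` is the statement of the node lemma (shape K3 of plan #1430 / (C3c) of S05):
an `n`-torsion point with `v x < 1` satisfies `v a₄ < v x` and `(v x) ^ n ∈ (v a₄) ^ (2 ℤ)`.

Main results:
* `no_rational_point_of_order_p_of_nodeLaw_rat` : the node law for the Frey curve over `ℚ` w.r.t.
  one valuation `w` on `ℚ` with `w 2 < 1` implies T7;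
* `no_rational_point_of_order_p_of_nodeLaw` : the node law for the Frey curve over any field
  `K ⊇ ℚ` w.r.t. one valuation `v` on `K` with `v 2 < 1` implies T7.
-/

set_option autoImplicit false

namespace Fermat.Agent.S13.H11

open WeierstrassCurve WeierstrassCurve.Affine
open Fermat.Agent.S05

variable {Γ₀ : Type*} [LinearOrderedCommGroupWithZero Γ₀]

/-- The node law (shape K3 / C3c) for `n`-torsion points near the node `(0, 0)`. -/
def NodeLaw {K : Type*} [Field K] [DecidableEq K] (v : Valuation K Γ₀) (W : Affine K)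
    (n : ℕ) : Prop :=
  ∀ (x y : K) (h : W.Nonsingular x y), n • Point.some x y h = 0 → v x < 1 →
    v W.a₄ < v x ∧ ∃ j : ℤ, v x ^ n = (v W.a₄ ^ 2) ^ j

variable (P : FreyPackage)

section rat

variable {w : Valuation ℚ Γ₀}

lemma freyQ_a₁ : (P.freyCurve⁄ℚ).a₁ = 1 := by
  simp [FreyPackage.freyCurve, WeierstrassCurve.baseChange]

lemma freyQ_a₃ : (P.freyCurve⁄ℚ).a₃ = 0 := by
  simp [FreyPackage.freyCurve, WeierstrassCurve.baseChange]

lemma freyQ_a₆ : (P.freyCurve⁄ℚ).a₆ = 0 := by
  simp [FreyPackage.freyCurve, WeierstrassCurve.baseChange]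

lemma freyQ_a₂ : (P.freyCurve⁄ℚ).a₂ = P.freyCurve.a₂ := by
  simp [WeierstrassCurve.baseChange]

lemma freyQ_a₄ : (P.freyCurve⁄ℚ).a₄ = P.freyCurve.a₄ := by
  simp [WeierstrassCurve.baseChange]

lemma freyQ_val_a₄_lt_one (h2 : w (2 : ℚ) < 1) : w P.freyCurve.a₄ < 1 := by
  obtain ⟨β, hβ, hval⟩ := frey_val_a₄ P (w := w) h2
  rw [hval, zpow_lt_one_iff h2]
  have h5 : (5 : ℤ) ≤ (P.p : ℤ) := by exact_mod_cast P.hp5
  have hβ' : (1 : ℤ) ≤ (β : ℤ) := by exact_mod_cast hβ
  nlinarith

lemma freyQ_integral (h2 : w (2 : ℚ) < 1) : SameRed.IntegralCoeffs (P.freyCurve⁄ℚ) w := by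
  refine ⟨?_, ?_, ?_, ?_, ?_⟩
  · rw [freyQ_a₁, map_one]
  · rw [freyQ_a₂]; exact frey_val_a₂ P
  · rw [freyQ_a₃, map_zero]; exact zero_le_one
  · rw [freyQ_a₄]; exact (freyQ_val_a₄_lt_one P h2).le
  · rw [freyQ_a₆, map_zero]; exact zero_le_one

variable [DecidableEq ℚ]

/-- The node law excludes points of order `p` near the node (arithmetic of `v₂(a₄) = p β - 4`). -/
lemma no_node_torsion_rat (h2 : w (2 : ℚ) < 1) (hlaw : NodeLaw w (P.freyCurve⁄ℚ) P.p)
    (x y : ℚ) (h : (P.freyCurve⁄ℚ).Nonsingular x y) (hQ : P.p • Point.some x y h = 0) :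
    ¬ w x < 1 := by
  intro hx
  obtain ⟨hlt, j, hj⟩ := hlaw x y h hQ hx
  rw [freyQ_a₄] at hlt hj
  obtain ⟨β, hβ, hval⟩ := frey_val_a₄ P (w := w) h2
  have hx0 : x ≠ 0 := by
    rintro rfl
    rw [map_zero] at hlt
    exact absurd hlt (not_lt.mpr zero_le)
  obtain ⟨ξ, hξ⟩ := exists_val_eq_zpow h2 hx0
  rw [hξ] at hlt hx hj
  rw [hval] at hlt hj
  have h0 : 0 < ξ := (zpow_lt_one_iff h2 ξ).mp hx
  have h1 : ξ < (P.p : ℤ) * β - 4 := (zpow_lt_zpow_iff h2 _ _).mp hlt
  have hw0 : w (2 : ℚ) ≠ 0 := val_two_ne_zero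
  have e : (P.p : ℤ) * ξ = 2 * ((P.p : ℤ) * β - 4) * j := by
    have e1 : (w (2 : ℚ) ^ ξ) ^ P.p = w 2 ^ (ξ * (P.p : ℤ)) := by
      rw [zpow_mul, zpow_natCast]
    have e2 : ((w (2 : ℚ) ^ ((P.p : ℤ) * β - 4)) ^ 2) ^ j =
        w 2 ^ (((P.p : ℤ) * β - 4) * 2 * j) := by
      rw [zpow_mul, zpow_mul]
      norm_cast
    rw [e1, e2, zpow_eq_zpow_iff h2] at hj
    linarith
  exact frey_arith_contra P β ξ j h0 h1 e

/-- **T7 modulo the node law over `ℚ`.** -/
theorem no_rational_point_of_order_p_of_nodeLaw_rat (h2 : w (2 : ℚ) < 1)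
    (hlaw : NodeLaw w (P.freyCurve⁄ℚ) P.p) (Q : (P.freyCurve⁄ℚ).Point) (hQ : P.p • Q = 0) :
    Q = 0 :=
  eq_zero_of_no_node_torsion (freyQ_integral P h2) h2 (freyQ_a₁ P) (freyQ_a₃ P) P.pp P.hp5
    (no_node_torsion_rat P h2 hlaw) Q hQ

end rat

section general

variable {K : Type*} [Field K] [DecidableEq K] [Algebra ℚ K] [DecidableEq ℚ]

/-- The node law over an extension `K ⊇ ℚ` restricts to the node law over `ℚ`. -/
lemma nodeLaw_rat_of_nodeLaw (v : Valuation K Γ₀) {n : ℕ} (hlaw : NodeLaw v (P.freyCurve⁄K) n) :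
    NodeLaw (v.comap (algebraMap ℚ K)) (P.freyCurve⁄ℚ) n := by
  intro x y h hQ hx
  have hmap : Point.map (W' := P.freyCurve) (Algebra.ofId ℚ K) (Point.some x y h) =
      Point.some (Algebra.ofId ℚ K x) (Algebra.ofId ℚ K y)
        ((WeierstrassCurve.Affine.baseChange_nonsingular (W := P.freyCurve)
          (f := Algebra.ofId ℚ K) (Algebra.ofId ℚ K).injective x y).mpr h) := rfl
  have hQ' : n • Point.some (Algebra.ofId ℚ K x) (Algebra.ofId ℚ K y)
        ((WeierstrassCurve.Affine.baseChange_nonsingular (W := P.freyCurve)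
          (f := Algebra.ofId ℚ K) (Algebra.ofId ℚ K).injective x y).mpr h) = 0 := by
    rw [← hmap, ← map_nsmul, hQ, map_zero]
  have ha₄ : (P.freyCurve⁄K).a₄ = algebraMap ℚ K ((P.freyCurve⁄ℚ).a₄) := by
    simp [WeierstrassCurve.baseChange]
  have := hlaw _ _ _ hQ' hx
  rw [ha₄] at this
  exact this

/-- **T7 modulo the node law over any valued extension of `ℚ` with `v 2 < 1`.** -/
theorem no_rational_point_of_order_p_of_nodeLaw (v : Valuation K Γ₀) (h2 : v (2 : K) < 1)
    (hlaw : NodeLaw v (P.freyCurve⁄K) P.p) (Q : (P.freyCurve⁄ℚ).Point) (hQ : P.p • Q = 0) :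
    Q = 0 := by
  have h2' : (v.comap (algebraMap ℚ K)) (2 : ℚ) < 1 := by
    rw [Valuation.comap_apply]
    simpa using h2
  exact no_rational_point_of_order_p_of_nodeLaw_rat P h2' (nodeLaw_rat_of_nodeLaw P v hlaw) Q hQ

end general

end Fermat.Agent.S13.H11

end
-- ===== PACK-END S13/H11/T7.lean

-- ===== PACK-BEGIN S14/H937/Ram.lean
section


/-!
# S14, LOCAL-I / LOCAL-D (helper937): ramification at finite level
-/

set_option autoImplicit false
set_option linter.style.haveILetI false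
set_option linter.unusedSectionVars false

open NumberField IsDedekindDomain
open scoped Pointwise

namespace Fermat.Agent.S14.H937

section

variable (K : IntermediateField ℚ Qb) [FiniteDimensional ℚ K]
variable (M : IntermediateField K Qb) [FiniteDimensional K M] [IsGalois K M]
variable (A : ValuationSubring Qb)

theorem numberField_K : NumberField K := ⟨⟩

theorem numberField_M : NumberField M :=
  haveI : FiniteDimensional ℚ M := Module.Finite.trans K M
  ⟨⟩

omit [FiniteDimensional ℚ K] [FiniteDimensional K M] [IsGalois K M] in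
theorem toZbar_algebraMap (x : 𝓞 K) : toZbar M (algebraMap (𝓞 K) (𝓞 M) x) = toZbar K x := by
  apply Subtype.ext
  rw [toZbar_coe, toZbar_coe]
  exact (IsScalarTower.algebraMap_apply K M Qb (x : K)).symm

omit [FiniteDimensional ℚ K] [FiniteDimensional K M] [IsGalois K M] in
theorem primeOf_liesOver : (primeOf M A).LiesOver (primeOf K A) := by
  constructor
  ext x
  rw [Ideal.under_def, Ideal.mem_comap, mem_primeOf, mem_primeOf]
  have := congrArg Subtype.val (toZbar_algebraMap K M x)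
  rw [toZbar_coe, toZbar_coe] at this
  rw [this]


/-- If the inertia group of `P | 𝔮` in `Gal(M/K)` is trivial then `e(P | 𝔮) = 1`. -/
theorem ramificationIdx'_eq_one_of_inertia (ℓ : ℕ) (hℓ : ℓ.Prime) (hA : A.LiesOverPrime ℓ)
    (hI : ∀ τ : M ≃ₐ[K] M, (∀ x : 𝓞 M, τ • x - x ∈ primeOf M A) → τ = 1) :
    (primeOf K A).ramificationIdx' (primeOf M A) = 1 := by
  haveI := numberField_K K
  haveI := numberField_M K M
  haveI := primeOf_liesOver K M A
  have hne : primeOf K A ≠ ⊥ := primeOf_ne_bot K A ℓ hℓ hA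
  haveI : (primeOf K A).IsMaximal := Ring.DimensionLEOne.maximalOfPrime hne inferInstance
  haveI : IsGaloisGroup (M ≃ₐ[K] M) (𝓞 K) (𝓞 M) :=
    IsGaloisGroup.of_isFractionRing (M ≃ₐ[K] M) (𝓞 K) (𝓞 M) K M
  have hcard : Nat.card ((primeOf M A).inertia (M ≃ₐ[K] M)) = 1 := by
    rw [Nat.card_eq_one_iff_unique]
    refine ⟨⟨?_⟩, ⟨1⟩⟩
    rintro ⟨τ, hτ⟩ ⟨τ', hτ'⟩
    apply Subtype.ext
    show τ = τ'
    rw [hI τ (fun x => hτ x), hI τ' (fun x => hτ' x)]
  rw [Ideal.ramificationIdx'_eq_ramificationIdx (primeOf K A) (primeOf M A) hne,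
    ← Ideal.ramificationIdxIn_eq_ramificationIdx (primeOf K A) (primeOf M A) (M ≃ₐ[K] M),
    ← Ideal.card_inertia_eq_ramificationIdxIn (G := M ≃ₐ[K] M) (primeOf K A) (primeOf M A)]
  exact hcard


/-- If the decomposition group of `P | 𝔮` in `Gal(M/K)` is trivial then `e(P | 𝔮) = 1` and
`f(P | 𝔮) = 1`. -/
theorem ramificationIdx'_inertiaDeg_eq_one_of_stabilizer (ℓ : ℕ) (hℓ : ℓ.Prime)
    (hA : A.LiesOverPrime ℓ)
    (hD : ∀ τ : M ≃ₐ[K] M, (∀ x : 𝓞 M, τ • x ∈ primeOf M A ↔ x ∈ primeOf M A) → τ = 1) :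
    (primeOf K A).ramificationIdx' (primeOf M A) = 1 ∧
      (primeOf M A).inertiaDeg (𝓞 K) = 1 := by
  haveI := numberField_K K
  haveI := numberField_M K M
  haveI := primeOf_liesOver K M A
  have hne : primeOf K A ≠ ⊥ := primeOf_ne_bot K A ℓ hℓ hA
  haveI : (primeOf K A).IsMaximal := Ring.DimensionLEOne.maximalOfPrime hne inferInstance
  haveI : IsGaloisGroup (M ≃ₐ[K] M) (𝓞 K) (𝓞 M) :=
    IsGaloisGroup.of_isFractionRing (M ≃ₐ[K] M) (𝓞 K) (𝓞 M) K M
  have hcard : Nat.card (MulAction.stabilizer (M ≃ₐ[K] M) (primeOf M A)) = 1 := by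
    rw [Nat.card_eq_one_iff_unique]
    refine ⟨⟨?_⟩, ⟨1⟩⟩
    have key : ∀ τ : M ≃ₐ[K] M, τ ∈ MulAction.stabilizer (M ≃ₐ[K] M) (primeOf M A) → τ = 1 := by
      intro τ hτ
      apply hD
      intro x
      have hτ' : τ • primeOf M A = primeOf M A := hτ
      conv_lhs => rw [← hτ']
      exact Ideal.smul_mem_pointwise_smul_iff
    rintro ⟨τ, hτ⟩ ⟨τ', hτ'⟩
    apply Subtype.ext
    show τ = τ'
    rw [key τ hτ, key τ' hτ']
  have h1 := Ideal.card_stabilizer_eq (G := M ≃ₐ[K] M) (primeOf K A) (primeOf M A)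
  rw [hcard, Ideal.ramificationIdxIn_eq_ramificationIdx (primeOf K A) (primeOf M A) (M ≃ₐ[K] M),
    Ideal.inertiaDegIn_eq_inertiaDeg (primeOf K A) (primeOf M A) (M ≃ₐ[K] M),
    ← Ideal.ramificationIdx'_eq_ramificationIdx (primeOf K A) (primeOf M A) hne] at h1
  have h2 := Nat.eq_one_of_mul_eq_one_right h1.symm
  have h3 := Nat.eq_one_of_mul_eq_one_left h1.symm
  exact ⟨h2, h3⟩


/-- The height-one prime of `𝓞 F` below `A`. -/
noncomputable def hos (F : Type*) [Field F] [NumberField F] [Algebra F Qb]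
    (A : ValuationSubring Qb) (h : primeOf F A ≠ ⊥) : HeightOneSpectrum (𝓞 F) :=
  ⟨primeOf F A, inferInstance, h⟩

theorem hos_asIdeal (F : Type*) [Field F] [NumberField F] [Algebra F Qb]
    (A : ValuationSubring Qb) (h : primeOf F A ≠ ⊥) : (hos F A h).asIdeal = primeOf F A := rfl

/-- If `e(P | 𝔮) = 1`, every value of `M` is a value of `K`. -/
theorem exists_valuation_eq_of_ramificationIdx' (ℓ : ℕ) (hℓ : ℓ.Prime) (hA : A.LiesOverPrime ℓ)
    (he : (primeOf K A).ramificationIdx' (primeOf M A) = 1) (y : M) (hy : y ≠ 0) :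
    ∃ c : K, c ≠ 0 ∧ A.valuation (y : Qb) = A.valuation (c : Qb) := by
  haveI := numberField_K K
  haveI := numberField_M K M
  haveI := primeOf_liesOver K M A
  have hneK : primeOf K A ≠ ⊥ := primeOf_ne_bot K A ℓ hℓ hA
  have hneM : primeOf M A ≠ ⊥ := primeOf_ne_bot M A ℓ hℓ hA
  set v := hos K A hneK with hv
  set w := hos M A hneM with hw
  haveI : w.asIdeal.LiesOver v.asIdeal := primeOf_liesOver K M A
  obtain ⟨c, hc⟩ := v.valuation_surjective K (w.valuation M y)
  have hwy : w.valuation M y ≠ 0 := (Valuation.ne_zero_iff _).mpr hy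
  have hc0 : c ≠ 0 := by
    rintro rfl
    rw [map_zero] at hc
    exact hwy hc.symm
  refine ⟨c, hc0, ?_⟩
  have h1 := HeightOneSpectrum.valuation_liesOver M v w c
  have he' : v.asIdeal.ramificationIdx' w.asIdeal = 1 := he
  rw [he', pow_one, hc] at h1
  have hcM : algebraMap K M c ≠ 0 := by simpa using hc0
  have h2 : w.valuation M (y / algebraMap K M c) = 1 := by
    rw [map_div₀, ← h1]
    exact div_self hwy
  have h3 := valuation_eq_one_of M A w (hos_asIdeal M A hneM) _ h2
  rw [map_div₀, map_div₀] at h3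
  have h4 : algebraMap M Qb (algebraMap K M c) = (c : Qb) :=
    (IsScalarTower.algebraMap_apply K M Qb c).symm
  rw [h4] at h3
  have hcv : A.valuation (c : Qb) ≠ 0 := by
    rw [Valuation.ne_zero_iff]
    simpa using hc0
  exact (div_eq_one_iff_eq hcv).mp h3

end

end Fermat.Agent.S14.H937

end
-- ===== PACK-END S14/H937/Ram.lean

-- ===== PACK-BEGIN Lib/Cheb/FrobFinite.lean
section





/-!
# CHEB, Tier 1, finite level: the qualitative Frobenius density theorem for Galois number fields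

Assembly of the pieces `Z`, `B0` (helper761), `A` (helper764), `D` (helper943), `M` (helper993).
-/

set_option autoImplicit false

namespace Fermat.Agent.Lib.Cheb

/-- **Frobenius density theorem (qualitative), finite level.**  For a Galois number field `L`,
`σ ∈ Gal(L/ℚ)` and a finite set `S` of primes there are a prime `p ∉ S`, a prime `P` of `𝓞 L`
above `p` with trivial inertia and an arithmetic Frobenius `τ` at `P` with `⟨τ⟩ = ⟨σ⟩`. -/
theorem frobFinite : Spec.FrobFiniteStatement :=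
  H993.frobFinite H761.primeSum_statement H761.primeCountBound_statement H764.count
    H943.frobStatement

end Fermat.Agent.Lib.Cheb

end
-- ===== PACK-END Lib/Cheb/FrobFinite.lean

-- ===== PACK-BEGIN S41/H701/CardTorsion.lean
section




/-!
# `#E[n] = n ^ 2` over an algebraically closed field of characteristic zero
(helper701, S41 piece D1)

Generic-fibre argument on the `x`-ladder of `S13/H891`: for generic `t = x(P)`, the fibre
`{Q | n • Q = P}` is in bijection (via `Q ↦ x(Q)`) with the roots of `N_n - t D_n`, a separable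
polynomial of degree `n ^ 2`; and the fibre is a coset of `E[n]`.
-/

open WeierstrassCurve WeierstrassCurve.Affine Polynomial
open Fermat.Agent.S51.Five (xc dD xc_neg xc_some eq_or_eq_neg_of_xc_eq exists_equation
  add_self_ne_zero_of_dD_ne_zero)
open Fermat.Agent.S13.H891

set_option autoImplicit false
set_option linter.unusedSectionVars false

namespace Fermat.Agent.S41.H701

variable {K : Type*} [Field K] [DecidableEq K] [IsAlgClosed K] [CharZero K]
  (E : WeierstrassCurve.Affine K) [E.IsElliptic]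

/-- Every `x ∈ K` is the `x`-coordinate of a nonzero point. -/
lemma exists_point_xc_h701 (x : K) : ∃ Q : E.Point, Q ≠ 0 ∧ xc Q = x := by
  obtain ⟨y, hy⟩ := exists_equation E x
  exact ⟨Point.some x y (Affine.equation_iff_nonsingular.mp hy), Point.some_ne_zero _, rfl⟩

/-- The ladder polynomials have no common root. -/
lemma polyN_polyD_no_common_root_h701 (n : ℕ) (x : K) :
    ¬ ((polyN E.b₂ E.b₄ E.b₆ E.b₈ n).eval x = 0 ∧ (polyD E.b₂ E.b₄ E.b₆ E.b₈ n).eval x = 0) := by
  obtain ⟨Q, hQ, rfl⟩ := exists_point_xc_h701 E x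
  rw [eval_polyN, eval_polyD]
  rintro ⟨h1, h2⟩
  rcases rep_lad hQ n with ⟨-, -, h⟩ | ⟨-, h, -⟩
  · exact h h1
  · exact h h2

lemma natDegree_polyN_h701 (n : ℕ) (hn : 1 ≤ n) :
    (polyN E.b₂ E.b₄ E.b₆ E.b₈ n).natDegree = n ^ 2 := by
  obtain ⟨h1, h2⟩ := (dc_poly E.b₂ E.b₄ E.b₆ E.b₈ n hn).1
  exact natDegree_eq_of_le_of_coeff_ne_zero h1 (by rw [h2]; exact one_ne_zero)

lemma natDegree_polyD_lt_h701 (n : ℕ) (hn : 1 ≤ n) :
    (polyD E.b₂ E.b₄ E.b₆ E.b₈ n).natDegree < n ^ 2 := by
  obtain ⟨h1, -⟩ := (dc_poly E.b₂ E.b₄ E.b₆ E.b₈ n hn).2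
  have : 1 ≤ n ^ 2 := Nat.one_le_pow _ _ hn
  omega

/-- the fibre polynomial `N_n - t D_n` -/
noncomputable def fibrePoly_h701 (n : ℕ) (t : K) : K[X] :=
  polyN E.b₂ E.b₄ E.b₆ E.b₈ n - C t * polyD E.b₂ E.b₄ E.b₆ E.b₈ n

lemma natDegree_fibrePoly_h701 (n : ℕ) (hn : 1 ≤ n) (t : K) :
    (fibrePoly_h701 E n t).natDegree = n ^ 2 := by
  rw [fibrePoly_h701, natDegree_sub_eq_left_of_natDegree_lt, natDegree_polyN_h701 E n hn]
  rw [natDegree_polyN_h701 E n hn]
  exact lt_of_le_of_lt (natDegree_C_mul_le _ _) (natDegree_polyD_lt_h701 E n hn)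

lemma eval_fibrePoly_h701 (n : ℕ) (t x : K) :
    (fibrePoly_h701 E n t).eval x
      = ladN E.b₂ E.b₄ E.b₆ E.b₈ x n - t * ladD E.b₂ E.b₄ E.b₆ E.b₈ x n := by
  rw [fibrePoly_h701, eval_sub, eval_mul, eval_C, eval_polyN, eval_polyD]

variable {E}

/-- `x(Q)` is a root of the fibre polynomial over `x(n • Q)`. -/
lemma eval_fibrePoly_xc_h701 (n : ℕ) {Q P : E.Point} (hP : P ≠ 0) (h : n • Q = P) :
    (fibrePoly_h701 E n (xc P)).eval (xc Q) = 0 := by
  have hQ : Q ≠ 0 := by
    rintro rfl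
    rw [smul_zero] at h
    exact hP h.symm
  rw [eval_fibrePoly_h701]
  rcases rep_lad hQ n with ⟨h0, -, -⟩ | ⟨-, -, h3⟩
  · rw [h] at h0; exact absurd h0 hP
  · rw [← h3, h]; ring

/-- Conversely a root of the fibre polynomial over `x(P)` is `x(Q)` with `n • Q = P`. -/
lemma exists_of_eval_fibrePoly_h701 (n : ℕ) {P : E.Point} (hP : P ≠ 0) {x : K}
    (hx : (fibrePoly_h701 E n (xc P)).eval x = 0) :
    ∃ Q : E.Point, n • Q = P ∧ xc Q = x := by
  obtain ⟨Q, hQ, rfl⟩ := exists_point_xc_h701 E x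
  rw [eval_fibrePoly_h701] at hx
  rcases rep_lad hQ n with ⟨-, h2, h3⟩ | ⟨h1, h2, h3⟩
  · rw [h2, mul_zero, sub_zero] at hx
    exact absurd hx h3
  · have hxc : xc (n • Q) = xc P := by
      have : (xc (n • Q) - xc P) * ladD E.b₂ E.b₄ E.b₆ E.b₈ (xc Q) n = 0 := by
        rw [sub_mul, h3]; exact hx
      exact sub_eq_zero.mp ((mul_eq_zero.mp this).resolve_right h2)
    rcases eq_or_eq_neg_of_xc_eq h1 hP hxc with h | h
    · exact ⟨Q, h, rfl⟩
    · refine ⟨-Q, ?_, xc_neg Q⟩
      rw [smul_neg, h, neg_neg]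

/-- The fibre of `[n]` over a point `P` which is not `2`-torsion is in bijection with the roots
of the fibre polynomial. -/
noncomputable def fibreEquivRoots_h701 (n : ℕ) {P : E.Point} (hP : P ≠ 0) (h2P : P + P ≠ 0) :
    {Q : E.Point // n • Q = P} ≃ {x : K // (fibrePoly_h701 E n (xc P)).eval x = 0} :=
  Equiv.ofBijective (fun Q => ⟨xc Q.1, eval_fibrePoly_xc_h701 n hP Q.2⟩) (by
    constructor
    · rintro ⟨Q, hQ⟩ ⟨Q', hQ'⟩ h
      have hx : xc Q = xc Q' := congrArg Subtype.val h
      have hQ0 : Q ≠ 0 := by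
        rintro rfl
        rw [smul_zero] at hQ
        exact hP hQ.symm
      have hQ'0 : Q' ≠ 0 := by
        rintro rfl
        rw [smul_zero] at hQ'
        exact hP hQ'.symm
      rcases eq_or_eq_neg_of_xc_eq hQ0 hQ'0 hx with h' | h'
      · exact Subtype.ext h'
      · exfalso
        apply h2P
        have hPneg : P = -P := by
          calc P = n • Q := hQ.symm
            _ = n • (-Q') := by rw [h']
            _ = -(n • Q') := smul_neg n Q'
            _ = -P := by rw [hQ']
        calc P + P = P + -P := by rw [← hPneg]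
          _ = 0 := add_neg_cancel P
    · rintro ⟨x, hx⟩
      obtain ⟨Q, hQ, hxQ⟩ := exists_of_eval_fibrePoly_h701 n hP hx
      exact ⟨⟨Q, hQ⟩, Subtype.ext hxQ⟩)

/-- A nonempty fibre of `[n]` is a coset of `E[n]`. -/
noncomputable def fibreEquivTorsion_h701 (n : ℕ) {P : E.Point} (Q₀ : E.Point)
    (hQ₀ : n • Q₀ = P) :
    {Q : E.Point // n • Q = P} ≃ Submodule.torsionBy ℤ E.Point ((n : ℕ) : ℤ) where
  toFun Q := ⟨Q.1 - Q₀, by
    rw [Submodule.mem_torsionBy_iff, natCast_zsmul, smul_sub, Q.2, hQ₀, sub_self]⟩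
  invFun T := ⟨T.1 + Q₀, by
    have h := (Submodule.mem_torsionBy_iff _ _).mp T.2
    rw [natCast_zsmul] at h
    rw [smul_add, h, hQ₀, zero_add]⟩
  left_inv Q := Subtype.ext (by simp)
  right_inv T := Subtype.ext (by simp)

variable (E)

/-- **The `n`-torsion of an elliptic curve over an algebraically closed field of characteristic
zero has exactly `n ^ 2` elements.** -/
theorem card_torsionBy_eq_sq_h701 (n : ℕ) (hn : 1 ≤ n) :
    Nat.card (Submodule.torsionBy ℤ E.Point ((n : ℕ) : ℤ)) = n ^ 2 := by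
  classical
  -- bad values of `t`
  obtain ⟨B, hB⟩ := exists_finset_separable_h701 (polyN E.b₂ E.b₄ E.b₆ E.b₈ n)
    (polyD E.b₂ E.b₄ E.b₆ E.b₈ n)
    (by rw [natDegree_polyN_h701 E n hn]; positivity)
    (polyN_polyD_no_common_root_h701 E n)
  set T : K[X] := C 4 * X ^ 3 + C E.b₂ * X ^ 2 + C (2 * E.b₄) * X + C E.b₆ with hT
  have hT0 : T ≠ 0 := by
    intro h
    have := congrArg (fun p : K[X] => p.coeff 3) h
    simp [hT] at this
  obtain ⟨t, ht⟩ := Infinite.exists_notMem_finset (B ∪ T.roots.toFinset)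
  rw [Finset.mem_union, not_or] at ht
  obtain ⟨htB, htT⟩ := ht
  obtain ⟨P, hP, rfl⟩ := exists_point_xc_h701 E t
  have h2P : P + P ≠ 0 := by
    apply add_self_ne_zero_of_dD_ne_zero hP
    intro h
    apply htT
    rw [Multiset.mem_toFinset, mem_roots hT0, IsRoot.def, hT]
    simp only [eval_add, eval_mul, eval_C, eval_pow, eval_X]
    simp only [dD] at h
    linear_combination h
  have hsep : (fibrePoly_h701 E n (xc P)).Separable := hB _ htB
  have hroots := card_roots_of_separable_h701 _ hsep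
  rw [natDegree_fibrePoly_h701 E n hn] at hroots
  -- the fibre is nonempty
  have hne : Nonempty {x : K // (fibrePoly_h701 E n (xc P)).eval x = 0} := by
    by_contra h
    rw [not_nonempty_iff] at h
    rw [Nat.card_of_isEmpty] at hroots
    have : 1 ≤ n ^ 2 := Nat.one_le_pow _ _ hn
    omega
  obtain ⟨⟨x, hx⟩⟩ := hne
  obtain ⟨Q₀, hQ₀, -⟩ := exists_of_eval_fibrePoly_h701 n hP hx
  rw [← Nat.card_congr (fibreEquivTorsion_h701 n Q₀ hQ₀),
    Nat.card_congr (fibreEquivRoots_h701 n hP h2P), hroots]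

end Fermat.Agent.S41.H701

end
-- ===== PACK-END S41/H701/CardTorsion.lean

-- ===== PACK-BEGIN Lib/Frob/Small/TwoFormula.lean
section



/-!
# Shared library `Frob`, small primes: Manin's rational function over `𝔽_2` (helper545)

For a Weierstrass curve `E` over `ZMod 2` and a point `P = (X, Y)` with `X² ≠ X` over the function
field, the `x`-coordinate of `Φ P - P` is the rational function `manU2 E / manV2` of `X`:
`maninPair_two : ManinPair E κ (manU2 E) manV2`.
-/

set_option autoImplicit false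

namespace Fermat.Agent.Lib.Frob.Small

open WeierstrassCurve WeierstrassCurve.Affine Polynomial
open Fermat.Agent.S52.H545

/-- Numerator of Manin's rational function `x(Φ P - P)` over `𝔽_2`. -/
noncomputable def manU2 (E : WeierstrassCurve (ZMod 2)) : (ZMod 2)[X] :=
  (C E.a₁ * X + C E.a₃ + 1) ^ 2 * (X ^ 3 + C E.a₂ * X ^ 2 + C E.a₄ * X + C E.a₆)
    + (X ^ 3 + C E.a₂ * X ^ 2 + C E.a₄ * X + C E.a₆ + C E.a₁ * X + C E.a₃) ^ 2
    + C E.a₁ * (X ^ 2 + X) *
        (X ^ 3 + C E.a₂ * X ^ 2 + C E.a₄ * X + C E.a₆ + C E.a₁ * X + C E.a₃)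
    + (C E.a₂ + X ^ 2 + X) * (X ^ 2 + X) ^ 2

/-- Denominator of Manin's rational function over `𝔽_2`. -/
noncomputable def manV2 : (ZMod 2)[X] := (X ^ 2 - X) ^ 2

lemma zmod_two_sq (a : ZMod 2) : a ^ 2 = a := by
  revert a; decide

variable (E : WeierstrassCurve (ZMod 2)) (κ : Type*) [Field κ] [Algebra (ZMod 2) κ]

lemma two_eq_zero_KK : (2 : KK E κ) = 0 := by
  have h : (2 : ZMod 2) = 0 := by decide
  have := congrArg (algebraMap (ZMod 2) (KK E κ)) h
  rwa [map_ofNat, map_zero] at this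

/-- Manin's pair over `𝔽_2`. -/
theorem maninPair_two : ManinPair E κ (manU2 E) manV2 where
  formula := by
    intro X Y h hX
    rw [ZMod.card] at hX
    obtain ⟨h1, e1⟩ := PhiP_some E κ h
    have hneg : (E⁄(KK E κ)).Nonsingular X ((E⁄(KK E κ)).negY X Y) :=
      (nonsingular_neg ..).mpr h
    have hX' : X ^ Fintype.card (ZMod 2) ≠ X := by rw [ZMod.card]; exact hX
    refine ⟨_, _, nonsingular_add h1 hneg fun hxy => hX' hxy.left, ?_, ?_⟩
    · rw [e1, sub_eq_add_neg, Point.neg_some, Point.add_of_X_ne hX']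
    · have hγ : X ^ 2 - X ≠ 0 := sub_ne_zero.mpr hX
      have h2 := two_eq_zero_KK E κ
      have hE := (equation_iff _ _).mp h.1
      have ha₁ : (algebraMap (ZMod 2) (KK E κ) E.a₁) ^ 2 = algebraMap (ZMod 2) (KK E κ) E.a₁ := by
        rw [← map_pow, zmod_two_sq]
      have ha₃ : (algebraMap (ZMod 2) (KK E κ) E.a₃) ^ 2 = algebraMap (ZMod 2) (KK E κ) E.a₃ := by
        rw [← map_pow, zmod_two_sq]
      simp only [WeierstrassCurve.baseChange, WeierstrassCurve.map_a₁, WeierstrassCurve.map_a₂,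
        WeierstrassCurve.map_a₃, WeierstrassCurve.map_a₄, WeierstrassCurve.map_a₆] at hE
      rw [slope_of_X_ne hX']
      simp only [ZMod.card, manU2, manV2, addX, negY, WeierstrassCurve.baseChange,
        WeierstrassCurve.map_a₁, WeierstrassCurve.map_a₂, WeierstrassCurve.map_a₃, eval₂_add,
        eval₂_sub, eval₂_mul, eval₂_pow, eval₂_X, eval₂_C, eval₂_one]
      set a₁ := algebraMap (ZMod 2) (KK E κ) E.a₁
      set a₂ := algebraMap (ZMod 2) (KK E κ) E.a₂
      set a₃ := algebraMap (ZMod 2) (KK E κ) E.a₃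
      set a₄ := algebraMap (ZMod 2) (KK E κ) E.a₄
      set a₆ := algebraMap (ZMod 2) (KK E κ) E.a₆
      have hlam : (Y ^ 2 - (-Y - a₁ * X - a₃)) / (X ^ 2 - X) * (X ^ 2 - X) =
          Y ^ 2 - (-Y - a₁ * X - a₃) := div_mul_cancel₀ _ hγ
      generalize (Y ^ 2 - (-Y - a₁ * X - a₃)) / (X ^ 2 - X) = lam at hlam ⊢
      linear_combination
        (lam * (X ^ 2 - X) + (Y ^ 2 - (-Y - a₁ * X - a₃)) + a₁ * (X ^ 2 - X)) * hlam
        + (X ^ 3 + X ^ 2 * a₁ ^ 2 + X ^ 2 * a₁ + X ^ 2 * a₂ - X * Y * a₁ + 2 * X * a₁ * a₃ - X * a₁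
          + X * a₄ + Y ^ 2 - Y * a₃ + 2 * Y + a₃ ^ 2 + a₆ + 1) * hE
        + (-X ^ 3 * Y * a₁ - 2 * X ^ 3 * Y - 3 * X ^ 2 * Y * a₃ + X ^ 2 * Y - 2 * X ^ 2) * ha₁
        + (-3 * X * Y * a₁ - Y * a₃ - Y) * ha₃
        + (-X ^ 6 - X ^ 5 - X ^ 4 * Y * a₁ - 3 * X ^ 4 * a₁ - X ^ 4 * a₂ - X ^ 4
          - X ^ 3 * Y * a₁ * a₂ - X ^ 3 * Y * a₁ - X ^ 3 * Y * a₃ + X ^ 3 * Y - 3 * X ^ 3 * a₁ * a₂
          - 2 * X ^ 3 * a₃ - X ^ 3 - 2 * X ^ 2 * Y * a₁ * a₃ - X ^ 2 * Y * a₁ * a₄ + X ^ 2 * Y * a₁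
          - X ^ 2 * Y * a₂ * a₃ + X ^ 2 * Y * a₂ - 3 * X ^ 2 * a₁ * a₄ - X ^ 2 * a₁
          - 2 * X ^ 2 * a₂ * a₃ - X ^ 2 * a₂ - X * Y * a₁ * a₃ - X * Y * a₁ * a₆ - X * Y * a₃ * a₄
          + X * Y * a₄ - X * a₁ * a₃ - 3 * X * a₁ * a₆ - 2 * X * a₃ * a₄ - Y * a₃ * a₆ + Y * a₆
          - 2 * a₃ * a₆) * h2
  ne_zero := by
    intro X hX
    rw [ZMod.card] at hX
    simp only [manV2, eval₂_sub, eval₂_pow, eval₂_X]
    exact pow_ne_zero _ (sub_ne_zero.mpr hX)

end Fermat.Agent.Lib.Frob.Small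

end
-- ===== PACK-END Lib/Frob/Small/TwoFormula.lean

-- ===== PACK-BEGIN S52/H297/MHeight.lean
section


/-!
# The exact height on `M` and the parallelogram law
-/

set_option autoImplicit false

open Polynomial WeierstrassCurve
open scoped WeierstrassCurve.Affine

namespace Fermat.Agent.S52.H297

open Fermat.Agent.Lib.Frob.A2

variable {F : Type*} [Field F] (W : WeierstrassCurve F)
variable {K : Type*} [Field K] [Algebra F K]
variable (ι : RatFunc F →ₐ[F] K) (y : K)

/-- the ring homomorphism `F[X] → K` -/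
noncomputable def ιP : F[X] →+* K :=
  (ι : RatFunc F →+* K).comp (algebraMap F[X] (RatFunc F))

lemma ιP_apply (p : F[X]) : ιP ι p = ι (algebraMap F[X] (RatFunc F) p) := rfl

lemma ιP_injective : Function.Injective (ιP ι) :=
  (ι : RatFunc F →+* K).injective.comp (RatFunc.algebraMap_injective F)

lemma baseCurve_eq : (W⁄K) = H720.baseCurve W (ιP ι) := by
  show W.map (algebraMap F K) = W.map ((ιP ι).comp C)
  congr 1
  ext c
  show algebraMap F K c = ι (algebraMap F[X] (RatFunc F) (C c))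
  rw [← algebraMap_eq, ← IsScalarTower.algebraMap_apply, AlgHom.commutes]

open scoped Classical in
/-- the pullback of the `x`-coordinate to `F(X)` (junk value `0` outside `M`) -/
noncomputable def xInv : (W⁄K).Point → RatFunc F
  | .zero => 0
  | .some x _ _ => if h : ∃ u, ι u = x then h.choose else 0

lemma xInv_some {u : RatFunc F} {v : K} (h : (W⁄K).Nonsingular (ι u) v) :
    xInv W ι (.some (ι u) v h) = u := by
  have hex : ∃ u', ι u' = ι u := ⟨u, rfl⟩
  simp only [xInv, dif_pos hex]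
  exact (ι : RatFunc F →+* K).injective hex.choose_spec

/-- a coprime representative of the `x`-coordinate -/
noncomputable def rep : (W⁄K).Point → F[X] × F[X]
  | .zero => (1, 0)
  | .some x v h => ((xInv W ι (.some x v h)).num, (xInv W ι (.some x v h)).denom)

/-- the height of a point (meaningful on `M`) -/
noncomputable def ptHt (P : (W⁄K).Point) : ℕ := H720.ht (rep W ι P).1 (rep W ι P).2

lemma ptHt_zero : ptHt W ι 0 = 0 := by
  show H720.ht (1 : F[X]) 0 = 0
  simp [H720.ht]

lemma ptHt_some {u : RatFunc F} {v : K} (h : (W⁄K).Nonsingular (ι u) v) :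
    ptHt W ι (.some (ι u) v h) = hgt u := by
  show H720.ht (xInv W ι (.some (ι u) v h)).num (xInv W ι (.some (ι u) v h)).denom = hgt u
  rw [xInv_some]
  rfl

variable {W ι y}

/-- every point of `M` has a coprime representative of its `x`-coordinate. -/
lemma xrep_of_inM {P : (W⁄K).Point} (hP : InM W ι y P) :
    IsCoprime (rep W ι P).1 (rep W ι P).2 ∧
      P.xRep 0 * ιP ι (rep W ι P).2 = P.xRep 1 * ιP ι (rep W ι P).1 := by
  rcases P with _ | ⟨x, v, h⟩
  · refine ⟨isCoprime_one_left, ?_⟩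
    show (Affine.Point.xRep (0 : (W⁄K).Point)) 0 * ιP ι 0 = (Affine.Point.xRep (0 : (W⁄K).Point)) 1 * ιP ι 1
    simp [Affine.Point.xRep_zero]
  · obtain ⟨u, Y, hx, hv⟩ := hP
    subst hx
    show IsCoprime (xInv W ι (.some (ι u) v h)).num (xInv W ι (.some (ι u) v h)).denom ∧
      (Affine.Point.some (ι u) v h).xRep 0 * ιP ι (xInv W ι (.some (ι u) v h)).denom
        = (Affine.Point.some (ι u) v h).xRep 1 * ιP ι (xInv W ι (.some (ι u) v h)).num
    rw [xInv_some]
    refine ⟨RatFunc.isCoprime_num_denom u, ?_⟩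
    simp only [Affine.Point.xRep_some, Matrix.cons_val_zero, Matrix.cons_val_one, one_mul, ιP_apply]
    rw [← map_mul]
    congr 1
    have := RatFunc.num_div_denom u
    rw [div_eq_iff (by simpa using RatFunc.denom_ne_zero u)] at this
    exact this.symm

omit [Algebra F K] in
/-- transport of helper720's parallelogram law along an equality of curves -/
theorem parallelogram_transport [DecidableEq K] [W.IsElliptic] (ι' : F[X] →+* K)
    (hι' : Function.Injective ι') (WK : Affine K) (hWK : WK = H720.baseCurve W ι')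
    {P Q : WK.Point} {n₁ d₁ n₂ d₂ n₃ d₃ n₄ d₄ : F[X]}
    (hP : IsCoprime n₁ d₁ ∧ P.xRep 0 * ι' d₁ = P.xRep 1 * ι' n₁)
    (hQ : IsCoprime n₂ d₂ ∧ Q.xRep 0 * ι' d₂ = Q.xRep 1 * ι' n₂)
    (hadd : IsCoprime n₃ d₃ ∧ (P + Q).xRep 0 * ι' d₃ = (P + Q).xRep 1 * ι' n₃)
    (hsub : IsCoprime n₄ d₄ ∧ (P - Q).xRep 0 * ι' d₄ = (P - Q).xRep 1 * ι' n₄) :
    H720.ht n₃ d₃ + H720.ht n₄ d₄ = 2 * (H720.ht n₁ d₁ + H720.ht n₂ d₂) := by
  subst hWK
  exact H720.parallelogram hι' hP hQ hadd hsub

lemma ptHt_neg (P : (W⁄K).Point) : ptHt W ι (-P) = ptHt W ι P := by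
  rcases P with _ | ⟨x, v, h⟩
  · rfl
  · rfl

/-- **Exact parallelogram law on `M`.** -/
theorem ptHt_parallelogram [DecidableEq K] [W.IsElliptic] (hs : TwistSetup W ι y)
    {P Q : (W⁄K).Point} (hP : InM W ι y P) (hQ : InM W ι y Q) :
    ptHt W ι (P + Q) + ptHt W ι (P - Q) = 2 * ptHt W ι P + 2 * ptHt W ι Q := by
  have hadd : InM W ι y (P + Q) := inM_add hs hP hQ
  have hsub : InM W ι y (P - Q) := by
    rw [sub_eq_add_neg]
    exact inM_add hs hP (inM_neg hs hQ)
  have := parallelogram_transport (W := W) (ιP ι) (ιP_injective ι) (W⁄K) (baseCurve_eq W ι)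
    (xrep_of_inM hP) (xrep_of_inM hQ) (xrep_of_inM hadd) (xrep_of_inM hsub)
  unfold ptHt
  rw [this]
  ring

end Fermat.Agent.S52.H297

end
-- ===== PACK-END S52/H297/MHeight.lean

-- ===== PACK-BEGIN S29/H812/Fiber.lean
section


/-!
# S29 / H812 — the fibre of a place in a finite extension of function fields:
adapted families, the coordinate lemma, linear independence and the fundamental inequality.
-/

set_option autoImplicit false

noncomputable section

open AlgebraicCurve

namespace Fermat.Agent.S29.H812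

open Fermat.Agent.S24

section Single

variable {K F : Type*} [Field K] [Field F] [Algebra K F]

/-- An element with prescribed order `i` at `w` and order at least `B` at the places of `s`. -/
theorem exists_ord_eq_and_ge (w : Place K F) (s : Finset (Place K F)) (hw : w ∉ s) (i B : ℕ) :
    ∃ u : F, u ≠ 0 ∧ w.ord u = i ∧ (∀ w' ∈ s, (B : ℤ) ≤ w'.ord u) := by
  obtain ⟨ε, hε0, -, hε1, -, hε2⟩ := exists_indicator w s hw
  obtain ⟨π, hπ0, hπ1⟩ := H117.exists_ord_eq_one w
  set T : ℕ := ∑ w' ∈ s, (w'.ord π).natAbs with hT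
  set M : ℕ := B + i * T with hM
  have hπi : π ^ i ≠ 0 := pow_ne_zero _ hπ0
  have hεM : ε ^ M ≠ 0 := pow_ne_zero _ hε0
  refine ⟨π ^ i * ε ^ M, mul_ne_zero hπi hεM, ?_, ?_⟩
  · rw [w.ord_mul hπi hεM, H117.ord_pow, H117.ord_pow, hπ1, hε1]; ring
  · intro w' hw'
    rw [w'.ord_mul hπi hεM, H117.ord_pow, H117.ord_pow]
    have h1 : (1 : ℤ) ≤ w'.ord ε := (hε2 w' hw').1
    have h2 : ((w'.ord π).natAbs : ℤ) ≤ (T : ℤ) := by
      have : (w'.ord π).natAbs ≤ T := Finset.single_le_sum (f := fun w' : Place K F =>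
        (w'.ord π).natAbs) (fun _ _ => Nat.zero_le _) hw'
      exact_mod_cast this
    have h3 : -((w'.ord π).natAbs : ℤ) ≤ w'.ord π := by
      omega
    have h4 : (M : ℤ) ≤ (M : ℤ) * w'.ord ε := by
      have hM0 : (0 : ℤ) ≤ (M : ℤ) := Int.natCast_nonneg _
      nlinarith
    have h5 : -((i : ℤ) * (T : ℤ)) ≤ (i : ℤ) * w'.ord π := by
      have hi0 : (0 : ℤ) ≤ (i : ℤ) := Int.natCast_nonneg _
      nlinarith
    have h6 : (M : ℤ) = B + i * T := by rw [hM]; push_cast; ring
    linarith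

/-- A uniformiser at `w` which is a unit at all places of `s`. -/
theorem exists_ord_eq_one_and_zero (w : Place K F) (s : Finset (Place K F)) (hw : w ∉ s) :
    ∃ ϖ : F, ϖ ≠ 0 ∧ w.ord ϖ = 1 ∧ (∀ w' ∈ s, w'.ord ϖ = 0) := by
  obtain ⟨ε, hε0, hε0', hε1, hε1', hε2⟩ := exists_indicator w s hw
  obtain ⟨u, hu0, hu1, hu2⟩ := exists_ord_eq_and_ge w s hw 1 1
  have hsq : (1 - ε) ^ 2 ≠ 0 := pow_ne_zero _ hε0'
  have hlt : w.ord u < w.ord ((1 - ε) ^ 2) := by
    rw [H117.ord_pow, hu1]; push_cast; omega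
  have h1 : w.ord (u + (1 - ε) ^ 2) = w.ord u := H117.ord_add_eq_of_lt w hlt hu0
  have hne : u + (1 - ε) ^ 2 ≠ 0 := by
    intro h0
    rw [h0, w.ord_zero, hu1] at h1
    simp at h1
  refine ⟨u + (1 - ε) ^ 2, hne, by rw [h1, hu1]; rfl, ?_⟩
  intro w' hw'
  have hlt' : w'.ord ((1 - ε) ^ 2) < w'.ord u := by
    rw [H117.ord_pow, (hε2 w' hw').2]
    have := hu2 w' hw'
    push_cast at this ⊢
    omega
  rw [add_comm, H117.ord_add_eq_of_lt w' hlt' hsq, H117.ord_pow, (hε2 w' hw').2]
  ring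

end Single

section Relative

variable {K F F' : Type*} [Field K] [Field F] [Field F']
  [Algebra K F] [Algebra K F'] [Algebra F F'] [IsScalarTower K F F']
  [Algebra.IsIntegral F F']

/-- Order of a scalar multiple at a place above `v`. -/
theorem ord_smul_of_restrict {v : Place K F} {w : Place K F'} (hw : w.restrict F = v)
    {c : F} (hc : c ≠ 0) {u : F'} (hu : u ≠ 0) :
    w.ord (c • u) = (w.ramificationIndex F : ℤ) * v.ord c + w.ord u := by
  rw [Algebra.smul_def, w.ord_mul (by simpa using hc) hu, w.ord_restrict, hw]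

/-- **Coordinate lemma.**  Let `u a` (`a : ι`) be a family adapted to the places `wt a` above `v`:
`ord_{wt a} (u a) = idx a < e(wt a)` and `ord_{w'} (u a) ≥ e(w')` at the other places `w' = wt b`.
For a nonzero coefficient vector `c`, the combination `∑ c a • u a` is nonzero and, at a suitable
place `wt a₀`, has order `e · m + idx a₀` where `m = ord_v (c a₀)` is the minimum of the orders of
the nonzero coefficients. -/
theorem coord_lemma (v : Place K F) {ι : Type*} [Fintype ι] (wt : ι → Place K F') (idx : ι → ℕ)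
    (u : ι → F') (hfib : ∀ a, (wt a).restrict F = v)
    (hidx : ∀ a, idx a < (wt a).ramificationIndex F)
    (hu0 : ∀ a, u a ≠ 0) (hu1 : ∀ a, (wt a).ord (u a) = idx a)
    (hu2 : ∀ a b, wt b ≠ wt a → (((wt b).ramificationIndex F : ℕ) : ℤ) ≤ (wt b).ord (u a))
    (hinj : ∀ a b, wt a = wt b → idx a = idx b → a = b)
    (c : ι → F) (hc : ∃ a, c a ≠ 0) :
    ∃ a₀, c a₀ ≠ 0 ∧ (∀ a, c a ≠ 0 → v.ord (c a₀) ≤ v.ord (c a)) ∧
      (∑ a, c a • u a) ≠ 0 ∧
      (wt a₀).ord (∑ a, c a • u a)
        = ((wt a₀).ramificationIndex F : ℤ) * v.ord (c a₀) + idx a₀ := by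
  classical
  -- first minimisation: the order of the coefficient
  set S : Finset ι := Finset.univ.filter fun a => c a ≠ 0 with hS
  have hSne : S.Nonempty := by
    obtain ⟨a, ha⟩ := hc
    exact ⟨a, by simp [hS, ha]⟩
  obtain ⟨a₁, ha₁S, ha₁min⟩ := Finset.exists_min_image S (fun a => v.ord (c a)) hSne
  -- second minimisation: the index, among the minimal coefficients
  set S' : Finset ι := S.filter fun a => v.ord (c a) = v.ord (c a₁) with hS'
  have hS'ne : S'.Nonempty := ⟨a₁, by simp [hS', ha₁S]⟩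
  obtain ⟨a₀, ha₀S', ha₀min⟩ := Finset.exists_min_image S' idx hS'ne
  have ha₀S : a₀ ∈ S := (Finset.mem_filter.mp ha₀S').1
  have hc₀ : c a₀ ≠ 0 := (Finset.mem_filter.mp ha₀S).2
  have hm₀ : v.ord (c a₀) = v.ord (c a₁) := (Finset.mem_filter.mp ha₀S').2
  have hmin : ∀ a, c a ≠ 0 → v.ord (c a₀) ≤ v.ord (c a) := by
    intro a ha
    rw [hm₀]
    exact ha₁min a (by simp [hS, ha])
  have hepos : 0 < (wt a₀).ramificationIndex F := (wt a₀).ramificationIndex_pos (F := F)
  have hterm₀ : c a₀ • u a₀ ≠ 0 := smul_ne_zero hc₀ (hu0 a₀)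
  have hord₀ : (wt a₀).ord (c a₀ • u a₀)
      = ((wt a₀).ramificationIndex F : ℤ) * v.ord (c a₀) + idx a₀ := by
    rw [ord_smul_of_restrict (hfib a₀) hc₀ (hu0 a₀), hu1]
  have key := ord_sum_eq_of_lt (wt a₀) Finset.univ (fun a => c a • u a) a₀ (Finset.mem_univ _)
    hterm₀ (by
      intro a _ hne
      by_cases hca : c a = 0
      · left; simp [hca]
      right
      rw [hord₀, ord_smul_of_restrict (hfib a₀) hca (hu0 a)]
      have hle := hmin a hca
      have hi₀ := hidx a₀
      have he : (0 : ℤ) < ((wt a₀).ramificationIndex F : ℤ) := by exact_mod_cast hepos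
      by_cases hw : wt a = wt a₀
      · -- same place
        have hua : (wt a₀).ord (u a) = idx a := by rw [← hw, hu1]
        rw [hua]
        rcases eq_or_lt_of_le hle with heq | hlt
        · have haS' : a ∈ S' := by
            simp only [hS', hS, Finset.mem_filter, Finset.mem_univ, true_and]
            exact ⟨hca, by rw [← heq, hm₀]⟩
          have h1 := ha₀min a haS'
          have h2 : idx a ≠ idx a₀ := fun h => hne (hinj a a₀ hw h)
          have h3 : idx a₀ < idx a := lt_of_le_of_ne h1 (Ne.symm h2)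
          rw [← heq]
          have : ((idx a₀ : ℕ) : ℤ) < (idx a : ℤ) := by exact_mod_cast h3
          linarith
        · have h1 : ((wt a₀).ramificationIndex F : ℤ) * (v.ord (c a₀) + 1)
              ≤ ((wt a₀).ramificationIndex F : ℤ) * v.ord (c a) :=
            mul_le_mul_of_nonneg_left (by omega) he.le
          have h2 : ((idx a₀ : ℕ) : ℤ) < ((wt a₀).ramificationIndex F : ℤ) := by
            exact_mod_cast hi₀
          have h3 : (0 : ℤ) ≤ (idx a : ℤ) := Int.natCast_nonneg _
          nlinarith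
      · -- different place
        have hua := hu2 a a₀ (fun h => hw h.symm)
        have h1 : ((wt a₀).ramificationIndex F : ℤ) * v.ord (c a₀)
              ≤ ((wt a₀).ramificationIndex F : ℤ) * v.ord (c a) :=
            mul_le_mul_of_nonneg_left hle he.le
        have h2 : ((idx a₀ : ℕ) : ℤ) < ((wt a₀).ramificationIndex F : ℤ) := by
            exact_mod_cast hi₀
        linarith)
  exact ⟨a₀, hc₀, hmin, key.1, by rw [key.2, hord₀]⟩

end Relative

end Fermat.Agent.S29.H812

end
end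
-- ===== PACK-END S29/H812/Fiber.lean

-- ===== PACK-BEGIN S28/H685/JIntegral.lean
section




/-!
# S28 helper (helper685): integrality in the `j`-polynomial principle (J4)

If `P(j)` has all its Laurent coefficients in a subring `C₀ ⊆ ℂ`, then so has `P`.
Combined with `exists_polynomial_of_S_invariant` this gives the polynomial principle with
coefficients in `C₀`.  Also the versions for the parameter `q^(1/N)`.
-/

set_option autoImplicit false

namespace Fermat.Agent.S28.H685

open UpperHalfPlane Function Complex Filter HahnSeries ModularForm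
open scoped Topology Manifold MatrixGroups

noncomputable section

local notation "𝕢" => Periodic.qParam

theorem jqModC_pow_eq (n : ℕ) : ModularCurve.jqModC ℂ ^ n =
    HahnSeries.single (-(n : ℤ)) (1 : ℂ) * HahnSeries.ofPowerSeries ℤ ℂ (jNumC ^ n) := by
  rw [jqModC_eq, hauptmodul_pow]

/-- The coefficients of the powers of `j` are integers. -/
theorem coeff_jqModC_pow_mem (C₀ : Subring ℂ) (n : ℕ) (k : ℤ) :
    (ModularCurve.jqModC ℂ ^ n).coeff k ∈ C₀ := by
  have h : (ModularCurve.jqModC ℂ ^ n).coeff k =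
      (((ModularCurve.jqModC ℤ ^ n).coeff k : ℤ) : ℂ) := by
    rw [← ModularCurve.map_jqModC (Int.castRingHom ℂ)]
    have hpow : ((ModularCurve.jqModC ℤ).map (Int.castRingHom ℂ)) ^ n =
        (ModularCurve.jqModC ℤ ^ n).map (Int.castRingHom ℂ) := by
      induction n with
      | zero =>
        ext g
        simp only [pow_zero, HahnSeries.map_coeff, HahnSeries.coeff_one]
        split_ifs <;> simp
      | succ n ih =>
        rw [pow_succ, pow_succ, ih]
        exact (HahnSeries.map_mul (Int.castRingHom ℂ).toNonUnitalRingHom).symm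
    rw [hpow, HahnSeries.map_coeff]
    rfl
  rw [h]
  exact intCast_mem C₀ _

/-- **(J4)** If `P(j)` has all its coefficients in the subring `C₀`, so has `P`. -/
theorem coeff_mem_of_aeval_jqModC (C₀ : Subring ℂ) :
    ∀ (m : ℕ) (P : Polynomial ℂ), P.natDegree ≤ m →
      (∀ k : ℤ, (Polynomial.aeval (ModularCurve.jqModC ℂ) P).coeff k ∈ C₀) →
      ∀ i, P.coeff i ∈ C₀ := by
  intro m
  induction m with
  | zero =>
    intro P hP hc i
    rw [Polynomial.eq_C_of_natDegree_le_zero hP] at hc ⊢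
    have h0 := hc 0
    rw [Polynomial.aeval_C, algebraMap_eq_C] at h0
    have h1 : (HahnSeries.C (P.coeff 0) : LaurentSeries ℂ).coeff 0 = P.coeff 0 := by
      simp
    rw [h1] at h0
    rw [Polynomial.coeff_C]
    split_ifs
    · exact h0
    · exact C₀.zero_mem
  | succ m ih =>
    intro P hP hc i
    set a := P.coeff (m + 1) with ha
    set Q := P - Polynomial.C a * Polynomial.X ^ (m + 1) with hQ
    have hQdeg : Q.natDegree ≤ m := by
      rw [Polynomial.natDegree_le_iff_coeff_eq_zero]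
      intro N hN
      rw [hQ, Polynomial.coeff_sub, Polynomial.coeff_C_mul, Polynomial.coeff_X_pow]
      rcases Nat.lt_or_ge (m + 1) N with h1 | h1
      · rw [Polynomial.coeff_eq_zero_of_natDegree_lt (lt_of_le_of_lt hP h1),
          if_neg (by omega), mul_zero, sub_zero]
      · have : N = m + 1 := by omega
        rw [if_pos this, this, mul_one, sub_self]
    -- the coefficient `a` is the coefficient of `q^{-(m+1)}` in `P(j)`
    have haeval : Polynomial.aeval (ModularCurve.jqModC ℂ) P =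
        Polynomial.aeval (ModularCurve.jqModC ℂ) Q +
          HahnSeries.C a * ModularCurve.jqModC ℂ ^ (m + 1) := by
      rw [hQ, map_sub, map_mul, map_pow, Polynomial.aeval_X, Polynomial.aeval_C,
        algebraMap_eq_C]
      ring
    have hQlow : ∀ k : ℤ, k < -(m : ℤ) →
        (Polynomial.aeval (ModularCurve.jqModC ℂ) Q).coeff k = 0 := by
      intro k hk
      rw [Polynomial.aeval_eq_sum_range' (Nat.lt_succ_of_le hQdeg)]
      rw [HahnSeries.coeff_sum]
      refine Finset.sum_eq_zero fun n hn => ?_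
      have hn' : n ≤ m := Nat.lt_succ_iff.mp (Finset.mem_range.mp hn)
      rw [Algebra.smul_def, algebraMap_eq_C, HahnSeries.C_mul_eq_smul, HahnSeries.coeff_smul,
        jqModC_pow_eq, coeff_single_mul_ofPS_of_lt _ _ (by omega), smul_zero]
    have haC : a ∈ C₀ := by
      have h1 := hc (-((m + 1 : ℕ) : ℤ))
      rw [haeval, HahnSeries.coeff_add, hQlow _ (by push_cast; omega), zero_add,
        HahnSeries.C_mul_eq_smul, HahnSeries.coeff_smul, jqModC_eq,
        coeff_hauptmodul_pow_self _ constantCoeff_jNumC, smul_eq_mul, mul_one] at h1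
      exact h1
    have hQc : ∀ k : ℤ, (Polynomial.aeval (ModularCurve.jqModC ℂ) Q).coeff k ∈ C₀ := by
      intro k
      have h1 := hc k
      rw [haeval, HahnSeries.coeff_add, HahnSeries.C_mul_eq_smul, HahnSeries.coeff_smul,
        smul_eq_mul] at h1
      have h2 : a * (ModularCurve.jqModC ℂ ^ (m + 1)).coeff k ∈ C₀ :=
        C₀.mul_mem haC (coeff_jqModC_pow_mem C₀ _ _)
      have := C₀.sub_mem h1 h2
      simpa using this
    have hQi := ih Q hQdeg hQc i
    have hPi : P.coeff i = Q.coeff i + (Polynomial.C a * Polynomial.X ^ (m + 1)).coeff i := by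
      rw [hQ, Polynomial.coeff_sub]
      ring
    rw [hPi]
    refine C₀.add_mem hQi ?_
    rw [Polynomial.coeff_C_mul, Polynomial.coeff_X_pow]
    split_ifs
    · simpa using haC
    · simp

/-- **The `j`-polynomial principle with coefficients in a subring.** -/
theorem exists_polynomial_of_S_invariant_of_mem (C₀ : Subring ℂ) (F : ℍ → ℂ)
    (φ : LaurentSeries ℂ) (hφ : ∀ n : ℤ, φ.coeff n ∈ C₀) (hF : HasQLaurent 1 F φ)
    (hS : ∀ τ, F (ModularGroup.S • τ) = F τ) :
    ∃ P : Polynomial ℂ, (∀ i, P.coeff i ∈ C₀) ∧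
      φ = Polynomial.aeval (ModularCurve.jqModC ℂ) P ∧ ∀ τ, F τ = P.eval (jFun τ) := by
  obtain ⟨P, h1, h2⟩ := exists_polynomial_of_S_invariant' F φ hF hS
  exact ⟨P, coeff_mem_of_aeval_jqModC C₀ P.natDegree P le_rfl (fun k => h1 ▸ hφ k), h1, h2⟩

end

end Fermat.Agent.S28.H685

end
-- ===== PACK-END S28/H685/JIntegral.lean

-- ===== PACK-BEGIN S18/H456/ModCoord.lean
section


/-!
# S18 / MOD assembly (helper456): `E_closed_in_F`, `x_mem`, `x_transcendental`
-/

set_option autoImplicit false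

noncomputable section

namespace Fermat.Agent.S18.H456

open ModularCurve AlgebraicCurve HahnSeries Fermat.Agent.S18 Fermat.Agent.S18.Mod

variable (M : ℕ) (A : ValuationSubring Qb) (E : IntermediateField ℚ Qb)

/-- `Q̄ ≃ Lc`. -/
def LcEquiv : Qb ≃+* Lc M :=
  RingEquiv.ofBijective (algebraMap Qb (Om M)).rangeRestrictField
    ⟨(algebraMap Qb (Om M)).rangeRestrictField.injective, fun ⟨_, c, hc⟩ => ⟨c, Subtype.ext hc⟩⟩

theorem cst_LcEquiv_symm (y : Lc M) : cst M ((LcEquiv M).symm y) = (y : Om M) := by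
  have h := (LcEquiv M).apply_symm_apply y
  exact congrArg Subtype.val h

/-- An element of `Ω` which is algebraic over a field of constants is constant. -/
theorem exists_cst_of_isAlgebraic (K₀ : Subfield (Om M)) (hK : K₀ ≤ Lc M) (f : Om M)
    (hf : IsAlgebraic K₀ f) : ∃ c : Qb, f = cst M c := by
  obtain ⟨p, hp0, hp⟩ := hf
  let ψ : K₀ →+* Qb := ((LcEquiv M).symm : Lc M →+* Qb).comp (Subfield.inclusion hK)
  have hψ : ∀ y : K₀, cst M (ψ y) = (y : Om M) := fun y =>
    cst_LcEquiv_symm M (Subfield.inclusion hK y)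
  let val : Om M →+* LaurentSeries Qb := (modularFunctionFieldBar M).val.toRingHom
  have hcomp : val.comp (algebraMap K₀ (Om M)) =
      (algebraMap Qb (LaurentSeries Qb)).comp ψ := by
    ext1 y
    show ((algebraMap K₀ (Om M) y : Om M) : LaurentSeries Qb) =
      algebraMap Qb (LaurentSeries Qb) (ψ y)
    have : (algebraMap K₀ (Om M) y : Om M) = cst M (ψ y) := (hψ y).symm
    rw [this]
    rfl
  have halg : IsAlgebraic Qb (f : LaurentSeries Qb) := by
    refine ⟨p.map ψ, (Polynomial.map_ne_zero_iff ψ.injective).2 hp0, ?_⟩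
    rw [Polynomial.aeval_def, Polynomial.eval₂_map, ← hcomp]
    have h := Polynomial.hom_eval₂ p (algebraMap K₀ (Om M)) val f
    rw [Polynomial.aeval_def] at hp
    rw [hp, map_zero] at h
    exact h.symm
  obtain ⟨c, hc⟩ := laurent_const_of_isAlgebraic _ halg
  exact ⟨c, Subtype.ext hc⟩

theorem field_E_closed_in_F : ∀ f ∈ Fc M E, IsAlgebraic (Ec M E) f → f ∈ Ec M E := by
  intro f hf halg
  obtain ⟨c, rfl⟩ := exists_cst_of_isAlgebraic M (Ec M E) (field_E_le_L M E) f halg
  have h := coeff_mem_of_mem_Fc M E hf 0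
  rw [val_cst, HahnSeries.coeff_single_same] at h
  exact cst_mem_Ec M E h

/-! ### The coordinate -/

/-- The data of an integral `q`-expansion `q⁻¹ + …` of the coordinate. -/
def HasIntExp [NeZero M] (x : Om M) : Prop :=
  ∃ X : LaurentSeries ℤ, X.coeff (-1) = 1 ∧ (∀ k : ℤ, k < -1 → X.coeff k = 0) ∧
     (x : LaurentSeries Qb) = coeffMap (Int.castRingHom Qb) X ∧
     coeffMap (Int.castRingHom ℚ) X ∈ modularFunctionFieldFull M

theorem val_jOm [NeZero M] : ((jOm M : Om M) : LaurentSeries Qb) = jqModC Qb := by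
  show coeffEmb Qb (qExpand ℚ 1 jq) = _
  rw [qExpand_one_apply]
  exact coeffMap_jqModC (algebraMap ℚ Qb)

theorem hasIntExp_jOm [NeZero M] : HasIntExp M (jOm M) := by
  refine ⟨jqModC ℤ, coeff_jqModC_neg_one ℤ, fun k hk => coeff_jqModC_of_lt ℤ hk, ?_, ?_⟩
  · rw [val_jOm, coeffMap_jqModC]
  · rw [coeffMap_jqModC]
    exact modularFunctionField_le_full M (jq_mem M)

theorem hasIntExp_of_isCoordinate [NeZero M] {ℓ : ℕ} {x : Om M} {S : Finset (Om M)}
    (hx : IsCoordinate M ℓ x S) : HasIntExp M x := by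
  rcases hx with ⟨-, rfl, -⟩ | ⟨-, h⟩
  · exact hasIntExp_jOm M
  · exact h

theorem coeff_neg_one_of_hasIntExp [NeZero M] {x : Om M} (hx : HasIntExp M x) :
    (x : LaurentSeries Qb).coeff (-1) = 1 := by
  obtain ⟨X, h1, -, h3, -⟩ := hx
  rw [h3, coeffMap_coeff, h1, map_one]

theorem coeff_of_lt_of_hasIntExp [NeZero M] {x : Om M} (hx : HasIntExp M x) {k : ℤ}
    (hk : k < -1) : (x : LaurentSeries Qb).coeff k = 0 := by
  obtain ⟨X, -, h2, h3, -⟩ := hx
  rw [h3, coeffMap_coeff, h2 k hk, map_zero]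

theorem mem_Fc_of_hasIntExp [NeZero M] {x : Om M} (hx : HasIntExp M x) : x ∈ Fc M E := by
  obtain ⟨X, -, -, h3, h4⟩ := hx
  have : x = ofFull M _ h4 := by
    apply Subtype.ext
    rw [h3]
    show _ = coeffEmb Qb (coeffMap (Int.castRingHom ℚ) X)
    rw [coeffEmb, coeffMap_coeffMap]
    exact coeffMap_congr (RingHom.ext_int _ _) X
  rw [this]
  exact ofFull_mem_Fc M E _ h4

theorem transcendental_of_hasIntExp [NeZero M] {x : Om M} (hx : HasIntExp M x) :
    Transcendental (Lc M) x := by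
  intro halg
  obtain ⟨c, hc⟩ := exists_cst_of_isAlgebraic M (Lc M) le_rfl x halg
  have h := coeff_neg_one_of_hasIntExp M hx
  rw [hc, val_cst, HahnSeries.coeff_single_of_ne (by decide)] at h
  exact zero_ne_one h

theorem field_x_mem [NeZero M] {ℓ : ℕ} {x : Om M} {S : Finset (Om M)}
    (hx : IsCoordinate M ℓ x S) : x ∈ Fc M E :=
  mem_Fc_of_hasIntExp M E (hasIntExp_of_isCoordinate M hx)

theorem field_x_transcendental [NeZero M] {ℓ : ℕ} {x : Om M} {S : Finset (Om M)}
    (hx : IsCoordinate M ℓ x S) : Transcendental (Lc M) x :=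
  transcendental_of_hasIntExp M (hasIntExp_of_isCoordinate M hx)

end Fermat.Agent.S18.H456

end
end
-- ===== PACK-END S18/H456/ModCoord.lean

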