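import Mathlib
import Fermat.Prelude.Def_FLTPrelim_GaloisRep
import Fermat.Prelude.Def_FLTPrelim_Modularity
import Fermat.Prelude.Def_ModularCurve_HeckeModule
import Fermat.Agent.Pack.S44.G0E16L1
import Fermat.Agent.Pack.S44.G0E16L2
import Fermat.Agent.Pack.S44.G0E10L0
import Fermat.Agent.Pack.S44.G0E16L3
import Fermat.Agent.Pack.S44.G0E16L0
import Fermat.Agent.Pack.S44.G0E14L2
import Fermat.Agent.Pack.S44.G0E8L2
import Fermat.Agent.Pack.S44.G0E6L0
import Fermat.Agent.Pack.S44.G0E11L2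
import Fermat.Agent.Pack.S44.G0E10L3
import Fermat.Agent.Pack.S44.G0E17L1
import Fermat.Agent.Pack.S44.G0E12L0
import Fermat.Agent.Pack.S44.G0E15L3
import Fermat.Agent.Pack.S44.G0E15L2
import Fermat.Agent.Pack.S44.G0E17L3
import Fermat.Agent.Pack.S44.G0E17L2

-- ===== PACK-BEGIN S14/H937/Kummer.lean
section


/-!
# S14, LOCAL-I / LOCAL-D (helper937): the Kummer extension `K(b)/K` and trivial valuations
-/

set_option autoImplicit false
set_option linter.style.haveILetI false
set_option linter.unusedSectionVars false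

open NumberField IsDedekindDomain IntermediateField
open scoped Pointwise

namespace Fermat.Agent.S14.H937

/-- A valuation subring of `ℚ̄` either lies over a prime number or is everything. -/
theorem exists_liesOver_or_forall_mem (A : ValuationSubring Qb) :
    (∃ ℓ : ℕ, ℓ.Prime ∧ A.LiesOverPrime ℓ) ∨ ∀ x : Qb, x ∈ A := by
  by_cases h : ∃ ℓ : ℕ, ℓ.Prime ∧ A.LiesOverPrime ℓ
  · exact Or.inl h
  right
  push Not at h
  have hnat : ∀ n : ℕ, n ≠ 0 → ((n : Qb))⁻¹ ∈ A := by
    intro n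
    induction n using Nat.recOnMul with
    | zero => intro h0; exact absurd rfl h0
    | one => intro _; simp [A.one_mem]
    | prime ℓ hℓ =>
      intro _
      have h1 : ¬ A.LiesOverPrime ℓ := h ℓ hℓ
      exact inv_mem_of_not_mem_nonunits A h1
    | mul a b ha hb =>
      intro hab
      have ha0 : a ≠ 0 := fun h0 => hab (by simp [h0])
      have hb0 : b ≠ 0 := fun h0 => hab (by simp [h0])
      have := A.mul_mem _ _ (ha ha0) (hb hb0)
      rw [Nat.cast_mul, mul_inv]
      exact this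
  have hint : ∀ n : ℤ, n ≠ 0 → ((n : Qb))⁻¹ ∈ A := by
    intro n hn
    obtain ⟨m, rfl | rfl⟩ := n.eq_nat_or_neg
    · have hm : m ≠ 0 := by
        rintro rfl
        exact hn rfl
      simpa using hnat m hm
    · have hm : m ≠ 0 := by
        rintro rfl
        exact hn (by simp)
      have h1 := hnat m hm
      have : (((-(m : ℤ) : ℤ) : Qb))⁻¹ = -((m : Qb))⁻¹ := by
        push_cast
        rw [inv_neg]
      rw [this]
      exact A.neg_mem _ h1
  intro x
  have halg : IsAlgebraic ℤ x :=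
    (IsFractionRing.isAlgebraic_iff ℤ ℚ Qb).mpr (h937_isAlgebraic.isAlgebraic x)
  obtain ⟨y, hy0, hy⟩ := halg.exists_integral_multiple
  have h1 : y • x ∈ A := Fermat.Agent.S54.isIntegral_mem_valuationSubring A hy
  have h2 : x = ((y : Qb))⁻¹ * (y • x) := by
    have hyQ : (y : Qb) ≠ 0 := by exact_mod_cast hy0
    rw [zsmul_eq_mul, ← mul_assoc, inv_mul_cancel₀ hyQ, one_mul]
  rw [h2]
  exact A.mul_mem _ _ (hint y hy0) h1

theorem valuation_eq_one_of_forall_mem (A : ValuationSubring Qb) (h : ∀ x : Qb, x ∈ A)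
    (b : Qb) (hb : b ≠ 0) : A.valuation b = 1 := by
  apply le_antisymm
  · exact (A.valuation_le_one_iff _).mpr (h b)
  · have h4 := (A.valuation_le_one_iff _).mpr (h b⁻¹)
    rw [map_inv₀] at h4
    have hne : A.valuation b ≠ 0 := (Valuation.ne_zero_iff _).mpr hb
    exact (inv_le_one₀ (zero_lt_iff.mpr hne)).mp h4

section kummer

variable (K : IntermediateField ℚ Qb) (p : ℕ) (hp : 0 < p) (ζ : Qb) (hζ : IsPrimitiveRoot ζ p)
  (hζK : ζ ∈ K) (b : Qb) (hb : b ^ p ∈ K)

include hp hζ hζK hb in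
theorem apply_mem_adjoin (σ : Qb ≃ₐ[K] Qb) : σ b ∈ IntermediateField.adjoin K {b} := by
  by_cases hb0 : b = 0
  · rw [hb0, map_zero]; exact zero_mem _
  have h1 : (σ b) ^ p = b ^ p := by
    rw [← map_pow]
    exact σ.commutes ⟨b ^ p, hb⟩
  have h2 : (σ b / b) ^ p = 1 := by
    rw [div_pow, h1, div_self (pow_ne_zero _ hb0)]
  haveI : NeZero p := ⟨hp.ne'⟩
  obtain ⟨i, -, hi⟩ := hζ.eq_pow_of_pow_eq_one h2
  have h3 : σ b = ζ ^ i * b := by
    rw [hi]; field_simp
  rw [h3]
  have hζM : ζ ∈ IntermediateField.adjoin K {b} := by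
    have : (algebraMap K Qb ⟨ζ, hζK⟩) ∈ IntermediateField.adjoin K {b} :=
      (IntermediateField.adjoin K {b}).algebraMap_mem ⟨ζ, hζK⟩
    exact this
  exact mul_mem (pow_mem hζM i) (IntermediateField.mem_adjoin_simple_self K b)

include hp hζ hζK hb in
theorem isGalois_adjoin : IsGalois K (IntermediateField.adjoin K {b}) := by
  haveI := isGalois_Qb_over K
  have hnormal : Normal K (IntermediateField.adjoin K {b}) := by
    rw [IntermediateField.normal_iff_forall_map_le']
    intro σ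
    rw [IntermediateField.adjoin_map, IntermediateField.adjoin_le_iff]
    rintro _ ⟨x, hx, rfl⟩
    rw [Set.mem_singleton_iff] at hx
    subst hx
    exact apply_mem_adjoin K p hp ζ hζ hζK x hb σ
  exact isGalois_iff.mpr ⟨inferInstance, hnormal⟩

theorem finiteDimensional_adjoin :
    FiniteDimensional K (IntermediateField.adjoin K {b}) :=
  haveI := isGalois_Qb_over K
  IntermediateField.adjoin.finiteDimensional (Algebra.IsIntegral.isIntegral _)

/-- An automorphism of `K(b)/K` fixing `b` is trivial. -/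
theorem eq_one_of_apply_eq (τ : IntermediateField.adjoin K {b} ≃ₐ[K] IntermediateField.adjoin K {b})
    (hτ : ((τ ⟨b, IntermediateField.mem_adjoin_simple_self K b⟩ :
      IntermediateField.adjoin K {b}) : Qb) = b) : τ = 1 := by
  have h1 : ((IntermediateField.adjoin K {b}).val.comp (τ : _ →ₐ[K] _)) =
      (IntermediateField.adjoin K {b}).val := by
    apply IntermediateField.adjoin_algHom_ext
    intro x hx
    rw [Set.mem_singleton_iff] at hx
    subst hx
    exact hτ
  ext x
  have := congrArg (fun f => f x) h1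
  exact this

end kummer

end Fermat.Agent.S14.H937

end
-- ===== PACK-END S14/H937/Kummer.lean

-- ===== PACK-BEGIN Ribet/H215/FirstOrder.lean
section


/-!
# Row 38, WALL-p, ELOC-ord, leaf (F): first-order expansion of the addition law (helper215)

`firstOrder : Fermat.Agent.Ribet.H375.FirstOrderStatement`.

Exact identity used (with `x₃ = X(P + T)`, `P = (x, y)`, `T = (X, Y)`, `x ≠ X`):
`(x₃ - x) (X - x)² = -Y (2y + a₁x + a₃) + X (3x² + 2a₂x + a₄ - a₁y) + (-x³ + a₄x + 2a₆ - a₃y)`.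
-/

set_option autoImplicit false

open WeierstrassCurve WeierstrassCurve.Affine WeierstrassCurve.Affine.Point

namespace Fermat.Agent.Ribet.H215

open Fermat.Agent.S05.SameRed

variable {K : Type*} [Field K] [DecidableEq K]
  {Γ₀ : Type*} [LinearOrderedCommGroupWithZero Γ₀]
  {W : Affine K} {v : Valuation K Γ₀}

/-- On an integral Weierstrass equation, an integral `x` forces an integral `y`. -/
theorem val_y_le_one_h215 (hW : IntegralCoeffs W v) {x y : K} (h : W.Equation x y)
    (hx : v x ≤ 1) : v y ≤ 1 := by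
  by_contra hy
  rw [not_le] at hy
  have e := (Affine.equation_iff x y).mp h
  have hy0 : 0 < v y := lt_trans zero_lt_one hy
  -- `y (y + a₁ x + a₃)` has valuation `v y ^ 2 > 1`
  have h1 : v (W.a₁ * x + W.a₃) ≤ 1 := val_add_le_one (val_mul_le_one hW.a₁ hx) hW.a₃
  have h2 : v (y + (W.a₁ * x + W.a₃)) = v y :=
    v.map_add_eq_of_lt_left (h1.trans_lt hy)
  have h3 : v (y ^ 2 + W.a₁ * x * y + W.a₃ * y) = v y * v y := by
    have : y ^ 2 + W.a₁ * x * y + W.a₃ * y = y * (y + (W.a₁ * x + W.a₃)) := by ring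
    rw [this, map_mul, h2]
  have h4 : v (x ^ 3 + W.a₂ * x ^ 2 + W.a₄ * x + W.a₆) ≤ 1 := by
    have hx2 : v (x ^ 2) ≤ 1 := by rw [pow_two]; exact val_mul_le_one hx hx
    have hx3 : v (x ^ 3) ≤ 1 := by
      have : x ^ 3 = x ^ 2 * x := by ring
      rw [this]; exact val_mul_le_one hx2 hx
    exact val_add_le_one (val_add_le_one (val_add_le_one hx3 (val_mul_le_one hW.a₂ hx2))
      (val_mul_le_one hW.a₄ hx)) hW.a₆
  rw [e] at h3
  have h5 : 1 < v y * v y := by
    calc (1 : Γ₀) < v y := hy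
      _ = v y * 1 := (mul_one _).symm
      _ ≤ v y * v y := mul_le_mul_right hy.le _
  exact absurd h4 (not_le.mpr (h3 ▸ h5))

/-- For a point with non-integral `x`-coordinate: `v Y ^ 2 = v X ^ 3` and `v X < v Y`. -/
theorem val_kernel_point_h215 (hW : IntegralCoeffs W v) {X Y : K} (h : W.Equation X Y)
    (hX : 1 < v X) : v X < v Y ∧ v Y * v Y = v X * v X * v X := by
  have e := (Affine.equation_iff X Y).mp h
  have hX0 : 0 < v X := lt_trans zero_lt_one hX
  have hXX : v X < v X * v X := by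
    calc v X = v X * 1 := (mul_one _).symm
      _ < v X * v X := by
        exact mul_lt_mul_of_pos_left hX hX0
  have hXXX : v X * v X < v X * v X * v X := by
    calc v X * v X = v X * v X * 1 := (mul_one _).symm
      _ < v X * v X * v X := mul_lt_mul_of_pos_left hX (mul_pos hX0 hX0)
  -- right hand side has valuation `v X ^ 3`
  have hR : v (X ^ 3 + W.a₂ * X ^ 2 + W.a₄ * X + W.a₆) = v X * v X * v X := by
    have h3 : v (X ^ 3) = v X * v X * v X := by
      rw [show X ^ 3 = X * X * X by ring, map_mul, map_mul]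
    have h2 : v (W.a₂ * X ^ 2) ≤ v X * v X := by
      rw [show W.a₂ * X ^ 2 = W.a₂ * (X * X) by ring, map_mul, map_mul]
      exact mul_le_of_le_one_left' hW.a₂
    have h1 : v (W.a₄ * X) ≤ v X := by
      rw [map_mul]; exact mul_le_of_le_one_left' hW.a₄
    have hA : v (X ^ 3 + W.a₂ * X ^ 2) = v X * v X * v X := by
      rw [v.map_add_eq_of_lt_left (by rw [h3]; exact h2.trans_lt hXXX), h3]
    have hB : v (X ^ 3 + W.a₂ * X ^ 2 + W.a₄ * X) = v X * v X * v X := by
      rw [v.map_add_eq_of_lt_left (by rw [hA]; exact h1.trans_lt (hXX.trans hXXX)), hA]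
    rw [v.map_add_eq_of_lt_left (by
      rw [hB]; exact hW.a₆.trans_lt (hX.trans (hXX.trans hXXX))), hB]
  have hL : v (Y * (Y + (W.a₁ * X + W.a₃))) = v X * v X * v X := by
    rw [← hR, ← e]; congr 1; ring
  have h1 : v (W.a₁ * X + W.a₃) ≤ v X :=
    (v.map_add _ _).trans (max_le (by rw [map_mul]; exact mul_le_of_le_one_left' hW.a₁)
      (hW.a₃.trans hX.le))
  have hXY : v X < v Y := by
    by_contra hle
    rw [not_lt] at hle
    have h2 : v (Y + (W.a₁ * X + W.a₃)) ≤ v X := (v.map_add _ _).trans (max_le hle h1)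
    have h3 : v (Y * (Y + (W.a₁ * X + W.a₃))) ≤ v X * v X := by
      rw [map_mul]; exact mul_le_mul' hle h2
    rw [hL] at h3
    exact absurd h3 (not_le.mpr hXXX)
  refine ⟨hXY, ?_⟩
  have h2 : v (Y + (W.a₁ * X + W.a₃)) = v Y := v.map_add_eq_of_lt_left (h1.trans_lt hXY)
  rw [← hL, map_mul, h2]

/-- **(F), general valuation.**  `P = (x, y)` integral with `2y + a₁x + a₃` a unit, `T = (X, Y)`
with `X` non-integral: `x ≠ X`, the `x`-coordinate `x₃` of `P + T` is integral and
`(x₃ - x) Y / X` is a unit. -/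
theorem firstOrder_val_h215 (hW : IntegralCoeffs W v) {x y X Y : K}
    (h : W.Equation x y) (hT : W.Equation X Y) (hx : v x ≤ 1) (hX : 1 < v X)
    (hu : v (2 * y + W.a₁ * x + W.a₃) = 1) :
    x ≠ X ∧ v (W.addX x X (W.slope x X y Y)) ≤ 1 ∧
      v ((W.addX x X (W.slope x X y Y) - x) * Y / X) = 1 := by
  have hxX : x ≠ X := by
    rintro rfl
    exact absurd hx (not_le.mpr hX)
  refine ⟨hxX, ?_⟩
  have hy : v y ≤ 1 := val_y_le_one_h215 hW h hx
  obtain ⟨hXY, hYY⟩ := val_kernel_point_h215 hW hT hX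
  have hX0 : 0 < v X := lt_trans zero_lt_one hX
  have hY0 : 0 < v Y := hX0.trans hXY
  have hXne : X ≠ 0 := (Valuation.pos_iff v).mp hX0
  have hYne : Y ≠ 0 := (Valuation.pos_iff v).mp hY0
  have e₁ := (Affine.equation_iff x y).mp h
  have e₂ := (Affine.equation_iff X Y).mp hT
  set x₃ : K := W.addX x X (W.slope x X y Y) with hx₃
  have hd : x - X ≠ 0 := sub_ne_zero.mpr hxX
  -- the exact identity
  have key : (x₃ - x) * (X - x) ^ 2 =
      -(Y * (2 * y + W.a₁ * x + W.a₃)) + (X * (3 * x ^ 2 + 2 * W.a₂ * x + W.a₄ - W.a₁ * y) +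
        (-x ^ 3 + W.a₄ * x + 2 * W.a₆ - W.a₃ * y)) := by
    have hm : W.slope x X y Y * (x - X) = y - Y := by
      rw [Affine.slope_of_X_ne hxX, div_mul_cancel₀ _ hd]
    rw [hx₃]
    simp only [Affine.addX]
    linear_combination (W.slope x X y Y * (x - X) + (y - Y) + W.a₁ * (x - X)) * hm + e₁ + e₂
  -- valuations of the three terms
  have hx2 : v (x ^ 2) ≤ 1 := by rw [pow_two]; exact val_mul_le_one hx hx
  have hx3 : v (x ^ 3) ≤ 1 := by
    rw [show x ^ 3 = x ^ 2 * x by ring]; exact val_mul_le_one hx2 hx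
  have hg : v (3 * x ^ 2 + 2 * W.a₂ * x + W.a₄ - W.a₁ * y) ≤ 1 := by
    refine val_sub_le_one (val_add_le_one (val_add_le_one ?_ ?_) hW.a₄) (val_mul_le_one hW.a₁ hy)
    · exact val_mul_le_one (by exact_mod_cast val_natCast_le_one (v := v) 3) hx2
    · exact val_mul_le_one (val_mul_le_one (by exact_mod_cast val_natCast_le_one (v := v) 2)
        hW.a₂) hx
  have hc : v (-x ^ 3 + W.a₄ * x + 2 * W.a₆ - W.a₃ * y) ≤ 1 := by
    refine val_sub_le_one (val_add_le_one (val_add_le_one ?_ (val_mul_le_one hW.a₄ hx)) ?_)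
      (val_mul_le_one hW.a₃ hy)
    · rw [Valuation.map_neg]; exact hx3
    · exact val_mul_le_one (by exact_mod_cast val_natCast_le_one (v := v) 2) hW.a₆
  have h1 : v (-(Y * (2 * y + W.a₁ * x + W.a₃))) = v Y := by
    rw [Valuation.map_neg, map_mul, hu, mul_one]
  have h2 : v (X * (3 * x ^ 2 + 2 * W.a₂ * x + W.a₄ - W.a₁ * y) +
      (-x ^ 3 + W.a₄ * x + 2 * W.a₆ - W.a₃ * y)) < v Y := by
    refine (v.map_add _ _).trans_lt (max_lt ?_ (hc.trans_lt (hX.trans hXY)))
    rw [map_mul]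
    exact (mul_le_of_le_one_right' hg).trans_lt hXY
  have hkey : v ((x₃ - x) * (X - x) ^ 2) = v Y := by
    rw [key, v.map_add_eq_of_lt_left (by rw [h1]; exact h2), h1]
  have hXx : v (X - x) = v X := v.map_sub_eq_of_lt_left (hx.trans_lt hX)
  have hval : v (x₃ - x) * (v X * v X) = v Y := by
    rw [← hkey, map_mul, pow_two, map_mul, hXx]
  -- `v (x₃ - x) = v X / v Y`
  have hXX0 : v X * v X ≠ 0 := (mul_pos hX0 hX0).ne'
  have hval2 : v (x₃ - x) * v Y = v X := by
    have : v (x₃ - x) * v Y * (v X * v X) = v X * (v X * v X) := by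
      calc v (x₃ - x) * v Y * (v X * v X) = (v (x₃ - x) * (v X * v X)) * v Y := by
            rw [mul_assoc, mul_comm (v Y), ← mul_assoc]
        _ = v Y * v Y := by rw [hval]
        _ = v X * v X * v X := hYY
        _ = v X * (v X * v X) := mul_assoc _ _ _
    exact mul_right_cancel₀ hXX0 this
  have hlt : v (x₃ - x) < 1 := by
    by_contra hge
    rw [not_lt] at hge
    have : v Y ≤ v (x₃ - x) * v Y := le_mul_of_one_le_left' hge
    rw [hval2] at this
    exact absurd this (not_le.mpr hXY)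
  refine ⟨?_, ?_⟩
  · have : x₃ = (x₃ - x) + x := by ring
    rw [this]
    exact val_add_le_one hlt.le hx
  · rw [map_div₀, map_mul, hval2]
    exact div_self hX0.ne'

/-- **Leaf (F)** of ELOC-ord: `H375.FirstOrderStatement`. -/
theorem firstOrder : Fermat.Agent.Ribet.H375.FirstOrderStatement := by
  intro K _ _ A W hW x y X Y h hT hx hX hu
  have hx' : A.valuation x ≤ 1 := (A.valuation_le_one_iff x).mpr hx
  have hX' : 1 < A.valuation X := by
    rw [← not_le]
    exact fun hle => hX ((A.valuation_le_one_iff X).mp hle)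
  obtain ⟨hxX, h1, h2⟩ := firstOrder_val_h215 hW h.1 hT.1 hx' hX' hu
  refine ⟨W.addX x X (W.slope x X y Y), W.addY x X y (W.slope x X y Y),
    nonsingular_add h hT (fun hxy => absurd hxy.1 hxX), ?_, ?_, h2⟩
  · exact Point.add_of_X_ne hxX
  · exact (A.valuation_le_one_iff _).mp h1

end Fermat.Agent.Ribet.H215

end
-- ===== PACK-END Ribet/H215/FirstOrder.lean

-- ===== PACK-BEGIN Lib/Cheb/FrobeniusDivision.lean
section



/-!
# CHEB, Tier 1 END: the Frobenius division theorem over `ℚ̄`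

`Fermat.Agent.Lib.Cheb.frobeniusDivision : Spec.FrobeniusDivisionStatement`

For every finite extension `E ⊆ ℚ̄` of `ℚ`, every `σ ∈ Gal(ℚ̄/ℚ)` and every finite set `S` of
numbers there are a prime `ℓ ∉ S`, a valuation subring `A` of `ℚ̄` over `ℓ`, a Frobenius `τ` at `A`
(Prelude's `IsFrobeniusAt`) and exponents `k`, `j` such that the inertia group of `A` acts
trivially on `E`, `τ = σ ^ k` on `E` and `τ ^ j = σ` on `E`
(i.e. `τ|_E` and `σ|_E` generate the same cyclic subgroup: "Frobenius density, qualitative").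

Assembled from
* `frobFinite` (finite level, Galois number fields; pieces Z, B0, A, D, M), and
* `H476.bridgeDivision` (bridge F6 from the finite level to valuation subrings of `ℚ̄`).
-/

set_option autoImplicit false

namespace Fermat.Agent.Lib.Cheb

/-- **Frobenius division theorem** (qualitative Frobenius density theorem over `ℚ̄`). -/
theorem frobeniusDivision : Spec.FrobeniusDivisionStatement :=
  H476.bridgeDivision frobFinite

end Fermat.Agent.Lib.Cheb

end
-- ===== PACK-END Lib/Cheb/FrobeniusDivision.lean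

-- ===== PACK-BEGIN S41/H701/FinrankTorsion.lean
section




/-!
# `E[p]` is two-dimensional over `𝔽_p` (helper701, S41 piece D1)

In the Prelude language (`Submodule.torsionBy ℤ (W'⁄K).Point p` with the `ZMod p`-module
structure `instModuleZModTorsionBy`).
-/

open WeierstrassCurve WeierstrassCurve.Affine WeierstrassCurve.Affine.Point

set_option autoImplicit false

namespace Fermat.Agent.S41.H701

section

variable {R : Type*} {K : Type*} [CommRing R] [Field K] [DecidableEq K] [Algebra R K]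
  [IsAlgClosed K] [CharZero K] (W' : Affine R) [(W'⁄K).IsElliptic]

/-- `#E[n] = n ^ 2`, Prelude language. -/
theorem card_torsion_eq_sq_prelude_h701 (n : ℕ) (hn : 1 ≤ n) :
    Nat.card (Submodule.torsionBy ℤ (W'⁄K).Point n) = n ^ 2 :=
  card_torsionBy_eq_sq_h701 (W'⁄K) n hn

/-- `E[n]` is finite. -/
theorem finite_torsion_prelude_h701 (n : ℕ) (hn : 1 ≤ n) :
    Finite (Submodule.torsionBy ℤ (W'⁄K).Point n) := by
  apply Nat.finite_of_card_ne_zero
  rw [card_torsion_eq_sq_prelude_h701 W' n hn]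
  positivity

/-- `dim_{𝔽_p} E[p] = 2`. -/
theorem finrank_torsion_eq_two_h701 (p : ℕ) [hp : Fact p.Prime] :
    Module.finrank (ZMod p) (Submodule.torsionBy ℤ (W'⁄K).Point p) = 2 := by
  have hfin : Finite (Submodule.torsionBy ℤ (W'⁄K).Point p) :=
    finite_torsion_prelude_h701 W' p hp.out.one_le
  have h1 := card_torsion_eq_sq_prelude_h701 (K := K) W' p hp.out.one_le
  have h2 : Nat.card (Submodule.torsionBy ℤ (W'⁄K).Point p)
      = Nat.card (ZMod p) ^ Module.finrank (ZMod p) (Submodule.torsionBy ℤ (W'⁄K).Point p) :=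
    Module.natCard_eq_pow_finrank
  rw [Nat.card_zmod, h1] at h2
  exact (Nat.pow_right_injective hp.out.two_le h2).symm

end

end Fermat.Agent.S41.H701

end
-- ===== PACK-END S41/H701/FinrankTorsion.lean

-- ===== PACK-BEGIN Lib/Frob/Small/TwoData.lean
section





/-!
# Shared library `Frob`, small primes: Manin's count over `𝔽_2` (helper545)

For each of the 16 Weierstrass equations over `ZMod 2` with `Δ ≠ 0`: the reduced form of Manin's
rational function `manU2 E / manV2` has degree `#E(𝔽_2)` (`RedData`), by explicit computation.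
(Generated by a script; every proof is a polynomial identity checked by `linear_combination`.)
-/

set_option autoImplicit false

namespace Fermat.Agent.Lib.Frob.Small

open WeierstrassCurve WeierstrassCurve.Affine Polynomial
open Fermat.Agent.S52.H545

lemma two_eq_zero_poly : (2 : (ZMod 2)[X]) = 0 := by
  have h : (2 : ZMod 2) = 0 := by decide
  have := congrArg (C : ZMod 2 → (ZMod 2)[X]) h
  rwa [map_ofNat, map_zero] at this

/-- Point count of a Weierstrass curve over `𝔽_2` from the count of affine solutions. -/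
lemma card_eq_of_count (W : WeierstrassCurve (ZMod 2)) (hΔ : W.Δ ≠ 0) (n : ℕ)
    (h : (Finset.univ.filter (fun q : ZMod 2 × ZMod 2 =>
      q.2 ^ 2 + W.a₁ * q.1 * q.2 + W.a₃ * q.2 = q.1 ^ 3 + W.a₂ * q.1 ^ 2 + W.a₄ * q.1 + W.a₆)).card
        = n) : W.card = n + 1 := by
  rw [WeierstrassCurve.card, Fermat.Agent.S52.H621.card_point_eq W.toAffine hΔ]
  congr 1
  rw [← h, ← Fintype.card_subtype, ← Nat.card_eq_fintype_card]
  apply Nat.card_congr
  exact Equiv.subtypeEquivRight fun q => equation_iff _ _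

theorem card_00100 : (⟨0, 0, 1, 0, 0⟩ : WeierstrassCurve (ZMod 2)).card = 3 :=
  card_eq_of_count _ (by decide) 2 (by decide)

theorem redData_00100 : Nonempty (RedData (manU2 (⟨0, 0, 1, 0, 0⟩ : WeierstrassCurve (ZMod 2))) manV2 3) := by
  refine ⟨⟨X ^ 2 + 1, X ^ 3 + X ^ 2 + 1, X ^ 2, ?_, ?_, ⟨1, X + 1, ?_⟩, ?_, ?_⟩⟩
  · simp only [manU2, map_one, map_zero]
    linear_combination (X ^ 6 + X ^ 5 + X ^ 4 + 3 * X ^ 3 - X ^ 2) * two_eq_zero_poly
  · simp only [manV2]
    linear_combination (-X ^ 3) * two_eq_zero_poly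
  · linear_combination (X ^ 3 + X ^ 2) * two_eq_zero_poly
  · compute_degree!
  · compute_degree
    all_goals norm_num

theorem card_00101 : (⟨0, 0, 1, 0, 1⟩ : WeierstrassCurve (ZMod 2)).card = 3 :=
  card_eq_of_count _ (by decide) 2 (by decide)

theorem redData_00101 : Nonempty (RedData (manU2 (⟨0, 0, 1, 0, 1⟩ : WeierstrassCurve (ZMod 2))) manV2 3) := by
  refine ⟨⟨X ^ 2, X ^ 3 + X ^ 2 + X, X ^ 2 + 1, ?_, ?_, ⟨1, X + 1, ?_⟩, ?_, ?_⟩⟩
  · simp only [manU2, map_one, map_zero]
    linear_combination (X ^ 6 + X ^ 5 + X ^ 4 + 4 * X ^ 3 + 4) * two_eq_zero_poly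
  · simp only [manV2]
    linear_combination (-X ^ 3) * two_eq_zero_poly
  · linear_combination (X ^ 3 + X ^ 2 + X) * two_eq_zero_poly
  · compute_degree!
  · compute_degree
    all_goals norm_num

theorem card_00110 : (⟨0, 0, 1, 1, 0⟩ : WeierstrassCurve (ZMod 2)).card = 5 :=
  card_eq_of_count _ (by decide) 4 (by decide)

theorem redData_00110 : Nonempty (RedData (manU2 (⟨0, 0, 1, 1, 0⟩ : WeierstrassCurve (ZMod 2))) manV2 5) := by
  refine ⟨⟨1, X ^ 5 + X ^ 4 + X ^ 3 + X ^ 2 + 1, X ^ 4 + X ^ 2, ?_, ?_, ⟨1, X + 1, ?_⟩, ?_, ?_⟩⟩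
  · simp only [manU2, map_one, map_zero]
    linear_combination (X ^ 6 + X ^ 5 + 2 * X ^ 4 + 3 * X ^ 3 + 3 * X) * two_eq_zero_poly
  · simp only [manV2]
    linear_combination (-X ^ 3) * two_eq_zero_poly
  · linear_combination (X ^ 5 + X ^ 4 + X ^ 3 + X ^ 2) * two_eq_zero_poly
  · compute_degree!
  · compute_degree
    all_goals norm_num

theorem card_00111 : (⟨0, 0, 1, 1, 1⟩ : WeierstrassCurve (ZMod 2)).card = 1 :=
  card_eq_of_count _ (by decide) 0 (by decide)

theorem redData_00111 : Nonempty (RedData (manU2 (⟨0, 0, 1, 1, 1⟩ : WeierstrassCurve (ZMod 2))) manV2 1) := by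
  refine ⟨⟨X ^ 4 + X ^ 2, X + 1, 1, ?_, ?_, ⟨0, 1, ?_⟩, ?_, ?_⟩⟩
  · simp only [manU2, map_one, map_zero]
    linear_combination (X ^ 6 + X ^ 5 + 2 * X ^ 4 + 4 * X ^ 3 + 4 * X + 4) * two_eq_zero_poly
  · simp only [manV2]
    linear_combination (-X ^ 3) * two_eq_zero_poly
  · linear_combination (0) * two_eq_zero_poly
  · compute_degree!
  · compute_degree
    all_goals norm_num

theorem card_01100 : (⟨0, 1, 1, 0, 0⟩ : WeierstrassCurve (ZMod 2)).card = 5 :=
  card_eq_of_count _ (by decide) 4 (by decide)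

theorem redData_01100 : Nonempty (RedData (manU2 (⟨0, 1, 1, 0, 0⟩ : WeierstrassCurve (ZMod 2))) manV2 5) := by
  refine ⟨⟨1, X ^ 5 + X ^ 4 + X ^ 3 + X ^ 2 + 1, X ^ 4 + X ^ 2, ?_, ?_, ⟨1, X + 1, ?_⟩, ?_, ?_⟩⟩
  · simp only [manU2, map_one, map_zero]
    linear_combination (X ^ 6 + 2 * X ^ 5 + 2 * X ^ 4 + 4 * X ^ 3 + 3 * X ^ 2) * two_eq_zero_poly
  · simp only [manV2]
    linear_combination (-X ^ 3) * two_eq_zero_poly
  · linear_combination (X ^ 5 + X ^ 4 + X ^ 3 + X ^ 2) * two_eq_zero_poly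
  · compute_degree!
  · compute_degree
    all_goals norm_num

theorem card_01101 : (⟨0, 1, 1, 0, 1⟩ : WeierstrassCurve (ZMod 2)).card = 1 :=
  card_eq_of_count _ (by decide) 0 (by decide)

theorem redData_01101 : Nonempty (RedData (manU2 (⟨0, 1, 1, 0, 1⟩ : WeierstrassCurve (ZMod 2))) manV2 1) := by
  refine ⟨⟨X ^ 4 + X ^ 2, X + 1, 1, ?_, ?_, ⟨0, 1, ?_⟩, ?_, ?_⟩⟩
  · simp only [manU2, map_one, map_zero]
    linear_combination (X ^ 6 + 2 * X ^ 5 + 2 * X ^ 4 + 5 * X ^ 3 + 4 * X ^ 2 + 4) * two_eq_zero_poly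
  · simp only [manV2]
    linear_combination (-X ^ 3) * two_eq_zero_poly
  · linear_combination (0) * two_eq_zero_poly
  · compute_degree!
  · compute_degree
    all_goals norm_num

theorem card_01110 : (⟨0, 1, 1, 1, 0⟩ : WeierstrassCurve (ZMod 2)).card = 3 :=
  card_eq_of_count _ (by decide) 2 (by decide)

theorem redData_01110 : Nonempty (RedData (manU2 (⟨0, 1, 1, 1, 0⟩ : WeierstrassCurve (ZMod 2))) manV2 3) := by
  refine ⟨⟨X ^ 2 + 1, X ^ 3 + X ^ 2 + 1, X ^ 2, ?_, ?_, ⟨1, X + 1, ?_⟩, ?_, ?_⟩⟩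
  · simp only [manU2, map_one, map_zero]
    linear_combination (X ^ 6 + 2 * X ^ 5 + 3 * X ^ 4 + 5 * X ^ 3 + 3 * X ^ 2 + 3 * X) * two_eq_zero_poly
  · simp only [manV2]
    linear_combination (-X ^ 3) * two_eq_zero_poly
  · linear_combination (X ^ 3 + X ^ 2) * two_eq_zero_poly
  · compute_degree!
  · compute_degree
    all_goals norm_num

theorem card_01111 : (⟨0, 1, 1, 1, 1⟩ : WeierstrassCurve (ZMod 2)).card = 3 :=
  card_eq_of_count _ (by decide) 2 (by decide)

theorem redData_01111 : Nonempty (RedData (manU2 (⟨0, 1, 1, 1, 1⟩ : WeierstrassCurve (ZMod 2))) manV2 3) := by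
  refine ⟨⟨X ^ 2, X ^ 3 + X ^ 2 + X, X ^ 2 + 1, ?_, ?_, ⟨1, X + 1, ?_⟩, ?_, ?_⟩⟩
  · simp only [manU2, map_one, map_zero]
    linear_combination (X ^ 6 + 2 * X ^ 5 + 3 * X ^ 4 + 6 * X ^ 3 + 5 * X ^ 2 + 4 * X + 4) * two_eq_zero_poly
  · simp only [manV2]
    linear_combination (-X ^ 3) * two_eq_zero_poly
  · linear_combination (X ^ 3 + X ^ 2 + X) * two_eq_zero_poly
  · compute_degree!
  · compute_degree
    all_goals norm_num

theorem card_10001 : (⟨1, 0, 0, 0, 1⟩ : WeierstrassCurve (ZMod 2)).card = 4 :=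
  card_eq_of_count _ (by decide) 3 (by decide)

theorem redData_10001 : Nonempty (RedData (manU2 (⟨1, 0, 0, 0, 1⟩ : WeierstrassCurve (ZMod 2))) manV2 4) := by
  refine ⟨⟨X, X ^ 4 + X ^ 2 + 1, X ^ 3 + X, ?_, ?_, ⟨1, X, ?_⟩, ?_, ?_⟩⟩
  · simp only [manU2, map_one, map_zero]
    linear_combination (X ^ 6 + 2 * X ^ 5 + 4 * X ^ 4 + 2 * X ^ 3 + 2 * X ^ 2 + 2 * X + 1) * two_eq_zero_poly
  · simp only [manV2]
    linear_combination (-X ^ 3) * two_eq_zero_poly
  · linear_combination (X ^ 4 + X ^ 2) * two_eq_zero_poly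
  · compute_degree!
  · compute_degree
    all_goals norm_num

theorem card_10010 : (⟨1, 0, 0, 1, 0⟩ : WeierstrassCurve (ZMod 2)).card = 4 :=
  card_eq_of_count _ (by decide) 3 (by decide)

theorem redData_10010 : Nonempty (RedData (manU2 (⟨1, 0, 0, 1, 0⟩ : WeierstrassCurve (ZMod 2))) manV2 4) := by
  refine ⟨⟨X, X ^ 4 + X ^ 2 + 1, X ^ 3 + X, ?_, ?_, ⟨1, X, ?_⟩, ?_, ?_⟩⟩
  · simp only [manU2, map_one, map_zero]
    linear_combination (X ^ 6 + 2 * X ^ 5 + 5 * X ^ 4 + 2 * X ^ 3 + 4 * X ^ 2) * two_eq_zero_poly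
  · simp only [manV2]
    linear_combination (-X ^ 3) * two_eq_zero_poly
  · linear_combination (X ^ 4 + X ^ 2) * two_eq_zero_poly
  · compute_degree!
  · compute_degree
    all_goals norm_num

theorem card_10101 : (⟨1, 0, 1, 0, 1⟩ : WeierstrassCurve (ZMod 2)).card = 2 :=
  card_eq_of_count _ (by decide) 1 (by decide)

theorem redData_10101 : Nonempty (RedData (manU2 (⟨1, 0, 1, 0, 1⟩ : WeierstrassCurve (ZMod 2))) manV2 2) := by
  refine ⟨⟨X ^ 3 + X ^ 2, X ^ 2 + X + 1, X + 1, ?_, ?_, ⟨1, X, ?_⟩, ?_, ?_⟩⟩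
  · simp only [manU2, map_one, map_zero]
    linear_combination (X ^ 6 + 2 * X ^ 5 + 4 * X ^ 4 + 4 * X ^ 3 + 2 * X ^ 2 + 5 * X + 4) * two_eq_zero_poly
  · simp only [manV2]
    linear_combination (-2 * X ^ 3) * two_eq_zero_poly
  · linear_combination (X ^ 2 + X) * two_eq_zero_poly
  · compute_degree!
  · compute_degree
    all_goals norm_num

theorem card_10111 : (⟨1, 0, 1, 1, 1⟩ : WeierstrassCurve (ZMod 2)).card = 2 :=
  card_eq_of_count _ (by decide) 1 (by decide)

theorem redData_10111 : Nonempty (RedData (manU2 (⟨1, 0, 1, 1, 1⟩ : WeierstrassCurve (ZMod 2))) manV2 2) := by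
  refine ⟨⟨X ^ 3 + X ^ 2, X ^ 2 + X + 1, X + 1, ?_, ?_, ⟨1, X, ?_⟩, ?_, ?_⟩⟩
  · simp only [manU2, map_one, map_zero]
    linear_combination (X ^ 6 + 2 * X ^ 5 + 5 * X ^ 4 + 5 * X ^ 3 + 6 * X ^ 2 + 9 * X + 4) * two_eq_zero_poly
  · simp only [manV2]
    linear_combination (-2 * X ^ 3) * two_eq_zero_poly
  · linear_combination (X ^ 2 + X) * two_eq_zero_poly
  · compute_degree!
  · compute_degree
    all_goals norm_num

theorem card_11001 : (⟨1, 1, 0, 0, 1⟩ : WeierstrassCurve (ZMod 2)).card = 2 :=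
  card_eq_of_count _ (by decide) 1 (by decide)

theorem redData_11001 : Nonempty (RedData (manU2 (⟨1, 1, 0, 0, 1⟩ : WeierstrassCurve (ZMod 2))) manV2 2) := by
  refine ⟨⟨X ^ 3 + X, X ^ 2 + 1, X, ?_, ?_, ⟨1, X, ?_⟩, ?_, ?_⟩⟩
  · simp only [manU2, map_one, map_zero]
    linear_combination (X ^ 6 + 3 * X ^ 5 + 6 * X ^ 4 + 5 * X ^ 3 + 4 * X ^ 2 + 2 * X + 1) * two_eq_zero_poly
  · simp only [manV2]
    linear_combination (-X ^ 3) * two_eq_zero_poly
  · linear_combination (X ^ 2) * two_eq_zero_poly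
  · compute_degree!
  · compute_degree
    all_goals norm_num

theorem card_11010 : (⟨1, 1, 0, 1, 0⟩ : WeierstrassCurve (ZMod 2)).card = 2 :=
  card_eq_of_count _ (by decide) 1 (by decide)

theorem redData_11010 : Nonempty (RedData (manU2 (⟨1, 1, 0, 1, 0⟩ : WeierstrassCurve (ZMod 2))) manV2 2) := by
  refine ⟨⟨X ^ 3 + X, X ^ 2 + 1, X, ?_, ?_, ⟨1, X, ?_⟩, ?_, ?_⟩⟩
  · simp only [manU2, map_one, map_zero]
    linear_combination (X ^ 6 + 3 * X ^ 5 + 7 * X ^ 4 + 6 * X ^ 3 + 5 * X ^ 2) * two_eq_zero_poly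
  · simp only [manV2]
    linear_combination (-X ^ 3) * two_eq_zero_poly
  · linear_combination (X ^ 2) * two_eq_zero_poly
  · compute_degree!
  · compute_degree
    all_goals norm_num

theorem card_11100 : (⟨1, 1, 1, 0, 0⟩ : WeierstrassCurve (ZMod 2)).card = 4 :=
  card_eq_of_count _ (by decide) 3 (by decide)

theorem redData_11100 : Nonempty (RedData (manU2 (⟨1, 1, 1, 0, 0⟩ : WeierstrassCurve (ZMod 2))) manV2 4) := by
  refine ⟨⟨X + 1, X ^ 4 + X ^ 3 + 1, X ^ 3 + X ^ 2, ?_, ?_, ⟨1, X, ?_⟩, ?_, ?_⟩⟩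
  · simp only [manU2, map_one, map_zero]
    linear_combination (X ^ 6 + 3 * X ^ 5 + 6 * X ^ 4 + 8 * X ^ 3 + 5 * X ^ 2 + X) * two_eq_zero_poly
  · simp only [manV2]
    linear_combination (-2 * X ^ 3) * two_eq_zero_poly
  · linear_combination (X ^ 4 + X ^ 3) * two_eq_zero_poly
  · compute_degree!
  · compute_degree
    all_goals norm_num

theorem card_11110 : (⟨1, 1, 1, 1, 0⟩ : WeierstrassCurve (ZMod 2)).card = 4 :=
  card_eq_of_count _ (by decide) 3 (by decide)

theorem redData_11110 : Nonempty (RedData (manU2 (⟨1, 1, 1, 1, 0⟩ : WeierstrassCurve (ZMod 2))) manV2 4) := by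
  refine ⟨⟨X + 1, X ^ 4 + X ^ 3 + 1, X ^ 3 + X ^ 2, ?_, ?_, ⟨1, X, ?_⟩, ?_, ?_⟩⟩
  · simp only [manU2, map_one, map_zero]
    linear_combination (X ^ 6 + 3 * X ^ 5 + 7 * X ^ 4 + 10 * X ^ 3 + 9 * X ^ 2 + 4 * X) * two_eq_zero_poly
  · simp only [manV2]
    linear_combination (-2 * X ^ 3) * two_eq_zero_poly
  · linear_combination (X ^ 4 + X ^ 3) * two_eq_zero_poly
  · compute_degree!
  · compute_degree
    all_goals norm_num

end Fermat.Agent.Lib.Frob.Small

end
-- ===== PACK-END Lib/Frob/Small/TwoData.lean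

-- ===== PACK-BEGIN S18/Mod/H216/PartVj.lean
section


/-!
# S18 / MOD (helper216): G-V for the coordinate `j` — the fields that need no basis

For a uniformiser `w` (`PartR (Ec M E) (Rc M A E) w`):
`R_le_V`, `w_inv_not_mem_V`, `V_gen`, `gauss` for `V = Vc M A E`, `x = jOm M`.
(`V_total` needs the S28 basis: see `Basis.lean`.)
-/

set_option autoImplicit false
set_option linter.unusedSectionVars false

noncomputable section

namespace Fermat.Agent.S18.Mod.H216

open ModularCurve AlgebraicCurve HahnSeries Polynomial Fermat.Agent.S18 Fermat.Agent.S18.Mod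

variable (M : ℕ) (A : ValuationSubring Qb) (E : IntermediateField ℚ Qb)

/-! ### Units and non-units of `A` -/

theorem residue_eq_zero_of_inv_not_mem {c : Qb} (hc : c ∈ A) (hinv : c⁻¹ ∉ A) :
    IsLocalRing.residue ↥A ⟨c, hc⟩ = 0 := by
  rw [IsLocalRing.residue_eq_zero_iff, IsLocalRing.mem_maximalIdeal, mem_nonunits_iff]
  rintro ⟨u, hu⟩
  apply hinv
  have h1 : (⟨c, hc⟩ : ↥A) * ((u⁻¹ : (↥A)ˣ) : ↥A) = 1 := by
    rw [← hu]
    exact u.mul_inv
  have h2 : c * ((((u⁻¹ : (↥A)ˣ) : ↥A) : Qb)) = 1 := congrArg Subtype.val h1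
  have h3 : c⁻¹ = ((((u⁻¹ : (↥A)ˣ) : ↥A) : Qb)) := inv_eq_of_mul_eq_one_right h2
  rw [h3]
  exact SetLike.coe_mem _

theorem residue_ne_zero_of_inv_mem {c : Qb} (hc : c ∈ A) (hc0 : c ≠ 0) (hinv : c⁻¹ ∈ A) :
    IsLocalRing.residue ↥A ⟨c, hc⟩ ≠ 0 := by
  rw [Ne, IsLocalRing.residue_eq_zero_iff, IsLocalRing.mem_maximalIdeal, mem_nonunits_iff, not_not]
  exact IsUnit.of_mul_eq_one (⟨c⁻¹, hinv⟩ : ↥A) (Subtype.ext (mul_inv_cancel₀ hc0))

theorem inv_not_mem_of_residue_eq_zero {c : Qb} (hc : c ∈ A) (hc0 : c ≠ 0)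
    (h : IsLocalRing.residue ↥A ⟨c, hc⟩ = 0) : c⁻¹ ∉ A :=
  fun hinv => residue_ne_zero_of_inv_mem A hc hc0 hinv h

/-! ### Constants -/

theorem algebraMap_mem_Rc_iff {c : Qb} : algebraMap Qb (Om M) c ∈ Rc M A E ↔ c ∈ A ∧ c ∈ E := by
  constructor
  · intro h
    obtain ⟨c', hA, hE, hcc⟩ := (mem_Rc_iff M A E).mp h
    have : c' = c := (algebraMap Qb (Om M)).injective hcc
    exact this ▸ ⟨hA, hE⟩
  · rintro ⟨hA, hE⟩
    exact (mem_Rc_iff M A E).mpr ⟨c, hA, hE, rfl⟩

/-- The uniformiser data extracted from `PartR`. -/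
theorem exists_unif {w : Om M} (hR : PartR (Ec M E) (Rc M A E) w) :
    ∃ c : Qb, c ∈ A ∧ c ∈ E ∧ c ≠ 0 ∧ c⁻¹ ∉ A ∧ algebraMap Qb (Om M) c = w := by
  obtain ⟨c, hA, hE, rfl⟩ := (mem_Rc_iff M A E).mp hR.w_mem
  refine ⟨c, hA, hE, ?_, ?_, rfl⟩
  · intro h0
    apply hR.w_ne_zero
    rw [h0, map_zero]
  · intro hinv
    apply hR.w_inv_not_mem
    rw [← map_inv₀]
    exact (algebraMap_mem_Rc_iff M A E).mpr ⟨hinv, inv_mem hE⟩

theorem R_le_V : Rc M A E ≤ Vc M A E := by
  intro r hr
  obtain ⟨c, hA, hE, rfl⟩ := (mem_Rc_iff M A E).mp hr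
  rw [← toOm_cInt M A E hA hE]
  exact toOm_mem_Vc M A E _

theorem w_inv_not_mem_V {w : Om M} (hR : PartR (Ec M E) (Rc M A E) w) : w⁻¹ ∉ Vc M A E := by
  obtain ⟨c, hA, hE, hc0, hcinv, rfl⟩ := exists_unif M A E hR
  intro h
  obtain ⟨U₁, U₂, hne, heq⟩ := (mem_Vc_iff' M A E).mp h
  have hw0 : algebraMap Qb (Om M) c ≠ 0 := hR.w_ne_zero
  have h1 : toOm M A E U₂ = toOm M A E (cInt M A E hA hE * U₁) := by
    rw [map_mul, toOm_cInt, ← heq, ← mul_assoc, mul_inv_cancel₀ hw0, one_mul]
  have h2 : U₂ = cInt M A E hA hE * U₁ := toOm_injective M A E h1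
  apply hne
  rw [h2, map_mul, redE_cInt, residue_eq_zero_of_inv_not_mem A hA hcinv, map_zero, zero_mul]

/-! ### Division of a series by the uniformiser -/

open Classical in
/-- Coefficientwise division by `c` (junk value `0` when the quotient is not in `A`). -/
def divC (c : Qb) : ZeroHom ↥A ↥A where
  toFun a := if h : (a : Qb) * c⁻¹ ∈ A then ⟨(a : Qb) * c⁻¹, h⟩ else 0
  map_zero' := by
    have h : ((0 : ↥A) : Qb) * c⁻¹ ∈ A := by simp
    rw [dif_pos h]
    apply Subtype.ext
    simp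

open Classical in
theorem divC_apply {c : Qb} {a : ↥A} (h : (a : Qb) * c⁻¹ ∈ A) :
    ((divC A c a : ↥A) : Qb) = (a : Qb) * c⁻¹ := by
  show ((if h : (a : Qb) * c⁻¹ ∈ A then (⟨(a : Qb) * c⁻¹, h⟩ : ↥A) else 0 : ↥A) : Qb) = _
  rw [dif_pos h]

theorem algebraMap_LS_eq_C (c : Qb) :
    algebraMap Qb (LaurentSeries Qb) c = HahnSeries.C c := by
  rw [algebraMap_laurentSeries_eq_single, ← HahnSeries.C_apply]

/-- A series with zero reduction is divisible by the uniformiser inside `intE`. -/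
theorem exists_eq_unif_mul {w : Om M} (hR : PartR (Ec M E) (Rc M A E) w)
    {U : ↥(intE M A E)} (hU : redE M A E U = 0) :
    ∃ U' : ↥(intE M A E), toOm M A E U = w * toOm M A E U' := by
  obtain ⟨c, hA, hE, hc0, hcinv, rfl⟩ := exists_unif M A E hR
  have hUE : ∀ n, (((U : LaurentSeries ↥A).coeff n : ↥A) : Qb) ∈ E :=
    ((mem_intE M A E).mp U.2).1
  have hres : ∀ n, IsLocalRing.residue ↥A ((U : LaurentSeries ↥A).coeff n) = 0 := by
    intro n
    have := congrArg (fun z : LaurentSeries (IsLocalRing.ResidueField ↥A) => z.coeff n) hU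
    simpa using this
  have hdiv : ∀ n, (((U : LaurentSeries ↥A).coeff n : ↥A) : Qb) * c⁻¹ ∈ A := by
    intro n
    set a := (U : LaurentSeries ↥A).coeff n with ha
    by_cases ha0 : (a : Qb) = 0
    · rw [ha0, zero_mul]
      exact zero_mem _
    have hr : algebraMap Qb (Om M) (a : Qb) ∈ Rc M A E :=
      (algebraMap_mem_Rc_iff M A E).mpr ⟨a.2, hUE n⟩
    have hrinv : (algebraMap Qb (Om M) (a : Qb))⁻¹ ∉ Rc M A E := by
      rw [← map_inv₀, algebraMap_mem_Rc_iff]
      rintro ⟨h, -⟩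
      exact inv_not_mem_of_residue_eq_zero A a.2 ha0 (hres n) h
    have := hR.w_gen _ hr hrinv
    rw [← map_inv₀, ← map_mul, algebraMap_mem_Rc_iff] at this
    exact this.1
  set U' : LaurentSeries ↥A := (U : LaurentSeries ↥A).map (divC A c) with hU'
  have hcoeff : ∀ n, ((U'.coeff n : ↥A) : Qb) = (((U : LaurentSeries ↥A).coeff n : ↥A) : Qb) * c⁻¹ :=
    fun n => divC_apply A (hdiv n)
  have hmul : inclA A (U : LaurentSeries ↥A) = HahnSeries.C c * inclA A U' := by
    ext n
    rw [HahnSeries.C_mul_eq_smul, HahnSeries.coeff_smul]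
    show (((U : LaurentSeries ↥A).coeff n : ↥A) : Qb) = c • ((U'.coeff n : ↥A) : Qb)
    rw [hcoeff, smul_eq_mul]
    field_simp
  have hw0 : algebraMap Qb (Om M) c ≠ 0 := hR.w_ne_zero
  have hincl : inclA A U' =
      (((algebraMap Qb (Om M) c)⁻¹ * toOm M A E U : Om M) : LaurentSeries Qb) := by
    have hC0 : (HahnSeries.C c : LaurentSeries Qb) ≠ 0 := by
      rw [← coe_algebraMap_Om M c]
      exact fun h => hw0 (Subtype.ext h)
    push_cast
    rw [algebraMap_LS_eq_C, coe_toOm, hmul, ← mul_assoc, inv_mul_cancel₀ hC0, one_mul]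
  have hmem : U' ∈ intE M A E := by
    rw [mem_intE]
    refine ⟨fun n => ?_, (algebraMap Qb (Om M) c)⁻¹ * toOm M A E U, ?_, hincl.symm⟩
    · rw [hcoeff]
      exact mul_mem (hUE n) (inv_mem hE)
    · exact mul_mem (inv_mem (Ec_le_Fc M E ((mem_Ec_iff M E).mpr ⟨c, hE, rfl⟩)))
        (toOm_mem_Fc M A E U)
  refine ⟨⟨U', hmem⟩, ?_⟩
  apply Subtype.ext
  push_cast
  rw [algebraMap_LS_eq_C, coe_toOm, coe_toOm]
  exact hmul

theorem V_gen {w : Om M} (hR : PartR (Ec M E) (Rc M A E) w) :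
    ∀ f ∈ Vc M A E, f⁻¹ ∉ Vc M A E → f * w⁻¹ ∈ Vc M A E := by
  intro f hf hfinv
  obtain ⟨U₁, U₂, hne, heq⟩ := (mem_Vc_iff' M A E).mp hf
  have hw0 := hR.w_ne_zero
  have h1 : redE M A E U₁ = 0 := by
    by_contra h1
    apply hfinv
    have hU1 := toOm_ne_zero_of_redE M A E h1
    have hf0 : f ≠ 0 := by
      intro h0
      rw [h0, zero_mul] at heq
      exact hU1 heq.symm
    refine (mem_Vc_iff' M A E).mpr ⟨U₂, U₁, h1, ?_⟩
    rw [← heq, ← mul_assoc, inv_mul_cancel₀ hf0, one_mul]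
  obtain ⟨U', hU'⟩ := exists_eq_unif_mul M A E hR h1
  refine (mem_Vc_iff' M A E).mpr ⟨U', U₂, hne, ?_⟩
  rw [mul_right_comm, heq, hU', mul_comm w, mul_assoc, mul_inv_cancel₀ hw0, mul_one]

/-! ### The Gauss property -/

theorem gauss_j (P : Polynomial (Om M)) (hP : ∀ i, P.coeff i ∈ Rc M A E)
    (hu : ∃ i, P.coeff i ≠ 0 ∧ (P.coeff i)⁻¹ ∈ Rc M A E) :
    (P.eval (jOm M))⁻¹ ∈ Vc M A E := by
  have hlifts : P ∈ Polynomial.lifts (Rc M A E).subtype :=
    (Polynomial.lifts_iff_coeff_lifts P).mpr fun i => ⟨⟨P.coeff i, hP i⟩, rfl⟩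
  obtain ⟨p, hp⟩ := (Polynomial.mem_lifts P).mp hlifts
  have hev : P.eval (jOm M) = evR (Rc M A E) (jOm M) p := by
    rw [← hp, evR_apply, Polynomial.eval_map]
  rw [hev, evR_eq_toOm_Uev]
  apply inv_toOm_mem_Vc
  rw [Ne, redE_Uev_eq_zero_iff]
  obtain ⟨i, hi0, hiinv⟩ := hu
  intro h0
  have h1 := congrArg (fun q => q.coeff i) h0
  simp only [Polynomial.coeff_map, Polynomial.coeff_zero] at h1
  set c := (eRc M A E).symm (p.coeff i) with hc
  have hcP : algebraMap Qb (Om M) (c : Qb) = P.coeff i := by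
    have h2 : ((eRc M A E c : ↥(Rc M A E)) : Om M) = ((p.coeff i : ↥(Rc M A E)) : Om M) := by
      rw [hc, RingEquiv.apply_symm_apply]
    rw [coe_eRc] at h2
    rw [h2, ← hp, Polynomial.coeff_map]
    rfl
  have hc0 : (c : Qb) ≠ 0 := by
    intro h
    apply hi0
    rw [← hcP, h, map_zero]
  have hcinv : (c : Qb)⁻¹ ∈ A := by
    rw [← hcP, ← map_inv₀, algebraMap_mem_Rc_iff] at hiinv
    exact hiinv.1
  exact residue_ne_zero_of_inv_mem A c.2.1 hc0 hcinv h1

end Fermat.Agent.S18.Mod.H216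

end
end
-- ===== PACK-END S18/Mod/H216/PartVj.lean

-- ===== PACK-BEGIN S18/B12/H33/CoreMain.lean
section



/-!
# S18 b2.5 (helper33): `B2CoreAbsStatement` from the assembly pieces A0, A2, A2', A3, A4, A5, A5'
-/

set_option autoImplicit false

noncomputable section

namespace Fermat.Agent.S18.B12.H33

open Polynomial

universe u v

theorem b2CoreAbs_of_pieces
    (hA0 : RegSeqAbsStatement.{u, v}) (hA2 : LocalBasisStatement.{u, v})
    (hA2' : LocalBasisRankStatement.{u, v}) (hA3 : DiscrRedStatement.{u, v})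
    (hA4 : UFDStepStatement.{u}) (hA5 : GenericDiscrStatement.{u, v})
    (hA5' : RedBasisAbsStatement.{u, v}) : B2CoreAbsStatement.{u, v} := by
  intro P _ _ _ _ w hw hΛ hΛ₀ hℚ B _ _ _ _ _ _ hsep S hS1 hS2 hNC t ht n bb
  haveI := hΛ
  haveI hdomΛ : IsDomain (P ⧸ Ideal.span {w}) := by
    rw [Ideal.Quotient.isDomain_iff_prime]
    exact (Ideal.span_singleton_prime hw.ne_zero).mpr hw
  have hmkw : Ideal.Quotient.mk (Ideal.span {w}) w = 0 :=
    Ideal.Quotient.eq_zero_iff_mem.mpr (Ideal.mem_span_singleton_self w)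
  obtain ⟨p, hp⟩ := Ideal.Quotient.mk_surjective t
  -- the closed point
  have htmax : (Ideal.span {t}).IsMaximal :=
    PrincipalIdealRing.isMaximal_of_irreducible ht.irreducible
  have h𝔪p : (Ideal.span {w, p}).IsMaximal := by
    rw [span_pair_eq_comap, hp]
    exact Ideal.comap_isMaximal_of_surjective _ Ideal.Quotient.mk_surjective
  -- choice of the second generator `q`
  obtain ⟨q, hq𝔪, hqcase⟩ : ∃ q, Ideal.span {w, q} = Ideal.span {w, p} ∧
      (q ∈ S ∨ ∀ s ∈ S, s ∉ Ideal.span {w, p}) := by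
    by_cases h : ∃ s ∈ S, s ∈ Ideal.span {w, p}
    · obtain ⟨s, hs, hs𝔪⟩ := h
      refine ⟨s, ?_, Or.inl hs⟩
      have hmax := (hS1 s hs).2.2.1
      refine hmax.eq_of_le h𝔪p.ne_top ?_
      rw [Ideal.span_le]
      intro z hz
      rcases hz with rfl | hz
      · exact Ideal.subset_span (by simp)
      · rw [Set.mem_singleton_iff] at hz; subst hz; exact hs𝔪
    · push_neg at h
      exact ⟨p, rfl, Or.inr h⟩
  have h𝔪max : (Ideal.span {w, q}).IsMaximal := hq𝔪 ▸ h𝔪p
  haveI h𝔪prime : (Ideal.span {w, q}).IsPrime := h𝔪max.isPrime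
  have hw𝔪 : w ∈ Ideal.span {w, q} := Ideal.subset_span (by simp)
  -- `mk q` is associated to `t`
  have hqt : Associated (Ideal.Quotient.mk (Ideal.span {w}) q) t := by
    rw [← Ideal.span_singleton_eq_span_singleton]
    ext b
    obtain ⟨a, rfl⟩ := Ideal.Quotient.mk_surjective b
    rw [Ideal.mem_span_singleton, Ideal.mem_span_singleton, ← mem_span_pair_iff_mk_dvd, hq𝔪,
      mem_span_pair_iff_mk_dvd, hp]
  have hmkq_prime : Prime (Ideal.Quotient.mk (Ideal.span {w}) q) := hqt.symm.prime ht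
  have hwq : ¬ w ∣ q := by
    intro h
    apply hmkq_prime.ne_zero
    exact Ideal.Quotient.eq_zero_iff_mem.mpr (Ideal.mem_span_singleton.mpr h)
  -- local basis
  haveI : Algebra.IsIntegral P B := inferInstance
  have hreg := hA0 P B q w hw hwq
  obtain ⟨n₀, x, hx⟩ := hA2 P B w q h𝔪max hreg
  obtain ⟨hn₀, hgram⟩ := hA2' P B (Ideal.span {w, q}) n₀ x hx
  obtain ⟨hn, u, hu, hD⟩ := hA3 P B w hw (Ideal.span {w, q}) hw𝔪 n₀ x hx n bb
  subst hn
  -- `w ∤ D`
  have hwD : ¬ w ∣ intDiscr P B x := by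
    obtain ⟨x', hx'⟩ := hsep
    subst hn₀
    obtain ⟨g, v, hg, hgv⟩ := hgram x'
    intro hdvd
    have h1 : w ∣ g ^ 2 * intDiscr P B x' := by
      rw [hgv]; exact Dvd.dvd.mul_left hdvd _
    rcases hw.dvd_or_dvd h1 with h2 | h2
    · exact hg (Ideal.mem_of_dvd _ (hw.dvd_of_dvd_pow h2) hw𝔪)
    · exact hx' h2
  have hD0 : intDiscr P B x ≠ 0 := fun h => hwD (h ▸ dvd_zero w)
  have hmkD0 : Ideal.Quotient.mk (Ideal.span {w}) (intDiscr P B x) ≠ 0 := by
    intro h
    exact hwD (Ideal.mem_span_singleton.mp (Ideal.Quotient.eq_zero_iff_mem.mp h))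
  have hdisc0 : Algebra.discr (P ⧸ Ideal.span {w}) bb ≠ 0 := by
    intro h
    rw [h, mul_zero] at hD
    exact hmkD0 hD
  refine ⟨hdisc0, ?_⟩
  have hmku : ¬ t ∣ Ideal.Quotient.mk (Ideal.span {w}) u := by
    intro h
    apply hu
    rw [mem_span_pair_iff_mk_dvd]
    exact hqt.dvd.trans h
  -- unramified primes through the closed point do not divide `D`
  have hunram : ∀ π : P, Prime π → π ∈ Ideal.span {w, q} → ¬ Associated π w →
      (∀ s ∈ S, ¬ Associated π s) → ¬ π ∣ intDiscr P B x := by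
    intro π hπ hπ𝔪 hπw hπS
    have hrad := hNC π hπ hπw hπS
    have hxπ : IsLocalBasis P B (Ideal.span {π}) n x :=
      IsLocalBasis.mono ((Ideal.span_singleton_le_iff_mem _).mpr hπ𝔪) hx
    have := hA5 P w hw hΛ₀ hℚ B π hπ hπw n x hxπ n x
      (fun a ha i => IsLocalBasis.dvd_coeff hx hπ hπ𝔪 a (hrad.radical ▸ ha) i)
    simpa using this
  rcases hqcase with hqS | hnoS
  · -- Case 1: the closed point is a branch point `q ∈ S`
    obtain ⟨hqprime, hqw, -, hqPID⟩ := hS1 q hqS
    obtain ⟨a, D₁, hDeq, hD₁⟩ := hA4 P (Ideal.span {w, q}) q hqprime (intDiscr P B x) hD0 (by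
      intro π hπ hπD hπ𝔪
      by_contra hne
      refine hunram π hπ hπ𝔪 ?_ ?_ hπD
      · intro hπw
        exact hwD (hπw.symm.dvd.trans hπD)
      · intro s hs hπs
        have hs𝔪 : s ∈ Ideal.span {w, q} := Ideal.mem_of_dvd _ hπs.dvd hπ𝔪
        by_cases hsq : q = s
        · subst hsq; exact hne hπs
        · exact hS2 q hqS s hs hsq hs𝔪)
    obtain ⟨r, y, hyi, hys⟩ := hA5' P B q hqprime hqPID
    have hxq : IsLocalBasis P B (Ideal.span {q}) n x :=
      IsLocalBasis.mono ((Ideal.span_singleton_le_iff_mem _).mpr (Ideal.subset_span (by simp))) hx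
    have hnd := hA5 P w hw hΛ₀ hℚ B q hqprime hqw n x hxq r y hyi
    have ha : a < n - r + 1 := by
      by_contra hcon
      push_neg at hcon
      apply hnd
      rw [hDeq]
      exact Dvd.dvd.mul_right (pow_dvd_pow q hcon) _
    refine ⟨r, fun i => Ideal.Quotient.mk _ (y i), ?_, ?_⟩
    · intro c
      obtain ⟨c, rfl⟩ := Ideal.Quotient.mk_surjective c
      obtain ⟨a', ha'⟩ := hys c
      refine ⟨fun i => Ideal.Quotient.mk _ (a' i), ?_⟩
      refine mk_sub_sum_mem_radical w y q t hqt c a' ?_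
      refine Ideal.radical_mono ?_ ha'
      rw [Ideal.span_le]
      intro z hz
      rw [Set.mem_singleton_iff] at hz; subst hz
      exact Ideal.subset_span (by simp)
    · intro hdvd
      have h1 : Ideal.Quotient.mk (Ideal.span {w}) q ^ (n - r + 1) ∣
          Ideal.Quotient.mk (Ideal.span {w}) (intDiscr P B x) := by
        rw [hD]
        exact Dvd.dvd.mul_left ((hqt.pow_pow.dvd).trans hdvd) _
      rw [hDeq, map_mul, map_pow] at h1
      have h2 : Ideal.Quotient.mk (Ideal.span {w}) q ^ (a + 1) ∣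
          Ideal.Quotient.mk (Ideal.span {w}) q ^ a * Ideal.Quotient.mk (Ideal.span {w}) D₁ :=
        (pow_dvd_pow _ (by omega)).trans h1
      rw [pow_succ, mul_dvd_mul_iff_left (pow_ne_zero _ hmkq_prime.ne_zero)] at h2
      exact hD₁ ((mem_span_pair_iff_mk_dvd w q D₁).mpr h2)
  · -- Case 2: no branch point at this closed point
    have hnoS' : ∀ s ∈ S, s ∉ Ideal.span {w, q} := hq𝔪 ▸ hnoS
    obtain ⟨a, D₁, hDeq, hD₁⟩ := hA4 P (Ideal.span {w, q}) w hw (intDiscr P B x) hD0 (by
      intro π hπ hπD hπ𝔪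
      by_contra hne
      refine hunram π hπ hπ𝔪 hne ?_ hπD
      intro s hs hπs
      exact hnoS' s hs (Ideal.mem_of_dvd _ hπs.dvd hπ𝔪))
    have ha0 : a = 0 := by
      by_contra h
      apply hwD
      rw [hDeq]
      exact Dvd.dvd.mul_right (dvd_pow_self w h) _
    subst ha0
    rw [pow_zero, one_mul] at hDeq
    obtain ⟨hli, g, hg, hsp⟩ := hx
    -- inverse of `g` modulo the maximal ideal
    obtain ⟨g', hg'⟩ : ∃ g', g * g' - 1 ∈ Ideal.span {w, q} := by
      have := h𝔪max.exists_inv hg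
      obtain ⟨g', m, hm, hgm⟩ := this
      refine ⟨g', ?_⟩
      have : g * g' - 1 = -m := by linear_combination hgm
      rw [this]; exact neg_mem hm
    refine ⟨n, fun i => Ideal.Quotient.mk _ (x i), ?_, ?_⟩
    · intro c
      obtain ⟨c, rfl⟩ := Ideal.Quotient.mk_surjective c
      have hgc := hsp c
      rw [Submodule.mem_span_range_iff_exists_fun] at hgc
      obtain ⟨cf, hcf⟩ := hgc
      refine ⟨fun i => Ideal.Quotient.mk _ (g' * cf i), ?_⟩
      refine mk_sub_sum_mem_radical w x q t hqt c (fun i => g' * cf i) ?_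
      apply Ideal.le_radical
      have e : c - ∑ i, (g' * cf i) • x i = algebraMap P B (-(g * g' - 1)) * c := by
        have : ∑ i, (g' * cf i) • x i = g' • (g • c) := by
          rw [← hcf, Finset.smul_sum]
          exact Finset.sum_congr rfl fun i _ => by rw [mul_smul]
        rw [this, Algebra.smul_def, Algebra.smul_def, map_neg, map_sub, map_mul, map_one]
        ring
      rw [e]
      refine Ideal.mul_mem_right _ _ ?_
      have hmap : Ideal.map (algebraMap P B) (Ideal.span {w, q})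
          = Ideal.span {algebraMap P B w, algebraMap P B q} := by
        rw [Ideal.map_span]; congr 1; simp [Set.image_pair]
      rw [← hmap]
      exact Ideal.mem_map_of_mem _ (neg_mem hg')
    · intro hdvd
      have hnn : n - n + 1 = 1 := by omega
      rw [hnn, pow_one] at hdvd
      have h1 : t ∣ Ideal.Quotient.mk (Ideal.span {w}) (intDiscr P B x) := by
        rw [hD]; exact Dvd.dvd.mul_left hdvd _
      apply hD₁
      rw [← hDeq, mem_span_pair_iff_mk_dvd]
      exact hqt.dvd.trans h1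

end Fermat.Agent.S18.B12.H33

end
end
-- ===== PACK-END S18/B12/H33/CoreMain.lean

-- ===== PACK-BEGIN S18/H394/KummerCharts.lean
section






/-!
# S18, Route K (helper394): the Kummer endgame on the charts of the `x`-line model

Typed core of `node_alg`.  Setting (as in `H138/Connected.lean`): `R` a noetherian local domain
with `R[X]` integrally closed (e.g. a DVR), `F` a field of characteristic `0` containing `R`,
`x ∈ F` transcendental over `R`, `F` finite over `baseField R x`, `R` integrally closed in `F`;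
charts `B₀ = chart R {x}`, `B₁ = chart R {x⁻¹}`, `M = chart R {x, x⁻¹}` (integral closures of
`R[x]`, `R[x⁻¹]`, `R[x, x⁻¹]` in `F`), `w ∈ R` a non-unit, `m` invertible in `R`.

* `kummer_charts`: the hypotheses `hrc`, `hloc`, `hint`, `hfin`, `hden`, `hw1` of
  `H394.kummer_endgame` are discharged for the charts; conclusion: `u` does NOT have exact order
  `m` modulo `Frac(R)ˣ (Fˣ)^m`.
* `kummer_charts_prime`: for `m` prime, `u = r ^ a * y ^ m` with `r ∈ R`, `a ∈ ℤ`, `y ∈ F`.
* `kummer_charts_of_regular`: the same from the chartwise hypotheses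
  `Prime w`, `H754.RegularAlong w` (b2), `H754.OneModPi w u`, `H754.DivisibleDivisor B m u`
  (via `H214.local_existence`; the saturation hypothesis `hsat` is proved here).
-/

set_option autoImplicit false
set_option linter.style.haveILetI false

namespace Fermat.Agent.S18.H394

open Polynomial
open Fermat.Agent.S18.H138 (chart baseField)

section Basic

variable {R : Type*} [CommRing R] {F : Type*} [Field F] [Algebra R F]

theorem rootClosed_chart (S : Set F) {m : ℕ} (hm : 0 < m) : RootClosed m (chart R S) := by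
  intro f hf
  rw [H138.mem_chart] at hf ⊢
  exact IsIntegral.of_pow hm hf

theorem chart_inv_pair (x : F) :
    chart R ({x⁻¹, x⁻¹⁻¹} : Set F) = chart R ({x, x⁻¹} : Set F) := by
  rw [inv_inv, Set.pair_comm]

theorem subalgebra_dvd_iff (B : Subalgebra R F) (w : R) (s : B) :
    algebraMap R B w ∣ s ↔ ∃ c ∈ B, (s : F) = algebraMap R F w * c := by
  constructor
  · rintro ⟨c, hc⟩
    exact ⟨c, c.2, by rw [hc]; rfl⟩
  · rintro ⟨c, hc, h⟩
    exact ⟨⟨c, hc⟩, Subtype.ext h⟩

/-- Elementary unmixedness inside the fraction field. -/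
theorem mem_of_mul_mem_of_prime (B : Subalgebra R F) (w : R)
    (hw : Prime (algebraMap R B w)) (s : B) (hs : ¬ algebraMap R B w ∣ s) (g : F)
    (h1 : algebraMap R F w * g ∈ B) (h2 : (s : F) * g ∈ B) : g ∈ B := by
  have hw0 : algebraMap R F w ≠ 0 := by
    intro h
    apply hw.ne_zero
    exact Subtype.ext h
  have hdvd : algebraMap R B w ∣ s * ⟨_, h1⟩ := by
    refine ⟨⟨_, h2⟩, Subtype.ext ?_⟩
    change (s : F) * (algebraMap R F w * g) = algebraMap R F w * ((s : F) * g)
    ring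
  rcases hw.dvd_or_dvd hdvd with h | h
  · exact absurd h hs
  · obtain ⟨c, hc, h3⟩ := (subalgebra_dvd_iff B w _).mp h
    have : g = c := mul_left_cancel₀ hw0 h3
    rw [this]; exact hc

end Basic

section Charts

variable {R : Type*} [CommRing R] {F : Type*} [Field F] [Algebra R F]
variable [IsNoetherianRing R] [IsIntegrallyClosed R[X]] [CharZero F]

/-- Finite generation of the chart in the form used by `kummer_endgame`. -/
theorem exists_finset_gens {x : F} (hx : Transcendental R x)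
    [FiniteDimensional (baseField R x) F] :
    ∃ s : Finset F, ∀ b ∈ chart R ({x} : Set F), ∃ P : F → R[X],
      b = ∑ β ∈ s, aeval x (P β) * β := by
  classical
  obtain ⟨n, bs, -, hgen⟩ := H138.exists_finite_gens (R := R) hx
  refine ⟨Finset.univ.image bs, fun b hb => ?_⟩
  have key : ∀ z ∈ Submodule.span R {z : F | ∃ (j : ℕ) (i : Fin n), z = x ^ j * bs i},
      ∃ P : F → R[X], z = ∑ β ∈ Finset.univ.image bs, aeval x (P β) * β := by
    intro z hz
    induction hz using Submodule.span_induction with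
    | mem z hz =>
      obtain ⟨j, i, rfl⟩ := hz
      refine ⟨fun β => if β = bs i then X ^ j else 0, ?_⟩
      rw [Finset.sum_eq_single (bs i)]
      · simp
      · intro β _ hβ
        simp [hβ]
      · intro h
        exact absurd (Finset.mem_image_of_mem bs (Finset.mem_univ i)) h
    | zero => exact ⟨fun _ => 0, by simp⟩
    | add y z _ _ hy hz =>
      obtain ⟨P, hP⟩ := hy
      obtain ⟨Q, hQ⟩ := hz
      refine ⟨fun β => P β + Q β, ?_⟩
      rw [hP, hQ, ← Finset.sum_add_distrib]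
      refine Finset.sum_congr rfl fun β _ => ?_
      rw [map_add, add_mul]
    | smul r z _ hz =>
      obtain ⟨P, hP⟩ := hz
      refine ⟨fun β => C r * P β, ?_⟩
      rw [hP, Finset.smul_sum]
      refine Finset.sum_congr rfl fun β _ => ?_
      rw [map_mul, aeval_C, Algebra.smul_def, mul_assoc]
  exact key b (hgen b hb)

/-- Every element of `F` has a denominator in the chart. -/
theorem exists_den {x : F} (hx : Transcendental R x) [FiniteDimensional (baseField R x) F]
    (z : F) : ∃ d ∈ chart R ({x} : Set F), d ≠ 0 ∧ d * z ∈ chart R ({x} : Set F) := by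
  obtain ⟨-, -, hfr⟩ := chart_instances (R := R) hx
  obtain ⟨a, b, hb, hab⟩ := IsFractionRing.div_surjective (A := chart R ({x} : Set F)) z
  have hb0 : (b : F) ≠ 0 := by
    intro h
    exact nonZeroDivisors.ne_zero hb (Subtype.ext h)
  refine ⟨b, b.2, hb0, ?_⟩
  have : (b : F) * z = a := by
    rw [← hab]
    change (b : F) * ((a : F) / (b : F)) = a
    field_simp
  rw [this]
  exact a.2

/-- `C w ∣ Q` if `Q(x) ∈ w B₀`. -/
theorem dvd_coeff_of_aeval_eq_mul {x : F} (hx : Transcendental R x)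
    (hinjR : Function.Injective (algebraMap R F)) (w : R) (hw0 : w ≠ 0) (Q : R[X]) {t : F}
    (ht : t ∈ chart R ({x} : Set F)) (h : aeval x Q = algebraMap R F w * t) (n : ℕ) :
    w ∣ Q.coeff n := by
  have hwF : algebraMap R F w ≠ 0 := fun h0 => hw0 (hinjR (by rw [h0, map_zero]))
  haveI := H138.isIntegrallyClosed_adjoin_singleton (R := R) hx
  have htK : t ∈ baseField R x := by
    have : t = aeval x Q / algebraMap R F w := by
      rw [h, mul_div_cancel_left₀ _ hwF]
    rw [this]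
    refine (baseField R x).div_mem (H138.adjoin_le_baseField x ?_)
      (Subfield.subset_closure (Or.inl ⟨w, rfl⟩))
    exact H138.mem_adjoin_singleton_iff.2 ⟨Q, rfl⟩
  have htA : t ∈ Algebra.adjoin R ({x} : Set F) :=
    H138.mem_of_isIntegral_of_mem _ (baseField R x) (fun a ha => H138.adjoin_le_baseField x ha)
      (fun z hz => H138.exists_div_of_mem_baseField x hz) htK ht
  obtain ⟨P, rfl⟩ := H138.mem_adjoin_singleton_iff.1 htA
  have h3 : aeval x (Q - C w * P) = 0 := by
    rw [map_sub, map_mul, aeval_C, h, sub_self]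
  have h4 := (transcendental_iff.1 hx) _ h3
  have h5 : Q = C w * P := sub_eq_zero.1 h4
  refine ⟨P.coeff n, ?_⟩
  rw [h5, coeff_C_mul]

variable [IsLocalRing R]

/-- **The Kummer endgame on the charts.** -/
theorem kummer_charts
    (hinjR : Function.Injective (algebraMap R F))
    (hRF : ∀ y : F, IsIntegral R y → y ∈ Set.range (algebraMap R F))
    {x : F} (hx : Transcendental R x) [FiniteDimensional (baseField R x) F]
    (w : R) (hw : ¬ IsUnit w)
    (m : ℕ) (hm : 2 ≤ m) (ν : R) (hν : ν * (m : R) = 1)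
    (u : F) (hu : u ≠ 0) (σ₀ σ₁ : F)
    (h₀ : ∃ b ∈ chart R ({x} : Set F), σ₀ ^ m * u - 1 = algebraMap R F w * b)
    (h₁ : ∃ b ∈ chart R ({x⁻¹} : Set F), σ₁ ^ m * u - 1 = algebraMap R F w * b)
    (h₀₁ : ∃ γ : F, σ₀ - σ₁ = algebraMap R F w * γ ∧ γ ^ m * u ∈ chart R ({x, x⁻¹} : Set F)) :
    ∃ i : ℕ, 0 < i ∧ i < m ∧ ∃ f : F, f ≠ 0 ∧ ∃ r : R, f ^ m * u ^ i = algebraMap R F r := by
  by_contra hcon
  push Not at hcon
  have hx0 : x ≠ 0 := H138.ne_zero_of_transcendental hx
  have hm0 : 0 < m := by omega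
  refine kummer_endgame m hm ν hν w u hu (chart R ({x} : Set F)) (chart R ({x⁻¹} : Set F))
    (chart R ({x, x⁻¹} : Set F)) (rootClosed_chart _ hm0) (rootClosed_chart _ hm0)
    (rootClosed_chart _ hm0) x hx0 (H138.mem_chart_of_mem rfl) (H138.mem_chart_of_mem rfl)
    (H138.chart_mono (by simp)) (H138.chart_mono (by simp)) ?_ ?_ ?_ (exists_finset_gens hx) ?_ ?_
    (fun i hi him f hf r => hcon i hi him f hf r) σ₀ σ₁ h₀ h₁ h₀₁
  · intro y hy
    exact H138.exists_pow_mul_mem_chart hx0 hy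
  · intro y hy
    refine H138.exists_pow_mul_mem_chart (inv_ne_zero hx0) ?_
    rw [chart_inv_pair]
    exact hy
  · intro y hy0 hy1
    obtain ⟨r, hr⟩ := hRF y (H138.isIntegral_of_mem_chart_inter hx hy0 hy1)
    exact ⟨r, hr⟩
  · obtain ⟨d, hd, hd0, hdu⟩ := exists_den (R := R) hx u⁻¹
    exact ⟨d, hd, hd0, hdu⟩
  · intro b hb h
    apply hw
    have := H138.dvd_of_algebraMap_eq_mul hinjR hx w 1 hb (by rw [map_one, h])
    exact isUnit_of_dvd_one this

/-- For prime `m`: `u` is a constant times an `m`-th power. -/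
theorem kummer_charts_prime
    (hinjR : Function.Injective (algebraMap R F))
    (hRF : ∀ y : F, IsIntegral R y → y ∈ Set.range (algebraMap R F))
    {x : F} (hx : Transcendental R x) [FiniteDimensional (baseField R x) F]
    (w : R) (hw : ¬ IsUnit w)
    (m : ℕ) (hm : m.Prime) (ν : R) (hν : ν * (m : R) = 1)
    (u : F) (hu : u ≠ 0) (σ₀ σ₁ : F)
    (h₀ : ∃ b ∈ chart R ({x} : Set F), σ₀ ^ m * u - 1 = algebraMap R F w * b)
    (h₁ : ∃ b ∈ chart R ({x⁻¹} : Set F), σ₁ ^ m * u - 1 = algebraMap R F w * b)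
    (h₀₁ : ∃ γ : F, σ₀ - σ₁ = algebraMap R F w * γ ∧ γ ^ m * u ∈ chart R ({x, x⁻¹} : Set F)) :
    ∃ (r : R) (a : ℤ) (y : F), r ≠ 0 ∧ u = algebraMap R F r ^ a * y ^ m := by
  obtain ⟨i, hi0, him, f, hf, r, hr⟩ :=
    kummer_charts hinjR hRF hx w hw m hm.two_le ν hν u hu σ₀ σ₁ h₀ h₁ h₀₁
  have hr0 : r ≠ 0 := by
    rintro rfl
    rw [map_zero] at hr
    exact mul_ne_zero (pow_ne_zero m hf) (pow_ne_zero i hu) hr
  have hrF : algebraMap R F r ≠ 0 := fun h => hr0 (hinjR (by rw [h, map_zero]))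
  have hcop : Nat.Coprime i m :=
    ((Nat.Prime.coprime_iff_not_dvd hm).mpr (Nat.not_dvd_of_pos_of_lt hi0 him)).symm
  -- Bezout
  have hbez : (i : ℤ) * Nat.gcdA i m + (m : ℤ) * Nat.gcdB i m = 1 := by
    have := Nat.gcd_eq_gcd_ab i m
    rw [hcop.gcd_eq_one] at this
    exact_mod_cast this.symm
  set a : ℤ := Nat.gcdA i m with ha
  set b : ℤ := Nat.gcdB i m with hb
  refine ⟨r, a, f⁻¹ ^ a * u ^ b, hr0, ?_⟩
  have e1 : (f ^ m * u ^ i) ^ a = f ^ ((m : ℤ) * a) * u ^ ((i : ℤ) * a) := by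
    rw [mul_zpow, ← zpow_natCast f m, ← zpow_natCast u i, ← zpow_mul, ← zpow_mul]
  have e2 : (f⁻¹ ^ a * u ^ b) ^ m = f ^ (-((m : ℤ) * a)) * u ^ ((m : ℤ) * b) := by
    rw [mul_pow, ← zpow_natCast (f⁻¹ ^ a) m, ← zpow_natCast (u ^ b) m, ← zpow_mul, ← zpow_mul,
      inv_zpow', mul_comm a (m : ℤ), mul_comm b (m : ℤ)]
  rw [← hr, e1, e2]
  have e3 : f ^ ((m : ℤ) * a) * u ^ ((i : ℤ) * a) * (f ^ (-((m : ℤ) * a)) * u ^ ((m : ℤ) * b))
      = (f ^ ((m : ℤ) * a) * f ^ (-((m : ℤ) * a))) * (u ^ ((i : ℤ) * a) * u ^ ((m : ℤ) * b)) := by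
    ring
  rw [e3, ← zpow_add₀ hf, ← zpow_add₀ hu, add_neg_cancel, zpow_zero, one_mul, hbez, zpow_one]

end Charts

end Fermat.Agent.S18.H394

end
-- ===== PACK-END S18/H394/KummerCharts.lean

-- ===== PACK-BEGIN Lib/HFree/H412/Main.lean
section



/-!
# HFree: parabolic characters of `Γ₀(N)` modulo `m` lift to `ℤ`

In the language of `Fermat.Agent.S29.DefsM` (`G0 N`, `IsParHom`):

* `exists_lift_isParHom` : every parabolic character `c : Γ₀(N) → ℤ/m` is the reduction of a
  parabolic character `c' : Γ₀(N) → ℤ`.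
* `exists_eq_nsmul_of_red_eq_zero` : a parabolic `ℤ`-valued character which vanishes modulo `m` is
  `m` times a parabolic character.

Together: `Hom_par(Γ₀(N), ℤ/m) = Hom_par(Γ₀(N), ℤ) ⊗ ℤ/m`, i.e. `H₁(X₀(N), ℤ)` is torsion-free.
Consequences (with the Kummer dictionary `J₀(N)[m] ≅ Hom_par(Γ₀(N), ℤ/m)` of rows S29/S30):
`J₀(N)[m] ≅ (ℤ/m)^{2g}`, `J₀(N)[p^∞]` is divisible, and every Hecke eigensystem occurring in
`J₀(N)[p]` lifts to characteristic `0` (Deligne–Serre).
-/

set_option autoImplicit false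

open scoped MatrixGroups
open ModularGroup

namespace Fermat.Agent.Lib.HFree.H412

open Fermat.Agent.S29 (G0 IsParHom)

theorem neg_one_mem_Gamma0_HFree (N : ℕ) : (-1 : SL(2, ℤ)) ∈ CongruenceSubgroup.Gamma0 N := by
  rw [CongruenceSubgroup.Gamma0_mem]
  simp

/-- `ℤ`-valued additive characters kill elements of finite order. -/
theorem eq_zero_of_pow_eq_one {G : Type*} [Group G] {c : G → ℤ}
    (hc : ∀ γ γ' : G, c (γ * γ') = c γ + c γ') (γ : G) (n : ℕ) (hn : 0 < n) (hγ : γ ^ n = 1) :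
    c γ = 0 := by
  have h1 : c 1 = 0 := by
    have h := hc 1 1
    rw [mul_one] at h
    omega
  have hpow : ∀ k : ℕ, c (γ ^ k) = k * c γ := by
    intro k
    induction k with
    | zero => simp [h1]
    | succ k ih =>
      rw [pow_succ, hc, ih]
      push_cast
      ring
  have h2 := hpow n
  rw [hγ, h1] at h2
  have hn' : (n : ℤ) ≠ 0 := by exact_mod_cast hn.ne'
  exact (mul_eq_zero.mp h2.symm).resolve_left hn'

/-- **HFree.** Every parabolic character of `Γ₀(N)` modulo `m` lifts to a parabolic character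
with values in `ℤ`. -/
theorem exists_lift_isParHom (N : ℕ) [NeZero N] (m : ℕ) [NeZero m] (c : G0 N → ZMod m)
    (hc : IsParHom c) :
    ∃ c' : G0 N → ℤ, IsParHom c' ∧ ∀ γ : G0 N, ((c' γ : ℤ) : ZMod m) = c γ := by
  obtain ⟨c', hc', hpar, hred⟩ := exists_lift_addChar (Γ := CongruenceSubgroup.Gamma0 N)
    (neg_one_mem_Gamma0_HFree N) m c hc.map_mul hc.elliptic
    (fun γ hγ => hc.parabolic γ (Or.inl hγ))
  exact ⟨c', ⟨hc', hpar, fun γ n hn hγ => eq_zero_of_pow_eq_one hc' γ n hn hγ⟩, hred⟩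

/-- A parabolic `ℤ`-valued character which vanishes modulo `m` is `m` times a parabolic
character. -/
theorem exists_eq_nsmul_of_red_eq_zero (N : ℕ) (m : ℕ) [NeZero m] (c : G0 N → ℤ)
    (hc : IsParHom c) (h0 : ∀ γ : G0 N, ((c γ : ℤ) : ZMod m) = 0) :
    ∃ c' : G0 N → ℤ, IsParHom c' ∧ ∀ γ : G0 N, c γ = m * c' γ := by
  have hm0 : (m : ℤ) ≠ 0 := by exact_mod_cast NeZero.ne m
  have hdvd : ∀ γ : G0 N, ∃ e : ℤ, c γ = m * e := fun γ =>
    (ZMod.intCast_zmod_eq_zero_iff_dvd (c γ) m).mp (h0 γ)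
  choose c' hc' using hdvd
  refine ⟨c', ⟨fun γ γ' => ?_, fun γ hγ => ?_, fun γ n hn hγ => ?_⟩, hc'⟩
  · apply mul_left_cancel₀ hm0
    rw [mul_add, ← hc', ← hc', ← hc', hc.map_mul]
  · apply mul_left_cancel₀ hm0
    rw [← hc', mul_zero, hc.parabolic γ hγ]
  · apply mul_left_cancel₀ hm0
    rw [← hc', mul_zero, hc.elliptic γ n hn hγ]

/-- The reduction modulo `m` of a parabolic character is parabolic. -/
theorem isParHom_red (N : ℕ) (m : ℕ) (c : G0 N → ℤ) (hc : IsParHom c) :
    IsParHom (fun γ => ((c γ : ℤ) : ZMod m)) :=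
  ⟨fun γ γ' => by rw [hc.map_mul]; push_cast; rfl,
   fun γ hγ => by rw [hc.parabolic γ hγ]; simp,
   fun γ n hn hγ => by rw [hc.elliptic γ n hn hγ]; simp⟩

end Fermat.Agent.Lib.HFree.H412

end
-- ===== PACK-END Lib/HFree/H412/Main.lean

-- ===== PACK-BEGIN Ribet/H763/IncAnAlg.lean
section




/-!
# Row 38, WALL-p, I3 leaf INC-AN: the ALGEBRAIC reduction (helper763)

`IsHoloSeries` quantifies over ALL places and ALL uniformisers.  This file reduces it to a
statement about the single differential `dj`: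

* `IsTwDer.chain` : chain rule.  For a field `F ⊇ K` algebraic over `K(j)` (characteristic 0) and
  a twisted derivation `δ : F → R` (`δ (x y) = ρ x · δ y + ρ y · δ x`, `δ|_K = 0`) every `δ x` is
  `ρ d · δ j` with `d ∈ F` ("`d = dx/dj`").
* `order_thetaL` : `θ = z d/dz` preserves a nonzero order (characteristic 0).
* `holo_at_place` : if `g = U₀ · θ(j)` in `K((q))` with `U₀ ∈ F`, and the place `P` of `F/K` is
  given by an embedding `σ : F → C((z))` (`f ∈ 𝒪_P ↔ 0 ≤ ord_z (σ f)`, constants are killed by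
  `θ_z`) such that `1 ≤ ord_z (σ U₀ · θ_z (σ j))`, then for EVERY `t` with `ord_P t = 1`:
  `g = u · θ t` with `u ∈ 𝒪_P`.
* `isHoloSeries_of_local` : the resulting criterion for `I3.IsHoloSeries`.
-/

set_option autoImplicit false

noncomputable section

open AlgebraicCurve HahnSeries Polynomial

namespace Fermat.Agent.Ribet.H763.IncAn

open Fermat.Agent.S28 Fermat.Agent.Ribet.H764

/-! ## 1. Twisted derivations and the chain rule -/

section Chain

variable {F R : Type*} [Field F] [CommRing R]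

/-- `δ` is a `ρ`-derivation `F → R`. -/
structure IsTwDer (ρ : F →+* R) (δ : F → R) : Prop where
  add : ∀ x y, δ (x + y) = δ x + δ y
  mul : ∀ x y, δ (x * y) = ρ x * δ y + ρ y * δ x

namespace IsTwDer

variable {ρ : F →+* R} {δ : F → R} (h : IsTwDer ρ δ)
include h

theorem zero : δ 0 = 0 := by
  have := h.add 0 0
  rw [add_zero] at this
  exact left_eq_add.mp this

theorem one : δ 1 = 0 := by
  have := h.mul 1 1
  rw [mul_one, map_one, one_mul] at this
  exact left_eq_add.mp this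

theorem neg (x : F) : δ (-x) = -δ x := by
  have := h.add x (-x)
  rw [add_neg_cancel, h.zero] at this
  exact eq_neg_of_add_eq_zero_right this.symm

theorem pow (x : F) (n : ℕ) : δ (x ^ (n + 1)) = (n + 1 : ℕ) * ρ x ^ n * δ x := by
  induction n with
  | zero => simp
  | succ n ih =>
    rw [pow_succ, h.mul, ih, map_pow]
    push_cast
    ring

theorem pow' (x : F) (n : ℕ) : δ (x ^ n) = ρ ((n : F) * x ^ (n - 1)) * δ x := by
  cases n with
  | zero => simp [h.one]
  | succ n =>
    rw [h.pow, map_mul, map_pow, map_natCast]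
    simp

theorem inv (x : F) : δ x⁻¹ = ρ (-(x⁻¹ ^ 2)) * δ x := by
  rcases eq_or_ne x 0 with rfl | hx
  · simp [h.zero]
  · have h1 := h.mul x x⁻¹
    rw [mul_inv_cancel₀ hx, h.one] at h1
    have h2 : ρ x * ρ x⁻¹ = 1 := by rw [← map_mul, mul_inv_cancel₀ hx, map_one]
    have h3 : δ x⁻¹ = ρ x⁻¹ * (ρ x * δ x⁻¹) := by
      rw [← mul_assoc, mul_comm (ρ x⁻¹), h2, one_mul]
    rw [h3, eq_neg_of_add_eq_zero_left h1.symm, map_neg, map_pow]
    ring

theorem eval (p : F[X]) (T : F) :
    δ (p.eval T) = (p.sum fun k c => δ c * ρ T ^ k) + ρ (p.derivative.eval T) * δ T := by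
  induction p using Polynomial.induction_on' with
  | add p q hp hq =>
    rw [Polynomial.eval_add, h.add, hp, hq, Polynomial.derivative_add, Polynomial.eval_add,
      map_add, Polynomial.sum_add_index]
    · ring
    · intro i; rw [h.zero, zero_mul]
    · intro i a b; rw [h.add, add_mul]
  | monomial n a =>
    rw [Polynomial.eval_monomial, h.mul, h.pow', Polynomial.sum_monomial_index,
      Polynomial.derivative_monomial, Polynomial.eval_monomial, map_pow]
    · simp only [map_mul, map_pow, map_natCast]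
      ring
    · rw [h.zero, zero_mul]

variable {K : Type*} [Field K] [Algebra K F]

/-- The elements `x` with `δ x ∈ ρ(F) · δ j`. -/
def chainField (hK : ∀ c : K, δ (algebraMap K F c) = 0) (j : F) : IntermediateField K F where
  carrier := {x | ∃ d : F, δ x = ρ d * δ j}
  mul_mem' := by
    rintro x y ⟨dx, hx⟩ ⟨dy, hy⟩
    refine ⟨x * dy + y * dx, ?_⟩
    rw [h.mul, hx, hy, map_add, map_mul, map_mul]
    ring
  one_mem' := ⟨0, by rw [h.one, map_zero, zero_mul]⟩
  add_mem' := by
    rintro x y ⟨dx, hx⟩ ⟨dy, hy⟩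
    exact ⟨dx + dy, by rw [h.add, hx, hy, map_add]; ring⟩
  zero_mem' := ⟨0, by rw [h.zero, map_zero, zero_mul]⟩
  algebraMap_mem' := fun c => ⟨0, by rw [hK, map_zero, zero_mul]⟩
  inv_mem' := by
    rintro x ⟨dx, hx⟩
    exact ⟨-(x⁻¹ ^ 2) * dx, by rw [h.inv, hx, map_mul]; ring⟩

theorem mem_chainField {hK : ∀ c : K, δ (algebraMap K F c) = 0} {j x : F} :
    x ∈ h.chainField hK j ↔ ∃ d : F, δ x = ρ d * δ j := Iff.rfl

theorem self_mem_chainField (hK : ∀ c : K, δ (algebraMap K F c) = 0) (j : F) :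
    j ∈ h.chainField hK j := ⟨1, by rw [map_one, one_mul]⟩

theorem adjoin_le_chainField (hK : ∀ c : K, δ (algebraMap K F c) = 0) (j : F) :
    IntermediateField.adjoin K {j} ≤ h.chainField hK j := by
  rw [IntermediateField.adjoin_le_iff]
  rintro x hx
  rw [Set.mem_singleton_iff] at hx
  subst hx
  exact h.self_mem_chainField hK x

/-- **Chain rule.**  If `F` is algebraic over `K(j)` (characteristic `0`), then every `δ x` is
`ρ d · δ j` for some `d ∈ F`. -/
theorem chain [CharZero K] (hK : ∀ c : K, δ (algebraMap K F c) = 0) (j : F)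
    (x : F) (halg : IsAlgebraic (IntermediateField.adjoin K {j}) x) :
    ∃ d : F, δ x = ρ d * δ j := by
  classical
  set E := IntermediateField.adjoin K {j} with hE
  have : CharZero E := charZero_of_injective_algebraMap (algebraMap K E).injective
  have hint : IsIntegral E x := halg.isIntegral
  set m := minpoly E x with hm
  have hsep : m.Separable := (minpoly.irreducible hint).separable
  set p : F[X] := m.map (algebraMap E F) with hp
  have hp0 : p.eval x = 0 := by
    rw [hp, Polynomial.eval_map, ← Polynomial.aeval_def, hm, minpoly.aeval]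
  have hp1 : p.derivative.eval x ≠ 0 := by
    rw [hp, Polynomial.derivative_map, Polynomial.eval_map, ← Polynomial.aeval_def]
    exact hsep.aeval_derivative_ne_zero (minpoly.aeval E x)
  have hcoef : ∀ k : ℕ, ∃ d : F, δ (p.coeff k) = ρ d * δ j := by
    intro k
    rw [hp, Polynomial.coeff_map]
    exact h.adjoin_le_chainField hK j (m.coeff k).2
  choose d hd using hcoef
  have hev := h.eval p x
  rw [hp0, h.zero] at hev
  have hsum : (p.sum fun k c => δ c * ρ x ^ k) = ρ (p.sum fun k _ => d k * x ^ k) * δ j := by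
    rw [Polynomial.sum_def, Polynomial.sum_def, map_sum, Finset.sum_mul]
    refine Finset.sum_congr rfl fun k _ => ?_
    rw [hd k, map_mul, map_pow]
    ring
  rw [hsum] at hev
  set A := p.sum fun k _ => d k * x ^ k with hA
  set B := p.derivative.eval x with hB
  refine ⟨-(A * B⁻¹), ?_⟩
  have h2 : ρ B⁻¹ * ρ B = 1 := by rw [← map_mul, inv_mul_cancel₀ hp1, map_one]
  have h3 : δ x = ρ B⁻¹ * (ρ B * δ x) := by rw [← mul_assoc, h2, one_mul]
  rw [h3, eq_neg_of_add_eq_zero_right hev.symm, map_neg, map_mul]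
  ring

end IsTwDer

end Chain

/-! ## 2. `θ` and orders -/

section Order

variable {C : Type*} [Field C] [CharZero C]

theorem thetaL_ne_zero_of_order_ne_zero {x : LaurentSeries C} (hx : x.order ≠ 0) :
    thetaL C x ≠ 0 := by
  have hx0 : x ≠ 0 := by
    rintro rfl
    exact hx HahnSeries.order_zero
  intro h0
  have h1 : (thetaL C x).coeff x.order = 0 := by rw [h0, HahnSeries.coeff_zero]
  rw [thetaL_coeff] at h1
  rcases mul_eq_zero.mp h1 with h2 | h2
  · exact hx (by exact_mod_cast h2)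
  · exact hx0 (HahnSeries.coeff_order_eq_zero.mp h2)

omit [CharZero C] in
theorem order_thetaL_le {x : LaurentSeries C} (hy : thetaL C x ≠ 0) :
    x.order ≤ (thetaL C x).order := by
  apply HahnSeries.order_le_of_coeff_ne_zero
  have : (thetaL C x).coeff (thetaL C x).order ≠ 0 :=
    fun h => hy (HahnSeries.coeff_order_eq_zero.mp h)
  rw [thetaL_coeff] at this
  exact right_ne_zero_of_mul this

theorem order_thetaL {x : LaurentSeries C} (hx : x.order ≠ 0) :
    (thetaL C x).order = x.order := by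
  have hx0 : x ≠ 0 := by
    rintro rfl
    exact hx HahnSeries.order_zero
  have hy0 := thetaL_ne_zero_of_order_ne_zero hx
  apply le_antisymm
  · apply HahnSeries.order_le_of_coeff_ne_zero
    rw [thetaL_coeff]
    exact mul_ne_zero (by exact_mod_cast hx) (fun h => hx0 (HahnSeries.coeff_order_eq_zero.mp h))
  · apply HahnSeries.order_le_of_coeff_ne_zero
    have : (thetaL C x).coeff (thetaL C x).order ≠ 0 :=
      fun h => hy0 (HahnSeries.coeff_order_eq_zero.mp h)
    rw [thetaL_coeff] at this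
    exact right_ne_zero_of_mul this

end Order

/-! ## 3. Holomorphy at a place, for all uniformisers -/

section Holo

variable {K : Type} [Field K]

theorem isTheta_thetaL (x : LaurentSeries K) : I3.IsTheta x (thetaL K x) := fun _ => rfl

variable [CharZero K] (F : IntermediateField K (LaurentSeries K))

/-- **INC-AN / ALG.**  Holomorphy of `g dq/q = U₀ dj` at the place `P`, tested on `dj` through an
embedding `σ` defining `P`, implies the `IsHoloSeries` condition at `P` for every uniformiser. -/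
theorem holo_at_place (j U₀ : F)
    (halg : ∀ x : F, IsAlgebraic (IntermediateField.adjoin K {j}) x)
    (g : PowerSeries K)
    (hg : HahnSeries.ofPowerSeries ℤ K g = (U₀ : LaurentSeries K) * thetaL K (j : LaurentSeries K))
    (P : Place K F) {C : Type*} [Field C] [CharZero C] (σ : F →+* LaurentSeries C)
    (hσK : ∀ c : K, thetaL C (σ (algebraMap K F c)) = 0)
    (hP : ∀ f : F, f ∈ P.toValuationSubring ↔ 0 ≤ (σ f).order)
    (hloc : σ U₀ * thetaL C (σ j) = 0 ∨ 1 ≤ (σ U₀ * thetaL C (σ j)).order)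
    (t : F) (ht : P.ord t = 1) :
    ∃ (u : F) (t' : LaurentSeries K),
      I3.IsTheta (t : LaurentSeries K) t' ∧ u ∈ P.toValuationSubring ∧
        HahnSeries.ofPowerSeries ℤ K g = (u : LaurentSeries K) * t' := by
  -- the twisted derivation into `K((q)) × C((z))`
  set ρ : F →+* LaurentSeries K × LaurentSeries C := RingHom.prod F.val.toRingHom σ with hρ
  set δ : F → LaurentSeries K × LaurentSeries C :=
    fun x => (thetaL K (x : LaurentSeries K), thetaL C (σ x)) with hδ
  have hder : IsTwDer ρ δ :=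
    { add := fun x y => by
        simp only [hδ, IntermediateField.coe_add, map_add, h88_thetaL_add, Prod.mk_add_mk]
      mul := fun x y => by
        simp only [hδ, hρ, IntermediateField.coe_mul, map_mul, h88_thetaL_mul,
          RingHom.prod_apply, Prod.mk_mul_mk, Prod.mk_add_mk]
        refine Prod.ext ?_ ?_
        · show _ = (x : LaurentSeries K) * _ + (y : LaurentSeries K) * _
          ring
        · show _ = σ x * _ + σ y * _
          ring }
  have hK0 : ∀ c : K, δ (algebraMap K F c) = 0 := by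
    intro c
    refine Prod.ext ?_ (hσK c)
    show thetaL K ((algebraMap K F c : F) : LaurentSeries K) = 0
    have : ((algebraMap K F c : F) : LaurentSeries K) = HahnSeries.single 0 c := by
      rw [← ModularCurve.algebraMap_laurentSeries_eq_single]
      rfl
    rw [this, h88_thetaL_single_zero]
  obtain ⟨d, hd⟩ := hder.chain hK0 j t (halg t)
  have hd1 : thetaL K (t : LaurentSeries K) = (d : LaurentSeries K) * thetaL K (j : LaurentSeries K) :=
    congrArg Prod.fst hd
  have hd2 : thetaL C (σ t) = σ d * thetaL C (σ j) := congrArg Prod.snd hd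
  -- the multiplicity
  have hv : P.toValuationSubring = Fermat.Agent.S24.H117.embRing σ := by
    ext f
    rw [hP f]
    rfl
  obtain ⟨k, hk, hmult⟩ := Fermat.Agent.S24.H117.exists_mult_of_eq σ P hv
  have hkt : (σ t).order = k := by
    have := hmult t
    rw [ht, mul_one] at this
    exact this
  have hk0 : (σ t).order ≠ 0 := by
    rw [hkt]
    exact_mod_cast hk.ne'
  have hθt : thetaL C (σ t) ≠ 0 := thetaL_ne_zero_of_order_ne_zero hk0
  have hθt' : (thetaL C (σ t)).order = k := by rw [order_thetaL hk0, hkt]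
  have hσd : σ d ≠ 0 := by
    intro h0
    rw [h0, zero_mul] at hd2
    exact hθt hd2
  have hd0 : d ≠ 0 := fun h0 => hσd (by rw [h0, map_zero])
  have hdL : (d : LaurentSeries K) ≠ 0 := fun h0 => hd0 (Subtype.ext h0)
  refine ⟨U₀ * d⁻¹, thetaL K (t : LaurentSeries K), isTheta_thetaL _, ?_, ?_⟩
  · -- membership
    rw [hP]
    have hw : σ (U₀ * d⁻¹) * thetaL C (σ t) = σ U₀ * thetaL C (σ j) := by
      rw [hd2, map_mul, map_inv₀]
      field_simp
    rcases hloc with h0 | h1
    · rw [h0] at hw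
      rcases mul_eq_zero.mp hw with h | h
      · rw [h, HahnSeries.order_zero]
      · exact absurd h hθt
    · rw [← hw] at h1
      by_cases hu0 : σ (U₀ * d⁻¹) = 0
      · rw [hu0, HahnSeries.order_zero]
      rw [HahnSeries.order_mul hu0 hθt, hθt'] at h1
      have hm := hmult (U₀ * d⁻¹)
      change (σ (U₀ * d⁻¹)).order = _ at hm
      rw [hm] at h1 ⊢
      have hk' : (0 : ℤ) < k := by exact_mod_cast hk
      by_contra hneg
      push Not at hneg
      have : P.ord (U₀ * d⁻¹) ≤ -1 := by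
        by_contra h'
        push Not at h'
        have : 0 ≤ P.ord (U₀ * d⁻¹) := by omega
        exact absurd (mul_nonneg hk'.le this) (not_le.mpr hneg)
      nlinarith
  · rw [hg, hd1, IntermediateField.coe_mul, IntermediateField.coe_inv]
    field_simp

end Holo

/-! ## 4. The criterion for `I3.IsHoloSeries` -/

section Criterion

variable {K : Type} [Field K] [CharZero K] {M : ℕ} [NeZero M]

/-- **INC-AN from `dj`.**  `g` is a holomorphic series (`I3.IsHoloSeries`) as soon as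
`g = U₀ · θ(j)` with `U₀ ∈ F`, and every place of `F` is defined by an embedding `σ` into some
`C((z))` with `ord_z (σ U₀ · θ_z (σ j)) ≥ 1`. -/
theorem isHoloSeries_of_local (j U₀ : ModularCurve.modularFunctionFieldFullC K M)
    (halg : ∀ x : ModularCurve.modularFunctionFieldFullC K M,
      IsAlgebraic (IntermediateField.adjoin K {j}) x)
    (g : PowerSeries K)
    (hg : HahnSeries.ofPowerSeries ℤ K g = (U₀ : LaurentSeries K) * thetaL K (j : LaurentSeries K))
    (hloc : ∀ P : Place K (ModularCurve.modularFunctionFieldFullC K M),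
      ∃ σ : ModularCurve.modularFunctionFieldFullC K M →+* LaurentSeries ℂ,
        (∀ c : K, thetaL ℂ (σ (algebraMap K _ c)) = 0) ∧
        (∀ f, f ∈ P.toValuationSubring ↔ 0 ≤ (σ f).order) ∧
        (σ U₀ * thetaL ℂ (σ j) = 0 ∨ 1 ≤ (σ U₀ * thetaL ℂ (σ j)).order)) :
    I3.IsHoloSeries K M g := by
  intro Q t ht
  obtain ⟨σ, h1, h2, h3⟩ := hloc Q
  exact holo_at_place _ j U₀ halg g hg Q σ h1 h2 h3 t ht

end Criterion

end Fermat.Agent.Ribet.H763.IncAn

end
end
-- ===== PACK-END Ribet/H763/IncAnAlg.lean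

-- ===== PACK-BEGIN S37/H818/Modular.lean
section
/-
S37 / LEVEL TRANSFER (helper818), part 8: instantiation at the modular function fields.

Levels `N`, `M = N * k`, Hecke prime `ℓ`.  `π^* : Pic0(F_N) → Pic0(F_{N k})` is the pullback
along the Prelude's `heckeAlphaBar L N k` (inclusion of function fields).
-/








set_option autoImplicit false
set_option linter.style.haveILetI false

noncomputable section

namespace Fermat.Agent.S37.H818

open AlgebraicCurve ModularCurve IntermediateField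

variable (L : Type*) [Field L] [Algebra ℚ L]

/-- Monotonicity of `laurentBaseChange` (the Prelude's version is private). -/
theorem laurentBaseChange_mono {F₀ F₁ : IntermediateField ℚ (LaurentSeries ℚ)}
    (h : F₀ ≤ F₁) : laurentBaseChange L F₀ ≤ laurentBaseChange L F₁ := by
  rw [laurentBaseChange, IntermediateField.adjoin_le_iff]
  rintro _ ⟨y, hy, rfl⟩
  exact coeffEmb_mem_laurentBaseChange L (h hy)

/-- The function field of level `N` over `L`. -/
abbrev FB (N : ℕ) : IntermediateField L (LaurentSeries L) :=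
  laurentBaseChange L (modularFunctionFieldFull N)

/-- Inclusion of function fields for `N ∣ M`. -/
def degenIncl {N M : ℕ} [NeZero N] [NeZero M] (h : N ∣ M) : FB L N →ₐ[L] FB L M :=
  IntermediateField.inclusion (laurentBaseChange_mono L (full_degeneracy_le h))

@[simp]
theorem coe_degenIncl {N M : ℕ} [NeZero N] [NeZero M] (h : N ∣ M) (x : FB L N) :
    (degenIncl L h x : LaurentSeries L) = (x : LaurentSeries L) :=
  IntermediateField.coe_inclusion _ x

variable (N k ℓ : ℕ) [NeZero N] [NeZero k] [NeZero ℓ]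

omit [NeZero N] [NeZero k] [NeZero ℓ] in
theorem dvd_aux : N * ℓ ∣ N * k * ℓ := ⟨k, by ring⟩

/-- The degeneracy map at level `N ℓ`:  `F_{Nℓ} ⊂ F_{(N k) ℓ}`. -/
def degenTop : FB L (N * ℓ) →ₐ[L] FB L (N * k * ℓ) := degenIncl L (dvd_aux N k ℓ)

theorem square_alpha :
    (degenTop L N k ℓ).comp (heckeAlphaBar L N ℓ) =
      (heckeAlphaBar L (N * k) ℓ).comp (heckeAlphaBar L N k) := by
  refine AlgHom.ext fun x => Subtype.ext ?_
  rw [AlgHom.comp_apply, AlgHom.comp_apply, degenTop, coe_degenIncl, coe_heckeAlphaBar,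
    coe_heckeAlphaBar, coe_heckeAlphaBar]

theorem square_beta :
    (degenTop L N k ℓ).comp (heckeBetaBar L N ℓ) =
      (heckeBetaBar L (N * k) ℓ).comp (heckeAlphaBar L N k) := by
  refine AlgHom.ext fun x => Subtype.ext ?_
  rw [AlgHom.comp_apply, AlgHom.comp_apply, degenTop, coe_degenIncl, coe_heckeBetaBar,
    coe_heckeBetaBar, coe_heckeAlphaBar]

variable {L N k ℓ}

/-- **`π^* ∘ T_ℓ^{(N)} = T_ℓ^{(N k)} ∘ π^*`** for the Prelude's Hecke operators, given the Hecke
inputs at both levels and norm compatibility of the `α`-square. -/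
theorem pullback_heckeOperatorAlong
    (hN : HeckeInputsAlong L N ℓ) (hM : HeckeInputsAlong L (N * k) ℓ)
    [HasPrincipalDivisors L (FB L (N * k))]
    (hi : (heckeAlphaBar L N k).toRingHom.IsIntegral)
    (hFIi : FundamentalIdentityAlong L (heckeAlphaBar L N k) hi)
    (hi₁ : (degenTop L N k ℓ).toRingHom.IsIntegral)
    (hnorm : NormCompat (heckeAlphaBar L N ℓ) (heckeAlphaBar L N k)
      (heckeAlphaBar L (N * k) ℓ) (degenTop L N k ℓ))
    (x : Pic0 L (FB L N)) :
    pullbackPic0Along (heckeAlphaBar L N k) hi hFIi (heckeOperatorAlong L N ℓ x) =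
      heckeOperatorAlong L (N * k) ℓ (pullbackPic0Along (heckeAlphaBar L N k) hi hFIi x) := by
  obtain ⟨hα, hβ, hP, hfin, hFI, hNF⟩ := hN
  obtain ⟨hα', hβ', hP', hfin', hFI', hNF'⟩ := hM
  haveI := hP
  haveI := hP'
  rw [heckeOperatorAlong_eq hα hβ hFI hfin hNF, heckeOperatorAlong_eq hα' hβ' hFI' hfin' hNF']
  exact pullbackPic0Along_correspondence (heckeAlphaBar L N ℓ) (heckeBetaBar L N ℓ)
    (heckeAlphaBar L N k) (heckeAlphaBar L (N * k) ℓ) (heckeBetaBar L (N * k) ℓ)
    (degenTop L N k ℓ) hα hβ hi hα' hβ' hi₁ (square_alpha L N k ℓ) (square_beta L N k ℓ)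
    hFI hfin hNF hFI' hfin' hNF' hFIi hnorm (hasLocalGenerators _ hα) x

/-- The arithmetic Galois actions at levels `N` and `M` are intertwined by the inclusion. -/
theorem intertwines_degenIncl {N M : ℕ} [NeZero N] [NeZero M] (h : N ∣ M) (σ : L ≃ₐ[ℚ] L) :
    SemilinearAut.IntertwinesAlong (degenIncl L h : FB L N →+* FB L M)
      (arithmeticGalois (modularFunctionFieldFull N) σ)
      (arithmeticGalois (modularFunctionFieldFull M) σ) := by
  intro x
  apply Subtype.ext
  rw [RingHom.coe_coe, coe_arithmeticGalois_smul, coe_degenIncl, coe_degenIncl,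
    coe_arithmeticGalois_smul]

theorem intertwines_heckeAlphaBar (σ : L ≃ₐ[ℚ] L) :
    SemilinearAut.IntertwinesAlong (heckeAlphaBar L N k : FB L N →+* FB L (N * k))
      (arithmeticGalois (modularFunctionFieldFull N) σ)
      (arithmeticGalois (modularFunctionFieldFull (N * k)) σ) := by
  intro x
  apply Subtype.ext
  rw [RingHom.coe_coe, coe_arithmeticGalois_smul, coe_heckeAlphaBar, coe_heckeAlphaBar,
    coe_arithmeticGalois_smul]

/-- `π^*` is Galois equivariant. -/
theorem pullbackPic0Along_galois [HasPrincipalDivisors L (FB L (N * k))]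
    (hi : (heckeAlphaBar L N k).toRingHom.IsIntegral)
    (hFIi : FundamentalIdentityAlong L (heckeAlphaBar L N k) hi)
    (σ : L ≃ₐ[ℚ] L) (x : Pic0 L (FB L N)) :
    pullbackPic0Along (heckeAlphaBar L N k) hi hFIi (σ • x) =
      σ • pullbackPic0Along (heckeAlphaBar L N k) hi hFIi x :=
  pullbackPic0Along_smul (heckeAlphaBar L N k) hi (intertwines_heckeAlphaBar σ) hFIi x

end Fermat.Agent.S37.H818

end

end
-- ===== PACK-END S37/H818/Modular.lean

-- ===== PACK-BEGIN S37/H568/ValueGroup.lean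
section



/-!
# S37 / node_rim, leaf VG (helper568): `ValueGroupHyp` for the modular function fields

Input `hVG` of helper940's `H940.reductionInputsAlong_of_atlas`, for
`F = modularFunctionFieldBar N`, `F_k = modularFunctionFieldFullC k N`, `π = residue A`:

    theorem valueGroupHyp_modular (hcore : CoreData N (IsLocalRing.ResidueField A)) :
        H940.ValueGroupHyp A (IsLocalRing.residue A) (modularFunctionFieldBar N)
          (modularFunctionFieldFullC (IsLocalRing.ResidueField A) N)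

(every `f ≠ 0` of `F` is a constant times a quotient of two integral `q`-series with nonzero
reduction in `F_k`).  Same mathematics as helper700's `pgi` (normal form + normalisation), from
the output `CoreData` of row S28.
-/

set_option autoImplicit false

noncomputable section

namespace Fermat.Agent.S37.H568

open ModularCurve HahnSeries Polynomial AlgebraicCurve
open Fermat.Agent.S28 (jField intDivisorExpansions CoreData)
open Fermat.Agent.S37.H700 Fermat.Agent.S37.H940

variable {N : ℕ} [NeZero N] {A : ValuationSubring (AlgebraicClosure ℚ)}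

/-- **`ValueGroupHyp` for `ℚ̄(X₀(N))`.** -/
theorem valueGroupHyp_modular (hcore : CoreData N (IsLocalRing.ResidueField A)) :
    ValueGroupHyp A (IsLocalRing.residue A) (modularFunctionFieldBar N)
      (modularFunctionFieldFullC (IsLocalRing.ResidueField A) N) := by
  classical
  obtain ⟨n, y, hy_mem, hy_span, hy_ind⟩ := hcore.exists_basis
  intro f hf0
  have hfU : (f : LaurentSeries Qb) ≠ 0 := fun h => hf0 (Subtype.ext h)
  obtain ⟨Q₀, P₀, hQ₀, h₀⟩ := exists_denominator Qb y
    (mem_spanL_of_mem_baseChange Qb y N hy_mem hy_span f.2)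
  have hQ₀e : evalJ Qb Q₀ ≠ 0 := fun h => hQ₀ ((evalJ_eq_zero_iff Qb).mp h)
  have hP₀ : ∃ i, P₀ i ≠ 0 := by
    by_contra hcon
    push Not at hcon
    have : evalJ Qb Q₀ * (f : LaurentSeries Qb) = 0 := by
      rw [h₀]
      exact Finset.sum_eq_zero fun i _ => by rw [hcon i, evalJ_zero, zero_mul]
    exact (mul_ne_zero hQ₀e hfU) this
  obtain ⟨cQ, hcQ, Q', hQ', u₀, hQ'red⟩ := normalize_family A (fun _ : Unit => Q₀) ⟨(), hQ₀⟩
  obtain ⟨cP, hcP, P', hP', i₀, hi₀⟩ := normalize_family A P₀ hP₀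
  set b : LaurentSeries A := evalJ A (Q' ()) with hb
  set a : LaurentSeries A := ∑ i, evalJ A (P' i) * coeffMap (Int.castRingHom A) (y i) with ha
  have hbL : coeffMap A.subtype b = HahnSeries.C cQ * evalJ Qb Q₀ := by
    rw [hb, coeffMap_evalJ, hQ' (), evalJ_mul, evalJ_C]
  have haL : coeffMap A.subtype a = HahnSeries.C cP * (evalJ Qb Q₀ * (f : LaurentSeries Qb)) := by
    rw [ha, map_sum, h₀, Finset.mul_sum]
    refine Finset.sum_congr rfl fun i _ => ?_
    rw [map_mul, coeffMap_evalJ, hP' i, evalJ_mul, evalJ_C, coeffMap_coeffMap, mul_assoc]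
    congr 2
  have hQmem : evalJ Qb Q₀ ∈ modularFunctionFieldBar N := jField_le_bar (evalJ_mem_jField Qb Q₀)
  have hbmem : coeffMap A.subtype b ∈ modularFunctionFieldBar N := by
    rw [hbL]; exact mul_mem (C_mem_bar cQ) hQmem
  have hamem : coeffMap A.subtype a ∈ modularFunctionFieldBar N := by
    rw [haL]; exact mul_mem (C_mem_bar cP) (mul_mem hQmem f.2)
  have hbred : coeffMap (IsLocalRing.residue A) b ≠ 0 := by
    rw [hb, coeffMap_evalJ]
    exact fun h => hQ'red ((evalJ_eq_zero_iff _).mp h)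
  have hared : coeffMap (IsLocalRing.residue A) a ≠ 0 := by
    intro h
    rw [ha, map_sum] at h
    have h' : ∑ i, evalJ (IsLocalRing.ResidueField A) ((P' i).map (IsLocalRing.residue A)) *
        coeffMap (Int.castRingHom (IsLocalRing.ResidueField A)) (y i) = 0 := by
      rw [← h]
      refine Finset.sum_congr rfl fun i _ => ?_
      rw [map_mul, coeffMap_evalJ, coeffMap_coeffMap]
      congr 1
    exact hi₀ (eq_zero_of_sum_evalJ_eq_zero _ hy_ind _ h' i₀)
  -- the two integral series as elements of `intQ`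
  have haI : IsIntQ A (IsLocalRing.residue A) (modularFunctionFieldBar N)
      (modularFunctionFieldFullC (IsLocalRing.ResidueField A) N) ⟨coeffMap A.subtype a, hamem⟩ :=
    ⟨a, rfl, reduction_mem hcore a hamem⟩
  have hbI : IsIntQ A (IsLocalRing.residue A) (modularFunctionFieldBar N)
      (modularFunctionFieldFullC (IsLocalRing.ResidueField A) N) ⟨coeffMap A.subtype b, hbmem⟩ :=
    ⟨b, rfl, reduction_mem hcore b hbmem⟩
  refine ⟨cQ / cP, div_ne_zero hcQ hcP, ⟨⟨coeffMap A.subtype a, hamem⟩, haI⟩,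
    ⟨⟨coeffMap A.subtype b, hbmem⟩, hbI⟩, ?_, ?_, ?_⟩
  · intro h
    apply hared
    have := congrArg (fun z : modularFunctionFieldFullC (IsLocalRing.ResidueField A) N =>
      (z : LaurentSeries (IsLocalRing.ResidueField A))) h
    rw [coe_redQ A (IsLocalRing.residue A) _ _ ⟨⟨coeffMap A.subtype a, hamem⟩, haI⟩ (y := a) rfl]
      at this
    exact this
  · intro h
    apply hbred
    have := congrArg (fun z : modularFunctionFieldFullC (IsLocalRing.ResidueField A) N =>
      (z : LaurentSeries (IsLocalRing.ResidueField A))) h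
    rw [coe_redQ A (IsLocalRing.residue A) _ _ ⟨⟨coeffMap A.subtype b, hbmem⟩, hbI⟩ (y := b) rfl]
      at this
    exact this
  · apply Subtype.ext
    show (f : LaurentSeries Qb) * coeffMap A.subtype b =
      algebraMap Qb (LaurentSeries Qb) (cQ / cP) * coeffMap A.subtype a
    rw [hbL, haL, algebraMap_laurentSeries_eq_single]
    have hC : (HahnSeries.single 0 (cQ / cP) : LaurentSeries Qb) * HahnSeries.C cP =
        HahnSeries.C cQ := by
      show (HahnSeries.C (cQ / cP) : LaurentSeries Qb) * HahnSeries.C cP = HahnSeries.C cQ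
      rw [← map_mul, div_mul_cancel₀ _ hcP]
    calc (f : LaurentSeries Qb) * (HahnSeries.C cQ * evalJ Qb Q₀)
        = HahnSeries.C cQ * (evalJ Qb Q₀ * (f : LaurentSeries Qb)) := by ring
      _ = (HahnSeries.single 0 (cQ / cP) * HahnSeries.C cP) *
            (evalJ Qb Q₀ * (f : LaurentSeries Qb)) := by rw [hC]
      _ = _ := by ring

end Fermat.Agent.S37.H568

end

end
-- ===== PACK-END S37/H568/ValueGroup.lean

-- ===== PACK-BEGIN Lib/RR/H80/Canonical.lean
section


/-!
# RR library, layer L5 (helper80): the divisor of a Weil differential and the duality theorem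

Inputs from layers L3/L4 are explicit hypotheses:
* `hfin : ∀ D, Module.Finite K (H1 D)`,
* `hrr  : ∀ D, ℓ(D) - dim H¹(D) = deg D + 1 - g`,
* `hvan : ∃ c, ∀ D, c ≤ deg D → ℓ(D) = deg D + 1 - g`.

Main result: `exists_canonical_of : ∃ W, ∀ D, dim H¹(D) = ℓ(W - D)`.
-/

set_option autoImplicit false

noncomputable section

open AlgebraicCurve

namespace Fermat.Agent.Lib.RR.H80

open Fermat.Agent.Lib.RR

variable {K F : Type*} [Field K] [Field F] [Algebra K F]

/-- The repartition with a single nonzero component. -/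
def singleA (Q : Place K F) (a : F) : ↥(repartitions K F) :=
  ⟨fun v => by classical exact if v = Q then a else 0,
    mem_repartitions_of_finite_ord <| (Set.finite_singleton Q).subset fun v hv => by
      classical
      have hv : v.ord (if v = Q then a else 0) < 0 := hv
      rw [Set.mem_singleton_iff]
      by_contra hne
      rw [if_neg hne, Place.ord_zero] at hv
      exact lt_irrefl _ hv⟩

theorem singleA_apply_self (Q : Place K F) (a : F) :
    ((singleA Q a : ↥(repartitions K F)) : Place K F → F) Q = a := by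
  classical
  simp [singleA]

theorem singleA_apply_of_ne (Q : Place K F) (a : F) {v : Place K F} (h : v ≠ Q) :
    ((singleA Q a : ↥(repartitions K F)) : Place K F → F) v = 0 := by
  classical
  simp [singleA, h]

/-- Key step: if `ω` vanishes on `𝔸(W) + F` and on `𝔸(D) + F` with `W Q < D Q`, then it vanishes
on `𝔸(W + Q) + F`. -/
theorem mem_Om_add_prim {W D : Divisor K F} {Q : Place K F} (hQ : W Q < D Q)
    {ω : Module.Dual K ↥(repartitions K F)} (hW : ω ∈ Om W) (hD : ω ∈ Om D) :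
    ω ∈ Om (W + prim Q) := by
  rw [mem_Om_iff] at hW hD ⊢
  refine ⟨fun α hα => ?_, hW.2⟩
  rw [mem_repartitionsOf_iff] at hα
  set β : ↥(repartitions K F) := singleA Q ((α : Place K F → F) Q) with hβ
  have h1 : β ∈ repartitionsOf D := by
    rw [mem_repartitionsOf_iff]
    intro v
    by_cases hv : v = Q
    · subst hv
      rw [hβ, singleA_apply_self]
      rcases hα v with h | h
      · exact Or.inl h
      · right
        simp only [Finsupp.coe_add, Pi.add_apply, prim_apply_self] at h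
        omega
    · left
      rw [hβ, singleA_apply_of_ne _ _ hv]
  have h2 : α - β ∈ repartitionsOf W := by
    rw [mem_repartitionsOf_iff]
    intro v
    have hsub : ((α - β : ↥(repartitions K F)) : Place K F → F) v
        = (α : Place K F → F) v - (β : Place K F → F) v := rfl
    by_cases hv : v = Q
    · subst hv
      left
      rw [hsub, hβ, singleA_apply_self, sub_self]
    · rw [hsub, hβ, singleA_apply_of_ne _ _ hv, sub_zero]
      rcases hα v with h | h
      · exact Or.inl h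
      · right
        simpa [prim_apply_of_ne hv] using h
  have h3 : ω α = ω (α - β) + ω β := by rw [← map_add, sub_add_cancel]
  rw [h3, hW.1 _ h2, hD.1 _ h1, add_zero]

section Input

variable [FF1 K F] {g : ℤ}

omit [FF1 K F] in
/-- Weil differentials vanishing on `𝔸(D) + F` with `deg D` large are zero. -/
theorem Om_eq_bot_of_degree_ge
    (hfin : ∀ D : Divisor K F, Module.Finite K (H1 D))
    (hrr : ∀ D : Divisor K F,
      (ell D : ℤ) - Module.finrank K (H1 D) = Divisor.degree D + 1 - g)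
    {c : ℤ} (hc : ∀ D : Divisor K F, c ≤ Divisor.degree D →
      (ell D : ℤ) = Divisor.degree D + 1 - g)
    {D : Divisor K F} (hD : c ≤ Divisor.degree D) : Om D = ⊥ := by
  have := hfin D
  have : Module.Finite K (Om D) := finite_Om D
  have h1 := finrank_Om_eq hrr D
  rw [hc D hD] at h1
  have h2 : Module.finrank K (Om D) = 0 := by
    have : (Module.finrank K (Om D) : ℤ) = 0 := by rw [h1]; ring
    exact_mod_cast this
  exact Submodule.finrank_eq_zero.mp h2

/-- **The divisor of a Weil differential**: a nonzero Weil differential `ω` has a divisor `W`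
such that `ω` vanishes on `𝔸(D) + F` iff `D ≤ W`. -/
theorem exists_divisor_of_ne_zero
    (hfin : ∀ D : Divisor K F, Module.Finite K (H1 D))
    (hrr : ∀ D : Divisor K F,
      (ell D : ℤ) - Module.finrank K (H1 D) = Divisor.degree D + 1 - g)
    (hvan : ∃ c : ℤ, ∀ D : Divisor K F, c ≤ Divisor.degree D →
      (ell D : ℤ) = Divisor.degree D + 1 - g)
    {A : Divisor K F} {ω : Module.Dual K ↥(repartitions K F)} (hA : ω ∈ Om A) (hω : ω ≠ 0) :
    ∃ W : Divisor K F, ∀ D : Divisor K F, ω ∈ Om D ↔ D ≤ W := by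
  obtain ⟨c, hc⟩ := hvan
  have hbdd : ∀ D : Divisor K F, ω ∈ Om D → Divisor.degree D < c := by
    intro D hD
    by_contra hlt
    have := Om_eq_bot_of_degree_ge hfin hrr hc (not_lt.mp hlt)
    rw [this, Submodule.mem_bot] at hD
    exact hω hD
  obtain ⟨d, ⟨W, hW, rfl⟩, hmax⟩ :=
    Int.exists_greatest_of_bdd (P := fun d => ∃ D : Divisor K F, ω ∈ Om D ∧ Divisor.degree D = d)
      ⟨c, fun z ⟨D, hD, hz⟩ => hz ▸ (hbdd D hD).le⟩ ⟨_, A, hA, rfl⟩
  refine ⟨W, fun D => ⟨fun hD => ?_, fun hle => Om_anti hle hW⟩⟩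
  by_contra hnle
  rw [Finsupp.le_def] at hnle
  simp only [not_forall, not_le] at hnle
  obtain ⟨Q, hQ⟩ := hnle
  have h1 := mem_Om_add_prim hQ hW hD
  have h2 := hmax _ ⟨W + prim Q, h1, rfl⟩
  rw [map_add, degree_prim'] at h2
  omega

/-- **Duality theorem** (Stichtenoth 1.5.14): `x ↦ x ω` maps `L(W - D)` onto `Ω(D)`. -/
theorem map_muMap_eq_Om
    (hfin : ∀ D : Divisor K F, Module.Finite K (H1 D))
    (hrr : ∀ D : Divisor K F,
      (ell D : ℤ) - Module.finrank K (H1 D) = Divisor.degree D + 1 - g)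
    {W : Divisor K F} {ω : Module.Dual K ↥(repartitions K F)} (hω : ω ≠ 0)
    (hW : ∀ D : Divisor K F, ω ∈ Om D ↔ D ≤ W) (D : Divisor K F) :
    Submodule.map (muMap ω) (riemannRochSpace (W - D)) = Om D := by
  have hWW : ω ∈ Om W := (hW W).mpr le_rfl
  apply le_antisymm
  · have := map_muMap_le (B := -D) hWW
    rwa [neg_neg, ← sub_eq_add_neg] at this
  · intro η hη
    obtain ⟨z, rfl⟩ := exists_smulD_eq hfin hrr hWW hω hη
    refine ⟨z, ?_, rfl⟩
    rcases eq_or_ne z 0 with rfl | hz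
    · exact Submodule.zero_mem (riemannRochSpace (W - D))
    obtain ⟨E, hE, -⟩ := HasPrincipalDivisors.exists_divisor (K := K) z⁻¹ (inv_ne_zero hz)
    have h1 : smulD z⁻¹ (smulD z ω) ∈ Om (D + E) := smulD_mem_Om (inv_ne_zero hz) hE hη
    rw [smulD_smulD, inv_mul_cancel₀ hz, smulD_one] at h1
    have h2 := (hW _).mp h1
    show z ∈ riemannRochSpace (W - D)
    rw [mem_L_iff]
    intro v
    right
    have h3 := Finsupp.le_def.mp h2 v
    simp only [Finsupp.coe_add, Pi.add_apply, hE v, v.ord_inv, Finsupp.coe_sub,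
      Pi.sub_apply] at h3 ⊢
    omega

/-- **L5, hypothesis-explicit form**: existence of a canonical divisor. -/
theorem exists_canonical_of
    (hfin : ∀ D : Divisor K F, Module.Finite K (H1 D))
    (hrr : ∀ D : Divisor K F,
      (ell D : ℤ) - Module.finrank K (H1 D) = Divisor.degree D + 1 - g)
    (hvan : ∃ c : ℤ, ∀ D : Divisor K F, c ≤ Divisor.degree D →
      (ell D : ℤ) = Divisor.degree D + 1 - g) :
    ∃ W : Divisor K F, ∀ D : Divisor K F, Module.finrank K (H1 D) = ell (W - D) := by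
  obtain ⟨A, ω, hA, hω⟩ := exists_ne_zero_mem_Om (K := K) (F := F) hrr
  obtain ⟨W, hW⟩ := exists_divisor_of_ne_zero hfin hrr hvan hA hω
  refine ⟨W, fun D => ?_⟩
  rw [← finrank_Om, ← map_muMap_eq_Om hfin hrr hω hW D, finrank_map_muMap hω]

end Input

end Fermat.Agent.Lib.RR.H80

end
end
-- ===== PACK-END Lib/RR/H80/Canonical.lean

-- ===== PACK-BEGIN Ribet/H376/DlogEigen.lean
section
/-
Row 38 (RIBET), WALL-p, leaf M6a / I2 (helper376): the eigen-relation for `dlog` of a reduction,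
in the vocabulary of `Ribet/H764/I3Spec.lean` (`IsDlog`, `IsEigenSeries`).

If `h ∈ k((q))`, `h ≠ 0`, `char k = p`, `θ h = g · h` with `g ∈ k⟦q⟧`, and for every prime
`ℓ ∤ M`, `ℓ ∉ S` the Kronecker norm satisfies `kronNorm ℓ h = c · h ^ (a ℓ) · G ^ p`
(reduction of `Nm_α (β f) = c f^{a_ℓ} G^p`), then `g` is a `T_ℓ`-eigen-series with eigenvalues `a ℓ`.
-/



set_option autoImplicit false
set_option maxHeartbeats 400000

noncomputable section

namespace Fermat.Agent.Ribet.H376

open HahnSeries ModularCurve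
open Fermat.Agent.S37 Fermat.Agent.Ribet.H764

variable {k : Type} [Field k]

theorem isDlogL_of_isDlog {h : LaurentSeries k} {g : PowerSeries k} (H : I3.IsDlog h g) :
    IsDlogL h (ofPowerSeries ℤ k g) := by
  unfold IsDlogL
  ext n
  rw [thetaL_coeff]
  exact (H n).symm

theorem isDlog_of_isDlogL {h : LaurentSeries k} {g : PowerSeries k}
    (H : IsDlogL h (ofPowerSeries ℤ k g)) : I3.IsDlog h g := by
  intro n
  unfold IsDlogL at H
  rw [← H, thetaL_coeff]

/-- One prime: the coefficient relation `c_{nℓ} + ℓ c_{n/ℓ} = a c_n`. -/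
theorem coeff_eigen_of_kronNorm_eq (p : ℕ) [CharP k p] (hp : p ≠ 0) {ℓ : ℕ} [NeZero ℓ] {ζ : k}
    (hζ : IsPrimitiveRoot ζ ℓ) (hℓk : (ℓ : k) ≠ 0) {h : LaurentSeries k} (h0 : h ≠ 0)
    {g : PowerSeries k} (H : I3.IsDlog h g) (a : ℤ) (c : k) (G : LaurentSeries k)
    (hK : H400.kronNorm ℓ h = C c * h ^ a * G ^ p) (n : ℕ) :
    PowerSeries.coeff (n * ℓ) g + (if ℓ ∣ n then (ℓ : k) * PowerSeries.coeff (n / ℓ) g else 0) =
      (a : k) * PowerSeries.coeff n g := by
  have hT := heckeL_eq_of_kronNorm_eq p hp hζ hℓk h0 (isDlogL_of_isDlog H) a c G hK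
  have hc := congrArg (fun x : LaurentSeries k => x.coeff (n : ℤ)) hT
  simp only [C_mul_eq_smul, coeff_smul, smul_eq_mul] at hc
  have hcoe : ∀ m : ℕ, (ofPowerSeries ℤ k g).coeff (m : ℤ) = PowerSeries.coeff m g := by
    intro m
    rw [ofPowerSeries_apply_coeff]
  rw [hcoe] at hc
  rw [← hc]
  by_cases hn : ℓ ∣ n
  · obtain ⟨m, rfl⟩ := hn
    rw [if_pos (Dvd.intro m rfl), Nat.mul_div_cancel_left m (Nat.pos_of_ne_zero (NeZero.ne ℓ))]
    have h1 := heckeL_coeff_mul ℓ (ofPowerSeries ℤ k g) (m : ℤ)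
    have e1 : ((ℓ * m : ℕ) : ℤ) = (ℓ : ℤ) * (m : ℤ) := by push_cast; ring
    have e2 : (ℓ : ℤ) * ((ℓ : ℤ) * (m : ℤ)) = ((ℓ * m * ℓ : ℕ) : ℤ) := by push_cast; ring
    rw [e1, h1, hcoe, e2, hcoe]
    ring
  · rw [if_neg hn, add_zero]
    have hn' : ¬ (ℓ : ℤ) ∣ (n : ℤ) := fun hd => hn (Int.natCast_dvd_natCast.mp hd)
    rw [heckeL_coeff_of_not_dvd ℓ _ hn']
    have e2 : (ℓ : ℤ) * (n : ℤ) = ((n * ℓ : ℕ) : ℤ) := by push_cast; ring
    rw [e2, hcoe]

/-- **I2 → I3 bridge.**  `dlog` of the reduction of the Kummer function of an eigenclass is an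
eigen-series: hypothesis = the reduced norm identities `kronNorm ℓ h = c · h ^ (a ℓ) · G ^ p`
for the primes `ℓ ∤ M`, `ℓ ∉ S` (`p ∈ S`). -/
theorem isEigenSeries_of_kronNorm (p : ℕ) [CharP k p] [IsAlgClosed k] (hp : p.Prime) (M : ℕ)
    (S : Finset ℕ) (hpS : p ∈ S) (a : ℕ → ℤ) {h : LaurentSeries k} (h0 : h ≠ 0)
    {g : PowerSeries k} (H : I3.IsDlog h g)
    (hK : ∀ ℓ : ℕ, ℓ.Prime → ¬ ℓ ∣ M → ℓ ∉ S → ∀ _ : NeZero ℓ,
      ∃ (c : k) (G : LaurentSeries k), H400.kronNorm ℓ h = C c * h ^ (a ℓ) * G ^ p) :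
    I3.IsEigenSeries M S a g := by
  intro ℓ hℓ hℓM hℓS n
  haveI : NeZero ℓ := ⟨hℓ.ne_zero⟩
  have hℓp : ℓ ≠ p := fun h => hℓS (h ▸ hpS)
  have hℓk : (ℓ : k) ≠ 0 := by
    intro h1
    have h2 : p ∣ ℓ := (CharP.cast_eq_zero_iff k p ℓ).mp h1
    exact hℓp ((Nat.prime_dvd_prime_iff_eq hp hℓ).mp h2).symm
  haveI : NeZero (ℓ : k) := ⟨hℓk⟩
  obtain ⟨ζ, hζ⟩ := HasEnoughRootsOfUnity.exists_primitiveRoot k ℓ
  obtain ⟨c, G, hG⟩ := hK ℓ hℓ hℓM hℓS ⟨hℓ.ne_zero⟩
  exact coeff_eigen_of_kronNorm_eq p hp.ne_zero hζ hℓk h0 H (a ℓ) c G hG n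

end Fermat.Agent.Ribet.H376

end
end
-- ===== PACK-END Ribet/H376/DlogEigen.lean

-- ===== PACK-BEGIN A2/H729/Kummer.lean
section


/-!
# A2, piece ALG_ss (helper729), versions B and C: the Kummer idempotent

Same setting as `Glue.lean`; `F` is now the Kummer field `F₀(y)`, `y ^ m = u`, `m` invertible
in `R`, and `y ≡ (root of unity)` generically on the special fibre: `y ^ m - 1 ∈ w O`.

* `kummerIdem mi m y = mi * ∑_{i < m} y ^ i` is idempotent modulo `w O`
  (`inW_kummerIdem_sq_sub`), and `(y - 1) * kummerIdem ∈ w O` (`inW_sub_one_mul_kummerIdem`).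
* **Version B** (`kummer_trivial_of_local`): if at every closed point `𝔫 ∋ w` of both charts
  there is `y₁ ≡ y mod w O` and a denominator `s ∉ 𝔫` with `s * y₁` in the chart, then
  `kummerIdem ∈ w O` or `y - 1 ∈ w O`.
* **Version C** (`kummer_trivial_of_local_factorisation`): the same with the local hypothesis
  stated on the charts of a base subalgebra `F₀` (local factorisation `y ^ m = ε * h ^ m`,
  `h ≡ 1 mod w O`, `ε` regular at the point).
-/

set_option autoImplicit false

namespace Fermat.Agent.A2.H729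

open Fermat.Agent.S18.H138

variable {R : Type*} [CommRing R] {F : Type*} [Field F] [Algebra R F]

/-- The Kummer idempotent `(1/m) ∑_{i<m} y^i`. -/
noncomputable def kummerIdem (mi : R) (m : ℕ) (y : F) : F :=
  algebraMap R F mi * ∑ i ∈ Finset.range m, y ^ i

theorem kummerIdem_mem {O : Subalgebra R F} (mi : R) (m : ℕ) {y : F} (hy : y ∈ O) :
    kummerIdem mi m y ∈ O :=
  O.mul_mem (O.algebraMap_mem mi) (O.sum_mem fun i _ => O.pow_mem hy i)

theorem sub_one_mul_geom (m : ℕ) (y : F) :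
    (y - 1) * ∑ i ∈ Finset.range m, y ^ i = y ^ m - 1 := by
  rw [mul_comm]
  exact geom_sum_mul y m

/-- `(y - 1) e₀ ∈ w O`. -/
theorem inW_sub_one_mul_kummerIdem {O : Subalgebra R F} {w : R} (mi : R) (m : ℕ) {y : F}
    (hym : InW O w (y ^ m - 1)) : InW O w ((y - 1) * kummerIdem mi m y) := by
  have : (y - 1) * kummerIdem mi m y = algebraMap R F mi * (y ^ m - 1) := by
    rw [kummerIdem, ← sub_one_mul_geom m y]; ring
  rw [this]
  exact hym.mul_left (O.algebraMap_mem mi)

theorem inW_pow_sub_one_mul_kummerIdem {O : Subalgebra R F} {w : R} (mi : R) (m : ℕ) {y : F}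
    (hy : y ∈ O) (hym : InW O w (y ^ m - 1)) (k : ℕ) :
    InW O w ((y ^ k - 1) * kummerIdem mi m y) := by
  induction k with
  | zero => simpa using InW.zero O w
  | succ k ih =>
    have : (y ^ (k + 1) - 1) * kummerIdem mi m y =
        y * ((y ^ k - 1) * kummerIdem mi m y) + (y - 1) * kummerIdem mi m y := by ring
    rw [this]
    exact (ih.mul_left hy).add (inW_sub_one_mul_kummerIdem mi m hym)

/-- `e₀² ≡ e₀ mod w O`. -/
theorem inW_kummerIdem_sq_sub {O : Subalgebra R F} {w : R} {mi : R} {m : ℕ}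
    (hmi : (m : R) * mi = 1) {y : F} (hy : y ∈ O) (hym : InW O w (y ^ m - 1)) :
    InW O w (kummerIdem mi m y ^ 2 - kummerIdem mi m y) := by
  have hmiF : (m : F) * algebraMap R F mi = 1 := by
    have := congrArg (algebraMap R F) hmi
    simpa using this
  have key : kummerIdem mi m y ^ 2 - kummerIdem mi m y =
      algebraMap R F mi * ∑ i ∈ Finset.range m, (y ^ i - 1) * kummerIdem mi m y := by
    have h1 : ∑ i ∈ Finset.range m, (y ^ i - 1) * kummerIdem mi m y =
        (∑ i ∈ Finset.range m, y ^ i) * kummerIdem mi m y - (m : F) * kummerIdem mi m y := by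
      rw [← Finset.sum_mul, Finset.sum_sub_distrib]
      simp [sub_mul]
    rw [h1]
    have h2 : algebraMap R F mi * ((∑ i ∈ Finset.range m, y ^ i) * kummerIdem mi m y) =
        kummerIdem mi m y ^ 2 := by
      rw [kummerIdem]; ring
    have h3 : algebraMap R F mi * ((m : F) * kummerIdem mi m y) = kummerIdem mi m y := by
      rw [← mul_assoc, mul_comm (algebraMap R F mi), hmiF, one_mul]
    rw [mul_sub, h2, h3]
  rw [key]
  exact (InW.sum _ _ fun i _ => inW_pow_sub_one_mul_kummerIdem mi m hy hym i).mul_left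
    (O.algebraMap_mem mi)

/-- If `e₀ ≡ 1` then `y ≡ 1`. -/
theorem inW_sub_one_of_inW_one_sub_kummerIdem {O : Subalgebra R F} {w : R} (mi : R) (m : ℕ)
    {y : F} (hy : y ∈ O) (hym : InW O w (y ^ m - 1))
    (h : InW O w (1 - kummerIdem mi m y)) : InW O w (y - 1) := by
  have : y - 1 = (y - 1) * kummerIdem mi m y + (y - 1) * (1 - kummerIdem mi m y) := by ring
  rw [this]
  exact (inW_sub_one_mul_kummerIdem mi m hym).add (h.mul_left (O.sub_mem hy O.one_mem))

/-- `y ^ i ≡ y₁ ^ i` if `y ≡ y₁`. -/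
theorem inW_pow_sub_pow {O : Subalgebra R F} {w : R} {y y₁ : F} (hy : y ∈ O) (hy₁ : y₁ ∈ O)
    (h : InW O w (y - y₁)) (i : ℕ) : InW O w (y ^ i - y₁ ^ i) := by
  induction i with
  | zero => simpa using InW.zero O w
  | succ i ih =>
    have : y ^ (i + 1) - y₁ ^ (i + 1) = y * (y ^ i - y₁ ^ i) + (y - y₁) * y₁ ^ i := by ring
    rw [this]
    exact (ih.mul_left hy).add (h.mul_right (O.pow_mem hy₁ i))

/-- Local regularity of the Kummer idempotent from a local integral model of `y`. -/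
theorem kummerIdem_locally_regular {C O : Subalgebra R F} (hCO : C ≤ O) {w : R} (mi : R)
    {m : ℕ} (hm : 0 < m) {y : F} (hy : y ∈ O) (𝔫 : Ideal C) [h𝔫 : 𝔫.IsPrime]
    {s : C} (hs : s ∉ 𝔫) {y₁ : F} (h₁ : InW O w (y - y₁)) (hsy : (s : F) * y₁ ∈ C) :
    ∃ s' : C, s' ∉ 𝔫 ∧ ∃ e ∈ C, InW O w ((s' : F) * kummerIdem mi m y - e) := by
  have hy₁ : y₁ ∈ O := by
    have : y₁ = y - (y - y₁) := by ring
    rw [this]
    exact O.sub_mem hy h₁.mem
  refine ⟨s ^ (m - 1), fun h => hs (h𝔫.mem_of_pow_mem _ h),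
    (s : F) ^ (m - 1) * kummerIdem mi m y₁, ?_, ?_⟩
  · -- `s^(m-1) * e₁ ∈ C`
    have : (s : F) ^ (m - 1) * kummerIdem mi m y₁ =
        algebraMap R F mi * ∑ i ∈ Finset.range m, (s : F) ^ (m - 1 - i) * ((s : F) * y₁) ^ i := by
      rw [kummerIdem, Finset.mul_sum, Finset.mul_sum, Finset.mul_sum]
      refine Finset.sum_congr rfl fun i hi => ?_
      have hi' : i ≤ m - 1 := by
        have := Finset.mem_range.1 hi
        omega
      have : (s : F) ^ (m - 1) = (s : F) ^ (m - 1 - i) * (s : F) ^ i := by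
        rw [← pow_add]; congr 1; omega
      rw [this, mul_pow]; ring
    rw [this]
    exact C.mul_mem (C.algebraMap_mem mi)
      (C.sum_mem fun i _ => C.mul_mem (C.pow_mem s.2 _) (C.pow_mem hsy i))
  · have : ((s ^ (m - 1) : C) : F) * kummerIdem mi m y - (s : F) ^ (m - 1) * kummerIdem mi m y₁ =
        ((s : F) ^ (m - 1) * algebraMap R F mi) * ∑ i ∈ Finset.range m, (y ^ i - y₁ ^ i) := by
      rw [kummerIdem, kummerIdem, Finset.sum_sub_distrib]
      push_cast
      ring
    rw [this]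
    exact (InW.sum _ _ fun i _ => inW_pow_sub_pow hy hy₁ h₁ i).mul_left
      (O.mul_mem (O.pow_mem (hCO s.2) _) (O.algebraMap_mem mi))

section Main

variable [IsNoetherianRing R] [IsIntegrallyClosed (Polynomial R)] [CharZero F]

/-- **ALG_ss, version B.** -/
theorem kummer_trivial_of_local
    (hinjR : Function.Injective (algebraMap R F))
    (hRF : ∀ y : F, IsIntegral R y → y ∈ Set.range (algebraMap R F))
    {x : F} (hx : Transcendental R x) [FiniteDimensional (baseField R x) F]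
    (w : R) (hw : Prime w)
    (O : Subalgebra R F)
    (hfin : chart R ({x} : Set F) ≤ O) (hinf : chart R ({x⁻¹} : Set F) ≤ O)
    (qep_fin : ∀ b ∈ chart R ({x} : Set F), InW O w b →
      ∃ t ∈ chart R ({x} : Set F), b = algebraMap R F w * t)
    (qep_inf : ∀ b ∈ chart R ({x⁻¹} : Set F), InW O w b →
      ∃ t ∈ chart R ({x⁻¹} : Set F), b = algebraMap R F w * t)
    (qep_mid : ∀ b ∈ chart R ({x, x⁻¹} : Set F), InW O w b →
      ∃ t ∈ chart R ({x, x⁻¹} : Set F), b = algebraMap R F w * t)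
    {mi : R} {m : ℕ} (hm : 0 < m) (hmi : (m : R) * mi = 1)
    {y : F} (hy : y ∈ O) (hym : InW O w (y ^ m - 1))
    (hloc_fin : ∀ 𝔫 : Ideal (chart R ({x} : Set F)), 𝔫.IsMaximal →
      algebraMap R (chart R ({x} : Set F)) w ∈ 𝔫 →
      ∃ s : chart R ({x} : Set F), s ∉ 𝔫 ∧
        ∃ y₁ : F, InW O w (y - y₁) ∧ (s : F) * y₁ ∈ chart R ({x} : Set F))
    (hloc_inf : ∀ 𝔫 : Ideal (chart R ({x⁻¹} : Set F)), 𝔫.IsMaximal →
      algebraMap R (chart R ({x⁻¹} : Set F)) w ∈ 𝔫 →
      ∃ s : chart R ({x⁻¹} : Set F), s ∉ 𝔫 ∧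
        ∃ y₁ : F, InW O w (y - y₁) ∧ (s : F) * y₁ ∈ chart R ({x⁻¹} : Set F)) :
    InW O w (kummerIdem mi m y) ∨ InW O w (y - 1) := by
  have h := generic_idempotent_trivial hinjR hRF hx w hw O hfin hinf qep_fin qep_inf qep_mid
    (kummerIdem_mem mi m hy) (inW_kummerIdem_sq_sub hmi hy hym)
    (fun 𝔫 h𝔫 hw𝔫 => by
      obtain ⟨s, hs, y₁, h₁, hsy⟩ := hloc_fin 𝔫 h𝔫 hw𝔫
      have := h𝔫.isPrime
      exact kummerIdem_locally_regular hfin mi hm hy 𝔫 hs h₁ hsy)
    (fun 𝔫 h𝔫 hw𝔫 => by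
      obtain ⟨s, hs, y₁, h₁, hsy⟩ := hloc_inf 𝔫 h𝔫 hw𝔫
      have := h𝔫.isPrime
      exact kummerIdem_locally_regular hinf mi hm hy 𝔫 hs h₁ hsy)
  rcases h with h | h
  · exact Or.inl h
  · exact Or.inr (inW_sub_one_of_inW_one_sub_kummerIdem mi m hy hym h)

end Main

end Fermat.Agent.A2.H729

end
-- ===== PACK-END A2/H729/Kummer.lean

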