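import Mathlib
import Fermat.Prelude.Thm_ModularCurve_coeffMap_qExpand
import Fermat.Prelude.Def_FLTPrelim_Ramification
import Fermat.Agent.Pack.S44.G0E16L1
import Fermat.Agent.Pack.S44.G0E10L0
import Fermat.Agent.Pack.S44.G0E1L2
import Fermat.Agent.Pack.S44.G0E6L2
import Fermat.Agent.Pack.S44.G0E16L2
import Fermat.Agent.Pack.S44.G0E6L1
import Fermat.Agent.Pack.S44.G0E6L0
import Fermat.Agent.Pack.S44.G0E14L2
import Fermat.Agent.Pack.S44.G0E13L1
import Fermat.Agent.Pack.S44.G0E10L2
import Fermat.Agent.Pack.S44.G0E16L3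
import Fermat.Agent.Pack.S44.G0E0L1
import Fermat.Agent.Pack.S44.G0E6L3
import Fermat.Agent.Pack.S44.G0E2L3
import Fermat.Agent.Pack.S44.G0E14L3
import Fermat.Agent.Pack.S44.G0E16L0
import Fermat.Agent.Pack.S44.G0E9L2
import Fermat.Agent.Pack.S44.G0E17L0
import Fermat.Agent.Pack.S44.G0E4L2
import Fermat.Agent.Pack.S44.G0E4L1
import Fermat.Agent.Pack.S44.G0E17L3

-- ===== PACK-BEGIN Lib/Frob/A2/H230/FrobHeight.lean
section



/-!
# Frobenius and the height on odd points (helper230)

* `hh_frob`     : `h (Φ P) = q · h P` on odd points (any finite field, short form, char ≠ 2).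
* `hh_frob_sub` : `h (Φ P - P) = ratDeg (maninFun) · h P` on odd points of `y² = x³ + A x + B`
  over `ZMod p`, `p ≠ 2`.
-/

set_option linter.unusedSectionVars false

open WeierstrassCurve Polynomial
open scoped Polynomial.Bivariate WeierstrassCurve.Affine

namespace Fermat.Agent.Lib.Frob.A2.H230

open Fermat.Agent.Lib.FrobRel.H230 Fermat.Agent.S52.H311 Fermat.Agent.S52.H621

universe u

section General

variable {F : Type u} [Field F] [Fintype F] {W : WeierstrassCurve F} [DecidableEq (KK W)]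

lemma frobPt_mem_oddPts {P : (W⁄(KK W)).Point} (hP : P ∈ oddPts W) :
    _root_.Fermat.Agent.Lib.FrobRel.H230.frobPt W (KK W) P ∈ oddPts W :=
  map_mem_oddPts _ (fun P => frobPt_map W (tau W) P) hP

lemma frobPt_some_exists {L : Type*} [Field L] [Algebra F L] [DecidableEq L] {x y : L}
    (h : (W⁄L).Nonsingular x y) :
    ∃ h' : (W⁄L).Nonsingular (x ^ Fintype.card F) (y ^ Fintype.card F),
      _root_.Fermat.Agent.Lib.FrobRel.H230.frobPt W L (Affine.Point.some x y h)
        = Affine.Point.some (x ^ Fintype.card F) (y ^ Fintype.card F) h' :=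
  ⟨_, frobPt_some W L h⟩

lemma hh_frob (ha₁ : W.a₁ = 0) (ha₃ : W.a₃ = 0) (h2 : (2 : F) ≠ 0)
    {P : (W⁄(KK W)).Point} (hP : P ∈ oddPts W) :
    hh (_root_.Fermat.Agent.Lib.FrobRel.H230.frobPt W (KK W) P) = Fintype.card F * hh P := by
  rcases P with _ | ⟨x, y, h⟩
  · have : _root_.Fermat.Agent.Lib.FrobRel.H230.frobPt W (KK W) (Affine.Point.zero) = 0 := map_zero _
    rw [this]
    show hh (0 : (W⁄(KK W)).Point) = _ * hh (0 : (W⁄(KK W)).Point)
    rw [hh_zero, mul_zero]
  · obtain ⟨S, hS⟩ := exists_ratFunc_of_mem_oddPts ha₁ ha₃ h2 hP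
    obtain ⟨h', e⟩ := frobPt_some_exists h
    rw [e, hh_some_eq h S hS,
      hh_some_eq h' (S ^ Fintype.card F) (by rw [hS, map_pow]), ratDeg_pow]

lemma hh_neg (ha₁ : W.a₁ = 0) (ha₃ : W.a₃ = 0) (h2 : (2 : F) ≠ 0) (hΔ : W.Δ ≠ 0)
    {P : (W⁄(KK W)).Point} (hP : P ∈ oddPts W) : hh (-P) = hh P := by
  have := hh_parallelogram ha₁ ha₃ h2 hΔ (oddPts W).zero_mem hP
  rw [zero_add, zero_sub, hh_zero] at this
  omega

lemma hh_neg_sub_self (ha₁ : W.a₁ = 0) (ha₃ : W.a₃ = 0) (h2 : (2 : F) ≠ 0) (hΔ : W.Δ ≠ 0)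
    {P : (W⁄(KK W)).Point} (hP : P ∈ oddPts W) : hh (-P - P) = 4 * hh P := by
  have := hh_parallelogram ha₁ ha₃ h2 hΔ ((oddPts W).neg_mem hP) hP
  rw [neg_add_cancel, hh_zero, hh_neg ha₁ ha₃ h2 hΔ hP] at this
  omega

end General

section Manin

variable (p : ℕ) [Fact p.Prime] (A B : ZMod p)

lemma maninDen_ne_zero' : maninDen p ≠ 0 := by
  rw [maninDen_eq p 0 0]
  exact mul_ne_zero (cancelPoly_monic p 0 0).ne_zero (redDen_monic p 0 0).ne_zero

variable {p A B}

lemma equation_short {x y : KK (shortW p A B)}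
    (h : ((shortW p A B)⁄(KK (shortW p A B))).Equation x y) :
    y ^ 2 = x ^ 3 + algebraMap (ZMod p) (KK (shortW p A B)) A * x
      + algebraMap (ZMod p) (KK (shortW p A B)) B := by
  rw [Affine.equation_iff] at h
  have h1 : ((shortW p A B)⁄(KK (shortW p A B))).a₁ = 0 := map_zero _
  have h2 : ((shortW p A B)⁄(KK (shortW p A B))).a₂ = 0 := map_zero _
  have h3 : ((shortW p A B)⁄(KK (shortW p A B))).a₃ = 0 := map_zero _
  have h4 : ((shortW p A B)⁄(KK (shortW p A B))).a₄
      = algebraMap (ZMod p) (KK (shortW p A B)) A := rfl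
  have h6 : ((shortW p A B)⁄(KK (shortW p A B))).a₆
      = algebraMap (ZMod p) (KK (shortW p A B)) B := rfl
  rw [h1, h2, h3, h4, h6] at h
  linear_combination h

lemma addX_short (x₁ x₂ l : KK (shortW p A B)) :
    ((shortW p A B)⁄(KK (shortW p A B))).addX x₁ x₂ l = l ^ 2 - x₁ - x₂ := by
  have h1 : ((shortW p A B)⁄(KK (shortW p A B))).a₁ = 0 := map_zero _
  have h2 : ((shortW p A B)⁄(KK (shortW p A B))).a₂ = 0 := map_zero _
  rw [Affine.addX, h1, h2]
  ring

lemma aeval_cubic (x : KK (shortW p A B)) :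
    aeval x (cubic p A B) = x ^ 3 + algebraMap (ZMod p) (KK (shortW p A B)) A * x
      + algebraMap (ZMod p) (KK (shortW p A B)) B := by
  simp [cubic]

lemma aeval_maninDen (x : KK (shortW p A B)) :
    aeval x (maninDen p) = (x ^ p - x) ^ 2 := by
  simp [maninDen]

lemma aeval_maninNum (x : KK (shortW p A B)) :
    aeval x (maninNum p A B) = aeval x (cubic p A B) * (aeval x (cubic p A B) ^ ((p - 1) / 2) + 1) ^ 2
      - (x ^ p + x) * (x ^ p - x) ^ 2 := by
  simp [maninNum]

/-- The `x`-coordinate of `Φ P - P` is Manin's function of the `x`-coordinate of `P`. -/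
lemma manin_x (hp2 : p ≠ 2) {x y : KK (shortW p A B)}
    (heq : ((shortW p A B)⁄(KK (shortW p A B))).Equation x y) (hx : x ^ p ≠ x) :
    ((y ^ p + y) / (x ^ p - x)) ^ 2 - x ^ p - x
      = aeval x (maninNum p A B) / aeval x (maninDen p) := by
  obtain ⟨hm, -, -⟩ := half_spec hp2
  have hy : y ^ p = y * (y ^ 2) ^ ((p - 1) / 2) := by
    have e : y ^ (2 * ((p - 1) / 2) + 1) = y ^ p := congrArg (fun n : ℕ => y ^ n) hm
    rw [← e, pow_succ, pow_mul]
    ring
  have hd : x ^ p - x ≠ 0 := sub_ne_zero.mpr hx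
  rw [aeval_maninNum, aeval_maninDen, aeval_cubic, ← equation_short heq, hy]
  field_simp
  ring

lemma jhat_manin (x : KK (shortW p A B)) (S : RatFunc (ZMod p))
    (hS : x = jhat (shortW p A B) S) :
    jhat (shortW p A B) (aeval S (maninNum p A B) / aeval S (maninDen p))
      = aeval x (maninNum p A B) / aeval x (maninDen p) := by
  rw [map_div₀, hS, Polynomial.aeval_algHom_apply, Polynomial.aeval_algHom_apply]

variable [DecidableEq (KK (shortW p A B))]

/-- **Manin's count on the odd points**: `h (Φ P - P) = ratDeg (maninFun) · h P`. -/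
theorem hh_frob_sub (hp2 : p ≠ 2) (hΔ : (shortW p A B).Δ ≠ 0)
    {P : ((shortW p A B)⁄(KK (shortW p A B))).Point} (hP : P ∈ oddPts (shortW p A B)) :
    hh (_root_.Fermat.Agent.Lib.FrobRel.H230.frobPt (shortW p A B) (KK (shortW p A B)) P - P)
      = ratDeg (maninFun p A B) * hh P := by
  have ha₁ : (shortW p A B).a₁ = 0 := rfl
  have ha₃ : (shortW p A B).a₃ = 0 := rfl
  have h2 : (2 : ZMod p) ≠ 0 := two_ne_zero_zmod p hp2
  have hq : Fintype.card (ZMod p) = p := ZMod.card p
  rcases P with _ | ⟨x, y, h⟩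
  · have e0 : _root_.Fermat.Agent.Lib.FrobRel.H230.frobPt (shortW p A B) (KK (shortW p A B)) (Affine.Point.zero) - Affine.Point.zero
        = (0 : ((shortW p A B)⁄(KK (shortW p A B))).Point) := by
      have : (Affine.Point.zero : ((shortW p A B)⁄(KK (shortW p A B))).Point) = 0 := rfl
      rw [this, map_zero, sub_zero]
    rw [e0]
    show hh (0 : ((shortW p A B)⁄(KK (shortW p A B))).Point)
      = _ * hh (0 : ((shortW p A B)⁄(KK (shortW p A B))).Point)
    rw [hh_zero, mul_zero]
  · obtain ⟨S, hS⟩ := exists_ratFunc_of_mem_oddPts ha₁ ha₃ h2 hP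
    obtain ⟨h', e⟩ := frobPt_some_exists h
    by_cases hx : x ^ p = x
    · -- constant `x`-coordinate
      have hS0 : ratDeg S = 0 := by
        have hSp : S ^ p = S := jhat_injective _ (by rw [map_pow, ← hS, hx])
        have h3 := ratDeg_pow S p
        rw [hSp] at h3
        have h4 := (Fact.out : p.Prime).two_le
        by_contra hne
        have : 0 < ratDeg S := Nat.pos_of_ne_zero hne
        nlinarith
      have hhP : hh (Affine.Point.some x y h) = 0 := by rw [hh_some_eq h S hS, hS0]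
      rw [hhP, mul_zero]
      have hxx : x ^ Fintype.card (ZMod p) = x := by rw [hq]; exact hx
      rcases (Affine.Point.X_eq_iff (h₁ := h') (h₂ := h)).mp hxx with e1 | e1
      · rw [e, e1, sub_self]; exact hh_zero
      · rw [e, e1, hh_neg_sub_self ha₁ ha₃ h2 hΔ hP, hhP, mul_zero]
    · -- generic case
      have hxne : x ^ Fintype.card (ZMod p) ≠ x := by rw [hq]; exact hx
      rw [e, sub_eq_add_neg, Affine.Point.neg_some, Affine.Point.add_of_X_ne hxne]
      rw [hh_some_eq _ (aeval S (maninNum p A B) / aeval S (maninDen p)),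
        ratDeg_comp _ _ (maninDen_ne_zero' p) S, hh_some_eq h S hS]
      · rfl
      · rw [jhat_manin x S hS, ← manin_x hp2 h.1 hx, addX_short, Affine.slope_of_X_ne hxne,
          negY_eq_neg ha₁ ha₃, hq, sub_neg_eq_add]

end Manin

end Fermat.Agent.Lib.Frob.A2.H230

end
-- ===== PACK-END Lib/Frob/A2/H230/FrobHeight.lean

-- ===== PACK-BEGIN S13/H129/T4.lean
section




/-!
# S13, piece T4 in the frozen interface shape of `Fermat.Agent.S13.Skel.result_of_parts`
-/

set_option autoImplicit false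

namespace Fermat.Agent.S13.H129

open WeierstrassCurve WeierstrassCurve.Affine WeierstrassCurve.Affine.Point

/-- **T4 (for every place over `2`).** -/
theorem T4_forall (P : FreyPackage) (A : ValuationSubring (AlgebraicClosure ℚ))
    (hA : A.LiesOverPrime 2) :
    ∀ σ ∈ A.inertiaSubgroupIn ℚ, ∀ x : Skel.Vp P, σ • (σ • x - x) = σ • x - x :=
  fun σ hσ x => frey_inertia_two_unipotent_Qbar P A hA σ hσ x

/-- **T4**, exactly the hypothesis `hT4` of `Skel.result_of_parts`. -/
theorem T4 (P : FreyPackage) :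
    ∃ A : ValuationSubring (AlgebraicClosure ℚ), A.LiesOverPrime 2 ∧
      ∀ σ ∈ A.inertiaSubgroupIn ℚ, ∀ x : Skel.Vp P, σ • (σ • x - x) = σ • x - x := by
  obtain ⟨A, hA⟩ := Fermat.Agent.S54.exists_valuationSubring_liesOver 2 Nat.prime_two
  exact ⟨A, hA, T4_forall P A hA⟩

end Fermat.Agent.S13.H129

end
-- ===== PACK-END S13/H129/T4.lean

-- ===== PACK-BEGIN Ribet/H375/PeuGlue.lean
section







/-!
# RIBET / WALL-p / ELOC-ord: the glue `(K) + (F) + (U) ⇒ (PEU)`  (helper375)

See the header of `ELOCOrdSpec.lean`.  `(K)` is `kummer_unit` (proved, `KummerUnit.lean`).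
-/

set_option autoImplicit false
set_option linter.style.haveILetI false
set_option linter.unusedSectionVars false

open WeierstrassCurve WeierstrassCurve.Affine WeierstrassCurve.Affine.Point

namespace Fermat.Agent.Ribet.H375

open Fermat.Agent.Ribet.Spec Fermat.Agent.Ribet.H944.Wall
open Fermat.Agent.S05.SameRed (InKer IntegralCoeffs)

/-- **(K)** in the frozen form. -/
theorem kummerUnitStatement : KummerUnitStatement := by
  intro L _ A G _ _ p hp hpL _ ζ hζ hζG c γ hγ b hb hb0 hval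
  obtain ⟨y, -, h⟩ := kummer_unit A p hp hpL ζ hζ hζG c γ hγ b hb hb0 hval
  exact ⟨y, h⟩

/-- the `x`-coordinate of a point (`0` at infinity) -/
noncomputable def xc {E : WeierstrassCurve ℚ} :
    (E⁄(AlgebraicClosure ℚ)).Point → AlgebraicClosure ℚ
  | .zero => 0
  | .some x _ _ => x

lemma xc_smul {E : WeierstrassCurve ℚ} (σ : GQ) (P : (E⁄(AlgebraicClosure ℚ)).Point) :
    xc (σ • P) = σ (xc P) := by
  rcases P with _ | ⟨x, y, h⟩
  · show (0 : AlgebraicClosure ℚ) = σ 0
    rw [_root_.map_zero]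
  · rfl

/-- the subgroup of inertia fixing the `p`-th roots of unity -/
def inertiaOne (A : ValuationSubring (AlgebraicClosure ℚ)) (p : ℕ) : Subgroup GQ where
  carrier := {τ | τ ∈ A.inertiaSubgroupIn ℚ ∧ CycloAt p τ 1}
  mul_mem' := by
    rintro τ τ' ⟨h1, h2⟩ ⟨h1', h2'⟩
    refine ⟨mul_mem h1 h1', fun ζ hζ => ?_⟩
    have e1 := h2' ζ hζ
    have e2 := h2 ζ hζ
    rw [pow_one] at e1 e2 ⊢
    show τ (τ' ζ) = ζ
    rw [e1, e2]
  one_mem' := ⟨one_mem _, fun ζ _ => by rw [pow_one]; rfl⟩
  inv_mem' := by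
    rintro τ ⟨h1, h2⟩
    refine ⟨inv_mem h1, fun ζ hζ => ?_⟩
    have e2 := h2 ζ hζ
    rw [pow_one] at e2 ⊢
    calc τ⁻¹ ζ = τ⁻¹ (τ ζ) := by rw [e2]
      _ = ζ := by
        show (τ⁻¹ * τ) ζ = ζ
        rw [inv_mul_cancel]
        rfl

lemma inertiaOne_smul (A : ValuationSubring (AlgebraicClosure ℚ)) (p : ℕ)
    (τ : inertiaOne A p) (a : AlgebraicClosure ℚ) : τ • a = (τ : GQ) a := rfl

/-- **The glue**: `(F) + (U) ⇒ (PEU)`  (with `(K)` proved). -/
theorem elocPeu_of (hF : FirstOrderStatement) (hU : TwoUnitStatement) : ELOCPeuStatement := by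
  intro W p hΔ hp hp2 hgood A hA t ht x hx σ hσ
  haveI : Fact p.Prime := ⟨hp⟩
  haveI : NeZero p := ⟨hp.ne_zero⟩
  obtain ⟨htE1, hta, htb, -⟩ := ht
  have hσ1 : CycloAt p σ 1 := cycloAt_one_of_peuFixes hp.pos hσ
  -- torsion
  have hpt : p • (t : ((W.map (Int.castRingHom ℚ))⁄(AlgebraicClosure ℚ)).Point) = 0 := by
    have := nsmul_torsion_eq_zero t
    exact congrArg Subtype.val this
  have hpx : p • (x : ((W.map (Int.castRingHom ℚ))⁄(AlgebraicClosure ℚ)).Point) = 0 := by
    have := nsmul_torsion_eq_zero x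
    exact congrArg Subtype.val this
  -- the point `t`
  rcases ht' : (t : ((W.map (Int.castRingHom ℚ))⁄(AlgebraicClosure ℚ)).Point)
    with _ | ⟨X, Y, hT⟩
  · -- `t = 0`
    have ht0 : t = 0 := Subtype.ext ht'
    obtain ⟨n, hn⟩ := htb x σ hσ.1
    rw [hn, ht0, smul_zero, add_zero]
  -- the point `x`
  rcases hx' : (x : ((W.map (Int.castRingHom ℚ))⁄(AlgebraicClosure ℚ)).Point)
    with _ | ⟨x0, y0, h0⟩
  · exfalso
    apply hx
    unfold InE1
    rw [hx']
    trivial
  have hXA : X ∉ A := by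
    have h1 : InKer _ A.valuation (t : ((W.map (Int.castRingHom ℚ))⁄(AlgebraicClosure ℚ)).Point) :=
      htE1
    rw [ht'] at h1
    have h2 : 1 < A.valuation X := h1
    intro hXmem
    exact absurd ((A.valuation_le_one_iff X).mpr hXmem) (not_le.mpr h2)
  have hx0A : x0 ∈ A := by
    have h1 : ¬ InKer _ A.valuation
        (x : ((W.map (Int.castRingHom ℚ))⁄(AlgebraicClosure ℚ)).Point) := hx
    rw [hx'] at h1
    have h2 : ¬ 1 < A.valuation x0 := h1
    exact (A.valuation_le_one_iff x0).mp (not_lt.mp h2)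
  have hX0 : X ≠ 0 := by
    rintro rfl
    exact hXA (zero_mem A)
  -- (U) and (F)
  have hpx' : p • (Point.some x0 y0 h0) = 0 := by rw [← hx']; exact hpx
  have hunit := hU W p hΔ hp hp2 hgood A hA x0 y0 h0 hpx' hx0A
  obtain ⟨x₃, y₃, h₃, hadd, -, hval₃⟩ :=
    hF (AlgebraicClosure ℚ) A _ (Fermat.Agent.S59.H899.integralCoeffs W A) x0 y0 X Y h0 hT
      hx0A hXA hunit
  have hY0 : Y ≠ 0 := by
    rintro rfl
    rw [mul_zero, zero_div, _root_.map_zero] at hval₃
    exact zero_ne_one hval₃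
  -- elements of `inertiaOne` fix `t`
  have hτt : ∀ τ : inertiaOne A p, (τ : GQ) • t = t := by
    intro τ
    have := hta τ.1 τ.2.1 1 τ.2.2
    rwa [one_smul] at this
  have hτXY : ∀ τ : inertiaOne A p, (τ : GQ) X = X ∧ (τ : GQ) Y = Y := by
    intro τ
    have h1 : (τ : GQ) • (t : ((W.map (Int.castRingHom ℚ))⁄(AlgebraicClosure ℚ)).Point) = t :=
      congrArg Subtype.val (hτt τ)
    rw [ht', Fermat.Agent.S05.GoodRed.smul_some] at h1
    have h2 := Point.some.inj h1
    exact h2
  -- the cocycle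
  have hex : ∀ τ : inertiaOne A p, ∃ n : ℕ, (τ : GQ) • x = x + n • t :=
    fun τ => htb x τ.1 τ.2.1
  choose n hn using hex
  set c : inertiaOne A p → ZMod p := fun τ => (n τ : ZMod p) with hc
  have hn' : ∀ τ : inertiaOne A p,
      (τ : GQ) • (x : ((W.map (Int.castRingHom ℚ))⁄(AlgebraicClosure ℚ)).Point)
        = x + n τ • (t : ((W.map (Int.castRingHom ℚ))⁄(AlgebraicClosure ℚ)).Point) := by
    intro τ
    calc (τ : GQ) • (x : ((W.map (Int.castRingHom ℚ))⁄(AlgebraicClosure ℚ)).Point)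
        = (((τ : GQ) • x : ETorsion (W.map (Int.castRingHom ℚ)) p) :
            ((W.map (Int.castRingHom ℚ))⁄(AlgebraicClosure ℚ)).Point) := rfl
      _ = ((x + n τ • t : ETorsion (W.map (Int.castRingHom ℚ)) p) :
            ((W.map (Int.castRingHom ℚ))⁄(AlgebraicClosure ℚ)).Point) := by rw [hn τ]
      _ = _ := by
        rw [Submodule.coe_add, AddSubmonoidClass.coe_nsmul]
  -- the family `γ`
  set γ : ZMod p → AlgebraicClosure ℚ := fun j =>
    xc ((x : ((W.map (Int.castRingHom ℚ))⁄(AlgebraicClosure ℚ)).Point) +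
      j.val • (t : ((W.map (Int.castRingHom ℚ))⁄(AlgebraicClosure ℚ)).Point)) with hγdef
  have hγ : ∀ (τ : inertiaOne A p) (j : ZMod p), τ • γ j = γ (j + c τ) := by
    intro τ j
    rw [inertiaOne_smul]
    simp only [hγdef, hc]
    rw [← xc_smul]
    have hsa := smul_add (τ : GQ) (x : ((W.map (Int.castRingHom ℚ))⁄(AlgebraicClosure ℚ)).Point)
      (j.val • (t : ((W.map (Int.castRingHom ℚ))⁄(AlgebraicClosure ℚ)).Point))
    rw [hsa, hn' τ]
    have h1 : (τ : GQ) • (j.val • (t : ((W.map (Int.castRingHom ℚ))⁄(AlgebraicClosure ℚ)).Point))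
        = j.val • t := by
      rw [← natCast_zsmul, Point.algEquiv_smul_zsmul]
      have : (τ : GQ) • (t : ((W.map (Int.castRingHom ℚ))⁄(AlgebraicClosure ℚ)).Point) = t :=
        congrArg Subtype.val (hτt τ)
      rw [this]
    rw [h1]
    congr 1
    rw [add_assoc]
    congr 1
    rw [← add_nsmul, ZMod.val_add, ZMod.val_natCast, ← nsmul_eq_mod_nsmul _ hpt,
      nsmul_eq_mod_nsmul (n τ + j.val) hpt, nsmul_eq_mod_nsmul (j.val + n τ % p) hpt]
    congr 1
    rw [Nat.add_mod (n τ) j.val p, Nat.add_mod j.val (n τ % p) p, Nat.mod_mod, add_comm]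
  -- the primitive root
  have hpQ : ((p : ℕ) : AlgebraicClosure ℚ) ≠ 0 := Nat.cast_ne_zero.mpr hp.ne_zero
  set ζ : AlgebraicClosure ℚ := Fermat.Agent.S55.H414.zetaBar p with hζdef
  have hζ : IsPrimitiveRoot ζ p := Fermat.Agent.S55.H414.zetaBar_spec p
  have hζG : ∀ τ : inertiaOne A p, τ • ζ = ζ := by
    intro τ
    rw [inertiaOne_smul]
    have := τ.2.2 ζ hζ.pow_eq_one
    rwa [pow_one] at this
  -- the fixed element `b = X / Y`
  have hb : ∀ τ : inertiaOne A p, τ • (X / Y) = X / Y := by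
    intro τ
    rw [inertiaOne_smul, map_div₀, (hτXY τ).1, (hτXY τ).2]
  have hb0 : X / Y ≠ 0 := div_ne_zero hX0 hY0
  have hγ0 : γ 0 = x0 := by
    simp only [hγdef]
    rw [ZMod.val_zero, zero_nsmul, add_zero, hx']
    rfl
  have hγ1 : γ 1 = x₃ := by
    simp only [hγdef]
    haveI : Fact (1 < p) := ⟨hp.one_lt⟩
    rw [ZMod.val_one, one_nsmul, hx', ht', hadd]
    rfl
  have hval : A.valuation ((γ 1 - γ 0) / (X / Y)) = 1 := by
    rw [hγ0, hγ1]
    have : (x₃ - x0) / (X / Y) = (x₃ - x0) * Y / X := by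
      field_simp
    rw [this]
    exact hval₃
  obtain ⟨y, hy0, hyA, hyA', hyτ⟩ :=
    kummer_unit A (G := inertiaOne A p) p hp hpQ ζ hζ hζG c γ hγ (X / Y) hb hb0 hval
  -- `σ` fixes `y`
  have hσy : σ y = y := by
    refine hσ.2 y hyA hyA' (fun τ hτ hτ1 => ?_)
    have hmem : τ ∈ inertiaOne A p := ⟨hτ, hτ1⟩
    have h1 := hyτ ⟨τ, hmem⟩
    rw [inertiaOne_smul] at h1
    have h2 : τ y = ζ ^ (c ⟨τ, hmem⟩).val * y := h1
    rw [map_pow, h2, mul_pow, ← pow_mul, mul_comm _ p, pow_mul, hζ.pow_eq_one, one_pow, one_mul]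
  have hσmem : σ ∈ inertiaOne A p := ⟨hσ.1, hσ1⟩
  have h3 := hyτ ⟨σ, hσmem⟩
  rw [inertiaOne_smul] at h3
  have h4 : σ y = ζ ^ (c ⟨σ, hσmem⟩).val * y := h3
  rw [hσy] at h4
  have h5 : ζ ^ (c ⟨σ, hσmem⟩).val = 1 := by
    have : (1 : AlgebraicClosure ℚ) * y = ζ ^ (c ⟨σ, hσmem⟩).val * y := by
      rw [one_mul]
      exact h4
    exact (mul_right_cancel₀ hy0 this).symm
  have h6 : c ⟨σ, hσmem⟩ = 0 := (kChar_eq_one_iff hζ _).mp h5
  have h7 : (n ⟨σ, hσmem⟩ : ZMod p) = 0 := h6
  have h8 : p ∣ n ⟨σ, hσmem⟩ := (ZMod.natCast_eq_zero_iff _ _).mp h7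
  have h10 : (σ : GQ) • x = x + n ⟨σ, hσmem⟩ • t := hn ⟨σ, hσmem⟩
  rw [h10]
  obtain ⟨k, hk⟩ := h8
  rw [hk, mul_nsmul, nsmul_torsion_eq_zero, smul_zero, add_zero]

end Fermat.Agent.Ribet.H375

end
-- ===== PACK-END Ribet/H375/PeuGlue.lean

-- ===== PACK-BEGIN Ribet/H215/TwoUnit.lean
section




/-!
# Row 38, WALL-p, ELOC-ord, leaf (U): `2y + a₁x + a₃` is a unit (helper215)

`twoUnit : Fermat.Agent.Ribet.H375.TwoUnitStatement`.

Proof: if `u = 2y + a₁x + a₃` is not a unit at `A`, then `P = (x, y)` and `-P` have the same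
(nonsingular, as `p ∤ Δ`) reduction, so `2P = P - (-P)` is in the kernel of reduction `E₁`
(`S05.SameRed.inKer_sub_of_same_reduction`); `E₁` is a subgroup (`Lib.Red.H290.inKer_add`) and `p` is
odd with `pP = 0`, so `P ∈ E₁`, i.e. `x ∉ A`.
-/

set_option autoImplicit false

open WeierstrassCurve WeierstrassCurve.Affine WeierstrassCurve.Affine.Point

namespace Fermat.Agent.Ribet.H215

open Fermat.Agent.S05.SameRed

section general

variable {K : Type*} [Field K] [DecidableEq K]
  {Γ₀ : Type*} [LinearOrderedCommGroupWithZero Γ₀]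
  {W : Affine K} {v : Valuation K Γ₀}

/-- The kernel of reduction is stable under `n • ·`. -/
theorem inKer_nsmul_h215 (hW : IntegralCoeffs W v) {P : W.Point} (hP : InKer W v P) (n : ℕ) :
    InKer W v (n • P) := by
  induction n with
  | zero => rw [zero_smul]; exact inKer_zero
  | succ n ih => rw [succ_nsmul]; exact Fermat.Agent.Lib.Red.H290.inKer_add hW ih hP

/-- **(U), general valuation.**  Integral coefficients, unit discriminant, `P = (x, y)` integral
and killed by an odd number `n`: `2y + a₁x + a₃` is a unit. -/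
theorem twoUnit_val_h215 (hW : IntegralCoeffs W v) (hΔ : v W.Δ = 1) {x y : K}
    (h : W.Nonsingular x y) (hx : v x ≤ 1) {n : ℕ} (hn : Odd n)
    (hP : n • (Point.some x y h) = 0) :
    v (2 * y + W.a₁ * x + W.a₃) = 1 := by
  by_contra hu
  have hy : v y ≤ 1 := Fermat.Agent.S05.GoodRed.val_y_le_one hW h.1 hx
  have hns := Fermat.Agent.S05.GoodRed.nonsingular_reduction_of_val_Δ hW hΔ h.1 hx
  have hX : v (W.a₁ * y - (3 * x ^ 2 + 2 * W.a₂ * x + W.a₄)) = 1 := hns.resolve_right hu
  have hule : v (2 * y + W.a₁ * x + W.a₃) ≤ 1 := by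
    refine val_add_le_one (val_add_le_one (val_mul_le_one ?_ hy) (val_mul_le_one hW.a₁ hx)) hW.a₃
    exact_mod_cast val_natCast_le_one (v := v) 2
  have hult : v (2 * y + W.a₁ * x + W.a₃) < 1 := lt_of_le_of_ne hule hu
  have hneg : W.Nonsingular x (W.negY x y) := (Affine.nonsingular_neg x y).mpr h
  have hnegY : v (W.negY x y) ≤ 1 := by
    have : W.negY x y = -y - W.a₁ * x - W.a₃ := rfl
    rw [this]
    exact val_sub_le_one (val_sub_le_one (by rwa [Valuation.map_neg]) (val_mul_le_one hW.a₁ hx))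
      hW.a₃
  have hker : InKer W v (Point.some x y h - Point.some x (W.negY x y) hneg) := by
    refine inKer_sub_of_same_reduction hW h hneg hx hy hx hnegY ?_ ?_ (Or.inl hX)
    · rw [sub_self, _root_.map_zero]; exact zero_lt_one
    · have : y - W.negY x y = 2 * y + W.a₁ * x + W.a₃ := by
        simp only [Affine.negY]; ring
      rw [this]; exact hult
  have hdbl : Point.some x y h - Point.some x (W.negY x y) hneg = 2 • Point.some x y h := by
    rw [← Point.neg_some, sub_neg_eq_add, two_nsmul]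
  rw [hdbl] at hker
  obtain ⟨k, hk⟩ := hn
  have hPk : Point.some x y h = -(k • (2 • Point.some x y h)) := by
    have h1 : n • Point.some x y h = k • (2 • Point.some x y h) + Point.some x y h := by
      rw [hk, add_smul, one_smul, mul_comm, mul_smul]
    rw [hP] at h1
    exact eq_neg_of_add_eq_zero_right h1.symm
  have hfin : InKer W v (Point.some x y h) := by
    rw [hPk]
    exact Fermat.Agent.Lib.Red.H290.inKer_neg (inKer_nsmul_h215 hW hker k)
  rw [inKer_some] at hfin
  exact absurd hx (not_le.mpr hfin)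

end general

section concrete

variable (W : WeierstrassCurve ℤ) (A : ValuationSubring (AlgebraicClosure ℚ))

/-- Integers are integral at every valuation subring of `ℚ̄`. -/
theorem val_intCast_le_one_h215 (n : ℤ) : A.valuation ((n : ℚ) : AlgebraicClosure ℚ) ≤ 1 := by
  rw [A.valuation_le_one_iff]
  have : ((n : ℚ) : AlgebraicClosure ℚ) = ((n : ℤ) : AlgebraicClosure ℚ) := by push_cast; rfl
  rw [this]
  exact intCast_mem A n

/-- The base change to `ℚ̄` of a Weierstrass curve over `ℤ` has integral coefficients. -/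
theorem integralCoeffs_int_h215 :
    IntegralCoeffs ((W.map (Int.castRingHom ℚ))⁄(AlgebraicClosure ℚ)) A.valuation where
  a₁ := val_intCast_le_one_h215 A W.a₁
  a₂ := val_intCast_le_one_h215 A W.a₂
  a₃ := val_intCast_le_one_h215 A W.a₃
  a₄ := val_intCast_le_one_h215 A W.a₄
  a₆ := val_intCast_le_one_h215 A W.a₆

/-- At a prime of good reduction the discriminant is a unit. -/
theorem val_Δ_eq_one_h215 {p : ℕ} (hp : p.Prime) (hgood : W.IsGoodPrimeFor p)
    (hA : A.LiesOverPrime p) :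
    A.valuation ((W.map (Int.castRingHom ℚ))⁄(AlgebraicClosure ℚ)).Δ = 1 := by
  have hΔ : ((W.map (Int.castRingHom ℚ))⁄(AlgebraicClosure ℚ)).Δ
      = ((W.Δ : ℤ) : AlgebraicClosure ℚ) := by
    have e1 : ((W.map (Int.castRingHom ℚ))⁄(AlgebraicClosure ℚ)).Δ
        = algebraMap ℚ (AlgebraicClosure ℚ) (W.map (Int.castRingHom ℚ)).Δ :=
      WeierstrassCurve.map_Δ ..
    rw [e1, WeierstrassCurve.map_Δ]
    simp
  rw [hΔ]
  have hq' : A.valuation (p : AlgebraicClosure ℚ) < 1 := (A.mem_nonunits_iff).mp hA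
  have hle : ∀ m : ℤ, A.valuation (m : AlgebraicClosure ℚ) ≤ 1 := fun m =>
    (A.valuation_le_one_iff _).mpr (intCast_mem A m)
  have hcop : IsCoprime (p : ℤ) W.Δ :=
    (Prime.coprime_iff_not_dvd (Nat.prime_iff_prime_int.mp hp)).mpr hgood
  obtain ⟨u, w, huw⟩ := hcop
  have h1 : (u : AlgebraicClosure ℚ) * (p : AlgebraicClosure ℚ)
      + (w : AlgebraicClosure ℚ) * ((W.Δ : ℤ) : AlgebraicClosure ℚ) = 1 := by
    exact_mod_cast congrArg (Int.cast : ℤ → AlgebraicClosure ℚ) huw
  have hsmall : A.valuation ((u : AlgebraicClosure ℚ) * (p : AlgebraicClosure ℚ)) < 1 := by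
    rw [map_mul]
    exact (mul_le_of_le_one_left' (hle u)).trans_lt hq'
  have hwn : A.valuation ((w : AlgebraicClosure ℚ) * ((W.Δ : ℤ) : AlgebraicClosure ℚ)) = 1 := by
    have : (w : AlgebraicClosure ℚ) * ((W.Δ : ℤ) : AlgebraicClosure ℚ)
        = 1 + -((u : AlgebraicClosure ℚ) * (p : AlgebraicClosure ℚ)) := by
      linear_combination h1
    rw [this, (A.valuation).map_add_eq_of_lt_left
      (by rw [Valuation.map_neg, map_one]; exact hsmall), map_one]
  rw [map_mul] at hwn
  refine le_antisymm (hle _) ?_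
  calc (1 : A.ValueGroup)
      = A.valuation (w : AlgebraicClosure ℚ) * A.valuation ((W.Δ : ℤ) : AlgebraicClosure ℚ) :=
        hwn.symm
    _ ≤ 1 * A.valuation ((W.Δ : ℤ) : AlgebraicClosure ℚ) := mul_le_mul_left (hle w) _
    _ = A.valuation ((W.Δ : ℤ) : AlgebraicClosure ℚ) := one_mul _

end concrete

/-- **Leaf (U)** of ELOC-ord: `H375.TwoUnitStatement`. -/
theorem twoUnit : Fermat.Agent.Ribet.H375.TwoUnitStatement := by
  intro W p _ hp hp2 hgood A hA x y h hP hx
  have hodd : Odd p := hp.odd_of_ne_two hp2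
  exact twoUnit_val_h215 (integralCoeffs_int_h215 W A) (val_Δ_eq_one_h215 W A hp hgood hA) h
    ((A.valuation_le_one_iff x).mpr hx) hodd hP

end Fermat.Agent.Ribet.H215

end
-- ===== PACK-END Ribet/H215/TwoUnit.lean

-- ===== PACK-BEGIN S15/H242/E0Red.lean
section



/-!
# S15, piece P-LOC (helper242), part 3: the reduction homomorphism on `E⁰`

`A : ValuationSubring K`, `φ : A →+* κ` with kernel the maximal ideal, `W` a Weierstrass curve over
`K` with coefficients in `A`, reducing to `Wκ` (NO hypothesis on `Wκ.Δ`: bad reduction allowed).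

* `InE0 A φ Wκ P` : `P` is `0`, or non-integral (in the kernel of reduction `E₁`), or integral with
  NONSINGULAR reduction;
* `red0 A φ Wκ : W.Point → Wκ.Point` : the reduction map (zero outside `E⁰`);
* `inE0_add`, `inE0_neg`, `inE0_nsmul` : `E⁰` is a subgroup;
* `red0_add`, `red0_neg`, `red0_nsmul` : `red0` is additive on `E⁰`;
* `red0_eq_zero_iff` : the kernel of `red0` on `E⁰` is `E₁`;
* `addOrderOf_red0` : a point of `E⁰` of prime order `p`, `p` a unit of `A`, reduces to a point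
  of order `p`.

This generalises `Fermat.Agent.Lib.Red.H290` (good reduction) to the nonsingular locus of a
possibly singular reduction.
-/

set_option autoImplicit false

namespace Fermat.Agent.S15.H242

open WeierstrassCurve WeierstrassCurve.Affine
open Fermat.Agent.S05.SameRed (IntegralCoeffs InKer inKer_zero inKer_some
  inKer_sub_of_same_reduction)
open Fermat.Agent.Lib.Red.H290

variable {K : Type*} [Field K] [DecidableEq K] {κ : Type*} [Field κ] [DecidableEq κ]
variable {A : ValuationSubring K} {φ : A →+* κ} {W : Affine K} {Wκ : Affine κ}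

/-- `P` lies in `E⁰`: either `P` is not integral (or `P = 0`), or its reduction is a nonsingular
point of the reduced cubic. -/
def InE0 (A : ValuationSubring K) (φ : A →+* κ) (Wκ : Affine κ) : W.Point → Prop
  | .zero => True
  | .some x y _ => x ∈ A → Wκ.Nonsingular (rd A φ x) (rd A φ y)

/-- The reduction map, defined to be `0` outside `E⁰`. -/
noncomputable def red0 (A : ValuationSubring K) (φ : A →+* κ) (Wκ : Affine κ) :
    W.Point → Wκ.Point
  | .zero => 0
  | .some x y _ =>
    open Classical in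
    if hx : x ∈ A ∧ Wκ.Nonsingular (rd A φ x) (rd A φ y) then Point.some _ _ hx.2 else 0

section basic

omit [DecidableEq K] [DecidableEq κ] in
@[simp] lemma inE0_zero : InE0 A φ Wκ (0 : W.Point) := trivial

omit [DecidableEq K] [DecidableEq κ] in
lemma inE0_some_iff {x y : K} (h : W.Nonsingular x y) :
    InE0 A φ Wκ (Point.some x y h) ↔ (x ∈ A → Wκ.Nonsingular (rd A φ x) (rd A φ y)) := Iff.rfl

omit [DecidableEq K] [DecidableEq κ] in
@[simp] lemma red0_zero : red0 A φ Wκ (0 : W.Point) = 0 := rfl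

omit [DecidableEq K] [DecidableEq κ] in
lemma red0_some_of_mem {x y : K} (h : W.Nonsingular x y) (hx : x ∈ A)
    (hns : Wκ.Nonsingular (rd A φ x) (rd A φ y)) :
    red0 A φ Wκ (Point.some x y h) = Point.some (rd A φ x) (rd A φ y) hns := by
  simp only [red0, hx, hns, and_self, dite_true]

omit [DecidableEq K] [DecidableEq κ] in
lemma red0_some_of_not_mem {x y : K} (h : W.Nonsingular x y) (hx : x ∉ A) :
    red0 A φ Wκ (Point.some x y h) = 0 := by
  simp only [red0, hx, false_and, dite_false]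

omit [DecidableEq K] [DecidableEq κ] in
lemma inE0_of_inKer {P : W.Point} (hP : InKer W A.valuation P) : InE0 A φ Wκ P := by
  rcases P with _ | ⟨x, y, hxy⟩
  · trivial
  · intro hx
    exact absurd hx (not_mem_iff_one_lt.mpr hP)

omit [DecidableEq K] [DecidableEq κ] in
lemma red0_of_inKer {P : W.Point} (hP : InKer W A.valuation P) : red0 A φ Wκ P = 0 := by
  rcases P with _ | ⟨x, y, hxy⟩
  · rfl
  · exact red0_some_of_not_mem hxy (not_mem_iff_one_lt.mpr hP)

omit [DecidableEq K] [DecidableEq κ] in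
/-- On `E⁰`, the kernel of reduction is `E₁`. -/
theorem red0_eq_zero_iff {P : W.Point} (hP : InE0 A φ Wκ P) :
    red0 A φ Wκ P = 0 ↔ InKer W A.valuation P := by
  refine ⟨fun h0 => ?_, red0_of_inKer⟩
  rcases P with _ | ⟨x, y, hxy⟩
  · trivial
  · by_contra hk
    have hx : x ∈ A := by
      by_contra hx
      exact hk (not_mem_iff_one_lt.mp hx)
    rw [red0_some_of_mem hxy hx (hP hx)] at h0
    exact Point.some_ne_zero _ h0

end basic

section neg

variable (h : IsRedOf A φ W Wκ)
include h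

omit [DecidableEq κ] in
theorem inE0_neg {P : W.Point} (hP : InE0 A φ Wκ P) : InE0 A φ Wκ (-P) := by
  rcases P with _ | ⟨x, y, hxy⟩
  · trivial
  · rw [Point.neg_some]
    intro hx
    have hy := y_mem_of_x_mem h hxy.1 hx
    rw [rd_negY h hx hy]
    exact (Affine.nonsingular_neg ..).mpr (hP hx)

theorem red0_neg {P : W.Point} (hP : InE0 A φ Wκ P) :
    red0 A φ Wκ (-P) = -red0 A φ Wκ P := by
  rcases P with _ | ⟨x, y, hxy⟩
  · rfl
  · have hneg := inE0_neg h hP
    rw [Point.neg_some] at hneg ⊢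
    by_cases hx : x ∈ A
    · rw [red0_some_of_mem _ hx (hneg hx), red0_some_of_mem hxy hx (hP hx), Point.neg_some]
      have hy := y_mem_of_x_mem h hxy.1 hx
      congr 1
      exact rd_negY h hx hy
    · rw [red0_some_of_not_mem _ hx, red0_some_of_not_mem hxy hx, neg_zero]

end neg

section add

variable (h : IsRedOf A φ W Wκ) (hφ : KerMax A φ)
include h hφ

/-- Closure and additivity for two integral points with nonsingular reduction. -/
theorem add_of_mem {x₁ y₁ x₂ y₂ : K} (h₁ : W.Nonsingular x₁ y₁) (h₂ : W.Nonsingular x₂ y₂)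
    (hx₁ : x₁ ∈ A) (hx₂ : x₂ ∈ A)
    (hn₁ : Wκ.Nonsingular (rd A φ x₁) (rd A φ y₁))
    (hn₂ : Wκ.Nonsingular (rd A φ x₂) (rd A φ y₂)) :
    InE0 A φ Wκ (Point.some x₁ y₁ h₁ + Point.some x₂ y₂ h₂) ∧
      red0 A φ Wκ (Point.some x₁ y₁ h₁ + Point.some x₂ y₂ h₂) =
        Point.some _ _ hn₁ + Point.some _ _ hn₂ := by
  have hy₁ : y₁ ∈ A := y_mem_of_x_mem h h₁.1 hx₁
  have hy₂ : y₂ ∈ A := y_mem_of_x_mem h h₂.1 hx₂
  by_cases hb : rd A φ x₁ = rd A φ x₂ ∧ rd A φ y₁ = Wκ.negY (rd A φ x₂) (rd A φ y₂)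
  · -- the reductions are opposite: the sum lies in `E₁`
    have hker : InKer W A.valuation (Point.some x₁ y₁ h₁ + Point.some x₂ y₂ h₂) := by
      have h₂' : W.Nonsingular x₂ (W.negY x₂ y₂) := (Affine.nonsingular_neg ..).mpr h₂
      have hn₂' : W.negY x₂ y₂ ∈ A := negY_mem h hx₂ hy₂
      have hx : A.valuation (x₁ - x₂) < 1 := (rd_eq_iff hφ hx₁ hx₂).mp hb.1
      have hy : A.valuation (y₁ - W.negY x₂ y₂) < 1 := by
        rw [← rd_eq_iff hφ hy₁ hn₂', rd_negY h hx₂ hy₂]; exact hb.2
      have hns : A.valuation (W.a₁ * y₁ - (3 * x₁ ^ 2 + 2 * W.a₂ * x₁ + W.a₄)) = 1 ∨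
          A.valuation (2 * y₁ + W.a₁ * x₁ + W.a₃) = 1 := by
        have hN := hn₁
        rw [Affine.nonsingular_iff] at hN
        rcases hN.2 with hN | hN
        · left
          obtain ⟨hgA, hgrd⟩ := rd_slopeNum h hx₁ hy₁
          have e : W.a₁ * y₁ - (3 * x₁ ^ 2 + 2 * W.a₂ * x₁ + W.a₄) =
              -(3 * x₁ ^ 2 + 2 * W.a₂ * x₁ + W.a₄ - W.a₁ * y₁) := by ring
          have hm : W.a₁ * y₁ - (3 * x₁ ^ 2 + 2 * W.a₂ * x₁ + W.a₄) ∈ A := by
            rw [e]; exact A.neg_mem _ hgA
          refine (rd_ne_zero_iff hφ hm).mp ?_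
          rw [e, rd_neg hgA, hgrd]
          intro h0
          apply hN
          linear_combination h0
        · right
          have e : 2 * y₁ + W.a₁ * x₁ + W.a₃ = y₁ - W.negY x₁ y₁ := by
            simp only [Affine.negY]; ring
          have hm : 2 * y₁ + W.a₁ * x₁ + W.a₃ ∈ A := by
            rw [e]; exact A.sub_mem hy₁ (negY_mem h hx₁ hy₁)
          refine (rd_ne_zero_iff hφ hm).mp ?_
          rw [e, rd_sub hy₁ (negY_mem h hx₁ hy₁), rd_negY h hx₁ hy₁]
          intro h0
          apply hN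
          simp only [Affine.negY] at h0
          linear_combination h0
      have key := inKer_sub_of_same_reduction h.integralCoeffs h₁ h₂' (val_le_of_mem hx₁)
        (val_le_of_mem hy₁) (val_le_of_mem hx₂) (val_le_of_mem hn₂') hx hy hns
      have e : Point.some x₁ y₁ h₁ - Point.some x₂ (W.negY x₂ y₂) h₂' =
          Point.some x₁ y₁ h₁ + Point.some x₂ y₂ h₂ := by
        rw [sub_eq_add_neg, Point.neg_some]
        congr 2
        exact Affine.negY_negY ..
      rwa [e] at key
    refine ⟨inE0_of_inKer hker, ?_⟩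
    rw [red0_of_inKer hker, Point.add_of_Y_eq hb.1 hb.2]
  · -- generic case: the slope reduces
    have hK : ¬(x₁ = x₂ ∧ y₁ = W.negY x₂ y₂) := by
      rintro ⟨rfl, rfl⟩
      exact hb ⟨rfl, rd_negY h hx₂ hy₂⟩
    obtain ⟨hℓA, hℓrd⟩ := slope_mem_and_rd h hφ hx₁ hx₂ h₁.1 h₂.1 hb
    have hX : W.addX x₁ x₂ (W.slope x₁ x₂ y₁ y₂) ∈ A := addX_mem h hx₁ hx₂ hℓA
    have eX : rd A φ (W.addX x₁ x₂ (W.slope x₁ x₂ y₁ y₂)) =
        Wκ.addX (rd A φ x₁) (rd A φ x₂) (Wκ.slope (rd A φ x₁) (rd A φ x₂) (rd A φ y₁) (rd A φ y₂)) := by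
      rw [rd_addX h hx₁ hx₂ hℓA, hℓrd]
    have eY : rd A φ (W.addY x₁ x₂ y₁ (W.slope x₁ x₂ y₁ y₂)) =
        Wκ.addY (rd A φ x₁) (rd A φ x₂) (rd A φ y₁)
          (Wκ.slope (rd A φ x₁) (rd A φ x₂) (rd A φ y₁) (rd A φ y₂)) := by
      rw [rd_addY h hx₁ hx₂ hy₁ hℓA, hℓrd]
    have hns : Wκ.Nonsingular (rd A φ (W.addX x₁ x₂ (W.slope x₁ x₂ y₁ y₂)))
        (rd A φ (W.addY x₁ x₂ y₁ (W.slope x₁ x₂ y₁ y₂))) := by
      rw [eX, eY]
      exact Affine.nonsingular_add hn₁ hn₂ hb
    rw [Point.add_some hK, Point.add_some hb]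
    refine ⟨fun _ => hns, ?_⟩
    rw [red0_some_of_mem _ hX hns]
    congr 1

/-- Closure and additivity when the first point lies in `E₁` and the second is integral with
nonsingular reduction. -/
theorem add_of_inKer_of_mem {P : W.Point} (hP : InKer W A.valuation P) {x₂ y₂ : K}
    (h₂ : W.Nonsingular x₂ y₂) (hx₂ : x₂ ∈ A)
    (hn₂ : Wκ.Nonsingular (rd A φ x₂) (rd A φ y₂)) :
    InE0 A φ Wκ (P + Point.some x₂ y₂ h₂) ∧
      red0 A φ Wκ (P + Point.some x₂ y₂ h₂) = Point.some _ _ hn₂ := by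
  have hy₂ : y₂ ∈ A := y_mem_of_x_mem h h₂.1 hx₂
  have hQ : ¬ InKer W A.valuation (Point.some x₂ y₂ h₂) := fun hk =>
    absurd hx₂ (not_mem_iff_one_lt.mpr hk)
  -- `R = P + Q` is not in `E₁`
  have hR : ¬ InKer W A.valuation (P + Point.some x₂ y₂ h₂) := by
    intro hk
    apply hQ
    have := inKer_sub h.integralCoeffs hk hP
    rwa [add_sub_cancel_left] at this
  rcases hPQ : P + Point.some x₂ y₂ h₂ with _ | ⟨x₃, y₃, h₃⟩
  · rw [hPQ] at hR; exact absurd trivial hR
  · rw [hPQ] at hR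
    have hx₃ : x₃ ∈ A := by
      by_contra hx; exact hR (not_mem_iff_one_lt.mp hx)
    have hy₃ : y₃ ∈ A := y_mem_of_x_mem h h₃.1 hx₃
    have h₂' : W.Nonsingular x₂ (W.negY x₂ y₂) := (Affine.nonsingular_neg ..).mpr h₂
    have e : Point.some x₃ y₃ h₃ + Point.some x₂ (W.negY x₂ y₂) h₂' = P := by
      rw [← hPQ, ← Point.neg_some h₂, add_neg_cancel_right]
    -- the reductions of `R` and `Q` agree
    have hsame : rd A φ x₃ = rd A φ x₂ ∧ rd A φ y₃ = rd A φ y₂ := by
      by_contra hne
      have hne' : ¬(rd A φ x₃ = rd A φ x₂ ∧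
          rd A φ y₃ = Wκ.negY (rd A φ x₂) (rd A φ (W.negY x₂ y₂))) := by
        rw [rd_negY h hx₂ hy₂, Affine.negY_negY]
        exact hne
      have hK : ¬(x₃ = x₂ ∧ y₃ = W.negY x₂ (W.negY x₂ y₂)) := by
        rintro ⟨rfl, hy⟩
        rw [Affine.negY_negY] at hy
        exact hne ⟨rfl, by rw [hy]⟩
      obtain ⟨hℓA, -⟩ := slope_mem_and_rd h hφ hx₃ hx₂ h₃.1 h₂'.1 hne'
      have hX := addX_mem h hx₃ hx₂ hℓA
      rw [Point.add_some hK] at e
      rw [← e] at hP
      exact absurd hX (not_mem_iff_one_lt.mpr hP)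
    have hn₃ : Wκ.Nonsingular (rd A φ x₃) (rd A φ y₃) := by
      rw [hsame.1, hsame.2]; exact hn₂
    refine ⟨fun _ => hn₃, ?_⟩
    rw [red0_some_of_mem h₃ hx₃ hn₃]
    congr 1
    · exact hsame.1
    · exact hsame.2

/-- **`E⁰` is closed under addition and reduction is additive on `E⁰`.** -/
theorem inE0_add_and_red0_add {P Q : W.Point} (hP : InE0 A φ Wκ P) (hQ : InE0 A φ Wκ Q) :
    InE0 A φ Wκ (P + Q) ∧ red0 A φ Wκ (P + Q) = red0 A φ Wκ P + red0 A φ Wκ Q := by
  rcases P with _ | ⟨x₁, y₁, h₁⟩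
  · have e : (Point.zero : W.Point) + Q = Q := zero_add Q
    rw [e]
    exact ⟨hQ, (zero_add _).symm⟩
  rcases Q with _ | ⟨x₂, y₂, h₂⟩
  · have e : Point.some x₁ y₁ h₁ + (Point.zero : W.Point) = Point.some x₁ y₁ h₁ := add_zero _
    rw [e]
    exact ⟨hP, (add_zero _).symm⟩
  by_cases hx₁ : x₁ ∈ A
  · by_cases hx₂ : x₂ ∈ A
    · have := add_of_mem h hφ h₁ h₂ hx₁ hx₂ (hP hx₁) (hQ hx₂)
      rw [red0_some_of_mem h₁ hx₁ (hP hx₁), red0_some_of_mem h₂ hx₂ (hQ hx₂)]
      exact this
    · have hk : InKer W A.valuation (Point.some x₂ y₂ h₂) := not_mem_iff_one_lt.mp hx₂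
      have := add_of_inKer_of_mem h hφ hk h₁ hx₁ (hP hx₁)
      rw [add_comm, red0_of_inKer hk, add_zero, red0_some_of_mem h₁ hx₁ (hP hx₁)]
      exact this
  · have hk₁ : InKer W A.valuation (Point.some x₁ y₁ h₁) := not_mem_iff_one_lt.mp hx₁
    by_cases hx₂ : x₂ ∈ A
    · have := add_of_inKer_of_mem h hφ hk₁ h₂ hx₂ (hQ hx₂)
      rw [red0_of_inKer hk₁, zero_add, red0_some_of_mem h₂ hx₂ (hQ hx₂)]
      exact this
    · have hk₂ : InKer W A.valuation (Point.some x₂ y₂ h₂) := not_mem_iff_one_lt.mp hx₂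
      have hk := inKer_add h.integralCoeffs hk₁ hk₂
      exact ⟨inE0_of_inKer hk, by rw [red0_of_inKer hk, red0_of_inKer hk₁, red0_of_inKer hk₂,
        add_zero]⟩

theorem inE0_add {P Q : W.Point} (hP : InE0 A φ Wκ P) (hQ : InE0 A φ Wκ Q) :
    InE0 A φ Wκ (P + Q) := (inE0_add_and_red0_add h hφ hP hQ).1

theorem red0_add {P Q : W.Point} (hP : InE0 A φ Wκ P) (hQ : InE0 A φ Wκ Q) :
    red0 A φ Wκ (P + Q) = red0 A φ Wκ P + red0 A φ Wκ Q := (inE0_add_and_red0_add h hφ hP hQ).2

theorem inE0_nsmul_and_red0_nsmul {P : W.Point} (hP : InE0 A φ Wκ P) (n : ℕ) :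
    InE0 A φ Wκ (n • P) ∧ red0 A φ Wκ (n • P) = n • red0 A φ Wκ P := by
  induction n with
  | zero => exact ⟨by rw [zero_smul]; exact inE0_zero, by rw [zero_smul, zero_smul]; rfl⟩
  | succ n ih =>
    rw [succ_nsmul, succ_nsmul]
    exact ⟨inE0_add h hφ ih.1 hP, by rw [red0_add h hφ ih.1 hP, ih.2]⟩

theorem inE0_nsmul {P : W.Point} (hP : InE0 A φ Wκ P) (n : ℕ) : InE0 A φ Wκ (n • P) :=
  (inE0_nsmul_and_red0_nsmul h hφ hP n).1

theorem red0_nsmul {P : W.Point} (hP : InE0 A φ Wκ P) (n : ℕ) :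
    red0 A φ Wκ (n • P) = n • red0 A φ Wκ P := (inE0_nsmul_and_red0_nsmul h hφ hP n).2

/-- **Reduction preserves prime order on `E⁰`** (for primes that are units of `A`). -/
theorem addOrderOf_red0 {p : ℕ} (hp : p.Prime) (hv : A.valuation (p : K) = 1) {Q : W.Point}
    (hQ : InE0 A φ Wκ Q) (hord : addOrderOf Q = p) : addOrderOf (red0 A φ Wκ Q) = p := by
  have hpQ : p • Q = 0 := by rw [← hord]; exact addOrderOf_nsmul_eq_zero Q
  have hQ0 : Q ≠ 0 := by
    intro h0
    rw [h0, addOrderOf_zero] at hord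
    exact hp.one_lt.ne hord
  have h1 : p • red0 A φ Wκ Q = 0 := by
    rw [← red0_nsmul h hφ hQ, hpQ]; rfl
  have h2 : red0 A φ Wκ Q ≠ 0 := by
    intro h0
    have hk := (red0_eq_zero_iff hQ).mp h0
    exact hQ0 (Fermat.Agent.S05.C1b.eq_zero_of_inKer_of_nsmul_eq_zero h.integralCoeffs p hv Q
      hk hpQ)
  have hdvd := addOrderOf_dvd_of_nsmul_eq_zero h1
  rcases (Nat.dvd_prime hp).mp hdvd with h3 | h3
  · exact absurd (AddMonoid.addOrderOf_eq_one_iff.mp h3) h2
  · exact h3

end add

end Fermat.Agent.S15.H242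

end
-- ===== PACK-END S15/H242/E0Red.lean

-- ===== PACK-BEGIN S29/H872/Final.lean
section


/-!
# S29 from the Eichler–Shimura module and weak Chebotarev

`result_of_module`: the frozen conclusion of S29 follows from

* `WeakCheb` (weak qualitative Chebotarev), and
* `ModHyp g p ψ` for algebraically closed fields `F` of characteristic `p` and ring
  homomorphisms `ψ : ℤ̄ → F`: a nonzero finite dimensional `F[G_ℚ]`-module of finite level,
  unramified outside `N p`, on which every Frobenius element at `ℓ ∤ N p` satisfies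
  `σ² - ψ(a_ℓ) σ + ℓ = 0`.
-/

set_option autoImplicit false

namespace Fermat.Agent.S29.H872

open Polynomial

/-- A monic polynomial of positive degree over `ℤ̄` has a root in `ℤ̄`. -/
theorem exists_root_integralClosure (q : (integralClosure ℤ ℂ)[X]) (hq : q.Monic)
    (hdeg : q.natDegree ≠ 0) : ∃ w : integralClosure ℤ ℂ, q.eval w = 0 := by
  have hmap : (q.map (algebraMap (integralClosure ℤ ℂ) ℂ)).degree ≠ 0 := by
    rw [hq.degree_map, degree_eq_natDegree hq.ne_zero]
    exact_mod_cast hdeg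
  obtain ⟨z, hz⟩ := IsAlgClosed.exists_root _ hmap
  have hz' : IsIntegral (integralClosure ℤ ℂ) z := ⟨q, hq, by
    rw [← eval_map]; exact hz⟩
  have hz'' : IsIntegral ℤ z := isIntegral_trans z hz'
  refine ⟨⟨z, hz''⟩, ?_⟩
  apply Subtype.val_injective
  have := eval_map_apply (p := q) (algebraMap (integralClosure ℤ ℂ) ℂ) (⟨z, hz''⟩ : integralClosure ℤ ℂ)
  rw [IsRoot.def] at hz
  rw [show ((q.eval (⟨z, hz''⟩ : integralClosure ℤ ℂ) : integralClosure ℤ ℂ) : ℂ)
    = algebraMap (integralClosure ℤ ℂ) ℂ (q.eval ⟨z, hz''⟩) from rfl, ← this]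
  exact hz

section field

variable {p : ℕ} {k : Type} [Field k] [CharP k p]

/-- The kernel of a ring homomorphism from `ℤ̄` to a field of characteristic `p` is maximal. -/
theorem ker_isMaximal (hp : p.Prime) (φ : integralClosure ℤ ℂ →+* k) :
    (RingHom.ker φ).IsMaximal := by
  have : (RingHom.ker φ).IsPrime := RingHom.ker_isPrime φ
  apply Ideal.isMaximal_of_isIntegral_of_isMaximal_comap (R := ℤ)
  have hprime : ((RingHom.ker φ).comap (algebraMap ℤ (integralClosure ℤ ℂ))).IsPrime :=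
    Ideal.comap_isPrime _ _
  refine hprime.isMaximal ?_
  intro h
  have hmem : (p : ℤ) ∈ (RingHom.ker φ).comap (algebraMap ℤ (integralClosure ℤ ℂ)) := by
    rw [Ideal.mem_comap, RingHom.mem_ker]
    simp
  rw [h, Ideal.mem_bot] at hmem
  exact hp.ne_zero (by exact_mod_cast hmem)

/-- The image of `φ : ℤ̄ → k`, as a subfield of `k`. -/
def imageField (hp : p.Prime) (φ : integralClosure ℤ ℂ →+* k) : Subfield k :=
  { φ.range with
    inv_mem' := by
      rintro _ ⟨a, rfl⟩
      by_cases h0 : φ a = 0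
      · rw [h0, inv_zero]; exact ⟨0, map_zero φ⟩
      · obtain ⟨y, i, hi, hyi⟩ := (ker_isMaximal hp φ).exists_inv (x := a)
          (by rwa [RingHom.mem_ker])
        refine ⟨y, ?_⟩
        have h1 := congrArg φ hyi
        rw [map_add, map_mul, (RingHom.mem_ker).1 hi, add_zero, map_one] at h1
        exact (eq_inv_of_mul_eq_one_left h1) }

theorem mem_imageField (hp : p.Prime) (φ : integralClosure ℤ ℂ →+* k) (a : integralClosure ℤ ℂ) :
    φ a ∈ imageField hp φ := ⟨a, rfl⟩

/-- `φ` with codomain restricted to its image. -/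
def toImageField (hp : p.Prime) (φ : integralClosure ℤ ℂ →+* k) :
    integralClosure ℤ ℂ →+* imageField hp φ :=
  φ.codRestrict (imageField hp φ).toSubring (mem_imageField hp φ)

theorem toImageField_surjective (hp : p.Prime) (φ : integralClosure ℤ ℂ →+* k) :
    Function.Surjective (toImageField hp φ) := by
  rintro ⟨_, a, rfl⟩
  exact ⟨a, rfl⟩

theorem coe_toImageField (hp : p.Prime) (φ : integralClosure ℤ ℂ →+* k)
    (a : integralClosure ℤ ℂ) : ((toImageField hp φ a : imageField hp φ) : k) = φ a := rfl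

/-- The image of `φ` is algebraically closed. -/
theorem isAlgClosed_imageField (hp : p.Prime) (φ : integralClosure ℤ ℂ →+* k) :
    IsAlgClosed (imageField hp φ) := by
  apply IsAlgClosed.of_exists_root
  intro f hf hirr
  obtain ⟨q', hq'⟩ := Polynomial.map_surjective _ (toImageField_surjective hp φ) f
  obtain ⟨q, hqf, hqdeg, hqmonic⟩ :=
    lifts_and_natDegree_eq_and_monic ((mem_lifts _).2 ⟨q', hq'⟩) hf
  have hdeg : q.natDegree ≠ 0 := by
    rw [hqdeg]
    exact (Irreducible.natDegree_pos hirr).ne'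
  obtain ⟨w, hw⟩ := exists_root_integralClosure q hqmonic hdeg
  refine ⟨toImageField hp φ w, ?_⟩
  rw [← hqf, eval_map_apply, hw, map_zero]

end field

/-- **MOD** (hypothesis shape): the Eichler–Shimura module of the eigenform `g` over `F`. -/
def ModHyp {N : ℕ} (g : CuspForm (CongruenceSubgroup.Gamma0 N) 2) (p : ℕ) {F : Type} [Field F]
    (ψ : integralClosure ℤ ℂ →+* F) : Prop :=
  ∃ (M : Type) (_ : AddCommGroup M) (_ : Module F M) (_ : FiniteDimensional F M)
    (_ : Nontrivial M) (r : (AlgebraicClosure ℚ ≃ₐ[ℚ] AlgebraicClosure ℚ) →* Module.End F M),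
    GaloisFactorsThroughFiniteLevel r ∧
    (∀ ℓ : ℕ, ℓ.Prime → ¬ ℓ ∣ N * p → ∀ A : ValuationSubring (AlgebraicClosure ℚ),
      A.LiesOverPrime ℓ → ∀ σ ∈ A.inertiaSubgroupIn ℚ, r σ = 1) ∧
    (∀ ℓ : ℕ, ℓ.Prime → ¬ ℓ ∣ N * p →
      ∃ a : integralClosure ℤ ℂ, (a : ℂ) = ModularFormClass.qCoeff g ℓ ∧
        ∀ A : ValuationSubring (AlgebraicClosure ℚ), A.LiesOverPrime ℓ →
          ∀ σ : AlgebraicClosure ℚ ≃ₐ[ℚ] AlgebraicClosure ℚ, A.IsFrobeniusAt σ ℓ →
            r σ * r σ = ψ a • r σ - (ℓ : F) • 1)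

/-- The trivial two-dimensional residual representation. -/
noncomputable def trivialRep (k : Type) [Field k] : ResidualGaloisRep k where
  V := k × k
  finrank_eq := finrank_prod_self
  ρ := 1
  factorsThroughFiniteLevel := ⟨⊥, inferInstance, fun _ _ => rfl⟩

/-- **S29 from MOD over an algebraically closed field and weak Chebotarev**, general form:
`F` algebraically closed, `ψ : ℤ̄ → F`, `ι : F → k` with `ι ∘ ψ = φ`. -/
theorem result_of_module_field
    {N : ℕ} {g : CuspForm (CongruenceSubgroup.Gamma0 N) 2}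
    {p : ℕ} (hp : p.Prime) {k : Type} [Field k] [CharP k p]
    (φ : integralClosure ℤ ℂ →+* k) (hCheb : WeakCheb)
    {F : Type} [Field F] [IsAlgClosed F] (ψ : integralClosure ℤ ℂ →+* F) (ι : F →+* k)
    (hι : ∀ a, ι (ψ a) = φ a) (hMod : N ≠ 0 → ModHyp g p ψ) :
    ∃ ρ : ResidualGaloisRep k, ρ.IsAttachedTo g φ ∧
      ∀ ℓ : ℕ, ℓ.Prime → ¬ ℓ ∣ N * p → ρ.IsUnramifiedAt ℓ := by
  classical
  by_cases hN : N = 0
  · subst hN
    refine ⟨trivialRep k, fun ℓ _ hℓN => absurd (dvd_zero ℓ) hℓN, fun ℓ _ hℓ => ?_⟩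
    exact absurd (by rw [zero_mul]; exact dvd_zero ℓ) hℓ
  have : Fact p.Prime := ⟨hp⟩
  have : CharP F p := ι.charP ι.injective p
  obtain ⟨M, iA, iM, iFD, iNT, r, hfin, hunr, hES⟩ := hMod hN
  have hNp : N * p ≠ 0 := Nat.mul_ne_zero hN hp.ne_zero
  let S : Finset ℕ := (N * p).primeFactors
  have hS : ∀ ℓ : ℕ, ℓ.Prime → (ℓ ∉ S ↔ ¬ ℓ ∣ N * p) := fun ℓ hℓ => by
    simp only [S, Nat.mem_primeFactors, not_and, not_not]
    constructor
    · intro h hd
      exact hNp (h hℓ hd)
    · intro h _ hd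
      exact absurd hd h
  have hpS : p ∈ S := by
    by_contra h
    exact ((hS p hp).1 h) (dvd_mul_left p N)
  let c : ℕ → F := fun ℓ =>
    if h : ∃ a : integralClosure ℤ ℂ, (a : ℂ) = ModularFormClass.qCoeff g ℓ then ψ h.choose else 0
  have hc : ∀ (ℓ : ℕ) (a : integralClosure ℤ ℂ), (a : ℂ) = ModularFormClass.qCoeff g ℓ →
      c ℓ = ψ a := by
    intro ℓ a ha
    have h : ∃ a : integralClosure ℤ ℂ, (a : ℂ) = ModularFormClass.qCoeff g ℓ := ⟨a, ha⟩
    simp only [c, dif_pos h]
    congr 1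
    exact Subtype.ext (h.choose_spec.trans ha.symm)
  obtain ⟨ρ₀, hρunr, hρchar⟩ := exists_residualGaloisRep_of_module p r hfin S hpS c
    (fun ℓ hℓ hℓS => hunr ℓ hℓ ((hS ℓ hℓ).1 hℓS))
    (fun ℓ hℓ hℓS A hA σ hσ => by
      obtain ⟨a, ha, hrel⟩ := hES ℓ hℓ ((hS ℓ hℓ).1 hℓS)
      rw [hc ℓ a ha]
      exact hrel A hA σ hσ) hCheb
  refine ⟨ρ₀.baseChangeAlong ι, ?_, ?_⟩
  · intro ℓ hℓ hℓN hℓk A hA σ hσ
    have hℓp : ¬ ℓ ∣ N * p := by
      intro hd
      rcases (Nat.Prime.dvd_mul hℓ).1 hd with h | h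
      · exact hℓN h
      · have : ℓ = p := (Nat.prime_dvd_prime_iff_eq hℓ hp).1 h
        subst this
        exact hℓk (CharP.cast_eq_zero k ℓ)
    obtain ⟨a, ha, -⟩ := hES ℓ hℓ hℓp
    refine ⟨a, ha, ?_⟩
    have h := hρchar ℓ hℓ ((hS ℓ hℓ).2 hℓp) A hA σ hσ
    rw [hc ℓ a ha] at h
    let _ : Algebra F k := ι.toAlgebra
    change LinearMap.charpoly ((ρ₀.ρ σ).baseChange k) = _
    rw [LinearMap.charpoly_baseChange, h]
    simp only [Polynomial.map_add, Polynomial.map_sub, Polynomial.map_mul, Polynomial.map_pow,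
      Polynomial.map_X, Polynomial.map_C]
    rw [show (algebraMap F k) (ψ a) = φ a from hι a, map_natCast (algebraMap F k)]
  · intro ℓ hℓ hℓp A hA σ hσ
    have h := hρunr ℓ hℓ ((hS ℓ hℓ).2 hℓp) A hA σ hσ
    let _ : Algebra F k := ι.toAlgebra
    change (ρ₀.ρ σ).baseChange k = 1
    rw [h, LinearMap.baseChange_one]

/-- **S29 from MOD and weak Chebotarev.** -/
theorem result_of_module
    {N : ℕ} {g : CuspForm (CongruenceSubgroup.Gamma0 N) 2}
    {p : ℕ} (hp : p.Prime) {k : Type} [Field k] [CharP k p]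
    (φ : integralClosure ℤ ℂ →+* k) (hCheb : WeakCheb)
    (hMod : N ≠ 0 → ∀ (F : Type) [Field F] [IsAlgClosed F] [CharP F p]
      (ψ : integralClosure ℤ ℂ →+* F), ModHyp g p ψ) :
    ∃ ρ : ResidualGaloisRep k, ρ.IsAttachedTo g φ ∧
      ∀ ℓ : ℕ, ℓ.Prime → ¬ ℓ ∣ N * p → ρ.IsUnramifiedAt ℓ := by
  have := isAlgClosed_imageField hp φ
  exact result_of_module_field hp φ hCheb (toImageField hp φ) (imageField hp φ).subtype
    (fun a => coe_toImageField hp φ a) (fun hN => hMod hN _ _)

end Fermat.Agent.S29.H872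

end
-- ===== PACK-END S29/H872/Final.lean

-- ===== PACK-BEGIN S28/H589/Descent.lean
section








/-!
# S28 / A-Φ, A-W descent, formal part 2 (helper589): from `ℂ[Y][X]` to `ℤ[Y][X]`

`descent`: let `Φ ∈ ℂ[Y][X]` be monic of degree `p+1` in `X`, and `g, f ∈ ℤ((q))` with
`ord f` prime to `p`, `f ≠ V_p g`, such that in `ℂ((q))`
`Φ(X := g, Y := j) = 0` and `Φ(X := f, Y := V_p j) = 0`.
Then `Φ` has integer coefficients: `Φ(X, j) = (X - g) · χ` where `χ` is the characteristic
polynomial of the section matrix of `f` (which lives over `ℤ((q))`).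
-/

set_option autoImplicit false

noncomputable section

open ModularCurve HahnSeries Polynomial

namespace Fermat.Agent.S28.H589

/-- Base change of coefficients `ℤ((q)) → ℂ((q))`. -/
abbrev iotaC : LaurentSeries ℤ →+* LaurentSeries ℂ := coeffMap (Int.castRingHom ℂ)

theorem iotaC_injective : Function.Injective iotaC := by
  intro x y h
  ext k
  have := congrArg (fun z => z.coeff k) h
  simp only [coeffMap_coeff, Int.coe_castRingHom] at this
  exact_mod_cast this

theorem iotaC_eq_zero_iff (x : LaurentSeries ℤ) : iotaC x = 0 ↔ x = 0 := by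
  constructor
  · intro h
    exact iotaC_injective (by rw [h, map_zero])
  · rintro rfl
    exact map_zero _

theorem iotaC_coeff_eq_zero_iff (x : LaurentSeries ℤ) (n : ℤ) :
    (iotaC x).coeff n = 0 ↔ x.coeff n = 0 := by
  simp only [coeffMap_coeff, Int.coe_castRingHom, Int.cast_eq_zero]

theorem order_iotaC (x : LaurentSeries ℤ) : (iotaC x).order = x.order := by
  by_cases hx : x = 0
  · subst hx
    simp
  · have hx' : iotaC x ≠ 0 := fun h => hx ((iotaC_eq_zero_iff x).mp h)
    apply le_antisymm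
    · apply HahnSeries.order_le_of_coeff_ne_zero
      rw [Ne, iotaC_coeff_eq_zero_iff]
      exact fun h => hx (HahnSeries.coeff_order_eq_zero.mp h)
    · apply HahnSeries.order_le_of_coeff_ne_zero
      rw [Ne, ← iotaC_coeff_eq_zero_iff]
      exact fun h => hx' (HahnSeries.coeff_order_eq_zero.mp h)

/-- Evaluation `ℂ[Y] → ℂ((q))`, `Y ↦ y`. -/
def evC (y : LaurentSeries ℂ) : Polynomial ℂ →+* LaurentSeries ℂ :=
  Polynomial.eval₂RingHom HahnSeries.C y

theorem evC_apply (y : LaurentSeries ℂ) (P : Polynomial ℂ) :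
    evC y P = Polynomial.eval₂ HahnSeries.C y P := rfl

theorem evC_eq_aeval (y : LaurentSeries ℂ) (P : Polynomial ℂ) :
    evC y P = Polynomial.aeval y P := by
  rw [evC_apply, Polynomial.aeval_def]
  congr 1
  ext c : 1
  exact (Fermat.Agent.S28.H685.algebraMap_eq_C c).symm

theorem qExpand_comp_evC (p : ℕ) [NeZero p] (y : LaurentSeries ℂ) :
    (qExpand ℂ p).comp (evC y) = evC (qExpand ℂ p y) := by
  refine Polynomial.ringHom_ext (fun c => ?_) ?_
  · simp [evC]
  · simp [evC]

theorem iotaC_comp_evalAt (y : LaurentSeries ℤ) :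
    iotaC.comp (evalAt y) = (evC (iotaC y)).comp (Polynomial.mapRingHom (Int.castRingHom ℂ)) := by
  refine Polynomial.ringHom_ext' (Subsingleton.elim _ _) ?_
  simp [evalAt, evC]

/-- Transfer of a vanishing relation from `ℂ((q))` to `ℤ((q))`. -/
theorem eval₂_evalAt_eq_zero_of (Ψ : Polynomial (Polynomial ℤ)) (y x : LaurentSeries ℤ)
    (h : (Ψ.map (Polynomial.mapRingHom (Int.castRingHom ℂ))).eval₂ (evC (iotaC y)) (iotaC x) = 0) :
    Ψ.eval₂ (evalAt y) x = 0 := by
  apply iotaC_injective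
  rw [Polynomial.hom_eval₂, iotaC_comp_evalAt, ← Polynomial.eval₂_map, h, map_zero]

/-- **Descent.** -/
theorem descent (p : ℕ) [NeZero p]
    (Φ : Polynomial (Polynomial ℂ)) (hΦ : Φ.Monic) (n : ℕ) (hdeg : Φ.natDegree = n)
    (hn : n = p + 1)
    (g f : LaurentSeries ℤ) (hf0 : f ≠ 0) (hford : IsCoprime f.order (p : ℤ))
    (hne : f ≠ qExpand ℤ p g)
    (h1 : Φ.eval₂ (evC (jqModC ℂ)) (iotaC g) = 0)
    (h2 : Φ.eval₂ (evC (qExpand ℂ p (jqModC ℂ))) (iotaC f) = 0) :
    ∃ Ψ : Polynomial (Polynomial ℤ), Ψ.Monic ∧ Ψ.natDegree = n ∧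
      Ψ.eval₂ (evalAt (jqModC ℤ)) g = 0 ∧
      Ψ.eval₂ (evalAt (qExpand ℤ p (jqModC ℤ))) f = 0 := by
  classical
  subst hn
  set V : LaurentSeries ℂ →+* LaurentSeries ℂ := qExpand ℂ p with hV
  set a : LaurentSeries ℂ := iotaC g with ha
  set x : LaurentSeries ℂ := iotaC f with hx
  -- the polynomial over `ℂ((q))`
  set Φ₁ : Polynomial (LaurentSeries ℂ) := Φ.map (evC (jqModC ℂ)) with hΦ₁
  have hΦ₁m : Φ₁.Monic := hΦ.map _
  have hΦ₁d : Φ₁.natDegree = p + 1 := by rw [hΦ₁, hΦ.natDegree_map, hdeg]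
  have hroot : Φ₁.IsRoot a := by
    rw [Polynomial.IsRoot, hΦ₁, Polynomial.eval_map]; exact h1
  obtain ⟨G, hG⟩ := Polynomial.dvd_iff_isRoot.mpr hroot
  have hGm : G.Monic := by
    have : ((X - Polynomial.C a) * G).Monic := hG ▸ hΦ₁m
    exact (Polynomial.monic_X_sub_C a).of_mul_monic_left this
  have hGd : G.natDegree = p := by
    have h := congrArg Polynomial.natDegree hG
    rw [hΦ₁d, (Polynomial.monic_X_sub_C a).natDegree_mul hGm, Polynomial.natDegree_X_sub_C] at h
    omega
  -- apply `V` to the coefficients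
  have hmapV : Φ.map (evC (V (jqModC ℂ))) = (X - Polynomial.C (V a)) * G.map V := by
    have h := congrArg (Polynomial.map V) hG
    rw [hΦ₁, Polynomial.map_map, qExpand_comp_evC] at h
    rw [h, Polynomial.map_mul, Polynomial.map_sub, Polynomial.map_X, Polynomial.map_C]
  have hxa : x - V a ≠ 0 := by
    intro h
    apply hne
    apply iotaC_injective
    rw [coeffMap_qExpand]
    exact sub_eq_zero.mp h
  have hGV : (G.map V).eval x = 0 := by
    have h := h2
    rw [← Polynomial.eval_map, hmapV, Polynomial.eval_mul, Polynomial.eval_sub,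
      Polynomial.eval_X, Polynomial.eval_C] at h
    exact (mul_eq_zero.mp h).resolve_left hxa
  -- the section charpoly
  obtain ⟨χ, hχm, hχd, hχ⟩ := exists_section_charpoly p f
  set χ' : Polynomial (LaurentSeries ℂ) := χ.map iotaC with hχ'
  have hχ'm : χ'.Monic := hχm.map _
  have hχ'd : χ'.natDegree = p := by rw [hχ', hχm.natDegree_map, hχd]
  have hχ'V : (χ'.map V).eval x = 0 := by
    have h := congrArg iotaC hχ
    rw [Polynomial.eval_map, Polynomial.hom_eval₂, map_zero] at h
    rw [hχ', Polynomial.map_map, Polynomial.eval_map]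
    have hcomp : V.comp iotaC = iotaC.comp (qExpand ℤ p) := by
      ext y : 1
      exact (coeffMap_qExpand (Int.castRingHom ℂ) p y).symm
    rw [hcomp]
    exact h
  -- `G = χ'`
  have hD : G - χ' = 0 := by
    have hVinj : Function.Injective (Polynomial.map V) :=
      Polynomial.map_injective V (qExpand_injective p)
    apply hVinj
    rw [Polynomial.map_zero]
    have hx0 : x ≠ 0 := fun h => hf0 ((iotaC_eq_zero_iff f).mp h)
    have hxord : IsCoprime x.order (p : ℤ) := by rw [hx, order_iotaC]; exact hford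
    refine Fermat.Agent.S28.H145.eq_zero_of_eval_eq_zero_of_natDegree_lt p x hx0 hxord _
      (fun m => ?_) ?_ ?_
    · rw [Polynomial.coeff_map]
      exact ⟨_, rfl⟩
    · refine lt_of_le_of_lt Polynomial.natDegree_map_le ?_
      by_cases hz : G - χ' = 0
      · rw [hz, Polynomial.natDegree_zero]
        exact Nat.pos_of_ne_zero (NeZero.ne p)
      · have hdeg' : (G - χ').degree < G.degree := by
          apply Polynomial.degree_sub_lt_left
          · rw [Polynomial.degree_eq_natDegree hGm.ne_zero,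
              Polynomial.degree_eq_natDegree hχ'm.ne_zero, hGd, hχ'd]
          · exact hGm.ne_zero
          · rw [hGm.leadingCoeff, hχ'm.leadingCoeff]
        rw [Polynomial.degree_eq_natDegree hGm.ne_zero, hGd] at hdeg'
        exact (Polynomial.natDegree_lt_iff_degree_lt hz).mpr hdeg'
    · rw [Polynomial.map_sub, Polynomial.eval_sub, hGV, hχ'V, sub_zero]
  have hGχ : G = χ' := sub_eq_zero.mp hD
  -- coefficients of `Φ₁` are in the image of `ℤ((q))`
  set Θ : Polynomial (LaurentSeries ℤ) := (X - Polynomial.C g) * χ with hΘ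
  have hΦ₁Θ : Φ₁ = Θ.map iotaC := by
    rw [hG, hGχ, hΘ, Polynomial.map_mul, Polynomial.map_sub, Polynomial.map_X, Polynomial.map_C]
  -- every coefficient of `Φ` has integer coefficients
  set C₀ : Subring ℂ := (Int.castRingHom ℂ).range with hC₀
  have hcoef : ∀ k i, (Φ.coeff k).coeff i ∈ C₀ := by
    intro k
    refine Fermat.Agent.S28.H685.coeff_mem_of_aeval_jqModC C₀ (Φ.coeff k).natDegree (Φ.coeff k)
      le_rfl (fun m => ?_)
    have h : Polynomial.aeval (jqModC ℂ) (Φ.coeff k) = iotaC (Θ.coeff k) := by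
      rw [← evC_eq_aeval, ← Polynomial.coeff_map, ← hΦ₁, hΦ₁Θ, Polynomial.coeff_map]
    rw [h, coeffMap_coeff]
    exact ⟨_, rfl⟩
  -- lift `Φ`
  have hlift : Φ ∈ Polynomial.lifts (Polynomial.mapRingHom (Int.castRingHom ℂ)) := by
    rw [Polynomial.lifts_iff_coeff_lifts]
    intro k
    have hk : Φ.coeff k ∈ Polynomial.lifts (Int.castRingHom ℂ) := by
      rw [Polynomial.lifts_iff_coeff_lifts]
      intro i
      exact hcoef k i
    obtain ⟨q, hq⟩ := (Polynomial.mem_lifts _).mp hk
    exact ⟨q, hq⟩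
  obtain ⟨Ψ, hΨ, hΨd, hΨm⟩ := Polynomial.lifts_and_natDegree_eq_and_monic hlift hΦ
  refine ⟨Ψ, hΨm, by rw [hΨd, hdeg], ?_, ?_⟩
  · apply eval₂_evalAt_eq_zero_of
    rw [hΨ, coeffMap_jqModC]
    exact h1
  · apply eval₂_evalAt_eq_zero_of
    rw [hΨ, coeffMap_qExpand, coeffMap_jqModC]
    exact h2

end Fermat.Agent.S28.H589

end

end
-- ===== PACK-END S28/H589/Descent.lean

-- ===== PACK-BEGIN S24/H504/FF3Local.lean
section



/-!
# Local norm formula: `∑_x ord_z (σ_x f) = m · ∑_{v | t} ord_v f`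
-/

set_option autoImplicit false
set_option linter.style.haveILetI false
set_option linter.unusedSectionVars false

namespace Fermat.Agent.S24.H504

open AlgebraicCurve IntermediateField

variable {K F : Type*} [Field K] [Field F] [Algebra K F]
variable {C : Type*} [Field C] {X : Type*} {t : F}

/-- `F` is algebraic over `K(t)` as soon as it is finite over a subfield of `K(t)`. -/
theorem isAlgebraic_adjoin_of_le (E : IntermediateField K F) (hE : E ≤ K⟮t⟯)
    [FiniteDimensional E F] : Algebra.IsAlgebraic K⟮t⟯ F := by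
  letI : Algebra E K⟮t⟯ := (IntermediateField.inclusion hE).toRingHom.toAlgebra
  haveI : IsScalarTower E K⟮t⟯ F := IsScalarTower.of_algebraMap_eq (fun x => rfl)
  exact Algebra.IsAlgebraic.tower_top (K := E) K⟮t⟯

theorem induces_placeOf (L : LocalData K F C X t) (x : X) :
    Induces (L.σ x) (H117.placeOf L x) :=
  fun f => H117.mem_placeOf_iff L x f

theorem placeOf_eq_iff_induces (L : LocalData K F C X t) (x : X) (v : Place K F) :
    H117.placeOf L x = v ↔ Induces (L.σ x) v :=
  ⟨fun h => h ▸ induces_placeOf L x, fun h => (induces_placeOf L x).unique h⟩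

section

variable [IsAlgClosed K] [CharZero K] [CharZero C] [Finite X]
variable (L : LocalData K F C X t)
variable (E : IntermediateField K F) (hE : E ≤ K⟮t⟯) [FiniteDimensional E F]
  (hrank : Module.finrank E F = Nat.card X)

include L hE hrank in
/-- **FF1 (equality).** `∑_{v | t} v(t) = #X = [F : E]`. -/
theorem sum_ord_eq_card (s : Finset (Place K F)) (hs : ∀ v, v ∈ s ↔ 0 < v.ord t) :
    ∑ v ∈ s, v.ord t = Nat.card X := by
  haveI := isAlgebraic_adjoin_of_le (t := t) E hE
  exact (H117.localThm L E hE hrank s hs (LocalData.card_le_sum_ord L s hs)).2.2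

include hE hrank in
theorem card_places_eq_numOrbits (s : Finset (Place K F)) (hs : ∀ v, v ∈ s ↔ 0 < v.ord t) :
    s.card = numOrbits L.perm := by
  haveI := isAlgebraic_adjoin_of_le (t := t) E hE
  exact (H117.localThm L E hE hrank s hs (LocalData.card_le_sum_ord L s hs)).1

omit [IsAlgClosed K] [CharZero K] [CharZero C] in
theorem sum_card_fibre [Fintype X] [DecidableEq (Place K F)] (s : Finset (Place K F))
    (hs : ∀ v, v ∈ s ↔ 0 < v.ord t) :
    ∑ v ∈ s, (Finset.univ.filter (fun x => H117.placeOf L x = v)).card = Fintype.card X := by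
  have hmaps : ∀ x ∈ (Finset.univ : Finset X), H117.placeOf L x ∈ s :=
    fun x _ => (hs _).mpr (H117.ord_t_pos L x)
  rw [← Finset.card_univ, Finset.card_eq_sum_card_fiberwise hmaps]

include hE hrank in
/-- Exactly `v(t)` embeddings induce a place `v` over `t = 0`. -/
theorem card_fibre_eq [Fintype X] [DecidableEq (Place K F)] (v : Place K F)
    (hv : 0 < v.ord t) :
    ((Finset.univ.filter (fun x => H117.placeOf L x = v)).card : ℤ) = v.ord t := by
  haveI := isAlgebraic_adjoin_of_le (t := t) E hE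
  have hfin : {v : Place K F | 0 < v.ord t}.Finite := H117.finite_places_over L E hE hrank
  set s := hfin.toFinset with hsdef
  have hs : ∀ v, v ∈ s ↔ 0 < v.ord t := fun v => by simp [hsdef]
  have hle : ∀ w ∈ s, ((Finset.univ.filter (fun x => H117.placeOf L x = w)).card : ℤ)
      ≤ w.ord t := by
    intro w hw
    have := LocalData.card_fibre_le L w ((hs w).mp hw)
    have hc : Nat.card {x : X // Induces (L.σ x) w}
        = (Finset.univ.filter (fun x => H117.placeOf L x = w)).card := by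
      haveI : Fintype {x : X // Induces (L.σ x) w} := Fintype.ofFinite _
      rw [Nat.card_eq_fintype_card]
      exact Fintype.card_of_subtype _ (fun x => by
        simp only [Finset.mem_filter, Finset.mem_univ, true_and]
        exact placeOf_eq_iff_induces L x w)
    rw [← hc]
    exact this
  have h1 := sum_ord_eq_card L E hE hrank s hs
  have h2 := sum_card_fibre L s hs
  have h3 : ∑ w ∈ s, (w.ord t
      - ((Finset.univ.filter (fun x => H117.placeOf L x = w)).card : ℤ)) = 0 := by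
    rw [Finset.sum_sub_distrib, h1, ← Nat.cast_sum, h2, Nat.card_eq_fintype_card]
    ring
  have h4 := (Finset.sum_eq_zero_iff_of_nonneg (fun w hw => sub_nonneg.mpr (hle w hw))).mp h3
    v ((hs v).mpr hv)
  linarith

include hE hrank in
/-- **Local norm formula.** -/
theorem sum_order_eq [Fintype X] (s : Finset (Place K F))
    (hs : ∀ v, v ∈ s ↔ 0 < v.ord t) (f : F) :
    ∑ x, (L.σ x f).order = L.m * ∑ v ∈ s, v.ord f := by
  classical
  have hmaps : ∀ x ∈ (Finset.univ : Finset X), H117.placeOf L x ∈ s :=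
    fun x _ => (hs _).mpr (H117.ord_t_pos L x)
  rw [← Finset.sum_fiberwise_of_maps_to hmaps, Finset.mul_sum]
  apply Finset.sum_congr rfl
  intro v hv
  have hv' : 0 < v.ord t := (hs v).mp hv
  have hcard := card_fibre_eq L E hE hrank v hv'
  have hterm : ∀ x ∈ Finset.univ.filter (fun x => H117.placeOf L x = v),
      v.ord t * (L.σ x f).order = L.m * v.ord f := by
    intro x hx
    have hx' : H117.placeOf L x = v := (Finset.mem_filter.mp hx).2
    have h1 := H117.order_eq L x f
    have h2 := H117.mult_mul_ord_t L x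
    rw [hx'] at h1 h2
    rw [h1, ← h2]
    ring
  have hsum : v.ord t * ∑ x ∈ Finset.univ.filter (fun x => H117.placeOf L x = v),
      (L.σ x f).order = v.ord t * (L.m * v.ord f) := by
    rw [Finset.mul_sum, Finset.sum_congr rfl hterm, Finset.sum_const, nsmul_eq_mul, hcard]
  exact mul_left_cancel₀ hv'.ne' hsum

end

end Fermat.Agent.S24.H504

end
-- ===== PACK-END S24/H504/FF3Local.lean

-- ===== PACK-BEGIN S18/H456/ModS.lean
section



/-!
# S18 / MOD assembly (helper456): the fields `S_mem`, `S_distinct`, `S_unit` of `Alg.GoodModel`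
-/

set_option autoImplicit false

noncomputable section

namespace Fermat.Agent.S18.H456

open ModularCurve AlgebraicCurve HahnSeries Fermat.Agent.S18 Fermat.Agent.S18.Mod

variable (M : ℕ) (A : ValuationSubring Qb) (E : IntermediateField ℚ Qb)

/-- An integer prime to `ℓ` is a unit of `A`. -/
theorem inv_intCast_mem_A {ℓ : ℕ} (hA : A.LiesOverPrime ℓ) (n : ℤ)
    (hn : IsCoprime n (ℓ : ℤ)) : ((n : Qb))⁻¹ ∈ A := by
  obtain ⟨a, b, hab⟩ := hn
  have hℓ : A.valuation (ℓ : Qb) < 1 := (ValuationSubring.mem_nonunits_iff A).1 hA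
  have hle : ∀ k : ℤ, A.valuation (k : Qb) ≤ 1 := fun k =>
    (A.valuation_le_one_iff _).2 (intCast_mem A k)
  rw [← A.valuation_le_one_iff, map_inv₀]
  by_contra hcon
  have hlt : A.valuation (n : Qb) < 1 := by
    by_contra h
    push Not at h
    have h1 : A.valuation (n : Qb) = 1 := le_antisymm (hle n) h
    rw [h1, inv_one] at hcon
    exact hcon le_rfl
  have h1 : A.valuation ((a : Qb) * n + b * ℓ) < 1 := by
    refine lt_of_le_of_lt (A.valuation.map_add _ _) (max_lt ?_ ?_)
    · rw [map_mul]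
      calc A.valuation (a : Qb) * A.valuation (n : Qb) ≤ 1 * A.valuation (n : Qb) :=
            mul_le_mul_left (hle a) _
        _ = A.valuation (n : Qb) := one_mul _
        _ < 1 := hlt
    · rw [map_mul]
      calc A.valuation (b : Qb) * A.valuation (ℓ : Qb) ≤ 1 * A.valuation (ℓ : Qb) :=
            mul_le_mul_left (hle b) _
        _ = A.valuation (ℓ : Qb) := one_mul _
        _ < 1 := hℓ
  have h2 : ((a : Qb) * n + b * ℓ) = 1 := by
    have := congrArg (Int.cast : ℤ → Qb) hab
    push_cast at this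
    exact this
  rw [h2, map_one] at h1
  exact lt_irrefl _ h1

theorem cst_intCast (n : ℤ) : cst M (n : Qb) = (n : Om M) := map_intCast _ n

theorem intCast_mem_Rc (n : ℤ) : (n : Om M) ∈ Rc M A E := by
  rw [← cst_intCast]
  exact cst_mem_Rc M A E (intCast_mem A n) (intCast_mem E n)

theorem inv_intCast_mem_Rc {ℓ : ℕ} (hA : A.LiesOverPrime ℓ) (n : ℤ)
    (hn : IsCoprime n (ℓ : ℤ)) : ((n : Om M))⁻¹ ∈ Rc M A E := by
  rw [← cst_intCast, ← map_inv₀]
  exact cst_mem_Rc M A E (inv_intCast_mem_A A hA n hn) (inv_mem (intCast_mem E n))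

/-- The three fields `S_mem`, `S_distinct`, `S_unit` for `S = {0, b}`, `b` an integer prime
to `ℓ`. -/
theorem S_fields_of_int {ℓ : ℕ} (hA : A.LiesOverPrime ℓ) (b : ℤ) (hb : IsCoprime b (ℓ : ℤ))
    (S : Finset (Om M)) (hS : ∀ s, s ∈ S ↔ s = 0 ∨ s = (b : Om M)) :
    (∀ s ∈ S, s ∈ Rc M A E) ∧
    (∀ s ∈ S, ∀ t ∈ S, s ≠ t → (s - t)⁻¹ ∈ Rc M A E) ∧
    (∀ s ∈ S, s ≠ 0 → s⁻¹ ∈ Rc M A E) := by
  have hb' : IsCoprime (-b) (ℓ : ℤ) := hb.neg_left
  refine ⟨?_, ?_, ?_⟩
  · intro s hs
    rcases (hS s).1 hs with rfl | rfl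
    · exact zero_mem _
    · exact intCast_mem_Rc M A E b
  · intro s hs t ht hst
    rcases (hS s).1 hs with rfl | rfl <;> rcases (hS t).1 ht with rfl | rfl
    · exact absurd rfl hst
    · rw [zero_sub]
      have := inv_intCast_mem_Rc M A E hA (-b) hb'
      rwa [Int.cast_neg] at this
    · rw [sub_zero]
      exact inv_intCast_mem_Rc M A E hA b hb
    · exact absurd rfl hst
  · intro s hs hs0
    rcases (hS s).1 hs with rfl | rfl
    · exact absurd rfl hs0
    · exact inv_intCast_mem_Rc M A E hA b hb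

/-- **S-fields** for an admissible coordinate (`ℓ` prime). -/
theorem field_S [NeZero M] {ℓ : ℕ} (hℓ : ℓ.Prime) (hA : A.LiesOverPrime ℓ) {x : Om M}
    {S : Finset (Om M)} (hx : IsCoordinate M ℓ x S) :
    (∀ s ∈ S, s ∈ Rc M A E) ∧
    (∀ s ∈ S, ∀ t ∈ S, s ≠ t → (s - t)⁻¹ ∈ Rc M A E) ∧
    (∀ s ∈ S, s ≠ 0 → s⁻¹ ∈ Rc M A E) := by
  rcases hx with ⟨h5, -, hS⟩ | ⟨⟨h3, -, hS⟩ | ⟨h2, -, hS⟩, -⟩
  · refine S_fields_of_int M A E hA 1728 ?_ S (fun s => by rw [hS s]; norm_num)
    have h1728 : (1728 : ℤ) = 2 ^ 6 * 3 ^ 3 := by norm_num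
    rw [h1728]
    have h2 : IsCoprime (2 : ℤ) (ℓ : ℤ) := by
      rw [Int.isCoprime_iff_gcd_eq_one]
      exact (Nat.coprime_primes Nat.prime_two hℓ).2 (by omega)
    have h3 : IsCoprime (3 : ℤ) (ℓ : ℤ) := by
      rw [Int.isCoprime_iff_gcd_eq_one]
      exact (Nat.coprime_primes Nat.prime_three hℓ).2 (by omega)
    exact (h2.pow_left).mul_left (h3.pow_left)
  · subst h3
    refine S_fields_of_int M A E hA (-64) ?_ S (fun s => by rw [hS s]; norm_num)
    have h64 : (-64 : ℤ) = -(2 ^ 6) := by norm_num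
    rw [h64]
    have h2 : IsCoprime (2 : ℤ) ((3 : ℕ) : ℤ) := by
      rw [Int.isCoprime_iff_gcd_eq_one]; decide
    exact (h2.pow_left).neg_left
  · subst h2
    refine S_fields_of_int M A E hA (-27) ?_ S (fun s => by rw [hS s]; norm_num)
    have h27 : (-27 : ℤ) = -(3 ^ 3) := by norm_num
    rw [h27]
    have h3 : IsCoprime (3 : ℤ) ((2 : ℕ) : ℤ) := by
      rw [Int.isCoprime_iff_gcd_eq_one]; decide
    exact (h3.pow_left).neg_left

end Fermat.Agent.S18.H456

end
end
-- ===== PACK-END S18/H456/ModS.lean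

-- ===== PACK-BEGIN S29/H201/PeCycle.lean
section


/-!
# S29 layer M, piece E2 (helper201): `heckeHom` preserves "pe" homomorphisms (cycle argument)
-/

set_option autoImplicit false
set_option linter.style.haveILetI false

open CongruenceSubgroup Matrix.SpecialLinearGroup ModularCurve ModularCurve.Period
open MulAction Function
open scoped MatrixGroups
open P2MW.S_ModularForm_heckeT_slash_eq_self_of_mem_Gamma0.ModularForm.HeckeSlashInvariance

namespace Fermat.Agent.S29.H201

/-- Orbit decomposition of a sum: if the sum of `f` over every cycle of `σ` vanishes, then the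
total sum of `f` vanishes. -/
theorem sum_eq_zero_of_cycle_sums {X : Type*} [Fintype X] {A : Type*} [AddCommGroup A]
    (σ : Equiv.Perm X) (f : X → A)
    (h : ∀ x, ∑ k ∈ Finset.range (minimalPeriod σ x), f ((σ ^ k) x) = 0) :
    ∑ x, f x = 0 := by
  classical
  let G := Subgroup.zpowers σ
  letI : Fintype (orbitRel.Quotient G X) := Fintype.ofFinite _
  letI : ∀ ω : orbitRel.Quotient G X, Fintype (orbit G ω.out) := fun ω => Fintype.ofFinite _
  rw [← Equiv.sum_comp (selfEquivSigmaOrbits G X).symm f, Fintype.sum_sigma]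
  refine Finset.sum_eq_zero fun ω _ => ?_
  set b : X := ω.out with hb
  have hper : minimalPeriod (σ • ·) b = minimalPeriod σ b := rfl
  haveI : NeZero (minimalPeriod (σ • ·) b) := MulAction.minimalPeriod_pos σ b
  have key : ∑ y : orbit G b, f (y : X)
      = ∑ k : ZMod (minimalPeriod (σ • ·) b), f ((σ ^ k.val) b) := by
    refine Fintype.sum_equiv (orbitZPowersEquiv σ b) _ _ fun y => ?_
    obtain ⟨k, rfl⟩ := (orbitZPowersEquiv σ b).symm.surjective y
    rw [Equiv.apply_symm_apply, orbitZPowersEquiv_symm_apply]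
    congr 1
    show ((⟨σ, Subgroup.mem_zpowers σ⟩ : Subgroup.zpowers σ) ^ (ZMod.cast k : ℤ)) • b = _
    rw [← ZMod.natCast_val, zpow_natCast]
    rfl
  have h2 : (∑ y : orbit G ω.out, f ((selfEquivSigmaOrbits G X).symm ⟨ω, y⟩))
      = ∑ y : orbit G b, f (y : X) := by
    refine Finset.sum_congr rfl fun y _ => ?_
    rfl
  rw [h2, key, ← sum_range_eq_sum_zmod (fun k => f ((σ ^ k) b)), hper]
  exact h b

variable {N : ℕ} {ℓ : ℕ} [Fact ℓ.Prime]

theorem permOf_mul (γ γ' : Gamma0 N) :
    (permOf (γ * γ') : Equiv.Perm (OnePoint (ZMod ℓ))) = permOf γ' * permOf γ := by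
  ext x
  rw [Equiv.Perm.mul_apply, permOf_apply, permOf_apply, permOf_apply, Subgroup.coe_mul,
    redMatrix_mul, mul_smul]

theorem permOf_one : (permOf (1 : Gamma0 N) : Equiv.Perm (OnePoint (ZMod ℓ))) = 1 := by
  ext x
  rw [permOf_apply, Subgroup.coe_one, redMatrix_one, one_smul]
  rfl

theorem permOf_pow (γ : Gamma0 N) (n : ℕ) :
    (permOf (γ ^ n) : Equiv.Perm (OnePoint (ZMod ℓ))) = permOf γ ^ n := by
  induction n with
  | zero => rw [pow_zero, pow_zero, permOf_one]
  | succ n ih => rw [pow_succ, permOf_mul, ih, pow_succ']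

theorem trf_pow_succ (hℓN : ¬ ℓ ∣ N) (γ : Gamma0 N) (n : ℕ) (x : OnePoint (ZMod ℓ)) :
    trf hℓN (γ ^ (n + 1)) x = trf hℓN (γ ^ n) x * trf hℓN γ ((permOf γ ^ n) x) := by
  rw [pow_succ, trf_mul, ← permOf_apply, permOf_pow]

/-- the cocycle sum along a `σ`-orbit segment -/
theorem sum_range_trf (hℓN : ¬ ℓ ∣ N) {A : Type*} [AddCommGroup A]
    (χ : Additive (Gamma0 N) →+ A) (γ : Gamma0 N) (x : OnePoint (ZMod ℓ)) (n : ℕ) :
    ∑ k ∈ Finset.range n, χ (Additive.ofMul (trf hℓN γ ((permOf γ ^ k) x)))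
      = χ (Additive.ofMul (trf hℓN (γ ^ n) x)) := by
  induction n with
  | zero => simp [trf_one]
  | succ n ih =>
    rw [Finset.sum_range_succ, ih, trf_pow_succ, ofMul_mul, map_add]

/-- if `x` is fixed by `γ`, then `trf γ x` is conjugate to `γ` in `GL₂(ℝ)` -/
theorem trf_fixed_spec (hℓN : ¬ ℓ ∣ N) (γ : Gamma0 N) (x : OnePoint (ZMod ℓ))
    (hx : permOf γ x = x) :
    _root_.P2MW.S_ModularForm_heckeT_slash_eq_self_of_mem_Gamma0.ModularForm.HeckeSlashInvariance.heckeRep ℓ x * mapGL ℝ (γ : SL(2, ℤ))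
      = mapGL ℝ ((trf hℓN γ x : Gamma0 N) : SL(2, ℤ)) * _root_.P2MW.S_ModularForm_heckeT_slash_eq_self_of_mem_Gamma0.ModularForm.HeckeSlashInvariance.heckeRep ℓ x := by
  have h := trf_spec hℓN γ x
  rw [← permOf_apply, hx] at h
  exact h

theorem trf_fixed_pow (hℓN : ¬ ℓ ∣ N) (γ : Gamma0 N) (x : OnePoint (ZMod ℓ))
    (hx : permOf γ x = x) (n : ℕ) : trf hℓN (γ ^ n) x = trf hℓN γ x ^ n := by
  induction n with
  | zero => rw [pow_zero, pow_zero, trf_one]
  | succ n ih =>
    rw [trf_pow_succ, ih, pow_succ]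
    congr 2
    have : ∀ k : ℕ, (permOf γ ^ k) x = x := by
      intro k
      induction k with
      | zero => rfl
      | succ k ihk => rw [pow_succ, Equiv.Perm.mul_apply, hx, ihk]
    exact this n

theorem trace_trf_fixed (hℓN : ¬ ℓ ∣ N) (γ : Gamma0 N) (x : OnePoint (ZMod ℓ))
    (hx : permOf γ x = x) :
    (((trf hℓN γ x : Gamma0 N) : SL(2, ℤ)) : Matrix (Fin 2) (Fin 2) ℤ).trace
      = ((γ : SL(2, ℤ)) : Matrix (Fin 2) (Fin 2) ℤ).trace := by
  have h := trf_fixed_spec hℓN γ x hx
  have h1 : mapGL ℝ ((trf hℓN γ x : Gamma0 N) : SL(2, ℤ))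
      = _root_.P2MW.S_ModularForm_heckeT_slash_eq_self_of_mem_Gamma0.ModularForm.HeckeSlashInvariance.heckeRep ℓ x * mapGL ℝ (γ : SL(2, ℤ)) * (_root_.P2MW.S_ModularForm_heckeT_slash_eq_self_of_mem_Gamma0.ModularForm.HeckeSlashInvariance.heckeRep ℓ x)⁻¹ := by
    rw [h, mul_inv_cancel_right]
  have h2 : ((mapGL ℝ ((trf hℓN γ x : Gamma0 N) : SL(2, ℤ)) : GL (Fin 2) ℝ) :
        Matrix (Fin 2) (Fin 2) ℝ).trace
      = ((mapGL ℝ (γ : SL(2, ℤ)) : GL (Fin 2) ℝ) : Matrix (Fin 2) (Fin 2) ℝ).trace := by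
    rw [h1, Matrix.GeneralLinearGroup.coe_mul, Matrix.trace_mul_comm,
      ← Matrix.GeneralLinearGroup.coe_mul, inv_mul_cancel_left]
  have h3 : ∀ g : SL(2, ℤ), ((mapGL ℝ g : GL (Fin 2) ℝ) : Matrix (Fin 2) (Fin 2) ℝ).trace
      = (((g : Matrix (Fin 2) (Fin 2) ℤ).trace : ℤ) : ℝ) := by
    intro g
    simp [Matrix.trace_fin_two]
  rw [h3, h3] at h2
  exact_mod_cast h2

/-- Cayley–Hamilton in `SL(2, ℤ)`: the trace recurrence. -/
theorem trace_pow_add_two (g : SL(2, ℤ)) (n : ℕ) :
    ((g ^ (n + 2) : SL(2, ℤ)) : Matrix (Fin 2) (Fin 2) ℤ).trace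
      = (g : Matrix (Fin 2) (Fin 2) ℤ).trace * ((g ^ (n + 1) : SL(2, ℤ)) : Matrix (Fin 2) (Fin 2) ℤ).trace
        - ((g ^ n : SL(2, ℤ)) : Matrix (Fin 2) (Fin 2) ℤ).trace := by
  have hdet : (g : Matrix (Fin 2) (Fin 2) ℤ) 0 0 * (g : Matrix (Fin 2) (Fin 2) ℤ) 1 1
      - (g : Matrix (Fin 2) (Fin 2) ℤ) 0 1 * (g : Matrix (Fin 2) (Fin 2) ℤ) 1 0 = 1 := by
    have := g.det_coe
    rwa [Matrix.det_fin_two] at this
  have h1 : ((g ^ (n + 1) : SL(2, ℤ)) : Matrix (Fin 2) (Fin 2) ℤ)
      = ((g ^ n : SL(2, ℤ)) : Matrix (Fin 2) (Fin 2) ℤ) * (g : Matrix (Fin 2) (Fin 2) ℤ) := by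
    rw [pow_succ, Matrix.SpecialLinearGroup.coe_mul]
  have h2 : ((g ^ (n + 2) : SL(2, ℤ)) : Matrix (Fin 2) (Fin 2) ℤ)
      = ((g ^ n : SL(2, ℤ)) : Matrix (Fin 2) (Fin 2) ℤ) * (g : Matrix (Fin 2) (Fin 2) ℤ)
        * (g : Matrix (Fin 2) (Fin 2) ℤ) := by
    rw [pow_succ, Matrix.SpecialLinearGroup.coe_mul, h1]
  rw [h2, h1]
  generalize ((g ^ n : SL(2, ℤ)) : Matrix (Fin 2) (Fin 2) ℤ) = P
  simp only [Matrix.trace_fin_two, Matrix.mul_apply, Fin.sum_univ_two]
  linear_combination (-(P 0 0) - P 1 1) * hdet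

theorem trace_pow_sq_eq_four (g : SL(2, ℤ))
    (hg : (g : Matrix (Fin 2) (Fin 2) ℤ).trace ^ 2 = 4) (n : ℕ) :
    ((g ^ n : SL(2, ℤ)) : Matrix (Fin 2) (Fin 2) ℤ).trace ^ 2 = 4 := by
  set t := (g : Matrix (Fin 2) (Fin 2) ℤ).trace with ht
  have key : ∀ n : ℕ, ((g ^ n : SL(2, ℤ)) : Matrix (Fin 2) (Fin 2) ℤ).trace ^ 2 = 4 ∧
      ((g ^ (n + 1) : SL(2, ℤ)) : Matrix (Fin 2) (Fin 2) ℤ).trace
        * 2 = t * ((g ^ n : SL(2, ℤ)) : Matrix (Fin 2) (Fin 2) ℤ).trace := by
    intro n
    induction n with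
    | zero =>
      refine ⟨by simp [Matrix.trace_fin_two], ?_⟩
      simp [Matrix.trace_fin_two, ht]
    | succ n ih =>
      obtain ⟨h1, h2⟩ := ih
      have h3 := trace_pow_add_two g n
      set s0 := ((g ^ n : SL(2, ℤ)) : Matrix (Fin 2) (Fin 2) ℤ).trace
      set s1 := ((g ^ (n + 1) : SL(2, ℤ)) : Matrix (Fin 2) (Fin 2) ℤ).trace
      set s2 := ((g ^ (n + 2) : SL(2, ℤ)) : Matrix (Fin 2) (Fin 2) ℤ).trace
      have h4 : (s1 * 2) ^ 2 = (t * s0) ^ 2 := by rw [h2]
      have h5 : s1 ^ 2 = 4 := by nlinarith [h4, h1, hg]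
      refine ⟨h5, ?_⟩
      show s2 * 2 = t * s1
      rw [h3]
      have h6 : t * (s1 * 2) = t * (t * s0) := by rw [h2]
      nlinarith [h6, hg, h1, h5]
  exact (key n).1

/-- (A) cycle argument: `heckeHom` preserves "pe". -/
theorem heckeHom_mem_pe (hℓN : ¬ ℓ ∣ N) {A : Type*} [AddCommGroup A]
    {χ : Additive (Gamma0 N) →+ A} (hχ : IsPe χ) : IsPe (heckeHom ℓ hℓN A χ) := by
  have main : ∀ γ : Gamma0 N,
      (∀ (n : ℕ) (x : OnePoint (ZMod ℓ)), permOf (γ ^ n) x = x →
        χ (Additive.ofMul (trf hℓN (γ ^ n) x)) = 0) →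
      heckeHom ℓ hℓN A χ (Additive.ofMul γ) = 0 := by
    intro γ hγ
    rw [heckeHom_apply]
    refine sum_eq_zero_of_cycle_sums (permOf γ) _ fun x => ?_
    rw [sum_range_trf hℓN χ γ x]
    apply hγ
    rw [permOf_pow, ← Equiv.Perm.iterate_eq_pow]
    exact Function.iterate_minimalPeriod
  refine ⟨fun γ hγ => main γ fun n x hx => ?_, fun γ hγ => main γ fun n x hx => ?_⟩
  · apply hχ.1
    rw [trace_trf_fixed hℓN (γ ^ n) x hx, Subgroup.coe_pow]
    exact trace_pow_sq_eq_four _ hγ n
  · apply hχ.2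
    have h1 : IsOfFinOrder (γ ^ n) := hγ.pow
    obtain ⟨k, hk, hγk⟩ := h1.exists_pow_eq_one
    rw [isOfFinOrder_iff_pow_eq_one]
    refine ⟨k, hk, ?_⟩
    rw [← trf_fixed_pow hℓN (γ ^ n) x hx k, hγk, trf_one]

end Fermat.Agent.S29.H201

end
-- ===== PACK-END S29/H201/PeCycle.lean

-- ===== PACK-BEGIN Ribet/H764/I3Glue.lean
section


/-!
# I3 glue (helper764): `Inc + Dim + Rank + LogHol ⇒ LogDiffForms`

Holomorphic `q`-series form a `k`-subspace `holoSeries k M` of `k⟦q⟧`; it contains `redForms k M`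
(INC), has dimension `≤ dim S₂` on finite-dimensional subspaces (DIMK), and
`dim redForms = dim S₂` (RANK): so every holomorphic series, in particular `dh/h` (LOGHOL), lies
in `redForms k M`.
-/

set_option autoImplicit false
set_option linter.style.haveILetI false

open CuspForm ModularFormClass ModularCurve AlgebraicCurve

namespace Fermat.Agent.Ribet.H764.I3

section Holo

variable {k : Type} [Field k] {M : ℕ} [NeZero M]

theorem isTheta_unique {h h₁ h₂ : LaurentSeries k} (e₁ : IsTheta h h₁) (e₂ : IsTheta h h₂) :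
    h₁ = h₂ :=
  HahnSeries.ext (funext fun n => by rw [e₁ n, e₂ n])

theorem isHoloSeries_zero : IsHoloSeries k M (0 : PowerSeries k) := by
  intro Q t _
  refine ⟨0, HahnSeries.mk (fun n => (n : k) * (t : LaurentSeries k).coeff n) ?_, fun n => rfl,
    Q.toValuationSubring.zero_mem, ?_⟩
  · refine (t : LaurentSeries k).isPWO_support.mono ?_
    intro n hn
    rw [Function.mem_support] at hn
    rw [HahnSeries.mem_support]
    intro h0
    apply hn
    rw [h0, mul_zero]
  · rw [map_zero, ZeroMemClass.coe_zero, zero_mul]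

theorem isHoloSeries_add {g₁ g₂ : PowerSeries k} (h₁ : IsHoloSeries k M g₁)
    (h₂ : IsHoloSeries k M g₂) : IsHoloSeries k M (g₁ + g₂) := by
  intro Q t ht
  obtain ⟨u₁, t₁, hθ₁, hu₁, e₁⟩ := h₁ Q t ht
  obtain ⟨u₂, t₂, hθ₂, hu₂, e₂⟩ := h₂ Q t ht
  have ht12 : t₂ = t₁ := isTheta_unique hθ₂ hθ₁
  refine ⟨u₁ + u₂, t₁, hθ₁, Q.toValuationSubring.add_mem _ _ hu₁ hu₂, ?_⟩
  rw [map_add, e₁, e₂, ht12, AddMemClass.coe_add, add_mul]

theorem isHoloSeries_smul (c : k) {g : PowerSeries k} (h : IsHoloSeries k M g) :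
    IsHoloSeries k M (c • g) := by
  intro Q t ht
  obtain ⟨u, t', hθ, hu, e⟩ := h Q t ht
  refine ⟨algebraMap k (modularFunctionFieldFullC k M) c * u, t', hθ,
    Q.toValuationSubring.mul_mem _ _ (Q.algebraMap_mem' c) hu, ?_⟩
  rw [PowerSeries.smul_eq_C_mul, map_mul, HahnSeries.ofPowerSeries_C, e, MulMemClass.coe_mul,
    IntermediateField.coe_algebraMap_apply, mul_assoc]
  congr 1
  exact (LaurentSeries.algebraMap_apply k c).symm

/-- The `k`-subspace of holomorphic `q`-series. -/
def holoSeries (k : Type) [Field k] (M : ℕ) [NeZero M] : Submodule k (PowerSeries k) where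
  carrier := {g | IsHoloSeries k M g}
  zero_mem' := isHoloSeries_zero
  add_mem' := isHoloSeries_add
  smul_mem' := isHoloSeries_smul

theorem mem_holoSeries {g : PowerSeries k} : g ∈ holoSeries k M ↔ IsHoloSeries k M g :=
  Iff.rfl

end Holo

/-- **Glue**: the geometric heart from its four leaves. -/
theorem logDiffForms_of (hI : IncStatement) (hD : DimStatement) (hR : RankStatement)
    (hH : LogHolStatement) : LogDiffFormsStatement := by
  intro p M _ hp hpM k _ _ _ h h0 hdiv g hg
  obtain ⟨hfin, hrank⟩ := hR p M hp k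
  haveI := hfin
  have hVH : redForms k M ≤ holoSeries k M :=
    Submodule.span_le.mpr fun x hx => hI p M hp hpM k x hx
  have hgH : g ∈ holoSeries k M := hH p M hp hpM k h h0 hdiv g hg
  set W : Submodule k (PowerSeries k) := redForms k M ⊔ Submodule.span k {g} with hW
  have hWH : W ≤ holoSeries k M :=
    sup_le hVH (Submodule.span_le.mpr (Set.singleton_subset_iff.mpr hgH))
  haveI : Module.Finite k (Submodule.span k ({g} : Set (PowerSeries k))) :=
    Module.Finite.span_of_finite k (Set.finite_singleton g)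
  haveI hWfin : Module.Finite k W := Submodule.finite_sup _ _
  have hdim : Module.finrank k W ≤ Module.finrank k (redForms k M) := by
    rw [hrank]
    exact hD p M hp hpM k W hWfin fun x hx => hWH hx
  have hVW : redForms k M ≤ W := le_sup_left
  have hEq : redForms k M = W := Submodule.eq_of_le_of_finrank_le hVW hdim
  rw [hEq]
  exact (le_sup_right : Submodule.span k {g} ≤ W) (Submodule.mem_span_singleton_self g)

end Fermat.Agent.Ribet.H764.I3

end
-- ===== PACK-END Ribet/H764/I3Glue.lean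

-- ===== PACK-BEGIN Lib/RR/H383/FF1OfFinite.lean
section


/-!
# RR library (helper383): the standing hypotheses `FF1 K F` in any characteristic

`K` algebraically closed (any characteristic), `x ∈ F` transcendental over `K`, `F` finite over
`K(x)`.  Then `FF1 K F` holds: principal divisors have degree zero, all places have degree one,
there is a place, and `F` is finite over a rational function field.
No separability hypothesis is needed.

* `ff1_of_finite` : the bridge.
* `eq_algebraMap_of_forall_ord_eq_zero` : a function of order zero everywhere is constant.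
-/

set_option autoImplicit false

noncomputable section

open AlgebraicCurve IntermediateField

namespace Fermat.Agent.Lib.RR.H383

open Fermat.Agent.Lib.RR

variable {K F : Type*} [Field K] [Field F] [Algebra K F] [IsAlgClosed K]

/-- **Bridge**: a field finite over `K(x)`, `K` algebraically closed of any characteristic,
satisfies the standing hypotheses of the RR library. -/
theorem ff1_of_finite {x : F} (hx : Transcendental K x) [FiniteDimensional K⟮x⟯ F] :
    FF1 K F where
  hpd := hasPrincipalDivisors_of_finite hx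
  deg_eq_one := deg_eq_one_of_finite hx
  nonempty_place := by
    obtain ⟨v, -⟩ := exists_place_ord_pos (finite_of_finite hx) hx
    exact ⟨v⟩
  exists_finite := ⟨x, hx, inferInstance⟩

/-- A function whose order vanishes at every place is constant. -/
theorem eq_algebraMap_of_forall_ord_eq_zero {x : F} (hx : Transcendental K x)
    [FiniteDimensional K⟮x⟯ F] {f : F} (hf : ∀ v : Place K F, v.ord f = 0) :
    f ∈ (algebraMap K F).range :=
  eq_algebraMap_of_forall_ord_nonneg (finite_of_finite hx) fun v => (hf v).ge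

end Fermat.Agent.Lib.RR.H383

end
end
-- ===== PACK-END Lib/RR/H383/FF1OfFinite.lean

-- ===== PACK-BEGIN A2/Alg/H754/PuritySmooth.lean
section





/-!
# A2 / ALG leaf P-S (helper754): `purity_smooth`, VERBATIM statement of `A2/Alg/Skel.lean`

Purity at a closed point `n` of the special fibre lying on exactly ONE component `p` of the
chart `B`:

* `B` is a Noetherian integrally closed domain with fraction field `F`
  (`S18.H394.chart_instances`), integral over `R[x]` of Krull dimension `2`, so `B ⧸ p` is a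
  Dedekind domain (`isDedekindDomain_quotient_of_dim`);
* `m ∣ div u` at every height-one prime of `B` (`divisibleDivisor_of_divisibleDiv`: horizontal
  primes from `DivisibleDiv`, the two vertical primes from `IsSplit`);
* abstract purity `pure_smooth_abs` (`B_n` is a UFD).

Also exported (reusable for P-N / GLUE): `chart_package`, `isDedekindDomain_component`,
`divisibleDivisor_of_divisibleDiv`.
-/

set_option autoImplicit false
set_option linter.style.haveILetI false
set_option linter.unusedSectionVars false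
set_option linter.unusedVariables false

noncomputable section

namespace Fermat.Agent.A2.Alg.H754

open Polynomial IsLocalRing
open Fermat.Agent.A2
open Fermat.Agent.S18.H138 (chart baseField)
open Fermat.Agent.S18.H754 (DivisibleDivisor)

section Chart

variable {R E F : Type*} [CommRing R] [IsDomain R] [IsDiscreteValuationRing R]
  [Field E] [Algebra R E] [IsFractionRing R E]
  [Field F] [Algebra E F] [Algebra R F] [IsScalarTower R E F]

omit [IsDomain R] [IsDiscreteValuationRing R] in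
theorem finiteDimensional_baseField (x : F)
    (hfin : FiniteDimensional (IntermediateField.adjoin E ({x} : Set F)) F) :
    FiniteDimensional (baseField R x) F := by
  have hle : ∀ z : F, z ∈ IntermediateField.adjoin E ({x} : Set F) → z ∈ baseField R x := by
    intro z hz
    have hz' : z ∈ Subfield.closure (Set.range (algebraMap E F) ∪ {x}) := hz
    refine Subfield.closure_le.2 ?_ hz'
    rintro y (⟨e, rfl⟩ | hy)
    · obtain ⟨a, b, hb, rfl⟩ := IsFractionRing.div_surjective (A := R) e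
      rw [map_div₀, ← IsScalarTower.algebraMap_apply, ← IsScalarTower.algebraMap_apply]
      exact (baseField R x).div_mem (Subfield.subset_closure (Or.inl ⟨a, rfl⟩))
        (Subfield.subset_closure (Or.inl ⟨b, rfl⟩))
    · exact Subfield.subset_closure (Or.inr hy)
  let φ : (IntermediateField.adjoin E ({x} : Set F)) →+* (baseField R x) :=
    { toFun := fun z => ⟨z.1, hle z.1 z.2⟩
      map_one' := rfl
      map_mul' := fun _ _ => rfl
      map_zero' := rfl
      map_add' := fun _ _ => rfl }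
  letI : Algebra (IntermediateField.adjoin E ({x} : Set F)) (baseField R x) := φ.toAlgebra
  haveI : IsScalarTower (IntermediateField.adjoin E ({x} : Set F)) (baseField R x) F :=
    IsScalarTower.of_algebraMap_eq (fun _ => rfl)
  exact Module.Finite.of_restrictScalars_finite (IntermediateField.adjoin E ({x} : Set F))
    (baseField R x) F

omit [Field E] [Algebra R E] [IsFractionRing R E] [Algebra E F] [IsScalarTower R E F] in
theorem ringKrullDim_adjoin_le (x : F) (hx : Transcendental R x) :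
    ringKrullDim (Algebra.adjoin R ({x} : Set F)) ≤ 2 := by
  have hinj : Function.Injective (aeval (R := R) x) :=
    (injective_iff_map_eq_zero _).2 (transcendental_iff.1 hx)
  let e : R[X] ≃ₐ[R] Algebra.adjoin R ({x} : Set F) :=
    (AlgEquiv.ofInjective (aeval (R := R) x) hinj).trans
      (Subalgebra.equivOfEq _ _ (Algebra.adjoin_singleton_eq_range_aeval R x).symm)
  rw [← ringKrullDim_eq_of_ringEquiv e.toRingEquiv, ringKrullDim_of_isNoetherianRing]
  have h1 : ringKrullDim R ≤ 1 := by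
    have := Ring.krullDimLE_iff.1 (inferInstance : Ring.KrullDimLE 1 R)
    exact_mod_cast this
  calc ringKrullDim R + 1 ≤ 1 + 1 := by gcongr
    _ = 2 := by norm_num

theorem transcendental_base [CharZero E] {x : F} (hx : Transcendental E x) : Transcendental R x :=
  hx.restrictScalars (IsFractionRing.injective R E)

include E in
omit [IsDomain R] [IsDiscreteValuationRing R] in
theorem algebraMap_base_injective : Function.Injective (algebraMap R F) := by
  rw [IsScalarTower.algebraMap_eq R E F]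
  exact (algebraMap E F).injective.comp (IsFractionRing.injective R E)

include E in
omit [IsDomain R] [IsDiscreteValuationRing R] in
theorem algebraMap_chart_injective (B : Subalgebra R F) :
    Function.Injective (algebraMap R B) := by
  intro a b hab
  apply algebraMap_base_injective (E := E) (F := F)
  have := congrArg (fun z : B => (z : F)) hab
  exact this

/-- The chart is a Noetherian integrally closed domain with fraction field `F`. -/
theorem chart_package [CharZero E] (w : R) (x : F) (B : Subalgebra R F) (hB : ChartCtx E w x B) :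
    IsNoetherianRing B ∧ IsIntegrallyClosed B ∧ IsFractionRing B F := by
  obtain rfl : B = chart R ({x} : Set F) :=
    SetLike.ext fun f => (hB.hB f).trans Fermat.Agent.S18.H138.mem_chart.symm
  haveI : CharZero F := charZero_of_injective_algebraMap (algebraMap E F).injective
  haveI := finiteDimensional_baseField (R := R) x hB.hfin
  exact Fermat.Agent.S18.H394.chart_instances (R := R) (transcendental_base hB.hx)

/-- The components of the chart are Dedekind. -/
theorem isDedekindDomain_component [CharZero E] (w : R) (x : F) (B : Subalgebra R F)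
    (hB : ChartCtx E w x B) (p : Ideal B) [hp : p.IsPrime] (hwp : algebraMap R B w ∈ p)
    (hnorm : IsIntegrallyClosed (B ⧸ p)) : IsDedekindDomain (B ⧸ p) := by
  obtain ⟨hN, -, -⟩ := chart_package w x B hB
  have hp0 : p ≠ ⊥ := by
    intro h0
    rw [h0, Ideal.mem_bot] at hwp
    exact hB.hw.ne_zero (algebraMap_chart_injective (E := E) B (by rw [hwp, map_zero]))
  obtain rfl : B = chart R ({x} : Set F) :=
    SetLike.ext fun f => (hB.hB f).trans Fermat.Agent.S18.H138.mem_chart.symm
  have hxR : Transcendental R x := transcendental_base hB.hx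
  haveI := Fermat.Agent.S18.H138.isNoetherianRing_adjoin_singleton (R := R) hxR
  letI : Algebra (Algebra.adjoin R ({x} : Set F)) (chart R ({x} : Set F)) :=
    inferInstanceAs (Algebra (Algebra.adjoin R ({x} : Set F))
      (integralClosure (Algebra.adjoin R ({x} : Set F)) F))
  haveI : Algebra.IsIntegral (Algebra.adjoin R ({x} : Set F)) (chart R ({x} : Set F)) :=
    inferInstanceAs (Algebra.IsIntegral (Algebra.adjoin R ({x} : Set F))
      (integralClosure (Algebra.adjoin R ({x} : Set F)) F))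
  exact isDedekindDomain_quotient_of_dim (A₀ := Algebra.adjoin R ({x} : Set F))
    (ringKrullDim_adjoin_le x hxR) p hp0 hnorm

/-- `m ∣ div u` at every height-one prime of the chart. -/
theorem divisibleDivisor_of_divisibleDiv (w : R) (hw : Irreducible w) (B : Subalgebra R F)
    [IsNoetherianRing B] [IsIntegrallyClosed B] [IsFractionRing B F]
    (c : SSChart w B) (m : ℕ) (u : F) (hdiv : DivisibleDiv E m u) (hs : IsSplit B c u) :
    DivisibleDivisor B m u := by
  intro 𝔭 h𝔭 hht
  haveI := h𝔭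
  have hinjB : Function.Injective (algebraMap R B) := algebraMap_chart_injective (E := E) B
  have hwB0 : algebraMap R B w ≠ 0 := fun h0 => hw.ne_zero (hinjB (by rw [h0, map_zero]))
  have hwpp : algebraMap R B w ∈ c.p₁ ⊓ c.p₂ := by
    rw [c.inf_eq]
    exact Ideal.mem_span_singleton_self _
  by_cases hw𝔭 : algebraMap R B w ∈ 𝔭
  · -- vertical prime: one of the two components
    have hle : c.p₁ * c.p₂ ≤ 𝔭 := by
      refine le_trans Ideal.mul_le_inf ?_
      rw [c.inf_eq, Ideal.span_singleton_le_iff_mem]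
      exact hw𝔭
    have key : ∀ p : Ideal B, p.IsPrime → algebraMap R B w ∈ p → p ≤ 𝔭 → ConstAt B p u →
        ∃ t : F, ∃ a s : B, a ∉ 𝔭 ∧ s ∉ 𝔭 ∧ u * t ^ m * algebraMap B F s = algebraMap B F a := by
      intro p hp hwp hp𝔭 hconst
      haveI := hp
      haveI : p.FiniteHeight := Ideal.finiteHeight_of_isNoetherianRing p
      have hpeq : p = 𝔭 := by
        refine Ideal.eq_of_le_of_height_le p hp𝔭 ?_
        rw [hht, Order.one_le_iff_pos, pos_iff_ne_zero, Ne, Ideal.height_eq_zero_iff_eq_bot]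
        intro h0
        rw [h0, Ideal.mem_bot] at hwp
        exact hwB0 hwp
      subst hpeq
      obtain ⟨c₀, hc₀, a, b, hb, hab, hu⟩ := hconst
      refine ⟨1, a, b, ?_, hb, ?_⟩
      · intro ha
        have h2 : algebraMap R B c₀ * b ∈ p := by
          have := p.sub_mem ha hab
          rwa [sub_sub_cancel] at this
        rcases hp.mem_or_mem h2 with h | h
        · exact hp.ne_top (Ideal.eq_top_of_isUnit_mem _ h (hc₀.map (algebraMap R B)))
        · exact hb h
      · rw [one_pow, mul_one]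
        exact hu
    rcases (Ideal.IsPrime.mul_le h𝔭).1 hle with h | h
    · exact key c.p₁ c.prime₁ hwpp.1 h hs.1
    · exact key c.p₂ c.prime₂ hwpp.2 h hs.2
  · -- horizontal prime: `B_𝔭` is a DVR containing `E`
    obtain ⟨W, hdvr, hW⟩ := Fermat.Agent.S18.H438.exists_dvr_of_height_one (F := F) 𝔭 hht
    have hE : ∀ e : E, algebraMap E F e ∈ W := by
      intro e
      obtain ⟨a, b, hb, rfl⟩ := IsFractionRing.div_surjective (A := R) e
      have hb0 : b ≠ 0 := nonZeroDivisors.ne_zero hb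
      obtain ⟨k, υ, hbk⟩ := IsDiscreteValuationRing.eq_unit_mul_pow_irreducible hb0 hw
      have hb𝔭 : algebraMap R B b ∉ 𝔭 := by
        rw [hbk, map_mul, map_pow]
        intro h
        rcases h𝔭.mem_or_mem h with h | h
        · exact h𝔭.ne_top (Ideal.eq_top_of_isUnit_mem _ h (υ.isUnit.map (algebraMap R B)))
        · exact hw𝔭 (h𝔭.mem_of_pow_mem k h)
      have hbF : algebraMap R F b ≠ 0 := fun h0 =>
        hb0 (algebraMap_base_injective (E := E) (F := F) (by rw [h0, map_zero]))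
      refine (hW _).2 ⟨algebraMap R B a, algebraMap R B b, hb𝔭, ?_⟩
      rw [← IsScalarTower.algebraMap_apply R B F, ← IsScalarTower.algebraMap_apply R B F,
        map_div₀, ← IsScalarTower.algebraMap_apply R E F, ← IsScalarTower.algebraMap_apply R E F,
        div_mul_cancel₀ _ hbF]
    obtain ⟨h, u₀, hh, hu₀, hu₀', hu⟩ := hdiv W hdvr hE
    by_cases hu₀0 : u₀ = 0
    · -- degenerate: `u = 0`, excluded by `IsSplit`
      exfalso
      obtain ⟨c₀, hc₀, a, b, hb, hab, hu'⟩ := hs.1
      rw [hu, hu₀0, zero_mul, zero_mul] at hu'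
      have ha0 : a = 0 := Subtype.ext hu'.symm
      rw [ha0, zero_sub, neg_mem_iff] at hab
      rcases c.prime₁.mem_or_mem hab with h' | h'
      · exact c.prime₁.ne_top (Ideal.eq_top_of_isUnit_mem _ h' (hc₀.map (algebraMap R B)))
      · exact hb h'
    · obtain ⟨a, s, ha, hs', has⟩ :=
        (locU_iff_of_valuationSubring 𝔭 W hW hu₀0).2 ⟨hu₀, hu₀'⟩
      refine ⟨h⁻¹, a, s, ha, hs', ?_⟩
      rw [hu, inv_pow, mul_assoc u₀, mul_inv_cancel₀ (pow_ne_zero _ hh), mul_one]
      exact has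

/-- One-sided form of `purity_smooth`: `n` lies on `p` and not on `p'`. -/
theorem purity_smooth_aux [CharZero E] (m : ℕ) (hm : 0 < m)
    (w : R) (x : F) (B : Subalgebra R F) (hB : ChartCtx E w x B)
    (c : SSChart w B) (u : F) (hu : u ≠ 0) (hdiv : DivisibleDiv E m u) (hs : IsSplit B c u)
    (p p' : Ideal B) (hp : p.IsPrime) (hp' : p'.IsPrime)
    (hinf : p ⊓ p' = Ideal.span {algebraMap R B w}) (h12 : ¬ p ≤ p') (h21 : ¬ p' ≤ p)
    (hnorm : IsIntegrallyClosed (B ⧸ p)) (hup : ConstAt B p u)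
    (n : Ideal B) (hn : n.IsMaximal) (hpn : p ≤ n) (hp'n : ¬ p' ≤ n) :
    ∃ d : F, d ≠ 0 ∧ LocUnit B n (u * d ^ m) ∧ LocUnit B p d ∧ LocUnit B p' d := by
  obtain ⟨hN, hIC, hFr⟩ := chart_package w x B hB
  haveI := hN
  haveI := hIC
  haveI := hFr
  haveI := hp
  haveI := hp'
  have hwB0 : algebraMap R B w ≠ 0 := fun h0 =>
    hB.hw.ne_zero (algebraMap_chart_injective (E := E) B (by rw [h0, map_zero]))
  have hwp : algebraMap R B w ∈ p := by
    have : algebraMap R B w ∈ p ⊓ p' := hinf ▸ Ideal.mem_span_singleton_self _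
    exact this.1
  have hD : IsDedekindDomain (B ⧸ p) := isDedekindDomain_component w x B hB p hwp hnorm
  have hDD : DivisibleDivisor B m u := divisibleDivisor_of_divisibleDiv w hB.hw B c m u hdiv hs
  have hup' : LocU p u := by
    obtain ⟨c₀, hc₀, a, b, hb, hab, hu'⟩ := hup
    refine ⟨a, b, ?_, hb, hu'⟩
    intro ha
    have h2 : algebraMap R B c₀ * b ∈ p := by
      have := p.sub_mem ha hab
      rwa [sub_sub_cancel] at this
    rcases hp.mem_or_mem h2 with h | h
    · exact hp.ne_top (Ideal.eq_top_of_isUnit_mem _ h (hc₀.map (algebraMap R B)))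
    · exact hb h
  exact pure_smooth_abs (algebraMap R B w) hwB0 p p' hinf h12 h21 hD n hn hpn hp'n m hm u hu
    hDD hup'

end Chart

section Leaf

variable {R E F : Type*} [CommRing R] [IsDomain R] [IsDiscreteValuationRing R]
  [HenselianLocalRing R] [IsAlgClosed (IsLocalRing.ResidueField R)]
  [Field E] [CharZero E] [Algebra R E] [IsFractionRing R E]
  [Field F] [Algebra E F] [Algebra R F] [IsScalarTower R E F]

/-- **P-S (purity at a smooth point).**  `n` lies on exactly one component `p`; then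
`B_n / w = (B / p)_n` is a DVR, every divisorial ideal of `B_n` without vertical component is
principal (Nakayama), so the horizontal part `m · D` of `div u` is `m · div d⁻¹`; adjust `d` by an
element of `p' ∖ (n ∪ p'^{(2)})` to make it a unit on the other component `p'`. -/
theorem purity_smooth (q m : ℕ) (hq : q.Prime) (hqR : (q : R) ∈ IsLocalRing.maximalIdeal R)
    (hm : 0 < m) (hqm : ¬ q ∣ m)
    (w : R) (x : F) (B : Subalgebra R F) (hB : ChartCtx E w x B)
    (c : SSChart w B) (hc : Incomparable c)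
    (u : F) (hu : u ≠ 0) (hdiv : DivisibleDiv E m u) (hs : IsSplit B c u)
    (n : Ideal B) (hn : n.IsMaximal) (hwn : algebraMap R B w ∈ n)
    (h1 : ¬ (c.p₁ ≤ n ∧ c.p₂ ≤ n)) : PureAt B c m u n := by
  have hle : c.p₁ * c.p₂ ≤ n := by
    refine le_trans Ideal.mul_le_inf ?_
    rw [c.inf_eq, Ideal.span_singleton_le_iff_mem]
    exact hwn
  rcases (Ideal.IsPrime.mul_le hn.isPrime).1 hle with h | h
  · have h2 : ¬ c.p₂ ≤ n := fun h2 => h1 ⟨h, h2⟩
    obtain ⟨d, hd0, hdn, hd1, hd2⟩ := purity_smooth_aux m hm w x B hB c u hu hdiv hs c.p₁ c.p₂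
      c.prime₁ c.prime₂ c.inf_eq hc.1 hc.2 c.normal₁ hs.1 n hn h h2
    exact ⟨d, hd0, hdn, hd1, hd2⟩
  · have h2 : ¬ c.p₁ ≤ n := fun h2 => h1 ⟨h2, h⟩
    obtain ⟨d, hd0, hdn, hd2, hd1⟩ := purity_smooth_aux m hm w x B hB c u hu hdiv hs c.p₂ c.p₁
      c.prime₂ c.prime₁ (by rw [inf_comm]; exact c.inf_eq) hc.2 hc.1 c.normal₂ hs.2 n hn h h2
    exact ⟨d, hd0, hdn, hd1, hd2⟩

end Leaf

end Fermat.Agent.A2.Alg.H754

end

end
-- ===== PACK-END A2/Alg/H754/PuritySmooth.lean

-- ===== PACK-BEGIN A2/Alg/H34/Base.lean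
section



/-!
# WALL A2 / ALG — BASE adapter (helper34)

From the standing hypotheses of `AlgSSStatement` (`E = Frac R`, `F / E(x)` finite, charts given by
an integrality predicate) to the setting of `S18.H138` / `S18.H394` (`chart R {x}`,
`baseField R x`): `chart_eq`, `transcendental_of_field`, `finiteDimensional_baseField`,
`algebraMap_RF_injective`, `chart_instances'` (noetherian, integrally closed, fraction field `F`).
-/

set_option autoImplicit false
set_option linter.unusedSectionVars false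
set_option linter.style.haveILetI false

namespace Fermat.Agent.A2.Alg.H34

open Fermat.Agent.A2 Fermat.Agent.A2.Alg
open Fermat.Agent.S18.H138 (chart baseField)
open Polynomial

variable {R E F : Type*} [CommRing R] [IsDomain R] [Field E] [Algebra R E] [IsFractionRing R E]
  [Field F] [Algebra E F] [Algebra R F] [IsScalarTower R E F]

omit [IsDomain R] [Field E] [Algebra R E] [IsFractionRing R E] [Algebra E F]
  [IsScalarTower R E F] in
theorem algebraMap_RF_injective (E : Type*) [Field E] [Algebra R E] [IsFractionRing R E]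
    [Algebra E F] [IsScalarTower R E F] : Function.Injective (algebraMap R F) := by
  rw [IsScalarTower.algebraMap_eq R E F]
  exact (algebraMap E F).injective.comp (IsFractionRing.injective R E)

theorem transcendental_of_field {x : F} (hx : Transcendental E x) : Transcendental R x := by
  intro h
  exact hx (h.extendScalars (IsFractionRing.injective R E))

theorem algebraMap_mem_baseField (x : F) (e : E) : algebraMap E F e ∈ baseField R x := by
  obtain ⟨a, b, -, rfl⟩ := IsFractionRing.div_surjective (A := R) e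
  rw [map_div₀, ← IsScalarTower.algebraMap_apply, ← IsScalarTower.algebraMap_apply]
  exact div_mem (Subfield.subset_closure (Or.inl ⟨a, rfl⟩))
    (Subfield.subset_closure (Or.inl ⟨b, rfl⟩))

theorem mem_baseField_of_mem_adjoin (x : F) {z : F}
    (hz : z ∈ IntermediateField.adjoin E ({x} : Set F)) : z ∈ baseField R x := by
  have h : IntermediateField.adjoin E ({x} : Set F) ≤
      Subfield.toIntermediateField (baseField R x) (algebraMap_mem_baseField (R := R) x) := by
    rw [IntermediateField.adjoin_le_iff]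
    rintro y hy
    rw [Set.mem_singleton_iff] at hy
    subst hy
    exact Subfield.subset_closure (Or.inr rfl)
  exact h hz

theorem finiteDimensional_baseField (x : F)
    (hfin : FiniteDimensional (IntermediateField.adjoin E ({x} : Set F)) F) :
    FiniteDimensional (baseField R x) F := by
  let ι : (IntermediateField.adjoin E ({x} : Set F)) →+* baseField R x :=
    { toFun := fun a => ⟨a.1, mem_baseField_of_mem_adjoin (R := R) x a.2⟩
      map_one' := rfl
      map_mul' := fun _ _ => rfl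
      map_zero' := rfl
      map_add' := fun _ _ => rfl }
  letI : Algebra (IntermediateField.adjoin E ({x} : Set F)) (baseField R x) := ι.toAlgebra
  haveI : IsScalarTower (IntermediateField.adjoin E ({x} : Set F)) (baseField R x) F :=
    IsScalarTower.of_algebraMap_eq (fun _ => rfl)
  exact Module.Finite.of_restrictScalars_finite (IntermediateField.adjoin E ({x} : Set F))
    (baseField R x) F

theorem chart_eq (x : F) (B : Subalgebra R F)
    (hB : ∀ f : F, f ∈ B ↔ IsIntegral (Algebra.adjoin R ({x} : Set F)) f) :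
    B = chart R ({x} : Set F) :=
  SetLike.ext fun f => (hB f).trans Fermat.Agent.S18.H138.mem_chart.symm

theorem charZero_of_field [CharZero E] : CharZero F :=
  charZero_of_injective_algebraMap (algebraMap E F).injective

/-- The chart of `ChartCtx` is a noetherian integrally closed domain with fraction field `F`. -/
theorem chart_instances' [IsDiscreteValuationRing R] [CharZero E] (w : R) (x : F)
    (B : Subalgebra R F) (hB : ChartCtx E w x B) :
    IsNoetherianRing B ∧ IsIntegrallyClosed B ∧ IsFractionRing B F := by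
  obtain rfl := chart_eq x B hB.hB
  haveI : CharZero F := charZero_of_field (E := E)
  haveI := finiteDimensional_baseField (R := R) x hB.hfin
  exact Fermat.Agent.S18.H394.chart_instances (transcendental_of_field hB.hx)

end Fermat.Agent.A2.Alg.H34

end
-- ===== PACK-END A2/Alg/H34/Base.lean

-- ===== PACK-BEGIN A2/H12/AlgLeaves.lean
section



/-!
# Cell A2 — route G: the leaves of ALG in the frozen language of `A2/Spec.lean` (helper12)

Definitions only, no `sorry`.  `SSCtx` bundles the data and hypotheses of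
`Fermat.Agent.A2.AlgSSStatement` (the frozen ALG interface of the row-lead).  Each leaf is a `Prop`
of the form `∀ context, SSCtx … → conclusion`; the conclusions are those of `H12/GSpec.lean`.
`H12/AlgSS.lean` proves `AlgSSStatement` from the seven leaves.

| leaf | conclusion |
|---|---|
| `BaseLeaf`   | the sheets of `F` exist, are `τ`-stable with `τ ≡ id` on the residue field, and are discrete with uniformiser `w` |
| `RootLeaf`   | `μ_m ⊆ R` fixed by `τ`, units of `R` are `m`-th powers |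
| `SheetsLeaf` | `SheetsConclusion` for every Kummer-split cover |
| `RedLeaf`    | `RedConclusion` for every Kummer-split cover |
| `ConstLeaf`  | `ConstConclusion` for every Kummer-split cover |
| `CountLeaf`  | `CountConclusion` for every Kummer-split cover (the δ-count) |
| `CoverLeaf`  | `CoverConclusion` for every split `g` with `m ∣ div g` |
-/

set_option autoImplicit false

namespace Fermat.Agent.A2.H12

open Fermat.Agent.A2

/-- The data and hypotheses of `AlgSSStatement`. -/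
structure SSCtx {R E F : Type} [CommRing R] [IsDomain R] [IsDiscreteValuationRing R]
    [HenselianLocalRing R] [IsAlgClosed (IsLocalRing.ResidueField R)]
    [Field E] [CharZero E] [Algebra R E] [IsFractionRing R E]
    [Field F] [Algebra E F] [Algebra R F] [IsScalarTower R E F]
    (w : R) (q m : ℕ) (x : F) (Bf Bi : Subalgebra R F)
    (τ : F ≃+* F) (τE : E ≃+* E) (τR : R ≃+* R) : Prop where
  irr : Irreducible w
  qprime : q.Prime
  qmem : (q : R) ∈ IsLocalRing.maximalIdeal R
  mpos : 0 < m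
  qm : ¬ q ∣ m
  transc : Transcendental E x
  fin : FiniteDimensional (IntermediateField.adjoin E ({x} : Set F)) F
  const : ∀ f : F, IsAlgebraic E f → f ∈ (algebraMap E F).range
  hBf : ∀ f : F, f ∈ Bf ↔ IsIntegral (Algebra.adjoin R ({x} : Set F)) f
  hBi : ∀ f : F, f ∈ Bi ↔ IsIntegral (Algebra.adjoin R ({x⁻¹} : Set F)) f
  cf : Nonempty (SSChart w Bf)
  ci : Nonempty (SSChart w Bi)
  sf : SepCoord R E x Bf
  si : SepCoord R E x⁻¹ Bi
  hτE : ∀ e : E, τ (algebraMap E F e) = algebraMap E F (τE e)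
  hτR : ∀ r : R, τE (algebraMap R E r) = algebraMap R E (τR r)
  hτx : τ x = x
  hfo : ∃ r : ℕ, 0 < r ∧ ∀ f : F, (⇑τ)^[r] f = f
  hτf : ∀ b ∈ Bf, ∃ c ∈ Bf, τ b - b = algebraMap R F w * c
  hτi : ∀ b ∈ Bi, ∃ c ∈ Bi, τ b - b = algebraMap R F w * c

section Conclusions

variable {R F : Type} [CommRing R] [Field F] [Algebra R F]

/-- Conclusion of leaf **BASE**. -/
structure BaseConclusion (w : R) (x : F) (τ : F ≃+* F) : Prop where
  exists_sheet : ∃ V : ValuationSubring F, IsSheet w x V
  stable : ∀ V : ValuationSubring F, IsSheet w x V → ∀ c : F,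
    (c ∈ V ↔ τ c ∈ V) ∧ (c ∈ V → τ c - c ∈ V.nonunits)
  discrete : ∀ V : ValuationSubring F, IsSheet w x V → ∀ f : F, f ≠ 0 →
    ∃ (n : ℤ) (u : F), u ∈ V ∧ u⁻¹ ∈ V ∧ f = algebraMap R F w ^ n * u

/-- Conclusion of leaf **ROOT**. -/
structure RootConclusion (m : ℕ) (τR : R ≃+* R) : Prop where
  root : ∃ ζ : R, IsPrimitiveRoot ζ m ∧ τR ζ = ζ
  unit_pow : ∀ c : R, IsUnit c → ∃ c₀ : R, c = c₀ ^ m

end Conclusions

/-- Leaf **BASE**. -/
def BaseLeaf : Prop :=
  ∀ {R E F : Type} [CommRing R] [IsDomain R] [IsDiscreteValuationRing R]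
    [HenselianLocalRing R] [IsAlgClosed (IsLocalRing.ResidueField R)]
    [Field E] [CharZero E] [Algebra R E] [IsFractionRing R E]
    [Field F] [Algebra E F] [Algebra R F] [IsScalarTower R E F]
    (w : R) (q m : ℕ) (x : F) (Bf Bi : Subalgebra R F)
    (τ : F ≃+* F) (τE : E ≃+* E) (τR : R ≃+* R),
    SSCtx w q m x Bf Bi τ τE τR → BaseConclusion w x τ

/-- Leaf **ROOT**. -/
def RootLeaf : Prop :=
  ∀ {R E F : Type} [CommRing R] [IsDomain R] [IsDiscreteValuationRing R]
    [HenselianLocalRing R] [IsAlgClosed (IsLocalRing.ResidueField R)]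
    [Field E] [CharZero E] [Algebra R E] [IsFractionRing R E]
    [Field F] [Algebra E F] [Algebra R F] [IsScalarTower R E F]
    (w : R) (q m : ℕ) (x : F) (Bf Bi : Subalgebra R F)
    (τ : F ≃+* F) (τE : E ≃+* E) (τR : R ≃+* R),
    SSCtx w q m x Bf Bi τ τE τR → RootConclusion m τR

/-- Leaf **SHEETS**. -/
def SheetsLeaf : Prop :=
  ∀ {R E F : Type} [CommRing R] [IsDomain R] [IsDiscreteValuationRing R]
    [HenselianLocalRing R] [IsAlgClosed (IsLocalRing.ResidueField R)]
    [Field E] [CharZero E] [Algebra R E] [IsFractionRing R E]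
    [Field F] [Algebra E F] [Algebra R F] [IsScalarTower R E F]
    (w : R) (q m : ℕ) (x : F) (Bf Bi : Subalgebra R F)
    (τ : F ≃+* F) (τE : E ≃+* E) (τR : R ≃+* R),
    SSCtx w q m x Bf Bi τ τE τR →
    ∀ (L : Type) [Field L] [Algebra F L] [Algebra R L] [IsScalarTower R F L],
      IsKummerSplit L w x m → SheetsConclusion L w x

/-- Leaf **RED**. -/
def RedLeaf : Prop :=
  ∀ {R E F : Type} [CommRing R] [IsDomain R] [IsDiscreteValuationRing R]
    [HenselianLocalRing R] [IsAlgClosed (IsLocalRing.ResidueField R)]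
    [Field E] [CharZero E] [Algebra R E] [IsFractionRing R E]
    [Field F] [Algebra E F] [Algebra R F] [IsScalarTower R E F]
    (w : R) (q m : ℕ) (x : F) (Bf Bi : Subalgebra R F)
    (τ : F ≃+* F) (τE : E ≃+* E) (τR : R ≃+* R),
    SSCtx w q m x Bf Bi τ τE τR →
    ∀ (L : Type) [Field L] [Algebra F L] [Algebra R L] [IsScalarTower R F L],
      IsKummerSplit L w x m → RedConclusion L w x

/-- Leaf **CONST**. -/
def ConstLeaf : Prop :=
  ∀ {R E F : Type} [CommRing R] [IsDomain R] [IsDiscreteValuationRing R]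
    [HenselianLocalRing R] [IsAlgClosed (IsLocalRing.ResidueField R)]
    [Field E] [CharZero E] [Algebra R E] [IsFractionRing R E]
    [Field F] [Algebra E F] [Algebra R F] [IsScalarTower R E F]
    (w : R) (q m : ℕ) (x : F) (Bf Bi : Subalgebra R F)
    (τ : F ≃+* F) (τE : E ≃+* E) (τR : R ≃+* R),
    SSCtx w q m x Bf Bi τ τE τR →
    ∀ (L : Type) [Field L] [Algebra F L] [Algebra R L] [IsScalarTower R F L],
      IsKummerSplit L w x m → ConstConclusion (R := R) L x

/-- Leaf **COUNT** (the δ-count). -/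
def CountLeaf : Prop :=
  ∀ {R E F : Type} [CommRing R] [IsDomain R] [IsDiscreteValuationRing R]
    [HenselianLocalRing R] [IsAlgClosed (IsLocalRing.ResidueField R)]
    [Field E] [CharZero E] [Algebra R E] [IsFractionRing R E]
    [Field F] [Algebra E F] [Algebra R F] [IsScalarTower R E F]
    (w : R) (q m : ℕ) (x : F) (Bf Bi : Subalgebra R F)
    (τ : F ≃+* F) (τE : E ≃+* E) (τR : R ≃+* R),
    SSCtx w q m x Bf Bi τ τE τR →
    ∀ (L : Type) [Field L] [Algebra F L] [Algebra R L] [IsScalarTower R F L],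
      IsKummerSplit L w x m → CountConclusion L w x

/-- Leaf **COVER**. -/
def CoverLeaf : Prop :=
  ∀ {R E F : Type} [CommRing R] [IsDomain R] [IsDiscreteValuationRing R]
    [HenselianLocalRing R] [IsAlgClosed (IsLocalRing.ResidueField R)]
    [Field E] [CharZero E] [Algebra R E] [IsFractionRing R E]
    [Field F] [Algebra E F] [Algebra R F] [IsScalarTower R E F]
    (w : R) (q m : ℕ) (x : F) (Bf Bi : Subalgebra R F)
    (τ : F ≃+* F) (τE : E ≃+* E) (τR : R ≃+* R),
    SSCtx w q m x Bf Bi τ τE τR →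
    ∀ g : F, g ≠ 0 → HorDiv R m g →
      (∀ V : ValuationSubring F, IsSheet w x V → SplitAt m V g) →
      CoverConclusion w x m τ g

end Fermat.Agent.A2.H12

end
-- ===== PACK-END A2/H12/AlgLeaves.lean

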