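import Mathlib
import Mathlib.Analysis.Complex.UpperHalfPlane.Manifold
import Mathlib.Geometry.Manifold.Notation
import Mathlib.Geometry.Manifold.MFDeriv.SpecificFunctions
import Fermat.Prelude.Def_ModularCurve_X0ModL
import Fermat.Prelude.Thm_ModularCurve_coeffMap_qExpand
import Fermat.Agent.Pack.S44.G0E16L2
import Fermat.Agent.Pack.S44.G0E16L0
import Fermat.Agent.Pack.S44.G0E14L2
import Fermat.Agent.Pack.S44.G0E16L3
import Fermat.Agent.Pack.S44.G0E14L0
import Fermat.Agent.Pack.S44.G0E12L0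
import Fermat.Agent.Pack.S44.G0E8L3
import Fermat.Agent.Pack.S44.G0E17L0
import Fermat.Agent.Pack.S44.G0E17L3
import Fermat.Agent.Pack.S44.G0E15L3
import Fermat.Agent.Pack.S44.G0E3L0
import Fermat.Agent.Pack.S44.G0E17L1
import Fermat.Agent.Pack.S44.G0E9L1
import Fermat.Agent.Pack.S44.G0E9L2
import Fermat.Agent.Pack.S44.G0E13L3
import Fermat.Agent.Pack.S44.G0E4L1
import Fermat.Agent.Pack.S44.G0E17L2

-- ===== PACK-BEGIN S59/H127/CardTorsion.lean
section



/-!
# E-side foundation, part 2: `#E[n] = n^2`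

Over an algebraically closed field `K` of characteristic `0`, for an elliptic curve `E` (in affine
Weierstrass form) and every `n : ℕ`:

* `card_torsion_eq` : `Nat.card (Submodule.torsionBy ℤ E.Point n) = n ^ 2`;
* `finite_torsion` : `E[n]` is finite for `n ≥ 1`.

Proof: for a generic `c = x(P)` the fibre polynomial `N_n - c D_n` (monic of degree `n^2`) is
separable (the bad `c` are the values of `N_n / D_n` at the roots of the Wronskian
`N_n' D_n - N_n D_n'`, which has leading coefficient `n^2 ≠ 0`), its roots are exactly the `x(Q)`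
with `nQ = ± P`, and `{Q | nQ = P}` is a torsor under `E[n]` on which `x` is injective as soon as
`2P ≠ 0`.
-/

open WeierstrassCurve WeierstrassCurve.Affine Polynomial
open Fermat.Agent.S51.Five (xc dD dN xc_add_self add_self_ne_zero_of_dD_ne_zero
  eq_or_eq_neg_of_xc_eq xc_neg xc_some exists_equation)
open Fermat.Agent.S13.H891

namespace Fermat.Agent.S59.H127

variable {K : Type*} [Field K]

section wronskian

lemma DC.derivative' {p : K[X]} {m : ℕ} {a : K} (hp : DC p (m + 1) a) :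
    DC (derivative p) m (a * ((m : K) + 1)) := by
  refine ⟨(natDegree_derivative_le p).trans ?_, ?_⟩
  · have := hp.1; omega
  · rw [coeff_derivative, hp.2]

variable (E : WeierstrassCurve.Affine K)

/-- the Wronskian `N_n' D_n - N_n D_n'` -/
noncomputable def wronskPoly (n : ℕ) : K[X] :=
  derivative (polyN E.b₂ E.b₄ E.b₆ E.b₈ n) * polyD E.b₂ E.b₄ E.b₆ E.b₈ n
    - polyN E.b₂ E.b₄ E.b₆ E.b₈ n * derivative (polyD E.b₂ E.b₄ E.b₆ E.b₈ n)

lemma dc_wronskPoly (n : ℕ) (hn : 2 ≤ n) :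
    DC (wronskPoly E n) (2 * n ^ 2 - 2) ((n : K) ^ 2) := by
  obtain ⟨hN, hD⟩ := dc_poly E.b₂ E.b₄ E.b₆ E.b₈ n (by omega)
  have h4 : 4 ≤ n ^ 2 := by nlinarith
  obtain ⟨B, hB⟩ : ∃ B, n ^ 2 = B + 2 := ⟨n ^ 2 - 2, by omega⟩
  have hBK : (n : K) ^ 2 = (B : K) + 2 := by
    have := congrArg (Nat.cast : ℕ → K) hB
    push_cast at this
    exact this
  rw [hB] at hN
  have hD1 : DC (polyD E.b₂ E.b₄ E.b₆ E.b₈ n) (B + 1) ((n : K) ^ 2) :=
    hD.congr (by omega) rfl
  have hN' := DC.derivative' hN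
  have hD' := DC.derivative' hD1
  have h1 := hN'.mul hD1
  have h2 := hN.mul hD'
  have h2' := h2.congr (show B + 1 + 1 + B = B + 1 + (B + 1) by ring) rfl
  have h3 := h1.sub h2'
  unfold wronskPoly
  refine h3.congr (by omega) ?_
  push_cast
  rw [hBK]
  ring

lemma wronskPoly_ne_zero [CharZero K] (n : ℕ) (hn : 2 ≤ n) : wronskPoly E n ≠ 0 := by
  intro h
  have := (dc_wronskPoly E n hn).2
  rw [h, coeff_zero] at this
  have hn0 : (n : K) ≠ 0 := Nat.cast_ne_zero.mpr (by omega)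
  exact pow_ne_zero 2 hn0 this.symm

lemma polyD_two_ne_zero [CharZero K] : polyD E.b₂ E.b₄ E.b₆ E.b₈ 2 ≠ 0 := by
  intro h
  have := (dc_poly E.b₂ E.b₄ E.b₆ E.b₈ 2 (by norm_num)).2.2
  rw [h, coeff_zero] at this
  have h2 : ((2 : ℕ) : K) ≠ 0 := Nat.cast_ne_zero.mpr (by norm_num)
  exact pow_ne_zero 2 h2 this.symm

lemma eval_derivative_fibPoly (n : ℕ) (c x : K) :
    (derivative (fibPoly E n c)).eval x
      = (derivative (polyN E.b₂ E.b₄ E.b₆ E.b₈ n)).eval x
        - c * (derivative (polyD E.b₂ E.b₄ E.b₆ E.b₈ n)).eval x := by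
  simp only [fibPoly, derivative_sub, derivative_mul, derivative_C, zero_mul, zero_add, eval_sub,
    eval_mul, eval_C]

end wronskian

variable [DecidableEq K] {E : WeierstrassCurve.Affine K}

/-- `2P ≠ 0` as soon as `x(P)` is not a root of `D_2` -/
lemma add_self_ne_zero_of_polyD_two {P : E.Point} (hP : P ≠ 0)
    (h : (polyD E.b₂ E.b₄ E.b₆ E.b₈ 2).eval (xc P) ≠ 0) : P + P ≠ 0 := by
  rw [eval_polyD] at h
  have := rep_lad hP 2
  rw [two_nsmul] at this
  exact fun h0 => h (this.eq_zero_iff.mp h0)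

lemma mem_torsionBy_natCast_iff {n : ℕ} {T : E.Point} :
    T ∈ Submodule.torsionBy ℤ E.Point ((n : ℕ) : ℤ) ↔ n • T = 0 := by
  rw [Submodule.mem_torsionBy_iff, natCast_zsmul]

section algClosed

variable [IsAlgClosed K] [CharZero K] [E.IsElliptic]

/-- the set of bad values `c` -/
noncomputable def badValues (E : WeierstrassCurve.Affine K) (n : ℕ) : Finset K :=
  (polyD E.b₂ E.b₄ E.b₆ E.b₈ 2).roots.toFinset ∪
    (wronskPoly E n).roots.toFinset.image
      (fun x => (polyN E.b₂ E.b₄ E.b₆ E.b₈ n).eval x / (polyD E.b₂ E.b₄ E.b₆ E.b₈ n).eval x)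

/-- for `c` outside the bad set, the fibre polynomial has simple roots -/
theorem nodup_roots_fibPoly (n : ℕ) (hn : 2 ≤ n) {c : K} (hc : c ∉ badValues E n) :
    (fibPoly E n c).roots.Nodup := by
  rw [Multiset.nodup_iff_count_le_one]
  intro x
  rw [count_roots]
  by_contra hlt
  rw [not_le] at hlt
  obtain ⟨h0, h1⟩ := (one_lt_rootMultiplicity_iff_isRoot (fibPoly_ne_zero E n (by omega) c)).mp hlt
  rw [IsRoot.def] at h0 h1
  have h0' := h0
  rw [eval_fibPoly] at h0
  rw [eval_derivative_fibPoly] at h1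
  obtain ⟨Q, hQ, rfl⟩ := exists_point_xc E x
  have hD : ladD E.b₂ E.b₄ E.b₆ E.b₈ (xc Q) n ≠ 0 := by
    intro hD
    apply ladN_ne_zero_of_ladD_eq_zero hQ n hD
    rw [hD, mul_zero, sub_zero] at h0
    exact h0
  apply hc
  unfold badValues
  rw [Finset.mem_union]
  right
  rw [Finset.mem_image]
  refine ⟨xc Q, ?_, ?_⟩
  · rw [Multiset.mem_toFinset, mem_roots (wronskPoly_ne_zero E n hn), IsRoot.def]
    unfold wronskPoly
    rw [eval_sub, eval_mul, eval_mul, eval_polyN, eval_polyD]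
    linear_combination (ladD E.b₂ E.b₄ E.b₆ E.b₈ (xc Q) n) * h1
      - (derivative (polyD E.b₂ E.b₄ E.b₆ E.b₈ n)).eval (xc Q) * h0
  · rw [eval_polyN, eval_polyD, div_eq_iff hD]
    linear_combination h0

/-- for `c` outside the bad set, the fibre polynomial has exactly `n^2` roots -/
theorem card_roots_fibPoly (n : ℕ) (hn : 2 ≤ n) {c : K} (hc : c ∉ badValues E n) :
    (fibPoly E n c).roots.toFinset.card = n ^ 2 := by
  rw [Multiset.toFinset_card_of_nodup (nodup_roots_fibPoly n hn hc),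
    IsAlgClosed.card_roots_eq_natDegree, natDegree_fibPoly E n (by omega)]

/-- a good base point: `P ≠ 0`, `2P ≠ 0`, `x(P)` outside the bad set -/
lemma exists_good_point (E : WeierstrassCurve.Affine K) [E.IsElliptic] (n : ℕ) :
    ∃ P : E.Point, P ≠ 0 ∧ P + P ≠ 0 ∧ xc P ∉ badValues E n := by
  obtain ⟨c, hc⟩ := Infinite.exists_notMem_finset (badValues E n)
  obtain ⟨P, hP, rfl⟩ := exists_point_xc E c
  refine ⟨P, hP, add_self_ne_zero_of_polyD_two hP ?_, hc⟩
  intro h
  apply hc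
  unfold badValues
  rw [Finset.mem_union]
  left
  rw [Multiset.mem_toFinset, mem_roots (polyD_two_ne_zero E)]
  exact h

omit [IsAlgClosed K] [CharZero K] [E.IsElliptic] in
/-- the `x`-coordinate map from the `n`-torsion, translated by `Q₁`, to the roots of the fibre
polynomial -/
lemma xc_add_mem_roots {P Q₁ : E.Point} (hP : P ≠ 0) {n : ℕ} (hn : 1 ≤ n) (hQ₁ : n • Q₁ = P)
    {T : E.Point} (hT : n • T = 0) :
    xc (Q₁ + T) ∈ (fibPoly E n (xc P)).roots.toFinset := by
  have hnQ : n • (Q₁ + T) = P := by rw [smul_add, hQ₁, hT, add_zero]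
  have hQ0 : Q₁ + T ≠ 0 := by
    intro h
    rw [h, smul_zero] at hnQ
    exact hP hnQ.symm
  rw [Multiset.mem_toFinset, mem_roots (fibPoly_ne_zero E n hn _), IsRoot.def,
    fibPoly_root_iff hQ0, hnQ]
  exact ⟨hP, rfl⟩

omit [IsAlgClosed K] [CharZero K] [E.IsElliptic] in
lemma xc_add_injective {P Q₁ : E.Point} (hP2 : P + P ≠ 0) {n : ℕ} (hQ₁ : n • Q₁ = P)
    {T T' : E.Point} (hT : n • T = 0) (hT' : n • T' = 0)
    (hQ0 : Q₁ + T ≠ 0) (hQ0' : Q₁ + T' ≠ 0) (h : xc (Q₁ + T) = xc (Q₁ + T')) : T = T' := by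
  rcases eq_or_eq_neg_of_xc_eq hQ0 hQ0' h with h' | h'
  · exact add_left_cancel h'
  · exfalso
    apply hP2
    have h1 : n • (Q₁ + T) = P := by rw [smul_add, hQ₁, hT, add_zero]
    have h2 : n • (Q₁ + T') = P := by rw [smul_add, hQ₁, hT', add_zero]
    rw [h', smul_neg, h2] at h1
    calc P + P = P + -P := by rw [h1]
      _ = 0 := add_neg_cancel P

/-- `E[n]` is finite, of cardinality at most the number of roots of a fibre polynomial -/
theorem torsion_le_roots {P : E.Point} (hP : P ≠ 0) (hP2 : P + P ≠ 0) (n : ℕ) (hn : 1 ≤ n) :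
    Finite (Submodule.torsionBy ℤ E.Point ((n : ℕ) : ℤ)) ∧
    Nat.card (Submodule.torsionBy ℤ E.Point ((n : ℕ) : ℤ))
      ≤ (fibPoly E n (xc P)).roots.toFinset.card := by
  obtain ⟨Q₁, hQ₁⟩ := exists_nsmul_eq n hn P
  have hne : ∀ T : E.Point, n • T = 0 → Q₁ + T ≠ 0 := by
    intro T hT h
    have hnQ : n • (Q₁ + T) = P := by rw [smul_add, hQ₁, hT, add_zero]
    rw [h, smul_zero] at hnQ
    exact hP hnQ.symm
  let f : Submodule.torsionBy ℤ E.Point ((n : ℕ) : ℤ) → (fibPoly E n (xc P)).roots.toFinset :=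
    fun T => ⟨xc (Q₁ + T.1), xc_add_mem_roots hP hn hQ₁ (mem_torsionBy_natCast_iff.mp T.2)⟩
  have hf : Function.Injective f := by
    intro T T' h
    have h' : xc (Q₁ + T.1) = xc (Q₁ + T'.1) := congrArg Subtype.val h
    exact Subtype.ext (xc_add_injective hP2 hQ₁ (mem_torsionBy_natCast_iff.mp T.2)
      (mem_torsionBy_natCast_iff.mp T'.2) (hne _ (mem_torsionBy_natCast_iff.mp T.2))
      (hne _ (mem_torsionBy_natCast_iff.mp T'.2)) h')
  refine ⟨Finite.of_injective f hf, ?_⟩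
  calc Nat.card (Submodule.torsionBy ℤ E.Point ((n : ℕ) : ℤ))
      ≤ Nat.card (fibPoly E n (xc P)).roots.toFinset := Nat.card_le_card_of_injective f hf
    _ = (fibPoly E n (xc P)).roots.toFinset.card := by
        rw [Nat.card_eq_fintype_card, Fintype.card_coe]

/-- the number of roots of a fibre polynomial is at most `#E[n]` -/
theorem roots_le_torsion {P : E.Point} (hP : P ≠ 0) (n : ℕ) (hn : 1 ≤ n)
    [Finite (Submodule.torsionBy ℤ E.Point ((n : ℕ) : ℤ))] :
    (fibPoly E n (xc P)).roots.toFinset.card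
      ≤ Nat.card (Submodule.torsionBy ℤ E.Point ((n : ℕ) : ℤ)) := by
  obtain ⟨Q₁, hQ₁⟩ := exists_nsmul_eq n hn P
  have hex : ∀ x : (fibPoly E n (xc P)).roots.toFinset,
      ∃ Q : E.Point, xc Q = x.1 ∧ n • Q = P := by
    intro x
    have hx := x.2
    rw [Multiset.mem_toFinset, mem_roots (fibPoly_ne_zero E n hn _), IsRoot.def] at hx
    exact exists_nsmul_eq_of_root hP n hx
  choose q hq1 hq2 using hex
  let g : (fibPoly E n (xc P)).roots.toFinset → Submodule.torsionBy ℤ E.Point ((n : ℕ) : ℤ) :=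
    fun x => ⟨q x - Q₁, mem_torsionBy_natCast_iff.mpr (by rw [smul_sub, hq2, hQ₁, sub_self])⟩
  have hg : Function.Injective g := by
    intro x y h
    have h' : q x - Q₁ = q y - Q₁ := congrArg Subtype.val h
    have h'' : q x = q y := sub_left_inj.mp h'
    apply Subtype.ext
    rw [← hq1 x, ← hq1 y, h'']
  calc (fibPoly E n (xc P)).roots.toFinset.card
      = Nat.card (fibPoly E n (xc P)).roots.toFinset := by
        rw [Nat.card_eq_fintype_card, Fintype.card_coe]
    _ ≤ Nat.card (Submodule.torsionBy ℤ E.Point ((n : ℕ) : ℤ)) :=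
        Nat.card_le_card_of_injective g hg

variable (E)

/-- `E[n]` is finite for `n ≥ 1` -/
theorem finite_torsion (n : ℕ) (hn : 1 ≤ n) :
    Finite (Submodule.torsionBy ℤ E.Point ((n : ℕ) : ℤ)) := by
  obtain ⟨P, hP, hP2, -⟩ := exists_good_point E n
  exact (torsion_le_roots hP hP2 n hn).1

/-- `E(K)` is infinite -/
theorem infinite_point : Infinite E.Point := by
  have hsurj : Function.Surjective (xc : E.Point → K) := fun x => by
    obtain ⟨Q, -, hQ⟩ := exists_point_xc E x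
    exact ⟨Q, hQ⟩
  exact Infinite.of_surjective _ hsurj

/-- **`#E[n] = n^2`** over an algebraically closed field of characteristic `0` -/
theorem card_torsion_eq (n : ℕ) :
    Nat.card (Submodule.torsionBy ℤ E.Point ((n : ℕ) : ℤ)) = n ^ 2 := by
  rcases Nat.lt_or_ge n 2 with hlt | hn
  · interval_cases n
    · -- `n = 0`: the whole (infinite) group
      have hI := infinite_point E
      have hinf : Infinite (Submodule.torsionBy ℤ E.Point ((0 : ℕ) : ℤ)) :=
        Infinite.of_injective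
          (fun P : E.Point => (⟨P, mem_torsionBy_natCast_iff.mpr (zero_nsmul P)⟩ :
            Submodule.torsionBy ℤ E.Point ((0 : ℕ) : ℤ)))
          (fun P Q h => congrArg Subtype.val h)
      rw [Nat.card_eq_zero_of_infinite]
      rfl
    · -- `n = 1`: the trivial group
      have hbot : Submodule.torsionBy ℤ E.Point ((1 : ℕ) : ℤ) = ⊥ := by
        rw [Nat.cast_one]; exact Submodule.torsionBy_one
      have : Subsingleton (Submodule.torsionBy ℤ E.Point ((1 : ℕ) : ℤ)) := by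
        rw [hbot]; infer_instance
      rw [Nat.card_unique]
      rfl
  · obtain ⟨P, hP, hP2, hc⟩ := exists_good_point E n
    obtain ⟨hfin, hle⟩ := torsion_le_roots hP hP2 n (by omega)
    have hge := roots_le_torsion hP n (by omega)
    rw [card_roots_fibPoly n hn hc] at hle hge
    exact le_antisymm hle hge

end algClosed

end Fermat.Agent.S59.H127

end
-- ===== PACK-END S59/H127/CardTorsion.lean

-- ===== PACK-BEGIN S29/H395/GoodProd.lean
section
/-
S29 / layer M / bridge BR, piece NORM — helper395.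

`heckeProd ℓ` preserves the landed ring `S24.H648.goodRing N` (holomorphic, `Γ₀(N)`-invariant, all
`SL₂(ℤ)`-translates of at most exponential growth), for a prime `ℓ ∤ N`.
-/



set_option autoImplicit false
set_option linter.style.haveILetI false

noncomputable section

open CongruenceSubgroup Matrix.SpecialLinearGroup UpperHalfPlane
open scoped MatrixGroups Real Manifold OnePoint
open P2MW.S_ModularForm_heckeT_slash_eq_self_of_mem_Gamma0.ModularForm.HeckeSlashInvariance

namespace Fermat.Agent.S29.H395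

open Fermat.Agent.S24 Fermat.Agent.S24.H648 Fermat.Agent.S29.H201

/-! ### Finite products -/

theorem mdiff_finset_prod {ι : Type*} (s : Finset ι) (f : ι → ℍ → ℂ)
    (h : ∀ i ∈ s, MDifferentiable 𝓘(ℂ) 𝓘(ℂ) (f i)) :
    MDifferentiable 𝓘(ℂ) 𝓘(ℂ) (fun τ => ∏ i ∈ s, f i τ) := by
  classical
  induction s using Finset.induction_on with
  | empty => simpa using (mdifferentiable_const : MDifferentiable 𝓘(ℂ) 𝓘(ℂ) (fun _ : ℍ => (1 : ℂ)))
  | insert i s hi ih =>
    have h1 := h i (Finset.mem_insert_self i s)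
    have h2 := ih fun j hj => h j (Finset.mem_insert_of_mem hj)
    have := h1.mul h2
    have e : (fun τ => ∏ j ∈ insert i s, f j τ) = f i * fun τ => ∏ j ∈ s, f j τ := by
      funext τ
      simp [Finset.prod_insert hi]
    rw [e]
    exact this

theorem expGrowth_finset_prod {ι : Type*} (s : Finset ι) (f : ι → ℍ → ℂ)
    (h : ∀ i ∈ s, ExpGrowth (f i)) : ExpGrowth (fun τ => ∏ i ∈ s, f i τ) := by
  classical
  induction s using Finset.induction_on with
  | empty => simpa using expGrowth_const 1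
  | insert i s hi ih =>
    have h1 := h i (Finset.mem_insert_self i s)
    have h2 := ih fun j hj => h j (Finset.mem_insert_of_mem hj)
    have := h1.mul h2
    have e : (fun τ => ∏ j ∈ insert i s, f j τ) = f i * fun τ => ∏ j ∈ s, f j τ := by
      funext τ
      simp [Finset.prod_insert hi]
    rw [e]
    exact this

/-! ### Holomorphy -/

section Hol

variable {ℓ : ℕ} [Fact ℓ.Prime]

omit [Fact ℓ.Prime] in
theorem heckeRep_det_pos (x : OnePoint (ZMod ℓ)) : 0 < ((_root_.P2MW.S_ModularForm_heckeT_slash_eq_self_of_mem_Gamma0.ModularForm.HeckeSlashInvariance.heckeRep ℓ x).det : ℝ) := by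
  induction x using OnePoint.rec with
  | infty => exact ModularForm.det_heckeDiagMatrix_pos ℓ
  | coe j => exact ModularForm.det_heckeMatrix_pos ℓ j.val

theorem mdiff_heckeProd {U : ℍ → ℂ} (hU : MDifferentiable 𝓘(ℂ) 𝓘(ℂ) U) :
    MDifferentiable 𝓘(ℂ) 𝓘(ℂ) (heckeProd ℓ U) := by
  refine mdiff_finset_prod Finset.univ (fun x τ => U (_root_.P2MW.S_ModularForm_heckeT_slash_eq_self_of_mem_Gamma0.ModularForm.HeckeSlashInvariance.heckeRep ℓ x • τ)) fun x _ => ?_
  exact hU.comp (UpperHalfPlane.mdifferentiable_smul (heckeRep_det_pos x))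

end Hol

/-! ### Periodicity of the translates of an invariant function -/

theorem conj_T_pow_mem_Gamma0 (N : ℕ) (g : SL(2, ℤ)) :
    g * ModularGroup.T ^ (N : ℤ) * g⁻¹ ∈ Gamma0 N := by
  have h1 : ModularGroup.T ^ (N : ℤ) ∈ Gamma N := by
    have := ModularGroup_T_pow_mem_Gamma (N : ℤ) (N : ℤ) dvd_rfl
    simpa using this
  have h2 : g * ModularGroup.T ^ (N : ℤ) * g⁻¹ ∈ Gamma N := (Gamma_normal N).conj_mem _ h1 g
  rw [Gamma0_mem]
  exact (Gamma_mem.mp h2).2.2.1

theorem translate_periodic {N : ℕ} {G : ℍ → ℂ}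
    (hG : ∀ γ ∈ Gamma0 N, ∀ τ : ℍ, G (γ • τ) = G τ) (g : SL(2, ℤ)) (τ : ℍ) :
    G (g • ((N : ℝ) +ᵥ τ)) = G (g • τ) := by
  have h1 : ((N : ℝ) +ᵥ τ) = ModularGroup.T ^ (N : ℤ) • τ := by
    rw [UpperHalfPlane.modular_T_zpow_smul]; simp
  have h2 : g • (ModularGroup.T ^ (N : ℤ) • τ)
      = (g * ModularGroup.T ^ (N : ℤ) * g⁻¹) • (g • τ) := by
    rw [← mul_smul, ← mul_smul, inv_mul_cancel_right]
  rw [h1, h2, hG _ (conj_T_pow_mem_Gamma0 N g)]

theorem continuous_translate {G : ℍ → ℂ} (hG : MDifferentiable 𝓘(ℂ) 𝓘(ℂ) G) (g : SL(2, ℤ)) :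
    Continuous (fun τ : ℍ => G (g • τ)) := by
  have h : MDifferentiable 𝓘(ℂ) 𝓘(ℂ) (fun τ : ℍ => G (g • τ)) :=
    hG.comp (UpperHalfPlane.mdifferentiable_smul (g := (g : GL (Fin 2) ℝ)) (by simp))
  exact h.continuous

/-! ### The main statement -/

section Main

variable {N : ℕ} [NeZero N] {ℓ : ℕ} [Fact ℓ.Prime]

/-- Growth of a single factor `τ ↦ G (heckeRep x • g • τ)`. -/
theorem expGrowth_factor {G : ℍ → ℂ} (hG : G ∈ goodRing N) (g : SL(2, ℤ))
    (x : OnePoint (ZMod ℓ)) : ExpGrowth (fun τ => G (_root_.P2MW.S_ModularForm_heckeT_slash_eq_self_of_mem_Gamma0.ModularForm.HeckeSlashInvariance.heckeRep ℓ x • (g • τ))) := by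
  obtain ⟨hmd, hinv, hgr⟩ := hG
  have hℓ1 : ¬ ℓ ∣ 1 := (Fact.out : ℓ.Prime).one_lt.ne' ∘ Nat.dvd_one.mp
  have hℓ : 0 < ℓ := (Fact.out : ℓ.Prime).pos
  obtain ⟨g', -, hg'⟩ := heckeRep_mul hℓ1 g (one_dvd _) x
  have hNpos : (0 : ℝ) < (N : ℝ) := by exact_mod_cast Nat.pos_of_ne_zero (NeZero.ne N)
  have key : ∀ τ : ℍ, G (_root_.P2MW.S_ModularForm_heckeT_slash_eq_self_of_mem_Gamma0.ModularForm.HeckeSlashInvariance.heckeRep ℓ x • (g • τ))
      = G (g' • (_root_.P2MW.S_ModularForm_heckeT_slash_eq_self_of_mem_Gamma0.ModularForm.HeckeSlashInvariance.heckeRep ℓ (redMatrix ℓ g • x) • τ)) := by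
    intro τ
    show G (_root_.P2MW.S_ModularForm_heckeT_slash_eq_self_of_mem_Gamma0.ModularForm.HeckeSlashInvariance.heckeRep ℓ x • (mapGL ℝ g • τ)) = G (mapGL ℝ g' • (_root_.P2MW.S_ModularForm_heckeT_slash_eq_self_of_mem_Gamma0.ModularForm.HeckeSlashInvariance.heckeRep ℓ (redMatrix ℓ g • x) • τ))
    rw [← mul_smul, ← mul_smul, hg']
  have hF := continuous_translate hmd g'
  have hper := translate_periodic hinv g'
  generalize redMatrix ℓ g • x = y at key
  induction y using OnePoint.rec with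
  | infty =>
    have := expGrowth_comp_infAff hF hNpos hper (hgr g') hℓ one_pos 0
    have e : (fun τ => G (_root_.P2MW.S_ModularForm_heckeT_slash_eq_self_of_mem_Gamma0.ModularForm.HeckeSlashInvariance.heckeRep ℓ x • (g • τ))) = fun τ => G (g' • infAff ℓ 0 1 τ) := by
      funext τ
      rw [key τ, heckeRep_infty_smul]
    rw [e]
    exact this
  | coe j =>
    have := expGrowth_comp_infAff hF hNpos hper (hgr g') one_pos hℓ (j.val : ℤ)
    have e : (fun τ => G (_root_.P2MW.S_ModularForm_heckeT_slash_eq_self_of_mem_Gamma0.ModularForm.HeckeSlashInvariance.heckeRep ℓ x • (g • τ)))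
        = fun τ => G (g' • infAff 1 (j.val : ℤ) ℓ τ) := by
      funext τ
      rw [key τ, heckeRep_coe_smul]
    rw [e]
    exact this

/-- **`heckeProd ℓ` preserves good functions** (`ℓ ∤ N` prime). -/
theorem heckeProd_mem_goodRing (hℓN : ¬ ℓ ∣ N) {G : ℍ → ℂ} (hG : G ∈ goodRing N) :
    heckeProd ℓ G ∈ goodRing N := by
  refine ⟨mdiff_heckeProd hG.1, fun γ hγ τ => ?_, fun g => ?_⟩
  · have h := heckeProd_smul hℓN (h := G) (c := fun _ => 1)
      (fun γ τ => by rw [one_mul]; exact hG.2.1 _ γ.2 τ) ⟨γ, hγ⟩ τ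
    simpa using h
  · exact expGrowth_finset_prod Finset.univ
      (fun x τ => G (_root_.P2MW.S_ModularForm_heckeT_slash_eq_self_of_mem_Gamma0.ModularForm.HeckeSlashInvariance.heckeRep ℓ x • (g • τ))) fun x _ => expGrowth_factor hG g x

end Main

end Fermat.Agent.S29.H395

end

end
-- ===== PACK-END S29/H395/GoodProd.lean

-- ===== PACK-BEGIN S29/H942/HoloRoot.lean
section





/-!
# Holomorphic `p`-th roots on the upper half plane

If `g : ℍ → ℂ` is holomorphic, not identically zero, and all its orders of vanishing are divisible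
by `p`, then `g = c ^ p` for a holomorphic `c : ℍ → ℂ`.
-/

set_option autoImplicit false

noncomputable section

open Filter Topology Set Complex MeromorphicOn Function UpperHalfPlane
open scoped Manifold

namespace Fermat.Agent.S29.H942

/-- A root in normal form of an analytic function is analytic. -/
lemma IsNFRootOn.analyticAt {h f : ℂ → ℂ} {V : Set ℂ} {p : ℕ} (hp : p ≠ 0)
    (hh : IsNFRootOn h f V p) {x : ℂ} (hx : x ∈ V) (hf : AnalyticAt ℂ f x) :
    AnalyticAt ℂ h x := by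
  rw [← (hh.1 hx).meromorphicOrderAt_nonneg_iff_analyticAt]
  have h1 : meromorphicOrderAt (h ^ p) x = meromorphicOrderAt f x :=
    meromorphicOrderAt_congr (hh.2 x hx)
  rw [meromorphicOrderAt_pow (hh.1 hx).meromorphicAt] at h1
  have h2 : 0 ≤ meromorphicOrderAt f x := hf.meromorphicOrderAt_nonneg
  rw [← h1] at h2
  by_cases htop : meromorphicOrderAt h x = ⊤
  · rw [htop]
    exact le_top
  · obtain ⟨n, hn⟩ := WithTop.ne_top_iff_exists.1 htop
    rw [← hn] at h2 ⊢
    have h4 : ((p : ℕ) : WithTop ℤ) * ((n : ℤ) : WithTop ℤ) = (((p : ℤ) * n : ℤ) : WithTop ℤ) := by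
      push_cast
      rfl
    rw [h4] at h2
    have h5 : (0 : ℤ) ≤ (p : ℤ) * n := by exact_mod_cast h2
    have hp' : (0 : ℤ) < p := by exact_mod_cast Nat.pos_of_ne_zero hp
    have h6 : (0 : ℤ) ≤ n := by
      by_contra hneg
      rw [not_le] at hneg
      nlinarith
    exact_mod_cast h6

/-- A root in normal form of an analytic function is a root everywhere. -/
lemma IsNFRootOn.pow_eq {h f : ℂ → ℂ} {V : Set ℂ} {p : ℕ} (hp : p ≠ 0)
    (hh : IsNFRootOn h f V p) {x : ℂ} (hx : x ∈ V) (hf : AnalyticAt ℂ f x) :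
    h x ^ p = f x := by
  have hA := hh.analyticAt hp hx hf
  have hc : ContinuousAt (h ^ p) x := (hA.pow p).continuousAt
  have := (hc.eventuallyEq_nhds_iff_eventuallyEq_nhdsNE hf.continuousAt).1 (hh.2 x hx)
  exact this.self_of_nhds

/-- **Holomorphic `p`-th roots on the upper half plane.** -/
theorem exists_holomorphic_root {g : ℍ → ℂ} (hg : MDiff g) {p : ℕ} (hp : p ≠ 0)
    (hdiv : ∀ τ : ℍ, ∃ k : ℕ, analyticOrderAt (g ∘ ofComplex) (τ : ℂ) = ((p * k : ℕ) : ℕ∞)) :
    ∃ c : ℍ → ℂ, MDiff c ∧ c ^ p = g := by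
  set f : ℂ → ℂ := g ∘ ofComplex with hf
  have hAn : AnalyticOnNhd ℂ f uhpSet :=
    (UpperHalfPlane.mdifferentiable_iff.mp hg).analyticOnNhd isOpen_upperHalfPlaneSet
  have hord : ∀ z ∈ uhpSet, ∃ k : ℕ, meromorphicOrderAt f z = ((p * k : ℕ) : ℤ) := by
    intro z hz
    obtain ⟨k, hk⟩ := hdiv ⟨z, hz⟩
    refine ⟨k, ?_⟩
    rw [(hAn z hz).meromorphicOrderAt_eq]
    have : analyticOrderAt f z = ((p * k : ℕ) : ℕ∞) := hk
    rw [this]
    rfl
  obtain ⟨h, hh⟩ := exists_isNFRootOn_upperHalfPlane (f := f) hAn.meromorphicOn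
    (fun z hz => by
      obtain ⟨k, hk⟩ := hord z hz
      rw [hk]
      exact WithTop.coe_ne_top)
    hp
    (fun z hz => by
      obtain ⟨k, hk⟩ := hord z hz
      rw [hk]
      simp only [WithTop.untop₀_coe]
      exact ⟨k, by push_cast; ring⟩)
  have hhA : AnalyticOnNhd ℂ h uhpSet := fun z hz => hh.analyticAt hp hz (hAn z hz)
  have hhp : ∀ z ∈ uhpSet, h z ^ p = f z := fun z hz => hh.pow_eq hp hz (hAn z hz)
  refine ⟨fun τ => h (τ : ℂ), ?_, ?_⟩
  · rw [UpperHalfPlane.mdifferentiable_iff]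
    refine hhA.differentiableOn.congr fun z hz => ?_
    simp only [Function.comp_apply]
    rw [ofComplex_apply_of_im_pos hz]
  · funext τ
    have := hhp (τ : ℂ) τ.im_pos
    simp only [Pi.pow_apply]
    rw [this, hf, Function.comp_apply, ofComplex_apply]

/-- Uniqueness of holomorphic `p`-th roots up to roots of unity. -/
theorem holomorphic_root_unique {c₁ c₂ : ℍ → ℂ} (h₁ : MDiff c₁) (h₂ : MDiff c₂)
    (h₁0 : c₁ ≠ 0) {p : ℕ} (hp : p ≠ 0) (hpow : c₁ ^ p = c₂ ^ p) :
    ∃ ζ : ℂ, ζ ^ p = 1 ∧ c₂ = fun τ => ζ * c₁ τ := by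
  set f : ℂ → ℂ := (c₁ ^ p) ∘ ofComplex with hf
  have hA₁ : AnalyticOnNhd ℂ (c₁ ∘ ofComplex) uhpSet :=
    (UpperHalfPlane.mdifferentiable_iff.mp h₁).analyticOnNhd isOpen_upperHalfPlaneSet
  have hA₂ : AnalyticOnNhd ℂ (c₂ ∘ ofComplex) uhpSet :=
    (UpperHalfPlane.mdifferentiable_iff.mp h₂).analyticOnNhd isOpen_upperHalfPlaneSet
  have hAf : AnalyticOnNhd ℂ f uhpSet :=
    (UpperHalfPlane.mdifferentiable_iff.mp (MDifferentiable.pow h₁ p)).analyticOnNhd isOpen_upperHalfPlaneSet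
  have hR₁ : IsNFRootOn (c₁ ∘ ofComplex) f uhpSet p :=
    ⟨hA₁.meromorphicNFOn, fun x _ => Eventually.of_forall fun y => rfl⟩
  have hR₂ : IsNFRootOn (c₂ ∘ ofComplex) f uhpSet p :=
    ⟨hA₂.meromorphicNFOn, fun x _ => Eventually.of_forall fun y => by
      simp only [hf, hpow, Pi.pow_apply, Function.comp_apply]⟩
  have hford : ∀ x ∈ uhpSet, meromorphicOrderAt f x ≠ ⊤ := by
    intro x hx htop
    rw [(hAf x hx).meromorphicOrderAt_eq] at htop
    have h3 : analyticOrderAt f x = ⊤ := by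
      by_contra hne
      obtain ⟨n, hn⟩ := ENat.ne_top_iff_exists.1 hne
      rw [← hn] at htop
      exact absurd htop (by simp)
    have h5 : ∀ᶠ z in 𝓝 x, f z = 0 := analyticOrderAt_eq_top.mp h3
    have hpre : IsPreconnected uhpSet := by
      have hconv : Convex ℝ uhpSet := by
        have : uhpSet = Complex.im ⁻¹' (Ioi 0) := rfl
        rw [this]
        exact (convex_Ioi (0 : ℝ)).is_linear_preimage Complex.imLm.isLinear
      exact hconv.isPreconnected
    have h6 := hAf.eqOn_zero_of_preconnected_of_eventuallyEq_zero hpre hx h5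
    apply h₁0
    funext τ
    have h7 := h6 τ.im_pos
    simp only [hf, Function.comp_apply, ofComplex_apply, Pi.pow_apply, Pi.zero_apply] at h7 ⊢
    exact pow_eq_zero_iff hp |>.mp h7
  have hconv : Convex ℝ uhpSet := by
    have : uhpSet = Complex.im ⁻¹' (Ioi 0) := rfl
    rw [this]
    exact (convex_Ioi (0 : ℝ)).is_linear_preimage Complex.imLm.isLinear
  obtain ⟨ζ, hζ, hζe⟩ := IsNFRootOn.exists_eq_mul hp isOpen_uhpSet hconv.isPreconnected hford
    hR₁ hR₂
  refine ⟨ζ, hζ, ?_⟩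
  funext τ
  have := hζe (τ : ℂ) τ.im_pos
  simpa [Function.comp_apply, ofComplex_apply] using this

end Fermat.Agent.S29.H942

end
end
-- ===== PACK-END S29/H942/HoloRoot.lean

-- ===== PACK-BEGIN S18/H333/HauptLaurent.lean
section




/-!
# S18 / c3 (helper333): the Hauptmoduln `t₂`, `t₃` as Laurent series over `ℤ`

* `t2Z = q⁻¹ (η(q)/η(q²))²⁴`, `t3Z = q⁻¹ (η(q)/η(q³))¹²  : LaurentSeries ℤ`;
* `t2Z_rel_a : jqModC ℤ * t2Z ^ 2 = (t2Z + 256) ^ 3`
* `t2Z_rel_b : qExpand ℤ 2 (jqModC ℤ) * t2Z = (t2Z + 16) ^ 3`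
* `t3Z_rel_a : jqModC ℤ * t3Z ^ 3 = (t3Z + 27) * (t3Z + 243) ^ 3`
* `t3Z_rel_b : qExpand ℤ 3 (jqModC ℤ) * t3Z = (t3Z + 27) * (t3Z + 3) ^ 3`
-/

set_option autoImplicit false

noncomputable section

namespace Fermat.Agent.S18.H333

open PowerSeries ModularCurve HahnSeries

/-- power series to Laurent series over `ℤ` -/
abbrev ιZ : PowerSeries ℤ →+* LaurentSeries ℤ := HahnSeries.ofPowerSeries ℤ ℤ

theorem ιZ_injective : Function.Injective ιZ := HahnSeries.ofPowerSeries_injective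

theorem ιZ_coeff_neg (f : PowerSeries ℤ) {k : ℤ} (hk : k < 0) : (ιZ f).coeff k = 0 :=
  ofPowerSeries_coeff_of_neg f hk

theorem ιZ_coeff_nat (f : PowerSeries ℤ) (n : ℕ) : (ιZ f).coeff (n : ℤ) = PowerSeries.coeff n f :=
  HahnSeries.ofPowerSeries_apply_coeff f n

theorem qExpand_ιZ (p : ℕ) [NeZero p] (f : PowerSeries ℤ) :
    qExpand ℤ p (ιZ f) = ιZ (Vser p f) := by
  have hp : 0 < p := Nat.pos_of_ne_zero (NeZero.ne p)
  ext k
  by_cases hk : (p : ℤ) ∣ k
  · obtain ⟨m, rfl⟩ := hk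
    rw [qExpand_coeff_mul]
    rcases le_or_gt 0 m with hm | hm
    · lift m to ℕ using hm
      rw [ιZ_coeff_nat, show ((p : ℤ) * (m : ℤ)) = ((p * m : ℕ) : ℤ) by push_cast; rfl,
        ιZ_coeff_nat, coeff_Vser, if_pos (Dvd.intro m rfl), Nat.mul_div_cancel_left m hp]
    · rw [ιZ_coeff_neg _ hm, ιZ_coeff_neg _ (mul_neg_of_pos_of_neg (by exact_mod_cast hp) hm)]
  · rw [qExpand_coeff_of_not_dvd _ _ hk]
    rcases le_or_gt 0 k with hk0 | hk0
    · lift k to ℕ using hk0
      rw [ιZ_coeff_nat, coeff_Vser, if_neg]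
      intro h
      exact hk (by exact_mod_cast h)
    · rw [ιZ_coeff_neg _ hk0]

theorem ιZ_X : ιZ X = single 1 1 := HahnSeries.ofPowerSeries_X

theorem single_neg_one_mul_single_one :
    (single (-1 : ℤ) (1 : ℤ) : LaurentSeries ℤ) * single 1 1 = 1 := by
  rw [single_mul_single]
  simp

theorem jNum_map_int : jNum.map (Int.castRingHom ℤ) = jNum := by
  ext n
  simp

/-- `Δ` as a Laurent series -/
def DL : LaurentSeries ℤ := ιZ Dz

theorem DL_ne_zero : DL ≠ 0 := by
  intro h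
  have h1 : (ιZ Dz).coeff ((1 : ℕ) : ℤ) = 0 := by rw [show ιZ Dz = DL from rfl, h]; rfl
  rw [ιZ_coeff_nat] at h1
  have h2 := tl_getD 3 Dz (i := 1) (by norm_num)
  rw [tl_Dz_3, h1] at h2
  simp at h2

theorem qExpand_DL_ne_zero (p : ℕ) [NeZero p] : qExpand ℤ p DL ≠ 0 := by
  intro h
  exact DL_ne_zero (qExpand_injective p (by rw [h, map_zero]))

theorem jZ_mul_DL : jqModC ℤ * DL = ιZ (Ez ^ 3) := by
  have h1 : jNum * dedekindEtaUnit = Ez ^ 3 := by
    rw [jNum, mul_assoc, mul_comm dedekindEtaUnitInv, dedekindEtaUnit_mul_inv, mul_one]; rfl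
  rw [jqModC, jNum_map_int, DL, Dz_eq, map_mul, ιZ_X, ← h1, map_mul]
  calc single (-1 : ℤ) (1 : ℤ) * ιZ jNum * (single 1 1 * ιZ dedekindEtaUnit)
      = (single (-1 : ℤ) (1 : ℤ) * single 1 1) * (ιZ jNum * ιZ dedekindEtaUnit) := by ring
    _ = ιZ jNum * ιZ dedekindEtaUnit := by rw [single_neg_one_mul_single_one, one_mul]

theorem qExpand_jZ_mul (p : ℕ) [NeZero p] :
    qExpand ℤ p (jqModC ℤ) * qExpand ℤ p DL = ιZ (Vser p Ez ^ 3) := by
  rw [← map_mul, jZ_mul_DL, qExpand_ιZ, Vser_pow p (NeZero.ne p)]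

/-- `t₂ = q⁻¹ (η(q)/η(q²))²⁴` -/
def t2Z : LaurentSeries ℤ :=
  single (-1 : ℤ) 1 * ιZ (dedekindEtaUnit * Vser 2 dedekindEtaUnitInv)

/-- `t₃ = q⁻¹ (η(q)/η(q³))¹²` -/
def t3Z : LaurentSeries ℤ :=
  single (-1 : ℤ) 1 * ιZ (eta12 * Vser 3 eta12Inv)

theorem t2Z_mul : t2Z * qExpand ℤ 2 DL = DL := by
  have h1 : Vser 2 dedekindEtaUnitInv * Vser 2 dedekindEtaUnit = 1 := by
    rw [← Vser_mul 2 (by norm_num), mul_comm, dedekindEtaUnit_mul_inv, Vser_one 2 (by norm_num)]
  have h2 : ιZ (Vser 2 dedekindEtaUnitInv) * ιZ (Vser 2 dedekindEtaUnit) = 1 := by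
    rw [← map_mul, h1, map_one]
  rw [t2Z, DL, qExpand_ιZ, Vser_Dz 2 (by norm_num), Dz_eq]
  simp only [map_mul, map_pow, ιZ_X]
  have h3 := single_neg_one_mul_single_one
  linear_combination (single (1 : ℤ) (1 : ℤ) * ιZ dedekindEtaUnit * ιZ (Vser 2 dedekindEtaUnitInv)
    * ιZ (Vser 2 dedekindEtaUnit)) * h3 + single (1 : ℤ) (1 : ℤ) * ιZ dedekindEtaUnit * h2

theorem t3Z_mul : t3Z * qExpand ℤ 3 DL = ιZ Zz := by
  have h1 : Vser 3 eta12Inv * Vser 3 eta12 = 1 := by
    rw [← Vser_mul 3 (by norm_num), mul_comm, eta12_mul_inv, Vser_one 3 (by norm_num)]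
  have h2 : ιZ (Vser 3 eta12Inv) * ιZ (Vser 3 eta12) = 1 := by
    rw [← map_mul, h1, map_one]
  rw [t3Z, DL, qExpand_ιZ, Vser_Dz 3 (by norm_num), Zz, ← eta12_sq, Vser_mul 3 (by norm_num)]
  simp only [map_mul, map_pow, ιZ_X]
  have h3 := single_neg_one_mul_single_one
  linear_combination (single (1 : ℤ) (1 : ℤ) ^ 2 * ιZ eta12 * ιZ (Vser 3 eta12Inv)
    * ιZ (Vser 3 eta12) * ιZ (Vser 3 eta12)) * h3
    + single (1 : ℤ) (1 : ℤ) ^ 2 * ιZ eta12 * ιZ (Vser 3 eta12) * h2

theorem ιZ_zsmul (c : ℤ) (f : PowerSeries ℤ) : ιZ (c • f) = (c : LaurentSeries ℤ) * ιZ f := by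
  rw [zsmul_eq_mul, map_mul, map_intCast]

/-- `j t₂² = (t₂ + 256)³` over `ℤ` -/
theorem t2Z_rel_a : jqModC ℤ * t2Z ^ 2 = (t2Z + 256) ^ 3 := by
  have hne := pow_ne_zero 3 (qExpand_DL_ne_zero 2)
  refine mul_right_cancel₀ hne ?_
  have hP := congrArg ιZ Phi2a_eq_zero
  simp only [Phi2a, map_zero, map_sub, map_mul, map_pow, map_add, ιZ_zsmul] at hP
  have hE : ιZ Ez ^ 3 = jqModC ℤ * DL := by rw [jZ_mul_DL, map_pow]
  have hV : ιZ (Vser 2 Dz) = qExpand ℤ 2 DL := (qExpand_ιZ 2 Dz).symm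
  rw [hE, hV, show ιZ Dz = DL from rfl] at hP
  push_cast at hP
  have ht := t2Z_mul
  linear_combination hP + (jqModC ℤ * qExpand ℤ 2 DL * (t2Z * qExpand ℤ 2 DL + DL)
    - ((t2Z + 256) * qExpand ℤ 2 DL) ^ 2
    - (t2Z + 256) * qExpand ℤ 2 DL * (DL + 256 * qExpand ℤ 2 DL)
    - (DL + 256 * qExpand ℤ 2 DL) ^ 2) * ht

/-- `j(q²) t₂ = (t₂ + 16)³` over `ℤ` -/
theorem t2Z_rel_b : qExpand ℤ 2 (jqModC ℤ) * t2Z = (t2Z + 16) ^ 3 := by
  have hne := pow_ne_zero 3 (qExpand_DL_ne_zero 2)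
  refine mul_right_cancel₀ hne ?_
  have hP := congrArg ιZ Phi2b_eq_zero
  simp only [Phi2b, map_zero, map_sub, map_mul, map_pow, map_add, ιZ_zsmul] at hP
  have hE : ιZ (Vser 2 Ez) ^ 3 = qExpand ℤ 2 (jqModC ℤ) * qExpand ℤ 2 DL := by
    rw [qExpand_jZ_mul, map_pow]
  have hV : ιZ (Vser 2 Dz) = qExpand ℤ 2 DL := (qExpand_ιZ 2 Dz).symm
  rw [hE, hV, show ιZ Dz = DL from rfl] at hP
  push_cast at hP
  have ht := t2Z_mul
  linear_combination hP + (qExpand ℤ 2 (jqModC ℤ) * qExpand ℤ 2 DL * qExpand ℤ 2 DL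
    - ((t2Z + 16) * qExpand ℤ 2 DL) ^ 2
    - (t2Z + 16) * qExpand ℤ 2 DL * (DL + 16 * qExpand ℤ 2 DL)
    - (DL + 16 * qExpand ℤ 2 DL) ^ 2) * ht

theorem ιZ_Zz_sq : ιZ Zz * ιZ Zz = DL * qExpand ℤ 3 DL := by
  rw [← map_mul, Zz_sq, map_mul, ← qExpand_ιZ]
  rfl

/-- `j t₃³ = (t₃ + 27)(t₃ + 243)³` over `ℤ` -/
theorem t3Z_rel_a : jqModC ℤ * t3Z ^ 3 = (t3Z + 27) * (t3Z + 243) ^ 3 := by
  have hne := pow_ne_zero 4 (qExpand_DL_ne_zero 3)
  refine mul_right_cancel₀ hne ?_
  have hA := congrArg ιZ A3a_eq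
  simp only [A3a, B3a, map_sub, map_mul, map_pow, map_add, ιZ_zsmul] at hA
  have hE : ιZ Ez ^ 3 = jqModC ℤ * DL := by rw [jZ_mul_DL, map_pow]
  have hV : ιZ (Vser 3 Dz) = qExpand ℤ 3 DL := (qExpand_ιZ 3 Dz).symm
  rw [hE, hV, show ιZ Dz = DL from rfl] at hA
  push_cast at hA
  have ht := t3Z_mul
  have hZ := ιZ_Zz_sq
  generalize ιZ Zz = Z at *
  generalize qExpand ℤ 3 DL = Q at *
  generalize jqModC ℤ = j at *
  generalize DL = D at *
  have hG : j * Z ^ 3 * Q = (Z + 27 * Q) * (Z + 243 * Q) ^ 3 := by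
    linear_combination (j * Q * Z - Z ^ 2 - D * Q - 756 * Q * Z - 196830 * Q ^ 2) * hZ
      - Q ^ 2 * hA
  calc j * t3Z ^ 3 * Q ^ 4 = j * (t3Z * Q) ^ 3 * Q := by ring
    _ = (t3Z * Q + 27 * Q) * (t3Z * Q + 243 * Q) ^ 3 := by rw [ht, hG]
    _ = (t3Z + 27) * (t3Z + 243) ^ 3 * Q ^ 4 := by ring

/-- `j(q³) t₃ = (t₃ + 27)(t₃ + 3)³` over `ℤ` -/
theorem t3Z_rel_b : qExpand ℤ 3 (jqModC ℤ) * t3Z = (t3Z + 27) * (t3Z + 3) ^ 3 := by
  have hne := pow_ne_zero 4 (qExpand_DL_ne_zero 3)
  refine mul_right_cancel₀ hne ?_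
  have hA := congrArg ιZ A3b_eq
  simp only [A3b, B3b, map_sub, map_mul, map_pow, map_add, ιZ_zsmul] at hA
  have hE : ιZ (Vser 3 Ez) ^ 3 = qExpand ℤ 3 (jqModC ℤ) * qExpand ℤ 3 DL := by
    rw [qExpand_jZ_mul, map_pow]
  have hV : ιZ (Vser 3 Dz) = qExpand ℤ 3 DL := (qExpand_ιZ 3 Dz).symm
  rw [hE, hV, show ιZ Dz = DL from rfl] at hA
  push_cast at hA
  have ht := t3Z_mul
  have hZ := ιZ_Zz_sq
  generalize ιZ Zz = Z at *
  generalize qExpand ℤ 3 (jqModC ℤ) = J at *
  generalize qExpand ℤ 3 DL = Q at *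
  generalize DL = D at *
  have hG : J * Q * Z * Q ^ 2 = (Z + 27 * Q) * (Z + 3 * Q) ^ 3 := by
    linear_combination (-(Z ^ 2 + D * Q + 36 * Q * Z + 270 * Q ^ 2)) * hZ - Q ^ 2 * hA
  calc J * t3Z * Q ^ 4 = J * Q * (t3Z * Q) * Q ^ 2 := by ring
    _ = (t3Z * Q + 27 * Q) * (t3Z * Q + 3 * Q) ^ 3 := by rw [ht, hG]
    _ = (t3Z + 27) * (t3Z + 3) ^ 3 * Q ^ 4 := by ring

/-! ### leading terms -/

theorem constantCoeff_Vser (p : ℕ) (hp : p ≠ 0) (f : PowerSeries ℤ) :
    PowerSeries.constantCoeff (Vser p f) = PowerSeries.constantCoeff f := by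
  rw [Vser_eq_expand p hp, PowerSeries.constantCoeff_expand]

theorem single_neg_one_mul_coeff (f : PowerSeries ℤ) (k : ℤ) :
    (single (-1 : ℤ) (1 : ℤ) * ιZ f).coeff k = (ιZ f).coeff (k + 1) := by
  have := HahnSeries.coeff_single_mul_add (r := (1 : ℤ)) (x := ιZ f) (a := k + 1) (b := (-1 : ℤ))
  rw [one_mul] at this
  rw [← this]
  congr 1
  ring

theorem t2Z_coeff_neg_one : t2Z.coeff (-1) = 1 := by
  rw [t2Z, single_neg_one_mul_coeff]
  have : ((-1 : ℤ) + 1) = ((0 : ℕ) : ℤ) := by norm_num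
  rw [this, ιZ_coeff_nat, PowerSeries.coeff_zero_eq_constantCoeff, map_mul,
    constantCoeff_dedekindEtaUnit, one_mul]
  have h := congrArg (PowerSeries.constantCoeff (R := ℤ))
    (show Vser 2 dedekindEtaUnit * Vser 2 dedekindEtaUnitInv = 1 by
      rw [← Vser_mul 2 (by norm_num), dedekindEtaUnit_mul_inv, Vser_one 2 (by norm_num)])
  rw [map_mul, map_one, constantCoeff_Vser 2 (by norm_num), constantCoeff_dedekindEtaUnit,
    one_mul] at h
  exact h

theorem t2Z_coeff_of_lt {k : ℤ} (hk : k < -1) : t2Z.coeff k = 0 := by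
  rw [t2Z, single_neg_one_mul_coeff]
  exact ιZ_coeff_neg _ (by omega)

theorem t3Z_coeff_neg_one : t3Z.coeff (-1) = 1 := by
  rw [t3Z, single_neg_one_mul_coeff]
  have : ((-1 : ℤ) + 1) = ((0 : ℕ) : ℤ) := by norm_num
  rw [this, ιZ_coeff_nat, PowerSeries.coeff_zero_eq_constantCoeff, map_mul,
    constantCoeff_eta12, one_mul]
  have h := congrArg (PowerSeries.constantCoeff (R := ℤ))
    (show Vser 3 eta12 * Vser 3 eta12Inv = 1 by
      rw [← Vser_mul 3 (by norm_num), eta12_mul_inv, Vser_one 3 (by norm_num)])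
  rw [map_mul, map_one, constantCoeff_Vser 3 (by norm_num), constantCoeff_eta12,
    one_mul] at h
  exact h

theorem t3Z_coeff_of_lt {k : ℤ} (hk : k < -1) : t3Z.coeff k = 0 := by
  rw [t3Z, single_neg_one_mul_coeff]
  exact ιZ_coeff_neg _ (by omega)

end Fermat.Agent.S18.H333

end
end
-- ===== PACK-END S18/H333/HauptLaurent.lean

-- ===== PACK-BEGIN S18/H438/Front/H138Charts.lean
section




/-!
# S18 / ALG-FRONT (helper438), part 9: the hypotheses of `H394.kummer_charts_of_regular`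
on the chart `H138.chart R {x}` of a good model

For `G : Alg.GoodModel Lc Ec Fc R V w x S`, with `R' := Rf Fc R` (a type), `x' := xf G : Fc`,
`w' := wR G : R'` and `B := H138.chart R' {x'}`:

* `GoodModelFront.prime_chart`            : `Prime (algebraMap R' B w')`;
* `GoodModelFront.oneModPi_chart`         : `(u - 1) / w ∈ V` ⟹ `H754.OneModPi (algebraMap R' B w') u`;
* `GoodModelFront.divisibleDivisor_chart` : `H754.DivisibleDivisor B m u` from the divisor
  hypothesis of `Alg.AlgMainStatement`.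

The chart at infinity is obtained by applying these to `H425.goodModel_inv G`.
-/

set_option autoImplicit false
set_option linter.style.haveILetI false
set_option linter.unusedSectionVars false

noncomputable section

namespace Fermat.Agent.S18.H438

open Alg Polynomial

section Equiv

variable {F : Type*} [Field F] (R : Subring F) (z : F)

/-- The identity `chartRing R z ≃ H138.chart R {z}`. -/
def chartEquiv138 : chartRing R z ≃+* H138.chart R ({z} : Set F) where
  toFun c := ⟨c.1, c.2⟩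
  invFun c := ⟨c.1, c.2⟩
  left_inv _ := rfl
  right_inv _ := rfl
  map_mul' _ _ := rfl
  map_add' _ _ := rfl

theorem chartEquiv138_chartUnif {w : F} (hwR : w ∈ R) :
    chartEquiv138 R z (chartUnif (z := z) hwR) =
      algebraMap R (H138.chart R ({z} : Set F)) ⟨w, hwR⟩ := rfl

theorem prime_chart138 {w : F} (hwR : w ∈ R) (h : Prime (chartUnif (z := z) hwR)) :
    Prime (algebraMap R (H138.chart R ({z} : Set F)) ⟨w, hwR⟩) := by
  rw [← chartEquiv138_chartUnif]
  exact (MulEquiv.prime_iff (chartEquiv138 R z).toMulEquiv).2 h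

theorem oneModPi_chart138 {w : F} (hwR : w ∈ R) {u : F}
    (h : H754.OneModPi (chartUnif (z := z) hwR) u) :
    H754.OneModPi (algebraMap R (H138.chart R ({z} : Set F)) ⟨w, hwR⟩) u := by
  obtain ⟨a, s, hs, has, hu⟩ := h
  refine ⟨chartEquiv138 R z a, chartEquiv138 R z s, ?_, ?_, hu⟩
  · rw [Ideal.mem_span_singleton] at hs ⊢
    rw [← chartEquiv138_chartUnif]
    intro h
    exact hs ((map_dvd_iff (chartEquiv138 R z)).1 h)
  · rw [Ideal.mem_span_singleton] at has ⊢
    rw [← chartEquiv138_chartUnif, ← map_sub]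
    exact (map_dvd_iff (chartEquiv138 R z)).2 has

end Equiv

variable {Ω : Type*} [Field Ω] {Lc Ec Fc : Subfield Ω} {R V : Subring Ω} {w x : Ω}
  {S : Finset Ω}

namespace GoodModelFront

variable (G : GoodModel Lc Ec Fc R V w x S)

/-- the uniformiser as an element of the ring `R` -/
def wR : Rf Fc R := ⟨wf G, wf_mem_Rf G⟩

@[simp] theorem coe_wR : ((wR G : Rf Fc R) : Fc) = wf G := rfl

section

attribute [local instance] FractionRing.liftAlgebra

include G in
/-- instances on `chartRing R x` -/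
theorem chartRing_instances :
    IsFractionRing (chartRing (Rf Fc R) (xf G)) Fc ∧
      IsNoetherianRing (chartRing (Rf Fc R) (xf G)) := by
  haveI := charZero_Fc G
  haveI := isDiscreteValuationRing_Rf G
  haveI := finiteDimensional_fractionRing G
  exact ⟨chartRing_isFractionRing _ _, chartRing_isNoetherianRing _ _ (transcendental_xf G)⟩

end

/-- **`w` is prime in the chart.** -/
theorem prime_chart :
    Prime (algebraMap (Rf Fc R) (H138.chart (Rf Fc R) ({xf G} : Set Fc)) (wR G)) :=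
  prime_chart138 (Rf Fc R) (xf G) (wf_mem_Rf G)
    (prime_chartUnif (V := Vf G) (wf_mem_Rf G) (wf_ne_zero G) (Rf_le_Vf G) (xf_mem_Vf G)
      (wf_inv_not_mem_Vf G) (Vf_gen G) (qep_fin' G))

/-- **`u ≡ 1 mod w` on the chart.** -/
theorem oneModPi_chart {u : Fc} (hu : ((u : Ω) - 1) * w⁻¹ ∈ V) :
    H754.OneModPi (algebraMap (Rf Fc R) (H138.chart (Rf Fc R) ({xf G} : Set Fc)) (wR G)) u := by
  obtain ⟨i1, i2⟩ := chartRing_instances G
  refine oneModPi_chart138 (Rf Fc R) (xf G) (wf_mem_Rf G)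
    (oneModPi_of_sub_one_mem (V := Vf G) (wf_mem_Rf G) (wf_ne_zero G) (Rf_le_Vf G) (xf_mem_Vf G)
      (wf_inv_not_mem_Vf G) (Vf_gen G) (qep_fin' G) ?_)
  exact hu

include G in
/-- instances on `H138.chart R {x}` -/
theorem chart_instances138 :
    IsNoetherianRing (H138.chart (Rf Fc R) ({xf G} : Set Fc)) ∧
      IsIntegrallyClosed (H138.chart (Rf Fc R) ({xf G} : Set Fc)) ∧
      IsFractionRing (H138.chart (Rf Fc R) ({xf G} : Set Fc)) Fc := by
  haveI := charZero_Fc G
  haveI := isDiscreteValuationRing_Rf G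
  haveI := finiteDimensional_baseField G
  exact H394.chart_instances (transcendental_xf G)

/-- **`m ∣ div u` on the chart**, from the divisor hypothesis of `Alg.AlgMainStatement`. -/
theorem divisibleDivisor_chart {u : Fc} (hu : ((u : Ω) - 1) * w⁻¹ ∈ V) {m : ℕ}
    (hdiv : ∀ O : ValuationSubring Ω, (∀ a ∈ Lc, a ∈ O) →
      ∃ t : Ω, t ≠ 0 ∧ (u : Ω) * t ^ m ∈ O ∧ ((u : Ω) * t ^ m)⁻¹ ∈ O) :
    H754.DivisibleDivisor (H138.chart (Rf Fc R) ({xf G} : Set Fc)) m u := by
  obtain ⟨i1, i2, i3⟩ := chart_instances138 G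
  exact divisibleDivisor G
    (fun r hr => ⟨algebraMap (Rf Fc R) (H138.chart (Rf Fc R) ({xf G} : Set Fc)) ⟨r, hr⟩, rfl⟩)
    _ (prime_chart G) rfl (oneModPi_chart G hu) hdiv

end GoodModelFront

end Fermat.Agent.S18.H438

end
end
-- ===== PACK-END S18/H438/Front/H138Charts.lean

-- ===== PACK-BEGIN S21/H544/IntCMain.lean
section


/-!
# S21 INT-C (helper544): the unfolding identity, with the INT-A facts on `chi` as hypotheses
-/

set_option autoImplicit false

open UpperHalfPlane CongruenceSubgroup Filter Topology MeasureTheory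
open scoped MatrixGroups ComplexConjugate ContDiff

namespace Fermat.Agent.S21.H544

open Fermat.Agent.S21

variable (N : ℕ) {χ₁ : ℂ → ℝ}

theorem chi_eq_zero_of_notMem {z : ℂ} (hz : z ∉ Uhp) : chi N χ₁ z = 0 := by
  unfold chi
  exact Set.indicator_of_notMem hz _

theorem measurableSet_Uhp : MeasurableSet Uhp := isOpen_Uhp.measurableSet

theorem continuousOn_dens {u η : ℂ → ℝ} (hu : ContDiffOn ℝ 1 u Uhp) (hη : ContDiff ℝ ∞ η) :
    ContinuousOn (dens u η) Uhp := by
  have h1 := hu.continuousOn_fderiv_of_isOpen isOpen_Uhp le_rfl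
  have h2 : Continuous (fderiv ℝ η) := hη.continuous_fderiv (by simp)
  unfold dens
  exact ((h1.clm_apply continuousOn_const).mul (h2.continuousOn.clm_apply continuousOn_const)).add
    ((h1.clm_apply continuousOn_const).mul (h2.continuousOn.clm_apply continuousOn_const))

theorem integrableOn_Uhp_of_continuousOn {f : ℂ → ℝ} (hf : ContinuousOn f Uhp) {K : Set ℂ}
    (hK : IsCompact K) (hKU : K ⊆ Uhp) (h0 : ∀ z ∈ Uhp, z ∉ K → f z = 0) :
    IntegrableOn f Uhp := by
  have h1 : IntegrableOn f K := (hf.mono hKU).integrableOn_compact hK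
  exact h1.of_forall_sdiff_eq_zero measurableSet_Uhp (fun x hx => h0 x hx.1 hx.2)

/-- The translated density `z ↦ dens u η (γ z) / |cz+d|⁴`. -/
noncomputable def phi (u η : ℂ → ℝ) (g : SL(2, ℤ)) (z : ℂ) : ℝ :=
  dens u η (mob g z) / ‖cd g z‖ ^ 4

theorem continuousOn_cd (g : SL(2, ℤ)) : ContinuousOn (cd g) Uhp := by
  unfold cd
  fun_prop

theorem continuousOn_phi {u η : ℂ → ℝ} (hu : ContDiffOn ℝ 1 u Uhp) (hη : ContDiff ℝ ∞ η)
    (g : SL(2, ℤ)) : ContinuousOn (phi u η g) Uhp := by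
  unfold phi
  refine ContinuousOn.div ?_ ?_ ?_
  · exact (continuousOn_dens hu hη).comp (_root_.Fermat.Agent.S21.H544.continuousOn_mob g) (fun z _ => _root_.Fermat.Agent.S21.H544.mob_mem_Uhp g z)
  · exact ((_root_.Fermat.Agent.S21.H544.continuousOn_cd g).norm).pow 4
  · intro z hz
    exact pow_ne_zero 4 (norm_ne_zero_iff.mpr (SmallAux.cd_ne_zero g hz))

theorem integrableOn_phi {u η : ℂ → ℝ} (hu : ContDiffOn ℝ 1 u Uhp) (hη : IsTest η)
    (g : SL(2, ℤ)) : IntegrableOn (phi u η g) Uhp := by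
  refine integrableOn_Uhp_of_continuousOn (continuousOn_phi hu hη.1 g)
    (K := mob g⁻¹ '' tsupport η) ?_ ?_ ?_
  · exact hη.2.1.image_of_continuousOn ((_root_.Fermat.Agent.S21.H544.continuousOn_mob g⁻¹).mono hη.2.2)
  · rintro _ ⟨w, _, rfl⟩
    exact _root_.Fermat.Agent.S21.H544.mob_mem_Uhp _ _
  · intro z hz hzK
    have : mob g z ∉ tsupport η := fun hmem => hzK ⟨mob g z, hmem, mob_inv_mob g hz⟩
    simp [phi, dens_eq_zero_of_notMem_tsupport this]

theorem integrableOn_dens {u η : ℂ → ℝ} (hu : ContDiffOn ℝ 1 u Uhp) (hη : IsTest η) :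
    IntegrableOn (dens u η) Uhp :=
  integrableOn_Uhp_of_continuousOn (continuousOn_dens hu hη.1) hη.2.1 hη.2.2
    (fun _ _ hz => dens_eq_zero_of_notMem_tsupport hz)

section Main

variable (hmeas : Measurable (chi N χ₁)) (h0 : ∀ z, 0 ≤ chi N χ₁ z)
  (h1 : ∀ z, chi N χ₁ z ≤ 1)

include hmeas h0 h1 in
theorem integrableOn_phi_mul_chi {u η : ℂ → ℝ} (hu : ContDiffOn ℝ 1 u Uhp) (hη : IsTest η)
    (g : SL(2, ℤ)) : IntegrableOn (fun z => phi u η g z * chi N χ₁ z) Uhp := by
  refine (integrableOn_phi hu hη g).mul_bdd (c := 1) hmeas.aestronglyMeasurable ?_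
  filter_upwards with z
  rw [Real.norm_eq_abs, abs_le]
  exact ⟨by linarith [h0 z], h1 z⟩

include hmeas h0 h1 in
theorem integrableOn_dens_mul_chi_mob {u η : ℂ → ℝ} (hu : ContDiffOn ℝ 1 u Uhp)
    (hη : IsTest η) (g : SL(2, ℤ)) :
    IntegrableOn (fun w => dens u η w * chi N χ₁ (mob g w)) Uhp := by
  refine (integrableOn_dens hu hη).mul_bdd (c := 1) ?_ ?_
  · have hm : AEMeasurable (mob g) (volume.restrict Uhp) :=
      (_root_.Fermat.Agent.S21.H544.continuousOn_mob g).aemeasurable measurableSet_Uhp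
    exact (hmeas.comp_aemeasurable hm).aestronglyMeasurable
  · filter_upwards with z
    rw [Real.norm_eq_abs, abs_le]
    exact ⟨by linarith [h0 (mob g z)], h1 _⟩

/-- Change of variables for one piece. -/
theorem setIntegral_phi_mul_chi (u η : ℂ → ℝ) (g : SL(2, ℤ)) :
    ∫ z in Uhp, phi u η g z * chi N χ₁ z
      = ∫ w in Uhp, dens u η w * chi N χ₁ (mob g⁻¹ w) := by
  have h := setIntegral_mob g Uhp measurableSet_Uhp subset_rfl
    (fun w => dens u η w * chi N χ₁ (mob g⁻¹ w))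
  rw [mob_image_Uhp] at h
  rw [← h]
  refine setIntegral_congr_fun measurableSet_Uhp fun z hz => ?_
  simp only [phi, mob_inv_mob g hz]
  ring

end Main

/-- **INT-C, hypothesis-explicit form**: the unfolding identity, with the needed facts about
`chi` (INT-A) as hypotheses. -/
theorem unfolding_of (hχ : IsSL2ZPartition χ₁)
    (hmeas : Measurable (chi N χ₁)) (h0 : ∀ z, 0 ≤ chi N χ₁ z) (h1 : ∀ z, chi N χ₁ z ≤ 1)
    (hlocfin : ∀ K : Set ℂ, IsCompact K → K ⊆ Uhp →
      {γ : Gamma0 N | ∃ z ∈ K, chi N χ₁ (mob (γ : SL(2, ℤ)) z) ≠ 0}.Finite)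
    (hsum : ∀ z ∈ Uhp, ∑ᶠ γ : Gamma0 N, chi N χ₁ (mob (γ : SL(2, ℤ)) z) = 1)
    (u : ℂ → ℝ) (hu : ContDiffOn ℝ 1 u Uhp)
    (hinv : ∀ γ : Gamma0 N, ∀ z ∈ Uhp,
      dz u (mob (γ : SL(2, ℤ)) z) = (cd (γ : SL(2, ℤ)) z) ^ 2 * dz u z)
    {η : ℂ → ℝ} (hη : IsTest η) :
    ∫ z, (fderiv ℝ u z 1 * fderiv ℝ (sym N η) z 1
        + fderiv ℝ u z Complex.I * fderiv ℝ (sym N η) z Complex.I) * chi N χ₁ z
      = ∫ z, (fderiv ℝ u z 1 * fderiv ℝ η z 1
        + fderiv ℝ u z Complex.I * fderiv ℝ η z Complex.I) := by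
  classical
  change ∫ z, dens u (sym N η) z * chi N χ₁ z = ∫ z, dens u η z
  -- the finite set of relevant group elements
  have hC := hlocfin (tsupport η) hη.2.1 hη.2.2
  set T : Finset (Gamma0 N) := hC.toFinset.image (fun γ => γ⁻¹) with hT
  have hTmem : ∀ (γ : Gamma0 N) (w : ℂ), w ∈ tsupport η →
      chi N χ₁ (mob ((γ : SL(2, ℤ))⁻¹) w) ≠ 0 → γ ∈ T := by
    intro γ w hw hne
    rw [hT, Finset.mem_image]
    refine ⟨γ⁻¹, ?_, inv_inv γ⟩
    rw [Set.Finite.mem_toFinset]
    exact ⟨w, hw, by simpa using hne⟩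
  -- Claim A
  have hA : ∀ z ∈ Uhp, dens u (sym N η) z * chi N χ₁ z
      = ∑ γ ∈ T, phi u η (γ : SL(2, ℤ)) z * chi N χ₁ z := by
    intro z hz
    by_cases hchi : chi N χ₁ z = 0
    · simp [hchi]
    obtain ⟨S, hS, hd⟩ := dens_sym N hχ u hinv hη hz
    rw [hd, ← Finset.sum_mul]
    congr 1
    have e1 : ∑ᶠ γ : Gamma0 N, phi u η (γ : SL(2, ℤ)) z
        = ∑ γ ∈ S, phi u η (γ : SL(2, ℤ)) z := by
      refine finsum_eq_sum_of_support_subset _ ?_
      intro γ hγ
      by_contra hγS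
      exact hγ (by simp [phi, dens_eq_zero_of_notMem_tsupport (hS γ hγS)])
    have e2 : ∑ᶠ γ : Gamma0 N, phi u η (γ : SL(2, ℤ)) z
        = ∑ γ ∈ T, phi u η (γ : SL(2, ℤ)) z := by
      refine finsum_eq_sum_of_support_subset _ ?_
      intro γ hγ
      have hmem : mob (γ : SL(2, ℤ)) z ∈ tsupport η := by
        by_contra hnot
        exact hγ (by simp [phi, dens_eq_zero_of_notMem_tsupport hnot])
      refine Finset.mem_coe.mpr (hTmem γ _ hmem ?_)
      rw [mob_inv_mob _ hz]
      exact hchi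
    have : ∑ γ ∈ S, dens u η (mob (γ : SL(2, ℤ)) z) / ‖cd (γ : SL(2, ℤ)) z‖ ^ 4
        = ∑ γ ∈ S, phi u η (γ : SL(2, ℤ)) z := rfl
    rw [this, ← e1, e2]
  -- Claim E
  have hE : ∀ w ∈ Uhp, ∑ γ ∈ T, dens u η w * chi N χ₁ (mob ((γ : SL(2, ℤ))⁻¹) w)
      = dens u η w := by
    intro w hw
    by_cases hd : dens u η w = 0
    · simp [hd]
    have hwK : w ∈ tsupport η := by
      by_contra hnot
      exact hd (dens_eq_zero_of_notMem_tsupport hnot)
    rw [← Finset.mul_sum]
    have e1 : ∑ᶠ γ : Gamma0 N, chi N χ₁ (mob ((γ : SL(2, ℤ))⁻¹) w)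
        = ∑ γ ∈ T, chi N χ₁ (mob ((γ : SL(2, ℤ))⁻¹) w) := by
      refine finsum_eq_sum_of_support_subset _ ?_
      intro γ hγ
      exact Finset.mem_coe.mpr (hTmem γ w hwK hγ)
    have e2 : ∑ᶠ γ : Gamma0 N, chi N χ₁ (mob ((γ : SL(2, ℤ))⁻¹) w) = 1 := by
      have := finsum_comp_equiv (Equiv.inv (Gamma0 N))
        (f := fun γ : Gamma0 N => chi N χ₁ (mob (γ : SL(2, ℤ)) w))
      simp only [Equiv.inv_apply, Subgroup.coe_inv] at this
      rw [this]
      exact hsum w hw
    rw [← e1, e2, mul_one]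
  -- assembly
  calc ∫ z, dens u (sym N η) z * chi N χ₁ z
      = ∫ z in Uhp, dens u (sym N η) z * chi N χ₁ z := by
        refine (setIntegral_eq_integral_of_forall_compl_eq_zero fun z hz => ?_).symm
        rw [_root_.Fermat.Agent.S21.H544.chi_eq_zero_of_notMem N hz, mul_zero]
    _ = ∫ z in Uhp, ∑ γ ∈ T, phi u η (γ : SL(2, ℤ)) z * chi N χ₁ z :=
        setIntegral_congr_fun measurableSet_Uhp hA
    _ = ∑ γ ∈ T, ∫ z in Uhp, phi u η (γ : SL(2, ℤ)) z * chi N χ₁ z :=
        integral_finsetSum T fun γ _ => integrableOn_phi_mul_chi N hmeas h0 h1 hu hη _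
    _ = ∑ γ ∈ T, ∫ w in Uhp, dens u η w * chi N χ₁ (mob ((γ : SL(2, ℤ))⁻¹) w) :=
        Finset.sum_congr rfl fun γ _ => setIntegral_phi_mul_chi N u η _
    _ = ∫ w in Uhp, ∑ γ ∈ T, dens u η w * chi N χ₁ (mob ((γ : SL(2, ℤ))⁻¹) w) :=
        (integral_finsetSum T fun γ _ =>
          integrableOn_dens_mul_chi_mob N hmeas h0 h1 hu hη _).symm
    _ = ∫ w in Uhp, dens u η w := setIntegral_congr_fun measurableSet_Uhp hE
    _ = ∫ w, dens u η w := by
        refine setIntegral_eq_integral_of_forall_compl_eq_zero fun w hw => ?_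
        exact dens_eq_zero_of_notMem_tsupport fun hmem => hw (hη.2.2 hmem)

end Fermat.Agent.S21.H544

end
-- ===== PACK-END S21/H544/IntCMain.lean

-- ===== PACK-BEGIN S23/Cap/Main.lean
section




/-!
# S23 : assembly.
-/

set_option autoImplicit false

namespace Fermat.Agent.S23.Cap

open UpperHalfPlane ModularForm ModularFormClass MatrixGroups CongruenceSubgroup

/-- The q-expansion as a `ℂ`-linear map on cusp forms. -/
noncomputable def qxLin (N : ℕ) [NeZero N] (k : ℤ) :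
    CuspForm (Gamma0 N) k →ₗ[ℂ] PowerSeries ℂ where
  toFun f := qx f
  map_add' f g := by
    have hf : IsMF (G0 N) k f := IsCF.isMF ⟨f, rfl⟩
    have hg : IsMF (G0 N) k g := IsCF.isMF ⟨g, rfl⟩
    simpa using qx_add N hf hg
  map_smul' c f := by
    have hf : IsMF (G0 N) k f := IsCF.isMF ⟨f, rfl⟩
    simpa using qx_smul N c hf

theorem qxLin_injective (N : ℕ) [NeZero N] (k : ℤ) : Function.Injective (qxLin N k) := by
  intro f g h
  have hf : IsMF (G0 N) k f := IsCF.isMF ⟨f, rfl⟩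
  have hg : IsMF (G0 N) k g := IsCF.isMF ⟨g, rfl⟩
  exact DFunLike.coe_injective (eq_of_qx_eq N hf hg h)

theorem hasIntegralStructure (N : ℕ) [NeZero N] (k : ℤ) : CuspForm.HasIntegralStructure N k := by
  unfold CuspForm.HasIntegralStructure
  rw [eq_top_iff]
  set T : Submodule ℂ (CuspForm (Gamma0 N) k) :=
    Submodule.span ℂ ((CuspForm.intLattice N k : Submodule ℤ (CuspForm (Gamma0 N) k)) :
      Set (CuspForm (Gamma0 N) k)) with hT
  have key : Submodule.map (qxLin N k) ⊤ ≤ Submodule.map (qxLin N k) T := by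
    refine (descent (Submodule.map (qxLin N k) ⊤) ((k * (Gamma0 N).index).toNat / 12)
      ?_ ?_).trans ?_
    · rintro F ⟨f, -, rfl⟩ h
      have hf : IsMF (G0 N) k f := IsCF.isMF ⟨f, rfl⟩
      have : (f : ℍ → ℂ) = 0 := sturm N hf h
      have hf0 : f = 0 := DFunLike.coe_injective this
      simp [hf0]
    · rintro σ F ⟨f, -, rfl⟩
      obtain ⟨g, ⟨g', rfl⟩, hg⟩ := galois_stable N k σ f ⟨f, rfl⟩
      exact ⟨g', trivial, hg⟩
    · rw [Submodule.span_le]
      rintro F ⟨⟨f, -, rfl⟩, hrat⟩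
      obtain ⟨D, hD, hint⟩ := bounded_denominators N k f ⟨f, rfl⟩ hrat
      have hD' : (D : ℂ) ≠ 0 := by exact_mod_cast hD
      have hmem : (D : ℂ) • f ∈ T := by
        apply Submodule.subset_span
        apply Submodule.subset_span
        intro n
        obtain ⟨m, hm⟩ := hint n
        exact ⟨m, by simpa [ModularFormClass.qCoeff, qx] using hm⟩
      refine ⟨f, ?_, rfl⟩
      have : f = (D : ℂ)⁻¹ • ((D : ℂ) • f) := by
        rw [smul_smul, inv_mul_cancel₀ hD', one_smul]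
      rw [this]
      exact T.smul_mem _ hmem
  intro f _
  obtain ⟨g, hg, hgf⟩ := key ⟨f, trivial, rfl⟩
  rwa [← qxLin_injective N k hgf]

end Fermat.Agent.S23.Cap

end
-- ===== PACK-END S23/Cap/Main.lean

-- ===== PACK-BEGIN S37/H159/MLocal.lean
section




/-!
# Theorem M, part 5: specialisation of fibres
(row S37, piece R-b; seat helper159)

`B_η` = integral closure of `K[x]` in `F`, `T = ρ(O ∩ B_η)`.  For `c ∈ A` with reduction `c̄`:
elements of `O ∩ B_η` lying in `(x - c) B_η` (resp. in its radical) reduce into `(x̄ - c̄) T`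
(resp. its radical).  Hence lifts of families which are `k`-independent modulo `(x̄ - c̄) T`
(resp. its radical) are `K`-independent modulo `(x - c) B_η` (resp. its radical)
(`dvd_of_sum_smul_mem`).
-/

set_option autoImplicit false
set_option linter.unusedSectionVars false
set_option linter.style.haveILetI false

namespace Fermat.Agent.S37.H159

open Polynomial

namespace RedCtx

variable {K : Type*} [Field K] {A : ValuationSubring K} {k : Type*} [Field k]
  {F : Type*} [Field F] [Algebra K[X] F] {Fk : Type*} [Field Fk] [Algebra k[X] Fk]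
  (G : RedCtx A k F Fk)

/-- the `k`-algebra structure of `T` -/
noncomputable instance instAlgebraTk : Algebra k G.Tk :=
  ((algebraMap k[X] G.Tk).comp (C : k →+* k[X])).toAlgebra

instance instIsScalarTowerTk : IsScalarTower k k[X] G.Tk :=
  IsScalarTower.of_algebraMap_eq fun _ => rfl

variable (hinj : Function.Injective (algebraMap k[X] Fk)) (c : A)

/-- `x - c` as an element of `O` -/
noncomputable def xsub : G.O := G.polyO (X - C c)

theorem xsub_coe : (G.xsub c : F) = algebraMap K[X] F (X - C (c : K)) := by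
  show algebraMap K[X] F ((X - C c : A[X]).map A.subtype) = _
  rw [Polynomial.map_sub, Polynomial.map_X, Polynomial.map_C]
  rfl

theorem ρ_xsub : G.ρ (G.xsub c) = algebraMap k[X] Fk (X - C (G.π c)) := by
  rw [xsub, G.ρ_polyO, Polynomial.map_sub, Polynomial.map_X, Polynomial.map_C]

include hinj in
theorem ρ_xsub_ne_zero : G.ρ (G.xsub c) ≠ 0 := by
  rw [ρ_xsub]
  intro h0
  have := hinj (h0.trans (map_zero _).symm)
  exact Polynomial.X_sub_C_ne_zero _ this

include hinj in
theorem xsub_inv_mem : (G.xsub c : F)⁻¹ ∈ G.O :=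
  G.inv_mem_of_ρ_ne_zero _ (G.ρ_xsub_ne_zero hinj c)

include hinj in
theorem xsub_ne_zero : (G.xsub c : F) ≠ 0 :=
  G.ne_zero_of_ρ_ne_zero _ (G.ρ_xsub_ne_zero hinj c)

/-- reduction `O ∩ B_η → T` -/
noncomputable def redT (w : integralClosure K[X] F) (hwO : (w : F) ∈ G.O) : G.Tk :=
  ⟨G.ρ ⟨w, hwO⟩, G.ρ_mem_Tk ⟨w, hwO⟩ w.2⟩

theorem redT_coe (w : integralClosure K[X] F) (hwO : (w : F) ∈ G.O) :
    (G.redT w hwO : Fk) = G.ρ ⟨w, hwO⟩ := rfl

include hinj in
/-- Elements of `O ∩ (x - c) B_η` reduce into `(x̄ - c̄) T`. -/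
theorem redT_mem_fibreIdeal (w : integralClosure K[X] F) (hwO : (w : F) ∈ G.O)
    (hw : w ∈ Ideal.span {algebraMap K[X] (integralClosure K[X] F) (X - C (c : K))}) :
    G.redT w hwO ∈ H939.fibreIdeal G.Tk (G.π c) := by
  rw [Ideal.mem_span_singleton] at hw
  obtain ⟨h, rfl⟩ := hw
  have hcoe : ((algebraMap K[X] (integralClosure K[X] F) (X - C (c : K)) * h :
      integralClosure K[X] F) : F) = (G.xsub c : F) * (h : F) := by
    rw [G.xsub_coe]
    rfl
  have hhO : (h : F) ∈ G.O := by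
    have : (h : F) = (G.xsub c : F)⁻¹ *
        ((algebraMap K[X] (integralClosure K[X] F) (X - C (c : K)) * h :
          integralClosure K[X] F) : F) := by
      rw [hcoe, ← mul_assoc, inv_mul_cancel₀ (G.xsub_ne_zero hinj c), one_mul]
    rw [this]
    exact G.O.mul_mem _ _ (G.xsub_inv_mem hinj c) hwO
  rw [H939.fibreIdeal, Ideal.mem_span_singleton]
  refine ⟨G.redT h hhO, ?_⟩
  apply Subtype.ext
  show G.ρ ⟨_, hwO⟩ = algebraMap k[X] Fk (X - C (G.π c)) * G.ρ ⟨h, hhO⟩
  rw [← G.ρ_xsub, ← map_mul]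
  congr 1
  exact Subtype.ext hcoe

include hinj in
/-- Elements of `O ∩ rad((x - c) B_η)` reduce into `rad((x̄ - c̄) T)`. -/
theorem redT_mem_radical (w : integralClosure K[X] F) (hwO : (w : F) ∈ G.O)
    (hw : w ∈ (Ideal.span
      {algebraMap K[X] (integralClosure K[X] F) (X - C (c : K))}).radical) :
    G.redT w hwO ∈ (H939.fibreIdeal G.Tk (G.π c)).radical := by
  obtain ⟨N, hN⟩ := hw
  refine ⟨N, ?_⟩
  have hO : ((w ^ N : integralClosure K[X] F) : F) ∈ G.O := by
    rw [SubmonoidClass.coe_pow]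
    exact G.O.pow_mem hwO N
  have := G.redT_mem_fibreIdeal hinj c (w ^ N) hO hN
  have e : G.redT (w ^ N) hO = G.redT w hwO ^ N := by
    apply Subtype.ext
    show G.ρ ⟨_, hO⟩ = (G.ρ ⟨w, hwO⟩) ^ N
    rw [← map_pow]
    congr 1
  rwa [e] at this

section Lift

variable {ι : Type*} [Fintype ι] (w : ι → integralClosure K[X] F)
  (hwO : ∀ j, (w j : F) ∈ G.O)

include hwO in
theorem sum_C_smul_mem (α : ι → A) :
    ((∑ j, (C ((α j : A) : K) : K[X]) • w j : integralClosure K[X] F) : F) ∈ G.O := by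
  rw [AddSubmonoidClass.coe_finsetSum]
  refine G.O.toSubring.sum_mem fun j _ => ?_
  have : (((C ((α j : A) : K) : K[X]) • w j : integralClosure K[X] F) : F) =
      algebraMap K[X] F (C ((α j : A) : K)) * (w j : F) := by
    rw [Algebra.smul_def]
    rfl
  rw [this]
  exact G.O.mul_mem _ _ (G.C_mem (α j)) (hwO j)

theorem redT_sum_C_smul (α : ι → A) :
    G.redT (∑ j, (C ((α j : A) : K) : K[X]) • w j) (G.sum_C_smul_mem w hwO α) =
      ∑ j, (C (G.π (α j)) : k[X]) • G.redT (w j) (hwO j) := by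
  apply Subtype.ext
  rw [AddSubmonoidClass.coe_finsetSum]
  have h1 : (⟨_, G.sum_C_smul_mem w hwO α⟩ : G.O) =
      ∑ j, (⟨_, G.C_mem (α j)⟩ : G.O) * ⟨w j, hwO j⟩ := by
    apply Subtype.ext
    show ((∑ j, (C ((α j : A) : K) : K[X]) • w j : integralClosure K[X] F) : F) =
      G.O.subtype (∑ j, (⟨_, G.C_mem (α j)⟩ : G.O) * ⟨w j, hwO j⟩)
    rw [map_sum, AddSubmonoidClass.coe_finsetSum]
    refine Finset.sum_congr rfl fun j _ => ?_
    rw [Algebra.smul_def]
    rfl
  show G.ρ ⟨_, G.sum_C_smul_mem w hwO α⟩ = _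
  rw [h1, map_sum]
  refine Finset.sum_congr rfl fun j _ => ?_
  rw [map_mul, G.ρ_C]
  show _ = (((C (G.π (α j)) : k[X]) • G.redT (w j) (hwO j) : G.Tk) : Fk)
  rw [Algebra.smul_def]
  rfl

include hwO in
/-- **Specialisation of independence** (constant coefficients). -/
theorem eq_zero_of_sum_C_smul_mem (I : Ideal (integralClosure K[X] F)) (Ik : Ideal G.Tk)
    (hI : ∀ (v : integralClosure K[X] F) (hvO : (v : F) ∈ G.O), v ∈ I → G.redT v hvO ∈ Ik)
    (hind : ∀ a : ι → k,
      (∑ j, (C (a j) : k[X]) • G.redT (w j) (hwO j)) ∈ Ik → ∀ j, a j = 0)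
    (α : ι → K) (hα : (∑ j, (C (α j) : K[X]) • w j) ∈ I) : ∀ j, α j = 0 := by
  by_contra hne
  have hα0 : α ≠ 0 := by
    intro h0
    apply hne
    intro j
    rw [h0]
    rfl
  obtain ⟨m, hm0, hm⟩ := H217.exists_scale A α hα0
  let α' : ι → A := fun j => ⟨α j / α m, hm j⟩
  have hg : (∑ j, (C ((α' j : A) : K) : K[X]) • w j) ∈ I := by
    have : (∑ j, (C ((α' j : A) : K) : K[X]) • w j) =
        (C (α m)⁻¹ : K[X]) • ∑ j, (C (α j) : K[X]) • w j := by
      rw [Finset.smul_sum]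
      refine Finset.sum_congr rfl fun j _ => ?_
      rw [smul_smul, ← C_mul]
      congr 2
      show α j / α m = (α m)⁻¹ * α j
      rw [div_eq_inv_mul]
    rw [this, Algebra.smul_def]
    exact I.mul_mem_left _ hα
  have h1 := hI _ (G.sum_C_smul_mem w hwO α') hg
  rw [G.redT_sum_C_smul w hwO α'] at h1
  have h2 := hind (fun j => G.π (α' j)) h1 m
  have h3 : α' m = 1 := Subtype.ext (div_self hm0)
  rw [h3, map_one] at h2
  exact one_ne_zero h2

include hwO in
/-- **Specialisation of independence** (witness form for the tame discriminant bound). -/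
theorem dvd_of_sum_smul_mem (c : A) (I : Ideal (integralClosure K[X] F)) (Ik : Ideal G.Tk)
    (hI : ∀ (v : integralClosure K[X] F) (hvO : (v : F) ∈ G.O), v ∈ I → G.redT v hvO ∈ Ik)
    (hind : ∀ a : ι → k,
      (∑ j, (C (a j) : k[X]) • G.redT (w j) (hwO j)) ∈ Ik → ∀ j, a j = 0)
    (hle : Ideal.span {algebraMap K[X] (integralClosure K[X] F) (X - C (c : K))} ≤ I)
    (a : ι → K[X]) (ha : (∑ j, a j • w j) ∈ I) : ∀ j, (X - C (c : K)) ∣ a j := by
  have hdvd : ∀ j, (X - C (c : K)) ∣ a j - C ((a j).eval (c : K)) := fun j =>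
    Polynomial.X_sub_C_dvd_sub_C_eval
  have h1 : (∑ j, (a j - C ((a j).eval (c : K))) • w j) ∈ I := by
    refine I.sum_mem fun j _ => ?_
    obtain ⟨q, hq⟩ := hdvd j
    rw [hq, mul_smul, Algebra.smul_def]
    exact hle (Ideal.mul_mem_right _ _ (Ideal.subset_span rfl))
  have h2 : (∑ j, (C ((a j).eval (c : K)) : K[X]) • w j) ∈ I := by
    have : (∑ j, (C ((a j).eval (c : K)) : K[X]) • w j) =
        (∑ j, a j • w j) - ∑ j, (a j - C ((a j).eval (c : K))) • w j := by
      rw [← Finset.sum_sub_distrib]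
      refine Finset.sum_congr rfl fun j _ => ?_
      rw [sub_smul, sub_sub_cancel]
    rw [this]
    exact I.sub_mem ha h1
  intro j
  have h3 := G.eq_zero_of_sum_C_smul_mem w hwO I Ik hI hind _ h2 j
  rw [Polynomial.dvd_iff_isRoot]
  exact h3

end Lift

end RedCtx

end Fermat.Agent.S37.H159

end
-- ===== PACK-END S37/H159/MLocal.lean

-- ===== PACK-BEGIN Lib/RR/Riemann.lean
section




/-!
# RR library, layer L3: Riemann's theorem  (Stichtenoth 1.4.17)

Integration file (helper320).  `exists_riemann_bound` is proved in `H409/` (helper409), the core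
of `exists_degree_bound` in `H98/` (helper98).

Proof sketch.  Let `x` be as in `FF1.exists_finite`, `n = [F : K(x)]`, `B = (x)_∞`
(`deg B ≤ n` by L2), `u_1, …, u_n` a `K(x)`-basis of `F`, `C ≥ 0` with `div u_j ≥ -C`.  The
`n (l + 1)` elements `x ^ i * u_j` (`i ≤ l`) lie in `L(l B + C)` and are `K`-independent, so
`ℓ(l B) ≥ ℓ(l B + C) - deg C ≥ n (l + 1) - deg C`, i.e. `deg (l B) - ℓ(l B) ≤ deg C - n`.
For arbitrary `A`: `ℓ(l B - A⁺) > 0` for `l ≫ 0`; take `z ≠ 0` in it; then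
`A - div z ≤ l B` and `deg A - ℓ(A) = deg (A - div z) - ℓ(A - div z) ≤ deg (l B) - ℓ(l B)`.
-/

set_option autoImplicit false

noncomputable section

open AlgebraicCurve

namespace Fermat.Agent.Lib.RR

variable (K F : Type*) [Field K] [Field F] [Algebra K F]

/-- **L3.1** Riemann's theorem: `deg D - ℓ(D)` is bounded above. -/
theorem exists_riemann_bound [FF1 K F] :
    ∃ γ : ℤ, ∀ D : Divisor K F, Divisor.degree D - ell D ≤ γ :=
  H409.exists_riemann_bound K F

theorem exists_nat_riemann_bound [FF1 K F] :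
    ∃ g : ℕ, ∀ D : Divisor K F, Divisor.degree D + 1 - (g : ℤ) ≤ ell D := by
  obtain ⟨γ, hγ⟩ := exists_riemann_bound K F
  refine ⟨(γ + 1).toNat, fun D => ?_⟩
  have h1 := hγ D
  have h2 : γ + 1 ≤ ((γ + 1).toNat : ℤ) := Int.self_le_toNat _
  omega

open Classical in
/-- The genus in the sense of Riemann's theorem: the least `g` with
`ℓ(D) ≥ deg D + 1 - g` for all `D`. -/
def genusR [FF1 K F] : ℕ := Nat.find (exists_nat_riemann_bound K F)

variable {K F}

/-- **Riemann's inequality**. -/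
theorem riemann_inequality [FF1 K F] (D : Divisor K F) :
    Divisor.degree D + 1 - (genusR K F : ℤ) ≤ ell D := by
  classical
  exact Nat.find_spec (exists_nat_riemann_bound K F) D

/-- The bound is attained. -/
theorem exists_ell_eq [FF1 K F] :
    ∃ D : Divisor K F, (ell D : ℤ) = Divisor.degree D + 1 - (genusR K F : ℤ) := by
  classical
  by_cases hg : genusR K F = 0
  · refine ⟨0, ?_⟩
    rw [ell_zero, hg]; simp
  · have hlt : genusR K F - 1 < genusR K F := by omega
    have hmin := Nat.find_min (exists_nat_riemann_bound K F) hlt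
    simp only [not_forall, not_le] at hmin
    obtain ⟨D, hD⟩ := hmin
    refine ⟨D, le_antisymm ?_ (riemann_inequality D)⟩
    have hcast : ((genusR K F - 1 : ℕ) : ℤ) = (genusR K F : ℤ) - 1 := by
      rw [Nat.cast_sub (by omega)]; simp
    rw [hcast] at hD
    omega

/-- Above a divisor attaining the bound, the bound is attained. -/
theorem ell_eq_of_le [FF1 K F] {D₀ D : Divisor K F}
    (h₀ : (ell D₀ : ℤ) = Divisor.degree D₀ + 1 - (genusR K F : ℤ)) (h : D₀ ≤ D) :
    (ell D : ℤ) = Divisor.degree D + 1 - (genusR K F : ℤ) := by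
  have h1 := degree_sub_ell_mono h
  have h2 := riemann_inequality D
  omega

/-- **L3.2**: `ℓ(D) = deg D + 1 - g` for all divisors of large degree. -/
theorem exists_degree_bound [FF1 K F] :
    ∃ c : ℤ, ∀ D : Divisor K F, c ≤ Divisor.degree D →
      (ell D : ℤ) = Divisor.degree D + 1 - (genusR K F : ℤ) := by
  obtain ⟨D₀, h₀⟩ := exists_ell_eq (K := K) (F := F)
  exact ⟨Divisor.degree D₀ + (genusR K F : ℤ), fun D hD =>
    H98.ell_eq_of_degree_ge (genusR K F : ℤ) (fun D' => riemann_inequality D') h₀ hD⟩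

end Fermat.Agent.Lib.RR

end
end
-- ===== PACK-END Lib/RR/Riemann.lean

-- ===== PACK-BEGIN S37/Rim/Spec.lean
section


/-!
# S37 / node_rim — frozen leaf statements (squad-lead helper39)

`node_rim` = `ModularCurve.ReductionInputsModL A M` (existence of the place reduction map).
ONE assembly: helper940's landed core `H940.Atlas.exists_red` (fibres with conservation `FC`,
local parameters `LP`, separation `SEP`), applied to the fibres of the coordinate `x = j`:

* tube over `c ∈ k`   : places `P` of `F_M` with `j(P) ∈ A`, `j(P) ≡ c`;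
* tube over `∞`       : all other places (`j` has a pole at `P` or `j(P) ∉ A`);
* points over `c ∈ k` : places `Q` of `F_{M,k}` with `j̄(Q) = c`;  over `∞`: the poles of `j̄`.

The leaves are `FCStatement`, `LPStatement`, `SEPStatement` (this file);
`Rim/Assembly.lean` proves `ReductionInputsModL A M` from them (complete proof).

Notation: `ctx A M` is helper940's context of fractions of integral `q`-series,
`V = (ctx A M).V ⊆ F_M` (fractions `a/b`, `a, b` integral `q`-series in `F_M`, `b̄ ≠ 0`),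
`ρ = (ctx A M).ρ : V → F_{M,k}` the coefficientwise reduction.
-/

set_option autoImplicit false
set_option synthInstance.maxHeartbeats 400000

noncomputable section

namespace Fermat.Agent.S37.Rim

open AlgebraicCurve ModularCurve HahnSeries IsLocalRing Fermat.Agent.S37.H940

/-- `ℚ̄` -/
abbrev Qb : Type := AlgebraicClosure ℚ

/-- the residue field `k = A/𝔪` -/
abbrev kA (A : ValuationSubring Qb) : Type := ResidueField A

/-- `F_M = ℚ̄(X₀(M))` -/
abbrev FM (M : ℕ) : IntermediateField Qb (LaurentSeries Qb) :=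
  laurentBaseChange Qb (modularFunctionFieldFull M)

/-- `F_{M,k} = k(X₀(M))` -/
abbrev FkM (A : ValuationSubring Qb) (M : ℕ) : IntermediateField (kA A) (LaurentSeries (kA A)) :=
  modularFunctionFieldFullC (kA A) M

theorem residue_eq_zero_iff_not_isUnit (A : ValuationSubring Qb) (a : A) :
    residue A a = 0 ↔ ¬ IsUnit a := by
  rw [residue_eq_zero_iff, mem_maximalIdeal, mem_nonunits_iff]

/-- helper940's reduction context for `(F_M, F_{M,k})`. -/
def ctx (A : ValuationSubring Qb) (M : ℕ) : Ctx Qb (FM M) (kA A) (FkM A M) :=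
  (qData A (residue A) (FM M) (FkM A M) residue_surjective
    (residue_eq_zero_iff_not_isUnit A)).ctx

/-- the coordinate `j ∈ F_M` (the same term as `Fermat.Agent.S24.jF M`) -/
def xF (M : ℕ) [NeZero M] : FM M :=
  ⟨coeffEmb Qb jq,
    coeffEmb_mem_laurentBaseChange Qb (modularFunctionField_le_full M (jq_mem M))⟩

/-- the coordinate `j̄ ∈ F_{M,k}` -/
def xk (A : ValuationSubring Qb) (M : ℕ) : FkM A M :=
  ⟨jqModC (kA A), jqModC_mem_full (kA A) M⟩

/-- the tube over `c ∈ k ∪ {∞}` (`none = ∞`) -/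
def tube (A : ValuationSubring Qb) (M : ℕ) [NeZero M] : Option (kA A) → Set (Place Qb (FM M))
  | some c => {P | ∃ a : A, residue A a = c ∧ InMax P (xF M - algebraMap Qb (FM M) (a : Qb))}
  | none => {P | ¬ ∃ a : A, InMax P (xF M - algebraMap Qb (FM M) (a : Qb))}

/-- `Q` is a point of the special fibre over `c ∈ k ∪ {∞}` -/
def IsPt (A : ValuationSubring Qb) (M : ℕ) : Option (kA A) → Place (kA A) (FkM A M) → Prop
  | some c => fun Q => InMax Q (xk A M - algebraMap (kA A) (FkM A M) c)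
  | none => fun Q => Q.ord (xk A M) < 0

/-- **LEAF FC (conservation of number in the fibres of `j`)**: for `u ∈ V` with `ρ u ≠ 0` and
`c ∈ k ∪ {∞}`: the number of zeros minus poles of `u` in the tube over `c` equals the number of
zeros minus poles of `ρ u` over `c`.  (Norms commute with reduction + Gauss lemma for the roots
of `N_{F/K(j)}(u)`; NO smoothness needed.) -/
def FCStatement (A : ValuationSubring Qb) (M : ℕ) [NeZero M] : Prop :=
  ∀ (c : Option (kA A)) (𝔊 : Finset (Place (kA A) (FkM A M))), (∀ Q, Q ∈ 𝔊 ↔ IsPt A M c Q) →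
    ∀ u : (ctx A M).V, (ctx A M).ρ u ≠ 0 →
      ∑ᶠ P ∈ tube A M c, P.ord (u : FM M) = ∑ Q ∈ 𝔊, Q.ord ((ctx A M).ρ u)

/-- **LEAF LP (local parameters lift)**: every point `Q` over `c` has a local parameter which is
the reduction of an element of `V` regular on the tube over `c` and is a unit at the other points
over `c`.  (Normality of the special fibre + CRT.) -/
def LPStatement (A : ValuationSubring Qb) (M : ℕ) [NeZero M] : Prop :=
  ∀ (c : Option (kA A)) (Q : Place (kA A) (FkM A M)), IsPt A M c Q →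
    ∃ t : (ctx A M).V, (∀ P ∈ tube A M c, 0 ≤ P.ord (t : FM M)) ∧ Q.ord ((ctx A M).ρ t) = 1 ∧
      ∀ Q', IsPt A M c Q' → Q' ≠ Q → Q'.ord ((ctx A M).ρ t) = 0

/-- **LEAF SEP (separation)**: some element of `V` regular on the tube over `c` has a reduction
taking pairwise distinct values at the points over `c`.  (Normality of the special fibre + CRT.) -/
def SEPStatement (A : ValuationSubring Qb) (M : ℕ) [NeZero M] : Prop :=
  ∀ c : Option (kA A), ∃ s : (ctx A M).V, (∀ P ∈ tube A M c, 0 ≤ P.ord (s : FM M)) ∧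
    ∀ Q Q', IsPt A M c Q → IsPt A M c Q' → ∀ a : kA A,
      InMax Q ((ctx A M).ρ s - algebraMap (kA A) (FkM A M) a) →
      InMax Q' ((ctx A M).ρ s - algebraMap (kA A) (FkM A M) a) → Q = Q'

end Fermat.Agent.S37.Rim

end
end
-- ===== PACK-END S37/Rim/Spec.lean

-- ===== PACK-BEGIN S37/Red/H144/Basic.lean
section



/-!
# S37-RED, piece RED-D (route N), part 1: basic lemmas (helper144)

Values at places (`ValAt`), kernels of `π` and `ρ`, the chart dichotomy.
-/

set_option autoImplicit false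

noncomputable section

namespace Fermat.Agent.S37.Red.H144

open AlgebraicCurve IntermediateField Polynomial

universe u

variable {K k F Fk : Type u} [Field K] [Field k] [Field F] [Field Fk]
  [Algebra K F] [Algebra k Fk] {A : ValuationSubring K} {π : A →+* k}

/-! ### Values at places -/

theorem valAt_mem {P : Place K F} {f : F} {a : K} (h : ValAt P f a) :
    f ∈ P.toValuationSubring := by
  have h1 : f - algebraMap K F a ∈ P.toValuationSubring :=
    (P.toValuationSubring.valuation_le_one_iff _).mp (le_of_lt h)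
  have h2 := P.algebraMap_mem' a
  have h3 : f = (f - algebraMap K F a) + algebraMap K F a := by ring
  rw [h3]
  exact add_mem h1 h2

theorem valuation_const (P : Place K F) {a : K} (ha : a ≠ 0) :
    P.toValuationSubring.valuation (algebraMap K F a) = 1 :=
  Lib.RR.H443.valuation_algebraMap_eq_one P.toValuationSubring P.algebraMap_mem' a ha

theorem valAt_unique {P : Place K F} {f : F} {a b : K} (ha : ValAt P f a) (hb : ValAt P f b) :
    a = b := by
  by_contra hne
  have hc : a - b ≠ 0 := sub_ne_zero.mpr hne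
  have h1 : P.toValuationSubring.valuation (algebraMap K F (a - b)) < 1 := by
    have h2 : algebraMap K F (a - b) = (f - algebraMap K F b) - (f - algebraMap K F a) := by
      rw [map_sub]; ring
    rw [h2]
    exact lt_of_le_of_lt (Valuation.map_sub _ _ _) (max_lt hb ha)
  rw [valuation_const P hc] at h1
  exact lt_irrefl _ h1

theorem valAt_zero_iff {P : Place K F} {f : F} :
    ValAt P f 0 ↔ P.toValuationSubring.valuation f < 1 := by
  unfold ValAt
  rw [map_zero, sub_zero]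

/-- A nonzero function with `f⁻¹(P) = 0` is not regular at `P`. -/
theorem not_mem_of_valuation_inv_lt {O : ValuationSubring F} {f : F} (hf0 : f ≠ 0)
    (h : O.valuation f⁻¹ < 1) : f ∉ O := by
  intro hf
  have h1 : O.valuation f ≤ 1 := (O.valuation_le_one_iff _).mpr hf
  have h2 : O.valuation f * O.valuation f⁻¹ = 1 := by
    rw [← map_mul, mul_inv_cancel₀ hf0, map_one]
  have h3 : O.valuation f * O.valuation f⁻¹ < 1 := by
    calc O.valuation f * O.valuation f⁻¹
        ≤ 1 * O.valuation f⁻¹ := mul_le_mul' h1 le_rfl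
      _ = O.valuation f⁻¹ := one_mul _
      _ < 1 := h
  rw [h2] at h3
  exact lt_irrefl _ h3

/-- If `f ∉ O` then `f⁻¹` is a non-unit of `O`. -/
theorem valuation_inv_lt_of_not_mem {O : ValuationSubring F} {f : F} (hf : f ∉ O) :
    O.valuation f⁻¹ < 1 := by
  have h1 : ¬ O.valuation f ≤ 1 := fun h => hf ((O.valuation_le_one_iff _).mp h)
  rw [not_le] at h1
  have hf0 : f ≠ 0 := fun h => hf (h ▸ O.zero_mem)
  have h2 : O.valuation f * O.valuation f⁻¹ = 1 := by
    rw [← map_mul, mul_inv_cancel₀ hf0, map_one]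
  by_contra h3
  rw [not_lt] at h3
  have h4 : 1 < O.valuation f * O.valuation f⁻¹ := by
    calc (1 : _) < O.valuation f := h1
      _ = O.valuation f * 1 := (mul_one _).symm
      _ ≤ O.valuation f * O.valuation f⁻¹ := mul_le_mul' le_rfl h3
  rw [h2] at h4
  exact lt_irrefl _ h4

/-! ### Kernels of surjections onto fields -/

/-- A surjective ring homomorphism from a valuation ring onto a field kills the non-units. -/
theorem map_eq_zero_of_valuation_lt {L E : Type*} [Field L] [Field E] (O : ValuationSubring L)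
    (φ : O →+* E) (hφ : Function.Surjective φ) (z : O) (hz : O.valuation (z : L) < 1) :
    φ z = 0 := by
  by_contra hne
  obtain ⟨w, hw⟩ := hφ (φ z)⁻¹
  have h1 : φ (z * w - 1) = 0 := by
    rw [map_sub, map_mul, hw, mul_inv_cancel₀ hne, map_one, sub_self]
  -- `z w - 1` is a unit of `O`
  have h2 : O.valuation ((z * w : O) : L) < 1 := by
    have hw1 : O.valuation (w : L) ≤ 1 := (O.valuation_le_one_iff _).mpr w.2
    push_cast
    rw [map_mul]
    calc O.valuation (z : L) * O.valuation (w : L) ≤ O.valuation (z : L) * 1 :=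
          mul_le_mul' le_rfl hw1
      _ = O.valuation (z : L) := mul_one _
      _ < 1 := hz
  have h3 : O.valuation (((z * w - 1 : O)) : L) = 1 := by
    have h4 : (((z * w - 1 : O)) : L) = ((z * w : O) : L) + (-1) := by
      push_cast; ring
    rw [h4]
    have h5 : O.valuation (-1 : L) = 1 := by rw [Valuation.map_neg, map_one]
    have := Valuation.map_add_eq_of_lt_right O.valuation (x := ((z * w : O) : L)) (y := (-1 : L))
      (by rw [h5]; exact h2)
    rw [this, h5]
  have h6 : IsUnit (z * w - 1 : O) := (O.valuation_eq_one_iff _).mpr h3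
  have h7 : IsUnit (φ (z * w - 1)) := h6.map φ
  rw [h1] at h7
  exact not_isUnit_zero h7


/-! ### The datum: kernels, inverses of the coordinate -/

section Datum

variable (G : Datum A π F Fk)

/-- `π` kills the non-units of `A`. -/
theorem pi_eq_zero (G : Datum A π F Fk) (a : A) (ha : A.valuation (a : K) < 1) : π a = 0 :=
  map_eq_zero_of_valuation_lt A π G.π_surj a ha

/-- `ρ` kills the non-units of `O`. -/
theorem rho_eq_zero (z : G.O) (hz : G.O.valuation (z : F) < 1) : G.ρ z = 0 :=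
  map_eq_zero_of_valuation_lt G.O G.ρ G.ρ_surj z hz

theorem xk_ne_zero : G.xk ≠ 0 := fun h =>
  G.xk_transc (by rw [show G.ρ ⟨G.x, G.x_mem⟩ = G.xk from rfl, h]; exact isAlgebraic_zero)

theorem x_ne_zero : G.x ≠ 0 := by
  intro h
  apply xk_ne_zero G
  have : (⟨G.x, G.x_mem⟩ : G.O) = 0 := Subtype.ext h
  rw [Datum.xk, this, map_zero]

/-- `x` is a unit of `O`. -/
theorem x_inv_mem : G.x⁻¹ ∈ G.O := by
  by_contra h
  have h1 : G.O.valuation (G.x⁻¹)⁻¹ < 1 := valuation_inv_lt_of_not_mem h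
  rw [inv_inv] at h1
  exact xk_ne_zero G (rho_eq_zero G ⟨G.x, G.x_mem⟩ h1)

theorem rho_x_inv : G.ρ ⟨G.x⁻¹, x_inv_mem G⟩ = G.xk⁻¹ := by
  have h1 : (⟨G.x, G.x_mem⟩ : G.O) * ⟨G.x⁻¹, x_inv_mem G⟩ = 1 :=
    Subtype.ext (mul_inv_cancel₀ (x_ne_zero G))
  have h2 : G.xk * G.ρ ⟨G.x⁻¹, x_inv_mem G⟩ = 1 := by
    rw [Datum.xk, ← map_mul, h1, map_one]
  exact eq_inv_of_mul_eq_one_right h2

theorem red_eq {f : F} (hf : f ∈ G.O) : G.red f = G.ρ ⟨f, hf⟩ := by
  unfold Datum.red
  rw [dif_pos hf]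

/-- elements of `A[t]` are integral over `A[t]` -/
theorem polyRing_le_chart (t : F) : G.polyRing t ≤ G.chart t := by
  intro s hs
  show IsIntegral (G.polyRing t) s
  exact isIntegral_algebraMap (R := G.polyRing t) (x := ⟨s, hs⟩)

theorem self_mem_polyRing (t : F) : t ∈ G.polyRing t := by
  unfold Datum.polyRing
  exact (le_sup_right : Subring.closure {t} ≤ _) (Subring.subset_closure rfl)

theorem const_mem_polyRing (t : F) (a : A) : algebraMap K F (a : K) ∈ G.polyRing t := by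
  unfold Datum.polyRing
  refine (le_sup_left : G.constRing ≤ _) ?_
  exact ⟨(a : K), a.2, rfl⟩

theorem self_mem_chart (t : F) : t ∈ G.chart t :=
  polyRing_le_chart G t (self_mem_polyRing G t)

end Datum

end Fermat.Agent.S37.Red.H144

end
end
-- ===== PACK-END S37/Red/H144/Basic.lean

-- ===== PACK-BEGIN S20/H800/Fund.lean
section




/-!
# S20 / helper800 : from a graded basis to a fundamental system

`fundSystem_of_gradedBasis` : a homogeneous family generating `⊕ₖ MF Γ k` freely over the level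
one forms (any index type, no finiteness assumption) is a `FundSystem Γ` — all the other fields
(`indep`, finiteness, `jet`, `hasJet`, `jet_indep`, `card_eq`) are consequences.
So `exists_fundSystem` is reduced to the existence of a `GradedBasis`.
-/

set_option autoImplicit false

noncomputable section

namespace Fermat.Agent.S20.H800

open Fermat.Agent.S20
open UpperHalfPlane ModularForm CongruenceSubgroup MatrixGroups Filter EisensteinSeries
open scoped Manifold Topology Real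

variable {Γ : Subgroup SL(2, ℤ)}

/-- Reindexing a graded basis along an equivalence. -/
theorem GradedBasis.reindex {J J' : Type*} {wt : J → ℤ} {F : J → ℍ → ℂ}
    (B : GradedBasis Γ wt F) (e : J' ≃ J) : GradedBasis Γ (wt ∘ e) (F ∘ e) := by
  refine ⟨fun i => B.mem (e i), fun k f hf => ?_, fun k s' c' hc' hsum i hi => ?_⟩
  · obtain ⟨s, c, hc, hfc⟩ := B.gen k f hf
    refine ⟨s.map e.symm.toEmbedding, fun i => c (e i), fun i hi => ?_, ?_⟩
    · rw [Finset.mem_map] at hi
      obtain ⟨j, hj, rfl⟩ := hi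
      simpa using hc j hj
    · rw [hfc, Finset.sum_map]
      exact Finset.sum_congr rfl fun j _ => by simp
  · have h1 := B.free k (s'.map e.toEmbedding) (fun j => c' (e.symm j))
      (fun j hj => by
        rw [Finset.mem_map] at hj
        obtain ⟨i, hi, rfl⟩ := hj
        simpa using hc' i hi)
      (by
        rw [Finset.sum_map]
        simpa using hsum) (e i) (Finset.mem_map_of_mem _ hi)
    simpa using h1

/-- Local independence of a graded basis, with all inputs discharged by landed files. -/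
theorem GradedBasis.indep [Γ.FiniteIndex] {J : Type*} {wt : J → ℤ} {F : J → ℍ → ℂ}
    (B : GradedBasis Γ wt F) (hneg : -1 ∈ Γ) (τ : ℍ) :
    LinearIndependent ℂ fun j => ev Γ (wt j) τ (F j) :=
  indep_ev_of_levelOneDivisor B hneg (fun hP _ _ hf h0 => KerEv292.ker_ev hP hf h0)
    L1.levelOneDivisor_E₆ L1.ST_smul_rhoPt L1.levelOneDivisor_E₄
    (fun z₀ h4 h6 => ⟨12, _, L1.levelOneDivisor_generic z₀ h4 h6⟩) τ

/-- The index type of a graded basis is finite. -/
theorem GradedBasis.finite [Γ.FiniteIndex] {J : Type*} {wt : J → ℤ} {F : J → ℍ → ℂ}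
    (B : GradedBasis Γ wt F) (hneg : -1 ∈ Γ) : Finite J :=
  finite_of_indep (B.indep hneg UpperHalfPlane.I)

/-- The `Fintype` form of generation. -/
theorem GradedBasis.gen_fintype {J : Type*} [Fintype J] {wt : J → ℤ} {F : J → ℍ → ℂ}
    (B : GradedBasis Γ wt F) (k : ℤ) (f : ℍ → ℂ) (hf : f ∈ MF Γ k) :
    ∃ c : J → ℍ → ℂ, (∀ j, c j ∈ MF ⊤ (k - wt j)) ∧ f = ∑ j, c j * F j := by
  classical
  obtain ⟨s, c, hc, hfc⟩ := B.gen k f hf
  refine ⟨fun j => if j ∈ s then c j else 0, fun j => ?_, ?_⟩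
  · beta_reduce
    split_ifs with h
    · exact hc j h
    · exact Submodule.zero_mem _
  · rw [hfc, ← Finset.sum_subset (Finset.subset_univ s)]
    · exact Finset.sum_congr rfl fun j hj => by beta_reduce; rw [if_pos hj]
    · intro j _ hj
      beta_reduce
      rw [if_neg hj, zero_mul]

/-- **A graded basis is a fundamental system.** -/
theorem fundSystem_of_gradedBasis [Γ.FiniteIndex] (hneg : -1 ∈ Γ) {J : Type*} {wt : J → ℤ}
    {F : J → ℍ → ℂ} (B : GradedBasis Γ wt F) {w₀ : ℤ}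
    (hF : ∃ f₀ ∈ MF Γ w₀, ∃ z₀ : ℍ, Function.Injective (ev Γ w₀ z₀ f₀)) :
    Nonempty (FundSystem Γ) := by
  classical
  have hfin : Finite J := B.finite hneg
  set e : Fin (Nat.card J) ≃ J := (Finite.equivFin J).symm with he
  have B' : GradedBasis Γ (wt ∘ e) (F ∘ e) := B.reindex e
  have hjet : ∀ i : Fin (Nat.card J), ∃ v, HasJet Γ ((wt ∘ e) i) ((F ∘ e) i) v :=
    fun i => Jets759.exists_hasJet (B'.mem i)
  choose jet hjet using hjet
  exact ⟨{
    J := Fin (Nat.card J)
    wt := wt ∘ e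
    F := F ∘ e
    mem := B'.mem
    gen := B'.gen_fintype
    indep := B'.indep hneg
    jet := jet
    hasJet := hjet
    jet_indep := indep_jet B' hneg jet hjet
    card_eq := H920.card_eq_card_X (wt ∘ e) (F ∘ e) B'.gen_fintype
      (B'.indep hneg UpperHalfPlane.I) hF }⟩

end Fermat.Agent.S20.H800

end
end
-- ===== PACK-END S20/H800/Fund.lean

-- ===== PACK-BEGIN S37/H157/NormId.lean
section
/-
S37 helper (helper157), piece NORM-ID, parts C-D: the norm formula.

For a prime `ℓ ∤ N`, `F = K(j(q^d) : d ∣ N) ⊆ F' = K(j(q^d) : d ∣ Nℓ) ⊆ K((q))`, `[F' : F] = ℓ + 1`,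
`ζ` a primitive `ℓ`-th root of unity in `K` (`char K = 0`):

  `(N_{F'/F} (y(q^ℓ)))(q^ℓ) = y(q^{ℓ²}) · ∏_{b < ℓ} y(ζ^b q)`      for `y ∈ F`,

i.e. `N_{F'/F}(β y) = y(q^ℓ) · ∏_b y(ζ^b q^{1/ℓ})`.
-/






set_option autoImplicit false
set_option linter.unusedSectionVars false
set_option linter.style.haveILetI false

noncomputable section

open ModularCurve HahnSeries Polynomial IntermediateField
open Fermat.Agent.S28.H626

namespace Fermat.Agent.S37.H157

section Beta

variable (K : Type*) [Field K] (N ℓ : ℕ) [NeZero N] [NeZero ℓ]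

theorem full_le_full_mul :
    modularFunctionFieldFullC K N ≤ modularFunctionFieldFullC K (N * ℓ) :=
  full_degeneracyC_le K (Dvd.intro ℓ rfl)

theorem qExpand_mem_full_mul {y : LaurentSeries K} (hy : y ∈ modularFunctionFieldFullC K N) :
    qExpand K ℓ y ∈ modularFunctionFieldFullC K (N * ℓ) :=
  full_degeneracyC_map_le K N ℓ ⟨y, hy, rfl⟩

/-- The degeneracy map `β : F → F'`, `y ↦ y(q^ℓ)`. -/
def betaHom : ↥(modularFunctionFieldFullC K N) →+* ↥(modularFunctionFieldFullC K (N * ℓ)) where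
  toFun y := ⟨qExpand K ℓ (y : LaurentSeries K), qExpand_mem_full_mul K N ℓ y.2⟩
  map_one' := Subtype.ext (map_one (qExpand K ℓ))
  map_mul' _ _ := Subtype.ext (map_mul (qExpand K ℓ) _ _)
  map_zero' := Subtype.ext (map_zero (qExpand K ℓ))
  map_add' _ _ := Subtype.ext (map_add (qExpand K ℓ) _ _)

@[simp] theorem coe_betaHom (y : modularFunctionFieldFullC K N) :
    ((betaHom K N ℓ y : modularFunctionFieldFullC K (N * ℓ)) : LaurentSeries K)
      = qExpand K ℓ (y : LaurentSeries K) := rfl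

end Beta

section SwapBeta

variable {K : Type*} [Field K] {N ℓ : ℕ} [NeZero N] [NeZero ℓ]
variable {Φ : Polynomial (Polynomial ℤ)} (hℓ : ℓ.Prime) (hℓN : ¬ ℓ ∣ N)
  (H : HasModPolys K (N * ℓ)) (hΦ : IsModPoly ℓ Φ)
  (hdeg : (minpoly ↥(modularFunctionFieldFullC K N) (jd K ℓ)).natDegree = ℓ + 1)

/-- (W4) `W ∘ β = id` on `F`. -/
theorem swapHom_betaHom (y : modularFunctionFieldFullC K N) :
    swapHom hℓ hℓN H hΦ hdeg (betaHom K N ℓ y) = (y : LaurentSeries K) := by
  obtain ⟨y, hy⟩ := y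
  show ((swapHom hℓ hℓN H hΦ hdeg).comp (betaHom K N ℓ)) ⟨y, hy⟩ = y
  set f := (swapHom hℓ hℓN H hΦ hdeg).comp (betaHom K N ℓ) with hf
  have key : ∀ (x : LaurentSeries K) (hx : x ∈ IntermediateField.adjoin K (divisorExpansionsC K N)),
      f ⟨x, hx⟩ = x := by
    intro x hx
    induction hx using IntermediateField.adjoin_induction with
    | mem x hx =>
      obtain ⟨d, hne, hdvd, rfl⟩ := hx
      haveI := hne
      have hm : jd K (d * ℓ) ∈ modularFunctionFieldFullC K (N * ℓ) :=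
        jd_mem_full (N * ℓ) (d * ℓ) (mul_dvd_mul_right hdvd ℓ)
      have h1 : betaHom K N ℓ ⟨qExpand K d (jqModC K), subset_adjoin K _ ⟨d, hne, hdvd, rfl⟩⟩
          = ⟨jd K (d * ℓ), hm⟩ := by
        apply Subtype.ext
        show qExpand K ℓ (qExpand K d (jqModC K)) = _
        rw [qExpand_qExpand]
        exact jd_congr K (mul_comm _ _)
      rw [hf, RingHom.comp_apply, h1, swapHom_jd_mul hℓ hℓN H hΦ hdeg d hdvd hm]
    | algebraMap c =>
      have hc : algebraMap K (LaurentSeries K) c ∈ modularFunctionFieldFullC K N :=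
        (modularFunctionFieldFullC K N).algebraMap_mem c
      have hq : qExpand K ℓ (algebraMap K (LaurentSeries K) c) = algebraMap K (LaurentSeries K) c :=
        (qExpandAlgHomC K ℓ).commutes c
      have h1 : betaHom K N ℓ ⟨algebraMap K (LaurentSeries K) c, hc⟩
          = ⟨algebraMap K (LaurentSeries K) c, full_le_full_mul K N ℓ hc⟩ := Subtype.ext hq
      rw [hf, RingHom.comp_apply]
      rw [h1, swapHom_of_mem hℓ hℓN H hΦ hdeg _ hc, hq]
    | add x y hx hy ihx ihy =>
      have : (⟨x + y, add_mem hx hy⟩ : modularFunctionFieldFullC K N) = ⟨x, hx⟩ + ⟨y, hy⟩ := rfl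
      rw [this, map_add, ihx, ihy]
    | inv x hx ihx =>
      have : (⟨x⁻¹, inv_mem hx⟩ : modularFunctionFieldFullC K N) = (⟨x, hx⟩)⁻¹ := rfl
      rw [this, map_inv₀, ihx]
    | mul x y hx hy ihx ihy =>
      have : (⟨x * y, mul_mem hx hy⟩ : modularFunctionFieldFullC K N) = ⟨x, hx⟩ * ⟨y, hy⟩ := rfl
      rw [this, map_mul, ihx, ihy]
  exact key y hy

end SwapBeta


/-! ### The norm formula -/

section Norm

variable {K : Type*} [Field K] {N ℓ : ℕ} [NeZero N] [NeZero ℓ]

variable (K N ℓ) in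
/-- `F'` as an `F`-algebra via the inclusion (this is the Prelude's
`algebraAlong (heckeAlphaBar …)` shape). -/
abbrev algIncl :
    Algebra ↥(modularFunctionFieldFullC K N) ↥(modularFunctionFieldFullC K (N * ℓ)) :=
  (IntermediateField.inclusion (full_le_full_mul K N ℓ)).toRingHom.toAlgebra

theorem algebraMap_algIncl (a : modularFunctionFieldFullC K N) :
    @algebraMap _ _ _ _ (algIncl K N ℓ) a = IntermediateField.inclusion (full_le_full_mul K N ℓ) a :=
  rfl

theorem coe_algebraMap_algIncl (a : modularFunctionFieldFullC K N) :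
    ((@algebraMap _ _ _ _ (algIncl K N ℓ) a : modularFunctionFieldFullC K (N * ℓ)) :
      LaurentSeries K) = (a : LaurentSeries K) := by
  rw [algebraMap_algIncl, IntermediateField.coe_inclusion]

/-- the degree of the minimal polynomial of `j(q^ℓ)` over `F` from `[F' : F] = ℓ + 1`. -/
theorem natDegree_minpoly_jdl {Φ : Polynomial (Polynomial ℤ)} (hℓ : ℓ.Prime) (hℓN : ¬ ℓ ∣ N)
    (H : HasModPolys K (N * ℓ)) (hΦ : IsModPoly ℓ Φ)
    (hfin : @Module.finrank ↥(modularFunctionFieldFullC K N)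
      ↥(modularFunctionFieldFullC K (N * ℓ)) _ _ (algIncl K N ℓ).toModule = ℓ + 1) :
    (minpoly ↥(modularFunctionFieldFullC K N) (jd K ℓ)).natDegree = ℓ + 1 := by
  letI := algIncl K N ℓ
  rw [← IntermediateField.adjoin.finrank (isIntegral_jdl (K := K) (N := N) hΦ), ← hfin]
  let e : ↥(↥(modularFunctionFieldFullC K N))⟮jd K ℓ⟯ ≃ₗ[↥(modularFunctionFieldFullC K N)]
      ↥(modularFunctionFieldFullC K (N * ℓ)) :=
    { toFun := fun y => ⟨y.1, adjoin_jdl_le_full y.1 y.2⟩
      invFun := fun x => ⟨x.1, full_mul_le_adjoin_jdl hℓ hℓN H x.1 x.2⟩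
      map_add' := fun _ _ => rfl
      map_smul' := fun a y => by
        apply Subtype.ext
        have h1 : ((a • y : ↥(↥(modularFunctionFieldFullC K N))⟮jd K ℓ⟯) : LaurentSeries K)
            = (a : LaurentSeries K) * (y : LaurentSeries K) := by
          rw [IntermediateField.coe_smul, Algebra.smul_def]
          rfl
        have h2 : (((a • (⟨y.1, adjoin_jdl_le_full y.1 y.2⟩ :
            modularFunctionFieldFullC K (N * ℓ))) : modularFunctionFieldFullC K (N * ℓ)) :
              LaurentSeries K) = (a : LaurentSeries K) * (y : LaurentSeries K) := by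
          rw [Algebra.smul_def, MulMemClass.coe_mul, coe_algebraMap_algIncl]
        exact h1.trans h2.symm
      left_inv := fun _ => rfl
      right_inv := fun _ => rfl }
  exact e.finrank_eq


/-- the `ℓ + 1` embeddings of `F'` over `F → K((q))`, `y ↦ y(q^ℓ)` -/
def embFamily {Φ : Polynomial (Polynomial ℤ)} (hℓ : ℓ.Prime) (hℓN : ¬ ℓ ∣ N)
    (H : HasModPolys K (N * ℓ)) (hΦ : IsModPoly ℓ Φ)
    (hdeg : (minpoly ↥(modularFunctionFieldFullC K N) (jd K ℓ)).natDegree = ℓ + 1) (ζ : Kˣ) :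
    Fin (ℓ + 1) → (↥(modularFunctionFieldFullC K (N * ℓ)) →+* LaurentSeries K) :=
  Fin.lastCases
    ((qExpand K ℓ).comp (algebraMap ↥(modularFunctionFieldFullC K (N * ℓ)) (LaurentSeries K)))
    (fun b => (twist (ζ ^ (b : ℕ))).comp (swapHom hℓ hℓN H hΦ hdeg))

section EmbFamily

variable {Φ : Polynomial (Polynomial ℤ)} (hℓ : ℓ.Prime) (hℓN : ¬ ℓ ∣ N)
  (H : HasModPolys K (N * ℓ)) (hΦ : IsModPoly ℓ Φ)
  (hdeg : (minpoly ↥(modularFunctionFieldFullC K N) (jd K ℓ)).natDegree = ℓ + 1) (ζ : Kˣ)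

theorem embFamily_last (x : modularFunctionFieldFullC K (N * ℓ)) :
    embFamily hℓ hℓN H hΦ hdeg ζ (Fin.last ℓ) x = qExpand K ℓ (x : LaurentSeries K) := by
  rw [embFamily, Fin.lastCases_last]
  rfl

theorem embFamily_castSucc (b : Fin ℓ) (x : modularFunctionFieldFullC K (N * ℓ)) :
    embFamily hℓ hℓN H hΦ hdeg ζ (Fin.castSucc b) x
      = twist (ζ ^ (b : ℕ)) (swapHom hℓ hℓN H hΦ hdeg x) := by
  rw [embFamily, Fin.lastCases_castSucc]
  rfl

theorem twist_pow_qExpand (hζ : ζ ^ ℓ = 1) (b : ℕ) (y : LaurentSeries K) :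
    twist (ζ ^ b) (qExpand K ℓ y) = qExpand K ℓ y := by
  rw [twist_qExpand, ← pow_mul, mul_comm, pow_mul, hζ, one_pow, twist_one_apply]

theorem embFamily_algebraMap (hζ : ζ ^ ℓ = 1) (i : Fin (ℓ + 1))
    (a : modularFunctionFieldFullC K N) :
    embFamily hℓ hℓN H hΦ hdeg ζ i (@algebraMap _ _ _ _ (algIncl K N ℓ) a) = baseHom K N ℓ a := by
  have hmem : (a : LaurentSeries K) ∈ modularFunctionFieldFullC K (N * ℓ) :=
    full_le_full_mul K N ℓ a.2
  have hx : @algebraMap _ _ _ _ (algIncl K N ℓ) a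
      = (⟨(a : LaurentSeries K), hmem⟩ : modularFunctionFieldFullC K (N * ℓ)) :=
    Subtype.ext (coe_algebraMap_algIncl a)
  rw [hx, baseHom_apply]
  induction i using Fin.lastCases with
  | last => rw [embFamily_last]
  | cast b =>
    rw [embFamily_castSucc, swapHom_of_mem hℓ hℓN H hΦ hdeg _ a.2 hmem, twist_pow_qExpand ζ hζ]

theorem embFamily_last_jdl (hm : jd K ℓ ∈ modularFunctionFieldFullC K (N * ℓ)) :
    embFamily hℓ hℓN H hΦ hdeg ζ (Fin.last ℓ) ⟨jd K ℓ, hm⟩ = jTw K 1 (ℓ * ℓ) := by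
  rw [embFamily_last, jTw_one]
  show qExpand K ℓ (qExpand K ℓ (jqModC K)) = _
  rw [qExpand_qExpand]

theorem embFamily_castSucc_jdl (hm : jd K ℓ ∈ modularFunctionFieldFullC K (N * ℓ)) (b : Fin ℓ) :
    embFamily hℓ hℓN H hΦ hdeg ζ (Fin.castSucc b) ⟨jd K ℓ, hm⟩ = jTw K (ζ ^ (b : ℕ)) 1 := by
  rw [embFamily_castSucc, swapHom_jdl, jTw, qExpand_one_apply]

theorem embFamily_injective (hζ : IsPrimitiveRoot ζ ℓ) :
    Function.Injective (embFamily hℓ hℓN H hΦ hdeg ζ) := by
  have hm : jd K ℓ ∈ modularFunctionFieldFullC K (N * ℓ) :=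
    jd_mem_full (N * ℓ) ℓ (Dvd.intro_left N rfl)
  have hℓ2 : 2 ≤ ℓ := hℓ.two_le
  have hne : ℓ * ℓ ≠ 1 := by
    intro h
    have : 2 * 2 ≤ ℓ * ℓ := Nat.mul_le_mul hℓ2 hℓ2
    omega
  intro i j hij
  have hval : embFamily hℓ hℓN H hΦ hdeg ζ i ⟨jd K ℓ, hm⟩
      = embFamily hℓ hℓN H hΦ hdeg ζ j ⟨jd K ℓ, hm⟩ := by rw [hij]
  induction i using Fin.lastCases with
  | last =>
    induction j using Fin.lastCases with
    | last => rfl
    | cast c =>
      exfalso
      rw [embFamily_last_jdl, embFamily_castSucc_jdl] at hval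
      exact hne (jTw_inj hval).1
  | cast b =>
    induction j using Fin.lastCases with
    | last =>
      exfalso
      rw [embFamily_last_jdl, embFamily_castSucc_jdl] at hval
      exact hne (jTw_inj hval).1.symm
    | cast c =>
      rw [embFamily_castSucc_jdl, embFamily_castSucc_jdl] at hval
      have h1 := (jTw_inj hval).2
      have h2 : (b : ℕ) = (c : ℕ) := hζ.pow_inj b.2 c.2 h1
      rw [Fin.ext h2]

end EmbFamily


section Main

variable [CharZero K]

/-- **Norm formula, general element.**  `(N_{F'/F} x)(q^ℓ) = x(q^ℓ) · ∏_{b<ℓ} (W x)(ζ^b q)`. -/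
theorem norm_eq_swap {Φ : Polynomial (Polynomial ℤ)} (hℓ : ℓ.Prime) (hℓN : ¬ ℓ ∣ N)
    (H : HasModPolys K (N * ℓ)) (hΦ : IsModPoly ℓ Φ) (ζ : Kˣ) (hζ : IsPrimitiveRoot ζ ℓ)
    (hfin : @Module.finrank ↥(modularFunctionFieldFullC K N)
      ↥(modularFunctionFieldFullC K (N * ℓ)) _ _ (algIncl K N ℓ).toModule = ℓ + 1)
    (x : modularFunctionFieldFullC K (N * ℓ)) :
    qExpand K ℓ ((@Algebra.norm ↥(modularFunctionFieldFullC K N) _ _ _ (algIncl K N ℓ) x :
        modularFunctionFieldFullC K N) : LaurentSeries K)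
      = qExpand K ℓ (x : LaurentSeries K) *
          ∏ b ∈ Finset.range ℓ, twist (ζ ^ b)
            (swapHom hℓ hℓN H hΦ (natDegree_minpoly_jdl hℓ hℓN H hΦ hfin) x) := by
  letI := algIncl K N ℓ
  haveI : FiniteDimensional ↥(modularFunctionFieldFullC K N)
      ↥(modularFunctionFieldFullC K (N * ℓ)) :=
    Module.finite_of_finrank_pos (by rw [hfin]; omega)
  haveI : CharZero ↥(modularFunctionFieldFullC K N) :=
    charZero_of_injective_algebraMap (algebraMap K ↥(modularFunctionFieldFullC K N)).injective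
  haveI : Algebra.IsSeparable ↥(modularFunctionFieldFullC K N)
      ↥(modularFunctionFieldFullC K (N * ℓ)) :=
    Algebra.IsSeparable.of_integral _ _
  have key := norm_eq_prod_of_embeddings (baseHom K N ℓ) hfin
    (embFamily hℓ hℓN H hΦ (natDegree_minpoly_jdl hℓ hℓN H hΦ hfin) ζ)
    (fun i a => embFamily_algebraMap hℓ hℓN H hΦ _ ζ hζ.pow_eq_one i a)
    (embFamily_injective hℓ hℓN H hΦ _ ζ hζ) x
  rw [baseHom_apply] at key
  rw [key, Fin.prod_univ_castSucc, embFamily_last, mul_comm]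
  congr 1
  simp_rw [embFamily_castSucc]
  exact Fin.prod_univ_eq_prod_range
    (fun b => twist (ζ ^ b) (swapHom hℓ hℓN H hΦ (natDegree_minpoly_jdl hℓ hℓN H hΦ hfin) x)) ℓ

/-- **NORM-ID.**  `(N_{F'/F} (y(q^ℓ)))(q^ℓ) = y(q^{ℓ²}) · ∏_{b<ℓ} y(ζ^b q)` for `y ∈ F`, i.e.
`N_{F'/F}(β y) = y(q^ℓ) · ∏_b y(ζ^b q^{1/ℓ})`. -/
theorem norm_betaHom (hℓ : ℓ.Prime) (hℓN : ¬ ℓ ∣ N)
    (H : HasModPolys K (N * ℓ)) (ζ : Kˣ) (hζ : IsPrimitiveRoot ζ ℓ)
    (hfin : @Module.finrank ↥(modularFunctionFieldFullC K N)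
      ↥(modularFunctionFieldFullC K (N * ℓ)) _ _ (algIncl K N ℓ).toModule = ℓ + 1)
    (y : modularFunctionFieldFullC K N) :
    qExpand K ℓ ((@Algebra.norm ↥(modularFunctionFieldFullC K N) _ _ _ (algIncl K N ℓ)
        (betaHom K N ℓ y) : modularFunctionFieldFullC K N) : LaurentSeries K)
      = qExpand K (ℓ * ℓ) (y : LaurentSeries K) *
          ∏ b ∈ Finset.range ℓ, twist (ζ ^ b) (y : LaurentSeries K) := by
  obtain ⟨-, Φ, hΦ⟩ := H ℓ hℓ (Dvd.intro_left N rfl)
  rw [norm_eq_swap hℓ hℓN H hΦ ζ hζ hfin, coe_betaHom, qExpand_qExpand]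
  simp_rw [swapHom_betaHom]

end Main

end Norm

end Fermat.Agent.S37.H157

end

end
-- ===== PACK-END S37/H157/NormId.lean

-- ===== PACK-BEGIN A2/H12/GLemmas.lean
section


/-!
# Cell A2 — route G: glue lemmas for the ALG assembly (helper12)

Elementary facts on sheets (`IsSheet`), charts and ring automorphisms.
-/

set_option autoImplicit false

namespace Fermat.Agent.A2.H12

open Polynomial
open Fermat.Agent.S18.H138 (chart baseField)

universe u

section Sheets

variable {R : Type u} [CommRing R] {K : Type u} [Field K] [Algebra R K]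

theorem mul_mem_nonunits (W : ValuationSubring K) {a c : K} (ha : a ∈ W.nonunits) (hc : c ∈ W) :
    c * a ∈ W.nonunits := by
  rw [ValuationSubring.mem_nonunits_iff] at ha ⊢
  rw [map_mul]
  have h1 : W.valuation c ≤ 1 := (W.valuation_le_one_iff c).2 hc
  calc W.valuation c * W.valuation a ≤ 1 * W.valuation a := by gcongr
    _ = W.valuation a := one_mul _
    _ < 1 := ha

theorem one_not_mem_nonunits (W : ValuationSubring K) : (1 : K) ∉ W.nonunits := by
  rw [ValuationSubring.mem_nonunits_iff, map_one]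
  exact lt_irrefl _

/-- membership in a valuation subring in terms of its nonunits -/
theorem mem_iff_inv_not_mem_nonunits (W : ValuationSubring K) {b : K} (hb : b ≠ 0) :
    b ∈ W ↔ b⁻¹ ∉ W.nonunits := by
  rw [ValuationSubring.inv_mem_nonunits_iff]
  constructor
  · intro h h'
    rcases h' with h' | h'
    · exact hb h'
    · exact h' h
  · intro h
    by_contra h'
    exact h (Or.inr h')

/-- nonunits of a comap along a ring homomorphism of fields -/
theorem mem_nonunits_comap {K' : Type*} [Field K'] (W : ValuationSubring K') (ψ : K →+* K')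
    (b : K) : b ∈ (W.comap ψ).nonunits ↔ ψ b ∈ W.nonunits := by
  rw [ValuationSubring.mem_nonunits_iff_or, ValuationSubring.mem_nonunits_iff_or,
    ValuationSubring.mem_comap, map_inv₀, map_eq_zero]

theorem IsSheet.not_dvd_one {w : R} {x : K} {W : ValuationSubring K} (hW : IsSheet w x W) :
    ¬ w ∣ 1 := by
  rintro ⟨c, hc⟩
  have h1 : algebraMap R K w * algebraMap R K c = 1 := by
    rw [← map_mul, ← hc, map_one]
  have h2 := mul_mem_nonunits W hW.2.2.1 (hW.1 c)
  rw [mul_comm, h1] at h2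
  exact one_not_mem_nonunits W h2

theorem IsSheet.inv_mem {w : R} {x : K} {W : ValuationSubring K} (hW : IsSheet w x W) :
    x⁻¹ ∈ W := by
  have := hW.2.2.2 X ⟨1, by simpa using hW.not_dvd_one⟩
  simpa using this

/-- An element integral over a subalgebra contained in a valuation subring lies in it. -/
theorem mem_of_isIntegral_of_le (W : ValuationSubring K) (A : Subalgebra R K)
    (hA : ∀ a ∈ A, a ∈ W) {c : K} (hc : IsIntegral A c) : c ∈ W := by
  let φ : A →+* W :=
    { toFun := fun a => ⟨a, hA a a.2⟩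
      map_one' := rfl
      map_mul' := fun _ _ => rfl
      map_zero' := rfl
      map_add' := fun _ _ => rfl }
  have h1 : IsIntegral W ((RingHom.id K) c) :=
    IsIntegral.map_of_comp_eq (R := A) (S := K) (T := W) (U := K) φ (RingHom.id K)
      (by ext; rfl) hc
  obtain ⟨y, hy⟩ := (IsIntegrallyClosed.isIntegral_iff (R := W) (K := K)).1 h1
  have : (y : K) = c := hy
  rw [← this]
  exact y.2

/-- The charts lie in every sheet. -/
theorem IsSheet.chart_le {w : R} {x : K} {W : ValuationSubring K} (hW : IsSheet w x W)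
    {T : Set K} (hT : T ⊆ {x, x⁻¹}) {c : K} (hc : c ∈ chart R T) : c ∈ W := by
  refine mem_of_isIntegral_of_le W (Algebra.adjoin R T) ?_ hc
  intro a ha
  induction ha using Algebra.adjoin_induction with
  | mem y hy =>
    rcases hT hy with rfl | rfl
    · exact hW.2.1
    · exact hW.inv_mem
  | algebraMap r => exact hW.1 r
  | add y z _ _ hy hz => exact W.add_mem _ _ hy hz
  | mul y z _ _ hy hz => exact W.mul_mem _ _ hy hz

/-- Transport of a sheet along a ring automorphism compatible with `R` and fixing `x`. -/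
theorem IsSheet.comap {w : R} {x : K} {W : ValuationSubring K} (hW : IsSheet w x W)
    (ψ : K ≃+* K) (ρ : R ≃+* R) (hψR : ∀ r, ψ (algebraMap R K r) = algebraMap R K (ρ r))
    (hρw : ∀ r, w ∣ r ↔ w ∣ ρ r) (hψx : ψ x = x) :
    IsSheet w x (W.comap (ψ : K →+* K)) := by
  refine ⟨?_, ?_, ?_, ?_⟩
  · intro r
    rw [ValuationSubring.mem_comap]
    change ψ (algebraMap R K r) ∈ W
    rw [hψR]
    exact hW.1 _
  · rw [ValuationSubring.mem_comap]
    change ψ x ∈ W
    rw [hψx]
    exact hW.2.1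
  · rw [mem_nonunits_comap]
    change ψ (algebraMap R K w) ∈ W.nonunits
    rw [hψR]
    obtain ⟨c, hc⟩ := (hρw w).1 dvd_rfl
    rw [hc, map_mul, mul_comm]
    exact mul_mem_nonunits W hW.2.2.1 (hW.1 c)
  · intro P hP
    rw [ValuationSubring.mem_comap]
    change ψ ((aeval x P)⁻¹) ∈ W
    have h1 : ψ (aeval x P) = aeval x (P.map (ρ : R →+* R)) := by
      rw [aeval_def, aeval_def, eval₂_map]
      have := Polynomial.hom_eval₂ P (algebraMap R K) (ψ : K →+* K) x
      rw [show (ψ : K →+* K) (eval₂ (algebraMap R K) x P) = ψ (eval₂ (algebraMap R K) x P)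
        from rfl] at this
      rw [this]
      congr 1
      · ext r
        exact hψR r
    rw [map_inv₀, h1]
    apply hW.2.2.2
    obtain ⟨i, hi⟩ := hP
    refine ⟨i, ?_⟩
    rw [coeff_map]
    intro hdvd
    exact hi ((hρw _).2 hdvd)

/-- nonunits determine membership: automorphism version -/
theorem mem_iff_of_nonunits_iff (ψ : K ≃+* K) (W W' : ValuationSubring K)
    (h : ∀ b, b ∈ W.nonunits ↔ ψ b ∈ W'.nonunits) : ∀ b, b ∈ W ↔ ψ b ∈ W' := by
  intro b
  by_cases hb : b = 0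
  · subst hb
    simp [W.zero_mem, W'.zero_mem]
  · have hψb : ψ b ≠ 0 := by
      intro h0
      exact hb ((map_eq_zero_iff ψ ψ.injective).1 h0)
    rw [mem_iff_inv_not_mem_nonunits W hb, mem_iff_inv_not_mem_nonunits W' hψb, h b⁻¹, map_inv₀]

theorem nonunits_iff_of_mem_iff (ψ : K ≃+* K) (W W' : ValuationSubring K)
    (h : ∀ b, b ∈ W ↔ ψ b ∈ W') : ∀ b, b ∈ W.nonunits ↔ ψ b ∈ W'.nonunits := by
  intro b
  rw [ValuationSubring.mem_nonunits_iff_or, ValuationSubring.mem_nonunits_iff_or, h b⁻¹,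
    map_inv₀, map_eq_zero_iff ψ ψ.injective]

/-- A ring endomorphism compatible with `R` and mapping `T` into `R[T]` maps the chart into
itself. -/
theorem chart_map_mem {T : Set K} (ψ : K →+* K)
    (hψR : ∀ r : R, ∃ r' : R, ψ (algebraMap R K r) = algebraMap R K r')
    (hψT : ∀ t ∈ T, ψ t ∈ Algebra.adjoin R T) {b : K} (hb : b ∈ chart R T) :
    ψ b ∈ chart R T := by
  have hadj : ∀ a ∈ Algebra.adjoin R T, ψ a ∈ Algebra.adjoin R T := by
    intro a ha
    induction ha using Algebra.adjoin_induction with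
    | mem y hy => exact hψT y hy
    | algebraMap r =>
      obtain ⟨r', hr'⟩ := hψR r
      rw [hr']
      exact Subalgebra.algebraMap_mem _ _
    | add y z _ _ hy hz => rw [map_add]; exact Subalgebra.add_mem _ hy hz
    | mul y z _ _ hy hz => rw [map_mul]; exact Subalgebra.mul_mem _ hy hz
  let φ : Algebra.adjoin R T →+* Algebra.adjoin R T := RingHom.restrict ψ _ _ hadj
  exact IsIntegral.map_of_comp_eq (R := Algebra.adjoin R T) (S := K)
    (T := Algebra.adjoin R T) (U := K) φ ψ (by ext; rfl) hb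

end Sheets

section Tower

variable {R : Type u} [CommRing R] {F : Type u} [Field F] [Algebra R F]
variable {L : Type u} [Field L] [Algebra F L] [Algebra R L] [IsScalarTower R F L]

/-- The restriction of a sheet of `L` to `F` is a sheet of `F`. -/
theorem IsSheet.comap_algebraMap {w : R} {x : F} {W : ValuationSubring L}
    (hW : IsSheet w (algebraMap F L x) W) : IsSheet w x (W.comap (algebraMap F L)) := by
  refine ⟨?_, ?_, ?_, ?_⟩
  · intro r
    rw [ValuationSubring.mem_comap, ← IsScalarTower.algebraMap_apply]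
    exact hW.1 r
  · rw [ValuationSubring.mem_comap]
    exact hW.2.1
  · rw [mem_nonunits_comap, ← IsScalarTower.algebraMap_apply]
    exact hW.2.2.1
  · intro P hP
    rw [ValuationSubring.mem_comap, map_inv₀, ← aeval_algebraMap_apply]
    exact hW.2.2.2 P hP

end Tower

end Fermat.Agent.A2.H12

end
-- ===== PACK-END A2/H12/GLemmas.lean

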