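import Mathlib
import Fermat.Prelude.Def_EllipticCurve_ZeroComponentAt
import Fermat.Prelude.Def_FLTPrelim_Ramification
import Fermat.Agent.Pack.S44.G0E17L1
import Fermat.Agent.Pack.S44.G0E6L0
import Fermat.Agent.Pack.S44.G0E17L2
import Fermat.Agent.Pack.S44.G0E6L2
import Fermat.Agent.Pack.S44.G0E18L2
import Fermat.Agent.Pack.S44.G0E0L2
import Fermat.Agent.Pack.S44.G0E18L0
import Fermat.Agent.Pack.S44.G0E16L2
import Fermat.Agent.Pack.S44.G0E1L3
import Fermat.Agent.Pack.S44.G0E0L1
import Fermat.Agent.Pack.S44.G0E17L0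
import Fermat.Agent.Pack.S44.G0E10L1
import Fermat.Agent.Pack.S44.G0E14L0
import Fermat.Agent.Pack.S44.G0E18L1
import Fermat.Agent.Pack.S44.G1E0L0
import Fermat.Agent.Pack.S44.G0E5L1
import Fermat.Agent.Pack.S44.G0E8L1
import Fermat.Agent.Pack.S44.G0E12L0
import Fermat.Agent.Pack.S44.G0E18L3
import Fermat.Agent.Pack.S44.G0E9L3
import Fermat.Agent.Pack.S44.G0E9L2

-- ===== PACK-BEGIN Lib/NormL/Periodic.lean
section


/-!
# `NormL`, block KEY, part 1: `x ↦ N(x) mod m` is periodic modulo `m 𝓞 K`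
-/

namespace Fermat.Agent.Lib.NormL

open NumberField

variable {K : Type*} [Field K] [NumberField K]

theorem intCast_det_zmod {ι : Type*} [Fintype ι] [DecidableEq ι] (m : ℕ) (M : Matrix ι ι ℤ) :
    ((M.det : ℤ) : ZMod m) = ((Int.castRingHom (ZMod m)).mapMatrix M).det := by
  rw [← RingHom.map_det]
  rfl

theorem norm_add_natCast_mul_zmod (m : ℕ) (x y : 𝓞 K) :
    ((Algebra.norm ℤ (x + (m : 𝓞 K) * y) : ℤ) : ZMod m) =
      ((Algebra.norm ℤ x : ℤ) : ZMod m) := by
  classical
  let b := RingOfIntegers.basis K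
  rw [Algebra.norm_eq_matrix_det b, Algebra.norm_eq_matrix_det b, intCast_det_zmod,
    intCast_det_zmod]
  congr 1
  rw [map_add (Algebra.leftMulMatrix b), map_mul (Algebra.leftMulMatrix b), map_add, map_mul,
    map_natCast (Algebra.leftMulMatrix b), map_natCast]
  have h0 : ((m : ℕ) : Matrix (Module.Free.ChooseBasisIndex ℤ (𝓞 K))
      (Module.Free.ChooseBasisIndex ℤ (𝓞 K)) (ZMod m)) = 0 := by
    ext i j
    rw [Matrix.natCast_apply]
    simp
  rw [h0, zero_mul, add_zero]

/-- Periodicity modulo the ideal generated by `m`. -/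
theorem norm_add_zmod_of_mem (m : ℕ) (x : 𝓞 K) {y : 𝓞 K}
    (hy : y ∈ Ideal.span {(m : 𝓞 K)}) :
    ((Algebra.norm ℤ (x + y) : ℤ) : ZMod m) = ((Algebra.norm ℤ x : ℤ) : ZMod m) := by
  obtain ⟨z, rfl⟩ := Ideal.mem_span_singleton'.mp hy
  rw [mul_comm]
  exact norm_add_natCast_mul_zmod m x z

/-- If `x ≡ x'` modulo `m`, the norms agree modulo `m`. -/
theorem norm_zmod_eq_of_sub_mem (m : ℕ) {x x' : 𝓞 K}
    (h : x - x' ∈ Ideal.span {(m : 𝓞 K)}) :
    ((Algebra.norm ℤ x : ℤ) : ZMod m) = ((Algebra.norm ℤ x' : ℤ) : ZMod m) := by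
  have := norm_add_zmod_of_mem m x' h
  rwa [add_sub_cancel] at this

end Fermat.Agent.Lib.NormL

end
-- ===== PACK-END Lib/NormL/Periodic.lean

-- ===== PACK-BEGIN Lib/Frob/A1/Main.lean
section



/-!
# Shared library `Frob`, piece A1: the deliverable `reductionData : ReductionData`

Proof: `Fermat/Agent/Lib/Frob/A1/H290/Main.lean` (helper290), an instance of the general reduction
homomorphism `Fermat.Agent.Lib.Red.H290.redHom` with `k` the residue field of `A`.
-/

set_option autoImplicit false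

namespace Fermat.Agent.Lib.Frob

/-- **A1**: reduction of prime-to-`ℓ` torsion at a valuation subring of `ℚ̄` over a good prime. -/
theorem reductionData : ReductionData := A1.H290.reductionData

end Fermat.Agent.Lib.Frob

end
-- ===== PACK-END Lib/Frob/A1/Main.lean

-- ===== PACK-BEGIN S15/H242/Loc.lean
section






/-!
# S15, piece P-LOC (helper242): the local case of Mazur's Step 3

`loc_not_inZeroComponentAt`: in the situation of S15 (a Galois-fixed point `Q` of prime order `p`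
on `W / ℚ`, a prime `ℓ ≠ p` of multiplicative reduction, a place `A` over `ℓ`), if
`p ∤ ℓ - 1` and `p ∤ ℓ + 1` then `Q` is NOT in the zero component at `A`.

Equivalently (`loc_dvd_of_inZeroComponentAt`): if `Q` is in the zero component at `A`, then
`p ∣ ℓ - 1 ∨ p ∣ ℓ + 1`.

Consequently the global (Eisenstein-quotient) argument for S15 is only needed for the primes
`ℓ ≡ ±1 (mod p)`; in particular never for a prime `ℓ` dividing `n = num((p-1)/12)` (such an `ℓ`
satisfies `ℓ ≤ (p-1)/2`).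

Proof: `E⁰(ℚ̄) → Ẽ_ns(κ_A)` is a homomorphism (`E0Red`), injective on `p`-torsion (`S05.C1b`),
the image of a rational point has coordinates in the prime field `𝔽_ℓ`, and the nodal cubic
`Ẽ_ns(𝔽_ℓ)` has `ℓ - 1` or `ℓ + 1` points (`NodalCount`).
-/

set_option autoImplicit false
open WeierstrassCurve WeierstrassCurve.Affine

namespace Fermat.Agent.S15.H242

open Fermat.Agent.Lib.Red.H290
open Fermat.Agent.S05.SameRed (IntegralCoeffs InKer)

section val

variable {K : Type*} [Field K] (A : ValuationSubring K)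

lemma val_intCast_le_one (n : ℤ) : A.valuation (n : K) ≤ 1 :=
  (A.valuation_le_one_iff _).mpr (intCast_mem A n)

/-- An integer prime to the residue characteristic is a unit of `A`. -/
lemma val_intCast_eq_one {ℓ : ℕ} (hA : A.LiesOverPrime ℓ) (hℓ : ℓ.Prime) {b : ℤ}
    (hb : ¬ (ℓ : ℤ) ∣ b) : A.valuation (b : K) = 1 := by
  have hcop : IsCoprime (ℓ : ℤ) b :=
    (Nat.prime_iff_prime_int.mp hℓ).coprime_iff_not_dvd.mpr hb
  obtain ⟨u, v, huv⟩ := hcop
  have hℓv : A.valuation (ℓ : K) < 1 := (A.mem_nonunits_iff).mp hA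
  have h1 : (v : K) * (b : K) = 1 - (u : K) * (ℓ : K) := by
    have := congrArg (Int.cast : ℤ → K) huv
    push_cast at this
    linear_combination this
  have h2 : A.valuation ((u : K) * (ℓ : K)) < 1 := by
    rw [map_mul]
    calc A.valuation (u : K) * A.valuation (ℓ : K) ≤ 1 * A.valuation (ℓ : K) :=
          mul_le_mul_left (val_intCast_le_one A u) _
      _ < 1 := by rwa [one_mul]
  have h3 : A.valuation (1 - (u : K) * ℓ) = 1 := Valuation.map_one_sub_of_lt _ h2
  have h4 : A.valuation (v : K) * A.valuation (b : K) = 1 := by rw [← map_mul, h1, h3]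
  refine le_antisymm (val_intCast_le_one A b) ?_
  calc (1 : _) = A.valuation (v : K) * A.valuation (b : K) := h4.symm
    _ ≤ 1 * A.valuation (b : K) := mul_le_mul_left (val_intCast_le_one A v) _
    _ = A.valuation (b : K) := one_mul _

lemma val_natCast_eq_one {ℓ : ℕ} (hA : A.LiesOverPrime ℓ) (hℓ : ℓ.Prime) {p : ℕ} (hp : p.Prime)
    (hne : ℓ ≠ p) : A.valuation (p : K) = 1 := by
  have := val_intCast_eq_one A hA hℓ (b := (p : ℤ)) (by
    intro h
    have h' : ℓ ∣ p := by exact_mod_cast h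
    exact hne ((Nat.prime_dvd_prime_iff_eq hℓ hp).mp h'))
  simpa using this

lemma rd_intCast {κ : Type*} [Field κ] (φ : A →+* κ) (n : ℤ) : rd A φ (n : K) = (n : κ) := by
  rw [rd_of_mem (intCast_mem A n)]
  have : (⟨(n : K), intCast_mem A n⟩ : A) = (n : A) := rfl
  rw [this, map_intCast]

end val


section setup

variable {K : Type*} [Field K] [Algebra ℚ K] (A : ValuationSubring K) (W : WeierstrassCurve ℤ)

lemma isRedOf_int {κ : Type*} [Field κ] (φ : A →+* κ) :
    IsRedOf A φ ((W.map (Int.castRingHom ℚ))⁄K) (W⁄κ) where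
  m₁ := by
    show algebraMap ℚ K ((Int.castRingHom ℚ) W.a₁) ∈ A
    simp only [eq_intCast, map_intCast]; exact intCast_mem A _
  m₂ := by
    show algebraMap ℚ K ((Int.castRingHom ℚ) W.a₂) ∈ A
    simp only [eq_intCast, map_intCast]; exact intCast_mem A _
  m₃ := by
    show algebraMap ℚ K ((Int.castRingHom ℚ) W.a₃) ∈ A
    simp only [eq_intCast, map_intCast]; exact intCast_mem A _
  m₄ := by
    show algebraMap ℚ K ((Int.castRingHom ℚ) W.a₄) ∈ A
    simp only [eq_intCast, map_intCast]; exact intCast_mem A _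
  m₆ := by
    show algebraMap ℚ K ((Int.castRingHom ℚ) W.a₆) ∈ A
    simp only [eq_intCast, map_intCast]; exact intCast_mem A _
  a₁ := by
    show rd A φ (algebraMap ℚ K ((Int.castRingHom ℚ) W.a₁)) = (Int.castRingHom κ) W.a₁
    simp only [eq_intCast, map_intCast]; exact rd_intCast A φ _
  a₂ := by
    show rd A φ (algebraMap ℚ K ((Int.castRingHom ℚ) W.a₂)) = (Int.castRingHom κ) W.a₂
    simp only [eq_intCast, map_intCast]; exact rd_intCast A φ _
  a₃ := by
    show rd A φ (algebraMap ℚ K ((Int.castRingHom ℚ) W.a₃)) = (Int.castRingHom κ) W.a₃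
    simp only [eq_intCast, map_intCast]; exact rd_intCast A φ _
  a₄ := by
    show rd A φ (algebraMap ℚ K ((Int.castRingHom ℚ) W.a₄)) = (Int.castRingHom κ) W.a₄
    simp only [eq_intCast, map_intCast]; exact rd_intCast A φ _
  a₆ := by
    show rd A φ (algebraMap ℚ K ((Int.castRingHom ℚ) W.a₆)) = (Int.castRingHom κ) W.a₆
    simp only [eq_intCast, map_intCast]; exact rd_intCast A φ _

end setup

section bridge

variable (W : WeierstrassCurve ℤ) (A : ValuationSubring (AlgebraicClosure ℚ))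

/-- The Prelude's `InZeroComponentAt` implies `InE0`. -/
lemma inE0_of_inZeroComponentAt
    {Q : ((W.map (Int.castRingHom ℚ))⁄(AlgebraicClosure ℚ)).Point}
    (hQ : W.InZeroComponentAt A Q) :
    InE0 A (IsLocalRing.residue A) (W⁄(IsLocalRing.ResidueField A)) Q := by
  rcases hQ with rfl | ⟨x, y, h, rfl, hx | ⟨hx, hy, hns⟩⟩
  · exact inE0_zero
  · intro hx'
    exact absurd hx' hx
  · intro _
    rw [rd_of_mem hx, rd_of_mem hy]
    exact hns

end bridge

section rat

variable {K : Type*} [Field K] [Algebra ℚ K] (A : ValuationSubring K)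

/-- The residue of a rational number that is integral at `A` lies in the prime field. -/
lemma rd_algebraMap_rat_mem_range {ℓ : ℕ} (hA : A.LiesOverPrime ℓ) (hℓ : ℓ.Prime)
    {κ : Type*} [Field κ] (φ : A →+* κ) (ι : ZMod ℓ →+* κ) (r : ℚ)
    (hr : algebraMap ℚ K r ∈ A) :
    rd A φ (algebraMap ℚ K r) ∈ Set.range ι := by
  have hℓv : A.valuation (ℓ : K) < 1 := (A.mem_nonunits_iff).mp hA
  have hrK : algebraMap ℚ K r = (r.num : K) / (r.den : K) := by
    conv_lhs => rw [← Rat.num_div_den r]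
    rw [map_div₀, map_intCast, map_natCast]
  have hden0 : (r.den : K) ≠ 0 := by
    have : (algebraMap ℚ K (r.den : ℚ)) ≠ 0 := by
      rw [Ne, map_eq_zero]
      exact_mod_cast r.den_ne_zero
    simpa using this
  have hb : ¬ (ℓ : ℤ) ∣ (r.den : ℤ) := by
    intro hdvd
    have hnum : ¬ (ℓ : ℤ) ∣ r.num := by
      intro hn
      have h1 : ℓ ∣ r.num.natAbs := Int.natCast_dvd.mp hn
      have h2 : ℓ ∣ r.den := by exact_mod_cast hdvd
      have := Nat.eq_one_of_dvd_coprimes r.reduced h1 h2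
      exact hℓ.one_lt.ne' this
    have hvn : A.valuation (r.num : K) = 1 := val_intCast_eq_one A hA hℓ hnum
    have hvd : A.valuation (r.den : K) < 1 := by
      obtain ⟨c, hc⟩ := hdvd
      have : (r.den : K) = (ℓ : K) * (c : K) := by
        have := congrArg (Int.cast : ℤ → K) hc
        push_cast at this
        exact this
      rw [this, map_mul]
      calc A.valuation (ℓ : K) * A.valuation (c : K) ≤ A.valuation (ℓ : K) * 1 :=
            mul_le_mul_right (val_intCast_le_one A c) _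
        _ < 1 := by rwa [mul_one]
    have hle : A.valuation (algebraMap ℚ K r) ≤ 1 := (A.valuation_le_one_iff _).mpr hr
    rw [hrK, map_div₀, hvn] at hle
    have hd0 : A.valuation (r.den : K) ≠ 0 := by
      rw [Ne, Valuation.zero_iff]; exact hden0
    have : (1 : _) ≤ A.valuation (r.den : K) := by
      have := (div_le_iff₀ (zero_lt_iff.mpr hd0)).mp hle
      rwa [one_mul] at this
    exact absurd hvd (not_lt.mpr this)
  have hvd : A.valuation (r.den : K) = 1 := by
    have := val_intCast_eq_one A hA hℓ hb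
    simpa using this
  haveI : Fact ℓ.Prime := ⟨hℓ⟩
  refine ⟨(r.num : ZMod ℓ) / (r.den : ZMod ℓ), ?_⟩
  rw [hrK, rd_div (intCast_mem A _) hvd, rd_intCast]
  have : rd A φ (r.den : K) = (r.den : κ) := by
    have := rd_intCast A φ (r.den : ℤ)
    simpa using this
  rw [this, map_div₀, map_intCast, map_natCast]

end rat

section galois

theorem isGalois_Qbar_h242 : IsGalois ℚ (AlgebraicClosure ℚ) := by
  have : Algebra.IsAlgebraic ℚ (AlgebraicClosure ℚ) := AlgebraicClosure.isAlgebraic ℚ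
  have : IsAlgClosure ℚ (AlgebraicClosure ℚ) := ⟨inferInstance, inferInstance⟩
  exact IsAlgClosure.isGalois ℚ (AlgebraicClosure ℚ)

variable (W : WeierstrassCurve ℤ)

/-- A Galois-fixed affine point has rational coordinates. -/
lemma coords_rational {x y : AlgebraicClosure ℚ}
    (h : ((W.map (Int.castRingHom ℚ))⁄(AlgebraicClosure ℚ)).Nonsingular x y)
    (hfix : ∀ σ : AlgebraicClosure ℚ ≃ₐ[ℚ] AlgebraicClosure ℚ,
      σ • (Point.some x y h : ((W.map (Int.castRingHom ℚ))⁄(AlgebraicClosure ℚ)).Point)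
        = Point.some x y h) :
    x ∈ Set.range (algebraMap ℚ (AlgebraicClosure ℚ)) ∧
      y ∈ Set.range (algebraMap ℚ (AlgebraicClosure ℚ)) := by
  have := isGalois_Qbar_h242
  have key : ∀ σ : AlgebraicClosure ℚ ≃ₐ[ℚ] AlgebraicClosure ℚ, σ x = x ∧ σ y = y := by
    intro σ
    have := hfix σ
    rw [Point.algEquiv_smul_def, Point.map_some] at this
    simp only [Point.some.injEq] at this
    exact this
  exact ⟨(InfiniteGalois.mem_range_algebraMap_iff_fixed x).mpr fun σ => (key σ).1,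
    (InfiniteGalois.mem_range_algebraMap_iff_fixed y).mpr fun σ => (key σ).2⟩

end galois

section main

/-- **P-LOC.** In the situation of S15, a point in the zero component at a place over a
multiplicative prime `ℓ ≠ p` forces `p ∣ ℓ - 1` or `p ∣ ℓ + 1`. -/
theorem loc_dvd_of_inZeroComponentAt
    {p : ℕ} (hp : p.Prime) (W : WeierstrassCurve ℤ)
    (Q : ((W.map (Int.castRingHom ℚ))⁄(AlgebraicClosure ℚ)).Point)
    (hQfix : ∀ σ : AlgebraicClosure ℚ ≃ₐ[ℚ] AlgebraicClosure ℚ, σ • Q = Q)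
    (hQord : addOrderOf Q = p)
    {ℓ : ℕ} (hℓ : ℓ.Prime) (hℓp : ℓ ≠ p) (hℓΔ : (ℓ : ℤ) ∣ W.Δ) (hℓc₄ : ¬ (ℓ : ℤ) ∣ W.c₄)
    (A : ValuationSubring (AlgebraicClosure ℚ)) (hA : A.LiesOverPrime ℓ)
    (hQ0 : W.InZeroComponentAt A Q) :
    p ∣ ℓ - 1 ∨ p ∣ ℓ + 1 := by
  classical
  have hφ : KerMax A (IsLocalRing.residue A) := kerMax_residue A
  have hred : IsRedOf A (IsLocalRing.residue A)
      ((W.map (Int.castRingHom ℚ))⁄(AlgebraicClosure ℚ)) (W⁄(IsLocalRing.ResidueField A)) :=
    isRedOf_int A W (IsLocalRing.residue A)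
  have hE0 : InE0 A (IsLocalRing.residue A) (W⁄(IsLocalRing.ResidueField A)) Q :=
    inE0_of_inZeroComponentAt W A hQ0
  have hv : A.valuation ((p : ℕ) : AlgebraicClosure ℚ) = 1 := val_natCast_eq_one A hA hℓ hp hℓp
  have hord := addOrderOf_red0 hred hφ hp hv hE0 hQord
  rcases Q with _ | ⟨x, y, h⟩
  · rw [show (Point.zero : ((W.map (Int.castRingHom ℚ))⁄(AlgebraicClosure ℚ)).Point) = 0 from rfl,
      addOrderOf_zero] at hQord
    exact absurd hQord hp.one_lt.ne
  obtain ⟨⟨rx, hrx⟩, ⟨ry, hry⟩⟩ := coords_rational W h hQfix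
  have hx : x ∈ A := by
    by_contra hx
    rw [red0_some_of_not_mem h hx, addOrderOf_zero] at hord
    exact hp.one_lt.ne hord
  have hns : (W⁄(IsLocalRing.ResidueField A)).Nonsingular
      (rd A (IsLocalRing.residue A) x) (rd A (IsLocalRing.residue A) y) := hE0 hx
  have hy : y ∈ A := y_mem_of_x_mem hred h.1 hx
  rw [red0_some_of_mem h hx hns] at hord
  haveI : Fact ℓ.Prime := ⟨hℓ⟩
  haveI : CharP (IsLocalRing.ResidueField A) ℓ := (CharP.charP_iff_prime_eq_zero hℓ).mpr (by
    have h0 : rd A (IsLocalRing.residue A) ((ℓ : ℤ) : AlgebraicClosure ℚ) = 0 :=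
      rd_eq_zero_of_lt hφ (by
        have := (A.mem_nonunits_iff).mp hA
        simpa using this)
    rw [rd_intCast] at h0
    exact_mod_cast h0)
  let f : ZMod ℓ →ₐ[ℤ] IsLocalRing.ResidueField A :=
    (ZMod.castHom dvd_rfl (IsLocalRing.ResidueField A)).toIntAlgHom
  have hf : Function.Injective f := (f : ZMod ℓ →+* IsLocalRing.ResidueField A).injective
  obtain ⟨u, hu⟩ := rd_algebraMap_rat_mem_range A hA hℓ (IsLocalRing.residue A)
    (f : ZMod ℓ →+* IsLocalRing.ResidueField A) rx (by rw [hrx]; exact hx)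
  obtain ⟨w, hw⟩ := rd_algebraMap_rat_mem_range A hA hℓ (IsLocalRing.residue A)
    (f : ZMod ℓ →+* IsLocalRing.ResidueField A) ry (by rw [hry]; exact hy)
  rw [hrx] at hu
  rw [hry] at hw
  generalize rd A (IsLocalRing.residue A) x = X at hns hord hu
  generalize rd A (IsLocalRing.residue A) y = Y at hns hord hw
  subst hu hw
  have hns0 : (W⁄(ZMod ℓ)).Nonsingular u w :=
    (Affine.baseChange_nonsingular W (f := f) hf u w).mp hns
  have hmap : Point.map (W' := W) f (Point.some u w hns0) = Point.some _ _ hns :=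
    Point.map_some f hns0
  have hord0 : addOrderOf (Point.some u w hns0 : (W⁄(ZMod ℓ)).Point) = p := by
    rw [← addOrderOf_injective (Point.map (W' := W) f) (Point.map_injective f), hmap]
    exact hord
  have hΔ0 : (W⁄(ZMod ℓ)).Δ = 0 := by
    show (W.map (algebraMap ℤ (ZMod ℓ))).Δ = 0
    rw [WeierstrassCurve.map_Δ, algebraMap_int_eq, eq_intCast,
      ZMod.intCast_zmod_eq_zero_iff_dvd]
    exact hℓΔ
  have hc0 : (W⁄(ZMod ℓ)).c₄ ≠ 0 := by
    show (W.map (algebraMap ℤ (ZMod ℓ))).c₄ ≠ 0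
    rw [WeierstrassCurve.map_c₄, algebraMap_int_eq, eq_intCast, Ne,
      ZMod.intCast_zmod_eq_zero_iff_dvd]
    exact hℓc₄
  have := addOrderOf_dvd_of_nodal hc0 hΔ0 (Point.some u w hns0)
  rwa [hord0, Nat.card_zmod] at this

/-- **P-LOC**, in the shape of the conclusion of S15. -/
theorem loc_not_inZeroComponentAt
    {p : ℕ} (hp : p.Prime) (W : WeierstrassCurve ℤ)
    (Q : ((W.map (Int.castRingHom ℚ))⁄(AlgebraicClosure ℚ)).Point)
    (hQfix : ∀ σ : AlgebraicClosure ℚ ≃ₐ[ℚ] AlgebraicClosure ℚ, σ • Q = Q)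
    (hQord : addOrderOf Q = p)
    {ℓ : ℕ} (hℓ : ℓ.Prime) (hℓp : ℓ ≠ p) (hℓΔ : (ℓ : ℤ) ∣ W.Δ) (hℓc₄ : ¬ (ℓ : ℤ) ∣ W.c₄)
    (A : ValuationSubring (AlgebraicClosure ℚ)) (hA : A.LiesOverPrime ℓ)
    (hnd : ¬ p ∣ ℓ - 1) (hnd' : ¬ p ∣ ℓ + 1) :
    ¬ W.InZeroComponentAt A Q := fun hQ0 =>
  (loc_dvd_of_inZeroComponentAt hp W Q hQfix hQord hℓ hℓp hℓΔ hℓc₄ A hA hQ0).elim hnd hnd'

/-- S15 is reduced to the primes `ℓ ≡ ±1 (mod p)`: it suffices to prove the conclusion of S15
under the additional hypothesis `p ∣ ℓ - 1 ∨ p ∣ ℓ + 1`. -/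
theorem step3_of_pm_one
    {p : ℕ} (hp : p.Prime) (W : WeierstrassCurve ℤ)
    (Q : ((W.map (Int.castRingHom ℚ))⁄(AlgebraicClosure ℚ)).Point)
    (hQfix : ∀ σ : AlgebraicClosure ℚ ≃ₐ[ℚ] AlgebraicClosure ℚ, σ • Q = Q)
    (hQord : addOrderOf Q = p)
    {ℓ : ℕ} (hℓ : ℓ.Prime) (hℓp : ℓ ≠ p) (hℓΔ : (ℓ : ℤ) ∣ W.Δ) (hℓc₄ : ¬ (ℓ : ℤ) ∣ W.c₄)
    (A : ValuationSubring (AlgebraicClosure ℚ)) (hA : A.LiesOverPrime ℓ)
    (hglobal : (p ∣ ℓ - 1 ∨ p ∣ ℓ + 1) → ¬ W.InZeroComponentAt A Q) :
    ¬ W.InZeroComponentAt A Q := fun hQ0 =>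
  hglobal (loc_dvd_of_inZeroComponentAt hp W Q hQfix hQord hℓ hℓp hℓΔ hℓc₄ A hA hQ0) hQ0

/-- **NODE LOC** in the exact shape of `Fermat.Agent.S15.LocStatement` (row-lead skeleton):
`theorem locStatement : LocStatement := @Fermat.Agent.S15.H242.loc_statement`. -/
theorem loc_statement
    {p : ℕ} (hp : p.Prime) (W : WeierstrassCurve ℤ) (_hΔ : W.Δ ≠ 0)
    (Q : ((W.map (Int.castRingHom ℚ))⁄(AlgebraicClosure ℚ)).Point)
    (hQfix : ∀ σ : AlgebraicClosure ℚ ≃ₐ[ℚ] AlgebraicClosure ℚ, σ • Q = Q)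
    (hQord : addOrderOf Q = p)
    {ℓ : ℕ} (hℓ : ℓ.Prime) (hℓp : ℓ ≠ p) (hℓΔ : (ℓ : ℤ) ∣ W.Δ) (hℓc₄ : ¬ (ℓ : ℤ) ∣ W.c₄)
    (A : ValuationSubring (AlgebraicClosure ℚ)) (hA : A.LiesOverPrime ℓ)
    (hQ0 : W.InZeroComponentAt A Q) : p ∣ (ℓ - 1) * (ℓ + 1) :=
  (loc_dvd_of_inZeroComponentAt hp W Q hQfix hQord hℓ hℓp hℓΔ hℓc₄ A hA hQ0).elim
    (fun h => h.mul_right _) (fun h => h.mul_left _)

end main

end Fermat.Agent.S15.H242

end
-- ===== PACK-END S15/H242/Loc.lean

-- ===== PACK-BEGIN Ribet/H643/TorsionRank.lean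
section




/-!
# Row RIBET, piece DIM: `E[p]` of the Frey curve has rank two over `𝔽_p` (helper643)

`torsionRank : Spec.TorsionRankStatement`, from the landed torsion count
`Fermat.Agent.S41.H701.finrank_torsion_eq_two_h701` (`#E[n] = n²` over an algebraically closed
field of characteristic zero) and `Δ(Frey curve) ≠ 0` (`S13/H891/Frey.lean`).
-/

set_option autoImplicit false

open WeierstrassCurve WeierstrassCurve.Affine WeierstrassCurve.Affine.Point

namespace Fermat.Agent.Ribet.H643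

open Spec

/-- The Frey curve is elliptic over `ℚ̄`. -/
theorem h643_frey_isElliptic (P : FreyPackage) :
    (P.freyCurve⁄(AlgebraicClosure ℚ)).IsElliptic := by
  constructor
  rw [isUnit_iff_ne_zero]
  show (P.freyCurve.map (algebraMap ℚ (AlgebraicClosure ℚ))).Δ ≠ 0
  rw [WeierstrassCurve.map_Δ]
  exact (_root_.map_ne_zero _).mpr (Fermat.Agent.S13.H891.freyCurve_Δ_ne_zero P)

/-- `dim E[p] = 2` for the Frey curve. -/
theorem h643_finrank_freyTorsion (P : FreyPackage) :
    Module.finrank (ZMod P.p) (FreyTorsion P) = 2 := by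
  have : Fact P.p.Prime := ⟨P.pp⟩
  have := h643_frey_isElliptic P
  exact Fermat.Agent.S41.H701.finrank_torsion_eq_two_h701 (K := AlgebraicClosure ℚ)
    P.freyCurve P.p

/-- (DIM) `Spec.TorsionRankStatement`. -/
theorem torsionRank : TorsionRankStatement := h643_finrank_freyTorsion

/-- `#E[p] = p²` for the Frey curve (the hypothesis `hcard₁` of the frozen S38). -/
theorem h643_card_freyTorsion (P : FreyPackage) :
    Nat.card (FreyTorsion P) = P.p ^ 2 := by
  have := h643_frey_isElliptic P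
  exact Fermat.Agent.S41.H701.card_torsion_eq_sq_prelude_h701 (K := AlgebraicClosure ℚ)
    P.freyCurve P.p P.pp.one_le

end Fermat.Agent.Ribet.H643

end
-- ===== PACK-END Ribet/H643/TorsionRank.lean

-- ===== PACK-BEGIN Ribet/H52/TraceFormula.lean
section







/-!
# Row RIBET, piece TF (helper52): the trace formula from the Frobenius relation

* `FrobRelAll` : the Frobenius relation `σ² − a_ℓ σ + ℓ = 0` of `Lib/Frob/Statement.lean`
  WITHOUT the restriction `5 ≤ ℓ` (the cases `ℓ = 2, 3` are the deliverable of `Lib/Frob/Small`).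
* `relation_of_model_h52` : a quadratic Galois relation on the points of an integral model `W`
  of a `ℚ`-curve `E` holds on the points of `E` (transport along the change of variables,
  `Lib/VC`).
* `trace_of_rel_det_h52` : `n` prime, `τ` with `τ² − aτ + ℓ = 0` on `W[n]` and
  `det (τ | E[n]) = ℓ`  ⟹  `tr (τ | E[n]) = a`.
  (Cayley–Hamilton in rank two; `dim E[n] = 2` is `S41/H701`.)
* `trace_of_det_h52` : the same from `FrobRelAll`, for a Frobenius `τ` at a good prime `ℓ ≠ n`
  and `a = a_ℓ(W)`.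
* `traceFormula_of_det_h52` : `Spec.TraceFormulaStatement` from `FrobRelAll` and the determinant
  formula for all curves (`DetFrobAllStatement`);
  `traceFormulaFrey_of_h52` : the Frey form `TraceFormulaFreyStatement` from `FrobRelAll` and
  `Spec.DetFrobStatement`.

No Weil pairing is used; the determinant is an explicit hypothesis.
-/

set_option autoImplicit false

open WeierstrassCurve WeierstrassCurve.Affine WeierstrassCurve.Affine.Point

namespace Fermat.Agent.Ribet.H52

open Fermat.Agent.Lib.Frob (Qb Pts)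
open Fermat.Agent.Ribet.Spec (GQ)

/-- The Frobenius relation of `Lib/Frob/Statement.lean` for ALL primes `ℓ` of good reduction. -/
def FrobRelAll : Prop :=
  ∀ (W : WeierstrassCurve ℤ) (ℓ : ℕ), ℓ.Prime → W.IsGoodPrimeFor ℓ →
    ∀ (A : ValuationSubring Qb) (σ : Qb ≃ₐ[ℚ] Qb), A.LiesOverPrime ℓ → A.IsFrobeniusAt σ ℓ →
      ∀ (n : ℕ), 0 < n → ¬ ℓ ∣ n → ∀ P : Pts W, n • P = 0 →
        σ • σ • P - W.apOfModel ℓ • σ • P + (ℓ : ℤ) • P = 0

/-- `FrobRelAll` restricted to `ℓ ≥ 5` is `Lib.Frob.FrobRelation`. -/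
theorem frobRelation_of_frobRelAll_h52 (hF : FrobRelAll) : Fermat.Agent.Lib.Frob.FrobRelation :=
  fun W ℓ hℓ _ hgood A σ hA hσ n hn hℓn P hP => hF W ℓ hℓ hgood A σ hA hσ n hn hℓn P hP

/-- Transport of a quadratic Galois relation along a change of variables over `ℚ`. -/
theorem relation_of_smul_h52 (E : WeierstrassCurve ℚ) (C : VariableChange ℚ) (σ : Qb ≃ₐ[ℚ] Qb)
    (a b : ℤ) (n : ℕ)
    (h : ∀ P : ((C • E)⁄Qb).Point, n • P = 0 → σ • σ • P - a • σ • P + b • P = 0)
    (Q : (E⁄Qb).Point) (hQ : n • Q = 0) :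
    σ • σ • Q - a • σ • Q + b • Q = 0 := by
  obtain ⟨P, rfl⟩ := (Fermat.Agent.Lib.VC.vcPointBC E C Qb).surjective Q
  have hP : n • P = 0 := by
    apply (Fermat.Agent.Lib.VC.vcPointBC E C Qb).injective
    rw [map_nsmul, hQ, _root_.map_zero]
  have := congrArg (Fermat.Agent.Lib.VC.vcPointBC E C Qb) (h P hP)
  rw [_root_.map_zero, map_add, map_sub, map_zsmul, map_zsmul] at this
  simp only [algEquiv_smul_def] at this ⊢
  rw [← Fermat.Agent.Lib.VC.map_vcPointBC, ← Fermat.Agent.Lib.VC.map_vcPointBC] at this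
  exact this

/-- A quadratic Galois relation on the `n`-torsion of an integral model `W` of `E` holds on the
`n`-torsion of `E`. -/
theorem relation_of_model_h52 (E : WeierstrassCurve ℚ) (W : WeierstrassCurve ℤ)
    (hW : W.IsIntegralModelOf E) (σ : Qb ≃ₐ[ℚ] Qb) (a b : ℤ) (n : ℕ)
    (h : ∀ P : Pts W, n • P = 0 → σ • σ • P - a • σ • P + b • P = 0)
    (Q : (E⁄Qb).Point) (hQ : n • Q = 0) :
    σ • σ • Q - a • σ • Q + b • Q = 0 := by
  obtain ⟨C, hC⟩ := hW
  have h1 : ∀ P : ((W.map (Int.castRingHom ℚ))⁄Qb).Point, n • P = 0 →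
      σ • σ • P - a • σ • P + b • P = 0 := h
  rw [← hC] at h1
  exact relation_of_smul_h52 E C σ a b n h1 Q hQ

section Trace

variable (E : WeierstrassCurve ℚ)

/-- The Galois action on `E[n]` is the restriction of the action on points. -/
theorem coe_smul_torsion_h52 (n : ℕ) (σ : Qb ≃ₐ[ℚ] Qb)
    (P : Submodule.torsionBy ℤ (E⁄Qb).Point n) :
    ((σ • P : Submodule.torsionBy ℤ (E⁄Qb).Point n) : (E⁄Qb).Point) = σ • (P : (E⁄Qb).Point) :=
  rfl

variable [E.IsElliptic]

/-- The base change of an elliptic curve to `ℚ̄` is elliptic. -/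
theorem isElliptic_baseChange_h52 : (E⁄Qb).IsElliptic :=
  inferInstanceAs ((E.map (algebraMap ℚ Qb)).IsElliptic)

/-- `dim E[n] = 2` over `𝔽_n`, for `E` over `ℚ`. -/
theorem finrank_torsion_h52 (n : ℕ) [Fact n.Prime] :
    Module.finrank (ZMod n) (Submodule.torsionBy ℤ (E⁄Qb).Point n) = 2 := by
  have := isElliptic_baseChange_h52 E
  exact Fermat.Agent.S41.H701.finrank_torsion_eq_two_h701 (K := Qb) E n

/-- The Galois action on `E[n]` is by nonzero endomorphisms. -/
theorem galoisRepModuleEnd_ne_zero_h52 (n : ℕ) [Fact n.Prime] (σ : Qb ≃ₐ[ℚ] Qb) :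
    galoisRepModuleEnd (S := ℚ) (K := Qb) E n σ ≠ 0 := by
  intro h0
  have hnt : Nontrivial (Submodule.torsionBy ℤ (E⁄Qb).Point n) := by
    apply Module.nontrivial_of_finrank_pos (R := ZMod n)
    rw [finrank_torsion_h52 E n]; norm_num
  obtain ⟨x, hx⟩ := exists_ne (0 : Submodule.torsionBy ℤ (E⁄Qb).Point n)
  apply hx
  have h1 : σ • x = 0 := by
    have := congrArg (fun f => f x) h0
    simpa using this
  have h2 := congrArg (fun y => σ⁻¹ • y) h1
  simpa using h2

/-- **Trace from a quadratic relation and the determinant.**  `n` prime, `W` an integral model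
of `E`, `τ ∈ G_ℚ` with `τ² − a τ + ℓ = 0` on `W[n]`.  If `det (τ | E[n]) = ℓ` then
`tr (τ | E[n]) = a`. -/
theorem trace_of_rel_det_h52 (W : WeierstrassCurve ℤ) (hW : W.IsIntegralModelOf E)
    (n : ℕ) (hn : n.Prime) (a ℓ : ℤ) (τ : GQ)
    (hrel : ∀ P : Pts W, n • P = 0 → τ • τ • P - a • τ • P + ℓ • P = 0)
    (hdet : LinearMap.det (galoisRepModuleEnd (S := ℚ) (K := Qb) E n τ) = (ℓ : ZMod n)) :
    galoisTrace (S := ℚ) (K := Qb) E n τ = (a : ZMod n) := by
  have : Fact n.Prime := ⟨hn⟩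
  rw [galoisTrace_def]
  refine trace_eq_of_quadratic_h52 (finrank_torsion_h52 E n) _ _ (ℓ : ZMod n) ?_ hdet
    (galoisRepModuleEnd_ne_zero_h52 E n τ)
  apply LinearMap.ext
  intro x
  apply Subtype.ext
  have hx : n • (x : (E⁄Qb).Point) = 0 := by
    have := x.2
    rw [Submodule.mem_torsionBy_iff] at this
    rw [← this]
    exact (natCast_zsmul (x : (E⁄Qb).Point) n).symm
  have key := relation_of_model_h52 E W hW τ a ℓ n hrel (x : (E⁄Qb).Point) hx
  have e1 : (((a : ℤ) : ZMod n) • galoisRepModuleEnd (S := ℚ) (K := Qb) E n τ) x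
      = a • (τ • x) := by
    rw [LinearMap.smul_apply, galoisRepModuleEnd_apply, Int.cast_smul_eq_zsmul]
  have e2 : (((ℓ : ZMod n)) • (1 : Module.End (ZMod n)
      (Submodule.torsionBy ℤ (E⁄Qb).Point n))) x = ℓ • x := by
    rw [LinearMap.smul_apply, Module.End.one_apply, Int.cast_smul_eq_zsmul]
  rw [LinearMap.add_apply, LinearMap.sub_apply, e1, e2, Module.End.mul_apply,
    galoisRepModuleEnd_apply, galoisRepModuleEnd_apply]
  simp only [Submodule.coe_add, Submodule.coe_sub, Submodule.coe_smul_of_tower,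
    coe_smul_torsion_h52, ZeroMemClass.coe_zero, LinearMap.zero_apply]
  exact key

/-- **Trace from determinant.**  `n ≠ ℓ` primes, `W` an integral model of `E` good at `ℓ`, `τ` a
Frobenius at a place over `ℓ`.  If `det (τ | E[n]) = ℓ` then `tr (τ | E[n]) = a_ℓ(W)`. -/
theorem trace_of_det_h52 (hF : FrobRelAll) (W : WeierstrassCurve ℤ)
    (hW : W.IsIntegralModelOf E) (n ℓ : ℕ) (hn : n.Prime) (hℓ : ℓ.Prime) (hℓn : ℓ ≠ n)
    (hgood : W.IsGoodPrimeFor ℓ) (A : ValuationSubring Qb) (hA : A.LiesOverPrime ℓ)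
    (τ : GQ) (hτ : A.IsFrobeniusAt τ ℓ)
    (hdet : LinearMap.det (galoisRepModuleEnd (S := ℚ) (K := Qb) E n τ) = (ℓ : ZMod n)) :
    galoisTrace (S := ℚ) (K := Qb) E n τ = ((W.apOfModel ℓ : ℤ) : ZMod n) := by
  have hndvd : ¬ ℓ ∣ n := fun h => hℓn ((Nat.prime_dvd_prime_iff_eq hℓ hn).mp h)
  refine trace_of_rel_det_h52 E W hW n hn (W.apOfModel ℓ) (ℓ : ℤ) τ
    (fun P hP => hF W ℓ hℓ hgood A τ hA hτ n hn.pos hndvd P hP) ?_
  rw [hdet]
  push_cast
  rfl

/-- The same for `ℓ ≥ 5`, from `Lib.Frob.FrobRelation` (which is proved on main: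
`Lib.Frob.frobRelation_of_parts frobRelationFin reductionData`). -/
theorem trace_of_det_of_five_le_h52 (hF : Fermat.Agent.Lib.Frob.FrobRelation)
    (W : WeierstrassCurve ℤ)
    (hW : W.IsIntegralModelOf E) (n ℓ : ℕ) (hn : n.Prime) (hℓ : ℓ.Prime) (h5 : 5 ≤ ℓ)
    (hℓn : ℓ ≠ n)
    (hgood : W.IsGoodPrimeFor ℓ) (A : ValuationSubring Qb) (hA : A.LiesOverPrime ℓ)
    (τ : GQ) (hτ : A.IsFrobeniusAt τ ℓ)
    (hdet : LinearMap.det (galoisRepModuleEnd (S := ℚ) (K := Qb) E n τ) = (ℓ : ZMod n)) :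
    galoisTrace (S := ℚ) (K := Qb) E n τ = ((W.apOfModel ℓ : ℤ) : ZMod n) := by
  have hndvd : ¬ ℓ ∣ n := fun h => hℓn ((Nat.prime_dvd_prime_iff_eq hℓ hn).mp h)
  refine trace_of_rel_det_h52 E W hW n hn (W.apOfModel ℓ) (ℓ : ℤ) τ
    (fun P hP => hF W ℓ hℓ h5 hgood A τ hA hτ n hn.pos hndvd P hP) ?_
  rw [hdet]
  push_cast
  rfl

end Trace

/-- The determinant formula at Frobenius elements, for all elliptic curves over `ℚ`
(consequence of the Weil pairing; NOT proved here). -/
def DetFrobAllStatement : Prop :=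
  ∀ (E : WeierstrassCurve ℚ) [E.IsElliptic] (n ℓ : ℕ), n.Prime → ℓ.Prime → ℓ ≠ n →
    ∀ A : ValuationSubring Qb, A.LiesOverPrime ℓ → ∀ τ : GQ, A.IsFrobeniusAt τ ℓ →
      LinearMap.det (galoisRepModuleEnd (S := ℚ) (K := Qb) E n τ) = (ℓ : ZMod n)

/-- `Spec.TraceFormulaStatement` from the Frobenius relation at all primes and the determinant
formula. -/
theorem traceFormula_of_det_h52 (hF : FrobRelAll) (hD : DetFrobAllStatement) :
    Fermat.Agent.Ribet.Spec.TraceFormulaStatement := by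
  intro E _ W hW n ℓ hn hℓ hℓn hgood A hA τ hτ
  exact trace_of_det_h52 E hF W hW n ℓ hn hℓ hℓn hgood A hA τ hτ (hD E n ℓ hn hℓ hℓn A hA τ hτ)

/-- (TF-Frey) the trace formula for the Frey curve: for every integral model `W` of the Frey
curve, every prime `ℓ ≠ p` of good reduction of `W` and every Frobenius `τ` at a place over `ℓ`,
`tr (τ | E[p]) = a_ℓ(W)`. -/
def TraceFormulaFreyStatement : Prop :=
  ∀ (P : FreyPackage) (W : WeierstrassCurve ℤ), W.IsIntegralModelOf P.freyCurve →
    ∀ ℓ : ℕ, ℓ.Prime → ℓ ≠ P.p → W.IsGoodPrimeFor ℓ →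
    ∀ A : ValuationSubring Qb, A.LiesOverPrime ℓ → ∀ τ : GQ, A.IsFrobeniusAt τ ℓ →
      galoisTrace (S := ℚ) (K := Qb) P.freyCurve P.p τ = ((W.apOfModel ℓ : ℤ) : ZMod P.p)

/-- The Frey curve is an elliptic curve. -/
theorem freyCurve_isElliptic_h52 (P : FreyPackage) : P.freyCurve.IsElliptic :=
  ⟨isUnit_iff_ne_zero.mpr (Fermat.Agent.S13.H891.freyCurve_Δ_ne_zero P)⟩

/-- **TF, Frey form**, from the Frobenius relation at all primes and `Spec.DetFrobStatement`. -/
theorem traceFormulaFrey_of_h52 (hF : FrobRelAll)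
    (hD : Fermat.Agent.Ribet.Spec.DetFrobStatement) : _root_.Fermat.Agent.Ribet.H52.TraceFormulaFreyStatement := by
  intro P W hW ℓ hℓ hℓp hgood A hA τ hτ
  have := freyCurve_isElliptic_h52 P
  exact trace_of_det_h52 P.freyCurve hF W hW P.p ℓ P.pp hℓ hℓp hgood A hA τ hτ
    (hD P ℓ hℓ hℓp A hA τ hτ)

/-- TF, Frey form, at the primes `ℓ ≥ 5`, from `Lib.Frob.FrobRelation` (on main) and
`Spec.DetFrobStatement`. -/
theorem traceFormulaFrey_of_five_le_h52 (hF : Fermat.Agent.Lib.Frob.FrobRelation)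
    (hD : Fermat.Agent.Ribet.Spec.DetFrobStatement)
    (P : FreyPackage) (W : WeierstrassCurve ℤ) (hW : W.IsIntegralModelOf P.freyCurve)
    (ℓ : ℕ) (hℓ : ℓ.Prime) (h5 : 5 ≤ ℓ) (hℓp : ℓ ≠ P.p) (hgood : W.IsGoodPrimeFor ℓ)
    (A : ValuationSubring Qb) (hA : A.LiesOverPrime ℓ) (τ : GQ) (hτ : A.IsFrobeniusAt τ ℓ) :
    galoisTrace (S := ℚ) (K := Qb) P.freyCurve P.p τ = ((W.apOfModel ℓ : ℤ) : ZMod P.p) := by
  have := freyCurve_isElliptic_h52 P
  exact trace_of_det_of_five_le_h52 P.freyCurve hF W hW P.p ℓ P.pp hℓ h5 hℓp hgood A hA τ hτ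
    (hD P ℓ hℓ hℓp A hA τ hτ)

end Fermat.Agent.Ribet.H52

end
-- ===== PACK-END Ribet/H52/TraceFormula.lean

-- ===== PACK-BEGIN S29/H882/GoodQ.lean
section


/-!
# S29 / MERO (helper882), part 1: `q`-expansions of good functions

`goodQ N` is the `ℂ`-subalgebra of `ℂ((q))` of `q`-expansions of the functions in the landed
`S24.H648.goodRing N` (holomorphic, `Γ₀(N)`-invariant, all `SL₂(ℤ)`-translates of at most
exponential growth at `i∞`).  Every element of `goodQ N` is a root of a monic polynomial of degree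
`[SL₂(ℤ) : Γ₀(N)]` over `ℂ[j]`.
-/

set_option autoImplicit false

noncomputable section

open UpperHalfPlane ModularGroup CongruenceSubgroup Polynomial ModularCurve
open scoped MatrixGroups Manifold Modular Real

namespace Fermat.Agent.S29.H882

open Fermat.Agent.S24 Fermat.Agent.S24.H648 Fermat.Agent.S24.H708 Fermat.Agent.S24.Deg457

variable (N : ℕ)

theorem T_mem_Gamma0 : ModularGroup.T ∈ Gamma0 N := by
  rw [Gamma0_mem]
  simp [ModularGroup.T]

variable {N}

/-- A `Γ₀(N)`-invariant function is `1`-periodic. -/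
theorem periodic_of_invariant {f : ℍ → ℂ} (hf : ∀ γ ∈ Gamma0 N, ∀ τ : ℍ, f (γ • τ) = f τ) :
    Function.Periodic (f ∘ ofComplex) (1 : ℝ) := by
  intro w
  by_cases hw : 0 < Complex.im w
  · have hw' : 0 < Complex.im (w + ((1 : ℝ) : ℂ)) := by simpa using hw
    simp only [Function.comp_apply, ofComplex_apply_of_im_pos hw', ofComplex_apply_of_im_pos hw]
    have h := hf _ (T_mem_Gamma0 N) ⟨w, hw⟩
    rw [← h]
    congr 1
    apply UpperHalfPlane.ext
    rw [UpperHalfPlane.modular_T_smul, UpperHalfPlane.coe_vadd]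
    simp [add_comm]
  · have hw0 : Complex.im w ≤ 0 := not_lt.mp hw
    have hw' : Complex.im (w + ((1 : ℝ) : ℂ)) ≤ 0 := by simpa using hw0
    simp only [Function.comp_apply]
    rw [ofComplex_apply_of_im_nonpos hw', ofComplex_apply_of_im_nonpos hw0]

/-- Exponential growth gives a pole of finite order at `i∞`. -/
theorem isBounded_mul_qh_pow_of_expGrowth {f : ℍ → ℂ} (hf : ExpGrowth f) :
    ∃ M : ℕ, IsBoundedAtImInfty (f * qh 1 ^ M) := by
  obtain ⟨C, m, h⟩ := hf
  refine ⟨m, ?_⟩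
  rw [UpperHalfPlane.isBoundedAtImInfty_iff]
  refine ⟨C, 1, fun τ hτ => ?_⟩
  have h1 := h τ hτ
  have hq : ‖qh 1 τ‖ = Real.exp (-2 * π * τ.im) := by
    rw [qh_apply, Function.Periodic.norm_qParam]
    simp
  rw [Pi.mul_apply, Pi.pow_apply, norm_mul, norm_pow, hq, ← Real.exp_nat_mul]
  calc ‖f τ‖ * Real.exp (m * (-2 * π * τ.im))
      ≤ C * Real.exp (2 * π * m * τ.im) * Real.exp (m * (-2 * π * τ.im)) :=
        mul_le_mul_of_nonneg_right h1 (Real.exp_pos _).le
    _ = C := by
        rw [mul_assoc, ← Real.exp_add]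
        have : 2 * π * m * τ.im + m * (-2 * π * τ.im) = 0 := by ring
        rw [this, Real.exp_zero, mul_one]

theorem isMerInf_of_mem_goodRing {f : ℍ → ℂ} (hf : f ∈ goodRing N) : IsMerInf 1 f := by
  obtain ⟨h1, h2, h3⟩ := hf
  refine ⟨h1, ?_, ?_⟩
  · have := periodic_of_invariant h2
    simpa using this
  · have h := h3 1
    simp only [one_smul] at h
    exact isBounded_mul_qh_pow_of_expGrowth h

theorem hasQExp_of_mem_goodRing {f : ℍ → ℂ} (hf : f ∈ goodRing N) :
    HasQExp 1 f (qexpFun 1 f) :=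
  HasQExp.of_isMerInf (isMerInf_of_mem_goodRing hf)

variable (N)

/-- The algebra of `q`-expansions of good functions of level `N`. -/
def goodQ : Subalgebra ℂ (LaurentSeries ℂ) where
  carrier := {b | ∃ f ∈ goodRing N, HasQExp 1 f b}
  mul_mem' := by
    rintro a b ⟨f, hf, hfa⟩ ⟨g, hg, hgb⟩
    exact ⟨f * g, (goodRing N).mul_mem hf hg, hfa.mul hgb⟩
  add_mem' := by
    rintro a b ⟨f, hf, hfa⟩ ⟨g, hg, hgb⟩
    exact ⟨f + g, (goodRing N).add_mem hf hg, hfa.add hgb⟩
  algebraMap_mem' := fun c => by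
    refine ⟨fun _ => c, (goodRing N).algebraMap_mem c, ?_⟩
    have : algebraMap ℂ (LaurentSeries ℂ) c = HahnSeries.C c := by
      rw [algebraMap_laurentSeries_eq_single]; rfl
    rw [this]
    exact HasQExp.const 1 c

variable {N}

theorem mem_goodQ {b : LaurentSeries ℂ} :
    b ∈ goodQ N ↔ ∃ f ∈ goodRing N, HasQExp 1 f b := Iff.rfl

theorem qexpFun_mem_goodQ {f : ℍ → ℂ} (hf : f ∈ goodRing N) : qexpFun 1 f ∈ goodQ N :=
  ⟨f, hf, hasQExp_of_mem_goodRing hf⟩

variable (N) in
theorem AK_le_goodQ [NeZero N] : AK ℂ N ≤ goodQ N := by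
  intro b hb
  have hJ : ∃ C : ℝ, ∀ τ : ℍ, τ ∈ 𝒟 → ‖JFun.jFun τ‖ ≤ C * Real.exp (2 * π * τ.im) := by
    rw [jFun_eq_H648]
    exact Fermat.Agent.S24.H648.jFun_bound_fd
  exact exists_goodRing_hasQExp N hJ hb

variable (N) in
theorem JK_mem_goodQ [NeZero N] : JK ℂ ∈ goodQ N := AK_le_goodQ N (JK_mem_AK ℂ N)

/-- Every `q`-expansion of a good function is a root of a monic polynomial of degree
`[SL₂(ℤ) : Γ₀(N)]` over `ℂ[j]`. -/
theorem exists_monic_of_mem_goodQ [NeZero N] {b : LaurentSeries ℂ} (hb : b ∈ goodQ N) :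
    ∃ P : ℂ[X][X], P.Monic ∧ P.natDegree = Nat.card (XX N) ∧
      P.eval₂ (evJ (JK ℂ)) b = 0 := by
  obtain ⟨f, hf, hfb⟩ := hb
  haveI : Finite (SL(2, ℤ) ⧸ Gamma0 N) := inferInstanceAs (Finite (XX N))
  letI : Fintype (SL(2, ℤ) ⧸ Gamma0 N) := Fintype.ofFinite _
  obtain ⟨P, hPm, hPn, hP⟩ := exists_charPoly_jFun_eval_eq_zero (N := N) hf
  refine ⟨P, hPm, ?_, ?_⟩
  · rw [hPn, Nat.card_eq_fintype_card]
  · have h1 := hasQExp_eval₂ P hfb
    rw [h1.eq_zero_iff]
    funext τ
    exact hP τ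

theorem algDeg_of_mem_goodQ [NeZero N] {b : LaurentSeries ℂ} (hb : b ∈ goodQ N) :
    AlgDeg ℂ (Nat.card (XX N)) b := by
  obtain ⟨P, hPm, hPn, hP⟩ := exists_monic_of_mem_goodQ hb
  exact ⟨P, hPm.ne_zero, hPn.le, hP⟩

end Fermat.Agent.S29.H882

end
end
-- ===== PACK-END S29/H882/GoodQ.lean

-- ===== PACK-BEGIN S28/H568/Series.lean
section



/-!
# S28 / H568 — formal preliminaries on `LaurentSeries ℂ`

* order / leading coefficient of integer powers and finite products;
* the subring of Laurent series with coefficients in a subring `C ⊆ ℂ`;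
* `InfExp` for integer powers and finite products.
-/

set_option autoImplicit false

noncomputable section

open HahnSeries ModularCurve UpperHalfPlane Complex
open scoped Real

namespace Fermat.Agent.S28.H568

open Fermat.Agent.S24

/-! ### order and leading coefficient -/

section Order

variable {K : Type*} [Field K]

theorem order_inv' {x : LaurentSeries K} (hx : x ≠ 0) : (x⁻¹).order = -x.order := by
  have h := HahnSeries.order_mul hx (inv_ne_zero hx)
  rw [mul_inv_cancel₀ hx, HahnSeries.order_one] at h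
  linarith

theorem leadingCoeff_inv' (x : LaurentSeries K) : (x⁻¹).leadingCoeff = x.leadingCoeff⁻¹ := by
  rcases eq_or_ne x 0 with rfl | hx
  · simp
  · have h := HahnSeries.leadingCoeff_mul x x⁻¹
    rw [mul_inv_cancel₀ hx, HahnSeries.leadingCoeff_one] at h
    exact eq_inv_of_mul_eq_one_right h.symm

theorem order_pow' {x : LaurentSeries K} (hx : x ≠ 0) (n : ℕ) :
    (x ^ n).order = n * x.order := by
  induction n with
  | zero => simp
  | succ n ih =>
    rw [pow_succ, HahnSeries.order_mul (pow_ne_zero n hx) hx, ih]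
    push_cast
    ring

theorem leadingCoeff_pow' (x : LaurentSeries K) (n : ℕ) :
    (x ^ n).leadingCoeff = x.leadingCoeff ^ n := by
  induction n with
  | zero => simp
  | succ n ih => rw [pow_succ, HahnSeries.leadingCoeff_mul, ih, pow_succ]

theorem order_zpow' {x : LaurentSeries K} (hx : x ≠ 0) (r : ℤ) :
    (x ^ r).order = r * x.order := by
  obtain ⟨n, rfl | rfl⟩ := r.eq_nat_or_neg
  · rw [zpow_natCast, order_pow' hx]
  · rw [zpow_neg, zpow_natCast, order_inv' (pow_ne_zero n hx), order_pow' hx]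
    ring

theorem leadingCoeff_zpow' (x : LaurentSeries K) (r : ℤ) :
    (x ^ r).leadingCoeff = x.leadingCoeff ^ r := by
  obtain ⟨n, rfl | rfl⟩ := r.eq_nat_or_neg
  · rw [zpow_natCast, zpow_natCast, leadingCoeff_pow']
  · rw [zpow_neg, zpow_natCast, zpow_neg, zpow_natCast, leadingCoeff_inv', leadingCoeff_pow']

theorem order_prod' {ι : Type*} (s : Finset ι) (f : ι → LaurentSeries K)
    (hf : ∀ i ∈ s, f i ≠ 0) : (∏ i ∈ s, f i).order = ∑ i ∈ s, (f i).order := by
  classical
  induction s using Finset.induction_on with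
  | empty => simp
  | insert a s ha ih =>
    rw [Finset.prod_insert ha, Finset.sum_insert ha,
      HahnSeries.order_mul (hf a (Finset.mem_insert_self a s))
        (Finset.prod_ne_zero_iff.mpr fun i hi => hf i (Finset.mem_insert_of_mem hi)),
      ih fun i hi => hf i (Finset.mem_insert_of_mem hi)]

theorem leadingCoeff_prod' {ι : Type*} (s : Finset ι) (f : ι → LaurentSeries K) :
    (∏ i ∈ s, f i).leadingCoeff = ∏ i ∈ s, (f i).leadingCoeff := by
  classical
  induction s using Finset.induction_on with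
  | empty => simp
  | insert a s ha ih =>
    rw [Finset.prod_insert ha, Finset.prod_insert ha, HahnSeries.leadingCoeff_mul, ih]

end Order

/-! ### series with coefficients in a subring -/

section Coeff

variable (C : Subring ℂ)

/-- Laurent series over `ℂ` all of whose coefficients lie in the subring `C`. -/
def coeffSubring : Subring (LaurentSeries ℂ) := (coeffMap C.subtype).range

variable {C}

theorem mem_coeffSubring_iff {φ : LaurentSeries ℂ} :
    φ ∈ coeffSubring C ↔ ∀ n, φ.coeff n ∈ C := by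
  constructor
  · rintro ⟨ψ, rfl⟩ n
    rw [coeffMap_coeff]
    exact (ψ.coeff n).2
  · intro h
    refine ⟨⟨fun n => ⟨φ.coeff n, h n⟩, φ.isPWO_support.mono fun n hn => ?_⟩, ?_⟩
    · simp only [Function.mem_support, ne_eq] at hn
      rw [mem_support]
      intro h0
      exact hn (Subtype.ext h0)
    · ext n
      rw [coeffMap_coeff]
      rfl

theorem C_mem_coeffSubring {c : ℂ} (hc : c ∈ C) : (HahnSeries.C c : LaurentSeries ℂ) ∈
    coeffSubring C := by
  rw [mem_coeffSubring_iff]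
  intro n
  rw [C_apply]
  by_cases hn : n = 0
  · subst hn; simpa using hc
  · rw [coeff_single_of_ne hn]; exact C.zero_mem

theorem qExpand_mem_coeffSubring (e : ℕ) [NeZero e] {φ : LaurentSeries ℂ}
    (hφ : φ ∈ coeffSubring C) : qExpand ℂ e φ ∈ coeffSubring C := by
  rw [mem_coeffSubring_iff] at hφ ⊢
  intro n
  by_cases hn : (e : ℤ) ∣ n
  · obtain ⟨k, rfl⟩ := hn
    rw [qExpand_coeff_mul]
    exact hφ k
  · rw [qExpand_coeff_of_not_dvd e _ hn]
    exact C.zero_mem

theorem infTwist_mem_coeffSubring (u : ℂˣ) (hu : (u : ℂ) ∈ C) (hu' : ((u⁻¹ : ℂˣ) : ℂ) ∈ C)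
    {φ : LaurentSeries ℂ} (hφ : φ ∈ coeffSubring C) : infTwist u φ ∈ coeffSubring C := by
  rw [mem_coeffSubring_iff] at hφ ⊢
  intro n
  rw [infTwist_coeff]
  refine C.mul_mem (hφ n) ?_
  obtain ⟨m, rfl | rfl⟩ := n.eq_nat_or_neg
  · rw [zpow_natCast, Units.val_pow_eq_pow_val]
    exact C.pow_mem hu m
  · rw [zpow_neg, zpow_natCast, ← inv_pow, Units.val_pow_eq_pow_val]
    exact C.pow_mem hu' m

theorem coeffMap_int_mem_coeffSubring (ψ : LaurentSeries ℤ) :
    coeffMap (Int.castRingHom ℂ) ψ ∈ coeffSubring C := by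
  rw [mem_coeffSubring_iff]
  intro n
  rw [coeffMap_coeff]
  exact intCast_mem C _

theorem leadingCoeff_mem_of_mem_coeffSubring {φ : LaurentSeries ℂ} (hφ : φ ∈ coeffSubring C) :
    φ.leadingCoeff ∈ C := by
  rw [leadingCoeff_eq]
  exact mem_coeffSubring_iff.mp hφ _

end Coeff

/-! ### `InfExp` for powers and products -/

section Exp

variable {N : ℕ}

theorem InfExp.pow' {f : ℍ → ℂ} {φ : LaurentSeries ℂ} (hf : InfExp N f φ) (n : ℕ) :
    InfExp N (fun τ => f τ ^ n) (φ ^ n) := by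
  induction n with
  | zero => simpa using (InfExp.one (N := N))
  | succ n ih =>
    have := ih.mul hf
    simpa [pow_succ] using this

theorem InfExp.zpow' {f : ℍ → ℂ} {φ ψ : LaurentSeries ℂ} (hf : InfExp N f φ)
    (hg : InfExp N (fun τ => (f τ)⁻¹) ψ) (hφψ : φ * ψ = 1) (r : ℤ) :
    InfExp N (fun τ => f τ ^ r) (φ ^ r) := by
  have hψ : ψ = φ⁻¹ := eq_inv_of_mul_eq_one_right hφψ
  obtain ⟨n, rfl | rfl⟩ := r.eq_nat_or_neg
  · simpa using InfExp.pow' hf n
  · have := InfExp.pow' hg n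
    rw [hψ] at this
    simpa [zpow_neg, inv_pow] using this

theorem InfExp.prod' {ι : Type*} (s : Finset ι) {f : ι → ℍ → ℂ} {φ : ι → LaurentSeries ℂ}
    (hf : ∀ i ∈ s, InfExp N (f i) (φ i)) :
    InfExp N (fun τ => ∏ i ∈ s, f i τ) (∏ i ∈ s, φ i) := by
  classical
  induction s using Finset.induction_on with
  | empty => simpa using (InfExp.one (N := N))
  | insert a s ha ih =>
    have h1 := hf a (Finset.mem_insert_self a s)
    have h2 := ih fun i hi => hf i (Finset.mem_insert_of_mem hi)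
    have := h1.mul h2
    simpa [Finset.prod_insert ha] using this

end Exp

end Fermat.Agent.S28.H568

end
end
-- ===== PACK-END S28/H568/Series.lean

-- ===== PACK-BEGIN Lib/RR/H443/Bridge.lean
section




/-!
# RR bridge (helper443), part 4: `FF1 K F` in ANY characteristic

For `K` algebraically closed (of any characteristic) and `F` a finite extension of `K(x)`, `x`
transcendental over `K`:

* `hasPrincipalDivisors_of_isAlgClosed` : `HasPrincipalDivisors K F`
  (finitely many zeros and poles, principal divisors have degree `0`);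
* `ff1_of_isAlgClosed` : the standing hypotheses `FF1 K F` of the RR library;
* `sum_ord_zeros_eq_finrank'`, `sum_ord_poles_eq_finrank'` : the fundamental identity
  `∑_{v(x) > 0} ord_v x = [F : K(x)] = ∑_{v(x) < 0} -ord_v x`;
* `exists_place_ord_pos'`, `exists_place_ord_neg'` : existence of zeros and poles.

No separability, no Dedekind domains: only valuation theory (Stichtenoth, Ch. 1).
-/

set_option autoImplicit false

noncomputable section

open AlgebraicCurve Polynomial IntermediateField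
open Fermat.Agent.Lib.RR

namespace Fermat.Agent.Lib.RR.H443

variable {K F : Type*} [Field K] [Field F] [Algebra K F]

/-- Layer L2 of the RR library gives the zeros bound. -/
theorem zerosBound (hdeg : ∀ v : Place K F, v.deg = 1) : ZerosBound K F :=
  fun x _ S hS => sum_ord_le_finrank hdeg x S hS

variable [IsAlgClosed K]

/-- The hypotheses of the bridge hold over an algebraically closed constant field. -/
theorem hyp_of_isAlgClosed {x : F} (hx : Transcendental K x) [FiniteDimensional K⟮x⟯ F] :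
    Hyp K F where
  deg_eq_one := fun v => S24.FF.deg_eq_one v hx
  finite := fun _ hy => S24.FF.finiteDimensional_adjoin_of_transcendental hx hy
  const := fun _ hf => S24.FF.mem_range_of_isAlgebraic hf

/-- **`FF1 K F` in any characteristic.** -/
theorem ff1_of_isAlgClosed {x : F} (hx : Transcendental K x) [FiniteDimensional K⟮x⟯ F] :
    FF1 K F :=
  ff1_of_hyp (hyp_of_isAlgClosed hx) (zerosBound (hyp_of_isAlgClosed hx).deg_eq_one) hx

/-- **`HasPrincipalDivisors K F` in any characteristic.** -/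
theorem hasPrincipalDivisors_of_isAlgClosed {x : F} (hx : Transcendental K x)
    [FiniteDimensional K⟮x⟯ F] : HasPrincipalDivisors K F :=
  hasPrincipalDivisors (hyp_of_isAlgClosed hx) (zerosBound (hyp_of_isAlgClosed hx).deg_eq_one)

/-- Every place has degree one. -/
theorem deg_eq_one_of_isAlgClosed {x : F} (hx : Transcendental K x) [FiniteDimensional K⟮x⟯ F]
    (v : Place K F) : v.deg = 1 :=
  S24.FF.deg_eq_one v hx

/-- Every nonconstant function has a zero. -/
theorem exists_place_ord_pos' {x : F} (hx : Transcendental K x) [FiniteDimensional K⟮x⟯ F]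
    {t : F} (ht : Transcendental K t) : ∃ v : Place K F, 0 < v.ord t :=
  exists_place_ord_pos (hyp_of_isAlgClosed hx).finite ht

/-- Every nonconstant function has a pole. -/
theorem exists_place_ord_neg' {x : F} (hx : Transcendental K x) [FiniteDimensional K⟮x⟯ F]
    {t : F} (ht : Transcendental K t) : ∃ v : Place K F, v.ord t < 0 :=
  exists_place_ord_neg (hyp_of_isAlgClosed hx).finite ht

/-- Finitely many zeros and poles. -/
theorem finite_setOf_ord_ne_zero {x : F} (hx : Transcendental K x) [FiniteDimensional K⟮x⟯ F]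
    (f : F) : {v : Place K F | v.ord f ≠ 0}.Finite := by
  have h := hyp_of_isAlgClosed hx
  have hZ := zerosBound h.deg_eq_one
  refine ((finite_zeros h hZ f).union (finite_poles h hZ f)).subset fun v hv => ?_
  have hv' : v.ord f ≠ 0 := hv
  rcases lt_or_gt_of_ne hv' with h1 | h1
  · exact Or.inr h1
  · exact Or.inl h1

/-- **Fundamental identity at the zeros** (any characteristic). -/
theorem sum_ord_zeros_eq_finrank' {x : F} (hx : Transcendental K x) [FiniteDimensional K⟮x⟯ F]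
    (S : Finset (Place K F)) (hS : ∀ v, v ∈ S ↔ 0 < v.ord x) :
    ∑ v ∈ S, v.ord x = (Module.finrank K⟮x⟯ F : ℤ) :=
  sum_ord_zeros_eq_finrank (hyp_of_isAlgClosed hx)
    (zerosBound (hyp_of_isAlgClosed hx).deg_eq_one) hx S hS

/-- **Fundamental identity at the poles** (any characteristic). -/
theorem sum_ord_poles_eq_finrank' {x : F} (hx : Transcendental K x) [FiniteDimensional K⟮x⟯ F]
    (S : Finset (Place K F)) (hS : ∀ v, v ∈ S ↔ v.ord x < 0) :
    ∑ v ∈ S, -v.ord x = (Module.finrank K⟮x⟯ F : ℤ) :=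
  sum_ord_poles_eq_finrank (hyp_of_isAlgClosed hx)
    (zerosBound (hyp_of_isAlgClosed hx).deg_eq_one) hx S hS

/-- Every valuation subring `≠ ⊤` of `F` containing `K` is (the ring of) a place. -/
theorem exists_place_eq (O : ValuationSubring F) (hK : ∀ a : K, algebraMap K F a ∈ O)
    (hO : O ≠ ⊤) {x : F} (hx : Transcendental K x) [FiniteDimensional K⟮x⟯ F] :
    ∃ v : Place K F, v.toValuationSubring = O :=
  ⟨placeOfValuationSubring O hK hO (hyp_of_isAlgClosed hx).finite, rfl⟩

end Fermat.Agent.Lib.RR.H443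

end
end
-- ===== PACK-END Lib/RR/H443/Bridge.lean

-- ===== PACK-BEGIN S18/H456/ModR.lean
section



/-!
# S18 / MOD assembly (helper456): G-R — the fields `w_mem`, `w_ne_zero`, `w_inv_not_mem`, `w_gen`,
`w_discrete`, `residue_perfect` of `Alg.GoodModel` for `R = Rc M A E` (`E/ℚ` finite)

Input: `H602.isDiscreteValuationRing_RE` (helper602, on main).
-/

set_option autoImplicit false

noncomputable section

namespace Fermat.Agent.S18.H456

open ModularCurve AlgebraicCurve HahnSeries Fermat.Agent.S18 Fermat.Agent.S18.Mod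
open scoped NumberField

variable (M : ℕ) (A : ValuationSubring Qb) (E : IntermediateField ℚ Qb)

/-- The constant in `Ω` attached to an element of `R_E = A ∩ E`. -/
def cstR (r : H602.RE A E) : Om M := cst M ((r : E) : Qb)

theorem cstR_mem_Rc (r : H602.RE A E) : cstR M A E r ∈ Rc M A E :=
  cst_mem_Rc M A E (H602.mem_RE.1 r.2) (r : E).2

theorem mem_Rc_iff_cstR {f : Om M} : f ∈ Rc M A E ↔ ∃ r : H602.RE A E, cstR M A E r = f := by
  constructor
  · intro hf
    obtain ⟨c, hA, hE, rfl⟩ := (mem_Rc_iff M A E).1 hf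
    exact ⟨⟨⟨c, hE⟩, H602.mem_RE.2 hA⟩, rfl⟩
  · rintro ⟨r, rfl⟩
    exact cstR_mem_Rc M A E r

theorem cstR_injective : Function.Injective (cstR M A E) := by
  intro r s h
  have h1 : ((r : E) : Qb) = ((s : E) : Qb) := cst_injective M h
  exact Subtype.ext (Subtype.ext h1)

theorem cstR_mul (r s : H602.RE A E) : cstR M A E (r * s) = cstR M A E r * cstR M A E s := by
  unfold cstR
  rw [← map_mul]
  rfl

theorem cstR_pow (r : H602.RE A E) (n : ℕ) : cstR M A E (r ^ n) = cstR M A E r ^ n := by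
  unfold cstR
  rw [← map_pow]
  rfl

theorem cstR_sub (r s : H602.RE A E) : cstR M A E (r - s) = cstR M A E r - cstR M A E s := by
  unfold cstR
  rw [← map_sub]
  rfl

theorem cstR_one : cstR M A E 1 = 1 := by
  unfold cstR
  exact map_one _

theorem cstR_zero : cstR M A E 0 = 0 := by
  unfold cstR
  exact map_zero _

theorem cstR_natCast (n : ℕ) : cstR M A E (n : H602.RE A E) = (n : Om M) := by
  unfold cstR
  show cst M (((n : H602.RE A E) : E) : Qb) = _
  have : (((n : H602.RE A E) : E) : Qb) = (n : Qb) := by simp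
  rw [this]
  exact map_natCast _ n

theorem cstR_eq_zero_iff {r : H602.RE A E} : cstR M A E r = 0 ↔ r = 0 := by
  rw [← cstR_zero M A E]
  exact (cstR_injective M A E).eq_iff

/-- `cstR r` is invertible in `Rc` iff `r` is a unit. -/
theorem inv_cstR_mem_Rc_iff {r : H602.RE A E} (hr : r ≠ 0) :
    (cstR M A E r)⁻¹ ∈ Rc M A E ↔ IsUnit r := by
  constructor
  · intro h
    obtain ⟨s, hs⟩ := (mem_Rc_iff_cstR M A E).1 h
    refine isUnit_iff_exists_inv.2 ⟨s, ?_⟩
    apply cstR_injective M A E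
    rw [cstR_mul, hs, cstR_one]
    exact mul_inv_cancel₀ (fun h0 => hr ((cstR_eq_zero_iff M A E).1 h0))
  · intro h
    obtain ⟨s, hs⟩ := isUnit_iff_exists_inv.1 h
    have : (cstR M A E r)⁻¹ = cstR M A E s := by
      apply inv_eq_of_mul_eq_one_right
      rw [← cstR_mul, hs, cstR_one]
    rw [this]
    exact cstR_mem_Rc M A E s

/-- `w` is (the image of) a uniformiser of `R_E`. -/
def IsUnif (w : Om M) : Prop := ∃ ϖ : H602.RE A E, Irreducible ϖ ∧ w = cstR M A E ϖ

variable {M A E}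

theorem IsUnif.mem {w : Om M} (hw : IsUnif M A E w) : w ∈ Rc M A E := by
  obtain ⟨ϖ, -, rfl⟩ := hw
  exact cstR_mem_Rc M A E ϖ

theorem IsUnif.ne_zero {w : Om M} (hw : IsUnif M A E w) : w ≠ 0 := by
  obtain ⟨ϖ, hϖ, rfl⟩ := hw
  exact fun h => hϖ.ne_zero ((cstR_eq_zero_iff M A E).1 h)

theorem IsUnif.inv_not_mem {w : Om M} (hw : IsUnif M A E w) : w⁻¹ ∉ Rc M A E := by
  obtain ⟨ϖ, hϖ, rfl⟩ := hw
  exact fun h => hϖ.not_isUnit ((inv_cstR_mem_Rc_iff M A E hϖ.ne_zero).1 h)

section DVR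

variable [IsDiscreteValuationRing (H602.RE A E)]

theorem IsUnif.gen {w : Om M} (hw : IsUnif M A E w) :
    ∀ r ∈ Rc M A E, r⁻¹ ∉ Rc M A E → r * w⁻¹ ∈ Rc M A E := by
  obtain ⟨ϖ, hϖ, rfl⟩ := hw
  intro r hr hrinv
  obtain ⟨r₀, rfl⟩ := (mem_Rc_iff_cstR M A E).1 hr
  have hr0 : r₀ ≠ 0 := by
    rintro rfl
    rw [cstR_zero, inv_zero] at hrinv
    exact hrinv (zero_mem _)
  have hnu : ¬ IsUnit r₀ := fun h => hrinv ((inv_cstR_mem_Rc_iff M A E hr0).2 h)
  have hmem : r₀ ∈ IsLocalRing.maximalIdeal (H602.RE A E) :=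
    (IsLocalRing.mem_maximalIdeal _).2 hnu
  rw [hϖ.maximalIdeal_eq, Ideal.mem_span_singleton] at hmem
  obtain ⟨s, rfl⟩ := hmem
  rw [cstR_mul, mul_comm (cstR M A E ϖ), mul_assoc,
    mul_inv_cancel₀ (fun h => hϖ.ne_zero ((cstR_eq_zero_iff M A E).1 h)), mul_one]
  exact cstR_mem_Rc M A E s

theorem IsUnif.discrete {w : Om M} (hw : IsUnif M A E w) :
    ∀ r ∈ Rc M A E, r ≠ 0 →
      ∃ n : ℕ, r * (w⁻¹) ^ n ∈ Rc M A E ∧ (r * (w⁻¹) ^ n)⁻¹ ∈ Rc M A E := by
  obtain ⟨ϖ, hϖ, rfl⟩ := hw
  intro r hr hr0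
  obtain ⟨r₀, rfl⟩ := (mem_Rc_iff_cstR M A E).1 hr
  have hr0' : r₀ ≠ 0 := fun h => hr0 (by rw [h, cstR_zero])
  obtain ⟨n, u, hu⟩ := IsDiscreteValuationRing.eq_unit_mul_pow_irreducible hr0' hϖ
  have hw0 : cstR M A E ϖ ≠ 0 := fun h => hϖ.ne_zero ((cstR_eq_zero_iff M A E).1 h)
  have key : cstR M A E r₀ * ((cstR M A E ϖ)⁻¹) ^ n = cstR M A E (u : H602.RE A E) := by
    rw [hu, cstR_mul, cstR_pow, mul_assoc, inv_pow, mul_inv_cancel₀ (pow_ne_zero n hw0), mul_one]
  refine ⟨n, ?_, ?_⟩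
  · rw [key]
    exact cstR_mem_Rc M A E _
  · rw [key]
    exact (inv_cstR_mem_Rc_iff M A E u.ne_zero).2 u.isUnit

/-- Membership in the maximal ideal, in terms of `w`. -/
theorem IsUnif.mul_inv_mem_iff {w : Om M} (hw : IsUnif M A E w) (r : H602.RE A E) :
    cstR M A E r * w⁻¹ ∈ Rc M A E ↔ r ∈ IsLocalRing.maximalIdeal (H602.RE A E) := by
  obtain ⟨ϖ, hϖ, rfl⟩ := hw
  have hw0 : cstR M A E ϖ ≠ 0 := fun h => hϖ.ne_zero ((cstR_eq_zero_iff M A E).1 h)
  rw [hϖ.maximalIdeal_eq, Ideal.mem_span_singleton]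
  constructor
  · intro h
    obtain ⟨s, hs⟩ := (mem_Rc_iff_cstR M A E).1 h
    refine ⟨s, ?_⟩
    apply cstR_injective M A E
    rw [cstR_mul, hs, mul_comm, mul_assoc, inv_mul_cancel₀ hw0, mul_one]
  · rintro ⟨s, rfl⟩
    rw [cstR_mul, mul_comm (cstR M A E ϖ), mul_assoc, mul_inv_cancel₀ hw0, mul_one]
    exact cstR_mem_Rc M A E s

end DVR

variable (M A E)

theorem exists_isUnif [IsDiscreteValuationRing (H602.RE A E)] : ∃ w : Om M, IsUnif M A E w := by
  obtain ⟨ϖ, hϖ⟩ := IsDiscreteValuationRing.exists_irreducible (H602.RE A E)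
  exact ⟨cstR M A E ϖ, ϖ, hϖ, rfl⟩

end Fermat.Agent.S18.H456

end
end
-- ===== PACK-END S18/H456/ModR.lean

-- ===== PACK-BEGIN S18/B12/H33/Regular.lean
section



/-!
# S18 b2.5 (helper33): OUTPUT O1 — `B2RegularStatement` from the pieces

`B2RegularStatement` (special fibre of the normal model is regular = `H754.RegularAlong (C w)`)
from `B2CoreAbsStatement` (heart), A0 (regular sequence), A8 (normality from discriminant bounds),
A9 (regular along a Dedekind fibre) and A1 (instantiation `P = R[X]`).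
-/

set_option autoImplicit false

noncomputable section

namespace Fermat.Agent.S18.B12.H33

open Polynomial

universe u v

section Abs

variable {P : Type u} [CommRing P] [IsDomain P] [IsIntegrallyClosed P]
  {B : Type v} [CommRing B] [IsDomain B] [IsIntegrallyClosed B] [Algebra P B]
  [Module.Finite P B] [Module.IsTorsionFree P B]

/-- `B/wB` is torsion-free over `P/(w)` (from A0). -/
theorem isTorsionFree_quotient (hA0 : RegSeqAbsStatement.{u, v}) (w : P) (hw : Prime w) :
    Module.IsTorsionFree (P ⧸ Ideal.span {w}) (B ⧸ (Ideal.span {w}).map (algebraMap P B)) := by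
  haveI : IsDomain (P ⧸ Ideal.span {w}) := by
    rw [Ideal.Quotient.isDomain_iff_prime]
    exact (Ideal.span_singleton_prime hw.ne_zero).mpr hw
  haveI : Algebra.IsIntegral P B := inferInstance
  have hJ : (Ideal.span {w}).map (algebraMap P B) = Ideal.span {algebraMap P B w} := by
    rw [Ideal.map_span, Set.image_singleton]
  refine Module.IsTorsionFree.of_smul_eq_zero fun a b hab => ?_
  obtain ⟨a, rfl⟩ := Ideal.Quotient.mk_surjective a
  obtain ⟨b, rfl⟩ := Ideal.Quotient.mk_surjective b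
  by_cases ha : w ∣ a
  · left
    exact Ideal.Quotient.eq_zero_iff_mem.mpr (Ideal.mem_span_singleton.mpr ha)
  · right
    rw [Ideal.Quotient.mk_smul_mk_quotient_map_quotient, Ideal.Quotient.eq_zero_iff_mem, hJ,
      Ideal.mem_span_singleton] at hab
    obtain ⟨c, hc⟩ := hab
    obtain ⟨b'', hb, -⟩ := hA0 P B a w hw ha b c hc
    rw [Ideal.Quotient.eq_zero_iff_mem, hJ, Ideal.mem_span_singleton]
    exact ⟨b'', hb⟩

end Abs

end Fermat.Agent.S18.B12.H33

namespace Fermat.Agent.S18.B12.H33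

open Polynomial

universe u v

/-- In `P/(w)`, the image of `p` is prime if `(w, p)` is maximal and `w ∤ p`. -/
theorem prime_mk_of_isMaximal {P : Type u} [CommRing P] [IsDomain P] (w p : P) (hw : Prime w)
    (hmax : (Ideal.span {w, p}).IsMaximal) (hwp : ¬ w ∣ p) :
    Prime (Ideal.Quotient.mk (Ideal.span {w}) p) := by
  haveI : IsDomain (P ⧸ Ideal.span {w}) := by
    rw [Ideal.Quotient.isDomain_iff_prime]
    exact (Ideal.span_singleton_prime hw.ne_zero).mpr hw
  have hne : Ideal.Quotient.mk (Ideal.span {w}) p ≠ 0 := by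
    intro h
    exact hwp (Ideal.mem_span_singleton.mp (Ideal.Quotient.eq_zero_iff_mem.mp h))
  rw [← Ideal.span_singleton_prime hne]
  have hcomap : Ideal.comap (Ideal.Quotient.mk (Ideal.span {w}))
      (Ideal.span {Ideal.Quotient.mk (Ideal.span {w}) p}) = Ideal.span {w, p} :=
    (span_pair_eq_comap w p).symm
  have hmap : Ideal.span {Ideal.Quotient.mk (Ideal.span {w}) p}
      = Ideal.map (Ideal.Quotient.mk (Ideal.span {w})) (Ideal.span {w, p}) := by
    rw [← hcomap, Ideal.map_comap_of_surjective _ Ideal.Quotient.mk_surjective]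
  rw [hmap]
  rcases Ideal.map_eq_top_or_isMaximal_of_surjective (Ideal.Quotient.mk (Ideal.span {w}))
    Ideal.Quotient.mk_surjective hmax with h | h
  · exfalso
    rw [← hmap] at h
    have : Ideal.span {w, p} = ⊤ := by
      rw [← hcomap, h, Ideal.comap_top]
    exact hmax.ne_top this
  · exact h.isPrime

theorem b2Regular_of_pieces
    (hcore : B2CoreAbsStatement.{u, v}) (hA0 : RegSeqAbsStatement.{u, v})
    (hA8 : IntClosedOfDiscrStatement.{u, v}) (hA9 : RegularAlongOfDedekindStatement.{v})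
    (hA1 : PolyInstStatement.{u}) : B2RegularStatement.{u, v} := by
  intro R _ _ _ _ w hw B _ _ _ _ _ _ hdom hsep S hS hNC 𝔪 h𝔪 hw𝔪
  obtain ⟨hCw, hΛ, hΛ₀, hℚ, hc⟩ := hA1 R w hw
  refine hA9 B (algebraMap R[X] B (C w)) ?_ 𝔪 h𝔪 hw𝔪
  have hJ : (Ideal.span {(C w : R[X])}).map (algebraMap R[X] B)
      = Ideal.span {algebraMap R[X] B (C w)} := by
    rw [Ideal.map_span, Set.image_singleton]
  rw [← hJ]
  -- instances on the special fibre
  haveI hJprime : ((Ideal.span {(C w : R[X])}).map (algebraMap R[X] B)).IsPrime := by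
    rw [hJ]; exact (Ideal.span_singleton_prime hdom.ne_zero).mpr hdom
  haveI := hΛ
  haveI : IsDomain (R[X] ⧸ Ideal.span {(C w : R[X])}) := by
    rw [Ideal.Quotient.isDomain_iff_prime]
    exact (Ideal.span_singleton_prime hCw.ne_zero).mpr hCw
  haveI tf := isTorsionFree_quotient (B := B) hA0 (C w : R[X]) hCw
  haveI : Module.Finite (R[X] ⧸ Ideal.span {(C w : R[X])})
      (B ⧸ (Ideal.span {(C w : R[X])}).map (algebraMap R[X] B)) :=
    Module.Finite.of_restrictScalars_finite R[X] _ _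
  haveI : Module.Free (R[X] ⧸ Ideal.span {(C w : R[X])})
      (B ⧸ (Ideal.span {(C w : R[X])}).map (algebraMap R[X] B)) :=
    Module.free_of_finite_type_torsion_free'
  let bb := Module.finBasis (R[X] ⧸ Ideal.span {(C w : R[X])})
      (B ⧸ (Ideal.span {(C w : R[X])}).map (algebraMap R[X] B))
  -- translate the hypotheses
  classical
  have hS1' : ∀ s ∈ S.image (fun c => (X - C c : R[X])), Prime s ∧ ¬ Associated s (C w) ∧
      (Ideal.span {(C w : R[X]), s}).IsMaximal ∧
      IsPrincipalIdealRing (R[X] ⧸ Ideal.span {s}) := by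
    intro s hs
    obtain ⟨c, -, rfl⟩ := Finset.mem_image.mp hs
    obtain ⟨h1, h2, h3, h4, -⟩ := hc c
    exact ⟨h1, h2, h3, h4⟩
  have hS2' : ∀ s ∈ S.image (fun c => (X - C c : R[X])),
      ∀ s' ∈ S.image (fun c => (X - C c : R[X])), s ≠ s' →
      s' ∉ Ideal.span {(C w : R[X]), s} := by
    intro s hs s' hs' hne hmem
    obtain ⟨c, hcS, rfl⟩ := Finset.mem_image.mp hs
    obtain ⟨c', hcS', rfl⟩ := Finset.mem_image.mp hs'
    have hcc : c ≠ c' := fun h => hne (by rw [h])
    exact (hc c).2.2.2.2 c' hmem (hS c hcS c' hcS' hcc)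
  have hNC' : ∀ π : R[X], Prime π → ¬ Associated π (C w) →
      (∀ s ∈ S.image (fun c => (X - C c : R[X])), ¬ Associated π s) →
      (Ideal.span {algebraMap R[X] B π}).IsRadical := by
    intro π hπ hπw hπS
    exact hNC π hπ hπw (fun c hcS => hπS _ (Finset.mem_image_of_mem _ hcS))
  have hcore' := hcore R[X] (C w) hCw hΛ hΛ₀ hℚ B hsep (S.image (fun c => (X - C c : R[X])))
    hS1' hS2' hNC'
  -- a prime of `Λ`
  obtain ⟨h01, h02, h03, -, -⟩ := hc 0
  have hw0 : ¬ (C w : R[X]) ∣ X - C 0 := by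
    intro hdvd
    obtain ⟨r, hr⟩ := hdvd
    rcases h01.irreducible.isUnit_or_isUnit hr with h | h
    · exact hCw.not_unit h
    · exact h02 ⟨h.unit⁻¹, by rw [hr, mul_assoc, IsUnit.mul_val_inv, mul_one]⟩
  have ht₀ := prime_mk_of_isMaximal (C w : R[X]) (X - C 0) hCw h03 hw0
  have hdisc := (hcore' _ ht₀ _ bb).1
  haveI : IsIntegrallyClosed (B ⧸ (Ideal.span {(C w : R[X])}).map (algebraMap R[X] B)) :=
    hA8 _ _ _ bb hdisc (fun t ht => (hcore' t ht _ bb).2)
  haveI : IsNoetherianRing B :=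
    isNoetherian_of_tower R[X] (isNoetherian_of_isNoetherianRing_of_finite R[X] B)
  haveI : Ring.DimensionLEOne (B ⧸ (Ideal.span {(C w : R[X])}).map (algebraMap R[X] B)) :=
    Ring.DimensionLEOne.of_isIntegral (R[X] ⧸ Ideal.span {(C w : R[X])}) _
  exact { }

end Fermat.Agent.S18.B12.H33

end
end
-- ===== PACK-END S18/B12/H33/Regular.lean

-- ===== PACK-BEGIN S37/H159/MBound.lean
section





/-!
# Theorem M, part 6: the local discriminant bounds
(row S37, piece R-b; seat helper159)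

`β` a `K[X]`-basis of `B_η`, `y` the lifted basis (of `F / K(x)`), `M` the matrix of `y` in `β`.

* `not_dvd_det` (local basis): `X - c ∤ det M` for every `c ∈ A`;
* `not_dvd_discr_of_isRadical` : `(x - c) B_η` radical implies `X - c ∤ disc β`;
* `not_pow_dvd_discr` : `(X - c)^(n - s + 1) ∤ disc β` for `c ∈ A`, `s = redRank T c̄`.
-/

set_option autoImplicit false
set_option linter.unusedSectionVars false
set_option linter.style.haveILetI false

namespace Fermat.Agent.S37.H159

open Polynomial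

/-- Membership in a principal ideal generated by a scalar, in coordinates. -/
theorem mem_span_algebraMap_iff {R T ι : Type*} [CommRing R] [CommRing T] [Algebra R T]
    [Fintype ι] (b : Module.Basis ι R T) (t : R) (z : T) :
    z ∈ Ideal.span {algebraMap R T t} ↔ ∀ i, t ∣ b.repr z i := by
  rw [Ideal.mem_span_singleton]
  constructor
  · rintro ⟨y, rfl⟩ i
    rw [← Algebra.smul_def, map_smul]
    exact ⟨b.repr y i, by simp⟩
  · intro h
    choose q hq using h
    refine ⟨∑ i, q i • b i, ?_⟩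
    rw [← Algebra.smul_def, Finset.smul_sum]
    conv_lhs => rw [← b.sum_repr z]
    refine Finset.sum_congr rfl fun i _ => ?_
    rw [hq i, mul_smul]

namespace RedCtx

variable {K : Type*} [Field K] [CharZero K] {A : ValuationSubring K} {k : Type*} [Field k]
  {F : Type*} [Field F] [Algebra K[X] F] {Fk : Type*} [Field Fk] [Algebra k[X] Fk]
  (G : RedCtx A k F Fk)

variable (hinj : Function.Injective (algebraMap k[X] Fk))

variable {n : ℕ} (β : Module.Basis (Fin n) K[X] (integralClosure K[X] F))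
  (b : Module.Basis (Fin n) k[X] G.Tk)
  (yη : Fin n → integralClosure K[X] F) (hyO : ∀ i, (yη i : F) ∈ G.O)
  (hρ : ∀ i, G.redT (yη i) (hyO i) = b i)

include hinj b hyO hρ in
/-- **Local basis**: the lifted basis is a basis of `B_η` locally at every `c ∈ A`. -/
theorem not_dvd_det (c : A) :
    ¬ (X - C (c : K)) ∣ (Matrix.of fun i j => β.repr (yη i) j).det := by
  classical
  intro hdvd
  set M : Matrix (Fin n) (Fin n) K[X] := Matrix.of fun i j => β.repr (yη i) j with hM
  have hdet : ((evalRingHom (c : K)).mapMatrix M).det = 0 := by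
    rw [← RingHom.map_det]
    exact Polynomial.dvd_iff_isRoot.mp hdvd
  obtain ⟨v, hv0, hv⟩ := Matrix.exists_vecMul_eq_zero_iff.mpr hdet
  -- the combination `g = ∑ v_i y_i` lies in `(x - c) B_η`
  have hg : (∑ i, (C (v i) : K[X]) • yη i) ∈
      Ideal.span {algebraMap K[X] (integralClosure K[X] F) (X - C (c : K))} := by
    rw [mem_span_algebraMap_iff β]
    intro j
    rw [Polynomial.dvd_iff_isRoot, IsRoot.def, map_sum, Finsupp.coe_finsetSum,
      Finset.sum_apply, eval_finsetSum]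
    have := congrFun hv j
    rw [Matrix.vecMul, dotProduct] at this
    rw [Pi.zero_apply] at this
    rw [← this]
    refine Finset.sum_congr rfl fun i _ => ?_
    rw [map_smul, Finsupp.smul_apply, smul_eq_mul, eval_mul, eval_C]
    rfl
  have hind : ∀ a : Fin n → k,
      (∑ j, (C (a j) : k[X]) • G.redT (yη j) (hyO j)) ∈ H939.fibreIdeal G.Tk (G.π c) →
        ∀ j, a j = 0 := by
    intro a ha j
    rw [H939.mem_fibreIdeal_iff b] at ha
    have h1 := ha j
    have h2 : b.repr (∑ j, (C (a j) : k[X]) • G.redT (yη j) (hyO j)) j = C (a j) := by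
      simp only [hρ, map_sum, map_smul, Module.Basis.repr_self, Finsupp.smul_single,
        smul_eq_mul, mul_one, Finsupp.coe_finsetSum, Finset.sum_apply,
        Finsupp.single_apply, Finset.sum_ite_eq', Finset.mem_univ, if_true]
    rw [h2, Polynomial.dvd_iff_isRoot, IsRoot.def, eval_C] at h1
    exact h1
  have := G.eq_zero_of_sum_C_smul_mem yη hyO _ _
    (fun v hvO hv => G.redT_mem_fibreIdeal hinj c v hvO hv) hind v hg
  exact hv0 (funext this)

section Tame

variable (L₀ : Type*) [Field L₀] [Algebra K[X] L₀] [IsFractionRing K[X] L₀] [Algebra L₀ F]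
  [IsScalarTower K[X] L₀ F] [FiniteDimensional L₀ F]

include L₀ in
theorem isTorsionFree_Tη : Module.IsTorsionFree K[X] (integralClosure K[X] F) := by
  refine Module.isTorsionFree_iff_algebraMap_injective.mpr fun p q hpq => ?_
  apply algebraMap_injective_K (K := K) (F := F) L₀
  exact congrArg (fun z : integralClosure K[X] F => (z : F)) hpq

include L₀ in
/-- **Tame bound at an unramified point**: if `(x - c) B_η` is radical then `X - c ∤ disc β`. -/
theorem not_dvd_discr_of_isRadical (c : K)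
    (hrad : (Ideal.span {algebraMap K[X] (integralClosure K[X] F) (X - C c)}).IsRadical) :
    ¬ (X - C c) ∣ Algebra.discr K[X] β := by
  classical
  haveI := isSeparable_of_charZero K L₀ F
  haveI : IsDedekindDomain (integralClosure K[X] F) :=
    integralClosure.isDedekindDomain K[X] L₀ F
  haveI := isTorsionFree_Tη (K := K) (F := F) L₀
  have h := S18.H213.tame_discr_witness (X - C c) (Polynomial.prime_X_sub_C c) n β n β
    (fun a ha i => by
      rw [hrad.radical] at ha
      have h1 := (mem_span_algebraMap_iff β _ _).mp ha i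
      have h2 : β.repr (∑ i, a i • β i) i = a i := by
        simp only [map_sum, map_smul, Module.Basis.repr_self, Finsupp.smul_single,
          smul_eq_mul, mul_one, Finsupp.coe_finsetSum, Finset.sum_apply,
          Finsupp.single_apply, Finset.sum_ite_eq', Finset.mem_univ, if_true]
      rwa [h2] at h1)
  rw [Nat.sub_self, zero_add, pow_one] at h
  exact h

include L₀ hinj b in
/-- **Tame bound + specialisation of fibres**: for `c ∈ A` and `s = redRank T c̄`,
`(X - c)^(n - s + 1) ∤ disc β`. -/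
theorem not_pow_dvd_discr (c : A) :
    ¬ (X - C (c : K)) ^ (n - H939.redRank G.Tk (G.π c) + 1) ∣ Algebra.discr K[X] β := by
  classical
  haveI := isSeparable_of_charZero K L₀ F
  haveI : IsDedekindDomain (integralClosure K[X] F) :=
    integralClosure.isDedekindDomain K[X] L₀ F
  haveI := isTorsionFree_Tη (K := K) (F := F) L₀
  haveI : Module.Finite k (G.Tk ⧸ (H939.fibreIdeal G.Tk (G.π c)).radical) :=
    H939.finite_quot_radical b (G.π c)
  set Rad : Ideal G.Tk := (H939.fibreIdeal G.Tk (G.π c)).radical with hRad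
  have hs : Module.finrank k (G.Tk ⧸ Rad) = H939.redRank G.Tk (G.π c) := rfl
  haveI : Module.Free k (G.Tk ⧸ Rad) := Module.Free.of_divisionRing k _
  let e : Module.Basis (Fin (H939.redRank G.Tk (G.π c))) k (G.Tk ⧸ Rad) :=
    Module.finBasisOfFinrankEq k _ hs
  choose t ht using fun j => Ideal.Quotient.mk_surjective (e j)
  choose f hf using fun j => (G.mem_Tk (t j : Fk)).mp (t j).2
  let w : Fin (H939.redRank G.Tk (G.π c)) → integralClosure K[X] F := fun j => ⟨f j, (hf j).1⟩
  have hwO : ∀ j, (w j : F) ∈ G.O := fun j => (f j).2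
  have hred : ∀ j, G.redT (w j) (hwO j) = t j := fun j => Subtype.ext (hf j).2
  have hind : ∀ a : Fin (H939.redRank G.Tk (G.π c)) → k,
      (∑ j, (C (a j) : k[X]) • G.redT (w j) (hwO j)) ∈ Rad → ∀ j, a j = 0 := by
    intro a ha
    have h1 : ∑ j, a j • e j = 0 := by
      have h2 : Ideal.Quotient.mk Rad (∑ j, (C (a j) : k[X]) • G.redT (w j) (hwO j)) = 0 :=
        Ideal.Quotient.eq_zero_iff_mem.mpr ha
      rw [map_sum] at h2
      rw [← h2]
      refine Finset.sum_congr rfl fun j _ => ?_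
      rw [hred, ← ht j]
      have h3 : (C (a j) : k[X]) • t j = a j • t j := by
        rw [← Polynomial.algebraMap_eq, algebraMap_smul]
      rw [h3]
      rfl
    exact Fintype.linearIndependent_iff.mp e.linearIndependent a h1
  apply S18.H213.tame_discr_witness (X - C (c : K)) (Polynomial.prime_X_sub_C _) n β _ w
  intro a ha
  exact G.dvd_of_sum_smul_mem w hwO c _ Rad
    (fun v hvO hv => G.redT_mem_radical hinj c v hvO hv) hind Ideal.le_radical a ha

end Tame

end RedCtx

end Fermat.Agent.S37.H159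

end
-- ===== PACK-END S37/H159/MBound.lean

-- ===== PACK-BEGIN S37/Core/Assemble.lean
section


/-!
# S37 row (helper37): assembly

`result_of_pieces` : the frozen statement S37 from the three top-level pieces
* `hHIA`  : `HeckeInputsAlong ℚ̄ N ℓ` (so that the Prelude `T_ℓ` is the honest correspondence),
* `hS18`  : the conclusion of the frozen statement S18,
* `hPR`   : a `PlaceRed N A ℓ σ₀` for every Frobenius element `σ₀` at `A`.
Fully proved.
-/

set_option autoImplicit false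
set_option synthInstance.maxHeartbeats 400000

noncomputable section

namespace Fermat.Agent.S37.Core

open ModularCurve ValuationSubring AlgebraicCurve HahnSeries Fermat.Agent.S37.H99

section Main

variable {N : ℕ} [NeZero N] {A : ValuationSubring (AlgebraicClosure ℚ)} {ℓ : ℕ} [NeZero ℓ]
  {σ₀ : AlgebraicClosure ℚ ≃ₐ[ℚ] AlgebraicClosure ℚ}

/-- the Eichler-Shimura relation after reduction -/
theorem PlaceRed.red_relation (D : PlaceRed N A ℓ σ₀)
    (HIA : HeckeInputsAlong (AlgebraicClosure ℚ) N ℓ) (x : JZero N) :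
    D.red (σ₀ • σ₀ • x - heckeOperatorAlong (AlgebraicClosure ℚ) N ℓ (σ₀ • x) + ℓ • x) = 0 := by
  obtain ⟨hα, hβ, hP, hfin, hFI, hN⟩ := HIA
  haveI := hP
  rw [heckeOperatorAlong_eq hα hβ hFI hfin hN]
  obtain ⟨E, rfl⟩ := Pic0.mk_surjective x
  set g := arithmeticGalois (modularFunctionFieldFull N) σ₀ with hg
  have e1 : σ₀ • σ₀ • Pic0.mk E - heckePic0Bar hα hβ hFI hfin hN (σ₀ • Pic0.mk E) + ℓ • Pic0.mk E
      = Pic0.mk (SemilinearAut.degZeroSMulHom g (SemilinearAut.degZeroSMulHom g E) -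
          Pic0.degZeroCorrespondence (heckeBetaBar (AlgebraicClosure ℚ) N ℓ)
            (heckeAlphaBar (AlgebraicClosure ℚ) N ℓ) hβ hα hFI (SemilinearAut.degZeroSMulHom g E) +
          ℓ • E) := rfl
  rw [e1, D.red_mk]
  have e2 : reductionDegZeroAlong D.r D.isRed.1
      (SemilinearAut.degZeroSMulHom g (SemilinearAut.degZeroSMulHom g E) -
          Pic0.degZeroCorrespondence (heckeBetaBar (AlgebraicClosure ℚ) N ℓ)
            (heckeAlphaBar (AlgebraicClosure ℚ) N ℓ) hβ hα hFI (SemilinearAut.degZeroSMulHom g E) +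
          ℓ • E) = 0 := by
    apply Subtype.ext
    rw [coe_reductionDegZeroAlong]
    exact D.mapDomain_relation hα hβ (E : Divisor (AlgebraicClosure ℚ) (modularFunctionFieldBar N))
  rw [e2]
  rfl

end Main

/-- **S37 at one place from the pieces.** -/
theorem isWeakRed_of_placeRed (N p : ℕ) [NeZero N] (hcomm : HeckeOperatorsCommuteBar N)
    (A : ValuationSubring (AlgebraicClosure ℚ)) (ℓ : ℕ) (hℓ : ℓ.Prime) (hℓp : ¬ ℓ ∣ p)
    (σ₀ : AlgebraicClosure ℚ ≃ₐ[ℚ] AlgebraicClosure ℚ) (hσ₀ : A.IsFrobeniusAt σ₀ ℓ)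
    (HIA : haveI : NeZero ℓ := ⟨hℓ.ne_zero⟩; HeckeInputsAlong (AlgebraicClosure ℚ) N ℓ)
    (hS18 : InjTorsionModL N ℓ A)
    (D : haveI : NeZero ℓ := ⟨hℓ.ne_zero⟩; PlaceRed N A ℓ σ₀) :
    letI := heckeModuleBar N
    ∀ (_ : SMulCommClass (AlgebraicClosure ℚ ≃ₐ[ℚ] AlgebraicClosure ℚ) HeckeAlg (JZero N)),
      IsWeakRed (K := ℚ) p (JZero N) A ℓ hℓ σ₀
        (haveI : NeZero ℓ := ⟨hℓ.ne_zero⟩; D.red) := by
  letI := heckeModuleBar N
  haveI : NeZero ℓ := ⟨hℓ.ne_zero⟩
  intro _
  refine ⟨hσ₀, fun τ hτ x => D.red_inertia hτ x, ?_, ?_⟩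
  · rintro x ⟨n, hn⟩ hx
    refine D.red_inj_torsion hS18 (m := p ^ n) ?_ hn hx
    exact fun h => hℓp (hℓ.dvd_of_dvd_pow h)
  · intro x
    have h := D.red_relation HIA x
    rw [heckeModuleBar_heckeGen_smul hcomm ⟨ℓ, hℓ⟩ (σ₀ • x)]
    exact h

/-- **S37 from the three top-level pieces.** -/
theorem result_of_pieces (N p : ℕ) [NeZero N]
    (hHIA : ∀ (ℓ : ℕ) (hℓ : ℓ.Prime), ¬ ℓ ∣ N →
      haveI : NeZero ℓ := ⟨hℓ.ne_zero⟩; HeckeInputsAlong (AlgebraicClosure ℚ) N ℓ)
    (hS18 : ∀ (ℓ : ℕ), ℓ.Prime → ¬ ℓ ∣ N →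
      ∀ A : ValuationSubring (AlgebraicClosure ℚ), A.LiesOverPrime ℓ → InjTorsionModL N ℓ A)
    (hPR : ∀ (ℓ : ℕ) (hℓ : ℓ.Prime), ¬ ℓ ∣ N →
      ∀ A : ValuationSubring (AlgebraicClosure ℚ), A.LiesOverPrime ℓ →
        ∀ σ₀ : AlgebraicClosure ℚ ≃ₐ[ℚ] AlgebraicClosure ℚ, A.IsFrobeniusAt σ₀ ℓ →
          haveI : NeZero ℓ := ⟨hℓ.ne_zero⟩; Nonempty (PlaceRed N A ℓ σ₀))
    (hcomm : ModularCurve.HeckeOperatorsCommuteBar N) :
    letI := ModularCurve.heckeModuleBar N
    ∀ (_ : SMulCommClass (AlgebraicClosure ℚ ≃ₐ[ℚ] AlgebraicClosure ℚ) ModularCurve.HeckeAlg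
      (ModularCurve.JZero N)),
      ModularCurve.SpecializationExists (K := ℚ) (L := AlgebraicClosure ℚ) N p
        (ModularCurve.JZero N) := by
  letI := ModularCurve.heckeModuleBar N
  intro inst
  intro ℓ hℓ hdvd A hA
  have hℓN : ¬ ℓ ∣ N := fun h => hdvd (Dvd.dvd.mul_right h p)
  have hℓp : ¬ ℓ ∣ p := fun h => hdvd (Dvd.dvd.mul_left h N)
  obtain ⟨σ₀, hσ₀⟩ := exists_isFrobeniusAt ℓ hℓ A hA
  haveI : NeZero ℓ := ⟨hℓ.ne_zero⟩
  obtain ⟨D⟩ := hPR ℓ hℓ hℓN A hA σ₀ hσ₀
  exact exists_specialization_of_isWeakRed p A ℓ hℓ σ₀ D.red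
    (isWeakRed_of_placeRed N p hcomm A ℓ hℓ hℓp σ₀ hσ₀ (hHIA ℓ hℓ hℓN) (hS18 ℓ hℓ hℓN A hA) D inst)

end Fermat.Agent.S37.Core

end
end
-- ===== PACK-END S37/Core/Assemble.lean

-- ===== PACK-BEGIN S35/G/SpecLevel.lean
section




/-!
# S35, piece (G') — frozen LEVEL interfaces (architect helper450)

Finite levels `E ⊆ ℚ̄` (good for the place `A | q` in the sense of `A2.GoodField`, and stable under
the Frobenius lift `s`), `R = R_E = A ∩ E`, `w` a uniformiser, `F = F_E(M q) = A2.Mod.FE E (M * q)`,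
`ψ = σ²`, `σ` = action of `s` on the coefficients.  Language of `A2/Spec`, `A2/Alg/Spec`,
`A2/Mod/{Spec,Asm}` (all on main).

* `IFsStatement`    : `s`-stable good levels containing a given finite set.
* `LevelFrobAt`     : the Kummer form of (G') at a level `E`;  `T1FStatement` : descent `ℚ̄ → E`.
* `AlgFrobStatement`: ABSTRACT Frobenius-twisted gluing (Mathlib + `A2.SSChart` only):
                      `h` toric (`≡ m`-th powers on both components), `m ∣ div h`
                      ⟹ `ψ h / h ^ Q` is an `m`-th power.  (`Q = 1`, `ψ = τ ∈ I` is Step II of the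
                      wall A2.)
* `StableStatement`, `NodeRatStatement`, `ToricStatement`, `ModelStatement` : the modular inputs.

Definitions only (no `sorry`).  Board: `coord/S35-G-helper450.md` on `origin/helper450`.
-/

set_option autoImplicit false
set_option linter.style.haveILetI false
set_option linter.unusedSectionVars false
set_option synthInstance.maxHeartbeats 400000
set_option maxHeartbeats 1600000

noncomputable section

namespace Fermat.Agent.S35.G

open ModularCurve AlgebraicCurve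

/-! ## Abstract part (Mathlib + `A2.SSChart`) -/

section Abstract

variable {R F : Type*} [CommRing R] [Field F] [Algebra R F]

/-- `u ≡ g ^ m mod w V` for a unit `g` of `V`: the residue of `u` at `V` is an `m`-th power. -/
def PowV (w : R) (V : ValuationSubring F) (m : ℕ) (u : F) : Prop :=
  ∃ g : F, g ∈ V ∧ g⁻¹ ∈ V ∧ (u - g ^ m) * (algebraMap R F w)⁻¹ ∈ V

/-- The two components of the chart `B` are cut out by the valuation rings `V₁`, `V₂`:
`B ⊆ V_i`, `p_i = B ∩ w V_i`. -/
structure CutBy (w : R) (B : Subalgebra R F) (c : A2.SSChart w B)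
    (V₁ V₂ : ValuationSubring F) : Prop where
  le₁ : ∀ b ∈ B, b ∈ V₁
  le₂ : ∀ b ∈ B, b ∈ V₂
  cut₁ : ∀ b : B, b ∈ c.p₁ ↔ (b : F) * (algebraMap R F w)⁻¹ ∈ V₁
  cut₂ : ∀ b : B, b ∈ c.p₂ ↔ (b : F) * (algebraMap R F w)⁻¹ ∈ V₂

/-- `ψ` maps every crossing point of the two components of the chart `B` into itself. -/
def NodeStable {w : R} (B : Subalgebra R F) (c : A2.SSChart w B) (ψ : F ≃+* F) : Prop :=
  ∀ n : Ideal B, n.IsMaximal → c.p₁ ≤ n → c.p₂ ≤ n →
    ∀ b : B, b ∈ n → ∀ b' : B, (b' : F) = ψ (b : F) → b' ∈ n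

/-- **ALG-FROB (interface statement).**  Setting of `A2.AlgSSStatement` (henselian DVR `R` with
algebraically closed residue field of characteristic `q`, two semistable charts), the components
cut out by two valuation rings `V₁`, `V₂` of `F`; `ψ` a semilinear automorphism fixing the
coordinate, inducing `r ↦ r ^ Q` on the residue field of `R`, preserving `V₁`, `V₂` and every
crossing point.  Then for every `h` with `m ∣ div h` whose residues at `V₁` and `V₂` are `m`-th
powers, `ψ h / h ^ Q` is an `m`-th power. -/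
def AlgFrobStatement : Prop :=
  ∀ {R E F : Type} [CommRing R] [IsDomain R] [IsDiscreteValuationRing R] [HenselianLocalRing R]
    [IsAlgClosed (IsLocalRing.ResidueField R)]
    [Field E] [CharZero E] [Algebra R E] [IsFractionRing R E]
    [Field F] [Algebra E F] [Algebra R F] [IsScalarTower R E F]
    (w : R) (_ : Irreducible w) (q m Q : ℕ) (_ : q.Prime)
    (_ : (q : R) ∈ IsLocalRing.maximalIdeal R) (_ : 0 < m) (_ : ¬ q ∣ m)
    (x : F) (_ : Transcendental E x)
    (_ : FiniteDimensional (IntermediateField.adjoin E ({x} : Set F)) F)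
    (_ : ∀ f : F, IsAlgebraic E f → f ∈ (algebraMap E F).range)
    (Bf Bi : Subalgebra R F)
    (_ : ∀ f : F, f ∈ Bf ↔ IsIntegral (Algebra.adjoin R ({x} : Set F)) f)
    (_ : ∀ f : F, f ∈ Bi ↔ IsIntegral (Algebra.adjoin R ({x⁻¹} : Set F)) f)
    (cf : A2.SSChart w Bf) (ci : A2.SSChart w Bi)
    (_ : A2.SepCoord R E x Bf) (_ : A2.SepCoord R E x⁻¹ Bi)
    (V₁ V₂ : ValuationSubring F) (_ : CutBy w Bf cf V₁ V₂) (_ : CutBy w Bi ci V₁ V₂)
    (ψ : F ≃+* F) (ψE : E ≃+* E) (ψR : R ≃+* R)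
    (_ : ∀ e : E, ψ (algebraMap E F e) = algebraMap E F (ψE e))
    (_ : ∀ r : R, ψE (algebraMap R E r) = algebraMap R E (ψR r))
    (_ : ψ x = x)
    (_ : ∀ r : R, ψR r - r ^ Q ∈ IsLocalRing.maximalIdeal R)
    (_ : ∀ f ∈ V₁, ψ f ∈ V₁) (_ : ∀ f ∈ V₂, ψ f ∈ V₂)
    (_ : NodeStable Bf cf ψ) (_ : NodeStable Bi ci ψ),
    ∀ h : F, h ≠ 0 → A2.DivisibleDiv E m h → PowV w V₁ m h → PowV w V₂ m h →
      ∃ y : F, y ≠ 0 ∧ ψ h = y ^ m * h ^ Q

end Abstract

/-! ## Levels -/

/-- `E` is stable under `s` and `s⁻¹`. -/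
abbrev StableUnder (E : IntermediateField ℚ Qb) (s : Qb ≃ₐ[ℚ] Qb) : Prop :=
  ∀ e : Qb, e ∈ E → s e ∈ E ∧ s.symm e ∈ E

/-- **IFs (interface statement).**  Every finite set of algebraic numbers lies in a good level
for `A` which is stable under a given element `s` of the decomposition group of `A`
(`E` = compositum of the inertia field `ℚ̄^{I_A}` and a finite NORMAL extension of `ℚ`; the
inertia group is normal in the decomposition group). -/
def IFsStatement : Prop :=
  ∀ (q : ℕ) (_ : q.Prime) (A : ValuationSubring Qb) (_ : A.LiesOverPrime q)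
    (s : Qb ≃ₐ[ℚ] Qb) (_ : s ∈ A.decompositionSubgroup ℚ) (S : Finset Qb),
    ∃ E : IntermediateField ℚ Qb, (∀ x ∈ S, x ∈ E) ∧ A2.GoodField A E ∧ StableUnder E s

section Level

variable (A : ValuationSubring Qb) (E : IntermediateField ℚ Qb) (M q m : ℕ) [NeZero M] [NeZero q]

/-- `σ_E(t)`: the automorphism of `F_E(N)` induced by an automorphism `t` of `E`. -/
abbrev actE (N : ℕ) (t : E ≃ₐ[ℚ] E) : A2.Mod.FE E N ≃+* A2.Mod.FE E N :=
  arithmeticRingAut (modularFunctionFieldFull N) t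

/-- `ψ = σ_E(s)²` at level `N`. -/
abbrev psiE (N : ℕ) (s : Qb ≃ₐ[ℚ] Qb) (hs : StableUnder E s) : A2.Mod.FE E N ≃+* A2.Mod.FE E N :=
  actE E N (A2.Mod.resE E s hs * A2.Mod.resE E s hs)

/-- **Kummer form of (G') at the level `E`.** -/
def LevelFrobAt : Prop :=
  A.LiesOverPrime q → A2.GoodField A E →
    ∀ (s : Qb ≃ₐ[ℚ] Qb) (hs : StableUnder E s), A.IsFrobeniusAt s q →
      ∀ y : A2.Mod.FE E (M * q), y ≠ 0 → A2.DivisibleDiv E m y →
        NormPow (A2.Mod.αE E M q) m y → NormPow (A2.Mod.βE E M q) m y →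
        ∃ h : A2.Mod.FE E (M * q), h ≠ 0 ∧
          frobPoly (psiE E (M * q) s hs) (q ^ 2) y = h ^ m

end Level

/-- **T1F (descent to a level).**  `f`, and `c`, `g` with `N_α f = c g ^ m`, `N_β f = c' g' ^ m`,
are defined over every level containing a finite set `S` (`A2.T1.H669.exists_finset_descent`);
norms commute with the base change `E → ℚ̄` (`S37.H818.normCompat_of_finrank_eq`,
`S37.H157.finrank_algIncl`); `m ∣ div` descends (`A2.T1.H669.divisibleDiv_of_ord`). -/
def T1FStatement : Prop :=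
  ∀ (M q m : ℕ) [NeZero M] [NeZero q], q.Prime → ¬ q ∣ M → 0 < m → ¬ q ∣ m →
    IFsStatement →
    (∀ (A : ValuationSubring Qb) (E : IntermediateField ℚ Qb), LevelFrobAt A E M q m) →
    KummerFrobAt M q m

/-! ## The modular inputs (level `M * q`, objects of `A2/Mod/Spec.lean`) -/

section Modular

variable (A : ValuationSubring Qb) (E : IntermediateField ℚ Qb) (M q m : ℕ) [NeZero M] [NeZero q]
  (w : A2.Mod.RE A E)

/-- **STABLE.**  An element `s` of the decomposition group of `A` stabilising `E` preserves the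
Gauss valuation ring `V∞` (any level `N`) and commutes with the Fricke involution; hence it also
preserves `V₀ = V∞ ∘ W`.  (As `A2.Mod.InertiaStatement` = L14, `A2/Mod/H549/L14.lean`:
`isGaussInt_coeffMap`, `fricke_comm`.) -/
def StableStatement : Prop :=
  ∀ N : ℕ, N ≠ 0 → IsDiscreteValuationRing (A2.Mod.RE A E) →
    ∀ (V : ValuationSubring (A2.Mod.FE E N)) (W : A2.Mod.FE E N ≃ₐ[E] A2.Mod.FE E N),
      A2.Mod.IsVinf A E N V → A2.Mod.IsFricke E N W →
      ∀ (s : Qb ≃ₐ[ℚ] Qb) (hs : StableUnder E s), s ∈ A.decompositionSubgroup ℚ →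
        (∀ f : A2.Mod.FE E N, actE E N (A2.Mod.resE E s hs) (W f) =
          W (actE E N (A2.Mod.resE E s hs) f)) ∧
        ∀ f ∈ V, actE E N (A2.Mod.resE E s hs) f ∈ V

/-- **NODE-RAT.**  The crossing points of the two components are fixed by `ψ = σ²`
(the supersingular points are `𝔽_{q²}`-rational).  Proof: on `C∞` Kronecker gives
`β (σ a) ≡ (α a) ^ q`, on `C₀` (Fricke) `α (σ a) ≡ (β a) ^ q`; at a crossing point `n`,
`α (σ² a) ≡ (α a) ^ (q²) mod n` for `a ∈ B_M`; `B = α (B_M) + p∞` (S2-type surjectivity,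
`A2.H612.exists_sub_mem_of_residue_degree_one`), and `B / n = k`. -/
def NodeRatStatement : Prop :=
  A2.Mod.Setting A E M q w → A2.GoodField A E →
    ∀ (VM : ValuationSubring (A2.Mod.FE E M)) (V : ValuationSubring (A2.Mod.FE E (M * q)))
      (W : A2.Mod.FE E (M * q) ≃ₐ[E] A2.Mod.FE E (M * q)),
      A2.Mod.IsVinf A E M VM → A2.Mod.IsVinf A E (M * q) V → A2.Mod.IsFricke E (M * q) W →
      ∀ (yM : A2.Mod.FE E M) (y : A2.Mod.FE E (M * q)), A2.Mod.IsCoordPair E M q yM y →
        A2.Mod.GoodRedAt A E M w VM yM →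
        ∀ c : A2.SSChart w (A2.Mod.chartAlg A E (M * q) y),
          A2.Mod.IsCut A E (M * q) w V (A2.Mod.chartAlg A E (M * q) y) c.p₁ →
          A2.Mod.IsCut A E (M * q) w
            (V.comap (W : A2.Mod.FE E (M * q) →+* A2.Mod.FE E (M * q)))
            (A2.Mod.chartAlg A E (M * q) y) c.p₂ →
          ∀ (s : Qb ≃ₐ[ℚ] Qb) (hs : StableUnder E s), A.IsFrobeniusAt s q →
            NodeStable (A2.Mod.chartAlg A E (M * q) y) c (psiE E (M * q) s hs)

/-- **TORIC.**  If the norms of `f` along `α` and `β` are constants times `m`-th powers, then the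
residues of `(ψ - 1)² f` at `V∞` and at `V₀` are `m`-th powers.
Proof (`u := ψ f / f`, a unit of `V∞` and `V₀` by STABLE): `u ≡ α U` at `V∞`, `u ≡ β U'` at `V₀`
(L11 + Fricke L5, L7); norm reduction for the two extensions `V∞`, `V₀` of `V∞_M` along `α`
(`e = 1`, `f = 1, q`, the second purely inseparable: `A2.H48.Qep2`, leaf NORMRED2) and Kronecker
`β (σ a) ≡ (α a) ^ q` give `N_α u ≡ U · σ U'`, `N_β u ≡ σ U · U'` modulo `w`; hence
`σ² U / U` and `σ² U' / U'` are `m`-th powers modulo `w` (the residue field of `R_E` is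
algebraically closed), and `ψ u / u ≡ α (σ² U / U)` at `V∞`, `≡ β (σ² U' / U')` at `V₀`. -/
def ToricStatement : Prop :=
  A2.Mod.Setting A E M q w → A2.GoodField A E → 0 < m → ¬ q ∣ m →
    ∀ (V : ValuationSubring (A2.Mod.FE E (M * q)))
      (W : A2.Mod.FE E (M * q) ≃ₐ[E] A2.Mod.FE E (M * q)),
      A2.Mod.IsVinf A E (M * q) V → A2.Mod.IsFricke E (M * q) W →
      ∀ (s : Qb ≃ₐ[ℚ] Qb) (hs : StableUnder E s), A.IsFrobeniusAt s q →
        ∀ f : A2.Mod.FE E (M * q), f ≠ 0 →
          NormPow (A2.Mod.αE E M q) m f → NormPow (A2.Mod.βE E M q) m f →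
          PowV w V m (frobSub (psiE E (M * q) s hs) 1 (frobSub (psiE E (M * q) s hs) 1 f)) ∧
          PowV w (V.comap (W : A2.Mod.FE E (M * q) →+* A2.Mod.FE E (M * q))) m
            (frobSub (psiE E (M * q) s hs) 1 (frobSub (psiE E (M * q) s hs) 1 f))

/-- **MODEL.**  The semistable two-chart model of `A2.ModSSData` at the level `E`, with its two
components cut out by `V∞` and `V₀` (this is what `A2.Mod.modSSData_of_parts` constructs from
S1–S4, L1, L2, L4, L8 and good reduction at level `M`; the latter needs the auxiliary prime;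
`B ⊆ V∞, V₀` because `x = j j_q` is a unit of both, L2 + L4). -/
def ModelStatement : Prop :=
  A2.Mod.Setting A E M q w → A2.GoodField A E → HasAux M q →
    ∃ (V : ValuationSubring (A2.Mod.FE E (M * q)))
      (W : A2.Mod.FE E (M * q) ≃ₐ[E] A2.Mod.FE E (M * q))
      (VM : ValuationSubring (A2.Mod.FE E M)),
      A2.Mod.IsVinf A E (M * q) V ∧ A2.Mod.IsFricke E (M * q) W ∧ A2.Mod.IsVinf A E M VM ∧
      A2.Mod.GoodRedAt A E M w VM (A2.Mod.jE E M 1 (one_dvd _)) ∧
      A2.Mod.GoodRedAt A E M w VM (A2.Mod.jE E M 1 (one_dvd _))⁻¹ ∧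
      A2.Mod.DegStatement E M q ∧
      A2.SepCoord (A2.Mod.RE A E) E (A2.Mod.xE E M q)
        (A2.Mod.chartAlg A E (M * q) (A2.Mod.xE E M q)) ∧
      A2.SepCoord (A2.Mod.RE A E) E (A2.Mod.xE E M q)⁻¹
        (A2.Mod.chartAlg A E (M * q) (A2.Mod.xE E M q)⁻¹) ∧
      ∃ (cf : A2.SSChart w (A2.Mod.chartAlg A E (M * q) (A2.Mod.xE E M q)))
        (ci : A2.SSChart w (A2.Mod.chartAlg A E (M * q) (A2.Mod.xE E M q)⁻¹)),
        CutBy w (A2.Mod.chartAlg A E (M * q) (A2.Mod.xE E M q)) cf V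
          (V.comap (W : A2.Mod.FE E (M * q) →+* A2.Mod.FE E (M * q))) ∧
        CutBy w (A2.Mod.chartAlg A E (M * q) (A2.Mod.xE E M q)⁻¹) ci V
          (V.comap (W : A2.Mod.FE E (M * q) →+* A2.Mod.FE E (M * q)))

/-- **FROB-RES.**  A Frobenius lift `s` at `A` stabilising `E` induces on `R_E = A ∩ E` an
automorphism which is `r ↦ r ^ q` modulo the maximal ideal
(`A2.H612.valuation_frob_sub_pow_lt_one`); stated for `s²`. -/
def FrobResStatement : Prop :=
  A.LiesOverPrime q → q.Prime →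
    ∀ (s : Qb ≃ₐ[ℚ] Qb) (hs : StableUnder E s), A.IsFrobeniusAt s q →
      ∃ ψR : A2.Mod.RE A E ≃+* A2.Mod.RE A E,
        (∀ r : A2.Mod.RE A E,
          (A2.Mod.resE E s hs * A2.Mod.resE E s hs) (r : E) = ((ψR r : A2.Mod.RE A E) : E)) ∧
        ∀ r : A2.Mod.RE A E, ψR r - r ^ (q ^ 2) ∈ IsLocalRing.maximalIdeal (A2.Mod.RE A E)

/-- **KRON-FROB.**  Kronecker congruence with the explicit Frobenius twist: for `a ∈ V∞_M`,
`β (σ a) ≡ (α a) ^ q mod w V∞` (on `t`-expansions: `∑ s(aₙ) t^{qn} ≡ (∑ aₙ tⁿ)^q`).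
(`A2.Mod.KronStatement` = L12 only asserts the existence of the twisted element;
`A2/H612/Kron.lean` has the computation over `ℚ̄`.)  Used by NODE-RAT and TORIC. -/
def KronFrobStatement : Prop :=
  A2.Mod.Setting A E M q w →
    ∀ (VM : ValuationSubring (A2.Mod.FE E M)) (V : ValuationSubring (A2.Mod.FE E (M * q))),
      A2.Mod.IsVinf A E M VM → A2.Mod.IsVinf A E (M * q) V →
      ∀ (s : Qb ≃ₐ[ℚ] Qb) (hs : StableUnder E s), A.IsFrobeniusAt s q →
        ∀ a ∈ VM, A2.Mod.InW A E (M * q) V w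
          (A2.Mod.βE E M q (actE E M (A2.Mod.resE E s hs) a) - (A2.Mod.αE E M q a) ^ q)

/-- **COORD.**  The coordinate `x = j · j_q` has rational coefficients: it is fixed by the action
of every automorphism of `E` on the coefficients. -/
def CoordStatement : Prop :=
  ∀ t : E ≃ₐ[ℚ] E, actE E (M * q) t (A2.Mod.xE E M q) = A2.Mod.xE E M q

end Modular

end Fermat.Agent.S35.G

end

end
-- ===== PACK-END S35/G/SpecLevel.lean

-- ===== PACK-BEGIN S18/H576/Unif.lean
section




/-!
# S18 / MOD-ASM (helper576): the uniformiser facts (`UnifFacts`) from `H602.isDiscreteValuationRing_RE`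
-/

set_option autoImplicit false

noncomputable section

namespace Fermat.Agent.S18.H576

open ModularCurve AlgebraicCurve HahnSeries Fermat.Agent.S18 Fermat.Agent.S18.Mod
open Fermat.Agent.S18.H602 (RE mem_RE toA)

variable {M : ℕ} {A : ValuationSubring Qb} {E : IntermediateField ℚ Qb}

/-- The inclusion `R_E → Ω`. -/
def iotaR (M : ℕ) (A : ValuationSubring Qb) (E : IntermediateField ℚ Qb) : RE A E →+* Om M :=
  (iota M).comp ((algebraMap E Qb).comp (RE A E).subtype)

theorem iotaR_apply (r : RE A E) : iotaR M A E r = iota M ((r : E) : Qb) := rfl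

theorem iotaR_injective : Function.Injective (iotaR M A E) := by
  intro r s h
  have h1 : ((r : E) : Qb) = ((s : E) : Qb) := iota_injective M h
  exact Subtype.ext (Subtype.ext h1)

theorem iotaR_mem_Rc (r : RE A E) : iotaR M A E r ∈ Rc M A E :=
  iota_mem_Rc (mem_RE.mp r.2) (r : E).2

theorem mem_Rc_iff_exists_iotaR {y : Om M} : y ∈ Rc M A E ↔ ∃ r : RE A E, iotaR M A E r = y := by
  constructor
  · intro hy
    obtain ⟨a, haA, haE, rfl⟩ := mem_Rc_iff.mp hy
    exact ⟨⟨⟨a, haE⟩, haA⟩, rfl⟩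
  · rintro ⟨r, rfl⟩
    exact iotaR_mem_Rc r

theorem iotaR_inv_mem_Rc_iff (r : RE A E) : (iotaR M A E r)⁻¹ ∈ Rc M A E ↔ r = 0 ∨ IsUnit r := by
  constructor
  · intro h
    by_cases hr : r = 0
    · exact Or.inl hr
    right
    obtain ⟨s, hs⟩ := mem_Rc_iff_exists_iotaR.mp h
    refine isUnit_iff_exists_inv.mpr ⟨s, ?_⟩
    apply iotaR_injective (M := M)
    rw [map_mul, hs, map_one]
    exact mul_inv_cancel₀ (fun h0 => hr (iotaR_injective (by rw [h0, map_zero])))
  · rintro (rfl | hu)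
    · rw [map_zero, inv_zero]
      exact zero_mem _
    · obtain ⟨s, hs⟩ := isUnit_iff_exists_inv.mp hu
      have : (iotaR M A E r)⁻¹ = iotaR M A E s := by
        have h1 : iotaR M A E r * iotaR M A E s = 1 := by rw [← map_mul, hs, map_one]
        exact inv_eq_of_mul_eq_one_right h1
      rw [this]
      exact iotaR_mem_Rc s

/-- Every element of the residue field of `R_E` is algebraic over `𝔽_ℓ`. -/
theorem exists_polynomial_residue (r : RE A E) {ℓ : ℕ} (hℓ : ℓ.Prime) :
    ∃ P : Polynomial ℤ, P.map (Int.castRingHom (ZMod ℓ)) ≠ 0 ∧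
      Polynomial.eval₂ (Int.castRingHom (RE A E)) r P = 0 := by
  haveI : Fact ℓ.Prime := ⟨hℓ⟩
  have halgQ : IsAlgebraic ℚ ((r : E) : Qb) := (AlgebraicClosure.isAlgebraic ℚ).isAlgebraic _
  have halgZ : IsAlgebraic ℤ ((r : E) : Qb) := (IsFractionRing.isAlgebraic_iff ℤ ℚ Qb).mpr halgQ
  obtain ⟨P, hP0, hP⟩ := halgZ
  have hprim : P.primPart.IsPrimitive := Polynomial.isPrimitive_primPart P
  have hev : Polynomial.aeval ((r : E) : Qb) P.primPart = 0 := by
    have h1 := P.eq_C_content_mul_primPart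
    rw [h1, map_mul, Polynomial.aeval_C] at hP
    rcases mul_eq_zero.mp hP with h | h
    · exfalso
      have : (P.content : Qb) = 0 := by simpa using h
      have h2 : P.content = 0 := by exact_mod_cast this
      exact hP0 (Polynomial.content_eq_zero_iff.mp h2)
    · exact h
  refine ⟨P.primPart, ?_, ?_⟩
  · intro h0
    have hdvd : Polynomial.C (ℓ : ℤ) ∣ P.primPart := by
      rw [Polynomial.C_dvd_iff_dvd_coeff]
      intro i
      have := congrArg (fun Q : Polynomial (ZMod ℓ) => Q.coeff i) h0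
      simp only [Polynomial.coeff_map, Polynomial.coeff_zero, eq_intCast] at this
      exact (ZMod.intCast_zmod_eq_zero_iff_dvd _ _).mp this
    have hu := hprim _ hdvd
    have : IsUnit (ℓ : ℤ) := hu
    rw [Int.isUnit_iff] at this
    have hℓ2 := hℓ.two_le
    omega
  · have hinj : Function.Injective ((algebraMap E Qb).comp (RE A E).subtype) := by
      intro a b h
      exact Subtype.ext (Subtype.ext h)
    apply hinj
    rw [map_zero, Polynomial.hom_eval₂]
    have : (((algebraMap E Qb).comp (RE A E).subtype).comp (Int.castRingHom (RE A E))) =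
        algebraMap ℤ Qb := RingHom.ext_int _ _
    rw [this]
    exact hev

end Fermat.Agent.S18.H576

namespace Fermat.Agent.S18.H576

open ModularCurve AlgebraicCurve HahnSeries Fermat.Agent.S18 Fermat.Agent.S18.Mod
open Fermat.Agent.S18.H602 (RE mem_RE toA)

variable {M : ℕ} {A : ValuationSubring Qb} {E : IntermediateField ℚ Qb}

theorem natCast_mem_maximalIdeal_RE {ℓ : ℕ} (hA : A.LiesOverPrime ℓ) :
    ((ℓ : ℕ) : RE A E) ∈ IsLocalRing.maximalIdeal (RE A E) := by
  rw [IsLocalRing.mem_maximalIdeal, mem_nonunits_iff]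
  have h := H602.natCast_not_isUnit_RE A E (ℓ := ℓ) hA
  intro hu
  apply h
  have : (⟨(ℓ : E), H602.natCast_mem_RE A E ℓ⟩ : RE A E) = ((ℓ : ℕ) : RE A E) := by
    apply Subtype.ext
    simp
  rw [this]
  exact hu

theorem natCast_residue_RE_eq_zero {ℓ : ℕ} (hA : A.LiesOverPrime ℓ) :
    ((ℓ : ℕ) : IsLocalRing.ResidueField (RE A E)) = 0 := by
  have := (IsLocalRing.residue_eq_zero_iff ((ℓ : ℕ) : RE A E)).mpr
    (natCast_mem_maximalIdeal_RE hA)
  simpa using this

/-- The residue field of `R_E` is perfect: Frobenius is surjective modulo the maximal ideal. -/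
theorem exists_pow_sub_mem_maximalIdeal {ℓ : ℕ} (hℓ : ℓ.Prime) (hA : A.LiesOverPrime ℓ)
    (r : RE A E) : ∃ s : RE A E, r - s ^ ℓ ∈ IsLocalRing.maximalIdeal (RE A E) := by
  haveI : Fact ℓ.Prime := ⟨hℓ⟩
  set κ := IsLocalRing.ResidueField (RE A E) with hκ
  haveI : CharP κ ℓ := (CharP.charP_iff_prime_eq_zero hℓ).mpr (natCast_residue_RE_eq_zero hA)
  letI : Algebra (ZMod ℓ) κ := ZMod.algebra κ ℓ
  haveI : Algebra.IsAlgebraic (ZMod ℓ) κ := by
    refine ⟨fun x => ?_⟩
    obtain ⟨r', rfl⟩ := IsLocalRing.residue_surjective x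
    obtain ⟨P, hP0, hP⟩ := exists_polynomial_residue r' hℓ
    refine ⟨P.map (Int.castRingHom (ZMod ℓ)), hP0, ?_⟩
    rw [Polynomial.aeval_def, Polynomial.eval₂_map]
    have h1 : (algebraMap (ZMod ℓ) κ).comp (Int.castRingHom (ZMod ℓ)) =
        (IsLocalRing.residue (RE A E)).comp (Int.castRingHom (RE A E)) := RingHom.ext_int _ _
    rw [h1, ← Polynomial.hom_eval₂, hP, map_zero]
  haveI : PerfectField κ := Algebra.IsAlgebraic.perfectField (ZMod ℓ)
  haveI : ExpChar κ ℓ := ExpChar.prime hℓ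
  obtain ⟨y, hy⟩ := surjective_frobenius κ ℓ (IsLocalRing.residue (RE A E) r)
  obtain ⟨s, rfl⟩ := IsLocalRing.residue_surjective y
  refine ⟨s, ?_⟩
  rw [← IsLocalRing.residue_eq_zero_iff, map_sub, map_pow, sub_eq_zero]
  rw [frobenius_def] at hy
  exact hy.symm

/-- The uniformiser facts for `w = ` image of a uniformiser of `R_E`. -/
theorem exists_unifFacts (M : ℕ) {A : ValuationSubring Qb} (E : IntermediateField ℚ Qb)
    [FiniteDimensional ℚ E] {ℓ : ℕ} (hℓ : ℓ.Prime) (hA : A.LiesOverPrime ℓ) :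
    ∃ ϖ : RE A E, Irreducible ϖ ∧ UnifFacts M A E (iotaR M A E ϖ) := by
  haveI : IsDiscreteValuationRing (RE A E) :=
    H602.isDiscreteValuationRing_RE A E hℓ.ne_zero hA
  obtain ⟨ϖ, hϖ⟩ := IsDiscreteValuationRing.exists_irreducible (RE A E)
  have hϖ0 : ϖ ≠ 0 := hϖ.ne_zero
  have hw0 : iotaR M A E ϖ ≠ 0 := fun h => hϖ0 (iotaR_injective (by rw [h, map_zero]))
  have hmax : ∀ r : RE A E, r ∈ IsLocalRing.maximalIdeal (RE A E) → ∃ b : RE A E, r = b * ϖ := by
    intro r hr
    rw [hϖ.maximalIdeal_eq, Ideal.mem_span_singleton] at hr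
    obtain ⟨b, hb⟩ := hr
    exact ⟨b, by rw [hb, mul_comm]⟩
  have hdiv : ∀ b : RE A E, iotaR M A E (b * ϖ) * (iotaR M A E ϖ)⁻¹ = iotaR M A E b := by
    intro b
    rw [map_mul, mul_assoc, mul_inv_cancel₀ hw0, mul_one]
  refine ⟨ϖ, hϖ, ⟨iotaR_mem_Rc ϖ, hw0, ?_, ?_, ?_, ?_⟩⟩
  · intro h
    rcases (iotaR_inv_mem_Rc_iff ϖ).mp h with h0 | hu
    · exact hϖ0 h0
    · exact hϖ.not_isUnit hu
  · intro y hy hyinv
    obtain ⟨r, rfl⟩ := mem_Rc_iff_exists_iotaR.mp hy
    have hr : r ∈ IsLocalRing.maximalIdeal (RE A E) := by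
      rw [IsLocalRing.mem_maximalIdeal, mem_nonunits_iff]
      intro hu
      exact hyinv ((iotaR_inv_mem_Rc_iff r).mpr (Or.inr hu))
    obtain ⟨b, rfl⟩ := hmax r hr
    rw [hdiv]
    exact iotaR_mem_Rc b
  · intro y hy hy0
    obtain ⟨r, rfl⟩ := mem_Rc_iff_exists_iotaR.mp hy
    have hr0 : r ≠ 0 := fun h => hy0 (by rw [h, map_zero])
    obtain ⟨n, u, hu⟩ := IsDiscreteValuationRing.eq_unit_mul_pow_irreducible hr0 hϖ
    refine ⟨n, ?_⟩
    have h1 : iotaR M A E r * ((iotaR M A E ϖ)⁻¹) ^ n = iotaR M A E (u : RE A E) := by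
      rw [hu, map_mul, map_pow, mul_assoc, ← mul_pow, mul_inv_cancel₀ hw0, one_pow, mul_one]
    rw [h1]
    exact ⟨iotaR_mem_Rc _, (iotaR_inv_mem_Rc_iff _).mpr (Or.inr u.isUnit)⟩
  · refine ⟨ℓ, hℓ, ?_, ?_⟩
    · obtain ⟨b, hb⟩ := hmax _ (natCast_mem_maximalIdeal_RE (E := E) hA)
      have h1 : ((ℓ : ℕ) : Om M) = iotaR M A E (b * ϖ) := by
        rw [← hb, map_natCast]
      rw [h1, hdiv]
      exact iotaR_mem_Rc b
    · intro y hy
      obtain ⟨r, rfl⟩ := mem_Rc_iff_exists_iotaR.mp hy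
      obtain ⟨s, hs⟩ := exists_pow_sub_mem_maximalIdeal hℓ hA r
      obtain ⟨b, hb⟩ := hmax _ hs
      refine ⟨iotaR M A E s, iotaR_mem_Rc s, ?_⟩
      have h1 : iotaR M A E r - iotaR M A E s ^ ℓ = iotaR M A E (b * ϖ) := by
        rw [← hb, map_sub, map_pow]
      rw [h1, hdiv]
      exact iotaR_mem_Rc b

end Fermat.Agent.S18.H576

end
end
-- ===== PACK-END S18/H576/Unif.lean

-- ===== PACK-BEGIN S18/H203/TraceRed.lean
section


/-!
# S18 / b1–b2.1 (helper203): traces and discriminants commute with reduction mod `w`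

Setting of `LiftBasis.lean` / `KBasis.lean`: `S` Noetherian integrally closed domain, `w ∈ S`
prime, `K = Frac S`, `F / K` finite, `B` the integral closure of `S` in `F`, finite over `S`;
`S̄ = S ⧸ (w)`, `B̄ = B ⧸ (w) B`, and `b̄` an `S̄`-basis of `B̄`.

* `trace_redB` : if `τ ∈ S` is the trace `Tr_{F/K} β` of `β ∈ B`, then
  `Tr_{B̄ / S̄} (β mod w) = τ mod w`.
* `exists_trace_eq` : the trace of `β ∈ B` lies in `S`.
* `exists_discr_eq` : for lifts `b i ∈ B` of `b̄ i` there is `d ∈ S` which is the discriminant of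
  the `K`-basis `b` of `F` and whose reduction is the discriminant of the `S̄`-basis `b̄` of `B̄`.
-/

set_option autoImplicit false

namespace Fermat.Agent.S18.H203

open Ideal

section General

variable {R A : Type*} [CommRing R] [CommRing A] [Algebra R A]
  {ι : Type*} [Fintype ι] [DecidableEq ι]

/-- Trace from a "matrix up to a scalar": if `r • (x * bas j) = ∑ i, s i j • bas i` for all `j`
then `r * Tr x = ∑ i, s i i`. -/
theorem mul_trace_eq_sum (bas : Module.Basis ι R A) (x : A) (r : R) (s : ι → ι → R)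
    (h : ∀ j, r • (x * bas j) = ∑ i, s i j • bas i) :
    r * Algebra.trace R A x = ∑ i, s i i := by
  rw [Algebra.trace_eq_matrix_trace bas, Matrix.trace, Finset.mul_sum]
  refine Finset.sum_congr rfl fun i _ => ?_
  rw [Matrix.diag_apply, Algebra.leftMulMatrix_eq_repr_mul]
  have h1 := congrArg (fun v => bas.repr v i) (h i)
  simp only [map_smul, Finsupp.smul_apply, smul_eq_mul, map_sum, Finsupp.coe_finsetSum,
    Finset.sum_apply, Module.Basis.repr_self, Finsupp.single_apply, mul_ite, mul_one,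
    mul_zero, Finset.sum_ite_eq', Finset.mem_univ, if_true] at h1
  exact h1

end General

section

variable {S B : Type*} [CommRing S] [IsDomain S] [IsNoetherianRing S] [IsIntegrallyClosed S]
  [CommRing B] [Algebra S B] {ι : Type*} [Fintype ι] [DecidableEq ι]

omit [IsNoetherianRing S] [IsDomain S] [DecidableEq ι] [Fintype ι] in
/-- The trace of an element of the integral closure lies in `S`. -/
theorem exists_trace_eq (K F : Type*) [Field K] [Algebra S K]
    [IsFractionRing S K] [Field F] [Algebra K F] [Algebra S F] [IsScalarTower S K F]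
    [Algebra B F] [IsScalarTower S B F] [IsIntegralClosure B S F] [FiniteDimensional K F]
    (β : B) : ∃ τ : S, algebraMap S K τ = Algebra.trace K F (algebraMap B F β) := by
  have h1 : IsIntegral S (algebraMap B F β) := (IsIntegralClosure.isIntegral S F β).algebraMap
  have h2 : IsIntegral S (Algebra.trace K F (algebraMap B F β)) := Algebra.isIntegral_trace h1
  exact IsIntegrallyClosed.isIntegral_iff.mp h2

omit [IsIntegrallyClosed S] in
/-- **Traces commute with reduction mod `w`.** -/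
theorem trace_redB (K F : Type*) [Field K] [Algebra S K]
    [IsFractionRing S K] [Field F] [Algebra K F] [Algebra S F] [IsScalarTower S K F]
    [Algebra B F] [IsScalarTower S B F] [IsIntegralClosure B S F]
    [Module.Finite S B] [FiniteDimensional K F]
    {w : S} (hw : Prime w)
    (bbar : Module.Basis ι (S ⧸ Ideal.span {w}) (B ⧸ (Ideal.span {w}).map (algebraMap S B)))
    (β : B) (τ : S) (hτ : algebraMap S K τ = Algebra.trace K F (algebraMap B F β)) :
    Algebra.trace (S ⧸ Ideal.span {w}) (B ⧸ (Ideal.span {w}).map (algebraMap S B))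
      (redB (S := S) w β) = redS w τ := by
  -- lifts of the basis
  choose b hb using fun i => Ideal.Quotient.mk_surjective (bbar i)
  have hfun : (fun i => redB (S := S) w (b i)) = ⇑bbar := funext hb
  have hli : LinearIndependent (S ⧸ Ideal.span {w}) fun i => redB (S := S) w (b i) := by
    rw [hfun]; exact bbar.linearIndependent
  have hspan : Submodule.span (S ⧸ Ideal.span {w})
      (Set.range fun i => redB (S := S) w (b i)) = ⊤ := by
    rw [hfun]; exact bbar.span_eq
  -- the `K`-basis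
  set bK : Module.Basis ι K F := basisOfLift K F hw b hli hspan with hbK
  -- Nakayama
  obtain ⟨r, hr1, hr⟩ := exists_smul_mem_span w b hspan
  have hrbar : redS w r = 1 := by
    have : redS w (r - 1) = 0 := Ideal.Quotient.eq_zero_iff_mem.mpr hr1
    rwa [map_sub, map_one, sub_eq_zero] at this
  -- the matrix
  have hex : ∀ j, ∃ c : ι → S, r • (β * b j) = ∑ i, c i • b i := fun j => by
    obtain ⟨c, hc⟩ := (Submodule.mem_span_range_iff_exists_fun S).mp (hr (β * b j))
    exact ⟨c, hc.symm⟩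
  choose s hs using hex
  -- generic fibre
  have hK : ∀ j, algebraMap S K r • (algebraMap B F β * bK j) =
      ∑ i, algebraMap S K (s j i) • bK i := by
    intro j
    have := congrArg (algebraMap B F) (hs j)
    simp only [map_sum, Algebra.smul_def, map_mul, ← IsScalarTower.algebraMap_apply] at this
    simp only [hbK, basisOfLift_apply, Algebra.smul_def, ← IsScalarTower.algebraMap_apply]
    exact this
  have e1 : algebraMap S K r * Algebra.trace K F (algebraMap B F β) =
      ∑ i, algebraMap S K (s i i) :=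
    mul_trace_eq_sum bK (algebraMap B F β) (algebraMap S K r)
      (fun i j => algebraMap S K (s j i)) hK
  have e2 : r * τ = ∑ i, s i i := by
    apply IsFractionRing.injective S K
    rw [map_mul, hτ, e1, map_sum]
  -- special fibre
  have hbar : ∀ j, (1 : S ⧸ Ideal.span {w}) • (redB (S := S) w β * bbar j) =
      ∑ i, redS w (s j i) • bbar i := by
    intro j
    have := congrArg (redB (S := S) w) (hs j)
    rw [redB_smul, hrbar, map_mul, map_sum, hb] at this
    rw [this]
    refine Finset.sum_congr rfl fun i _ => ?_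
    rw [redB_smul, hb]
  have e3 := mul_trace_eq_sum bbar (redB (S := S) w β) 1 (fun i j => redS w (s j i)) hbar
  rw [one_mul] at e3
  rw [e3, ← map_sum, ← e2, map_mul, hrbar, one_mul]

/-- **Discriminants commute with reduction mod `w`.** -/
theorem exists_discr_eq (K F : Type*) [Field K] [Algebra S K]
    [IsFractionRing S K] [Field F] [Algebra K F] [Algebra S F] [IsScalarTower S K F]
    [Algebra B F] [IsScalarTower S B F] [IsIntegralClosure B S F]
    [Module.Finite S B] [FiniteDimensional K F]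
    {w : S} (hw : Prime w)
    (bbar : Module.Basis ι (S ⧸ Ideal.span {w}) (B ⧸ (Ideal.span {w}).map (algebraMap S B)))
    (b : ι → B) (hb : ∀ i, redB (S := S) w (b i) = bbar i) :
    ∃ d : S, algebraMap S K d = Algebra.discr K (fun i => algebraMap B F (b i)) ∧
      redS w d = Algebra.discr (S ⧸ Ideal.span {w}) bbar := by
  choose D hD using fun p : ι × ι => exists_trace_eq (S := S) K F (b p.1 * b p.2)
  refine ⟨(Matrix.of fun i j => D (i, j)).det, ?_, ?_⟩
  · rw [Algebra.discr_def, RingHom.map_det]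
    congr 1
    ext i j
    simp only [RingHom.mapMatrix_apply, Matrix.map_apply, Matrix.of_apply,
      Algebra.traceMatrix_apply, Algebra.traceForm_apply, hD (i, j), map_mul]
  · rw [Algebra.discr_def, RingHom.map_det]
    congr 1
    ext i j
    simp only [RingHom.mapMatrix_apply, Matrix.map_apply, Matrix.of_apply,
      Algebra.traceMatrix_apply, Algebra.traceForm_apply]
    rw [← hb i, ← hb j, ← map_mul]
    exact (trace_redB K F hw bbar (b i * b j) (D (i, j)) (hD (i, j))).symm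

end

end Fermat.Agent.S18.H203

end
-- ===== PACK-END S18/H203/TraceRed.lean

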