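import Mathlib
import Fermat.Prelude.Def_ModularCurve_X0ModL
import Fermat.Statements.S23
import Fermat.Prelude.Def_GroupCohomology_ContinuousUnramified
import Fermat.Prelude.Def_FLTPrelim_Ramification
import Fermat.Prelude.Def_ModularCurve_ArithmeticGalois
import Fermat.Prelude.Thm_ModularCurve_coeffMap_qExpand
import Mathlib.RingTheory.DiscreteValuationRing.Basic
import Mathlib.RingTheory.DedekindDomain.Basic
import Fermat.Agent.Pack.S44.G0E17L3
import Fermat.Agent.Pack.S44.G0E0L1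
import Fermat.Agent.Pack.S44.G0E17L1
import Fermat.Agent.Pack.S44.G0E6L1
import Fermat.Agent.Pack.S44.G0E16L1
import Fermat.Agent.Pack.S44.G0E14L1
import Fermat.Agent.Pack.S44.G0E1L2
import Fermat.Agent.Pack.S44.G0E18L1
import Fermat.Agent.Pack.S44.G0E6L2
import Fermat.Agent.Pack.S44.G0E17L2
import Fermat.Agent.Pack.S44.G0E17L0
import Fermat.Agent.Pack.S44.G0E0L3
import Fermat.Agent.Pack.S44.G1E0L0
import Fermat.Agent.Pack.S44.G0E7L3
import Fermat.Agent.Pack.S44.G0E13L0
import Fermat.Agent.Pack.S44.G0E10L1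
import Fermat.Agent.Pack.S44.G0E18L2
import Fermat.Agent.Pack.S44.G0E8L2
import Fermat.Agent.Pack.S44.G0E18L0
import Fermat.Agent.Pack.S44.G0E18L3
import Fermat.Agent.Pack.S44.G0E0L0
import Fermat.Agent.Pack.S44.G0E15L1
import Fermat.Agent.Pack.S44.G0E16L0
import Fermat.Agent.Pack.S44.G0E15L0

-- ===== PACK-BEGIN S28/H807/Core.lean
section
/-
S28 / helper807 — generic construction: from two convergent `q`-series `g, e ∈ ℤ((q))` whose
families of conjugates are `S`-stable, the polynomial `(X - e)·charpoly(secMat p g)` has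
coefficients in `ℤ[j]`.
-/





set_option autoImplicit false
set_option maxHeartbeats 400000

noncomputable section

open ModularCurve Polynomial Matrix UpperHalfPlane
open scoped MatrixGroups

namespace Fermat.Agent.S28.H807

/-- The level-one polynomial principle (analytic input, provided by the bridge seats):
an `S`-invariant function on `ℍ` with a convergent Laurent `q`-expansion is a polynomial in `j`. -/
def PolyPrinciple : Prop :=
  ∀ (c : LaurentSeries ℂ) (F : ℍ → ℂ), HasQExp c F →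
    (∀ τ : ℍ, F (ModularGroup.S • τ) = F τ) → ∃ P : Polynomial ℂ, c = evalJ ℂ P

section Formal

variable {R : Type*} [CommRing R] (p : ℕ) [NeZero p]

/-- The formal polynomial `(X - e) · charpoly (secMat p g)`. -/
def formalPoly (g e : LaurentSeries R) : Polynomial (LaurentSeries R) :=
  (X - C e) * (secMat p g).charpoly

theorem formalPoly_monic (g e : LaurentSeries R) : (formalPoly p g e).Monic :=
  (monic_X_sub_C e).mul (Matrix.charpoly_monic _)

theorem formalPoly_natDegree [Nontrivial R] (g e : LaurentSeries R) :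
    (formalPoly p g e).natDegree = p + 1 := by
  unfold formalPoly
  rw [Polynomial.Monic.natDegree_mul (monic_X_sub_C e) (Matrix.charpoly_monic _),
    natDegree_X_sub_C, Matrix.charpoly_natDegree_eq_dim, Fintype.card_fin, add_comm]

theorem formalPoly_eval_self (g e : LaurentSeries R) : (formalPoly p g e).eval e = 0 := by
  simp [formalPoly]

theorem formalPoly_map_qExpand_eval (g e : LaurentSeries R) :
    ((formalPoly p g e).map (qExpand R p)).eval g = 0 := by
  unfold formalPoly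
  rw [Polynomial.map_mul, Polynomial.eval_mul, secMat_charpoly_eval, mul_zero]

theorem formalPoly_map_coeffMap {S : Type*} [CommRing S] (φ : R →+* S) (g e : LaurentSeries R) :
    (formalPoly p g e).map (coeffMap φ) = formalPoly p (coeffMap φ g) (coeffMap φ e) := by
  unfold formalPoly
  rw [Polynomial.map_mul, Polynomial.map_sub, Polynomial.map_X, Polynomial.map_C,
    ← Matrix.charpoly_map, secMat_coeffMap]

end Formal

/-- Evaluation at `j` as a ring hom `ℤ[Y] → ℤ((q))`. -/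
def evalJZHom : Polynomial ℤ →+* LaurentSeries ℤ :=
  Polynomial.eval₂RingHom (Int.castRingHom _) (jqModC ℤ)

theorem evalJZHom_apply (Q : Polynomial ℤ) : evalJZHom Q = evalJZ Q := rfl

variable (p : ℕ) [NeZero p]

/-- The coefficients of the formal polynomial lie in `ℤ[j]`. -/
theorem formalPoly_coeff_mem_range (hPP : PolyPrinciple) (gZ eZ : LaurentSeries ℤ)
    (G E : ℍ → ℂ)
    (hG : HasQExp (coeffMap (Int.castRingHom ℂ) gZ) G)
    (hE : HasQExp (coeffMap (Int.castRingHom ℂ) eZ) E)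
    (hS : ∀ τ : ℍ, conjPoly p E G (ModularGroup.S • τ) = conjPoly p E G τ) (k : ℕ) :
    (formalPoly p gZ eZ).coeff k ∈ Set.range evalJZHom := by
  have h1 : HasQExp ((formalPoly p (coeffMap (Int.castRingHom ℂ) gZ)
      (coeffMap (Int.castRingHom ℂ) eZ)).coeff k) (fun τ => (conjPoly p E G τ).coeff k) :=
    hasQExp_coeff_mul_charpoly p _ _ G E hG hE k
  have h2 : ∀ τ : ℍ, (conjPoly p E G (ModularGroup.S • τ)).coeff k = (conjPoly p E G τ).coeff k :=
    fun τ => by rw [hS τ]
  obtain ⟨P, hP⟩ := hPP _ _ h1 h2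
  have h3 : evalJ ℂ P = coeffMap (Int.castRingHom ℂ) ((formalPoly p gZ eZ).coeff k) := by
    rw [← hP, ← formalPoly_map_coeffMap, Polynomial.coeff_map]
  obtain ⟨Q, hQ⟩ := exists_int_poly_of_evalJ_eq P _ h3
  exact ⟨Q, hQ⟩

/-- **Main generic theorem**: a monic lift of the formal polynomial to `ℤ[Y][X]`. -/
theorem exists_lift_formalPoly (hPP : PolyPrinciple) (gZ eZ : LaurentSeries ℤ)
    (G E : ℍ → ℂ)
    (hG : HasQExp (coeffMap (Int.castRingHom ℂ) gZ) G)
    (hE : HasQExp (coeffMap (Int.castRingHom ℂ) eZ) E)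
    (hS : ∀ τ : ℍ, conjPoly p E G (ModularGroup.S • τ) = conjPoly p E G τ) :
    ∃ Φ : Polynomial (Polynomial ℤ), Φ.Monic ∧ Φ.natDegree = p + 1 ∧
      Φ.map evalJZHom = formalPoly p gZ eZ := by
  have hl : formalPoly p gZ eZ ∈ Polynomial.lifts evalJZHom := by
    rw [Polynomial.lifts_iff_coeff_lifts]
    intro k
    exact formalPoly_coeff_mem_range p hPP gZ eZ G E hG hE hS k
  obtain ⟨Φ, h1, h2, h3⟩ :=
    Polynomial.lifts_and_natDegree_eq_and_monic hl (formalPoly_monic p gZ eZ)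
  exact ⟨Φ, h3, by rw [h2, formalPoly_natDegree], h1⟩

end Fermat.Agent.S28.H807

end

end
-- ===== PACK-END S28/H807/Core.lean

-- ===== PACK-BEGIN Lib/NormL/Cls_584.lean
section



/-!
# `NormL`, block CLS (helper584): decomposition of `normL` along ideal classes

* `normL_eq_sum_classL` (CLS1): `normL K χ s = ∑ C, classL K χ C s` for `s > 1`;
* `prinL_eq_mul_classL` (CLS2): if `[J] = C⁻¹` then
  `prinL K χ J s = χ(N J) * N(J)^(-s) * classL K χ C s`.

Statements are those of `Fermat/Agent/Lib/NormL/Interface.lean` (origin/helper44 @c43fef9),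
with `classL` from `Defs.lean`.
-/

namespace Fermat.Agent.Lib.NormL

open NumberField NumberField.mixedEmbedding
open scoped nonZeroDivisors Classical

variable (K : Type*) [Field K] [NumberField K]

/-- The general term of `normL`. -/
noncomputable def normLTerm {m : ℕ} (χ : DirichletCharacter ℂ m) (s : ℝ)
    (I : (Ideal (𝓞 K))⁰) : ℂ :=
  χ ((Ideal.absNorm (I : Ideal (𝓞 K)) : ℕ) : ZMod m) *
    (((Ideal.absNorm (I : Ideal (𝓞 K)) : ℝ) ^ (-s) : ℝ) : ℂ)

lemma normL_eq_tsum_normLTerm {m : ℕ} (χ : DirichletCharacter ℂ m) (s : ℝ) :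
    normL K χ s = ∑' I : (Ideal (𝓞 K))⁰, normLTerm K χ s I := rfl

lemma classL_eq_tsum_normLTerm {m : ℕ} (χ : DirichletCharacter ℂ m) (C : ClassGroup (𝓞 K))
    (s : ℝ) :
    classL K χ C s = ∑' I : {I : (Ideal (𝓞 K))⁰ // ClassGroup.mk0 I = C}, normLTerm K χ s I.1 :=
  rfl

lemma prinL_eq_tsum_normLTerm {m : ℕ} (χ : DirichletCharacter ℂ m) (A : Ideal (𝓞 K)) (s : ℝ) :
    prinL K χ A s =
      ∑' I : {I : (Ideal (𝓞 K))⁰ // (I : Ideal (𝓞 K)).IsPrincipal ∧ A ∣ (I : Ideal (𝓞 K))},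
        normLTerm K χ s I.1 := rfl

lemma norm_normLTerm_le {m : ℕ} (χ : DirichletCharacter ℂ m) (s : ℝ) (I : (Ideal (𝓞 K))⁰) :
    ‖normLTerm K χ s I‖ ≤ (Ideal.absNorm (I : Ideal (𝓞 K)) : ℝ) ^ (-s) := by
  unfold normLTerm
  rw [norm_mul, Complex.norm_real, Real.norm_eq_abs,
    abs_of_nonneg (Real.rpow_nonneg (Nat.cast_nonneg _) _)]
  calc ‖χ ((Ideal.absNorm (I : Ideal (𝓞 K)) : ℕ) : ZMod m)‖ *
        (Ideal.absNorm (I : Ideal (𝓞 K)) : ℝ) ^ (-s)
      ≤ 1 * (Ideal.absNorm (I : Ideal (𝓞 K)) : ℝ) ^ (-s) :=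
        mul_le_mul_of_nonneg_right (DirichletCharacter.norm_le_one χ _)
          (Real.rpow_nonneg (Nat.cast_nonneg _) _)
    _ = _ := one_mul _

/-- Summability of the terms of `normL` for `s > 1`. -/
theorem summable_normLTerm {m : ℕ} (χ : DirichletCharacter ℂ m) {s : ℝ} (hs : 1 < s) :
    Summable (normLTerm K χ s) := by
  have h1 : Summable (fun I : (Ideal (𝓞 K))⁰ ↦ (Ideal.absNorm (I : Ideal (𝓞 K)) : ℝ) ^ (-s)) :=
    (Fermat.Agent.Lib.EulerProd.summable_absNorm_rpow K hs).comp_injective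
      Subtype.val_injective
  exact Summable.of_norm_bounded h1 (norm_normLTerm_le K χ s)

/-- CLS1 -/
theorem normL_eq_sum_classL {m : ℕ} (χ : DirichletCharacter ℂ m) {s : ℝ} (hs : 1 < s) :
    normL K χ s = ∑ C : ClassGroup (𝓞 K), classL K χ C s := by
  have hsum := summable_normLTerm K χ hs
  set e := Equiv.sigmaFiberEquiv (fun I : (Ideal (𝓞 K))⁰ ↦ ClassGroup.mk0 I) with he
  have hsum' : Summable (fun x : (Σ C : ClassGroup (𝓞 K),
      {I : (Ideal (𝓞 K))⁰ // ClassGroup.mk0 I = C}) ↦ normLTerm K χ s (e x)) :=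
    e.summable_iff.mpr hsum
  rw [normL_eq_tsum_normLTerm, ← e.tsum_eq (normLTerm K χ s), hsum'.tsum_sigma, tsum_fintype]
  rfl

/-- multiplicativity of the general term -/
lemma normLTerm_mul {m : ℕ} (χ : DirichletCharacter ℂ m) (s : ℝ) (I J : (Ideal (𝓞 K))⁰) :
    normLTerm K χ s (I * J) = normLTerm K χ s I * normLTerm K χ s J := by
  unfold normLTerm
  have h1 : Ideal.absNorm ((I * J : (Ideal (𝓞 K))⁰) : Ideal (𝓞 K)) =
      Ideal.absNorm (I : Ideal (𝓞 K)) * Ideal.absNorm (J : Ideal (𝓞 K)) := by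
    rw [Submonoid.coe_mul, map_mul]
  rw [h1, Nat.cast_mul, map_mul, Nat.cast_mul,
    Real.mul_rpow (Nat.cast_nonneg _) (Nat.cast_nonneg _), Complex.ofReal_mul]
  ring

/-- The bijection between the ideals of the class `C` and the principal ideals divisible by
`J`, where `[J] = C⁻¹`. -/
noncomputable def classEquivPrin (C : ClassGroup (𝓞 K)) (J : (Ideal (𝓞 K))⁰)
    (hJ : ClassGroup.mk0 J = C⁻¹) :
    {I : (Ideal (𝓞 K))⁰ // ClassGroup.mk0 I = C} ≃
      {I : (Ideal (𝓞 K))⁰ // (I : Ideal (𝓞 K)).IsPrincipal ∧ J.1 ∣ (I : Ideal (𝓞 K))} where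
  toFun I := ⟨J * I.1, by
    constructor
    · rw [← ClassGroup.mk0_eq_one_iff (J * I.1).2, map_mul, hJ, I.2, inv_mul_cancel]
    · rw [Submonoid.coe_mul]
      exact Dvd.intro _ rfl⟩
  invFun I := ⟨⟨(I.2.2).choose, by
      rw [mem_nonZeroDivisors_iff_ne_zero]
      intro h0
      have h := (I.2.2).choose_spec
      rw [h0, mul_zero] at h
      exact nonZeroDivisors.coe_ne_zero I.1 h⟩, by
    have h := (I.2.2).choose_spec
    have hprin : ClassGroup.mk0 I.1 = 1 := (ClassGroup.mk0_eq_one_iff I.1.2).mpr I.2.1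
    set I' : (Ideal (𝓞 K))⁰ := ⟨(I.2.2).choose, by
      rw [mem_nonZeroDivisors_iff_ne_zero]
      intro h0
      rw [h0, mul_zero] at h
      exact nonZeroDivisors.coe_ne_zero I.1 h⟩ with hI'
    have h2 : I.1 = J * I' := Subtype.ext (by rw [Submonoid.coe_mul]; exact h)
    have h3 : ClassGroup.mk0 J * ClassGroup.mk0 I' = 1 := by
      rw [← map_mul, ← h2]; exact hprin
    rw [hJ] at h3
    calc ClassGroup.mk0 I' = C * (C⁻¹ * ClassGroup.mk0 I') := by rw [mul_inv_cancel_left]
      _ = C := by rw [h3, mul_one]⟩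
  left_inv I := by
    apply Subtype.ext
    apply Subtype.ext
    have hmem : (J : Ideal (𝓞 K)) ∣ ((J * I.1 : (Ideal (𝓞 K))⁰) : Ideal (𝓞 K)) := by
      rw [Submonoid.coe_mul]; exact Dvd.intro _ rfl
    have h : ((J * I.1 : (Ideal (𝓞 K))⁰) : Ideal (𝓞 K)) = J * hmem.choose := hmem.choose_spec
    have h' : (J : Ideal (𝓞 K)) * (I.1 : Ideal (𝓞 K)) = J * hmem.choose :=
      (Submonoid.coe_mul _ J I.1).symm.trans h
    have hJ0 : (J : Ideal (𝓞 K)) ≠ 0 := nonZeroDivisors.coe_ne_zero J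
    exact (mul_left_cancel₀ hJ0 h').symm
  right_inv I := by
    apply Subtype.ext
    apply Subtype.ext
    rw [Submonoid.coe_mul]
    exact (I.2.2).choose_spec.symm

set_option linter.unusedVariables false in
/-- CLS2: ideals in the class `C` correspond to principal ideals divisible by `J`, where `J`
is in the class `C⁻¹`. -/
theorem prinL_eq_mul_classL {m : ℕ} (χ : DirichletCharacter ℂ m) (C : ClassGroup (𝓞 K))
    (J : (Ideal (𝓞 K))⁰) (hJ : ClassGroup.mk0 J = C⁻¹) {s : ℝ} (hs : 1 < s) :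
    prinL K χ (J : Ideal (𝓞 K)) s =
      χ ((Ideal.absNorm (J : Ideal (𝓞 K)) : ℕ) : ZMod m) *
        (((Ideal.absNorm (J : Ideal (𝓞 K)) : ℝ) ^ (-s) : ℝ) : ℂ) * classL K χ C s := by
  rw [prinL_eq_tsum_normLTerm, classL_eq_tsum_normLTerm,
    ← (classEquivPrin K C J hJ).tsum_eq, ← tsum_mul_left]
  refine tsum_congr fun I ↦ ?_
  exact normLTerm_mul K χ s J I.1

end Fermat.Agent.Lib.NormL

end
-- ===== PACK-END Lib/NormL/Cls_584.lean

-- ===== PACK-BEGIN S13/H13/T7.lean
section
/-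
S13, piece T7 (final assembly, helper13): `E[p](ℚ̄)` of the Frey curve has no nonzero
Galois-fixed point.

Inputs: helper11 (`H11.no_rational_point_of_order_p_of_nodeLaw`: the 2-adic argument modulo the
node law), helper511 (`Comp2.exists_nodeModel2`, `NodeModel2.torsion_near_node`: the node law in
every residue characteristic), the Galois descent of a fixed point (after helper187), landed
S05 (`val_int_eq_one`, ...) and S54 (`exists_valuationSubring_liesOver`).
-/






set_option autoImplicit false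

namespace Fermat.Agent.S13.H13

open WeierstrassCurve WeierstrassCurve.Affine WeierstrassCurve.Affine.Point
open Fermat.Agent.S05.Assemble

/-! ### Galois descent of a fixed point -/

/-- An element of `ℚ̄` fixed by the whole Galois group is rational. -/
lemma exists_rat_of_fixed (z : AlgebraicClosure ℚ)
    (hz : ∀ σ : (AlgebraicClosure ℚ) ≃ₐ[ℚ] (AlgebraicClosure ℚ), σ z = z) :
    ∃ r : ℚ, algebraMap ℚ (AlgebraicClosure ℚ) r = z := by
  have := Fermat.Agent.S54.isGalois_algebraicClosure_rat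
  exact (InfiniteGalois.mem_range_algebraMap_iff_fixed (k := ℚ) (K := AlgebraicClosure ℚ) z).mpr hz

variable (P : FreyPackage)

lemma smul_some13 (σ : (AlgebraicClosure ℚ) ≃ₐ[ℚ] (AlgebraicClosure ℚ))
    {x y : AlgebraicClosure ℚ} (h : (P.freyCurve⁄(AlgebraicClosure ℚ)).Nonsingular x y) :
    σ • (Point.some x y h : (P.freyCurve⁄(AlgebraicClosure ℚ)).Point) =
      Point.some (σ x) (σ y)
        ((Affine.baseChange_nonsingular P.freyCurve (f := σ.toAlgHom) σ.injective x y).mpr h) :=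
  rfl

/-- A Galois-fixed point of the Frey curve over `ℚ̄` is the base change of a point over `ℚ`. -/
lemma exists_rat_point_of_fixed (Q : (P.freyCurve⁄(AlgebraicClosure ℚ)).Point)
    (hQ : ∀ σ : (AlgebraicClosure ℚ) ≃ₐ[ℚ] (AlgebraicClosure ℚ), σ • Q = Q) :
    ∃ Q0 : (P.freyCurve⁄ℚ).Point,
      Point.map (W' := P.freyCurve) (Algebra.ofId ℚ (AlgebraicClosure ℚ)) Q0 = Q := by
  cases Q with
  | zero => exact ⟨0, rfl⟩
  | some x y hxy =>
    have hx : ∀ σ : (AlgebraicClosure ℚ) ≃ₐ[ℚ] (AlgebraicClosure ℚ), σ x = x := fun σ => by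
      have := hQ σ
      rw [smul_some13] at this
      exact (Point.some.inj this).1
    have hy : ∀ σ : (AlgebraicClosure ℚ) ≃ₐ[ℚ] (AlgebraicClosure ℚ), σ y = y := fun σ => by
      have := hQ σ
      rw [smul_some13] at this
      exact (Point.some.inj this).2
    obtain ⟨x0, rfl⟩ := exists_rat_of_fixed x hx
    obtain ⟨y0, rfl⟩ := exists_rat_of_fixed y hy
    have h0 : (P.freyCurve⁄ℚ).Nonsingular x0 y0 :=
      (Affine.baseChange_nonsingular P.freyCurve (f := Algebra.ofId ℚ (AlgebraicClosure ℚ))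
        (Algebra.ofId ℚ (AlgebraicClosure ℚ)).injective x0 y0).mp hxy
    exact ⟨Point.some x0 y0 h0, rfl⟩

/-- **T7 bridge.** If the Frey curve has no nonzero rational point killed by `p`, then there is
no nonzero Galois-fixed point in `E[p](ℚ̄)`. -/
theorem T7_of_no_rational_torsion
    (h : ∀ Q0 : (P.freyCurve⁄ℚ).Point, (P.p : ℤ) • Q0 = 0 → Q0 = 0) :
    ∀ x : Skel.Vp P,
      (∀ σ : (AlgebraicClosure ℚ) ≃ₐ[ℚ] (AlgebraicClosure ℚ), σ • x = x) → x = 0 := by
  intro x hx
  have hfix : ∀ σ : (AlgebraicClosure ℚ) ≃ₐ[ℚ] (AlgebraicClosure ℚ),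
      σ • (x : (P.freyCurve⁄(AlgebraicClosure ℚ)).Point) = x := fun σ =>
    congrArg Subtype.val (hx σ)
  obtain ⟨Q0, hQ0⟩ := exists_rat_point_of_fixed P (x : (P.freyCurve⁄(AlgebraicClosure ℚ)).Point) hfix
  have hx0 : (P.p : ℤ) • (x : (P.freyCurve⁄(AlgebraicClosure ℚ)).Point) = 0 :=
    (Submodule.mem_torsionBy_iff _ _).mp x.2
  have h1 : Point.map (W' := P.freyCurve) (Algebra.ofId ℚ (AlgebraicClosure ℚ))
      ((P.p : ℤ) • Q0) = 0 := by
    rw [map_zsmul, hQ0, hx0]
  have h2 : (P.p : ℤ) • Q0 = 0 :=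
    Point.map_injective (W' := P.freyCurve) (Algebra.ofId ℚ (AlgebraicClosure ℚ))
      (by rw [h1]; rfl)
  have h3 := h Q0 h2
  apply Subtype.ext
  show (x : (P.freyCurve⁄(AlgebraicClosure ℚ)).Point) = 0
  rw [← hQ0, h3]; rfl

/-! ### The node law at `2` for the Frey curve -/

section nodeLaw

variable {A : ValuationSubring (AlgebraicClosure ℚ)}

lemma frey_b₂_eq :
    (P.freyCurve⁄(AlgebraicClosure ℚ)).b₂ = ((P.b ^ P.p - P.a ^ P.p : ℤ) : AlgebraicClosure ℚ) := by
  simp only [WeierstrassCurve.b₂, frey_a₁, frey_a₂, fA, fB]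
  push_cast
  ring

lemma frey_val_b₂ (hA : A.LiesOverPrime 2) :
    A.valuation (P.freyCurve⁄(AlgebraicClosure ℚ)).b₂ = 1 := by
  rw [frey_b₂_eq]
  apply val_int_eq_one hA Nat.prime_two
  have ha : Odd (P.a ^ P.p) := (H11.frey_a_odd P).pow
  have hb : Even (P.b ^ P.p) := (H11.frey_b_even P).pow_of_ne_zero P.hp0
  have hodd : Odd (P.b ^ P.p - P.a ^ P.p) := hb.sub_odd ha
  intro hdvd
  have : Even (P.b ^ P.p - P.a ^ P.p) := even_iff_two_dvd.mpr (by exact_mod_cast hdvd)
  exact (Int.not_even_iff_odd.mpr hodd) this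

lemma frey_a₄_ne_zero13 : (P.freyCurve⁄(AlgebraicClosure ℚ)).a₄ ≠ 0 := by
  rw [frey_a₄]
  exact div_ne_zero (mul_ne_zero (neg_ne_zero.mpr (fA_ne_zero P)) (fB_ne_zero P)) (by norm_num)

lemma frey_val_a₄_lt_one (hA : A.LiesOverPrime 2) :
    A.valuation (P.freyCurve⁄(AlgebraicClosure ℚ)).a₄ < 1 := by
  have h2 : (2 : ℤ) ∣ P.b := (ZMod.intCast_zmod_eq_zero_iff_dvd P.b 2).1 P.hb2
  obtain ⟨s, hs⟩ := h2
  have hp5 := P.hp5
  obtain ⟨k, hk⟩ : ∃ k, P.p = 5 + k := ⟨P.p - 5, by omega⟩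
  have hB : P.b ^ P.p = 32 * (2 ^ k * s ^ P.p) := by
    rw [hs, mul_pow]
    conv_lhs => rw [hk, pow_add]
    rw [← hk]
    ring
  have e : (P.freyCurve⁄(AlgebraicClosure ℚ)).a₄ =
      ((-(P.a ^ P.p) * (2 * (2 ^ k * s ^ P.p)) : ℤ) : AlgebraicClosure ℚ) := by
    rw [frey_a₄]
    simp only [fA, fB]
    rw [hB]
    push_cast
    ring
  rw [e]
  exact val_int_lt_one hA ⟨-(P.a ^ P.p) * (2 ^ k * s ^ P.p), by push_cast; ring⟩

/-- The node law (helper11's `NodeLaw`) holds for the Frey curve at every valuation ring of `ℚ̄`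
over `2` (helper511's component homomorphism). -/
theorem frey_nodeLaw (hA : A.LiesOverPrime 2) :
    H11.NodeLaw A.valuation (P.freyCurve⁄(AlgebraicClosure ℚ)) P.p := by
  intro x y h hP hx
  obtain ⟨M⟩ := Comp2.exists_nodeModel2 (v := A.valuation) (P.freyCurve⁄(AlgebraicClosure ℚ))
    (frey_a₃ P) (frey_a₆ P) (frey_val_b₂ P hA) (frey_val_a₄_lt_one P hA) (frey_a₄_ne_zero13 P)
  obtain ⟨hlo, j, hj⟩ := M.torsion_near_node P.hp_odd h hP hx
  exact ⟨hlo, (j : ℤ), by rw [hj, pow_mul, zpow_natCast]⟩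

end nodeLaw

/-- **T7** (frozen shape): `E[p](ℚ̄)` of the Frey curve has no nonzero Galois-fixed point. -/
theorem frey_T7 (x : Skel.Vp P)
    (hx : ∀ σ : (AlgebraicClosure ℚ) ≃ₐ[ℚ] (AlgebraicClosure ℚ), σ • x = x) : x = 0 := by
  obtain ⟨A, hA⟩ := Fermat.Agent.S54.exists_valuationSubring_liesOver 2 Nat.prime_two
  have h2 : A.valuation (2 : AlgebraicClosure ℚ) < 1 := by
    have := (A.mem_nonunits_iff).mp hA
    simpa using this
  refine T7_of_no_rational_torsion P (fun Q0 hQ0 => ?_) x hx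
  rw [natCast_zsmul] at hQ0
  exact H11.no_rational_point_of_order_p_of_nodeLaw P A.valuation h2 (frey_nodeLaw P hA) Q0 hQ0

end Fermat.Agent.S13.H13

end
-- ===== PACK-END S13/H13/T7.lean

-- ===== PACK-BEGIN Lib/RR/H864/FF1Bridge.lean
section




/-!
# RR library, bridge: `FF1 K F` in characteristic zero

For `K` algebraically closed of characteristic `0` and `F` finite over `K(x)`, `x` transcendental:
`HasPrincipalDivisors K F` (divisors of functions exist and have degree `0`), every place has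
degree one, and there is a place.  Hence `FF1 K F`.
-/

set_option autoImplicit false

noncomputable section

open AlgebraicCurve IntermediateField

namespace Fermat.Agent.Lib.RR.H864

variable {K F : Type*} [Field K] [Field F] [Algebra K F] [IsAlgClosed K] [CharZero K]

/-- divisors of functions exist (finitely many zeros and poles) -/
theorem exists_divisor (x : F) (hx : Transcendental K x)
    [FiniteDimensional ↥(IntermediateField.adjoin K {x}) F] (f : F) (hf : f ≠ 0) :
    ∃ D : Divisor K F, (∀ v : Place K F, D v = v.ord f) ∧ Divisor.degree D = 0 := by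
  classical
  suffices h : ∃ D : Divisor K F, ∀ v : Place K F, D v = v.ord f by
    obtain ⟨D, hD⟩ := h
    exact ⟨D, hD, S24.H864.degree_principal x hx f hf D hD⟩
  by_cases hfK : f ∈ (algebraMap K F).range
  · obtain ⟨c, rfl⟩ := hfK
    exact ⟨0, fun v => by rw [S24.FF.ord_algebraMap v c]; rfl⟩
  · have hft : Transcendental K f := S24.FF.transcendental_of_not_mem_range hfK
    haveI : FiniteDimensional ↥(IntermediateField.adjoin K {f}) F :=
      S24.FF.finiteDimensional_adjoin_of_transcendental hx hft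
    haveI : FiniteDimensional ↥(IntermediateField.adjoin K {f⁻¹}) F := by
      rw [S24.H864.adjoin_simple_inv_eq]; infer_instance
    obtain ⟨sp, hsp⟩ := S24.H864.exists_finset_zeros f hft
    obtain ⟨sn, hsn⟩ := S24.H864.exists_finset_zeros f⁻¹ (S24.H864.transcendental_inv hft)
    refine ⟨Finsupp.onFinset (sp ∪ sn) (fun v => v.ord f) ?_, fun v => rfl⟩
    intro v hv
    rw [Finset.mem_union, hsp, hsn, Place.ord_inv]
    omega

theorem hasPrincipalDivisors (x : F) (hx : Transcendental K x)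
    [FiniteDimensional ↥(IntermediateField.adjoin K {x}) F] : HasPrincipalDivisors K F :=
  ⟨fun f hf => exists_divisor x hx f hf⟩

/-- there is a place (a zero of `x`) -/
theorem nonempty_place (x : F) (hx : Transcendental K x)
    [FiniteDimensional ↥(IntermediateField.adjoin K {x}) F] : Nonempty (Place K F) := by
  obtain ⟨s, _, hsum⟩ := S24.H864.fundamental_eq x hx
  by_contra hne
  rw [not_nonempty_iff] at hne
  have h0 : ∑ v ∈ s, v.ord x = 0 := Finset.sum_eq_zero fun v _ => (hne.false v).elim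
  rw [h0] at hsum
  have hpos : 0 < Module.finrank ↥(IntermediateField.adjoin K {x}) F := Module.finrank_pos
  omega

/-- **Bridge.**  `FF1 K F` for function fields of one variable over an algebraically closed field
of characteristic zero. -/
theorem ff1 (x : F) (hx : Transcendental K x)
    [hfin : FiniteDimensional ↥(IntermediateField.adjoin K {x}) F] : FF1 K F where
  hpd := hasPrincipalDivisors x hx
  deg_eq_one := fun v => S24.FF.deg_eq_one v hx
  nonempty_place := nonempty_place x hx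
  exists_finite := ⟨x, hx, hfin⟩

end Fermat.Agent.Lib.RR.H864

end
end
-- ===== PACK-END Lib/RR/H864/FF1Bridge.lean

-- ===== PACK-BEGIN S29/H882/FieldDeg.lean
section


/-!
# S29 / MERO (helper882), part 2: generic algebra

* `exists_relation_of_coeffMap_ne_zero`: descent of a NONZERO bivariate relation along a coefficient
  embedding (generalises the monic case of the landed `S24.Deg457`).
* `exists_clear_denominators`: a polynomial over `K(j)` becomes, after multiplication by a nonzero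
  element of `K[j]`, the image of a bivariate polynomial.
* `algDeg_of_mem_adjoin`: if every element of a subalgebra `B ∋ j` of `K((q))` is algebraic of
  degree `≤ n` over `K[j]`, so is every element of the field generated by `B`.
-/

set_option autoImplicit false

noncomputable section

open Polynomial ModularCurve IntermediateField

namespace Fermat.Agent.S29.H882

open Fermat.Agent.S24 Fermat.Agent.S24.Deg457

section Descent

variable {K L : Type*} [Field K] [Field L]

/-- **Descent** of a nonzero relation of degree `≤ n` over `L[ι J]` for `ι a` to a nonzero relation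
of degree `≤ n` over `K[J]` for `a`. -/
theorem exists_relation_of_coeffMap_ne_zero (ι : K →+* L) (J a : LaurentSeries K) (n : ℕ)
    (P : L[X][X]) (hP : P ≠ 0) (hn : P.natDegree ≤ n)
    (h0 : P.eval₂ (evJ (coeffMap ι J)) (coeffMap ι a) = 0) :
    ∃ Q : K[X][X], Q ≠ 0 ∧ Q.natDegree ≤ n ∧ Q.eval₂ (evJ J) a = 0 := by
  classical
  set D : ℕ := P.support.sup fun k => (P.coeff k).natDegree with hD
  have hDle : ∀ k, (P.coeff k).natDegree ≤ D := by
    intro k
    by_cases hk : k ∈ P.support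
    · exact Finset.le_sup (f := fun k => (P.coeff k).natDegree) hk
    · rw [notMem_support_iff.mp hk]; simp
  let v : Fin (D + 1) × Fin (n + 1) → LaurentSeries K := fun p => J ^ (p.1 : ℕ) * a ^ (p.2 : ℕ)
  have hnot : ¬ LinearIndependent K v := by
    intro hv
    have hw := linearIndependent_coeffMap ι v hv
    rw [Fintype.linearIndependent_iff] at hw
    -- a nonzero coefficient of `P`
    have hlc : P.coeff P.natDegree ≠ 0 := by
      rw [coeff_natDegree]; exact leadingCoeff_ne_zero.mpr hP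
    have hlc2 : (P.coeff P.natDegree).coeff (P.coeff P.natDegree).natDegree ≠ 0 := by
      rw [coeff_natDegree]; exact leadingCoeff_ne_zero.mpr hlc
    have key := hw (fun p => (P.coeff p.2).coeff p.1) ?_
      (⟨(P.coeff P.natDegree).natDegree, Nat.lt_succ_of_le (hDle _)⟩,
        ⟨P.natDegree, Nat.lt_succ_of_le hn⟩)
    · exact hlc2 key
    · rw [Fintype.sum_prod_type_right]
      rw [eval₂_eq_sum_range' _ (n := n + 1) (Nat.lt_succ_of_le hn)] at h0
      rw [← h0, Finset.sum_range]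
      refine Finset.sum_congr rfl fun k _ => ?_
      rw [evJ_apply, aeval_eq_sum_range' (n := D + 1) (Nat.lt_succ_of_le (hDle _)),
        Finset.sum_range, Finset.sum_mul]
      refine Finset.sum_congr rfl fun i _ => ?_
      simp only [v, map_mul, map_pow]
      rw [hsmul_eq_algebraMap_mul, Algebra.smul_def, mul_assoc]
  rw [Fintype.not_linearIndependent_iff] at hnot
  obtain ⟨g, hg, p, hp⟩ := hnot
  refine ⟨tablePoly g, ?_, tablePoly_natDegree_le g, ?_⟩
  · intro h
    apply hp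
    rw [← tablePoly_coeff_coeff g p.1 p.2, h]
    simp
  · rw [tablePoly_eval₂]
    exact hg

end Descent

section Clear

variable {K M : Type*} [Field K] [Field M] [Algebra K M]

/-- Clearing denominators of a polynomial over `K(j)`. -/
theorem exists_clear_denominators (j : M) (p : Polynomial (IntermediateField.adjoin K {j})) :
    ∃ (t : K[X]) (Q : K[X][X]), aeval (AdjoinSimple.gen K j) t ≠ 0 ∧
      Q.map ((aeval (AdjoinSimple.gen K j) : K[X] →ₐ[K] K⟮j⟯).toRingHom)
        = C (aeval (AdjoinSimple.gen K j) t) * p := by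
  set φ : K[X] →+* K⟮j⟯ := (aeval (AdjoinSimple.gen K j) : K[X] →ₐ[K] K⟮j⟯).toRingHom with hφ
  have hφa : ∀ t : K[X], φ t = aeval (AdjoinSimple.gen K j) t := fun _ => rfl
  induction p using Polynomial.induction_on' with
  | add p q hp hq =>
    obtain ⟨t₁, Q₁, h1, h1'⟩ := hp
    obtain ⟨t₂, Q₂, h2, h2'⟩ := hq
    refine ⟨t₁ * t₂, C t₂ * Q₁ + C t₁ * Q₂, ?_, ?_⟩
    · rw [map_mul]; exact mul_ne_zero h1 h2
    · rw [Polynomial.map_add, Polynomial.map_mul, Polynomial.map_mul, Polynomial.map_C,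
        Polynomial.map_C, h1', h2', hφa, hφa, map_mul, C_mul]
      ring
  | monomial k c =>
    obtain ⟨r, s, hrs⟩ := (IntermediateField.mem_adjoin_simple_iff K (c : M)).mp c.2
    by_cases hs : aeval (AdjoinSimple.gen K j) s = 0
    · -- then `c = 0`
      have hs' : aeval j s = 0 := by
        have := congrArg (algebraMap K⟮j⟯ M) hs
        rwa [← aeval_algebraMap_apply, AdjoinSimple.algebraMap_gen, map_zero] at this
      have hc : c = 0 := by
        apply Subtype.ext
        rw [hrs, hs', div_zero]; rfl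
      refine ⟨1, 0, ?_, ?_⟩
      · rw [map_one]; exact one_ne_zero
      · rw [hc]; simp
    · refine ⟨s, monomial k r, hs, ?_⟩
      rw [Polynomial.map_monomial, C_mul_monomial]
      congr 1
      rw [hφa]
      apply Subtype.ext
      have h1 : ((aeval (AdjoinSimple.gen K j) r : K⟮j⟯) : M) = aeval j r := by
        have := (aeval_algebraMap_apply M (AdjoinSimple.gen K j) r).symm
        rwa [AdjoinSimple.algebraMap_gen] at this
      have h2 : ((aeval (AdjoinSimple.gen K j) s : K⟮j⟯) : M) = aeval j s := by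
        have := (aeval_algebraMap_apply M (AdjoinSimple.gen K j) s).symm
        rwa [AdjoinSimple.algebraMap_gen] at this
      have hs' : aeval j s ≠ 0 := by
        intro h
        apply hs
        apply Subtype.ext
        rw [h2, h]; rfl
      rw [h1]
      show aeval j r = ((aeval (AdjoinSimple.gen K j) s : K⟮j⟯) : M) * (c : M)
      rw [h2, hrs]
      field_simp

end Clear

section Alg

variable {K : Type*} [Field K] [Algebra ℚ K]

theorem aeval_JK_mem (B : Subalgebra K (LaurentSeries K)) (hJ : JK K ∈ B) (t : K[X]) :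
    aeval (JK K) t ∈ B := by
  rw [aeval_def, eval₂_eq_sum_range]
  refine Subalgebra.sum_mem _ fun i _ => ?_
  exact Subalgebra.mul_mem _ (Subalgebra.algebraMap_mem _ _) (Subalgebra.pow_mem _ hJ _)

theorem eval₂_mem_subalgebra (B : Subalgebra K (LaurentSeries K)) (hJ : JK K ∈ B)
    (Q : K[X][X]) {s : LaurentSeries K} (hs : s ∈ B) :
    Q.eval₂ (evJ (JK K)) s ∈ B := by
  rw [eval₂_eq_sum_range]
  refine Subalgebra.sum_mem _ fun i _ => ?_
  exact Subalgebra.mul_mem _ (aeval_JK_mem B hJ _) (Subalgebra.pow_mem _ hs _)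

/-- a nonzero algebraic element of `B` has an "inverse up to a polynomial in `j`" in `B`. -/
theorem exists_mul_eq_aeval_subalgebra (B : Subalgebra K (LaurentSeries K)) (hJ : JK K ∈ B)
    {n : ℕ} {s : LaurentSeries K} (hs : s ∈ B) (hs0 : s ≠ 0)
    (ha : AlgDeg K n s) : ∃ g ∈ B, ∃ t : K[X], t ≠ 0 ∧ s * g = aeval (JK K) t := by
  obtain ⟨Q, hQ0, -, hQ⟩ := ha
  have key : ∀ m : ℕ, ∀ Q : K[X][X], Q.natDegree ≤ m → Q ≠ 0 → Q.eval₂ (evJ (JK K)) s = 0 →
      ∃ Q₁ : K[X][X], Q₁.coeff 0 ≠ 0 ∧ Q₁.eval₂ (evJ (JK K)) s = 0 := by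
    intro m
    induction m with
    | zero =>
      intro Q hdeg hQ0 hQ
      refine ⟨Q, ?_, hQ⟩
      intro h0
      apply hQ0
      rw [eq_C_of_natDegree_le_zero hdeg, h0, map_zero]
    | succ m ih =>
      intro Q hdeg hQ0 hQ
      by_cases h0 : Q.coeff 0 = 0
      · have hdiv : Q = divX Q * X := by
          conv_lhs => rw [← divX_mul_X_add Q, h0, map_zero, add_zero]
        have hd0 : divX Q ≠ 0 := by
          intro h; apply hQ0; rw [hdiv, h, zero_mul]
        have hev : (divX Q).eval₂ (evJ (JK K)) s = 0 := by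
          rw [hdiv, eval₂_mul, eval₂_X] at hQ
          rcases mul_eq_zero.mp hQ with h | h
          · exact h
          · exact absurd h hs0
        refine ih (divX Q) ?_ hd0 hev
        rw [natDegree_divX_eq_natDegree_tsub_one]
        omega
      · exact ⟨Q, h0, hQ⟩
  obtain ⟨Q₁, h0, hQ₁⟩ := key Q.natDegree Q le_rfl hQ0 hQ
  refine ⟨-(divX Q₁).eval₂ (evJ (JK K)) s, Subalgebra.neg_mem _ (eval₂_mem_subalgebra B hJ _ hs),
    Q₁.coeff 0, h0, ?_⟩
  have hsplit : Q₁.eval₂ (evJ (JK K)) s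
      = (divX Q₁).eval₂ (evJ (JK K)) s * s + aeval (JK K) (Q₁.coeff 0) := by
    conv_lhs => rw [← divX_mul_X_add Q₁]
    rw [eval₂_add, eval₂_mul, eval₂_X, eval₂_C, evJ_apply]
  rw [hQ₁] at hsplit
  linear_combination hsplit

/-- If every element of the subalgebra `B ∋ j` is algebraic of degree `≤ n` over `K[j]`, so is
every element of the field generated by `B`. -/
theorem algDeg_of_mem_adjoin (B : Subalgebra K (LaurentSeries K)) (hJ : JK K ∈ B) {n : ℕ}
    (hB : ∀ b ∈ B, AlgDeg K n b) {x : LaurentSeries K}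
    (hx : x ∈ IntermediateField.adjoin K (B : Set (LaurentSeries K))) : AlgDeg K n x := by
  rw [IntermediateField.mem_adjoin_iff_div] at hx
  obtain ⟨r, hr, s, hs, rfl⟩ := hx
  rw [Algebra.adjoin_eq] at hr hs
  by_cases hs0 : s = 0
  · subst hs0
    rw [div_zero]
    exact hB 0 (Subalgebra.zero_mem _)
  · obtain ⟨g, hg, t, ht, hst⟩ := exists_mul_eq_aeval_subalgebra B hJ hs hs0 (hB s hs)
    refine AlgDeg.of_mul_eq (a := r * g) ht ?_ (hB _ (Subalgebra.mul_mem _ hr hg))
    rw [← hst]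
    field_simp

end Alg

end Fermat.Agent.S29.H882

end
end
-- ===== PACK-END S29/H882/FieldDeg.lean

-- ===== PACK-BEGIN S24/Alg/Open.lean
section



/-!
# S24 / ALG — the fundamental equality (FF1)

INTERFACE FILE (statement by helper984).  Proof: helper804's Dedekind dictionary
(`Fermat.Agent.S24.FF.finite_setOf_ord_pos`, `Fermat.Agent.S24.FF.sum_ord_eq_finrank`).
-/

set_option autoImplicit false

noncomputable section

open AlgebraicCurve

namespace Fermat.Agent.S24

variable {K F : Type*} [Field K] [Field F] [Algebra K F] [IsAlgClosed K] [CharZero K]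

/-- FF1 (fundamental equality): the zeros of a transcendental `t` are finite in number and
`∑_{v | t} ord_v t = [F : K(t)]`. -/
theorem open_fundamental_eq (t : F) (ht : Transcendental K t)
    [FiniteDimensional ↥(IntermediateField.adjoin K {t}) F] :
    ∃ s : Finset (Place K F), (∀ v : Place K F, v ∈ s ↔ 0 < v.ord t) ∧
      ∑ v ∈ s, v.ord t = (Module.finrank ↥(IntermediateField.adjoin K {t}) F : ℤ) :=
  ⟨(FF.finite_setOf_ord_pos ht).toFinset, fun v => by simp,
    FF.sum_ord_eq_finrank ht _ (fun v => by simp)⟩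

end Fermat.Agent.S24

end
end
-- ===== PACK-END S24/Alg/Open.lean

-- ===== PACK-BEGIN S28/H589/ModPoly.lean
section






/-!
# S28 / [A-Φ] (helper589): the modular polynomial `Φ_p ∈ ℤ[Y][X]`

Analytic input: helper648's conjugate product (`Fermat.Agent.S24.H648.exists_charPoly_jFun`)
gives `Φ ∈ ℂ[Y][X]`, monic of degree `[SL₂(ℤ) : Γ₀(p)] = p + 1`, with
`Φ(j(pτ), j(τ)) = 0` and `Φ(j(τ), j(pτ)) = 0` as functions on `ℍ`.
helper565's `HasTExp` calculus turns these into identities in `ℂ((q))`, and `descent`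
(this directory) shows that `Φ` has integer coefficients.
-/

set_option autoImplicit false

noncomputable section

open UpperHalfPlane ModularCurve CongruenceSubgroup Function
open scoped MatrixGroups Manifold Real

namespace Fermat.Agent.S28.H589

open Fermat.Agent.S28.H565 (HasTExp)
open Fermat.Agent.S24.H648 (goodRing charPolyAt)

local notation "𝕢" => Periodic.qParam

/-- The scaling map `τ ↦ d τ` on `ℍ`. -/
def scaleH (d : ℕ) (hd : 0 < d) (τ : ℍ) : ℍ :=
  UpperHalfPlane.mk ((d : ℂ) * (τ : ℂ)) (by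
    have h : ((d : ℂ) * (τ : ℂ)).im = d * τ.im := by simp
    rw [h]
    exact mul_pos (by exact_mod_cast hd) τ.im_pos)

@[simp]
theorem scaleH_coe (d : ℕ) (hd : 0 < d) (τ : ℍ) : ((scaleH d hd τ : ℍ) : ℂ) = (d : ℂ) * τ := rfl

theorem qParam_scaleH (d : ℕ) (hd : 0 < d) (τ : ℍ) :
    𝕢 1 ((scaleH d hd τ : ℍ) : ℂ) = 𝕢 1 (τ : ℂ) ^ d := by
  simp only [Periodic.qParam, scaleH_coe]
  rw [← Complex.exp_nat_mul]
  congr 1
  push_cast
  ring

/-- If `f` has `q`-expansion `φ` then `τ ↦ f (d τ)` has `q`-expansion `V_d φ`. -/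
theorem hasTExp_comp_scaleH (d : ℕ) [NeZero d] (hd : 0 < d) {f : ℍ → ℂ} {φ : LaurentSeries ℂ}
    (hf : HasTExp 1 f φ) : HasTExp 1 (fun τ => f (scaleH d hd τ)) (qExpand ℂ d φ) := by
  intro τ
  have hm : (d : ℤ) ≠ 0 := by exact_mod_cast NeZero.ne d
  have hι : Function.Injective (fun k : ℤ => (d : ℤ) * k) := mul_right_injective₀ hm
  have hzero : ∀ n ∉ Set.range (fun k : ℤ => (d : ℤ) * k),
      (qExpand ℂ d φ).coeff n * 𝕢 1 τ ^ n = 0 := by
    intro n hn
    rw [qExpand_coeff_of_not_dvd, zero_mul]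
    rintro ⟨c, rfl⟩
    exact hn ⟨c, rfl⟩
  rw [← hι.hasSum_iff hzero]
  have hfun : ((fun n : ℤ => (qExpand ℂ d φ).coeff n * 𝕢 1 τ ^ n) ∘
      fun k : ℤ => (d : ℤ) * k) = fun k : ℤ => φ.coeff k * 𝕢 1 (scaleH d hd τ) ^ k := by
    funext k
    simp only [Function.comp_apply]
    rw [qExpand_coeff_mul, qParam_scaleH, zpow_mul, zpow_natCast]
  rw [hfun]
  exact hf (scaleH d hd τ)

/-- Two-variable polynomial expressions in functions with `q`-expansions. -/
theorem hasTExp_eval₂ (P : Polynomial (Polynomial ℂ)) {a b : ℍ → ℂ} {α β : LaurentSeries ℂ}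
    (ha : HasTExp 1 a α) (hb : HasTExp 1 b β) :
    HasTExp 1 (fun τ => (P.map (Polynomial.evalRingHom (a τ))).eval (b τ))
      (P.eval₂ (evC α) β) := by
  induction P using Polynomial.induction_on' with
  | add p q hp hq =>
    rw [Polynomial.eval₂_add]
    exact (hp.add hq).congr fun τ => by simp
  | monomial n c =>
    rw [Polynomial.eval₂_monomial, evC_eq_aeval]
    have h1 := (ha.polynomial_aeval c).mul (hb.pow n)
    exact h1.congr fun τ => by simp [Polynomial.eval_monomial]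

/-- A function-level identity `P(a(τ))(b(τ)) = 0` gives the formal identity. -/
theorem eval₂_eq_zero_of_forall (P : Polynomial (Polynomial ℂ)) {a b : ℍ → ℂ}
    {α β : LaurentSeries ℂ} (ha : HasTExp 1 a α) (hb : HasTExp 1 b β)
    (h : ∀ τ, (P.map (Polynomial.evalRingHom (a τ))).eval (b τ) = 0) :
    P.eval₂ (evC α) β = 0 := by
  have h1 := hasTExp_eval₂ P ha hb
  have h2 : HasTExp 1 (0 : ℍ → ℂ) (P.eval₂ (evC α) β) := h1.congr fun τ => by simp [h τ]
  exact h2.eq_zero one_pos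

theorem jFun648_eq : (Fermat.Agent.S24.H648.jFun : ℍ → ℂ) = Fermat.Agent.S28.H565.jFun := rfl

theorem scaleH_S_scaleH (p : ℕ) (hp : 0 < p) (w : ℍ) :
    scaleH p hp (ModularGroup.S • scaleH p hp w) = ModularGroup.S • w := by
  apply UpperHalfPlane.ext
  rw [scaleH_coe, UpperHalfPlane.modular_S_smul, UpperHalfPlane.modular_S_smul]
  simp only [scaleH_coe]
  have hw : (w : ℂ) ≠ 0 := UpperHalfPlane.ne_zero w
  have hp' : (p : ℂ) ≠ 0 := by exact_mod_cast hp.ne'
  field_simp

theorem dedekindPsi_prime (p : ℕ) (hp : p.Prime) : ModularCurve.dedekindPsi p = p + 1 := by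
  have h := Fermat.Agent.S20.H872.dedekindPsi_mul_prime_of_not_dvd (N := 1) one_ne_zero hp
    (by
      intro h
      exact hp.one_lt.ne' (Nat.dvd_one.mp h))
  rwa [one_mul, ModularCurve.dedekindPsi_one, mul_one] at h

theorem finite_quot_Gamma0 (N : ℕ) [NeZero N] : Finite (SL(2, ℤ) ⧸ Gamma0 N) := by
  apply Nat.finite_of_card_ne_zero
  rw [Fermat.Agent.S20.H872.card_quot_Gamma0]
  intro h
  have hpos : 0 < ModularCurve.dedekindPsi N := by
    unfold ModularCurve.dedekindPsi
    apply Finset.sum_pos'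
    · intro d _; exact Nat.zero_le _
    · refine ⟨1, ?_, ?_⟩
      · simp [NeZero.ne N]
      · simp [Nat.pos_of_ne_zero (NeZero.ne N)]
  omega

/-- The fintype structure on `SL₂(ℤ) / Γ₀(N)` used for the conjugate product. -/
@[reducible] def fintypeQuot (N : ℕ) [NeZero N] : Fintype (SL(2, ℤ) ⧸ Gamma0 N) :=
  haveI := finite_quot_Gamma0 N
  Fintype.ofFinite _

theorem card_quot_prime (p : ℕ) [NeZero p] (hp : p.Prime) :
    @Fintype.card (SL(2, ℤ) ⧸ Gamma0 p) (fintypeQuot p) = p + 1 := by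
  letI := fintypeQuot p
  rw [← Nat.card_eq_fintype_card, Fermat.Agent.S20.H872.card_quot_Gamma0, dedekindPsi_prime p hp]

/-- The complex modular polynomial with its two formal vanishing relations. -/
theorem exists_modPoly_complex (p : ℕ) [NeZero p] (hp : p.Prime) :
    ∃ Φ : Polynomial (Polynomial ℂ), Φ.Monic ∧ Φ.natDegree = p + 1 ∧
      Φ.eval₂ (evC (jqModC ℂ)) (qExpand ℂ p (jqModC ℂ)) = 0 ∧
      Φ.eval₂ (evC (qExpand ℂ p (jqModC ℂ))) (jqModC ℂ) = 0 := by
  letI := fintypeQuot p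
  set f₀ : ℍ → ℂ := fun τ => Fermat.Agent.S24.H648.jFun (scaleH p hp.pos τ) with hf₀
  have hf : f₀ ∈ goodRing p :=
    Fermat.Agent.S24.H648.jFun_scale_mem_goodRing p p hp.pos dvd_rfl (scaleH p hp.pos)
      (fun τ => rfl)
  obtain ⟨P, hPm, hPd, hP⟩ := Fermat.Agent.S24.H648.exists_charPoly_jFun hf
  have hj : HasTExp 1 Fermat.Agent.S24.H648.jFun (jqModC ℂ) := by
    rw [jFun648_eq]; exact Fermat.Agent.S28.H565.hasTExp_jFun
  have hjp : HasTExp 1 f₀ (qExpand ℂ p (jqModC ℂ)) := hasTExp_comp_scaleH p hp.pos hj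
  refine ⟨P, hPm, ?_, ?_, ?_⟩
  · rw [hPd]; exact card_quot_prime p hp
  · refine eval₂_eq_zero_of_forall P hj hjp fun τ => ?_
    rw [hP]
    exact Fermat.Agent.S24.H648.charPolyAt_eval_self hf.2.1 τ
  · refine eval₂_eq_zero_of_forall P hjp hj fun w => ?_
    show (P.map (Polynomial.evalRingHom
      (Fermat.Agent.S24.H648.jFun (scaleH p hp.pos w)))).eval (Fermat.Agent.S24.H648.jFun w) = 0
    rw [hP]
    have hconj : Fermat.Agent.S24.H648.conj p f₀
        (((ModularGroup.S)⁻¹ : SL(2, ℤ)) : SL(2, ℤ) ⧸ Gamma0 p) (scaleH p hp.pos w)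
        = Fermat.Agent.S24.H648.jFun w := by
      rw [Fermat.Agent.S24.H648.conj_mk hf.2.1, inv_inv]
      show Fermat.Agent.S24.H648.jFun (scaleH p hp.pos (ModularGroup.S • scaleH p hp.pos w)) = _
      rw [scaleH_S_scaleH, Fermat.Agent.S24.H648.jFun_smul]
    rw [← hconj]
    exact Fermat.Agent.S24.H648.charPolyAt_eval_conj f₀ _ _

theorem jqModC_int_ne_zero : jqModC ℤ ≠ 0 := jqModC_ne_zero_of_nontrivial ℤ

theorem order_jqModC_int : (jqModC ℤ).order = -1 := by
  rw [← order_iotaC, iotaC, coeffMap_jqModC]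
  exact Fermat.Agent.S28.H145.order_jqModC ℂ

/-- **[A-Φ]** -/
theorem nonempty_modPolyData (p : ℕ) [NeZero p] (hp : p.Prime) : Nonempty (ModPolyData p) := by
  obtain ⟨Φ, hΦm, hΦd, h1, h2⟩ := exists_modPoly_complex p hp
  have hne : jqModC ℤ ≠ qExpand ℤ p (qExpand ℤ p (jqModC ℤ)) := by
    intro h
    have hc : (jqModC ℤ).coeff (-1) = (qExpand ℤ p (qExpand ℤ p (jqModC ℤ))).coeff (-1) :=
      congrArg (fun z => z.coeff (-1)) h
    rw [qExpand_coeff_of_not_dvd] at hc
    · have h1 : (jqModC ℤ).coeff (-1) ≠ 0 := by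
        have := HahnSeries.coeff_order_eq_zero (x := jqModC ℤ)
        rw [order_jqModC_int] at this
        exact fun h0 => jqModC_int_ne_zero (this.mp h0)
      exact h1 hc
    · intro hdvd
      have h2 : (p : ℤ) ∣ 1 := (Int.dvd_neg).mp hdvd
      have h3 : p ∣ 1 := by exact_mod_cast h2
      exact hp.one_lt.ne' (Nat.dvd_one.mp h3)
  have hcop : IsCoprime (jqModC ℤ).order (p : ℤ) := by
    rw [order_jqModC_int]
    exact (isCoprime_one_left (x := (p : ℤ))).neg_left
  obtain ⟨Ψ, hΨm, hΨd, hΨ1, hΨ2⟩ := descent p Φ hΦm (p + 1) hΦd rfl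
    (qExpand ℤ p (jqModC ℤ)) (jqModC ℤ) jqModC_int_ne_zero hcop hne
    (by rw [iotaC, coeffMap_qExpand, coeffMap_jqModC]; exact h1)
    (by rw [iotaC, coeffMap_jqModC]; exact h2)
  exact ⟨⟨Ψ, hΨm, hΨd, hΨ1, hΨ2⟩⟩

end Fermat.Agent.S28.H589

end

end
-- ===== PACK-END S28/H589/ModPoly.lean

-- ===== PACK-BEGIN S18/H394/KummerRegular.lean
section




/-!
# S18, Route K (helper394): typed core of `node_alg` (prime `m`)

Setting of `H394/KummerCharts.lean` (= `H138/Connected.lean`): `R` noetherian local with `R[X]`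
integrally closed, `F ⊇ R` a field of characteristic `0`, `x` transcendental, `F` finite over
`baseField R x`, `R` integrally closed in `F`; charts `B₀ = chart R {x}`, `B₁ = chart R {x⁻¹}`.

**Theorem `kummer_charts_of_regular`.**  Let `m` be a prime invertible in `R`, `w ∈ R`, `u ∈ Fˣ`.
Assume on each chart `B ∈ {B₀, B₁}`:
* `w` is prime in `B`                      (q-expansion principle),
* `H754.RegularAlong w`                    (b2: the special fibre is regular = `B12.H33.b2Regular`),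
* `H754.OneModPi w u`                      (`u ≡ 1 mod w`),
* `H754.DivisibleDivisor B m u`            (`m ∣ div u`).
Then `u = r ^ a * y ^ m` with `r ∈ R ∖ {0}`, `a ∈ ℤ`, `y ∈ F`.

Proof: `H214.local_existence` (LE) + `H394.kummer_charts_prime` (graded Kummer algebra + b5).
No Kummer extension field, no roots of unity, no enlargement of constants.
-/

set_option autoImplicit false
set_option linter.style.haveILetI false

namespace Fermat.Agent.S18.H394

open Polynomial
open Fermat.Agent.S18.H138 (chart baseField)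

section Regular

variable {R : Type*} [CommRing R] {F : Type*} [Field F] [Algebra R F]
variable [IsNoetherianRing R] [IsIntegrallyClosed R[X]] [CharZero F]

/-- `w ∤ x` in the chart `B₀`. -/
theorem not_dvd_coord (hinjR : Function.Injective (algebraMap R F)) {x : F}
    (hx : Transcendental R x) (w : R) (hw : ¬ IsUnit w) (hw0 : w ≠ 0)
    (X₀ : chart R ({x} : Set F)) (hX₀ : (X₀ : F) = x) :
    ¬ algebraMap R (chart R ({x} : Set F)) w ∣ X₀ := by
  intro h
  obtain ⟨c, hc, h⟩ := (subalgebra_dvd_iff _ w X₀).mp h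
  rw [hX₀] at h
  have := dvd_coeff_of_aeval_eq_mul hx hinjR w hw0 X hc (by rw [aeval_X]; exact h) 1
  rw [coeff_X_one] at this
  exact hw (isUnit_of_dvd_one this)

/-- The saturation property of the overlap `M` (hypothesis `hsat` of `H214.local_existence`). -/
theorem chart_saturated (hinjR : Function.Injective (algebraMap R F)) {x : F}
    (hx : Transcendental R x) (w : R)
    (hw₀ : Prime (algebraMap R (chart R ({x} : Set F)) w))
    (hw₁ : Prime (algebraMap R (chart R ({x⁻¹} : Set F)) w))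
    (f : F) (s₀ : chart R ({x} : Set F)) (hs₀ : ¬ algebraMap R (chart R ({x} : Set F)) w ∣ s₀)
    (s₁ : chart R ({x⁻¹} : Set F)) (hs₁ : ¬ algebraMap R (chart R ({x⁻¹} : Set F)) w ∣ s₁)
    (h1 : (s₀ : F) * (s₁ : F) * f ∈ chart R ({x, x⁻¹} : Set F))
    (h2 : algebraMap R F w * f ∈ chart R ({x, x⁻¹} : Set F)) :
    f ∈ chart R ({x, x⁻¹} : Set F) := by
  have hx0 : x ≠ 0 := H138.ne_zero_of_transcendental hx
  have h0M : (chart R ({x} : Set F)) ≤ (chart R ({x, x⁻¹} : Set F)) := H138.chart_mono (by simp)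
  have h1M : (chart R ({x⁻¹} : Set F)) ≤ (chart R ({x, x⁻¹} : Set F)) := H138.chart_mono (by simp)
  have hxB0 : x ∈ (chart R ({x} : Set F)) := H138.mem_chart_of_mem rfl
  have hxB1 : x⁻¹ ∈ (chart R ({x⁻¹} : Set F)) := H138.mem_chart_of_mem rfl
  have hloc0 : ∀ y ∈ (chart R ({x, x⁻¹} : Set F)), ∃ n : ℕ, x ^ n * y ∈ (chart R ({x} : Set F)) := fun y hy =>
    H138.exists_pow_mul_mem_chart hx0 hy
  have hloc1 : ∀ y ∈ (chart R ({x, x⁻¹} : Set F)), ∃ n : ℕ, x⁻¹ ^ n * y ∈ (chart R ({x⁻¹} : Set F)) := by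
    intro y hy
    refine H138.exists_pow_mul_mem_chart (inv_ne_zero hx0) ?_
    rw [chart_inv_pair]
    exact hy
  have hwnu : ¬ IsUnit w := fun h => hw₀.not_isUnit (h.map _)
  have hw0 : w ≠ 0 := by
    rintro rfl
    exact hw₀.ne_zero (map_zero _)
  have hX₁ : ¬ algebraMap R (chart R ({x⁻¹} : Set F)) w ∣ (⟨x⁻¹, hxB1⟩ : (chart R ({x⁻¹} : Set F))) :=
    not_dvd_coord hinjR (H138.transcendental_inv hx) w hwnu hw0 _ rfl
  -- `t₁ = x ^ j * s₁ ∈ (chart R ({x} : Set F)) ∖ w (chart R ({x} : Set F))`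
  obtain ⟨j, hj⟩ := hloc0 (s₁ : F) (h1M s₁.2)
  have ht₁ : ¬ algebraMap R (chart R ({x} : Set F)) w ∣ (⟨x ^ j * s₁, hj⟩ : (chart R ({x} : Set F))) := by
    intro h
    obtain ⟨c, hc, h⟩ := (subalgebra_dvd_iff _ w _).mp h
    change x ^ j * (s₁ : F) = algebraMap R F w * c at h
    obtain ⟨n, hn⟩ := hloc1 c (h0M hc)
    have hs : (s₁ : F) = x⁻¹ ^ j * (algebraMap R F w * c) := by
      rw [← h, ← mul_assoc, ← mul_pow, inv_mul_cancel₀ hx0, one_pow, one_mul]
    have hdvd : algebraMap R (chart R ({x⁻¹} : Set F)) w ∣ (⟨x⁻¹, hxB1⟩ : (chart R ({x⁻¹} : Set F))) ^ n * s₁ := by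
      rw [subalgebra_dvd_iff]
      refine ⟨x⁻¹ ^ j * (x⁻¹ ^ n * c), (chart R ({x⁻¹} : Set F)).mul_mem ((chart R ({x⁻¹} : Set F)).pow_mem hxB1 _) hn, ?_⟩
      change (x⁻¹) ^ n * (s₁ : F) = algebraMap R F w * (x⁻¹ ^ j * (x⁻¹ ^ n * c))
      rw [hs]
      ring
    rcases hw₁.dvd_or_dvd hdvd with h' | h'
    · exact hX₁ (hw₁.dvd_of_dvd_pow h')
    · exact hs₁ h'
  obtain ⟨N₁, hN₁⟩ := hloc0 _ h2
  obtain ⟨N₂, hN₂⟩ := hloc0 _ h1
  set g : F := x ^ (N₁ + N₂ + j) * f with hg
  have hg1 : algebraMap R F w * g ∈ (chart R ({x} : Set F)) := by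
    have : algebraMap R F w * g = x ^ (N₂ + j) * (x ^ N₁ * (algebraMap R F w * f)) := by
      rw [hg]; ring
    rw [this]
    exact (chart R ({x} : Set F)).mul_mem ((chart R ({x} : Set F)).pow_mem hxB0 _) hN₁
  have hg2 : ((s₀ * ⟨x ^ j * s₁, hj⟩ : (chart R ({x} : Set F))) : F) * g ∈ (chart R ({x} : Set F)) := by
    have : ((s₀ * ⟨x ^ j * s₁, hj⟩ : (chart R ({x} : Set F))) : F) * g
        = x ^ (N₁ + j + j) * (x ^ N₂ * ((s₀ : F) * (s₁ : F) * f)) := by
      change (s₀ : F) * (x ^ j * (s₁ : F)) * g = _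
      rw [hg]; ring
    rw [this]
    exact (chart R ({x} : Set F)).mul_mem ((chart R ({x} : Set F)).pow_mem hxB0 _) hN₂
  have hst : ¬ algebraMap R (chart R ({x} : Set F)) w ∣ s₀ * ⟨x ^ j * s₁, hj⟩ := by
    intro h
    rcases hw₀.dvd_or_dvd h with h' | h'
    · exact hs₀ h'
    · exact ht₁ h'
  have hgB : g ∈ (chart R ({x} : Set F)) := mem_of_mul_mem_of_prime (chart R ({x} : Set F)) w hw₀ _ hst g hg1 hg2
  have : f = x⁻¹ ^ (N₁ + N₂ + j) * g := by
    rw [hg, ← mul_assoc, ← mul_pow, inv_mul_cancel₀ hx0, one_pow, one_mul]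
  rw [this]
  exact (chart R ({x, x⁻¹} : Set F)).mul_mem ((chart R ({x, x⁻¹} : Set F)).pow_mem (h1M hxB1) _) (h0M hgB)

variable [IsLocalRing R]

/-- **Typed core of `node_alg`** (prime `m`). -/
theorem kummer_charts_of_regular
    (hinjR : Function.Injective (algebraMap R F))
    (hRF : ∀ y : F, IsIntegral R y → y ∈ Set.range (algebraMap R F))
    {x : F} (hx : Transcendental R x) [FiniteDimensional (baseField R x) F]
    (w : R) (m : ℕ) (hm : m.Prime) (ν : R) (hν : ν * (m : R) = 1)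
    (u : F) (hu : u ≠ 0)
    (hw₀ : Prime (algebraMap R (chart R ({x} : Set F)) w))
    (hw₁ : Prime (algebraMap R (chart R ({x⁻¹} : Set F)) w))
    (hreg₀ : H754.RegularAlong (algebraMap R (chart R ({x} : Set F)) w))
    (hreg₁ : H754.RegularAlong (algebraMap R (chart R ({x⁻¹} : Set F)) w))
    (hu₀ : H754.OneModPi (algebraMap R (chart R ({x} : Set F)) w) u)
    (hu₁ : H754.OneModPi (algebraMap R (chart R ({x⁻¹} : Set F)) w) u)
    (hdiv₀ : H754.DivisibleDivisor (chart R ({x} : Set F)) m u)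
    (hdiv₁ : H754.DivisibleDivisor (chart R ({x⁻¹} : Set F)) m u) :
    ∃ (r : R) (a : ℤ) (y : F), r ≠ 0 ∧ u = algebraMap R F r ^ a * y ^ m := by
  have hwnu : ¬ IsUnit w := fun h => hw₀.not_isUnit (h.map _)
  haveI : FiniteDimensional (baseField R x⁻¹) F := by
    rw [H138.baseField_inv]; infer_instance
  obtain ⟨i1, i2, i3⟩ := chart_instances (R := R) hx
  obtain ⟨j1, j2, j3⟩ := chart_instances (R := R) (H138.transcendental_inv hx)
  obtain ⟨σ₀, σ₁, h₀, h₁, h₀₁⟩ := H214.local_existence m hm.ne_zero w u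
    (chart R ({x} : Set F)) (chart R ({x⁻¹} : Set F)) (chart R ({x, x⁻¹} : Set F))
    (H138.chart_mono (by simp)) (H138.chart_mono (by simp)) hw₀ hw₁ hreg₀ hreg₁ hu₀ hu₁
    hdiv₀ hdiv₁ (rootClosed_chart _ hm.pos)
    (fun f s₀ hs₀ s₁ hs₁ h1 h2 => chart_saturated hinjR hx w hw₀ hw₁ f s₀ hs₀ s₁ hs₁ h1 h2)
  exact kummer_charts_prime hinjR hRF hx w hwnu m hm ν hν u hu σ₀ σ₁ h₀ h₁ h₀₁

end Regular

end Fermat.Agent.S18.H394

end
-- ===== PACK-END S18/H394/KummerRegular.lean

-- ===== PACK-BEGIN S29/H882/Inter.lean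
section


/-!
# S29 / MERO (helper882), part (C): `F_L ∩ K((q)) = F_K`

For a field embedding `ι : K → L` and `F₀ ≤ ℚ((q))`: a Laurent series `y` over `K` whose base change
`coeffMap ι y` lies in `laurentBaseChange L F₀` already lies in `laurentBaseChange K F₀`.
-/

set_option autoImplicit false

noncomputable section

open Polynomial ModularCurve IntermediateField

namespace Fermat.Agent.S29.H882

open Fermat.Agent.S24 Fermat.Agent.S24.Deg457

section Span

variable (L : Type*) [Field L] [Algebra ℚ L] (F₀ : IntermediateField ℚ (LaurentSeries ℚ))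

/-- `coeffEmb` as a `ℚ`-linear map (for the `ℚ`-structure on `L((q))` induced by `L`). -/
theorem coeffEmb_smul_rat (c : ℚ) (u : LaurentSeries ℚ) :
    coeffEmb L (c • u) = (algebraMap ℚ L c) • coeffEmb L u := by
  ext k
  simp only [coeffEmb_coeff, HahnSeries.coeff_smul, smul_eq_mul, map_mul]

/-- The `L`-span of the image of `F₀`. -/
def spanImage : Submodule L (LaurentSeries L) :=
  Submodule.span L (⇑(coeffEmb L) '' (F₀ : Set (LaurentSeries ℚ)))

variable {L F₀}

theorem coeffEmb_mem_spanImage {u : LaurentSeries ℚ} (hu : u ∈ F₀) :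
    coeffEmb L u ∈ spanImage L F₀ :=
  Submodule.subset_span ⟨u, hu, rfl⟩

theorem spanImage_le : (spanImage L F₀ : Set (LaurentSeries L)) ⊆ laurentBaseChange L F₀ := by
  intro x hx
  refine Submodule.span_induction (p := fun x _ => x ∈ laurentBaseChange L F₀) ?_ ?_ ?_ ?_ hx
  · rintro _ ⟨u, hu, rfl⟩
    exact coeffEmb_mem_laurentBaseChange L hu
  · exact zero_mem _
  · intro a b _ _ ha hb
    exact add_mem ha hb
  · intro c a _ ha
    rw [hsmul_eq_algebraMap_mul]
    exact mul_mem ((laurentBaseChange L F₀).algebraMap_mem c) ha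

theorem mul_mem_spanImage {a b : LaurentSeries L} (ha : a ∈ spanImage L F₀)
    (hb : b ∈ spanImage L F₀) : a * b ∈ spanImage L F₀ := by
  refine Submodule.span_induction (p := fun a _ => a * b ∈ spanImage L F₀) ?_ ?_ ?_ ?_ ha
  · rintro _ ⟨u, hu, rfl⟩
    refine Submodule.span_induction (p := fun b _ => coeffEmb L u * b ∈ spanImage L F₀)
      ?_ ?_ ?_ ?_ hb
    · rintro _ ⟨v, hv, rfl⟩
      rw [← map_mul]
      exact coeffEmb_mem_spanImage (mul_mem hu hv)
    · rw [mul_zero]; exact zero_mem _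
    · intro x y _ _ hx hy
      rw [mul_add]; exact add_mem hx hy
    · intro c x _ hx
      have : coeffEmb L u * c • x = c • (coeffEmb L u * x) := by
        rw [hsmul_eq_algebraMap_mul, hsmul_eq_algebraMap_mul]; ring
      rw [this]; exact Submodule.smul_mem _ c hx
  · rw [zero_mul]; exact zero_mem _
  · intro x y _ _ hx hy
    rw [add_mul]; exact add_mem hx hy
  · intro c x _ hx
    have : c • x * b = c • (x * b) := by
      rw [hsmul_eq_algebraMap_mul, hsmul_eq_algebraMap_mul]; ring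
    rw [this]; exact Submodule.smul_mem _ c hx

theorem one_mem_spanImage : (1 : LaurentSeries L) ∈ spanImage L F₀ := by
  have := coeffEmb_mem_spanImage (L := L) (F₀ := F₀) (one_mem F₀)
  rwa [map_one] at this

theorem algebraMap_mem_spanImage (c : L) :
    algebraMap L (LaurentSeries L) c ∈ spanImage L F₀ := by
  have h : algebraMap L (LaurentSeries L) c = c • (1 : LaurentSeries L) := by
    rw [hsmul_eq_algebraMap_mul, mul_one]
  rw [h]
  exact Submodule.smul_mem _ c one_mem_spanImage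

variable (L F₀) in
/-- The span as a subalgebra. -/
def spanAlg : Subalgebra L (LaurentSeries L) where
  carrier := spanImage L F₀
  mul_mem' := mul_mem_spanImage
  add_mem' := fun ha hb => add_mem ha hb
  algebraMap_mem' := algebraMap_mem_spanImage

/-- Every element of the function field is a quotient of two elements of the span. -/
theorem exists_div_of_mem_laurentBaseChange {x : LaurentSeries L}
    (hx : x ∈ laurentBaseChange L F₀) :
    ∃ r ∈ spanImage L F₀, ∃ s ∈ spanImage L F₀, x = r / s := by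
  rw [laurentBaseChange, IntermediateField.mem_adjoin_iff_div] at hx
  obtain ⟨r, hr, s, hs, rfl⟩ := hx
  have hle : Algebra.adjoin L (⇑(coeffEmb L) '' (F₀ : Set (LaurentSeries ℚ))) ≤ spanAlg L F₀ :=
    Algebra.adjoin_le (fun x hx => Submodule.subset_span hx)
  exact ⟨r, hle hr, s, hle hs, rfl⟩

end Span

section Main

variable {K L : Type*} [Field K] [Algebra ℚ K] [Field L] [Algebra ℚ L]

/-- A finite `ℚ`-independent family in `F₀` whose image spans two given elements of the span. -/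
theorem exists_indep_family (F₀ : IntermediateField ℚ (LaurentSeries ℚ))
    {r s : LaurentSeries L} (hr : r ∈ spanImage L F₀) (hs : s ∈ spanImage L F₀) :
    ∃ (m : ℕ) (e : Fin m → LaurentSeries ℚ), (∀ i, e i ∈ F₀) ∧ LinearIndependent ℚ e ∧
      ∃ a b : Fin m → L, r = ∑ i, a i • coeffEmb L (e i) ∧ s = ∑ i, b i • coeffEmb L (e i) := by
  classical
  -- finite supports
  obtain ⟨lr, hlr, rfl⟩ := (Finsupp.mem_span_image_iff_linearCombination L).mp hr
  obtain ⟨ls, hls, rfl⟩ := (Finsupp.mem_span_image_iff_linearCombination L).mp hs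
  set S : Finset (LaurentSeries ℚ) := lr.support ∪ ls.support with hS
  have hSF : ∀ u ∈ S, u ∈ F₀ := by
    intro u hu
    rcases Finset.mem_union.mp hu with h | h
    · exact hlr h
    · exact hls h
  obtain ⟨B, hBt, hspan, hind⟩ := exists_linearIndependent ℚ (S : Set (LaurentSeries ℚ))
  have hBfin : B.Finite := (Finset.finite_toSet S).subset hBt
  haveI : Fintype B := hBfin.fintype
  -- the image of every element of `S` lies in the `L`-span of the image of `B`
  let EL : LaurentSeries ℚ →ₗ[ℚ] LaurentSeries L :=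
    { toFun := coeffEmb L
      map_add' := map_add _
      map_smul' := fun c u => by
        rw [coeffEmb_smul_rat, RingHom.id_apply, algebraMap_smul] }
  have hmem : ∀ u ∈ S, coeffEmb L u ∈ Submodule.span L (Set.range fun e : B => coeffEmb L (e : _)) := by
    intro u hu
    have h1 : u ∈ Submodule.span ℚ B := by
      rw [hspan]; exact Submodule.subset_span hu
    have h2 := Submodule.apply_mem_span_image_of_mem_span EL h1
    have h3 : Submodule.span ℚ (EL '' B) ≤
        (Submodule.span L (EL '' B)).restrictScalars ℚ := Submodule.span_le_restrictScalars ℚ L _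
    have h4 := h3 h2
    have h5 : (EL '' B) = Set.range fun e : B => coeffEmb L (e : _) := by
      ext x
      constructor
      · rintro ⟨u, hu, rfl⟩; exact ⟨⟨u, hu⟩, rfl⟩
      · rintro ⟨⟨u, hu⟩, rfl⟩; exact ⟨u, hu, rfl⟩
    rw [h5] at h4
    exact h4
  have hlin : ∀ l : LaurentSeries ℚ →₀ L, (l.support ⊆ S) →
      Finsupp.linearCombination L (⇑(coeffEmb L)) l ∈
        Submodule.span L (Set.range fun e : B => coeffEmb L (e : _)) := by
    intro l hl
    rw [Finsupp.linearCombination_apply, Finsupp.sum]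
    refine Submodule.sum_mem _ fun u hu => ?_
    exact Submodule.smul_mem _ _ (hmem u (hl hu))
  have hr' := hlin lr Finset.subset_union_left
  have hs' := hlin ls Finset.subset_union_right
  rw [Submodule.mem_span_range_iff_exists_fun] at hr' hs'
  obtain ⟨a, ha⟩ := hr'
  obtain ⟨b, hb⟩ := hs'
  -- reindex by `Fin m`
  let eq := Fintype.equivFin B
  refine ⟨Fintype.card B, fun i => ((eq.symm i : B) : LaurentSeries ℚ), ?_, ?_,
    fun i => a (eq.symm i), fun i => b (eq.symm i), ?_, ?_⟩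
  · intro i
    exact hSF _ (hBt (eq.symm i).2)
  · exact hind.comp _ eq.symm.injective
  · rw [← ha]
    exact (Equiv.sum_comp eq.symm (fun e : B => a e • coeffEmb L (e : LaurentSeries ℚ))).symm
  · rw [← hb]
    exact (Equiv.sum_comp eq.symm (fun e : B => b e • coeffEmb L (e : LaurentSeries ℚ))).symm

/-- **(C)** `F_L ∩ K((q)) = F_K`. -/
theorem mem_laurentBaseChange_of_coeffMap_mem (ι : K →+* L)
    (F₀ : IntermediateField ℚ (LaurentSeries ℚ)) {y : LaurentSeries K}
    (hy : coeffMap ι y ∈ laurentBaseChange L F₀) : y ∈ laurentBaseChange K F₀ := by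
  classical
  obtain ⟨r, hr, s, hs, hrs⟩ := exists_div_of_mem_laurentBaseChange hy
  by_cases hs0 : s = 0
  · -- then `coeffMap ι y = 0`, so `y = 0`
    rw [hs0, div_zero] at hrs
    have : y = 0 := by
      ext k
      have := congrArg (fun z : LaurentSeries L => z.coeff k) hrs
      simp only [coeffMap_coeff, HahnSeries.coeff_zero] at this
      simpa using this
    rw [this]; exact zero_mem _
  obtain ⟨m, e, heF, hind, a, b, hra, hsb⟩ := exists_indep_family F₀ hr hs
  have hxs : coeffMap ι y * s = r := by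
    rw [hrs]; field_simp
  -- the family over `K`
  let w : Fin m ⊕ Fin m → LaurentSeries K :=
    Sum.elim (fun i => y * coeffEmb K (e i)) (fun i => coeffEmb K (e i))
  have hindK : LinearIndependent K (fun i => coeffEmb K (e i)) := by
    have := linearIndependent_coeffMap (algebraMap ℚ K) e hind
    exact this
  have hnot : ¬ LinearIndependent K w := by
    intro hw
    have hL := linearIndependent_coeffMap ι w hw
    rw [Fintype.linearIndependent_iff] at hL
    have key := hL (Sum.elim b (fun i => -a i)) ?_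
    · apply hs0
      rw [hsb]
      refine Finset.sum_eq_zero fun i _ => ?_
      have := key (Sum.inl i)
      simp only [Sum.elim_inl] at this
      rw [this, zero_smul]
    · rw [Fintype.sum_sum_type]
      simp only [Sum.elim_inl, Sum.elim_inr, w, map_mul, coeffMap_coeffEmb']
      have h1 : ∑ i, b i • (coeffMap ι y * coeffEmb L (e i)) = coeffMap ι y * s := by
        rw [hsb, Finset.mul_sum]
        refine Finset.sum_congr rfl fun i _ => ?_
        rw [hsmul_eq_algebraMap_mul, hsmul_eq_algebraMap_mul]; ring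
      have h2 : ∑ i, (-a i) • coeffEmb L (e i) = -r := by
        rw [hra, ← Finset.sum_neg_distrib]
        refine Finset.sum_congr rfl fun i _ => ?_
        rw [neg_smul]
      rw [h1, h2, hxs, add_neg_cancel]
  rw [Fintype.not_linearIndependent_iff] at hnot
  obtain ⟨g, hg, i₀, hi₀⟩ := hnot
  rw [Fintype.sum_sum_type] at hg
  simp only [Sum.elim_inl, Sum.elim_inr, w] at hg
  set s' : LaurentSeries K := ∑ i, g (Sum.inl i) • coeffEmb K (e i) with hs'
  set r' : LaurentSeries K := -∑ i, g (Sum.inr i) • coeffEmb K (e i) with hr'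
  have hys : y * s' = r' := by
    have h1 : ∑ i, g (Sum.inl i) • (y * coeffEmb K (e i)) = y * s' := by
      rw [hs', Finset.mul_sum]
      refine Finset.sum_congr rfl fun i _ => ?_
      rw [hsmul_eq_algebraMap_mul, hsmul_eq_algebraMap_mul]; ring
    rw [h1] at hg
    rw [hr']
    exact eq_neg_of_add_eq_zero_left hg
  have hs'mem : s' ∈ laurentBaseChange K F₀ := by
    refine sum_mem fun i _ => ?_
    rw [hsmul_eq_algebraMap_mul]
    exact mul_mem ((laurentBaseChange K F₀).algebraMap_mem _)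
      (coeffEmb_mem_laurentBaseChange K (heF i))
  have hr'mem : r' ∈ laurentBaseChange K F₀ := by
    refine neg_mem (sum_mem fun i _ => ?_)
    rw [hsmul_eq_algebraMap_mul]
    exact mul_mem ((laurentBaseChange K F₀).algebraMap_mem _)
      (coeffEmb_mem_laurentBaseChange K (heF i))
  have hs'0 : s' ≠ 0 := by
    intro h0
    rw [Fintype.linearIndependent_iff] at hindK
    have hb0 : ∀ i, g (Sum.inl i) = 0 := hindK _ h0
    have hr0 : r' = 0 := by rw [← hys, h0, mul_zero]
    have ha0 : ∀ i, g (Sum.inr i) = 0 := hindK _ (neg_eq_zero.mp hr0)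
    rcases i₀ with i | i
    · exact hi₀ (hb0 i)
    · exact hi₀ (ha0 i)
  have : y = r' / s' := by
    rw [← hys]; field_simp
  rw [this]
  exact div_mem hr'mem hs'mem

end Main

end Fermat.Agent.S29.H882

end
end
-- ===== PACK-END S29/H882/Inter.lean

-- ===== PACK-BEGIN S23.lean
section



set_option autoImplicit false
open CuspForm

namespace Fermat.Agent.S23

theorem result (N : ℕ) [NeZero N] : CuspForm.HasIntegralStructure N 2 :=
  Fermat.Agent.S23.Cap.hasIntegralStructure N 2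

end Fermat.Agent.S23

end
-- ===== PACK-END S23.lean

-- ===== PACK-BEGIN S55/Bridge/H594/Unram.lean
section



/-!
# S55 bridge (helper594), piece B10: Prelude "unramified" versus classical "unramified"

`F ⊂ ℚ̄` a finite Galois extension of `ℚ`, `q` a prime number.  The Prelude condition

  `∀ A : ValuationSubring ℚ̄, A.LiesOverPrime q → A.inertiaSubgroupIn ℚ ≤ F.fixingSubgroup`

is equivalent to: all inertia groups in `Gal(F/ℚ)` of primes of `𝓞 F` containing `q` are trivial,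
and to: the ramification index of `q` in `𝓞 F` is `1`.
-/

set_option autoImplicit false
set_option linter.style.haveILetI false
set_option linter.unusedSectionVars false

namespace Fermat.Agent.S55.Bridge.H594

open Fermat.Agent.S54 Fermat.Agent.S55.Bridge NumberField
open scoped Pointwise

attribute [local instance] isAlgebraic_Qbar isGalois_Qbar

section unram

variable (F : IntermediateField ℚ (AlgebraicClosure ℚ)) [FiniteDimensional ℚ F]

/-- A finite intermediate field of `ℚ̄/ℚ` is a number field. -/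
theorem numberField_of_finite : NumberField F :=
  { to_charZero := inferInstance, to_finiteDimensional := inferInstance }

attribute [local instance] numberField_of_finite

variable (A : ValuationSubring (AlgebraicClosure ℚ))

theorem algebraMap_ringOfIntegers_mem (x : 𝓞 F) :
    algebraMap (𝓞 F) (AlgebraicClosure ℚ) x ∈ A := by
  apply isIntegral_mem_valuationSubring A
  exact (RingOfIntegers.isIntegral x).map
    (IsScalarTower.toAlgHom ℤ (𝓞 F) (AlgebraicClosure ℚ))

/-- The prime of `𝓞 F` below the valuation subring `A` of `ℚ̄`. -/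
def primeBelowF : Ideal (𝓞 F) where
  carrier := {x | algebraMap (𝓞 F) (AlgebraicClosure ℚ) x ∈ A.nonunits}
  add_mem' := fun {a b} ha hb => by
    simp only [Set.mem_ofPred_eq, map_add] at ha hb ⊢
    exact A.nonunits.add_mem ha hb
  zero_mem' := by
    simp only [Set.mem_ofPred_eq, map_zero]
    exact A.nonunits.zero_mem
  smul_mem' := fun c b hb => by
    simp only [Set.mem_ofPred_eq, smul_eq_mul, map_mul] at hb ⊢
    rw [ValuationSubring.mem_nonunits_iff] at hb ⊢
    rw [map_mul]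
    have hc : A.valuation (algebraMap (𝓞 F) (AlgebraicClosure ℚ) c) ≤ 1 :=
      (A.valuation_le_one_iff _).mpr (algebraMap_ringOfIntegers_mem F A c)
    exact mul_lt_one_of_nonneg_of_lt_one_right hc zero_le hb

theorem mem_primeBelowF (x : 𝓞 F) :
    x ∈ primeBelowF F A ↔ algebraMap (𝓞 F) (AlgebraicClosure ℚ) x ∈ A.nonunits := Iff.rfl

theorem primeBelowF_isPrime : (primeBelowF F A).IsPrime := by
  constructor
  · intro h
    have : (1 : 𝓞 F) ∈ primeBelowF F A := by rw [h]; trivial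
    rw [mem_primeBelowF, ValuationSubring.mem_nonunits_iff, map_one, map_one] at this
    exact lt_irrefl _ this
  · intro a b hab
    rw [mem_primeBelowF, ValuationSubring.mem_nonunits_iff] at hab ⊢
    rw [mem_primeBelowF, ValuationSubring.mem_nonunits_iff]
    have ha : A.valuation (algebraMap (𝓞 F) (AlgebraicClosure ℚ) a) ≤ 1 :=
      (A.valuation_le_one_iff _).mpr (algebraMap_ringOfIntegers_mem F A a)
    have hb : A.valuation (algebraMap (𝓞 F) (AlgebraicClosure ℚ) b) ≤ 1 :=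
      (A.valuation_le_one_iff _).mpr (algebraMap_ringOfIntegers_mem F A b)
    by_contra hcon
    rw [not_or, not_lt, not_lt] at hcon
    have ha1 := le_antisymm ha hcon.1
    have hb1 := le_antisymm hb hcon.2
    rw [map_mul, map_mul, ha1, hb1, mul_one] at hab
    exact lt_irrefl _ hab

theorem natCast_mem_primeBelowF {q : ℕ} (hA : A.LiesOverPrime q) :
    (q : 𝓞 F) ∈ primeBelowF F A := by
  rw [mem_primeBelowF, map_natCast]
  exact hA

variable [IsGalois ℚ F]

theorem algebraMap_smul_ringOfIntegers (τ : F ≃ₐ[ℚ] F) (x : 𝓞 F) :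
    algebraMap (𝓞 F) (AlgebraicClosure ℚ) (τ • x) =
      ((τ (algebraMap (𝓞 F) F x) : F) : AlgebraicClosure ℚ) := rfl

theorem algebraMap_restrict_smul (σ : AlgebraicClosure ℚ ≃ₐ[ℚ] AlgebraicClosure ℚ) (x : 𝓞 F) :
    algebraMap (𝓞 F) (AlgebraicClosure ℚ) (AlgEquiv.restrictNormalHom F σ • x) =
      σ (algebraMap (𝓞 F) (AlgebraicClosure ℚ) x) := by
  rw [algebraMap_smul_ringOfIntegers, restrictNormalHom_apply]
  rfl

/-- The restriction to `F` of an element of the inertia group of `A` lies in the inertia group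
of the prime of `𝓞 F` below `A`. -/
theorem restrict_mem_inertia_primeBelowF (σ : AlgebraicClosure ℚ ≃ₐ[ℚ] AlgebraicClosure ℚ)
    (hσ : σ ∈ A.inertiaSubgroupIn ℚ) :
    AlgEquiv.restrictNormalHom F σ ∈ (primeBelowF F A).inertia (F ≃ₐ[ℚ] F) := by
  intro x
  show _ - x ∈ primeBelowF F A
  rw [mem_primeBelowF, map_sub, algebraMap_restrict_smul]
  exact ((mem_inertiaSubgroupIn_iff A σ).mp hσ).2 _ (algebraMap_ringOfIntegers_mem F A x)

/-- **B14 (inertia), ideal form**: the image in `Gal(F/ℚ)` of the inertia group of `A` is the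
inertia group of the prime of `𝓞 F` below `A`. -/
theorem map_inertiaSubgroupIn_eq {q : ℕ} (hq : q.Prime) (hA : A.LiesOverPrime q) :
    (A.inertiaSubgroupIn ℚ).map (AlgEquiv.restrictNormalHom F) =
      (primeBelowF F A).inertia (F ≃ₐ[ℚ] F) := by
  apply le_antisymm
  · rintro _ ⟨σ, hσ, rfl⟩
    exact restrict_mem_inertia_primeBelowF F A σ hσ
  · intro τ hτ
    obtain ⟨σ, hσ, hστ⟩ := exists_inertia_lift F A hq hA τ (fun x hx => by
      obtain ⟨y, rfl⟩ : ∃ y : 𝓞 F, algebraMap (𝓞 F) F y = x := ⟨⟨x, hx⟩, rfl⟩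
      have h2 : τ • y - y ∈ primeBelowF F A := hτ y
      rw [mem_primeBelowF, map_sub, algebraMap_smul_ringOfIntegers] at h2
      exact h2)
    exact ⟨σ, hσ, hστ⟩

/-- **B10.**  The Prelude unramifiedness condition at `q` for the finite Galois field `F` is
equivalent to the triviality of all inertia groups in `Gal(F/ℚ)` of primes of `𝓞 F` over `q`. -/
theorem inertia_le_fixingSubgroup_iff_inertia_eq_bot {q : ℕ} (hq : q.Prime) :
    (∀ A : ValuationSubring (AlgebraicClosure ℚ), A.LiesOverPrime q →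
        A.inertiaSubgroupIn ℚ ≤ F.fixingSubgroup) ↔
      ∀ P : Ideal (𝓞 F), P.IsPrime → (q : 𝓞 F) ∈ P → P.inertia (F ≃ₐ[ℚ] F) = ⊥ := by
  constructor
  · intro h P hP hqP
    rw [eq_bot_iff]
    intro τ hτ
    -- a valuation subring of `ℚ̄` above `P`
    let A₀ : Subring (AlgebraicClosure ℚ) := (algebraMap (𝓞 F) (AlgebraicClosure ℚ)).range
    let g : 𝓞 F →+* A₀ := (algebraMap (𝓞 F) (AlgebraicClosure ℚ)).rangeRestrict
    have hginj : Function.Injective g := by
      intro x y hxy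
      have h1 : algebraMap (𝓞 F) (AlgebraicClosure ℚ) x =
          algebraMap (𝓞 F) (AlgebraicClosure ℚ) y :=
        congrArg (fun z : A₀ => (z : AlgebraicClosure ℚ)) hxy
      exact FaithfulSMul.algebraMap_injective (𝓞 F) (AlgebraicClosure ℚ) h1
    have hgsurj : Function.Surjective g :=
      (algebraMap (𝓞 F) (AlgebraicClosure ℚ)).rangeRestrict_surjective
    have hI : P.map g ≠ ⊤ := by
      intro htop
      have h1 : (P.map g).comap g = P := Ideal.comap_map_of_bijective g ⟨hginj, hgsurj⟩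
      rw [htop, Ideal.comap_top] at h1
      exact hP.ne_top h1.symm
    obtain ⟨A, -, hA⟩ := Ideal.image_subset_nonunits_valuationSubring _ hI
    have hPA : ∀ x ∈ P, algebraMap (𝓞 F) (AlgebraicClosure ℚ) x ∈ A.nonunits := by
      intro x hx
      exact hA ⟨g x, Ideal.mem_map_of_mem g hx, rfl⟩
    have hAq : A.LiesOverPrime q := by
      have := hPA _ hqP
      rwa [map_natCast] at this
    obtain ⟨σ, hσ, hστ⟩ := exists_inertia_lift F A hq hAq τ (fun x hx => by
      obtain ⟨y, rfl⟩ : ∃ y : 𝓞 F, algebraMap (𝓞 F) F y = x := ⟨⟨x, hx⟩, rfl⟩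
      have h2 := hPA _ (hτ y)
      rw [map_sub, algebraMap_smul_ringOfIntegers] at h2
      exact h2)
    have h3 := h A hAq hσ
    rw [← hστ, Subgroup.mem_bot]
    exact restrictNormalHom_eq_one_of_mem_fixingSubgroup F σ h3
  · intro h A hA σ hσ
    haveI := primeBelowF_isPrime F A
    have h1 := restrict_mem_inertia_primeBelowF F A σ hσ
    rw [h (primeBelowF F A) inferInstance (natCast_mem_primeBelowF F A hA), Subgroup.mem_bot] at h1
    rw [IntermediateField.mem_fixingSubgroup_iff]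
    intro x hx
    have h2 := restrictNormalHom_apply F σ ⟨x, hx⟩
    rw [h1] at h2
    exact h2.symm

/-- A prime of `𝓞 F` containing the prime number `q` lies over `(q) ⊂ ℤ`. -/
theorem liesOver_span_of_natCast_mem {q : ℕ} (hq : q.Prime) (P : Ideal (𝓞 F)) [P.IsPrime]
    (hqP : (q : 𝓞 F) ∈ P) : P.LiesOver (Ideal.span {(q : ℤ)}) := by
  haveI hmax : (Ideal.span {(q : ℤ)}).IsMaximal :=
    PrincipalIdealRing.isMaximal_of_irreducible (Nat.prime_iff_prime_int.mp hq).irreducible
  refine ⟨?_⟩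
  have hle : Ideal.span {(q : ℤ)} ≤ P.under ℤ := by
    rw [Ideal.span_le, Set.singleton_subset_iff]
    show algebraMap ℤ (𝓞 F) (q : ℤ) ∈ P
    simpa using hqP
  exact hmax.eq_of_le (Ideal.IsPrime.under ℤ P).ne_top hle

/-- **B10, ramification index form.**  The Prelude unramifiedness condition at `q` for the
finite Galois field `F` holds iff `q` has ramification index `1` in `𝓞 F`. -/
theorem inertia_le_fixingSubgroup_iff_ramificationIdxIn {q : ℕ} (hq : q.Prime) :
    (∀ A : ValuationSubring (AlgebraicClosure ℚ), A.LiesOverPrime q →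
        A.inertiaSubgroupIn ℚ ≤ F.fixingSubgroup) ↔
      (Ideal.span {(q : ℤ)}).ramificationIdxIn (𝓞 F) = 1 := by
  haveI hgal : IsGaloisGroup (F ≃ₐ[ℚ] F) ℤ (𝓞 F) :=
    IsGaloisGroup.of_isFractionRing (F ≃ₐ[ℚ] F) ℤ (𝓞 F) ℚ F
  haveI hmax : (Ideal.span {(q : ℤ)}).IsMaximal :=
    PrincipalIdealRing.isMaximal_of_irreducible (Nat.prime_iff_prime_int.mp hq).irreducible
  haveI hprime : (Ideal.span {(q : ℤ)}).IsPrime := hmax.isPrime
  rw [inertia_le_fixingSubgroup_iff_inertia_eq_bot F hq]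
  constructor
  · intro h
    obtain ⟨A, hA⟩ := exists_valuationSubring_liesOver q hq
    haveI := primeBelowF_isPrime F A
    haveI := liesOver_span_of_natCast_mem F hq (primeBelowF F A) (natCast_mem_primeBelowF F A hA)
    rw [← Ideal.card_inertia_eq_ramificationIdxIn (G := F ≃ₐ[ℚ] F) (Ideal.span {(q : ℤ)})
      (primeBelowF F A), h _ inferInstance (natCast_mem_primeBelowF F A hA)]
    exact Subgroup.card_bot
  · intro h P hP hqP
    haveI := hP
    haveI := liesOver_span_of_natCast_mem F hq P hqP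
    have h1 := Ideal.card_inertia_eq_ramificationIdxIn (G := F ≃ₐ[ℚ] F) (Ideal.span {(q : ℤ)}) P
    rw [h] at h1
    exact (Subgroup.card_eq_one).mp h1

/-- **B10 for levels.**  A finite Galois `F` is unramified outside `S` in the Prelude sense iff
every prime number outside `S` has ramification index `1` in `𝓞 F`. -/
theorem isUnramifiedOutside_iff_ramificationIdxIn (S : Finset Nat.Primes) :
    F.IsUnramifiedOutside S ↔
      ∀ q : Nat.Primes, q ∉ S → (Ideal.span {((q : ℕ) : ℤ)}).ramificationIdxIn (𝓞 F) = 1 := by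
  constructor
  · intro h q hqS
    exact (inertia_le_fixingSubgroup_iff_ramificationIdxIn F q.2).mp (h.2 q hqS)
  · intro h
    exact ⟨inferInstance, fun q hqS =>
      (inertia_le_fixingSubgroup_iff_ramificationIdxIn F q.2).mpr (h q hqS)⟩

/-- **B10 for levels, inertia form.** -/
theorem isUnramifiedOutside_iff_inertia_eq_bot (S : Finset Nat.Primes) :
    F.IsUnramifiedOutside S ↔
      ∀ q : Nat.Primes, q ∉ S → ∀ P : Ideal (𝓞 F), P.IsPrime → ((q : ℕ) : 𝓞 F) ∈ P →
        P.inertia (F ≃ₐ[ℚ] F) = ⊥ := by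
  constructor
  · intro h q hqS
    exact (inertia_le_fixingSubgroup_iff_inertia_eq_bot F q.2).mp (h.2 q hqS)
  · intro h
    exact ⟨inferInstance, fun q hqS =>
      (inertia_le_fixingSubgroup_iff_inertia_eq_bot F q.2).mpr (h q hqS)⟩

end unram

end Fermat.Agent.S55.Bridge.H594

end
-- ===== PACK-END S55/Bridge/H594/Unram.lean

-- ===== PACK-BEGIN A2/H553/Vinf.lean
section








/-!
# A2 / K2c (helper553): the Gauss valuation `V∞` of `Q̄(X₀(N)) ⊆ Q̄((q))` over `A`

`A ⊆ Q̄` a valuation subring over a prime `ℓ`, `F₀ ⊆ ℚ((q))` a subfield all of whose elements are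
`FinFrac` (e.g. `modularFunctionFieldFull N`, any `N`), `F̄ = laurentBaseChange Q̄ F₀`.

* `Vinf A F₀ h : ValuationSubring F̄` — the Gauss valuation ring `F̄ ∩ gaussA A`
  (`x ∈ Vinf ↔ x = a/b`, `a, b` `A`-integral `q`-series, `b` primitive: `mem_Vinf_iff`);
* `redInf : Vinf →+* k_A((q))` with `redInf x = 0 ↔ v x < 1` (`redInf_eq_zero_iff`);
* `algebraMap_mem_Vinf_iff` : `Vinf ∩ Q̄ = A`;
* the three hypotheses of helper129's K2 (`Fermat.Agent.A2.H129.GaussTwice`):
  `hasConstValues_Vinf`, `preservesConstValues_Vinf`, `inInertia_Vinf`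
  for `τ = arithmeticRingAut F₀ σ`, `σ ∈ A.inertiaSubgroupIn ℚ` (resp. decomposition group);
* `gaussInput_modular` : the hypotheses hold for `F₀ = modularFunctionFieldFull N`.
-/

set_option autoImplicit false
set_option linter.unusedSectionVars false
set_option linter.style.haveILetI false

noncomputable section

namespace Fermat.Agent.A2.H553

open ModularCurve HahnSeries IntermediateField AlgebraicCurve
open Fermat.Agent.S28.H86 Fermat.Agent.S18.H602 Fermat.Agent.A2.H129

local notation "Q̄" => AlgebraicClosure ℚ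

/-- The input of the construction: `A` lies over a prime and `F₀` consists of `FinFrac`
elements. -/
structure GaussInput (A : ValuationSubring Q̄) (F₀ : IntermediateField ℚ (LaurentSeries ℚ)) :
    Prop where
  exists_prime : ∃ ℓ : ℕ, ℓ ≠ 0 ∧ A.LiesOverPrime ℓ
  finFrac : ∀ z ∈ F₀, FinFrac A (coeffEmb Q̄ z)

variable {A : ValuationSubring Q̄} {F₀ : IntermediateField ℚ (LaurentSeries ℚ)}

/-- Every nonzero element of `F̄` is a constant times a Gauss unit. -/
theorem GaussInput.hasGaussForm (h : GaussInput A F₀) {x : LaurentSeries Q̄}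
    (hx : x ∈ laurentBaseChange Q̄ F₀) (hx0 : x ≠ 0) : HasGaussForm A x := by
  obtain ⟨ℓ, hℓ, hA⟩ := h.exists_prime
  exact (finFrac_of_mem_laurentBaseChange h.finFrac hx).hasGaussForm hℓ hA hx0

/-- The Gauss valuation ring of `F̄ = Q̄ · F₀`. -/
def Vinf (A : ValuationSubring Q̄) (F₀ : IntermediateField ℚ (LaurentSeries ℚ))
    (h : GaussInput A F₀) : ValuationSubring ↥(laurentBaseChange Q̄ F₀) where
  toSubring := (gaussA A).comap
    ((laurentBaseChange Q̄ F₀).val : ↥(laurentBaseChange Q̄ F₀) →+* LaurentSeries Q̄)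
  mem_or_inv_mem' := by
    intro x
    rcases eq_or_ne x 0 with rfl | hx
    · exact Or.inl (Subring.zero_mem _)
    · have hx0 : (x : LaurentSeries Q̄) ≠ 0 := fun h0 => hx (Subtype.ext h0)
      rcases (h.hasGaussForm x.2 hx0).mem_or_inv_mem with h1 | h1
      · exact Or.inl h1
      · exact Or.inr h1

theorem mem_Vinf_iff (h : GaussInput A F₀) {x : ↥(laurentBaseChange Q̄ F₀)} :
    x ∈ Vinf A F₀ h ↔ (x : LaurentSeries Q̄) ∈ gaussA A := Iff.rfl

/-- general: valuation one iff the element and its inverse are integral -/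
theorem valuation_eq_one_iff_mem {F : Type*} [Field F] (V : ValuationSubring F) {x : F}
    (hx : x ≠ 0) : V.valuation x = 1 ↔ x ∈ V ∧ x⁻¹ ∈ V := by
  rw [← V.valuation_le_one_iff, ← V.valuation_le_one_iff, map_inv₀]
  have hv : V.valuation x ≠ 0 := (Valuation.ne_zero_iff _).mpr hx
  constructor
  · intro h; rw [h]; simp
  · rintro ⟨h1, h2⟩
    exact le_antisymm h1 ((inv_le_one₀ (zero_lt_iff.mpr hv)).mp h2)

/-- general: valuation `< 1` iff integral and not a unit -/
theorem valuation_lt_one_iff_mem {F : Type*} [Field F] (V : ValuationSubring F) {x : F} :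
    V.valuation x < 1 ↔ x ∈ V ∧ (x = 0 ∨ x⁻¹ ∉ V) := by
  rcases eq_or_ne x 0 with rfl | hx
  · simp
  · rw [lt_iff_le_and_ne, V.valuation_le_one_iff, Ne, valuation_eq_one_iff_mem V hx]
    constructor
    · rintro ⟨h1, h2⟩
      exact ⟨h1, Or.inr fun h3 => h2 ⟨h1, h3⟩⟩
    · rintro ⟨h1, h2 | h2⟩
      · exact absurd h2 hx
      · exact ⟨h1, fun h3 => h2 h3.2⟩

/-- The reduction map `V∞ → k_A((q))`. -/
def redInf (h : GaussInput A F₀) :
    ↥(Vinf A F₀ h) →+* LaurentSeries (IsLocalRing.ResidueField ↥A) :=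
  (redA A).comp
    (((laurentBaseChange Q̄ F₀).val : ↥(laurentBaseChange Q̄ F₀) →+* LaurentSeries Q̄).restrict
      (Vinf A F₀ h).toSubring (gaussA A) (fun _ hx => hx))

theorem redInf_apply (h : GaussInput A F₀) (x : ↥(Vinf A F₀ h)) :
    redInf h x = redA A ⟨((x : ↥(laurentBaseChange Q̄ F₀)) : LaurentSeries Q̄), x.2⟩ := rfl

theorem redInf_eq (h : GaussInput A F₀) (x : ↥(Vinf A F₀ h))
    (a b : LaurentSeries ↥A.toSubring) (hb : redL (resA A) b ≠ 0)
    (hab : ((x : ↥(laurentBaseChange Q̄ F₀)) : LaurentSeries Q̄) * inclL A.toSubring b =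
      inclL A.toSubring a) :
    redInf h x = redL (resA A) a / redL (resA A) b :=
  redA_eq ⟨_, x.2⟩ a b hb hab

/-- the kernel of the reduction is the maximal ideal -/
theorem redInf_eq_zero_iff (h : GaussInput A F₀) (x : ↥(Vinf A F₀ h)) :
    redInf h x = 0 ↔ (Vinf A F₀ h).valuation (x : ↥(laurentBaseChange Q̄ F₀)) < 1 := by
  rw [valuation_lt_one_iff_mem]
  constructor
  · intro h0
    refine ⟨x.2, ?_⟩
    by_contra hcon
    push Not at hcon
    obtain ⟨hx0, hxinv⟩ := hcon
    have hx0' : ((x : ↥(laurentBaseChange Q̄ F₀)) : LaurentSeries Q̄) ≠ 0 :=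
      fun h1 => hx0 (Subtype.ext h1)
    exact redA_ne_zero_of_inv_mem ⟨_, x.2⟩ hx0' hxinv h0
  · rintro ⟨-, h1 | h1⟩
    · have : x = 0 := Subtype.ext h1
      rw [this, map_zero]
    · by_contra hne
      exact h1 (inv_mem_gaussA_of_redA_ne_zero ⟨_, x.2⟩ hne)

/-- `V∞ ∩ Q̄ = A`. -/
theorem algebraMap_mem_Vinf_iff (h : GaussInput A F₀) {c : Q̄} :
    algebraMap Q̄ ↥(laurentBaseChange Q̄ F₀) c ∈ Vinf A F₀ h ↔ c ∈ A := by
  rw [mem_Vinf_iff]
  have : ((algebraMap Q̄ ↥(laurentBaseChange Q̄ F₀) c : ↥(laurentBaseChange Q̄ F₀)) :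
      LaurentSeries Q̄) = HahnSeries.C c := by
    show algebraMap Q̄ (LaurentSeries Q̄) c = _
    rw [algebraMap_laurentSeries_eq_single]
    rfl
  rw [this]
  exact const_mem_gaussA

theorem valuation_algebraMap_eq_one (h : GaussInput A F₀) {c : Q̄} (hc : A.valuation c = 1) :
    (Vinf A F₀ h).valuation (algebraMap Q̄ ↥(laurentBaseChange Q̄ F₀) c) = 1 := by
  have hc0 : c ≠ 0 := by
    rintro rfl
    rw [map_zero] at hc
    exact zero_ne_one hc
  rw [valuation_eq_one_iff_mem _ (by simpa using hc0), ← map_inv₀, algebraMap_mem_Vinf_iff,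
    algebraMap_mem_Vinf_iff, ← A.valuation_le_one_iff, ← A.valuation_le_one_iff, map_inv₀, hc]
  simp

/-! ### The hypotheses of K2 -/

/-- the subfield of constants of `F̄` -/
def constField (F₀ : IntermediateField ℚ (LaurentSeries ℚ)) :
    Subfield ↥(laurentBaseChange Q̄ F₀) :=
  (algebraMap Q̄ ↥(laurentBaseChange Q̄ F₀)).fieldRange

theorem mem_constField {x : ↥(laurentBaseChange Q̄ F₀)} :
    x ∈ constField F₀ ↔ ∃ c : Q̄, algebraMap Q̄ ↥(laurentBaseChange Q̄ F₀) c = x :=
  Iff.rfl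

/-- Galois preserves the constants. -/
theorem arithmeticRingAut_mem_constField (σ : Q̄ ≃ₐ[ℚ] Q̄) {c : ↥(laurentBaseChange Q̄ F₀)}
    (hc : c ∈ constField F₀) : arithmeticRingAut F₀ σ c ∈ constField F₀ := by
  obtain ⟨c₀, rfl⟩ := hc
  exact ⟨σ c₀, (arithmeticRingAut_algebraMap F₀ σ c₀).symm⟩

/-- **K2 hypothesis `HasConstValues`** for `V∞`. -/
theorem hasConstValues_Vinf (h : GaussInput A F₀) :
    HasConstValues (constField F₀) (Vinf A F₀ h) := by
  intro f hf
  have hf0 : (f : LaurentSeries Q̄) ≠ 0 := fun h0 => hf (Subtype.ext h0)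
  obtain ⟨c, hc, a, b, ha, hb, hab⟩ := h.hasGaussForm f.2 hf0
  refine ⟨algebraMap Q̄ _ c, ⟨c, rfl⟩, by simpa using hc, ?_⟩
  have hC := C_ne_zero' (K := Q̄) hc
  have hcoe : ((f * (algebraMap Q̄ ↥(laurentBaseChange Q̄ F₀) c)⁻¹ :
      ↥(laurentBaseChange Q̄ F₀)) : LaurentSeries Q̄) =
      (f : LaurentSeries Q̄) * (HahnSeries.C c)⁻¹ := by
    have : ((algebraMap Q̄ ↥(laurentBaseChange Q̄ F₀) c : ↥(laurentBaseChange Q̄ F₀)) :
        LaurentSeries Q̄) = HahnSeries.C c := by
      show algebraMap Q̄ (LaurentSeries Q̄) c = _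
      rw [algebraMap_laurentSeries_eq_single]
      rfl
    rw [← this]
    rfl
  have hrel : (f : LaurentSeries Q̄) * (HahnSeries.C c)⁻¹ * inclL A.toSubring b =
      inclL A.toSubring a := by
    calc (f : LaurentSeries Q̄) * (HahnSeries.C c)⁻¹ * inclL A.toSubring b
        = (HahnSeries.C c)⁻¹ * ((f : LaurentSeries Q̄) * inclL A.toSubring b) := by ring
      _ = inclL A.toSubring a := by rw [hab, ← mul_assoc, inv_mul_cancel₀ hC, one_mul]
  have hmem : (f : LaurentSeries Q̄) * (HahnSeries.C c)⁻¹ ∈ gaussA A := ⟨a, b, hb, hrel⟩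
  have hred : redA A ⟨_, hmem⟩ ≠ 0 := by
    rw [redA_eq ⟨_, hmem⟩ a b hb hrel]
    exact div_ne_zero ha hb
  have hinv := inv_mem_gaussA_of_redA_ne_zero ⟨_, hmem⟩ hred
  have hne : f * (algebraMap Q̄ ↥(laurentBaseChange Q̄ F₀) c)⁻¹ ≠ 0 :=
    mul_ne_zero hf (inv_ne_zero (by simpa using hc))
  show (Vinf A F₀ h).valuation _ = 1
  rw [valuation_eq_one_iff_mem _ hne, mem_Vinf_iff, mem_Vinf_iff]
  refine ⟨by rw [hcoe]; exact hmem, ?_⟩
  have : (((f * (algebraMap Q̄ ↥(laurentBaseChange Q̄ F₀) c)⁻¹)⁻¹ :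
      ↥(laurentBaseChange Q̄ F₀)) : LaurentSeries Q̄) =
      ((f : LaurentSeries Q̄) * (HahnSeries.C c)⁻¹)⁻¹ := by
    rw [← hcoe]
    push_cast
    rfl
  rw [this]
  exact hinv

/-- **K2 hypothesis `PreservesConstValues`** for `V∞` and `σ` in the decomposition group. -/
theorem preservesConstValues_Vinf (h : GaussInput A F₀) {σ : Q̄ ≃ₐ[ℚ] Q̄}
    (hσ : σ ∈ A.decompositionSubgroup ℚ) :
    PreservesConstValues (constField F₀) (Vinf A F₀ h) (arithmeticRingAut F₀ σ) := by
  haveI := isAlgebraic_Qbar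
  rintro c ⟨c₀, rfl⟩ hc
  have hc₀ : c₀ ≠ 0 := by
    rintro rfl
    exact hc (map_zero _)
  show (Vinf A F₀ h).valuation _ = 1
  rw [arithmeticRingAut_algebraMap, ← map_inv₀, ← map_mul]
  apply valuation_algebraMap_eq_one
  rw [← div_eq_mul_inv]
  exact Fermat.Agent.A2.H708.valuation_apply_div_self A hσ hc₀

/-! ### Inertia acts trivially on the residue field of `V∞` -/

/-- restriction of `σ` in the decomposition group to `A` -/
def restrictA (A : ValuationSubring Q̄) {σ : Q̄ ≃ₐ[ℚ] Q̄} (hσ : σ ∈ A.decompositionSubgroup ℚ) :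
    ↥A.toSubring →+* ↥A.toSubring :=
  ((σ : Q̄ →+* Q̄).comp A.toSubring.subtype).codRestrict A.toSubring
    (fun x => Fermat.Agent.A2.H708.apply_mem_of_mem_decomposition A hσ x.2)

theorem coe_restrictA {σ : Q̄ ≃ₐ[ℚ] Q̄} (hσ : σ ∈ A.decompositionSubgroup ℚ)
    (x : ↥A.toSubring) : ((restrictA A hσ x : ↥A.toSubring) : Q̄) = σ (x : Q̄) := rfl

theorem coeffMap_inclL {σ : Q̄ ≃ₐ[ℚ] Q̄} (hσ : σ ∈ A.decompositionSubgroup ℚ)
    (a : LaurentSeries ↥A.toSubring) :
    coeffMap (σ : Q̄ →+* Q̄) (inclL A.toSubring a) =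
      inclL A.toSubring (coeffMap (restrictA A hσ) a) := by
  ext n
  rfl

theorem redL_coeffMap_restrictA {σ : Q̄ ≃ₐ[ℚ] Q̄} (hσ : σ ∈ A.inertiaSubgroupIn ℚ)
    (a : LaurentSeries ↥A.toSubring) :
    redL (resA A)
      (coeffMap (restrictA A (Fermat.Agent.A2.H708.mem_decomposition_of_mem_inertiaIn A hσ)) a)
      = redL (resA A) a := by
  ext n
  rw [redL_coeff, redL_coeff, coeffMap_coeff, ← sub_eq_zero, ← map_sub, resA_eq_zero_iff]
  exact Fermat.Agent.A2.H708.valuation_sub_lt_one_of_mem_inertiaIn A hσ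
    ((A.valuation_le_one_iff _).mpr (a.coeff n).2)

/-- the decomposition group preserves `V∞` -/
theorem arithmeticRingAut_mem_Vinf (h : GaussInput A F₀) {σ : Q̄ ≃ₐ[ℚ] Q̄}
    (hσ : σ ∈ A.decompositionSubgroup ℚ) {u : ↥(laurentBaseChange Q̄ F₀)}
    (hu : u ∈ Vinf A F₀ h) : arithmeticRingAut F₀ σ u ∈ Vinf A F₀ h := by
  obtain ⟨a, b, hb, hab⟩ := hu
  have hinj : Function.Injective (coeffMap (restrictA A hσ)) := by
    apply coeffMap_injective
    intro x y hxy
    apply Subtype.ext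
    have := congrArg (fun z : ↥A.toSubring => (z : Q̄)) hxy
    simp only [coe_restrictA] at this
    exact σ.injective this
  refine ⟨coeffMap (restrictA A hσ) a, coeffMap (restrictA A hσ) b, ?_, ?_⟩
  · -- `redL` of the twisted denominator is nonzero: the twist is primitive again
    rw [redL_ne_zero_iff] at hb ⊢
    obtain ⟨n, hn⟩ := hb
    refine ⟨n, ?_⟩
    rw [coeffMap_coeff, coe_restrictA]
    haveI := isAlgebraic_Qbar
    rw [Fermat.Agent.A2.H708.valuation_apply_of_mem_decomposition A hσ]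
    exact hn
  · show coeffMap (σ : Q̄ →+* Q̄) (u : LaurentSeries Q̄) * _ = _
    rw [← coeffMap_inclL hσ, ← coeffMap_inclL hσ, ← map_mul]
    exact congrArg _ hab

/-- **K2 hypothesis `InInertia`** for `V∞`: the inertia group of `A` acts trivially on the residue
field of `V∞`. -/
theorem inInertia_Vinf (h : GaussInput A F₀) {σ : Q̄ ≃ₐ[ℚ] Q̄}
    (hσ : σ ∈ A.inertiaSubgroupIn ℚ) :
    InInertia (Vinf A F₀ h) (arithmeticRingAut F₀ σ) := by
  intro u hu
  have hσD := Fermat.Agent.A2.H708.mem_decomposition_of_mem_inertiaIn A hσ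
  have huV : u ∈ Vinf A F₀ h := ((Vinf A F₀ h).valuation_le_one_iff u).mp hu
  have hτuV := arithmeticRingAut_mem_Vinf h hσD huV
  have hsub : arithmeticRingAut F₀ σ u - u ∈ Vinf A F₀ h := sub_mem hτuV huV
  have key : redInf h ⟨_, hτuV⟩ = redInf h ⟨u, huV⟩ := by
    obtain ⟨a, b, hb, hab⟩ := huV
    have hb' : redL (resA A) (coeffMap (restrictA A hσD) b) ≠ 0 := by
      rw [redL_coeffMap_restrictA hσ]; exact hb
    have hab' : ((arithmeticRingAut F₀ σ u : ↥(laurentBaseChange Q̄ F₀)) : LaurentSeries Q̄) *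
        inclL A.toSubring (coeffMap (restrictA A hσD) b) =
        inclL A.toSubring (coeffMap (restrictA A hσD) a) := by
      show coeffMap (σ : Q̄ →+* Q̄) (u : LaurentSeries Q̄) * _ = _
      rw [← coeffMap_inclL hσD, ← coeffMap_inclL hσD, ← map_mul]
      exact congrArg _ hab
    rw [redInf_eq h ⟨_, hτuV⟩ _ _ hb' hab', redInf_eq h ⟨u, _⟩ a b hb hab,
      redL_coeffMap_restrictA hσ, redL_coeffMap_restrictA hσ]
  have h0 : redInf h ⟨_, hsub⟩ = 0 := by
    have : (⟨_, hsub⟩ : ↥(Vinf A F₀ h)) = ⟨_, hτuV⟩ - ⟨u, huV⟩ := rfl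
    rw [this, map_sub, key, sub_self]
  exact (redInf_eq_zero_iff h ⟨_, hsub⟩).mp h0

/-- the reduction map is invariant under inertia -/
theorem redInf_arithmeticRingAut (h : GaussInput A F₀) {σ : Q̄ ≃ₐ[ℚ] Q̄}
    (hσ : σ ∈ A.inertiaSubgroupIn ℚ) (u : ↥(laurentBaseChange Q̄ F₀)) (hu : u ∈ Vinf A F₀ h) :
    redInf h ⟨arithmeticRingAut F₀ σ u, arithmeticRingAut_mem_Vinf h
      (Fermat.Agent.A2.H708.mem_decomposition_of_mem_inertiaIn A hσ) hu⟩ =
      redInf h ⟨u, hu⟩ := by
  have hσD := Fermat.Agent.A2.H708.mem_decomposition_of_mem_inertiaIn A hσ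
  obtain ⟨a, b, hb, hab⟩ := hu
  have hb' : redL (resA A) (coeffMap (restrictA A hσD) b) ≠ 0 := by
    rw [redL_coeffMap_restrictA hσ]; exact hb
  have hab' : ((arithmeticRingAut F₀ σ u : ↥(laurentBaseChange Q̄ F₀)) : LaurentSeries Q̄) *
      inclL A.toSubring (coeffMap (restrictA A hσD) b) =
      inclL A.toSubring (coeffMap (restrictA A hσD) a) := by
    show coeffMap (σ : Q̄ →+* Q̄) (u : LaurentSeries Q̄) * _ = _
    rw [← coeffMap_inclL hσD, ← coeffMap_inclL hσD, ← map_mul]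
    exact congrArg _ hab
  rw [redInf_eq h ⟨_, _⟩ _ _ hb' hab', redInf_eq h ⟨u, _⟩ a b hb hab,
    redL_coeffMap_restrictA hσ, redL_coeffMap_restrictA hσ]

end Fermat.Agent.A2.H553

end
end
-- ===== PACK-END A2/H553/Vinf.lean

-- ===== PACK-BEGIN A2/Mod/H872/PolyJ.lean
section




/-!
# A2 / MOD leaf L7 (helper872), part 3: polynomials in `j_d` as integral series

`L ⊇ ℚ` a field, `A` a valuation subring of `L`.  For a polynomial `p ∈ A[X]` the series
`p(j_d) = qExpand d (evalJ p) ∈ A((t))`; its image in `L((t))` and its reduction.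
-/

set_option autoImplicit false
set_option linter.unusedSectionVars false

noncomputable section

namespace Fermat.Agent.A2.Mod.H872

open ModularCurve HahnSeries Polynomial Fermat.Agent.A2.H708 Fermat.Agent.S37.H700

variable {L : Type*} [Field L] [Algebra ℚ L] (A : ValuationSubring L)

/-- `p(j_d)` as an `A`-integral series. -/
def polyJ (d : ℕ) [NeZero d] (p : Polynomial A) : LaurentSeries A :=
  qExpand A d (evalJ A p)

theorem incl_polyJ (d : ℕ) [NeZero d] (p : Polynomial A) :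
    incl A (polyJ A d p) = qExpand L d (evalJ L (p.map A.subtype)) := by
  unfold polyJ
  rw [coeffMap_qExpand, coeffMap_evalJ]

theorem red_polyJ (d : ℕ) [NeZero d] (p : Polynomial A) :
    red A (polyJ A d p) =
      qExpand (IsLocalRing.ResidueField A) d
        (evalJ (IsLocalRing.ResidueField A) (p.map (IsLocalRing.residue A))) := by
  unfold polyJ
  rw [coeffMap_qExpand, coeffMap_evalJ]

theorem red_polyJ_ne_zero (d : ℕ) [NeZero d] {p : Polynomial A}
    (hp : p.map (IsLocalRing.residue A) ≠ 0) : red A (polyJ A d p) ≠ 0 := by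
  rw [red_polyJ]
  intro h
  have h1 : evalJ (IsLocalRing.ResidueField A) (p.map (IsLocalRing.residue A)) = 0 :=
    qExpand_injective d (by rw [h, map_zero])
  exact hp ((evalJ_eq_zero_iff _).mp h1)

theorem polyJ_eq_zero_iff (d : ℕ) [NeZero d] (p : Polynomial A) :
    incl A (polyJ A d p) = 0 ↔ p = 0 := by
  rw [incl_polyJ]
  constructor
  · intro h
    have h1 : evalJ L (p.map A.subtype) = 0 := qExpand_injective d (by rw [h, map_zero])
    have h2 := (evalJ_eq_zero_iff L).mp h1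
    exact Polynomial.map_injective A.subtype Subtype.val_injective (by rw [h2, Polynomial.map_zero])
  · rintro rfl
    rw [Polynomial.map_zero, evalJ_zero, map_zero]

/-- In a discrete valuation ring with uniformiser `w`: a polynomial with zero reduction is
divisible by `w`. -/
theorem C_dvd_of_map_residue_eq_zero [IsDiscreteValuationRing A] {w : A} (hw : Irreducible w)
    {p : Polynomial A} (hp : p.map (IsLocalRing.residue A) = 0) : Polynomial.C w ∣ p := by
  rw [Polynomial.C_dvd_iff_dvd_coeff]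
  intro i
  have h1 : IsLocalRing.residue A (p.coeff i) = 0 := by
    have := congrArg (fun r => Polynomial.coeff r i) hp
    simpa [Polynomial.coeff_map] using this
  rw [IsLocalRing.residue_eq_zero_iff, hw.maximalIdeal_eq, Ideal.mem_span_singleton] at h1
  exact h1

theorem map_residue_ne_zero_of_not_C_dvd [IsDiscreteValuationRing A] {w : A}
    (hw : Irreducible w) {p : Polynomial A} (hp : ¬ Polynomial.C w ∣ p) :
    p.map (IsLocalRing.residue A) ≠ 0 :=
  fun h => hp (C_dvd_of_map_residue_eq_zero A hw h)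

/-- The generator `j_d` as a series over `L`. -/
theorem coeffEmb_qExpand_jq (d : ℕ) [NeZero d] :
    coeffEmb L (qExpand ℚ d jq) = qExpand L d (jqModC L) := by
  rw [coeffEmb, coeffMap_qExpand, ← jqModC_rat, coeffMap_jqModC]

/-- Evaluation of `p ∈ A[X]` at an element `x` of a subfield `F ⊆ L((t))` whose series is
`j_d`, read in `L((t))`. -/
theorem coe_eval₂_eq_incl_polyJ (F : IntermediateField L (LaurentSeries L)) (d : ℕ) [NeZero d]
    {x : F} (hx : (x : LaurentSeries L) = qExpand L d (jqModC L)) (p : Polynomial A) :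
    ((p.eval₂ ((algebraMap L F).comp A.subtype) x : F) : LaurentSeries L) =
      incl A (polyJ A d p) := by
  rw [incl_polyJ]
  have h1 : ((p.eval₂ ((algebraMap L F).comp A.subtype) x : F) : LaurentSeries L) =
      p.eval₂ (F.val.toRingHom.comp ((algebraMap L F).comp A.subtype)) (F.val x) :=
    Polynomial.hom_eval₂ p _ F.val.toRingHom x
  rw [h1]
  unfold evalJ
  rw [Polynomial.hom_eval₂, Polynomial.eval₂_map]
  have hx' : F.val x = qExpand L d (jqModC L) := hx
  rw [hx']
  congr 1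
  ext r : 1
  show algebraMap L (LaurentSeries L) (r : L) = qExpand L d (HahnSeries.C (r : L))
  rw [qExpand_C, algebraMap_laurentSeries_eq_single]
  rfl

end Fermat.Agent.A2.Mod.H872

end
end
-- ===== PACK-END A2/Mod/H872/PolyJ.lean

-- ===== PACK-BEGIN A2/Top/H994/Wall.lean
section



/-!
# WALL A2 — final assembly for ALL `q` (deputy helper994)

The MOD block can produce the semistable model `ModSSData P E N` only at levels `N` where the
good-reduction input at level `M = N / q` is available from S18: for `q = 3` this needs `2 ∣ N`,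
for `q = 2` it needs `3 ∣ N` (Hauptmodul charts).  This file closes the wall for every level:

* `t1_perN`            : `T1` for ONE level `N` (same proof as `T1.H669.t1`, which uses MOD only at
                         the level `N`);
* `ModSSGoodStatement` : `ModSSStatement` restricted to levels with the auxiliary prime;
* `D2Statement`        : descent of `KummerTarget` from the auxiliary level to `N` (norm trick,
                         degree `3` resp. `4`, prime to `m`; owners helper876 / helper133);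
* `wall`               : `AlgSS → IF → ModSSGood → D2 → Target N q m` for all `q ‖ N`, `q ∤ m`.
-/

set_option autoImplicit false
set_option synthInstance.maxHeartbeats 400000
set_option maxHeartbeats 1600000

noncomputable section

namespace Fermat.Agent.A2.Top.H994

open ModularCurve AlgebraicCurve Fermat.Agent.A2 Fermat.Agent.A2.T1.H669

/-- **T1 for one level.**  `ALG + IF + (MOD at the level N) ⟹ KummerTarget N q m`. -/
theorem t1_perN (hALG : AlgSSStatement) (hIF : IFStatement) (N q m : ℕ) (hq : q.Prime)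
    (hm : 0 < m) (hqm : ¬ q ∣ m)
    (hMOD : ∀ (P : ValuationSubring _root_.Fermat.Agent.A2.Qb) (E : IntermediateField ℚ _root_.Fermat.Agent.A2.Qb),
      P.LiesOverPrime q → GoodField P E → Nonempty (ModSSData P E N)) :
    KummerTarget N q m := by
  intro P hP τ hτ f hf hdiv
  refine kummer_of_levels (modularFunctionFieldFull N) m τ (fun S => ?_) f hf hdiv
  obtain ⟨E, hSE, hE⟩ := hIF q hq P hP S
  refine ⟨E, hSE, hE.res τ hτ, fun e => rfl, fun y hy0 hdd => ?_⟩
  obtain ⟨D⟩ := hMOD P E hP hE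
  haveI : IsDiscreteValuationRing ↥(RE P E) := hE.dvr
  haveI : HenselianLocalRing ↥(RE P E) := hE.henselian
  haveI : IsAlgClosed (IsLocalRing.ResidueField ↥(RE P E)) := hE.algClosed
  obtain ⟨w, hw⟩ := IsDiscreteValuationRing.exists_irreducible ↥(RE P E)
  obtain ⟨cf⟩ := D.cf w hw
  obtain ⟨ci⟩ := D.ci w hw
  have hconcl : AlgSSConclusion E m
      (arithmeticRingAut (modularFunctionFieldFull N) (hE.res τ hτ)) :=
    hALG (R := ↥(RE P E)) (E := E) (F := ↥(FE E N)) w hw q m hq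
      (natCast_mem_maximalIdeal_RE E hP) hm hqm D.x D.hx D.hfin D.hconst D.Bf D.Bi D.hBf D.hBi
      cf ci D.sf D.si
      (arithmeticRingAut (modularFunctionFieldFull N) (hE.res τ hτ))
      (hE.res τ hτ).toRingEquiv (resR hE τ hτ)
      (fun e => arithmeticRingAut_algebraMap (modularFunctionFieldFull N) (hE.res τ hτ) e)
      (fun r => rfl)
      (D.hτx hE τ hτ)
      (finite_order_arithmeticRingAut (modularFunctionFieldFull N) hE τ hτ)
      (D.hτf hE τ hτ w hw) (D.hτi hE τ hτ w hw)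
  exact hconcl y hy0 hdd

/-- The auxiliary level: `lcm N 2` for `q = 3`, `lcm N 3` for `q = 2`, `N` otherwise. -/
def auxLevel (N q : ℕ) : ℕ :=
  if q = 3 then Nat.lcm N 2 else if q = 2 then Nat.lcm N 3 else N

/-- **MOD, producible form**: the semistable model at the levels `N` with `q ‖ N` which contain
the auxiliary prime (`2 ∣ N` if `q = 3`, `3 ∣ N` if `q = 2`). -/
def ModSSGoodStatement : Prop :=
  ∀ (P : ValuationSubring _root_.Fermat.Agent.A2.Qb) (E : IntermediateField ℚ _root_.Fermat.Agent.A2.Qb) (N q : ℕ),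
    q.Prime → q ∣ N → ¬ q ^ 2 ∣ N → N ≠ 0 → (q = 3 → 2 ∣ N) → (q = 2 → 3 ∣ N) →
    P.LiesOverPrime q → GoodField P E → Nonempty (ModSSData P E N)

/-- **D2, auxiliary-level descent** (norm trick; `[F_{aux} : F_N] ∈ {1, 3, 4}` is prime to `m`). -/
def D2Statement : Prop :=
  ∀ (N q m : ℕ), q.Prime → q ∣ N → ¬ q ^ 2 ∣ N → N ≠ 0 → 0 < m → ¬ q ∣ m →
    KummerTarget (auxLevel N q) q m → KummerTarget N q m

theorem auxLevel_ne_zero {N : ℕ} (q : ℕ) (hN : N ≠ 0) : auxLevel N q ≠ 0 := by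
  unfold auxLevel
  split_ifs
  · exact Nat.lcm_ne_zero hN (by norm_num)
  · exact Nat.lcm_ne_zero hN (by norm_num)
  · exact hN

theorem dvd_auxLevel (N q : ℕ) : N ∣ auxLevel N q := by
  unfold auxLevel
  split_ifs
  · exact Nat.dvd_lcm_left N 2
  · exact Nat.dvd_lcm_left N 3
  · exact dvd_rfl

theorem not_sq_dvd_lcm {N q a : ℕ} (hq : q.Prime) (ha : a.Prime) (hqa : q ≠ a)
    (hq2 : ¬ q ^ 2 ∣ N) : ¬ q ^ 2 ∣ Nat.lcm N a := by
  intro h
  have hdvd : Nat.lcm N a ∣ N * a := Nat.lcm_dvd_mul N a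
  have h1 : q ^ 2 ∣ N * a := h.trans hdvd
  have hcop : Nat.Coprime (q ^ 2) a := by
    apply Nat.Coprime.pow_left
    exact (Nat.coprime_primes hq ha).2 hqa
  exact hq2 (hcop.dvd_of_dvd_mul_right h1)

theorem not_sq_dvd_auxLevel {N q : ℕ} (hq : q.Prime) (hq2 : ¬ q ^ 2 ∣ N) :
    ¬ q ^ 2 ∣ auxLevel N q := by
  unfold auxLevel
  split_ifs with h3 h2
  · exact not_sq_dvd_lcm hq Nat.prime_two (by omega) hq2
  · exact not_sq_dvd_lcm hq Nat.prime_three (by omega) hq2
  · exact hq2

theorem aux_two_dvd {N q : ℕ} (h : q = 3) : 2 ∣ auxLevel N q := by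
  unfold auxLevel
  rw [if_pos h]
  exact Nat.dvd_lcm_right N 2

theorem aux_three_dvd {N q : ℕ} (h : q = 2) : 3 ∣ auxLevel N q := by
  unfold auxLevel
  rw [if_neg (by omega), if_pos h]
  exact Nat.dvd_lcm_right N 3

/-- **The Kummer form of the wall, all `q`.** -/
theorem kummerTarget_all (hALG : AlgSSStatement) (hIF : IFStatement)
    (hMOD : ModSSGoodStatement) (hD2 : D2Statement)
    (N q m : ℕ) (hq : q.Prime) (hqN : q ∣ N) (hq2 : ¬ q ^ 2 ∣ N) (hN : N ≠ 0) (hm : 0 < m)
    (hqm : ¬ q ∣ m) : KummerTarget N q m := by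
  apply hD2 N q m hq hqN hq2 hN hm hqm
  apply t1_perN hALG hIF (auxLevel N q) q m hq hm hqm
  intro P E hP hE
  exact hMOD P E (auxLevel N q) q hq (hqN.trans (dvd_auxLevel N q))
    (not_sq_dvd_auxLevel hq hq2) (auxLevel_ne_zero q hN) aux_two_dvd aux_three_dvd hP hE

/-- **The wall A2, all `q`**: unipotent inertia on `J₀(N)[m]` at every `q ‖ N`, `q ∤ m`. -/
theorem wall (hALG : AlgSSStatement) (hIF : IFStatement)
    (hMOD : ModSSGoodStatement) (hD2 : D2Statement)
    (N q m : ℕ) (hq : q.Prime) (hqN : q ∣ N) (hq2 : ¬ q ^ 2 ∣ N) (hN : N ≠ 0) (hm : 0 < m)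
    (hqm : ¬ q ∣ m) : Target N q m :=
  Fermat.Agent.A2.T0.H669.target_of_kummerTarget N q m hm
    (kummerTarget_all hALG hIF hMOD hD2 N q m hq hqN hq2 hN hm hqm)

end Fermat.Agent.A2.Top.H994

end

end
-- ===== PACK-END A2/Top/H994/Wall.lean

-- ===== PACK-BEGIN A2/H672/Node.lean
section




/-!
# A2 / node purity (helper672): smooth points and nodes of the special fibre

`R` a noetherian local integrally closed domain, `π ≠ 0`, and two primes `𝔭₁, 𝔭₂` of `R` with
`(π) = 𝔭₁ ⊓ 𝔭₂`, `R ⧸ 𝔭ᵢ` discrete valuation rings, and either `𝔭₁ = 𝔭₂` (smooth point of the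
special fibre) or `𝔪 ≤ 𝔭₁ ⊔ 𝔭₂` (ordinary double point).

* `sf_of_branches` : the abstract special fibre condition (SF) of `exists_unit_mul_pow`.
* `exists_pow_le_span_pair` : `𝔪 ^ k ≤ (u, π)` for `u ∉ 𝔭₁ ∪ 𝔭₂`.
* `node_purity` : if `u ≡ ε g ^ m` modulo `π` (`ε` a unit, `g ∉ 𝔭₁ ∪ 𝔭₂`) and `u` is an `m`-th
  power up to units at all primes `P ∋ u`, `π ∉ P`, then `u = δ f ^ m`, `δ` a unit.
-/

set_option autoImplicit false
set_option linter.unusedSectionVars false
set_option linter.style.haveILetI false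

namespace Fermat.Agent.A2.H672

open IsLocalRing

section branches

variable {R : Type*} [CommRing R] [IsLocalRing R]

/-- (SF) along one branch: if `R ⧸ 𝔭` is an integrally closed domain, `g ∉ 𝔭` and
`f ^ m ≡ g ^ m r` modulo `𝔭` with `r ∈ 𝔪`, then `f ≡ g μ` modulo `𝔭` with `μ ∈ 𝔪`. -/
theorem exists_mem_maximalIdeal_sub_mem (𝔭 : Ideal R) [𝔭.IsPrime] [IsIntegrallyClosed (R ⧸ 𝔭)]
    {g : R} (hg : g ∉ 𝔭) {m : ℕ} (hm : 0 < m) {f r : R} (hr : r ∈ maximalIdeal R)
    (h : f ^ m - g ^ m * r ∈ 𝔭) : ∃ μ ∈ maximalIdeal R, f - g * μ ∈ 𝔭 := by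
  have h𝔭m : 𝔭 ≤ maximalIdeal R := IsLocalRing.le_maximalIdeal (Ideal.IsPrime.ne_top inferInstance)
  let mk := Ideal.Quotient.mk 𝔭
  have hg' : mk g ≠ 0 := by
    rwa [Ne, Ideal.Quotient.eq_zero_iff_mem]
  have heq : mk f ^ m = mk g ^ m * mk r := by
    rw [← map_pow, ← map_pow, ← map_mul, ← sub_eq_zero, ← map_sub]
    exact Ideal.Quotient.eq_zero_iff_mem.2 h
  obtain ⟨hb, hhb⟩ := H969.dvd_of_pow_dvd_pow hg' hm ⟨mk r, heq⟩
  obtain ⟨μ, rfl⟩ := Ideal.Quotient.mk_surjective hb
  have hμr : mk μ ^ m = mk r := by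
    rw [hhb, mul_pow] at heq
    exact mul_left_cancel₀ (pow_ne_zero m hg') heq
  refine ⟨μ, ?_, ?_⟩
  · have h1 : μ ^ m - r ∈ 𝔭 := by
      rw [← Ideal.Quotient.eq_zero_iff_mem, map_sub, map_pow]
      exact sub_eq_zero.2 hμr
    have h2 : μ ^ m ∈ maximalIdeal R := by
      have : μ ^ m = (μ ^ m - r) + r := by ring
      rw [this]
      exact Ideal.add_mem _ (h𝔭m h1) hr
    exact (IsLocalRing.maximalIdeal.isMaximal R).isPrime.mem_of_pow_mem m h2
  · rw [← Ideal.Quotient.eq_zero_iff_mem, map_sub, map_mul]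
    exact sub_eq_zero.2 hhb

/-- The special fibre condition (SF) at a smooth point or a node. -/
theorem sf_of_branches (𝔭₁ 𝔭₂ : Ideal R) [𝔭₁.IsPrime] [𝔭₂.IsPrime]
    [IsIntegrallyClosed (R ⧸ 𝔭₁)] [IsIntegrallyClosed (R ⧸ 𝔭₂)] {π : R}
    (hπ : Ideal.span {π} = 𝔭₁ ⊓ 𝔭₂) (hnode : 𝔭₁ = 𝔭₂ ∨ maximalIdeal R ≤ 𝔭₁ ⊔ 𝔭₂)
    {g : R} (hg₁ : g ∉ 𝔭₁) (hg₂ : g ∉ 𝔭₂) {m : ℕ} (hm : 0 < m) (f r : R)
    (hr : r ∈ maximalIdeal R) (h : π ∣ f ^ m - g ^ m * r) :
    ∃ μ ∈ maximalIdeal R, ∃ c : R, f = g * μ + π * c := by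
  have hmem : f ^ m - g ^ m * r ∈ 𝔭₁ ⊓ 𝔭₂ := by
    rw [← hπ, Ideal.mem_span_singleton]
    exact h
  obtain ⟨μ₁, hμ₁, h₁⟩ := exists_mem_maximalIdeal_sub_mem 𝔭₁ hg₁ hm hr hmem.1
  obtain ⟨μ₂, hμ₂, h₂⟩ := exists_mem_maximalIdeal_sub_mem 𝔭₂ hg₂ hm hr hmem.2
  have key : ∀ μ ∈ maximalIdeal R, f - g * μ ∈ 𝔭₁ → f - g * μ ∈ 𝔭₂ →
      ∃ μ ∈ maximalIdeal R, ∃ c : R, f = g * μ + π * c := by
    intro μ hμ h1 h2
    have : f - g * μ ∈ Ideal.span {π} := by
      rw [hπ]
      exact ⟨h1, h2⟩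
    obtain ⟨c, hc⟩ := Ideal.mem_span_singleton'.1 this
    exact ⟨μ, hμ, c, by linear_combination -hc⟩
  rcases hnode with heq | hsup
  · exact key μ₁ hμ₁ h₁ (heq ▸ h₁)
  · have h𝔭₁m : 𝔭₁ ≤ maximalIdeal R :=
      IsLocalRing.le_maximalIdeal (Ideal.IsPrime.ne_top inferInstance)
    obtain ⟨p₁, hp₁, p₂, hp₂, hsum⟩ := Submodule.mem_sup.1 (hsup (Ideal.sub_mem _ hμ₁ hμ₂))
    refine key (μ₁ - p₁) (Ideal.sub_mem _ hμ₁ (h𝔭₁m hp₁)) ?_ ?_
    · have : f - g * (μ₁ - p₁) = (f - g * μ₁) + g * p₁ := by ring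
      rw [this]
      exact Ideal.add_mem _ h₁ (Ideal.mul_mem_left _ _ hp₁)
    · have : f - g * (μ₁ - p₁) = (f - g * μ₂) - g * p₂ := by
        have : μ₁ - p₁ = μ₂ + p₂ := by linear_combination hsum.symm
        rw [this]
        ring
      rw [this]
      exact Ideal.sub_mem _ h₂ (Ideal.mul_mem_left _ _ hp₂)

/-- In a local ring whose quotient by `𝔭` is a discrete valuation ring, every `u ∉ 𝔭`
generates, together with `𝔭`, an ideal primary to the maximal ideal. -/
theorem exists_pow_le_span_sup (𝔭 : Ideal R) [𝔭.IsPrime]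
    [IsDiscreteValuationRing (R ⧸ 𝔭)] {u : R} (hu : u ∉ 𝔭) :
    ∃ k : ℕ, maximalIdeal R ^ k ≤ Ideal.span {u} ⊔ 𝔭 := by
  have h𝔭m : 𝔭 ≤ maximalIdeal R := IsLocalRing.le_maximalIdeal (Ideal.IsPrime.ne_top inferInstance)
  let mk := Ideal.Quotient.mk 𝔭
  have hu' : mk u ≠ 0 := by
    rwa [Ne, Ideal.Quotient.eq_zero_iff_mem]
  obtain ⟨ϖ, hϖ⟩ := IsDiscreteValuationRing.exists_irreducible (R ⧸ 𝔭)
  obtain ⟨n, v, hv⟩ := IsDiscreteValuationRing.eq_unit_mul_pow_irreducible hu' hϖ
  have hmap : (maximalIdeal R).map mk ≤ Ideal.span {ϖ} := by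
    rw [← hϖ.maximalIdeal_eq, Ideal.map_le_iff_le_comap]
    intro x hx
    rw [Ideal.mem_comap, IsLocalRing.mem_maximalIdeal, mem_nonunits_iff]
    intro hunit
    obtain ⟨y, hy⟩ := hunit.exists_right_inv
    obtain ⟨s, rfl⟩ := Ideal.Quotient.mk_surjective y
    have h1 : x * s - 1 ∈ 𝔭 := by
      rw [← Ideal.Quotient.eq_zero_iff_mem, map_sub, map_mul, map_one]
      exact sub_eq_zero.2 hy
    have h2 : (1 : R) ∈ maximalIdeal R := by
      have : (1 : R) = x * s - (x * s - 1) := by ring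
      rw [this]
      exact Ideal.sub_mem _ (Ideal.mul_mem_right _ _ hx) (h𝔭m h1)
    exact (IsLocalRing.maximalIdeal.isMaximal R).ne_top ((Ideal.eq_top_iff_one _).2 h2)
  refine ⟨n, fun x hx => ?_⟩
  have h1 : mk x ∈ Ideal.span {ϖ} ^ n := by
    have : mk x ∈ ((maximalIdeal R) ^ n).map mk := Ideal.mem_map_of_mem _ hx
    rw [Ideal.map_pow] at this
    exact Ideal.pow_right_mono hmap n this
  rw [Ideal.span_singleton_pow, Ideal.mem_span_singleton] at h1
  obtain ⟨y, hy⟩ := h1
  obtain ⟨y', hy'⟩ := Ideal.Quotient.mk_surjective (((v⁻¹ : (R ⧸ 𝔭)ˣ) : R ⧸ 𝔭) * y)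
  have h2 : mk x = mk u * mk y' := by
    rw [hy, hv]
    have h3 : mk y' = ((v⁻¹ : (R ⧸ 𝔭)ˣ) : R ⧸ 𝔭) * y := hy'
    rw [h3]
    have h4 : (v : R ⧸ 𝔭) * ((v⁻¹ : (R ⧸ 𝔭)ˣ) : R ⧸ 𝔭) = 1 := Units.mul_inv v
    linear_combination (-(ϖ ^ n * y)) * h4
  have h3 : x - u * y' ∈ 𝔭 := by
    rw [← Ideal.Quotient.eq_zero_iff_mem, map_sub, map_mul]
    exact sub_eq_zero.2 h2
  have : x = u * y' + (x - u * y') := by ring
  rw [this]
  exact Ideal.add_mem _ (Ideal.mem_sup_left (Ideal.mul_mem_right _ _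
    (Ideal.mem_span_singleton_self u))) (Ideal.mem_sup_right h3)

/-- `(u, π)` is primary to the maximal ideal when `(π) = 𝔭₁ ⊓ 𝔭₂` with `R ⧸ 𝔭ᵢ` discrete
valuation rings and `u ∉ 𝔭₁ ∪ 𝔭₂`. -/
theorem exists_pow_le_span_pair (𝔭₁ 𝔭₂ : Ideal R) [𝔭₁.IsPrime] [𝔭₂.IsPrime]
    [IsDiscreteValuationRing (R ⧸ 𝔭₁)] [IsDiscreteValuationRing (R ⧸ 𝔭₂)] {π : R}
    (hπ : Ideal.span {π} = 𝔭₁ ⊓ 𝔭₂) {u : R} (hu₁ : u ∉ 𝔭₁) (hu₂ : u ∉ 𝔭₂) :
    ∃ k : ℕ, maximalIdeal R ^ k ≤ Ideal.span {u, π} := by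
  obtain ⟨k₁, hk₁⟩ := exists_pow_le_span_sup 𝔭₁ hu₁
  obtain ⟨k₂, hk₂⟩ := exists_pow_le_span_sup 𝔭₂ hu₂
  refine ⟨k₁ + k₂, ?_⟩
  rw [pow_add, Ideal.span_insert, hπ]
  refine (Ideal.mul_mono hk₁ hk₂).trans ?_
  rw [Ideal.mul_le]
  intro x hx y hy
  obtain ⟨a, ha, p₁, hp₁, rfl⟩ := Submodule.mem_sup.1 hx
  obtain ⟨b, hb, p₂, hp₂, rfl⟩ := Submodule.mem_sup.1 hy
  have : (a + p₁) * (b + p₂) = (a * (b + p₂) + p₁ * b) + p₁ * p₂ := by ring
  rw [this]
  refine Ideal.add_mem _ (Ideal.mem_sup_left ?_) (Ideal.mem_sup_right ?_)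
  · exact Ideal.add_mem _ (Ideal.mul_mem_right _ _ ha) (Ideal.mul_mem_left _ _ hb)
  · exact ⟨Ideal.mul_mem_right _ _ hp₁, Ideal.mul_mem_left _ _ hp₂⟩

end branches

variable {R : Type*} [CommRing R] [IsDomain R] [IsIntegrallyClosed R] [IsNoetherianRing R]
  [IsLocalRing R]

/-- **Node purity** at a smooth point or an ordinary double point of the special fibre. -/
theorem node_purity (𝔭₁ 𝔭₂ : Ideal R) [𝔭₁.IsPrime] [𝔭₂.IsPrime]
    [IsDiscreteValuationRing (R ⧸ 𝔭₁)] [IsDiscreteValuationRing (R ⧸ 𝔭₂)] (π : R) (hπ0 : π ≠ 0)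
    (hπ : Ideal.span {π} = 𝔭₁ ⊓ 𝔭₂) (hnode : 𝔭₁ = 𝔭₂ ∨ maximalIdeal R ≤ 𝔭₁ ⊔ 𝔭₂)
    (u g ε : R) (m : ℕ) (hm : 0 < m) (hε : IsUnit ε) (hcong : π ∣ u - ε * g ^ m)
    (hg₁ : g ∉ 𝔭₁) (hg₂ : g ∉ 𝔭₂)
    (hloc : ∀ P : Ideal R, P.IsPrime → u ∈ P → π ∉ P → ∃ z σ : R, σ ∉ P ∧ z ^ m = σ * u) :
    ∃ f δ : R, IsUnit δ ∧ u = δ * f ^ m := by
  have hπ𝔭 : π ∈ 𝔭₁ ⊓ 𝔭₂ := hπ ▸ Ideal.mem_span_singleton_self π
  have h𝔭₁m : 𝔭₁ ≤ maximalIdeal R :=
    IsLocalRing.le_maximalIdeal (Ideal.IsPrime.ne_top inferInstance)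
  have hπm : π ∈ maximalIdeal R := h𝔭₁m hπ𝔭.1
  have hu : ∀ 𝔭 : Ideal R, 𝔭.IsPrime → π ∈ 𝔭 → g ∉ 𝔭 → u ∉ 𝔭 := by
    intro 𝔭 h𝔭 hπ𝔭 hg hu
    obtain ⟨c, hc⟩ := hcong
    have h1 : ε * g ^ m ∈ 𝔭 := by
      have : ε * g ^ m = u - π * c := by rw [← hc]; ring
      rw [this]
      exact Ideal.sub_mem _ hu (Ideal.mul_mem_right _ _ hπ𝔭)
    rcases h𝔭.mem_or_mem h1 with h2 | h2
    · exact h𝔭.ne_top (Ideal.eq_top_of_isUnit_mem _ h2 hε)
    · exact hg (h𝔭.mem_of_pow_mem m h2)
  obtain ⟨k, hk⟩ := exists_pow_le_span_pair 𝔭₁ 𝔭₂ hπ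
    (hu 𝔭₁ inferInstance hπ𝔭.1 hg₁) (hu 𝔭₂ inferInstance hπ𝔭.2 hg₂)
  have hg : ∀ x : R, π ∣ g * x → π ∣ x := by
    intro x hx
    rw [← Ideal.mem_span_singleton, hπ] at hx ⊢
    exact ⟨((Ideal.IsPrime.mem_or_mem inferInstance hx.1).resolve_left hg₁),
      ((Ideal.IsPrime.mem_or_mem inferInstance hx.2).resolve_left hg₂)⟩
  exact exists_unit_mul_pow u g ε π m hm hπ0 hπm hε hcong hg k hk hloc
    (sf_of_branches 𝔭₁ 𝔭₂ hπ hnode hg₁ hg₂ hm)

end Fermat.Agent.A2.H672

end
-- ===== PACK-END A2/H672/Node.lean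

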