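import Mathlib
import Fermat.Prelude.Def_GaloisRep_Adic
import Fermat.Prelude.Def_FLTPrelim_GaloisRep
import Mathlib.NumberTheory.ModularForms.Basic
import Fermat.Agent.Pack.S44.G0E17L0
import Fermat.Agent.Pack.S44.G0E10L0
import Fermat.Agent.Pack.S44.G0E17L1
import Fermat.Agent.Pack.S44.G0E18L0
import Fermat.Agent.Pack.S44.G0E18L3
import Fermat.Agent.Pack.S44.G0E6L1
import Fermat.Agent.Pack.S44.G0E18L1
import Fermat.Agent.Pack.S44.G0E16L2
import Fermat.Agent.Pack.S44.G0E6L0
import Fermat.Agent.Pack.S44.G0E12L0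
import Fermat.Agent.Pack.S44.G0E0L0
import Fermat.Agent.Pack.S44.G0E8L2

-- ===== PACK-BEGIN S28/H867/Lower.lean
section




set_option autoImplicit false
noncomputable section
open ModularCurve HahnSeries IntermediateField Polynomial

namespace Fermat.Agent.S28.H867

section Lower

variable (k : Type*) [Field k]

/-- Everything the lower-bound induction needs at level `N`. -/
structure Good (N : ℕ) : Prop where
  ne_zero : N ≠ 0
  modPoly : ∀ p : ℕ, p.Prime → p ∣ N → ∀ [NeZero p], Nonempty (ModPolyData p)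
  prime : ∀ p : ℕ, p.Prime → p ∣ N → ∀ [NeZero p], PrimeLevel k p
  indep : ∀ p : ℕ, p.Prime → p ∣ N → ∀ [NeZero p], LeafI k p
  upper : ∀ M : ℕ, M ∣ N → degE k M ≤ gFun M

variable {k}

theorem Good.of_dvd {N M : ℕ} (h : Good k N) (hMN : M ∣ N) : Good k M where
  ne_zero := fun h0 => h.ne_zero (by rw [h0] at hMN; exact Nat.eq_zero_of_zero_dvd hMN)
  modPoly := fun p hp hpM => h.modPoly p hp (hpM.trans hMN)
  prime := fun p hp hpM => h.prime p hp (hpM.trans hMN)
  indep := fun p hp hpM => h.indep p hp (hpM.trans hMN)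
  upper := fun M' hM' => h.upper M' (hM'.trans hMN)

theorem Good.degE_ne_zero {N : ℕ} (h : Good k N) : degE k N ≠ 0 :=
  H867.degE_ne_zero k N h.ne_zero h.modPoly

variable (k) in
theorem degE_one : degE k 1 = 1 := by
  rw [degE, relfinrank_eq_one_iff]
  show adjoin k (divisorExpansionsC k 1) ≤ jField k
  rw [adjoin_le_iff]
  rintro x ⟨d, hd, hd1, rfl⟩
  have : d = 1 := Nat.dvd_one.mp hd1
  subst this
  rw [qExpand_one_apply]
  exact jq_mem_jField k

variable (k) in
theorem EF_prime_eq (p : ℕ) [NeZero p] (hp : p.Prime) : EF k p = jField k ⊔ jpField k p := by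
  apply le_antisymm
  · show adjoin k (divisorExpansionsC k p) ≤ _
    rw [adjoin_le_iff]
    rintro x ⟨d, hd, hdp, rfl⟩
    rcases (Nat.dvd_prime hp).mp hdp with h1 | h1
    · subst h1
      rw [qExpand_one_apply]
      exact (le_sup_left : jField k ≤ _) (jq_mem_jField k)
    · subst h1
      exact (le_sup_right : jpField k d ≤ _) (jp_mem_jpField k d)
  · refine sup_le (jField_le_EF k p) ?_
    rw [jpField, adjoin_simple_le_iff]
    exact jqModCd_mem_full k p dvd_rfl

theorem Good.degE_prime {p : ℕ} (hp : p.Prime) (h : Good k p) : degE k p = p + 1 := by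
  have : NeZero p := ⟨hp.ne_zero⟩
  rw [degE, EF_prime_eq k p hp]
  exact (h.prime p hp dvd_rfl).deg_j

/-- the (b)-step in `Good` form -/
theorem Good.mul_le {N p : ℕ} (h : Good k N) (hp : p.Prime) (hpN : p ∣ N) :
    p * degE k (N / p) ≤ degE k N := by
  have : NeZero p := ⟨hp.ne_zero⟩
  have hN : N / p * p = N := Nat.div_mul_cancel hpN
  have := degE_mul_ge k (N / p) p (h.prime p hp hpN) (h.indep p hp hpN)
    (by rw [hN]; exact h.degE_ne_zero)
  rwa [hN] at this

theorem Good.tower {N M : ℕ} (h : Good k N) (hMN : M ∣ N) :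
    degE k M * (EF k M).relfinrank (EF k N) = degE k N := by
  have : NeZero N := ⟨h.ne_zero⟩
  have : NeZero M := ⟨(h.of_dvd hMN).ne_zero⟩
  exact relfinrank_mul_relfinrank (jField_le_EF k M) (full_degeneracyC_le k hMN)

/-- For a prime `p ∣ N` with `p ∤ N / p`: if `[E_{N/p} : k(j)] = g(N/p)`, then `[E_N : k(j)]`
is `p · g(N/p)` or `(p+1) · g(N/p) = g(N)`. -/
theorem Good.dichotomy {N p : ℕ} (h : Good k N) (hp : p.Prime) (hpN : p ∣ N)
    (hpM : ¬ p ∣ N / p) (hM : degE k (N / p) = gFun (N / p)) :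
    degE k N = gFun N ∨ degE k N * (p + 1) = p * gFun N := by
  have hN : N / p * p = N := Nat.div_mul_cancel hpN
  have hM0 : N / p ≠ 0 := fun h0 => h.ne_zero (by rw [← hN, h0, zero_mul])
  have hg : gFun N = (p + 1) * gFun (N / p) := by
    conv_lhs => rw [← hN]
    exact gFun_mul_of_not_dvd hM0 hp hpM
  have htower := h.tower (Nat.div_dvd_of_dvd hpN)
  set a := (EF k (N / p)).relfinrank (EF k N) with ha
  have hup := h.upper N dvd_rfl
  have hlow := h.mul_le hp hpN
  rw [hM] at htower hlow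
  have hgpos := gFun_pos (N / p)
  rw [← htower] at hup hlow ⊢
  rw [hg] at hup ⊢
  have ha1 : p ≤ a := by
    rw [mul_comm] at hlow
    exact Nat.le_of_mul_le_mul_left hlow hgpos
  have ha2 : a ≤ p + 1 := by
    rw [mul_comm (p + 1)] at hup
    exact Nat.le_of_mul_le_mul_left hup hgpos
  rcases Nat.lt_or_ge a (p + 1) with h1 | h1
  · right
    have : a = p := by omega
    rw [this]; ring
  · left
    have : a = p + 1 := by omega
    rw [this]; ring

theorem Good.le_degE : ∀ {N : ℕ}, Good k N → gFun N ≤ degE k N := by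
  intro N
  induction N using Nat.strong_induction_on with
  | _ N ih =>
    intro h
    rcases Nat.lt_or_ge 1 N with hN1 | hN1
    swap
    · have : N = 1 := by have := h.ne_zero; omega
      subst this
      rw [gFun_one, degE_one]
    -- `N > 1`
    by_cases hsq : ∃ r : ℕ, r.Prime ∧ r ∣ N ∧ r ∣ N / r
    · obtain ⟨r, hr, hrN, hrM⟩ := hsq
      have hN : N / r * r = N := Nat.div_mul_cancel hrN
      have hM0 : N / r ≠ 0 := fun h0 => h.ne_zero (by rw [← hN, h0, zero_mul])
      have hlt : N / r < N := Nat.div_lt_self (by omega) hr.one_lt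
      have ihM := ih (N / r) hlt (h.of_dvd (Nat.div_dvd_of_dvd hrN))
      calc gFun N = gFun (N / r * r) := by rw [hN]
        _ = r * gFun (N / r) := gFun_mul_of_dvd hM0 hr hrM
        _ ≤ r * degE k (N / r) := Nat.mul_le_mul_left _ ihM
        _ ≤ degE k N := h.mul_le hr hrN
    · simp only [not_exists, not_and] at hsq
      -- first prime
      set p := N.minFac with hp
      have hpp : p.Prime := Nat.minFac_prime (by omega)
      have hpN : p ∣ N := Nat.minFac_dvd N
      have hN : N / p * p = N := Nat.div_mul_cancel hpN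
      rcases Nat.lt_or_ge 1 (N / p) with hM1 | hM1
      swap
      · -- `N = p` is prime
        have hM0 : N / p ≠ 0 := fun h0 => h.ne_zero (by rw [← hN, h0, zero_mul])
        have : N / p = 1 := Nat.le_antisymm hM1 (Nat.one_le_iff_ne_zero.mpr hM0)
        have hNp : N = p := by rw [← hN, this, one_mul]
        have h' : Good k p := hNp ▸ h
        rw [hNp, gFun_prime hpp, h'.degE_prime hpp]
      -- second prime
      set r := (N / p).minFac with hr
      have hrp : r.Prime := Nat.minFac_prime (by omega)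
      have hrM : r ∣ N / p := Nat.minFac_dvd _
      have hrN : r ∣ N := hrM.trans (Nat.div_dvd_of_dvd hpN)
      have hpM : ¬ p ∣ N / p := hsq p hpp hpN
      have hrM' : ¬ r ∣ N / r := hsq r hrp hrN
      have hne : r ≠ p := fun he => hpM (he ▸ hrM)
      have hltp : N / p < N := Nat.div_lt_self (by omega) hpp.one_lt
      have hltr : N / r < N := Nat.div_lt_self (by omega) hrp.one_lt
      have hMp : degE k (N / p) = gFun (N / p) :=
        le_antisymm (h.upper _ (Nat.div_dvd_of_dvd hpN))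
          (ih _ hltp (h.of_dvd (Nat.div_dvd_of_dvd hpN)))
      have hMr : degE k (N / r) = gFun (N / r) :=
        le_antisymm (h.upper _ (Nat.div_dvd_of_dvd hrN))
          (ih _ hltr (h.of_dvd (Nat.div_dvd_of_dvd hrN)))
      rcases h.dichotomy hpp hpN hpM hMp with h1 | h1
      · exact h1.ge
      rcases h.dichotomy hrp hrN hrM' hMr with h2 | h2
      · exact h2.ge
      exfalso
      have hD : degE k N ≠ 0 := h.degE_ne_zero
      have hD' : 0 < degE k N := Nat.pos_of_ne_zero hD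
      have key : degE k N * ((p + 1) * r) = degE k N * ((r + 1) * p) := by
        calc degE k N * ((p + 1) * r) = (degE k N * (p + 1)) * r := by ring
          _ = p * gFun N * r := by rw [h1]
          _ = (r * gFun N) * p := by ring
          _ = (degE k N * (r + 1)) * p := by rw [h2]
          _ = degE k N * ((r + 1) * p) := by ring
      have := Nat.eq_of_mul_eq_mul_left hD' key
      apply hne
      nlinarith

theorem Good.degE_eq {N : ℕ} (h : Good k N) : degE k N = gFun N :=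
  le_antisymm (h.upper N dvd_rfl) h.le_degE

end Lower

end Fermat.Agent.S28.H867

end
end
-- ===== PACK-END S28/H867/Lower.lean

-- ===== PACK-BEGIN Lib/NormL/Sign.lean
section


/-!
# `NormL`: stability of the sign of the norm under small perturbations
-/

namespace Fermat.Agent.Lib.NormL

open NumberField

variable {K : Type*} [Field K] [NumberField K]

/-- The auxiliary function `λ ↦ ∏_σ (σ x + λ σ t)`. -/
noncomputable def normPath (x t : K) (l : ℝ) : ℂ :=
  ∏ σ : K →ₐ[ℚ] ℂ, (σ x + (l : ℂ) * σ t)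

theorem continuous_normPath (x t : K) : Continuous (normPath x t) := by
  unfold normPath
  exact continuous_finsetProd _ fun σ _ ↦
    continuous_const.add (Complex.continuous_ofReal.mul continuous_const)

theorem normPath_ratCast (x t : K) (q : ℚ) :
    normPath x t (q : ℝ) = ((Algebra.norm ℚ (x + q • t) : ℚ) : ℂ) := by
  have h := Algebra.norm_eq_prod_embeddings ℚ ℂ (x + q • t)
  rw [eq_ratCast] at h
  rw [h]
  unfold normPath
  refine Finset.prod_congr rfl fun σ _ ↦ ?_
  rw [map_add, Algebra.smul_def, map_mul, AlgHom.commutes, Complex.ofReal_ratCast, eq_ratCast]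

theorem normPath_im (x t : K) (l : ℝ) : (normPath x t l).im = 0 := by
  have h1 : Continuous fun l : ℝ ↦ (normPath x t l).im :=
    Complex.continuous_im.comp (continuous_normPath x t)
  have h2 : Continuous fun _ : ℝ ↦ (0 : ℝ) := continuous_const
  have h3 := Continuous.ext_on Rat.denseRange_cast h1 h2 (by
    rintro _ ⟨q, rfl⟩
    show (normPath x t (q : ℝ)).im = 0
    rw [normPath_ratCast]
    exact Complex.ratCast_im _)
  exact congrFun h3 l

theorem normPath_ne_zero {x t : K} (h : ∀ w : InfinitePlace K, w t < w x) {l : ℝ}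
    (hl0 : 0 ≤ l) (hl1 : l ≤ 1) : normPath x t l ≠ 0 := by
  unfold normPath
  rw [Finset.prod_ne_zero_iff]
  intro σ _ h0
  have hw := h (InfinitePlace.mk σ.toRingHom)
  rw [InfinitePlace.apply, InfinitePlace.apply] at hw
  have h1 : σ x = -((l : ℂ) * σ t) := eq_neg_of_add_eq_zero_left h0
  have h2 : ‖σ x‖ = l * ‖σ t‖ := by
    rw [h1, norm_neg, norm_mul, Complex.norm_real, Real.norm_of_nonneg hl0]
  have h3 : l * ‖σ t‖ ≤ ‖σ t‖ := by
    have := norm_nonneg (σ t)
    nlinarith
  have hw' : ‖σ t‖ < ‖σ x‖ := hw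
  linarith

theorem normPath_zero (x t : K) : normPath x t 0 = ((Algebra.norm ℚ x : ℚ) : ℂ) := by
  have := normPath_ratCast x t 0
  simpa using this

theorem normPath_one (x t : K) : normPath x t 1 = ((Algebra.norm ℚ (x + t) : ℚ) : ℂ) := by
  have := normPath_ratCast x t 1
  simpa using this

/-- If `t` is smaller than `x` at every infinite place, then `N(x + t)` and `N(x)` have the
same sign. -/
theorem norm_pos_iff_of_lt {x t : K} (h : ∀ w : InfinitePlace K, w t < w x) :
    0 < Algebra.norm ℚ (x + t) ↔ 0 < Algebra.norm ℚ x := by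
  set g : ℝ → ℝ := fun l ↦ (normPath x t l).re with hg
  have hgc : Continuous g := Complex.continuous_re.comp (continuous_normPath x t)
  have hg0 : g 0 = ((Algebra.norm ℚ x : ℚ) : ℝ) := by
    simp only [hg]
    rw [normPath_zero]
    exact Complex.ratCast_re _
  have hg1 : g 1 = ((Algebra.norm ℚ (x + t) : ℚ) : ℝ) := by
    simp only [hg]
    rw [normPath_one]
    exact Complex.ratCast_re _
  have hne : ∀ l ∈ Set.Icc (0 : ℝ) 1, g l ≠ 0 := by
    intro l hl h0
    apply normPath_ne_zero h hl.1 hl.2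
    apply Complex.ext
    · exact h0
    · exact normPath_im x t l
  have key : 0 < g 1 ↔ 0 < g 0 := by
    constructor
    · intro h1
      by_contra h0
      have h0' : g 0 ≤ 0 := not_lt.mp h0
      obtain ⟨l, hl, hl0⟩ := intermediate_value_Icc zero_le_one hgc.continuousOn
        (show (0 : ℝ) ∈ Set.Icc (g 0) (g 1) from ⟨h0', h1.le⟩)
      exact hne l hl hl0
    · intro h0
      by_contra h1
      have h1' : g 1 ≤ 0 := not_lt.mp h1
      obtain ⟨l, hl, hl0⟩ := intermediate_value_Icc' zero_le_one hgc.continuousOn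
        (show (0 : ℝ) ∈ Set.Icc (g 1) (g 0) from ⟨h1', h0.le⟩)
      exact hne l hl hl0
  rw [hg0, hg1] at key
  exact_mod_cast key

/-- Integral version: the sign of the norm is stable. -/
theorem sign_norm_add_eq {x t : 𝓞 K} (h : ∀ w : InfinitePlace K, w (t : K) < w (x : K)) :
    (Algebra.norm ℤ (x + t)).sign = (Algebra.norm ℤ x).sign := by
  have h1 := norm_pos_iff_of_lt h
  have e1 : ((Algebra.norm ℤ x : ℤ) : ℚ) = Algebra.norm ℚ (x : K) := Algebra.coe_norm_int x
  have e2 : ((Algebra.norm ℤ (x + t) : ℤ) : ℚ) = Algebra.norm ℚ ((x : K) + (t : K)) := by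
    exact Algebra.coe_norm_int (x + t)
  rw [← e1, ← e2] at h1
  have h2 : 0 < Algebra.norm ℤ (x + t) ↔ 0 < Algebra.norm ℤ x := by exact_mod_cast h1
  have hx : x ≠ 0 := by
    rintro rfl
    have := h (Classical.arbitrary _)
    simp only [map_zero] at this
    exact absurd this (not_lt.mpr (apply_nonneg _ _))
  have hxt : x + t ≠ 0 := by
    intro h0
    have ht : t = -x := eq_neg_of_add_eq_zero_right h0
    have := h (Classical.arbitrary _)
    rw [ht] at this
    have e : (((-x : 𝓞 K) : 𝓞 K) : K) = -(x : K) := rfl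
    rw [e, ← InfinitePlace.norm_embedding_eq, ← InfinitePlace.norm_embedding_eq, map_neg,
      norm_neg] at this
    exact lt_irrefl _ this
  have n1 : Algebra.norm ℤ x ≠ 0 := by rwa [Ne, Algebra.norm_eq_zero_iff]
  have n2 : Algebra.norm ℤ (x + t) ≠ 0 := by rwa [Ne, Algebra.norm_eq_zero_iff]
  rcases lt_or_gt_of_ne n1 with hneg | hpos
  · have : ¬ 0 < Algebra.norm ℤ (x + t) := fun h' ↦ absurd (h2.mp h') (not_lt.mpr hneg.le)
    have hneg' : Algebra.norm ℤ (x + t) < 0 := lt_of_le_of_ne (not_lt.mp this) n2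
    rw [Int.sign_eq_neg_one_of_neg hneg, Int.sign_eq_neg_one_of_neg hneg']
  · rw [Int.sign_eq_one_of_pos hpos, Int.sign_eq_one_of_pos (h2.mpr hpos)]

end Fermat.Agent.Lib.NormL

end
-- ===== PACK-END Lib/NormL/Sign.lean

-- ===== PACK-BEGIN S14/H937/LocalI.lean
section


/-!
# S14, block LOCAL-I (helper937)

`localI` is the body of `Fermat.Agent.S14.H554.LocalIInput p ζ` (helper554's interface), proved
for every `p > 0` and primitive `p`-th root of unity `ζ ∈ ℚ̄`:

if every element of the inertia group of `A` fixing `ζ` fixes `b`, where `b ^ p ∈ ℚ(ζ)`, then the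
`A`-value of `b` is the value of a nonzero element of `ℚ(ζ)`.
-/

set_option autoImplicit false
set_option linter.style.haveILetI false
set_option linter.unusedSectionVars false

open NumberField IsDedekindDomain IntermediateField
open scoped Pointwise

namespace Fermat.Agent.S14.H937

theorem finiteDimensional_adjoin_rat (ζ : Qb) : FiniteDimensional ℚ (ℚ⟮ζ⟯ : IntermediateField ℚ Qb) :=
  haveI := h937_isAlgebraic
  IntermediateField.adjoin.finiteDimensional (Algebra.IsIntegral.isIntegral _)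

/-- Elements of `Gal(ℚ̄/K)` seen in `Gal(ℚ̄/ℚ)` fix `K` pointwise. -/
theorem restrictScalars_apply_of_mem (K : IntermediateField ℚ Qb) (σ : Qb ≃ₐ[K] Qb) {x : Qb}
    (hx : x ∈ K) : (σ.restrictScalars ℚ) x = x :=
  σ.commutes ⟨x, hx⟩

/-- General form of LOCAL-I: `K` a number field in `ℚ̄` containing a primitive `p`-th root of
unity, `b ^ p ∈ K`; if the inertia elements of `A` fixing `K` pointwise fix `b`, then the
`A`-value of `b` is a value of `K`. -/
theorem localI_general (K : IntermediateField ℚ Qb) [FiniteDimensional ℚ K]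
    (p : ℕ) (hp : 0 < p) (ζ : Qb) (hζ : IsPrimitiveRoot ζ p) (hζK : ζ ∈ K)
    (A : ValuationSubring Qb) (b : Qb) (hb0 : b ≠ 0) (hbp : b ^ p ∈ K)
    (hfix : ∀ σ ∈ A.inertiaSubgroupIn ℚ, (∀ x ∈ K, σ x = x) → σ b = b) :
    ∃ c ∈ K, c ≠ 0 ∧ A.valuation b = A.valuation c := by
  rcases exists_liesOver_or_forall_mem A with ⟨ℓ, hℓ, hA⟩ | htriv
  · haveI := finiteDimensional_adjoin K b
    haveI := isGalois_adjoin K p hp ζ hζ hζK b hbp
    have hI : ∀ τ : IntermediateField.adjoin K {b} ≃ₐ[K] IntermediateField.adjoin K {b},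
        (∀ x : 𝓞 (IntermediateField.adjoin K {b}),
          τ • x - x ∈ primeOf (IntermediateField.adjoin K {b}) A) → τ = 1 := by
      intro τ hτ
      obtain ⟨σ, hσM, hσ⟩ := exists_lift_inertia K (IntermediateField.adjoin K {b}) A τ hτ
      have hmem : σ.restrictScalars ℚ ∈ A.inertiaSubgroupIn ℚ :=
        Fermat.Agent.S13.H175.mem_inertiaSubgroupIn_of_integral A ℓ hℓ hA _ hσ
      have h1 := hfix _ hmem (fun x hx => restrictScalars_apply_of_mem K σ hx)
      apply eq_one_of_apply_eq K b τ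
      rw [← hσM]
      exact h1
    have he := ramificationIdx'_eq_one_of_inertia K (IntermediateField.adjoin K {b}) A ℓ hℓ hA hI
    obtain ⟨c, hc0, hc⟩ := exists_valuation_eq_of_ramificationIdx' K
      (IntermediateField.adjoin K {b}) A ℓ hℓ hA he
      ⟨b, IntermediateField.mem_adjoin_simple_self K b⟩
      (fun h => hb0 (congrArg Subtype.val h))
    refine ⟨(c : Qb), c.2, ?_, hc⟩
    simpa using hc0
  · refine ⟨1, one_mem _, one_ne_zero, ?_⟩
    rw [valuation_eq_one_of_forall_mem A htriv b hb0, map_one]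

/-- **LOCAL-I** in helper554's shape (`H554.LocalIInput p ζ`). -/
theorem localI (p : ℕ) (hp : 0 < p) (ζ : Qb) (hζ : IsPrimitiveRoot ζ p) :
    ∀ (A : ValuationSubring (AlgebraicClosure ℚ)) (b : AlgebraicClosure ℚ),
      b ≠ 0 → b ^ p ∈ ℚ⟮ζ⟯ →
      (∀ σ ∈ A.inertiaSubgroupIn ℚ, σ ζ = ζ → σ b = b) →
      ∃ c ∈ ℚ⟮ζ⟯, c ≠ 0 ∧ A.valuation b = A.valuation c := by
  intro A b hb0 hbp hfix
  haveI := finiteDimensional_adjoin_rat ζ
  refine localI_general ℚ⟮ζ⟯ p hp ζ hζ (IntermediateField.mem_adjoin_simple_self ℚ ζ) A b hb0 hbp ?_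
  intro σ hσ hK
  exact hfix σ hσ (hK ζ (IntermediateField.mem_adjoin_simple_self ℚ ζ))

end Fermat.Agent.S14.H937

end
-- ===== PACK-END S14/H937/LocalI.lean

-- ===== PACK-BEGIN S59/H127/TateE.lean
section






/-!
# E-side foundation, part 5: the `p`-adic Tate module of an elliptic curve over `ℚ`

* `nonempty_compatBasis_point` : over an algebraically closed field of characteristic `0`, the
  torsion `E[p^k]` has a compatible system of bases (`E[p^k] ≃ (ℤ/p^k)^2` compatibly in `k`);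
* `tateGaloisRep W' cb : GaloisRepAdic ℤ_[p]` : the `p`-adic Galois representation on the Tate
  module of an elliptic curve `W'` over `ℚ` (in the coordinates given by `cb`), with
  `Φ_tateGaloisRep : cb.Φ (ρ σ a) k = σ • cb.Φ a k`.
-/

open WeierstrassCurve WeierstrassCurve.Affine
open scoped WeierstrassCurve.Affine

namespace Fermat.Agent.S59.H127

section general

variable {K : Type*} [Field K] [DecidableEq K] [IsAlgClosed K] [CharZero K]

/-- `E[p^∞]` is `p`-divisible of height `2` -/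
theorem nonempty_compatBasis_point (E : WeierstrassCurve.Affine K) [E.IsElliptic] (p : ℕ)
    [hp : Fact p.Prime] : Nonempty (CompatBasis E.Point p 2) :=
  nonempty_compatBasis p 2 (fun P => exists_nsmul_eq p hp.out.one_le P) (card_torsion_eq E p)

end general

section coords

variable {K : Type*} [Field K] [DecidableEq K] {E : WeierstrassCurve.Affine K}

/-- the (finite) set of coordinates of a point -/
def coordSet : E.Point → Set K
  | .zero => ∅
  | .some x y _ => {x, y}

omit [DecidableEq K] in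
lemma finite_coordSet (P : E.Point) : (coordSet P).Finite := by
  cases P with
  | zero => exact Set.finite_empty
  | some x y h => exact Set.toFinite {x, y}

end coords

section galois

/-- the absolute Galois group of `ℚ` -/
abbrev GQ : Type := AlgebraicClosure ℚ ≃ₐ[ℚ] AlgebraicClosure ℚ

variable (W' : WeierstrassCurve.Affine ℚ)

/-- an automorphism fixing the coordinates of a point fixes the point -/
lemma smul_eq_self_of_coordSet (σ : GQ) (P : (W'⁄(AlgebraicClosure ℚ)).Point)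
    (hσ : ∀ x ∈ coordSet P, σ x = x) : σ • P = P := by
  cases P with
  | zero => rfl
  | some x y h =>
    rw [Point.algEquiv_smul_def, Point.map_some]
    have hx : σ x = x := hσ x (Set.mem_insert _ _)
    have hy : σ y = y := hσ y (Set.mem_insert_of_mem _ rfl)
    rw [Point.some.injEq]
    exact ⟨hx, hy⟩

variable [hE : (W'⁄(AlgebraicClosure ℚ)).IsElliptic]

/-- the `p^n`-torsion of `E(ℚ̄)` is fixed by the Galois group of a finite extension -/
theorem exists_finite_level (m : ℕ) (hm : 1 ≤ m) :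
    ∃ L : IntermediateField ℚ (AlgebraicClosure ℚ), FiniteDimensional ℚ L ∧
      ∀ σ : GQ, (∀ x ∈ L, σ x = x) →
        ∀ P : (W'⁄(AlgebraicClosure ℚ)).Point, m • P = 0 → σ • P = P := by
  classical
  have hfin := finite_torsion (W'⁄(AlgebraicClosure ℚ)) m hm
  have hTfin : {P : (W'⁄(AlgebraicClosure ℚ)).Point | m • P = 0}.Finite := by
    have : {P : (W'⁄(AlgebraicClosure ℚ)).Point | m • P = 0} =
        ((Submodule.torsionBy ℤ (W'⁄(AlgebraicClosure ℚ)).Point ((m : ℕ) : ℤ) :
          Set (W'⁄(AlgebraicClosure ℚ)).Point)) := by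
      ext P
      exact mem_torsionBy_natCast_iff.symm
    rw [this]
    exact Set.toFinite _
  have hSfin : (⋃ P ∈ {P : (W'⁄(AlgebraicClosure ℚ)).Point | m • P = 0}, coordSet P).Finite :=
    hTfin.biUnion fun P _ => finite_coordSet P
  have : Finite (⋃ P ∈ {P : (W'⁄(AlgebraicClosure ℚ)).Point | m • P = 0}, coordSet P) :=
    hSfin.to_subtype
  refine ⟨IntermediateField.adjoin ℚ
    (⋃ P ∈ {P : (W'⁄(AlgebraicClosure ℚ)).Point | m • P = 0}, coordSet P), ?_, ?_⟩
  · have halg : Algebra.IsAlgebraic ℚ (AlgebraicClosure ℚ) := AlgebraicClosure.isAlgebraic ℚ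
    exact IntermediateField.finiteDimensional_adjoin fun x _ =>
      (Algebra.IsAlgebraic.isAlgebraic x).isIntegral
  · intro σ hσ P hP
    apply smul_eq_self_of_coordSet
    intro x hx
    apply hσ
    apply IntermediateField.subset_adjoin
    exact Set.mem_biUnion (show P ∈ {P : (W'⁄(AlgebraicClosure ℚ)).Point | m • P = 0} from hP) hx

variable {p : ℕ} [hp : Fact p.Prime]

/-- **the `p`-adic Tate module of an elliptic curve over `ℚ`** as a `GaloisRepAdic ℤ_[p]`,
in the coordinates given by a compatible system of bases `cb` of the `E[p^k]` -/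
noncomputable def tateGaloisRep (cb : CompatBasis (W'⁄(AlgebraicClosure ℚ)).Point p 2) :
    GaloisRepAdic ℤ_[p] where
  V := Fin 2 → ℤ_[p]
  finrank_eq := by
    rw [Module.finrank_pi, Fintype.card_fin]
  ρ := cb.tateRep GQ
  isAdicContinuous := by
    intro n
    obtain ⟨L, hL, hfix⟩ := exists_finite_level W' (p ^ n) (Nat.one_le_pow _ _ hp.out.pos)
    exact ⟨L, hL, fun σ hσ v => cb.tateRep_sub_mem σ n (fun x hx => hfix σ hσ x hx) v⟩

/-- the defining property of the Tate representation -/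
theorem Φ_tateGaloisRep (cb : CompatBasis (W'⁄(AlgebraicClosure ℚ)).Point p 2) (σ : GQ)
    (a : Fin 2 → ℤ_[p]) (k : ℕ) :
    cb.Φ ((tateGaloisRep W' cb).ρ σ a) k = σ • cb.Φ a k :=
  cb.Φ_tateRep σ a k

/-- the Tate representation is unramified at `q` as soon as the inertia groups at `q` act
trivially on the `p`-power torsion -/
theorem tateGaloisRep_isUnramifiedAt (cb : CompatBasis (W'⁄(AlgebraicClosure ℚ)).Point p 2)
    (q : ℕ)
    (h : ∀ P : ValuationSubring (AlgebraicClosure ℚ), P.LiesOverPrime q →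
      ∀ σ ∈ P.inertiaSubgroupIn ℚ, ∀ (n : ℕ) (x : (W'⁄(AlgebraicClosure ℚ)).Point),
        p ^ n • x = 0 → σ • x = x) :
    (tateGaloisRep W' cb).IsUnramifiedAt q := by
  intro P hP σ hσ
  exact (cb.tateRep_eq_one_iff σ).mpr (h P hP σ hσ)

/-- conversely, if the Tate representation is unramified at `q`, inertia acts trivially on the
`p`-power torsion -/
theorem smul_eq_of_isUnramifiedAt (cb : CompatBasis (W'⁄(AlgebraicClosure ℚ)).Point p 2)
    (q : ℕ) (h : (tateGaloisRep W' cb).IsUnramifiedAt q)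
    (P : ValuationSubring (AlgebraicClosure ℚ)) (hP : P.LiesOverPrime q)
    (σ : GQ) (hσ : σ ∈ P.inertiaSubgroupIn ℚ) (n : ℕ) (x : (W'⁄(AlgebraicClosure ℚ)).Point)
    (hx : p ^ n • x = 0) : σ • x = x :=
  (cb.tateRep_eq_one_iff σ).mp (h P hP σ hσ) n x hx

/-- an integral quadratic relation on the `p`-power torsion lifts to the Tate representation -/
theorem tateGaloisRep_quadratic (cb : CompatBasis (W'⁄(AlgebraicClosure ℚ)).Point p 2)
    (σ : GQ) (a b : ℤ)
    (hσ : ∀ (n : ℕ) (x : (W'⁄(AlgebraicClosure ℚ)).Point), p ^ n • x = 0 →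
      σ • σ • x - a • σ • x + b • x = 0) :
    (tateGaloisRep W' cb).ρ σ * (tateGaloisRep W' cb).ρ σ
      - (a : ℤ_[p]) • (tateGaloisRep W' cb).ρ σ
      + (b : ℤ_[p]) • (1 : Module.End ℤ_[p] (tateGaloisRep W' cb).V) = 0 :=
  cb.tateRep_quadratic σ a b hσ

end galois

end Fermat.Agent.S59.H127

end
-- ===== PACK-END S59/H127/TateE.lean

-- ===== PACK-BEGIN Lib/Cheb/H476/Clients.lean
section



/-!
# CHEB Tier 1: client forms of the Frobenius division theorem

All statements are unconditional (they use `H476.frobeniusDivision`).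

* `exists_frobenius_division_mem` : open subgroups `U` of `Gal(ℚ̄/ℚ)`.
* `exists_frobenius_division_map` : homomorphisms `ρ` to a monoid which factor through a finite
  level (Prelude's `GaloisFactorsThroughFiniteLevel`): `ρ τ = ρ σ ^ k`, `ρ σ = ρ τ ^ j`, and `ρ` is
  trivial on the inertia group at `A`.
* `exists_frobenius_division_map₂` : the same for two homomorphisms simultaneously.
* `exists_frobenius_division_adic` : adically continuous actions (Prelude's
  `GaloisActionIsAdicContinuous`), modulo `𝔪 ^ n`.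
-/

set_option autoImplicit false

namespace Fermat.Agent.Lib.Cheb.H476

open Fermat.Agent.Lib.Cheb.Spec

/-- If `τ` and `σ` agree on `E` then `σ⁻¹ * τ` fixes `E` pointwise. -/
theorem inv_mul_apply_eq_of_agree (E : IntermediateField ℚ Qb) {τ σ : GQ}
    (h : ∀ x ∈ E, τ x = σ x) : ∀ x ∈ E, (σ⁻¹ * τ) x = x := by
  intro x hx
  rw [AlgEquiv.mul_apply, h x hx]
  exact σ.symm_apply_apply x

/-- **Frobenius division, open subgroups.**  For every open subgroup `U` of `Gal(ℚ̄/ℚ)`, every
`σ` and every finite set `S` of primes there are `ℓ ∉ S`, a valuation subring `A` over `ℓ` with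
inertia group contained in `U`, and a Frobenius element `τ` at `A` with `τ ∈ σ ^ k U` and
`τ ^ j ∈ σ U`. -/
theorem exists_frobenius_division_mem (U : Subgroup GQ) (hU : IsOpen (U : Set GQ))
    (σ : GQ) (S : Finset ℕ) :
    ∃ (ℓ : ℕ) (A : ValuationSubring Qb) (τ : GQ) (k j : ℕ),
      ℓ.Prime ∧ ℓ ∉ S ∧ A.LiesOverPrime ℓ ∧ A.IsFrobeniusAt τ ℓ ∧
      A.inertiaSubgroupIn ℚ ≤ U ∧ (σ ^ k)⁻¹ * τ ∈ U ∧ σ⁻¹ * τ ^ j ∈ U := by
  have h1 : (U : Set GQ) ∈ nhds (1 : GQ) := hU.mem_nhds U.one_mem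
  obtain ⟨E, hE, hEU⟩ := (krullTopology_mem_nhds_one_iff ℚ Qb _).mp h1
  obtain ⟨ℓ, A, τ, k, j, hℓ, hℓS, hA, hτ, hin, hk, hj⟩ := _root_.Fermat.Agent.Lib.Cheb.H476.frobeniusDivision E hE σ S
  refine ⟨ℓ, A, τ, k, j, hℓ, hℓS, hA, hτ, ?_, ?_, ?_⟩
  · intro ι hι
    apply hEU
    show ι ∈ E.fixingSubgroup
    rw [IntermediateField.mem_fixingSubgroup_iff]
    exact hin ι hι
  · apply hEU
    show (σ ^ k)⁻¹ * τ ∈ E.fixingSubgroup
    rw [IntermediateField.mem_fixingSubgroup_iff]
    exact inv_mul_apply_eq_of_agree E hk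
  · apply hEU
    show σ⁻¹ * τ ^ j ∈ E.fixingSubgroup
    rw [IntermediateField.mem_fixingSubgroup_iff]
    exact inv_mul_apply_eq_of_agree E hj

/-- **Frobenius division, homomorphisms factoring through a finite level.** -/
theorem exists_frobenius_division_map {M : Type} [Monoid M] (ρ : GQ →* M)
    (hρ : GaloisFactorsThroughFiniteLevel ρ) (σ : GQ) (S : Finset ℕ) :
    ∃ (ℓ : ℕ) (A : ValuationSubring Qb) (τ : GQ) (k j : ℕ),
      ℓ.Prime ∧ ℓ ∉ S ∧ A.LiesOverPrime ℓ ∧ A.IsFrobeniusAt τ ℓ ∧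
      (∀ ι ∈ A.inertiaSubgroupIn ℚ, ρ ι = 1) ∧ ρ τ = ρ σ ^ k ∧ ρ σ = ρ τ ^ j := by
  obtain ⟨E, hE, hρE⟩ := hρ
  obtain ⟨ℓ, A, τ, k, j, hℓ, hℓS, hA, hτ, hin, hk, hj⟩ := _root_.Fermat.Agent.Lib.Cheb.H476.frobeniusDivision E hE σ S
  refine ⟨ℓ, A, τ, k, j, hℓ, hℓS, hA, hτ, fun ι hι => hρE ι (hin ι hι), ?_, ?_⟩
  · have h1 := hρE _ (inv_mul_apply_eq_of_agree E hk)
    have h2 : ρ τ = ρ (σ ^ k) * ρ ((σ ^ k)⁻¹ * τ) := by
      rw [← map_mul, mul_inv_cancel_left]
    rw [h2, h1, mul_one, map_pow]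
  · have h1 := hρE _ (inv_mul_apply_eq_of_agree E hj)
    have h2 : ρ (τ ^ j) = ρ σ * ρ (σ⁻¹ * τ ^ j) := by
      rw [← map_mul, mul_inv_cancel_left]
    rw [h1, mul_one, map_pow] at h2
    exact h2.symm

/-- The product of two homomorphisms factoring through finite levels factors through a finite
level. -/
theorem galoisFactorsThroughFiniteLevel_prod {M₁ M₂ : Type} [Monoid M₁] [Monoid M₂]
    (ρ₁ : GQ →* M₁) (ρ₂ : GQ →* M₂) (h₁ : GaloisFactorsThroughFiniteLevel ρ₁)
    (h₂ : GaloisFactorsThroughFiniteLevel ρ₂) :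
    GaloisFactorsThroughFiniteLevel (ρ₁.prod ρ₂) := by
  obtain ⟨E₁, hE₁, hρ₁⟩ := h₁
  obtain ⟨E₂, hE₂, hρ₂⟩ := h₂
  haveI := hE₁
  haveI := hE₂
  refine ⟨E₁ ⊔ E₂, inferInstance, fun σ hσ => ?_⟩
  have h1 : ρ₁ σ = 1 := hρ₁ σ fun x hx => hσ x ((le_sup_left : E₁ ≤ E₁ ⊔ E₂) hx)
  have h2 : ρ₂ σ = 1 := hρ₂ σ fun x hx => hσ x ((le_sup_right : E₂ ≤ E₁ ⊔ E₂) hx)
  rw [MonoidHom.prod_apply, h1, h2]
  rfl

/-- **Frobenius division, two homomorphisms simultaneously.** -/
theorem exists_frobenius_division_map₂ {M₁ M₂ : Type} [Monoid M₁] [Monoid M₂]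
    (ρ₁ : GQ →* M₁) (ρ₂ : GQ →* M₂) (h₁ : GaloisFactorsThroughFiniteLevel ρ₁)
    (h₂ : GaloisFactorsThroughFiniteLevel ρ₂) (σ : GQ) (S : Finset ℕ) :
    ∃ (ℓ : ℕ) (A : ValuationSubring Qb) (τ : GQ) (k j : ℕ),
      ℓ.Prime ∧ ℓ ∉ S ∧ A.LiesOverPrime ℓ ∧ A.IsFrobeniusAt τ ℓ ∧
      (∀ ι ∈ A.inertiaSubgroupIn ℚ, ρ₁ ι = 1 ∧ ρ₂ ι = 1) ∧
      (ρ₁ τ = ρ₁ σ ^ k ∧ ρ₁ σ = ρ₁ τ ^ j) ∧ (ρ₂ τ = ρ₂ σ ^ k ∧ ρ₂ σ = ρ₂ τ ^ j) := by
  obtain ⟨ℓ, A, τ, k, j, hℓ, hℓS, hA, hτ, hin, hk, hj⟩ :=
    exists_frobenius_division_map (ρ₁.prod ρ₂)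
      (galoisFactorsThroughFiniteLevel_prod ρ₁ ρ₂ h₁ h₂) σ S
  simp only [MonoidHom.prod_apply, Prod.pow_mk, Prod.mk.injEq] at hk hj
  refine ⟨ℓ, A, τ, k, j, hℓ, hℓS, hA, hτ, fun ι hι => ?_, ⟨hk.1, hj.1⟩, ⟨hk.2, hj.2⟩⟩
  have := hin ι hι
  rw [MonoidHom.prod_apply] at this
  exact ⟨congrArg Prod.fst this, congrArg Prod.snd this⟩

/-- **Frobenius division, adically continuous actions.**  Modulo `𝔪 ^ n`. -/
theorem exists_frobenius_division_adic (R : Type) [CommRing R] [IsLocalRing R]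
    {V : Type} [AddCommGroup V] [Module R V] (ρ : GQ →* Module.End R V)
    (hρ : GaloisActionIsAdicContinuous R ρ) (n : ℕ) (σ : GQ) (S : Finset ℕ) :
    ∃ (ℓ : ℕ) (A : ValuationSubring Qb) (τ : GQ) (k j : ℕ),
      ℓ.Prime ∧ ℓ ∉ S ∧ A.LiesOverPrime ℓ ∧ A.IsFrobeniusAt τ ℓ ∧
      (∀ ι ∈ A.inertiaSubgroupIn ℚ, ∀ v : V,
        ρ ι v - v ∈ (IsLocalRing.maximalIdeal R ^ n) • (⊤ : Submodule R V)) ∧
      (∀ v : V, ρ τ v - (ρ σ ^ k) v ∈ (IsLocalRing.maximalIdeal R ^ n) • (⊤ : Submodule R V)) ∧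
      (∀ v : V, ρ σ v - (ρ τ ^ j) v ∈ (IsLocalRing.maximalIdeal R ^ n) • (⊤ : Submodule R V)) := by
  obtain ⟨E, hE, hρE⟩ := hρ n
  obtain ⟨ℓ, A, τ, k, j, hℓ, hℓS, hA, hτ, hin, hk, hj⟩ := _root_.Fermat.Agent.Lib.Cheb.H476.frobeniusDivision E hE σ S
  have hmap : ∀ (f : Module.End R V) (w : V),
      w ∈ (IsLocalRing.maximalIdeal R ^ n) • (⊤ : Submodule R V) →
      f w ∈ (IsLocalRing.maximalIdeal R ^ n) • (⊤ : Submodule R V) := by
    intro f w hw
    refine Submodule.smul_induction_on hw ?_ ?_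
    · intro a ha v _
      rw [map_smul]
      exact Submodule.smul_mem_smul ha Submodule.mem_top
    · intro x y hx hy
      rw [map_add]
      exact Submodule.add_mem _ hx hy
  refine ⟨ℓ, A, τ, k, j, hℓ, hℓS, hA, hτ, fun ι hι => hρE ι (hin ι hι), ?_, ?_⟩
  · intro v
    have h1 := hρE _ (inv_mul_apply_eq_of_agree E hk) v
    have h2 : ρ τ v - (ρ σ ^ k) v = ρ (σ ^ k) (ρ ((σ ^ k)⁻¹ * τ) v - v) := by
      rw [map_sub, ← Module.End.mul_apply, ← map_mul, mul_inv_cancel_left, map_pow]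
    rw [h2]
    exact hmap _ _ h1
  · intro v
    have h1 := hρE _ (inv_mul_apply_eq_of_agree E hj) v
    have h2 : ρ σ v - (ρ τ ^ j) v = - (ρ σ (ρ (σ⁻¹ * τ ^ j) v - v)) := by
      rw [map_sub, ← Module.End.mul_apply, ← map_mul, mul_inv_cancel_left, map_pow, neg_sub]
    rw [h2]
    exact Submodule.neg_mem _ (hmap _ _ h1)

end Fermat.Agent.Lib.Cheb.H476

end
-- ===== PACK-END Lib/Cheb/H476/Clients.lean

-- ===== PACK-BEGIN Lib/Frob/Small/Two.lean
section





/-!
# Shared library `Frob`, small primes: the Hasse–Weil Frobenius relation over `𝔽_2` (helper545)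

`frobRelationFin_two` : for every Weierstrass curve `E` over `ZMod 2` with `Δ ≠ 0`, every field `k`
over `ZMod 2` and every `P : (E⁄k).Point`:  `Φ (Φ P) - a₂ • Φ P + 2 • P = 0`.

Proof: Manin's exact-height argument on the generic point (`S52/H545`, valid in characteristic
`2` because `a₁ x + a₃ ≠ 0`), with the explicit reduced forms of `x(Φ P - P)` of `TwoData.lean`,
then helper230's `frobPsi_eq_zero` (generic point ⇒ all points).
-/

set_option autoImplicit false

namespace Fermat.Agent.Lib.Frob.Small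

open WeierstrassCurve WeierstrassCurve.Affine Polynomial
open Fermat.Agent.S52.H545 Fermat.Agent.Lib.FrobRel

/-- Manin's count over `𝔽_2`, all nonsingular Weierstrass equations. -/
theorem exists_redData_two (E : WeierstrassCurve (ZMod 2)) (hΔ : E.Δ ≠ 0) :
    Nonempty (RedData (manU2 E) manV2 E.card) ∧ (E.a₁ ≠ 0 ∨ E.a₃ ≠ 0) := by
  obtain ⟨a₁, a₂, a₃, a₄, a₆⟩ := E
  have key : ∀ a : ZMod 2, a = 0 ∨ a = 1 := by decide
  rcases key a₁ with rfl | rfl
  · rcases key a₂ with rfl | rfl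
    · rcases key a₃ with rfl | rfl
      · rcases key a₄ with rfl | rfl
        · rcases key a₆ with rfl | rfl
          · exact absurd (by decide) hΔ
          · exact absurd (by decide) hΔ
        · rcases key a₆ with rfl | rfl
          · exact absurd (by decide) hΔ
          · exact absurd (by decide) hΔ
      · rcases key a₄ with rfl | rfl
        · rcases key a₆ with rfl | rfl
          · exact ⟨by rw [card_00100]; exact redData_00100, Or.inr (by decide)⟩
          · exact ⟨by rw [card_00101]; exact redData_00101, Or.inr (by decide)⟩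
        · rcases key a₆ with rfl | rfl
          · exact ⟨by rw [card_00110]; exact redData_00110, Or.inr (by decide)⟩
          · exact ⟨by rw [card_00111]; exact redData_00111, Or.inr (by decide)⟩
    · rcases key a₃ with rfl | rfl
      · rcases key a₄ with rfl | rfl
        · rcases key a₆ with rfl | rfl
          · exact absurd (by decide) hΔ
          · exact absurd (by decide) hΔ
        · rcases key a₆ with rfl | rfl
          · exact absurd (by decide) hΔ
          · exact absurd (by decide) hΔ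
      · rcases key a₄ with rfl | rfl
        · rcases key a₆ with rfl | rfl
          · exact ⟨by rw [card_01100]; exact redData_01100, Or.inr (by decide)⟩
          · exact ⟨by rw [card_01101]; exact redData_01101, Or.inr (by decide)⟩
        · rcases key a₆ with rfl | rfl
          · exact ⟨by rw [card_01110]; exact redData_01110, Or.inr (by decide)⟩
          · exact ⟨by rw [card_01111]; exact redData_01111, Or.inr (by decide)⟩
  · rcases key a₂ with rfl | rfl
    · rcases key a₃ with rfl | rfl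
      · rcases key a₄ with rfl | rfl
        · rcases key a₆ with rfl | rfl
          · exact absurd (by decide) hΔ
          · exact ⟨by rw [card_10001]; exact redData_10001, Or.inl (by decide)⟩
        · rcases key a₆ with rfl | rfl
          · exact ⟨by rw [card_10010]; exact redData_10010, Or.inl (by decide)⟩
          · exact absurd (by decide) hΔ
      · rcases key a₄ with rfl | rfl
        · rcases key a₆ with rfl | rfl
          · exact absurd (by decide) hΔ
          · exact ⟨by rw [card_10101]; exact redData_10101, Or.inl (by decide)⟩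
        · rcases key a₆ with rfl | rfl
          · exact absurd (by decide) hΔ
          · exact ⟨by rw [card_10111]; exact redData_10111, Or.inl (by decide)⟩
    · rcases key a₃ with rfl | rfl
      · rcases key a₄ with rfl | rfl
        · rcases key a₆ with rfl | rfl
          · exact absurd (by decide) hΔ
          · exact ⟨by rw [card_11001]; exact redData_11001, Or.inl (by decide)⟩
        · rcases key a₆ with rfl | rfl
          · exact ⟨by rw [card_11010]; exact redData_11010, Or.inl (by decide)⟩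
          · exact absurd (by decide) hΔ
      · rcases key a₄ with rfl | rfl
        · rcases key a₆ with rfl | rfl
          · exact ⟨by rw [card_11100]; exact redData_11100, Or.inl (by decide)⟩
          · exact absurd (by decide) hΔ
        · rcases key a₆ with rfl | rfl
          · exact ⟨by rw [card_11110]; exact redData_11110, Or.inl (by decide)⟩
          · exact absurd (by decide) hΔ

/-- **Piece A2 at `ℓ = 2`.** -/
theorem frobRelationFin_two (E : WeierstrassCurve (ZMod 2)) (hΔ : E.Δ ≠ 0)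
    (k : Type) [Field k] [Algebra (ZMod 2) k] [DecidableEq k] (P : (E⁄k).Point) :
    Fermat.Agent.Lib.Frob.frobPt 2 E k (Fermat.Agent.Lib.Frob.frobPt 2 E k P)
      - E.traceOfFrobenius • Fermat.Agent.Lib.Frob.frobPt 2 E k P + ((2 : ℕ) : ℤ) • P = 0 := by
  have : E.IsElliptic := ⟨isUnit_iff_ne_zero.mpr hΔ⟩
  obtain ⟨⟨D⟩, hsep⟩ := exists_redData_two E hΔ
  have hs : Sep (Wκ E (ZMod 2)) := by
    right
    rcases hsep with h | h
    · left
      simpa [Wκ, WeierstrassCurve.baseChange] using h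
    · right
      simpa [Wκ, WeierstrassCurve.baseChange] using h
  have key := isConstPt_psi_of_pair E (ZMod 2) hs (fun c => isAlgebraic_algebraMap c)
    (maninPair_two E (ZMod 2)) D (genericPoint_mem E (ZMod 2))
  have ha : E.traceOfFrobenius = (Fintype.card (ZMod 2) : ℤ) + 1 - E.card := by
    rw [WeierstrassCurve.traceOfFrobenius, Nat.card_eq_fintype_card]
  have hC : H230.IsConstPt E (H230.frobPsi E (KK E (ZMod 2)) E.traceOfFrobenius
      (Point.some _ _ (generic_nonsingular E (ZMod 2)))) := by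
    rw [H230.frobPsi_apply, ha]
    exact key
  have h0 := H230.frobPsi_eq_zero E hΔ (generic_nonsingular E (ZMod 2)) (xF_transcendental _)
    E.traceOfFrobenius hC (L := k) P
  rw [H230.frobPsi_apply, ZMod.card] at h0
  exact h0

end Fermat.Agent.Lib.Frob.Small

end
-- ===== PACK-END Lib/Frob/Small/Two.lean

-- ===== PACK-BEGIN S29/H942/KummerChar.lean
section



/-!
# The Kummer character of a holomorphic function with invariant `p`-th power

If `c : ℍ → ℂ` is holomorphic, `c ≠ 0`, and `c ^ p` is invariant under a subgroup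
`Γ ≤ SL(2,ℤ)`, then `c (γ z) = κ γ * c z` for a unique character `κ : Γ →* ℂˣ` with `κ ^ p = 1`.
-/

set_option autoImplicit false

noncomputable section

open Filter Topology Set Complex Function UpperHalfPlane ModularForm
open scoped Manifold MatrixGroups

namespace Fermat.Agent.S29.H942

lemma mdiff_comp_smul {c : ℍ → ℂ} (hc : MDiff c) (γ : SL(2, ℤ)) :
    MDiff (fun z : ℍ => c (γ • z)) := by
  have h := MDifferentiable.slash hc 0 (γ : GL (Fin 2) ℝ)
  have h2 : (c ∣[(0 : ℤ)] (γ : GL (Fin 2) ℝ)) = fun z : ℍ => c (γ • z) := by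
    funext z
    rw [← SL_slash, SL_slash_apply]
    simp
  rwa [h2] at h

lemma exists_ne_zero_of_ne_zero {c : ℍ → ℂ} (hc0 : c ≠ 0) : ∃ z : ℍ, c z ≠ 0 := by
  by_contra h
  simp only [not_exists, not_not] at h
  exact hc0 (funext h)

/-- **Kummer character.** -/
theorem exists_kummerChar (Γ : Subgroup SL(2, ℤ)) {c : ℍ → ℂ} (hc : MDiff c) (hc0 : c ≠ 0)
    {p : ℕ} (hp : p ≠ 0)
    (hinv : ∀ γ ∈ Γ, ∀ z : ℍ, c (γ • z) ^ p = c z ^ p) :
    ∃ κ : Γ →* ℂˣ, (∀ γ, κ γ ^ p = 1) ∧
      ∀ (γ : Γ) (z : ℍ), c ((γ : SL(2, ℤ)) • z) = ((κ γ : ℂˣ) : ℂ) * c z := by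
  obtain ⟨z₀, hz₀⟩ := exists_ne_zero_of_ne_zero hc0
  have h1 : ∀ γ : Γ, ∃ ζ : ℂ, ζ ^ p = 1 ∧
      (fun z : ℍ => c ((γ : SL(2, ℤ)) • z)) = fun z => ζ * c z := by
    intro γ
    refine holomorphic_root_unique hc (mdiff_comp_smul hc γ) hc0 hp ?_
    funext z
    simp only [Pi.pow_apply]
    exact (hinv γ γ.2 z).symm
  choose ζ hζ hζc using h1
  have hζ0 : ∀ γ, ζ γ ≠ 0 := by
    intro γ h0
    have := hζ γ
    rw [h0, zero_pow hp] at this
    exact zero_ne_one this
  have hζapp : ∀ (γ : Γ) (z : ℍ), c ((γ : SL(2, ℤ)) • z) = ζ γ * c z := fun γ z =>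
    congrFun (hζc γ) z
  have hone : ζ 1 = 1 := by
    have := hζapp 1 z₀
    simp only [Subgroup.coe_one, one_smul] at this
    have h2 : (ζ 1 - 1) * c z₀ = 0 := by rw [sub_mul, one_mul, ← this, sub_self]
    rcases mul_eq_zero.1 h2 with h | h
    · exact sub_eq_zero.1 h
    · exact absurd h hz₀
  have hmul : ∀ γ δ : Γ, ζ (γ * δ) = ζ γ * ζ δ := by
    intro γ δ
    have h2 := hζapp (γ * δ) z₀
    rw [Subgroup.coe_mul, mul_smul, hζapp γ, hζapp δ] at h2
    have h3 : (ζ (γ * δ) - ζ γ * ζ δ) * c z₀ = 0 := by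
      rw [sub_mul, ← h2]
      ring
    rcases mul_eq_zero.1 h3 with h | h
    · exact sub_eq_zero.1 h
    · exact absurd h hz₀
  refine ⟨{ toFun := fun γ => Units.mk0 (ζ γ) (hζ0 γ)
            map_one' := by
              apply Units.ext
              simpa using hone
            map_mul' := fun γ δ => by
              apply Units.ext
              simpa using hmul γ δ }, fun γ => ?_, fun γ z => ?_⟩
  · apply Units.ext
    simpa using hζ γ
  · simpa using hζapp γ z

end Fermat.Agent.S29.H942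

end
end
-- ===== PACK-END S29/H942/KummerChar.lean

-- ===== PACK-BEGIN S21/IntC.lean
section



/-!
# S21 — INT-C: the unfolding identity (helper544)

Exact statement of `MSInterface.lean`, proved from INT-A (`IntA.lean`, helper480) and the
change of variables / chain rule of `Small.lean` (helper906).
-/

set_option autoImplicit false

open ModularCurve ModularCurve.Period UpperHalfPlane CongruenceSubgroup Filter Topology
open MeasureTheory
open scoped MatrixGroups ComplexConjugate ContDiff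

namespace Fermat.Agent.S21

variable (N : ℕ) [NeZero N] {χ₁ : ℂ → ℝ}

/-- **INT-C**: unfolding. -/
theorem unfolding (hχ : IsSL2ZPartition χ₁) (u : ℂ → ℝ) (hu : ContDiffOn ℝ 1 u Uhp)
    (hinv : ∀ γ : Gamma0 N, ∀ z ∈ Uhp,
      dz u (mob (γ : SL(2, ℤ)) z) = (cd (γ : SL(2, ℤ)) z) ^ 2 * dz u z)
    {η : ℂ → ℝ} (hη : IsTest η) :
    ∫ z, (fderiv ℝ u z 1 * fderiv ℝ (sym N η) z 1
        + fderiv ℝ u z Complex.I * fderiv ℝ (sym N η) z Complex.I) * chi N χ₁ z
      = ∫ z, (fderiv ℝ u z 1 * fderiv ℝ η z 1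
        + fderiv ℝ u z Complex.I * fderiv ℝ η z Complex.I) :=
  H544.unfolding_of N hχ (measurable_chi N hχ) (chi_nonneg N hχ) (chi_le_one N hχ)
    (chi_locfin N hχ) (chi_sum_eq_one N hχ) u hu hinv hη

end Fermat.Agent.S21

end
-- ===== PACK-END S21/IntC.lean

-- ===== PACK-BEGIN A2/H489/GaussFrameB.lean
section


/-!
# A2 / M1mod-FRAME part B (helper489): the Gauss ring of `E(x)` and `TwoExtHyp`

`R` a discrete valuation ring, `E = Frac R`, `L ⊇ E` a field, `x ∈ L`, `V` a valuation subring of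
`L` inducing the Gauss valuation on `E(x)` (`IsGaussOver R V x`).

* `gaussRing E V x = V ∩ E(x)` as a valuation subring of `E(x)`;
* `IsGaussOver.isDiscreteValuationRing` : it is a discrete valuation ring (uniformiser = that of
  `R`);
* `PolyIndepMod R V x u` : the family `u` is independent over `R[x]` modulo `𝔪_V`
  (`∑ Pᵢ(x) uᵢ ∈ 𝔪_V ⟹ Pᵢ ∈ 𝔪_R[X]`);
* `twoExtHyp_of_gauss` : two distinct valuation subrings `V₁, V₂` inducing the Gauss valuation,
  with `PolyIndepMod` families of sizes `f₁, f₂`, `[L : E(x)] ≤ f₁ + f₂`, satisfy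
  `TwoExtHyp E(x) (gaussRing E V₁ x) V₁ V₂ u₁ u₂`.
-/

set_option autoImplicit false

namespace Fermat.Agent.A2.H489

open IsLocalRing Polynomial IntermediateField

section Frame

variable {R E L : Type*} [CommRing R] [IsDomain R] [IsDiscreteValuationRing R]
  [Field E] [Algebra R E] [IsFractionRing R E]
  [Field L] [Algebra E L] [Algebra R L] [IsScalarTower R E L]

/-- The Gauss ring `V ∩ E(x)` as a valuation subring of `E(x)`. -/
def gaussRing (E : Type*) {L : Type*} [Field E] [Field L] [Algebra E L]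
    (V : ValuationSubring L) (x : L) : ValuationSubring E⟮x⟯ :=
  V.comap (algebraMap E⟮x⟯ L)

omit [IsDomain R] [IsDiscreteValuationRing R] [Algebra R E] [IsFractionRing R E] [Algebra R L]
  [IsScalarTower R E L] [CommRing R] in
theorem mem_gaussRing {V : ValuationSubring L} {x : L} (a : E⟮x⟯) :
    a ∈ gaussRing E V x ↔ (a : L) ∈ V := Iff.rfl

omit [IsDomain R] [IsDiscreteValuationRing R] [Algebra R E] [IsFractionRing R E] [Algebra R L]
  [IsScalarTower R E L] [CommRing R] in
theorem mem_nonunits_gaussRing {V : ValuationSubring L} {x : L} (a : E⟮x⟯) :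
    a ∈ (gaussRing E V x).nonunits ↔ (a : L) ∈ V.nonunits := by
  rw [ValuationSubring.mem_nonunits_iff_or, ValuationSubring.mem_nonunits_iff_or, mem_gaussRing]
  simp

omit [IsDomain R] [IsDiscreteValuationRing R] [Algebra R E] [IsFractionRing R E] [Algebra R L]
  [IsScalarTower R E L] [CommRing R] in
theorem mem_maximalIdeal_gaussRing {V : ValuationSubring L} {x : L} (a : gaussRing E V x) :
    a ∈ maximalIdeal (gaussRing E V x) ↔ ((a : E⟮x⟯) : L) ∈ V.nonunits := by
  rw [← ValuationSubring.coe_mem_nonunits_iff, mem_nonunits_gaussRing]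

variable {V : ValuationSubring L} {x : L}

/-- every nonzero element of `V ∩ E(x)` is a power of the uniformiser times a unit -/
theorem IsGaussOver.exists_pow_mul_unit (h : IsGaussOver R V x) {w : R} (hw : Irreducible w)
    {a : L} (ha : a ∈ E⟮x⟯) (ha0 : a ≠ 0) (haV : a ∈ V) :
    ∃ (n : ℕ) (u : L), u ∈ E⟮x⟯ ∧ u ∈ V ∧ u⁻¹ ∈ V ∧ a = algebraMap R L w ^ n * u := by
  obtain ⟨c, P, Q, hc0, hP, hQ, e⟩ := exists_normal_form_adjoin (E := E) hw x ha ha0
  have hc : algebraMap E L c ∈ V := by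
    have h1 : algebraMap E L c = a * aeval x Q * (aeval x P)⁻¹ := by
      rw [e, mul_assoc, mul_inv_cancel₀ (h.aeval_ne_zero hP), mul_one]
    rw [h1]
    exact mul_mem (mul_mem haV (h.aeval_mem Q)) (h.inv_aeval_mem hP)
  obtain ⟨r, rfl⟩ := (h.isOver.const_mem_iff c).mp hc
  have hr0 : r ≠ 0 := by
    rintro rfl
    exact hc0 (map_zero _)
  obtain ⟨n, hn⟩ := IsDiscreteValuationRing.associated_pow_irreducible hr0 hw
  obtain ⟨t, ht⟩ := hn.symm
  -- `w ^ n * t = r`
  have hw0 : algebraMap R L w ≠ 0 := algebraMap_RL_ne_zero E hw.ne_zero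
  have hwK : algebraMap R L w ∈ E⟮x⟯ := by
    rw [IsScalarTower.algebraMap_apply R E L]
    exact IntermediateField.algebraMap_mem _ _
  refine ⟨n, algebraMap R L (t : R) * aeval x P * (aeval x Q)⁻¹, ?_, ?_, ?_, ?_⟩
  · have h1 : algebraMap R L (t : R) * aeval x P * (aeval x Q)⁻¹
        = a * (algebraMap R L w ^ n)⁻¹ := by
      have h2 : a = algebraMap R L r * aeval x P * (aeval x Q)⁻¹ := by
        rw [IsScalarTower.algebraMap_apply R E L, ← e, mul_assoc,
          mul_inv_cancel₀ (h.aeval_ne_zero hQ), mul_one]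
      rw [h2, ← ht, map_mul, map_pow]
      field_simp
    rw [h1]
    exact mul_mem ha (inv_mem (pow_mem hwK n))
  · exact mul_mem (mul_mem (h.isOver.mem _) (h.aeval_mem P)) (h.inv_aeval_mem hQ)
  · have h1 : (algebraMap R L (t : R) * aeval x P * (aeval x Q)⁻¹)⁻¹
        = algebraMap R L ((t⁻¹ : Rˣ) : R) * aeval x Q * (aeval x P)⁻¹ := by
      have h3 : algebraMap R L (t : R) * algebraMap R L ((t⁻¹ : Rˣ) : R) = 1 := by
        rw [← map_mul, Units.mul_inv, map_one]
      have h5 := h.aeval_ne_zero hP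
      have h6 := h.aeval_ne_zero hQ
      apply inv_eq_of_mul_eq_one_right
      calc algebraMap R L (t : R) * aeval x P * (aeval x Q)⁻¹
            * (algebraMap R L ((t⁻¹ : Rˣ) : R) * aeval x Q * (aeval x P)⁻¹)
          = (algebraMap R L (t : R) * algebraMap R L ((t⁻¹ : Rˣ) : R))
            * (aeval x P * (aeval x P)⁻¹) * ((aeval x Q)⁻¹ * aeval x Q) := by ring
        _ = 1 := by rw [h3, mul_inv_cancel₀ h5, inv_mul_cancel₀ h6, one_mul, one_mul]
    rw [h1]
    exact mul_mem (mul_mem (h.isOver.mem _) (h.aeval_mem Q)) (h.inv_aeval_mem hP)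
  · rw [← mul_assoc, ← mul_assoc, ← map_pow, ← map_mul, ht, IsScalarTower.algebraMap_apply R E L,
      ← e, mul_assoc, mul_inv_cancel₀ (h.aeval_ne_zero hQ), mul_one]

/-- a nonunit of `V ∩ E(x)` is divisible by the uniformiser of `R` in `V ∩ E(x)` -/
theorem IsGaussOver.exists_mul_of_mem_nonunits (h : IsGaussOver R V x) {w : R}
    (hw : Irreducible w) {a : L} (ha : a ∈ E⟮x⟯) (haV : a ∈ V.nonunits) :
    ∃ a' : L, a' ∈ E⟮x⟯ ∧ a' ∈ V ∧ a = algebraMap R L w * a' := by
  obtain ⟨P, Q, hQ, hP, e⟩ := (h.mem_nonunits_iff (E := E) ha).mp haV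
  obtain ⟨P', rfl⟩ := exists_eq_C_mul_of_map_residue_eq_zero hw hP
  have hw0 : algebraMap R L w ≠ 0 := algebraMap_RL_ne_zero E hw.ne_zero
  have hwK : algebraMap R L w ∈ E⟮x⟯ := by
    rw [IsScalarTower.algebraMap_apply R E L]
    exact IntermediateField.algebraMap_mem _ _
  have h1 : a = algebraMap R L w * (aeval x P' * (aeval x Q)⁻¹) := by
    rw [← mul_assoc, ← aeval_C (A := L) x w, ← map_mul, ← e, mul_assoc,
      mul_inv_cancel₀ (h.aeval_ne_zero hQ), mul_one]
  refine ⟨aeval x P' * (aeval x Q)⁻¹, ?_, mul_mem (h.aeval_mem P') (h.inv_aeval_mem hQ), h1⟩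
  have h2 : aeval x P' * (aeval x Q)⁻¹ = (algebraMap R L w)⁻¹ * a := by
    rw [h1, ← mul_assoc, inv_mul_cancel₀ hw0, one_mul]
  rw [h2]
  exact mul_mem (inv_mem hwK) ha

/-- The Gauss ring `V ∩ E(x)` is a discrete valuation ring. -/
theorem IsGaussOver.isDiscreteValuationRing (h : IsGaussOver R V x) :
    IsDiscreteValuationRing (gaussRing E V x) := by
  obtain ⟨w, hw⟩ := IsDiscreteValuationRing.exists_irreducible R
  have hw0 : algebraMap R L w ≠ 0 := algebraMap_RL_ne_zero E hw.ne_zero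
  have hwK : algebraMap R L w ∈ E⟮x⟯ := by
    rw [IsScalarTower.algebraMap_apply R E L]
    exact IntermediateField.algebraMap_mem _ _
  have hwmax : w ∈ maximalIdeal R := by
    rw [IsLocalRing.mem_maximalIdeal, _root_.mem_nonunits_iff]
    exact hw.not_isUnit
  let p : gaussRing E V x := ⟨⟨algebraMap R L w, hwK⟩, h.isOver.mem w⟩
  have hp0 : p ≠ 0 := by
    intro h0
    apply hw0
    have := congrArg (fun z : gaussRing E V x => ((z : E⟮x⟯) : L)) h0
    exact this
  have hpmax : p ∈ maximalIdeal (gaussRing E V x) := by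
    rw [mem_maximalIdeal_gaussRing]
    exact h.isOver.nonunit w hwmax
  have hdiv : ∀ a ∈ maximalIdeal (gaussRing E V x), ∃ a' : gaussRing E V x, a = p * a' := by
    intro a ha
    rw [mem_maximalIdeal_gaussRing] at ha
    obtain ⟨a', ha'K, ha'V, e⟩ := h.exists_mul_of_mem_nonunits (E := E) hw (a : E⟮x⟯).2 ha
    exact ⟨⟨⟨a', ha'K⟩, ha'V⟩, Subtype.ext (Subtype.ext e)⟩
  apply IsDiscreteValuationRing.ofHasUnitMulPowIrreducibleFactorization
  refine ⟨p, ?_, ?_⟩
  · rw [irreducible_iff]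
    refine ⟨fun hu => (IsLocalRing.mem_maximalIdeal p).mp hpmax hu, ?_⟩
    intro a b hab
    by_contra hcon
    push Not at hcon
    obtain ⟨hna, hnb⟩ := hcon
    obtain ⟨a', ha'⟩ := hdiv a ((IsLocalRing.mem_maximalIdeal a).mpr hna)
    rw [ha', mul_assoc] at hab
    have h1 : a' * b = 1 := by
      have h2 : p * 1 = p * (a' * b) := by rw [mul_one]; exact hab
      exact (mul_left_cancel₀ hp0 h2).symm
    exact hnb (IsUnit.of_mul_eq_one a' (by rw [mul_comm]; exact h1))
  · intro a ha0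
    have ha0' : ((a : E⟮x⟯) : L) ≠ 0 := by
      intro h0
      apply ha0
      exact Subtype.ext (Subtype.ext h0)
    obtain ⟨n, u, huK, huV, huV', e⟩ :=
      h.exists_pow_mul_unit (E := E) hw (a : E⟮x⟯).2 ha0' a.2
    have hu0 : u ≠ 0 := by
      rintro rfl
      rw [mul_zero] at e
      exact ha0' e
    let U : (gaussRing E V x)ˣ :=
      ⟨⟨⟨u, huK⟩, huV⟩, ⟨⟨u⁻¹, inv_mem huK⟩, huV'⟩,
        Subtype.ext (Subtype.ext (mul_inv_cancel₀ hu0)),
        Subtype.ext (Subtype.ext (inv_mul_cancel₀ hu0))⟩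
    refine ⟨n, U, ?_⟩
    apply Subtype.ext
    apply Subtype.ext
    exact e.symm

end Frame

section Indep

/-- The family `u` is independent over `R[x]` modulo the maximal ideal of `V`:
`∑ Pᵢ(x) uᵢ ∈ 𝔪_V ⟹ Pᵢ ∈ 𝔪_R[X]` for all `i`. -/
def PolyIndepMod (R : Type*) {L : Type*} [CommRing R] [IsLocalRing R] [Field L] [Algebra R L]
    (V : ValuationSubring L) (x : L) {f : ℕ} (u : Fin f → L) : Prop :=
  ∀ P : Fin f → R[X], (∑ i, aeval x (P i) * u i) ∈ V.nonunits →
    ∀ i, (P i).map (residue R) = 0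

variable {R E L : Type*} [CommRing R] [IsDomain R] [IsDiscreteValuationRing R]
  [Field E] [Algebra R E] [IsFractionRing R E]
  [Field L] [Algebra E L] [Algebra R L] [IsScalarTower R E L]
  {V : ValuationSubring L} {x : L} {f : ℕ} {u : Fin f → L}

omit [IsDomain R] [IsDiscreteValuationRing R] in
/-- a nonempty `PolyIndepMod` family of elements of `V` forces the Gauss valuation on `E(x)` -/
theorem IsGaussOver.of_polyIndepMod [IsLocalRing R] (hV : IsOver R V) (hx : x ∈ V) (hf : 0 < f)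
    (hu : ∀ i, u i ∈ V) (hI : PolyIndepMod R V x u) : IsGaussOver R V x where
  isOver := hV
  mem := hx
  prim := by
    intro P hP
    classical
    have key := hI (fun i => if i = ⟨0, hf⟩ then P else 0) ?_ ⟨0, hf⟩
    · simpa using key
    · rw [Finset.sum_eq_single (⟨0, hf⟩ : Fin f)]
      · rw [if_pos rfl, mul_comm]
        exact mul_mem_nonunits (hu _) hP
      · intro i _ hi
        rw [if_neg hi, map_zero, zero_mul]
      · intro h0
        exact absurd (Finset.mem_univ _) h0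

/-- `PolyIndepMod` implies independence over the Gauss ring `V ∩ E(x)` modulo `𝔪_V`. -/
theorem IsGaussOver.indep_of_polyIndepMod (h : IsGaussOver R V x) (hI : PolyIndepMod R V x u)
    (a : Fin f → L) (haK : ∀ i, a i ∈ E⟮x⟯) (haV : ∀ i, a i ∈ V)
    (hsum : (∑ i, a i * u i) ∈ V.nonunits) : ∀ i, a i ∈ V.nonunits := by
  classical
  have hex : ∀ i, ∃ P Q : R[X], Q.map (residue R) ≠ 0 ∧ a i * aeval x Q = aeval x P :=
    fun i => (h.mem_iff (E := E) (haK i)).mp (haV i)
  choose P Q hQ e using hex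
  -- multiply by the common denominator
  have hD : (∏ l, aeval x (Q l)) ∈ V := prod_mem fun l _ => h.aeval_mem (Q l)
  have h1 : (∏ l, aeval x (Q l)) * ∑ i, a i * u i
      = ∑ i, aeval x (P i * ∏ l ∈ Finset.univ.erase i, Q l) * u i := by
    rw [Finset.mul_sum]
    refine Finset.sum_congr rfl fun i _ => ?_
    rw [← Finset.mul_prod_erase Finset.univ (fun l => aeval x (Q l)) (Finset.mem_univ i),
      map_mul, map_prod, ← e i]
    ring
  have h2 := hI (fun i => P i * ∏ l ∈ Finset.univ.erase i, Q l)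
    (by rw [← h1]; exact mul_mem_nonunits hD hsum)
  intro i
  have h3 := h2 i
  rw [Polynomial.map_mul, Polynomial.map_prod] at h3
  have h4 : (∏ l ∈ Finset.univ.erase i, (Q l).map (residue R)) ≠ 0 :=
    Finset.prod_ne_zero_iff.mpr fun l _ => hQ l
  have h5 : (P i).map (residue R) = 0 := (mul_eq_zero.mp h3).resolve_right h4
  exact (h.mem_nonunits_iff (E := E) (haK i)).mpr ⟨P i, Q i, hQ i, h5, e i⟩

/-- **FRAME.** Two distinct valuation subrings of `L` inducing the Gauss valuation on `E(x)`,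
with `R[x]`-independent families modulo the maximal ideals of total size `≥ [L : E(x)]`,
satisfy the hypotheses `TwoExtHyp` over the Gauss ring of `E(x)`. -/
theorem twoExtHyp_of_gauss {V₁ V₂ : ValuationSubring L}
    (h₁ : IsGaussOver R V₁ x) (h₂ : IsGaussOver R V₂ x) (hne : V₁ ≠ V₂)
    {f₁ f₂ : ℕ} {u₁ : Fin f₁ → L} {u₂ : Fin f₂ → L}
    (hu₁ : ∀ i, u₁ i ∈ V₁) (hu₂ : ∀ i, u₂ i ∈ V₂)
    (hI₁ : PolyIndepMod R V₁ x u₁) (hI₂ : PolyIndepMod R V₂ x u₂)
    (hdeg : Module.finrank E⟮x⟯ L ≤ f₁ + f₂)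
    [IsDiscreteValuationRing (gaussRing E V₁ x)] :
    TwoExtHyp E⟮x⟯ (gaussRing E V₁ x) V₁ V₂ u₁ u₂ where
  over₁ :=
    { mem := fun a => a.2
      nonunit := fun a ha => (mem_maximalIdeal_gaussRing a).mp ha }
  over₂ :=
    { mem := fun a => (h₁.mem_iff_mem (E := E) h₂ (a : E⟮x⟯).2).mp a.2
      nonunit := fun a ha =>
        (h₁.mem_nonunits_iff_mem (E := E) h₂ (a : E⟮x⟯).2).mp
          ((mem_maximalIdeal_gaussRing a).mp ha) }
  ne := hne
  deg := hdeg
  mem₁ := hu₁
  mem₂ := hu₂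
  indep₁ := by
    intro a hsum i
    rw [mem_maximalIdeal_gaussRing]
    exact h₁.indep_of_polyIndepMod (E := E) hI₁ (fun i => ((a i : E⟮x⟯) : L))
      (fun i => (a i : E⟮x⟯).2) (fun i => (a i).2) hsum i
  indep₂ := by
    intro a hsum i
    rw [mem_maximalIdeal_gaussRing]
    refine (h₁.mem_nonunits_iff_mem (E := E) h₂ (a i : E⟮x⟯).2).mpr ?_
    exact h₂.indep_of_polyIndepMod (E := E) hI₂ (fun i => ((a i : E⟮x⟯) : L))
      (fun i => (a i : E⟮x⟯).2)
      (fun i => (h₁.mem_iff_mem (E := E) h₂ (a i : E⟮x⟯).2).mp (a i).2) hsum i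

end Indep

end Fermat.Agent.A2.H489

end
-- ===== PACK-END A2/H489/GaussFrameB.lean

-- ===== PACK-BEGIN A2/Mod/H142/S2Frob.lean
section




/-!
# A2 / MODASM S2 — concrete basics (helper142)

* `inW_iff` : `InW V w f ↔ v(f) < 1` for a uniformiser `w`;
* `inW_mul`, `inW_add`, ... : ideal properties of `w V`;
* `frobCong` : `j_{dq} ≡ j_d ^ q  mod w V∞` (integer series, `q ∈ w R`);
* `frobCong_inv` : `j_{dq}⁻¹ ≡ (j_d⁻¹) ^ q  mod w V∞`.
-/

set_option autoImplicit false
set_option synthInstance.maxHeartbeats 400000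
set_option maxHeartbeats 1600000
set_option linter.unusedSectionVars false
set_option linter.style.haveILetI false

noncomputable section

namespace Fermat.Agent.A2.Mod.H142

open ModularCurve HahnSeries Polynomial

variable (P : ValuationSubring _root_.Fermat.Agent.A2.Mod.Qb) (E : IntermediateField ℚ _root_.Fermat.Agent.A2.Mod.Qb)

section Basic

variable {P E} {N : ℕ} {V : ValuationSubring (_root_.Fermat.Agent.A2.Mod.FE E N)} {w : _root_.Fermat.Agent.A2.Mod.RE P E}

theorem inW_iff (hU : H48.IsUnif V (cE P E N w)) (f : _root_.Fermat.Agent.A2.Mod.FE E N) :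
    InW P E N V w f ↔ V.valuation f < 1 :=
  hU.mul_inv_mem_iff

theorem inW_mul_right {f : _root_.Fermat.Agent.A2.Mod.FE E N} (hf : InW P E N V w f) {g : _root_.Fermat.Agent.A2.Mod.FE E N} (hg : g ∈ V) :
    InW P E N V w (f * g) := by
  unfold InW at hf ⊢
  have : f * g * (cE P E N w)⁻¹ = f * (cE P E N w)⁻¹ * g := by ring
  rw [this]
  exact V.mul_mem _ _ hf hg

theorem inW_neg {f : _root_.Fermat.Agent.A2.Mod.FE E N} (hf : InW P E N V w f) : InW P E N V w (-f) := by
  unfold InW at hf ⊢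
  rw [neg_mul]
  exact V.neg_mem _ hf

theorem inW_add {f g : _root_.Fermat.Agent.A2.Mod.FE E N} (hf : InW P E N V w f) (hg : InW P E N V w g) :
    InW P E N V w (f + g) := by
  unfold InW at hf hg ⊢
  rw [add_mul]
  exact V.add_mem _ _ hf hg

theorem inW_sub {f g : _root_.Fermat.Agent.A2.Mod.FE E N} (hf : InW P E N V w f) (hg : InW P E N V w g) :
    InW P E N V w (f - g) := by
  unfold InW at hf hg ⊢
  rw [sub_mul]
  exact sub_mem hf hg

end Basic

section Frob

variable {P E}

/-- `q = r * w` in `R_E` when `P` lies over `q` and `w` is a uniformiser. -/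
theorem exists_mul_eq_natCast {w : _root_.Fermat.Agent.A2.Mod.RE P E} {q : ℕ} (hdvr : IsDiscreteValuationRing (_root_.Fermat.Agent.A2.Mod.RE P E))
    (hw : Irreducible w) (hP : P.LiesOverPrime q) : ∃ r : _root_.Fermat.Agent.A2.Mod.RE P E, r * w = (q : _root_.Fermat.Agent.A2.Mod.RE P E) := by
  haveI := hdvr
  have hmem : ((q : ℕ) : _root_.Fermat.Agent.A2.Mod.RE P E) ∈ IsLocalRing.maximalIdeal (_root_.Fermat.Agent.A2.Mod.RE P E) := by
    rw [IsLocalRing.mem_maximalIdeal, mem_nonunits_iff]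
    intro hu
    obtain ⟨u, hu'⟩ := hu
    have h1 : (((u : _root_.Fermat.Agent.A2.Mod.RE P E) : E) : _root_.Fermat.Agent.A2.Mod.Qb) = (q : _root_.Fermat.Agent.A2.Mod.Qb) := by
      rw [hu']
      push_cast
      rfl
    have h3 : ((((u⁻¹ : (_root_.Fermat.Agent.A2.Mod.RE P E)ˣ) : _root_.Fermat.Agent.A2.Mod.RE P E) : E) : _root_.Fermat.Agent.A2.Mod.Qb) ∈ P := ((u⁻¹ : (_root_.Fermat.Agent.A2.Mod.RE P E)ˣ) : _root_.Fermat.Agent.A2.Mod.RE P E).2
    have h4 : ((((u⁻¹ : (_root_.Fermat.Agent.A2.Mod.RE P E)ˣ) : _root_.Fermat.Agent.A2.Mod.RE P E) : E) : _root_.Fermat.Agent.A2.Mod.Qb) * (q : _root_.Fermat.Agent.A2.Mod.Qb) = 1 := by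
      rw [← h1]
      have h5 : ((u⁻¹ : (_root_.Fermat.Agent.A2.Mod.RE P E)ˣ) : _root_.Fermat.Agent.A2.Mod.RE P E) * (u : _root_.Fermat.Agent.A2.Mod.RE P E) = 1 := Units.inv_mul u
      calc ((((u⁻¹ : (_root_.Fermat.Agent.A2.Mod.RE P E)ˣ) : _root_.Fermat.Agent.A2.Mod.RE P E) : E) : _root_.Fermat.Agent.A2.Mod.Qb) * (((u : _root_.Fermat.Agent.A2.Mod.RE P E) : E) : _root_.Fermat.Agent.A2.Mod.Qb)
          = (((((u⁻¹ : (_root_.Fermat.Agent.A2.Mod.RE P E)ˣ) : _root_.Fermat.Agent.A2.Mod.RE P E) * (u : _root_.Fermat.Agent.A2.Mod.RE P E) : _root_.Fermat.Agent.A2.Mod.RE P E) : E) : _root_.Fermat.Agent.A2.Mod.Qb) := rfl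
        _ = 1 := by rw [h5]; rfl
    have hq' : (q : _root_.Fermat.Agent.A2.Mod.Qb) ∈ P.nonunits := hP
    rw [ValuationSubring.mem_nonunits_iff_exists_mem_maximalIdeal] at hq'
    obtain ⟨hqP, hqm⟩ := hq'
    rw [IsLocalRing.mem_maximalIdeal, mem_nonunits_iff] at hqm
    apply hqm
    refine IsUnit.of_mul_eq_one ⟨_, h3⟩ ?_
    exact Subtype.ext (by rw [mul_comm]; exact h4)
  rw [hw.maximalIdeal_eq, Ideal.mem_span_singleton'] at hmem
  exact hmem

/-- An element of `F_N` whose expansion is `q` times an integer series lies in `w V∞`. -/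
theorem inW_of_coe_eq {w : _root_.Fermat.Agent.A2.Mod.RE P E} {q : ℕ} (hq0 : q ≠ 0)
    (hdvr : IsDiscreteValuationRing (_root_.Fermat.Agent.A2.Mod.RE P E))
    (hw : Irreducible w) (hP : P.LiesOverPrime q) {N : ℕ} (hN : N ≠ 0)
    {V : ValuationSubring (_root_.Fermat.Agent.A2.Mod.FE E N)} (hV : IsVinf P E N V) (D : _root_.Fermat.Agent.A2.Mod.FE E N) (g : LaurentSeries ℤ)
    (hD : (D : LaurentSeries E) = coeffEmb E (H708.castQ (HahnSeries.C (q : ℤ) * g))) :
    InW P E N V w D := by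
  haveI := hdvr
  obtain ⟨r, hr⟩ := exists_mul_eq_natCast hdvr hw hP
  have hL2 := H553.vinfBasic P E w N hN hdvr hw V hV
  have hw0 : (w : E) ≠ 0 := fun h0 => hw.ne_zero (Subtype.ext h0)
  have hcw : cE P E N w ≠ 0 := (map_ne_zero_iff _ (algebraMap E (_root_.Fermat.Agent.A2.Mod.FE E N)).injective).mpr hw0
  have hqE : ((q : ℕ) : E) ≠ 0 := Nat.cast_ne_zero.mpr hq0
  have hqF : ((q : ℕ) : _root_.Fermat.Agent.A2.Mod.FE E N) ≠ 0 := Nat.cast_ne_zero.mpr hq0
  -- `G := D / q` has integral expansion `g`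
  obtain ⟨G, hG⟩ : ∃ G : _root_.Fermat.Agent.A2.Mod.FE E N, G = D * ((q : ℕ) : _root_.Fermat.Agent.A2.Mod.FE E N)⁻¹ := ⟨_, rfl⟩
  have hqL : ((q : ℕ) : LaurentSeries E) ≠ 0 := by
    rw [← map_natCast (algebraMap E (LaurentSeries E))]
    exact (_root_.map_ne_zero _).mpr hqE
  have hCq : coeffEmb E (H708.castQ (HahnSeries.C (q : ℤ))) = ((q : ℕ) : LaurentSeries E) := by
    have h1 : (HahnSeries.C (q : ℤ) : LaurentSeries ℤ) = ((q : ℕ) : LaurentSeries ℤ) := by
      rw [← map_natCast (HahnSeries.C : ℤ →+* LaurentSeries ℤ)]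
    rw [h1, map_natCast, map_natCast]
  have hGc : (G : LaurentSeries E) = coeffEmb E (H708.castQ g) := by
    have h1 : (G : LaurentSeries E) = (D : LaurentSeries E) * ((q : ℕ) : LaurentSeries E)⁻¹ := by
      rw [hG]
      push_cast
      rfl
    rw [h1, hD, map_mul, map_mul, hCq, mul_comm (((q : ℕ) : LaurentSeries E)), mul_assoc,
      mul_inv_cancel₀ hqL, mul_one]
  have hGV : G ∈ V := H553.mem_of_int hV hGc
  have hrV : algebraMap E (_root_.Fermat.Agent.A2.Mod.FE E N) (r : E) ∈ V := (hL2.2.1 _).mpr r.2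
  have hqr : ((q : ℕ) : _root_.Fermat.Agent.A2.Mod.FE E N) = algebraMap E (_root_.Fermat.Agent.A2.Mod.FE E N) (r : E) * cE P E N w := by
    have h1 : ((r * w : _root_.Fermat.Agent.A2.Mod.RE P E) : E) = ((q : ℕ) : E) := by
      rw [hr]
      rfl
    have h2 : ((r * w : _root_.Fermat.Agent.A2.Mod.RE P E) : E) = (r : E) * (w : E) := rfl
    rw [h2] at h1
    unfold cE
    rw [← map_mul, h1, map_natCast]
  have hDG : D = G * ((q : ℕ) : _root_.Fermat.Agent.A2.Mod.FE E N) := by
    rw [hG, mul_assoc, inv_mul_cancel₀ hqF, mul_one]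
  unfold InW
  have : D * (cE P E N w)⁻¹ = G * algebraMap E (_root_.Fermat.Agent.A2.Mod.FE E N) (r : E) := by
    rw [hDG, hqr, mul_assoc, mul_assoc, mul_inv_cancel₀ hcw, mul_one]
  rw [this]
  exact V.mul_mem _ _ hGV hrV

/-- **Frobenius congruence** at level `E`: `j_{dq} ≡ j_d ^ q mod w V∞`. -/
theorem frobCong {w : _root_.Fermat.Agent.A2.Mod.RE P E} {q : ℕ} (hq : q.Prime)
    (hdvr : IsDiscreteValuationRing (_root_.Fermat.Agent.A2.Mod.RE P E))
    (hw : Irreducible w) (hP : P.LiesOverPrime q) {N : ℕ} (hN : N ≠ 0)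
    {V : ValuationSubring (_root_.Fermat.Agent.A2.Mod.FE E N)} (hV : IsVinf P E N V)
    (d : ℕ) [NeZero d] [NeZero (d * q)] (hd : d ∣ N) (hdq : d * q ∣ N) :
    InW P E N V w (jE E N (d * q) hdq - jE E N d hd ^ q) := by
  haveI : Fact q.Prime := ⟨hq⟩
  haveI : NeZero q := ⟨hq.ne_zero⟩
  obtain ⟨g, hg⟩ := H528.exists_frobCong q (H708.jInt d)
  refine inW_of_coe_eq hq.ne_zero hdvr hw hP hN hV _ g ?_
  rw [← hg]
  have h1 : qExpand ℤ q (H708.jInt d) = H708.jInt (d * q) := by
    rw [H708.jInt, H708.jInt, jqNModC, jqNModC, qExpand_qExpand]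
    exact qExpand_congr (mul_comm q d) _
  rw [h1, map_sub, map_sub, map_pow, map_pow]
  show ((jE E N (d * q) hdq : _root_.Fermat.Agent.A2.Mod.FE E N) : LaurentSeries E)
    - ((jE E N d hd : _root_.Fermat.Agent.A2.Mod.FE E N) : LaurentSeries E) ^ q = _
  rw [H553.coe_jE, H553.coe_jE]

end Frob

end Fermat.Agent.A2.Mod.H142

end
end
-- ===== PACK-END A2/Mod/H142/S2Frob.lean

-- ===== PACK-BEGIN A2/Mod/H732/SepRed.lean
section



/-!
# WALL A2 / MODASM S4 (helper732), part 5: elementwise separability from a reduction relation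

Abstract.  `R` a discrete valuation ring with uniformiser `w` and perfect residue field `k`,
`F` a field over `R`, `V` a valuation subring of `F`, and `T ≤ F × k((t))` a subring
("`(g, ḡ) ∈ T` iff `ḡ` is a reduction of `g`"; no well-definedness is needed) such that
`(r, r̄) ∈ T` for `r ∈ R`, `(g, 0) ∈ T ⟹ v(g) < 1`, `(g, b) ∈ T, b ≠ 0 ⟹ v(g) = 1`.

* `eval₂_mem_graph`, `graph_eval` : polynomial expressions respect the relation;
* `exists_primitive_annihilator` : every `f` algebraic over `E(x)` is a root of some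
  `P ∈ R[X][Y]` with nonzero reduction;
* `exists_sep_poly_of_graph` : if `(x, x̄), (f, f̄) ∈ T`, `dx̄/dt ≠ 0` and `f` is a root of a
  primitive `P ∈ R[X][Y]`, then there is `Q ∈ R[X][Y]` with `v(Q(x, f)) < 1` and
  `v(Q_Y(x, f)) = 1` (the hypotheses `hs₁`, `hs₂` of `sepCoord_of_gauss`).
-/

set_option autoImplicit false
set_option linter.unusedSectionVars false
set_option linter.style.haveILetI false
set_option synthInstance.maxHeartbeats 400000
set_option maxHeartbeats 1600000

noncomputable section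

namespace Fermat.Agent.A2.Mod.H732

open Polynomial IsLocalRing

section Graph

variable {A B C : Type*} [CommRing A] [CommRing B] [CommRing C]

/-- polynomial expressions respect a relation which is a subring -/
theorem eval₂_mem_graph (T : Subring (B × C)) (φ : A →+* B) (ψ : A →+* C)
    (h : ∀ a, (φ a, ψ a) ∈ T) {y : B} {z : C} (hyz : (y, z) ∈ T) (Q : A[X]) :
    (Q.eval₂ φ y, Q.eval₂ ψ z) ∈ T := by
  have key : Q.eval₂ (φ.prod ψ) (y, z) = (Q.eval₂ φ y, Q.eval₂ ψ z) := by
    refine Prod.ext ?_ ?_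
    · have h1 := Polynomial.hom_eval₂ Q (φ.prod ψ) (RingHom.fst B C) (y, z)
      rw [RingHom.fst_comp_prod] at h1
      exact h1
    · have h1 := Polynomial.hom_eval₂ Q (φ.prod ψ) (RingHom.snd B C) (y, z)
      rw [RingHom.snd_comp_prod] at h1
      exact h1
  rw [← key, eval₂_eq_sum_range]
  exact sum_mem fun i _ => mul_mem (h _) (pow_mem hyz i)

end Graph

section Sep

variable {R F : Type*} [CommRing R] [IsLocalRing R] [Field F] [Algebra R F]

/-- constants: `R → k((t))` -/
def cres (R : Type*) [CommRing R] [IsLocalRing R] : R →+* LaurentSeries (ResidueField R) :=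
  (algebraMap (ResidueField R) (LaurentSeries (ResidueField R))).comp (residue R)

theorem cres_apply (r : R) :
    cres R r = algebraMap (ResidueField R) (LaurentSeries (ResidueField R)) (residue R r) := rfl

/-- bivariate polynomial expressions over `R` respect the relation -/
theorem graph_eval (T : Subring (F × LaurentSeries (ResidueField R)))
    (hR : ∀ r : R, (algebraMap R F r, cres R r) ∈ T)
    {x : F} {xb : LaurentSeries (ResidueField R)} (hx : (x, xb) ∈ T)
    {f : F} {fb : LaurentSeries (ResidueField R)} (hf : (f, fb) ∈ T) (Q : R[X][X]) :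
    (Q.eval₂ ((aeval x : R[X] →ₐ[R] F) : R[X] →+* F) f,
      (Q.map (mapRingHom (residue R))).eval₂
        ((aeval xb : (ResidueField R)[X] →ₐ[ResidueField R] LaurentSeries (ResidueField R)) :
          (ResidueField R)[X] →+* LaurentSeries (ResidueField R)) fb) ∈ T := by
  have hcomp : ((aeval xb :
      (ResidueField R)[X] →ₐ[ResidueField R] LaurentSeries (ResidueField R)) :
        (ResidueField R)[X] →+* LaurentSeries (ResidueField R)).comp (mapRingHom (residue R))
      = eval₂RingHom (cres R) xb := by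
    refine Polynomial.ringHom_ext (fun r => ?_) ?_
    · simp [cres]
    · simp
  rw [eval₂_map, hcomp]
  refine eval₂_mem_graph T _ _ (fun a => ?_) hf Q
  exact eval₂_mem_graph T (algebraMap R F) (cres R) hR hx a

/-- **Elementwise separability from a reduction relation.** -/
theorem exists_sep_poly_of_graph [PerfectField (ResidueField R)] (V : ValuationSubring F)
    (T : Subring (F × LaurentSeries (ResidueField R)))
    (hR : ∀ r : R, (algebraMap R F r, cres R r) ∈ T)
    (hker : ∀ g : F, (g, (0 : LaurentSeries (ResidueField R))) ∈ T → V.valuation g < 1)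
    (hunit : ∀ (g : F) (b : LaurentSeries (ResidueField R)), (g, b) ∈ T → b ≠ 0 →
      V.valuation g = 1)
    {x : F} {xb : LaurentSeries (ResidueField R)} (hx : (x, xb) ∈ T)
    (hdx : Fermat.Agent.S18.H602.dq xb ≠ 0)
    {f : F} {fb : LaurentSeries (ResidueField R)} (hf : (f, fb) ∈ T)
    (P : R[X][X]) (hP : P.map (mapRingHom (residue R)) ≠ 0)
    (hPf : P.eval₂ ((aeval x : R[X] →ₐ[R] F) : R[X] →+* F) f = 0) :
    ∃ Q : R[X][X],
      V.valuation (Q.eval₂ ((aeval x : R[X] →ₐ[R] F) : R[X] →+* F) f) < 1 ∧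
      V.valuation ((derivative Q).eval₂ ((aeval x : R[X] →ₐ[R] F) : R[X] →+* F) f) = 1 := by
  classical
  -- the reduction of `P` kills `f̄`
  have h0 : (P.map (mapRingHom (residue R))).eval₂
      ((aeval xb : (ResidueField R)[X] →ₐ[ResidueField R] LaurentSeries (ResidueField R)) :
        (ResidueField R)[X] →+* LaurentSeries (ResidueField R)) fb = 0 := by
    by_contra hne
    have h1 := graph_eval T hR hx hf P
    rw [hPf] at h1
    have h2 := hunit _ _ h1 hne
    rw [map_zero] at h2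
    exact zero_ne_one h2
  -- `x̄` is transcendental, hence `f̄` is algebraic over `k(x̄)`
  have htr : Transcendental (ResidueField R) xb :=
    Fermat.Agent.S18.H602.laurent_transcendental xb hdx
  have halg : IsAlgebraic (IntermediateField.adjoin (ResidueField R) ({xb} : Set _)) fb := by
    set ι : (ResidueField R)[X] →+* IntermediateField.adjoin (ResidueField R)
        ({xb} : Set (LaurentSeries (ResidueField R))) :=
      (aeval (R := ResidueField R)
        (IntermediateField.AdjoinSimple.gen (ResidueField R) xb)).toRingHom with hι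
    have hinj : Function.Injective ι := by
      have h1 : Transcendental (ResidueField R)
          (IntermediateField.AdjoinSimple.gen (ResidueField R) xb) := by
        intro h
        apply htr
        have := h.algebraMap (A := LaurentSeries (ResidueField R))
        simpa using this
      exact transcendental_iff_injective.mp h1
    refine ⟨(P.map (mapRingHom (residue R))).map ι, ?_, ?_⟩
    · rw [Ne, Polynomial.map_eq_zero_iff hinj]
      exact hP
    · have hc : (algebraMap (IntermediateField.adjoin (ResidueField R)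
          ({xb} : Set (LaurentSeries (ResidueField R)))) (LaurentSeries (ResidueField R))).comp ι
          = ((aeval xb : (ResidueField R)[X] →ₐ[ResidueField R]
              LaurentSeries (ResidueField R)) :
            (ResidueField R)[X] →+* LaurentSeries (ResidueField R)) := by
        refine Polynomial.ringHom_ext (fun r => ?_) ?_
        · simp [hι]
        · simp [hι]
      rw [aeval_def, eval₂_map, hc]
      exact h0
  obtain ⟨Pb, hb0, hb1⟩ := Fermat.Agent.S18.H602.laurent_exists_sep_poly xb hdx fb halg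
  obtain ⟨Q, hQ⟩ := Polynomial.map_surjective (mapRingHom (residue R))
    (Polynomial.map_surjective (residue R) residue_surjective) Pb
  refine ⟨Q, hker _ ?_, hunit _ _ (graph_eval T hR hx hf (derivative Q)) ?_⟩
  · have h1 := graph_eval T hR hx hf Q
    rw [hQ] at h1
    have h2 : eval₂ ((aeval xb : (ResidueField R)[X] →ₐ[ResidueField R]
        LaurentSeries (ResidueField R)) :
          (ResidueField R)[X] →+* LaurentSeries (ResidueField R)) fb Pb = 0 := hb0
    rw [h2] at h1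
    exact h1
  · rw [← derivative_map, hQ]
    exact hb1

end Sep

section Annihilator

variable {R E F : Type*} [CommRing R] [IsDomain R] [IsDiscreteValuationRing R]
  [Field E] [Algebra R E] [IsFractionRing R E]
  [Field F] [Algebra E F] [Algebra R F] [IsScalarTower R E F]

/-- every element algebraic over `E(x)` is a root of a bivariate polynomial over `R` with
nonzero reduction -/
theorem exists_primitive_annihilator {w : R} (hw : Irreducible w) {x : F}
    (hx : Transcendental E x) {f : F}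
    (hf : IsAlgebraic (IntermediateField.adjoin E ({x} : Set F)) f) :
    ∃ P : R[X][X], P.map (mapRingHom (residue R)) ≠ 0 ∧
      P.eval₂ ((aeval x : R[X] →ₐ[R] F) : R[X] →+* F) f = 0 := by
  classical
  letI algF : Algebra R[X] F := ((aeval x : R[X] →ₐ[R] F) : R[X] →+* F).toAlgebra
  letI algK : Algebra R[X] (IntermediateField.adjoin E ({x} : Set F)) :=
    (polyToAdjoin (E := E) x).toAlgebra
  haveI : IsScalarTower R[X] (IntermediateField.adjoin E ({x} : Set F)) F :=
    IsScalarTower.of_algebraMap_eq (fun P => rfl)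
  haveI : IsFractionRing R[X] (IntermediateField.adjoin E ({x} : Set F)) :=
    isFractionRing_adjoin hx
  have hf' : IsAlgebraic R[X] f :=
    (IsFractionRing.isAlgebraic_iff R[X] (IntermediateField.adjoin E ({x} : Set F)) F).mpr hf
  obtain ⟨P, hP0, hP⟩ := hf'
  have hirr : Irreducible (C (C w) : R[X][X]) :=
    (prime_C_iff.mpr (prime_C_iff.mpr hw.prime)).irreducible
  obtain ⟨n, P₀, hnd, hP₀⟩ := WfDvdMonoid.max_power_factor hP0 hirr
  have hwF : algebraMap R[X] F (C w) ≠ 0 := by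
    show aeval x (C w) ≠ 0
    rw [aeval_C, IsScalarTower.algebraMap_apply R E F]
    intro h
    have h1 := (map_eq_zero (algebraMap E F)).mp h
    exact hw.ne_zero ((map_eq_zero_iff _ (IsFractionRing.injective R E)).mp h1)
  refine ⟨P₀, ?_, ?_⟩
  · intro h0
    apply hnd
    rw [Polynomial.C_dvd_iff_dvd_coeff]
    intro i
    apply C_dvd_of_map_residue_eq_zero hw
    have := congrArg (fun q => q.coeff i) h0
    simpa using this
  · have h1 : aeval f P = (algebraMap R[X] F (C w)) ^ n * aeval f P₀ := by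
      rw [hP₀, map_mul, map_pow, aeval_C]
    rw [hP] at h1
    rcases mul_eq_zero.mp h1.symm with h | h
    · exact absurd h (pow_ne_zero n hwF)
    · exact h

end Annihilator

end Fermat.Agent.A2.Mod.H732

end
end
-- ===== PACK-END A2/Mod/H732/SepRed.lean

-- ===== PACK-BEGIN Ribet/H399/CuspPure.lean
section


/-!
# Row 38, W-EIS leaf CUSP, piece (I) (helper399): one-sided purity at a smooth point,
# WITHOUT any hypothesis on the other component

`B` a Noetherian integrally closed domain with fraction field `F`, `ϖ ≠ 0` with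
`(ϖ) = p ⊓ p'` (two incomparable primes), `B / p` Dedekind, `n` a maximal ideal with `p ≤ n`,
`¬ p' ≤ n` (a smooth point of the special fibre lying on the component `p`).

If `u ∈ Fˣ` has divisor divisible by `m` at every HORIZONTAL height-one prime (`ϖ ∉ 𝔭`), then
there are `k : ℤ` and `d ∈ Fˣ` with `u ϖ^k d^m` a unit at `n` and `d` a unit at `p`.

(Compared with `A2.Alg.H754.pure_smooth_abs`: no hypothesis at the vertical primes `p`, `p'`;
this is what is needed at `m = p` where the Kummer generator is not split on the components.)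
-/

set_option autoImplicit false
set_option linter.style.haveILetI false
set_option linter.unusedSectionVars false

noncomputable section

namespace Fermat.Agent.Ribet.H399

open IsLocalRing
open Fermat.Agent.A2.Alg.H754
open Fermat.Agent.S18.H754 (LocallyPow)

variable {B F : Type*} [CommRing B] [IsDomain B] [Field F] [Algebra B F] [IsFractionRing B F]
variable [IsNoetherianRing B] [IsIntegrallyClosed B]

/-- **One-sided purity at a smooth point, abstract form.** -/
theorem pure_smooth_one (ϖ : B) (hϖ : ϖ ≠ 0) (p p' : Ideal B) [hp : p.IsPrime]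
    [hp' : p'.IsPrime] (hinf : p ⊓ p' = Ideal.span {ϖ}) (h21 : ¬ p' ≤ p)
    (hD : IsDedekindDomain (B ⧸ p))
    (n : Ideal B) (hn : n.IsMaximal) (hpn : p ≤ n) (hp'n : ¬ p' ≤ n)
    (m : ℕ) (hm : 0 < m) (u : F) (hu : u ≠ 0)
    (hdiv : ∀ 𝔭 : Ideal B, 𝔭.IsPrime → 𝔭.height = 1 → ϖ ∉ 𝔭 →
      ∃ t : F, ∃ a s : B, a ∉ 𝔭 ∧ s ∉ 𝔭 ∧ u * t ^ m * algebraMap B F s = algebraMap B F a) :
    ∃ (k : ℤ) (d : F), d ≠ 0 ∧ LocU n (u * (algebraMap B F ϖ) ^ k * d ^ m) ∧ LocU p d := by
  classical
  haveI hnp : n.IsPrime := hn.isPrime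
  have h1n : (1 : B) ∉ n := fun h1 => hnp.ne_top ((Ideal.eq_top_iff_one _).2 h1)
  have hinj : Function.Injective (algebraMap B F) := IsFractionRing.injective B F
  obtain ⟨g₀, hg₀p', hg₀n⟩ := SetLike.not_le_iff_exists.1 hp'n
  have hg₀p : g₀ ∉ p := fun h => hg₀n (hpn h)
  have hϖpp : ϖ ∈ p ⊓ p' := hinf ▸ Ideal.mem_span_singleton_self ϖ
  have hϖp : ϖ ∈ p := hϖpp.1
  have hϖn : ϖ ∈ n := hpn hϖp
  have hϖF : algebraMap B F ϖ ≠ 0 := fun h0 => hϖ (hinj (by rw [h0, map_zero]))
  have hhtp : p.height = 1 := height_eq_one_of_inf ϖ hϖ p p' hinf h21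
  -- normalise `u` at `p`
  have hgen : ∀ a ∈ p, ∃ g : B, g ∉ p ∧ ∃ c : B, g * a = ϖ * c := fun a ha =>
    ⟨g₀, hg₀p, exists_mul_eq_of_mem ϖ p p' hinf hg₀p' ha⟩
  obtain ⟨j, υ, hυ, huυ⟩ := exists_zpow_locU p hhtp ϖ hϖ hϖp hgen hu
  have hυ0 : υ ≠ 0 := hυ.ne_zero
  -- local generator of `n` modulo `p`
  obtain ⟨t, htn, hreg⟩ : ∃ t ∈ n, ∀ a ∈ n, ∃ s : B, s ∉ n ∧ s * a ∈ Ideal.span {ϖ, t} := by
    haveI := hD
    have hsurj : Function.Surjective (Ideal.Quotient.mk p) := Ideal.Quotient.mk_surjective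
    have hM : (n.map (Ideal.Quotient.mk p)).IsMaximal := by
      haveI := hn
      exact Ideal.IsMaximal.map_of_surjective_of_ker_le hsurj (by rw [Ideal.mk_ker]; exact hpn)
    obtain ⟨tb, htb, sb, hsb, hall⟩ :=
      Fermat.Agent.S18.B12.H84.exists_local_generator (n.map (Ideal.Quotient.mk p)) hM
    obtain ⟨t, rfl⟩ := hsurj tb
    obtain ⟨s, rfl⟩ := hsurj sb
    have hmem : ∀ b : B, Ideal.Quotient.mk p b ∈ n.map (Ideal.Quotient.mk p) ↔ b ∈ n := by
      intro b
      rw [← Ideal.mem_comap, Ideal.comap_map_of_surjective _ hsurj, ← RingHom.ker_eq_comap_bot,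
        Ideal.mk_ker, sup_eq_left.2 hpn]
    have hsn : s ∉ n := fun h => hsb ((hmem s).2 h)
    refine ⟨t, (hmem t).1 htb, fun a ha => ⟨g₀ * s, ?_, ?_⟩⟩
    · exact fun h => (hnp.mem_or_mem h).elim hg₀n hsn
    · have h1 := hall _ ((hmem a).2 ha)
      rw [Ideal.mem_span_singleton'] at h1
      obtain ⟨cb, hcb⟩ := h1
      obtain ⟨c, rfl⟩ := hsurj cb
      have hd : s * a - c * t ∈ p := by
        rw [← Ideal.Quotient.eq, map_mul, map_mul]
        exact hcb.symm
      obtain ⟨e, he⟩ := exists_mul_eq_of_mem ϖ p p' hinf hg₀p' hd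
      rw [Ideal.mem_span_pair]
      refine ⟨e, g₀ * c, ?_⟩
      linear_combination (-1 : B) * he
  -- the local ring `A = B_n ⊆ F`
  let A : Subalgebra B F :=
    Localization.subalgebra.ofField F n.primeCompl n.primeCompl_le_nonZeroDivisors
  haveI : IsLocalization.AtPrime A n := (inferInstance : IsLocalization n.primeCompl A)
  haveI : IsLocalRing A := IsLocalization.AtPrime.isLocalRing A n
  haveI : IsNoetherianRing A := IsLocalization.isNoetherianRing n.primeCompl A inferInstance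
  have hmapp : Ideal.span {algebraMap B A ϖ} = Ideal.map (algebraMap B A) p := by
    apply le_antisymm
    · rw [Ideal.span_singleton_le_iff_mem]
      exact Ideal.mem_map_of_mem _ hϖp
    · rw [Ideal.map_le_iff_le_comap]
      intro b hb
      obtain ⟨c, hc⟩ := exists_mul_eq_of_mem ϖ p p' hinf hg₀p' hb
      rw [Ideal.mem_comap]
      have hu : IsUnit (algebraMap B A g₀) :=
        IsLocalization.map_units A (⟨g₀, hg₀n⟩ : n.primeCompl)
      have h2 : algebraMap B A g₀ * algebraMap B A b ∈ Ideal.span {algebraMap B A ϖ} := by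
        rw [← map_mul, hc, map_mul]
        exact Ideal.mul_mem_right _ _ (Ideal.mem_span_singleton_self _)
      exact (Ideal.unit_mul_mem_iff_mem _ hu).1 h2
  have hprime : Prime (algebraMap B A ϖ) := by
    have h0 : algebraMap B A ϖ ≠ 0 := fun h =>
      hϖ (IsLocalization.injective A n.primeCompl_le_nonZeroDivisors (by rw [h, map_zero]))
    rw [← Ideal.span_singleton_prime h0, hmapp]
    refine IsLocalization.isPrime_of_isPrime_disjoint n.primeCompl A p hp ?_
    rw [Set.disjoint_left]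
    intro x hx hx'
    exact hx (hpn hx')
  have hmax : maximalIdeal A = Ideal.span {algebraMap B A ϖ, algebraMap B A t} :=
    Fermat.Agent.S18.H754.maximalIdeal_loc_eq_span_pair n A hϖn htn hreg
  haveI : UniqueFactorizationMonoid A :=
    Fermat.Agent.S18.H754.ufd_of_regular_pair _ _ hprime hmax
  -- `υ` is locally a unit times an `m`-th power at every prime element of `A`
  have hloc : ∀ π : A, Prime π → LocallyPow A m υ π := by
    intro π hπ
    haveI hP : (Ideal.span {π}).IsPrime := (Ideal.span_singleton_prime hπ.ne_zero).2 hπ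
    have hht : (Ideal.span {π} : Ideal A).height = 1 := by
      apply le_antisymm
      · refine Ideal.height_le_one_of_isPrincipal_of_mem_minimalPrimes (Ideal.span {π}) _ ?_
        rw [Ideal.minimalPrimes_eq_subsingleton_self]
        exact Set.mem_singleton _
      · rw [Order.one_le_iff_pos, pos_iff_ne_zero]
        intro h0
        rw [Ideal.height_eq_zero_iff, IsDomain.minimalPrimes_eq_singleton_bot] at h0
        rw [Set.mem_singleton_iff, Ideal.span_singleton_eq_bot] at h0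
        exact hπ.ne_zero h0
    set 𝔭 : Ideal B := (Ideal.span {π} : Ideal A).under B with h𝔭def
    haveI h𝔭 : 𝔭.IsPrime := inferInstance
    have hht' : 𝔭.height = 1 := by
      rw [h𝔭def, IsLocalization.height_under n.primeCompl, hht]
    have h𝔭n : 𝔭 ≤ n := by
      intro b hb
      by_contra hbn
      have hbu : IsUnit (algebraMap B A b) :=
        IsLocalization.map_units A (⟨b, hbn⟩ : n.primeCompl)
      have hb' : algebraMap B A b ∈ Ideal.span {π} := hb
      exact hP.ne_top (Ideal.eq_top_of_isUnit_mem _ hb' hbu)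
    have hmemdvd : ∀ b : B, π ∣ algebraMap B A b → b ∈ 𝔭 := by
      intro b hb
      rw [h𝔭def, Ideal.under_def, Ideal.mem_comap, Ideal.mem_span_singleton]
      exact hb
    -- elementwise statement at `𝔭`
    have key : ∃ t : F, ∃ a s : B, a ∉ 𝔭 ∧ s ∉ 𝔭 ∧
        υ * t ^ m * algebraMap B F s = algebraMap B F a := by
      by_cases hw𝔭 : ϖ ∈ 𝔭
      · -- vertical: `𝔭 = p`
        have hle : p * p' ≤ 𝔭 := by
          refine le_trans Ideal.mul_le_inf ?_
          rw [hinf, Ideal.span_singleton_le_iff_mem]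
          exact hw𝔭
        have hp𝔭 : p ≤ 𝔭 := by
          rcases (Ideal.IsPrime.mul_le h𝔭).1 hle with h | h
          · exact h
          · exact absurd (le_trans h h𝔭n) hp'n
        haveI : p.FiniteHeight := Ideal.finiteHeight_of_isNoetherianRing p
        have hpeq : p = 𝔭 := by
          refine Ideal.eq_of_le_of_height_le p hp𝔭 ?_
          rw [hht', hhtp]
        obtain ⟨a, s, ha, hs, has⟩ := hυ
        exact ⟨1, a, s, hpeq ▸ ha, hpeq ▸ hs, by rw [one_pow, mul_one]; exact has⟩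
      · -- horizontal
        obtain ⟨t, a, s, ha, hs, has⟩ := hdiv 𝔭 h𝔭 hht' hw𝔭
        have hpow : ∀ i : ℕ, ϖ ^ i ∉ 𝔭 := fun i hi => hw𝔭 (h𝔭.mem_of_pow_mem i hi)
        have hυu : υ = u * (algebraMap B F ϖ ^ j)⁻¹ := by
          rw [huυ, mul_assoc, mul_inv_cancel₀ (zpow_ne_zero _ hϖF), mul_one]
        obtain ⟨i, hi | hi⟩ := Int.eq_nat_or_neg j
        · refine ⟨t, a, s * ϖ ^ i, ha, fun h => (h𝔭.mem_or_mem h).elim hs (hpow i), ?_⟩
          rw [hυu, hi, zpow_natCast, map_mul, map_pow, ← has]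
          field_simp
        · refine ⟨t, a * ϖ ^ i, s, fun h => (h𝔭.mem_or_mem h).elim ha (hpow i), hs, ?_⟩
          rw [hυu, hi, zpow_neg, zpow_natCast, inv_inv, map_mul, map_pow, ← has]
          ring
    obtain ⟨t, a, s, ha, hs, has⟩ := key
    refine ⟨t, algebraMap B A a, algebraMap B A s, fun hd => ha (hmemdvd a hd),
      fun hd => hs (hmemdvd s hd), ?_⟩
    rw [← IsScalarTower.algebraMap_apply, ← IsScalarTower.algebraMap_apply]
    exact has
  obtain ⟨s, hs0, ε, hε⟩ := Fermat.Agent.S18.H754.exists_unit_mul_pow (R := A) m hm υ hυ0 hloc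
  -- `υ * s ^ m` is a unit at `n`
  have hUn : LocU n (υ * s ^ m) := by
    have hne : υ * s ^ m ≠ 0 := mul_ne_zero hυ0 (pow_ne_zero _ hs0)
    refine locU_of_frac_of_inv_frac n hne ?_ ?_
    · rw [hε]
      exact (Fermat.Agent.S18.H438.mem_ofField_primeCompl_iff n _).1 (ε : A).2
    · have e : (υ * s ^ m)⁻¹ = algebraMap A F ((ε⁻¹ : Aˣ) : A) := by
        rw [hε]
        apply inv_eq_of_mul_eq_one_left
        rw [← map_mul, Units.inv_mul, map_one]
      rw [e]
      exact (Fermat.Agent.S18.H438.mem_ofField_primeCompl_iff n _).1 ((ε⁻¹ : Aˣ) : A).2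
  -- `s` is a unit at `p`
  have hsp : LocU p s := by
    obtain ⟨W, -, hW⟩ := Fermat.Agent.S18.H438.exists_dvr_of_height_one (F := F) p hhtp
    refine locU_of_pow p W hW hm ?_
    have h1 : LocU p (s ^ m * υ) := by
      rw [mul_comm]
      exact hUn.mono hpn
    exact h1.of_mul_left hυ
  refine ⟨-j, s, hs0, ?_, hsp⟩
  have e : u * algebraMap B F ϖ ^ (-j) * s ^ m = υ * s ^ m := by
    rw [huυ, mul_assoc υ, ← zpow_add₀ hϖF, add_neg_cancel, zpow_zero, mul_one]
  rw [e]
  exact hUn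

end Fermat.Agent.Ribet.H399

end

end
-- ===== PACK-END Ribet/H399/CuspPure.lean

-- ===== PACK-BEGIN S28/H748/Family.lean
section



/-!
# S28 / H748 — the finite `SL(2,ℤ)`-stable family of modular functions of level `N`

`famSet N` = all `SL(2,ℤ)`-translates of `j(dτ)` and `Δ(dτ)/Δ(τ)`, `d ∣ N`.  It is finite, stable
under translation, every member has a convergent expansion in `t = exp(2πiτ/N)` with coefficients
in `ℤ[ζ_N, 1/N]`, and invariant polynomial expressions in its members are polynomials in `j`.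
-/

set_option autoImplicit false

noncomputable section

open UpperHalfPlane HahnSeries ModularCurve Fermat.Agent.S24
open scoped Real MatrixGroups Manifold

namespace Fermat.Agent.S28.H748

local notation "Δ" => ModularForm.discriminant

/-- All translates of `j(dτ)` and `Δ(dτ)/Δ(τ)`, `d ∣ N`. -/
def famSet (N : ℕ) : Set (ℍ → ℂ) :=
  {f | ∃ d : ℕ, 0 < d ∧ d ∣ N ∧ ∃ γ : SL(2, ℤ),
      f = (fun τ => conjJ d 0 1 (γ • τ)) ∨ f = (fun τ => conjU d 0 1 (γ • τ))}

theorem famSet_smul {N : ℕ} {f : ℍ → ℂ} (hf : f ∈ famSet N) (γ : SL(2, ℤ)) :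
    (fun τ => f (γ • τ)) ∈ famSet N := by
  obtain ⟨d, hd, hdN, γ₀, h | h⟩ := hf
  · refine ⟨d, hd, hdN, γ₀ * γ, Or.inl ?_⟩
    funext τ
    rw [h, mul_smul]
  · refine ⟨d, hd, hdN, γ₀ * γ, Or.inr ?_⟩
    funext τ
    rw [h, mul_smul]

theorem conjJ_mem_famSet {N d : ℕ} (hd : 0 < d) (hdN : d ∣ N) : conjJ d 0 1 ∈ famSet N :=
  ⟨d, hd, hdN, 1, Or.inl (by funext τ; rw [one_smul])⟩

theorem conjU_mem_famSet {N d : ℕ} (hd : 0 < d) (hdN : d ∣ N) : conjU d 0 1 ∈ famSet N :=
  ⟨d, hd, hdN, 1, Or.inr (by funext τ; rw [one_smul])⟩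

open H628 in
/-- Every member of the family is a `conjJ a b δ` or a `conjU a b δ` with `a δ ∣ N`, `b < δ`. -/
theorem famSet_eq_conj {N : ℕ} {f : ℍ → ℂ} (hf : f ∈ famSet N) :
    ∃ a b δ : ℕ, 0 < a ∧ 0 < δ ∧ b < δ ∧ a * δ ∣ N ∧ (f = conjJ a b δ ∨ f = conjU a b δ) := by
  obtain ⟨d, hd, hdN, γ, h | h⟩ := hf
  · refine ⟨hermA d γ, hermB d γ, hermD d γ, hermA_pos hd γ, hermD_pos hd γ, hermB_lt hd γ, ?_,
      Or.inl ?_⟩
    · rw [hermA_mul_hermD]
      exact hdN
    · rw [h]
      funext τ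
      exact conjJ_smul hd γ τ
  · refine ⟨hermA d γ, hermB d γ, hermD d γ, hermA_pos hd γ, hermD_pos hd γ, hermB_lt hd γ, ?_,
      Or.inr ?_⟩
    · rw [hermA_mul_hermD]
      exact hdN
    · rw [h]
      funext τ
      exact conjU_smul hd γ τ

theorem famSet_finite (N : ℕ) [NeZero N] : (famSet N).Finite := by
  have hN : 0 < N := Nat.pos_of_ne_zero (NeZero.ne N)
  let F : Fin (N + 1) × Fin (N + 1) × Fin (N + 1) → (ℍ → ℂ) :=
    fun t => conjJ t.1 t.2.1 t.2.2
  let G : Fin (N + 1) × Fin (N + 1) × Fin (N + 1) → (ℍ → ℂ) :=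
    fun t => conjU t.1 t.2.1 t.2.2
  refine ((Set.finite_range F).union (Set.finite_range G)).subset ?_
  intro f hf
  obtain ⟨a, b, δ, ha, hδ, hb, hdvd, h⟩ := famSet_eq_conj hf
  have hle : a * δ ≤ N := Nat.le_of_dvd hN hdvd
  have haN : a < N + 1 := by
    have : a ≤ a * δ := Nat.le_mul_of_pos_right a hδ
    omega
  have hδN : δ < N + 1 := by
    have : δ ≤ a * δ := Nat.le_mul_of_pos_left δ ha
    omega
  have hbN : b < N + 1 := by omega
  rcases h with h | h
  · left
    exact ⟨(⟨a, haN⟩, ⟨b, hbN⟩, ⟨δ, hδN⟩), h.symm⟩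
  · right
    exact ⟨(⟨a, haN⟩, ⟨b, hbN⟩, ⟨δ, hδN⟩), h.symm⟩

theorem famSet_infExp {N : ℕ} [NeZero N] {f : ℍ → ℂ} (hf : f ∈ famSet N) :
    ∃ φ, InfExp N f φ ∧ φ ∈ coeffSub (coeffRing N) := by
  obtain ⟨a, b, δ, ha, hδ, -, hdvd, h | h⟩ := famSet_eq_conj hf
  · rw [h]
    exact exists_infExp_conjJ b ha hδ (Dvd.dvd.trans (Dvd.intro_left a rfl) hdvd)
  · rw [h]
    exact exists_infExp_conjU b ha hδ (Dvd.dvd.trans (Dvd.intro_left a rfl) hdvd)

/-! ### Invariance under `Γ₀` -/

theorem herm_of_mem_Gamma0 {N d : ℕ} (hd : 0 < d) (hdN : d ∣ N) {γ : SL(2, ℤ)}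
    (hγ : γ ∈ CongruenceSubgroup.Gamma0 N) :
    H628.hermA d γ = d ∧ H628.hermB d γ = 0 ∧ H628.hermD d γ = 1 := by
  obtain ⟨h1, h2, h3⟩ := H628.herm_Gamma0_mul hd hdN hγ 1
  obtain ⟨k1, k2, k3⟩ := H628.herm_one hd
  rw [mul_one] at h1 h2 h3
  exact ⟨h1.trans k1, h2.trans k2, h3.trans k3⟩

theorem conjJ_Gamma0 {N d : ℕ} (hd : 0 < d) (hdN : d ∣ N) {γ : SL(2, ℤ)}
    (hγ : γ ∈ CongruenceSubgroup.Gamma0 N) (τ : ℍ) :
    conjJ d 0 1 (γ • τ) = conjJ d 0 1 τ := by
  obtain ⟨h1, h2, h3⟩ := herm_of_mem_Gamma0 hd hdN hγ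
  rw [conjJ_smul hd, h1, h2, h3]

theorem conjU_Gamma0 {N d : ℕ} (hd : 0 < d) (hdN : d ∣ N) {γ : SL(2, ℤ)}
    (hγ : γ ∈ CongruenceSubgroup.Gamma0 N) (τ : ℍ) :
    conjU d 0 1 (γ • τ) = conjU d 0 1 τ := by
  obtain ⟨h1, h2, h3⟩ := herm_of_mem_Gamma0 hd hdN hγ
  rw [conjU_smul hd, h1, h2, h3]

/-! ### The expansions of the base functions -/

theorem infExp_comp_scale {N : ℕ} (d : ℕ) [NeZero N] [NeZero d] {f : ℍ → ℂ}
    {φ : LaurentSeries ℂ} (hf : InfExp 1 f φ) :
    InfExp N (fun τ => f (infAff d 0 1 τ)) (qExpand ℂ N (qExpand ℂ d φ)) := by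
  have hN : 0 < N := Nat.pos_of_ne_zero (NeZero.ne N)
  have hd : 0 < d := Nat.pos_of_ne_zero (NeZero.ne d)
  haveI : NeZero (N * d) := ⟨(Nat.mul_pos hN hd).ne'⟩
  have h := InfExp.comp_infAff (M := 1) (N := N) (a := d) (d := 1) (e := N * d) 0 hd one_pos
    one_pos hN (by ring) hf
  rw [infRoot_zero, infTwist_one] at h
  rw [qExpand_qExpand]
  exact h

theorem infExp_conjJ_base (N d : ℕ) [NeZero N] [NeZero d] :
    InfExp N (conjJ d 0 1) (qExpand ℂ N (qExpand ℂ d (jqModC ℂ))) := by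
  have h := infExp_comp_scale (N := N) d infExp_one_jFun
  refine h.congr fun τ => ?_
  simp [conjJ]

theorem infExp_conjU_base (N d : ℕ) [NeZero N] [NeZero d] :
    InfExp N (conjU d 0 1)
      (qExpand ℂ N (qExpand ℂ d H565.deltaSeriesC) * qExpand ℂ N H565.deltaInvSeriesC) := by
  have h1 := infExp_comp_scale (N := N) d infExp_one_delta
  have h2 : InfExp N (fun τ => (Δ τ)⁻¹) (qExpand ℂ N H565.deltaInvSeriesC) :=
    infExp_level infExp_one_deltaInv
  refine (h1.mul h2).congr fun τ => ?_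
  simp [conjU]

/-! ### The index type and the action of `SL(2,ℤ)` -/

/-- The index type: the family itself. -/
def Idx (N : ℕ) : Type := {f : ℍ → ℂ // f ∈ famSet N}

/-- The family is finite. -/
def idxFintype (N : ℕ) [NeZero N] : Fintype (Idx N) := (famSet_finite N).fintype

/-- `γ` acts on the family by `f ↦ f ∘ γ⁻¹`. -/
def idxSmul {N : ℕ} (γ : SL(2, ℤ)) (i : Idx N) : Idx N :=
  ⟨fun τ => i.1 (γ⁻¹ • τ), famSet_smul i.2 γ⁻¹⟩

theorem idxSmul_val {N : ℕ} (γ : SL(2, ℤ)) (i : Idx N) (τ : ℍ) :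
    (idxSmul γ i).1 τ = i.1 (γ⁻¹ • τ) := rfl

/-- The action as a `MulAction`. -/
def idxAction (N : ℕ) : MulAction SL(2, ℤ) (Idx N) where
  smul := idxSmul
  one_smul i := by
    apply Subtype.ext
    funext τ
    show i.1 ((1 : SL(2, ℤ))⁻¹ • τ) = i.1 τ
    rw [inv_one, one_smul]
  mul_smul γ₁ γ₂ i := by
    apply Subtype.ext
    funext τ
    show i.1 ((γ₁ * γ₂)⁻¹ • τ) = i.1 (γ₂⁻¹ • γ₁⁻¹ • τ)
    rw [mul_inv_rev, mul_smul]

/-- The permutation representation on the index type. -/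
def idxPerm (N : ℕ) : SL(2, ℤ) →* Equiv.Perm (Idx N) :=
  @MulAction.toPermHom SL(2, ℤ) (Idx N) _ (idxAction N)

theorem idxPerm_val {N : ℕ} (γ : SL(2, ℤ)) (i : Idx N) (τ : ℍ) :
    (idxPerm N γ i).1 τ = i.1 (γ⁻¹ • τ) := rfl

/-- The expansion of a member of the family. -/
def genS (N : ℕ) [NeZero N] (i : Idx N) : LaurentSeries ℂ := Classical.choose (famSet_infExp i.2)

theorem genS_spec (N : ℕ) [NeZero N] (i : Idx N) : InfExp N i.1 (genS N i) :=
  (Classical.choose_spec (famSet_infExp i.2)).1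

theorem genS_mem (N : ℕ) [NeZero N] (i : Idx N) : genS N i ∈ coeffSub (coeffRing N) :=
  (Classical.choose_spec (famSet_infExp i.2)).2

theorem genS_eq {N : ℕ} [NeZero N] (i : Idx N) {φ : LaurentSeries ℂ} (h : InfExp N i.1 φ) :
    genS N i = φ :=
  (genS_spec N i).unique h

/-- The function attached to a polynomial in the members of the family. -/
def polyFun {N : ℕ} (p : MvPolynomial (Idx N) ℂ) (τ : ℍ) : ℂ :=
  MvPolynomial.eval (fun i : Idx N => i.1 τ) p

theorem infExp_polyFun {N : ℕ} [NeZero N] (p : MvPolynomial (Idx N) ℂ) :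
    InfExp N (polyFun p) (MvPolynomial.aeval (genS N) p) :=
  H685.HasQLaurent.mvAeval (h := (N : ℝ)) (fun i : Idx N => i.1) (genS N)
    (fun i => genS_spec N i) p

theorem infExp_polyFun_perm {N : ℕ} [NeZero N] (γ : SL(2, ℤ)) (p : MvPolynomial (Idx N) ℂ) :
    InfExp N (fun τ => polyFun p (γ⁻¹ • τ)) (MvPolynomial.aeval (genS N ∘ idxPerm N γ) p) :=
  H685.HasQLaurent.mvAeval (h := (N : ℝ)) (fun (i : Idx N) τ => i.1 (γ⁻¹ • τ))
    (genS N ∘ idxPerm N γ) (fun i => genS_spec N (idxPerm N γ i)) p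

theorem family_rel {N : ℕ} [NeZero N] (γ : SL(2, ℤ)) (p : MvPolynomial (Idx N) ℂ)
    (h : MvPolynomial.aeval (genS N) p = 0) :
    MvPolynomial.aeval (genS N ∘ idxPerm N γ) p = 0 := by
  have h1 := infExp_polyFun (N := N) p
  rw [h] at h1
  have h2 : polyFun p = fun _ => 0 := h1.fun_unique InfExp.zero
  have h3 := infExp_polyFun_perm γ p
  have h4 : (fun τ => polyFun p (γ⁻¹ • τ)) = fun _ => 0 := by
    funext τ
    rw [h2]
  rw [h4] at h3
  exact h3.unique InfExp.zero

theorem family_inv {N : ℕ} [NeZero N] (p : MvPolynomial (Idx N) ℂ)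
    (h : ∀ γ : SL(2, ℤ),
      MvPolynomial.aeval (genS N ∘ idxPerm N γ) p = MvPolynomial.aeval (genS N) p) :
    MvPolynomial.aeval (genS N) p ∈
      Algebra.adjoin ℂ ({qExpand ℂ N (jqModC ℂ)} : Set (LaurentSeries ℂ)) := by
  have h1 := infExp_polyFun (N := N) p
  have hinv : ∀ (γ : SL(2, ℤ)) (τ : ℍ), polyFun p (γ • τ) = polyFun p τ := by
    intro γ τ
    have h3 := infExp_polyFun_perm γ⁻¹ p
    rw [h γ⁻¹, inv_inv] at h3
    exact congrFun (h3.fun_unique h1) τ
  obtain ⟨Q, -, hQ⟩ := H565.exists_polynomial_of_invariant (N := N) (InfExp.mdiff748 h1) hinv h1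
  rw [hQ]
  exact Polynomial.aeval_mem_adjoin_singleton _ _

theorem family_perm_T {N : ℕ} [NeZero N] (i : Idx N) :
    genS N (idxPerm N ModularGroup.T i) = infTwist (infRoot (-1) N) (genS N i) := by
  apply genS_eq
  have h := (genS_spec N i).comp_translate (-1)
  refine h.congr fun τ => ?_
  rw [idxPerm_val]
  refine congrArg i.1 ?_
  apply UpperHalfPlane.ext
  rw [infAff_coe one_pos one_pos, H628.SL2_coe_smul]
  simp [ModularGroup.T]

end Fermat.Agent.S28.H748

end

end
-- ===== PACK-END S28/H748/Family.lean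

-- ===== PACK-BEGIN Ribet/H819/PerShell.lean
section


/-!
# Row 38, WALL-p, (S4) WILD: the COVER SHELL of `H704.CoreOut.WildFrame` on the carriers of
# `PerCtx` (helper819)

`c : PerCtx K`;  `K₁`, `K₂` abstract fields (`K₁ = FE E₁ N`, `K₂ = FE E₂ N`) with `[Algebra K₁ K₂]`
and surjective ring homomorphisms `e₁ : K₁ →+* F₁`, `e₂ : K₂ →+* F₂` compatible with the inclusion
`F₁ ⊆ F₂` (`h₁₂`).  Carriers: `L₁ := ↥c.FcI` (`= F₁(h)`), `L₂ := ↥c.L` (`= F₂(h)`).

Instances (reducible defs, to be installed with `letI`):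
* `c.algF e₁ : Algebra K₁ L₁` (`PerWild`), `c.algL e₂ : Algebra K₂ L₂`,
  `c.algLL : Algebra L₁ L₂` (the inclusion `c.incl`), `c.algKL e₂ : Algebra K₁ L₂`;
* `tower_KKL : IsScalarTower K₁ K₂ L₂`, `tower_KLL : IsScalarTower K₁ L₁ L₂`.

Fields of `WildFrame`:
* `hh` = `hI_pow_algF`, `hadj₁` = `adjoin_hI_algF`, `hadj₂` = `adjoin_incl_hI_algL`,
  `τ` = `c.tauF e₁`, `hτ` = `exists_pow_eq_tauF`;
* `shell_period` : PER output `f', G : L₁`, `b : L₂` with `hper` and `hf₂`
  (`algebraMap K₂ L₂ f₂ = algebraMap K₂ L₂ ℓ₂ · algebraMap L₁ L₂ f' · b ^ p`, `ℓ₂ = lc f₂`),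
  from the AMBIENT relation `σ₀ F = F · κ · (h · G₀) ^ p` in `K((t))`.

KERNEL NOTE: equalities between elements of DIFFERENT subtypes (`↥c.L`, `↥c.FcI`, `↥c.F₂`) are
never proved by `rfl` here (the kernel would try to unify the membership predicates).
-/

set_option autoImplicit false
set_option linter.unusedSectionVars false
set_option linter.style.haveILetI false
set_option maxHeartbeats 400000

noncomputable section

namespace Fermat.Agent.Ribet.H819

open ModularCurve

theorem subfield_algebraMap_h819 {Ω : Type*} [Field Ω] (B : Subfield Ω) (y : ↥B) :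
    algebraMap ↥B Ω y = (y : Ω) := rfl

namespace PerCtx

variable {K : Type} [Field K] (c : PerCtx K)

/-! ### The inclusion `L₁ = F₁(h) ⊆ L₂ = F₂(h)` -/

/-- The inclusion of the cover field over the tame level into `L`, as a function. -/
def inclFun (z : ↥c.FcI) : ↥c.L := ⟨z.1, c.mem_L_of_mem_FcI z.2⟩

theorem coe_inclFun (z : ↥c.FcI) : (c.inclFun z).1 = z.1 := Subtype.coe_mk _ _

theorem inclFun_mul (x y : ↥c.FcI) : c.inclFun (x * y) = c.inclFun x * c.inclFun y := by
  apply Subtype.ext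
  rw [IntermediateField.coe_mul, coe_inclFun, coe_inclFun, coe_inclFun, IntermediateField.coe_mul]

theorem inclFun_add (x y : ↥c.FcI) : c.inclFun (x + y) = c.inclFun x + c.inclFun y := by
  apply Subtype.ext
  rw [IntermediateField.coe_add, coe_inclFun, coe_inclFun, coe_inclFun, IntermediateField.coe_add]

theorem inclFun_one : c.inclFun 1 = 1 := by
  apply Subtype.ext
  rw [coe_inclFun, IntermediateField.coe_one, IntermediateField.coe_one]

theorem inclFun_zero : c.inclFun 0 = 0 := by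
  apply Subtype.ext
  rw [coe_inclFun, IntermediateField.coe_zero, IntermediateField.coe_zero]

/-- The inclusion of the cover field over the tame level into `L`. -/
def incl : ↥c.FcI →+* ↥c.L where
  toFun := c.inclFun
  map_one' := c.inclFun_one
  map_mul' := c.inclFun_mul
  map_zero' := c.inclFun_zero
  map_add' := c.inclFun_add

theorem incl_apply (z : ↥c.FcI) : c.incl z = c.inclFun z := rfl

theorem coe_incl (z : ↥c.FcI) :
    ((c.incl z : ↥c.L) : LaurentSeries K) = (z : LaurentSeries K) := by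
  rw [incl_apply]
  exact c.coe_inclFun z

theorem incl_injective : Function.Injective c.incl := c.incl.injective

theorem incl_hI : c.incl c.hI = c.hL := by
  apply Subtype.ext
  rw [coe_incl]
  rfl

theorem incl_tauA (z : ↥c.FcI) : c.incl (c.tauA z) = c.tau (c.incl z) := by
  apply Subtype.ext
  rw [coe_incl]
  have h1 : (c.incl z : ↥c.L) = ⟨(z : LaurentSeries K), c.mem_L_of_mem_FcI z.2⟩ := by
    apply Subtype.ext
    rw [coe_incl]
  rw [h1]
  exact (c.coe_tau_eq_tauA (z : LaurentSeries K) z.2).symm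

theorem exists_incl_eq_iff (z : ↥c.L) :
    (∃ z' : ↥c.FcI, c.incl z' = z) ↔ (z : LaurentSeries K) ∈ c.Fc := by
  constructor
  · rintro ⟨z', rfl⟩
    rw [coe_incl]
    exact (c.mem_FcI_iff _).mp z'.2
  · intro hz
    refine ⟨⟨(z : LaurentSeries K), (c.mem_FcI_iff _).mpr hz⟩, ?_⟩
    apply Subtype.ext
    rw [coe_incl]

/-! ### Algebra structures -/

/-- The `K₁`-algebra structure on `L₂`, through `K₂`. -/
@[reducible] def algKL (K₁ : Type) {K₂ : Type} [Field K₁] [Field K₂] [Algebra K₁ K₂]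
    (e₂ : K₂ →+* ↥c.F₂) : Algebra K₁ ↥c.L :=
  (((algebraMap ↥c.F₂ ↥c.L).comp e₂).comp (algebraMap K₁ K₂)).toAlgebra

section Alg

variable {K₁ K₂ : Type} [Field K₁] [Field K₂] [Algebra K₁ K₂]
  (e₁ : K₁ →+* ↥c.F₁) (e₂ : K₂ →+* ↥c.F₂)

/-- The `K₂`-algebra structure on `L = F₂(h)` induced by `e₂ : K₂ →+* F₂`. -/
@[reducible] def algL : Algebra K₂ ↥c.L := ((algebraMap ↥c.F₂ ↥c.L).comp e₂).toAlgebra

/-- The `L₁`-algebra structure on `L₂` (inclusion). -/
@[reducible] def algLL : Algebra ↥c.FcI ↥c.L := c.incl.toAlgebra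

theorem algebraMap_algL (x : K₂) :
    letI := c.algL e₂
    algebraMap K₂ ↥c.L x = algebraMap ↥c.F₂ ↥c.L (e₂ x) := rfl

theorem coe_algebraMap_algL (x : K₂) :
    letI := c.algL e₂
    ((algebraMap K₂ ↥c.L x : ↥c.L) : LaurentSeries K) = ((e₂ x : ↥c.F₂) : LaurentSeries K) := by
  letI := c.algL e₂
  rw [c.algebraMap_algL e₂, IntermediateField.coe_algebraMap_apply, subfield_algebraMap_h819]

theorem coe_algebraMap_algF' (x : K₁) :
    letI := c.algF e₁
    ((algebraMap K₁ ↥c.FcI x : ↥c.FcI) : LaurentSeries K) =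
      ((e₁ x : ↥c.F₁) : LaurentSeries K) := by
  letI := c.algF e₁
  rw [c.algebraMap_algF e₁, IntermediateField.coe_algebraMap_apply, subfield_algebraMap_h819]

theorem algebraMap_algLL (z : ↥c.FcI) :
    letI := c.algLL
    algebraMap ↥c.FcI ↥c.L z = c.incl z := rfl

theorem algebraMap_algKL (x : K₁) :
    letI := c.algL e₂
    letI := c.algKL K₁ e₂
    algebraMap K₁ ↥c.L x = algebraMap K₂ ↥c.L (algebraMap K₁ K₂ x) := rfl

theorem tower_KKL :
    letI := c.algL e₂
    letI := c.algKL K₁ e₂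
    IsScalarTower K₁ K₂ ↥c.L := by
  letI := c.algL e₂
  letI := c.algKL K₁ e₂
  exact IsScalarTower.of_algebraMap_eq (fun _ => rfl)

variable (h₁₂ : ∀ x : K₁, ((e₂ (algebraMap K₁ K₂ x) : ↥c.F₂) : LaurentSeries K) =
    ((e₁ x : ↥c.F₁) : LaurentSeries K))

include h₁₂ in
theorem tower_KLL :
    letI := c.algF e₁
    letI := c.algLL
    letI := c.algKL K₁ e₂
    IsScalarTower K₁ ↥c.FcI ↥c.L := by
  letI := c.algF e₁
  letI := c.algLL
  letI := c.algL e₂
  letI := c.algKL K₁ e₂
  refine IsScalarTower.of_algebraMap_eq (fun x => ?_)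
  apply Subtype.ext
  rw [c.algebraMap_algKL (K₁ := K₁) e₂, c.coe_algebraMap_algL e₂, c.algebraMap_algLL, c.coe_incl,
    c.coe_algebraMap_algF' e₁, h₁₂]

/-! ### The fields `hadj₂`, `hτ` of `WildFrame` -/

variable (hs₁ : Function.Surjective e₁) (hs₂ : Function.Surjective e₂)

include hs₂ in
theorem finiteDimensional_algL :
    letI := c.algL e₂
    FiniteDimensional K₂ ↥c.L := by
  letI := c.algL e₂
  exact finiteDimensional_of_base_h819 e₂ (fun _ => rfl) hs₂

include hs₂ in
theorem isGalois_algL :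
    letI := c.algL e₂
    IsGalois K₂ ↥c.L := by
  letI := c.algL e₂
  exact isGalois_of_base_h819 e₂ (fun _ => rfl) hs₂

include hs₂ in
theorem adjoin_hL_algL :
    letI := c.algL e₂
    IntermediateField.adjoin K₂ ({c.hL} : Set ↥c.L) = ⊤ := by
  letI := c.algL e₂
  exact adjoin_eq_top_of_base_h819 e₂ (fun _ => rfl) hs₂ c.adjoin_hL

include hs₂ in
/-- `hadj₂` of `WildFrame`. -/
theorem adjoin_incl_hI_algL :
    letI := c.algL e₂
    letI := c.algLL
    IntermediateField.adjoin K₂ ({algebraMap ↥c.FcI ↥c.L c.hI} : Set ↥c.L) = ⊤ := by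
  letI := c.algL e₂
  letI := c.algLL
  rw [c.algebraMap_algLL, c.incl_hI]
  exact c.adjoin_hL_algL e₂ hs₂

include hs₁ in
/-- `hτ` of `WildFrame`. -/
theorem exists_pow_eq_tauF :
    letI := c.algF e₁
    ∀ g : ↥c.FcI ≃ₐ[K₁] ↥c.FcI, ∃ j : ℕ, g = c.tauF e₁ ^ j := by
  letI := c.algF e₁
  intro g
  obtain ⟨j, -, hj⟩ := c.exists_pow_eq_tauA (algEquivToBase_h819 e₁ (fun _ => rfl) hs₁ g)
  refine ⟨j, ?_⟩
  have h1 : g = algEquivOfBase_h819 e₁ (fun _ => rfl)
      (algEquivToBase_h819 e₁ (fun _ => rfl) hs₁ g) :=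
    (algEquivOfBase_toBase_h819 e₁ (fun _ => rfl) hs₁ g).symm
  rw [h1, hj, map_pow]
  rfl

/-! ### The PER output in the shape of `WildFrame` -/

/-- **PER in the shape of `WildFrame`.**  `f₂, G₀ ∈ K₂` with (ambient form, `F = e₂ f₂`)
`σ₀ F = F · κ · (h · G₀) ^ p`, `κ ∈ E₁(u)` a constant (this is `σ₀ x = x + t` for the Kummer
generators); `a ∈ K₁` the constant `u ^ p`; `ℓ₂ ∈ K₂` the constant `lc F`.  Then there are
`f', G ∈ L₁ = F₁(h)` and `b ∈ L₂` with `hper` and `hf₂` of `WildFrame`. -/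
theorem shell_period (a : K₁)
    (ha : ((e₁ a : ↥c.F₁) : LaurentSeries K) = HahnSeries.C (c.u ^ c.p))
    (f₂ G₀ ℓ₂ : K₂) (hf₂0 : f₂ ≠ 0)
    (hℓ : ((e₂ ℓ₂ : ↥c.F₂) : LaurentSeries K) =
      HahnSeries.C ((e₂ f₂ : ↥c.F₂) : LaurentSeries K).leadingCoeff)
    (κ : K) (hκ : κ ∈ c.E')
    (hσ : coeffMap (c.σ₀ : K →+* K) ((e₂ f₂ : ↥c.F₂) : LaurentSeries K) =
      ((e₂ f₂ : ↥c.F₂) : LaurentSeries K) * HahnSeries.C κ *
        (c.h * ((e₂ G₀ : ↥c.F₂) : LaurentSeries K)) ^ c.p) :
    letI := c.algF e₁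
    letI := c.algL e₂
    letI := c.algLL
    ∃ (f' G : ↥c.FcI) (b : ↥c.L), f' ≠ 0 ∧ G ≠ 0 ∧ b ≠ 0 ∧
      c.tauF e₁ f' = f' * algebraMap K₁ ↥c.FcI a * G ^ c.p ∧
      algebraMap K₂ ↥c.L f₂ =
        algebraMap K₂ ↥c.L ℓ₂ * algebraMap ↥c.FcI ↥c.L f' * b ^ c.p := by
  letI := c.algF e₁
  letI := c.algL e₂
  letI := c.algLL
  have hf0 : algebraMap K₂ ↥c.L f₂ ≠ 0 := (map_ne_zero (algebraMap K₂ ↥c.L)).mpr hf₂0
  have hf : ((algebraMap K₂ ↥c.L f₂ : ↥c.L) : LaurentSeries K) ∈ c.F₂ := by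
    rw [c.coe_algebraMap_algL e₂]
    exact (e₂ f₂).2
  have hG : ((algebraMap K₂ ↥c.L G₀ : ↥c.L) : LaurentSeries K) ∈ c.F₂ := by
    rw [c.coe_algebraMap_algL e₂]
    exact (e₂ G₀).2
  have hκL : (HahnSeries.C κ : LaurentSeries K) ∈ c.L := c.mem_L_of_mem_F₂ (c.C_mem_F₂ hκ)
  have hσf : c.sigma (algebraMap K₂ ↥c.L f₂) =
      algebraMap K₂ ↥c.L f₂ * ⟨HahnSeries.C κ, hκL⟩ *
        (c.hL * algebraMap K₂ ↥c.L G₀) ^ c.p := by
    apply Subtype.ext
    rw [c.coe_sigma_eq_coeffMap, IntermediateField.coe_mul, IntermediateField.coe_mul,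
      IntermediateField.coe_pow, IntermediateField.coe_mul, c.coe_algebraMap_algL e₂,
      c.coe_algebraMap_algL e₂, hσ]
    rfl
  obtain ⟨f', G, b, hf', hG', hb, hfeq, hτ⟩ := c.period_algF e₁ a ha (algebraMap K₂ ↥c.L f₂)
    (algebraMap K₂ ↥c.L G₀) ⟨HahnSeries.C κ, hκL⟩ hf0 hf hG (c.lc_of_const κ hκL) hσf
  refine ⟨f', G, b, hf', hG', hb, hτ, ?_⟩
  apply Subtype.ext
  rw [hfeq, IntermediateField.coe_mul, IntermediateField.coe_mul, IntermediateField.coe_pow,
    c.algebraMap_algLL, c.coe_incl, c.coe_lc, c.coe_algebraMap_algL e₂, c.coe_algebraMap_algL e₂,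
    hℓ]

end Alg

end PerCtx

end Fermat.Agent.Ribet.H819

end

end
-- ===== PACK-END Ribet/H819/PerShell.lean

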