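import Fermat.Prelude.Def_ModularCurve_HeckeOperatorTotal
import Mathlib
import Fermat.Prelude.Def_AlgebraicCurve_DivisorPushPull
import Fermat.Agent.Pack.S44.G0E19L2
import Fermat.Agent.Pack.S44.G0E17L0
import Fermat.Agent.Pack.S44.G0E0L1
import Fermat.Agent.Pack.S44.G0E19L1
import Fermat.Agent.Pack.S44.G0E6L0
import Fermat.Agent.Pack.S44.G0E10L3
import Fermat.Agent.Pack.S44.G0E13L0
import Fermat.Agent.Pack.S44.G0E13L3
import Fermat.Agent.Pack.S44.G1E0L0
import Fermat.Agent.Pack.S44.G0E7L1
import Fermat.Agent.Pack.S44.G0E18L2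
import Fermat.Agent.Pack.S44.G0E12L3
import Fermat.Agent.Pack.S44.G0E4L0
import Fermat.Agent.Pack.S44.G0E18L3
import Fermat.Agent.Pack.S44.G0E4L1
import Fermat.Agent.Pack.S44.G0E19L0
import Fermat.Agent.Pack.S44.G0E11L0
import Fermat.Agent.Pack.S44.G0E7L2
import Fermat.Agent.Pack.S44.G0E5L0

-- ===== PACK-BEGIN Lib/HI/H864/Modular.lean
section




/-!
# Lib / HI (helper864): `HeckeInputsAlong ℚ̄ N ℓ` holds

The Prelude Hecke operator `heckeOperatorAlong ℚ̄ N ℓ` is defined as the genuine correspondence
`α_* β^*` when the six inputs `HeckeInputsAlong` hold (and as `0` otherwise).  They always hold: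

* `heckeInputsAlong_bar' N ℓ`        (any `N, ℓ ≠ 0`)
* `heckeInputsAlong_bar N ℓ hℓ`      (exact shape of `S29/SkeletonM.lean`, piece `HI`)
-/

set_option autoImplicit false
set_option linter.unusedSectionVars false
set_option linter.style.haveILetI false
set_option linter.unusedVariables false

noncomputable section

open AlgebraicCurve ModularCurve IntermediateField

namespace Fermat.Agent.Lib.HI.H864

open Fermat.Agent.S24

theorem jF_not_mem_range (N : ℕ) [NeZero N] :
    jF N ∉ (algebraMap Kbar (FF N)).range := by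
  rintro ⟨c, hc⟩
  have h1 : ((algebraMap Kbar (FF N) c : FF N) : LaurentSeries Kbar).coeff (-1)
      = ((jF N : FF N) : LaurentSeries Kbar).coeff (-1) := by rw [hc]
  have h2 : ((algebraMap Kbar (FF N) c : FF N) : LaurentSeries Kbar)
      = algebraMap Kbar (LaurentSeries Kbar) c := rfl
  rw [h2, algebraMap_laurentSeries_eq_single] at h1
  have h3 : ((jF N : FF N) : LaurentSeries Kbar) = coeffEmb Kbar jq := rfl
  rw [h3, coeffEmb_coeff, coeff_jq_neg_one, map_one,
    HahnSeries.coeff_single_of_ne (by norm_num)] at h1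
  exact zero_ne_one h1

theorem transcendental_jF (N : ℕ) [NeZero N] : Transcendental Kbar (jF N) :=
  FF.transcendental_of_not_mem_range (jF_not_mem_range N)

theorem finiteDimensional_jF (N : ℕ) [NeZero N] :
    FiniteDimensional ↥(IntermediateField.adjoin Kbar {jF N}) (FF N) :=
  (Deg457.degree_fields N).1

/-- The modular function field has principal divisors. -/
theorem hasPrincipalDivisors_FF (N : ℕ) [NeZero N] :
    HasPrincipalDivisors (AlgebraicClosure ℚ) ↥(modularFunctionFieldBar N) := by
  haveI := finiteDimensional_jF N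
  exact hasPrincipalDivisors (jF N) (transcendental_jF N)

section

variable (N ℓ : ℕ) [NeZero N] [NeZero ℓ]

theorem heckeAlphaBar_jF : heckeAlphaBar Kbar N ℓ (jF N) = jF (N * ℓ) := rfl

theorem finiteDimensional_alpha :
    FiniteDimensional ↥(IntermediateField.adjoin Kbar {heckeAlphaBar Kbar N ℓ (jF N)})
      (FF (N * ℓ)) := by
  rw [heckeAlphaBar_jF]
  exact finiteDimensional_jF (N * ℓ)

theorem finiteDimensional_beta :
    FiniteDimensional ↥(IntermediateField.adjoin Kbar {heckeBetaBar Kbar N ℓ (jF N)})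
      (FF (N * ℓ)) := by
  haveI := finiteDimensional_jF (N * ℓ)
  exact FF.finiteDimensional_adjoin_of_transcendental (transcendental_jF (N * ℓ))
    (transcendental_map (heckeBetaBar Kbar N ℓ) (jF N) (transcendental_jF N))

theorem heckeAlphaBarIntegral : HeckeAlphaBarIntegral Kbar N ℓ := by
  haveI := finiteDimensional_alpha N ℓ
  exact isIntegral_along_of_finite (heckeAlphaBar Kbar N ℓ) (jF N)

theorem heckeBetaBarIntegral : HeckeBetaBarIntegral Kbar N ℓ := by
  haveI := finiteDimensional_beta N ℓ
  exact isIntegral_along_of_finite (heckeBetaBar Kbar N ℓ) (jF N)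

theorem finiteAlong_alpha : FiniteAlong Kbar (heckeAlphaBar Kbar N ℓ) := by
  haveI := finiteDimensional_alpha N ℓ
  exact finiteAlong (heckeAlphaBar Kbar N ℓ) (jF N)

theorem finiteAlong_beta : FiniteAlong Kbar (heckeBetaBar Kbar N ℓ) := by
  haveI := finiteDimensional_beta N ℓ
  exact finiteAlong (heckeBetaBar Kbar N ℓ) (jF N)

theorem fundamentalIdentityAlong_beta
    [HasPrincipalDivisors Kbar (laurentBaseChange Kbar (modularFunctionFieldFull (N * ℓ)))]
    (hβ : HeckeBetaBarIntegral Kbar N ℓ) :
    FundamentalIdentityAlong Kbar (heckeBetaBar Kbar N ℓ) hβ := by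
  haveI := finiteDimensional_jF N
  haveI := finiteDimensional_beta N ℓ
  exact fundamentalIdentityAlong (heckeBetaBar Kbar N ℓ) (jF N) (transcendental_jF N) hβ

theorem fundamentalIdentityAlong_alpha
    [HasPrincipalDivisors Kbar (laurentBaseChange Kbar (modularFunctionFieldFull (N * ℓ)))]
    (hα : HeckeAlphaBarIntegral Kbar N ℓ) :
    FundamentalIdentityAlong Kbar (heckeAlphaBar Kbar N ℓ) hα := by
  haveI := finiteDimensional_jF N
  haveI := finiteDimensional_alpha N ℓ
  exact fundamentalIdentityAlong (heckeAlphaBar Kbar N ℓ) (jF N) (transcendental_jF N) hα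

theorem normFormulaAlong_alpha (hfin : FiniteAlong Kbar (heckeAlphaBar Kbar N ℓ)) :
    NormFormulaAlong Kbar (heckeAlphaBar Kbar N ℓ) hfin := by
  haveI := finiteDimensional_jF N
  haveI := finiteDimensional_alpha N ℓ
  exact normFormulaAlong (heckeAlphaBar Kbar N ℓ) (jF N) (transcendental_jF N) hfin

theorem normFormulaAlong_beta (hfin : FiniteAlong Kbar (heckeBetaBar Kbar N ℓ)) :
    NormFormulaAlong Kbar (heckeBetaBar Kbar N ℓ) hfin := by
  haveI := finiteDimensional_jF N
  haveI := finiteDimensional_beta N ℓ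
  exact normFormulaAlong (heckeBetaBar Kbar N ℓ) (jF N) (transcendental_jF N) hfin

/-- **HI.**  All six inputs of the Prelude Hecke correspondence hold over `ℚ̄`. -/
theorem heckeInputsAlong_bar' : HeckeInputsAlong (AlgebraicClosure ℚ) N ℓ := by
  haveI hP : HasPrincipalDivisors Kbar
      (laurentBaseChange Kbar (modularFunctionFieldFull (N * ℓ))) :=
    hasPrincipalDivisors_FF (N * ℓ)
  exact heckeInputsAlong_intro (heckeAlphaBarIntegral N ℓ) (heckeBetaBarIntegral N ℓ)
    (fundamentalIdentityAlong_beta N ℓ _) (finiteAlong_alpha N ℓ)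
    (normFormulaAlong_alpha N ℓ _)

end

/-- **HI**, exact shape of `S29/SkeletonM.lean`. -/
theorem heckeInputsAlong_bar (N : ℕ) [NeZero N] (ℓ : ℕ) [NeZero ℓ] (hℓ : ℓ.Prime) :
    HeckeInputsAlong (AlgebraicClosure ℚ) N ℓ :=
  heckeInputsAlong_bar' N ℓ

end Fermat.Agent.Lib.HI.H864

end
end
-- ===== PACK-END Lib/HI/H864/Modular.lean

-- ===== PACK-BEGIN S28/H807/ModPoly.lean
section
/-
S28 / helper807 — the prime-level analytic inputs `ModPolyData p` and `UnitPolyData p`
of the captain skeleton (`Fermat/Agent/S28/Defs.lean`), from three explicit analytic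
hypotheses (level-one polynomial principle, `q`-expansion of `j`, `q`-expansion of `Δ^{±1}`).
-/




set_option autoImplicit false
set_option maxHeartbeats 400000

noncomputable section

open ModularCurve Polynomial Matrix UpperHalfPlane
open scoped MatrixGroups

namespace Fermat.Agent.S28.H807

open Fermat.Agent.S28

theorem evalAt_jqModC_eq : evalAt (jqModC ℤ) = evalJZHom := by
  apply Polynomial.ringHom_ext
  · intro a
    simp [evalAt, evalJZHom]
  · simp [evalAt, evalJZHom]

theorem evalAt_comp_qExpand (p : ℕ) [NeZero p] :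
    evalAt (qExpand ℤ p (jqModC ℤ)) = (qExpand ℤ p).comp evalJZHom := by
  apply Polynomial.ringHom_ext
  · intro a
    simp [evalAt, evalJZHom]
  · simp [evalAt, evalJZHom]

variable (p : ℕ) [NeZero p]

/-- **[A-Φ]** The modular polynomial of prime level `p`, from the analytic hypotheses. -/
theorem nonempty_modPolyData_of (hp : p.Prime) (hPP : PolyPrinciple) (J : ℍ → ℂ)
    (hJinv : ∀ (γ : SL(2, ℤ)) (τ : ℍ), J (γ • τ) = J τ)
    (hJexp : HasQExp (jqModC ℂ) J) : Nonempty (ModPolyData p) := by
  have hG : HasQExp (coeffMap (Int.castRingHom ℂ) (jqModC ℤ)) J := by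
    rw [coeffMap_jqModC]; exact hJexp
  have hE : HasQExp (coeffMap (Int.castRingHom ℂ) (qExpand ℤ p (jqModC ℤ)))
      (fun τ => J (mulNat p τ)) := by
    rw [coeffMap_qExpand, coeffMap_jqModC]; exact hJexp.mulNat p
  obtain ⟨Φ, hmonic, hdeg, hmap⟩ := exists_lift_formalPoly p hPP (jqModC ℤ)
    (qExpand ℤ p (jqModC ℤ)) J (fun τ => J (mulNat p τ)) hG hE (conjPoly_J_S p hp J hJinv)
  refine ⟨⟨Φ, hmonic, hdeg, ?_, ?_⟩⟩
  · rw [evalAt_jqModC_eq, Polynomial.eval₂_eq_eval_map, hmap]
    exact formalPoly_eval_self p _ _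
  · rw [evalAt_comp_qExpand, Polynomial.eval₂_eq_eval_map, ← Polynomial.map_map, hmap]
    exact formalPoly_map_qExpand_eval p _ _

/-- **[A-W]** `p¹² Δ(q^p)/Δ(q)` is integral over `ℤ[j]`, from the analytic hypotheses. -/
theorem nonempty_unitPolyData_of (hp : p.Prime) (hPP : PolyPrinciple) (D : ℍ → ℂ)
    (hD0 : ∀ τ, D τ ≠ 0)
    (hD : ∀ (γ : SL(2, ℤ)) (τ : ℍ), D (γ • τ) = (denom γ τ) ^ 12 * D τ)
    (hDexp : HasQExp (coeffMap (Int.castRingHom ℂ) (deltaL ℤ)) D)
    (hDinvexp : HasQExp (coeffMap (Int.castRingHom ℂ) (deltaInvL ℤ)) (fun τ => (D τ)⁻¹)) :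
    Nonempty (UnitPolyData p) := by
  have hG : HasQExp (coeffMap (Int.castRingHom ℂ) (deltaL ℤ * qExpand ℤ p (deltaInvL ℤ)))
      (unitG p D) := by
    rw [map_mul, coeffMap_qExpand]
    intro τ
    have := (hDexp.mul (hDinvexp.mulNat p)) τ
    simpa [unitG, div_eq_mul_inv] using this
  have hE : HasQExp (coeffMap (Int.castRingHom ℂ) ((p : LaurentSeries ℤ) ^ 12 * unitL ℤ p))
      (unitE p D) := by
    rw [map_mul, map_pow, map_natCast, unitL, map_mul, coeffMap_qExpand]
    have hc : HasQExp ((p : LaurentSeries ℂ) ^ 12) (fun _ => (p : ℂ) ^ 12) := by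
      have h1 : ((p : LaurentSeries ℂ) ^ 12) = HahnSeries.C ((p : ℂ) ^ 12) := by
        rw [map_pow, map_natCast]
      rw [h1]
      exact hasQExp_C _
    intro τ
    have := (hc.mul ((hDexp.mulNat p).mul hDinvexp)) τ
    simpa [unitE, div_eq_mul_inv, mul_assoc] using this
  obtain ⟨Φ, hmonic, _, hmap⟩ := exists_lift_formalPoly p hPP
    (deltaL ℤ * qExpand ℤ p (deltaInvL ℤ)) ((p : LaurentSeries ℤ) ^ 12 * unitL ℤ p)
    (unitG p D) (unitE p D) hG hE (conjPoly_unit_S p hp D hD0 hD)
  refine ⟨⟨Φ, hmonic, ?_⟩⟩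
  rw [evalAt_jqModC_eq, Polynomial.eval₂_eq_eval_map, hmap]
  exact formalPoly_eval_self p _ _

end Fermat.Agent.S28.H807

end

end
-- ===== PACK-END S28/H807/ModPoly.lean

-- ===== PACK-BEGIN Lib/Frob/A2/Main.lean
section



/-!
# Shared library `Frob`, piece A2: the deliverable `frobRelationFin : FrobRelationFin`

Proof: `Fermat/Agent/Lib/Frob/A2/H230/Main.lean` (helper230 assembly) from
* helper311 `S52/H311` (exact parallelogram law for the degree height),
* helper621 `S52/H621` (Manin count, degree of a composition of rational functions),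
* helper127 `S52/H127/QuadForm` (quadratic form algebra),
* helper240 `Lib/Frob/A2/H240/ShortNF` + `Lib/VC` (reduction to short Weierstrass form),
* helper230 `Lib/FrobRel` (generic point implies all points) and `Lib/Frob/A2/H230` (odd points).
-/

set_option autoImplicit false

namespace Fermat.Agent.Lib.Frob

/-- **A2**: the Hasse–Weil Frobenius relation `Φ² - a_ℓ Φ + ℓ = 0` on `E(k)` for every
Weierstrass curve `E` over `ZMod ℓ` (`ℓ ≥ 5` prime, `Δ ≠ 0`) and every field `k` over `ZMod ℓ`. -/
theorem frobRelationFin : FrobRelationFin := A2.H230.frobRelationFin_H230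

end Fermat.Agent.Lib.Frob

end
-- ===== PACK-END Lib/Frob/A2/Main.lean

-- ===== PACK-BEGIN S13/H64/FreyP.lean
section



/-!
# S13 / T5: inertia at `p` acts trivially on a stable line of the Frey curve or on the quotient

Final statement of piece T5 for the Frey curve (everything at the prime `p = P.p`).
-/

set_option autoImplicit false
set_option linter.unusedSectionVars false
set_option linter.unusedVariables false

namespace Fermat.Agent.S13.H64

open WeierstrassCurve WeierstrassCurve.Affine WeierstrassCurve.Affine.Point Polynomial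
open Fermat.Agent.S05 Fermat.Agent.S05.SameRed Fermat.Agent.S05.Assemble

/-- **(T5a)** in torsion-module form. -/
theorem frey_inKer_smul_sub_torsion (P : FreyPackage)
    (A : ValuationSubring Qb) (hA : A.LiesOverPrime P.p)
    (σ : Qb ≃ₐ[ℚ] Qb) (hσ : σ ∈ A.inertiaSubgroupIn ℚ)
    (pt : Submodule.torsionBy ℤ (P.freyCurve⁄Qb).Point P.p)
    (hpt : ¬ InKer (P.freyCurve⁄Qb) A.valuation (pt : (P.freyCurve⁄Qb).Point)) :
    InKer (P.freyCurve⁄Qb) A.valuation
      ((σ • pt - pt : Submodule.torsionBy ℤ (P.freyCurve⁄Qb).Point P.p) :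
        (P.freyCurve⁄Qb).Point) := by
  have hp2 : P.p ≠ 2 := by have := P.hp5; omega
  obtain ⟨Q, hQ⟩ := pt
  have hP : P.p • Q = 0 := by
    have := (Submodule.mem_torsionBy_iff _ _).mp hQ
    rwa [natCast_zsmul] at this
  rcases Q with _ | ⟨x, y, h⟩
  · exact absurd trivial hpt
  · have hx : A.valuation x ≤ 1 := not_lt.mp hpt
    exact frey_inKer_smul_sub P P.pp hp2 A hA σ hσ h hP hx

/-- **(T5)** For the Frey curve, a valuation subring `A` of `ℚ̄` over `p`, and a Galois-stable
line `N0` in `E[p]`: the inertia group at `A` acts trivially on `N0` or on `E[p] / N0`.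
`Q` is any integer polynomial with leading coefficient `p` vanishing at the `x`-coordinates of
the nonzero `p`-torsion points (the `p`-division polynomial, piece T1). -/
theorem frey_inertia_dichotomy_at_p (P : FreyPackage)
    (A : ValuationSubring Qb) (hA : A.LiesOverPrime P.p)
    (Q : ℤ[X]) (hQlc : Q.leadingCoeff = P.p)
    (hQ : ∀ (x y : Qb) (h : (P.freyCurve⁄Qb).Nonsingular x y),
      (P.p : ℤ) • Point.some x y h = 0 → aeval x Q = 0)
    (N0 : Submodule (ZMod P.p) (Submodule.torsionBy ℤ (P.freyCurve⁄Qb).Point P.p))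
    (hstab : IsGaloisStable ℚ N0) (hN0 : N0 ≠ ⊥)
    (hline : ∀ x ∈ N0, x ≠ 0 → ∀ y ∈ N0, ∃ k : ℤ, y = k • x) :
    (∀ σ ∈ A.inertiaSubgroupIn ℚ, ∀ x ∈ N0, σ • x = x) ∨
    (∀ σ ∈ A.inertiaSubgroupIn ℚ,
      ∀ x : Submodule.torsionBy ℤ (P.freyCurve⁄Qb).Point P.p, σ • x - x ∈ N0) := by
  have : IsGalois ℚ Qb := Fermat.Agent.S54.isGalois_algebraicClosure_rat
  have hp2 : P.p ≠ 2 := by have := P.hp5; omega
  have hW := frey_integral (P := P) hA P.pp hp2
  exact inertia_line_dichotomy A P.p P.pp hA hW Q hQlc hQ N0 hstab hN0 hline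
    (fun σ hσ pt hpt => frey_inKer_smul_sub_torsion P A hA σ hσ pt hpt)

end Fermat.Agent.S13.H64

end
-- ===== PACK-END S13/H64/FreyP.lean

-- ===== PACK-BEGIN S52/H297/FrobFin.lean
section



/-!
# Piece A2 of row S52: `FrobRelationFin` (helper297 assembly)

* `frobPsi_eq_zero_short` : for a finite field `F` of odd characteristic and
  `W : y² = x³ + a₂x² + a₄x + a₆` over `F` with `Δ ≠ 0`: `Φ² - (q + 1 - #W(F)) Φ + q = 0` on
  `W(L)` for every field `L ⊇ F`.
* `frobRelationFinShort : FrobRelationFinShort`, `frobRelationFin : FrobRelationFin`.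

Ingredients: helper720 (exact parallelogram law), helper127 (quadratic-form algebra),
helper230 (generic point ⇒ all points), helper240 (long ↔ short form), helper297 (Manin's
degree calculus, the group `M`, assembly).
-/

set_option autoImplicit false

open Polynomial WeierstrassCurve
open scoped WeierstrassCurve.Affine

namespace Fermat.Agent.S52.H297

open Fermat.Agent.Lib.FrobRel.H230 (frobPt frobPsi)

/-- **Hasse–Weil relation over a finite field of odd characteristic** (Manin's elementary
proof), for curves `y² = x³ + a₂x² + a₄x + a₆`. -/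
theorem frobPsi_eq_zero_short {F : Type*} [Field F] [Fintype F] (hF : ringChar F ≠ 2)
    (W : WeierstrassCurve F) (h₁ : W.a₁ = 0) (h₃ : W.a₃ = 0) (hΔ : W.Δ ≠ 0)
    {L : Type*} [Field L] [Algebra F L] [DecidableEq L] (T : (W⁄L).Point) :
    frobPsi W L ((Fintype.card F : ℤ) + 1 - (Nat.card W.toAffine.Point : ℤ)) T = 0 := by
  classical
  obtain ⟨y, hy⟩ := IsAlgClosed.exists_pow_nat_eq
    ((IsScalarTower.toAlgHom F (RatFunc F) (AlgebraicClosure (RatFunc F)))
      (algebraMap F[X] (RatFunc F) (cubic W.a₂ W.a₄ W.a₆))) (n := 2) (by norm_num)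
  exact frobPsi_eq_zero_of_setup (K := AlgebraicClosure (RatFunc F))
    (ι := IsScalarTower.toAlgHom F (RatFunc F) (AlgebraicClosure (RatFunc F))) (y := y)
    ⟨h₁, h₃, hy⟩ hF hΔ T

open Fermat.Agent.Lib.Frob Fermat.Agent.Lib.Frob.A2.H240 in
/-- Piece A2 for short Weierstrass curves over `𝔽_ℓ`, `ℓ ≥ 5`. -/
theorem frobRelationFinShort : FrobRelationFinShort := by
  intro ℓ _ hℓ E h₁ _ h₃ hΔ k _ _ _ P
  have hF : ringChar (ZMod ℓ) ≠ 2 := by
    rw [ZMod.ringChar_zmod_n]
    omega
  have key := frobPsi_eq_zero_short hF E h₁ h₃ hΔ (L := k) P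
  rw [Fermat.Agent.Lib.FrobRel.H230.frobPsi_apply, ZMod.card] at key
  have ha : E.traceOfFrobenius = (ℓ : ℤ) + 1 - (Nat.card E.toAffine.Point : ℤ) := by
    unfold WeierstrassCurve.traceOfFrobenius WeierstrassCurve.card
    rw [Nat.card_eq_fintype_card, ZMod.card]
  rw [ha]
  exact key

open Fermat.Agent.Lib.Frob Fermat.Agent.Lib.Frob.A2.H240 in
/-- **Piece A2** of row S52: the Hasse–Weil relation `Φ² - a_ℓ Φ + ℓ = 0` over `𝔽_ℓ`, `ℓ ≥ 5`. -/
theorem frobRelationFin : FrobRelationFin :=
  frobRelationFin_of_short frobRelationFinShort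

end Fermat.Agent.S52.H297

end
-- ===== PACK-END S52/H297/FrobFin.lean

-- ===== PACK-BEGIN S28/H589/UnitAnalytic.lean
section





/-!
# S28 / [A-W], analytic part (helper589): the unit `p¹² Δ(pτ)/Δ(τ)` is a good function

We show that `u(τ) = p¹² Δ(pτ)/Δ(τ)` belongs to helper648's `goodRing p`
(holomorphic, `Γ₀(p)`-invariant, all `SL₂(ℤ)`-translates of at most exponential growth).
-/

set_option autoImplicit false

noncomputable section

open UpperHalfPlane ModularCurve CongruenceSubgroup Function Filter Asymptotics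
open scoped MatrixGroups Manifold Real Modular

namespace Fermat.Agent.S28.H589

open Fermat.Agent.S24.H648 (goodRing ExpGrowth)

local notation "Δ" => ModularForm.discriminant

/-- The unit `u(τ) = p¹² Δ(pτ)/Δ(τ)`. -/
def unitFun (p : ℕ) (hp : 0 < p) (τ : ℍ) : ℂ :=
  (p : ℂ) ^ 12 * Δ (scaleH p hp τ) * (Δ τ)⁻¹

/-- Its conjugate under `S` evaluated at `pτ`: `Δ(τ)/Δ(pτ)`. -/
def unitFun' (p : ℕ) (hp : 0 < p) (τ : ℍ) : ℂ :=
  Δ τ * (Δ (scaleH p hp τ))⁻¹

theorem continuous_discriminant : Continuous (Δ : ℍ → ℂ) :=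
  (Fermat.Agent.S28.H565.mdifferentiable_discriminant).continuous

/-- `‖Δ τ‖ · (im τ)⁶` is bounded. -/
theorem exists_discriminant_bound : ∃ C : ℝ, ∀ τ : ℍ, ‖Δ τ‖ * τ.im ^ 6 ≤ C := by
  obtain ⟨C, hC⟩ := CuspFormClass.exists_bound (k := 12) (Γ := 𝒮ℒ) CuspForm.discriminant
  refine ⟨C, fun τ => ?_⟩
  have h := hC τ
  have him : 0 < τ.im := τ.im_pos
  have hpow : τ.im ^ (((12 : ℤ) : ℝ) / 2) = τ.im ^ 6 := by
    have : (((12 : ℤ) : ℝ) / 2) = ((6 : ℕ) : ℝ) := by norm_num
    rw [this, Real.rpow_natCast]
  rw [hpow] at h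
  have h6 : 0 < τ.im ^ 6 := by positivity
  have h' : ‖Δ τ‖ ≤ C / τ.im ^ 6 := h
  rwa [le_div_iff₀ h6] at h'

/-- `‖Δ τ‖ · (im τ)⁶` is `SL₂(ℤ)`-invariant. -/
theorem discriminant_norm_mul_im_smul (g : SL(2, ℤ)) (τ : ℍ) :
    ‖Δ (g • τ)‖ * (g • τ).im ^ 6 = ‖Δ τ‖ * τ.im ^ 6 := by
  rw [Fermat.Agent.S24.H648.discriminant_smul, ModularGroup.im_smul_eq_div_normSq, norm_mul,
    norm_zpow]
  have hd : denom g τ ≠ 0 := denom_ne_zero _ _
  have hn : 0 < Complex.normSq (denom g τ) := Complex.normSq_pos.mpr hd
  have h1 : ‖denom g τ‖ ^ (12 : ℤ) = Complex.normSq (denom g τ) ^ 6 := by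
    rw [Complex.normSq_eq_norm_sq, ← pow_mul]
    norm_cast
  rw [h1, div_pow]
  field_simp

/-- `1/Δ` has at most exponential growth on `im τ ≥ 1`. -/
theorem exists_inv_discriminant_bound :
    ∃ C : ℝ, ∀ τ : ℍ, 1 ≤ τ.im → ‖(Δ τ)⁻¹‖ ≤ C * Real.exp (2 * π * τ.im) := by
  have hcont : Continuous (fun τ : ℍ => (Δ τ)⁻¹) :=
    continuous_discriminant.inv₀ fun τ => ModularForm.discriminant_ne_zero τ
  have hinv : (fun τ : ℍ => (Δ τ)⁻¹)
      =O[atImInfty] fun τ : ℍ => Real.exp (2 * π * (1 : ℝ) * τ.im) := by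
    have hΔ := ModularForm.exp_isBigO_discriminant
    have h1 : (fun τ : ℍ => (Δ τ)⁻¹)
        =O[atImInfty] fun τ : ℍ => (Real.exp (-2 * π * τ.im))⁻¹ := by
      refine hΔ.inv_rev ?_
      exact Eventually.of_forall fun τ h => absurd h (Real.exp_pos _).ne'
    refine h1.congr_right fun τ => ?_
    rw [← Real.exp_neg]
    congr 1
    ring
  obtain ⟨C, hC⟩ := Fermat.Agent.S24.H648.exists_bound_fd_of_isBigO_exp hcont 1 hinv
  refine ⟨C, fun τ hτ => ?_⟩
  -- translate into the fundamental domain
  set n : ℤ := -round τ.re with hn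
  set τ' : ℍ := ModularGroup.T ^ n • τ with hτ'
  have hcoe : (τ' : ℂ) = τ + n := ModularGroup.coe_T_zpow_smul_eq τ
  have him : τ'.im = τ.im := by
    have := congrArg Complex.im hcoe
    simpa using this
  have hre : τ'.re = τ.re - round τ.re := by
    have := congrArg Complex.re hcoe
    simp only [Complex.add_re, Complex.intCast_re, hn] at this
    rw [UpperHalfPlane.coe_re, UpperHalfPlane.coe_re] at this
    rw [this]
    push_cast
    ring
  have hfd : τ' ∈ 𝒟 := by
    refine ⟨?_, ?_⟩
    · rw [Complex.normSq_apply]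
      have h1 : (τ' : ℂ).im = τ.im := by rw [UpperHalfPlane.coe_im, him]
      rw [h1]
      nlinarith [mul_self_nonneg (τ' : ℂ).re]
    · rw [hre]
      exact abs_sub_round _
  have hΔ : Δ τ' = Δ τ := by
    rw [hτ', Fermat.Agent.S28.H565.discriminant_smul, ModularGroup.coe_T_zpow]
    simp
  have h := hC τ' hfd
  rw [hΔ, him] at h
  simpa using h

/-- Pure real-number bookkeeping for `expGrowth_unitFun_smul`. -/
theorem unit_real_aux (P X Y D a b C₁ C₂ E : ℝ) (hP : 0 < P) (ha : 0 < a)
    (hb : 1 ≤ b) (hD : 0 < D) (hY : 0 < Y) (hC₁ : 0 ≤ C₁)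
    (hX : X * (P * a) ^ 6 ≤ C₁) (hinv : Y * a ^ 6 = D * b ^ 6) (h2 : D⁻¹ ≤ C₂ * E) :
    P ^ 12 * X * Y⁻¹ ≤ P ^ 6 * C₁ * C₂ * E := by
  have hb0 : 0 < b := lt_of_lt_of_le one_pos hb
  have ha6 : 0 < a ^ 6 := pow_pos ha 6
  have hb6 : 1 ≤ b ^ 6 := one_le_pow₀ hb
  have hP6 : 0 < P ^ 6 := pow_pos hP 6
  have hYinv : Y⁻¹ = a ^ 6 * D⁻¹ * (b ^ 6)⁻¹ := by
    have hY' : Y = D * b ^ 6 / a ^ 6 := by
      rw [eq_div_iff ha6.ne']; exact hinv
    rw [hY', inv_div, div_eq_mul_inv, mul_inv, mul_assoc]
  have hbinv : (b ^ 6)⁻¹ ≤ 1 := inv_le_one_of_one_le₀ hb6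
  have hDinv : 0 < D⁻¹ := inv_pos.mpr hD
  have h3 : P ^ 12 * X * Y⁻¹ = P ^ 6 * (X * (P * a) ^ 6) * D⁻¹ * (b ^ 6)⁻¹ := by
    rw [hYinv]; ring
  rw [h3]
  have h4 : P ^ 6 * (X * (P * a) ^ 6) ≤ P ^ 6 * C₁ := mul_le_mul_of_nonneg_left hX hP6.le
  have h5 : P ^ 6 * (X * (P * a) ^ 6) * D⁻¹ ≤ P ^ 6 * C₁ * D⁻¹ :=
    mul_le_mul_of_nonneg_right h4 hDinv.le
  have h6 : 0 ≤ P ^ 6 * C₁ * D⁻¹ := by positivity
  have h7 : P ^ 6 * (X * (P * a) ^ 6) * D⁻¹ * (b ^ 6)⁻¹ ≤ P ^ 6 * C₁ * D⁻¹ := by
    have h8 : P ^ 6 * (X * (P * a) ^ 6) * D⁻¹ * (b ^ 6)⁻¹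
        ≤ P ^ 6 * C₁ * D⁻¹ * (b ^ 6)⁻¹ :=
      mul_le_mul_of_nonneg_right h5 (inv_nonneg.mpr (by positivity))
    exact h8.trans (mul_le_of_le_one_right h6 hbinv)
  refine h7.trans ?_
  have h9 : P ^ 6 * C₁ * D⁻¹ ≤ P ^ 6 * C₁ * (C₂ * E) :=
    mul_le_mul_of_nonneg_left h2 (by positivity)
  refine h9.trans (le_of_eq ?_)
  ring

theorem im_scaleH (p : ℕ) (hp : 0 < p) (τ : ℍ) : (scaleH p hp τ).im = p * τ.im := by
  have h : ((scaleH p hp τ : ℍ) : ℂ).im = ((p : ℂ) * (τ : ℂ)).im := rfl
  rw [UpperHalfPlane.coe_im] at h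
  rw [h]
  simp

/-- Growth of all translates of the unit. -/
theorem expGrowth_unitFun_smul (p : ℕ) (hp : 0 < p) (g : SL(2, ℤ)) :
    ExpGrowth (fun τ => unitFun p hp (g • τ)) := by
  obtain ⟨C₁, hC₁⟩ := exists_discriminant_bound
  obtain ⟨C₂, hC₂⟩ := exists_inv_discriminant_bound
  have hC₁0 : 0 ≤ C₁ := le_trans (by positivity) (hC₁ UpperHalfPlane.I)
  refine ⟨(p : ℝ) ^ 6 * C₁ * C₂, 1, fun τ hτ => ?_⟩
  have hX := hC₁ (scaleH p hp (g • τ))
  rw [im_scaleH] at hX
  have h2 := hC₂ τ hτ
  rw [norm_inv] at h2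
  have key := unit_real_aux (p : ℝ) ‖Δ (scaleH p hp (g • τ))‖ ‖Δ (g • τ)‖ ‖Δ τ‖ (g • τ).im τ.im
    C₁ C₂ (Real.exp (2 * π * τ.im)) (by exact_mod_cast hp) (g • τ).im_pos hτ
    (norm_pos_iff.mpr (ModularForm.discriminant_ne_zero τ))
    (norm_pos_iff.mpr (ModularForm.discriminant_ne_zero _)) hC₁0 hX
    (discriminant_norm_mul_im_smul g τ) h2
  show ‖unitFun p hp (g • τ)‖ ≤ _
  rw [unitFun, norm_mul, norm_mul, norm_pow, norm_inv, Complex.norm_natCast]
  refine key.trans (le_of_eq ?_)
  push_cast
  ring_nf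

end Fermat.Agent.S28.H589

end

end
-- ===== PACK-END S28/H589/UnitAnalytic.lean

-- ===== PACK-BEGIN S37/H160/SepFF.lean
section







/-!
# Separable port (helper160) of `Lib/FF398/Local.lean` (helper398): relative theory of places

For a place `v` of `F` and a finite extension `F'/F` (characteristic zero) we use the integral
closure `S` of `O_v` in `F'` (a semi-local Dedekind domain) as a dictionary:
places of `F'` over `v`  ↔  height-one primes of `S`.

Main results of this file (helper398):
* `placeOf v q` : the place of `F'` attached to a height one prime `q` of `S`;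
* `restrict_placeOf`, `exists_placeOf_eq`, `placeOf_injective` : the dictionary;
* `ord_placeOf` : `ord` of `placeOf v q` is the `q`-adic valuation.
-/

set_option autoImplicit false
set_option linter.unusedSectionVars false

open AlgebraicCurve IsDedekindDomain

namespace Fermat.Agent.S37.H160.SepFF

section Max

variable {K F : Type*} [Field K] [Field F] [Algebra K F]

/-- Discrete valuation rings are maximal subrings: comparable places are equal. -/
theorem place_eq_of_le {v w : Place K F} (h : v.toValuationSubring ≤ w.toValuationSubring) :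
    v = w :=
  Place.ext (ValuationSubring.eq_of_le_of_ne_top _ h w.ne_top')

end Max

section Local

variable {K F F' : Type*} [Field K] [Field F] [Field F'] [Algebra K F] [Algebra K F']
  [Algebra F F'] [IsScalarTower K F F'] [FiniteDimensional F F'] [Algebra.IsSeparable F F']
variable (v : Place K F)

variable (F') in
/-- The integral closure of `O_v` in `F'`. -/
abbrev intCl : Subalgebra v.toValuationSubring F' := integralClosure v.toValuationSubring F'

omit [Algebra K F'] [IsScalarTower K F F'] [FiniteDimensional F F'] [Algebra.IsSeparable F F'] in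
theorem algebraMap_OF'_injective :
    Function.Injective (algebraMap v.toValuationSubring F') := by
  intro a b h
  apply Subtype.ext
  exact (algebraMap F F').injective h

instance (priority := 2000) instFaithfulOF' : FaithfulSMul v.toValuationSubring F' :=
  (faithfulSMul_iff_algebraMap_injective _ _).mpr (algebraMap_OF'_injective v)

instance (priority := 2000) instTorsionFreeOF' :
    Module.IsTorsionFree v.toValuationSubring F' :=
  FaithfulSMul.to_isTorsionFree _ _

instance (priority := 2000) instTorsionFreeIntCl :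
    Module.IsTorsionFree v.toValuationSubring (intCl F' v) :=
  Subalgebra.instIsTorsionFree (intCl F' v)

instance instTowerKOF' : IsScalarTower K v.toValuationSubring F' :=
  IsScalarTower.of_algebraMap_eq fun a => by
    show algebraMap K F' a = algebraMap F F' (algebraMap K F a)
    rw [← IsScalarTower.algebraMap_apply]

instance instDedekindIntCl : IsDedekindDomain (intCl F' v) :=
  integralClosure.isDedekindDomain v.toValuationSubring F F'

instance instFracIntCl : IsFractionRing (intCl F' v) F' :=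
  IsIntegralClosure.isFractionRing_of_finite_extension v.toValuationSubring F F' (intCl F' v)

instance instFiniteIntCl : Module.Finite v.toValuationSubring (intCl F' v) :=
  IsIntegralClosure.finite v.toValuationSubring F F' (intCl F' v)

instance instFreeIntCl : Module.Free v.toValuationSubring (intCl F' v) :=
  Module.free_of_finite_type_torsion_free'

/-- The place of `F'` attached to a height-one prime of the integral closure of `O_v`. -/
noncomputable def placeOf (q : HeightOneSpectrum (intCl F' v)) : Place K F' :=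
  Place.ofHeightOneSpectrum (K := K) q

theorem placeOf_toValuationSubring (q : HeightOneSpectrum (intCl F' v)) :
    (placeOf v q).toValuationSubring = (q.valuation F').valuationSubring := rfl

theorem mem_placeOf_iff (q : HeightOneSpectrum (intCl F' v)) (g : F') :
    g ∈ (placeOf v q).toValuationSubring ↔ q.valuation F' g ≤ 1 := Iff.rfl

/-- `placeOf v q` lies over `v`. -/
theorem restrict_placeOf (q : HeightOneSpectrum (intCl F' v)) :
    (placeOf v q).restrict F = v := by
  symm
  apply place_eq_of_le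
  intro a ha
  rw [Place.restrict_toValuationSubring, ValuationSubring.mem_comap, mem_placeOf_iff]
  have : algebraMap F F' a = algebraMap (intCl F' v) F'
      (algebraMap v.toValuationSubring (intCl F' v) ⟨a, ha⟩) := rfl
  rw [this]
  exact q.valuation_le_one _

/-- The order function of `placeOf v q` is the `q`-adic valuation. -/
theorem ord_placeOf (q : HeightOneSpectrum (intCl F' v)) (g : F') :
    (placeOf v q).ord g = -(WithZero.log (q.valuation F' g)) := by
  rcases eq_or_ne g 0 with rfl | hg
  · simp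
  symm
  obtain ⟨π, hπ⟩ := q.valuation_exists_uniformizer F'
  have hπ0 : π ≠ 0 := by
    rintro rfl
    rw [map_zero] at hπ
    exact WithZero.exp_ne_zero hπ.symm
  refine Fermat.Agent.S24.FF.ordLike_eq_ord (fun g => -(WithZero.log (q.valuation F' g)))
    (fun f g hf hg => ?_) (placeOf v q) (fun f hf => ?_) hπ0 ?_ hg
  · rw [map_mul, WithZero.log_mul ((Valuation.ne_zero_iff _).mpr hf)
      ((Valuation.ne_zero_iff _).mpr hg)]
    ring
  · rw [mem_placeOf_iff, neg_nonneg,
      WithZero.log_le_iff_le_exp ((Valuation.ne_zero_iff _).mpr hf)]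
    rfl
  · rw [hπ, WithZero.log_exp]
    ring

/-- Membership in a height-one prime, read off from the valuation subring. -/
theorem mem_asIdeal_iff (q : HeightOneSpectrum (intCl F' v)) (s : intCl F' v) :
    s ∈ q.asIdeal ↔ s = 0 ∨ ((s : F'))⁻¹ ∉ (placeOf v q).toValuationSubring := by
  rw [mem_placeOf_iff, ← q.valuation_lt_one_iff_mem (K := F')]
  show q.valuation F' (s : F') < 1 ↔ s = 0 ∨ ¬ q.valuation F' ((s : F'))⁻¹ ≤ 1
  rcases eq_or_ne s 0 with rfl | hs
  · simp
  have hs' : (s : F') ≠ 0 := fun h => hs (Subtype.ext h)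
  have hv0 : q.valuation F' (s : F') ≠ 0 := (Valuation.ne_zero_iff _).mpr hs'
  rw [map_inv₀, not_le, one_lt_inv₀ (zero_lt_iff.mpr hv0)]
  simp [hs]

theorem placeOf_injective : Function.Injective (placeOf (F' := F') v) := by
  intro q q' h
  apply HeightOneSpectrum.ext
  ext s
  rw [mem_asIdeal_iff, mem_asIdeal_iff, h]

/-- The integral closure of `O_{w|F}` is contained in `O_w`. -/
theorem coe_intCl_mem (w : Place K F') (s : intCl F' (w.restrict F)) :
    (s : F') ∈ w.toValuationSubring := by
  obtain ⟨p, hp, hps⟩ := s.2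
  have hint : IsIntegral w.toValuationSubring (s : F') := by
    refine ⟨p.map (Place.restrictInclusion F w), hp.map _, ?_⟩
    rw [Polynomial.eval₂_map]
    exact hps
  obtain ⟨y, hy⟩ := IsIntegrallyClosed.isIntegral_iff.mp hint
  rw [← hy]
  exact y.2

/-- The inclusion of the integral closure of `O_{w|F}` into `O_w`. -/
def intClInclusion (w : Place K F') : intCl F' (w.restrict F) →+* w.toValuationSubring where
  toFun s := ⟨(s : F'), coe_intCl_mem w s⟩
  map_one' := rfl
  map_mul' _ _ := rfl
  map_zero' := rfl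
  map_add' _ _ := rfl

@[simp]
theorem coe_intClInclusion (w : Place K F') (s : intCl F' (w.restrict F)) :
    ((intClInclusion w s : w.toValuationSubring) : F') = (s : F') := rfl

/-- The centre of `w` on the integral closure of `O_{w|F}`. -/
def centre (w : Place K F') : Ideal (intCl F' (w.restrict F)) :=
  Ideal.comap (intClInclusion w) (IsLocalRing.maximalIdeal w.toValuationSubring)

instance centre_isPrime (w : Place K F') : (centre (F := F) w).IsPrime :=
  Ideal.comap_isPrime _ _

theorem centre_ne_bot (w : Place K F') : centre (F := F) w ≠ ⊥ := by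
  obtain ⟨π, hπ⟩ := IsDiscreteValuationRing.exists_irreducible (w.restrict F).toValuationSubring
  intro h
  have hmem : algebraMap (w.restrict F).toValuationSubring (intCl F' (w.restrict F)) π
      ∈ centre (F := F) w := by
    rw [centre, Ideal.mem_comap, IsLocalRing.mem_maximalIdeal, mem_nonunits_iff]
    intro hu
    have hu' : IsUnit (Place.restrictInclusion F w π) := hu
    exact hπ.not_isUnit (isUnit_of_map_unit (Place.restrictInclusion F w) π hu')
  rw [h, Ideal.mem_bot] at hmem
  have hinj : Function.Injective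
      (algebraMap (w.restrict F).toValuationSubring (intCl F' (w.restrict F))) :=
    FaithfulSMul.algebraMap_injective _ _
  exact hπ.ne_zero (hinj (by rw [hmem, map_zero]))

/-- The centre of `w` as a height-one prime. -/
def centrePrime (w : Place K F') : HeightOneSpectrum (intCl F' (w.restrict F)) :=
  ⟨centre w, centre_isPrime w, centre_ne_bot w⟩

theorem placeOf_centrePrime (w : Place K F') : placeOf (w.restrict F) (centrePrime w) = w := by
  apply place_eq_of_le
  intro g hg
  rw [mem_placeOf_iff] at hg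
  obtain ⟨n, d, hnd⟩ := (centrePrime w).exists_primeCompl_mul_eq_of_integer g hg
  have hd : (d : intCl F' (w.restrict F)) ∉ centre (F := F) w := d.2
  rw [centre, Ideal.mem_comap, IsLocalRing.mem_maximalIdeal, mem_nonunits_iff, not_not] at hd
  obtain ⟨b, hb⟩ := isUnit_iff_exists_inv.mp hd
  have hb' : ((d : intCl F' (w.restrict F)) : F') * (b : F') = 1 := congrArg Subtype.val hb
  have hd0 : ((d : intCl F' (w.restrict F)) : F') ≠ 0 := left_ne_zero_of_mul_eq_one hb'
  have hg' : g = ((n : F')) * (b : F') := by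
    have h1 : g * ((d : intCl F' (w.restrict F)) : F') = (n : F') := hnd
    calc g = g * (((d : intCl F' (w.restrict F)) : F') * (b : F')) := by rw [hb', mul_one]
      _ = (n : F') * (b : F') := by rw [← mul_assoc, h1]
  rw [hg']
  exact mul_mem (coe_intCl_mem w n) b.2

/-- Every place of `F'` over `v` comes from a height-one prime of the integral closure. -/
theorem exists_placeOf_eq (w : Place K F') (hw : w.restrict F = v) :
    ∃ q : HeightOneSpectrum (intCl F' v), placeOf v q = w := by
  subst hw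
  exact ⟨centrePrime w, placeOf_centrePrime w⟩

theorem range_placeOf : Set.range (placeOf (F' := F') v) = {w : Place K F' | w.restrict F = v} := by
  ext w
  constructor
  · rintro ⟨q, rfl⟩
    exact restrict_placeOf v q
  · intro hw
    exact exists_placeOf_eq v w hw

/-! ### Primes over the maximal ideal of `O_v` -/

/-- The maximal ideal of `O_v`. -/
abbrev pv : Ideal v.toValuationSubring := IsLocalRing.maximalIdeal v.toValuationSubring

theorem pv_ne_bot : pv v ≠ ⊥ := IsDiscreteValuationRing.not_a_field _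

theorem algebraMap_O_intCl_injective :
    Function.Injective (algebraMap v.toValuationSubring (intCl F' v)) :=
  FaithfulSMul.algebraMap_injective _ _

theorem map_pv_ne_bot : (pv v).map (algebraMap v.toValuationSubring (intCl F' v)) ≠ ⊥ := by
  rw [Ne, Ideal.map_eq_bot_iff_of_injective (algebraMap_O_intCl_injective v)]
  exact pv_ne_bot v

instance liesOver_pv (q : HeightOneSpectrum (intCl F' v)) : q.asIdeal.LiesOver (pv v) := by
  constructor
  have hprime : (q.asIdeal.under v.toValuationSubring).IsPrime := Ideal.IsPrime.under _ _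
  have hne : q.asIdeal.under v.toValuationSubring ≠ ⊥ :=
    Ideal.under_ne_bot v.toValuationSubring q.ne_bot
  have hmax : (q.asIdeal.under v.toValuationSubring).IsMaximal := hprime.isMaximal hne
  exact (IsLocalRing.eq_maximalIdeal hmax).symm

instance isMaximal_asIdeal (q : HeightOneSpectrum (intCl F' v)) : q.asIdeal.IsMaximal :=
  q.isPrime.isMaximal q.ne_bot

/-- The height-one prime attached to a prime over `𝔪_v`. -/
def primeOfOver (q : (pv v).primesOver (intCl F' v)) : HeightOneSpectrum (intCl F' v) :=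
  ⟨q.1, q.2.1, by
    have := q.2.2
    exact Ideal.ne_bot_of_liesOver_of_ne_bot (pv_ne_bot v) q.1⟩

@[simp]
theorem primeOfOver_asIdeal (q : (pv v).primesOver (intCl F' v)) :
    (primeOfOver v q).asIdeal = q.1 := rfl

theorem primeOfOver_injective : Function.Injective (primeOfOver (F' := F') v) := by
  intro q q' h
  apply Subtype.ext
  exact congrArg HeightOneSpectrum.asIdeal h

theorem primeOfOver_surjective : Function.Surjective (primeOfOver (F' := F') v) := by
  intro q
  exact ⟨⟨q.asIdeal, q.isPrime, liesOver_pv v q⟩, rfl⟩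

instance finite_primesOver : Finite ((pv v).primesOver (intCl F' v)) :=
  (Algebra.QuasiFinite.finite_primesOver (pv v)).to_subtype

instance finite_heightOneSpectrum : Finite (HeightOneSpectrum (intCl F' v)) :=
  Finite.of_surjective _ (primeOfOver_surjective v)

/-- The fibre over `v` is finite (no `HasPrincipalDivisors` needed). -/
theorem finite_fibre : {w : Place K F' | w.restrict F = v}.Finite := by
  rw [← range_placeOf]
  exact Set.finite_range _

/-! ### Ramification index and residue degree -/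

theorem mem_asIdeal_iff_ord (q : HeightOneSpectrum (intCl F' v)) (s : intCl F' v) :
    s ∈ q.asIdeal ↔ s = 0 ∨ 0 < (placeOf v q).ord (s : F') := by
  rcases eq_or_ne s 0 with rfl | hs
  · simp
  have hs' : (s : F') ≠ 0 := fun h => hs (Subtype.ext h)
  have hv0 : q.valuation F' (s : F') ≠ 0 := (Valuation.ne_zero_iff _).mpr hs'
  rw [ord_placeOf, neg_pos, WithZero.log_lt_iff_lt_exp hv0, ← q.valuation_lt_one_iff_mem (K := F')]
  simp only [hs, false_or]
  rfl

theorem ord_placeOf_coe_nonneg (q : HeightOneSpectrum (intCl F' v)) (s : intCl F' v) :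
    0 ≤ (placeOf v q).ord (s : F') :=
  (Fermat.Agent.S24.FF.mem_iff_ord_nonneg _).mp
    ((mem_placeOf_iff v q _).mpr (q.valuation_le_one s))

/-- The ramification index of `placeOf v q` (in the sense of the Prelude) is Mathlib's
ramification index of `q` over `O_v`. -/
theorem ramificationIndex_placeOf (q : HeightOneSpectrum (intCl F' v)) :
    ((placeOf v q).ramificationIndex F : ℤ)
      = (q.asIdeal.ramificationIdx v.toValuationSubring : ℤ) := by
  obtain ⟨π, hπ, hπ1⟩ := Fermat.Agent.S24.FF.exists_irreducible_coe v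
  have h1 := (placeOf v q).ord_restrict (F := F) (π : F)
  rw [restrict_placeOf, hπ1, mul_one] at h1
  rw [← h1, ord_placeOf]
  have hπS : algebraMap v.toValuationSubring (intCl F' v) π ≠ 0 := fun h =>
    hπ.ne_zero (algebraMap_O_intCl_injective v (by rw [h, map_zero]))
  have h2 : q.valuation F' (algebraMap F F' (π : F))
      = q.intValuation (algebraMap v.toValuationSubring (intCl F' v) π) :=
    q.valuation_of_algebraMap (algebraMap v.toValuationSubring (intCl F' v) π)
  rw [h2, q.intValuation_eq_exp_neg_multiplicity hπS, WithZero.log_exp, neg_neg,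
    Ideal.IsDedekindDomain.ramificationIdx_eq_multiplicity (pv v) q.asIdeal (map_pv_ne_bot v)]
  have h3 : (pv v).map (algebraMap v.toValuationSubring (intCl F' v))
      = Ideal.span {algebraMap v.toValuationSubring (intCl F' v) π} := by
    rw [pv, hπ.maximalIdeal_eq, Ideal.map_span, Set.image_singleton]
  rw [h3]

/-- If all places of `F'` have degree one, residue degrees over `O_v` are one. -/
theorem inertiaDeg_intCl_eq_one (hdeg' : ∀ w : Place K F', w.deg = 1)
    (q : HeightOneSpectrum (intCl F' v)) :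
    q.asIdeal.inertiaDeg v.toValuationSubring = 1 := by
  refine Fermat.Agent.S24.FF.inertiaDeg_eq_one_of_forall_exists (pv v) q.asIdeal fun s => ?_
  obtain ⟨c, hc⟩ := Fermat.Agent.Lib.RR.exists_const_sub (placeOf v q) (hdeg' _)
    (ord_placeOf_coe_nonneg v q s)
  refine ⟨algebraMap K v.toValuationSubring c, ?_⟩
  rw [mem_asIdeal_iff_ord]
  have hcoe : ((s - algebraMap v.toValuationSubring (intCl F' v)
      (algebraMap K v.toValuationSubring c) : intCl F' v) : F') = (s : F') - algebraMap K F' c := by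
    rw [IsScalarTower.algebraMap_apply K F F']
    rfl
  rcases hc with hc | hc
  · left
    apply Subtype.ext
    rw [hcoe]
    exact hc
  · right
    rw [hcoe]
    exact hc

omit [Algebra.IsSeparable F F'] [FiniteDimensional F F'] in
/-- If all places of `F'` have degree one, the Prelude's residue degrees are one. -/
theorem inertiaDeg_eq_one [Algebra.IsIntegral F F'] (hdeg' : ∀ w : Place K F', w.deg = 1)
    (w : Place K F') : w.inertiaDeg F = 1 := by
  have h := w.deg_restrict_mul_inertiaDeg (F := F)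
  rw [hdeg' w] at h
  exact (mul_eq_one.mp h).2

omit [Algebra.IsSeparable F F'] [FiniteDimensional F F'] in
theorem deg_restrict_eq_one [Algebra.IsIntegral F F'] (hdeg' : ∀ w : Place K F', w.deg = 1)
    (w : Place K F') : (w.restrict F).deg = 1 := by
  have h := w.deg_restrict_mul_inertiaDeg (F := F)
  rw [hdeg' w] at h
  exact (mul_eq_one.mp h).1

/-- **Local fundamental identity** `∑_{w | v} e(w|v) = [F' : F]`. -/
theorem sum_ramificationIndex (hdeg' : ∀ w : Place K F', w.deg = 1)
    (s : Finset (Place K F')) (hs : ∀ w, w ∈ s ↔ w.restrict F = v) :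
    ∑ w ∈ s, (w.ramificationIndex F : ℤ) = (Module.finrank F F' : ℤ) := by
  let _ : Fintype ((pv v).primesOver (intCl F' v)) := Fintype.ofFinite _
  have h := Ideal.sum_ramification_inertia_eq_finrank (pv v) (intCl F' v)
  rw [IsFractionRing.finrank_eq v.toValuationSubring F (intCl F' v) F', ← h]
  push_cast
  symm
  refine Finset.sum_bij (fun q _ => placeOf v (primeOfOver v q)) ?_ ?_ ?_ ?_
  · intro q _
    exact (hs _).mpr (restrict_placeOf v _)
  · intro q _ q' _ h
    exact primeOfOver_injective v (placeOf_injective v h)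
  · intro w hw
    obtain ⟨q, hq⟩ := exists_placeOf_eq v w ((hs w).mp hw)
    obtain ⟨q', rfl⟩ := primeOfOver_surjective v q
    exact ⟨q', Finset.mem_univ _, hq⟩
  · intro q _
    have h1 := inertiaDeg_intCl_eq_one v hdeg' (primeOfOver v q)
    rw [primeOfOver_asIdeal] at h1
    rw [ramificationIndex_placeOf, primeOfOver_asIdeal, h1]
    simp

/-! ### Norm formula -/

open UniqueFactorizationMonoid

theorem ord_coe_eq_multiplicity (a : v.toValuationSubring) (ha : a ≠ 0) :
    v.ord (a : F) = (multiplicity (pv v) (Ideal.span {a}) : ℤ) := by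
  rw [Place.ord, v.adicValuation_coe, v.heightOneSpectrum.intValuation_eq_exp_neg_multiplicity ha,
    WithZero.log_exp, neg_neg]
  rfl

theorem ord_placeOf_coe_eq_multiplicity (q : HeightOneSpectrum (intCl F' v)) (x : intCl F' v)
    (hx : x ≠ 0) :
    (placeOf v q).ord (x : F') = (multiplicity q.asIdeal (Ideal.span {x}) : ℤ) := by
  rw [ord_placeOf]
  have h2 : q.valuation F' (x : F') = q.intValuation x := q.valuation_of_algebraMap x
  rw [h2, q.intValuation_eq_exp_neg_multiplicity hx, WithZero.log_exp, neg_neg]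

theorem multiplicity_eq_count (q : HeightOneSpectrum (intCl F' v)) (I : Ideal (intCl F' v))
    (hI : I ≠ ⊥) :
    multiplicity q.asIdeal I = (normalizedFactors I).count q.asIdeal := by
  have hq : Prime q.asIdeal := Ideal.prime_of_isPrime q.ne_bot q.isPrime
  rw [multiplicity_eq_of_emultiplicity_eq_some
    (emultiplicity_eq_count_normalizedFactors hq.irreducible hI), normalize_eq]

theorem sum_count_eq_card [Fintype (HeightOneSpectrum (intCl F' v))] (I : Ideal (intCl F' v))
    (hI : I ≠ ⊥) :
    ∑ q : HeightOneSpectrum (intCl F' v), (normalizedFactors I).count q.asIdeal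
      = Multiset.card (normalizedFactors I) := by
  classical
  rw [← Multiset.toFinset_sum_count_eq]
  have hinj : Function.Injective
      (fun q : HeightOneSpectrum (intCl F' v) => q.asIdeal) := fun q q' h =>
    HeightOneSpectrum.ext h
  rw [← Finset.sum_image (s := Finset.univ)
    (f := fun P : Ideal (intCl F' v) => (normalizedFactors I).count P)
    (g := fun q : HeightOneSpectrum (intCl F' v) => q.asIdeal) (fun q _ q' _ h => hinj h)]
  symm
  refine Finset.sum_subset ?_ ?_
  · intro P hP
    rw [Multiset.mem_toFinset, Ideal.mem_normalizedFactors_iff hI] at hP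
    have hPne : P ≠ ⊥ := fun h => hI (le_bot_iff.mp (h ▸ hP.2))
    exact Finset.mem_image.mpr ⟨⟨P, hP.1, hPne⟩, Finset.mem_univ _, rfl⟩
  · intro P _ hP
    rw [Multiset.mem_toFinset] at hP
    exact Multiset.count_eq_zero_of_notMem hP

/-- Replacement (helper160) for Mathlib's `Ideal.relNorm_eq_pow_of_isMaximal`, which needs a
perfect fraction field: when all residue degrees are one, `N(q) = p` follows by counting
(`N(q) = p ^ s_q` with `s_q ≥ 1`, `∑ e_q s_q = n = ∑ e_q`). -/
theorem relNorm_asIdeal_eq (hdeg' : ∀ w : Place K F', w.deg = 1)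
    (q₀ : HeightOneSpectrum (intCl F' v)) :
    Ideal.relNorm v.toValuationSubring q₀.asIdeal = pv v := by
  classical
  let _ : Fintype ((pv v).primesOver (intCl F' v)) := Fintype.ofFinite _
  have hptop : pv v ≠ ⊤ := (IsLocalRing.maximalIdeal.isMaximal _).ne_top
  have hs : ∀ Q : (pv v).primesOver (intCl F' v), ∃ s : ℕ, 1 ≤ s ∧
      Ideal.relNorm v.toValuationSubring Q.1 = pv v ^ s := by
    intro Q
    have : Q.1.IsPrime := Q.2.1
    have : Q.1.LiesOver (pv v) := Q.2.2
    obtain ⟨s, hs⟩ := Ideal.exists_relNorm_eq_pow_of_isPrime Q.1 (pv v)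
    refine ⟨s, ?_, hs⟩
    by_contra h
    have h0 : s = 0 := by omega
    rw [h0, pow_zero, Ideal.one_eq_top] at hs
    have hle := Ideal.relNorm_le_comap v.toValuationSubring Q.1
    rw [hs, top_le_iff] at hle
    have hover : Q.1.comap (algebraMap v.toValuationSubring (intCl F' v)) = pv v :=
      (Ideal.LiesOver.over (P := Q.1) (p := pv v)).symm
    exact hptop (hover ▸ hle)
  choose s hs1 hs2 using hs
  have hmap := Ideal.map_algebraMap_eq_finsetProd_pow (R := intCl F' v)
    (p := pv v) (pv_ne_bot v)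
  have hN := Ideal.relNorm_algebraMap (intCl F' v) (pv v)
  rw [hmap, map_prod] at hN
  have hN' : ∏ Q : (pv v).primesOver (intCl F' v),
      (pv v) ^ (s Q * Q.1.ramificationIdx v.toValuationSubring)
      = pv v ^ Module.finrank v.toValuationSubring (intCl F' v) := by
    rw [← hN, ← Finset.prod_set_coe]
    refine Finset.prod_congr (by ext; simp) fun Q _ => ?_
    rw [map_pow, hs2 Q, ← pow_mul]
  rw [Finset.prod_pow_eq_pow_sum] at hN'
  have hinj : Function.Injective (fun n : ℕ => pv v ^ n) := by
    have hprime : Prime (pv v) :=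
      Ideal.prime_of_isPrime (pv_ne_bot v) (IsLocalRing.maximalIdeal.isMaximal _).isPrime
    exact pow_injective_of_not_isUnit hprime.not_isUnit (pv_ne_bot v)
  have hsum1 := hinj hN'
  have hsum2 := Ideal.sum_ramification_inertia_eq_finrank (pv v) (intCl F' v)
  have hf : ∀ Q : (pv v).primesOver (intCl F' v), Q.1.inertiaDeg v.toValuationSubring = 1 := by
    intro Q
    have := inertiaDeg_intCl_eq_one v hdeg' (primeOfOver v Q)
    rwa [primeOfOver_asIdeal] at this
  simp only [hf, mul_one] at hsum2
  have he : ∀ Q : (pv v).primesOver (intCl F' v),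
      Q.1.ramificationIdx v.toValuationSubring ≠ 0 := by
    intro Q
    have : Q.1.IsPrime := Q.2.1
    exact (Ideal.ramificationIdx_pos (R := v.toValuationSubring) Q.1).ne'
  -- all `s Q = 1`
  have hall : ∀ Q : (pv v).primesOver (intCl F' v), s Q = 1 := by
    by_contra hne
    push Not at hne
    obtain ⟨Q₁, hQ₁⟩ := hne
    have hlt : ∑ Q : (pv v).primesOver (intCl F' v), Q.1.ramificationIdx v.toValuationSubring
        < ∑ Q : (pv v).primesOver (intCl F' v),
          s Q * Q.1.ramificationIdx v.toValuationSubring := by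
      refine Finset.sum_lt_sum (fun Q _ => ?_) ⟨Q₁, Finset.mem_univ _, ?_⟩
      · exact Nat.le_mul_of_pos_left _ (hs1 Q)
      · have h2 : 2 ≤ s Q₁ := by have := hs1 Q₁; omega
        have := Nat.pos_of_ne_zero (he Q₁)
        nlinarith
    omega
  obtain ⟨Q, rfl⟩ := primeOfOver_surjective v q₀
  rw [primeOfOver_asIdeal, hs2 Q, hall Q, pow_one]

theorem relNorm_eq_pow (hdeg' : ∀ w : Place K F', w.deg = 1) (I : Ideal (intCl F' v))
    (hI : I ≠ ⊥) :
    Ideal.relNorm v.toValuationSubring I = (pv v) ^ Multiset.card (normalizedFactors I) := by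
  conv_lhs => rw [← Ideal.prod_normalizedFactors_eq_self hI]
  rw [map_multiset_prod]
  have hconst : (normalizedFactors I).map (Ideal.relNorm v.toValuationSubring)
      = (normalizedFactors I).map (fun _ => pv v) := by
    refine Multiset.map_congr rfl fun P hP => ?_
    rw [Ideal.mem_normalizedFactors_iff hI] at hP
    have hPne : P ≠ ⊥ := fun h => hI (le_bot_iff.mp (h ▸ hP.2))
    exact relNorm_asIdeal_eq v hdeg' ⟨P, hP.1, hPne⟩
  rw [hconst, Multiset.map_const', Multiset.prod_replicate]

theorem sum_ord_coe_eq_ord_intNorm [Fintype (HeightOneSpectrum (intCl F' v))]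
    (hdeg' : ∀ w : Place K F', w.deg = 1) (x : intCl F' v) (hx : x ≠ 0) :
    ∑ q : HeightOneSpectrum (intCl F' v), (placeOf v q).ord (x : F')
      = v.ord ((Algebra.intNorm v.toValuationSubring (intCl F' v) x : v.toValuationSubring) : F) := by
  have hI : Ideal.span {x} ≠ (⊥ : Ideal (intCl F' v)) := by
    rw [Ne, Ideal.span_singleton_eq_bot]
    exact hx
  have hN : Algebra.intNorm v.toValuationSubring (intCl F' v) x ≠ 0 :=
    Algebra.intNorm_ne_zero.mpr hx
  rw [ord_coe_eq_multiplicity v _ hN, ← Ideal.relNorm_singleton, relNorm_eq_pow v hdeg' _ hI,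
    multiplicity_pow_self_of_prime
      (Ideal.prime_of_isPrime (pv_ne_bot v) (IsLocalRing.maximalIdeal.isMaximal _).isPrime),
    ← sum_count_eq_card v _ hI]
  push_cast
  refine Finset.sum_congr rfl fun q _ => ?_
  rw [ord_placeOf_coe_eq_multiplicity v q x hx, multiplicity_eq_count v q _ hI]

omit [FiniteDimensional F F'] [Algebra.IsSeparable F F'] [Algebra K F'] [IsScalarTower K F F'] [Algebra F F'] in
theorem ord_div' (u : Place K F) {f g : F} (hf : f ≠ 0) (hg : g ≠ 0) :
    u.ord (f / g) = u.ord f - u.ord g := by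
  rw [div_eq_mul_inv, u.ord_mul hf (inv_ne_zero hg), u.ord_inv]
  ring

theorem sum_ord_eq_ord_norm_of_mem (hdeg' : ∀ w : Place K F', w.deg = 1)
    (s : Finset (Place K F')) (hs : ∀ w, w ∈ s ↔ w.restrict F = v)
    (x : intCl F' v) (hx : x ≠ 0) :
    ∑ w ∈ s, w.ord (x : F') = v.ord (Algebra.norm F (x : F')) := by
  let _ : Fintype (HeightOneSpectrum (intCl F' v)) := Fintype.ofFinite _
  have h1 := sum_ord_coe_eq_ord_intNorm v hdeg' x hx
  have h2 : ((Algebra.intNorm v.toValuationSubring (intCl F' v) x : v.toValuationSubring) : F)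
      = Algebra.norm F (x : F') :=
    Algebra.algebraMap_intNorm (A := v.toValuationSubring) (K := F) (L := F')
      (B := intCl F' v) x
  rw [← h2, ← h1]
  symm
  refine Finset.sum_bij (fun q _ => placeOf v q) ?_ ?_ ?_ ?_
  · intro q _
    exact (hs _).mpr (restrict_placeOf v _)
  · intro q _ q' _ h
    exact placeOf_injective v h
  · intro w hw
    obtain ⟨q, hq⟩ := exists_placeOf_eq v w ((hs w).mp hw)
    exact ⟨q, Finset.mem_univ _, hq⟩
  · intro q _
    rfl

/-- **Local norm formula** `∑_{w | v} ord_w(g) = ord_v(N_{F'/F} g)`. -/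
theorem sum_ord_eq_ord_norm (hdeg' : ∀ w : Place K F', w.deg = 1)
    (s : Finset (Place K F')) (hs : ∀ w, w ∈ s ↔ w.restrict F = v)
    (g : F') (hg : g ≠ 0) :
    ∑ w ∈ s, w.ord g = v.ord (Algebra.norm F g) := by
  obtain ⟨a, b, hb, rfl⟩ := IsFractionRing.div_surjective (A := intCl F' v) g
  have hb0 : b ≠ 0 := nonZeroDivisors.ne_zero hb
  have ha0 : a ≠ 0 := by
    rintro rfl
    simp at hg
  have ha' : (a : F') ≠ 0 := fun h => ha0 (Subtype.ext h)
  have hb' : (b : F') ≠ 0 := fun h => hb0 (Subtype.ext h)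
  have hcoea : algebraMap (intCl F' v) F' a = (a : F') := rfl
  have hcoeb : algebraMap (intCl F' v) F' b = (b : F') := rfl
  have hnorm : Algebra.norm F ((a : F') / (b : F'))
      = Algebra.norm F (a : F') / Algebra.norm F (b : F') := by
    rw [eq_div_iff (Algebra.norm_ne_zero_iff.mpr hb'), ← map_mul, div_mul_cancel₀ _ hb']
  rw [hcoea, hcoeb, hnorm,
    ord_div' v (Algebra.norm_ne_zero_iff.mpr ha') (Algebra.norm_ne_zero_iff.mpr hb'),
    ← sum_ord_eq_ord_norm_of_mem v hdeg' s hs a ha0,
    ← sum_ord_eq_ord_norm_of_mem v hdeg' s hs b hb0, ← Finset.sum_sub_distrib]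
  refine Finset.sum_congr rfl fun w _ => ?_
  exact ord_div' w ha' hb'

end Local

end Fermat.Agent.S37.H160.SepFF

end
-- ===== PACK-END S37/H160/SepFF.lean

-- ===== PACK-BEGIN A2/Alg/H132/ChartFacts.lean
section


/-!
# WALL A2 / ALG — chart facts (helper132)

`B ⊆ F` the chart of `ChartCtx` (integral closure of `R[x]` in `F`), `R` a discrete valuation ring
with uniformiser `w`.

* `dimensionLEOne_of_polynomial_integral` : a domain integral over `R[X]` in which a maximal ideal
  `I` of `R` dies has Krull dimension `≤ 1` (it is integral over `(R ⧸ I)[X]`).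
* `isIntegral_aeval_chart` : the chart is integral over `R[X]` (via `X ↦ x`).
* `dimensionLEOne_chart_quotient` : `B ⧸ p` has dimension `≤ 1` for every prime `p ∋ w`.
* `isDedekindDomain_chart_quotient` : `B ⧸ p` is a Dedekind domain if moreover it is integrally
  closed (the components of an `SSChart`).
* `algebraMap_mem_of_chart_le` : a valuation ring of `F` containing `B` and `w⁻¹` contains `E`.
* `hdiv_of_divisibleDiv` : the hypothesis `hdiv` of `H609.exists_pureAt_node` from `DivisibleDiv`.
-/

set_option autoImplicit false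
set_option linter.unusedSectionVars false
set_option linter.style.haveILetI false

namespace Fermat.Agent.A2.Alg.H132

open Fermat.Agent.A2 Fermat.Agent.A2.Alg
open Polynomial

section Abstract

/-- A domain `D` which is integral over `R[X]` and in which a maximal ideal `I` of `R` dies has
Krull dimension `≤ 1`. -/
theorem dimensionLEOne_of_polynomial_integral {R : Type*} [CommRing R] {D : Type*} [CommRing D]
    [IsDomain D] (I : Ideal R) [hI : I.IsMaximal] (ψ : R[X] →+* D) (hψ : ψ.IsIntegral)
    (hψI : ∀ r ∈ I, ψ (C r) = 0) : Ring.DimensionLEOne D := by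
  letI : Field (R ⧸ I) := Ideal.Quotient.field I
  let φ₁ : (R ⧸ I) →+* D := Ideal.Quotient.lift I (ψ.comp C) (fun r hr => hψI r hr)
  let g : (R ⧸ I)[X] →+* D := eval₂RingHom φ₁ (ψ X)
  have hcomp : g.comp (mapRingHom (Ideal.Quotient.mk I)) = ψ := by
    refine Polynomial.ringHom_ext (fun r => ?_) ?_
    · simp [g, φ₁]
    · simp [g]
  have hg : g.IsIntegral := by
    refine RingHom.IsIntegral.tower_top (mapRingHom (Ideal.Quotient.mk I)) g ?_
    rw [hcomp]
    exact hψ
  letI : Algebra (R ⧸ I)[X] D := g.toAlgebra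
  haveI : Algebra.IsIntegral (R ⧸ I)[X] D := ⟨fun d => hg d⟩
  exact Ring.DimensionLEOne.of_isIntegral (R ⧸ I)[X] D

end Abstract

section Chart

variable {R F : Type*} [CommRing R] [Field F] [Algebra R F]

/-- The chart is integral over `R[X]`. -/
theorem isIntegral_aeval_chart (x : F) (B : Subalgebra R F)
    (hB : ∀ f : F, f ∈ B ↔ IsIntegral (Algebra.adjoin R ({x} : Set F)) f) (hx : x ∈ B) :
    ((aeval (⟨x, hx⟩ : B) : R[X] →ₐ[R] B) : R[X] →+* B).IsIntegral := by
  intro b
  have hb : IsIntegral (Algebra.adjoin R ({x} : Set F)) (b : F) := (hB b).1 b.2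
  obtain ⟨P, hP, hPb⟩ := hb
  -- the surjection `R[X] → R[x]`
  let xA : Algebra.adjoin R ({x} : Set F) := ⟨x, Algebra.subset_adjoin (Set.mem_singleton x)⟩
  let θ : R[X] →+* Algebra.adjoin R ({x} : Set F) := (aeval xA : R[X] →ₐ[R] _)
  have hθ : Function.Surjective θ := by
    rintro ⟨a, ha⟩
    rw [Algebra.adjoin_singleton_eq_range_aeval] at ha
    obtain ⟨Q, rfl⟩ := ha
    refine ⟨Q, Subtype.ext ?_⟩
    show ((aeval xA Q : Algebra.adjoin R ({x} : Set F)) : F) = aeval x Q
    rw [← Subalgebra.coe_val, ← aeval_algHom_apply]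
    rfl
  have hlift : P ∈ Polynomial.lifts θ := by
    rw [Polynomial.mem_lifts]
    exact Polynomial.map_surjective θ hθ P
  obtain ⟨Q, hQP, -, hQ⟩ := Polynomial.lifts_and_degree_eq_and_monic hlift hP
  refine ⟨Q, hQ, ?_⟩
  apply Subtype.val_injective
  show (B.val : B →+* F) (eval₂ _ b Q) = (B.val : B →+* F) 0
  rw [map_zero, Polynomial.hom_eval₂]
  have hcomp : (B.val : B →+* F).comp ((aeval (⟨x, hx⟩ : B) : R[X] →ₐ[R] B) : R[X] →+* B)
      = (algebraMap (Algebra.adjoin R ({x} : Set F)) F).comp θ := by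
    refine Polynomial.ringHom_ext (fun r => ?_) ?_
    · simp [θ]
    · simp [θ, xA]
  rw [hcomp, ← Polynomial.eval₂_map, hQP]
  exact hPb

theorem coord_mem_chart (x : F) (B : Subalgebra R F)
    (hB : ∀ f : F, f ∈ B ↔ IsIntegral (Algebra.adjoin R ({x} : Set F)) f) : x ∈ B := by
  rw [hB]
  exact isIntegral_algebraMap
    (x := (⟨x, Algebra.subset_adjoin (Set.mem_singleton x)⟩ : Algebra.adjoin R ({x} : Set F)))

end Chart

section Quot

variable {R F : Type*} [CommRing R] [IsDomain R] [IsDiscreteValuationRing R]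
  [Field F] [Algebra R F]

/-- `B ⧸ p` has Krull dimension `≤ 1` for every prime `p ∋ w` of the chart. -/
theorem dimensionLEOne_chart_quotient (w : R) (hw : Irreducible w) (x : F) (B : Subalgebra R F)
    (hB : ∀ f : F, f ∈ B ↔ IsIntegral (Algebra.adjoin R ({x} : Set F)) f)
    (p : Ideal B) [p.IsPrime] (hwp : algebraMap R B w ∈ p) : Ring.DimensionLEOne (B ⧸ p) := by
  have hx : x ∈ B := coord_mem_chart x B hB
  refine dimensionLEOne_of_polynomial_integral (IsLocalRing.maximalIdeal R)
    ((Ideal.Quotient.mk p).comp ((aeval (⟨x, hx⟩ : B) : R[X] →ₐ[R] B) : R[X] →+* B)) ?_ ?_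
  · exact RingHom.IsIntegral.trans _ _ (isIntegral_aeval_chart x B hB hx)
      (RingHom.isIntegral_of_surjective _ Ideal.Quotient.mk_surjective)
  · intro r hr
    rw [hw.maximalIdeal_eq, Ideal.mem_span_singleton] at hr
    obtain ⟨s, rfl⟩ := hr
    rw [RingHom.comp_apply, Ideal.Quotient.eq_zero_iff_mem]
    have h : ((aeval (⟨x, hx⟩ : B) : R[X] →ₐ[R] B) : R[X] →+* B) (C (w * s))
        = algebraMap R B w * algebraMap R B s := by
      simp
    rw [h]
    exact p.mul_mem_right _ hwp

end Quot

section Ctx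

variable {R E F : Type*} [CommRing R] [IsDomain R] [IsDiscreteValuationRing R]
  [Field E] [Algebra R E] [IsFractionRing R E]
  [Field F] [Algebra E F] [Algebra R F] [IsScalarTower R E F]

/-- `B ⧸ p` is a Dedekind domain for every prime `p ∋ w` of the chart with `B ⧸ p` integrally
closed. -/
theorem isDedekindDomain_chart_quotient [CharZero E] (w : R) (x : F) (B : Subalgebra R F)
    (hC : ChartCtx E w x B) (p : Ideal B) [p.IsPrime] (hwp : algebraMap R B w ∈ p)
    (hn : IsIntegrallyClosed (B ⧸ p)) : IsDedekindDomain (B ⧸ p) := by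
  obtain ⟨hnoeth, -, -⟩ := Fermat.Agent.A2.Alg.H34.chart_instances' w x B hC
  haveI := hnoeth
  haveI := hn
  haveI : Ring.DimensionLEOne (B ⧸ p) := dimensionLEOne_chart_quotient w hC.hw x B hC.hB p hwp
  haveI h1 : IsDomain (B ⧸ p) := inferInstance
  haveI h2 : IsNoetherianRing (B ⧸ p) := inferInstance
  haveI h3 : IsIntegrallyClosed (B ⧸ p) := inferInstance
  haveI h4 : IsDedekindRing (B ⧸ p) := { }
  have h : IsDedekindDomain (B ⧸ p) := { }
  exact h

theorem uniformiser_mem_p₁ {w : R} {B : Subalgebra R F} (c : SSChart w B) :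
    algebraMap R B w ∈ c.p₁ := by
  have h : algebraMap R B w ∈ c.p₁ ⊓ c.p₂ := by
    rw [c.inf_eq]
    exact Ideal.mem_span_singleton_self _
  exact h.1

theorem uniformiser_mem_p₂ {w : R} {B : Subalgebra R F} (c : SSChart w B) :
    algebraMap R B w ∈ c.p₂ := by
  have h : algebraMap R B w ∈ c.p₁ ⊓ c.p₂ := by
    rw [c.inf_eq]
    exact Ideal.mem_span_singleton_self _
  exact h.2

/-- The first component of a semistable chart is a Dedekind scheme. -/
theorem isDedekindDomain_quotient_p₁ [CharZero E] (w : R) (x : F) (B : Subalgebra R F)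
    (hC : ChartCtx E w x B) (c : SSChart w B) :
    haveI := c.prime₁
    IsDedekindDomain (B ⧸ c.p₁) :=
  haveI := c.prime₁
  isDedekindDomain_chart_quotient w x B hC c.p₁ (uniformiser_mem_p₁ c) c.normal₁

/-- The second component of a semistable chart is a Dedekind scheme. -/
theorem isDedekindDomain_quotient_p₂ [CharZero E] (w : R) (x : F) (B : Subalgebra R F)
    (hC : ChartCtx E w x B) (c : SSChart w B) :
    haveI := c.prime₂
    IsDedekindDomain (B ⧸ c.p₂) :=
  haveI := c.prime₂
  isDedekindDomain_chart_quotient w x B hC c.p₂ (uniformiser_mem_p₂ c) c.normal₂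

/-- A valuation ring of `F` containing the chart `B` and `w⁻¹` contains `E`. -/
theorem algebraMap_mem_of_chart_le (w : R) (hw : Irreducible w) (B : Subalgebra R F)
    (V : ValuationSubring F) (hBV : ∀ b : B, (b : F) ∈ V) (hwV : (algebraMap R F w)⁻¹ ∈ V)
    (e : E) : algebraMap E F e ∈ V := by
  have hRV : ∀ r : R, algebraMap R F r ∈ V := fun r => hBV (algebraMap R B r)
  obtain ⟨a, b, hb, rfl⟩ := IsFractionRing.div_surjective (A := R) e
  have hb0 : b ≠ 0 := nonZeroDivisors.ne_zero hb
  obtain ⟨n, ε, hε⟩ := IsDiscreteValuationRing.eq_unit_mul_pow_irreducible hb0 hw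
  have hinj : Function.Injective (algebraMap R F) := by
    rw [IsScalarTower.algebraMap_eq R E F]
    exact (algebraMap E F).injective.comp (IsFractionRing.injective R E)
  have hwF : algebraMap R F w ≠ 0 := fun h =>
    hw.ne_zero (hinj (by rw [h, map_zero]))
  have hεF : algebraMap R F (ε : R) * algebraMap R F ((ε⁻¹ : Rˣ) : R) = 1 := by
    rw [← map_mul, Units.mul_inv, map_one]
  have hεF0 : algebraMap R F (ε : R) ≠ 0 := left_ne_zero_of_mul_eq_one hεF
  have key : algebraMap E F (algebraMap R E a / algebraMap R E b)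
      = algebraMap R F a * algebraMap R F ((ε⁻¹ : Rˣ) : R) * ((algebraMap R F w)⁻¹) ^ n := by
    rw [map_div₀, ← IsScalarTower.algebraMap_apply, ← IsScalarTower.algebraMap_apply, hε,
      map_mul, map_pow, inv_pow]
    have h1 : algebraMap R F ((ε⁻¹ : Rˣ) : R) = (algebraMap R F (ε : R))⁻¹ :=
      eq_inv_of_mul_eq_one_right hεF
    rw [h1]
    field_simp
  rw [key]
  exact mul_mem (mul_mem (hRV a) (hRV _)) (pow_mem hwV n)

/-- The hypothesis `hdiv` of `H609.exists_pureAt_node` from `DivisibleDiv`. -/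
theorem hdiv_of_divisibleDiv (w : R) (hw : Irreducible w) (B : Subalgebra R F) (m : ℕ) (u : F)
    (hdiv : DivisibleDiv E m u) :
    ∀ V : ValuationSubring F, IsDiscreteValuationRing V →
      (∀ b : B, algebraMap B F b ∈ V) → (algebraMap B F (algebraMap R B w))⁻¹ ∈ V →
      ∃ h u₀ : F, u₀ ∈ V ∧ u₀⁻¹ ∈ V ∧ u = u₀ * h ^ m := by
  intro V hV hBV hwV
  obtain ⟨h, u₀, -, hu₀, hu₀', hu⟩ := hdiv V hV
    (algebraMap_mem_of_chart_le w hw B V hBV hwV)
  exact ⟨h, u₀, hu₀, hu₀', hu⟩

/-- The hypothesis `hs` of `H609.exists_pureAt_node` from `ConstAt`. -/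
theorem hs_of_constAt (B : Subalgebra R F) (p : Ideal B) (u : F) (h : ConstAt B p u) :
    ∃ c a b : B, IsUnit c ∧ b ∉ p ∧ a - c * b ∈ p ∧
      u * algebraMap B F b = algebraMap B F a := by
  obtain ⟨c, hc, a, b, hb, hab, hu⟩ := h
  exact ⟨algebraMap R B c, a, b, hc.map _, hb, hab, hu⟩

end Ctx

end Fermat.Agent.A2.Alg.H132

end
-- ===== PACK-END A2/Alg/H132/ChartFacts.lean

-- ===== PACK-BEGIN A2/Alg/H34/StepI.lean
section




/-!
# WALL A2 / ALG — leaf A1 = Step I (helper34)

`stepI` : for every `f ≠ 0`, `τ f / f` has constant unit residues on both components of the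
chart (`IsSplit`).  Statement VERBATIM that of `Fermat/Agent/A2/Alg/Skel.lean`.

`constAt_tau_div` is the ring-theoretic core (one component, any noetherian chart with
fraction field `F`).
-/

set_option autoImplicit false
set_option linter.unusedSectionVars false
set_option linter.style.haveILetI false

namespace Fermat.Agent.A2.Alg.H34

open Fermat.Agent.A2 Fermat.Agent.A2.Alg

section Core

variable {R F : Type*} [CommRing R] [Field F] [Algebra R F]

/-- every `f ≠ 0` is `w ^ (k₁ - k₂) * A / D` with `A, D ∈ B ∖ p`. -/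
theorem exists_decomp (w : R) (B : Subalgebra R F) [IsNoetherianRing B] [IsFractionRing B F]
    (p q : Ideal B) (hp : p.IsPrime) (hpq : p ⊓ q = Ideal.span {algebraMap R B w})
    (hqp : ¬ q ≤ p) (f : F) (hf : f ≠ 0) :
    ∃ (k₁ k₂ : ℕ) (A D : B), A ∉ p ∧ D ∉ p ∧
      f * (algebraMap R F w ^ k₂ * (D : F)) = algebraMap R F w ^ k₁ * (A : F) := by
  haveI := hp
  have hwp : algebraMap R B w ∈ p := by
    have : algebraMap R B w ∈ p ⊓ q := by
      rw [hpq]
      exact Ideal.mem_span_singleton_self _
    exact this.1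
  obtain ⟨s, hsq, hsp⟩ := SetLike.not_le_iff_exists.1 hqp
  have hloc : ∀ a ∈ p, ∃ s, s ∉ p ∧ ∃ a', a * s = algebraMap R B w * a' := by
    intro a ha
    have h1 : a * s ∈ p ⊓ q := ⟨p.mul_mem_right _ ha, q.mul_mem_left _ hsq⟩
    rw [hpq, Ideal.mem_span_singleton'] at h1
    obtain ⟨a', ha'⟩ := h1
    exact ⟨s, hsp, a', by rw [← ha', mul_comm]⟩
  obtain ⟨a₀, b₀, hb₀, hab⟩ := IsFractionRing.div_surjective (A := B) f
  have hb₀' : b₀ ≠ 0 := nonZeroDivisors.ne_zero hb₀
  have hb₀F : (b₀ : F) ≠ 0 := fun h => hb₀' (Subtype.ext h)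
  have hfb : f * (b₀ : F) = (a₀ : F) := by
    have : (a₀ : F) / (b₀ : F) = f := hab
    rw [← this]
    field_simp
  have ha₀ : a₀ ≠ 0 := by
    rintro rfl
    have : f * (b₀ : F) = 0 := by rw [hfb]; rfl
    rcases mul_eq_zero.1 this with h | h
    · exact hf h
    · exact hb₀F h
  obtain ⟨k₁, a₁, t₁, ha₁, ht₁, h₁⟩ := exists_pow_mul_eq p (algebraMap R B w) hwp hloc a₀ ha₀
  obtain ⟨k₂, a₂, t₂, ha₂, ht₂, h₂⟩ := exists_pow_mul_eq p (algebraMap R B w) hwp hloc b₀ hb₀'
  refine ⟨k₁, k₂, t₂ * a₁, a₂ * t₁, ?_, ?_, ?_⟩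
  · intro h
    rcases hp.mem_or_mem h with h | h
    · exact ht₂ h
    · exact ha₁ h
  · intro h
    rcases hp.mem_or_mem h with h | h
    · exact ha₂ h
    · exact ht₁ h
  · have e₁ : (t₁ : F) * (a₀ : F) = algebraMap R F w ^ k₁ * (a₁ : F) := by
      have := congrArg (fun b : B => (b : F)) h₁
      simpa using this
    have e₂ : (t₂ : F) * (b₀ : F) = algebraMap R F w ^ k₂ * (a₂ : F) := by
      have := congrArg (fun b : B => (b : F)) h₂
      simpa using this
    push_cast
    calc f * (algebraMap R F w ^ k₂ * ((a₂ : F) * (t₁ : F)))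
        = f * ((algebraMap R F w ^ k₂ * (a₂ : F)) * (t₁ : F)) := by ring
      _ = f * (((t₂ : F) * (b₀ : F)) * (t₁ : F)) := by rw [e₂]
      _ = (t₂ : F) * ((t₁ : F) * (f * (b₀ : F))) := by ring
      _ = (t₂ : F) * ((t₁ : F) * (a₀ : F)) := by rw [hfb]
      _ = (t₂ : F) * (algebraMap R F w ^ k₁ * (a₁ : F)) := by rw [e₁]
      _ = algebraMap R F w ^ k₁ * ((t₂ : F) * (a₁ : F)) := by ring

/-- **Step I, one component.** -/
theorem constAt_tau_div (w : R) (B : Subalgebra R F) [IsNoetherianRing B] [IsFractionRing B F]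
    (p q : Ideal B) (hp : p.IsPrime) (hpq : p ⊓ q = Ideal.span {algebraMap R B w})
    (hqp : ¬ q ≤ p) (hw0 : algebraMap R F w ≠ 0)
    (τ : F ≃+* F) (hτB : ∀ b ∈ B, ∃ c ∈ B, τ b - b = algebraMap R F w * c)
    (ξ ξ' : R) (hξ : ξ * ξ' = 1) (hτw : τ (algebraMap R F w) = algebraMap R F (ξ * w))
    (f : F) (hf : f ≠ 0) : ConstAt B p (τ f * f⁻¹) := by
  have hwp : algebraMap R B w ∈ p := by
    have : algebraMap R B w ∈ p ⊓ q := by
      rw [hpq]
      exact Ideal.mem_span_singleton_self _
    exact this.1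
  obtain ⟨k₁, k₂, A, D, hA, hD, h⟩ := exists_decomp w B p q hp hpq hqp f hf
  obtain ⟨A', cA, hA', hcA⟩ := exists_tau_eq w B τ hτB A
  obtain ⟨D', cD, hD', hcD⟩ := exists_tau_eq w B τ hτB D
  have hD'p : D' ∉ p := by
    intro h'
    apply hD
    have h1 : D = D' - algebraMap R B w * cD := by rw [← hcD]; ring
    rw [h1]
    exact p.sub_mem h' (p.mul_mem_right _ hwp)
  have hA0 : (A : F) ≠ 0 := fun h' => hA (by
    have : A = 0 := Subtype.ext h'
    rw [this]; exact p.zero_mem)
  have hD0 : (D : F) ≠ 0 := fun h' => hD (by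
    have : D = 0 := Subtype.ext h'
    rw [this]; exact p.zero_mem)
  have hD'0 : (D' : F) ≠ 0 := by
    rw [hD']
    exact (map_ne_zero τ).2 hD0
  -- the constant
  refine ⟨ξ ^ k₁ * ξ' ^ k₂, ?_, algebraMap R B (ξ ^ k₁ * ξ' ^ k₂) * (A' * D), D' * A, ?_, ?_, ?_⟩
  · have h1 : IsUnit ξ := IsUnit.of_mul_eq_one ξ' hξ
    have h2 : IsUnit ξ' := IsUnit.of_mul_eq_one ξ (by rw [mul_comm]; exact hξ)
    exact (h1.pow _).mul (h2.pow _)
  · intro h'
    rcases hp.mem_or_mem h' with h' | h'
    · exact hD'p h'
    · exact hA h'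
  · have h1 : algebraMap R B (ξ ^ k₁ * ξ' ^ k₂) * (A' * D) -
        algebraMap R B (ξ ^ k₁ * ξ' ^ k₂) * (D' * A) =
        algebraMap R B w * (algebraMap R B (ξ ^ k₁ * ξ' ^ k₂) * (cA * D - cD * A)) := by
      have e1 : A' = A + algebraMap R B w * cA := by rw [← hcA]; ring
      have e2 : D' = D + algebraMap R B w * cD := by rw [← hcD]; ring
      rw [e1, e2]
      ring
    rw [h1]
    exact p.mul_mem_right _ hwp
  · -- the identity in `F`
    set W : F := algebraMap R F w with hW
    set X : F := algebraMap R F ξ with hX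
    set X' : F := algebraMap R F ξ' with hX'
    have hXX' : X * X' = 1 := by
      rw [hX, hX', ← map_mul, hξ, map_one]
    have hτW : τ W = X * W := by
      rw [hW, hτw, map_mul]
    have h2 : τ f * ((X * W) ^ k₂ * (D' : F)) = (X * W) ^ k₁ * (A' : F) := by
      have := congrArg τ h
      rw [map_mul, map_mul, map_mul, map_pow, map_pow, hτW] at this
      rw [hD', hA']
      exact this
    have hX0 : X ≠ 0 := left_ne_zero_of_mul_eq_one hXX'
    have hfac : X ^ k₂ * W ^ k₂ * W ^ k₁ * f ≠ 0 :=
      mul_ne_zero (mul_ne_zero (mul_ne_zero (pow_ne_zero _ hX0) (pow_ne_zero _ hw0))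
        (pow_ne_zero _ hw0)) hf
    have hpow : X ^ k₂ * X' ^ k₂ = 1 := by rw [← mul_pow, hXX', one_pow]
    apply mul_right_cancel₀ hfac
    have hff : f⁻¹ * f = 1 := inv_mul_cancel₀ hf
    push_cast
    rw [← hX, ← hX']
    have e1 : τ f * f⁻¹ * ((D' : F) * (A : F)) * (X ^ k₂ * W ^ k₂ * W ^ k₁ * f) =
        (τ f * ((X * W) ^ k₂ * (D' : F))) * ((A : F) * W ^ k₁) * (f⁻¹ * f) := by
      rw [mul_pow]; ring
    have e2 : X ^ k₁ * X' ^ k₂ * ((A' : F) * (D : F)) * (X ^ k₂ * W ^ k₂ * W ^ k₁ * f) =
        (X ^ k₂ * X' ^ k₂) * (X ^ k₁ * W ^ k₁ * (A' : F)) * (f * (W ^ k₂ * (D : F))) := by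
      ring
    rw [e1, e2, h2, h, hff, hpow, mul_pow]
    ring

end Core

section Main

variable {R E F : Type*} [CommRing R] [IsDomain R] [IsDiscreteValuationRing R]
  [HenselianLocalRing R] [IsAlgClosed (IsLocalRing.ResidueField R)]
  [Field E] [CharZero E] [Algebra R E] [IsFractionRing R E]
  [Field F] [Algebra E F] [Algebra R F] [IsScalarTower R E F]

/-- `τ w = ξ w` with `ξ` a unit of `R`. -/
theorem exists_tau_unif (w : R) (hw : Irreducible w) (B : Subalgebra R F)
    (τ : F ≃+* F) (τE : E ≃+* E) (τR : R ≃+* R) (hτ : TauCtx w B τ τE τR) :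
    ∃ ξ ξ' : R, ξ * ξ' = 1 ∧ τ (algebraMap R F w) = algebraMap R F (ξ * w) := by
  have h1 : τ (algebraMap R F w) = algebraMap R F (τR w) := by
    rw [IsScalarTower.algebraMap_apply R E F, hτ.hτE, hτ.hτR, ← IsScalarTower.algebraMap_apply]
  have h2 : Irreducible (τR w) := (MulEquiv.irreducible_iff τR).2 hw
  obtain ⟨v, hv⟩ := IsDiscreteValuationRing.associated_of_irreducible R hw h2
  refine ⟨v, ↑v⁻¹, Units.mul_inv v, ?_⟩
  rw [h1, ← hv, mul_comm]

/-- **A1 (Step I).**  `B_{p_i}` is a DVR with uniformiser `w`; write `f = w ^ k · a / b`,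
`a, b ∈ B ∖ p_i`; `τ w / w ∈ Rˣ` and `τ a · b - a · τ b ∈ w B`. -/
theorem stepI (w : R) (x : F) (B : Subalgebra R F) (hB : ChartCtx E w x B)
    (c : SSChart w B) (hc : Incomparable c)
    (τ : F ≃+* F) (τE : E ≃+* E) (τR : R ≃+* R) (hτ : TauCtx w B τ τE τR)
    (f : F) (hf : f ≠ 0) : IsSplit B c (τ f * f⁻¹) := by
  obtain ⟨hN, -, hFr⟩ := chart_instances' w x B hB
  haveI := hN
  haveI := hFr
  have hw0 : algebraMap R F w ≠ 0 := by
    intro h
    exact hB.hw.ne_zero (algebraMap_RF_injective E (by rw [h, map_zero]))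
  obtain ⟨ξ, ξ', hξ, hτw⟩ := exists_tau_unif w hB.hw B τ τE τR hτ
  refine ⟨constAt_tau_div w B c.p₁ c.p₂ c.prime₁ c.inf_eq hc.2 hw0 τ hτ.hτB ξ ξ' hξ hτw f hf,
    constAt_tau_div w B c.p₂ c.p₁ c.prime₂ (by rw [inf_comm]; exact c.inf_eq) hc.1 hw0 τ hτ.hτB
      ξ ξ' hξ hτw f hf⟩

end Main

end Fermat.Agent.A2.Alg.H34

end
-- ===== PACK-END A2/Alg/H34/StepI.lean

-- ===== PACK-BEGIN A2/H652/RedCover.lean
section



/-!
# Cell A2, route G — leaf RED, cover step (helper652)

`redConclusion_of_baseRed` : for a finite normal cover `L / F`, the conclusion `RedConclusion L w x`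
of the leaf RED follows from
* `BaseRed w x` : the same statement for the three charts of `F` itself (reduced special fibre of
  the base, every component is a sheet), and
* `SheetsConclusion L w x` (only the fields `unif` (`e = 1`) and `exists_over` are used).
-/

set_option autoImplicit false

namespace Fermat.Agent.A2.H652

open Fermat.Agent.A2.H12
open Fermat.Agent.S18.H138 (chart mem_chart)

universe u

section Tower

variable {R : Type*} [CommRing R] {F : Type*} [Field F] [Algebra R F]
variable {L : Type*} [Field L] [Algebra F L] [Algebra R L] [IsScalarTower R F L]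

/-- Integrality over `R[T]` inside `L` (for `T ⊆ F`) is integrality over the subalgebra `R[T]`
of `F`. -/
theorem isIntegral_adjoin_of_isIntegral_adjoin_image (T : Set F) {y : L}
    (hy : IsIntegral (Algebra.adjoin R (algebraMap F L '' T)) y) :
    IsIntegral (Algebra.adjoin R T) y := by
  let f : F →ₐ[R] L := IsScalarTower.toAlgHom R F L
  have hf : Function.Injective f := (algebraMap F L).injective
  have hmap : (Algebra.adjoin R T).map f = Algebra.adjoin R (algebraMap F L '' T) :=
    AlgHom.map_adjoin f T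
  let e : Algebra.adjoin R T ≃ₐ[R] Algebra.adjoin R (algebraMap F L '' T) :=
    ((Algebra.adjoin R T).equivMapOfInjective f hf).trans (Subalgebra.equivOfEq _ _ hmap)
  have he : ∀ a, ((e a : Algebra.adjoin R (algebraMap F L '' T)) : L) = algebraMap F L (a : F) :=
    fun a => rfl
  have := IsIntegral.map_of_comp_eq (R := Algebra.adjoin R (algebraMap F L '' T)) (S := L)
    (T := Algebra.adjoin R T) (U := L) (e.symm : _ →+* _) (RingHom.id L) (by
      ext a
      have := he (e.symm a)
      rw [AlgEquiv.apply_symm_apply] at this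
      exact this.symm) hy
  simpa using this

/-- Converse of `isIntegral_adjoin_of_isIntegral_adjoin_image`. -/
theorem isIntegral_adjoin_image_of_isIntegral_adjoin (T : Set F) {y : L}
    (hy : IsIntegral (Algebra.adjoin R T) y) :
    IsIntegral (Algebra.adjoin R (algebraMap F L '' T)) y := by
  let f : F →ₐ[R] L := IsScalarTower.toAlgHom R F L
  have hf : Function.Injective f := (algebraMap F L).injective
  have hmap : (Algebra.adjoin R T).map f = Algebra.adjoin R (algebraMap F L '' T) :=
    AlgHom.map_adjoin f T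
  let e : Algebra.adjoin R T ≃ₐ[R] Algebra.adjoin R (algebraMap F L '' T) :=
    ((Algebra.adjoin R T).equivMapOfInjective f hf).trans (Subalgebra.equivOfEq _ _ hmap)
  have := IsIntegral.map_of_comp_eq (R := Algebra.adjoin R T) (S := L)
    (T := Algebra.adjoin R (algebraMap F L '' T)) (U := L) (e : _ →+* _) (RingHom.id L) (by
      ext a
      rfl) hy
  simpa using this

end Tower

section Main

variable {R : Type u} [CommRing R] {F : Type u} [Field F] [Algebra R F]
variable {L : Type u} [Field L] [Algebra F L] [Algebra R L] [IsScalarTower R F L]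

/-- **Base RED**: the special fibre of each of the three charts of `F` is reduced and all its
components are sheets.  (This is `RedConclusion` for the trivial cover `L = F`.) -/
def BaseRed (w : R) (x : F) : Prop :=
  ∀ T : Set F, T = {x} ∨ T = {x⁻¹} ∨ T = {x, x⁻¹} →
    ∀ a ∈ chart R T, (∀ V : ValuationSubring F, IsSheet w x V → a ∈ V.nonunits) →
      ∃ t ∈ chart R T, a = algebraMap R F w * t

/-- RED for the chart of `L` over one chart `R[T]` of `F`. -/
theorem red_of_baseRed_aux [Normal F L] (w : R) (x : F) (hw0 : algebraMap R F w ≠ 0)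
    (hS : SheetsConclusion L w x) (T : Set F)
    (hbase : ∀ a ∈ chart R T, (∀ V : ValuationSubring F, IsSheet w x V → a ∈ V.nonunits) →
      ∃ t ∈ chart R T, a = algebraMap R F w * t)
    (b : L) (hb : b ∈ chart R (algebraMap F L '' T))
    (hbM : ∀ W : ValuationSubring L, IsSheet w (algebraMap F L x) W → b ∈ W.nonunits) :
    ∃ t ∈ chart R (algebraMap F L '' T), b = algebraMap R L w * t := by
  -- the base chart, as an algebra over `A = R[T]`
  have hwC : algebraMap R F w ∈ integralClosure (Algebra.adjoin R T) F :=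
    isIntegral_algebraMap (R := Algebra.adjoin R T) (x := algebraMap R (Algebra.adjoin R T) w)
  have hCL : ∀ c : integralClosure (Algebra.adjoin R T) F,
      algebraMap (integralClosure (Algebra.adjoin R T) F) L c = algebraMap F L (c : F) :=
    fun _ => rfl
  have hwL : algebraMap (integralClosure (Algebra.adjoin R T) F) L ⟨algebraMap R F w, hwC⟩ =
      algebraMap R L w := by
    rw [hCL, ← IsScalarTower.algebraMap_apply]
  obtain ⟨t, ht, hbt⟩ := coverRed (C := integralClosure (Algebra.adjoin R T) F) (F := F) (L := L)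
    (fun y hy => ⟨⟨y, isIntegral_trans y hy⟩, rfl⟩)
    ⟨algebraMap R F w, hwC⟩ hw0
    {W | IsSheet w (algebraMap F L x) W}
    (by
      intro σ W hW
      have hσR : ∀ r : R, (σ : L ≃+* L) (algebraMap R L r) =
          algebraMap R L ((RingEquiv.refl R) r) := by
        intro r
        have h1 : (σ : L ≃+* L) (algebraMap R L r) = σ (algebraMap F L (algebraMap R F r)) := by
          rw [IsScalarTower.algebraMap_apply R F L]
          rfl
        rw [h1, σ.commutes, ← IsScalarTower.algebraMap_apply]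
        rfl
      refine ⟨W.comap ((σ : L ≃+* L) : L →+* L),
        IsSheet.comap hW (σ : L ≃+* L) (RingEquiv.refl R) hσR (fun _ => Iff.rfl)
          (σ.commutes x), ?_⟩
      intro y hy
      exact (mem_nonunits_comap W ((σ : L ≃+* L) : L →+* L) y).1 hy)
    (by
      intro W hW
      rw [hwL]
      exact hW.2.2.1)
    (by
      intro W hW y hy
      rw [hwL]
      exact hS.unif W hW y hy)
    (by
      intro a ha
      obtain ⟨t, ht, hat⟩ := hbase (a : F) a.2 (by
        intro V hV
        obtain ⟨W, hW, hWV⟩ := hS.exists_over V hV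
        have h1 := ha W hW
        rw [hCL] at h1
        rw [← hWV, mem_nonunits_comap]
        exact h1)
      exact ⟨⟨t, ht⟩, Subtype.ext hat⟩)
    b ((isIntegral_adjoin_of_isIntegral_adjoin_image T hb).tower_top) hbM
  refine ⟨t, ?_, by rw [← hwL]; exact hbt⟩
  exact isIntegral_adjoin_image_of_isIntegral_adjoin T (isIntegral_trans t ht)

/-- **Leaf RED, cover step.** -/
theorem redConclusion_of_baseRed [Normal F L] (w : R) (x : F) (hw0 : algebraMap R F w ≠ 0)
    (hS : SheetsConclusion L w x) (hbase : BaseRed w x) : RedConclusion L w x := by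
  intro T hT b hb hbM
  rcases hT with rfl | rfl | rfl
  · have h := red_of_baseRed_aux (L := L) w x hw0 hS {x} (hbase _ (Or.inl rfl)) b
      (by rwa [Set.image_singleton]) hbM
    rwa [Set.image_singleton] at h
  · have h := red_of_baseRed_aux (L := L) w x hw0 hS {x⁻¹} (hbase _ (Or.inr (Or.inl rfl))) b
      (by rwa [Set.image_singleton, map_inv₀]) hbM
    rwa [Set.image_singleton, map_inv₀] at h
  · have h := red_of_baseRed_aux (L := L) w x hw0 hS {x, x⁻¹}
      (hbase _ (Or.inr (Or.inr rfl))) b (by rwa [Set.image_pair, map_inv₀]) hbM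
    rwa [Set.image_pair, map_inv₀] at h

end Main

end Fermat.Agent.A2.H652

end
-- ===== PACK-END A2/H652/RedCover.lean

-- ===== PACK-BEGIN S18/H576/Transport.lean
section



/-!
# S18 / node_mod (helper576): TRANSPORT between the `E`-level and the concrete objects of `Mod/Defs`

`E ⊆ Q̄` an intermediate field, `R_E = H602.RE A E = A ∩ E`, `κ_E` its residue field,
`F_E = laurentBaseChange E (modularFunctionFieldFull M) ⊆ E((q))`.

* `descendsTo_of_mem_Fc`     : `f ∈ Fc M E` ⟹ `f` comes from `F_E`;
* `exists_mem_Fc_of_mem_FE`  : `g ∈ F_E` ⟹ `g` is (the `q`-expansion of) an element of `Fc M E`;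
* `OE M A E : Subring R_E((q))` : the integral series lying in `F_E`;
  `phi : OE →+* Ω` (injective, values in `Fc M E`), `rho : OE →+* κ_E((q))` (reduction);
* `exists_rep_of_mem_VcSet`  : `f ∈ VcSet M A E` ⟹ `f · phi V₂ = phi V₁` with `rho V₂ ≠ 0`;
* `mem_VcSet_of_rep`         : the converse;
* `exists_div_of_rho_eq_zero`: `rho V = 0` ⟹ `phi V · w⁻¹ = phi V'` (for `w` with `w_gen`).
-/

set_option autoImplicit false

noncomputable section

namespace Fermat.Agent.S18.H576

open ModularCurve AlgebraicCurve HahnSeries Fermat.Agent.S18 Fermat.Agent.S18.Mod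
open Fermat.Agent.S18.H602 (RE mem_RE toA)

variable {M : ℕ} {A : ValuationSubring Qb} {E : IntermediateField ℚ Qb}

/-- Elements of `Fc M E` are defined over `E` (inside the base change `F_E`). -/
theorem descendsTo_of_mem_Fc {f : Om M} (hf : f ∈ Fc M E) :
    H602.DescendsTo (modularFunctionFieldFull M) E (f : LaurentSeries Qb) := by
  unfold Fc at hf
  induction hf using Subfield.closure_induction with
  | mem y hy =>
      rcases hy with hy | ⟨d, hd, hdM, rfl⟩
      · obtain ⟨a, ha, rfl⟩ := mem_Ec_iff.mp hy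
        refine ⟨algebraMap E (LaurentSeries E) ⟨a, ha⟩,
          (laurentBaseChange E (modularFunctionFieldFull M)).algebraMap_mem _, ?_⟩
        rw [H602.coeffMap_algebraMap']
        rfl
      · exact H602.descendsTo_coeffEmb E (jqd_mem_full M hdM)
  | one => exact H602.DescendsTo.one E
  | add x y _ _ hx hy => exact hx.add hy
  | neg x _ hx => exact hx.neg
  | inv x _ hx => exact hx.inv
  | mul x y _ _ hx hy => exact hx.mul hy

/-- Elements of `F_E` give elements of `Fc M E`. -/
theorem exists_mem_Fc_of_mem_FE {g : LaurentSeries E}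
    (hg : g ∈ laurentBaseChange E (modularFunctionFieldFull M)) :
    ∃ f ∈ Fc M E, (f : LaurentSeries Qb) = coeffMap (algebraMap E Qb) g := by
  rw [mem_laurentBaseChange_iff] at hg
  induction hg using Subfield.closure_induction with
  | mem y hy =>
      rcases hy with ⟨a, rfl⟩ | ⟨z, hz, rfl⟩
      · refine ⟨iota M (a : Qb), Ec_le_Fc (iota_mem_Ec a.2), ?_⟩
        rw [H602.coeffMap_algebraMap']
        rfl
      · obtain ⟨f, hf, hfz⟩ := exists_mem_Fc_of_mem_full (M := M) (E := E) hz
        refine ⟨f, hf, ?_⟩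
        rw [hfz, H602.coeffMap_coeffEmb']
  | one => exact ⟨1, one_mem _, by rw [map_one]; rfl⟩
  | add x y _ _ hx hy =>
      obtain ⟨f, hf, hfx⟩ := hx
      obtain ⟨g, hg, hgy⟩ := hy
      exact ⟨f + g, add_mem hf hg, by rw [map_add, ← hfx, ← hgy]; rfl⟩
  | neg x _ hx =>
      obtain ⟨f, hf, hfx⟩ := hx
      exact ⟨-f, neg_mem hf, by rw [map_neg, ← hfx]; rfl⟩
  | inv x _ hx =>
      obtain ⟨f, hf, hfx⟩ := hx
      exact ⟨f⁻¹, inv_mem hf, by rw [map_inv₀, ← hfx]; rfl⟩
  | mul x y _ _ hx hy =>
      obtain ⟨f, hf, hfx⟩ := hx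
      obtain ⟨g, hg, hgy⟩ := hy
      exact ⟨f * g, mul_mem hf hg, by rw [map_mul, ← hfx, ← hgy]; rfl⟩

theorem C_mem_FE (M : ℕ) (c : E) :
    HahnSeries.C (Γ := ℤ) c ∈ laurentBaseChange E (modularFunctionFieldFull M) := by
  have := (laurentBaseChange E (modularFunctionFieldFull M)).algebraMap_mem c
  rwa [algebraMap_laurentSeries_eq_single, ← HahnSeries.C_apply] at this

/-- The ring of integral series over `R_E` lying in `F_E`. -/
def OE (M : ℕ) (A : ValuationSubring Qb) (E : IntermediateField ℚ Qb) :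
    Subring (LaurentSeries (RE A E)) :=
  (laurentBaseChange E (modularFunctionFieldFull M)).toSubfield.toSubring.comap
    (coeffMap (RE A E).subtype)

theorem mem_OE {V : LaurentSeries (RE A E)} :
    V ∈ OE M A E ↔
      coeffMap (RE A E).subtype V ∈ laurentBaseChange E (modularFunctionFieldFull M) :=
  Iff.rfl

/-- `R_E((q)) → Q̄((q))`. -/
def incQ (A : ValuationSubring Qb) (E : IntermediateField ℚ Qb) :
    LaurentSeries (RE A E) →+* LaurentSeries Qb :=
  (coeffMap (algebraMap E Qb)).comp (coeffMap (RE A E).subtype)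

theorem incQ_apply (V : LaurentSeries (RE A E)) :
    incQ A E V = coeffMap (algebraMap E Qb) (coeffMap (RE A E).subtype V) := rfl

theorem incQ_eq (V : LaurentSeries (RE A E)) :
    incQ A E V = coeffMap A.subtype (coeffMap (toA A E) V) := by
  rw [incQ_apply, coeffMap_coeffMap, coeffMap_coeffMap, H602.subtype_comp_toA]

theorem incQ_injective : Function.Injective (incQ A E) := by
  intro x y h
  have h1 := H602.coeffMap_injective (algebraMap E Qb) (algebraMap E Qb).injective h
  exact H602.coeffMap_injective (RE A E).subtype Subtype.val_injective h1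

theorem incQ_mem (V : OE M A E) :
    incQ A E (V : LaurentSeries (RE A E)) ∈ modularFunctionFieldBar M :=
  H602.coeffMap_mem_laurentBaseChange _ _ V.2

/-- The element of `Ω` defined by an integral series. -/
def phi (M : ℕ) (A : ValuationSubring Qb) (E : IntermediateField ℚ Qb) : OE M A E →+* Om M where
  toFun V := ⟨incQ A E (V : LaurentSeries (RE A E)), incQ_mem V⟩
  map_one' := Subtype.ext (by simp)
  map_mul' x y := Subtype.ext (by simp)
  map_zero' := Subtype.ext (by simp)
  map_add' x y := Subtype.ext (by simp)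

theorem coe_phi (V : OE M A E) :
    ((phi M A E V : Om M) : LaurentSeries Qb) = incQ A E (V : LaurentSeries (RE A E)) := rfl

theorem phi_injective : Function.Injective (phi M A E) := by
  intro x y h
  have h1 : incQ A E (x : LaurentSeries (RE A E)) = incQ A E (y : LaurentSeries (RE A E)) :=
    congrArg Subtype.val h
  exact Subtype.ext (incQ_injective h1)

theorem phi_mem_Fc (V : OE M A E) : phi M A E V ∈ Fc M E := by
  obtain ⟨f, hf, hfV⟩ := exists_mem_Fc_of_mem_FE (M := M) V.2
  have : phi M A E V = f := Subtype.ext (by rw [coe_phi, incQ_apply, hfV])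
  rw [this]
  exact hf

/-- Reduction of an integral series. -/
def rho (M : ℕ) (A : ValuationSubring Qb) (E : IntermediateField ℚ Qb) :
    OE M A E →+* LaurentSeries (IsLocalRing.ResidueField (RE A E)) :=
  (coeffMap (IsLocalRing.residue (RE A E))).comp (OE M A E).subtype

theorem rho_apply (V : OE M A E) :
    rho M A E V = coeffMap (IsLocalRing.residue (RE A E)) (V : LaurentSeries (RE A E)) := rfl

/-- The reduction over `A` of the series over `A` attached to `V`. -/
theorem residue_toA_eq (V : LaurentSeries (RE A E)) :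
    coeffMap (IsLocalRing.residue A) (coeffMap (toA A E) V) =
      coeffMap (H602.resMap A E) (coeffMap (IsLocalRing.residue (RE A E)) V) :=
  H602.coeffMap_residue_toA A E V

theorem residue_toA_ne_zero_iff (V : LaurentSeries (RE A E)) :
    coeffMap (IsLocalRing.residue A) (coeffMap (toA A E) V) ≠ 0 ↔
      coeffMap (IsLocalRing.residue (RE A E)) V ≠ 0 := by
  rw [residue_toA_eq]
  constructor
  · intro h h0
    exact h (by rw [h0, map_zero])
  · intro h h0
    apply h
    apply H602.coeffMap_injective (H602.resMap A E) (H602.resMap_injective A E)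
    rw [h0, map_zero]

theorem isIntE_toA (V : OE M A E) :
    IsIntE M A E (coeffMap (toA A E) (V : LaurentSeries (RE A E))) := by
  refine ⟨fun n => ?_, phi M A E V, phi_mem_Fc V, ?_⟩
  · rw [coeffMap_coeff]
    exact ((V : LaurentSeries (RE A E)).coeff n : E).2
  · rw [coe_phi, incQ_eq]

/-- Every element of `VcSet` is a quotient of two integral series over `R_E`, the denominator
with nonzero reduction. -/
theorem exists_rep_of_mem_VcSet {f : Om M} (hf : f ∈ VcSet M A E) :
    ∃ V₁ V₂ : OE M A E, rho M A E V₂ ≠ 0 ∧ f * phi M A E V₂ = phi M A E V₁ := by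
  obtain ⟨-, U₁, U₂, ⟨-, g₁, hg₁, hgU₁⟩, ⟨-, g₂, hg₂, hgU₂⟩, hne, heq⟩ := hf
  have d₁ := descendsTo_of_mem_Fc hg₁
  have d₂ := descendsTo_of_mem_Fc hg₂
  rw [hgU₁] at d₁
  rw [hgU₂] at d₂
  obtain ⟨V₁, hV₁, hVU₁⟩ := H602.exists_series_descent U₁ d₁
  obtain ⟨V₂, hV₂, hVU₂⟩ := H602.exists_series_descent U₂ d₂
  refine ⟨⟨V₁, hV₁⟩, ⟨V₂, hV₂⟩, ?_, ?_⟩
  · rw [rho_apply]
    rw [← hVU₂] at hne
    exact (residue_toA_ne_zero_iff V₂).mp hne
  · apply Subtype.ext
    show (f : LaurentSeries Qb) * incQ A E V₂ = incQ A E V₁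
    rw [incQ_eq, incQ_eq, hVU₁, hVU₂]
    exact heq

/-- Conversely a quotient of two integral series over `R_E`, the denominator with nonzero
reduction, lies in `VcSet`. -/
theorem mem_VcSet_of_rep {g : Om M} (V₁ V₂ : OE M A E) (h2 : rho M A E V₂ ≠ 0)
    (h : g * phi M A E V₂ = phi M A E V₁) : g ∈ VcSet M A E := by
  have hV₂0 : phi M A E V₂ ≠ 0 := by
    intro h0
    apply h2
    have : V₂ = 0 := phi_injective (by rw [h0, map_zero])
    rw [this, map_zero]
  have hg : g = phi M A E V₁ * (phi M A E V₂)⁻¹ := by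
    rw [← h, mul_assoc, mul_inv_cancel₀ hV₂0, mul_one]
  refine ⟨?_, coeffMap (toA A E) (V₁ : LaurentSeries (RE A E)),
    coeffMap (toA A E) (V₂ : LaurentSeries (RE A E)), isIntE_toA V₁, isIntE_toA V₂, ?_, ?_⟩
  · rw [hg]
    exact mul_mem (phi_mem_Fc V₁) (inv_mem (phi_mem_Fc V₂))
  · exact (residue_toA_ne_zero_iff _).mpr h2
  · rw [← incQ_eq, ← incQ_eq, ← coe_phi, ← coe_phi, ← h]
    rfl

theorem coeff_mem_maximalIdeal_of_rho_eq_zero (V : OE M A E) (hV : rho M A E V = 0) (n : ℤ) :
    (V : LaurentSeries (RE A E)).coeff n ∈ IsLocalRing.maximalIdeal (RE A E) := by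
  rw [← IsLocalRing.residue_eq_zero_iff]
  have := congrArg (fun z : LaurentSeries (IsLocalRing.ResidueField (RE A E)) => z.coeff n) hV
  simpa [rho_apply, coeffMap_coeff] using this

/-- A series with zero reduction is divisible by the uniformiser `w`. -/
theorem exists_div_of_rho_eq_zero {w : Om M} (hwm : w ∈ Rc M A E)
    (hwg : ∀ r ∈ Rc M A E, r⁻¹ ∉ Rc M A E → r * w⁻¹ ∈ Rc M A E)
    (V : OE M A E) (hV : rho M A E V = 0) :
    ∃ V' : OE M A E, phi M A E V' = phi M A E V * w⁻¹ := by
  obtain ⟨ϖ, rfl⟩ := mem_Rc_iff_exists_iotaR.mp hwm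
  set c : E := ((ϖ : E))⁻¹ with hc
  set y : LaurentSeries E :=
    HahnSeries.C c * coeffMap (RE A E).subtype (V : LaurentSeries (RE A E)) with hy
  have hcoeff : ∀ n, y.coeff n = c * (((V : LaurentSeries (RE A E)).coeff n : RE A E) : E) := by
    intro n
    rw [hy, HahnSeries.C_mul_eq_smul, HahnSeries.coeff_smul, smul_eq_mul, coeffMap_coeff]
    rfl
  have hrange : ∀ n, y.coeff n ∈ Set.range (RE A E).subtype := by
    intro n
    set r : RE A E := (V : LaurentSeries (RE A E)).coeff n with hr
    by_cases hr0 : r = 0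
    · refine ⟨0, ?_⟩
      rw [hcoeff, ← hr, hr0]
      simp
    have hnu : ¬ IsUnit r := by
      have := coeff_mem_maximalIdeal_of_rho_eq_zero V hV n
      rwa [IsLocalRing.mem_maximalIdeal, mem_nonunits_iff] at this
    have hinv : (iotaR M A E r)⁻¹ ∉ Rc M A E := by
      intro h
      rcases (iotaR_inv_mem_Rc_iff r).mp h with h | h
      · exact hr0 h
      · exact hnu h
    obtain ⟨s, hs⟩ := mem_Rc_iff_exists_iotaR.mp (hwg _ (iotaR_mem_Rc r) hinv)
    refine ⟨s, ?_⟩
    rw [hcoeff, ← hr]
    have hinj : Function.Injective ((iota M).comp (algebraMap E Qb)) :=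
      (iota_injective M).comp (algebraMap E Qb).injective
    apply hinj
    show iotaR M A E s = _
    rw [hs, map_mul, hc, map_inv₀, mul_comm]
    rfl
  obtain ⟨V', hV'⟩ := H602.exists_coeffMap_eq (RE A E).subtype Subtype.val_injective y hrange
  have hV'mem : V' ∈ OE M A E := by
    rw [mem_OE, hV', hy]
    exact mul_mem (C_mem_FE M c) V.2
  refine ⟨⟨V', hV'mem⟩, ?_⟩
  apply Subtype.ext
  show incQ A E V' = incQ A E (V : LaurentSeries (RE A E)) *
    ((iotaR M A E ϖ : Om M) : LaurentSeries Qb)⁻¹
  rw [incQ_apply, hV', hy, map_mul, H516.coeffMap_C, ← incQ_apply, iotaR_apply, coe_iota_single,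
    ← HahnSeries.C_apply, ← map_inv₀, hc, map_inv₀, mul_comm]
  rfl

end Fermat.Agent.S18.H576

end
end
-- ===== PACK-END S18/H576/Transport.lean

-- ===== PACK-BEGIN S18/B12/H203/DiscrRed.lean
section




/-!
# S18 / b2.5, piece A3: discriminant reduction mod `w` (`DiscrRedStatement`)

`P` an integrally closed domain, `B` an integrally closed domain, finite and torsion-free over `P`,
`w ∈ P` prime, `𝔪 ∋ w` a prime ideal, `x` a basis of `B` locally at `𝔪` (`g • B ⊆ span x`, `g ∉ 𝔪`),
`bb` a basis of `B/wB` over `P/(w)`.  Then `bb` has as many elements as `x` and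
`intDiscr x mod w = ū² · disc bb` with `u ∉ 𝔪`.
-/

set_option autoImplicit false
set_option linter.unusedSectionVars false
set_option linter.unusedVariables false

noncomputable section

namespace Fermat.Agent.S18.B12.H203

open Fermat.Agent.S18.H203

universe u v

section Quasi

variable {P : Type*} {B : Type*} [CommRing P] [CommRing B] [Algebra P B]
  {ι : Type*} [Fintype ι]

/-- Coefficients of `g • b` with respect to a quasi-basis. -/
theorem exists_coef_of_smul_mem (x : ι → B) (g : P)
    (hg : ∀ b : B, g • b ∈ Submodule.span P (Set.range x)) :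
    ∃ c : B → ι → P, ∀ b, g • b = ∑ i, c b i • x i := by
  choose c hc using fun b => (Submodule.mem_span_range_iff_exists_fun P).mp (hg b)
  exact ⟨c, fun b => (hc b).symm⟩

/-- The reduction mod `w` of a quasi-basis (with `w ∤ g`) is linearly independent. -/
theorem linearIndependent_red_of_quasi [IsDomain P] {w : P} (hw : Prime w) (x : ι → B)
    (hli : LinearIndependent P x) (g : P) (hgw : ¬ w ∣ g)
    (hg : ∀ b : B, g • b ∈ Submodule.span P (Set.range x)) :
    LinearIndependent (P ⧸ Ideal.span {w}) fun i => redB (S := P) w (x i) := by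
  obtain ⟨c, hc⟩ := exists_coef_of_smul_mem x g hg
  rw [Fintype.linearIndependent_iff]
  intro ab hab i
  choose a ha using fun i => Ideal.Quotient.mk_surjective (ab i)
  have h1 : redB (S := P) w (∑ i, a i • x i) = 0 := by
    rw [map_sum, ← hab]
    refine Finset.sum_congr rfl fun i _ => ?_
    rw [redB_smul, ha]
  rw [redB_eq_zero_iff] at h1
  obtain ⟨b', hb'⟩ := h1
  have h2 : ∑ i, (g * a i) • x i = ∑ i, (w * c b' i) • x i := by
    calc ∑ i, (g * a i) • x i = g • ∑ i, a i • x i := by
          rw [Finset.smul_sum]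
          exact Finset.sum_congr rfl fun i _ => mul_smul _ _ _
      _ = g • (algebraMap P B w * b') := by rw [hb']
      _ = w • (g • b') := by rw [← Algebra.smul_def, smul_comm]
      _ = ∑ i, (w * c b' i) • x i := by
          rw [hc, Finset.smul_sum]
          exact Finset.sum_congr rfl fun i _ => (mul_smul _ _ _).symm
  have h3 : g * a i = w * c b' i := by
    have := Fintype.linearIndependent_iff.mp hli (fun i => g * a i - w * c b' i) (by
      simp only [sub_smul, Finset.sum_sub_distrib, h2, sub_self])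
    exact sub_eq_zero.mp (this i)
  have h4 : w ∣ a i := (hw.dvd_or_dvd ⟨c b' i, h3⟩).resolve_left hgw
  rw [← ha i]
  exact (redS_eq_zero_iff w (a i)).mpr h4

end Quasi

section Abstract

variable {A V : Type*} [CommRing A] [CommRing V] [Algebra A V] {n : ℕ}

/-- If `g • bb j = ∑ i, N i j • xb i` then `toMatrix bb xb * N = g • 1`. -/
theorem toMatrix_mul_eq_smul_one (bb : Module.Basis (Fin n) A V) (xb : Fin n → V) (g : A)
    (N : Matrix (Fin n) (Fin n) A) (hN : ∀ j, g • bb j = ∑ i, N i j • xb i) :
    bb.toMatrix xb * N = g • (1 : Matrix (Fin n) (Fin n) A) := by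
  ext l j
  have h := congrArg (fun v => bb.repr v l) (hN j)
  simp only [map_smul, Finsupp.smul_apply, smul_eq_mul, map_sum, Finsupp.coe_finsetSum,
    Finset.sum_apply, Module.Basis.repr_self, Finsupp.single_apply] at h
  rw [Matrix.mul_apply, Matrix.smul_apply, Matrix.one_apply, smul_eq_mul]
  simp only [Module.Basis.toMatrix_apply]
  rw [show (∑ k, bb.repr (xb k) l * N k j) = ∑ k, N k j * bb.repr (xb k) l from
    Finset.sum_congr rfl fun k _ => mul_comm _ _, ← h]
  by_cases hlj : l = j
  · simp [hlj]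
  · have : ¬ j = l := fun h' => hlj h'.symm
    simp [hlj, this]

/-- The determinant of the transition matrix to a quasi-basis is nonzero. -/
theorem det_toMatrix_ne_zero [IsDomain A] (bb : Module.Basis (Fin n) A V) (xb : Fin n → V)
    (g : A) (hg0 : g ≠ 0) (N : Matrix (Fin n) (Fin n) A)
    (hN : ∀ j, g • bb j = ∑ i, N i j • xb i) :
    (bb.toMatrix xb).det * N.det = g ^ n ∧ (bb.toMatrix xb).det ≠ 0 := by
  have h := congrArg Matrix.det (toMatrix_mul_eq_smul_one bb xb g N hN)
  rw [Matrix.det_mul, Matrix.det_smul, Matrix.det_one, mul_one, Fintype.card_fin] at h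
  refine ⟨h, fun h0 => ?_⟩
  rw [h0, zero_mul] at h
  exact pow_ne_zero n hg0 h.symm

/-- Trace from a "matrix up to a scalar" with respect to a quasi-basis. -/
theorem mul_trace_eq_trace_of_quasi [IsDomain A] (bb : Module.Basis (Fin n) A V)
    (xb : Fin n → V) (hdet : (bb.toMatrix xb).det ≠ 0) (g : A) (β : V)
    (m : Matrix (Fin n) (Fin n) A) (hm : ∀ j, g • (β * xb j) = ∑ i, m i j • xb i) :
    g * Algebra.trace A V β = m.trace := by
  set M := bb.toMatrix xb with hM
  set T := Algebra.leftMulMatrix bb β with hT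
  have key : g • (T * M) = M * m := by
    ext l j
    have h := congrArg (fun v => bb.repr v l) (hm j)
    simp only [map_smul, Finsupp.smul_apply, smul_eq_mul, map_sum, Finsupp.coe_finsetSum,
      Finset.sum_apply] at h
    rw [Matrix.smul_apply, smul_eq_mul, Matrix.mul_apply, Matrix.mul_apply]
    have h1 : ∑ k, T l k * M k j = bb.repr (β * xb j) l := by
      have := congrFun (Algebra.leftMulMatrix_mulVec_repr bb β (xb j)) l
      rw [← this]
      rfl
    rw [h1, h]
    exact Finset.sum_congr rfl fun k _ => mul_comm _ _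
  have h1 : M.det * (g * T.trace) = M.det * m.trace := by
    calc M.det * (g * T.trace) = ((g • (T * M)) * M.adjugate).trace := by
          rw [Matrix.smul_mul, Matrix.mul_assoc, Matrix.mul_adjugate, Matrix.trace_smul,
            Matrix.mul_smul, Matrix.trace_smul, Matrix.mul_one, smul_eq_mul, smul_eq_mul]
          ring
      _ = (M * m * M.adjugate).trace := by rw [key]
      _ = (M.adjugate * (M * m)).trace := by rw [Matrix.trace_mul_comm]
      _ = M.det * m.trace := by
          rw [← Matrix.mul_assoc, Matrix.adjugate_mul, Matrix.smul_mul, Matrix.one_mul,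
            Matrix.trace_smul, smul_eq_mul]
  rw [Algebra.trace_eq_matrix_trace bb]
  exact mul_left_cancel₀ hdet h1

end Abstract

section Generic

variable {S B : Type*} [CommRing S] [IsDomain S] [CommRing B] [Algebra S B]
  {ι : Type*} [Fintype ι]

/-- A linearly independent family of `B` stays linearly independent in the generic fibre. -/
theorem linearIndependent_map_of_linearIndependent (K F : Type*) [Field K] [Algebra S K]
    [IsFractionRing S K] [Field F] [Algebra K F] [Algebra S F] [IsScalarTower S K F]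
    [Algebra B F] [IsScalarTower S B F] [IsIntegralClosure B S F]
    (b : ι → B) (h1 : LinearIndependent S b) :
    LinearIndependent K fun i => algebraMap B F (b i) := by
  have h2 : LinearIndependent S fun i => algebraMap B F (b i) := by
    have := h1.map' (IsScalarTower.toAlgHom S B F).toLinearMap
      (LinearMap.ker_eq_bot.mpr (IsIntegralClosure.algebraMap_injective B S F))
    exact this
  exact (LinearIndependent.iff_fractionRing S K).mp h2

/-- A quasi-basis spans the generic fibre. -/
theorem span_map_eq_top_of_smul_mem (K F : Type*) [Field K] [Algebra S K]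
    [IsFractionRing S K] [Field F] [Algebra K F] [Algebra S F] [IsScalarTower S K F]
    [Algebra B F] [IsScalarTower S B F] [IsIntegralClosure B S F]
    [Algebra.IsAlgebraic K F]
    (r : S) (hr0 : r ≠ 0) (b : ι → B)
    (hr : ∀ β : B, r • β ∈ Submodule.span S (Set.range b)) :
    Submodule.span K (Set.range fun i => algebraMap B F (b i)) = ⊤ := by
  have hinjSK : Function.Injective (algebraMap S K) := IsFractionRing.injective S K
  rw [eq_top_iff]
  intro f _
  have hf : IsAlgebraic S f := by
    have := Algebra.IsAlgebraic.isAlgebraic (R := K) f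
    exact (IsFractionRing.isAlgebraic_iff S K F).mpr this
  obtain ⟨y, hy0, hy⟩ := hf.exists_integral_multiple
  obtain ⟨β, hβ⟩ := (IsIntegralClosure.isIntegral_iff (A := B)).mp hy
  have h1 := hr β
  have h2 : algebraMap B F (r • β) ∈
      Submodule.span K (Set.range fun i => algebraMap B F (b i)) := by
    have h3 : (IsScalarTower.toAlgHom S B F).toLinearMap (r • β) ∈
        Submodule.map (IsScalarTower.toAlgHom S B F).toLinearMap
          (Submodule.span S (Set.range b)) := Submodule.mem_map_of_mem h1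
    rw [Submodule.map_span, ← Set.range_comp] at h3
    have h4 : Submodule.span S (Set.range ((IsScalarTower.toAlgHom S B F).toLinearMap ∘ b)) ≤
        (Submodule.span K (Set.range fun i => algebraMap B F (b i))).restrictScalars S := by
      rw [Submodule.span_le]
      rintro _ ⟨i, rfl⟩
      exact Submodule.subset_span ⟨i, rfl⟩
    exact h4 h3
  have h5 : algebraMap B F (r • β) = (algebraMap S K (r * y)) • f := by
    rw [Algebra.smul_def r β, map_mul, hβ, ← IsScalarTower.algebraMap_apply,
      Algebra.smul_def y f, Algebra.smul_def, ← IsScalarTower.algebraMap_apply, map_mul]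
    ring
  rw [h5] at h2
  have h6 : algebraMap S K (r * y) ≠ 0 := by
    simpa using (map_ne_zero_iff _ hinjSK).mpr (mul_ne_zero hr0 hy0)
  have h7 := Submodule.smul_mem _ (algebraMap S K (r * y))⁻¹ h2
  rwa [smul_smul, inv_mul_cancel₀ h6, one_smul] at h7

/-- The `K`-basis of the generic fibre given by a quasi-basis. -/
def quasiBasis (K F : Type*) [Field K] [Algebra S K]
    [IsFractionRing S K] [Field F] [Algebra K F] [Algebra S F] [IsScalarTower S K F]
    [Algebra B F] [IsScalarTower S B F] [IsIntegralClosure B S F]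
    [Algebra.IsAlgebraic K F]
    (b : ι → B) (hli : LinearIndependent S b) (r : S) (hr0 : r ≠ 0)
    (hr : ∀ β : B, r • β ∈ Submodule.span S (Set.range b)) :
    Module.Basis ι K F :=
  Module.Basis.mk (linearIndependent_map_of_linearIndependent K F b hli)
    (span_map_eq_top_of_smul_mem K F r hr0 b hr).ge

@[simp]
theorem quasiBasis_apply (K F : Type*) [Field K] [Algebra S K]
    [IsFractionRing S K] [Field F] [Algebra K F] [Algebra S F] [IsScalarTower S K F]
    [Algebra B F] [IsScalarTower S B F] [IsIntegralClosure B S F]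
    [Algebra.IsAlgebraic K F]
    (b : ι → B) (hli : LinearIndependent S b) (r : S) (hr0 : r ≠ 0)
    (hr : ∀ β : B, r • β ∈ Submodule.span S (Set.range b)) (i : ι) :
    quasiBasis K F b hli r hr0 hr i = algebraMap B F (b i) := by
  simp [quasiBasis]

/-- Trace in the generic fibre from a matrix up to a scalar, with respect to a quasi-basis. -/
theorem mul_trace_eq_sum_of_quasi [DecidableEq ι] (K F : Type*) [Field K] [Algebra S K]
    [IsFractionRing S K] [Field F] [Algebra K F] [Algebra S F] [IsScalarTower S K F]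
    [Algebra B F] [IsScalarTower S B F] [IsIntegralClosure B S F]
    [Algebra.IsAlgebraic K F]
    (b : ι → B) (hli : LinearIndependent S b) (r : S) (hr0 : r ≠ 0)
    (hr : ∀ β : B, r • β ∈ Submodule.span S (Set.range b))
    (β : B) (m : ι → ι → S) (hm : ∀ j, r • (β * b j) = ∑ i, m i j • b i) :
    algebraMap S K r * Algebra.trace K F (algebraMap B F β) = ∑ i, algebraMap S K (m i i) := by
  have hK : ∀ j, algebraMap S K r • (algebraMap B F β * quasiBasis K F b hli r hr0 hr j) =
      ∑ i, algebraMap S K (m i j) • quasiBasis K F b hli r hr0 hr i := by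
    intro j
    have := congrArg (algebraMap B F) (hm j)
    simp only [map_sum, Algebra.smul_def, map_mul, ← IsScalarTower.algebraMap_apply] at this
    simp only [quasiBasis_apply, Algebra.smul_def, ← IsScalarTower.algebraMap_apply]
    exact this
  exact mul_trace_eq_sum (quasiBasis K F b hli r hr0 hr) (algebraMap B F β) (algebraMap S K r)
    (fun i j => algebraMap S K (m i j)) hK

end Generic

section IntTrace

variable {P : Type u} {B : Type v} [CommRing P] [IsDomain P] [IsIntegrallyClosed P]
  [CommRing B] [IsDomain B] [IsIntegrallyClosed B] [Algebra P B] [Module.Finite P B]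
  [Module.IsTorsionFree P B] {ι : Type*} [Fintype ι] [DecidableEq ι]

open nonZeroDivisors in
/-- The integral trace from a matrix up to a scalar, with respect to a quasi-basis. -/
theorem mul_intTrace_eq_sum_of_quasi
    (b : ι → B) (hli : LinearIndependent P b) (r : P) (hr0 : r ≠ 0)
    (hr : ∀ β : B, r • β ∈ Submodule.span P (Set.range b))
    (β : B) (m : ι → ι → P) (hm : ∀ j, r • (β * b j) = ∑ i, m i j • b i) :
    r * Algebra.intTrace P B β = ∑ i, m i i := by
  let _ : Algebra (FractionRing P) (FractionRing B) := FractionRing.liftAlgebra P _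
  have : IsScalarTower P (FractionRing P) (FractionRing B) :=
    FractionRing.isScalarTower_liftAlgebra P (FractionRing B)
  have : IsIntegralClosure B P (FractionRing B) :=
    IsIntegralClosure.of_isIntegrallyClosed _ _ _
  have : Algebra.IsAlgebraic (FractionRing P) (FractionRing B) :=
    isAlgebraic_of_isFractionRing P B ..
  apply IsFractionRing.injective P (FractionRing P)
  rw [map_mul, Algebra.algebraMap_intTrace_fractionRing, map_sum]
  exact mul_trace_eq_sum_of_quasi (FractionRing P) (FractionRing B) b hli r hr0 hr β m hm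

end IntTrace

section Final

variable {P : Type u} {B : Type v} [CommRing P] [IsDomain P] [CommRing B] [Algebra P B]

/-- Reduction of the quasi-basis relation: `ḡ • β̄ ∈ span x̄`, with coefficients. -/
theorem exists_red_coef {w : P} {ι : Type*} [Fintype ι] (x : ι → B) (g : P)
    (hg : ∀ b : B, g • b ∈ Submodule.span P (Set.range x))
    (y : B ⧸ (Ideal.span {w}).map (algebraMap P B)) :
    ∃ c : ι → P ⧸ Ideal.span {w}, redS w g • y = ∑ i, c i • redB (S := P) w (x i) := by
  obtain ⟨b, rfl⟩ := Ideal.Quotient.mk_surjective y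
  obtain ⟨c, hc⟩ := (Submodule.mem_span_range_iff_exists_fun P).mp (hg b)
  refine ⟨fun i => redS w (c i), ?_⟩
  have := congrArg (redB (S := P) w) hc
  rw [redB_smul] at this
  rw [← this, map_sum]
  exact Finset.sum_congr rfl fun i _ => (redB_smul w (c i) (x i)).symm

theorem isDomain_quotient_span_of_prime {w : P} (hw : Prime w) :
    IsDomain (P ⧸ Ideal.span {w}) := by
  have : (Ideal.span {w}).IsPrime := (Ideal.span_singleton_prime hw.ne_zero).mpr hw
  exact Ideal.Quotient.isDomain _

/-- A basis of the special fibre has as many elements as a quasi-basis. -/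
theorem card_eq_of_quasi {w : P} (hw : Prime w) {n n' : ℕ} (x : Fin n → B)
    (hli : LinearIndependent P x) (g : P) (hgw : ¬ w ∣ g)
    (hg : ∀ b : B, g • b ∈ Submodule.span P (Set.range x))
    (bb : Module.Basis (Fin n') (P ⧸ Ideal.span {w})
      (B ⧸ (Ideal.span {w}).map (algebraMap P B))) : n' = n := by
  have hdom : IsDomain (P ⧸ Ideal.span {w}) := isDomain_quotient_span_of_prime hw
  have hg0 : redS w g ≠ 0 := fun h => hgw ((redS_eq_zero_iff w g).mp h)
  apply le_antisymm
  · -- `ḡ • bb` is linearly independent inside `span x̄`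
    have hv : LinearIndependent (P ⧸ Ideal.span {w}) fun j => redS w g • bb j := by
      rw [Fintype.linearIndependent_iff]
      intro a ha j
      have h1 : ∑ j, (a j * redS w g) • bb j = 0 := by
        rw [← ha]
        exact Finset.sum_congr rfl fun j _ => mul_smul _ _ _
      have h2 := Fintype.linearIndependent_iff.mp bb.linearIndependent _ h1 j
      exact (mul_eq_zero.mp h2).resolve_right hg0
    have hsub : Set.range (fun j => redS w g • bb j) ≤
        Submodule.span (P ⧸ Ideal.span {w}) (Set.range fun i => redB (S := P) w (x i)) := by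
      rintro _ ⟨j, rfl⟩
      obtain ⟨c, hc⟩ := exists_red_coef (w := w) x g hg (bb j)
      simp only [SetLike.mem_coe]
      rw [hc]
      exact Submodule.sum_mem _ fun i _ => Submodule.smul_mem _ _ (Submodule.subset_span ⟨i, rfl⟩)
    classical
    have h3 := linearIndependent_le_span_aux' _ hv _ hsub
    have h4 := Fintype.card_range_le (fun i => redB (S := P) w (x i))
    simpa using h3.trans h4
  · have hxb := linearIndependent_red_of_quasi hw x hli g hgw hg
    have hfin : Module.Finite (P ⧸ Ideal.span {w})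
        (B ⧸ (Ideal.span {w}).map (algebraMap P B)) := Module.Finite.of_basis bb
    have h1 := hxb.fintype_card_le_finrank
    rw [Module.finrank_eq_card_basis bb] at h1
    simpa using h1

end Final

section Final2

variable {P : Type u} {B : Type v} [CommRing P] [IsDomain P] [IsIntegrallyClosed P]
  [CommRing B] [IsDomain B] [IsIntegrallyClosed B] [Algebra P B] [Module.Finite P B]
  [Module.IsTorsionFree P B]

/-- **The integral trace commutes with reduction mod `w`** (quasi-basis version). -/
theorem trace_red_of_quasi {w : P} (hw : Prime w) {n : ℕ} (x : Fin n → B)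
    (hli : LinearIndependent P x) (g : P) (hgw : ¬ w ∣ g)
    (hg : ∀ b : B, g • b ∈ Submodule.span P (Set.range x))
    (bb : Module.Basis (Fin n) (P ⧸ Ideal.span {w})
      (B ⧸ (Ideal.span {w}).map (algebraMap P B))) (β : B) :
    Algebra.trace (P ⧸ Ideal.span {w}) (B ⧸ (Ideal.span {w}).map (algebraMap P B))
      (redB (S := P) w β) = redS w (Algebra.intTrace P B β) := by
  have hdom : IsDomain (P ⧸ Ideal.span {w}) := isDomain_quotient_span_of_prime hw
  have hgb0 : redS w g ≠ 0 := fun h => hgw ((redS_eq_zero_iff w g).mp h)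
  have hg0 : g ≠ 0 := by
    rintro rfl
    exact hgw (dvd_zero w)
  obtain ⟨c, hc⟩ := exists_coef_of_smul_mem x g hg
  -- generic side
  have e1 : g * Algebra.intTrace P B β = ∑ i, c (β * x i) i :=
    mul_intTrace_eq_sum_of_quasi x hli g hg0 hg β (fun i j => c (β * x j) i)
      (fun j => hc (β * x j))
  -- special side
  choose N hN using fun j => exists_red_coef (w := w) x g hg (bb j)
  have hdet := (det_toMatrix_ne_zero bb (fun i => redB (S := P) w (x i)) (redS w g) hgb0
    (Matrix.of fun i j => N j i) (fun j => by simpa using hN j)).2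
  have e2 := mul_trace_eq_trace_of_quasi bb (fun i => redB (S := P) w (x i)) hdet (redS w g)
    (redB (S := P) w β) (Matrix.of fun i j => redS w (c (β * x j) i)) (fun j => by
      have := congrArg (redB (S := P) w) (hc (β * x j))
      rw [redB_smul, map_mul, map_sum] at this
      rw [this]
      exact Finset.sum_congr rfl fun i _ => redB_smul w _ _)
  have e3 : redS w g * Algebra.trace (P ⧸ Ideal.span {w})
      (B ⧸ (Ideal.span {w}).map (algebraMap P B)) (redB (S := P) w β) =
      redS w g * redS w (Algebra.intTrace P B β) := by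
    rw [e2, ← map_mul, e1, map_sum]
    rfl
  exact mul_left_cancel₀ hgb0 e3

end Final2

/-- **A3 (discriminant reduction mod `w`).** -/
theorem discrRed.{u₁, v₁} : DiscrRedStatement.{u₁, v₁} := by
  intro P _ _ _ B _ _ _ _ _ _ w hw 𝔪 h𝔪 hwm n x hx n' bb
  obtain ⟨hli, g, hgm, hg⟩ := hx
  have hgw : ¬ w ∣ g := fun h => hgm (Ideal.mem_of_dvd 𝔪 h hwm)
  have hnn : n' = n := card_eq_of_quasi hw x hli g hgw hg bb
  subst hnn
  refine ⟨rfl, ?_⟩
  have hdom : IsDomain (P ⧸ Ideal.span {w}) := isDomain_quotient_span_of_prime hw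
  have hgb0 : redS w g ≠ 0 := fun h => hgw ((redS_eq_zero_iff w g).mp h)
  choose N hN using fun j => exists_red_coef (w := w) x g hg (bb j)
  obtain ⟨hMN, hdet⟩ := det_toMatrix_ne_zero bb (fun i => redB (S := P) w (x i)) (redS w g) hgb0
    (Matrix.of fun i j => N j i) (fun j => by simpa using hN j)
  obtain ⟨u, hu⟩ := Ideal.Quotient.mk_surjective (bb.toMatrix fun i => redB (S := P) w (x i)).det
  obtain ⟨v, hv⟩ := Ideal.Quotient.mk_surjective (Matrix.of fun i j => N j i).det
  refine ⟨u, ?_, ?_⟩
  · intro hum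
    have h1 : redS w (u * v - g ^ n') = 0 := by
      rw [map_sub, map_mul, map_pow]
      change Ideal.Quotient.mk _ u * Ideal.Quotient.mk _ v - _ = 0
      rw [hu, hv, hMN, sub_self]
    rw [redS_eq_zero_iff] at h1
    have h2 : u * v - g ^ n' ∈ 𝔪 := Ideal.mem_of_dvd 𝔪 h1 hwm
    have h3 : g ^ n' ∈ 𝔪 := by
      have := 𝔪.sub_mem (𝔪.mul_mem_right v hum) h2
      simpa using this
    exact hgm (h𝔪.mem_of_pow_mem n' h3)
  · rw [hu]
    have hx' : (fun i => redB (S := P) w (x i)) =
        Matrix.vecMul (⇑bb) ((bb.toMatrix fun i => redB (S := P) w (x i)).map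
          (algebraMap (P ⧸ Ideal.span {w}) (B ⧸ (Ideal.span {w}).map (algebraMap P B)))) := by
      funext j
      rw [← Module.Basis.sum_toMatrix_smul_self bb (fun i => redB (S := P) w (x i)) j]
      simp only [Matrix.vecMul, dotProduct, Matrix.map_apply, Algebra.smul_def]
      exact Finset.sum_congr rfl fun i _ => mul_comm _ _
    rw [← Algebra.discr_of_matrix_vecMul, ← hx', Algebra.discr_def, intDiscr, RingHom.map_det]
    congr 1
    ext i j
    simp only [RingHom.mapMatrix_apply, Matrix.map_apply, Matrix.of_apply,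
      Algebra.traceMatrix_apply, Algebra.traceForm_apply]
    rw [← map_mul]
    exact (trace_red_of_quasi hw x hli g hgw hg bb (x i * x j)).symm

end Fermat.Agent.S18.B12.H203

end
end
-- ===== PACK-END S18/B12/H203/DiscrRed.lean

-- ===== PACK-BEGIN A2/Alg/H609/ChartFacts.lean
section



/-!
# WALL A2 / ALG (helper609): facts on a chart of `ChartCtx`

For a chart `B` (the integral closure of `R[x]` in `F`, `R` a discrete valuation ring with
uniformiser `w`):

* `isIntegral_aeval_chart` : `B` is integral over `R[X]` via `X ↦ x`;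
* `isDedekindDomain_quotient_chart` : for a prime `p ∋ w` with `B ⧸ p` integrally closed,
  `B ⧸ p` is a Dedekind domain;
* `algebraMap_field_mem` : a valuation subring of `F` containing `B` and `w⁻¹` contains `E`.
-/

set_option autoImplicit false

namespace Fermat.Agent.A2.Alg.H609

open Polynomial Fermat.Agent.A2 Fermat.Agent.A2.Alg

section Integral

variable {R F : Type*} [CommRing R] [Field F] [Algebra R F]

theorem self_mem_chart (x : F) (B : Subalgebra R F)
    (hB : ∀ f : F, f ∈ B ↔ IsIntegral (Algebra.adjoin R ({x} : Set F)) f) : x ∈ B := by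
  rw [hB]
  have h : IsIntegral (Algebra.adjoin R ({x} : Set F))
      (algebraMap (Algebra.adjoin R ({x} : Set F)) F
        ⟨x, Algebra.self_mem_adjoin_singleton R x⟩) := isIntegral_algebraMap
  exact h

/-- The chart is integral over `R[X]`. -/
theorem isIntegral_aeval_chart (x : F) (B : Subalgebra R F)
    (hB : ∀ f : F, f ∈ B ↔ IsIntegral (Algebra.adjoin R ({x} : Set F)) f) :
    (aeval (R := R) (⟨x, self_mem_chart x B hB⟩ : B)).toRingHom.IsIntegral := by
  have hxB := self_mem_chart x B hB
  have hle : Algebra.adjoin R ({x} : Set F) ≤ B :=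
    Algebra.adjoin_le (Set.singleton_subset_iff.2 hxB)
  let ι : Algebra.adjoin R ({x} : Set F) →+* B := (Subalgebra.inclusion hle).toRingHom
  let σ : R[X] →+* Algebra.adjoin R ({x} : Set F) :=
    (aeval (R := R) (⟨x, Algebra.self_mem_adjoin_singleton R x⟩ :
      Algebra.adjoin R ({x} : Set F))).toRingHom
  have hσ : Function.Surjective σ := by
    rintro ⟨a, ha⟩
    have ha' := ha
    rw [Algebra.adjoin_singleton_eq_range_aeval] at ha'
    obtain ⟨Q, hQ⟩ := ha'
    refine ⟨Q, Subtype.ext ?_⟩
    change ((aeval (R := R) (⟨x, Algebra.self_mem_adjoin_singleton R x⟩ :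
      Algebra.adjoin R ({x} : Set F)) Q : Algebra.adjoin R ({x} : Set F)) : F) = a
    rw [← hQ]
    exact (Polynomial.aeval_algHom_apply (Algebra.adjoin R ({x} : Set F)).val
      (⟨x, Algebra.self_mem_adjoin_singleton R x⟩ : Algebra.adjoin R ({x} : Set F)) Q).symm
  have hι : ι.IsIntegral := by
    intro b
    obtain ⟨Q, hQm, hQ⟩ := (hB b).1 b.2
    refine ⟨Q, hQm, Subtype.ext ?_⟩
    have h := Polynomial.hom_eval₂ Q ι B.val.toRingHom b
    change ((eval₂ ι b Q : B) : F) = 0
    have h' : ((eval₂ ι b Q : B) : F) = eval₂ (B.val.toRingHom.comp ι) (b : F) Q := h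
    rw [h']
    exact hQ
  have hcomp : (aeval (R := R) (⟨x, hxB⟩ : B)).toRingHom = ι.comp σ := by
    refine Polynomial.ringHom_ext (fun r => ?_) ?_
    · simp only [AlgHom.toRingHom_eq_coe, RingHom.coe_coe, aeval_C, RingHom.comp_apply, σ, ι,
        AlgHom.commutes]
    · simp only [AlgHom.toRingHom_eq_coe, RingHom.coe_coe, aeval_X, RingHom.comp_apply, σ, ι]
      rfl
  rw [hcomp]
  exact RingHom.IsIntegral.trans σ ι (RingHom.isIntegral_of_surjective σ hσ) hι

end Integral

section Chart

variable {R E F : Type*} [CommRing R] [IsDomain R] [IsDiscreteValuationRing R]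
  [Field E] [CharZero E] [Algebra R E] [IsFractionRing R E]
  [Field F] [Algebra E F] [Algebra R F] [IsScalarTower R E F]

omit [CharZero E] [IsFractionRing R E] [IsScalarTower R E F] in
/-- The components of the special fibre of a chart are Dedekind. -/
theorem isDedekindDomain_quotient_chart (w : R) (x : F) (B : Subalgebra R F)
    (hB : ChartCtx E w x B) [IsNoetherianRing B] (p : Ideal B) [p.IsPrime]
    (hwp : algebraMap R B w ∈ p) [IsIntegrallyClosed (B ⧸ p)] : IsDedekindDomain (B ⧸ p) := by
  have hmax : (Ideal.span {w}).IsMaximal := by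
    rw [← hB.hw.maximalIdeal_eq]
    exact IsLocalRing.maximalIdeal.isMaximal R
  exact isDedekindDomain_quotient hmax _ (isIntegral_aeval_chart x B hB.hB) p hwp

omit [CharZero E] in
/-- A valuation subring of `F` containing `R` and `w⁻¹` contains `E`. -/
theorem algebraMap_field_mem {w : R} (hw : Irreducible w) (V : ValuationSubring F)
    (hR : ∀ r : R, algebraMap R F r ∈ V) (hwV : (algebraMap R F w)⁻¹ ∈ V) (e : E) :
    algebraMap E F e ∈ V := by
  obtain ⟨a, b, hb, rfl⟩ := IsFractionRing.div_surjective (A := R) e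
  have hb0 : b ≠ 0 := nonZeroDivisors.ne_zero hb
  obtain ⟨k, ε, hε⟩ := IsDiscreteValuationRing.eq_unit_mul_pow_irreducible hb0 hw
  rw [map_div₀, ← IsScalarTower.algebraMap_apply, ← IsScalarTower.algebraMap_apply]
  have h1 : algebraMap R F a / algebraMap R F b =
      algebraMap R F a * algebraMap R F ((ε⁻¹ : Rˣ) : R) * (algebraMap R F w)⁻¹ ^ k := by
    have hεF : algebraMap R F (ε : R) * algebraMap R F ((ε⁻¹ : Rˣ) : R) = 1 := by
      rw [← map_mul, Units.mul_inv, map_one]
    have hεinv : (algebraMap R F (ε : R))⁻¹ = algebraMap R F ((ε⁻¹ : Rˣ) : R) :=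
      inv_eq_of_mul_eq_one_right hεF
    rw [hε, map_mul, map_pow, inv_pow, div_eq_mul_inv, mul_inv, hεinv, mul_assoc]
  rw [h1]
  exact V.mul_mem _ _ (V.mul_mem _ _ (hR a) (hR _)) (V.pow_mem hwV k)

end Chart

end Fermat.Agent.A2.Alg.H609

end
-- ===== PACK-END A2/Alg/H609/ChartFacts.lean

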