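import Mathlib
import Fermat.Prelude.Def_AlgebraicCurve_BaseChangeGalois
import Fermat.Agent.Pack.S44.G0E19L3
import Fermat.Agent.Pack.S44.G0E6L0
import Fermat.Agent.Pack.S44.G0E6L3
import Fermat.Agent.Pack.S44.G0E10L2
import Fermat.Agent.Pack.S44.G0E16L1
import Fermat.Agent.Pack.S44.G0E19L2
import Fermat.Agent.Pack.S44.G0E18L3
import Fermat.Agent.Pack.S44.G0E12L1
import Fermat.Agent.Pack.S44.G0E18L1
import Fermat.Agent.Pack.S44.G0E18L2
import Fermat.Agent.Pack.S44.G0E9L3
import Fermat.Agent.Pack.S44.G0E15L0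
import Fermat.Agent.Pack.S44.G0E10L1
import Fermat.Agent.Pack.S44.G0E17L2
import Fermat.Agent.Pack.S44.G0E4L0
import Fermat.Agent.Pack.S44.G0E19L1
import Fermat.Agent.Pack.S44.G0E5L1
import Fermat.Agent.Pack.S44.G0E17L3
import Fermat.Agent.Pack.S44.G0E5L2

-- ===== PACK-BEGIN S28/H867/Core.lean
section








set_option autoImplicit false
noncomputable section
open ModularCurve HahnSeries IntermediateField Polynomial

namespace Fermat.Agent.S28.H867

section Psi

theorem gFun_eq_dedekindPsi : ∀ {N : ℕ}, N ≠ 0 → gFun N = dedekindPsi N := by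
  intro N
  induction N using Nat.strong_induction_on with
  | _ N ih =>
    intro hN
    rcases Nat.lt_or_ge 1 N with hN1 | hN1
    swap
    · have : N = 1 := by omega
      subst this
      rw [gFun_one, dedekindPsi_one]
    have hpp : N.minFac.Prime := Nat.minFac_prime (by omega)
    have hpN : N.minFac ∣ N := Nat.minFac_dvd N
    have hNe : N / N.minFac * N.minFac = N := Nat.div_mul_cancel hpN
    have hM0 : N / N.minFac ≠ 0 := fun h0 => hN (by rw [← hNe, h0, zero_mul])
    have hlt : N / N.minFac < N := Nat.div_lt_self (by omega) hpp.one_lt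
    have ihM := ih _ hlt hM0
    by_cases hd : N.minFac ∣ N / N.minFac
    · calc gFun N = gFun (N / N.minFac * N.minFac) := by rw [hNe]
        _ = N.minFac * gFun (N / N.minFac) := gFun_mul_of_dvd hM0 hpp hd
        _ = N.minFac * dedekindPsi (N / N.minFac) := by rw [ihM]
        _ = dedekindPsi (N / N.minFac * N.minFac) := (H626.psi_mul_prime_of_dvd hM0 hpp hd).symm
        _ = dedekindPsi N := by rw [hNe]
    · calc gFun N = gFun (N / N.minFac * N.minFac) := by rw [hNe]
        _ = (N.minFac + 1) * gFun (N / N.minFac) := gFun_mul_of_not_dvd hM0 hpp hd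
        _ = (N.minFac + 1) * dedekindPsi (N / N.minFac) := by rw [ihM]
        _ = dedekindPsi (N / N.minFac * N.minFac) :=
            (H626.psi_mul_prime_of_not_dvd hM0 hpp hd).symm
        _ = dedekindPsi N := by rw [hNe]

end Psi

section Adapters

variable (k : Type*) [Field k]

/-- Leaf [L.I] from helper145's `eq_zero_of_sum_qExpand_mul_pow_eq_zero`. -/
theorem leafI (p : ℕ) [NeZero p] : LeafI k p := by
  intro B hB
  rw [Fintype.linearIndependent_iff]
  intro g hg i
  have hc : ∀ i, ∃ c : LaurentSeries k, qExpand k p c = (g i : LaurentSeries k) := by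
    intro i
    obtain ⟨c, hc⟩ := hB (g i).2
    exact ⟨c, hc⟩
  choose c hc using hc
  have h : ∑ i : Fin p, qExpand k p (c i) * (jqModC k) ^ (i : ℕ) = 0 := by
    rw [← hg]
    refine Finset.sum_congr rfl fun i _ => ?_
    rw [hc i]
    rfl
  have := H145.eq_zero_of_sum_qExpand_mul_pow_eq_zero p (jqModC k) (H145.jqModC_ne_zero' k)
    (H145.isCoprime_order_jqModC k p) c h i
  apply Subtype.ext
  rw [← hc i, this, map_zero]
  rfl

/-- Leaf [L.B1] from helper88's `h88_jp_not_mem_jField`. -/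
theorem leafB1 (p : ℕ) [NeZero p] (hp : p.Prime) (hpk : (p : k) ≠ 0) (W : UnitPolyData p)
    (hθ : (thetaL ℤ (jqModC ℤ)) ^ 6 = deltaL ℤ * (jqModC ℤ) ^ 4 * (jqModC ℤ - 1728) ^ 3) :
    LeafB1 k p :=
  h88_jp_not_mem_jField k p hpk hp.one_lt W hθ

/-- `ModPolyData` in helper626's hypothesis form. -/
theorem isModPoly_of_modPolyData {p : ℕ} [NeZero p] (D : ModPolyData p) :
    H626.IsModPoly p D.Φ := by
  have hev : ∀ y x : LaurentSeries ℤ, H626.ev2 D.Φ y x = D.Φ.eval₂ (evalAt y) x := by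
    intro y x
    unfold H626.ev2
    congr 1
    apply Polynomial.ringHom_ext
    · intro a; simp [evalAt]
    · simp [evalAt]
  refine ⟨D.monic, D.natDegree_eq, ?_, ?_⟩
  · rw [hev]; exact D.eval_jp
  · rw [hev]; exact D.eval_j

end Adapters

end Fermat.Agent.S28.H867

namespace Fermat.Agent.S28.H867

section Assembly

variable (k : Type*) [Field k]

theorem hasModPolys (N : ℕ)
    (hΦ : ∀ p : ℕ, p.Prime → p ∣ N → ∀ [NeZero p], Nonempty (ModPolyData p))
    (hchar : ∀ p : ℕ, p.Prime → p ∣ N → (p : k) ≠ 0) : H626.HasModPolys k N := by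
  intro p hp hpN
  have : NeZero p := ⟨hp.ne_zero⟩
  obtain ⟨D⟩ := hΦ p hp hpN
  exact ⟨hchar p hp hpN, D.Φ, isModPoly_of_modPolyData D⟩

/-- The upper bound in `relfinrank` form. -/
theorem degE_le_gFun (M : ℕ) (hM : M ≠ 0) (H : H626.HasModPolys k M) : degE k M ≤ gFun M := by
  have : NeZero M := ⟨hM⟩
  rw [gFun_eq_dedekindPsi hM, degE, relfinrank_eq_finrank_of_le (jField_le_EF k M)]
  exact H626.finrank_extendScalars_le M H

theorem good_of_inputs (N : ℕ) (hN : N ≠ 0)
    (hΦ : ∀ p : ℕ, p.Prime → p ∣ N → ∀ [NeZero p], Nonempty (ModPolyData p))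
    (hW : ∀ p : ℕ, p.Prime → p ∣ N → ∀ [NeZero p], Nonempty (UnitPolyData p))
    (hθ : (thetaL ℤ (jqModC ℤ)) ^ 6 = deltaL ℤ * (jqModC ℤ) ^ 4 * (jqModC ℤ - 1728) ^ 3)
    (hchar : ∀ p : ℕ, p.Prime → p ∣ N → (p : k) ≠ 0) : Good k N where
  ne_zero := hN
  modPoly := hΦ
  prime := by
    intro p hp hpN _
    obtain ⟨D⟩ := hΦ p hp hpN
    obtain ⟨W⟩ := hW p hp hpN
    exact primeLevel_of_leaves k hp D (leafI k p) (leafB1 k p hp (hchar p hp hpN) W hθ)
  indep := fun p _ _ _ => leafI k p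
  upper := by
    intro M hMN
    have hM : M ≠ 0 := fun h0 => hN (by rw [h0] at hMN; exact Nat.eq_zero_of_zero_dvd hMN)
    exact degE_le_gFun k M hM ((hasModPolys k N hΦ hchar).mono hMN)

variable {k} in
/-- Extraction of `ψ(N)` independent elements. -/
theorem Good.exists_linearIndependent {N : ℕ} (h : Good k N) :
    ∃ x : Fin (dedekindPsi N) → LaurentSeries k,
      (∀ i, x i ∈ modularFunctionFieldFullC k N) ∧ LinearIndependent (jField k) x := by
  have hdeg : degE k N = dedekindPsi N := by rw [h.degE_eq, gFun_eq_dedekindPsi h.ne_zero]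
  have hle := jField_le_EF k N
  rw [degE, relfinrank_eq_finrank_of_le hle] at hdeg
  obtain ⟨x, hx⟩ : ∃ x : Fin (dedekindPsi N) → extendScalars hle,
      LinearIndependent (jField k) x :=
    exists_linearIndependent_of_le_finrank hdeg.ge
  refine ⟨fun i => (x i : LaurentSeries k), fun i => (x i).2, ?_⟩
  have := hx.map' (extendScalars hle).val.toLinearMap
    (LinearMap.ker_eq_bot.mpr (extendScalars hle).val.injective)
  exact this

end Assembly

section Final

/-- **[L]** `CoreData` from the three analytic inputs. -/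
theorem coreData_of_inputs (N : ℕ) [NeZero N] (ℓ : ℕ) [Fact ℓ.Prime] (hℓN : ¬ ℓ ∣ N)
    (K : Type) [Field K] [CharP K ℓ]
    (hΦ : ∀ p : ℕ, p.Prime → p ∣ N → ∀ [NeZero p], Nonempty (ModPolyData p))
    (hW : ∀ p : ℕ, p.Prime → p ∣ N → ∀ [NeZero p], Nonempty (UnitPolyData p))
    (hθ : (thetaL ℤ (jqModC ℤ)) ^ 6 = deltaL ℤ * (jqModC ℤ) ^ 4 * (jqModC ℤ - 1728) ^ 3) :
    CoreData N K := by
  have hN : N ≠ 0 := NeZero.ne N
  have hcharK : ∀ p : ℕ, p.Prime → p ∣ N → (p : K) ≠ 0 := by
    intro p hp hpN h0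
    have hdvd : ℓ ∣ p := (CharP.cast_eq_zero_iff K ℓ p).mp h0
    have hℓ : ℓ.Prime := Fact.out
    have : ℓ = p := (Nat.prime_dvd_prime_iff_eq hℓ hp).mp hdvd
    exact hℓN (this ▸ hpN)
  have hcharQ : ∀ p : ℕ, p.Prime → p ∣ N → (p : ℚ) ≠ 0 := by
    intro p hp _
    exact_mod_cast hp.ne_zero
  have hgood : Good K N := good_of_inputs K N hN hΦ hW hθ hcharK
  refine H325.coreData_of_bounds N K (RingHom.id K) (dedekindPsi N)
    (coreData_integral N hΦ) ?_ hgood.exists_linearIndependent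
  intro m x hx hli
  have := H626.card_le_of_linearIndependent (k := ℚ) N (hasModPolys ℚ N hΦ hcharQ) x hx hli
  simpa using this

end Final

end Fermat.Agent.S28.H867

end
end
-- ===== PACK-END S28/H867/Core.lean

-- ===== PACK-BEGIN S29/H222/ESKNorm.lean
section
/-
S29 / helper222 — piece ESK, part 3: the Hecke correspondence on divisors of functions
(`T_ℓ (div y) = div (Nm_α (β y))`, from the Prelude's `HeckeInputsAlong`), and the integral
Kronecker norm `K(U) = kronNorm ℓ (σ U)` with its reduction.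
-/


set_option autoImplicit false
set_option linter.style.haveILetI false

noncomputable section

namespace Fermat.Agent.S29.H222

open ModularCurve AlgebraicCurve HahnSeries IsLocalRing
open Fermat.Agent.S18 (Qb IsInt toF CoreStatement)
open Fermat.Agent.S37.H400 (kronNorm)

variable {A : ValuationSubring Qb} {N : ℕ}

/-! ### Characteristic of the residue field -/

theorem charP_residueField_of_liesOver {ℓ : ℕ} (hℓ : ℓ.Prime) (hA : A.LiesOverPrime ℓ) :
    CharP (ResidueField A) ℓ := by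
  rw [CharP.charP_iff_prime_eq_zero hℓ]
  have h1 : ((ℓ : A) : Qb) ∈ A.nonunits := by
    have : ((ℓ : A) : Qb) = (ℓ : Qb) := by simp
    rw [this]; exact hA
  have h2 : (ℓ : A) ∈ maximalIdeal A := ValuationSubring.coe_mem_nonunits_iff.mp h1
  have h3 : residue A (ℓ : A) = 0 := (residue_eq_zero_iff _).mpr h2
  rw [← h3, map_natCast]

/-! ### The Hecke correspondence on divisors of functions -/

section Hecke

variable [NeZero N] {ℓ : ℕ} [NeZero ℓ]

omit [NeZero N] in
/-- `β^* (div y) = div (β y)`. -/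
theorem isDivOf_pullbackAlong_beta
    [HasPrincipalDivisors Qb (laurentBaseChange Qb (modularFunctionFieldFull (N * ℓ)))]
    (hβ : HeckeBetaBarIntegral Qb N ℓ)
    {y : modularFunctionFieldBar N} {E : Divisor Qb (modularFunctionFieldBar N)}
    (hE : IsDivOf y E) :
    IsDivOf (K := Qb) (heckeBetaBar Qb N ℓ y)
      (Divisor.pullbackAlong (heckeBetaBar Qb N ℓ) hβ E) := by
  intro w
  letI := algebraAlong (heckeBetaBar Qb N ℓ)
  haveI := isScalarTower_along (heckeBetaBar Qb N ℓ)
  haveI := isIntegral_along (heckeBetaBar Qb N ℓ) hβ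
  exact Divisor.pullback_apply_eq_ord hE w

/-- `α_* (div z) = div (Nm_α z)`. -/
theorem isDivOf_pushforwardAlong_alpha
    (hα : HeckeAlphaBarIntegral Qb N ℓ) (hfin : FiniteAlong Qb (heckeAlphaBar Qb N ℓ))
    (hN : NormFormulaAlong Qb (heckeAlphaBar Qb N ℓ) hfin)
    {z : laurentBaseChange Qb (modularFunctionFieldFull (N * ℓ))} (hz : z ≠ 0)
    {E : Divisor Qb (laurentBaseChange Qb (modularFunctionFieldFull (N * ℓ)))}
    (hE : IsDivOf z E) :
    IsDivOf (K := Qb)
      (letI := algebraAlong (heckeAlphaBar Qb N ℓ)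
       Algebra.norm (modularFunctionFieldBar N) z)
      (Divisor.pushforwardAlong (heckeAlphaBar Qb N ℓ) hα E) := by
  intro v
  letI := algebraAlong (heckeAlphaBar Qb N ℓ)
  haveI := isScalarTower_along (heckeAlphaBar Qb N ℓ)
  haveI := isIntegral_along (heckeAlphaBar Qb N ℓ) hα
  haveI : Module.Finite (modularFunctionFieldBar N)
    (laurentBaseChange Qb (modularFunctionFieldFull (N * ℓ))) := hfin
  exact hN z hz E hE v

/-- `T_ℓ (div y) = div (heckeNorm y)` on divisors. -/
theorem isDivOf_heckeDivBar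
    [HasPrincipalDivisors Qb (laurentBaseChange Qb (modularFunctionFieldFull (N * ℓ)))]
    (hα : HeckeAlphaBarIntegral Qb N ℓ) (hβ : HeckeBetaBarIntegral Qb N ℓ)
    (hfin : FiniteAlong Qb (heckeAlphaBar Qb N ℓ))
    (hN : NormFormulaAlong Qb (heckeAlphaBar Qb N ℓ) hfin)
    {y : modularFunctionFieldBar N} (hy : y ≠ 0) {E : Divisor Qb (modularFunctionFieldBar N)}
    (hE : IsDivOf y E) :
    IsDivOf (K := Qb) (heckeNorm N ℓ y) (heckeDivBar hα hβ E) := by
  have hβy : heckeBetaBar Qb N ℓ y ≠ 0 := by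
    intro h
    exact hy ((heckeBetaBar Qb N ℓ).toRingHom.injective (by simpa using h))
  exact isDivOf_pushforwardAlong_alpha hα hfin hN hβy (isDivOf_pullbackAlong_beta hβ hE)

end Hecke

end Fermat.Agent.S29.H222

end
end
-- ===== PACK-END S29/H222/ESKNorm.lean

-- ===== PACK-BEGIN S37/Red/H144/Swap.lean
section


/-!
# S37-RED, piece RED-D (route N), part 2: chart dichotomy and the swapped datum (helper144)
-/

set_option autoImplicit false

noncomputable section

namespace Fermat.Agent.S37.Red.H144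

open AlgebraicCurve IntermediateField Polynomial

universe u

variable {K k F Fk : Type u} [Field K] [Field k] [Field F] [Field Fk]
  [Algebra K F] [Algebra k Fk] {A : ValuationSubring K} {π : A →+* k}

/-! ### The chart dichotomy -/

/-- If `F` has a place at all, the coordinate is transcendental over `K`. -/
theorem transcendental_x [IsAlgClosed K] (G : Datum A π F Fk) (hgood : G.Good)
    (P : Place K F) : Transcendental K G.x := by
  intro halg
  have hfin := hgood.finite
  apply P.ne_top'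
  have h1 : Algebra.IsAlgebraic K K⟮G.x⟯ :=
    IntermediateField.isAlgebraic_adjoin_simple halg.isIntegral
  have h2 : Algebra.IsAlgebraic K⟮G.x⟯ F := Algebra.IsAlgebraic.of_finite _ _
  have h3 : Algebra.IsAlgebraic K F := Algebra.IsAlgebraic.trans K K⟮G.x⟯ F
  rw [eq_top_iff]
  intro f _
  obtain ⟨a, rfl⟩ := S24.FF.mem_range_of_isAlgebraic (h3.isAlgebraic f)
  exact P.algebraMap_mem' a

/-- Every place lies in the finite chart or in the chart at infinity. -/
theorem chart_dichotomy [IsAlgClosed K] (G : Datum A π F Fk) (hgood : G.Good)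
    (P : Place K F) :
    (∃ a₀ : A, ValAt P G.x a₀) ∨ (∃ a₀ : A, π a₀ = 0 ∧ ValAt P G.x⁻¹ a₀) := by
  have hx := transcendental_x G hgood P
  have hfin := hgood.finite
  by_cases hmem : G.x ∈ P.toValuationSubring
  · obtain ⟨a, ha⟩ := S24.FF.exists_const_sub_mem_nonunits P hx hmem
    have hav : P.toValuationSubring.valuation (G.x - algebraMap K F a) < 1 := ha
    by_cases haA : a ∈ A
    · exact Or.inl ⟨⟨a, haA⟩, hav⟩
    · right
      have hinv : A.valuation a⁻¹ < 1 := valuation_inv_lt_of_not_mem haA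
      have hinvA : a⁻¹ ∈ A := (A.valuation_le_one_iff _).mp hinv.le
      have ha0 : a ≠ 0 := fun h => haA (h ▸ A.zero_mem)
      refine ⟨⟨a⁻¹, hinvA⟩, pi_eq_zero G _ hinv, ?_⟩
      show P.toValuationSubring.valuation (G.x⁻¹ - algebraMap K F a⁻¹) < 1
      have hx0 := x_ne_zero G
      have hva : P.toValuationSubring.valuation (algebraMap K F a) = 1 := valuation_const P ha0
      have hvx : P.toValuationSubring.valuation G.x = 1 := by
        have h4 : G.x = algebraMap K F a + (G.x - algebraMap K F a) := by ring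
        rw [h4, Valuation.map_add_eq_of_lt_left _ (by rw [hva]; exact hav), hva]
      have haF : algebraMap K F a ≠ 0 := (_root_.map_ne_zero _).mpr ha0
      have h5 : G.x⁻¹ - algebraMap K F a⁻¹ =
          -(G.x - algebraMap K F a) * G.x⁻¹ * (algebraMap K F a)⁻¹ := by
        rw [map_inv₀]
        field_simp
        ring
      rw [h5, map_mul, map_mul, Valuation.map_neg, map_inv₀, map_inv₀, hvx, hva, inv_one,
        mul_one, mul_one]
      exact hav
  · right
    refine ⟨0, map_zero π, ?_⟩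
    show ValAt P G.x⁻¹ (0 : K)
    rw [valAt_zero_iff]
    exact valuation_inv_lt_of_not_mem hmem

/-! ### The swapped datum -/

theorem adjoin_inv_eq' {E L : Type*} [Field E] [Field L] [Algebra E L] (f : L) :
    E⟮f⁻¹⟯ = E⟮f⟯ := by
  apply le_antisymm
  · rw [IntermediateField.adjoin_simple_le_iff]
    exact inv_mem (IntermediateField.mem_adjoin_simple_self E f)
  · rw [IntermediateField.adjoin_simple_le_iff]
    have h := inv_mem (IntermediateField.mem_adjoin_simple_self E f⁻¹)
    rwa [inv_inv] at h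

/-- The datum with coordinate `x⁻¹`. -/
def swap (G : Datum A π F Fk) : Datum A π F Fk :=
  { G with
    x := G.x⁻¹
    x_mem := x_inv_mem G
    xk_transc := by
      rw [rho_x_inv]
      intro h
      apply G.xk_transc
      have := h.inv
      rwa [inv_inv] at this }

@[simp] theorem swap_x (G : Datum A π F Fk) : (swap G).x = G.x⁻¹ := rfl

theorem swap_xk (G : Datum A π F Fk) : (swap G).xk = G.xk⁻¹ := rho_x_inv G

theorem swap_O (G : Datum A π F Fk) : (swap G).O = G.O := rfl

theorem swap_good (G : Datum A π F Fk) (h : G.Good) : (swap G).Good where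
  finite := by
    show FiniteDimensional K⟮G.x⁻¹⟯ F
    rw [adjoin_inv_eq']
    exact h.finite
  finite_k := by
    rw [swap_xk, adjoin_inv_eq']
    exact h.finite_k
  sep_k := by
    rw [swap_xk, adjoin_inv_eq']
    exact h.sep_k
  finrank_eq := by
    show Module.finrank K⟮G.x⁻¹⟯ F = Module.finrank k⟮(swap G).xk⟯ Fk
    rw [swap_xk, adjoin_inv_eq', adjoin_inv_eq']
    exact h.finrank_eq
  lift_fin := by
    intro c hc
    have hc' : c ∈ G.chartk G.xk⁻¹ := by
      rw [← swap_xk]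
      exact hc
    exact h.lift_inf c hc'
  lift_inf := by
    intro c hc
    have hc' : c ∈ G.chartk G.xk := by
      have h1 : c ∈ G.chartk ((swap G).xk)⁻¹ := hc
      rwa [swap_xk, inv_inv] at h1
    obtain ⟨b, hb, hbO, e⟩ := h.lift_fin c hc'
    refine ⟨b, ?_, hbO, e⟩
    show b ∈ G.chart (G.x⁻¹)⁻¹
    rw [inv_inv]
    exact hb
  sat_fin := fun f hf hfK => h.sat_inf f hf hfK
  sat_inf := by
    intro f hf hfK
    show f ∈ G.chart (G.x⁻¹)⁻¹
    have hfK' : f ∈ G.chartK (G.x⁻¹)⁻¹ := hfK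
    rw [inv_inv] at hfK' ⊢
    exact h.sat_fin f hf hfK'

theorem swap_evalCompat (G : Datum A π F Fk) (r : Place K F → Place k Fk)
    (h : EvalCompat G r) : EvalCompat (swap G) r := by
  refine ⟨h.2, ?_⟩
  show EvalCompatAt G r (G.x⁻¹)⁻¹
  rw [inv_inv]
  exact h.1

end Fermat.Agent.S37.Red.H144

end
end
-- ===== PACK-END S37/Red/H144/Swap.lean

-- ===== PACK-BEGIN A3/H499/Orth.lean
section




/-!
# A3 / GR-ORTH (helper499): orthonormal bases of all Riemann–Roch spaces from a base case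

Abstract, instance-free.  Setting = the first fields of `A3.H799.GoodRed`
(`V`, `O`, `res`, `red`, a set `I` of semilinear automorphisms).

* `exists_orthBasis_of_le` (sub-orthonormal lemma): if `e` is an orthonormal family and
  `U ≤ span e` is a `K`-subspace, then `U` has an orthonormal basis; if the `e i` are fixed by
  `I` and `U` is `I`-stable, the basis can be chosen `I`-fixed (the unit-pivot chart of `U` is
  unique, hence has `I`-fixed entries).
* `orthonormal_of_base` : the field `orthonormal` of `GoodRed` for ALL divisors, from the base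
  case "`L(m • B₀)` has an `I`-fixed orthonormal basis for arbitrarily large `m`".
-/

set_option autoImplicit false
set_option linter.unusedSectionVars false
set_option linter.style.longLine false

noncomputable section

open AlgebraicCurve Matrix

namespace Fermat.Agent.A3.H499

variable {K F : Type*} [Field K] [Field F] [Algebra K F]
variable (k : Type*) {Fk : Type*} [Field k] [Field Fk] [Algebra k Fk]

/-- `b` is an orthonormal basis of the `K`-subspace `U` of `F`: it consists of elements of the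
valuation ring `O`, spans `U`, and its reductions are `k`-linearly independent. -/
def IsOrthBasis (O : ValuationSubring F) (red : O →+* Fk) (U : Submodule K F) {n : ℕ}
    (b : Fin n → O) : Prop :=
  LinearIndependent k (fun i => red (b i)) ∧ (∀ i, ((b i : O) : F) ∈ U) ∧
    Submodule.span K (Set.range fun i => ((b i : O) : F)) = U

variable {k}

section Sub

variable (V : ValuationSubring K) (O : ValuationSubring F) (res : V →+* k) (red : O →+* Fk)
variable (algebraMap_mem : ∀ a : K, a ∈ V → algebraMap K F a ∈ O)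
variable (red_algebraMap : ∀ (a : V) (h : algebraMap K F (a : K) ∈ O),
    red ⟨algebraMap K F (a : K), h⟩ = algebraMap k Fk (res a))

include algebraMap_mem red_algebraMap in
/-- **Sub-orthonormal lemma.** -/
theorem exists_orthBasis_of_le {n : ℕ} (e : Fin n → O)
    (he : LinearIndependent k (fun i => red (e i)))
    (U : Submodule K F) (hU : U ≤ Submodule.span K (Set.range fun i => ((e i : O) : F)))
    (I : Set (SemilinearAut K F)) (heI : ∀ g ∈ I, ∀ i, g • ((e i : O) : F) = e i)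
    (hUI : ∀ g ∈ I, ∀ f ∈ U, g • f ∈ U) :
    ∃ (d : ℕ) (u : Fin d → O), IsOrthBasis k O red U u ∧
      ∀ g ∈ I, ∀ a, g • ((u a : O) : F) = u a := by
  classical
  -- coordinates
  let T : (Fin n → K) →ₗ[K] F := Fintype.linearCombination K (fun i => ((e i : O) : F))
  have hT : ∀ c : Fin n → K, T c = ∑ i, c i • ((e i : O) : F) := fun c =>
    Fintype.linearCombination_apply K _ c
  have hrangeT : LinearMap.range T = Submodule.span K (Set.range fun i => ((e i : O) : F)) :=
    Fintype.range_linearCombination K _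
  let W : Submodule K (Fin n → K) := U.comap T
  obtain ⟨B, p, hint, hB, hrange⟩ :=
    Fermat.Agent.S19.H495.exists_integral_basis_matrix V.valuation W
  have hBV : ∀ i a, B i a ∈ V := fun i a => (V.valuation_le_one_iff _).mp (hint i a)
  -- the columns of `B`
  have hcol : ∀ a, B *ᵥ (Pi.single a 1) = fun i => B i a := by
    intro a
    funext i
    simp [Matrix.mulVec, dotProduct, Pi.single_apply]
  have hcolW : ∀ a, (fun i => B i a) ∈ W := by
    intro a
    rw [← hrange, ← hcol a]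
    exact ⟨_, rfl⟩
  -- the new basis
  let u : Fin (Module.finrank K W) → O := fun a =>
    ∑ i, (⟨algebraMap K F (B i a), algebraMap_mem _ (hBV i a)⟩ : O) * e i
  have hu_coe : ∀ a, ((u a : O) : F) = T (fun i => B i a) := by
    intro a
    rw [hT]
    simp only [u]
    push_cast
    refine Finset.sum_congr rfl fun i _ => ?_
    rw [Algebra.smul_def]
  have hu_red : ∀ a, red (u a) = ∑ i, res ⟨B i a, hBV i a⟩ • red (e i) := by
    intro a
    simp only [u]
    rw [map_sum]
    refine Finset.sum_congr rfl fun i _ => ?_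
    rw [map_mul, red_algebraMap ⟨B i a, hBV i a⟩, Algebra.smul_def]
  have hpiv : ∀ b a, res ⟨B (p b) a, hBV (p b) a⟩ = if b = a then 1 else 0 := by
    intro b a
    have h1 : B (p b) a = if b = a then 1 else 0 := by
      have := congrFun (congrFun hB b) a
      simpa [Matrix.submatrix_apply, Matrix.one_apply] using this
    by_cases hba : b = a
    · have h2 : (⟨B (p b) a, hBV (p b) a⟩ : V) = 1 :=
        Subtype.ext (show B (p b) a = 1 by rw [h1, if_pos hba])
      rw [h2, map_one, if_pos hba]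
    · have h2 : (⟨B (p b) a, hBV (p b) a⟩ : V) = 0 :=
        Subtype.ext (show B (p b) a = 0 by rw [h1, if_neg hba])
      rw [h2, map_zero, if_neg hba]
  refine ⟨Module.finrank K W, u, ⟨?_, ?_, ?_⟩, ?_⟩
  · -- independence of the reductions
    rw [Fintype.linearIndependent_iff]
    intro lam hlam b
    have h1 : ∑ i, (∑ a, lam a * res ⟨B i a, hBV i a⟩) • red (e i) = 0 := by
      rw [← hlam]
      simp only [hu_red, Finset.smul_sum, Finset.sum_smul, smul_smul]
      rw [Finset.sum_comm]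
    have h2 := Fintype.linearIndependent_iff.mp he _ h1 (p b)
    simp only [hpiv] at h2
    simpa using h2
  · intro a
    rw [hu_coe]
    exact hcolW a
  · apply le_antisymm
    · rw [Submodule.span_le]
      rintro _ ⟨a, rfl⟩
      show ((u a : O) : F) ∈ U
      rw [hu_coe]
      exact hcolW a
    · intro y hy
      have hy' : y ∈ LinearMap.range T := by
        rw [hrangeT]
        exact hU hy
      obtain ⟨c, rfl⟩ := hy'
      have hc : c ∈ W := hy
      rw [← hrange] at hc
      obtain ⟨x, rfl⟩ := hc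
      have h3 : T (B.mulVecLin x) = ∑ a, x a • ((u a : O) : F) := by
        rw [hT]
        simp only [hu_coe, hT, Matrix.mulVecLin_apply, Matrix.mulVec, dotProduct, Finset.smul_sum,
          Finset.sum_smul, smul_smul]
        rw [Finset.sum_comm]
        refine Finset.sum_congr rfl fun a _ => Finset.sum_congr rfl fun i _ => ?_
        rw [mul_comm]
      rw [h3]
      refine Submodule.sum_mem _ fun a _ => Submodule.smul_mem _ _ ?_
      exact Submodule.subset_span ⟨a, rfl⟩
  · -- invariance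
    intro g hg a
    let c' : Fin n → K := fun i => SemilinearAut.baseAut g (B i a)
    have h4 : g • ((u a : O) : F) = T c' := by
      rw [hu_coe, hT, hT, Finset.smul_sum]
      refine Finset.sum_congr rfl fun i _ => ?_
      rw [Algebra.smul_def, Algebra.smul_def, smul_mul', SemilinearAut.smul_algebraMap, heI g hg]
    have h5 : c' ∈ W := by
      show T c' ∈ U
      rw [← h4]
      refine hUI g hg _ ?_
      rw [hu_coe]
      exact hcolW a
    rw [← hrange] at h5
    obtain ⟨x, hx⟩ := h5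
    have hx' : B *ᵥ x = c' := hx
    have h6 : x = Pi.single a 1 := by
      funext b
      rw [Fermat.Agent.S19.H495.coeff_eq_of_submatrix_eq_one B p hB x b, hx']
      have h1 : B (p b) a = if b = a then 1 else 0 := by
        have := congrFun (congrFun hB b) a
        simpa [Matrix.submatrix_apply, Matrix.one_apply] using this
      show SemilinearAut.baseAut g (B (p b) a) = _
      rw [h1, Pi.single_apply]
      by_cases hba : b = a
      · simp [hba]
      · simp [hba]
    have h7 : c' = fun i => B i a := by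
      rw [← hx', h6, hcol]
    rw [h4, h7, ← hu_coe]

end Sub

section Aux

/-- An element of `O` with non-zero reduction is a unit of `O`. -/
theorem inv_mem_of_red_ne_zero (O : ValuationSubring F) (red : O →+* Fk)
    (hsurj : Function.Surjective red) (f : O) (hf : red f ≠ 0) : ((f : O) : F)⁻¹ ∈ O := by
  have hmax : (RingHom.ker red).IsMaximal := RingHom.ker_isMaximal_of_surjective red hsurj
  have hker : RingHom.ker red = IsLocalRing.maximalIdeal O := IsLocalRing.eq_maximalIdeal hmax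
  have hunit : IsUnit f := by
    by_contra h
    have h1 : f ∈ IsLocalRing.maximalIdeal O := (IsLocalRing.mem_maximalIdeal f).mpr h
    rw [← hker] at h1
    exact hf ((RingHom.mem_ker).mp h1)
  obtain ⟨u, hu⟩ := hunit
  have h2 : ((f : O) : F) * (((u⁻¹ : Oˣ) : O) : F) = 1 := by
    rw [← hu]
    calc ((u : O) : F) * (((u⁻¹ : Oˣ) : O) : F) = (((u : O) * ((u⁻¹ : Oˣ) : O) : O) : F) := rfl
      _ = ((1 : O) : F) := by rw [u.mul_inv]
      _ = 1 := rfl
  rw [← eq_inv_of_mul_eq_one_right h2]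
  exact (((u⁻¹ : Oˣ) : O)).2

/-- Semilinear automorphisms map `L(E)` to `L(g • E)`. -/
theorem smul_mem_L (g : SemilinearAut K F) {E : Divisor K F} {f : F}
    (hf : f ∈ riemannRochSpace E) : g • f ∈ riemannRochSpace (g • E) := by
  rw [Fermat.Agent.Lib.RR.mem_L_iff] at hf ⊢
  intro w
  rcases hf (g⁻¹ • w) with h0 | h1
  · left
    rw [h0, smul_zero]
  · right
    have h2 : (g • (g⁻¹ • w)).ord (g • f) = (g⁻¹ • w).ord f := SemilinearAut.ord_smul g _ f
    rw [smul_inv_smul] at h2
    rw [h2, SemilinearAut.divisor_smul_apply]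
    exact h1

/-- The positive part of a divisor. -/
def posPart (D : Divisor K F) : Divisor K F := D ⊔ 0

theorem posPart_apply (D : Divisor K F) (v : Place K F) : posPart D v = max (D v) 0 := by
  simp [posPart, Finsupp.sup_apply]

theorem le_posPart (D : Divisor K F) : D ≤ posPart D := le_sup_left

theorem posPart_nonneg (D : Divisor K F) : 0 ≤ posPart D := le_sup_right

theorem smul_posPart (g : SemilinearAut K F) {D : Divisor K F} (hD : g • D = D) :
    g • posPart D = posPart D := by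
  ext w
  rw [SemilinearAut.divisor_smul_apply, posPart_apply, posPart_apply]
  have h := SemilinearAut.divisor_smul_apply g D w
  rw [hD] at h
  rw [h]

end Aux

section Main

open Fermat.Agent.Lib.RR

variable [FF1 K F]
variable (V : ValuationSubring K) (O : ValuationSubring F) (res : V →+* k) (red : O →+* Fk)
variable (algebraMap_mem : ∀ a : K, a ∈ V → algebraMap K F a ∈ O)
variable (red_algebraMap : ∀ (a : V) (h : algebraMap K F (a : K) ∈ O),
    red ⟨algebraMap K F (a : K), h⟩ = algebraMap k Fk (res a))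
variable (red_surjective : Function.Surjective red)
variable (I : Set (SemilinearAut K F))
variable (B₀ : Divisor K F) (hB₀ : 0 < Divisor.degree B₀) (hB₀I : ∀ g ∈ I, g • B₀ = B₀)
variable (hbase : ∀ m₀ : ℕ, ∃ m, m₀ ≤ m ∧ ∃ (n : ℕ) (e : Fin n → O),
    IsOrthBasis k O red (riemannRochSpace (m • B₀)) e ∧
      ∀ g ∈ I, ∀ i, g • ((e i : O) : F) = e i)

include algebraMap_mem red_algebraMap red_surjective hB₀ hB₀I hbase in
theorem exists_orthBasis_aux (D : Divisor K F) (J : Set (SemilinearAut K F)) (hJ : J ⊆ I)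
    (hDJ : ∀ g ∈ J, g • D = D) :
    ∃ (n : ℕ) (b : Fin n → O), IsOrthBasis k O red (riemannRochSpace D) b ∧
      ∀ g ∈ J, ∀ i, g • ((b i : O) : F) = b i := by
  classical
  set A : Divisor K F := posPart D with hA
  -- choose `m`
  obtain ⟨m, hm, n, e, ⟨he_ind, he_mem, he_span⟩, heI⟩ :=
    hbase ((genusR K F : ℤ) + Divisor.degree A).toNat
  have hdeg : (genusR K F : ℤ) + Divisor.degree A ≤ Divisor.degree ((m : ℕ) • B₀) := by
    rw [map_nsmul, nsmul_eq_mul]
    have h1 : (genusR K F : ℤ) + Divisor.degree A ≤ (m : ℤ) :=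
      (Int.self_le_toNat _).trans (Int.ofNat_le.mpr hm)
    have h2 : (0 : ℤ) ≤ (m : ℤ) := Int.natCast_nonneg m
    nlinarith
  -- the space `U₁ = L(m B₀ - A)` is non-zero
  have hell : 1 ≤ ell ((m : ℕ) • B₀ - A) := by
    have h1 := riemann_inequality (K := K) (F := F) ((m : ℕ) • B₀ - A)
    rw [map_sub] at h1
    have h2 : (1 : ℤ) ≤ (ell ((m : ℕ) • B₀ - A) : ℤ) := by linarith
    exact_mod_cast h2
  have hU₁le : riemannRochSpace ((m : ℕ) • B₀ - A) ≤
      Submodule.span K (Set.range fun i => ((e i : O) : F)) := by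
    rw [he_span]
    apply L_mono
    have := posPart_nonneg D
    rw [← hA] at this
    exact sub_le_self _ this
  have hJI : ∀ g ∈ J, ∀ i, g • ((e i : O) : F) = e i := fun g hg i => heI g (hJ hg) i
  have hAJ : ∀ g ∈ J, g • A = A := fun g hg => smul_posPart g (hDJ g hg)
  have hU₁J : ∀ g ∈ J, ∀ f ∈ riemannRochSpace ((m : ℕ) • B₀ - A),
      g • f ∈ riemannRochSpace ((m : ℕ) • B₀ - A) := by
    intro g hg f hf
    have h1 := smul_mem_L g hf
    rw [smul_sub, smul_comm g m B₀, hB₀I g (hJ hg), hAJ g hg] at h1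
    exact h1
  obtain ⟨d₁, u₁, ⟨hu₁_ind, hu₁_mem, hu₁_span⟩, hu₁J⟩ :=
    exists_orthBasis_of_le V O res red algebraMap_mem red_algebraMap e he_ind _ hU₁le J hJI hU₁J
  have hd₁ : 0 < d₁ := by
    by_contra h0
    have h0' : d₁ = 0 := by omega
    subst h0'
    have h1 : riemannRochSpace ((m : ℕ) • B₀ - A) = ⊥ := by
      rw [← hu₁_span]
      have : (Set.range fun i : Fin 0 => ((u₁ i : O) : F)) = ∅ := Set.range_eq_empty _
      rw [this, Submodule.span_empty]
    have h2 : ell ((m : ℕ) • B₀ - A) = 0 := by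
      unfold ell
      rw [h1]
      exact finrank_bot K F
    omega
  set h : O := u₁ ⟨0, hd₁⟩ with hh
  have hh_red : red h ≠ 0 := hu₁_ind.ne_zero ⟨0, hd₁⟩
  have hh0 : ((h : O) : F) ≠ 0 := by
    intro h0
    apply hh_red
    have : h = 0 := Subtype.ext h0
    rw [this, map_zero]
  have hh_mem : ((h : O) : F) ∈ riemannRochSpace ((m : ℕ) • B₀ - A) := hu₁_mem _
  have hh_inv : ((h : O) : F)⁻¹ ∈ O := inv_mem_of_red_ne_zero O red red_surjective h hh_red
  have hhJ : ∀ g ∈ J, g • ((h : O) : F) = h := fun g hg => hu₁J g hg _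
  -- the twisted space
  set U₂ : Submodule K F := (riemannRochSpace D).map (LinearMap.mulLeft K ((h : O) : F)) with hU₂
  have hU₂le : U₂ ≤ Submodule.span K (Set.range fun i => ((e i : O) : F)) := by
    rw [he_span]
    rintro _ ⟨f, hf', rfl⟩
    have hf : f ∈ riemannRochSpace D := hf'
    show ((h : O) : F) * f ∈ riemannRochSpace ((m : ℕ) • B₀)
    rw [mem_L_iff] at hf hh_mem ⊢
    intro v
    by_cases hf0 : f = 0
    · left
      rw [hf0, mul_zero]
    · right
      have h1 := (hh_mem v).resolve_left hh0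
      have h2 := (hf v).resolve_left hf0
      have h3 : D v ≤ A v := Finsupp.le_def.mp (le_posPart D) v
      rw [v.ord_mul hh0 hf0]
      rw [Finsupp.sub_apply] at h1
      omega
  have hU₂J : ∀ g ∈ J, ∀ f ∈ U₂, g • f ∈ U₂ := by
    rintro g hg _ ⟨f, hf', rfl⟩
    have hf : f ∈ riemannRochSpace D := hf'
    refine ⟨g • f, ?_, ?_⟩
    · have h1 := smul_mem_L g hf
      rw [hDJ g hg] at h1
      exact h1
    · show ((h : O) : F) * (g • f) = g • (((h : O) : F) * f)
      rw [smul_mul', hhJ g hg]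
  obtain ⟨d₂, u₂, ⟨hu₂_ind, hu₂_mem, hu₂_span⟩, hu₂J⟩ :=
    exists_orthBasis_of_le V O res red algebraMap_mem red_algebraMap e he_ind U₂ hU₂le J hJI hU₂J
  -- untwist
  set hinv : O := ⟨((h : O) : F)⁻¹, hh_inv⟩ with hhinv
  have hmul : h * hinv = 1 := Subtype.ext (mul_inv_cancel₀ hh0)
  have hred_inv : red hinv ≠ 0 := by
    intro h0
    have := congrArg red hmul
    rw [map_mul, h0, mul_zero, map_one] at this
    exact zero_ne_one this
  have hb_coe : ∀ i, (((u₂ i * hinv : O) : O) : F) = ((u₂ i : O) : F) * ((h : O) : F)⁻¹ :=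
    fun i => rfl
  have hb_mem : ∀ i, (((u₂ i * hinv : O) : O) : F) ∈ riemannRochSpace D := by
    intro i
    obtain ⟨f, hf, hfi⟩ := hu₂_mem i
    have hfi' : ((h : O) : F) * f = ((u₂ i : O) : F) := hfi
    rw [hb_coe, ← hfi', mul_comm, ← mul_assoc, inv_mul_cancel₀ hh0, one_mul]
    exact hf
  refine ⟨d₂, fun i => u₂ i * hinv, ⟨?_, hb_mem, ?_⟩, ?_⟩
  · have h1 : (fun i => red (u₂ i * hinv)) =
        (LinearMap.mulRight k (red hinv)) ∘ (fun i => red (u₂ i)) := by
      funext i
      simp [map_mul]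
    rw [h1]
    refine hu₂_ind.map' _ ?_
    rw [LinearMap.ker_eq_bot]
    exact mul_left_injective₀ hred_inv
  · apply le_antisymm
    · rw [Submodule.span_le]
      rintro _ ⟨i, rfl⟩
      exact hb_mem i
    · intro f hf
      have h1 : ((h : O) : F) * f ∈ U₂ := ⟨f, hf, rfl⟩
      rw [← hu₂_span] at h1
      obtain ⟨c, hc⟩ := (Submodule.mem_span_range_iff_exists_fun K).mp h1
      have h2 : f = ∑ i, c i • (((u₂ i * hinv : O) : O) : F) := by
        have h3 : f = ((h : O) : F)⁻¹ * (((h : O) : F) * f) := by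
          rw [← mul_assoc, inv_mul_cancel₀ hh0, one_mul]
        rw [h3, ← hc, Finset.mul_sum]
        refine Finset.sum_congr rfl fun i _ => ?_
        rw [hb_coe, Algebra.smul_def, Algebra.smul_def]
        ring
      rw [h2]
      refine Submodule.sum_mem _ fun i _ => Submodule.smul_mem _ _ ?_
      exact Submodule.subset_span ⟨i, rfl⟩
  · intro g hg i
    show g • (((u₂ i * hinv : O) : O) : F) = ((u₂ i * hinv : O) : F)
    rw [hb_coe, smul_mul', smul_inv'', hu₂J g hg i, hhJ g hg]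

include algebraMap_mem red_algebraMap red_surjective hB₀ hB₀I hbase in
/-- **GR-ORTH.**  The field `orthonormal` of `GoodRed`, for all divisors, from the base case. -/
theorem orthonormal_of_base (D : Divisor K F) :
    ∃ (n : ℕ) (b : Fin n → O),
      LinearIndependent k (fun i => red (b i)) ∧
      (∀ i, ((b i : O) : F) ∈ riemannRochSpace D) ∧
      Submodule.span K (Set.range fun i => ((b i : O) : F)) = riemannRochSpace D ∧
      ((∀ g ∈ I, g • D = D) → ∀ i, ∀ g ∈ I, g • ((b i : O) : F) = ((b i : O) : F)) := by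
  by_cases hD : ∀ g ∈ I, g • D = D
  · obtain ⟨n, b, ⟨h1, h2, h3⟩, h4⟩ :=
      exists_orthBasis_aux V O res red algebraMap_mem red_algebraMap red_surjective I B₀ hB₀ hB₀I
        hbase D I subset_rfl hD
    exact ⟨n, b, h1, h2, h3, fun _ i g hg => h4 g hg i⟩
  · obtain ⟨n, b, ⟨h1, h2, h3⟩, -⟩ :=
      exists_orthBasis_aux V O res red algebraMap_mem red_algebraMap red_surjective I B₀ hB₀ hB₀I
        hbase D ∅ (Set.empty_subset _) (fun g hg => absurd hg (Set.notMem_empty g))
    exact ⟨n, b, h1, h2, h3, fun h => absurd h hD⟩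

include algebraMap_mem red_algebraMap red_surjective hB₀ in
/-- `orthonormal_of_base` for a subgroup `I`, verbatim in the shape of the field
`A3.H799.GoodRed.orthonormal`. -/
theorem orthonormal_of_base_subgroup (I' : Subgroup (SemilinearAut K F))
    (hB₀I' : ∀ g ∈ I', g • B₀ = B₀)
    (hbase' : ∀ m₀ : ℕ, ∃ m, m₀ ≤ m ∧ ∃ (n : ℕ) (e : Fin n → O),
      (LinearIndependent k (fun i => red (e i)) ∧
        (∀ i, ((e i : O) : F) ∈ riemannRochSpace (m • B₀)) ∧
        Submodule.span K (Set.range fun i => ((e i : O) : F)) = riemannRochSpace (m • B₀)) ∧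
        ∀ g ∈ I', ∀ i, g • ((e i : O) : F) = e i) :
    ∀ D : Divisor K F, ∃ (n : ℕ) (b : Fin n → O),
      LinearIndependent k (fun i => red (b i)) ∧
      (∀ i, ((b i : O) : F) ∈ riemannRochSpace D) ∧
      Submodule.span K (Set.range fun i => ((b i : O) : F)) = riemannRochSpace D ∧
      ((∀ g ∈ I', g • D = D) → ∀ i, ∀ g ∈ I', g • ((b i : O) : F) = ((b i : O) : F)) :=
  fun D => orthonormal_of_base V O res red algebraMap_mem red_algebraMap red_surjective
    (I' : Set (SemilinearAut K F)) B₀ hB₀ hB₀I' hbase' D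

end Main

end Fermat.Agent.A3.H499

end

end
-- ===== PACK-END A3/H499/Orth.lean

-- ===== PACK-BEGIN A2/H609/Node.lean
section


/-!
# Node purity, part 9: an ordinary double point of the special fibre

`R` a noetherian local integrally closed domain, `𝔭₁ 𝔭₂` primes with `𝔭₁ ⊓ 𝔭₂ = (π)`,
`𝔭₁ ⊔ 𝔭₂ = 𝔪` and `R ⧸ 𝔭ᵢ` discrete valuation rings (two smooth branches meeting transversally;
no hypothesis on the thickness of the node, no completion).  If `u ∉ 𝔭₁ ∪ 𝔭₂` satisfies
(H1) `m ∣ ord_𝔓 u` at the horizontal primes and (H2) `u` is a unit times an `m`-th power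
modulo each `𝔭ᵢ`, then `u = ε f ^ m`.  Mathlib only.
-/

set_option autoImplicit false

namespace Fermat.Agent.A2.H609

open Ideal

section NodeData

variable {R : Type*} [CommRing R] [IsLocalRing R]
variable (𝔭 𝔮 : Ideal R) [𝔭.IsPrime] [IsDiscreteValuationRing (R ⧸ 𝔭)]

/-- A uniformiser of the branch `𝔭` lying on the other branch `𝔮`. -/
theorem exists_mem_irreducible_mk (hsup : IsLocalRing.maximalIdeal R ≤ 𝔭 ⊔ 𝔮) :
    ∃ x ∈ 𝔮, Irreducible (Ideal.Quotient.mk 𝔭 x) := by
  obtain ⟨ϖ, hϖ⟩ := IsDiscreteValuationRing.exists_irreducible (R ⧸ 𝔭)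
  obtain ⟨z, rfl⟩ := Ideal.Quotient.mk_surjective ϖ
  have hz : z ∈ IsLocalRing.maximalIdeal R := by
    rw [IsLocalRing.mem_maximalIdeal]
    intro h
    exact hϖ.not_isUnit (h.map (Ideal.Quotient.mk 𝔭))
  obtain ⟨z₁, hz₁, z₂, hz₂, rfl⟩ := Submodule.mem_sup.mp (hsup hz)
  refine ⟨z₂, hz₂, ?_⟩
  have h : Ideal.Quotient.mk 𝔭 (z₁ + z₂) = Ideal.Quotient.mk 𝔭 z₂ := by
    rw [Ideal.Quotient.eq, add_sub_cancel_right]
    exact hz₁
  rwa [h] at hϖ

/-- The other branch is generated by the uniformiser and `𝔭 ⊓ 𝔮`. -/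
theorem le_span_sup_inf {x : R} (hx𝔮 : x ∈ 𝔮) (hx : Irreducible (Ideal.Quotient.mk 𝔭 x))
    (h𝔮 : 𝔮 ≤ IsLocalRing.maximalIdeal R) : 𝔮 ≤ Ideal.span {x} ⊔ (𝔭 ⊓ 𝔮) := by
  intro z hz
  obtain ⟨g, hg⟩ := exists_sub_mul_mem_of_mem_maximalIdeal 𝔭 hx (h𝔮 hz)
  have h : z = x * g + (z - x * g) := by ring
  rw [h]
  refine Ideal.add_mem _
    (Ideal.mem_sup_left (Ideal.mem_span_singleton.mpr (Dvd.intro g rfl)))
    (Ideal.mem_sup_right ⟨hg, ?_⟩)
  exact 𝔮.sub_mem hz (𝔮.mul_mem_right _ hx𝔮)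

end NodeData

variable {R : Type*} [CommRing R] [IsDomain R] [IsIntegrallyClosed R] [IsNoetherianRing R]
  [IsLocalRing R]

/-- **Purity at an ordinary double point of the special fibre.** -/
theorem exists_unit_mul_pow_of_node {u π : R} {m : ℕ} (hm : m ≠ 0)
    (𝔭₁ 𝔭₂ : Ideal R) [𝔭₁.IsPrime] [𝔭₂.IsPrime]
    [IsDiscreteValuationRing (R ⧸ 𝔭₁)] [IsDiscreteValuationRing (R ⧸ 𝔭₂)]
    (hinf : 𝔭₁ ⊓ 𝔭₂ = Ideal.span {π}) (hsup : 𝔭₁ ⊔ 𝔭₂ = IsLocalRing.maximalIdeal R)
    (hu₁ : u ∉ 𝔭₁) (hu₂ : u ∉ 𝔭₂)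
    (H1 : ∀ 𝔓 : Ideal R, 𝔓.IsPrime → u ∈ 𝔓 → π ∉ 𝔓 → ∃ f r : R, r ∉ 𝔓 ∧ f ^ m = u * r)
    (H2₁ : ∃ v : R ⧸ 𝔭₁, Associated (v ^ m) (Ideal.Quotient.mk 𝔭₁ u))
    (H2₂ : ∃ v : R ⧸ 𝔭₂, Associated (v ^ m) (Ideal.Quotient.mk 𝔭₂ u)) :
    ∃ (f : R) (ε : Rˣ), u = ε * f ^ m := by
  have h𝔭₁𝔪 : 𝔭₁ ≤ IsLocalRing.maximalIdeal R := hsup ▸ le_sup_left
  have h𝔭₂𝔪 : 𝔭₂ ≤ IsLocalRing.maximalIdeal R := hsup ▸ le_sup_right
  have hπ₁ : π ∈ 𝔭₁ :=
    (inf_le_left : 𝔭₁ ⊓ 𝔭₂ ≤ 𝔭₁) (hinf ▸ Ideal.mem_span_singleton_self π)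
  have hπ₂ : π ∈ 𝔭₂ :=
    (inf_le_right : 𝔭₁ ⊓ 𝔭₂ ≤ 𝔭₂) (hinf ▸ Ideal.mem_span_singleton_self π)
  have hmem_inf : ∀ z : R, z ∈ 𝔭₁ → z ∈ 𝔭₂ → ∃ c : R, z = c * π := by
    intro z h1 h2
    have h : z ∈ 𝔭₁ ⊓ 𝔭₂ := ⟨h1, h2⟩
    rw [hinf] at h
    exact Ideal.mem_span_singleton'.mp h |>.imp fun c hc => hc.symm
  have hu0 : u ≠ 0 := by
    rintro rfl
    exact hu₁ 𝔭₁.zero_mem
  -- uniformisers of the two branches
  obtain ⟨x, hx₂, hx⟩ := exists_mem_irreducible_mk 𝔭₁ 𝔭₂ hsup.ge
  obtain ⟨y, hy₁, hy⟩ := exists_mem_irreducible_mk 𝔭₂ 𝔭₁ (by rw [sup_comm]; exact hsup.ge)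
  have hx₁ : x ∉ 𝔭₁ := fun h => hx.ne_zero (Ideal.Quotient.eq_zero_iff_mem.mpr h)
  have hy₂ : y ∉ 𝔭₂ := fun h => hy.ne_zero (Ideal.Quotient.eq_zero_iff_mem.mpr h)
  have h𝔭₂ : 𝔭₂ ≤ Ideal.span {x} ⊔ Ideal.span {π} := by
    rw [← hinf]
    exact le_span_sup_inf 𝔭₁ 𝔭₂ hx₂ hx h𝔭₂𝔪
  have h𝔭₁ : 𝔭₁ ≤ Ideal.span {y} ⊔ Ideal.span {π} := by
    rw [← hinf, inf_comm]
    exact le_span_sup_inf 𝔭₂ 𝔭₁ hy₁ hy h𝔭₁𝔪
  have h𝔭₂' : 𝔭₂ = Ideal.span {x} ⊔ Ideal.span {π} :=
    le_antisymm h𝔭₂ (sup_le ((Ideal.span_singleton_le_iff_mem _).mpr hx₂)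
      ((Ideal.span_singleton_le_iff_mem _).mpr hπ₂))
  have hπ0 : π ≠ 0 := by
    rintro rfl
    obtain ⟨c, hc⟩ := hmem_inf (x * y) (𝔭₁.mul_mem_left _ hy₁) (𝔭₂.mul_mem_right _ hx₂)
    rw [mul_zero] at hc
    rcases mul_eq_zero.mp hc with h | h
    · exact hx₁ (h ▸ 𝔭₁.zero_mem)
    · exact hy₂ (h ▸ 𝔭₂.zero_mem)
  obtain ⟨a₁, ε₁, hε₁⟩ := exists_mk_eq_unit_mul_pow 𝔭₁ hx hm hu₁ H2₁
  obtain ⟨a₂, ε₂, hε₂⟩ := exists_mk_eq_unit_mul_pow 𝔭₂ hy hm hu₂ H2₂
  have hreg : ∀ z : R, π ∣ u * z → π ∣ z := by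
    intro z hz
    have h1 : u * z ∈ 𝔭₁ ⊓ 𝔭₂ := by
      rw [hinf]
      exact Ideal.mem_span_singleton.mpr hz
    have h2 : z ∈ 𝔭₁ :=
      (Ideal.IsPrime.mem_or_mem inferInstance h1.1).resolve_left hu₁
    have h3 : z ∈ 𝔭₂ :=
      (Ideal.IsPrime.mem_or_mem inferInstance h1.2).resolve_left hu₂
    obtain ⟨c, hc⟩ := hmem_inf z h2 h3
    exact ⟨c, by rw [hc, mul_comm]⟩
  have huπ : ∀ 𝔮 : Ideal R, 𝔮.IsPrime → u ∈ 𝔮 → π ∈ 𝔮 →
      𝔮 = IsLocalRing.maximalIdeal R := by
    intro 𝔮 h𝔮 hu𝔮 hπ𝔮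
    have hle : 𝔭₁ ⊓ 𝔭₂ ≤ 𝔮 := by
      rw [hinf, Ideal.span_singleton_le_iff_mem]
      exact hπ𝔮
    refine le_antisymm (IsLocalRing.le_maximalIdeal h𝔮.ne_top) ?_
    rw [← hsup]
    rcases h𝔮.inf_le.mp hle with h | h
    · have hx𝔮 : x ∈ 𝔮 := mem_of_le_of_mk_eq 𝔭₁ hε₁ h𝔮 h hu𝔮
      refine sup_le h (h𝔭₂.trans (sup_le ?_ ?_))
      · exact (Ideal.span_singleton_le_iff_mem _).mpr hx𝔮
      · exact (Ideal.span_singleton_le_iff_mem _).mpr hπ𝔮
    · have hy𝔮 : y ∈ 𝔮 := mem_of_le_of_mk_eq 𝔭₂ hε₂ h𝔮 h hu𝔮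
      refine sup_le (h𝔭₁.trans (sup_le ?_ ?_)) h
      · exact (Ideal.span_singleton_le_iff_mem _).mpr hy𝔮
      · exact (Ideal.span_singleton_le_iff_mem _).mpr hπ𝔮
  -- the lengths of the ideals `J(b, c) = (x ^ b, y ^ c, π)`, `b, c ≥ 1`
  have hlen : ∀ k c : ℕ, relLen
      (Ideal.span {x ^ (1 + k)} ⊔ (Ideal.span {y ^ (c + 1)} ⊔ Ideal.span {π}))
      (⊤ : Ideal R) = ((k + (c + 1) : ℕ) : ℕ∞) := by
    intro k c
    have h𝔞 : Ideal.span {y ^ (c + 1)} ⊔ Ideal.span {π} ≤ 𝔭₁ :=
      sup_le ((Ideal.span_singleton_le_iff_mem _).mpr (𝔭₁.pow_mem_of_mem hy₁ _ (by omega)))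
        ((Ideal.span_singleton_le_iff_mem _).mpr hπ₁)
    have hchain := relLen_pow_chain 𝔭₁ hx _ h𝔞 1 ?_ k
    · have hbase : Ideal.span {x ^ 1} ⊔ (Ideal.span {y ^ (c + 1)} ⊔ Ideal.span {π}) =
          Ideal.span {y ^ (c + 1)} ⊔ 𝔭₂ := by
        rw [pow_one, h𝔭₂', sup_left_comm]
      have hmono : Ideal.span {x ^ (1 + k)} ⊔ (Ideal.span {y ^ (c + 1)} ⊔ Ideal.span {π}) ≤
          Ideal.span {x ^ 1} ⊔ (Ideal.span {y ^ (c + 1)} ⊔ Ideal.span {π}) := by
        refine sup_le_sup_right ?_ _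
        rw [Ideal.span_singleton_le_span_singleton]
        exact pow_dvd_pow x (by omega)
      rw [relLen_add hmono le_top, hchain, hbase, relLen_branch_pow 𝔭₂ hy (c + 1)]
      push_cast
      rfl
    · intro n hn s hs
      obtain ⟨g, hg⟩ := exists_sub_mul_mem_of_mem_maximalIdeal 𝔭₁ hx hs
      obtain ⟨d, hd⟩ := hmem_inf ((s - x * g) * x ^ n) (𝔭₁.mul_mem_right _ hg)
        (𝔭₂.mul_mem_left _ (𝔭₂.pow_mem_of_mem hx₂ _ (by omega)))
      have h : s * x ^ n = x ^ (n + 1) * g + d * π := by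
        rw [← hd]
        ring
      rw [h]
      exact Ideal.add_mem _
        (Ideal.mem_sup_left (Ideal.mem_span_singleton.mpr (Dvd.intro g rfl)))
        (Ideal.mem_sup_right (Ideal.mem_sup_right
          (Ideal.mem_span_singleton.mpr (Dvd.intro_left d rfl))))
  refine exists_unit_mul_pow_of_relLen hm hu0 hπ0 (h𝔭₁𝔪 hπ₁) hreg huπ H1
    (Ideal.span {x ^ (1 + a₁)} ⊔ (Ideal.span {y ^ (a₂ + 1)} ⊔ Ideal.span {π}))
    (Ideal.mem_sup_right (Ideal.mem_sup_right (Ideal.mem_span_singleton_self π))) ?_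
    (a₁ + (a₂ + 1)) (hlen a₁ a₂).ge ?_
  · -- every `f` with `f ^ m = u r`, `r ∈ 𝔪`, lies in `J(a₁ + 1, a₂ + 1)`
    intro f r hf hr
    obtain ⟨g₁, hg₁⟩ := exists_sub_pow_succ_mul_mem 𝔭₁ hx hε₁ hf hr
    obtain ⟨g₂, hg₂⟩ := exists_sub_pow_succ_mul_mem 𝔭₂ hy hε₂ hf hr
    obtain ⟨d, hd⟩ := hmem_inf (f - x ^ (a₁ + 1) * g₁ - y ^ (a₂ + 1) * g₂)
      (𝔭₁.sub_mem hg₁ (𝔭₁.mul_mem_right _ (𝔭₁.pow_mem_of_mem hy₁ _ (by omega))))
      (by
        have h : f - x ^ (a₁ + 1) * g₁ - y ^ (a₂ + 1) * g₂ =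
            (f - y ^ (a₂ + 1) * g₂) - x ^ (a₁ + 1) * g₁ := by ring
        rw [h]
        exact 𝔭₂.sub_mem hg₂ (𝔭₂.mul_mem_right _ (𝔭₂.pow_mem_of_mem hx₂ _ (by omega))))
    have h : f = x ^ (1 + a₁) * g₁ + (y ^ (a₂ + 1) * g₂ + d * π) := by
      rw [← hd, add_comm 1 a₁]
      ring
    rw [h]
    exact Ideal.add_mem _
      (Ideal.mem_sup_left (Ideal.mem_span_singleton.mpr (Dvd.intro g₁ rfl)))
      (Ideal.mem_sup_right (Ideal.add_mem _
        (Ideal.mem_sup_left (Ideal.mem_span_singleton.mpr (Dvd.intro g₂ rfl)))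
        (Ideal.mem_sup_right (Ideal.mem_span_singleton.mpr (Dvd.intro_left d rfl)))))
  · -- `ℓ(R/(u, π)) ≤ m (a₁ + a₂)`
    set J'' : Ideal R :=
      Ideal.span {x ^ (1 + m * a₁)} ⊔ (Ideal.span {y ^ (m * a₂ + 1)} ⊔ Ideal.span {π})
      with hJ''
    set T : Ideal R := IsLocalRing.maximalIdeal R * Ideal.span {u} ⊔ Ideal.span {π} with hT
    have hxT : x ^ (1 + m * a₁) ∈ T := by
      obtain ⟨e, he⟩ := exists_pow_sub_mul_mem 𝔭₁ hε₁
      obtain ⟨d, hd⟩ := hmem_inf (x * (x ^ (m * a₁) - u * e)) (𝔭₁.mul_mem_left _ he)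
        (𝔭₂.mul_mem_right _ hx₂)
      have h : x ^ (1 + m * a₁) = (x * e) * u + d * π := by
        rw [← hd]
        ring
      rw [h]
      exact Ideal.add_mem _
        (Ideal.mem_sup_left (Ideal.mul_mem_mul (Ideal.mul_mem_right _ _ (h𝔭₂𝔪 hx₂))
          (Ideal.mem_span_singleton_self u)))
        (Ideal.mem_sup_right (Ideal.mem_span_singleton.mpr (Dvd.intro_left d rfl)))
    have hyT : y ^ (m * a₂ + 1) ∈ T := by
      obtain ⟨e, he⟩ := exists_pow_sub_mul_mem 𝔭₂ hε₂
      obtain ⟨d, hd⟩ := hmem_inf (y * (y ^ (m * a₂) - u * e)) (𝔭₁.mul_mem_right _ hy₁)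
        (𝔭₂.mul_mem_left _ he)
      have h : y ^ (m * a₂ + 1) = (y * e) * u + d * π := by
        rw [← hd]
        ring
      rw [h]
      exact Ideal.add_mem _
        (Ideal.mem_sup_left (Ideal.mul_mem_mul (Ideal.mul_mem_right _ _ (h𝔭₁𝔪 hy₁))
          (Ideal.mem_span_singleton_self u)))
        (Ideal.mem_sup_right (Ideal.mem_span_singleton.mpr (Dvd.intro_left d rfl)))
    have hJT : J'' ≤ T :=
      sup_le ((Ideal.span_singleton_le_iff_mem _).mpr hxT)
        (sup_le ((Ideal.span_singleton_le_iff_mem _).mpr hyT) le_sup_right)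
    have huT : u ∉ T := by
      intro h
      obtain ⟨t, ht, p, hp, htp⟩ := Submodule.mem_sup.mp h
      obtain ⟨s, hs, rfl⟩ := Ideal.mem_mul_span_singleton.mp ht
      obtain ⟨c, rfl⟩ := Ideal.mem_span_singleton'.mp hp
      have h1 : u * (1 - s) ∈ 𝔭₁ := by
        have : u * (1 - s) = c * π := by
          linear_combination -htp
        rw [this]
        exact 𝔭₁.mul_mem_left _ hπ₁
      rcases Ideal.IsPrime.mem_or_mem inferInstance h1 with h2 | h2
      · exact hu₁ h2
      · have h3 : (1 : R) ∈ IsLocalRing.maximalIdeal R := by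
          have : (1 : R) = (1 - s) + s := by ring
          rw [this]
          exact Ideal.add_mem _ (h𝔭₁𝔪 h2) hs
        exact (Ideal.ne_top_iff_one _).mp (IsLocalRing.maximalIdeal.isMaximal R).ne_top h3
    have hTle : T ≤ Ideal.span {u, π} := by
      refine sup_le ?_ ?_
      · refine Ideal.mul_le_right.trans ?_
        rw [Ideal.span_singleton_le_iff_mem]
        exact Ideal.subset_span (by simp)
      · rw [Ideal.span_singleton_le_iff_mem]
        exact Ideal.subset_span (by simp)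
    have h1 : 1 ≤ relLen J'' (Ideal.span {u, π}) :=
      one_le_relLen_of_notMem (Ideal.subset_span (by simp)) (fun h => huT (hJT h))
    have h2 : relLen J'' (⊤ : Ideal R) = ((m * a₁ + (m * a₂ + 1) : ℕ) : ℕ∞) := hlen _ _
    rw [relLen_add (hJT.trans hTle) le_top] at h2
    have h3 : relLen (Ideal.span {u, π}) (⊤ : Ideal R) ≠ ⊤ := by
      intro h
      rw [h, add_top] at h2
      exact ENat.top_ne_natCast _ h2
    have h4 : relLen J'' (Ideal.span {u, π}) ≠ ⊤ := by
      intro h
      rw [h, top_add] at h2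
      exact ENat.top_ne_natCast _ h2
    lift relLen (Ideal.span {u, π}) (⊤ : Ideal R) to ℕ using h3 with L
    lift relLen J'' (Ideal.span {u, π}) to ℕ using h4 with L'
    have h5 : 1 ≤ L' := by exact_mod_cast h1
    have h6 : L' + L = m * a₁ + (m * a₂ + 1) := by exact_mod_cast h2
    have h7 : L < m * (a₁ + (a₂ + 1)) := by
      have : 0 < m := Nat.pos_of_ne_zero hm
      nlinarith
    exact_mod_cast h7

end Fermat.Agent.A2.H609

end
-- ===== PACK-END A2/H609/Node.lean

-- ===== PACK-BEGIN A2/H552/ConstLeaf.lean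
section



/-!
# A2 / route G, leaf CONST (helper552)

Hand-in for the leaf `Fermat.Agent.A2.H12.ConstLeaf` of `H12/AlgLeaves.lean`:

* `constConclusion_of_sheet` : the conclusion `ConstConclusion L x` for ANY finite extension
  `L / F` possessing ONE sheet `W` (valuation subring over the Gauss valuation) in which `w`
  generates the non-units (`e = 1`).  No Kummer hypothesis.
* `constLeaf_of_base_sheets : BaseLeaf → SheetsLeaf → ConstLeaf` : the leaf, from the conclusions
  `BaseConclusion.exists_sheet`, `SheetsConclusion.exists_over`, `SheetsConclusion.unif`.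

The proof of `closed` is `mem_range_of_isAlgebraic_of_valuationSubring` (`H552/Const.lean`, HENS:
`R` Henselian with algebraically closed residue field of characteristic zero fraction field);
`finite` is the tower `Frac R (x) ⊆ F ⊆ L`.
-/

set_option autoImplicit false

namespace Fermat.Agent.A2.H552

open Fermat.Agent.A2 Fermat.Agent.A2.H12
open Fermat.Agent.S18.H138 (baseField)

section Finite

variable {R E F L : Type*} [CommRing R] [Field E] [Algebra R E] [IsFractionRing R E]
  [Field F] [Algebra E F] [Algebra R F] [IsScalarTower R E F]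
  [Field L] [Algebra F L] [Algebra R L] [IsScalarTower R F L]

/-- The constants `E = Frac R` lie in the base field of the `x`-line of `L`. -/
theorem algebraMap_mem_baseField_cover (x : F) (e : E) :
    algebraMap F L (algebraMap E F e) ∈ baseField R (algebraMap F L x) := by
  obtain ⟨a, b, -, rfl⟩ := IsFractionRing.div_surjective (A := R) e
  rw [map_div₀, map_div₀, ← IsScalarTower.algebraMap_apply R E F,
    ← IsScalarTower.algebraMap_apply R E F, ← IsScalarTower.algebraMap_apply R F L,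
    ← IsScalarTower.algebraMap_apply R F L]
  exact div_mem (Subfield.subset_closure (Or.inl ⟨a, rfl⟩))
    (Subfield.subset_closure (Or.inl ⟨b, rfl⟩))

/-- `E(x) ⊆ F` maps into the base field of the `x`-line of `L`. -/
theorem algebraMap_mem_baseField_of_mem_adjoin (x : F) {z : F}
    (hz : z ∈ IntermediateField.adjoin E ({x} : Set F)) :
    algebraMap F L z ∈ baseField R (algebraMap F L x) := by
  have h : IntermediateField.adjoin E ({x} : Set F) ≤
      Subfield.toIntermediateField ((baseField R (algebraMap F L x)).comap (algebraMap F L))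
        (fun e => algebraMap_mem_baseField_cover (R := R) (L := L) x e) := by
    rw [IntermediateField.adjoin_le_iff]
    rintro y hy
    rw [Set.mem_singleton_iff] at hy
    subst hy
    exact Subfield.subset_closure (Or.inr rfl)
  exact h hz

/-- **CONST, finiteness part**: if `F` is finite over `E(x)` and `L` is finite over `F`, then `L`
is finite over the base field `Frac R (x)` of the `x`-line of `L`. -/
theorem finiteDimensional_baseField_cover (x : F)
    (hfin : FiniteDimensional (IntermediateField.adjoin E ({x} : Set F)) F)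
    [FiniteDimensional F L] :
    FiniteDimensional (baseField R (algebraMap F L x)) L := by
  let K := IntermediateField.adjoin E ({x} : Set F)
  let K' := baseField R (algebraMap F L x)
  have : Module.Finite K L := Module.Finite.trans F L
  let φ : K →+* K' :=
    { toFun := fun a => ⟨algebraMap F L a, algebraMap_mem_baseField_of_mem_adjoin (R := R) x a.2⟩
      map_one' := Subtype.ext (map_one _)
      map_mul' := fun a b => Subtype.ext (map_mul _ _ _)
      map_zero' := Subtype.ext (map_zero _)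
      map_add' := fun a b => Subtype.ext (map_add _ _ _) }
  let _ : Algebra K K' := φ.toAlgebra
  have : IsScalarTower K K' L := IsScalarTower.of_algebraMap_eq fun _ => rfl
  exact Module.Finite.of_restrictScalars_finite K K' L

end Finite

section Closed

variable {R E L : Type*} [CommRing R] [IsDomain R] [IsDiscreteValuationRing R]
  [HenselianLocalRing R] [IsAlgClosed (IsLocalRing.ResidueField R)]
  [Field E] [CharZero E] [Algebra R E] [IsFractionRing R E]
  [Field L] [Algebra E L] [Algebra R L] [IsScalarTower R E L]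

variable (E) in
include E in
/-- **CONST, closedness part**: `R` is integrally closed in any extension `L` of `E = Frac R`
possessing a valuation subring `W ⊇ R` in which `w` is a non-unit generating the non-units. -/
theorem isIntegral_mem_range_of_unramified (w : R) (hw : Irreducible w)
    (W : ValuationSubring L) (hRW : ∀ r : R, algebraMap R L r ∈ W)
    (hwW : algebraMap R L w ∈ W.nonunits)
    (hunif : ∀ a ∈ W.nonunits, ∃ b ∈ W, a = algebraMap R L w * b)
    (y : L) (hy : IsIntegral R y) : y ∈ Set.range (algebraMap R L) := by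
  have hinjRL : Function.Injective (algebraMap R L) := by
    rw [IsScalarTower.algebraMap_eq R E L]
    exact (algebraMap E L).injective.comp (IsFractionRing.injective R E)
  have hwL : algebraMap R L w ≠ 0 := fun h0 => hw.ne_zero (hinjRL (by rw [h0, map_zero]))
  have hwinv : (algebraMap R L w)⁻¹ ∉ W := by
    intro hmem
    have h1 := (ValuationSubring.mem_nonunits_iff W).1 hwW
    have h2 : W.valuation (algebraMap R L w)⁻¹ ≤ 1 := (W.valuation_le_one_iff _).2 hmem
    rw [map_inv₀] at h2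
    have h3 : W.valuation (algebraMap R L w) ≠ 0 := (W.valuation.ne_zero_iff).2 hwL
    have h4 : (1 : W.ValueGroup) ≤ W.valuation (algebraMap R L w) := by
      rwa [inv_le_one₀ (zero_lt_iff.2 h3)] at h2
    exact absurd h1 (not_lt.2 h4)
  have hgen : ∀ b ∈ W, b⁻¹ ∉ W → b * (algebraMap R L w)⁻¹ ∈ W := by
    intro b hb hbinv
    have hbn : b ∈ W.nonunits := by
      rw [ValuationSubring.mem_nonunits_iff W]
      rcases eq_or_ne b 0 with h0 | h0
      · rw [h0, map_zero]
        exact zero_lt_one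
      · have h1 : W.valuation b ≤ 1 := (W.valuation_le_one_iff _).2 hb
        refine lt_of_le_of_ne h1 fun h2 => hbinv ?_
        rw [← W.valuation_le_one_iff, map_inv₀, h2, inv_one]
    obtain ⟨c, hc, rfl⟩ := hunif b hbn
    rw [mul_comm, ← mul_assoc, inv_mul_cancel₀ hwL, one_mul]
    exact hc
  have hyalg : IsAlgebraic E y := (IsFractionRing.isAlgebraic_iff R E L).mp hy.isAlgebraic
  obtain ⟨e, rfl⟩ := mem_range_of_isAlgebraic_of_valuationSubring (E := E) w hw W hRW hwinv hgen
    y hyalg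
  have he : IsIntegral R e := (isIntegral_algebraMap_iff (algebraMap E L).injective).mp hy
  obtain ⟨r, rfl⟩ := (IsIntegrallyClosed.isIntegral_iff (R := R) (K := E)).mp he
  exact ⟨r, IsScalarTower.algebraMap_apply R E L r⟩

end Closed

section Leaf

/-- **CONST for a cover with one unramified sheet.**  `L / F` finite, `W` a sheet of `L` in which
`w` generates the non-units.  Then `R` is integrally closed in `L` and `L` is finite over
`Frac R (x)`. -/
theorem constConclusion_of_sheet {R E F : Type} [CommRing R] [IsDomain R]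
    [IsDiscreteValuationRing R] [HenselianLocalRing R] [IsAlgClosed (IsLocalRing.ResidueField R)]
    [Field E] [CharZero E] [Algebra R E] [IsFractionRing R E]
    [Field F] [Algebra E F] [Algebra R F] [IsScalarTower R E F]
    (w : R) (hw : Irreducible w) (x : F)
    (hfin : FiniteDimensional (IntermediateField.adjoin E ({x} : Set F)) F)
    (L : Type) [Field L] [Algebra F L] [Algebra R L] [IsScalarTower R F L]
    [FiniteDimensional F L]
    (W : ValuationSubring L) (hW : IsSheet w (algebraMap F L x) W)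
    (hunif : ∀ a ∈ W.nonunits, ∃ b ∈ W, a = algebraMap R L w * b) :
    ConstConclusion (R := R) L x := by
  let _ : Algebra E L := ((algebraMap F L).comp (algebraMap E F)).toAlgebra
  have hEL : ∀ e : E, algebraMap E L e = algebraMap F L (algebraMap E F e) := fun _ => rfl
  have : IsScalarTower R E L := IsScalarTower.of_algebraMap_eq fun r => by
    rw [hEL, ← IsScalarTower.algebraMap_apply R E F, ← IsScalarTower.algebraMap_apply R F L]
  exact
    { closed := fun y hy =>
        isIntegral_mem_range_of_unramified (E := E) w hw W hW.1 hW.2.2.1 hunif y hy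
      finite := finiteDimensional_baseField_cover (R := R) (E := E) x hfin }

/-- **Leaf CONST** of route G, from the leaves BASE (existence of a sheet of `F`) and SHEETS
(existence of a sheet of `L` above it, with uniformiser `w`). -/
theorem constLeaf_of_base_sheets (hB : BaseLeaf) (hS : SheetsLeaf) : ConstLeaf := by
  intro R E F _ _ _ _ _ _ _ _ _ _ _ _ _ w q m x Bf Bi τ τE τR ctx L _ _ _ _ hL
  obtain ⟨V, hV⟩ := (hB w q m x Bf Bi τ τE τR ctx).exists_sheet
  have hSh := hS w q m x Bf Bi τ τE τR ctx L hL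
  obtain ⟨W, hW, -⟩ := hSh.exists_over V hV
  have := hL.finite
  exact constConclusion_of_sheet (E := E) w ctx.irr x ctx.fin L W hW (hSh.unif W hW)

end Leaf

end Fermat.Agent.A2.H552

end
-- ===== PACK-END A2/H552/ConstLeaf.lean

-- ===== PACK-BEGIN A2/H12/RootLeaf.lean
section


/-!
# Cell A2 — route G: leaf ROOT (helper12)

`rootLeaf : RootLeaf` — in the AlgSS context (`R` a henselian DVR with algebraically closed residue
field of characteristic `q`, `q ∤ m`): `R` contains a primitive `m`-th root of unity fixed by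
`τR`, and every unit of `R` is an `m`-th power.
-/

set_option autoImplicit false

namespace Fermat.Agent.A2.H12

open Fermat.Agent.A2 Polynomial IsLocalRing

section Hensel

variable {R : Type} [CommRing R] [IsDomain R] [HenselianLocalRing R]
  [IsAlgClosed (ResidueField R)]

/-- `m` is a unit of `R` when `q ∈ 𝔪`, `q` prime, `q ∤ m`. -/
theorem isUnit_natCast_of_not_dvd {q m : ℕ} (hq : q.Prime) (hqR : (q : R) ∈ maximalIdeal R)
    (hqm : ¬ q ∣ m) : IsUnit (m : R) := by
  by_contra hm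
  have hmR : (m : R) ∈ maximalIdeal R := (mem_maximalIdeal _).2 hm
  have hcop : Nat.Coprime q m := (Nat.Prime.coprime_iff_not_dvd hq).2 hqm
  have h1 : ((Nat.gcd q m : ℕ) : ℤ) = q * Nat.gcdA q m + m * Nat.gcdB q m := Nat.gcd_eq_gcd_ab q m
  rw [hcop.gcd_eq_one] at h1
  have h2 : (1 : R) = (q : R) * ((Nat.gcdA q m : ℤ) : R) + (m : R) * ((Nat.gcdB q m : ℤ) : R) := by
    have := congrArg (fun z : ℤ => (z : R)) h1
    simpa using this
  have h3 : (1 : R) ∈ maximalIdeal R := by
    rw [h2]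
    exact Ideal.add_mem _ (Ideal.mul_mem_right _ _ hqR) (Ideal.mul_mem_right _ _ hmR)
  exact (Ideal.ne_top_iff_one _).1 (maximalIdeal.isMaximal R).ne_top h3

/-- Hensel's lemma for `X ^ m - c`, `c` a unit, `m` a unit. -/
theorem exists_pow_eq_of_hensel {m : ℕ} (hm : 0 < m) (hmunit : IsUnit (m : R)) (c : R)
    (hc : IsUnit c) (a₀ : R) (ha₀ : a₀ ^ m - c ∈ maximalIdeal R) :
    ∃ a : R, a ^ m = c ∧ a - a₀ ∈ maximalIdeal R := by
  have ha₀unit : IsUnit a₀ := by
    by_contra h
    have h1 : a₀ ∈ maximalIdeal R := (mem_maximalIdeal _).2 h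
    have h2 : a₀ ^ m ∈ maximalIdeal R := Ideal.pow_mem_of_mem _ h1 m hm
    have h3 : c ∈ maximalIdeal R := by
      have : c = a₀ ^ m - (a₀ ^ m - c) := by ring
      rw [this]
      exact Ideal.sub_mem _ h2 ha₀
    exact ((mem_maximalIdeal _).1 h3) hc
  obtain ⟨a, ha, haa⟩ := HenselianLocalRing.is_henselian (X ^ m - C c) (monic_X_pow_sub_C c hm.ne')
    a₀ (by simpa using ha₀) (by
      simp only [derivative_sub, derivative_X_pow, derivative_C, sub_zero, eval_mul, eval_C,
        eval_pow, eval_X, eval_natCast]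
      exact hmunit.mul (ha₀unit.pow _))
  refine ⟨a, ?_, haa⟩
  have : eval a (X ^ m - C c) = 0 := ha
  simpa [sub_eq_zero] using this

/-- Units of `R` are `m`-th powers. -/
theorem exists_pow_eq_of_isUnit {m : ℕ} (hm : 0 < m) (hmunit : IsUnit (m : R)) (c : R)
    (hc : IsUnit c) : ∃ c₀ : R, c = c₀ ^ m := by
  obtain ⟨z, hz⟩ := IsAlgClosed.exists_pow_nat_eq (residue R c) hm
  obtain ⟨a₀, rfl⟩ := residue_surjective z
  have h1 : a₀ ^ m - c ∈ maximalIdeal R := by
    rw [← residue_eq_zero_iff, map_sub, map_pow, hz, sub_self]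
  obtain ⟨a, ha, -⟩ := exists_pow_eq_of_hensel hm hmunit c hc a₀ h1
  exact ⟨a, ha.symm⟩

/-- A primitive `m`-th root of unity in `R` whose residue is primitive. -/
theorem exists_primitiveRoot_of_hensel {m : ℕ} (hm : 0 < m) (hmunit : IsUnit (m : R)) :
    ∃ ζ : R, IsPrimitiveRoot ζ m ∧ IsPrimitiveRoot (residue R ζ) m := by
  have hmk : (m : ResidueField R) ≠ 0 := by
    have : (m : ResidueField R) = residue R (m : R) := by simp
    rw [this]
    exact (hmunit.map (residue R)).ne_zero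
  haveI : NeZero (m : ResidueField R) := ⟨hmk⟩
  obtain ⟨ζ₀, hζ₀⟩ := HasEnoughRootsOfUnity.exists_primitiveRoot (ResidueField R) m
  obtain ⟨a₀, rfl⟩ := residue_surjective ζ₀
  have h1 : a₀ ^ m - 1 ∈ maximalIdeal R := by
    rw [← residue_eq_zero_iff, map_sub, map_pow, hζ₀.pow_eq_one, map_one, sub_self]
  obtain ⟨ζ, hζ, hζa⟩ := exists_pow_eq_of_hensel hm hmunit 1 isUnit_one a₀ h1
  have hres : residue R ζ = residue R a₀ := by
    rw [← sub_eq_zero, ← map_sub, residue_eq_zero_iff]
    exact hζa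
  refine ⟨ζ, ⟨hζ, ?_⟩, by rw [hres]; exact hζ₀⟩
  intro l hl
  apply hζ₀.dvd_of_pow_eq_one
  rw [← hres, ← map_pow, hl, map_one]

end Hensel

/-- **Leaf ROOT.** -/
theorem rootLeaf : RootLeaf := by
  intro R E F _ _ _ _ _ _ _ _ _ _ _ _ _ w q m x Bf Bi τ τE τR ctx
  have hmunit : IsUnit (m : R) := isUnit_natCast_of_not_dvd ctx.qprime ctx.qmem ctx.qm
  refine ⟨?_, fun c hc => exists_pow_eq_of_isUnit ctx.mpos hmunit c hc⟩
  obtain ⟨ζ, hζ, hζres⟩ := exists_primitiveRoot_of_hensel (R := R) ctx.mpos hmunit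
  refine ⟨ζ, hζ, ?_⟩
  -- `τR ≡ id` modulo the maximal ideal
  have hinjRE : Function.Injective (algebraMap R E) := IsFractionRing.injective R E
  have hinj : Function.Injective (algebraMap R F) := by
    rw [IsScalarTower.algebraMap_eq R E F]
    exact (algebraMap E F).injective.comp hinjRE
  have hxR : Transcendental R x := ctx.transc.restrictScalars hinjRE
  have hτRF : ∀ r, τ (algebraMap R F r) = algebraMap R F (τR r) := by
    intro r
    rw [IsScalarTower.algebraMap_apply R E F, ctx.hτE, ctx.hτR, ← IsScalarTower.algebraMap_apply]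
  have hcong : ∀ r : R, residue R (τR r) = residue R r := by
    intro r
    obtain ⟨c, hc, hcc⟩ := ctx.hτf (algebraMap R F r) (Bf.algebraMap_mem r)
    rw [hτRF, ← map_sub] at hcc
    have hdvd : w ∣ τR r - r :=
      Fermat.Agent.S18.H138.dvd_of_algebraMap_eq_mul hinj hxR w (τR r - r)
        (t := c) ((ctx.hBf c).1 hc) hcc
    rw [← sub_eq_zero, ← map_sub, residue_eq_zero_iff, ctx.irr.maximalIdeal_eq,
      Ideal.mem_span_singleton]
    exact hdvd
  -- `τR ζ` is a power of `ζ` with the same residue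
  have hpow : (τR ζ) ^ m = 1 := by rw [← map_pow, hζ.pow_eq_one, map_one]
  haveI : NeZero m := ⟨ctx.mpos.ne'⟩
  obtain ⟨i, hi, hiζ⟩ := hζ.eq_pow_of_pow_eq_one hpow
  by_cases hm1 : m = 1
  · subst hm1
    have : i = 0 := by omega
    subst this
    rw [pow_zero] at hiζ
    rw [← hiζ]
    have := hζ.pow_eq_one
    rw [pow_one] at this
    exact this.symm
  · have h1m : 1 < m := by
      have := ctx.mpos
      omega
    have hres : residue R ζ ^ i = residue R ζ ^ 1 := by
      rw [pow_one, ← map_pow, hiζ, hcong]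
    have := hζres.pow_inj hi h1m hres
    rw [← hiζ, this, pow_one]

end Fermat.Agent.A2.H12

end
-- ===== PACK-END A2/H12/RootLeaf.lean

-- ===== PACK-BEGIN A2/Mod/H378/L11.lean
section






/-!
# A2 / MOD leaf L11 `ResInf` (helper378)

`theorem resInf : ResInfStatement P E M q w` : residue degree one over level `M` on `C∞`.

Route (independent of the other leaves): `F_{Mq} = F_M(j_{dq} : d ∣ M)`; by the Kronecker
congruence `Φ_q(X, Y) = (X^q - Y)(X - Y^q) + q Θ` (`S28.h88_kronecker_int`, with `Φ_q` from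
`S28.H326.nonempty_modPolyData`) the generators satisfy
`(j_{dq}^q - j_d) (j_{dq} - j_d^q) = - q Θ(j_{dq}, j_d)` with `j_{dq}^q - j_d` a unit of `V∞`
(its expansion starts with `t^{-d q²}`).  The abstract lemma `ResOneData.exists_congr`
(`L11Abstract.lean`) then gives `V∞_{Mq} = α(V∞_M) + w V∞_{Mq}`.
-/

set_option autoImplicit false
set_option linter.unusedSectionVars false
set_option linter.style.haveILetI false
set_option synthInstance.maxHeartbeats 400000
set_option maxHeartbeats 1600000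

noncomputable section

namespace Fermat.Agent.A2.Mod.H378

open ModularCurve HahnSeries Fermat.Agent.A2.H708 Fermat.Agent.S28

/-! ## Generic facts on Gauss-integral elements -/

section Generic

variable {L : Type*} [Field L] [Algebra ℚ L] (A : ValuationSubring L)
variable {F₀ F₁ : IntermediateField ℚ (LaurentSeries ℚ)}

theorem isGaussInt_mono (hle : laurentBaseChange L F₀ ≤ laurentBaseChange L F₁)
    {f : LaurentSeries L} (hf : IsGaussInt A F₀ f) : IsGaussInt A F₁ f := by
  obtain ⟨U₁, U₂, h0, hm, he⟩ := hf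
  exact ⟨U₁, U₂, h0, hle hm, he⟩

theorem isGaussInt_descend (hgen : IntGen F₀) (hmax : AttainsMax A F₀)
    (hle : laurentBaseChange L F₀ ≤ laurentBaseChange L F₁)
    {f : LaurentSeries L} (hfF : f ∈ laurentBaseChange L F₀) (hf : IsGaussInt A F₁ f) :
    IsGaussInt A F₀ f := by
  by_cases hf0 : f = 0
  · rw [hf0]; exact IsGaussInt.zero
  obtain ⟨c, U₁, U₂, hc, h₁, h₂, hm₁, hm₂, he⟩ := exists_normal_form hgen hmax hfF hf0
  have hcA : c ∈ A := (isGaussInt_iff_of_normal_form h₁ h₂ (hle hm₂) he).mp hf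
  exact (isGaussInt_iff_of_normal_form h₁ h₂ hm₂ he).mpr hcA

theorem isGaussInt_cst_iff (F₀ : IntermediateField ℚ (LaurentSeries ℚ)) (c : L) :
    IsGaussInt A F₀ (cst c) ↔ c ∈ A := by
  have he : cst c * incl A 1 = cst c * incl A 1 := rfl
  exact isGaussInt_iff_of_normal_form (by rw [map_one]; exact one_ne_zero)
    (by rw [map_one]; exact one_ne_zero) (by rw [map_one]; exact one_mem _) he

/-- the inverse of a primitive integral series of `F` is Gauss-integral. -/
theorem isGaussInt_inv_of_prim {U : LaurentSeries A} (hU : red A U ≠ 0)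
    (hm : incl A U ∈ laurentBaseChange L F₀) : IsGaussInt A F₀ (incl A U)⁻¹ := by
  refine ⟨1, U, hU, hm, ?_⟩
  rw [map_one, inv_mul_cancel₀ (incl_ne_zero A (ne_zero_of_red_ne_zero A hU))]

/-- discreteness: a nonzero Gauss-integral element is `w ^ n` times a Gauss unit. -/
theorem exists_pow_mul_unit [IsDiscreteValuationRing A] {w : A} (hw : Irreducible w)
    (hgen : IntGen F₀) (hmax : AttainsMax A F₀) {f : LaurentSeries L}
    (hfF : f ∈ laurentBaseChange L F₀) (hf0 : f ≠ 0) (hf : IsGaussInt A F₀ f) :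
    ∃ n : ℕ, IsGaussInt A F₀ (f * (cst (w : L) ^ n)⁻¹) ∧
      IsGaussInt A F₀ (f * (cst (w : L) ^ n)⁻¹)⁻¹ := by
  obtain ⟨c, U₁, U₂, hc, h₁, h₂, hm₁, hm₂, he⟩ := exists_normal_form hgen hmax hfF hf0
  have hcA : c ∈ A := (isGaussInt_iff_of_normal_form h₁ h₂ hm₂ he).mp hf
  have hc' : (⟨c, hcA⟩ : A) ≠ 0 := fun h => hc (congrArg Subtype.val h)
  obtain ⟨n, u, hu⟩ := IsDiscreteValuationRing.eq_unit_mul_pow_irreducible hc' hw
  have hcu : c = ((u : A) : L) * (w : L) ^ n := by
    have h1 := congrArg Subtype.val hu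
    simpa using h1
  have hw0 : (w : L) ≠ 0 := fun h => hw.ne_zero (Subtype.ext h)
  have hwn : cst (w : L) ^ n ≠ 0 := pow_ne_zero _ (cst_ne_zero hw0)
  have hu0 : ((u : A) : L) ≠ 0 := fun h => u.ne_zero (Subtype.ext h)
  have he' : (f * (cst (w : L) ^ n)⁻¹) * incl A U₂ = cst ((u : A) : L) * incl A U₁ := by
    have hpow : cst ((w : L) ^ n) = cst (w : L) ^ n := map_pow _ _ _
    rw [mul_right_comm, he, hcu, cst_mul, hpow]
    field_simp
  have hf0' : f * (cst (w : L) ^ n)⁻¹ ≠ 0 := mul_ne_zero hf0 (inv_ne_zero hwn)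
  refine ⟨n, (isGaussInt_iff_of_normal_form h₁ h₂ hm₂ he').mpr (u : A).2, ?_⟩
  have he'' := normal_form_inv (A := A) hf0' hu0 he'
  refine (isGaussInt_iff_of_normal_form h₂ h₁ hm₁ he'').mpr ?_
  have h2 : ((u : A) : L)⁻¹ = (((u⁻¹ : Aˣ) : A) : L) := by
    apply inv_eq_of_mul_eq_one_right
    have h3 := congrArg A.subtype u.mul_inv
    rw [map_mul, map_one] at h3
    exact h3
  rw [h2]
  exact ((u⁻¹ : Aˣ) : A).2

end Generic

/-! ## Series facts -/

section Series

variable (E : IntermediateField ℚ _root_.Fermat.Agent.A2.Mod.Qb)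

/-- `j(t^d)` as a series over `E`. -/
def jser (d : ℕ) [NeZero d] : LaurentSeries E := qExpand E d (jqModC E)

theorem jser_eq_coeffEmb (d : ℕ) [NeZero d] : jser E d = coeffEmb E (qExpand ℚ d jq) := by
  rw [jser, coeffEmb, ← jqModC_rat, coeffMap_qExpand, coeffMap_jqModC]

theorem jser_eq_incl (A : ValuationSubring E) (d : ℕ) [NeZero d] :
    jser E d = incl A (castA A (jInt d)) := by
  rw [incl_castA, castQ_jInt, jser_eq_coeffEmb]

theorem jser_mem (N d : ℕ) [NeZero d] (hd : d ∣ N) : jser E d ∈ _root_.Fermat.Agent.A2.Mod.FE E N := by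
  rw [jser_eq_coeffEmb]
  exact coeffEmb_mem_laurentBaseChange E (jqd_mem_full N hd)

theorem FE_le (M q : ℕ) [NeZero M] [NeZero q] : _root_.Fermat.Agent.A2.Mod.FE E M ≤ _root_.Fermat.Agent.A2.Mod.FE E (M * q) := by
  intro x hx
  have h := (heckeAlphaBar E M q ⟨x, hx⟩).2
  rw [coe_heckeAlphaBar] at h
  exact h

/-- the transfer `ℤ((t)) → E((t))`, `t ↦ t^d`. -/
def rho (d : ℕ) [NeZero d] : LaurentSeries ℤ →+* LaurentSeries E :=
  (qExpand E d).comp (coeffMap (Int.castRingHom E))

theorem rho_j (d : ℕ) [NeZero d] : rho E d (jqModC ℤ) = jser E d := by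
  rw [rho, RingHom.comp_apply, coeffMap_jqModC, jser]

theorem rho_jq (d q : ℕ) [NeZero d] [NeZero q] :
    rho E d (qExpand ℤ q (jqModC ℤ)) = jser E (d * q) := by
  rw [rho, RingHom.comp_apply, coeffMap_qExpand, coeffMap_jqModC, qExpand_qExpand, jser]

theorem rho_comp_evalAt (d : ℕ) [NeZero d] (y : LaurentSeries ℤ) :
    (rho E d).comp (evalAt y) = evalAt (rho E d y) := by
  apply Polynomial.ringHom_ext
  · intro a
    simp [evalAt]
  · simp [evalAt]

/-- **Kronecker relation** for `j_{dq}`, `j_d`. -/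
theorem kron_series (q : ℕ) [NeZero q] (hq : q.Prime) (d : ℕ) [NeZero d] :
    ∃ Θ : Polynomial (Polynomial ℤ),
      (jser E (d * q) ^ q - jser E d) * (jser E (d * q) - jser E d ^ q)
        + (q : LaurentSeries E) * Θ.eval₂ (evalAt (jser E d)) (jser E (d * q)) = 0 := by
  have hfact : Fact q.Prime := ⟨hq⟩
  obtain ⟨D⟩ := Fermat.Agent.S28.H326.nonempty_modPolyData q hq
  obtain ⟨Θ, hΘ⟩ := h88_kronecker_int q D
  refine ⟨Θ, ?_⟩
  have h0 := D.eval_jp
  rw [hΘ] at h0
  have h1 := congrArg (rho E d) h0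
  rw [map_zero, Polynomial.hom_eval₂, rho_comp_evalAt, rho_j, rho_jq] at h1
  have e1 : evalAt (jser E d) (Polynomial.X) = jser E d := by simp [evalAt]
  have e2 : evalAt (jser E d) (Polynomial.X ^ q) = jser E d ^ q := by simp [evalAt]
  have e3 : evalAt (jser E d) (Polynomial.C (q : ℤ)) = (q : LaurentSeries E) := by
    simp [evalAt]
  rw [Polynomial.eval₂_add, Polynomial.eval₂_mul, Polynomial.eval₂_sub, Polynomial.eval₂_sub,
    Polynomial.eval₂_pow, Polynomial.eval₂_X, Polynomial.eval₂_C, Polynomial.eval₂_C,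
    Polynomial.eval₂_mul, Polynomial.eval₂_C, e1, e2, e3] at h1
  exact h1

/-- the leading coefficient of `j_{dq}^q - j_d`. -/
theorem coeff_sInt (q : ℕ) [NeZero q] (hq : 2 ≤ q) (d : ℕ) [NeZero d] :
    (jInt (d * q) ^ q - jInt d).coeff (-((d * q * q : ℕ) : ℤ)) = 1 := by
  rw [HahnSeries.coeff_sub, jInt, jInt, jqNModC, jqNModC, ← map_pow]
  have h1 : (-((d * q * q : ℕ) : ℤ)) = ((d * q : ℕ) : ℤ) * (-(q : ℤ)) := by
    push_cast
    ring
  have h2 : (-((d * q * q : ℕ) : ℤ)) = ((d : ℕ) : ℤ) * (-((q * q : ℕ) : ℤ)) := by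
    push_cast
    ring
  have h3 : (qExpand ℤ (d * q) (jqModC ℤ ^ q)).coeff (-((d * q * q : ℕ) : ℤ)) = 1 := by
    rw [h1, qExpand_coeff_mul, coeff_jqModC_pow_self]
  have h4 : (qExpand ℤ d (jqModC ℤ)).coeff (-((d * q * q : ℕ) : ℤ)) = 0 := by
    rw [h2, qExpand_coeff_mul]
    apply coeff_jqModC_of_lt
    have : (4 : ℤ) ≤ ((q * q : ℕ) : ℤ) := by
      have : 4 ≤ q * q := by nlinarith
      exact_mod_cast this
    omega
  rw [h3, h4, sub_zero]

/-- `j_{dq}^q - j_d` is a primitive integral series. -/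
theorem red_sInt_ne_zero (A : ValuationSubring E) (q : ℕ) [NeZero q] (hq : 2 ≤ q) (d : ℕ)
    [NeZero d] : red A (castA A (jInt (d * q) ^ q - jInt d)) ≠ 0 := by
  intro h
  have h1 := congrArg (fun z => z.coeff (-((d * q * q : ℕ) : ℤ))) h
  simp only [coeffMap_coeff, HahnSeries.coeff_zero] at h1
  rw [coeff_sInt q hq d] at h1
  simp at h1

theorem incl_sInt (A : ValuationSubring E) (q d : ℕ) [NeZero q] [NeZero d] :
    incl A (castA A (jInt (d * q) ^ q - jInt d)) = jser E (d * q) ^ q - jser E d := by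
  rw [map_sub, map_sub, map_pow, map_pow, ← jser_eq_incl, ← jser_eq_incl]

end Series

/-! ## The concrete data -/

section Concrete

variable {P : ValuationSubring _root_.Fermat.Agent.A2.Mod.Qb} {E : IntermediateField ℚ _root_.Fermat.Agent.A2.Mod.Qb} {M q : ℕ} [NeZero M] [NeZero q]
  {w : _root_.Fermat.Agent.A2.Mod.RE P E}

/-- the new generators `j_{dq}`, `d ∣ M`, of `F_{Mq}` over `F_M`. -/
def Xset (E : IntermediateField ℚ _root_.Fermat.Agent.A2.Mod.Qb) (M q : ℕ) [NeZero q] : Set (_root_.Fermat.Agent.A2.Mod.FE E (M * q)) :=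
  {x | ∃ (d : ℕ) (_ : NeZero d), d ∣ M ∧ (x : LaurentSeries E) = jser E (d * q)}

/-- `α(V∞_M)` as a subring of `F_{Mq}`. -/
def Oring (E : IntermediateField ℚ _root_.Fermat.Agent.A2.Mod.Qb) (M q : ℕ) [NeZero M] [NeZero q]
    (VM : ValuationSubring (_root_.Fermat.Agent.A2.Mod.FE E M)) : Subring (_root_.Fermat.Agent.A2.Mod.FE E (M * q)) :=
  VM.toSubring.map (αE E M q : _root_.Fermat.Agent.A2.Mod.FE E M →+* _root_.Fermat.Agent.A2.Mod.FE E (M * q))

theorem mem_Oring {VM : ValuationSubring (_root_.Fermat.Agent.A2.Mod.FE E M)} {x : _root_.Fermat.Agent.A2.Mod.FE E (M * q)} :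
    x ∈ Oring E M q VM ↔ ∃ g ∈ VM, αE E M q g = x := by
  rw [Oring, Subring.mem_map]
  rfl

theorem attains (hS : Setting P E M q w) (N : ℕ) :
    AttainsMax (_root_.Fermat.Agent.A2.Mod.RE P E) (modularFunctionFieldFull N) := by
  haveI := hS.dvr
  exact attainsMax_of_isNoetherianRing _ _

theorem alpha_mem_iff (hS : Setting P E M q w) {VM : ValuationSubring (_root_.Fermat.Agent.A2.Mod.FE E M)}
    {V : ValuationSubring (_root_.Fermat.Agent.A2.Mod.FE E (M * q))} (hVM : IsVinf P E M VM) (hV : IsVinf P E (M * q) V)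
    (g : _root_.Fermat.Agent.A2.Mod.FE E M) : αE E M q g ∈ V ↔ g ∈ VM := by
  rw [hV (αE E M q g), hVM g, coe_heckeAlphaBar]
  constructor
  · exact isGaussInt_descend (_root_.Fermat.Agent.A2.Mod.RE P E) (intGen_full M) (attains hS M) (FE_le E M q) g.2
  · exact isGaussInt_mono (_root_.Fermat.Agent.A2.Mod.RE P E) (FE_le E M q)

theorem cE_mem {N : ℕ} {V : ValuationSubring (_root_.Fermat.Agent.A2.Mod.FE E N)} (hV : IsVinf P E N V) (r : _root_.Fermat.Agent.A2.Mod.RE P E) :
    cE P E N r ∈ V := by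
  rw [hV]
  exact (isGaussInt_cst_iff (_root_.Fermat.Agent.A2.Mod.RE P E) _ (r : E)).mpr r.2

theorem alpha_cE (r : _root_.Fermat.Agent.A2.Mod.RE P E) : αE E M q (cE P E M r) = cE P E (M * q) r :=
  (αE E M q).commutes (r : E)

theorem w_ne_zero (hS : Setting P E M q w) : (w : E) ≠ 0 :=
  fun h => hS.unif.ne_zero (Subtype.ext h)

theorem cE_ne_zero (hS : Setting P E M q w) (N : ℕ) : cE P E N w ≠ 0 := by
  intro h
  exact w_ne_zero hS ((map_eq_zero (algebraMap E (_root_.Fermat.Agent.A2.Mod.FE E N))).mp h)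

theorem w_inv_not_mem (hS : Setting P E M q w) : (w : E)⁻¹ ∉ _root_.Fermat.Agent.A2.Mod.RE P E := by
  intro h
  apply hS.unif.not_isUnit
  refine ⟨⟨w, ⟨(w : E)⁻¹, h⟩, ?_, ?_⟩, rfl⟩
  · exact Subtype.ext (mul_inv_cancel₀ (w_ne_zero hS))
  · exact Subtype.ext (inv_mul_cancel₀ (w_ne_zero hS))

/-- `q ∈ w R`. -/
theorem exists_q_eq (hS : Setting P E M q w) : ∃ c : _root_.Fermat.Agent.A2.Mod.RE P E, ((q : ℕ) : E) = (w : E) * (c : E) := by
  haveI := hS.dvr
  have hq := hS.lies_over
  have hqv : P.valuation ((q : ℕ) : _root_.Fermat.Agent.A2.Mod.Qb) < 1 := (ValuationSubring.mem_nonunits_iff P).mp hq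
  have hqP : algebraMap E _root_.Fermat.Agent.A2.Mod.Qb ((q : ℕ) : E) ∈ P := by
    rw [map_natCast, ← ValuationSubring.valuation_le_one_iff]
    exact hqv.le
  set qA : _root_.Fermat.Agent.A2.Mod.RE P E := ⟨((q : ℕ) : E), hqP⟩ with hqA
  have hnu : ¬ IsUnit qA := by
    rintro ⟨u, hu⟩
    have h1 : qA * ((u⁻¹ : (_root_.Fermat.Agent.A2.Mod.RE P E)ˣ) : _root_.Fermat.Agent.A2.Mod.RE P E) = 1 := by
      rw [← hu]
      exact u.mul_inv
    have h2 : ((q : ℕ) : _root_.Fermat.Agent.A2.Mod.Qb) * algebraMap E _root_.Fermat.Agent.A2.Mod.Qb (((u⁻¹ : (_root_.Fermat.Agent.A2.Mod.RE P E)ˣ) : _root_.Fermat.Agent.A2.Mod.RE P E) : E) = 1 := by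
      have h3 := congrArg (fun z : _root_.Fermat.Agent.A2.Mod.RE P E => algebraMap E _root_.Fermat.Agent.A2.Mod.Qb (z : E)) h1
      simpa [hqA] using h3
    have h4 : P.valuation (algebraMap E _root_.Fermat.Agent.A2.Mod.Qb (((u⁻¹ : (_root_.Fermat.Agent.A2.Mod.RE P E)ˣ) : _root_.Fermat.Agent.A2.Mod.RE P E) : E)) ≤ 1 :=
      (ValuationSubring.valuation_le_one_iff _ _).mpr ((u⁻¹ : (_root_.Fermat.Agent.A2.Mod.RE P E)ˣ) : _root_.Fermat.Agent.A2.Mod.RE P E).2
    have h5 := congrArg P.valuation h2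
    rw [map_mul, map_one] at h5
    have h6 : P.valuation ((q : ℕ) : _root_.Fermat.Agent.A2.Mod.Qb) *
        P.valuation (algebraMap E _root_.Fermat.Agent.A2.Mod.Qb (((u⁻¹ : (_root_.Fermat.Agent.A2.Mod.RE P E)ˣ) : _root_.Fermat.Agent.A2.Mod.RE P E) : E)) < 1 := by
      calc _ ≤ P.valuation ((q : ℕ) : _root_.Fermat.Agent.A2.Mod.Qb) * 1 := by gcongr
        _ = P.valuation ((q : ℕ) : _root_.Fermat.Agent.A2.Mod.Qb) := mul_one _
        _ < 1 := hqv
    exact (ne_of_lt h6) h5
  have hmem : qA ∈ IsLocalRing.maximalIdeal (_root_.Fermat.Agent.A2.Mod.RE P E) := (IsLocalRing.mem_maximalIdeal _).mpr hnu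
  rw [hS.unif.maximalIdeal_eq, Ideal.mem_span_singleton] at hmem
  obtain ⟨c, hc⟩ := hmem
  refine ⟨c, ?_⟩
  have := congrArg Subtype.val hc
  simpa [hqA] using this

theorem eval₂_mem_subring {R S : Type*} [CommRing R] [CommRing S] (f : R →+* S) (x : S)
    (T : Subring S) (hf : ∀ r, f r ∈ T) (hx : x ∈ T) (p : Polynomial R) : p.eval₂ f x ∈ T := by
  rw [Polynomial.eval₂_eq_sum, Polynomial.sum]
  exact Subring.sum_mem _ fun i _ => T.mul_mem (hf _) (T.pow_mem hx i)

theorem jser_mem_V {N : ℕ} {V : ValuationSubring (_root_.Fermat.Agent.A2.Mod.FE E N)} (hV : IsVinf P E N V)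
    {x : _root_.Fermat.Agent.A2.Mod.FE E N} {d : ℕ} [NeZero d] (hx : (x : LaurentSeries E) = jser E d) : x ∈ V := by
  rw [hV, hx, jser_eq_incl E (_root_.Fermat.Agent.A2.Mod.RE P E) d]
  exact IsGaussInt.of_incl _

/-- the subtype ring homomorphism `F_N → E((t))`. -/
def valHom (E : IntermediateField ℚ _root_.Fermat.Agent.A2.Mod.Qb) (N : ℕ) : _root_.Fermat.Agent.A2.Mod.FE E N →+* LaurentSeries E :=
  ((_root_.Fermat.Agent.A2.Mod.FE E N).val : _root_.Fermat.Agent.A2.Mod.FE E N →+* LaurentSeries E)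

theorem valHom_apply (N : ℕ) (x : _root_.Fermat.Agent.A2.Mod.FE E N) : valHom E N x = (x : LaurentSeries E) := rfl

theorem valHom_comp_aeval (N : ℕ) (y : _root_.Fermat.Agent.A2.Mod.FE E N) :
    (valHom E N).comp (Polynomial.aeval (R := ℤ) y).toRingHom = evalAt (y : LaurentSeries E) := by
  apply Polynomial.ringHom_ext
  · intro a
    simp [evalAt, valHom]
  · simp [evalAt, valHom]

/-- **The Kronecker relation** for the generators `j_{dq}`. -/
theorem kron_X (hS : Setting P E M q w) {VM : ValuationSubring (_root_.Fermat.Agent.A2.Mod.FE E M)}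
    {V : ValuationSubring (_root_.Fermat.Agent.A2.Mod.FE E (M * q))} (hVM : IsVinf P E M VM) (hV : IsVinf P E (M * q) V)
    {x : _root_.Fermat.Agent.A2.Mod.FE E (M * q)} (hx : x ∈ Xset E M q) :
    ∃ a ∈ Oring E M q VM,
      ∃ s ∈ Subring.closure ((Oring E M q VM : Set (_root_.Fermat.Agent.A2.Mod.FE E (M * q))) ∪ Xset E M q),
        s ≠ 0 ∧ s⁻¹ ∈ V.toSubring ∧
        ∃ c ∈ Subring.closure ((Oring E M q VM : Set (_root_.Fermat.Agent.A2.Mod.FE E (M * q))) ∪ Xset E M q),
          s * (x - a) = cE P E (M * q) w * c := by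
  obtain ⟨d, hd, hdM, hxd⟩ := hx
  haveI := hd
  set B := Subring.closure ((Oring E M q VM : Set (_root_.Fermat.Agent.A2.Mod.FE E (M * q))) ∪ Xset E M q) with hB
  set y0 : _root_.Fermat.Agent.A2.Mod.FE E M := ⟨jser E d, jser_mem E M d hdM⟩ with hy0
  have hy0V : y0 ∈ VM := jser_mem_V hVM (d := d) rfl
  set y : _root_.Fermat.Agent.A2.Mod.FE E (M * q) := αE E M q y0 with hy
  have hyc : (y : LaurentSeries E) = jser E d := coe_heckeAlphaBar M q y0
  have hyO : y ∈ Oring E M q VM := mem_Oring.mpr ⟨y0, hy0V, rfl⟩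
  have hxB : x ∈ B := Subring.subset_closure (Or.inr ⟨d, hd, hdM, hxd⟩)
  have hyB : y ∈ B := Subring.subset_closure (Or.inl hyO)
  obtain ⟨Θ, hΘ⟩ := kron_series E q hS.q_prime d
  obtain ⟨c0, hc0⟩ := exists_q_eq hS
  set θ : _root_.Fermat.Agent.A2.Mod.FE E (M * q) := Θ.eval₂ ((Polynomial.aeval (R := ℤ) y).toRingHom) x with hθ
  have hθB : θ ∈ B := by
    refine eval₂_mem_subring _ x B (fun r => ?_) hxB Θ
    show Polynomial.aeval y r ∈ B
    rw [Polynomial.aeval_def]
    refine eval₂_mem_subring _ y B (fun n => ?_) hyB r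
    rw [eq_intCast]
    exact intCast_mem B n
  have hθc : (θ : LaurentSeries E) = Θ.eval₂ (evalAt (jser E d)) (jser E (d * q)) := by
    rw [← valHom_apply, hθ, Polynomial.hom_eval₂, valHom_comp_aeval, valHom_apply, hxd, hyc]
  -- the unit `s`
  have hsc : ((x ^ q - y : _root_.Fermat.Agent.A2.Mod.FE E (M * q)) : LaurentSeries E)
      = incl (_root_.Fermat.Agent.A2.Mod.RE P E) (castA (_root_.Fermat.Agent.A2.Mod.RE P E) (jInt (d * q) ^ q - jInt d)) := by
    rw [incl_sInt, ← valHom_apply, map_sub, map_pow, valHom_apply, valHom_apply, hxd, hyc]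
  have hred := red_sInt_ne_zero E (_root_.Fermat.Agent.A2.Mod.RE P E) q hS.q_prime.two_le d
  have hs0 : x ^ q - y ≠ 0 := by
    intro h
    have h1 : ((x ^ q - y : _root_.Fermat.Agent.A2.Mod.FE E (M * q)) : LaurentSeries E) = 0 := by
      rw [h]
      rfl
    rw [hsc] at h1
    exact incl_ne_zero _ (ne_zero_of_red_ne_zero _ hred) h1
  have hsi : (x ^ q - y)⁻¹ ∈ V := by
    rw [hV, IntermediateField.coe_inv, hsc]
    refine isGaussInt_inv_of_prim _ hred ?_
    rw [← hsc]
    exact (x ^ q - y).2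
  have hc0O : cE P E (M * q) c0 ∈ Oring E M q VM :=
    mem_Oring.mpr ⟨cE P E M c0, cE_mem hVM c0, alpha_cE c0⟩
  refine ⟨y ^ q, (Oring E M q VM).pow_mem hyO q, x ^ q - y,
    B.sub_mem (B.pow_mem hxB q) hyB, hs0, hsi, -(cE P E (M * q) c0 * θ),
    B.neg_mem (B.mul_mem (Subring.subset_closure (Or.inl hc0O)) hθB), ?_⟩
  apply Subtype.ext
  have hqc : ((q : ℕ) : LaurentSeries E) = cst ((w : E)) * cst (c0 : E) := by
    rw [← cst_mul, ← hc0]
    exact (map_natCast (algebraMap E (LaurentSeries E)) q).symm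
  have hL : (((x ^ q - y) * (x - y ^ q) : _root_.Fermat.Agent.A2.Mod.FE E (M * q)) : LaurentSeries E)
      = (jser E (d * q) ^ q - jser E d) * (jser E (d * q) - jser E d ^ q) := by
    rw [← valHom_apply, map_mul, map_sub, map_sub, map_pow, map_pow, valHom_apply, valHom_apply,
      hxd, hyc]
  have hR : ((cE P E (M * q) w * -(cE P E (M * q) c0 * θ) : _root_.Fermat.Agent.A2.Mod.FE E (M * q)) : LaurentSeries E)
      = cst (w : E) * -(cst (c0 : E) * Θ.eval₂ (evalAt (jser E d)) (jser E (d * q))) := by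
    rw [← valHom_apply, map_mul, map_neg, map_mul, valHom_apply _ θ, hθc]
    rfl
  rw [hL, hR]
  rw [hqc] at hΘ
  linear_combination hΘ

/-- divisors of `M q`: either `d ∣ M` or `d = d' q` with `d' ∣ M`. -/
theorem dvd_cases {M q d : ℕ} (hq : q.Prime) (hd : d ∣ M * q) :
    d ∣ M ∨ ∃ d', d' ∣ M ∧ d = d' * q := by
  by_cases hqd : q ∣ d
  · right
    obtain ⟨d', rfl⟩ := hqd
    refine ⟨d', ?_, mul_comm _ _⟩
    rw [mul_comm q d'] at hd
    exact (Nat.mul_dvd_mul_iff_right hq.pos).mp hd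
  · left
    have hcop : Nat.Coprime d q := ((Nat.Prime.coprime_iff_not_dvd hq).mpr hqd).symm
    exact hcop.dvd_of_dvd_mul_right hd

/-- `F_{Mq}` is generated as a field by `α(V∞_M)` and the `j_{dq}`. -/
theorem gen_X (hS : Setting P E M q w) {VM : ValuationSubring (_root_.Fermat.Agent.A2.Mod.FE E M)}
    (hVM : IsVinf P E M VM) (f : _root_.Fermat.Agent.A2.Mod.FE E (M * q)) :
    f ∈ Subfield.closure ((Oring E M q VM : Set (_root_.Fermat.Agent.A2.Mod.FE E (M * q))) ∪ Xset E M q) := by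
  set G := Subfield.closure ((Oring E M q VM : Set (_root_.Fermat.Agent.A2.Mod.FE E (M * q))) ∪ Xset E M q) with hG
  set Gs : Subfield (LaurentSeries E) := G.map (valHom E (M * q)) with hGsdef
  have hGs : ∀ x : _root_.Fermat.Agent.A2.Mod.FE E (M * q), (x : LaurentSeries E) ∈ Gs → x ∈ G := by
    intro x hx
    obtain ⟨y, hy, hyx⟩ := Subfield.mem_map.mp hx
    have h1 : y = x := Subtype.ext hyx
    rw [← h1]
    exact hy
  have hGs' : ∀ x : _root_.Fermat.Agent.A2.Mod.FE E (M * q), x ∈ G → (x : LaurentSeries E) ∈ Gs :=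
    fun x hx => Subfield.mem_map.mpr ⟨x, hx, rfl⟩
  -- constants
  have hconstA : ∀ r : _root_.Fermat.Agent.A2.Mod.RE P E, cE P E (M * q) r ∈ G := fun r =>
    Subfield.subset_closure (Or.inl (mem_Oring.mpr ⟨cE P E M r, cE_mem hVM r, alpha_cE r⟩))
  have hconst : ∀ e : E, algebraMap E (LaurentSeries E) e ∈ Gs := by
    intro e
    refine hGs' (algebraMap E (_root_.Fermat.Agent.A2.Mod.FE E (M * q)) e) ?_
    rcases (_root_.Fermat.Agent.A2.Mod.RE P E).mem_or_inv_mem e with h | h
    · exact hconstA ⟨e, h⟩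
    · have h1 : algebraMap E (_root_.Fermat.Agent.A2.Mod.FE E (M * q)) e = (cE P E (M * q) ⟨e⁻¹, h⟩)⁻¹ := by
        rw [cE, ← map_inv₀, inv_inv]
      rw [h1]
      exact G.inv_mem (hconstA _)
  -- generators
  have hj : ∀ (d : ℕ) [NeZero d], d ∣ M * q → jser E d ∈ Gs := by
    intro d hd hdN
    rcases dvd_cases hS.q_prime hdN with hdM | ⟨d', hd'M, hdd'⟩
    · have h1 : αE E M q ⟨jser E d, jser_mem E M d hdM⟩ ∈ G :=
        Subfield.subset_closure (Or.inl (mem_Oring.mpr
          ⟨⟨jser E d, jser_mem E M d hdM⟩, jser_mem_V hVM (d := d) rfl, rfl⟩))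
      exact hGs' _ h1
    · subst hdd'
      haveI : NeZero d' := ⟨fun h => by
        rw [h, zero_mul] at hd
        exact hd.out rfl⟩
      have h1 : (⟨jser E (d' * q), jser_mem E (M * q) (d' * q) hdN⟩ : _root_.Fermat.Agent.A2.Mod.FE E (M * q)) ∈ G :=
        Subfield.subset_closure (Or.inr ⟨d', inferInstance, hd'M, rfl⟩)
      exact hGs' _ h1
  apply hGs
  have hf := mem_laurentBaseChange_iff.mp f.2
  refine Subfield.closure_le.mpr ?_ hf
  rintro z (⟨e, rfl⟩ | ⟨z0, hz0, rfl⟩)
  · exact hconst e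
  · have hz0' : z0 ∈ IntermediateField.adjoin ℚ (divisorExpansions (M * q)) := hz0
    induction hz0' using IntermediateField.adjoin_induction with
    | mem y hy =>
      obtain ⟨d, hd, hdN, rfl⟩ := hy
      haveI := hd
      show coeffEmb E (qExpand ℚ d jq) ∈ Gs
      rw [← jser_eq_coeffEmb]
      exact hj d hdN
    | algebraMap c =>
      have h1 : coeffEmb E (algebraMap ℚ (LaurentSeries ℚ) c)
          = algebraMap E (LaurentSeries E) (algebraMap ℚ E c) := by
        rw [coeffEmb, algebraMap_laurentSeries_eq_single, algebraMap_laurentSeries_eq_single,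
          coeffMap_single]
      show coeffEmb E (algebraMap ℚ (LaurentSeries ℚ) c) ∈ Gs
      rw [h1]
      exact hconst _
    | add x y hx hy ihx ihy =>
      show coeffEmb E (x + y) ∈ Gs
      rw [map_add]
      exact Gs.add_mem (ihx hx) (ihy hy)
    | inv x hx ihx =>
      show coeffEmb E x⁻¹ ∈ Gs
      rw [map_inv₀]
      exact Gs.inv_mem (ihx hx)
    | mul x y hx hy ihx ihy =>
      show coeffEmb E (x * y) ∈ Gs
      rw [map_mul]
      exact Gs.mul_mem (ihx hx) (ihy hy)

/-- discreteness of `V∞`. -/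
theorem disc_V (hS : Setting P E M q w) (N : ℕ) {V : ValuationSubring (_root_.Fermat.Agent.A2.Mod.FE E N)}
    (hV : IsVinf P E N V) {x : _root_.Fermat.Agent.A2.Mod.FE E N} (hx : x ∈ V) (hx0 : x ≠ 0) :
    ∃ (n : ℕ) (u : _root_.Fermat.Agent.A2.Mod.FE E N), u ∈ V ∧ u⁻¹ ∈ V ∧ x = cE P E N w ^ n * u := by
  haveI := hS.dvr
  have hx0' : (x : LaurentSeries E) ≠ 0 := fun h => hx0 (Subtype.ext h)
  obtain ⟨n, h1, h2⟩ := exists_pow_mul_unit (_root_.Fermat.Agent.A2.Mod.RE P E) hS.unif (intGen_full N) (attains hS N)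
    x.2 hx0' ((hV x).mp hx)
  have hcw := cE_ne_zero hS N
  have hu : ((x * (cE P E N w ^ n)⁻¹ : _root_.Fermat.Agent.A2.Mod.FE E N) : LaurentSeries E)
      = (x : LaurentSeries E) * (cst ((w : _root_.Fermat.Agent.A2.Mod.RE P E) : E) ^ n)⁻¹ := by
    rw [← valHom_apply, map_mul, map_inv₀, map_pow]
    rfl
  refine ⟨n, x * (cE P E N w ^ n)⁻¹, ?_, ?_, ?_⟩
  · rw [hV, hu]
    exact h1
  · rw [hV, ← valHom_apply, map_inv₀, valHom_apply, hu]
    exact h2
  · field_simp

/-- **The data of the abstract lemma.** -/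
theorem resOneData (hS : Setting P E M q w) {VM : ValuationSubring (_root_.Fermat.Agent.A2.Mod.FE E M)}
    {V : ValuationSubring (_root_.Fermat.Agent.A2.Mod.FE E (M * q))} (hVM : IsVinf P E M VM) (hV : IsVinf P E (M * q) V) :
    ResOneData V.toSubring (Oring E M q VM) (cE P E (M * q) w) (Xset E M q) where
  O_le := by
    intro x hx
    obtain ⟨g, hg, rfl⟩ := mem_Oring.mp hx
    exact (alpha_mem_iff hS hVM hV g).mpr hg
  w_mem := mem_Oring.mpr ⟨cE P E M w, cE_mem hVM w, alpha_cE w⟩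
  w_ne := cE_ne_zero hS _
  w_nonunit := by
    intro h
    have h1 : (cE P E (M * q) w)⁻¹ ∈ V := h
    rw [hV, ← valHom_apply, map_inv₀] at h1
    have h2 : valHom E (M * q) (cE P E (M * q) w) = cst ((w : _root_.Fermat.Agent.A2.Mod.RE P E) : E) := rfl
    have h3 : (cst ((w : _root_.Fermat.Agent.A2.Mod.RE P E) : E))⁻¹ = cst ((w : E)⁻¹) := (map_inv₀ _ _).symm
    rw [h2, h3, isGaussInt_cst_iff] at h1
    exact w_inv_not_mem hS h1
  O_div := by
    intro x hx hxw
    obtain ⟨g, hg, rfl⟩ := mem_Oring.mp hx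
    have h1 : αE E M q g * (cE P E (M * q) w)⁻¹ = αE E M q (g * (cE P E M w)⁻¹) := by
      rw [map_mul, map_inv₀, alpha_cE]
    rw [h1] at hxw ⊢
    exact mem_Oring.mpr ⟨_, (alpha_mem_iff hS hVM hV _).mp hxw, rfl⟩
  O_inv := by
    intro x hx hxi
    obtain ⟨g, hg, rfl⟩ := mem_Oring.mp hx
    have h1 : (αE E M q g)⁻¹ = αE E M q g⁻¹ := (map_inv₀ _ _).symm
    rw [h1] at hxi ⊢
    exact mem_Oring.mpr ⟨_, (alpha_mem_iff hS hVM hV _).mp hxi, rfl⟩
  X_le := by
    rintro x ⟨d, hd, hdM, hxd⟩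
    haveI := hd
    exact jser_mem_V hV hxd
  disc := fun x hx hx0 => disc_V hS (M * q) hV hx hx0
  kron := fun x hx => kron_X hS hVM hV hx
  gen := gen_X hS hVM

/-- **Leaf L11 (`ResInf`)**: residue degree one over level `M` on `C∞`. -/
theorem resInf (P : ValuationSubring _root_.Fermat.Agent.A2.Mod.Qb) (E : IntermediateField ℚ _root_.Fermat.Agent.A2.Mod.Qb) (M q : ℕ) [NeZero M]
    [NeZero q] (w : _root_.Fermat.Agent.A2.Mod.RE P E) : ResInfStatement P E M q w := by
  intro hS VM V hVM hV f hf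
  obtain ⟨g', hg', hcong⟩ := (resOneData hS hVM hV).exists_congr hf
  obtain ⟨g, hg, rfl⟩ := mem_Oring.mp hg'
  exact ⟨g, hg, hcong⟩

end Concrete

end Fermat.Agent.A2.Mod.H378

end
end
-- ===== PACK-END A2/Mod/H378/L11.lean

-- ===== PACK-BEGIN A2/H553/Modular.lean
section



/-!
# A2 / K2c (helper553): `V∞` for the modular function fields `Q̄(X₀(N))`

* `gaussInput_modular` : `GaussInput A (modularFunctionFieldFull N)` for every `N` and every
  valuation subring `A ⊆ Q̄` over a prime;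
* `VinfModular A hℓ hA N : ValuationSubring (modularFunctionFieldBar N)`;
* `k2_Vinf_modular` : the three K2 hypotheses for `VinfModular`, packaged.
-/

set_option autoImplicit false
set_option linter.unusedSectionVars false
set_option linter.style.haveILetI false

noncomputable section

namespace Fermat.Agent.A2.H553

open ModularCurve HahnSeries IntermediateField AlgebraicCurve
open Fermat.Agent.S28.H86 Fermat.Agent.S18.H602 Fermat.Agent.A2.H129

local notation "Q̄" => AlgebraicClosure ℚ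

/-- the `q`-expansions `j(q^d)` over `Q̄` have integer coefficients -/
theorem coeffEmb_jqd_eq (d : ℕ) [NeZero d] :
    coeffEmb Q̄ (qExpand ℚ d jq) = coeffMap (Int.castRingHom Q̄) (qExpand ℤ d (jqModC ℤ)) := by
  rw [coeffMap_qExpand, coeffMap_jqModC, coeffEmb, coeffMap_qExpand, ← jqModC_rat,
    coeffMap_jqModC]

theorem finFrac_intSeries (A : ValuationSubring Q̄) (y : LaurentSeries ℤ) :
    FinFrac A (coeffMap (Int.castRingHom Q̄) y) := by
  haveI : FiniteDimensional ℚ (⊥ : IntermediateField ℚ Q̄) := inferInstance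
  refine FinFrac.of_mem (E := ⊥) ?_
  intro n
  rw [coeffMap_coeff, eq_intCast]
  exact ⟨intCast_mem A _, intCast_mem (⊥ : IntermediateField ℚ Q̄) _⟩

/-- The hypotheses hold for the function field of `X₀(N)`, any `N`, any prime `ℓ`. -/
theorem gaussInput_modular (A : ValuationSubring Q̄) {ℓ : ℕ} (hℓ : ℓ ≠ 0)
    (hA : A.LiesOverPrime ℓ) (N : ℕ) : GaussInput A (modularFunctionFieldFull N) where
  exists_prime := ⟨ℓ, hℓ, hA⟩
  finFrac := by
    intro z hz
    refine finFrac_coeffEmb_of_adjoin ?_ hz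
    rintro _ ⟨d, hd, -, rfl⟩
    haveI := hd
    rw [coeffEmb_jqd_eq]
    exact finFrac_intSeries A _

/-- The Gauss valuation at `∞` of `Q̄(X₀(N))` over `A`. -/
def VinfModular (A : ValuationSubring Q̄) {ℓ : ℕ} (hℓ : ℓ ≠ 0) (hA : A.LiesOverPrime ℓ) (N : ℕ) :
    ValuationSubring ↥(modularFunctionFieldBar N) :=
  Vinf A (modularFunctionFieldFull N) (gaussInput_modular A hℓ hA N)

/-- **K2c.**  The hypotheses of helper129's K2 (`GaussTwice`) for the Gauss valuation at `∞` of
`Q̄(X₀(N))` and the arithmetic action of an element of the inertia group of `A`. -/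
theorem k2_Vinf_modular (A : ValuationSubring Q̄) {ℓ : ℕ} (hℓ : ℓ ≠ 0) (hA : A.LiesOverPrime ℓ)
    (N : ℕ) {σ : Q̄ ≃ₐ[ℚ] Q̄} (hσ : σ ∈ A.inertiaSubgroupIn ℚ) :
    HasConstValues (constField (modularFunctionFieldFull N)) (VinfModular A hℓ hA N) ∧
    PreservesConstValues (constField (modularFunctionFieldFull N)) (VinfModular A hℓ hA N)
      (arithmeticRingAut (modularFunctionFieldFull N) σ) ∧
    InInertia (VinfModular A hℓ hA N) (arithmeticRingAut (modularFunctionFieldFull N) σ) ∧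
    (∀ c ∈ constField (modularFunctionFieldFull N),
      arithmeticRingAut (modularFunctionFieldFull N) σ c ∈
        constField (modularFunctionFieldFull N)) :=
  ⟨hasConstValues_Vinf _,
    preservesConstValues_Vinf _ (Fermat.Agent.A2.H708.mem_decomposition_of_mem_inertiaIn A hσ),
    inInertia_Vinf _ hσ, fun _ hc => arithmeticRingAut_mem_constField σ hc⟩

end Fermat.Agent.A2.H553

end
end
-- ===== PACK-END A2/H553/Modular.lean

-- ===== PACK-BEGIN A2/H553/Bridge708.lean
section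




/-!
# A2 / VINF (helper553): the two definitions of `V∞` on main agree

`Fermat.Agent.A2.H553.Vinf A F₀ h` (fractions `a / b` of `A`-integral series, `b` primitive) and
`Fermat.Agent.A2.H708.gaussInf A F₀ hgen hmax` (the same with `b ∈ F`) are the SAME valuation
subring of `Q̄ · F₀`.  So every statement proved for one of them transfers to the other by `rw`.
-/

set_option autoImplicit false
set_option linter.unusedSectionVars false

noncomputable section

namespace Fermat.Agent.A2.H553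

open ModularCurve HahnSeries IntermediateField
open Fermat.Agent.S28.H86

local notation "Q̄" => AlgebraicClosure ℚ

variable {A : ValuationSubring Q̄} {F₀ : IntermediateField ℚ (LaurentSeries ℚ)}

theorem Vinf_eq_gaussInf (h : GaussInput A F₀) (hgen : Fermat.Agent.A2.H708.IntGen F₀)
    (hmax : Fermat.Agent.A2.H708.AttainsMax A F₀) :
    Vinf A F₀ h = Fermat.Agent.A2.H708.gaussInf A F₀ hgen hmax := by
  ext f
  constructor
  · intro hf
    rcases eq_or_ne f 0 with rfl | hf0
    · exact Subring.zero_mem _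
    have hf0' : (f : LaurentSeries Q̄) ≠ 0 := fun h0 => hf0 (Subtype.ext h0)
    obtain ⟨c, U₁, U₂, hc, h₁, h₂, hm₁, hm₂, he⟩ :=
      Fermat.Agent.A2.H708.exists_normal_form hgen hmax f.2 hf0'
    refine (Fermat.Agent.A2.H708.isGaussInt_iff_of_normal_form h₁ h₂ hm₂ he).mpr ?_
    -- read off `c ∈ A` from membership in `gaussA A`
    have he' : (f : LaurentSeries Q̄) * inclL A.toSubring U₂ =
        HahnSeries.C c * inclL A.toSubring U₁ := by
      have : (HahnSeries.C c : LaurentSeries Q̄) = algebraMap Q̄ (LaurentSeries Q̄) c := by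
        rw [algebraMap_laurentSeries_eq_single]; rfl
      rw [this]
      exact he
    exact HasGaussForm.const_mem_of_mem (A := A) (a := U₁) (b := U₂) h₁ he' hf
  · rintro ⟨U₁, U₂, h₂, -, he⟩
    exact ⟨U₁, U₂, h₂, he⟩

end Fermat.Agent.A2.H553

end
end
-- ===== PACK-END A2/H553/Bridge708.lean

-- ===== PACK-BEGIN A2/H489/ChartB.lean
section



/-!
# A2 / MODASM step S1 (helper489): the two components of a chart, from an explicit coordinate

`R` a discrete valuation ring with uniformiser `w`, `E = Frac R`, `F ⊇ E` a field, `y ∈ F` a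
coordinate, `V₁ ≠ V₂` valuation subrings of `F` inducing the Gauss valuation on `E(y)`
(`IsGaussOver`), both with uniformiser `w`, with `R[y]`-independent families modulo the maximal
ideals (`PolyIndepMod`) of total size `≥ [F : E(y)]`.

* `gaussPairLe_of_frame` : the hypotheses `H48.GaussPairLe` for the `R[X]`-algebra structure
  `X ↦ y` (all instances are constructed here);
* `frame_exists_components` : for the chart `B` = integral closure of `R[y]`
  (`f ∈ B ↔ IsIntegral (Algebra.adjoin R {y}) f`) there are prime ideals `p₁ p₂` of `B` with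
  `b ∈ p_i ↔ b ∈ 𝔪_{V_i}`, incomparable, and `p₁ ⊓ p₂ = w B`
  (= the fields `p₁ … inf_eq` of `Fermat.Agent.A2.SSChart`).
-/

set_option autoImplicit false
set_option linter.style.haveILetI false
set_option linter.unusedSectionVars false

namespace Fermat.Agent.A2.H489

open IsLocalRing Polynomial IntermediateField

section Inj

variable {R F : Type*} [CommRing R] [IsDomain R] [IsDiscreteValuationRing R]
  [Field F] [Algebra R F]

/-- the coordinate of a Gauss valuation is transcendental over `R` -/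
theorem IsGaussOver.aeval_injective (E : Type*) [Field E] [Algebra R E] [IsFractionRing R E]
    [Algebra E F] [IsScalarTower R E F] {V : ValuationSubring F} {y : F}
    (h : IsGaussOver R V y) :
    Function.Injective (aeval y : R[X] → F) := by
  rw [injective_iff_map_eq_zero]
  intro P hP
  by_contra hP0
  obtain ⟨w, hw⟩ := IsDiscreteValuationRing.exists_irreducible R
  obtain ⟨n, P₀, rfl, hP₀⟩ := exists_eq_pow_mul_prim hw hP0
  rw [map_mul, aeval_C] at hP
  rcases mul_eq_zero.mp hP with h1 | h1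
  · exact algebraMap_RL_ne_zero E (pow_ne_zero n hw.ne_zero) h1
  · exact h.aeval_ne_zero hP₀ h1

end Inj

section FrameChart

variable {R E F : Type*} [CommRing R] [IsDomain R] [IsDiscreteValuationRing R]
  [Field E] [Algebra R E] [IsFractionRing R E]
  [Field F] [Algebra E F] [Algebra R F] [IsScalarTower R E F]

/-- divisibility by the uniformiser = vanishing modulo the maximal ideal -/
theorem C_dvd_iff_map_residue_eq_zero {w : R} (hw : Irreducible w) (P : R[X]) :
    C w ∣ P ↔ P.map (residue R) = 0 := by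
  constructor
  · rintro ⟨P', rfl⟩
    have hwm : residue R w = 0 := by
      rw [residue_eq_zero_iff, IsLocalRing.mem_maximalIdeal, _root_.mem_nonunits_iff]
      exact hw.not_isUnit
    rw [Polynomial.map_mul, map_C, hwm, C_0, zero_mul]
  · intro h
    obtain ⟨P', hP'⟩ := exists_eq_C_mul_of_map_residue_eq_zero hw h
    exact ⟨P', hP'⟩

variable {V : ValuationSubring F} {y : F}

/-- every element of `E(y)` is a quotient of polynomials over `R` -/
theorem exists_div_aeval_of_mem_adjoin {a : F} (ha : a ∈ E⟮y⟯) :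
    ∃ P Q : R[X], a = aeval y P / aeval y Q := by
  obtain ⟨r, s, hrs⟩ := (mem_adjoin_simple_iff E a).mp ha
  by_cases hr : r = 0
  · refine ⟨0, 1, ?_⟩
    rw [hrs, hr, map_zero, zero_div, map_zero, zero_div]
  by_cases hs : s = 0
  · refine ⟨0, 1, ?_⟩
    rw [hrs, hs, map_zero, div_zero, map_zero, zero_div]
  obtain ⟨dr, R', hdr, -, eR⟩ := exists_aeval_eq_of_polynomial (R := R) y hr
  obtain ⟨ds, S', hds, -, eS⟩ := exists_aeval_eq_of_polynomial (R := R) y hs
  have hdrL : algebraMap R F dr ≠ 0 := algebraMap_RL_ne_zero E hdr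
  have hdsL : algebraMap R F ds ≠ 0 := algebraMap_RL_ne_zero E hds
  refine ⟨C ds * R', C dr * S', ?_⟩
  rw [map_mul, map_mul, aeval_C, aeval_C, ← eR, ← eS, hrs]
  by_cases hs0 : aeval y s = 0
  · rw [hs0, div_zero, mul_zero, mul_zero, div_zero]
  · field_simp

/-- **MODASM S1, explicit coordinate.**  The two components of the chart `B` = integral closure
of `R[y]`: primes `p₁ = B ∩ 𝔪_{V₁}`, `p₂ = B ∩ 𝔪_{V₂}`, incomparable, `p₁ ⊓ p₂ = w B`. -/
theorem frame_exists_components {w : R} (hw : Irreducible w) {V₁ V₂ : ValuationSubring F}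
    (h₁ : IsGaussOver R V₁ y) (h₂ : IsGaussOver R V₂ y)
    (hu₁ : H48.IsUnif V₁ (algebraMap R F w)) (hu₂ : H48.IsUnif V₂ (algebraMap R F w))
    (hne : V₁ ≠ V₂) {f₁ f₂ : ℕ} {u₁ : Fin f₁ → F} {u₂ : Fin f₂ → F}
    (hm₁ : ∀ i, u₁ i ∈ V₁) (hm₂ : ∀ i, u₂ i ∈ V₂)
    (hI₁ : PolyIndepMod R V₁ y u₁) (hI₂ : PolyIndepMod R V₂ y u₂)
    [FiniteDimensional E⟮y⟯ F] (hdeg : Module.finrank E⟮y⟯ F ≤ f₁ + f₂)
    (B : Subalgebra R F)
    (hB : ∀ f : F, f ∈ B ↔ IsIntegral (Algebra.adjoin R ({y} : Set F)) f) :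
    ∃ p₁ p₂ : Ideal B,
      (∀ b : B, b ∈ p₁ ↔ (b : F) ∈ V₁.nonunits) ∧ (∀ b : B, b ∈ p₂ ↔ (b : F) ∈ V₂.nonunits) ∧
      p₁.IsPrime ∧ p₂.IsPrime ∧ p₁ ≠ p₂ ∧ ¬ p₁ ≤ p₂ ∧ ¬ p₂ ≤ p₁ ∧
      p₁ ⊓ p₂ = Ideal.span {algebraMap R B w} := by
  classical
  -- the `R[X]`-algebra structures `X ↦ y`
  letI algF : Algebra R[X] F := (aeval y : R[X] →ₐ[R] F).toRingHom.toAlgebra
  have hF : ∀ P : R[X], algebraMap R[X] F P = aeval y P := fun _ => rfl
  let yK : E⟮y⟯ := ⟨y, mem_adjoin_simple_self E y⟩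
  letI algK : Algebra R[X] E⟮y⟯ := (aeval yK : R[X] →ₐ[R] E⟮y⟯).toRingHom.toAlgebra
  have hK : ∀ P : R[X], algebraMap R[X] E⟮y⟯ P = aeval yK P := fun _ => rfl
  haveI towerK : IsScalarTower R E⟮y⟯ F := IsScalarTower.of_algebraMap_eq (fun _ => rfl)
  have hKF : ∀ P : R[X], ((aeval yK P : E⟮y⟯) : F) = aeval y P := by
    intro P
    have := Polynomial.aeval_algHom_apply (IsScalarTower.toAlgHom R E⟮y⟯ F) yK P
    exact this.symm
  haveI tower : IsScalarTower R[X] E⟮y⟯ F :=
    IsScalarTower.of_algebraMap_eq (fun P => (hKF P).symm)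
  haveI towerR : IsScalarTower R R[X] F :=
    IsScalarTower.of_algebraMap_eq (fun r => (aeval_C y r).symm)
  have hinjF : Function.Injective (aeval y : R[X] → F) := h₁.aeval_injective E
  have hinjK : Function.Injective (algebraMap R[X] E⟮y⟯) := by
    intro P Q hPQ
    apply hinjF
    rw [← hKF, ← hKF, ← hK, ← hK, hPQ]
  haveI : FaithfulSMul R[X] E⟮y⟯ := (faithfulSMul_iff_algebraMap_injective _ _).mpr hinjK
  haveI frac : IsFractionRing R[X] E⟮y⟯ := by
    apply IsFractionRing.of_field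
    intro z
    obtain ⟨P, Q, hPQ⟩ := exists_div_aeval_of_mem_adjoin (R := R) (E := E) z.2
    refine ⟨P, Q, Subtype.ext ?_⟩
    rw [hPQ]
    show aeval y P / aeval y Q = ((aeval yK P / aeval yK Q : E⟮y⟯) : F)
    rw [IntermediateField.coe_div, hKF, hKF]
  have hCw : algebraMap R[X] F (C w) = algebraMap R F w := aeval_C y w
  have hprim : ∀ P : R[X], ¬ C w ∣ P → P.map (residue R) ≠ 0 := fun P hP h0 =>
    hP ((C_dvd_iff_map_residue_eq_zero hw P).mpr h0)
  have hG : H48.GaussPairLe (K := E⟮y⟯) w V₁ V₂ u₁ u₂ :=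
    { prime := hw.prime
      unif₁ := by rw [hCw]; exact hu₁
      unif₂ := by rw [hCw]; exact hu₂
      poly₁ := fun P => h₁.aeval_mem P
      poly₂ := fun P => h₂.aeval_mem P
      gauss₁ := fun P hP => h₁.inv_aeval_mem (hprim P hP)
      gauss₂ := fun P hP => h₂.inv_aeval_mem (hprim P hP)
      ne := hne
      b_mem := hm₁
      c_mem := hm₂
      b_indep := by
        intro a ha i
        rw [hCw, hu₁.mul_inv_mem_iff, ← ValuationSubring.mem_nonunits_iff] at ha
        exact (C_dvd_iff_map_residue_eq_zero hw (a i)).mpr (hI₁ a ha i)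
      c_indep := by
        intro a ha i
        rw [hCw, hu₂.mul_inv_mem_iff, ← ValuationSubring.mem_nonunits_iff] at ha
        exact (C_dvd_iff_map_residue_eq_zero hw (a i)).mpr (hI₂ a ha i)
      le := hdeg }
  have hX : algebraMap R[X] F X = y := aeval_X y
  have hB' : ∀ f : F, f ∈ B ↔
      IsIntegral (Algebra.adjoin R ({algebraMap R[X] F X} : Set F)) f := by
    rw [hX]
    exact hB
  exact gaussPairLe_exists_components hG B hB'

end FrameChart

/-! ## The chart at infinity: the coordinate `y⁻¹` -/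

section Inv

variable {R E F : Type*} [CommRing R] [IsDomain R] [IsDiscreteValuationRing R]
  [Field E] [Algebra R E] [IsFractionRing R E]
  [Field F] [Algebra E F] [Algebra R F] [IsScalarTower R E F]
  {V : ValuationSubring F} {y : F}

omit [IsDomain R] [IsDiscreteValuationRing R] in
theorem aeval_inv_mul_pow (hy : y ≠ 0) (N : ℕ) (P : R[X]) (hP : P.natDegree ≤ N) :
    aeval y⁻¹ P * y ^ N = aeval y (reflect N P) := by
  have hy' : y⁻¹ ≠ 0 := inv_ne_zero hy
  letI : Invertible (y⁻¹) := invertibleOfNonzero hy'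
  have h := eval₂_reflect_mul_pow (algebraMap R F) (y⁻¹) N P hP
  rw [invOf_eq_inv, inv_inv] at h
  rw [aeval_def, aeval_def, ← h, mul_assoc, ← mul_pow, inv_mul_cancel₀ hy, one_pow, mul_one]

omit [IsDomain R] [IsDiscreteValuationRing R] in
theorem map_residue_reflect_eq_zero [IsLocalRing R] {N : ℕ} {P : R[X]}
    (h : (reflect N P).map (residue R) = 0) : P.map (residue R) = 0 := by
  rw [map_residue_eq_zero_iff] at h ⊢
  intro i
  have := h (revAt N i)
  rwa [coeff_reflect, revAt_invol] at this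

omit [IsDomain R] [IsDiscreteValuationRing R] in
/-- the coordinate of a Gauss valuation is a unit -/
theorem IsGaussOver.inv_mem [IsLocalRing R] (h : IsGaussOver R V y) :
    y⁻¹ ∈ V := by
  have h1 := h.inv_aeval_mem (P := X) (by
    rw [Polynomial.map_X]
    exact X_ne_zero)
  rwa [aeval_X] at h1

omit [IsDomain R] [IsDiscreteValuationRing R] in
theorem IsGaussOver.ne_zero [IsLocalRing R] (h : IsGaussOver R V y) :
    y ≠ 0 := by
  have h1 := h.aeval_ne_zero (P := X) (by
    rw [Polynomial.map_X]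
    exact X_ne_zero)
  rwa [aeval_X] at h1

omit [IsDomain R] [IsDiscreteValuationRing R] in
/-- The Gauss valuation of `E(y)` is the Gauss valuation of `E(y⁻¹)`. -/
theorem IsGaussOver.inv [IsLocalRing R] (h : IsGaussOver R V y) :
    IsGaussOver R V y⁻¹ where
  isOver := h.isOver
  mem := h.inv_mem
  prim := by
    intro P hP
    apply map_residue_reflect_eq_zero (N := P.natDegree)
    apply h.prim
    rw [← aeval_inv_mul_pow h.ne_zero P.natDegree P le_rfl, mul_comm]
    exact mem_mul_nonunits (pow_mem h.mem _) hP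

omit [IsDomain R] [IsDiscreteValuationRing R] in
theorem PolyIndepMod.inv [IsLocalRing R] (h : IsGaussOver R V y) {f : ℕ}
    {u : Fin f → F} (hI : PolyIndepMod R V y u) : PolyIndepMod R V y⁻¹ u := by
  intro P hP i
  set D := Finset.univ.sup (fun i => (P i).natDegree) with hD
  have hdeg : ∀ i, (P i).natDegree ≤ D := fun i =>
    Finset.le_sup (f := fun i => (P i).natDegree) (Finset.mem_univ i)
  apply map_residue_reflect_eq_zero (N := D)
  refine hI (fun i => reflect D (P i)) ?_ i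
  have h1 : ∑ i, aeval y (reflect D (P i)) * u i = y ^ D * ∑ i, aeval y⁻¹ (P i) * u i := by
    rw [Finset.mul_sum]
    refine Finset.sum_congr rfl fun i _ => ?_
    rw [← aeval_inv_mul_pow h.ne_zero D (P i) (hdeg i)]
    ring
  rw [h1]
  exact mem_mul_nonunits (pow_mem h.mem _) hP

omit [IsDomain R] [IsDiscreteValuationRing R] [Algebra R E] [IsFractionRing R E] [Algebra R F]
  [IsScalarTower R E F] [CommRing R] in
theorem adjoin_inv_eq (E : Type*) [Field E] [Algebra E F] (y : F) : E⟮y⁻¹⟯ = E⟮y⟯ := by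
  apply le_antisymm
  · rw [adjoin_simple_le_iff]
    exact inv_mem (mem_adjoin_simple_self E y)
  · rw [adjoin_simple_le_iff]
    have := inv_mem (mem_adjoin_simple_self E y⁻¹)
    rwa [inv_inv] at this

/-- **MODASM S1, chart at infinity.**  Same hypotheses on the coordinate `y`; the chart is the
integral closure of `R[y⁻¹]`. -/
theorem frame_exists_components_inv {w : R} (hw : Irreducible w) {V₁ V₂ : ValuationSubring F}
    (h₁ : IsGaussOver R V₁ y) (h₂ : IsGaussOver R V₂ y)
    (hu₁ : H48.IsUnif V₁ (algebraMap R F w)) (hu₂ : H48.IsUnif V₂ (algebraMap R F w))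
    (hne : V₁ ≠ V₂) {f₁ f₂ : ℕ} {u₁ : Fin f₁ → F} {u₂ : Fin f₂ → F}
    (hm₁ : ∀ i, u₁ i ∈ V₁) (hm₂ : ∀ i, u₂ i ∈ V₂)
    (hI₁ : PolyIndepMod R V₁ y u₁) (hI₂ : PolyIndepMod R V₂ y u₂)
    [hfin : FiniteDimensional E⟮y⟯ F] (hdeg : Module.finrank E⟮y⟯ F ≤ f₁ + f₂)
    (B : Subalgebra R F)
    (hB : ∀ f : F, f ∈ B ↔ IsIntegral (Algebra.adjoin R ({y⁻¹} : Set F)) f) :
    ∃ p₁ p₂ : Ideal B,
      (∀ b : B, b ∈ p₁ ↔ (b : F) ∈ V₁.nonunits) ∧ (∀ b : B, b ∈ p₂ ↔ (b : F) ∈ V₂.nonunits) ∧
      p₁.IsPrime ∧ p₂.IsPrime ∧ p₁ ≠ p₂ ∧ ¬ p₁ ≤ p₂ ∧ ¬ p₂ ≤ p₁ ∧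
      p₁ ⊓ p₂ = Ideal.span {algebraMap R B w} := by
  have hE : E⟮y⁻¹⟯ = E⟮y⟯ := adjoin_inv_eq E y
  have key : ∀ (K : IntermediateField E F), K = E⟮y⟯ →
      FiniteDimensional K F ∧ Module.finrank K F ≤ f₁ + f₂ := by
    rintro K rfl
    exact ⟨hfin, hdeg⟩
  obtain ⟨hfin', hdeg'⟩ := key _ hE
  exact frame_exists_components (E := E) hw h₁.inv h₂.inv hu₁ hu₂ hne hm₁ hm₂
    (hI₁.inv h₁) (hI₂.inv h₂) hdeg' B hB

end Inv

end Fermat.Agent.A2.H489

end
-- ===== PACK-END A2/H489/ChartB.lean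

-- ===== PACK-BEGIN S28/H748/Package.lean
section



/-!
# S28 / H748 — the analytic package `ModFunPackage N` (interface of helper868)

`modFunPackage N : ModFunPackage N`, hence `Nonempty (ModFunPackage N)`, for every `N ≥ 1`.
-/

set_option autoImplicit false

noncomputable section

open UpperHalfPlane HahnSeries ModularCurve Fermat.Agent.S24
open scoped Real MatrixGroups Manifold

namespace Fermat.Agent.S28.H748

local notation "Δ" => ModularForm.discriminant

theorem iotaN_jq (N : ℕ) [NeZero N] : iotaN N jq = qExpand ℂ N (jqModC ℂ) := by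
  rw [iotaN, RingHom.comp_apply, ← jqModC_rat, coeffMap_jqModC]

theorem coeffMap_qExpand_comm {R S : Type*} [CommRing R] [CommRing S] (f : R →+* S) (n : ℕ)
    [NeZero n] (x : LaurentSeries R) :
    coeffMap f (qExpand R n x) = qExpand S n (coeffMap f x) := by
  ext k
  rw [coeffMap_coeff]
  by_cases hk : (n : ℤ) ∣ k
  · obtain ⟨m, rfl⟩ := hk
    rw [qExpand_coeff_mul, qExpand_coeff_mul, coeffMap_coeff]
  · rw [qExpand_coeff_of_not_dvd n x hk, qExpand_coeff_of_not_dvd n _ hk, map_zero]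

theorem coeffMap_deltaq : coeffMap (algebraMap ℚ ℂ) deltaq = H565.deltaSeriesC := by
  rw [deltaq, H565.deltaSeriesC, map_mul, coeffMap_single, map_one, coeffMap_ofPowerSeries,
    H565.etaProdC, ← map_pow, ← dedekindEtaUnit]
  congr 2

theorem qExpand_deltaInv (N : ℕ) [NeZero N] :
    (qExpand ℂ N H565.deltaSeriesC)⁻¹ = qExpand ℂ N H565.deltaInvSeriesC := by
  apply inv_eq_of_mul_eq_one_right
  rw [← map_mul, H565.deltaSeriesC_mul_inv, map_one]

theorem iotaN_unitq (N p : ℕ) [NeZero N] [NeZero p] :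
    iotaN N (unitq p) =
      qExpand ℂ N (qExpand ℂ p H565.deltaSeriesC) * qExpand ℂ N H565.deltaInvSeriesC := by
  rw [iotaN, RingHom.comp_apply, unitq, map_div₀, map_div₀, coeffMap_qExpand_comm,
    coeffMap_deltaq, div_eq_mul_inv, qExpand_deltaInv]

theorem iotaN_qExpand_jq (N d : ℕ) [NeZero N] [NeZero d] :
    iotaN N (qExpand ℚ d jq) = qExpand ℂ N (qExpand ℂ d (jqModC ℂ)) := by
  rw [iotaN, RingHom.comp_apply, coeffMap_qExpand_comm, ← jqModC_rat, coeffMap_jqModC]

theorem twist_eq_infTwist (u : ℂˣ) (φ : LaurentSeries ℂ) :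
    Fermat.Agent.S28.twist u φ = infTwist u φ := by
  ext n
  rw [twist_coeff, infTwist_coeff, mul_comm]

theorem infRoot_neg_one_pow (N : ℕ) [NeZero N] : infRoot (-1) N ^ N = 1 := by
  apply Units.ext
  rw [Units.val_pow_eq_pow_val, infRoot_coe, Units.val_one, ← Complex.exp_nat_mul]
  have hN : (N : ℂ) ≠ 0 := by exact_mod_cast NeZero.ne N
  have : (N : ℂ) * (2 * Real.pi * Complex.I * ((-1 : ℤ) : ℂ) / N) = -(2 * Real.pi * Complex.I) := by
    push_cast
    field_simp
  rw [this, Complex.exp_neg, Complex.exp_two_pi_mul_I, inv_one]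

/-- **The analytic package.** -/
def modFunPackage (N : ℕ) [NeZero N] : ModFunPackage N where
  ι := Idx N
  fin := idxFintype N
  gen := genS N
  perm := idxPerm N
  rel := family_rel
  inv := fun p h => by
    rw [iotaN_jq]
    exact family_inv p h
  coeff_mem := fun i n => genS_mem N i n
  twistUnit := infRoot (-1) N
  twistUnit_pow := infRoot_neg_one_pow N
  perm_T := fun i => by rw [family_perm_T, twist_eq_infTwist]
  idxJ := fun d _ hd => ⟨conjJ d 0 1, conjJ_mem_famSet (Nat.pos_of_ne_zero (NeZero.ne d)) hd⟩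
  gen_idxJ := fun d _ hd => by
    rw [iotaN_qExpand_jq]
    exact genS_eq _ (infExp_conjJ_base N d)
  fixJ := fun d _ hd γ hγ => by
    apply Subtype.ext
    funext τ
    rw [idxPerm_val]
    exact conjJ_Gamma0 (Nat.pos_of_ne_zero (NeZero.ne d)) hd (inv_mem hγ) τ
  idxU := fun p _ _ hpN => ⟨conjU p 0 1, conjU_mem_famSet (Nat.pos_of_ne_zero (NeZero.ne p)) hpN⟩
  gen_idxU := fun p _ _ hpN => by
    rw [iotaN_unitq]
    exact genS_eq _ (infExp_conjU_base N p)
  fixU := fun p _ _ hpN γ hγ => by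
    apply Subtype.ext
    funext τ
    rw [idxPerm_val]
    exact conjU_Gamma0 (Nat.pos_of_ne_zero (NeZero.ne p)) (dvd_refl p) (inv_mem hγ) τ

/-- The deliverable of the analytic side (statement of `H868/AnalyticGoal.lean`). -/
theorem exists_modFunPackage748 (N : ℕ) [NeZero N] : Nonempty (ModFunPackage N) :=
  ⟨modFunPackage N⟩

end Fermat.Agent.S28.H748

end

end
-- ===== PACK-END S28/H748/Package.lean

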