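import Mathlib
import Fermat.Prelude.Def_AlgebraicCurve_DivisorPushPull
import Fermat.Agent.Pack.S44.G0E16L3
import Fermat.Agent.Pack.S44.G0E19L2
import Fermat.Agent.Pack.S44.G0E5L1
import Fermat.Agent.Pack.S44.G0E19L3
import Fermat.Agent.Pack.S44.G0E0L3
import Fermat.Agent.Pack.S44.G0E1L2
import Fermat.Agent.Pack.S44.G0E19L0
import Fermat.Agent.Pack.S44.G0E6L2
import Fermat.Agent.Pack.S44.G0E1L3
import Fermat.Agent.Pack.S44.G0E6L0
import Fermat.Agent.Pack.S44.G0E16L1
import Fermat.Agent.Pack.S44.G0E1L1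
import Fermat.Agent.Pack.S44.G1E0L0
import Fermat.Agent.Pack.S44.G0E7L1
import Fermat.Agent.Pack.S44.G0E18L3
import Fermat.Agent.Pack.S44.G0E15L1
import Fermat.Agent.Pack.S44.G0E15L3
import Fermat.Agent.Pack.S44.G0E18L2
import Fermat.Agent.Pack.S44.G0E9L2
import Fermat.Agent.Pack.S44.G0E4L0
import Fermat.Agent.Pack.S44.G0E19L1
import Fermat.Agent.Pack.S44.G0E5L2

-- ===== PACK-BEGIN S24/Mod/H997Taylor.lean
section




/-!
# S24 / MOD — the finite-point data of `AnalyticCore` from Taylor expansions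

For a `HolBase N` whose ring `Hol` consists of holomorphic functions and whose `J 1` is the
`j`-function, the three `PointData` fields of `AnalyticCore` are constructed from
helper624's Taylor/rotation package (`H624`) and helper47's local orders of `j` (`M7.H47`).
-/

set_option autoImplicit false

noncomputable section

open ModularCurve HahnSeries UpperHalfPlane ModularForm EisensteinSeries
open scoped MatrixGroups Manifold

namespace Fermat.Agent.S24.H997

open Fermat.Agent.S24.H624 Fermat.Agent.S20.L1 Fermat.Agent.S24.M7.H47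

variable {N : ℕ} [NeZero N]

/-- `Hol` consists of holomorphic functions and `J 1` is the `j`-function. -/
structure HolBase.IsHolo (B : HolBase N) : Prop where
  mdiff : ∀ f ∈ B.Hol, f ∈ holoRing
  J_one : B.J 1 = jFun

namespace HolBase

variable (B : HolBase N) (hB : B.IsHolo)

/-- the inclusion `Hol → holoRing` -/
def toHolo : B.Hol →+* holoRing where
  toFun h := ⟨h.1, hB.mdiff h.1 h.2⟩
  map_one' := rfl
  map_mul' _ _ := rfl
  map_zero' := rfl
  map_add' _ _ := rfl

theorem toHolo_injective : Function.Injective (B.toHolo hB) := by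
  intro x y h
  exact Subtype.ext (congrArg (fun f : holoRing => (f : ℍ → ℂ)) h)

theorem toHolo_compH (ε : SL(2, ℤ)) (h : B.Hol) :
    B.toHolo hB (B.compH ε h) = ε⁻¹ • B.toHolo hB h := by
  apply Subtype.ext
  funext τ
  rw [smul_holoRing_apply, inv_inv]
  rfl

/-- the Taylor expansion at `τ₀` as an `Expansion` -/
def taylorExpansion (τ₀ : ℍ) : Expansion B where
  E := (taylorLaurent τ₀).comp (B.toHolo hB)
  inj := (taylorLaurent_injective τ₀).comp (B.toHolo_injective hB)
  const c := by
    show HahnSeries.ofPowerSeries ℤ ℂ (taylorAt τ₀ (B.toHolo hB (B.constH c))) = HahnSeries.C c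
    have : B.toHolo hB (B.constH c) = algebraMap ℂ holoRing c := rfl
    rw [this, AlgHom.commutes, PowerSeries.algebraMap_apply, Algebra.algebraMap_self,
      RingHom.id_apply, HahnSeries.ofPowerSeries_C]

theorem taylorExpansion_E (τ₀ : ℍ) (h : B.Hol) :
    (B.taylorExpansion hB τ₀).E h
      = laurentAt τ₀ (algebraMap holoRing MerH (B.toHolo hB h)) :=
  (laurentAt_algebraMap τ₀ _).symm

/-- rotation data at a fixed point -/
def taylorRot {τ₀ : ℍ} {ε : SL(2, ℤ)} (hε : ε • τ₀ = τ₀) (m : ℕ) (hm : 0 < m)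
    (hζ : IsPrimitiveRoot (rotFactor ε⁻¹ τ₀) m) :
    RotData B (B.taylorExpansion hB τ₀) ε where
  m := m
  m_pos := hm
  ζ := rotFactor ε⁻¹ τ₀
  hζ := hζ
  rot h := by
    have hfix : ε⁻¹ • τ₀ = τ₀ := inv_smul_of_fixed hε
    rw [taylorExpansion_E, taylorExpansion_E, toHolo_compH, ← smul_algebraMap_MerH]
    exact laurentAt_smul_fixed_rotFactor hfix _

/-- trivial rotation data -/
def trivialRot (X : Expansion B) : RotData B X 1 where
  m := 1
  m_pos := one_pos
  ζ := 1
  hζ := IsPrimitiveRoot.one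
  rot h := by
    rw [B.compH_one]
    exact ⟨rfl, by simp⟩

theorem taylor_order_J (τ₀ : ℍ) (a : ℂ) (ha : jFun τ₀ = a) (m : ℕ)
    (hord : analyticOrderAt (fun w : ℂ => jFun (ofComplex w) - jFun τ₀) (τ₀ : ℂ) = m) :
    ((B.taylorExpansion hB τ₀).E (B.JH 1 (one_dvd N) - B.constH a)).order = (m : ℤ) := by
  show (HahnSeries.ofPowerSeries ℤ ℂ (taylorAt τ₀ (B.toHolo hB _))).order = _
  apply order_ofPowerSeries
  rw [order_taylorAt, ordAt_def, ← hord]
  congr 1
  funext w
  show B.J 1 (ofComplex w) - a = _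
  rw [hB.J_one, ha]

/-- the point data over a generic value -/
def genericPoint (a : ℂ) (h0 : a ≠ 0) (h1 : a ≠ 1728) : PointData B a 1 :=
  let τ₀ : ℍ := (jFun_surjective a).choose
  have hτ₀ : jFun τ₀ = a := (jFun_surjective a).choose_spec
  { X := B.taylorExpansion hB τ₀
    R := B.trivialRot _
    order_J := by
      have h4 : E₄ τ₀ ≠ 0 := fun h => h0 (hτ₀ ▸ (jFun_eq_zero_iff τ₀).mpr h)
      have h6 : E₆ τ₀ ≠ 0 := fun h => h1 (hτ₀ ▸ (jFun_eq_1728_iff τ₀).mpr h)
      have := B.taylor_order_J hB τ₀ a hτ₀ 1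
        (by exact_mod_cast analyticOrderAt_jFun_sub_generic h4 h6)
      exact this }

/-- the point data over `1728` (at `i`, rotation by `S`) -/
def point1728 : PointData B 1728 ModularGroup.S where
  X := B.taylorExpansion hB UpperHalfPlane.I
  R := B.taylorRot hB (τ₀ := UpperHalfPlane.I) (ε := ModularGroup.S)
    Fermat.Agent.S24.H624.S_smul_I 2 two_pos
    (isPrimitiveRoot_rotFactor_two (inv_smul_of_fixed Fermat.Agent.S24.H624.S_smul_I)
      (by rw [trace_inv_SL]; exact trace_S))
  order_J := by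
    have := B.taylor_order_J hB UpperHalfPlane.I 1728 jFun_I 2
      (by exact_mod_cast analyticOrderAt_jFun_sub_of_E₆ _root_.Fermat.Agent.S24.M7.H47.E₆_I)
    exact this

/-- the point data over `0` (at `ρ`, rotation by `S * T`) -/
def point0 : PointData B 0 (ModularGroup.S * ModularGroup.T) where
  X := B.taylorExpansion hB rho
  R := B.taylorRot hB (τ₀ := rho) (ε := ModularGroup.S * ModularGroup.T)
    ST_smul_rho 3 (by norm_num)
    (isPrimitiveRoot_rotFactor_three (inv_smul_of_fixed ST_smul_rho)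
      (by rw [trace_inv_SL]; exact Or.inl trace_ST))
  order_J := by
    have := B.taylor_order_J hB rho 0 jFun_rho 3
      (by exact_mod_cast analyticOrderAt_jFun_sub_of_E₄ E₄_rho)
    exact this

/-- **`AnalyticCore` from a holomorphic `HolBase` with `T`-shift.** -/
def toAnalyticCore (ζ : ℂ) (hζ : IsPrimitiveRoot ζ N)
    (hshift : ∀ (h : B.Hol) (n : ℤ),
      (B.qexp (B.compH ModularGroup.T h)).coeff n = ζ ^ n * (B.qexp h).coeff n) :
    AnalyticCore N where
  toHolBase := B
  generic := B.genericPoint hB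
  at1728 := B.point1728 hB
  at0 := B.point0 hB
  infζ := ζ
  inf_hζ := hζ
  inf_shift := hshift

end HolBase

end Fermat.Agent.S24.H997

end
end
-- ===== PACK-END S24/Mod/H997Taylor.lean

-- ===== PACK-BEGIN Ribet/H187/ELocKummer.lean
section




/-!
# RIBET / S40, piece W-SS = ELOC-ss (helper187), part 2: an inertia element with tame character
of exact order `2` on `√p`

`A` a valuation subring of `ℚ̄` over the prime `p`, `v = A.valuation`.

* `val_ratCast_eq_zpow` : `v (ℚˣ) ⊆ (v p) ^ ℤ`;
* `exists_inertia_neg_sqrt` : there are `σ` in the inertia group of `A` and `b` with `b ^ 2 = p`,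
  `σ b = - b`  (Kummer theory for `√p`, from `Fermat.Agent.S14.H937.localI_general`);
* `not_val_sq_mul_apply_sub_lt` : for such a `σ` (`p = 2 m + 1` odd) and every `x` with
  `v p * v x ^ (2 m ^ 2 + 2 m) = 1` and every integer `k` prime to `p`:
  `¬ v (k ^ 2 * σ x - x) < v x`, i.e. `σ x / x` is not congruent to `k ^ (-2)` modulo the maximal
  ideal.  In particular (`k = 1`) `σ x ≠ x`.
-/

set_option autoImplicit false

namespace Fermat.Agent.Ribet.H187

local notation "Qb" => AlgebraicClosure ℚ

theorem val_natCast_lt_one (A : ValuationSubring Qb) {p : ℕ} (hA : A.LiesOverPrime p) :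
    A.valuation (p : Qb) < 1 :=
  A.mem_nonunits_iff.mp hA

/-- Nonzero integers have valuation a power of `v p`. -/
theorem val_intCast_eq_pow (A : ValuationSubring Qb) {p : ℕ} (hp : p.Prime)
    (hA : A.LiesOverPrime p) (c : ℤ) (hc : c ≠ 0) :
    ∃ k : ℕ, A.valuation ((c : ℤ) : Qb) = A.valuation (p : Qb) ^ k := by
  have hpv := val_natCast_lt_one A hA
  induction' hn : c.natAbs using Nat.strong_induction_on with n ih generalizing c
  rcases lt_or_eq_of_le (val_intCast_le_one A.valuation c) with hlt | heq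
  · obtain ⟨d, rfl⟩ := intCast_dvd_of_val_lt_one A.valuation hp hpv c hlt
    have hd0 : d ≠ 0 := by
      rintro rfl
      simp at hc
    have hlt' : d.natAbs < n := by
      rw [← hn, Int.natAbs_mul, Int.natAbs_natCast]
      have h1 : 0 < d.natAbs := Int.natAbs_pos.mpr hd0
      have h2 : 1 < p := hp.one_lt
      nlinarith
    obtain ⟨k, hk⟩ := ih d.natAbs hlt' d hd0 rfl
    refine ⟨k + 1, ?_⟩
    push_cast
    rw [map_mul, hk, pow_succ']
  · exact ⟨0, by rw [heq, pow_zero]⟩

/-- Nonzero rationals have valuation an integral power of `v p`. -/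
theorem val_ratCast_eq_zpow (A : ValuationSubring Qb) {p : ℕ} (hp : p.Prime)
    (hA : A.LiesOverPrime p) (q : ℚ) (hq : q ≠ 0) :
    ∃ k : ℤ, A.valuation (algebraMap ℚ Qb q) = A.valuation (p : Qb) ^ k := by
  have hnum : q.num ≠ 0 := Rat.num_ne_zero.mpr hq
  have hden : (q.den : ℤ) ≠ 0 := by exact_mod_cast q.den_ne_zero
  obtain ⟨k₁, hk₁⟩ := val_intCast_eq_pow A hp hA q.num hnum
  obtain ⟨k₂, hk₂⟩ := val_intCast_eq_pow A hp hA (q.den : ℤ) hden
  refine ⟨(k₁ : ℤ) - (k₂ : ℤ), ?_⟩
  have hpQ : (p : Qb) ≠ 0 := Nat.cast_ne_zero.mpr hp.ne_zero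
  have hvp0 : A.valuation (p : Qb) ≠ 0 := (Valuation.ne_zero_iff _).mpr hpQ
  have hq' : algebraMap ℚ Qb q = ((q.num : ℤ) : Qb) / (((q.den : ℤ) : ℤ) : Qb) := by
    conv_lhs => rw [← Rat.num_div_den q]
    rw [map_div₀]
    simp
  rw [hq', map_div₀, hk₁, hk₂, zpow_sub₀ hvp0, zpow_natCast, zpow_natCast]

/-- **Kummer theory for `√p`**: some element of the inertia group of `A` (over `p`) maps a square
root of `p` to its negative. -/
theorem exists_inertia_neg_sqrt (A : ValuationSubring Qb) {p : ℕ} (hp : p.Prime)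
    (hA : A.LiesOverPrime p) :
    ∃ σ ∈ A.inertiaSubgroupIn ℚ, ∃ b : Qb, b ^ 2 = (p : Qb) ∧ σ b = -b := by
  obtain ⟨b, hb⟩ := IsAlgClosed.exists_pow_nat_eq (p : Qb) (n := 2) (by norm_num)
  have hpQ : (p : Qb) ≠ 0 := Nat.cast_ne_zero.mpr hp.ne_zero
  have hb0 : b ≠ 0 := by
    rintro rfl
    rw [zero_pow two_ne_zero] at hb
    exact hpQ hb.symm
  by_contra hcon
  have hfix : ∀ σ ∈ A.inertiaSubgroupIn ℚ,
      (∀ x ∈ (⊥ : IntermediateField ℚ Qb), σ x = x) → σ b = b := by
    intro σ hσ _
    have h1 : (σ b) ^ 2 = b ^ 2 := by rw [← map_pow, hb, map_natCast]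
    rcases sq_eq_sq_iff_eq_or_eq_neg.mp h1 with h | h
    · exact h
    · exact absurd ⟨σ, hσ, b, hb, h⟩ hcon
  have hprim : IsPrimitiveRoot (-1 : Qb) 2 := IsPrimitiveRoot.neg_one 0 (by norm_num)
  have hbK : b ^ 2 ∈ (⊥ : IntermediateField ℚ Qb) := by
    rw [hb]
    exact natCast_mem _ p
  obtain ⟨c, hc, hc0, hvc⟩ := Fermat.Agent.S14.H937.localI_general ⊥ 2 (by norm_num) (-1) hprim
    (neg_mem (one_mem _)) A b hb0 hbK hfix
  obtain ⟨q, rfl⟩ := IntermediateField.mem_bot.mp hc
  have hq0 : q ≠ 0 := by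
    rintro rfl
    simp at hc0
  obtain ⟨k, hk⟩ := val_ratCast_eq_zpow A hp hA q hq0
  have hpv := val_natCast_lt_one A hA
  have hvp0 : 0 < A.valuation (p : Qb) := zero_lt_iff.mpr ((Valuation.ne_zero_iff _).mpr hpQ)
  have e1 : A.valuation b ^ 2 = A.valuation (p : Qb) := by rw [← map_pow, hb]
  have e2 : A.valuation b = A.valuation (p : Qb) ^ k := hvc.trans hk
  have h2 : A.valuation (p : Qb) ^ (2 * k) = A.valuation (p : Qb) ^ (1 : ℤ) := by
    rw [zpow_one]
    conv_rhs => rw [← e1, e2]
    rw [← zpow_natCast, ← zpow_mul]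
    congr 1
    push_cast
    ring
  have h3 := zpow_right_injective₀ hvp0 hpv.ne h2
  omega

/-- `v (z - 1) < 1 → v (z ^ n - 1) < 1`. -/
theorem val_pow_sub_one_lt {K : Type*} [Field K] {Γ₀ : Type*} [LinearOrderedCommGroupWithZero Γ₀]
    (v : Valuation K Γ₀) {z : K} (hz : v (z - 1) < 1) (n : ℕ) : v (z ^ n - 1) < 1 := by
  have hz1 : v z ≤ 1 := by
    have : z = (z - 1) + 1 := by ring
    rw [this]
    exact le_trans (Valuation.map_add v _ _) (max_le hz.le (by rw [map_one]))
  induction n with
  | zero => simp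
  | succ n ih =>
    have : z ^ (n + 1) - 1 = z ^ n * (z - 1) + (z ^ n - 1) := by ring
    rw [this]
    refine lt_of_le_of_lt (Valuation.map_add v _ _) (max_lt ?_ ih)
    rw [map_mul, map_pow]
    exact mul_lt_of_le_one_of_lt (pow_le_one' hz1 n) hz

/-- The tame character of an inertia element `σ` with `σ √p = - √p` at elements `x` with
`v p * v x ^ (2 m ^ 2 + 2 m) = 1` (`p = 2 m + 1`) is not of the form `k ^ (-2)`, `k ∈ 𝔽_pˣ`. -/
theorem not_val_sq_mul_apply_sub_lt (A : ValuationSubring Qb) {p : ℕ} (hp : p.Prime)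
    (hp2 : p ≠ 2) (hA : A.LiesOverPrime p) (m : ℕ) (hm : p = 2 * m + 1)
    {σ : Qb ≃ₐ[ℚ] Qb} (hσ : σ ∈ A.inertiaSubgroupIn ℚ) {b : Qb} (hb : b ^ 2 = (p : Qb))
    (hσb : σ b = -b) (x : Qb)
    (hx : A.valuation (p : Qb) * A.valuation x ^ (2 * m ^ 2 + 2 * m) = 1)
    (k : ℤ) (hk : ¬ (p : ℤ) ∣ k) :
    ¬ A.valuation ((k : Qb) ^ 2 * σ x - x) < A.valuation x := by
  intro hlt
  have hpv := val_natCast_lt_one A hA
  have hpQ : (p : Qb) ≠ 0 := Nat.cast_ne_zero.mpr hp.ne_zero
  have hm1 : 1 ≤ m := by
    have := hp.two_le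
    omega
  have hx0 : x ≠ 0 := by
    rintro rfl
    have : 2 * m ^ 2 + 2 * m ≠ 0 := by positivity
    rw [map_zero, zero_pow this, mul_zero] at hx
    exact zero_ne_one hx
  have hvx0 : A.valuation x ≠ 0 := (Valuation.ne_zero_iff _).mpr hx0
  have : Algebra.IsAlgebraic ℚ Qb := AlgebraicClosure.isAlgebraic ℚ
  have hσD := Fermat.Agent.A2.H708.mem_decomposition_of_mem_inertiaIn A hσ
  have hvσ : A.valuation (σ x) = A.valuation x :=
    Fermat.Agent.A2.H708.valuation_apply_of_mem_decomposition A hσD x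
  set r := σ x / x with hr
  have hvr : A.valuation r = 1 := by
    rw [hr, map_div₀, hvσ, div_self hvx0]
  have hσx : σ x = r * x := by
    rw [hr]; field_simp
  -- `k² r ≡ 1`
  have ha : A.valuation ((k : Qb) ^ 2 * r - 1) < 1 := by
    have h1 : (k : Qb) ^ 2 * r - 1 = ((k : Qb) ^ 2 * σ x - x) / x := by
      rw [hr]; field_simp
    rw [h1, map_div₀]
    exact (div_lt_one₀ (zero_lt_iff.mpr hvx0)).mpr hlt
  have ham := val_pow_sub_one_lt A.valuation ha m
  -- Fermat's little theorem
  have hfer : A.valuation ((k : Qb) ^ (2 * m) - 1) < 1 := by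
    have hcop : IsCoprime k (p : ℤ) :=
      ((Nat.prime_iff_prime_int.mp hp).irreducible.coprime_iff_not_dvd.mpr hk).symm
    have h1 := Int.ModEq.pow_card_sub_one_eq_one hp hcop
    have h2 : (p : ℤ) ∣ k ^ (2 * m) - 1 := by
      have h3 : p - 1 = 2 * m := by omega
      rw [h3] at h1
      exact (Int.modEq_iff_dvd.mp h1.symm)
    obtain ⟨t, ht⟩ := h2
    have h4 : (k : Qb) ^ (2 * m) - 1 = (t : Qb) * (p : Qb) := by
      have h5 : (k : Qb) ^ (2 * m) - 1 = (p : Qb) * (t : Qb) := by
        have := congrArg (fun z : ℤ => (z : Qb)) ht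
        simpa using this
      rw [h5, mul_comm]
    rw [h4, map_mul]
    exact mul_lt_of_le_one_of_lt (val_intCast_le_one A.valuation t) hpv
  -- `r ^ m ≡ 1`
  have hrm : A.valuation (r ^ m - 1) < 1 := by
    have h1 : r ^ m - 1 = (((k : Qb) ^ 2 * r) ^ m - 1) - ((k : Qb) ^ (2 * m) - 1) * r ^ m := by
      rw [mul_pow, ← pow_mul]; ring
    rw [h1]
    refine lt_of_le_of_lt (Valuation.map_sub _ _ _) (max_lt ham ?_)
    rw [map_mul, map_pow, hvr, one_pow, mul_one]
    exact hfer
  have hrM : A.valuation (r ^ (m ^ 2 + m) - 1) < 1 := by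
    have h1 := val_pow_sub_one_lt A.valuation hrm (m + 1)
    have h2 : (r ^ m) ^ (m + 1) = r ^ (m ^ 2 + m) := by
      rw [← pow_mul]; congr 1; ring
    rwa [h2] at h1
  -- the unit `u = x ^ (m² + m) * b`
  set u := x ^ (m ^ 2 + m) * b with hu
  have hvu2 : A.valuation u ^ 2 = 1 := by
    rw [hu, map_mul, mul_pow, ← map_pow _ b, hb, map_pow, ← pow_mul, mul_comm]
    have : (m ^ 2 + m) * 2 = 2 * m ^ 2 + 2 * m := by ring
    rw [this]
    exact hx
  have hvu : A.valuation u = 1 := by
    rcases lt_trichotomy (A.valuation u) 1 with h | h | h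
    · exfalso
      have := pow_lt_one₀ zero_le h two_ne_zero
      rw [hvu2] at this
      exact lt_irrefl _ this
    · exact h
    · exfalso
      have := one_lt_pow₀ h two_ne_zero
      rw [hvu2] at this
      exact lt_irrefl _ this
  have hσu : σ u = -(r ^ (m ^ 2 + m)) * u := by
    rw [hu, map_mul, map_pow, hσb, hσx, mul_pow]; ring
  have h5 := Fermat.Agent.A2.H708.valuation_sub_lt_one_of_mem_inertiaIn A hσ hvu.le
  have h6 : A.valuation (r ^ (m ^ 2 + m) + 1) < 1 := by
    have h7 : σ u - u = -((r ^ (m ^ 2 + m) + 1) * u) := by rw [hσu]; ring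
    rw [h7, Valuation.map_neg, map_mul, hvu, mul_one] at h5
    exact h5
  have h8 : A.valuation ((2 : ℤ) : Qb) < 1 := by
    have h9 : ((2 : ℤ) : Qb) = (r ^ (m ^ 2 + m) + 1) - (r ^ (m ^ 2 + m) - 1) := by
      push_cast; ring
    rw [h9]
    exact lt_of_le_of_lt (Valuation.map_sub _ _ _) (max_lt h6 hrM)
  have h10 := intCast_dvd_of_val_lt_one A.valuation hp hpv 2 h8
  have h11 : p ∣ 2 := by exact_mod_cast h10
  exact hp2 ((Nat.prime_dvd_prime_iff_eq hp Nat.prime_two).mp h11)

/-- In particular such a `σ` does not fix any `x` with `v p * v x ^ (2 m ^ 2 + 2 m) = 1`. -/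
theorem apply_ne_self_of_val (A : ValuationSubring Qb) {p : ℕ} (hp : p.Prime)
    (hp2 : p ≠ 2) (hA : A.LiesOverPrime p) (m : ℕ) (hm : p = 2 * m + 1)
    {σ : Qb ≃ₐ[ℚ] Qb} (hσ : σ ∈ A.inertiaSubgroupIn ℚ) {b : Qb} (hb : b ^ 2 = (p : Qb))
    (hσb : σ b = -b) (x : Qb)
    (hx : A.valuation (p : Qb) * A.valuation x ^ (2 * m ^ 2 + 2 * m) = 1) :
    σ x ≠ x := by
  intro h
  have hm1 : 1 ≤ m := by
    have := hp.two_le
    omega
  have hx0 : x ≠ 0 := by
    rintro rfl
    have : 2 * m ^ 2 + 2 * m ≠ 0 := by positivity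
    rw [map_zero, zero_pow this, mul_zero] at hx
    exact zero_ne_one hx
  refine not_val_sq_mul_apply_sub_lt A hp hp2 hA m hm hσ hb hσb x hx 1 ?_ ?_
  · intro hd
    have : p ∣ 1 := by exact_mod_cast hd
    exact hp.one_lt.ne' (Nat.dvd_one.mp this)
  · rw [h]
    simp only [Int.cast_one, one_pow, one_mul, sub_self, map_zero]
    exact zero_lt_iff.mpr ((Valuation.ne_zero_iff _).mpr hx0)

end Fermat.Agent.Ribet.H187

end
-- ===== PACK-END Ribet/H187/ELocKummer.lean

-- ===== PACK-BEGIN S12/H411/End.lean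
section





/-!
# S12 (helper411), piece END: rational torsion is bounded at a good prime

`W / ℤ`, `ℓ` a prime of good reduction, `C ⊂ W(ℚ̄)` a finite subgroup of Galois-fixed points
whose order is prime to `ℓ`.  Then `#C ≤ #W̃(𝔽_ℓ) ≤ 2 ℓ + 1`.

Proof: reduction at a place `A` over `ℓ` (`Lib.Red.H290.redHom`) is injective on torsion of
order prime to `ℓ` (`S05.C1b`); rational points reduce to points with coordinates in the prime
field (`S15.H242`); count.

This is the END of the chain argument for Mazur's Step 4 (see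
`coord/S12-step4-helper411.md`): a rational cyclic subgroup of order `p ^ k`, `p ≠ ℓ`, forces
`p ^ k ≤ 2 ℓ + 1`.
-/

set_option autoImplicit false

open WeierstrassCurve WeierstrassCurve.Affine

namespace Fermat.Agent.S12.H411

open Fermat.Agent.Lib.Red.H290 Fermat.Agent.S15.H242

/-- `ℚ̄`-points of the integral model `W` -/
abbrev Pts (W : WeierstrassCurve ℤ) : Type :=
  ((W.map (Int.castRingHom ℚ))⁄(AlgebraicClosure ℚ)).Point

/-- the absolute Galois group -/
abbrev Gal : Type := AlgebraicClosure ℚ ≃ₐ[ℚ] AlgebraicClosure ℚ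

section

variable (W : WeierstrassCurve ℤ) {ℓ : ℕ} (hℓ : ℓ.Prime)
  (A : ValuationSubring (AlgebraicClosure ℚ)) (hA : A.LiesOverPrime ℓ)

include hℓ hA in
lemma charP_residueField_h411 : CharP (IsLocalRing.ResidueField A) ℓ :=
  (CharP.charP_iff_prime_eq_zero hℓ).mpr (by
    have h0 : rd A (IsLocalRing.residue A) ((ℓ : ℤ) : AlgebraicClosure ℚ) = 0 :=
      rd_eq_zero_of_lt (kerMax_residue A) (by
        have := (A.mem_nonunits_iff).mp hA
        simpa using this)
    rw [rd_intCast] at h0
    exact_mod_cast h0)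

include hℓ hA in
lemma Δ_residue_ne_zero (hgood : ¬ (ℓ : ℤ) ∣ W.Δ) : (W⁄(IsLocalRing.ResidueField A)).Δ ≠ 0 := by
  have := charP_residueField_h411 hℓ A hA
  have e : (W⁄(IsLocalRing.ResidueField A)).Δ = ((W.Δ : ℤ) : IsLocalRing.ResidueField A) := by
    show (W.map (algebraMap ℤ (IsLocalRing.ResidueField A))).Δ = _
    rw [WeierstrassCurve.map_Δ, eq_intCast]
  rw [e, Ne, CharP.intCast_eq_zero_iff (IsLocalRing.ResidueField A) ℓ]
  exact hgood

end

/-- a point with coordinates in the image of a subfield comes from the subfield -/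
lemma exists_map_eq_some {F : Type*} [Field F] [DecidableEq F] {κ : Type*} [Field κ]
    [DecidableEq κ] (f : F →ₐ[ℤ] κ) (W : WeierstrassCurve ℤ)
    {X' Y' : κ} (hns : (W⁄κ).Nonsingular X' Y') {u w : F} (hu : f u = X') (hw : f w = Y') :
    ∃ P₀ : (W⁄F).Point, Point.map (W' := W) f P₀ = Point.some X' Y' hns := by
  subst hu hw
  have hns0 : (W⁄F).Nonsingular u w :=
    (Affine.baseChange_nonsingular W (f := f) f.injective u w).mp hns
  exact ⟨Point.some u w hns0, Point.map_some f hns0⟩

/-- **END.**  A finite group of rational points of order prime to a good prime `ℓ` has at most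
`2 ℓ + 1` elements. -/
theorem natCard_rational_le (W : WeierstrassCurve ℤ) {ℓ : ℕ} (hℓ : ℓ.Prime)
    (hgood : ¬ (ℓ : ℤ) ∣ W.Δ) (C : AddSubgroup (Pts W)) [Finite C]
    (hfix : ∀ σ : Gal, ∀ P ∈ C, σ • P = P) (hcop : ¬ ℓ ∣ Nat.card C) :
    Nat.card C ≤ 2 * ℓ + 1 := by
  classical
  obtain ⟨A, hA⟩ := Fermat.Agent.S54.exists_valuationSubring_liesOver ℓ hℓ
  have : Fact ℓ.Prime := ⟨hℓ⟩
  have := charP_residueField_h411 hℓ A hA
  have hφ : KerMax A (IsLocalRing.residue A) := kerMax_residue A
  have hred : IsRedOf A (IsLocalRing.residue A)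
      ((W.map (Int.castRingHom ℚ))⁄(AlgebraicClosure ℚ)) (W⁄(IsLocalRing.ResidueField A)) :=
    isRedOf_int A W (IsLocalRing.residue A)
  have hΔ := Δ_residue_ne_zero W hℓ A hA hgood
  let f : ZMod ℓ →ₐ[ℤ] IsLocalRing.ResidueField A :=
    (ZMod.castHom dvd_rfl (IsLocalRing.ResidueField A)).toIntAlgHom
  have hf : Function.Injective f := (f : ZMod ℓ →+* IsLocalRing.ResidueField A).injective
  -- every rational point reduces into the image of `W(𝔽_ℓ)`
  have hrange : ∀ P ∈ C, ∃ P₀ : (W⁄(ZMod ℓ)).Point,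
      Point.map (W' := W) f P₀ = red hred hΔ P := by
    intro P hP
    rcases P with _ | ⟨x, y, h⟩
    · exact ⟨0, rfl⟩
    · by_cases hx : x ∈ A
      · obtain ⟨⟨rx, hrx⟩, ⟨ry, hry⟩⟩ := coords_rational W h (fun σ => hfix σ _ hP)
        have hy : y ∈ A := y_mem_of_x_mem hred h.1 hx
        obtain ⟨u, hu⟩ := rd_algebraMap_rat_mem_range A hA hℓ (IsLocalRing.residue A)
          (f : ZMod ℓ →+* IsLocalRing.ResidueField A) rx (by rw [hrx]; exact hx)
        obtain ⟨w, hw⟩ := rd_algebraMap_rat_mem_range A hA hℓ (IsLocalRing.residue A)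
          (f : ZMod ℓ →+* IsLocalRing.ResidueField A) ry (by rw [hry]; exact hy)
        rw [hrx] at hu
        rw [hry] at hw
        rw [red_some_of_mem hred hΔ h hx]
        exact exists_map_eq_some f W _ hu hw
      · exact ⟨0, by rw [red_some_of_not_mem hred hΔ h hx]; rfl⟩
  -- the order of `C` is a unit at `A`
  have hv : A.valuation ((Nat.card C : ℕ) : AlgebraicClosure ℚ) = 1 := by
    have := val_intCast_eq_one A hA hℓ (b := (Nat.card C : ℤ)) (by
      intro h
      exact hcop (by exact_mod_cast h))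
    simpa using this
  have htors : ∀ P : C, Nat.card C • (P : Pts W) = 0 := fun P => by
    have h1 : Nat.card C • P = 0 := card_nsmul_eq_zero'
    have h2 : ((Nat.card C • P : C) : Pts W) = 0 := by rw [h1]; rfl
    rwa [AddSubgroup.coe_nsmul] at h2
  -- injection into `W(𝔽_ℓ)`
  choose g hg using hrange
  have hinj : Function.Injective fun P : C => g P.1 P.2 := by
    intro P Q e
    have e' : red hred hΔ (P : Pts W) = red hred hΔ (Q : Pts W) := by
      rw [← hg P.1 P.2, ← hg Q.1 Q.2]
      exact congrArg _ e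
    exact Subtype.ext (eq_of_red_eq_of_nsmul hred hφ hΔ _ hv _ _ (htors P) (htors Q) e')
  have hfinP : Finite (W⁄(ZMod ℓ)).Point := finite_point (W⁄(ZMod ℓ))
  calc Nat.card C ≤ Nat.card (W⁄(ZMod ℓ)).Point := Nat.card_le_card_of_injective _ hinj
    _ ≤ 2 * Nat.card (ZMod ℓ) + 1 := natCard_point_le (W⁄(ZMod ℓ))
    _ = 2 * ℓ + 1 := by rw [Nat.card_zmod]

end Fermat.Agent.S12.H411

end
-- ===== PACK-END S12/H411/End.lean

-- ===== PACK-BEGIN Lib/Ribet/H223/BLR.lean
section






/-!
# Boston–Lenstra–Ribet for odd two-dimensional Galois representations (helper223, RIBET P2 = R1)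

* `blr_odd` : group-theoretic form (all `g` satisfy the quadratic relation).
* `blr_frobenius` : Galois form, the quadratic relation is only assumed for Frobenius elements at
  primes outside a finite set `S` (uses `Lib/Cheb` Tier 1, Frobenius division).
-/

set_option autoImplicit false

namespace Fermat.Agent.Lib.Ribet.H223

open Fermat.Agent.Lib.Cheb.Spec

/-- **BLR, odd irreducible case.**  `ρ` two-dimensional irreducible over `k` (`2 ≠ 0`), some `c`
acts as an involution `≠ ± 1`; every `g` satisfies on `V ≠ 0` the characteristic polynomial of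
`ρ g`.  Then `ρ` embeds `G`-equivariantly into `V`. -/
theorem blr_odd {k : Type*} [Field k] {G : Type*} [Group G] {W₀ V : Type*} [AddCommGroup W₀]
    [Module k W₀] [AddCommGroup V] [Module k V] (hk2 : (2 : k) ≠ 0)
    (h2 : Module.finrank k W₀ = 2) (ρ : G →* Module.End k W₀) (π : G →* Module.End k V)
    (hirr : ∀ W : Submodule k W₀, (∀ g, W ≤ W.comap (ρ g)) → W = ⊥ ∨ W = ⊤)
    (c : G) (hc : ρ c * ρ c = 1) (hc1 : ρ c ≠ 1) (hc2 : ρ c ≠ -1)
    (hπ : ∀ g, π g * π g - LinearMap.trace k W₀ (ρ g) • π g + LinearMap.det (ρ g) • 1 = 0)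
    [Nontrivial V] :
    ∃ φ : W₀ →ₗ[k] V, Function.Injective φ ∧ ∀ g w, φ (ρ g w) = π g (φ w) := by
  let d : G →* k := (LinearMap.det : Module.End k W₀ →* k).comp ρ
  exact blr_exists_embedding hk2 h2 ρ π d
    (lift_surjective_of_involution h2 ρ hirr c hc hc1 hc2) hπ

/-- **BLR, Galois form.**  As `blr_odd` for `G = Gal(ℚ̄/ℚ)`, `ρ` and `π` factoring through finite
levels, with the quadratic relation assumed only for Frobenius elements at primes outside a
finite set `S`. -/
theorem blr_frobenius {k : Type} [Field k] {W₀ V : Type} [AddCommGroup W₀]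
    [Module k W₀] [AddCommGroup V] [Module k V] (hk2 : (2 : k) ≠ 0)
    (h2 : Module.finrank k W₀ = 2) (ρ : GQ →* Module.End k W₀) (π : GQ →* Module.End k V)
    (hρfin : GaloisFactorsThroughFiniteLevel ρ) (hπfin : GaloisFactorsThroughFiniteLevel π)
    (hirr : ∀ W : Submodule k W₀, (∀ g, W ≤ W.comap (ρ g)) → W = ⊥ ∨ W = ⊤)
    (c : GQ) (hc : ρ c * ρ c = 1) (hc1 : ρ c ≠ 1) (hc2 : ρ c ≠ -1) (S : Finset ℕ)
    (hfrob : ∀ (ℓ : ℕ) (A : ValuationSubring Qb) (τ : GQ), ℓ.Prime → ℓ ∉ S →
      A.LiesOverPrime ℓ → A.IsFrobeniusAt τ ℓ →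
      π τ * π τ - LinearMap.trace k W₀ (ρ τ) • π τ + LinearMap.det (ρ τ) • 1 = 0)
    [Nontrivial V] :
    ∃ φ : W₀ →ₗ[k] V, Function.Injective φ ∧ ∀ g w, φ (ρ g w) = π g (φ w) := by
  refine blr_odd hk2 h2 ρ π hirr c hc hc1 hc2 (fun g => ?_)
  obtain ⟨ℓ, A, τ, _, j, hℓ, hℓS, hA, hτ, -, ⟨-, hρj⟩, ⟨-, hπj⟩⟩ :=
    Fermat.Agent.Lib.Cheb.H476.exists_frobenius_division_map₂ ρ π hρfin hπfin g S
  have h1 := pow_quadratic (hfrob ℓ A τ hℓ hℓS hA hτ) j
  rw [hρj, hπj, trace_pow_two h2, det_pow_two]
  exact h1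

end Fermat.Agent.Lib.Ribet.H223

end
-- ===== PACK-END Lib/Ribet/H223/BLR.lean

-- ===== PACK-BEGIN S29/H812/FundId.lean
section




/-!
# S29 / H812 — the fundamental identity `∑_{w | v} e(w | v) = [F' : F]` for a finite extension of
function fields of one variable over an algebraically closed field of characteristic zero.
-/

set_option autoImplicit false

noncomputable section

open AlgebraicCurve IntermediateField

namespace Fermat.Agent.S29.H812

open Fermat.Agent.S24

variable {K F F' : Type*} [Field K] [Field F] [Field F']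
  [Algebra K F] [Algebra K F'] [Algebra F F'] [IsScalarTower K F F']
  [Algebra.IsIntegral F F'] [HasPrincipalDivisors K F']

/-- The index set of the adapted family of the fibre over `v`. -/
abbrev FibIdx (F' : Type*) [Field F'] [Algebra K F'] [Algebra F F'] [IsScalarTower K F F']
    [Algebra.IsIntegral F F'] [HasPrincipalDivisors K F'] (v : Place K F) : Type _ :=
  Σ w : {w : Place K F' // w ∈ v.fiber F'}, Fin (w.1.ramificationIndex F)

theorem card_fibIdx (v : Place K F) :
    Fintype.card (FibIdx F' v) = ∑ w ∈ v.fiber F', w.ramificationIndex F := by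
  classical
  rw [Fintype.card_sigma]
  simp only [Fintype.card_fin]
  exact Finset.sum_coe_sort (v.fiber F') (fun w => w.ramificationIndex F)

theorem fibIdx_ext (v : Place K F) (a b : FibIdx F' v) (h1 : a.1.1 = b.1.1)
    (h2 : (a.2 : ℕ) = (b.2 : ℕ)) : a = b := by
  obtain ⟨⟨w, hw⟩, i⟩ := a
  obtain ⟨⟨w', hw'⟩, i'⟩ := b
  simp only at h1
  subst h1
  simp only at h2
  have : i = i' := Fin.ext h2
  subst this
  rfl

/-- An adapted family for the fibre over `v`. -/
theorem exists_family (v : Place K F) :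
    ∃ u : FibIdx F' v → F', (∀ a, u a ≠ 0) ∧ (∀ a : FibIdx F' v, a.1.1.ord (u a) = (a.2 : ℕ)) ∧
      (∀ a b : FibIdx F' v, b.1.1 ≠ a.1.1 →
        ((b.1.1.ramificationIndex F : ℕ) : ℤ) ≤ b.1.1.ord (u a)) := by
  classical
  set B : ℕ := ∑ w ∈ v.fiber F', w.ramificationIndex F with hB
  have h : ∀ a : FibIdx F' v, ∃ u : F', u ≠ 0 ∧ a.1.1.ord u = (a.2 : ℕ) ∧
      ∀ w' ∈ (v.fiber F').erase a.1.1, (B : ℤ) ≤ w'.ord u := fun a =>
    exists_ord_eq_and_ge a.1.1 ((v.fiber F').erase a.1.1) (Finset.notMem_erase _ _) a.2 B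
  choose u hu0 hu1 hu2 using h
  refine ⟨u, hu0, hu1, ?_⟩
  intro a b hne
  have hmem : b.1.1 ∈ (v.fiber F').erase a.1.1 := Finset.mem_erase.mpr ⟨hne, b.1.2⟩
  have h1 := hu2 a b.1.1 hmem
  have h2 : b.1.1.ramificationIndex F ≤ B :=
    Finset.single_le_sum (f := fun w : Place K F' => w.ramificationIndex F)
      (fun _ _ => Nat.zero_le _) b.1.2
  have h3 : ((b.1.1.ramificationIndex F : ℕ) : ℤ) ≤ (B : ℤ) := by exact_mod_cast h2
  linarith

/-- The coordinate lemma for an adapted family. -/
theorem family_coord (v : Place K F) (u : FibIdx F' v → F') (hu0 : ∀ a, u a ≠ 0)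
    (hu1 : ∀ a : FibIdx F' v, a.1.1.ord (u a) = (a.2 : ℕ))
    (hu2 : ∀ a b : FibIdx F' v, b.1.1 ≠ a.1.1 →
        ((b.1.1.ramificationIndex F : ℕ) : ℤ) ≤ b.1.1.ord (u a))
    (c : FibIdx F' v → F) (hc : ∃ a, c a ≠ 0) :
    ∃ a₀, c a₀ ≠ 0 ∧ (∀ a, c a ≠ 0 → v.ord (c a₀) ≤ v.ord (c a)) ∧
      (∑ a, c a • u a) ≠ 0 ∧
      a₀.1.1.ord (∑ a, c a • u a)
        = (a₀.1.1.ramificationIndex F : ℤ) * v.ord (c a₀) + ((a₀.2 : ℕ) : ℤ) :=
  coord_lemma v (fun a : FibIdx F' v => a.1.1) (fun a => (a.2 : ℕ)) u
    (fun a => Place.mem_fiber.mp a.1.2) (fun a => a.2.2) hu0 hu1 hu2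
    (fun a b h1 h2 => fibIdx_ext v a b h1 h2) c hc

theorem family_linearIndependent (v : Place K F) (u : FibIdx F' v → F') (hu0 : ∀ a, u a ≠ 0)
    (hu1 : ∀ a : FibIdx F' v, a.1.1.ord (u a) = (a.2 : ℕ))
    (hu2 : ∀ a b : FibIdx F' v, b.1.1 ≠ a.1.1 →
        ((b.1.1.ramificationIndex F : ℕ) : ℤ) ≤ b.1.1.ord (u a)) :
    LinearIndependent F u := by
  rw [Fintype.linearIndependent_iff]
  intro c hsum a
  by_contra ha
  obtain ⟨_, _, _, hne, _⟩ := family_coord v u hu0 hu1 hu2 c ⟨a, ha⟩
  exact hne hsum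

/-- **Fundamental inequality** `∑_{w | v} e(w | v) ≤ [F' : F]`. -/
theorem sum_ramificationIndex_le_finrank [Module.Finite F F'] (v : Place K F) :
    ∑ w ∈ v.fiber F', w.ramificationIndex F ≤ Module.finrank F F' := by
  obtain ⟨u, hu0, hu1, hu2⟩ := exists_family (F' := F') v
  rw [← card_fibIdx]
  exact (family_linearIndependent v u hu0 hu1 hu2).fintype_card_le_finrank

section Identity

variable [IsAlgClosed K] [CharZero K] [Module.Finite F F']

omit [Algebra.IsIntegral F F'] [HasPrincipalDivisors K F'] [IsAlgClosed K] [CharZero K]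
  [Module.Finite F F'] in
theorem not_mem_range_of_ord_ne_zero (v : Place K F) {f : F} (hf : v.ord f ≠ 0) :
    f ∉ (algebraMap K F).range := by
  rintro ⟨c, rfl⟩
  exact hf (H117.ord_algebraMap v c)

/-- **Fundamental identity** `∑_{w | v} e(w | v) = [F' : F]`. -/
theorem sum_ramificationIndex_eq_finrank
    (hF : ∃ x : F, Transcendental K x ∧ FiniteDimensional K⟮x⟯ F) (v : Place K F) :
    ∑ w ∈ v.fiber F', w.ramificationIndex F = Module.finrank F F' := by
  classical
  obtain ⟨x, hx, hxfin⟩ := hF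
  obtain ⟨π, hπ0, hπ1⟩ := H117.exists_ord_eq_one v
  have hπt : Transcendental K π :=
    FF.transcendental_of_not_mem_range (not_mem_range_of_ord_ne_zero v (by rw [hπ1]; norm_num))
  haveI hπfin : FiniteDimensional K⟮π⟯ F := FF.finiteDimensional_adjoin_of_transcendental hx hπt
  set π' : F' := algebraMap F F' π with hπ'
  have hπ't : Transcendental K π' := transcendental_algebraMap_of hπt
  haveI hπ'fin : FiniteDimensional K⟮π'⟯ F' := finiteDimensional_adjoin_algebraMap π
  set Z : Finset (Place K F) := (FF.finite_setOf_ord_pos hπt).toFinset with hZ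
  set Z' : Finset (Place K F') := (FF.finite_setOf_ord_pos hπ't).toFinset with hZ'
  have hZmem : ∀ v', v' ∈ Z ↔ 0 < v'.ord π := fun v' => by simp [hZ]
  have hZ'mem : ∀ w, w ∈ Z' ↔ 0 < w.ord π' := fun w => by simp [hZ']
  have h1 := FF.sum_ord_eq_finrank hπt Z hZmem
  have h2 := FF.sum_ord_eq_finrank hπ't Z' hZ'mem
  rw [finrank_adjoin_algebraMap] at h2
  -- positivity transfer
  have hpos : ∀ w : Place K F', 0 < w.ord π' ↔ 0 < (w.restrict F).ord π := by
    intro w
    rw [hπ', w.ord_restrict]
    have he : (0 : ℤ) < (w.ramificationIndex F : ℤ) := by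
      exact_mod_cast w.ramificationIndex_pos (F := F)
    constructor
    · intro h
      by_contra hcon
      push Not at hcon
      nlinarith
    · intro h
      exact mul_pos he h
  have hmaps : ∀ w ∈ Z', w.restrict F ∈ Z := fun w hw =>
    (hZmem _).mpr ((hpos w).mp ((hZ'mem w).mp hw))
  have h3 : ∑ w ∈ Z', w.ord π'
      = ∑ v' ∈ Z, v'.ord π * ((∑ w ∈ v'.fiber F', w.ramificationIndex F : ℕ) : ℤ) := by
    rw [← Finset.sum_fiberwise_of_maps_to hmaps]
    refine Finset.sum_congr rfl fun v' hv' => ?_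
    have hfilter : Z'.filter (fun w => w.restrict F = v') = v'.fiber F' := by
      ext w
      simp only [Finset.mem_filter, Place.mem_fiber]
      constructor
      · exact fun h => h.2
      · intro h
        refine ⟨(hZ'mem w).mpr ((hpos w).mpr ?_), h⟩
        rw [h]
        exact (hZmem v').mp hv'
    rw [hfilter]
    push_cast
    rw [Finset.mul_sum]
    refine Finset.sum_congr rfl fun w hw => ?_
    rw [hπ', w.ord_restrict, Place.mem_fiber.mp hw]
    ring
  -- compare
  have h4 : ∑ v' ∈ Z, v'.ord π * ((∑ w ∈ v'.fiber F', w.ramificationIndex F : ℕ) : ℤ)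
      = ∑ v' ∈ Z, v'.ord π * (Module.finrank F F' : ℤ) := by
    rw [← h3, h2, ← Finset.sum_mul, h1]
    push_cast
    ring
  have hle : ∀ v' ∈ Z, v'.ord π * ((∑ w ∈ v'.fiber F', w.ramificationIndex F : ℕ) : ℤ)
      ≤ v'.ord π * (Module.finrank F F' : ℤ) := by
    intro v' hv'
    have h5 : (0 : ℤ) ≤ v'.ord π := ((hZmem v').mp hv').le
    have h6 : ((∑ w ∈ v'.fiber F', w.ramificationIndex F : ℕ) : ℤ) ≤ (Module.finrank F F' : ℤ) := by
      exact_mod_cast sum_ramificationIndex_le_finrank (F' := F') v'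
    exact mul_le_mul_of_nonneg_left h6 h5
  have h7 := (Finset.sum_eq_sum_iff_of_le hle).mp h4 v ((hZmem v).mpr (by rw [hπ1]; norm_num))
  rw [hπ1, one_mul, one_mul] at h7
  exact_mod_cast h7

end Identity

end Fermat.Agent.S29.H812

end
end
-- ===== PACK-END S29/H812/FundId.lean

-- ===== PACK-BEGIN Lib/FF398/Local.lean
section







/-!
# Lib/FF398 — relative theory of places for a finite extension `F'/F` of function fields

For a place `v` of `F` and a finite extension `F'/F` (characteristic zero) we use the integral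
closure `S` of `O_v` in `F'` (a semi-local Dedekind domain) as a dictionary:
places of `F'` over `v`  ↔  height-one primes of `S`.

Main results of this file (helper398):
* `placeOf v q` : the place of `F'` attached to a height one prime `q` of `S`;
* `restrict_placeOf`, `exists_placeOf_eq`, `placeOf_injective` : the dictionary;
* `ord_placeOf` : `ord` of `placeOf v q` is the `q`-adic valuation.
-/

set_option autoImplicit false
set_option linter.unusedSectionVars false

open AlgebraicCurve IsDedekindDomain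

namespace Fermat.Agent.Lib.FF398

section Max

variable {K F : Type*} [Field K] [Field F] [Algebra K F]

/-- Discrete valuation rings are maximal subrings: comparable places are equal. -/
theorem place_eq_of_le {v w : Place K F} (h : v.toValuationSubring ≤ w.toValuationSubring) :
    v = w :=
  Place.ext (ValuationSubring.eq_of_le_of_ne_top _ h w.ne_top')

end Max

section Local

variable {K F F' : Type*} [Field K] [Field F] [Field F'] [Algebra K F] [Algebra K F']
  [Algebra F F'] [IsScalarTower K F F'] [FiniteDimensional F F'] [CharZero F]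
variable (v : Place K F)

variable (F') in
/-- The integral closure of `O_v` in `F'`. -/
abbrev intCl : Subalgebra v.toValuationSubring F' := integralClosure v.toValuationSubring F'

omit [Algebra K F'] [IsScalarTower K F F'] [FiniteDimensional F F'] [CharZero F] in
theorem algebraMap_OF'_injective :
    Function.Injective (algebraMap v.toValuationSubring F') := by
  intro a b h
  apply Subtype.ext
  exact (algebraMap F F').injective h

instance (priority := 2000) instFaithfulOF' : FaithfulSMul v.toValuationSubring F' :=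
  (faithfulSMul_iff_algebraMap_injective _ _).mpr (algebraMap_OF'_injective v)

instance (priority := 2000) instTorsionFreeOF' :
    Module.IsTorsionFree v.toValuationSubring F' :=
  FaithfulSMul.to_isTorsionFree _ _

instance (priority := 2000) instTorsionFreeIntCl :
    Module.IsTorsionFree v.toValuationSubring (intCl F' v) :=
  Subalgebra.instIsTorsionFree (intCl F' v)

instance instTowerKOF' : IsScalarTower K v.toValuationSubring F' :=
  IsScalarTower.of_algebraMap_eq fun a => by
    show algebraMap K F' a = algebraMap F F' (algebraMap K F a)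
    rw [← IsScalarTower.algebraMap_apply]

instance instDedekindIntCl : IsDedekindDomain (intCl F' v) :=
  integralClosure.isDedekindDomain v.toValuationSubring F F'

instance instFracIntCl : IsFractionRing (intCl F' v) F' :=
  IsIntegralClosure.isFractionRing_of_finite_extension v.toValuationSubring F F' (intCl F' v)

instance instFiniteIntCl : Module.Finite v.toValuationSubring (intCl F' v) :=
  IsIntegralClosure.finite v.toValuationSubring F F' (intCl F' v)

instance instFreeIntCl : Module.Free v.toValuationSubring (intCl F' v) :=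
  Module.free_of_finite_type_torsion_free'

/-- The place of `F'` attached to a height-one prime of the integral closure of `O_v`. -/
noncomputable def placeOf (q : HeightOneSpectrum (intCl F' v)) : Place K F' :=
  Place.ofHeightOneSpectrum (K := K) q

theorem placeOf_toValuationSubring (q : HeightOneSpectrum (intCl F' v)) :
    (placeOf v q).toValuationSubring = (q.valuation F').valuationSubring := rfl

theorem mem_placeOf_iff (q : HeightOneSpectrum (intCl F' v)) (g : F') :
    g ∈ (placeOf v q).toValuationSubring ↔ q.valuation F' g ≤ 1 := Iff.rfl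

/-- `placeOf v q` lies over `v`. -/
theorem restrict_placeOf (q : HeightOneSpectrum (intCl F' v)) :
    (placeOf v q).restrict F = v := by
  symm
  apply place_eq_of_le
  intro a ha
  rw [Place.restrict_toValuationSubring, ValuationSubring.mem_comap, mem_placeOf_iff]
  have : algebraMap F F' a = algebraMap (intCl F' v) F'
      (algebraMap v.toValuationSubring (intCl F' v) ⟨a, ha⟩) := rfl
  rw [this]
  exact q.valuation_le_one _

/-- The order function of `placeOf v q` is the `q`-adic valuation. -/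
theorem ord_placeOf (q : HeightOneSpectrum (intCl F' v)) (g : F') :
    (placeOf v q).ord g = -(WithZero.log (q.valuation F' g)) := by
  rcases eq_or_ne g 0 with rfl | hg
  · simp
  symm
  obtain ⟨π, hπ⟩ := q.valuation_exists_uniformizer F'
  have hπ0 : π ≠ 0 := by
    rintro rfl
    rw [map_zero] at hπ
    exact WithZero.exp_ne_zero hπ.symm
  refine Fermat.Agent.S24.FF.ordLike_eq_ord (fun g => -(WithZero.log (q.valuation F' g)))
    (fun f g hf hg => ?_) (placeOf v q) (fun f hf => ?_) hπ0 ?_ hg
  · rw [map_mul, WithZero.log_mul ((Valuation.ne_zero_iff _).mpr hf)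
      ((Valuation.ne_zero_iff _).mpr hg)]
    ring
  · rw [mem_placeOf_iff, neg_nonneg,
      WithZero.log_le_iff_le_exp ((Valuation.ne_zero_iff _).mpr hf)]
    rfl
  · rw [hπ, WithZero.log_exp]
    ring

/-- Membership in a height-one prime, read off from the valuation subring. -/
theorem mem_asIdeal_iff (q : HeightOneSpectrum (intCl F' v)) (s : intCl F' v) :
    s ∈ q.asIdeal ↔ s = 0 ∨ ((s : F'))⁻¹ ∉ (placeOf v q).toValuationSubring := by
  rw [mem_placeOf_iff, ← q.valuation_lt_one_iff_mem (K := F')]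
  show q.valuation F' (s : F') < 1 ↔ s = 0 ∨ ¬ q.valuation F' ((s : F'))⁻¹ ≤ 1
  rcases eq_or_ne s 0 with rfl | hs
  · simp
  have hs' : (s : F') ≠ 0 := fun h => hs (Subtype.ext h)
  have hv0 : q.valuation F' (s : F') ≠ 0 := (Valuation.ne_zero_iff _).mpr hs'
  rw [map_inv₀, not_le, one_lt_inv₀ (zero_lt_iff.mpr hv0)]
  simp [hs]

theorem placeOf_injective : Function.Injective (placeOf (F' := F') v) := by
  intro q q' h
  apply HeightOneSpectrum.ext
  ext s
  rw [mem_asIdeal_iff, mem_asIdeal_iff, h]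

omit [CharZero F] in
/-- The integral closure of `O_{w|F}` is contained in `O_w`. -/
theorem coe_intCl_mem (w : Place K F') (s : intCl F' (w.restrict F)) :
    (s : F') ∈ w.toValuationSubring := by
  obtain ⟨p, hp, hps⟩ := s.2
  have hint : IsIntegral w.toValuationSubring (s : F') := by
    refine ⟨p.map (Place.restrictInclusion F w), hp.map _, ?_⟩
    rw [Polynomial.eval₂_map]
    exact hps
  obtain ⟨y, hy⟩ := IsIntegrallyClosed.isIntegral_iff.mp hint
  rw [← hy]
  exact y.2

/-- The inclusion of the integral closure of `O_{w|F}` into `O_w`. -/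
def intClInclusion (w : Place K F') : intCl F' (w.restrict F) →+* w.toValuationSubring where
  toFun s := ⟨(s : F'), coe_intCl_mem w s⟩
  map_one' := rfl
  map_mul' _ _ := rfl
  map_zero' := rfl
  map_add' _ _ := rfl

@[simp]
theorem coe_intClInclusion (w : Place K F') (s : intCl F' (w.restrict F)) :
    ((intClInclusion w s : w.toValuationSubring) : F') = (s : F') := rfl

/-- The centre of `w` on the integral closure of `O_{w|F}`. -/
def centre (w : Place K F') : Ideal (intCl F' (w.restrict F)) :=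
  Ideal.comap (intClInclusion w) (IsLocalRing.maximalIdeal w.toValuationSubring)

instance centre_isPrime (w : Place K F') : (centre (F := F) w).IsPrime :=
  Ideal.comap_isPrime _ _

theorem centre_ne_bot (w : Place K F') : centre (F := F) w ≠ ⊥ := by
  obtain ⟨π, hπ⟩ := IsDiscreteValuationRing.exists_irreducible (w.restrict F).toValuationSubring
  intro h
  have hmem : algebraMap (w.restrict F).toValuationSubring (intCl F' (w.restrict F)) π
      ∈ centre (F := F) w := by
    rw [centre, Ideal.mem_comap, IsLocalRing.mem_maximalIdeal, mem_nonunits_iff]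
    intro hu
    have hu' : IsUnit (Place.restrictInclusion F w π) := hu
    exact hπ.not_isUnit (isUnit_of_map_unit (Place.restrictInclusion F w) π hu')
  rw [h, Ideal.mem_bot] at hmem
  have hinj : Function.Injective
      (algebraMap (w.restrict F).toValuationSubring (intCl F' (w.restrict F))) :=
    FaithfulSMul.algebraMap_injective _ _
  exact hπ.ne_zero (hinj (by rw [hmem, map_zero]))

/-- The centre of `w` as a height-one prime. -/
def centrePrime (w : Place K F') : HeightOneSpectrum (intCl F' (w.restrict F)) :=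
  ⟨centre w, centre_isPrime w, centre_ne_bot w⟩

theorem placeOf_centrePrime (w : Place K F') : placeOf (w.restrict F) (centrePrime w) = w := by
  apply place_eq_of_le
  intro g hg
  rw [mem_placeOf_iff] at hg
  obtain ⟨n, d, hnd⟩ := (centrePrime w).exists_primeCompl_mul_eq_of_integer g hg
  have hd : (d : intCl F' (w.restrict F)) ∉ centre (F := F) w := d.2
  rw [centre, Ideal.mem_comap, IsLocalRing.mem_maximalIdeal, mem_nonunits_iff, not_not] at hd
  obtain ⟨b, hb⟩ := isUnit_iff_exists_inv.mp hd
  have hb' : ((d : intCl F' (w.restrict F)) : F') * (b : F') = 1 := congrArg Subtype.val hb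
  have hd0 : ((d : intCl F' (w.restrict F)) : F') ≠ 0 := left_ne_zero_of_mul_eq_one hb'
  have hg' : g = ((n : F')) * (b : F') := by
    have h1 : g * ((d : intCl F' (w.restrict F)) : F') = (n : F') := hnd
    calc g = g * (((d : intCl F' (w.restrict F)) : F') * (b : F')) := by rw [hb', mul_one]
      _ = (n : F') * (b : F') := by rw [← mul_assoc, h1]
  rw [hg']
  exact mul_mem (coe_intCl_mem w n) b.2

/-- Every place of `F'` over `v` comes from a height-one prime of the integral closure. -/
theorem exists_placeOf_eq (w : Place K F') (hw : w.restrict F = v) :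
    ∃ q : HeightOneSpectrum (intCl F' v), placeOf v q = w := by
  subst hw
  exact ⟨centrePrime w, placeOf_centrePrime w⟩

theorem range_placeOf : Set.range (placeOf (F' := F') v) = {w : Place K F' | w.restrict F = v} := by
  ext w
  constructor
  · rintro ⟨q, rfl⟩
    exact restrict_placeOf v q
  · intro hw
    exact exists_placeOf_eq v w hw

/-! ### Primes over the maximal ideal of `O_v` -/

/-- The maximal ideal of `O_v`. -/
abbrev pv : Ideal v.toValuationSubring := IsLocalRing.maximalIdeal v.toValuationSubring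

theorem pv_ne_bot : pv v ≠ ⊥ := IsDiscreteValuationRing.not_a_field _

theorem algebraMap_O_intCl_injective :
    Function.Injective (algebraMap v.toValuationSubring (intCl F' v)) :=
  FaithfulSMul.algebraMap_injective _ _

theorem map_pv_ne_bot : (pv v).map (algebraMap v.toValuationSubring (intCl F' v)) ≠ ⊥ := by
  rw [Ne, Ideal.map_eq_bot_iff_of_injective (algebraMap_O_intCl_injective v)]
  exact pv_ne_bot v

instance liesOver_pv (q : HeightOneSpectrum (intCl F' v)) : q.asIdeal.LiesOver (pv v) := by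
  constructor
  have hprime : (q.asIdeal.under v.toValuationSubring).IsPrime := Ideal.IsPrime.under _ _
  have hne : q.asIdeal.under v.toValuationSubring ≠ ⊥ :=
    Ideal.under_ne_bot v.toValuationSubring q.ne_bot
  have hmax : (q.asIdeal.under v.toValuationSubring).IsMaximal := hprime.isMaximal hne
  exact (IsLocalRing.eq_maximalIdeal hmax).symm

instance isMaximal_asIdeal (q : HeightOneSpectrum (intCl F' v)) : q.asIdeal.IsMaximal :=
  q.isPrime.isMaximal q.ne_bot

/-- The height-one prime attached to a prime over `𝔪_v`. -/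
def primeOfOver (q : (pv v).primesOver (intCl F' v)) : HeightOneSpectrum (intCl F' v) :=
  ⟨q.1, q.2.1, by
    have := q.2.2
    exact Ideal.ne_bot_of_liesOver_of_ne_bot (pv_ne_bot v) q.1⟩

@[simp]
theorem primeOfOver_asIdeal (q : (pv v).primesOver (intCl F' v)) :
    (primeOfOver v q).asIdeal = q.1 := rfl

theorem primeOfOver_injective : Function.Injective (primeOfOver (F' := F') v) := by
  intro q q' h
  apply Subtype.ext
  exact congrArg HeightOneSpectrum.asIdeal h

theorem primeOfOver_surjective : Function.Surjective (primeOfOver (F' := F') v) := by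
  intro q
  exact ⟨⟨q.asIdeal, q.isPrime, liesOver_pv v q⟩, rfl⟩

instance finite_primesOver : Finite ((pv v).primesOver (intCl F' v)) :=
  (Algebra.QuasiFinite.finite_primesOver (pv v)).to_subtype

instance finite_heightOneSpectrum : Finite (HeightOneSpectrum (intCl F' v)) :=
  Finite.of_surjective _ (primeOfOver_surjective v)

/-- The fibre over `v` is finite (no `HasPrincipalDivisors` needed). -/
theorem finite_fibre : {w : Place K F' | w.restrict F = v}.Finite := by
  rw [← range_placeOf]
  exact Set.finite_range _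

/-! ### Ramification index and residue degree -/

theorem mem_asIdeal_iff_ord (q : HeightOneSpectrum (intCl F' v)) (s : intCl F' v) :
    s ∈ q.asIdeal ↔ s = 0 ∨ 0 < (placeOf v q).ord (s : F') := by
  rcases eq_or_ne s 0 with rfl | hs
  · simp
  have hs' : (s : F') ≠ 0 := fun h => hs (Subtype.ext h)
  have hv0 : q.valuation F' (s : F') ≠ 0 := (Valuation.ne_zero_iff _).mpr hs'
  rw [ord_placeOf, neg_pos, WithZero.log_lt_iff_lt_exp hv0, ← q.valuation_lt_one_iff_mem (K := F')]
  simp only [hs, false_or]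
  rfl

theorem ord_placeOf_coe_nonneg (q : HeightOneSpectrum (intCl F' v)) (s : intCl F' v) :
    0 ≤ (placeOf v q).ord (s : F') :=
  (Fermat.Agent.S24.FF.mem_iff_ord_nonneg _).mp
    ((mem_placeOf_iff v q _).mpr (q.valuation_le_one s))

/-- The ramification index of `placeOf v q` (in the sense of the Prelude) is Mathlib's
ramification index of `q` over `O_v`. -/
theorem ramificationIndex_placeOf (q : HeightOneSpectrum (intCl F' v)) :
    ((placeOf v q).ramificationIndex F : ℤ)
      = (q.asIdeal.ramificationIdx v.toValuationSubring : ℤ) := by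
  obtain ⟨π, hπ, hπ1⟩ := Fermat.Agent.S24.FF.exists_irreducible_coe v
  have h1 := (placeOf v q).ord_restrict (F := F) (π : F)
  rw [restrict_placeOf, hπ1, mul_one] at h1
  rw [← h1, ord_placeOf]
  have hπS : algebraMap v.toValuationSubring (intCl F' v) π ≠ 0 := fun h =>
    hπ.ne_zero (algebraMap_O_intCl_injective v (by rw [h, map_zero]))
  have h2 : q.valuation F' (algebraMap F F' (π : F))
      = q.intValuation (algebraMap v.toValuationSubring (intCl F' v) π) :=
    q.valuation_of_algebraMap (algebraMap v.toValuationSubring (intCl F' v) π)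
  rw [h2, q.intValuation_eq_exp_neg_multiplicity hπS, WithZero.log_exp, neg_neg,
    Ideal.IsDedekindDomain.ramificationIdx_eq_multiplicity (pv v) q.asIdeal (map_pv_ne_bot v)]
  have h3 : (pv v).map (algebraMap v.toValuationSubring (intCl F' v))
      = Ideal.span {algebraMap v.toValuationSubring (intCl F' v) π} := by
    rw [pv, hπ.maximalIdeal_eq, Ideal.map_span, Set.image_singleton]
  rw [h3]

/-- If all places of `F'` have degree one, residue degrees over `O_v` are one. -/
theorem inertiaDeg_intCl_eq_one (hdeg' : ∀ w : Place K F', w.deg = 1)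
    (q : HeightOneSpectrum (intCl F' v)) :
    q.asIdeal.inertiaDeg v.toValuationSubring = 1 := by
  refine Fermat.Agent.S24.FF.inertiaDeg_eq_one_of_forall_exists (pv v) q.asIdeal fun s => ?_
  obtain ⟨c, hc⟩ := Fermat.Agent.Lib.RR.exists_const_sub (placeOf v q) (hdeg' _)
    (ord_placeOf_coe_nonneg v q s)
  refine ⟨algebraMap K v.toValuationSubring c, ?_⟩
  rw [mem_asIdeal_iff_ord]
  have hcoe : ((s - algebraMap v.toValuationSubring (intCl F' v)
      (algebraMap K v.toValuationSubring c) : intCl F' v) : F') = (s : F') - algebraMap K F' c := by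
    rw [IsScalarTower.algebraMap_apply K F F']
    rfl
  rcases hc with hc | hc
  · left
    apply Subtype.ext
    rw [hcoe]
    exact hc
  · right
    rw [hcoe]
    exact hc

omit [CharZero F] [FiniteDimensional F F'] in
/-- If all places of `F'` have degree one, the Prelude's residue degrees are one. -/
theorem inertiaDeg_eq_one [Algebra.IsIntegral F F'] (hdeg' : ∀ w : Place K F', w.deg = 1)
    (w : Place K F') : w.inertiaDeg F = 1 := by
  have h := w.deg_restrict_mul_inertiaDeg (F := F)
  rw [hdeg' w] at h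
  exact (mul_eq_one.mp h).2

omit [CharZero F] [FiniteDimensional F F'] in
theorem deg_restrict_eq_one [Algebra.IsIntegral F F'] (hdeg' : ∀ w : Place K F', w.deg = 1)
    (w : Place K F') : (w.restrict F).deg = 1 := by
  have h := w.deg_restrict_mul_inertiaDeg (F := F)
  rw [hdeg' w] at h
  exact (mul_eq_one.mp h).1

/-- **Local fundamental identity** `∑_{w | v} e(w|v) = [F' : F]`. -/
theorem sum_ramificationIndex (hdeg' : ∀ w : Place K F', w.deg = 1)
    (s : Finset (Place K F')) (hs : ∀ w, w ∈ s ↔ w.restrict F = v) :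
    ∑ w ∈ s, (w.ramificationIndex F : ℤ) = (Module.finrank F F' : ℤ) := by
  let _ : Fintype ((pv v).primesOver (intCl F' v)) := Fintype.ofFinite _
  have h := Ideal.sum_ramification_inertia_eq_finrank (pv v) (intCl F' v)
  rw [IsFractionRing.finrank_eq v.toValuationSubring F (intCl F' v) F', ← h]
  push_cast
  symm
  refine Finset.sum_bij (fun q _ => placeOf v (primeOfOver v q)) ?_ ?_ ?_ ?_
  · intro q _
    exact (hs _).mpr (restrict_placeOf v _)
  · intro q _ q' _ h
    exact primeOfOver_injective v (placeOf_injective v h)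
  · intro w hw
    obtain ⟨q, hq⟩ := exists_placeOf_eq v w ((hs w).mp hw)
    obtain ⟨q', rfl⟩ := primeOfOver_surjective v q
    exact ⟨q', Finset.mem_univ _, hq⟩
  · intro q _
    have h1 := inertiaDeg_intCl_eq_one v hdeg' (primeOfOver v q)
    rw [primeOfOver_asIdeal] at h1
    rw [ramificationIndex_placeOf, primeOfOver_asIdeal, h1]
    simp

/-! ### Norm formula -/

open UniqueFactorizationMonoid

theorem ord_coe_eq_multiplicity (a : v.toValuationSubring) (ha : a ≠ 0) :
    v.ord (a : F) = (multiplicity (pv v) (Ideal.span {a}) : ℤ) := by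
  rw [Place.ord, v.adicValuation_coe, v.heightOneSpectrum.intValuation_eq_exp_neg_multiplicity ha,
    WithZero.log_exp, neg_neg]
  rfl

theorem ord_placeOf_coe_eq_multiplicity (q : HeightOneSpectrum (intCl F' v)) (x : intCl F' v)
    (hx : x ≠ 0) :
    (placeOf v q).ord (x : F') = (multiplicity q.asIdeal (Ideal.span {x}) : ℤ) := by
  rw [ord_placeOf]
  have h2 : q.valuation F' (x : F') = q.intValuation x := q.valuation_of_algebraMap x
  rw [h2, q.intValuation_eq_exp_neg_multiplicity hx, WithZero.log_exp, neg_neg]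

theorem multiplicity_eq_count (q : HeightOneSpectrum (intCl F' v)) (I : Ideal (intCl F' v))
    (hI : I ≠ ⊥) :
    multiplicity q.asIdeal I = (normalizedFactors I).count q.asIdeal := by
  have hq : Prime q.asIdeal := Ideal.prime_of_isPrime q.ne_bot q.isPrime
  rw [multiplicity_eq_of_emultiplicity_eq_some
    (emultiplicity_eq_count_normalizedFactors hq.irreducible hI), normalize_eq]

theorem sum_count_eq_card [Fintype (HeightOneSpectrum (intCl F' v))] (I : Ideal (intCl F' v))
    (hI : I ≠ ⊥) :
    ∑ q : HeightOneSpectrum (intCl F' v), (normalizedFactors I).count q.asIdeal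
      = Multiset.card (normalizedFactors I) := by
  classical
  rw [← Multiset.toFinset_sum_count_eq]
  have hinj : Function.Injective
      (fun q : HeightOneSpectrum (intCl F' v) => q.asIdeal) := fun q q' h =>
    HeightOneSpectrum.ext h
  rw [← Finset.sum_image (s := Finset.univ)
    (f := fun P : Ideal (intCl F' v) => (normalizedFactors I).count P)
    (g := fun q : HeightOneSpectrum (intCl F' v) => q.asIdeal) (fun q _ q' _ h => hinj h)]
  symm
  refine Finset.sum_subset ?_ ?_
  · intro P hP
    rw [Multiset.mem_toFinset, Ideal.mem_normalizedFactors_iff hI] at hP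
    have hPne : P ≠ ⊥ := fun h => hI (le_bot_iff.mp (h ▸ hP.2))
    exact Finset.mem_image.mpr ⟨⟨P, hP.1, hPne⟩, Finset.mem_univ _, rfl⟩
  · intro P _ hP
    rw [Multiset.mem_toFinset] at hP
    exact Multiset.count_eq_zero_of_notMem hP

theorem relNorm_eq_pow (hdeg' : ∀ w : Place K F', w.deg = 1) (I : Ideal (intCl F' v))
    (hI : I ≠ ⊥) :
    Ideal.relNorm v.toValuationSubring I = (pv v) ^ Multiset.card (normalizedFactors I) := by
  conv_lhs => rw [← Ideal.prod_normalizedFactors_eq_self hI]
  rw [map_multiset_prod]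
  have hconst : (normalizedFactors I).map (Ideal.relNorm v.toValuationSubring)
      = (normalizedFactors I).map (fun _ => pv v) := by
    refine Multiset.map_congr rfl fun P hP => ?_
    rw [Ideal.mem_normalizedFactors_iff hI] at hP
    have hPne : P ≠ ⊥ := fun h => hI (le_bot_iff.mp (h ▸ hP.2))
    have key : ∀ q : HeightOneSpectrum (intCl F' v),
        Ideal.relNorm v.toValuationSubring q.asIdeal = pv v := fun q => by
      have h1 := Ideal.relNorm_eq_pow_of_isMaximal q.asIdeal (pv v)
      rw [inertiaDeg_intCl_eq_one v hdeg' q, pow_one] at h1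
      exact h1
    exact key ⟨P, hP.1, hPne⟩
  rw [hconst, Multiset.map_const', Multiset.prod_replicate]

theorem sum_ord_coe_eq_ord_intNorm [Fintype (HeightOneSpectrum (intCl F' v))]
    (hdeg' : ∀ w : Place K F', w.deg = 1) (x : intCl F' v) (hx : x ≠ 0) :
    ∑ q : HeightOneSpectrum (intCl F' v), (placeOf v q).ord (x : F')
      = v.ord ((Algebra.intNorm v.toValuationSubring (intCl F' v) x : v.toValuationSubring) : F) := by
  have hI : Ideal.span {x} ≠ (⊥ : Ideal (intCl F' v)) := by
    rw [Ne, Ideal.span_singleton_eq_bot]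
    exact hx
  have hN : Algebra.intNorm v.toValuationSubring (intCl F' v) x ≠ 0 :=
    Algebra.intNorm_ne_zero.mpr hx
  rw [ord_coe_eq_multiplicity v _ hN, ← Ideal.relNorm_singleton, relNorm_eq_pow v hdeg' _ hI,
    multiplicity_pow_self_of_prime
      (Ideal.prime_of_isPrime (pv_ne_bot v) (IsLocalRing.maximalIdeal.isMaximal _).isPrime),
    ← sum_count_eq_card v _ hI]
  push_cast
  refine Finset.sum_congr rfl fun q _ => ?_
  rw [ord_placeOf_coe_eq_multiplicity v q x hx, multiplicity_eq_count v q _ hI]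

omit [FiniteDimensional F F'] [CharZero F] [Algebra K F'] [IsScalarTower K F F'] [Algebra F F'] in
theorem ord_div' (u : Place K F) {f g : F} (hf : f ≠ 0) (hg : g ≠ 0) :
    u.ord (f / g) = u.ord f - u.ord g := by
  rw [div_eq_mul_inv, u.ord_mul hf (inv_ne_zero hg), u.ord_inv]
  ring

theorem sum_ord_eq_ord_norm_of_mem (hdeg' : ∀ w : Place K F', w.deg = 1)
    (s : Finset (Place K F')) (hs : ∀ w, w ∈ s ↔ w.restrict F = v)
    (x : intCl F' v) (hx : x ≠ 0) :
    ∑ w ∈ s, w.ord (x : F') = v.ord (Algebra.norm F (x : F')) := by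
  let _ : Fintype (HeightOneSpectrum (intCl F' v)) := Fintype.ofFinite _
  have h1 := sum_ord_coe_eq_ord_intNorm v hdeg' x hx
  have h2 : ((Algebra.intNorm v.toValuationSubring (intCl F' v) x : v.toValuationSubring) : F)
      = Algebra.norm F (x : F') :=
    Algebra.algebraMap_intNorm (A := v.toValuationSubring) (K := F) (L := F')
      (B := intCl F' v) x
  rw [← h2, ← h1]
  symm
  refine Finset.sum_bij (fun q _ => placeOf v q) ?_ ?_ ?_ ?_
  · intro q _
    exact (hs _).mpr (restrict_placeOf v _)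
  · intro q _ q' _ h
    exact placeOf_injective v h
  · intro w hw
    obtain ⟨q, hq⟩ := exists_placeOf_eq v w ((hs w).mp hw)
    exact ⟨q, Finset.mem_univ _, hq⟩
  · intro q _
    rfl

/-- **Local norm formula** `∑_{w | v} ord_w(g) = ord_v(N_{F'/F} g)`. -/
theorem sum_ord_eq_ord_norm (hdeg' : ∀ w : Place K F', w.deg = 1)
    (s : Finset (Place K F')) (hs : ∀ w, w ∈ s ↔ w.restrict F = v)
    (g : F') (hg : g ≠ 0) :
    ∑ w ∈ s, w.ord g = v.ord (Algebra.norm F g) := by
  obtain ⟨a, b, hb, rfl⟩ := IsFractionRing.div_surjective (A := intCl F' v) g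
  have hb0 : b ≠ 0 := nonZeroDivisors.ne_zero hb
  have ha0 : a ≠ 0 := by
    rintro rfl
    simp at hg
  have ha' : (a : F') ≠ 0 := fun h => ha0 (Subtype.ext h)
  have hb' : (b : F') ≠ 0 := fun h => hb0 (Subtype.ext h)
  have hcoea : algebraMap (intCl F' v) F' a = (a : F') := rfl
  have hcoeb : algebraMap (intCl F' v) F' b = (b : F') := rfl
  have hnorm : Algebra.norm F ((a : F') / (b : F'))
      = Algebra.norm F (a : F') / Algebra.norm F (b : F') := by
    rw [eq_div_iff (Algebra.norm_ne_zero_iff.mpr hb'), ← map_mul, div_mul_cancel₀ _ hb']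
  rw [hcoea, hcoeb, hnorm,
    ord_div' v (Algebra.norm_ne_zero_iff.mpr ha') (Algebra.norm_ne_zero_iff.mpr hb'),
    ← sum_ord_eq_ord_norm_of_mem v hdeg' s hs a ha0,
    ← sum_ord_eq_ord_norm_of_mem v hdeg' s hs b hb0, ← Finset.sum_sub_distrib]
  refine Finset.sum_congr rfl fun w _ => ?_
  exact ord_div' w ha' hb'

end Local

end Fermat.Agent.Lib.FF398

end
-- ===== PACK-END Lib/FF398/Local.lean

-- ===== PACK-BEGIN Lib/RR/Adeles.lean
section




/-!
# RR library, layer L4: repartitions and `H¹(D)`  (Stichtenoth 1.5.4)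

Integration file (helper320).  `mem_repartitions_iff` is proved in `H653/` (helper653), the core
of `finite_H1` / `ell_sub_finrank_H1` in `H742/` (helper742).

`𝔸 = repartitions K F`, `𝔸(D) = repartitionsOf D`, `H¹(D) = 𝔸 / (𝔸(D) + F)`.

Proof sketch.  (1) One step: `𝔸(D + P) = 𝔸(D) + K α₀` for any `α₀ ∈ 𝔸(D + P) \ 𝔸(D)`, and
`𝔸(D + P) ⊆ 𝔸(D) + F` iff `ℓ(D + P) = ℓ(D) + 1`.  Hence the surjection `H¹(D) → H¹(D + P)` has
kernel of dimension `1 - (ℓ(D + P) - ℓ(D))`.  (2) If `ℓ(D) = deg D + 1 - g` then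
`𝔸 = 𝔸(D) + F`, i.e. `H¹(D) = 0`.  (3) Descend from a divisor attaining the bound.
-/

set_option autoImplicit false

noncomputable section

open AlgebraicCurve

namespace Fermat.Agent.Lib.RR

variable {K F : Type*} [Field K] [Field F] [Algebra K F]

/-- **L4.0**: the repartitions are exactly the families with finitely many poles. -/
theorem mem_repartitions_iff [HasPrincipalDivisors K F] {α : Place K F → F} :
    α ∈ repartitions K F ↔ {v : Place K F | v.ord (α v) < 0}.Finite :=
  H653.mem_repartitions_iff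

/-- **L4.1**: `H¹(D)` is finite-dimensional. -/
theorem finite_H1 [FF1 K F] (D : Divisor K F) : Module.Finite K (H1 D) := by
  obtain ⟨D₀, h₀⟩ := exists_ell_eq (K := K) (F := F)
  exact (H742.H1_core (genusR K F : ℤ) (fun D' => riemann_inequality D') h₀ D).1

/-- **L4.2**: Riemann–Roch, first form. -/
theorem ell_sub_finrank_H1 [FF1 K F] (D : Divisor K F) :
    (ell D : ℤ) - Module.finrank K (H1 D) = Divisor.degree D + 1 - (genusR K F : ℤ) := by
  obtain ⟨D₀, h₀⟩ := exists_ell_eq (K := K) (F := F)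
  exact (H742.H1_core (genusR K F : ℤ) (fun D' => riemann_inequality D') h₀ D).2

/-- The Prelude's genus `genusFF = dim H¹(0)` is the genus of Riemann's theorem. -/
theorem genusFF_eq_genusR [FF1 K F] : genusFF K F = genusR K F := by
  have h := ell_sub_finrank_H1 (0 : Divisor K F)
  rw [ell_zero, map_zero] at h
  have : (Module.finrank K (H1 (0 : Divisor K F)) : ℤ) = genusR K F := by
    push_cast at h; omega
  unfold genusFF
  exact_mod_cast this

/-- **Riemann–Roch, first form**, with the Prelude's genus. -/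
theorem riemann_roch_H1 [FF1 K F] (D : Divisor K F) :
    (ell D : ℤ) - Module.finrank K (H1 D) = Divisor.degree D + 1 - (genusFF K F : ℤ) := by
  rw [genusFF_eq_genusR]; exact ell_sub_finrank_H1 D

/-- **Riemann's inequality** with the Prelude's genus. -/
theorem riemann_inequality_genusFF [FF1 K F] (D : Divisor K F) :
    Divisor.degree D + 1 - (genusFF K F : ℤ) ≤ ell D := by
  rw [genusFF_eq_genusR]; exact riemann_inequality D

end Fermat.Agent.Lib.RR

end
end
-- ===== PACK-END Lib/RR/Adeles.lean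

-- ===== PACK-BEGIN A2/H12/GAsm.lean
section


/-!
# Cell A2 — route G: the ALG assembly (helper12)

`algG_core` : for a cover `L / F` satisfying the conclusions of the leaves SHEETS, RED, CONST, COUNT
and a lift `τ'` of `τ` fixing one sheet: `τ g / g` is an `m`-th power in `F` for every `g` having an
`m`-th root in `L`.

`algG` : the same from the leaf COVER (any lift), choosing the lift fixing a sheet by transitivity.
-/

set_option autoImplicit false

namespace Fermat.Agent.A2.H12

open Polynomial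
open Fermat.Agent.S18.H138 (chart baseField)

universe u

/-- The Galois group as a subgroup of the ring automorphisms. -/
def galSubgroup (F L : Type u) [Field F] [Field L] [Algebra F L] : Subgroup (L ≃+* L) where
  carrier := {σ | ∀ f : F, σ (algebraMap F L f) = algebraMap F L f}
  mul_mem' := fun {a b} ha hb f => by
    change a (b (algebraMap F L f)) = _
    rw [hb f, ha f]
  one_mem' := fun _ => rfl
  inv_mem' := fun {a} ha f => by
    change a.symm (algebraMap F L f) = _
    rw [RingEquiv.symm_apply_eq, ha f]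

theorem mem_galSubgroup {F L : Type u} [Field F] [Field L] [Algebra F L] (σ : L ≃+* L) :
    σ ∈ galSubgroup F L ↔ ∀ f : F, σ (algebraMap F L f) = algebraMap F L f := Iff.rfl

section Asm

variable {R : Type u} [CommRing R] {F : Type u} [Field F] [Algebra R F]
variable {L : Type u} [Field L] [Algebra F L] [Algebra R L] [IsScalarTower R F L]

/-- A lift of `τ` is compatible with `R`. -/
theorem lift_algebraMap_R (τ : F ≃+* F) (τR : R ≃+* R)
    (hτR : ∀ r, τ (algebraMap R F r) = algebraMap R F (τR r))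
    (τ' : L ≃+* L) (hτ' : ∀ f : F, τ' (algebraMap F L f) = algebraMap F L (τ f)) (r : R) :
    τ' (algebraMap R L r) = algebraMap R L (τR r) := by
  rw [IsScalarTower.algebraMap_apply R F L, hτ', hτR, ← IsScalarTower.algebraMap_apply]

theorem lift_symm_algebraMap_R (τ : F ≃+* F) (τR : R ≃+* R)
    (hτR : ∀ r, τ (algebraMap R F r) = algebraMap R F (τR r))
    (τ' : L ≃+* L) (hτ' : ∀ f : F, τ' (algebraMap F L f) = algebraMap F L (τ f)) (r : R) :
    τ'.symm (algebraMap R L r) = algebraMap R L (τR.symm r) := by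
  rw [RingEquiv.symm_apply_eq, lift_algebraMap_R τ τR hτR τ' hτ', RingEquiv.apply_symm_apply]

theorem lift_symm_algebraMap (τ : F ≃+* F)
    (τ' : L ≃+* L) (hτ' : ∀ f : F, τ' (algebraMap F L f) = algebraMap F L (τ f)) (f : F) :
    τ'.symm (algebraMap F L f) = algebraMap F L (τ.symm f) := by
  rw [RingEquiv.symm_apply_eq, hτ', RingEquiv.apply_symm_apply]

/-- A lift of `τ` preserves the chart `R[T]`-integral closure, for `T ⊆ {x, x⁻¹}`. -/
theorem lift_chart_iff (x : F) (τ : F ≃+* F) (τR : R ≃+* R)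
    (hτx : τ x = x) (hτR : ∀ r, τ (algebraMap R F r) = algebraMap R F (τR r))
    (τ' : L ≃+* L) (hτ' : ∀ f : F, τ' (algebraMap F L f) = algebraMap F L (τ f))
    (T : Set L) (hT : T ⊆ {algebraMap F L x, (algebraMap F L x)⁻¹}) (b : L) :
    b ∈ chart R T ↔ τ' b ∈ chart R T := by
  have hx' : τ' (algebraMap F L x) = algebraMap F L x := by rw [hτ', hτx]
  have hxs : τ'.symm (algebraMap F L x) = algebraMap F L x := by
    rw [RingEquiv.symm_apply_eq, hx']
  constructor
  · intro hb
    refine chart_map_mem (τ' : L →+* L)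
      (fun r => ⟨τR r, lift_algebraMap_R τ τR hτR τ' hτ' r⟩) ?_ hb
    intro t ht
    rcases hT ht with rfl | rfl
    · change τ' (algebraMap F L x) ∈ _
      rw [hx']
      exact Algebra.subset_adjoin ht
    · change τ' (algebraMap F L x)⁻¹ ∈ _
      rw [map_inv₀, hx']
      exact Algebra.subset_adjoin ht
  · intro hb
    have := chart_map_mem (T := T) (τ'.symm : L →+* L)
      (fun r => ⟨τR.symm r, lift_symm_algebraMap_R τ τR hτR τ' hτ' r⟩) ?_ hb
    · simpa using this
    intro t ht
    rcases hT ht with rfl | rfl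
    · change τ'.symm (algebraMap F L x) ∈ _
      rw [hxs]
      exact Algebra.subset_adjoin ht
    · change τ'.symm (algebraMap F L x)⁻¹ ∈ _
      rw [map_inv₀, hxs]
      exact Algebra.subset_adjoin ht

/-- The image of a sheet under a lift of `τ` is a sheet. -/
theorem lift_isSheet (w : R) (x : F) (τ : F ≃+* F) (τR : R ≃+* R)
    (hτx : τ x = x) (hτR : ∀ r, τ (algebraMap R F r) = algebraMap R F (τR r))
    (hτw : ∀ r, w ∣ r ↔ w ∣ τR r)
    (τ' : L ≃+* L) (hτ' : ∀ f : F, τ' (algebraMap F L f) = algebraMap F L (τ f))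
    {W : ValuationSubring L} (hW : IsSheet w (algebraMap F L x) W) :
    IsSheet w (algebraMap F L x) (W.comap (τ'.symm : L →+* L)) := by
  refine hW.comap τ'.symm τR.symm (lift_symm_algebraMap_R τ τR hτR τ' hτ') ?_ ?_
  · intro r
    have := hτw (τR.symm r)
    rw [RingEquiv.apply_symm_apply] at this
    exact this.symm
  · rw [RingEquiv.symm_apply_eq, hτ', hτx]

/-- An element of the Galois group maps sheets to sheets. -/
theorem gal_isSheet (w : R) (x : F) (σ : L ≃+* L) (hσ : σ ∈ galSubgroup F L)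
    {W : ValuationSubring L} (hW : IsSheet w (algebraMap F L x) W) :
    IsSheet w (algebraMap F L x) (W.comap (σ.symm : L →+* L)) := by
  have hσs : ∀ f : F, σ.symm (algebraMap F L f) = algebraMap F L f := by
    intro f
    rw [RingEquiv.symm_apply_eq, hσ f]
  refine hW.comap σ.symm (RingEquiv.refl R) ?_ (fun r => Iff.rfl) (hσs x)
  intro r
  rw [IsScalarTower.algebraMap_apply R F L, hσs, ← IsScalarTower.algebraMap_apply]
  rfl

/-- **Route G, ALG core.**  Cover `L / F` with the leaf conclusions, lift `τ'` fixing the sheet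
`W₀`: then `τ g / g ∈ F ^ m` for every `g` with an `m`-th root in `L`. -/
theorem algG_core [IsDomain R] [IsNoetherianRing R] [IsIntegrallyClosed R[X]] [CharZero F]
    (w : R) (x : F) (m : ℕ) (τ : F ≃+* F) (τR : R ≃+* R)
    (hinj : Function.Injective (algebraMap R F)) (hx : Transcendental R x) (hw : Prime w)
    (hm : 0 < m) (hroot : ∃ ζ : R, IsPrimitiveRoot ζ m ∧ τR ζ = ζ)
    (hτx : τ x = x) (hτR : ∀ r, τ (algebraMap R F r) = algebraMap R F (τR r))
    (hτw : ∀ r, w ∣ r ↔ w ∣ τR r)
    (hτV : ∀ V : ValuationSubring F, IsSheet w x V → ∀ c : F,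
      (c ∈ V ↔ τ c ∈ V) ∧ (c ∈ V → τ c - c ∈ V.nonunits))
    [FiniteDimensional F L] [IsGalois F L]
    (hS : SheetsConclusion L w x) (hRed : RedConclusion L w x)
    (hConst : ConstConclusion (R := R) L x) (hCount : CountConclusion L w x)
    (τ' : L ≃+* L) (hτ' : ∀ f : F, τ' (algebraMap F L f) = algebraMap F L (τ f))
    (W₀ : ValuationSubring L) (hW₀ : IsSheet w (algebraMap F L x) W₀)
    (hfix : ∀ b, b ∈ W₀ ↔ τ' b ∈ W₀)
    (g : F) (hg : g ≠ 0) (y : L) (hy : y ^ m = algebraMap F L g) :
    ∃ z : F, τ g = z ^ m * g := by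
  classical
  set xL : L := algebraMap F L x with hxL
  let S := ↥{W : ValuationSubring L | IsSheet w xL W}
  have : Fintype S := hS.finite.fintype
  let M : S → AddSubgroup L := fun s => s.1.nonunits.toAddSubgroup
  have hι : Function.Injective (algebraMap F L) := (algebraMap F L).injective
  have hinjL : Function.Injective (algebraMap R L) := by
    rw [IsScalarTower.algebraMap_eq R F L]
    exact hι.comp hinj
  have : CharZero L := charZero_of_injective_algebraMap hι
  have := hConst.finite
  have hxLt : Transcendental R xL := (transcendental_algebraMap_iff hι).2 hx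
  have hy0 : y ≠ 0 := by
    rintro rfl
    rw [zero_pow hm.ne'] at hy
    exact hg (hι (by rw [← hy, map_zero]))
  have hιg : algebraMap F L g ≠ 0 := fun h => hg (hι (by rw [h, map_zero]))
  -- roots of unity
  have hζ : ∀ σ ∈ galSubgroup F L, ∃ ζ : L, σ y = ζ * y ∧ τ' ζ = ζ := by
    intro σ hσ
    obtain ⟨ζ₀, hζ₀, hτζ₀⟩ := hroot
    have hprim : IsPrimitiveRoot (algebraMap R L ζ₀) m := hζ₀.map_of_injective hinjL
    have hpow : (σ y / y) ^ m = 1 := by
      rw [div_pow, ← map_pow, hy, hσ g, div_self hιg]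
    have : NeZero m := ⟨hm.ne'⟩
    obtain ⟨i, -, hi⟩ := hprim.eq_pow_of_pow_eq_one hpow
    refine ⟨σ y / y, by field_simp, ?_⟩
    rw [← hi, map_pow, lift_algebraMap_R τ τR hτR τ' hτ', hτζ₀]
  have key := wallG (R := R) (L := L) (S := S) w (chart R {xL}) (chart R {xL⁻¹})
    (chart R {xL, xL⁻¹}) M
    (fun s c hc a ha => mul_mem_nonunits s.1 ha (s.2.chart_le Set.Subset.rfl hc))
    (Fermat.Agent.S18.H138.chart_mono (Set.singleton_subset_iff.2 (Or.inl rfl)))
    (Fermat.Agent.S18.H138.chart_mono (Set.singleton_subset_iff.2 (Or.inr rfl)))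
    (fun s => one_not_mem_nonunits s.1)
    (fun s => s.2.2.2.1)
    (fun b hb h => hRed _ (Or.inr (Or.inr rfl)) b hb (fun W hW => h ⟨W, hW⟩))
    (fun b hb h => hRed _ (Or.inl rfl) b hb (fun W hW => h ⟨W, hW⟩))
    (fun b hb h => hRed _ (Or.inr (Or.inl rfl)) b hb (fun W hW => h ⟨W, hW⟩))
    (fun e₁ e₂ he₁ he₂ h1 h2 h12 =>
      Fermat.Agent.S18.H138.connected_special_fibre hinjL hConst.closed hxLt w hw e₁ e₂ he₁ he₂
        h1 h2 h12)
    τ'
    (lift_chart_iff x τ τR hτx hτR τ' hτ' {xL} (Set.singleton_subset_iff.2 (Or.inl rfl)))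
    (lift_chart_iff x τ τR hτx hτR τ' hτ' {xL⁻¹} (Set.singleton_subset_iff.2 (Or.inr rfl)))
    (fun s => ⟨⟨s.1.comap (τ'.symm : L →+* L), lift_isSheet w x τ τR hτx hτR hτw τ' hτ' s.2⟩,
      fun b => by
        change b ∈ s.1.nonunits ↔ τ' b ∈ (s.1.comap (τ'.symm : L →+* L)).nonunits
        rw [mem_nonunits_comap]
        simp⟩)
    (fun s t hst => by
      apply Subtype.ext
      apply ValuationSubring.nonunits_injective
      ext b
      have := congrArg (fun A : AddSubgroup L => b ∈ A) hst
      exact iff_of_eq this)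
    (col := fun s : S => s.1.comap (algebraMap F L))
    (fun s s' h => by
      have hmem := mem_iff_of_nonunits_iff τ' s.1 s'.1 h
      have hV := (IsSheet.comap_algebraMap s.2)
      ext f
      have h1 := hmem (algebraMap F L (τ.symm f))
      rw [hτ', RingEquiv.apply_symm_apply] at h1
      have h2 := (hτV _ hV (τ.symm f)).1
      rw [RingEquiv.apply_symm_apply] at h2
      rw [ValuationSubring.mem_comap, ← h1, ← ValuationSubring.mem_comap, h2])
    (fun s h b hb => by
      have hmem := mem_iff_of_nonunits_iff τ' s.1 s.1 h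
      have hV := (IsSheet.comap_algebraMap s.2)
      have hbW : b ∈ s.1 := by
        rcases hb with hb | hb
        · exact s.2.chart_le (Set.singleton_subset_iff.2 (Or.inl rfl)) hb
        · exact s.2.chart_le (Set.singleton_subset_iff.2 (Or.inr rfl)) hb
      obtain ⟨c, hc⟩ := hS.resdeg s.1 s.2 b hbW
      have hcW : algebraMap F L c ∈ s.1 := by
        have : algebraMap F L c = b - (b - algebraMap F L c) := by ring
        rw [this]
        exact sub_mem hbW (ValuationSubring.nonunits_subset hc)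
      have hcV : c ∈ s.1.comap (algebraMap F L) := hcW
      have h3 := (mem_nonunits_comap s.1 (algebraMap F L) _).1 ((hτV _ hV c).2 hcV)
      rw [map_sub] at h3
      have h4 : τ' (b - algebraMap F L c) ∈ s.1.nonunits := (h _).1 hc
      have h5 : τ' b - b = (τ' (b - algebraMap F L c) - (b - algebraMap F L c)) +
          (algebraMap F L (τ c) - algebraMap F L c) := by
        rw [map_sub, hτ']
        ring
      change τ' b - b ∈ s.1.nonunits
      rw [h5]
      exact s.1.nonunits.add_mem (s.1.nonunits.sub_mem h4 hc) h3)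
    (fun 𝔫 h𝔫 s t hc hs ht => Subtype.ext (hCount.1 𝔫 h𝔫 s.1 t.1 s.2 t.2 hc hs ht))
    (fun 𝔫 h𝔫 s t hc hs ht => Subtype.ext (hCount.2 𝔫 h𝔫 s.1 t.1 s.2 t.2 hc hs ht))
    ⟨W₀, hW₀⟩ (nonunits_iff_of_mem_iff τ' W₀ W₀ hfix)
    (galSubgroup F L)
    (fun σ hσ s => ⟨⟨s.1.comap (σ.symm : L →+* L), gal_isSheet w x σ hσ s.2⟩, fun b => by
        change b ∈ s.1.nonunits ↔ σ b ∈ (s.1.comap (σ.symm : L →+* L)).nonunits
        rw [mem_nonunits_comap]
        simp⟩)
    (fun σ hσ s h => by
      have hmem := mem_iff_of_nonunits_iff σ s.1 s.1 h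
      have h1 := hS.free s.1 s.2 (AlgEquiv.ofRingEquiv (f := σ) hσ) hmem
      ext b
      have := congrArg (fun f : L ≃ₐ[F] L => f b) h1
      exact this)
    (fun σ hσ f => by
      change τ' (σ (τ'.symm (algebraMap F L f))) = algebraMap F L f
      rw [lift_symm_algebraMap τ τ' hτ', hσ, hτ', RingEquiv.apply_symm_apply])
    y hy0 hζ
  -- conclusion
  have hz : τ' y / y ∈ (⊥ : IntermediateField F L) := by
    rw [IsGalois.mem_bot_iff_fixed]
    intro f
    exact key (f : L ≃+* L) (fun c => f.commutes c)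
  obtain ⟨z, hz⟩ := IntermediateField.mem_bot.1 hz
  refine ⟨z, hι ?_⟩
  rw [map_mul, map_pow, hz, div_pow, ← hy, div_mul_cancel₀ _ (pow_ne_zero m hy0), ← map_pow, hy,
    hτ']

/-- **Route G, ALG assembly.**  From the leaves SHEETS, RED, CONST, COUNT (for all Kummer-split
covers of `F`) and COVER (for `g`): `τ g / g` is an `m`-th power in `F`. -/
theorem algG [IsDomain R] [IsNoetherianRing R] [IsIntegrallyClosed R[X]] [CharZero F]
    (w : R) (x : F) (m : ℕ) (τ : F ≃+* F) (τR : R ≃+* R)
    (hinj : Function.Injective (algebraMap R F)) (hx : Transcendental R x) (hw : Prime w)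
    (hm : 0 < m) (hroot : ∃ ζ : R, IsPrimitiveRoot ζ m ∧ τR ζ = ζ)
    (hτx : τ x = x) (hτR : ∀ r, τ (algebraMap R F r) = algebraMap R F (τR r))
    (hτw : ∀ r, w ∣ r ↔ w ∣ τR r)
    (hτV : ∀ V : ValuationSubring F, IsSheet w x V → ∀ c : F,
      (c ∈ V ↔ τ c ∈ V) ∧ (c ∈ V → τ c - c ∈ V.nonunits))
    (hsheet : ∃ V : ValuationSubring F, IsSheet w x V)
    (hSheets : ∀ (L : Type u) [Field L] [Algebra F L] [Algebra R L] [IsScalarTower R F L],
      IsKummerSplit L w x m → SheetsConclusion L w x)
    (hRed : ∀ (L : Type u) [Field L] [Algebra F L] [Algebra R L] [IsScalarTower R F L],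
      IsKummerSplit L w x m → RedConclusion L w x)
    (hConst : ∀ (L : Type u) [Field L] [Algebra F L] [Algebra R L] [IsScalarTower R F L],
      IsKummerSplit L w x m → ConstConclusion (R := R) L x)
    (hCount : ∀ (L : Type u) [Field L] [Algebra F L] [Algebra R L] [IsScalarTower R F L],
      IsKummerSplit L w x m → CountConclusion L w x)
    (g : F) (hg : g ≠ 0) (hCover : CoverConclusion w x m τ g) :
    ∃ z : F, τ g = z ^ m * g := by
  obtain ⟨L, _, _, _, _, hKS, τ₀, y, hτ₀, hy⟩ := hCover
  have := hKS.finite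
  have := hKS.galois
  have S1 := hSheets L hKS
  obtain ⟨V₀, hV₀⟩ := hsheet
  obtain ⟨W₀, hW₀, -⟩ := S1.exists_over V₀ hV₀
  have hW₁ : IsSheet w (algebraMap F L x) (W₀.comap (τ₀.symm : L →+* L)) :=
    lift_isSheet w x τ τR hτx hτR hτw τ₀ hτ₀ hW₀
  have hcol : (W₀.comap (τ₀.symm : L →+* L)).comap (algebraMap F L) =
      W₀.comap (algebraMap F L) := by
    ext f
    have h2 := (hτV _ (IsSheet.comap_algebraMap hW₀) (τ.symm f)).1
    rw [RingEquiv.apply_symm_apply] at h2
    rw [ValuationSubring.mem_comap, ValuationSubring.mem_comap]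
    change τ₀.symm (algebraMap F L f) ∈ W₀ ↔ _
    rw [lift_symm_algebraMap τ τ₀ hτ₀, ← ValuationSubring.mem_comap, h2]
  obtain ⟨σ, hσ⟩ := S1.trans _ W₀ hW₁ hW₀ hcol
  refine algG_core (L := L) w x m τ τR hinj hx hw hm hroot hτx hτR hτw hτV S1 (hRed L hKS)
    (hConst L hKS) (hCount L hKS) (τ₀.trans (σ : L ≃+* L)) ?_ W₀ hW₀ ?_ g hg y hy
  · intro f
    change σ (τ₀ (algebraMap F L f)) = _
    rw [hτ₀, σ.commutes]
  · intro b
    change b ∈ W₀ ↔ σ (τ₀ b) ∈ W₀
    rw [← hσ, ValuationSubring.mem_comap]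
    change _ ↔ τ₀.symm (τ₀ b) ∈ W₀
    rw [RingEquiv.symm_apply_apply]

end Asm

end Fermat.Agent.A2.H12

end
-- ===== PACK-END A2/H12/GAsm.lean

-- ===== PACK-BEGIN A2/H12/GSpecU.lean
section


/-!
# Cell A2 — route G: CORRECTED hub definitions (helper12, v2)

BUG FIX (found by helper69): `SplitAt m V g` of `GSpec.lean` is satisfied by `u = 0` whenever
`g ∈ 𝔪_V` (because `0⁻¹ = 0 ∈ V`), so `IsKummerSplit` admitted covers ramified at the sheets.
The corrected notions carry the suffix `U`:

* `SplitAtU m V g`        : `∃ u ≠ 0, u ∈ V, u⁻¹ ∈ V, g - u ^ m ∈ 𝔪_V`  (so `g` is a unit of `V`);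
* `IsKummerSplitU L w x m`, `CoverConclusionU w x m τ g` : as before with `SplitAtU`.

The leaf conclusions `SheetsConclusion`, `RedConclusion`, `ConstConclusion`, `CountConclusion`
of `GSpec.lean` are unchanged.
-/

set_option autoImplicit false

namespace Fermat.Agent.A2.H12

universe u

section Cover

variable {R : Type u} [CommRing R] {F : Type u} [Field F] [Algebra R F]

/-- `g` is a unit of `V` whose residue is an `m`-th power. -/
def SplitAtU (m : ℕ) (V : ValuationSubring F) (g : F) : Prop :=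
  ∃ u : F, u ≠ 0 ∧ u ∈ V ∧ u⁻¹ ∈ V ∧ g - u ^ m ∈ V.nonunits

theorem SplitAtU.splitAt {m : ℕ} {V : ValuationSubring F} {g : F} (h : SplitAtU m V g) :
    SplitAt m V g := by
  obtain ⟨u, -, hu, hu', hg⟩ := h
  exact ⟨u, hu, hu', hg⟩

/-- A split element is a unit of `V`. -/
theorem SplitAtU.mem {m : ℕ} {V : ValuationSubring F} {g : F} (h : SplitAtU m V g) : g ∈ V := by
  obtain ⟨u, -, hu, -, hg⟩ := h
  have : g = (g - u ^ m) + u ^ m := by ring
  rw [this]
  exact V.add_mem _ _ (ValuationSubring.nonunits_subset hg) (V.pow_mem hu m)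

theorem SplitAtU.not_mem_nonunits {m : ℕ} {V : ValuationSubring F} {g : F}
    (h : SplitAtU m V g) : g ∉ V.nonunits := by
  obtain ⟨u, hu0, hu, hu', hg⟩ := h
  intro hgn
  have h1 : u ^ m ∈ V.nonunits := by
    have : u ^ m = g - (g - u ^ m) := by ring
    rw [this]
    exact V.nonunits.sub_mem hgn hg
  have h2 : (u⁻¹) ^ m * u ^ m ∈ V.nonunits := mul_mem_nonunits V h1 (V.pow_mem hu' m)
  rw [← mul_pow, inv_mul_cancel₀ hu0, one_pow] at h2
  exact one_not_mem_nonunits V h2

variable (L : Type u) [Field L] [Algebra F L] [Algebra R L] [IsScalarTower R F L]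

/-- `L / F` is a finite Galois Kummer cover generated by `m`-th roots of elements `g i` of `F`
with `m ∣ div (g i)` on the generic fibre and split (`SplitAtU`) at every sheet of `F`. -/
structure IsKummerSplitU (w : R) (x : F) (m : ℕ) : Prop where
  finite : FiniteDimensional F L
  galois : IsGalois F L
  gen : ∃ (n : ℕ) (y : Fin n → L) (g : Fin n → F),
    (∀ i, g i ≠ 0) ∧ (∀ i, y i ^ m = algebraMap F L (g i)) ∧
    IntermediateField.adjoin F (Set.range y) = ⊤ ∧
    (∀ i, HorDiv R m (g i)) ∧ ∀ i, ∀ V : ValuationSubring F, IsSheet w x V → SplitAtU m V (g i)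

omit [Algebra R L] [IsScalarTower R F L] in
theorem IsKummerSplitU.isKummerSplit {w : R} {x : F} {m : ℕ} (h : IsKummerSplitU L w x m) :
    IsKummerSplit L w x m := by
  obtain ⟨n, y, g, h1, h2, h3, h4, h5⟩ := h.gen
  exact ⟨h.finite, h.galois, n, y, g, h1, h2, h3, h4, fun i V hV => (h5 i V hV).splitAt⟩

end Cover

section CoverExists

variable {R : Type u} [CommRing R] {F : Type u} [Field F] [Algebra R F]

/-- Conclusion of leaf **COVER** (corrected). -/
def CoverConclusionU (w : R) (x : F) (m : ℕ) (τ : F ≃+* F) (g : F) : Prop :=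
  ∃ (L : Type u) (_ : Field L) (_ : Algebra F L) (_ : Algebra R L) (_ : IsScalarTower R F L),
    IsKummerSplitU L w x m ∧ ∃ (τ' : L ≃+* L) (y : L),
      (∀ f : F, τ' (algebraMap F L f) = algebraMap F L (τ f)) ∧ y ^ m = algebraMap F L g

end CoverExists

end Fermat.Agent.A2.H12

end
-- ===== PACK-END A2/H12/GSpecU.lean

-- ===== PACK-BEGIN A2/H643/BaseLeaf.lean
section






/-!
# Cell A2, route G: the leaf BASE (helper643)

`baseLeaf : Fermat.Agent.A2.H12.BaseLeaf` — in the context of `AlgSSStatement`: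

* the sheets of `F` (valuation subrings extending the Gauss valuation of `R[x]`) are exactly the
  two localisations `Bf_{p₁}`, `Bf_{p₂}` of the chart `Bf` at its components (`SSChart`);
* they are discrete with uniformiser `w`;
* they are `τ`-stable and `τ ≡ id` on their residue fields.
-/

set_option autoImplicit false
set_option linter.unusedSectionVars false

namespace Fermat.Agent.A2.H643

open Polynomial Fermat.Agent.A2 Fermat.Agent.A2.H12
open Fermat.Agent.S18.H138 (chart baseField)

section FD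

variable {R E F : Type*} [CommRing R] [IsDomain R] [Field E] [Algebra R E] [IsFractionRing R E]
  [Field F] [Algebra E F] [Algebra R F] [IsScalarTower R E F]

/-- `F` is finite over `baseField R x` if it is finite over `E(x)`, `E = Frac R`. -/
theorem finiteDimensional_baseField_of_adjoin (x : F)
    [FiniteDimensional (IntermediateField.adjoin E ({x} : Set F)) F] :
    FiniteDimensional (baseField R x) F := by
  set K₀ := IntermediateField.adjoin E ({x} : Set F) with hK₀
  set K := baseField R x with hK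
  have hEK : ∀ e : E, algebraMap E F e ∈ K := by
    intro e
    obtain ⟨a, b, hb, rfl⟩ := IsFractionRing.div_surjective (A := R) e
    rw [map_div₀, ← IsScalarTower.algebraMap_apply, ← IsScalarTower.algebraMap_apply]
    exact K.div_mem (Subfield.subset_closure (Or.inl ⟨a, rfl⟩))
      (Subfield.subset_closure (Or.inl ⟨b, rfl⟩))
  have hle : ∀ y ∈ K₀, y ∈ K := by
    intro y hy
    have h1 : y ∈ K₀.toSubfield := hy
    rw [hK₀, IntermediateField.adjoin_toSubfield] at h1
    refine Subfield.closure_le.2 ?_ h1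
    rintro z (⟨e, rfl⟩ | hz)
    · exact hEK e
    · rw [Set.mem_singleton_iff] at hz
      subst hz
      exact Subfield.subset_closure (Or.inr rfl)
  let φ : K₀ →+* K :=
    { toFun := fun a => ⟨a, hle a a.2⟩
      map_one' := rfl
      map_mul' := fun _ _ => rfl
      map_zero' := rfl
      map_add' := fun _ _ => rfl }
  let _ : Algebra K₀ K := φ.toAlgebra
  have : IsScalarTower K₀ K F := IsScalarTower.of_algebraMap_eq fun _ => rfl
  exact Module.Finite.of_restrictScalars_finite K₀ K F

end FD

section Chart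

variable {R : Type} [CommRing R] [IsDomain R] [IsNoetherianRing R] [IsIntegrallyClosed R[X]]
  {F : Type} [Field F] [Algebra R F] [CharZero F]

/-- Powers of a non-unit of a valuation subring are non-units. -/
theorem pow_mem_nonunits (V : ValuationSubring F) {a : F} (ha : a ∈ V.nonunits) {k : ℕ}
    (hk : k ≠ 0) : a ^ k ∈ V.nonunits := by
  rw [ValuationSubring.mem_nonunits_iff] at ha ⊢
  rw [map_pow]
  exact pow_lt_one₀ zero_le ha hk

/-- One component of the chart: the localisation of the chart at `p` is a sheet, discrete with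
uniformiser `w`, `τ`-stable with `τ ≡ id` on the residue field, and it is the only sheet with
centre `p`. -/
theorem base_component (hinj : Function.Injective (algebraMap R F)) {x : F} {w : R}
    (hw : Prime w) (B : Subalgebra R F) [IsNoetherianRing B] [IsIntegrallyClosed B]
    [IsFractionRing B F] (hxB : x ∈ B)
    (hsheetB : ∀ V' : ValuationSubring F, IsSheet w x V' → ∀ b : B, (b : F) ∈ V')
    (p p' : Ideal B) [hp : p.IsPrime]
    (hinf : p ⊓ p' = Ideal.span {algebraMap R B w}) (hle : ¬ p' ≤ p)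
    (hcomap : ∀ Q : R[X], aeval (⟨x, hxB⟩ : B) Q ∈ p → ∀ i, w ∣ Q.coeff i)
    (τ : F ≃+* F)
    (hτB : ∀ b ∈ B, ∃ c ∈ B, τ b - b = algebraMap R F w * c) :
    ∃ V : ValuationSubring F, IsSheet w x V ∧
      (∀ c ∈ V, τ c ∈ V ∧ τ c - c ∈ V.nonunits) ∧
      (∀ f : F, f ≠ 0 → ∃ (n : ℤ) (u : F), u ∈ V ∧ u⁻¹ ∈ V ∧ f = algebraMap R F w ^ n * u) ∧
      ∀ V' : ValuationSubring F, IsSheet w x V' →
        (∀ b : B, b ∉ p → (b : F) ∉ V'.nonunits) → V' = V := by
  classical
  set wB : B := algebraMap R B w with hwB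
  have hwF : ((wB : B) : F) = algebraMap R F w := rfl
  have hw0 : wB ≠ 0 := by
    intro h
    have h1 : algebraMap R F w = 0 := by rw [← hwF, h]; rfl
    exact hw.ne_zero (hinj (by rw [h1, map_zero]))
  have hwp : wB ∈ p := base_w_mem hinf
  set V := baseV F hw0 hinf hle with hV
  have hmem : ∀ c : F, c ∈ V ↔ ∃ a s : B, s ∉ p ∧ c = (a : F) * (s : F)⁻¹ :=
    fun c => mem_baseV_iff hw0 hinf hle c
  have hBV : ∀ b : B, (b : F) ∈ V := fun b => algebraMap_mem_baseV hw0 hinf hle b
  have hwV : algebraMap R F w ∈ V.nonunits := by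
    rw [← hwF]
    exact mem_nonunits_baseV hw0 hinf hle hwp
  have hdisc : ∀ f : F, f ≠ 0 → ∃ (n : ℤ) (u : F), u ∈ V ∧ u⁻¹ ∈ V ∧
      f = algebraMap R F w ^ n * u := base_discrete (F := F) hw0 hinf hle
  refine ⟨V, ⟨fun r => hBV (algebraMap R B r), hBV ⟨x, hxB⟩, hwV, ?_⟩, ?_, ?_, ?_⟩
  · -- Gauss
    intro Q hQ
    have hQp : aeval (⟨x, hxB⟩ : B) Q ∉ p := by
      intro h
      obtain ⟨i, hi⟩ := hQ
      exact hi (hcomap Q h i)
    have h1 := inv_mem_baseV (F := F) hw0 hinf hle hQp
    have h2 : algebraMap B F (aeval (⟨x, hxB⟩ : B) Q) = aeval x Q :=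
      Polynomial.aeval_subalgebra_coe Q B ⟨x, hxB⟩
    rwa [h2] at h1
  · -- stability
    intro c hc
    obtain ⟨a, s, hs, rfl⟩ := (hmem c).1 hc
    obtain ⟨a', ha', hτa⟩ := hτB a a.2
    obtain ⟨s', hs', hτs⟩ := hτB s s.2
    have hτa2 : τ (a : F) = ((a + wB * ⟨a', ha'⟩ : B) : F) := by
      rw [Subalgebra.coe_add, Subalgebra.coe_mul, hwF]
      linear_combination hτa
    have hτs2 : τ (s : F) = ((s + wB * ⟨s', hs'⟩ : B) : F) := by
      rw [Subalgebra.coe_add, Subalgebra.coe_mul, hwF]
      linear_combination hτs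
    have hs2 : (s + wB * ⟨s', hs'⟩ : B) ∉ p := by
      intro h
      apply hs
      have h1 : s = (s + wB * ⟨s', hs'⟩) - wB * ⟨s', hs'⟩ := by ring
      rw [h1]
      exact p.sub_mem h (p.mul_mem_right _ hwp)
    have hs0 : (s : F) ≠ 0 := by
      intro h
      apply hs
      have : s = 0 := Subtype.ext h
      rw [this]
      exact p.zero_mem
    have hs20 : ((s + wB * ⟨s', hs'⟩ : B) : F) ≠ 0 := by
      intro h
      apply hs2
      have : (s + wB * ⟨s', hs'⟩ : B) = 0 := Subtype.ext h
      rw [this]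
      exact p.zero_mem
    have hτc : τ ((a : F) * (s : F)⁻¹) = ((a + wB * ⟨a', ha'⟩ : B) : F) *
        ((s + wB * ⟨s', hs'⟩ : B) : F)⁻¹ := by
      rw [map_mul, map_inv₀, hτa2, hτs2]
    refine ⟨?_, ?_⟩
    · rw [hτc]
      exact (hmem _).2 ⟨_, _, hs2, rfl⟩
    · rw [hτc]
      -- numerator `w * (a' s - a s')`
      have hN : (wB * (⟨a', ha'⟩ * s - a * ⟨s', hs'⟩) : B) ∈ p := p.mul_mem_right _ hwp
      have hNV := mem_nonunits_baseV (F := F) hw0 hinf hle hN
      have hden : ((s : F) * ((s + wB * ⟨s', hs'⟩ : B) : F))⁻¹ ∈ V := by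
        have h1 : (s * (s + wB * ⟨s', hs'⟩) : B) ∉ p := fun h =>
          (hp.mem_or_mem h).elim hs hs2
        have := inv_mem_baseV (F := F) hw0 hinf hle h1
        rwa [show algebraMap B F (s * (s + wB * ⟨s', hs'⟩)) =
          (s : F) * ((s + wB * ⟨s', hs'⟩ : B) : F) from rfl] at this
      have hkey : ((a + wB * ⟨a', ha'⟩ : B) : F) * ((s + wB * ⟨s', hs'⟩ : B) : F)⁻¹
          - (a : F) * (s : F)⁻¹
          = algebraMap B F (wB * (⟨a', ha'⟩ * s - a * ⟨s', hs'⟩)) *
            ((s : F) * ((s + wB * ⟨s', hs'⟩ : B) : F))⁻¹ := by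
        have e1 : algebraMap B F (wB * (⟨a', ha'⟩ * s - a * ⟨s', hs'⟩))
            = algebraMap R F w * (a' * (s : F) - (a : F) * s') := rfl
        have e2 : ((a + wB * ⟨a', ha'⟩ : B) : F) = (a : F) + algebraMap R F w * a' := rfl
        have e3 : ((s + wB * ⟨s', hs'⟩ : B) : F) = (s : F) + algebraMap R F w * s' := rfl
        rw [e1]
        rw [e3] at hs20
        rw [e2, e3]
        field_simp
        ring
      rw [hkey, mul_comm]
      exact H12.mul_mem_nonunits V hNV hden
  · exact hdisc
  · -- uniqueness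
    intro V' hV' hcen
    have hBV' : ∀ b : B, (b : F) ∈ V' := hsheetB V' hV'
    have hwV' : algebraMap R F w ∈ V'.nonunits := hV'.2.2.1
    ext c
    constructor
    · intro hc
      by_cases hc0 : c = 0
      · rw [hc0]; exact V.zero_mem
      obtain ⟨n, u, hu, hu', hcu⟩ := hdisc c hc0
      -- `u` is a unit of `V'`
      have hunit : ∀ v : F, v ∈ V → v ∈ V' := by
        intro v hv
        obtain ⟨a, s, hs, rfl⟩ := (hmem v).1 hv
        have h1 := hcen s hs
        rw [ValuationSubring.mem_nonunits_iff_or, not_or, not_not] at h1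
        exact V'.mul_mem _ _ (hBV' a) h1.2
      have huV' : u ∈ V' := hunit u hu
      have hu'V' : u⁻¹ ∈ V' := hunit _ hu'
      have hu0 : u ≠ 0 := by
        rintro rfl
        rw [mul_zero] at hcu
        exact hc0 hcu
      rcases le_or_gt 0 n with hn | hn
      · obtain ⟨k, rfl⟩ := Int.eq_ofNat_of_zero_le hn
        rw [hcu, zpow_natCast]
        exact V.mul_mem _ _ (V.pow_mem (hBV wB) k) hu
      · exfalso
        obtain ⟨k, hk⟩ : ∃ k : ℕ, n = -((k : ℤ) + 1) := ⟨(-n - 1).toNat, by omega⟩
        have h2 : (algebraMap R F w ^ (k + 1))⁻¹ ∈ V' := by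
          have : (algebraMap R F w ^ (k + 1))⁻¹ = c * u⁻¹ := by
            rw [hcu, hk, zpow_neg, mul_assoc, mul_inv_cancel₀ hu0, mul_one]
            congr 1
            exact (zpow_natCast (algebraMap R F w) (k + 1)).symm
          rw [this]
          exact V'.mul_mem _ _ hc hu'V'
        have h3 := pow_mem_nonunits V' hwV' (Nat.succ_ne_zero k)
        rw [ValuationSubring.mem_nonunits_iff_or] at h3
        rcases h3 with h3 | h3
        · have hw0F : algebraMap R F w ≠ 0 := by
            intro h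
            exact hw.ne_zero (hinj (by rw [h, map_zero]))
          exact pow_ne_zero _ hw0F h3
        · exact h3 h2
    · intro hc
      obtain ⟨a, s, hs, rfl⟩ := (hmem c).1 hc
      have h1 := hcen s hs
      rw [ValuationSubring.mem_nonunits_iff_or, not_or, not_not] at h1
      exact V'.mul_mem _ _ (hBV' a) h1.2

/-- Integrality over `R[x]` transfers to integrality along `aeval x : R[X] → B`. -/
theorem isIntegralElem_aeval_of_isIntegral_adjoin {R F : Type*} [CommRing R] [Field F]
    [Algebra R F] (x : F) (B : Subalgebra R F) (xB : B) (hxB : (xB : F) = x) (b : B)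
    (hb : IsIntegral (Algebra.adjoin R ({x} : Set F)) (b : F)) :
    RingHom.IsIntegralElem ((aeval (R := R) xB : R[X] →ₐ[R] B) : R[X] →+* B) b := by
  classical
  obtain ⟨P, hPm, hP⟩ := hb
  have hx₀ : x ∈ Algebra.adjoin R ({x} : Set F) := Algebra.subset_adjoin (Set.mem_singleton x)
  -- lift the coefficients of `P` to `R[X]`
  have hsurj : Function.Surjective
      ((aeval (R := R) (⟨x, hx₀⟩ : Algebra.adjoin R ({x} : Set F)) :
        R[X] →ₐ[R] Algebra.adjoin R ({x} : Set F)) :
          R[X] →+* Algebra.adjoin R ({x} : Set F)) := by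
    intro a
    have ha : (a : F) ∈ (aeval (R := R) x).range := by
      rw [← Algebra.adjoin_singleton_eq_range_aeval]
      exact a.2
    obtain ⟨Q, hQ⟩ := ha
    refine ⟨Q, Subtype.ext ?_⟩
    rw [← hQ]
    exact Polynomial.aeval_subalgebra_coe Q _ ⟨x, hx₀⟩
  obtain ⟨P', hP'map, -, hP'm⟩ := Polynomial.lifts_and_degree_eq_and_monic
    ((Polynomial.mem_lifts P).2 (Polynomial.map_surjective _ hsurj P)) hPm
  refine ⟨P', hP'm, ?_⟩
  apply Subtype.ext
  have hcomp : (B.val : B →+* F).comp ((aeval (R := R) xB : R[X] →ₐ[R] B) : R[X] →+* B)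
      = (algebraMap (Algebra.adjoin R ({x} : Set F)) F).comp
          ((aeval (R := R) (⟨x, hx₀⟩ : Algebra.adjoin R ({x} : Set F)) :
            R[X] →ₐ[R] Algebra.adjoin R ({x} : Set F)) :
              R[X] →+* Algebra.adjoin R ({x} : Set F)) := by
    apply RingHom.ext
    intro Q
    have h1 : ((aeval (R := R) xB Q : B) : F) = aeval x Q := by
      rw [Polynomial.aeval_subalgebra_coe Q B xB, hxB]
    have h2 : ((aeval (R := R) (⟨x, hx₀⟩ : Algebra.adjoin R ({x} : Set F)) Q :
        Algebra.adjoin R ({x} : Set F)) : F) = aeval x Q :=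
      Polynomial.aeval_subalgebra_coe Q _ ⟨x, hx₀⟩
    exact h1.trans h2.symm
  have h1 := Polynomial.hom_eval₂ P' ((aeval (R := R) xB : R[X] →ₐ[R] B) : R[X] →+* B)
    (B.val : B →+* F) b
  rw [hcomp, ← Polynomial.eval₂_map, hP'map] at h1
  exact h1.trans hP

/-- The chart `chart R {x}` is integral over `R[X]` (acting through `aeval x`). -/
theorem isIntegral_aeval_chart {R F : Type} [CommRing R] [IsDomain R] [Field F] [Algebra R F]
    [CharZero F] {x : F} (b : chart R ({x} : Set F)) :
    RingHom.IsIntegralElem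
      ((aeval (R := R) (⟨x, S18.H138.mem_chart_of_mem (Set.mem_singleton x)⟩ :
        chart R ({x} : Set F)) : R[X] →ₐ[R] chart R ({x} : Set F)) :
          R[X] →+* chart R ({x} : Set F)) b :=
  isIntegralElem_aeval_of_isIntegral_adjoin x _ _ rfl b b.2

end Chart

section Leaf

/-- **Leaf BASE** of route G. -/
theorem baseLeaf : BaseLeaf := by
  intro R E F _ _ _ _ _ _ _ _ _ _ _ _ _ w q m x Bf Bi τ τE τR ctx
  classical
  have hinjRE : Function.Injective (algebraMap R E) := IsFractionRing.injective R E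
  have hinj : Function.Injective (algebraMap R F) := by
    rw [IsScalarTower.algebraMap_eq R E F]
    exact (algebraMap E F).injective.comp hinjRE
  have : CharZero F := charZero_of_injective_algebraMap (algebraMap E F).injective
  have hxR : Transcendental R x := ctx.transc.restrictScalars hinjRE
  have hw : Prime w := ctx.irr.prime
  have := ctx.fin
  have : FiniteDimensional (baseField R x) F := finiteDimensional_baseField_of_adjoin (E := E) x
  have hBeq : Bf = chart R ({x} : Set F) := SetLike.ext fun f => ctx.hBf f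
  subst hBeq
  obtain ⟨c⟩ := ctx.cf
  obtain ⟨i1, i2, i3⟩ := S18.H394.chart_instances (R := R) hxR
  have := c.prime₁
  have := c.prime₂
  have hxB : x ∈ chart R ({x} : Set F) := S18.H138.mem_chart_of_mem (Set.mem_singleton x)
  -- the chart as an `R[X]`-algebra
  letI alg : Algebra R[X] (chart R ({x} : Set F)) :=
    (aeval (⟨x, hxB⟩ : chart R ({x} : Set F))).toRingHom.toAlgebra
  have halg : ∀ Q : R[X], algebraMap R[X] (chart R ({x} : Set F)) Q
      = aeval (⟨x, hxB⟩ : chart R ({x} : Set F)) Q := fun Q => rfl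
  have hcoe : ∀ Q : R[X], ((aeval (⟨x, hxB⟩ : chart R ({x} : Set F)) Q :
      chart R ({x} : Set F)) : F) = aeval x Q :=
    fun Q => Polynomial.aeval_subalgebra_coe Q _ ⟨x, hxB⟩
  have hfaith : FaithfulSMul R[X] (chart R ({x} : Set F)) := by
    rw [faithfulSMul_iff_algebraMap_injective]
    intro P Q hPQ
    have h1 : aeval x P = aeval x Q := by
      rw [← hcoe, ← hcoe, ← halg, ← halg, hPQ]
    exact transcendental_iff_injective.1 hxR h1
  have hint : Algebra.IsIntegral R[X] (chart R ({x} : Set F)) :=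
    ⟨fun b => isIntegral_aeval_chart b⟩
  have hπ : Prime (C w : R[X]) := Polynomial.prime_C_iff.2 hw
  have hCw : algebraMap R[X] (chart R ({x} : Set F)) (C w)
      = algebraMap R (chart R ({x} : Set F)) w := by
    rw [halg, aeval_C]
  have hinf : c.p₁ ⊓ c.p₂ = Ideal.span {algebraMap R[X] (chart R ({x} : Set F)) (C w)} := by
    rw [hCw]
    exact c.inf_eq
  have hinf' : c.p₂ ⊓ c.p₁ = Ideal.span {algebraMap R[X] (chart R ({x} : Set F)) (C w)} := by
    rw [inf_comm]
    exact hinf
  have hc1 := over_under_eq hπ hinf c.not_le₂₁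
  have hc2 := over_under_eq hπ hinf' c.not_le₁₂
  have hcm : ∀ p : Ideal (chart R ({x} : Set F)),
      p.comap (algebraMap R[X] (chart R ({x} : Set F))) = Ideal.span {C w} →
      ∀ Q : R[X], aeval (⟨x, hxB⟩ : chart R ({x} : Set F)) Q ∈ p → ∀ i, w ∣ Q.coeff i := by
    intro p hp Q hQ i
    have h1 : Q ∈ p.comap (algebraMap R[X] (chart R ({x} : Set F))) := hQ
    rw [hp, Ideal.mem_span_singleton] at h1
    exact (Polynomial.C_dvd_iff_dvd_coeff _ _).1 h1 i
  have hsheetB : ∀ V' : ValuationSubring F, IsSheet w x V' →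
      ∀ b : chart R ({x} : Set F), (b : F) ∈ V' := fun V' hV' b =>
    hV'.chart_le (T := {x}) (fun y hy => Or.inl hy) b.2
  obtain ⟨V₁, hV₁s, hV₁τ, hV₁d, hV₁u⟩ := base_component hinj hw (chart R ({x} : Set F)) hxB
    hsheetB c.p₁ c.p₂ c.inf_eq c.not_le₂₁ (hcm _ hc1) τ ctx.hτf
  obtain ⟨V₂, hV₂s, hV₂τ, hV₂d, hV₂u⟩ := base_component hinj hw (chart R ({x} : Set F)) hxB
    hsheetB c.p₂ c.p₁ (by rw [inf_comm]; exact c.inf_eq) c.not_le₁₂ (hcm _ hc2) τ ctx.hτf
  -- classification of the sheets
  have hclass : ∀ V : ValuationSubring F, IsSheet w x V → V = V₁ ∨ V = V₂ := by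
    intro V hV
    let ι : chart R ({x} : Set F) →+* V :=
      { toFun := fun b => ⟨b, hsheetB V hV b⟩
        map_one' := rfl
        map_mul' := fun _ _ => rfl
        map_zero' := rfl
        map_add' := fun _ _ => rfl }
    set P : Ideal (chart R ({x} : Set F)) := (IsLocalRing.maximalIdeal V).comap ι with hP
    have hPprime : P.IsPrime := Ideal.comap_isPrime ι _
    have hPmem : ∀ b : chart R ({x} : Set F), b ∈ P ↔ (b : F) ∈ V.nonunits := by
      intro b
      rw [hP, Ideal.mem_comap, ValuationSubring.mem_nonunits_iff_exists_mem_maximalIdeal]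
      constructor
      · intro h
        exact ⟨hsheetB V hV b, h⟩
      · rintro ⟨_, h⟩
        exact h
    have hPu : P.comap (algebraMap R[X] (chart R ({x} : Set F))) = Ideal.span {C w} := by
      apply le_antisymm
      · intro Q hQ
        rw [Ideal.mem_span_singleton, Polynomial.C_dvd_iff_dvd_coeff]
        by_contra hcon
        rw [not_forall] at hcon
        have hinvmem := hV.2.2.2 Q hcon
        have hnu : aeval x Q ∈ V.nonunits := by
          rw [← hcoe, ← hPmem]
          exact hQ
        rw [ValuationSubring.mem_nonunits_iff_or] at hnu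
        rcases hnu with h0 | h0
        · have hQ0 : Q = 0 := by
            have := transcendental_iff_injective.1 hxR
            apply this
            rw [h0, map_zero]
          obtain ⟨i, hi⟩ := hcon
          apply hi
          rw [hQ0, coeff_zero]
          exact dvd_zero w
        · exact h0 hinvmem
      · rw [Ideal.span_singleton_le_iff_mem, Ideal.mem_comap, hPmem, hCw]
        exact hV.2.2.1
    rcases eq_or_eq_of_under_eq hπ hinf c.not_le₁₂ c.not_le₂₁ hPprime hPu with h | h
    · left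
      apply hV₁u V hV
      intro b hb
      rw [← hPmem, h]
      exact hb
    · right
      apply hV₂u V hV
      intro b hb
      rw [← hPmem, h]
      exact hb
  have hfwd : ∀ V : ValuationSubring F, IsSheet w x V → ∀ c ∈ V,
      τ c ∈ V ∧ τ c - c ∈ V.nonunits := by
    intro V hV
    rcases hclass V hV with rfl | rfl
    · exact hV₁τ
    · exact hV₂τ
  refine ⟨⟨V₁, hV₁s⟩, ?_, ?_⟩
  · intro V hV a
    refine ⟨⟨fun h => (hfwd V hV a h).1, fun h => ?_⟩, fun h => (hfwd V hV a h).2⟩
    obtain ⟨r, hr, hfo⟩ := ctx.hfo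
    have hiter : ∀ k : ℕ, (⇑τ)^[k] (τ a) ∈ V := by
      intro k
      induction k with
      | zero => exact h
      | succ k ih =>
        rw [Function.iterate_succ_apply']
        exact (hfwd V hV _ ih).1
    have h1 := hiter (r - 1)
    rw [← Function.iterate_succ_apply, Nat.succ_eq_add_one, Nat.sub_add_cancel hr, hfo] at h1
    exact h1
  · intro V hV
    rcases hclass V hV with rfl | rfl
    · exact hV₁d
    · exact hV₂d

end Leaf

end Fermat.Agent.A2.H643

end
-- ===== PACK-END A2/H643/BaseLeaf.lean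

-- ===== PACK-BEGIN S55/Bridge/H594/Comap.lean
section


/-!
# S55 bridge (helper594), piece B14 in `ValuationSubring.comap` form

For a finite (or just normal) intermediate field `F` of `ℚ̄/ℚ` and a valuation subring `A` of `ℚ̄`
over a prime number `q`, with `A ∩ F := A.comap (algebraMap F ℚ̄)`:

* `map_decompositionSubgroup_eq_comap`: the image of `D_A` in `Gal(F/ℚ)` is `D_{A ∩ F}`;
* `map_inertiaSubgroupIn_eq_comap`: the image of `I_A` in `Gal(F/ℚ)` is `I_{A ∩ F}`.

The first part of the file gives elementwise membership criteria for the decomposition and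
inertia groups of a valuation subring of an arbitrary field extension.
-/

set_option autoImplicit false
set_option linter.style.haveILetI false
set_option linter.unusedSectionVars false

namespace Fermat.Agent.S55.Bridge.H594

open Fermat.Agent.S54 Fermat.Agent.S55.Bridge
open scoped Pointwise

section general

variable {K L : Type*} [Field K] [Field L] [Algebra K L] (A : ValuationSubring L)

/-- Membership in the decomposition group, elementwise (general fields). -/
theorem mem_decompositionSubgroup_iff_forall (σ : L ≃ₐ[K] L) :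
    σ ∈ A.decompositionSubgroup K ↔ ∀ x, σ x ∈ A ↔ x ∈ A := by
  rw [MulAction.mem_stabilizer_iff]
  constructor
  · intro h x
    have hinv : σ⁻¹ • A = A := by
      conv_lhs => rw [← h]
      rw [inv_smul_smul]
    have h1 := ValuationSubring.mem_pointwise_smul_iff_inv_smul_mem (S := A)
      (g := σ⁻¹) (x := x)
    rw [hinv, inv_inv] at h1
    rw [h1]
    rfl
  · intro h
    apply SetLike.ext
    intro x
    rw [ValuationSubring.mem_pointwise_smul_iff_inv_smul_mem]
    have h2 := h (σ⁻¹ • x)
    rw [AlgEquiv.smul_def] at h2 ⊢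
    rw [← h2]
    have : σ (σ⁻¹ x) = x := by
      show (σ * σ⁻¹) x = x
      rw [mul_inv_cancel]
      rfl
    rw [this]

/-- Membership in the inertia group, elementwise (general fields). -/
theorem mem_inertiaSubgroupIn_iff_forall (σ : L ≃ₐ[K] L) :
    σ ∈ A.inertiaSubgroupIn K ↔
      σ ∈ A.decompositionSubgroup K ∧ ∀ z ∈ A, σ z - z ∈ A.nonunits := by
  constructor
  · rintro ⟨g, hg, rfl⟩
    refine ⟨g.2, fun z hzA => ?_⟩
    have h1 : MulSemiringAction.toRingAut (A.decompositionSubgroup K)
        (IsLocalRing.ResidueField A) g = 1 := hg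
    have h2 : g • (IsLocalRing.residue A ⟨z, hzA⟩) = IsLocalRing.residue A ⟨z, hzA⟩ := by
      have := congrArg (fun f => f (IsLocalRing.residue A ⟨z, hzA⟩)) h1
      simpa using this
    rw [← IsLocalRing.ResidueField.residue_smul] at h2
    have h3 : (g • (⟨z, hzA⟩ : A)) - ⟨z, hzA⟩ ∈ IsLocalRing.maximalIdeal A := by
      rw [← Ideal.Quotient.eq]
      exact h2
    rw [ValuationSubring.valuation_lt_one_iff] at h3
    rw [ValuationSubring.mem_nonunits_iff]
    exact h3
  · rintro ⟨hD, h⟩
    refine ⟨⟨σ, hD⟩, ?_, rfl⟩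
    show (⟨σ, hD⟩ : A.decompositionSubgroup K) ∈ MonoidHom.ker
      (MulSemiringAction.toRingAut (A.decompositionSubgroup K) (IsLocalRing.ResidueField A))
    rw [MonoidHom.mem_ker]
    apply RingEquiv.ext
    intro y
    obtain ⟨x, rfl⟩ := IsLocalRing.residue_surjective y
    show (⟨σ, hD⟩ : A.decompositionSubgroup K) • (IsLocalRing.residue A x)
      = IsLocalRing.residue A x
    rw [← IsLocalRing.ResidueField.residue_smul]
    rw [← sub_eq_zero, ← map_sub, IsLocalRing.residue_eq_zero_iff]
    have h3 := h x.1 x.2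
    rw [ValuationSubring.mem_nonunits_iff] at h3
    rw [ValuationSubring.valuation_lt_one_iff]
    exact h3

/-- Non-units of a `comap`. -/
theorem mem_nonunits_comap_iff {M : Type*} [Field M] (f : M →+* L) (x : M) :
    x ∈ (A.comap f).nonunits ↔ f x ∈ A.nonunits := by
  rw [ValuationSubring.mem_nonunits_iff_or, ValuationSubring.mem_nonunits_iff_or,
    ValuationSubring.mem_comap, map_inv₀, map_eq_zero_iff f f.injective]

end general

section comap

attribute [local instance] isAlgebraic_Qbar isGalois_Qbar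

variable (F : IntermediateField ℚ (AlgebraicClosure ℚ)) [Normal ℚ F]
variable (A : ValuationSubring (AlgebraicClosure ℚ))

/-- **B14 (decomposition groups).** -/
theorem map_decompositionSubgroup_eq_comap {q : ℕ} (hq : q.Prime) (hA : A.LiesOverPrime q) :
    (A.decompositionSubgroup ℚ).map (AlgEquiv.restrictNormalHom F) =
      (A.comap (algebraMap F (AlgebraicClosure ℚ))).decompositionSubgroup ℚ := by
  apply le_antisymm
  · rintro _ ⟨σ, hσ, rfl⟩
    rw [mem_decompositionSubgroup_iff_forall]
    intro x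
    rw [ValuationSubring.mem_comap, ValuationSubring.mem_comap]
    have := (mem_decompositionSubgroup_iff_forall A σ).mp hσ (x : AlgebraicClosure ℚ)
    have h2 : algebraMap F (AlgebraicClosure ℚ) (AlgEquiv.restrictNormalHom F σ x) =
        σ (x : AlgebraicClosure ℚ) := restrictNormalHom_apply F σ x
    rw [h2]
    exact this
  · intro τ hτ
    have hτ' := (mem_decompositionSubgroup_iff_forall _ τ).mp hτ
    obtain ⟨σ, hσ, hστ⟩ := exists_decomposition_lift F A hq hA τ (fun x _ => by
      have h1 := mem_nonunits_comap_iff A (algebraMap F (AlgebraicClosure ℚ)) (τ x)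
      have h2 := mem_nonunits_comap_iff A (algebraMap F (AlgebraicClosure ℚ)) x
      rw [show ((τ x : F) : AlgebraicClosure ℚ) = algebraMap F (AlgebraicClosure ℚ) (τ x) from rfl,
        show ((x : F) : AlgebraicClosure ℚ) = algebraMap F (AlgebraicClosure ℚ) x from rfl,
        ← h1, ← h2, ValuationSubring.mem_nonunits_iff_or, ValuationSubring.mem_nonunits_iff_or,
        ← map_inv₀, hτ', map_eq_zero_iff τ τ.injective])
    exact ⟨σ, hσ, hστ⟩

/-- **B14 (inertia groups).** -/
theorem map_inertiaSubgroupIn_eq_comap {q : ℕ} (hq : q.Prime) (hA : A.LiesOverPrime q) :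
    (A.inertiaSubgroupIn ℚ).map (AlgEquiv.restrictNormalHom F) =
      (A.comap (algebraMap F (AlgebraicClosure ℚ))).inertiaSubgroupIn ℚ := by
  apply le_antisymm
  · rintro _ ⟨σ, hσ, rfl⟩
    obtain ⟨hD, hI⟩ := (mem_inertiaSubgroupIn_iff_forall A σ).mp hσ
    rw [mem_inertiaSubgroupIn_iff_forall]
    refine ⟨?_, fun z hz => ?_⟩
    · rw [← map_decompositionSubgroup_eq_comap F A hq hA]
      exact ⟨σ, hD, rfl⟩
    · rw [mem_nonunits_comap_iff, map_sub]
      rw [ValuationSubring.mem_comap] at hz
      have := hI _ hz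
      rw [show algebraMap F (AlgebraicClosure ℚ) (AlgEquiv.restrictNormalHom F σ z) =
        σ (algebraMap F (AlgebraicClosure ℚ) z) from restrictNormalHom_apply F σ z]
      exact this
  · intro τ hτ
    obtain ⟨-, hI⟩ := (mem_inertiaSubgroupIn_iff_forall _ τ).mp hτ
    obtain ⟨σ, hσ, hστ⟩ := exists_inertia_lift F A hq hA τ (fun x hx => by
      have hxA : x ∈ A.comap (algebraMap F (AlgebraicClosure ℚ)) := by
        rw [ValuationSubring.mem_comap]
        exact isIntegral_mem_valuationSubring A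
          (hx.map (IsScalarTower.toAlgHom ℤ F (AlgebraicClosure ℚ)))
      have h1 := hI x hxA
      rw [mem_nonunits_comap_iff, map_sub] at h1
      exact h1)
    exact ⟨σ, hσ, hστ⟩

end comap

end Fermat.Agent.S55.Bridge.H594

end
-- ===== PACK-END S55/Bridge/H594/Comap.lean

-- ===== PACK-BEGIN A2/Mod/H142/S2Side.lean
section



/-!
# A2 / MODASM S2 — one component (helper142)

`normal_side` : for a valuation subring `V'` of `F_{Mq}` (`V∞` or `V₀`) with uniformiser `w` and a
degeneracy map `γ : F_M → F_{Mq}` (`α` or `β`) such that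

* `γ V∞_M ⊆ V'`, residue degree one (`V' = γ V∞_M + w V'`),
* `y ≡ γ (y_M ^ (q+1)) mod w V'`, `γ y_M ∈ chartAlg y`,
* good reduction at level `M` in the chart of `y_M`,

the component `chartAlg y ⧸ (chartAlg y ∩ w V')` is integrally closed.
-/

set_option autoImplicit false
set_option synthInstance.maxHeartbeats 400000
set_option maxHeartbeats 1600000
set_option linter.unusedSectionVars false
set_option linter.style.haveILetI false

noncomputable section

namespace Fermat.Agent.A2.Mod.H142

open ModularCurve HahnSeries Polynomial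

variable (P : ValuationSubring _root_.Fermat.Agent.A2.Mod.Qb) (E : IntermediateField ℚ _root_.Fermat.Agent.A2.Mod.Qb)

section Chart

variable (N : ℕ)

/-- `chart` (Spec) and `chartAlg` (Asm) have the same elements. -/
theorem mem_chart_iff (y f : _root_.Fermat.Agent.A2.Mod.FE E N) : f ∈ chart P E N y ↔ f ∈ chartAlg P E N y :=
  (isIntegral_adjoin_iff (R := _root_.Fermat.Agent.A2.Mod.RE P E) y f).symm

theorem self_mem_chartAlg (y : _root_.Fermat.Agent.A2.Mod.FE E N) : y ∈ chartAlg P E N y := by
  rw [mem_chartAlg]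
  have h : y = algebraMap (Algebra.adjoin (_root_.Fermat.Agent.A2.Mod.RE P E) ({y} : Set (_root_.Fermat.Agent.A2.Mod.FE E N))) (_root_.Fermat.Agent.A2.Mod.FE E N)
      ⟨y, Algebra.subset_adjoin (Set.mem_singleton y)⟩ := rfl
  rw [h]
  exact isIntegral_algebraMap

end Chart

variable (M q : ℕ) [NeZero M] [NeZero q] (w : _root_.Fermat.Agent.A2.Mod.RE P E)

/-- **One component is normal.** -/
theorem normal_side (hS : Setting P E M q w)
    (VM : ValuationSubring (_root_.Fermat.Agent.A2.Mod.FE E M)) (hVM : IsVinf P E M VM)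
    (V' : ValuationSubring (_root_.Fermat.Agent.A2.Mod.FE E (M * q))) (hU' : H48.IsUnif V' (cE P E (M * q) w))
    (hRV' : ∀ r : _root_.Fermat.Agent.A2.Mod.RE P E, algebraMap (_root_.Fermat.Agent.A2.Mod.RE P E) (_root_.Fermat.Agent.A2.Mod.FE E (M * q)) r ∈ V')
    (γ : _root_.Fermat.Agent.A2.Mod.FE E M →ₐ[E] _root_.Fermat.Agent.A2.Mod.FE E (M * q))
    (hγV : ∀ g ∈ VM, γ g ∈ V')
    (hres : ∀ f ∈ V', ∃ g ∈ VM, InW P E (M * q) V' w (f - γ g))
    (yM : _root_.Fermat.Agent.A2.Mod.FE E M) (y : _root_.Fermat.Agent.A2.Mod.FE E (M * q))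
    (hyM : yM ∈ VM) (hy : y ∈ V')
    (hcong : InW P E (M * q) V' w (y - γ (yM ^ (q + 1))))
    (hγy : γ yM ∈ chartAlg P E (M * q) y)
    (hgood : GoodRedAt P E M w VM yM)
    (p : Ideal (chartAlg P E (M * q) y))
    (hp : IsCut P E (M * q) w V' (chartAlg P E (M * q) y) p) :
    IsIntegrallyClosed (chartAlg P E (M * q) y ⧸ p) := by
  have hdvr := hS.dvr
  have hL2M := H553.vinfBasic P E w M hS.M_ne_zero hdvr hS.unif VM hVM
  have hUM : H48.IsUnif VM (cE P E M w) := hL2M.1
  have hRVM : ∀ r : _root_.Fermat.Agent.A2.Mod.RE P E, algebraMap (_root_.Fermat.Agent.A2.Mod.RE P E) (_root_.Fermat.Agent.A2.Mod.FE E M) r ∈ VM := fun r =>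
    (hL2M.2.1 (r : E)).mpr r.2
  have hγR : ∀ r : _root_.Fermat.Agent.A2.Mod.RE P E, (γ : _root_.Fermat.Agent.A2.Mod.FE E M →+* _root_.Fermat.Agent.A2.Mod.FE E (M * q)) (algebraMap (_root_.Fermat.Agent.A2.Mod.RE P E) (_root_.Fermat.Agent.A2.Mod.FE E M) r) =
      algebraMap (_root_.Fermat.Agent.A2.Mod.RE P E) (_root_.Fermat.Agent.A2.Mod.FE E (M * q)) r := fun r => γ.commutes (r : E)
  have hγc : γ (cE P E M w) = cE P E (M * q) w := γ.commutes (w : E)
  -- the charts lie in the valuation rings
  have hB₀ : ∀ b ∈ chartAlg P E M yM, b ∈ VM := fun b hb =>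
    mem_valuationSubring_of_isIntegral_adjoin VM hRVM hyM ((mem_chartAlg P E M).1 hb)
  have hB : ∀ b ∈ chartAlg P E (M * q) y, b ∈ V' := fun b hb =>
    mem_valuationSubring_of_isIntegral_adjoin V' hRV' hy ((mem_chartAlg P E (M * q)).1 hb)
  have hγB : ∀ b ∈ chartAlg P E M yM, (γ : _root_.Fermat.Agent.A2.Mod.FE E M →+* _root_.Fermat.Agent.A2.Mod.FE E (M * q)) b ∈ chartAlg P E (M * q) y :=
    fun b hb => (mem_chartAlg P E (M * q)).2
      (isIntegral_adjoin_map (γ : _root_.Fermat.Agent.A2.Mod.FE E M →+* _root_.Fermat.Agent.A2.Mod.FE E (M * q)) hγR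
        ((mem_chartAlg P E (M * q)).1 hγy) ((mem_chartAlg P E M).1 hb))
  have hγp : ∀ g : _root_.Fermat.Agent.A2.Mod.FE E M, VM.valuation g < 1 →
      V'.valuation ((γ : _root_.Fermat.Agent.A2.Mod.FE E M →+* _root_.Fermat.Agent.A2.Mod.FE E (M * q)) g) < 1 := by
    intro g hg
    rw [← inW_iff hUM] at hg
    rw [← inW_iff hU']
    unfold InW at hg ⊢
    have h1 := hγV _ hg
    rw [map_mul, map_inv₀, hγc] at h1
    exact h1
  have hres' : ∀ f ∈ V', ∃ g ∈ VM,
      V'.valuation (f - (γ : _root_.Fermat.Agent.A2.Mod.FE E M →+* _root_.Fermat.Agent.A2.Mod.FE E (M * q)) g) < 1 := by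
    intro f hf
    obtain ⟨g, hg, hfg⟩ := hres f hf
    exact ⟨g, hg, (inW_iff hU' _).1 hfg⟩
  have hnorm₀ : NormalIn VM ((chartAlg P E M yM : Subalgebra (_root_.Fermat.Agent.A2.Mod.RE P E) (_root_.Fermat.Agent.A2.Mod.FE E M)) : Set (_root_.Fermat.Agent.A2.Mod.FE E M)) := by
    intro f hf ⟨n, c, hc, hrel⟩
    obtain ⟨b, hb, hfb⟩ := hgood.normal f hf
      ⟨n, c, fun i => (mem_chart_iff P E M yM (c i)).2 (hc i), (inW_iff hUM _).2 hrel⟩
    exact ⟨b, (mem_chart_iff P E M yM b).1 hb, (inW_iff hUM _).1 hfb⟩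
  have hint := isIntegralElem_of_coord (γ : _root_.Fermat.Agent.A2.Mod.FE E M →+* _root_.Fermat.Agent.A2.Mod.FE E (M * q)) hγR V'
    (chartAlg P E M yM) (chartAlg P E (M * q) y) hB hγB y (self_mem_chartAlg P E (M * q) y)
    (yM ^ (q + 1)) (pow_mem (self_mem_chartAlg P E M yM) _) ((inW_iff hU' _).1 hcong)
    (fun b hb => (mem_chartAlg P E (M * q)).1 hb)
  have hnorm : NormalIn V'
      ((chartAlg P E (M * q) y : Subalgebra (_root_.Fermat.Agent.A2.Mod.RE P E) (_root_.Fermat.Agent.A2.Mod.FE E (M * q))) : Set (_root_.Fermat.Agent.A2.Mod.FE E (M * q))) :=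
    normalIn_transfer (γ : _root_.Fermat.Agent.A2.Mod.FE E M →+* _root_.Fermat.Agent.A2.Mod.FE E (M * q)) VM V' hγV hγp
      (chartAlg P E M yM) (chartAlg P E (M * q) y) hB₀ hB hγB hres' hint hnorm₀
  exact isIntegrallyClosed_quotient_of_normal V' (chartAlg P E (M * q) y) hB p
    (fun b => (hp b).trans (inW_iff hU' _)) hnorm

end Fermat.Agent.A2.Mod.H142

end
end
-- ===== PACK-END A2/Mod/H142/S2Side.lean

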