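import Mathlib
import Fermat.Prelude.Def_AlgebraicCurve_DivisorClassGroup
import Fermat.Prelude.Def_CuspForm_HeckeLocal
import Fermat.Agent.Pack.S44.G0E20L1
import Fermat.Agent.Pack.S44.G0E13L3
import Fermat.Agent.Pack.S44.G0E13L0
import Fermat.Agent.Pack.S44.G0E20L0
import Fermat.Agent.Pack.S44.G0E19L0
import Fermat.Agent.Pack.S44.G0E16L2
import Fermat.Agent.Pack.S44.G0E1L2
import Fermat.Agent.Pack.S44.G0E6L2
import Fermat.Agent.Pack.S44.G0E13L2
import Fermat.Agent.Pack.S44.G0E6L0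
import Fermat.Agent.Pack.S44.G0E10L2
import Fermat.Agent.Pack.S44.G0E20L3
import Fermat.Agent.Pack.S44.G0E19L2
import Fermat.Agent.Pack.S44.G0E18L1
import Fermat.Agent.Pack.S44.G0E19L1
import Fermat.Agent.Pack.S44.G0E9L2
import Fermat.Agent.Pack.S44.G0E9L3
import Fermat.Agent.Pack.S44.G0E9L0
import Fermat.Agent.Pack.S44.G0E20L2
import Fermat.Agent.Pack.S44.G0E4L2
import Fermat.Agent.Pack.S44.G0E15L0
import Fermat.Agent.Pack.S44.G0E11L1
import Fermat.Agent.Pack.S44.G0E11L2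
import Fermat.Agent.Pack.S44.G0E5L3

-- ===== PACK-BEGIN S28/H807/Analytic.lean
section
/-
S28 / helper807 — UNCONDITIONAL prime-level analytic inputs `[A-Φ]`, `[A-W]` of the captain
skeleton: `Nonempty (ModPolyData p)` and `Nonempty (UnitPolyData p)` for every prime `p`.

Bridge facts used (already on main): helper565 (`q`-expansions of `j`, `Δ`, `Δ⁻¹`,
`SL(2,ℤ)`-invariance of `j`) and helper685 (level-one polynomial principle, `S`-invariant form).
-/





set_option autoImplicit false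
set_option maxHeartbeats 400000

noncomputable section

open ModularCurve Polynomial Matrix UpperHalfPlane
open scoped MatrixGroups

namespace Fermat.Agent.S28.H807

open Fermat.Agent.S28

theorem hasQExp_iff_hasTExp (c : LaurentSeries ℂ) (F : ℍ → ℂ) :
    HasQExp c F ↔ H565.HasTExp 1 F c := by
  rw [hasQExp_iff]
  rfl

theorem hasQExp_iff_hasQLaurent (c : LaurentSeries ℂ) (F : ℍ → ℂ) :
    HasQExp c F ↔ H685.HasQLaurent 1 F c := by
  rw [hasQExp_iff]
  rfl

theorem evalJ_eq_aeval (P : Polynomial ℂ) :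
    evalJ ℂ P = Polynomial.aeval (jqModC ℂ) P := by
  unfold evalJ
  rw [Polynomial.aeval_def]
  congr 1
  ext c : 1
  exact (H685.algebraMap_eq_C c).symm

/-- The polynomial principle holds (helper685). -/
theorem polyPrinciple : PolyPrinciple := by
  intro c F hF hS
  obtain ⟨P, hP, -⟩ := H685.exists_polynomial_of_S_invariant' F c
    ((hasQExp_iff_hasQLaurent c F).mp hF) hS
  exact ⟨P, by rw [evalJ_eq_aeval]; exact hP⟩

theorem hasQExp_jFun : HasQExp (jqModC ℂ) H565.jFun :=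
  (hasQExp_iff_hasTExp _ _).mpr H565.hasTExp_jFun

theorem coeffMap_deltaL : coeffMap (Int.castRingHom ℂ) (deltaL ℤ) = H565.deltaSeriesC := by
  unfold deltaL H565.deltaSeriesC
  rw [map_mul, coeffMap_single, coeffMap_ofPowerSeries, map_one]
  congr 2
  rw [← H565.map_dedekindEtaUnit]
  ext n
  simp

theorem coeffMap_deltaInvL :
    coeffMap (Int.castRingHom ℂ) (deltaInvL ℤ) = H565.deltaInvSeriesC := by
  unfold deltaInvL H565.deltaInvSeriesC H565.etaInvC
  rw [map_mul, coeffMap_single, coeffMap_ofPowerSeries, map_one]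
  congr 2

theorem discriminant_smul_denom (γ : SL(2, ℤ)) (τ : ℍ) :
    ModularForm.discriminant (γ • τ) = (denom γ τ) ^ 12 * ModularForm.discriminant τ := by
  rw [H565.discriminant_smul, ModularGroup.denom_apply]
  norm_cast

variable (p : ℕ) [NeZero p]

/-- **[A-Φ]** (captain stub `nonempty_modPolyData`): the modular polynomial of prime level. -/
theorem nonempty_modPolyData (hp : p.Prime) : Nonempty (ModPolyData p) :=
  nonempty_modPolyData_of p hp polyPrinciple H565.jFun H565.jFun_smul hasQExp_jFun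

/-- **[A-W]** (captain stub `nonempty_unitPolyData`): `p¹² Δ(q^p)/Δ(q)` is integral over
`ℤ[j]`. -/
theorem nonempty_unitPolyData (hp : p.Prime) : Nonempty (UnitPolyData p) :=
  nonempty_unitPolyData_of p hp polyPrinciple ModularForm.discriminant
    ModularForm.discriminant_ne_zero discriminant_smul_denom
    (by rw [coeffMap_deltaL]; exact (hasQExp_iff_hasTExp _ _).mpr H565.hasTExp_discriminant)
    (by rw [coeffMap_deltaInvL]; exact (hasQExp_iff_hasTExp _ _).mpr H565.hasTExp_discriminant_inv)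

end Fermat.Agent.S28.H807

end

end
-- ===== PACK-END S28/H807/Analytic.lean

-- ===== PACK-BEGIN Lib/NormL/Cosets.lean
section



/-!
# `NormL`, block KEY, part 2: coset decompositions of sums over ideals
-/

namespace Fermat.Agent.Lib.NormL

open NumberField Fermat.Agent.S14.H74
open scoped Classical

variable {K : Type*} [Field K] [NumberField K]

/-- The coset bijection: if `r i` is a system of representatives of `X` modulo `Λ`. -/
noncomputable def cosetSystemEquiv (X Λ : Ideal (𝓞 K)) (hΛ : Λ ≤ X) {ι : Type*} (r : ι → 𝓞 K)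
    (hr : ∀ i, r i ∈ X) (hex : ∀ x ∈ X, ∃ i, x - r i ∈ Λ)
    (hinj : ∀ i j, r i - r j ∈ Λ → i = j) : ι × Λ ≃ X :=
  Equiv.ofBijective (fun p ↦ ⟨r p.1 + (p.2 : 𝓞 K), X.add_mem (hr _) (hΛ p.2.2)⟩) (by
    constructor
    · rintro ⟨i, l⟩ ⟨j, l'⟩ h
      have h1 : r i + (l : 𝓞 K) = r j + (l' : 𝓞 K) := congrArg Subtype.val h
      have h2 : r i - r j = (l' : 𝓞 K) - (l : 𝓞 K) := by
        linear_combination h1
      have hij : i = j := hinj i j (by rw [h2]; exact Λ.sub_mem l'.2 l.2)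
      subst hij
      have : (l : 𝓞 K) = (l' : 𝓞 K) := add_left_cancel h1
      rw [Subtype.ext this]
    · rintro ⟨x, hx⟩
      obtain ⟨i, hi⟩ := hex x hx
      refine ⟨(i, ⟨x - r i, hi⟩), ?_⟩
      apply Subtype.ext
      show r i + (x - r i) = x
      ring)

theorem cosetSystemEquiv_apply (X Λ : Ideal (𝓞 K)) (hΛ : Λ ≤ X) {ι : Type*} (r : ι → 𝓞 K)
    (hr : ∀ i, r i ∈ X) (hex : ∀ x ∈ X, ∃ i, x - r i ∈ Λ)
    (hinj : ∀ i j, r i - r j ∈ Λ → i = j) (p : ι × Λ) :
    ((cosetSystemEquiv X Λ hΛ r hr hex hinj p : X) : 𝓞 K) = r p.1 + (p.2 : 𝓞 K) := rfl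

/-- **GEN**: decomposition of a sum over an ideal `X` into sums over cosets of `Λ ≤ X`. -/
theorem tsum_ideal_eq_sum_cosets {E : Type*} [NormedAddCommGroup E] [CompleteSpace E]
    (X Λ : Ideal (𝓞 K)) (hΛ : Λ ≤ X) {ι : Type*} [Fintype ι] (r : ι → 𝓞 K)
    (hr : ∀ i, r i ∈ X) (hex : ∀ x ∈ X, ∃ i, x - r i ∈ Λ)
    (hinj : ∀ i j, r i - r j ∈ Λ → i = j) (F : 𝓞 K → E) (hF : Summable F) :
    ∑' x : X, F (x : 𝓞 K) = ∑ i, ∑' l : Λ, F (r i + (l : 𝓞 K)) := by
  set e := cosetSystemEquiv X Λ hΛ r hr hex hinj with he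
  have hX : Summable fun x : X ↦ F (x : 𝓞 K) := hF.comp_injective Subtype.val_injective
  have hs : Summable fun p : ι × Λ ↦ F (r p.1 + (p.2 : 𝓞 K)) :=
    (e.summable_iff (f := fun x : X ↦ F (x : 𝓞 K))).mpr hX
  have hfib : ∀ i, Summable fun l : Λ ↦ F (r i + (l : 𝓞 K)) := fun i ↦
    hF.comp_injective (i := fun l : Λ ↦ r i + (l : 𝓞 K)) fun l l' h ↦
      Subtype.ext (add_left_cancel h)
  have e1 : ∑' x : X, F (x : 𝓞 K) = ∑' p : ι × Λ, F (r p.1 + (p.2 : 𝓞 K)) :=
    (e.tsum_eq (fun x : X ↦ F (x : 𝓞 K))).symm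
  rw [e1, hs.tsum_prod' hfib, tsum_fintype]

end Fermat.Agent.Lib.NormL

end
-- ===== PACK-END Lib/NormL/Cosets.lean

-- ===== PACK-BEGIN S13/H64/T5.lean
section





/-!
# S13 / T5 in the frozen interface shape

`Fermat.Agent.S13.H64.T5`: for every Galois-stable `N ≠ ⊥, ⊤` in `E[p]` of the Frey curve there
is a valuation subring `A` of `ℚ̄` over `p` whose inertia group acts trivially on `N` or on
`E[p] / N`.  Also `T1'` (`frey_exists_divpoly`): an integral `p`-division polynomial with leading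
coefficient `p`.
-/

set_option autoImplicit false
set_option linter.unusedSectionVars false
set_option linter.unusedVariables false

namespace Fermat.Agent.S13.H64

open WeierstrassCurve WeierstrassCurve.Affine WeierstrassCurve.Affine.Point Polynomial
open Fermat.Agent.S05 Fermat.Agent.S05.SameRed Fermat.Agent.S05.Assemble

/-- `32 ∣ b ^ p` for a Frey package. -/
lemma frey_b_pow (P : FreyPackage) : ∃ t : ℤ, P.b ^ P.p = 32 * t := by
  have h2 : (2 : ℤ) ∣ P.b := (ZMod.intCast_zmod_eq_zero_iff_dvd P.b 2).1 P.hb2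
  obtain ⟨s, hs⟩ := h2
  have hp5 := P.hp5
  obtain ⟨k, hk⟩ : ∃ k, P.p = 5 + k := ⟨P.p - 5, by omega⟩
  refine ⟨2 ^ k * s ^ P.p, ?_⟩
  rw [hs, mul_pow]
  conv_lhs => rw [hk, pow_add]
  rw [← hk]
  ring

/-- **(T1')** An integral `p`-division polynomial for the Frey curve: leading coefficient `p`,
vanishing at the `x`-coordinates of all nonzero `p`-torsion points over `ℚ̄`. -/
theorem frey_exists_divpoly (P : FreyPackage) : ∃ Q : ℤ[X], Q.leadingCoeff = P.p ∧
    ∀ (x y : Qb) (h : (P.freyCurve⁄Qb).Nonsingular x y),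
      (P.p : ℤ) • Point.some x y h = 0 → aeval x Q = 0 := by
  obtain ⟨t, ht⟩ := frey_b_pow P
  obtain ⟨m, hm⟩ := P.hp_odd
  have hm1 : 1 ≤ m := by have := P.hp5; omega
  have hfB : fB P = 32 * (t : Qb) := by
    simp only [fB]; rw [ht]; push_cast; ring
  have h₂ : (Int.castRingHom Qb) (P.b ^ P.p - P.a ^ P.p) = (P.freyCurve⁄Qb).b₂ := by
    simp only [WeierstrassCurve.b₂, frey_a₁, frey_a₂, fA, fB, eq_intCast]
    push_cast
    ring
  have h₄ : (Int.castRingHom Qb) (-(P.a ^ P.p) * (4 * t)) = (P.freyCurve⁄Qb).b₄ := by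
    simp only [WeierstrassCurve.b₄, frey_a₁, frey_a₃, frey_a₄, hfB, fA, eq_intCast]
    push_cast
    ring
  have h₆ : (Int.castRingHom Qb) 0 = (P.freyCurve⁄Qb).b₆ := by
    simp only [WeierstrassCurve.b₆, frey_a₃, frey_a₆]
    simp
  have h₈ : (Int.castRingHom Qb) (-(P.a ^ P.p * (2 * t)) ^ 2) = (P.freyCurve⁄Qb).b₈ := by
    simp only [WeierstrassCurve.b₈, frey_a₁, frey_a₃, frey_a₄, frey_a₆, hfB, fA, eq_intCast]
    push_cast
    ring
  obtain ⟨Q, hdeg, hcoeff, hroot⟩ := H891.exists_integral_poly (P.freyCurve⁄Qb)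
    (Int.castRingHom Qb) _ _ _ _ h₂ h₄ h₆ h₈ m hm1
  have hp0 : ((2 * m + 1 : ℕ) : ℤ) ≠ 0 := by
    have : 0 < 2 * m + 1 := by omega
    exact_mod_cast this.ne'
  have hnat : Q.natDegree = 2 * m ^ 2 + 2 * m :=
    natDegree_eq_of_le_of_coeff_ne_zero hdeg (by rw [hcoeff]; exact hp0)
  refine ⟨Q, ?_, ?_⟩
  · rw [leadingCoeff, hnat, hcoeff, hm]
  · intro x y h hP
    rw [natCast_zsmul, hm] at hP
    have := (hroot (Point.some x y h) (Point.some_ne_zero h)).mp hP
    have hmap : algebraMap ℤ Qb = Int.castRingHom Qb := RingHom.ext_int _ _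
    rw [aeval_def, hmap, eval₂_eq_eval_map]
    exact this

/-- A proper submodule of `E[p]` is a line: any nonzero element generates it over `ℤ`. -/
theorem frey_line (P : FreyPackage)
    (N : Submodule (ZMod P.p) (Submodule.torsionBy ℤ (P.freyCurve⁄Qb).Point P.p))
    (htop : N ≠ ⊤) : ∀ x ∈ N, x ≠ 0 → ∀ y ∈ N, ∃ k : ℤ, y = k • x := by
  have : Fact P.p.Prime := ⟨P.pp⟩
  obtain ⟨-, hfin, hcard⟩ := H891.T1_frey P
  have : Finite (Skel.Vp P) := hfin
  have : Module.Finite (ZMod P.p) (Skel.Vp P) := Module.Finite.of_finite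
  have h2 : Module.finrank (ZMod P.p) (Skel.Vp P) ≤ 2 := Skel.finrank_le_two P hfin hcard
  have hlt : Module.finrank (ZMod P.p) N < Module.finrank (ZMod P.p) (Skel.Vp P) :=
    Submodule.finrank_lt htop
  have h1 : Module.finrank (ZMod P.p) N ≤ 1 := by omega
  obtain ⟨v, hv⟩ := finrank_le_one_iff.1 h1
  intro x hx hx0 y hy
  obtain ⟨a, ha⟩ := hv ⟨x, hx⟩
  obtain ⟨b, hb⟩ := hv ⟨y, hy⟩
  have ha0 : a ≠ 0 := by
    rintro rfl
    rw [zero_smul] at ha
    exact hx0 (congrArg Subtype.val ha.symm)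
  have hyx : (⟨y, hy⟩ : N) = (b * a⁻¹) • (⟨x, hx⟩ : N) := by
    rw [← ha, smul_smul, mul_assoc, inv_mul_cancel₀ ha0, mul_one, hb]
  have hyx' : y = (b * a⁻¹) • x := congrArg Subtype.val hyx
  refine ⟨((b * a⁻¹).val : ℤ), ?_⟩
  rw [hyx']
  conv_lhs => rw [← ZMod.natCast_zmod_val (b * a⁻¹)]
  rw [Nat.cast_smul_eq_nsmul, natCast_zsmul]

/-- **(T5)**, frozen interface shape. -/
theorem T5 (P : FreyPackage)
    (N : Submodule (ZMod P.p) (Submodule.torsionBy ℤ (P.freyCurve⁄(AlgebraicClosure ℚ)).Point P.p))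
    (hN : IsGaloisStable (K := AlgebraicClosure ℚ) ℚ N) (hbot : N ≠ ⊥) (htop : N ≠ ⊤) :
    ∃ A : ValuationSubring (AlgebraicClosure ℚ), A.LiesOverPrime P.p ∧
      ((∀ σ ∈ A.inertiaSubgroupIn ℚ, ∀ x ∈ N, σ • x = x) ∨
       (∀ σ ∈ A.inertiaSubgroupIn ℚ,
          ∀ x : Submodule.torsionBy ℤ (P.freyCurve⁄(AlgebraicClosure ℚ)).Point P.p,
            σ • x - x ∈ N)) := by
  obtain ⟨A, hA⟩ := Fermat.Agent.S54.exists_valuationSubring_liesOver P.p P.pp
  obtain ⟨Q, hQlc, hQ⟩ := frey_exists_divpoly P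
  exact ⟨A, hA, frey_inertia_dichotomy_at_p P A hA Q hQlc hQ N hN hbot (frey_line P N htop)⟩

end Fermat.Agent.S13.H64

end
-- ===== PACK-END S13/H64/T5.lean

-- ===== PACK-BEGIN Ribet/H187/ELocMain.lean
section





/-!
# RIBET / S40, piece W-SS = ELOC-ss (helper187): the supersingular local piece

`W : WeierstrassCurve ℤ`, `W.Δ ≠ 0`, `p` an odd prime, `A` a valuation subring of `ℚ̄` over `p`,
`E = (W.map (Int.castRingHom ℚ))⁄ℚ̄`.

**Supersingular hypothesis** (`hss`): every nonzero point of `E[p]` lies in the kernel of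
reduction at `A`, i.e. `1 < A.valuation (x P)`.  (No good-reduction hypothesis is needed.)

* `val_xc_of_ss` : then `v p * v (x P) ^ ((p ^ 2 - 1) / 2) = 1` for all nonzero `P ∈ E[p]`
  (with `p = 2 m + 1`, `(p ^ 2 - 1) / 2 = 2 m ^ 2 + 2 m`);
* `exists_inertia_no_eigenvector` : there is `τ` in the inertia group of `A` without eigenvector
  in `E[p]`: `τ • P ≠ a • P` for all nonzero `P ∈ E[p]` and all `a : ℤ`;
* `exists_inertia_sub_one_injective` : in particular `τ • P ≠ P`, so `τ - 1` is injective,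
  hence bijective, on `E[p]`: **`E[p]` has no nonzero inertia coinvariants** (W-SS);
* `exists_inertia_sub_one_surjective`, `eq_zero_of_inertia_invariant` : the same in surjectivity
  form on `Submodule.torsionBy ℤ E.Point p`, and in the form "every inertia-invariant additive
  map on `E[p]` is zero";
* `exists_ordinary_point_of_eigen` : contrapositive ("ordinary" dichotomy): if every element of
  the inertia group has an eigenvector in `E[p]`, some nonzero `P ∈ E[p]` has `x P ∈ A`.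

The element `τ` is any inertia element with `τ √p = - √p`
(`Fermat.Agent.Ribet.H187.exists_inertia_neg_sqrt`).
-/

set_option autoImplicit false

open WeierstrassCurve WeierstrassCurve.Affine Polynomial
open Fermat.Agent.S51.Five (xc xc_galois_smul exists_equation)
open Fermat.Agent.S13.H891 (polyW map_polyW dc_polyW torsion_iff_root)

namespace Fermat.Agent.Ribet.H187

local notation "Qb" => AlgebraicClosure ℚ

variable (W : WeierstrassCurve ℤ)

/-- The coefficients of `E = W_ℚ̄` are the integer casts of those of `W`. -/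
theorem map_intCast_polyW (m : ℕ) :
    (polyW W.b₂ W.b₄ W.b₆ W.b₈ m).map (Int.castRingHom Qb) =
      polyW ((W.map (Int.castRingHom ℚ))⁄Qb).b₂ ((W.map (Int.castRingHom ℚ))⁄Qb).b₄
        ((W.map (Int.castRingHom ℚ))⁄Qb).b₆ ((W.map (Int.castRingHom ℚ))⁄Qb).b₈ m := by
  rw [map_polyW]
  have e : ∀ c : ℤ, Int.castRingHom Qb c = algebraMap ℚ Qb (Int.castRingHom ℚ c) := fun c => by
    simp
  show _ = polyW ((W.map (Int.castRingHom ℚ)).map (algebraMap ℚ Qb)).b₂
    ((W.map (Int.castRingHom ℚ)).map (algebraMap ℚ Qb)).b₄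
    ((W.map (Int.castRingHom ℚ)).map (algebraMap ℚ Qb)).b₆
    ((W.map (Int.castRingHom ℚ)).map (algebraMap ℚ Qb)).b₈ m
  rw [WeierstrassCurve.map_b₂, WeierstrassCurve.map_b₄, WeierstrassCurve.map_b₆,
    WeierstrassCurve.map_b₈, WeierstrassCurve.map_b₂, WeierstrassCurve.map_b₄,
    WeierstrassCurve.map_b₆, WeierstrassCurve.map_b₈, e, e, e, e]

theorem isIntegralAt_baseChange (A : ValuationSubring Qb) :
    Fermat.Agent.S05.FG.IsIntegralAt A.valuation ((W.map (Int.castRingHom ℚ))⁄Qb) := by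
  have e : ∀ c : ℤ, A.valuation (algebraMap ℚ Qb (Int.castRingHom ℚ c)) ≤ 1 := fun c => by
    have : algebraMap ℚ Qb (Int.castRingHom ℚ c) = ((c : ℤ) : Qb) := by simp
    rw [this]
    exact val_intCast_le_one A.valuation c
  exact ⟨e _, e _, e _, e _, e _⟩

theorem isElliptic_baseChange (hΔ : W.Δ ≠ 0) : ((W.map (Int.castRingHom ℚ))⁄Qb).IsElliptic := by
  constructor
  rw [isUnit_iff_ne_zero]
  show ((W.map (Int.castRingHom ℚ)).map (algebraMap ℚ Qb)).Δ ≠ 0
  rw [WeierstrassCurve.map_Δ, WeierstrassCurve.map_Δ]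
  apply (_root_.map_ne_zero _).mpr
  simpa using hΔ

variable {W}

/-- Under the supersingular hypothesis, all nonzero `p`-torsion points have the same
`x`-valuation `ρ`, with `v p * ρ ^ ((p² - 1) / 2) = 1`. -/
theorem val_xc_of_ss (hΔ : W.Δ ≠ 0) {p : ℕ} (hp : p.Prime) (m : ℕ) (hm : p = 2 * m + 1)
    (A : ValuationSubring Qb) (hA : A.LiesOverPrime p)
    (hss : ∀ P : ((W.map (Int.castRingHom ℚ))⁄Qb).Point, P ≠ 0 → p • P = 0 →
      1 < A.valuation (xc P))
    (P : ((W.map (Int.castRingHom ℚ))⁄Qb).Point) (hP0 : P ≠ 0) (hPp : p • P = 0) :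
    A.valuation (p : Qb) * A.valuation (xc P) ^ (2 * m ^ 2 + 2 * m) = 1 := by
  have := isElliptic_baseChange W hΔ
  have hm1 : 1 ≤ m := by
    have := hp.two_le
    have h2 : p ≠ 1 := hp.one_lt.ne'
    omega
  have hpQ : (p : Qb) ≠ 0 := Nat.cast_ne_zero.mpr hp.ne_zero
  have hpv := val_natCast_lt_one A hA
  have hfmap := map_intCast_polyW W m
  obtain ⟨hdeg, hlead⟩ := dc_polyW W.b₂ W.b₄ W.b₆ W.b₈ m hm1
  have hroots : ∀ x : Qb, ((polyW W.b₂ W.b₄ W.b₆ W.b₈ m).map (Int.castRingHom Qb)).eval x = 0 →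
      1 < A.valuation x := by
    intro x hx
    obtain ⟨y, hy⟩ := exists_equation ((W.map (Int.castRingHom ℚ))⁄Qb) x
    have hns : ((W.map (Int.castRingHom ℚ))⁄Qb).Nonsingular x y :=
      Affine.equation_iff_nonsingular.mp hy
    have hQ : (2 * m + 1) • (Point.some x y hns) = 0 :=
      (torsion_iff_root (Point.some_ne_zero _) m).mpr (by rw [← hfmap]; exact hx)
    have := hss (Point.some x y hns) (Point.some_ne_zero _) (by rw [hm]; exact hQ)
    simpa using this
  have hxP : ((polyW W.b₂ W.b₄ W.b₆ W.b₈ m).map (Int.castRingHom Qb)).eval (xc P) = 0 := by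
    rw [hfmap]
    exact (torsion_iff_root hP0 m).mp (by rw [← hm]; exact hPp)
  exact val_root_of_all_roots_large A.valuation hp hpQ hpv _ (2 * m ^ 2 + 2 * m)
    (by positivity) hdeg (by rw [hlead, hm]) hroots (xc P) hxP

/-- **W-SS / ELOC-ss, strong form.**  Under the supersingular hypothesis some element of the
inertia group of `A` has no eigenvector in `E[p]`. -/
theorem exists_inertia_no_eigenvector (hΔ : W.Δ ≠ 0) {p : ℕ} (hp : p.Prime) (hp2 : p ≠ 2)
    (A : ValuationSubring Qb) (hA : A.LiesOverPrime p)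
    (hss : ∀ P : ((W.map (Int.castRingHom ℚ))⁄Qb).Point, P ≠ 0 → p • P = 0 →
      1 < A.valuation (xc P)) :
    ∃ τ ∈ A.inertiaSubgroupIn ℚ,
      ∀ P : ((W.map (Int.castRingHom ℚ))⁄Qb).Point, P ≠ 0 → p • P = 0 →
        ∀ a : ℤ, τ • P ≠ a • P := by
  obtain ⟨m, hm⟩ : ∃ m, p = 2 * m + 1 := by
    rcases hp.eq_two_or_odd' with h | h
    · exact absurd h hp2
    · exact h
  obtain ⟨σ, hσ, b, hb, hσb⟩ := exists_inertia_neg_sqrt A hp hA
  refine ⟨σ, hσ, ?_⟩
  intro P hP0 hPp a hPa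
  have hval := val_xc_of_ss hΔ hp m hm A hA hss P hP0 hPp
  have hvx := hss P hP0 hPp
  have hσP0 : σ • P ≠ 0 := by
    intro h
    have h1 : σ⁻¹ • (σ • P) = 0 := by
      rw [h]
      exact smul_zero (A := ((W.map (Int.castRingHom ℚ))⁄Qb).Point) σ⁻¹
    rw [inv_smul_smul] at h1
    exact hP0 h1
  -- reduce `a` modulo `p`
  set k : ℕ := (a % (p : ℤ)).toNat with hk
  have hp0 : (p : ℤ) ≠ 0 := by exact_mod_cast hp.ne_zero
  have hk1 : (k : ℤ) = a % (p : ℤ) := Int.toNat_of_nonneg (Int.emod_nonneg a hp0)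
  have hkp : k < p := by
    have := Int.emod_lt_of_pos a (by exact_mod_cast hp.pos : (0 : ℤ) < (p : ℤ))
    omega
  have haP : a • P = k • P := by
    have h1 : a = (p : ℤ) * (a / (p : ℤ)) + (k : ℤ) := by
      rw [hk1]; exact (Int.mul_ediv_add_emod a p).symm
    have h2 : ((p : ℤ) * (a / (p : ℤ))) • P = 0 := by
      rw [mul_zsmul', natCast_zsmul, hPp, zsmul_zero]
    conv_lhs => rw [h1]
    rw [add_zsmul, h2, zero_add, natCast_zsmul]
  rw [haP] at hPa
  have hk0 : k ≠ 0 := by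
    rintro h0
    rw [h0, zero_nsmul] at hPa
    exact hσP0 hPa
  have hkdvd : ¬ (p : ℤ) ∣ (k : ℤ) := by
    intro hd
    have : p ∣ k := by exact_mod_cast hd
    exact absurd (Nat.le_of_dvd (Nat.pos_of_ne_zero hk0) this) (not_le.mpr hkp)
  rcases P with _ | ⟨x, y, h⟩
  · exact hP0 rfl
  have hx0 : x ≠ 0 := by
    rintro rfl
    simp at hvx
  have hvx' : 1 < A.valuation x := hvx
  rcases (Fermat.Agent.S05.FG.good_all (isIntegralAt_baseChange W A) h hvx' k).1 with
    ⟨hk0', -⟩ | ⟨xk, yk, hnk, hkP, hxk0, hlt⟩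
  · rw [hk0'] at hPa
    exact hσP0 hPa
  · have hxk : xk = σ x := by
      have h1 : xc (σ • (Point.some x y h : ((W.map (Int.castRingHom ℚ))⁄Qb).Point)) = xk := by
        rw [hPa, hkP]; rfl
      rw [xc_galois_smul] at h1
      exact h1.symm
    have : Algebra.IsAlgebraic ℚ Qb := AlgebraicClosure.isAlgebraic ℚ
    have hσD := Fermat.Agent.A2.H708.mem_decomposition_of_mem_inertiaIn A hσ
    have hvσ : A.valuation (σ x) = A.valuation x :=
      Fermat.Agent.A2.H708.valuation_apply_of_mem_decomposition A hσD x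
    have hσx0 : σ x ≠ 0 := by rw [← hxk]; exact hxk0
    have hvx0 : A.valuation x ≠ 0 := (Valuation.ne_zero_iff _).mpr hx0
    have hkey : A.valuation (((k : ℤ) : Qb) ^ 2 * σ x - x) < A.valuation x := by
      have e1 : ((k : ℤ) : Qb) ^ 2 * σ x - x = -((xk⁻¹ - (k : Qb) ^ 2 * x⁻¹) * (σ x * x)) := by
        rw [hxk]
        push_cast
        field_simp
        ring
      rw [e1, Valuation.map_neg, map_mul, map_mul, hvσ]
      have e2 : A.valuation x = A.valuation x⁻¹ * (A.valuation x * A.valuation x) := by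
        rw [map_inv₀, ← mul_assoc, inv_mul_cancel₀ hvx0, one_mul]
      conv_rhs => rw [e2]
      exact mul_lt_mul_of_pos_right hlt
        (mul_pos (zero_lt_iff.mpr hvx0) (zero_lt_iff.mpr hvx0))
    exact not_val_sq_mul_apply_sub_lt A hp hp2 hA m hm hσ hb hσb x hval k hkdvd hkey

/-- **W-SS.**  Under the supersingular hypothesis some `τ` in the inertia group of `A` fixes no
nonzero point of `E[p]`; so `τ - 1` is injective on `E[p]` and `E[p]` has no nonzero inertia
coinvariants. -/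
theorem exists_inertia_sub_one_injective (hΔ : W.Δ ≠ 0) {p : ℕ} (hp : p.Prime) (hp2 : p ≠ 2)
    (A : ValuationSubring Qb) (hA : A.LiesOverPrime p)
    (hss : ∀ P : ((W.map (Int.castRingHom ℚ))⁄Qb).Point, P ≠ 0 → p • P = 0 →
      1 < A.valuation (xc P)) :
    ∃ τ ∈ A.inertiaSubgroupIn ℚ,
      ∀ P : ((W.map (Int.castRingHom ℚ))⁄Qb).Point, p • P = 0 → τ • P = P → P = 0 := by
  obtain ⟨τ, hτ, h⟩ := exists_inertia_no_eigenvector hΔ hp hp2 A hA hss
  refine ⟨τ, hτ, fun P hPp hfix => ?_⟩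
  by_contra hP0
  exact h P hP0 hPp 1 (by rw [one_smul]; exact hfix)

/-- Contrapositive ("ordinary" branch of the dichotomy): if every element of the inertia group of
`A` has an eigenvector in `E[p]`, then some nonzero point of `E[p]` has `A`-integral
`x`-coordinate (does not reduce to the origin). -/
theorem exists_ordinary_point_of_eigen (hΔ : W.Δ ≠ 0) {p : ℕ} (hp : p.Prime) (hp2 : p ≠ 2)
    (A : ValuationSubring Qb) (hA : A.LiesOverPrime p)
    (heig : ∀ τ ∈ A.inertiaSubgroupIn ℚ,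
      ∃ P : ((W.map (Int.castRingHom ℚ))⁄Qb).Point, P ≠ 0 ∧ p • P = 0 ∧ ∃ a : ℤ, τ • P = a • P) :
    ∃ P : ((W.map (Int.castRingHom ℚ))⁄Qb).Point, P ≠ 0 ∧ p • P = 0 ∧ xc P ∈ A := by
  by_contra hcon
  have hss : ∀ P : ((W.map (Int.castRingHom ℚ))⁄Qb).Point, P ≠ 0 → p • P = 0 →
      1 < A.valuation (xc P) := by
    intro P hP0 hPp
    by_contra hle
    exact hcon ⟨P, hP0, hPp, (A.valuation_le_one_iff _).mp (not_lt.mp hle)⟩
  obtain ⟨τ, hτ, h⟩ := exists_inertia_no_eigenvector hΔ hp hp2 A hA hss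
  obtain ⟨P, hP0, hPp, a, ha⟩ := heig τ hτ
  exact h P hP0 hPp a ha

/-- **W-SS, surjectivity form.**  Under the supersingular hypothesis there is `τ` in the inertia
group of `A` such that every `P ∈ E[p]` is of the form `τ • Q - Q` with `Q ∈ E[p]`. -/
theorem exists_inertia_sub_one_surjective (hΔ : W.Δ ≠ 0) {p : ℕ} (hp : p.Prime) (hp2 : p ≠ 2)
    (A : ValuationSubring Qb) (hA : A.LiesOverPrime p)
    (hss : ∀ P : ((W.map (Int.castRingHom ℚ))⁄Qb).Point, P ≠ 0 → p • P = 0 →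
      1 < A.valuation (xc P)) :
    ∃ τ ∈ A.inertiaSubgroupIn ℚ,
      ∀ x : Submodule.torsionBy ℤ ((W.map (Int.castRingHom ℚ))⁄Qb).Point ((p : ℕ) : ℤ),
        ∃ y : Submodule.torsionBy ℤ ((W.map (Int.castRingHom ℚ))⁄Qb).Point ((p : ℕ) : ℤ),
          τ • y - y = x := by
  have := isElliptic_baseChange W hΔ
  obtain ⟨τ, hτ, h⟩ := exists_inertia_sub_one_injective hΔ hp hp2 A hA hss
  refine ⟨τ, hτ, ?_⟩
  have hodd : Odd p := hp.odd_of_ne_two hp2
  have hp3 : 3 ≤ p := by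
    have := hp.two_le
    omega
  have hfin : Finite (Submodule.torsionBy ℤ ((W.map (Int.castRingHom ℚ))⁄Qb).Point ((p : ℕ) : ℤ)) :=
    (Fermat.Agent.S13.H891.T1_odd ((W.map (Int.castRingHom ℚ))⁄Qb) p hp3 hodd).2.1
  have hinj : Function.Injective
      (fun y : Submodule.torsionBy ℤ ((W.map (Int.castRingHom ℚ))⁄Qb).Point ((p : ℕ) : ℤ) =>
        τ • y - y) := by
    intro y z hyz
    have h1 : τ • (y - z) = y - z := by
      have h2 : τ • y - y = τ • z - z := hyz
      rw [smul_sub]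
      have h3 : τ • y - τ • z = (τ • y - y) - (τ • z - z) + (y - z) := by abel
      rw [h3, h2, sub_self, zero_add]
    have h4 : ((y - z : Submodule.torsionBy ℤ ((W.map (Int.castRingHom ℚ))⁄Qb).Point
        ((p : ℕ) : ℤ)) : ((W.map (Int.castRingHom ℚ))⁄Qb).Point) = 0 := by
      apply h _ (Fermat.Agent.S13.H891.nsmul_eq_zero_of_mem_torsionBy p (y - z))
      exact congrArg Subtype.val h1
    exact sub_eq_zero.mp (Subtype.ext h4)
  exact Finite.surjective_of_injective hinj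

/-- **W-SS, coinvariant form.**  Under the supersingular hypothesis every additive map on `E[p]`
that is invariant under the inertia group of `A` vanishes: `E[p]` has no nonzero inertia
coinvariants. -/
theorem eq_zero_of_inertia_invariant (hΔ : W.Δ ≠ 0) {p : ℕ} (hp : p.Prime) (hp2 : p ≠ 2)
    (A : ValuationSubring Qb) (hA : A.LiesOverPrime p)
    (hss : ∀ P : ((W.map (Int.castRingHom ℚ))⁄Qb).Point, P ≠ 0 → p • P = 0 →
      1 < A.valuation (xc P))
    {M : Type*} [AddGroup M]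
    (f : Submodule.torsionBy ℤ ((W.map (Int.castRingHom ℚ))⁄Qb).Point ((p : ℕ) : ℤ) →+ M)
    (hf : ∀ τ ∈ A.inertiaSubgroupIn ℚ,
      ∀ x : Submodule.torsionBy ℤ ((W.map (Int.castRingHom ℚ))⁄Qb).Point ((p : ℕ) : ℤ),
        f (τ • x) = f x)
    (x : Submodule.torsionBy ℤ ((W.map (Int.castRingHom ℚ))⁄Qb).Point ((p : ℕ) : ℤ)) :
    f x = 0 := by
  obtain ⟨τ, hτ, h⟩ := exists_inertia_sub_one_surjective hΔ hp hp2 A hA hss
  obtain ⟨y, rfl⟩ := h x
  rw [map_sub, hf τ hτ y, sub_self]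

end Fermat.Agent.Ribet.H187

end
-- ===== PACK-END Ribet/H187/ELocMain.lean

-- ===== PACK-BEGIN S18/Mod/H216/DenJ.lean
section


/-!
# S18 / MOD (helper216): `V_total`, denominators and integrality for the coordinate `j`

From the S28 basis (`SpansQ M y`, independence of the reductions over `κ(j̄)`, integrality of the
`j(q^d)` over `ℤ[j]`):

* `V_total_j`     : `Vc M A E` is a valuation ring of `Fc M E`;
* `injective_evR_j` : `j` is transcendental over `Rc M A E`;
* `isIntegral_toOm_yInt` : the monomials are integral over `Rc[j]`;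
* `denAt_j`       : the denominator statement `DenAt` on the chart `Rc[j]`.
-/

set_option autoImplicit false
set_option linter.unusedSectionVars false

noncomputable section

namespace Fermat.Agent.S18.Mod.H216

open ModularCurve AlgebraicCurve HahnSeries Polynomial Fermat.Agent.S18 Fermat.Agent.S18.Mod
open Fermat.Agent.S28 Fermat.Agent.S18.Alg

variable {M : ℕ} [NeZero M] (A : ValuationSubring Qb) (E : IntermediateField ℚ Qb)
variable {n : ℕ} {y : Fin n → LaurentSeries ℤ}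

theorem redE_sum_ne_zero (hS : H516.SpansQ M y)
    (hli : LinearIndependent (jField (IsLocalRing.ResidueField ↥A))
      (fun i => coeffMap (Int.castRingHom (IsLocalRing.ResidueField ↥A)) (y i)))
    {q : (↥(S0 A E))[X]} {p : Fin n → (↥(S0 A E))[X]}
    (hprim : q.map (resS A E) ≠ 0 ∨ ∃ i, (p i).map (resS A E) ≠ 0)
    (hq : q.map (resS A E) = 0) :
    redE M A E (∑ i, Uev M A E (p i) * yInt A E hS i) ≠ 0 := by
  intro h
  have h1 := redE_sum_eq_zero A E hS hli p h
  rcases hprim with h2 | ⟨i, hi⟩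
  · exact h2 hq
  · exact hi (h1 i)

/-- **`V_total`** for `x = j`. -/
theorem V_total_j (hS : H516.SpansQ M y)
    (hli : LinearIndependent (jField (IsLocalRing.ResidueField ↥A))
      (fun i => coeffMap (Int.castRingHom (IsLocalRing.ResidueField ↥A)) (y i))) :
    ∀ f ∈ Fc M E, f ∈ Vc M A E ∨ f⁻¹ ∈ Vc M A E := by
  intro f hf
  obtain ⟨q, p, hprim, hrel⟩ := exists_scaled_relation A E hS hf
  by_cases hq : q.map (resS A E) = 0
  · right
    have hN := redE_sum_ne_zero A E hS hli hprim hq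
    have hf0 : f ≠ 0 := by
      intro h0
      rw [h0, mul_zero] at hrel
      exact toOm_ne_zero_of_redE M A E hN hrel.symm
    refine (mem_Vc_iff' M A E).mpr
      ⟨Uev M A E q, ∑ i, Uev M A E (p i) * yInt A E hS i, hN, ?_⟩
    rw [← hrel, mul_comm (toOm M A E (Uev M A E q)), ← mul_assoc, inv_mul_cancel₀ hf0, one_mul]
  · left
    have hD : redE M A E (Uev M A E q) ≠ 0 := by rwa [Ne, redE_Uev_eq_zero_iff]
    refine (mem_Vc_iff' M A E).mpr
      ⟨∑ i, Uev M A E (p i) * yInt A E hS i, Uev M A E q, hD, ?_⟩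
    rw [mul_comm]
    exact hrel

/-- `j` is transcendental over `Rc`. -/
theorem injective_evR_j : Function.Injective (evR (Rc M A E) (jOm M)) := by
  rw [injective_iff_map_eq_zero]
  intro p hp
  rw [evR_eq_toOm_Uev] at hp
  have h1 := congrArg (fun z : Om M => (z : LaurentSeries Qb)) hp
  simp only [coe_toOm_Uev, ZeroMemClass.coe_zero] at h1
  have h2 := (H516.evJ_eq_zero_iff Qb).mp h1
  rw [Polynomial.map_map] at h2
  have hinj : Function.Injective
      (((S0 A E).subtype).comp ((eRc M A E).symm : ↥(Rc M A E) →+* ↥(S0 A E))) :=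
    (Subtype.val_injective).comp (eRc M A E).symm.injective
  exact Polynomial.map_injective _ hinj (by rw [h2, Polynomial.map_zero])

theorem toOm_Uev_mem_polyRing (p : (↥(S0 A E))[X]) :
    toOm M A E (Uev M A E p) ∈ polyRing (Rc M A E) (jOm M) := by
  rw [toOm_Uev]
  exact (mem_polyRing_iff _ _).mpr ⟨_, rfl⟩

theorem isIntegral_toOm_Uev (p : (↥(S0 A E))[X]) :
    IsIntegral (polyRing (Rc M A E) (jOm M)) (toOm M A E (Uev M A E p)) :=
  isIntegral_algebraMap (R := polyRing (Rc M A E) (jOm M)) (A := Om M)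
    (x := ⟨_, toOm_Uev_mem_polyRing A E p⟩)

/-- **Denominators** on the chart `Rc[j]`. -/
theorem denAt_j {w : Om M} (hR : PartR (Ec M E) (Rc M A E) w) (hS : H516.SpansQ M y)
    (hli : LinearIndependent (jField (IsLocalRing.ResidueField ↥A))
      (fun i => coeffMap (Int.castRingHom (IsLocalRing.ResidueField ↥A)) (y i)))
    (hint : ∀ i, IsIntegral (polyRing (Rc M A E) (jOm M)) (toOm M A E (yInt A E hS i))) :
    DenAt (Fc M E) (Rc M A E) (Vc M A E) w (jOm M) := by
  intro f hf hfV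
  obtain ⟨q, p, hprim, hrel⟩ := exists_scaled_relation A E hS hf
  have hq : q.map (resS A E) ≠ 0 := by
    intro hq0
    have hN := redE_sum_ne_zero A E hS hli hprim hq0
    obtain ⟨U₁, U₂, hne, heq⟩ := (mem_Vc_iff' M A E).mp hfV
    have h1 : toOm M A E (Uev M A E q * U₁) =
        toOm M A E ((∑ i, Uev M A E (p i) * yInt A E hS i) * U₂) := by
      rw [map_mul, map_mul, ← heq, ← hrel]
      ring
    have h3 := congrArg (redE M A E) (toOm_injective M A E h1)
    rw [map_mul, map_mul, (redE_Uev_eq_zero_iff M A E q).mpr hq0, zero_mul] at h3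
    exact mul_ne_zero hN hne h3.symm
  have hD : redE M A E (Uev M A E q) ≠ 0 := by rwa [Ne, redE_Uev_eq_zero_iff]
  refine ⟨toOm M A E (Uev M A E q), toOm_Uev_mem_polyRing A E q, ?_, ?_⟩
  · intro h
    obtain ⟨c, hA, hE, hc0, hcinv, rfl⟩ := exists_unif M A E hR
    have hw0 : algebraMap Qb (Om M) c ≠ 0 := hR.w_ne_zero
    obtain ⟨U₁, U₂, hne, heq⟩ := (mem_Vc_iff' M A E).mp h
    have h1 : toOm M A E (Uev M A E q * U₂) = toOm M A E (cInt M A E hA hE * U₁) := by
      rw [map_mul, map_mul, toOm_cInt, ← heq]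
      field_simp
    have h3 := congrArg (redE M A E) (toOm_injective M A E h1)
    rw [map_mul, map_mul, redE_cInt, residue_eq_zero_of_inv_not_mem A hA hcinv, map_zero,
      zero_mul] at h3
    exact mul_ne_zero hD hne h3
  · rw [hrel, map_sum]
    refine IsIntegral.sum _ fun i _ => ?_
    rw [map_mul]
    exact (isIntegral_toOm_Uev A E (p i)).mul (hint i)

end Fermat.Agent.S18.Mod.H216

end
end
-- ===== PACK-END S18/Mod/H216/DenJ.lean

-- ===== PACK-BEGIN S18/H804/ValPlace.lean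
section




/-!
# S18 / GLUE input: every nontrivial valuation subring of a function field containing the
constants is a place  (helper804)

`K` a field of characteristic zero, `F` finite over `K(x)`, `x` transcendental.  A valuation
subring `O ≠ ⊤` of `F` containing `K` is the valuation ring of a `Place K F` (a discrete
valuation ring).  Proof: `x` or `x⁻¹` lies in `O`; `O` dominates the localisation of the integral
closure of `K[x^{±1}]` at its center, which is a DVR, hence maximal among proper subrings.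

Corollary (`exists_mul_pow_unit`): if `m ∣ ord_v u` for every place `v`, then for every valuation
subring `O ⊇ K` of `F` there is `t ≠ 0` with `u * t ^ m` a unit of `O`.
-/

set_option autoImplicit false
set_option linter.unusedSectionVars false

namespace Fermat.Agent.S18.H804

open AlgebraicCurve Polynomial IntermediateField IsDedekindDomain Fermat.Agent.S24 FF

open scoped IntermediateField.algebraAdjoinAdjoin

variable {K F : Type*} [Field K] [Field F] [Algebra K F] {t : F}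

/-- `K[t] ⊆ O` when `t ∈ O`. -/
theorem mem_of_mem_coordRing_val (O : ValuationSubring F)
    (hK : ∀ a : K, algebraMap K F a ∈ O) (ht : t ∈ O) {r : F}
    (hr : r ∈ coordRing K t) : r ∈ O := by
  induction hr using Algebra.adjoin_induction with
  | mem x hx =>
    rw [Set.mem_singleton_iff] at hx
    subst hx
    exact ht
  | algebraMap a => exact hK a
  | add x y _ _ hx hy => exact add_mem hx hy
  | mul x y _ _ hx hy => exact mul_mem hx hy

/-- The integral closure of `K[t]` is contained in `O` when `t ∈ O`. -/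
theorem mem_of_mem_intRing_val (O : ValuationSubring F)
    (hK : ∀ a : K, algebraMap K F a ∈ O) (ht : t ∈ O) {s : F}
    (hs : s ∈ intRing K t) : s ∈ O := by
  let φ : coordRing K t →+* O :=
    { toFun := fun y => ⟨y, mem_of_mem_coordRing_val O hK ht y.2⟩
      map_one' := rfl
      map_mul' := fun _ _ => rfl
      map_zero' := rfl
      map_add' := fun _ _ => rfl }
  obtain ⟨p, hpm, hp⟩ := hs
  have hint' : IsIntegral O s := by
    refine ⟨p.map φ, hpm.map φ, ?_⟩
    rw [← hp, Polynomial.eval₂_map]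
    rfl
  obtain ⟨y, hy⟩ := IsIntegrallyClosed.isIntegral_iff.mp hint'
  rw [← hy]
  exact y.2

/-- The inclusion of the integral closure of `K[t]` into `O`. -/
def toValRing (O : ValuationSubring F) (hK : ∀ a : K, algebraMap K F a ∈ O) (ht : t ∈ O) :
    intRing K t →+* O where
  toFun s := ⟨s, mem_of_mem_intRing_val O hK ht s.2⟩
  map_one' := rfl
  map_mul' _ _ := rfl
  map_zero' := rfl
  map_add' _ _ := rfl

/-- The center of `O` on the integral closure of `K[t]`. -/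
def centerVal (O : ValuationSubring F) (hK : ∀ a : K, algebraMap K F a ∈ O) (ht : t ∈ O) :
    Ideal (intRing K t) :=
  Ideal.comap (toValRing O hK ht) (IsLocalRing.maximalIdeal O)

instance centerVal_isPrime (O : ValuationSubring F) (hK : ∀ a : K, algebraMap K F a ∈ O)
    (ht : t ∈ O) : (centerVal O hK ht).IsPrime := by
  unfold centerVal
  infer_instance

theorem mem_centerVal_iff (O : ValuationSubring F) (hK : ∀ a : K, algebraMap K F a ∈ O)
    (ht : t ∈ O) (s : intRing K t) :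
    s ∈ centerVal O hK ht ↔ (s : F) ∈ O.nonunits := by
  rw [centerVal, Ideal.mem_comap]
  exact ValuationSubring.coe_mem_nonunits_iff.symm

section withCoord

variable [CharZero K] [IsCoord K t]

/-- The center of a proper valuation subring is nonzero. -/
theorem centerVal_ne_bot (O : ValuationSubring F) (hK : ∀ a : K, algebraMap K F a ∈ O)
    (ht : t ∈ O) (hO : O ≠ ⊤) : centerVal O hK ht ≠ ⊥ := by
  intro h
  apply hO
  refine SetLike.ext fun f => ⟨fun _ => ValuationSubring.mem_top f, fun _ => ?_⟩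
  -- `f = a / b` with `a, b` in the integral closure, `b ≠ 0` a unit of `O`
  obtain ⟨a, b, hb, rfl⟩ := IsFractionRing.div_surjective (A := intRing K t) f
  have hb0 : b ≠ 0 := nonZeroDivisors.ne_zero hb
  have hbF : (b : F) ≠ 0 := fun h0 => hb0 (Subtype.ext h0)
  have hbnot : (b : F) ∉ O.nonunits := by
    intro hbn
    have : b ∈ centerVal O hK ht := (mem_centerVal_iff O hK ht b).mpr hbn
    rw [h, Ideal.mem_bot] at this
    exact hb0 this
  have hbinv : (b : F)⁻¹ ∈ O := by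
    by_contra hcon
    exact hbnot ((ValuationSubring.mem_nonunits_iff_or _).mpr (Or.inr hcon))
  have ha : (a : F) ∈ O := mem_of_mem_intRing_val O hK ht a.2
  show algebraMap (intRing K t) F a / algebraMap (intRing K t) F b ∈ O
  rw [div_eq_mul_inv]
  exact mul_mem ha hbinv

/-- A proper valuation subring containing `K` and `t` is the valuation ring of a place. -/
theorem exists_place_of_mem (O : ValuationSubring F) (hK : ∀ a : K, algebraMap K F a ∈ O)
    (ht : t ∈ O) (hO : O ≠ ⊤) : ∃ v : Place K F, v.toValuationSubring = O := by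
  let q : HeightOneSpectrum (intRing K t) :=
    ⟨centerVal O hK ht, inferInstance, centerVal_ne_bot O hK ht hO⟩
  refine ⟨placeOfPrime K t q, ?_⟩
  rw [placeOfPrime_toValuationSubring,
    ← HeightOneSpectrum.valuationSubringAtPrime_eq_valuationSubring]
  refine ValuationSubring.eq_of_le_of_ne_top _ ?_ hO
  rintro x ⟨a, s, hs, rfl⟩
  have ha : (a : F) ∈ O := mem_of_mem_intRing_val O hK ht a.2
  have hs' : (s : F) ∉ O.nonunits := fun h =>
    hs ((mem_centerVal_iff O hK ht s).mpr h)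
  have hsinv : (s : F)⁻¹ ∈ O := by
    by_contra hcon
    exact hs' ((ValuationSubring.mem_nonunits_iff_or _).mpr (Or.inr hcon))
  exact mul_mem ha hsinv

end withCoord

/-- **Every proper valuation subring of `F` containing `K` is a place.** -/
theorem exists_place_of_valuationSubring [CharZero K] {x : F} (hx : Transcendental K x)
    [FiniteDimensional K⟮x⟯ F] (O : ValuationSubring F)
    (hK : ∀ a : K, algebraMap K F a ∈ O) (hO : O ≠ ⊤) :
    ∃ v : Place K F, v.toValuationSubring = O := by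
  rcases O.mem_or_inv_mem x with h | h
  · have : IsCoord K x := ⟨hx, inferInstance⟩
    exact exists_place_of_mem O hK h hO
  · have : FiniteDimensional K⟮x⁻¹⟯ F := finiteDimensional_adjoin_inv x
    have : IsCoord K x⁻¹ := ⟨transcendental_inv hx, inferInstance⟩
    exact exists_place_of_mem O hK h hO

/-- If `m` divides the order of `u` at every place, then `u` is, up to an `m`-th power, a unit of
every valuation subring of `F` containing `K`. -/
theorem exists_mul_pow_unit [CharZero K] {x : F} (hx : Transcendental K x)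
    [FiniteDimensional K⟮x⟯ F] (m : ℕ) (u : F) (hu : u ≠ 0)
    (hdiv : ∀ v : Place K F, (m : ℤ) ∣ v.ord u) (O : ValuationSubring F)
    (hK : ∀ a : K, algebraMap K F a ∈ O) :
    ∃ t : F, t ≠ 0 ∧ u * t ^ m ∈ O ∧ (u * t ^ m)⁻¹ ∈ O := by
  by_cases hO : O = ⊤
  · subst hO
    exact ⟨1, one_ne_zero, ValuationSubring.mem_top _, ValuationSubring.mem_top _⟩
  obtain ⟨v, rfl⟩ := exists_place_of_valuationSubring hx O hK hO
  obtain ⟨π, hπ, hπ1⟩ := exists_irreducible_coe v
  have hπ0 : (π : F) ≠ 0 := by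
    intro h
    rw [h, v.ord_zero] at hπ1
    exact zero_ne_one hπ1
  obtain ⟨k, hk⟩ := hdiv v
  refine ⟨(π : F) ^ (-k), zpow_ne_zero _ hπ0, ?_, ?_⟩
  all_goals
    have hne : u * ((π : F) ^ (-k)) ^ m ≠ 0 :=
      mul_ne_zero hu (pow_ne_zero _ (zpow_ne_zero _ hπ0))
    have hord : v.ord (u * ((π : F) ^ (-k)) ^ m) = 0 := by
      rw [v.ord_mul hu (pow_ne_zero _ (zpow_ne_zero _ hπ0)), ← zpow_natCast, ← zpow_mul,
        v.ord_zpow, hπ1, hk]
      ring
  · exact mem_of_ord_nonneg v hord.ge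
  · apply mem_of_ord_nonneg v
    rw [v.ord_inv, hord]
    simp

end Fermat.Agent.S18.H804

end
-- ===== PACK-END S18/H804/ValPlace.lean

-- ===== PACK-BEGIN Ribet/H764/I3Rank.lean
section




/-!
# I3 leaf RANK (helper764): `dim_k redForms k M = dim_ℂ S₂(Γ₀(M))`

`L = intLattice M 2` is free of finite rank (Prelude); a `ℤ`-basis of `L` is a `ℂ`-basis of
`S₂(Γ₀(M))` (S23 + `q`-expansion injective + functional descent `ℂ → ℚ`), and its reductions are a
`k`-basis of `redForms k M` (saturation of `L` + functional descent `k → 𝔽_p`).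
-/

set_option autoImplicit false
set_option linter.style.haveILetI false
set_option linter.unusedSectionVars false

open CuspForm ModularFormClass CongruenceSubgroup

namespace Fermat.Agent.Ribet.H764.I3

open Fermat.Agent.S49

variable {M : ℕ}

/-- The integral `q`-coefficients of an element of the lattice, as a `ℤ`-linear map. -/
noncomputable def coeffZLin (M : ℕ) : ↥(intLattice M 2) →ₗ[ℤ] (ℕ → ℤ) where
  toFun f n := (int_of_mem_intLattice_h764 f.2 n).choose
  map_add' f g := by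
    funext n
    apply Int.cast_injective (α := ℂ)
    rw [Pi.add_apply, Int.cast_add, ← (int_of_mem_intLattice_h764 f.2 n).choose_spec,
      ← (int_of_mem_intLattice_h764 g.2 n).choose_spec,
      ← (int_of_mem_intLattice_h764 (f + g).2 n).choose_spec]
    exact glue_qCoeff_add _ _ n
  map_smul' c f := by
    funext n
    apply Int.cast_injective (α := ℂ)
    rw [RingHom.id_apply, Pi.smul_apply, smul_eq_mul, Int.cast_mul,
      ← (int_of_mem_intLattice_h764 f.2 n).choose_spec,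
      ← (int_of_mem_intLattice_h764 (c • f).2 n).choose_spec]
    exact qCoeff_zsmul_h764 c _ n

theorem coeffZLin_spec (f : ↥(intLattice M 2)) (n : ℕ) :
    qCoeff (f : CuspForm (Gamma0 M) 2) n = (coeffZLin M f n : ℂ) :=
  (int_of_mem_intLattice_h764 f.2 n).choose_spec

/-- The coefficient map is injective. -/
theorem coeffZLin_injective : Function.Injective (coeffZLin M) := by
  rw [← LinearMap.ker_eq_bot, LinearMap.ker_eq_bot']
  intro f hf
  apply Subtype.ext
  rw [ZeroMemClass.coe_zero]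
  apply glue_eq_zero_of_qCoeff
  intro n
  rw [coeffZLin_spec, hf, Pi.zero_apply, Int.cast_zero]

/-- Saturation: an element of `L` with all coefficients divisible by `p` lies in `pL`. -/
theorem exists_eq_nsmul_of_dvd_coeffZLin {p : ℕ} (hp : p ≠ 0) (F : ↥(intLattice M 2))
    (hdvd : ∀ n, (p : ℤ) ∣ coeffZLin M F n) : ∃ f' : ↥(intLattice M 2), F = p • f' := by
  obtain ⟨f', hf', e⟩ := exists_eq_nsmul_of_dvd_h764 hp (F : CuspForm (Gamma0 M) 2)
    (coeffZLin M F) (coeffZLin_spec F) hdvd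
  exact ⟨⟨f', hf'⟩, Subtype.ext e⟩

/-- Reduction of the `q`-expansion, as a `ℤ`-linear map `L → k⟦q⟧`. -/
noncomputable def redLin (k : Type) [Field k] (M : ℕ) :
    ↥(intLattice M 2) →ₗ[ℤ] PowerSeries k where
  toFun f := PowerSeries.mk fun n => ((coeffZLin M f n : ℤ) : k)
  map_add' f g := by
    ext n
    simp [PowerSeries.coeff_mk]
  map_smul' c f := by
    ext n
    rw [PowerSeries.coeff_mk, map_zsmul, Pi.smul_apply, smul_eq_mul, Int.cast_mul,
      RingHom.id_apply, ← Int.cast_smul_eq_zsmul k c, PowerSeries.coeff_smul,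
      PowerSeries.coeff_mk, smul_eq_mul]

theorem coeff_redLin (k : Type) [Field k] (f : ↥(intLattice M 2)) (n : ℕ) :
    PowerSeries.coeff n (redLin k M f) = ((coeffZLin M f n : ℤ) : k) := by
  show PowerSeries.coeff n (PowerSeries.mk fun n => ((coeffZLin M f n : ℤ) : k)) = _
  exact PowerSeries.coeff_mk _ _

theorem isRedOfForm_iff (k : Type) [Field k] (g : PowerSeries k) :
    IsRedOfForm k M g ↔ ∃ f : ↥(intLattice M 2), redLin k M f = g := by
  constructor
  · rintro ⟨f, c, hfc, hg⟩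
    have hf : f ∈ intLattice M 2 := mem_intLattice_of_int_h764 fun n => ⟨c n, hfc n⟩
    refine ⟨⟨f, hf⟩, ?_⟩
    ext n
    rw [coeff_redLin, hg]
    congr 1
    apply Int.cast_injective (α := ℂ)
    rw [← coeffZLin_spec, ← hfc]
  · rintro ⟨f, rfl⟩
    exact ⟨f, coeffZLin M f, coeffZLin_spec f, coeff_redLin k f⟩

theorem redForms_eq_span_range (k : Type) [Field k] :
    redForms k M = Submodule.span k (Set.range (redLin k M)) := by
  unfold redForms
  congr 1
  ext g
  rw [Set.mem_ofPred_eq, isRedOfForm_iff]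
  rfl

section Basis

variable [NeZero M]

/-- The index type of a `ℤ`-basis of `L`. -/
abbrev LatIdx (M : ℕ) [NeZero M] : Type :=
  letI := intLattice.moduleFree M
  Module.Free.ChooseBasisIndex ℤ ↥(intLattice M 2)

/-- A `ℤ`-basis of `L`. -/
noncomputable def latBasis (M : ℕ) [NeZero M] : Module.Basis (LatIdx M) ℤ ↥(intLattice M 2) :=
  letI := intLattice.moduleFree M
  Module.Free.chooseBasis ℤ ↥(intLattice M 2)

noncomputable instance latIdxFintype : Fintype (LatIdx M) :=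
  letI := intLattice.moduleFree M
  letI := intLattice.moduleFinite M
  Module.Free.ChooseBasisIndex.fintype ℤ ↥(intLattice M 2)

/-- The reductions of a basis span `redForms`. -/
theorem redForms_eq_span_basis (k : Type) [Field k] :
    redForms k M = Submodule.span k (Set.range fun i => redLin k M (latBasis M i)) := by
  rw [redForms_eq_span_range]
  apply le_antisymm
  · rw [Submodule.span_le]
    rintro _ ⟨f, rfl⟩
    rw [← (latBasis M).sum_repr f, map_sum]
    refine Submodule.sum_mem _ fun i _ => ?_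
    rw [map_zsmul, ← Int.cast_smul_eq_zsmul k]
    exact Submodule.smul_mem _ _ (Submodule.subset_span ⟨i, rfl⟩)
  · apply Submodule.span_mono
    rintro _ ⟨i, rfl⟩
    exact ⟨_, rfl⟩

/-- The reductions of a basis are linearly independent (`char k = p`). -/
theorem linearIndependent_redLin_basis {p : ℕ} (hp : p.Prime) (k : Type) [Field k]
    [CharP k p] : LinearIndependent k fun i => redLin k M (latBasis M i) := by
  classical
  haveI : Fact p.Prime := ⟨hp⟩
  letI := ZMod.algebra k p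
  rw [Fintype.linearIndependent_iff]
  intro c hc i
  rw [← Module.forall_dual_apply_eq_zero_iff (ZMod p)]
  intro φ
  -- the integral combination
  set z : LatIdx M → ℤ := fun j => ((φ (c j) : ZMod p).cast : ℤ) with hz
  set F : ↥(intLattice M 2) := ∑ j, z j • latBasis M j with hF
  have hk : ∀ (w : ℤ) (x : k), φ (x * (w : k)) = φ x * (w : ZMod p) := by
    intro w x
    have h1 : x * (w : k) = (w : ZMod p) • x := by
      rw [Algebra.smul_def, map_intCast, mul_comm]
    rw [h1, map_smul, smul_eq_mul, mul_comm]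
  have hdvd : ∀ n, (p : ℤ) ∣ coeffZLin M F n := by
    intro n
    rw [← ZMod.intCast_zmod_eq_zero_iff_dvd]
    have h1 : coeffZLin M F n = ∑ j, z j * coeffZLin M (latBasis M j) n := by
      rw [hF, map_sum, Finset.sum_apply]
      refine Finset.sum_congr rfl fun j _ => ?_
      rw [map_zsmul, Pi.smul_apply, smul_eq_mul]
    have h2 := congrArg (fun s => φ (PowerSeries.coeff n s)) hc
    simp only [map_sum, map_zero, PowerSeries.coeff_smul, smul_eq_mul] at h2
    rw [h1]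
    push_cast
    rw [← h2]
    refine Finset.sum_congr rfl fun j _ => ?_
    rw [coeff_redLin, hk, hz, ZMod.intCast_zmod_cast]
  obtain ⟨f', hf'⟩ := exists_eq_nsmul_of_dvd_coeffZLin hp.ne_zero F hdvd
  have h3 : (latBasis M).repr F i = z i := by
    rw [hF]
    exact congrFun ((latBasis M).repr_sum_self z) i
  have h4 : (latBasis M).repr F i = p * (latBasis M).repr f' i := by
    rw [hf', map_nsmul, Finsupp.smul_apply, nsmul_eq_mul]
  have h5 : ((z i : ℤ) : ZMod p) = 0 := by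
    rw [← h3, h4]
    simp
  rwa [hz, ZMod.intCast_zmod_cast] at h5

/-- The basis of `L` spans `S₂(Γ₀(M))` over `ℂ` (S23). -/
theorem span_latBasis_eq_top :
    Submodule.span ℂ (Set.range fun i => ((latBasis M i : ↥(intLattice M 2)) :
      CuspForm (Gamma0 M) 2)) = ⊤ := by
  have h := Fermat.Agent.S23.result M
  unfold CuspForm.HasIntegralStructure at h
  rw [eq_top_iff, ← h, Submodule.span_le]
  intro f hf
  have hf' : f ∈ intLattice M 2 := hf
  have e := (latBasis M).sum_repr ⟨f, hf'⟩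
  have e' : f = ∑ i, (latBasis M).repr ⟨f, hf'⟩ i •
      ((latBasis M i : ↥(intLattice M 2)) : CuspForm (Gamma0 M) 2) := by
    have h1 := congrArg (Subtype.val) e
    rw [AddSubmonoidClass.coe_finsetSum] at h1
    exact h1.symm
  rw [e']
  refine Submodule.sum_mem _ fun i _ => ?_
  rw [← Int.cast_smul_eq_zsmul ℂ]
  exact Submodule.smul_mem _ _ (Submodule.subset_span ⟨i, rfl⟩)

/-- The basis of `L` is linearly independent over `ℂ`. -/
theorem linearIndependent_latBasis :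
    LinearIndependent ℂ fun i => ((latBasis M i : ↥(intLattice M 2)) :
      CuspForm (Gamma0 M) 2) := by
  classical
  rw [Fintype.linearIndependent_iff]
  intro c hc i
  rw [← Module.forall_dual_apply_eq_zero_iff ℚ]
  intro ψ
  -- clear denominators
  set r : LatIdx M → ℚ := fun j => ψ (c j) with hr
  set D : ℕ := ∏ j, (r j).den with hD
  have hD0 : D ≠ 0 := Finset.prod_ne_zero_iff.mpr fun j _ => (r j).den_ne_zero
  have hz : ∀ j, ∃ z : ℤ, (z : ℚ) = D * r j := by
    intro j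
    have hdj : (r j).den ∣ D := Finset.dvd_prod_of_mem _ (Finset.mem_univ j)
    obtain ⟨e, he⟩ := hdj
    refine ⟨e * (r j).num, ?_⟩
    have h1 := Rat.mul_den_eq_num (r j)
    rw [he]
    push_cast
    rw [← h1]
    ring
  choose z hz using hz
  set F : ↥(intLattice M 2) := ∑ j, z j • latBasis M j with hF
  have hcoef : ∀ n, coeffZLin M F n = 0 := by
    intro n
    have h1 : coeffZLin M F n = ∑ j, z j * coeffZLin M (latBasis M j) n := by
      rw [hF, map_sum, Finset.sum_apply]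
      refine Finset.sum_congr rfl fun j _ => ?_
      rw [map_zsmul, Pi.smul_apply, smul_eq_mul]
    -- the complex relation on coefficients
    have h2 : ∑ j, c j * (coeffZLin M (latBasis M j) n : ℂ) = 0 := by
      have h3 : ∀ (s : Finset (LatIdx M)),
          qCoeff (⇑(∑ j ∈ s, c j • ((latBasis M j : ↥(intLattice M 2)) :
            CuspForm (Gamma0 M) 2))) n = ∑ j ∈ s, c j * (coeffZLin M (latBasis M j) n : ℂ) := by
        intro s
        induction s using Finset.induction_on with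
        | empty =>
          rw [Finset.sum_empty, Finset.sum_empty]
          have h := glue_qCoeff_smul (N := M) 0 (0 : CuspForm (Gamma0 M) 2) n
          rwa [zero_smul, zero_mul] at h
        | insert a s ha ih =>
          rw [Finset.sum_insert ha, Finset.sum_insert ha, glue_qCoeff_add, ih,
            glue_qCoeff_smul, coeffZLin_spec]
      rw [← h3, hc]
      have h := glue_qCoeff_smul (N := M) 0 (0 : CuspForm (Gamma0 M) 2) n
      rwa [zero_smul, zero_mul] at h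
    have h4 : ∑ j, r j * (coeffZLin M (latBasis M j) n : ℚ) = 0 := by
      have h5 := congrArg ψ h2
      rw [map_sum, map_zero] at h5
      rw [← h5]
      refine Finset.sum_congr rfl fun j _ => ?_
      have h6 : c j * (coeffZLin M (latBasis M j) n : ℂ) =
          ((coeffZLin M (latBasis M j) n : ℤ) : ℚ) • c j := by
        rw [Algebra.smul_def, mul_comm]
        simp
      rw [h6, map_smul, smul_eq_mul, mul_comm]
    apply Int.cast_injective (α := ℚ)
    rw [h1]
    push_cast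
    have h7 : ∑ j, (z j : ℚ) * (coeffZLin M (latBasis M j) n : ℚ) =
        D * ∑ j, r j * (coeffZLin M (latBasis M j) n : ℚ) := by
      rw [Finset.mul_sum]
      refine Finset.sum_congr rfl fun j _ => ?_
      rw [hz j]
      ring
    rw [h7, h4, mul_zero]
  have hF0 : F = 0 := coeffZLin_injective (by
    funext n
    rw [hcoef n, map_zero, Pi.zero_apply])
  have h8 : z i = 0 := by
    have h9 : (latBasis M).repr F i = z i := by
      rw [hF]
      exact congrFun ((latBasis M).repr_sum_self z) i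
    rw [← h9, hF0, map_zero, Finsupp.zero_apply]
  have h10 := hz i
  rw [h8, Int.cast_zero] at h10
  have hDq : (D : ℚ) ≠ 0 := Nat.cast_ne_zero.mpr hD0
  rcases mul_eq_zero.mp h10.symm with h | h
  · exact absurd h hDq
  · exact h

/-- `rank_ℤ L = dim_ℂ S₂(Γ₀(M))`. -/
theorem card_latIdx_eq_finrank :
    Fintype.card (LatIdx M) = Module.finrank ℂ (CuspForm (Gamma0 M) 2) := by
  have b : Module.Basis (LatIdx M) ℂ (CuspForm (Gamma0 M) 2) :=
    Module.Basis.mk linearIndependent_latBasis (by rw [span_latBasis_eq_top])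
  exact (Module.finrank_eq_card_basis b).symm

/-- **RANK.** -/
theorem rank_proved : RankStatement := by
  intro p M _ hp k _ _
  have hfin : Module.Finite k (redForms k M) := by
    rw [redForms_eq_span_basis]
    exact Module.Finite.span_of_finite k (Set.finite_range _)
  refine ⟨hfin, ?_⟩
  rw [← card_latIdx_eq_finrank, redForms_eq_span_basis]
  exact finrank_span_eq_card (linearIndependent_redLin_basis hp k)

end Basis

end Fermat.Agent.Ribet.H764.I3

end
-- ===== PACK-END Ribet/H764/I3Rank.lean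

-- ===== PACK-BEGIN A2/Alg/H348/ChartComp.lean
section




/-!
# A2 / ALG / GLUE, `hconst` part, step 2: the components of a chart give discrete valuation rings

In the setting of `Alg/Spec.lean` (`ChartCtx E w x B`, `c : SSChart w B`): the hypotheses
`CompData` of `CompDvr.lean` hold for `A = R[x]`, `B`, `p = c.p₁`, `p' = c.p₂` (and symmetrically),
hence `B_{p_i}` is a discrete valuation ring of `F` with uniformiser `w`
(`compData₁`, `compData₂`).

Reusable pieces:
* `chart_eq`                 : `B = H138.chart R {x}`;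
* `injective_algebraMap_RF`, `transcendental_R`, `prime_w`;
* `isAlgebraic_adjoin`       : `F` is algebraic over `R[x]` (from `hfin`);
* `exists_mul_mem_chart`     : `F = Frac B`, denominators in `R[x]`;
* `contract_of_inf`          : `p ∩ R[x] = w R[x]` (torsion-freeness of `B / w B` over `k[x]`,
                               `H729.mem_chart_of_mul_mem`).
-/

set_option autoImplicit false
set_option linter.unusedSectionVars false
set_option linter.style.haveILetI false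

open Polynomial

namespace Fermat.Agent.A2.Alg.H348

open Fermat.Agent.A2 Fermat.Agent.A2.Alg Fermat.Agent.A2.H348
open Fermat.Agent.S18.H138 (chart baseField)

section Basic

theorem injective_algebraMap_RF (R E F : Type*) [CommRing R] [IsDomain R]
    [Field E] [Algebra R E] [IsFractionRing R E]
    [Field F] [Algebra E F] [Algebra R F] [IsScalarTower R E F] :
    Function.Injective (algebraMap R F) := by
  rw [IsScalarTower.algebraMap_eq R E F]
  exact (algebraMap E F).injective.comp (IsFractionRing.injective R E)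

variable {R E F : Type*} [CommRing R] [IsDomain R]
  [Field E] [Algebra R E] [IsFractionRing R E]
  [Field F] [Algebra E F] [Algebra R F] [IsScalarTower R E F]

variable (R) in
theorem transcendental_R {x : F} (hx : Transcendental E x) : Transcendental R x :=
  hx.restrictScalars (IsFractionRing.injective R E)

/-- `E(x) ⊆ Frac R[x]` inside `F`. -/
theorem adjoin_le_baseField (x : F) :
    (IntermediateField.adjoin E ({x} : Set F)).toSubfield ≤ baseField R x := by
  rw [IntermediateField.adjoin_toSubfield, Subfield.closure_le]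
  rintro y (⟨e, rfl⟩ | hy)
  · obtain ⟨a, b, -, rfl⟩ := IsFractionRing.div_surjective (A := R) e
    rw [map_div₀, ← IsScalarTower.algebraMap_apply, ← IsScalarTower.algebraMap_apply]
    exact (baseField R x).div_mem (Subfield.subset_closure (Or.inl ⟨a, rfl⟩))
      (Subfield.subset_closure (Or.inl ⟨b, rfl⟩))
  · exact Subfield.subset_closure (Or.inr hy)

/-- `F` is algebraic over `R[x]`. -/
theorem isAlgebraic_adjoin {x : F}
    (hfin : FiniteDimensional (IntermediateField.adjoin E ({x} : Set F)) F) (f : F) :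
    IsAlgebraic (Algebra.adjoin R ({x} : Set F)) f := by
  classical
  set A : Subalgebra R F := Algebra.adjoin R ({x} : Set F) with hA
  set K : Subfield F := baseField R x with hK
  have hle := _root_.Fermat.Agent.A2.Alg.H348.adjoin_le_baseField (R := R) (E := E) x
  have h1 : IsAlgebraic (IntermediateField.adjoin E ({x} : Set F)) f :=
    Algebra.IsAlgebraic.isAlgebraic f
  obtain ⟨P, hP0, hP⟩ := h1
  let φ : A →+* K :=
    { toFun := fun a => ⟨a, Fermat.Agent.S18.H138.adjoin_le_baseField x a.2⟩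
      map_one' := rfl
      map_mul' := fun _ _ => rfl
      map_zero' := rfl
      map_add' := fun _ _ => rfl }
  letI : Algebra A K := φ.toAlgebra
  haveI : IsScalarTower A K F := IsScalarTower.of_algebraMap_eq (fun _ => rfl)
  have hinj : Function.Injective (algebraMap A K) := by
    intro a b hab
    have : (a : F) = b := congrArg (fun t : K => (t : F)) hab
    exact Subtype.ext this
  haveI : FaithfulSMul A K := (faithfulSMul_iff_algebraMap_injective A K).2 hinj
  haveI : IsFractionRing A K := by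
    refine IsFractionRing.of_field A K (fun z => ?_)
    obtain ⟨a, ha, b, hb, h⟩ := Fermat.Agent.S18.H138.exists_div_of_mem_baseField (R := R) x z.2
    exact ⟨⟨a, ha⟩, ⟨b, hb⟩, Subtype.ext h⟩
  rw [IsFractionRing.isAlgebraic_iff A K F]
  refine ⟨P.map (Subfield.inclusion hle), ?_, ?_⟩
  · exact (Polynomial.map_ne_zero_iff (Subfield.inclusion hle).injective).2 hP0
  · rw [aeval_def, eval₂_map]
    exact hP

end Basic

section Chart

variable {R E F : Type*} [CommRing R] [IsDomain R] [IsDiscreteValuationRing R]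
  [Field E] [Algebra R E] [IsFractionRing R E]
  [Field F] [Algebra E F] [Algebra R F] [IsScalarTower R E F]

theorem prime_w {w : R} (hw : Irreducible w) : Prime w := hw.prime

theorem chart_eq {w : R} {x : F} {B : Subalgebra R F} (hB : ChartCtx E w x B) :
    B = chart R ({x} : Set F) := by
  ext f
  rw [hB.hB f]
  rfl

/-- `F = Frac B`, with denominators in `R[x]`. -/
theorem exists_mul_mem_chart {x : F}
    (hfin : FiniteDimensional (IntermediateField.adjoin E ({x} : Set F)) F) (f : F) :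
    ∃ a ∈ Algebra.adjoin R ({x} : Set F), a ≠ 0 ∧ a * f ∈ chart R ({x} : Set F) := by
  obtain ⟨a, ha0, ha⟩ := (isAlgebraic_adjoin (R := R) (E := E) hfin f).exists_integral_multiple
  refine ⟨a, a.2, fun h => ha0 (Subtype.ext h), ?_⟩
  exact ha

/-- every nonzero element of the chart divides a nonzero element of `R[x]`. -/
theorem exists_cofactor {x : F} {b : F} (hb : b ∈ chart R ({x} : Set F)) (hb0 : b ≠ 0) :
    ∃ g ∈ chart R ({x} : Set F), b * g ∈ Algebra.adjoin R ({x} : Set F) ∧ b * g ≠ 0 := by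
  have hint : IsIntegral (Algebra.adjoin R ({x} : Set F)) b := hb
  obtain ⟨t, ht, r, hr, h⟩ := hint.isAlgebraic.exists_nonzero_eq_adjoin_mul
    (mem_nonZeroDivisors_of_ne_zero hb0)
  have ht' : IsIntegral (Algebra.adjoin R ({x} : Set F)) t := adjoin_le_integralClosure hint ht
  refine ⟨t, ht', ?_, ?_⟩
  · rw [h]; exact r.2
  · rw [h]
    intro h0
    exact hr (Subtype.ext h0)

/-- no nonzero element of `R[x]` is divisible by all powers of `w`. -/
theorem exists_not_pow_dvd {w : R} (hw : Irreducible w) {x : F} (hx : Transcendental R x)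
    {a : F} (ha : a ∈ Algebra.adjoin R ({x} : Set F)) (ha0 : a ≠ 0) :
    ∃ n : ℕ, ∀ a' ∈ Algebra.adjoin R ({x} : Set F), a ≠ algebraMap R F w ^ (n + 1) * a' := by
  haveI := Fermat.Agent.S18.H138.isNoetherianRing_adjoin_singleton (R := R) hx
  have hpr := Fermat.Agent.A2.H729.prime_algebraMap_adjoin (prime_w hw) hx
  have hfm : FiniteMultiplicity (algebraMap R (Algebra.adjoin R ({x} : Set F)) w)
      (⟨a, ha⟩ : Algebra.adjoin R ({x} : Set F)) :=
    FiniteMultiplicity.of_not_isUnit hpr.not_unit (fun h => ha0 (congrArg Subtype.val h))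
  obtain ⟨n, hn⟩ := hfm
  refine ⟨n, fun a' ha' h => hn ⟨⟨a', ha'⟩, ?_⟩⟩
  apply Subtype.ext
  exact h

/-- `p ∩ R[x] = w R[x]` for a component `p` of the special fibre of the chart. -/
theorem contract_of_inf {w : R} (hw : Irreducible w) {x : F} (hx : Transcendental R x)
    {p p' : Ideal (chart R ({x} : Set F))}
    (hinf : p ⊓ p' = Ideal.span {algebraMap R (chart R ({x} : Set F)) w}) (hle : ¬ p' ≤ p)
    (a : chart R ({x} : Set F)) (haA : (a : F) ∈ Algebra.adjoin R ({x} : Set F)) (hap : a ∈ p) :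
    ∃ a' ∈ Algebra.adjoin R ({x} : Set F), (a : F) = algebraMap R F w * a' := by
  by_contra hcon
  have hw0 : algebraMap R F w ≠ 0 := by
    intro h0
    apply hcon
    exact absurd (Fermat.Agent.A2.H729.prime_algebraMap_adjoin (prime_w hw) hx).ne_zero
      (by
        intro hne
        apply hne
        apply Subtype.ext
        exact h0)
  have hnd : ¬ algebraMap R (Algebra.adjoin R ({x} : Set F)) w ∣
      (⟨(a : F), haA⟩ : Algebra.adjoin R ({x} : Set F)) := by
    rintro ⟨a', ha'⟩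
    apply hcon
    refine ⟨a', a'.2, ?_⟩
    exact congrArg Subtype.val ha'
  have hG := Fermat.Agent.A2.H729.isGaussDenom_of_not_dvd hx hnd
  obtain ⟨t, ht', ht⟩ := SetLike.not_le_iff_exists.1 hle
  have hat : a * t ∈ p ⊓ p' := ⟨p.mul_mem_right _ hap, p'.mul_mem_left _ ht'⟩
  rw [hinf, Ideal.mem_span_singleton'] at hat
  obtain ⟨c, hc⟩ := hat
  have hc' : (c : F) * algebraMap R F w = (a : F) * (t : F) := congrArg Subtype.val hc
  have h1 : algebraMap R F w * ((t : F) * (algebraMap R F w)⁻¹) ∈ chart R ({x} : Set F) := by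
    have : algebraMap R F w * ((t : F) * (algebraMap R F w)⁻¹) = (t : F) := by field_simp
    rw [this]; exact t.2
  have h2 : (a : F) * ((t : F) * (algebraMap R F w)⁻¹) ∈ chart R ({x} : Set F) := by
    have : (a : F) * ((t : F) * (algebraMap R F w)⁻¹) = (c : F) := by
      rw [← mul_assoc, ← hc', mul_assoc, mul_inv_cancel₀ hw0, mul_one]
    rw [this]; exact c.2
  have h3 := Fermat.Agent.A2.H729.mem_chart_of_mul_mem (prime_w hw) hx hG h1 h2
  apply ht
  have h4 : t = algebraMap R (chart R ({x} : Set F)) w * ⟨_, h3⟩ := by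
    apply Subtype.ext
    show (t : F) = algebraMap R F w * ((t : F) * (algebraMap R F w)⁻¹)
    field_simp
  have hwp : algebraMap R (chart R ({x} : Set F)) w ∈ p := by
    have : algebraMap R (chart R ({x} : Set F)) w ∈ p ⊓ p' := by
      rw [hinf]; exact Ideal.mem_span_singleton_self _
    exact this.1
  rw [h4]
  exact p.mul_mem_right _ hwp

theorem adjoin_le_of_ctx {w : R} {x : F} {B : Subalgebra R F} (hB : ChartCtx E w x B) :
    Algebra.adjoin R ({x} : Set F) ≤ B := by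
  rw [chart_eq hB]
  exact Fermat.Agent.S18.H138.adjoin_le_chart _

/-- **`CompData` for a component of a chart.** -/
theorem compData_of_inf {w : R} {x : F} {B : Subalgebra R F} (hB : ChartCtx E w x B)
    {p p' : Ideal B} (hinf : p ⊓ p' = Ideal.span {algebraMap R B w}) (hle : ¬ p' ≤ p) :
    CompData (Algebra.adjoin R ({x} : Set F)) B p p' w := by
  obtain rfl := chart_eq hB
  have hx : Transcendental R x := transcendental_R R hB.hx
  have hw0 : algebraMap R F w ≠ 0 := by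
    intro h0
    exact hB.hw.ne_zero (injective_algebraMap_RF R E F (by rw [h0, map_zero]))
  exact
    { inf_eq := hinf
      not_le := hle
      w_ne := hw0
      contract := contract_of_inf hB.hw hx hinf hle
      finite_mult := fun a ha ha0 => exists_not_pow_dvd hB.hw hx ha ha0
      cofactor := fun b hb hb0 => exists_cofactor hb hb0
      frac := fun f => by
        obtain ⟨a, ha, ha0, haf⟩ := exists_mul_mem_chart (R := R) (E := E) hB.hfin f
        exact ⟨a, ha, ha0, Fermat.Agent.S18.H138.adjoin_le_chart _ ha, haf⟩ }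

theorem compData₁ {w : R} {x : F} {B : Subalgebra R F} (hB : ChartCtx E w x B)
    (c : SSChart w B) : CompData (Algebra.adjoin R ({x} : Set F)) B c.p₁ c.p₂ w :=
  compData_of_inf hB c.inf_eq c.not_le₂₁

theorem compData₂ {w : R} {x : F} {B : Subalgebra R F} (hB : ChartCtx E w x B)
    (c : SSChart w B) : CompData (Algebra.adjoin R ({x} : Set F)) B c.p₂ c.p₁ w :=
  compData_of_inf hB (by rw [inf_comm]; exact c.inf_eq) c.not_le₁₂

end Chart

end Fermat.Agent.A2.Alg.H348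

end
-- ===== PACK-END A2/Alg/H348/ChartComp.lean

-- ===== PACK-BEGIN Ribet/H7/WildPurity.lean
section



/-!
# RIBET row 38, WALL-p, crux (I6): leaf WPUR = `H704.I6.WildPurityStatement`  (helper7)

Wild purity at a node: a horizontally `p`-divisible `g ∉ 𝔭₁ ∪ 𝔭₂` which is a `p`-th power in the
`π`-adic completions of both branches is, up to `p`-th powers of the fraction field, a one-unit of
level `λ ^ p` (`λ ^ (p - 1) = p · unit`): `g · d₂ ^ p = d₁ ^ p · s ^ p · (1 + λ ^ p z)`.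

No completions, no hypothesis on the thickness.

* purity at the node (`A2.H609.exists_unit_mul_pow_of_node`): `g = ε₀ f ^ p`, `ε₀` a unit;
* fix approximate roots `hᵢ / rᵢ` of `ε₀` on the two branches modulo `π ^ (p e)`;
* successive approximation: for `j = 0, …, e` there is `s ∈ R` with `hᵢ - s rᵢ ∈ π ^ j R_{𝔭ᵢ}`
  on both branches.  Step: `(r' r) ^ p (ε₀ - s ^ p) = π ^ (j p) (a ^ p + π w)` on each branch, hence
  `ε₀ - s ^ p = π ^ (j p) c` in `R`, `c` is a `p`-th power `βᵢ ^ p` modulo `𝔭ᵢ`, the two roots agree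
  at the node (Frobenius is injective on the residue field) and glue to `b ∈ R`; `s + π ^ j b`.
* `j = e`: `ε₀ - s ^ p ∈ π ^ (p e) R = λ ^ p R`.
-/

set_option autoImplicit false

namespace Fermat.Agent.Ribet.H7

open Ideal
open Fermat.Agent.Ribet.H704.I6

section General

variable {R : Type*} [CommRing R]

/-- The binomial expansion of an approximate root. -/
theorem wp_expand {p : ℕ} (hp : p.Prime) (π u s h r r' a t : R) (j K : ℕ)
    (h1 : r' * (h - s * r) = π ^ j * a) (h2 : u * r ^ p - h ^ p = π ^ K * t) :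
    ∃ q : R, (r' * r) ^ p * (u - s ^ p) =
      π ^ (j * p) * a ^ p + (p : R) * π ^ j * (r' * s * r * a * q) + π ^ K * (r' ^ p * t) := by
  obtain ⟨q, hq⟩ := exists_add_pow_prime_eq hp (r' * s * r) (π ^ j * a)
  have e1 : r' * h = r' * s * r + π ^ j * a := by linear_combination h1
  have e2 : (r' * h) ^ p = (r' * s * r) ^ p + (π ^ j * a) ^ p
      + (p : R) * (r' * s * r) * (π ^ j * a) * q := by rw [e1, hq]
  refine ⟨q, ?_⟩
  linear_combination r' ^ p * h2 + e2

/-- Divisibility by a power of `π` can be tested on the two branches. -/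
theorem wp_dvd_of_branches [IsDomain R] {𝔭₁ 𝔭₂ : Ideal R} [h𝔭₁ : 𝔭₁.IsPrime]
    [h𝔭₂ : 𝔭₂.IsPrime] {π : R} (hπ0 : π ≠ 0) (hinf : 𝔭₁ ⊓ 𝔭₂ = Ideal.span {π}) :
    ∀ (n : ℕ) (z r₁ r₂ : R), r₁ ∉ 𝔭₁ → r₂ ∉ 𝔭₂ → π ^ n ∣ r₁ * z → π ^ n ∣ r₂ * z →
      π ^ n ∣ z := by
  have hπ : π ∈ 𝔭₁ ⊓ 𝔭₂ := hinf ▸ Ideal.mem_span_singleton_self π
  intro n
  induction n with
  | zero =>
    intro z _ _ _ _ _ _
    simp
  | succ n ih =>
    intro z r₁ r₂ hr₁ hr₂ h₁ h₂
    have hz₁ : z ∈ 𝔭₁ := by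
      have : r₁ * z ∈ 𝔭₁ := by
        obtain ⟨c, hc⟩ := h₁
        rw [hc, pow_succ, mul_assoc]
        exact 𝔭₁.mul_mem_left _ (𝔭₁.mul_mem_right _ hπ.1)
      exact (h𝔭₁.mem_or_mem this).resolve_left hr₁
    have hz₂ : z ∈ 𝔭₂ := by
      have : r₂ * z ∈ 𝔭₂ := by
        obtain ⟨c, hc⟩ := h₂
        rw [hc, pow_succ, mul_assoc]
        exact 𝔭₂.mul_mem_left _ (𝔭₂.mul_mem_right _ hπ.2)
      exact (h𝔭₂.mem_or_mem this).resolve_left hr₂
    have hz : z ∈ Ideal.span {π} := hinf ▸ ⟨hz₁, hz₂⟩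
    obtain ⟨z', rfl⟩ := Ideal.mem_span_singleton'.mp hz
    have h₁' : π ^ n ∣ r₁ * z' := by
      obtain ⟨c, hc⟩ := h₁
      exact ⟨c, mul_right_cancel₀ hπ0 (by linear_combination hc)⟩
    have h₂' : π ^ n ∣ r₂ * z' := by
      obtain ⟨c, hc⟩ := h₂
      exact ⟨c, mul_right_cancel₀ hπ0 (by linear_combination hc)⟩
    obtain ⟨d, hd⟩ := ih z' r₁ r₂ hr₁ hr₂ h₁' h₂'
    exact ⟨d, by rw [hd]; ring⟩

/-- On a branch which is a valuation ring: `a ^ p = ρ ^ p c` modulo `𝔭` with `ρ ∉ 𝔭` gives a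
`p`-th root of `c` modulo `𝔭`, namely `a / ρ`. -/
theorem wp_exists_root (𝔭 : Ideal R) [𝔭.IsPrime] [ValuationRing (R ⧸ 𝔭)]
    {p : ℕ} (hp : p ≠ 0) (a ρ c : R) (hρ : ρ ∉ 𝔭) (h : ρ ^ p * c - a ^ p ∈ 𝔭) :
    ∃ β : R, a - ρ * β ∈ 𝔭 ∧ β ^ p - c ∈ 𝔭 := by
  have hρ0 : Ideal.Quotient.mk 𝔭 ρ ≠ 0 := fun h0 => hρ (Ideal.Quotient.eq_zero_iff_mem.mp h0)
  have hq : Ideal.Quotient.mk 𝔭 ρ ^ p * Ideal.Quotient.mk 𝔭 c = Ideal.Quotient.mk 𝔭 a ^ p := by
    rw [← map_pow, ← map_pow, ← map_mul]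
    exact Ideal.Quotient.eq.mpr h
  have hdvd : Ideal.Quotient.mk 𝔭 ρ ∣ Ideal.Quotient.mk 𝔭 a := by
    rcases ValuationRing.dvd_total (Ideal.Quotient.mk 𝔭 ρ) (Ideal.Quotient.mk 𝔭 a) with h1 | h1
    · exact h1
    · obtain ⟨w, hw⟩ := h1
      have ha0 : Ideal.Quotient.mk 𝔭 a ≠ 0 := by
        intro h0
        rw [h0, zero_mul] at hw
        exact hρ0 hw
      have h1 : Ideal.Quotient.mk 𝔭 a ^ p * (w ^ p * Ideal.Quotient.mk 𝔭 c) =
          Ideal.Quotient.mk 𝔭 a ^ p * 1 := by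
        calc Ideal.Quotient.mk 𝔭 a ^ p * (w ^ p * Ideal.Quotient.mk 𝔭 c)
            = (Ideal.Quotient.mk 𝔭 a * w) ^ p * Ideal.Quotient.mk 𝔭 c := by ring
          _ = Ideal.Quotient.mk 𝔭 ρ ^ p * Ideal.Quotient.mk 𝔭 c := by rw [← hw]
          _ = Ideal.Quotient.mk 𝔭 a ^ p := hq
          _ = Ideal.Quotient.mk 𝔭 a ^ p * 1 := (mul_one _).symm
      have h2 : w ^ p * Ideal.Quotient.mk 𝔭 c = 1 := mul_left_cancel₀ (pow_ne_zero _ ha0) h1
      have hw' : IsUnit w := (isUnit_pow_iff hp).mp (IsUnit.of_mul_eq_one _ h2)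
      obtain ⟨w', hw'⟩ := hw'
      refine ⟨(↑w'⁻¹ : (R ⧸ 𝔭)), ?_⟩
      rw [hw, ← hw', mul_assoc, Units.mul_inv, mul_one]
  obtain ⟨β', hβ'⟩ := hdvd
  obtain ⟨β, rfl⟩ := Ideal.Quotient.mk_surjective β'
  refine ⟨β, ?_, ?_⟩
  · rw [← Ideal.Quotient.eq, map_mul]
    exact hβ'
  · rw [← Ideal.Quotient.eq, map_pow]
    have h1 : Ideal.Quotient.mk 𝔭 ρ ^ p * Ideal.Quotient.mk 𝔭 β ^ p =
        Ideal.Quotient.mk 𝔭 ρ ^ p * Ideal.Quotient.mk 𝔭 c := by
      rw [hq, hβ', mul_pow]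
    exact mul_left_cancel₀ (pow_ne_zero _ hρ0) h1

/-- Gluing two `p`-th roots of `c` on the branches along the node. -/
theorem wp_glue [IsLocalRing R] {𝔭₁ 𝔭₂ : Ideal R}
    (hsup : 𝔭₁ ⊔ 𝔭₂ = IsLocalRing.maximalIdeal R)
    {p : ℕ} (hp : p.Prime) (hpm : (p : R) ∈ IsLocalRing.maximalIdeal R) (β₁ β₂ c : R)
    (h₁ : β₁ ^ p - c ∈ 𝔭₁) (h₂ : β₂ ^ p - c ∈ 𝔭₂) :
    ∃ b : R, b - β₁ ∈ 𝔭₁ ∧ b - β₂ ∈ 𝔭₂ := by
  have hm : β₁ ^ p - β₂ ^ p ∈ IsLocalRing.maximalIdeal R := by
    rw [← hsup]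
    have : β₁ ^ p - β₂ ^ p = (β₁ ^ p - c) + -(β₂ ^ p - c) := by ring
    rw [this]
    exact Ideal.add_mem _ (Ideal.mem_sup_left h₁) (Ideal.mem_sup_right (𝔭₂.neg_mem h₂))
  obtain ⟨q, hq⟩ := exists_add_pow_prime_eq hp (β₁ - β₂) β₂
  have hpow : (β₁ - β₂) ^ p ∈ IsLocalRing.maximalIdeal R := by
    have : (β₁ - β₂) ^ p = (β₁ ^ p - β₂ ^ p) - (p : R) * ((β₁ - β₂) * β₂ * q) := by
      have h3 : (β₁ - β₂ + β₂) ^ p = β₁ ^ p := by rw [sub_add_cancel]
      linear_combination h3 - hq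
    rw [this]
    exact Ideal.sub_mem _ hm (Ideal.mul_mem_right _ _ hpm)
  have hmem : β₁ - β₂ ∈ IsLocalRing.maximalIdeal R :=
    (IsLocalRing.maximalIdeal.isMaximal R).isPrime.mem_of_pow_mem p hpow
  rw [← hsup] at hmem
  obtain ⟨u₁, hu₁, u₂, hu₂, hu⟩ := Submodule.mem_sup.mp hmem
  refine ⟨β₁ - u₁, ?_, ?_⟩
  · have : β₁ - u₁ - β₁ = -u₁ := by ring
    rw [this]
    exact 𝔭₁.neg_mem hu₁
  · have : β₁ - u₁ - β₂ = u₂ := by linear_combination -hu
    rw [this]
    exact hu₂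

end General

section Node

variable {R : Type*} [CommRing R] [IsDomain R] [IsLocalRing R]
  {𝔭₁ 𝔭₂ : Ideal R} {π x y : R}

theorem wp_pi_ne_zero (hn : IsNode 𝔭₁ 𝔭₂ π x y) : π ≠ 0 := by
  rintro rfl
  have hxy : x * y ∈ 𝔭₁ ⊓ 𝔭₂ := ⟨𝔭₁.mul_mem_left _ hn.hy, 𝔭₂.mul_mem_right _ hn.hx⟩
  rw [hn.inf_eq, Ideal.mem_span_singleton'] at hxy
  obtain ⟨a, ha⟩ := hxy
  rw [mul_zero] at ha
  rcases mul_eq_zero.mp ha.symm with h | h
  · exact hn.hx₁ (h ▸ 𝔭₁.zero_mem)
  · exact hn.hy₂ (h ▸ 𝔭₂.zero_mem)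

omit [IsDomain R] [IsLocalRing R] in
/-- A branch of a node is a discrete valuation ring. -/
theorem wp_isDVR (𝔭 : Ideal R) [𝔭.IsPrime] (ϖ : R)
    (hnu : ¬ IsUnit (Ideal.Quotient.mk 𝔭 ϖ)) (hϖ : ϖ ∉ 𝔭)
    (hunif : ∀ a : R, a ∉ 𝔭 → ∃ s : ℕ, OrdOn 𝔭 ϖ a s) :
    IsDiscreteValuationRing (R ⧸ 𝔭) := by
  have hϖ0 : Ideal.Quotient.mk 𝔭 ϖ ≠ 0 := fun h0 => hϖ (Ideal.Quotient.eq_zero_iff_mem.mp h0)
  have hfac : ∀ z : R ⧸ 𝔭, z ≠ 0 → ∃ n : ℕ, Associated (Ideal.Quotient.mk 𝔭 ϖ ^ n) z := by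
    intro z hz
    obtain ⟨a, rfl⟩ := Ideal.Quotient.mk_surjective z
    have ha : a ∉ 𝔭 := fun h => hz (Ideal.Quotient.eq_zero_iff_mem.mpr h)
    obtain ⟨s, hs⟩ := hunif a ha
    exact ⟨s, hs.symm⟩
  apply IsDiscreteValuationRing.ofHasUnitMulPowIrreducibleFactorization
  refine ⟨Ideal.Quotient.mk 𝔭 ϖ, ?_, fun {z} hz => hfac z hz⟩
  rw [irreducible_iff]
  refine ⟨hnu, fun a b hab => ?_⟩
  have ha0 : a ≠ 0 := by
    rintro rfl
    rw [zero_mul] at hab
    exact hϖ0 hab
  have hb0 : b ≠ 0 := by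
    rintro rfl
    rw [mul_zero] at hab
    exact hϖ0 hab
  obtain ⟨i, hi⟩ := hfac a ha0
  obtain ⟨j, hj⟩ := hfac b hb0
  rcases Nat.eq_zero_or_pos i with h0 | h0
  · left
    subst h0
    rw [pow_zero] at hi
    exact hi.isUnit_iff.mp isUnit_one |> fun h => h
  rcases Nat.eq_zero_or_pos j with h1 | h1
  · right
    subst h1
    rw [pow_zero] at hj
    exact hj.isUnit_iff.mp isUnit_one |> fun h => h
  exfalso
  obtain ⟨ua, hua⟩ := hi
  obtain ⟨ub, hub⟩ := hj
  obtain ⟨i', rfl⟩ : ∃ i', i = i' + 1 := ⟨i - 1, by omega⟩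
  obtain ⟨j', rfl⟩ : ∃ j', j = j' + 1 := ⟨j - 1, by omega⟩
  apply hnu
  have h2 : Ideal.Quotient.mk 𝔭 ϖ * (Ideal.Quotient.mk 𝔭 ϖ ^ (i' + j' + 1) * (ua * ub)) =
      Ideal.Quotient.mk 𝔭 ϖ * 1 := by
    rw [mul_one]
    conv_rhs => rw [hab, ← hua, ← hub]
    ring
  have h3 := mul_left_cancel₀ hϖ0 h2
  rw [pow_succ, mul_assoc, mul_comm, mul_assoc] at h3
  exact IsUnit.of_mul_eq_one _ h3

/-- `h / r` is approximated by `s` modulo `π ^ j` on the branch `𝔭`. -/
def WpApprox (𝔭 : Ideal R) (π h r s : R) (j : ℕ) : Prop :=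
  ∃ r' a : R, r' ∉ 𝔭 ∧ r' * (h - s * r) = π ^ j * a

omit [IsDomain R] [IsLocalRing R] in
theorem wp_branch {p : ℕ} (hp : p.Prime) (π u s h r t : R) (j K : ℕ) (ν : R)
    (h2 : u * r ^ p - h ^ p = π ^ K * t) (hK : j * p + 1 ≤ K)
    (hpπ : (p : R) * π ^ j = π ^ (j * p + 1) * ν)
    (r' a : R) (h1 : r' * (h - s * r) = π ^ j * a) :
    ∃ w : R, (r' * r) ^ p * (u - s ^ p) = π ^ (j * p) * (a ^ p + π * w) := by
  obtain ⟨q, hq⟩ := wp_expand hp π u s h r r' a t j K h1 h2
  obtain ⟨m, rfl⟩ := Nat.exists_eq_add_of_le hK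
  refine ⟨ν * (r' * s * r * a * q) + π ^ m * (r' ^ p * t), ?_⟩
  rw [hq, hpπ]
  ring

/-- The successive approximation step. -/
theorem wp_step (hn : IsNode 𝔭₁ 𝔭₂ π x y) [h𝔭₁ : 𝔭₁.IsPrime] [h𝔭₂ : 𝔭₂.IsPrime]
    [ValuationRing (R ⧸ 𝔭₁)] [ValuationRing (R ⧸ 𝔭₂)] {p : ℕ} (hp : p.Prime)
    (hpm : (p : R) ∈ IsLocalRing.maximalIdeal R)
    (u h₁ r₁ t₁ h₂ r₂ t₂ : R) (j K : ℕ) (ν : R)
    (hr₁ : r₁ ∉ 𝔭₁) (hr₂ : r₂ ∉ 𝔭₂)
    (e₁ : u * r₁ ^ p - h₁ ^ p = π ^ K * t₁) (e₂ : u * r₂ ^ p - h₂ ^ p = π ^ K * t₂)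
    (hK : j * p + 1 ≤ K) (hpπ : (p : R) * π ^ j = π ^ (j * p + 1) * ν)
    (s : R) (A₁ : WpApprox 𝔭₁ π h₁ r₁ s j) (A₂ : WpApprox 𝔭₂ π h₂ r₂ s j) :
    ∃ s' : R, WpApprox 𝔭₁ π h₁ r₁ s' (j + 1) ∧ WpApprox 𝔭₂ π h₂ r₂ s' (j + 1) := by
  have hπ0 := wp_pi_ne_zero hn
  have hπ : π ∈ 𝔭₁ ⊓ 𝔭₂ := hn.inf_eq ▸ Ideal.mem_span_singleton_self π
  obtain ⟨r₁', a₁, hr₁', f₁⟩ := A₁
  obtain ⟨r₂', a₂, hr₂', f₂⟩ := A₂
  obtain ⟨w₁, g₁⟩ := wp_branch hp π u s h₁ r₁ t₁ j K ν e₁ hK hpπ r₁' a₁ f₁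
  obtain ⟨w₂, g₂⟩ := wp_branch hp π u s h₂ r₂ t₂ j K ν e₂ hK hpπ r₂' a₂ f₂
  have hρ₁ : r₁' * r₁ ∉ 𝔭₁ := fun h => (h𝔭₁.mem_or_mem h).elim hr₁' hr₁
  have hρ₂ : r₂' * r₂ ∉ 𝔭₂ := fun h => (h𝔭₂.mem_or_mem h).elim hr₂' hr₂
  have hρ₁p : (r₁' * r₁) ^ p ∉ 𝔭₁ := fun h => hρ₁ (h𝔭₁.mem_of_pow_mem _ h)
  have hρ₂p : (r₂' * r₂) ^ p ∉ 𝔭₂ := fun h => hρ₂ (h𝔭₂.mem_of_pow_mem _ h)
  obtain ⟨c, hc⟩ : π ^ (j * p) ∣ u - s ^ p :=
    wp_dvd_of_branches hπ0 hn.inf_eq (j * p) (u - s ^ p) _ _ hρ₁p hρ₂p ⟨_, g₁⟩ ⟨_, g₂⟩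
  have k₁ : (r₁' * r₁) ^ p * c = a₁ ^ p + π * w₁ :=
    mul_left_cancel₀ (pow_ne_zero (j * p) hπ0) (by rw [← g₁, hc]; ring)
  have k₂ : (r₂' * r₂) ^ p * c = a₂ ^ p + π * w₂ :=
    mul_left_cancel₀ (pow_ne_zero (j * p) hπ0) (by rw [← g₂, hc]; ring)
  obtain ⟨β₁, hβ₁a, hβ₁c⟩ := wp_exists_root 𝔭₁ hp.ne_zero a₁ (r₁' * r₁) c hρ₁ (by
    rw [show (r₁' * r₁) ^ p * c - a₁ ^ p = π * w₁ by linear_combination k₁]
    exact 𝔭₁.mul_mem_right _ hπ.1)
  obtain ⟨β₂, hβ₂a, hβ₂c⟩ := wp_exists_root 𝔭₂ hp.ne_zero a₂ (r₂' * r₂) c hρ₂ (by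
    rw [show (r₂' * r₂) ^ p * c - a₂ ^ p = π * w₂ by linear_combination k₂]
    exact 𝔭₂.mul_mem_right _ hπ.2)
  obtain ⟨b, hb₁, hb₂⟩ := wp_glue hn.sup_eq hp hpm β₁ β₂ c hβ₁c hβ₂c
  refine ⟨s + π ^ j * b, ?_, ?_⟩
  · have hmem : a₁ - r₁' * r₁ * b ∈ 𝔭₁ := by
      have : a₁ - r₁' * r₁ * b = (a₁ - r₁' * r₁ * β₁) - r₁' * r₁ * (b - β₁) := by ring
      rw [this]
      exact 𝔭₁.sub_mem hβ₁a (𝔭₁.mul_mem_left _ hb₁)
    have hx : x * (a₁ - r₁' * r₁ * b) ∈ 𝔭₁ ⊓ 𝔭₂ :=
      ⟨𝔭₁.mul_mem_left _ hmem, 𝔭₂.mul_mem_right _ hn.hx⟩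
    rw [hn.inf_eq, Ideal.mem_span_singleton'] at hx
    obtain ⟨a', ha'⟩ := hx
    refine ⟨x * r₁', a', fun h => (h𝔭₁.mem_or_mem h).elim hn.hx₁ hr₁', ?_⟩
    linear_combination x * f₁ - π ^ j * ha'
  · have hmem : a₂ - r₂' * r₂ * b ∈ 𝔭₂ := by
      have : a₂ - r₂' * r₂ * b = (a₂ - r₂' * r₂ * β₂) - r₂' * r₂ * (b - β₂) := by ring
      rw [this]
      exact 𝔭₂.sub_mem hβ₂a (𝔭₂.mul_mem_left _ hb₂)
    have hy : y * (a₂ - r₂' * r₂ * b) ∈ 𝔭₁ ⊓ 𝔭₂ :=
      ⟨𝔭₁.mul_mem_right _ hn.hy, 𝔭₂.mul_mem_left _ hmem⟩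
    rw [hn.inf_eq, Ideal.mem_span_singleton'] at hy
    obtain ⟨a', ha'⟩ := hy
    refine ⟨y * r₂', a', fun h => (h𝔭₂.mem_or_mem h).elim hn.hy₂ hr₂', ?_⟩
    linear_combination y * f₂ - π ^ j * ha'

theorem wp_exp_arith (p e j : ℕ) (hp : 2 ≤ p) (hj : j < e) :
    ∃ n, e * (p - 1) + j = j * p + 1 + n := by
  obtain ⟨q, rfl⟩ : ∃ q, p = q + 2 := ⟨p - 2, by omega⟩
  obtain ⟨m, rfl⟩ : ∃ m, e = j + 1 + m := ⟨e - j - 1, by omega⟩
  refine ⟨q + m * (q + 1), ?_⟩
  have : q + 2 - 1 = q + 1 := rfl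
  rw [this]
  ring

end Node

section Main

/-- The core: a unit which is a `p`-th power modulo `π ^ (e p)` on both branches is a `p`-th power
modulo `π ^ (e p)`. -/
theorem wp_core {R : Type*} [CommRing R] [IsDomain R] [IsLocalRing R]
    {𝔭₁ 𝔭₂ : Ideal R} {π x y : R} (hn : IsNode 𝔭₁ 𝔭₂ π x y)
    [h𝔭₁ : 𝔭₁.IsPrime] [h𝔭₂ : 𝔭₂.IsPrime]
    [ValuationRing (R ⧸ 𝔭₁)] [ValuationRing (R ⧸ 𝔭₂)] {p : ℕ} (hp : p.Prime)
    (e : ℕ) (he : 0 < e) (ν : R) (hpR : (p : R) = ν * π ^ (e * (p - 1)))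
    (u : R) (hu : IsUnit u)
    (H₁ : ∃ h r t : R, r ∉ 𝔭₁ ∧ u * r ^ p - h ^ p = π ^ (e * p) * t)
    (H₂ : ∃ h r t : R, r ∉ 𝔭₂ ∧ u * r ^ p - h ^ p = π ^ (e * p) * t) :
    ∃ s c : R, IsUnit s ∧ u = s ^ p + π ^ (e * p) * c := by
  have hπ0 := wp_pi_ne_zero hn
  have hπ : π ∈ 𝔭₁ ⊓ 𝔭₂ := hn.inf_eq ▸ Ideal.mem_span_singleton_self π
  have hπm : π ∈ IsLocalRing.maximalIdeal R := hn.sup_eq ▸ Ideal.mem_sup_left hπ.1
  have hp2 := hp.two_le
  have hpm : (p : R) ∈ IsLocalRing.maximalIdeal R := by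
    rw [hpR]
    exact Ideal.mul_mem_left _ _
      (Ideal.pow_mem_of_mem _ hπm _ (Nat.mul_pos he (by omega)))
  obtain ⟨h₁, r₁, t₁, hr₁, e₁⟩ := H₁
  obtain ⟨h₂, r₂, t₂, hr₂, e₂⟩ := H₂
  have ind : ∀ j, j ≤ e → ∃ s, WpApprox 𝔭₁ π h₁ r₁ s j ∧ WpApprox 𝔭₂ π h₂ r₂ s j := by
    intro j
    induction j with
    | zero =>
      intro _
      refine ⟨0, ⟨1, h₁ - 0 * r₁, fun h => h𝔭₁.ne_top ((Ideal.eq_top_iff_one _).mpr h), by ring⟩,
        ⟨1, h₂ - 0 * r₂, fun h => h𝔭₂.ne_top ((Ideal.eq_top_iff_one _).mpr h), by ring⟩⟩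
    | succ j ih =>
      intro hj
      obtain ⟨s, A₁, A₂⟩ := ih (by omega)
      obtain ⟨n, hn'⟩ := wp_exp_arith p e j hp2 (by omega)
      have hpπ : (p : R) * π ^ j = π ^ (j * p + 1) * (ν * π ^ n) := by
        rw [hpR, mul_assoc, ← pow_add, hn', pow_add]
        ring
      have hK : j * p + 1 ≤ e * p :=
        calc j * p + 1 ≤ j * p + p := by omega
          _ = (j + 1) * p := by ring
          _ ≤ e * p := Nat.mul_le_mul_right p hj
      exact wp_step hn hp hpm u h₁ r₁ t₁ h₂ r₂ t₂ j (e * p) (ν * π ^ n) hr₁ hr₂ e₁ e₂ hK hpπ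
        s A₁ A₂
  obtain ⟨s, ⟨r₁', a₁, hr₁', f₁⟩, ⟨r₂', a₂, hr₂', f₂⟩⟩ := ind e le_rfl
  obtain ⟨q₁, E₁⟩ := wp_expand hp π u s h₁ r₁ r₁' a₁ t₁ e (e * p) f₁ e₁
  obtain ⟨q₂, E₂⟩ := wp_expand hp π u s h₂ r₂ r₂' a₂ t₂ e (e * p) f₂ e₂
  have hpe : (p : R) * π ^ e = π ^ (e * p) * ν := by
    have h1 : e * (p - 1) + e = e * p := by
      obtain ⟨q, rfl⟩ : ∃ q, p = q + 1 := ⟨p - 1, by omega⟩
      have : q + 1 - 1 = q := rfl
      rw [this]
      ring
    rw [hpR, mul_assoc, ← pow_add, h1]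
    ring
  have hρ₁p : (r₁' * r₁) ^ p ∉ 𝔭₁ := fun h =>
    (h𝔭₁.mem_or_mem (h𝔭₁.mem_of_pow_mem _ h)).elim hr₁' hr₁
  have hρ₂p : (r₂' * r₂) ^ p ∉ 𝔭₂ := fun h =>
    (h𝔭₂.mem_or_mem (h𝔭₂.mem_of_pow_mem _ h)).elim hr₂' hr₂
  have d₁ : π ^ (e * p) ∣ (r₁' * r₁) ^ p * (u - s ^ p) :=
    ⟨a₁ ^ p + ν * (r₁' * s * r₁ * a₁ * q₁) + r₁' ^ p * t₁, by rw [E₁, hpe]; ring⟩
  have d₂ : π ^ (e * p) ∣ (r₂' * r₂) ^ p * (u - s ^ p) :=
    ⟨a₂ ^ p + ν * (r₂' * s * r₂ * a₂ * q₂) + r₂' ^ p * t₂, by rw [E₂, hpe]; ring⟩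
  obtain ⟨c, hc⟩ := wp_dvd_of_branches hπ0 hn.inf_eq (e * p) (u - s ^ p) _ _ hρ₁p hρ₂p d₁ d₂
  have husc : u = s ^ p + π ^ (e * p) * c := by linear_combination hc
  refine ⟨s, c, ?_, husc⟩
  by_contra hs
  have hsm : s ∈ IsLocalRing.maximalIdeal R := (IsLocalRing.mem_maximalIdeal s).mpr hs
  have hum : u ∈ IsLocalRing.maximalIdeal R := by
    rw [husc]
    exact Ideal.add_mem _ (Ideal.pow_mem_of_mem _ hsm _ hp.pos)
      (Ideal.mul_mem_right _ _ (Ideal.pow_mem_of_mem _ hπm _ (Nat.mul_pos he hp.pos)))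
  exact (IsLocalRing.mem_maximalIdeal u).mp hum hu

/-- **WPUR** (wild purity at a node). -/
theorem wildPurity : WildPurityStatement := by
  intro R _ _ _ _ _ 𝔭₁ 𝔭₂ π x y hn p hp lam ε η e hε hlam hη he hlamπ g hg₁ hg₂ hHor H₁ H₂
  have h𝔭₁ := hn.prime₁
  have h𝔭₂ := hn.prime₂
  have : IsDiscreteValuationRing (R ⧸ 𝔭₁) := wp_isDVR 𝔭₁ x hn.nonunit₁ hn.hx₁ hn.unif₁
  have : IsDiscreteValuationRing (R ⧸ 𝔭₂) := wp_isDVR 𝔭₂ y hn.nonunit₂ hn.hy₂ hn.unif₂
  have hπ : π ∈ 𝔭₁ ⊓ 𝔭₂ := hn.inf_eq ▸ Ideal.mem_span_singleton_self π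
  -- the reductions of `g` are `p`-th powers
  have H2₁ : ∃ v : R ⧸ 𝔭₁, Associated (v ^ p) (Ideal.Quotient.mk 𝔭₁ g) := by
    obtain ⟨h, r, t, hr, hk⟩ := H₁ 1
    obtain ⟨β, -, hβ⟩ := wp_exists_root 𝔭₁ hp.ne_zero h r g hr (by
      rw [show r ^ p * g - h ^ p = π * t by linear_combination hk]
      exact 𝔭₁.mul_mem_right _ hπ.1)
    refine ⟨Ideal.Quotient.mk 𝔭₁ β, ?_⟩
    rw [← map_pow, Ideal.Quotient.eq.mpr hβ]
  have H2₂ : ∃ v : R ⧸ 𝔭₂, Associated (v ^ p) (Ideal.Quotient.mk 𝔭₂ g) := by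
    obtain ⟨h, r, t, hr, hk⟩ := H₂ 1
    obtain ⟨β, -, hβ⟩ := wp_exists_root 𝔭₂ hp.ne_zero h r g hr (by
      rw [show r ^ p * g - h ^ p = π * t by linear_combination hk]
      exact 𝔭₂.mul_mem_right _ hπ.2)
    refine ⟨Ideal.Quotient.mk 𝔭₂ β, ?_⟩
    rw [← map_pow, Ideal.Quotient.eq.mpr hβ]
  -- purity at the node
  obtain ⟨f, ε₀, hgf⟩ := Fermat.Agent.A2.H609.exists_unit_mul_pow_of_node hp.ne_zero 𝔭₁ 𝔭₂
    hn.inf_eq hn.sup_eq hg₁ hg₂ hHor H2₁ H2₂
  have hf₁ : f ∉ 𝔭₁ := fun h =>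
    hg₁ (by rw [hgf]; exact 𝔭₁.mul_mem_left _ (Ideal.pow_mem_of_mem _ h _ hp.pos))
  have hf₂ : f ∉ 𝔭₂ := fun h =>
    hg₂ (by rw [hgf]; exact 𝔭₂.mul_mem_left _ (Ideal.pow_mem_of_mem _ h _ hp.pos))
  have hf0 : f ≠ 0 := fun h => hf₁ (h ▸ 𝔭₁.zero_mem)
  obtain ⟨ε', hε'⟩ := hε.exists_right_inv
  obtain ⟨η', hη'⟩ := hη.exists_right_inv
  have hpR : (p : R) = (η ^ (p - 1) * ε') * π ^ (e * (p - 1)) := by
    have h1 : lam ^ (p - 1) * ε' = p := by rw [hlam, mul_assoc, hε', mul_one]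
    rw [← h1, hlamπ, mul_pow, ← pow_mul]
    ring
  have K₁ : ∃ h r t : R, r ∉ 𝔭₁ ∧ (ε₀ : R) * r ^ p - h ^ p = π ^ (e * p) * t := by
    obtain ⟨h, r, t, hr, hk⟩ := H₁ (e * p)
    exact ⟨h, f * r, t, fun h' => (h𝔭₁.mem_or_mem h').elim hf₁ hr, by rw [← hk, hgf]; ring⟩
  have K₂ : ∃ h r t : R, r ∉ 𝔭₂ ∧ (ε₀ : R) * r ^ p - h ^ p = π ^ (e * p) * t := by
    obtain ⟨h, r, t, hr, hk⟩ := H₂ (e * p)
    exact ⟨h, f * r, t, fun h' => (h𝔭₂.mem_or_mem h').elim hf₂ hr, by rw [← hk, hgf]; ring⟩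
  obtain ⟨s, c, hs, hsc⟩ := wp_core hn hp e he _ hpR (ε₀ : R) ε₀.isUnit K₁ K₂
  obtain ⟨s', hs'⟩ := hs.exists_right_inv
  have h1 : (η * η') ^ p = 1 := by rw [hη', one_pow]
  have h2 : (s * s') ^ p = 1 := by rw [hs', one_pow]
  refine ⟨f, 1, s, c * η' ^ p * s' ^ p, hf0, one_ne_zero, hs, ?_⟩
  rw [hgf, hlamπ]
  linear_combination f ^ p * hsc - f ^ p * π ^ (e * p) * c * (s * s') ^ p * h1
    - f ^ p * π ^ (e * p) * c * h2

end Main

end Fermat.Agent.Ribet.H7

end
-- ===== PACK-END Ribet/H7/WildPurity.lean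

-- ===== PACK-BEGIN A2/H912/CoverG.lean
section



/-!
# Cell A2, route G: the leaf COVER in the exact shape of `H12.CoverConclusion` — helper912

`coverConclusion` : for `τ : F ≃+* F` of finite order compatible with `τR : R ≃+* R`, fixing the
coordinate `x`, and `g ≠ 0` with `HorDiv R m g` and `SplitAt m V g` at every sheet `V` of `F`:
`H12.CoverConclusion w x m τ g`  (the hypothesis `hCover` of `H12.algG`).

The cover is `L = coverField τ r m g = F(τ^i(g)^{1/m} : i < r)` of `Cover.lean`.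

Transport lemmas: `horDiv_map`, `splitAt_map` (`HorDiv`, `SplitAt` are stable under ring
automorphisms of `F` compatible with an automorphism of `R` / preserving sheets).
-/

set_option autoImplicit false

namespace Fermat.Agent.A2.H912

open Polynomial
open Fermat.Agent.A2.H12

universe u

section Transport

variable {R : Type u} [CommRing R] {F : Type u} [Field F] [Algebra R F]

theorem ringAut_pow_algebraMap (τ : F ≃+* F) (τR : R ≃+* R)
    (hτR : ∀ r, τ (algebraMap R F r) = algebraMap R F (τR r)) (i : ℕ) (r : R) :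
    (τ ^ i) (algebraMap R F r) = algebraMap R F ((τR ^ i) r) := by
  induction i with
  | zero => simp
  | succ i ih => rw [pow_succ', pow_succ', RingAut.mul_apply, ih, hτR, RingAut.mul_apply]

theorem ringAut_pow_dvd_iff (w : R) (τR : R ≃+* R) (hτw : ∀ r, w ∣ r ↔ w ∣ τR r) (i : ℕ)
    (r : R) : w ∣ r ↔ w ∣ (τR ^ i) r := by
  induction i with
  | zero => simp
  | succ i ih => rw [pow_succ', RingAut.mul_apply, ← hτw, ih]

theorem ringAut_pow_fix (τ : F ≃+* F) {x : F} (hτx : τ x = x) (i : ℕ) : (τ ^ i) x = x := by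
  induction i with
  | zero => simp
  | succ i ih => rw [pow_succ', RingAut.mul_apply, ih, hτx]

/-- The ring isomorphism `V.comap ψ ≃+* V` induced by a ring automorphism `ψ`. -/
def comapEquiv (ψ : F ≃+* F) (V : ValuationSubring F) :
    (V.comap (ψ : F →+* F)) ≃+* V where
  toFun a := ⟨ψ (a : F), a.2⟩
  invFun b := ⟨ψ.symm (b : F), by
    rw [ValuationSubring.mem_comap]
    change ψ (ψ.symm (b : F)) ∈ V
    rw [RingEquiv.apply_symm_apply]
    exact b.2⟩
  left_inv a := Subtype.ext (ψ.symm_apply_apply _)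
  right_inv b := Subtype.ext (ψ.apply_symm_apply _)
  map_mul' a b := Subtype.ext (map_mul ψ _ _)
  map_add' a b := Subtype.ext (map_add ψ _ _)

/-- `HorDiv` is stable under ring automorphisms of `F` compatible with an automorphism of `R`. -/
theorem horDiv_map (m : ℕ) (ψ : F ≃+* F) (ρ : R ≃+* R)
    (hψR : ∀ r, ψ (algebraMap R F r) = algebraMap R F (ρ r)) {g : F} (h : HorDiv R m g) :
    HorDiv R m (ψ g) := by
  intro V hV hVR
  have hV' : IsDiscreteValuationRing (V.comap (ψ : F →+* F)) :=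
    IsDiscreteValuationRing.RingEquivClass.isDiscreteValuationRing (comapEquiv ψ V).symm
  obtain ⟨h₀, u, hh₀, hu, hu', hg⟩ := h (V.comap (ψ : F →+* F)) hV' (by
    intro r hr
    have hρ : ρ r ≠ 0 := fun h0 => hr ((map_eq_zero_iff ρ ρ.injective).1 h0)
    obtain ⟨h1, h2⟩ := hVR (ρ r) hρ
    refine ⟨?_, ?_⟩
    · rw [ValuationSubring.mem_comap]
      change ψ (algebraMap R F r) ∈ V
      rw [hψR]
      exact h1
    · rw [ValuationSubring.mem_comap]
      change ψ (algebraMap R F r)⁻¹ ∈ V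
      rw [map_inv₀, hψR]
      exact h2)
  refine ⟨ψ h₀, ψ u, fun h0 => hh₀ ((map_eq_zero_iff ψ ψ.injective).1 h0), hu, ?_, ?_⟩
  · rw [← map_inv₀]
    exact hu'
  · rw [hg, map_mul, map_pow]

/-- `SplitAt` at `V` for `ψ g` follows from `SplitAt` at `V.comap ψ` for `g`. -/
theorem splitAt_map (m : ℕ) (ψ : F ≃+* F) (V : ValuationSubring F) {g : F}
    (h : SplitAt m (V.comap (ψ : F →+* F)) g) : SplitAt m V (ψ g) := by
  obtain ⟨u, hu, hu', hg⟩ := h
  refine ⟨ψ u, hu, ?_, ?_⟩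
  · rw [← map_inv₀]
    exact hu'
  · rw [mem_nonunits_comap] at hg
    simpa using hg

end Transport

section Main

variable {R : Type u} [CommRing R] {F : Type u} [Field F] [Algebra R F]

theorem adjoin_range_coverSeq (τ : F ≃+* F) (r m : ℕ) (g : F) (hr : 0 < r) (hm : 0 < m)
    (hτ : τ ^ r = 1) {ζ : F} (hζ : IsPrimitiveRoot ζ m) :
    IntermediateField.adjoin F
      (Set.range (fun i : Fin r => coverSeq τ r m g hr hm hτ i)) = ⊤ := by
  rw [← Set.image_univ]
  exact adjoin_coverSeq τ r m g hr hm hτ hζ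

/-- **Leaf COVER of route G** (`hCover` of `H12.algG`). -/
theorem coverConclusion [CharZero F] (w : R) (x : F) (m : ℕ) (τ : F ≃+* F) (τR : R ≃+* R)
    (hinj : Function.Injective (algebraMap R F)) (hm : 0 < m)
    (hroot : ∃ ζ : R, IsPrimitiveRoot ζ m)
    (hτx : τ x = x) (hτR : ∀ r, τ (algebraMap R F r) = algebraMap R F (τR r))
    (hτw : ∀ r, w ∣ r ↔ w ∣ τR r)
    {r : ℕ} (hr : 0 < r) (hτr : τ ^ r = 1)
    (g : F) (hg : g ≠ 0) (hdiv : HorDiv R m g)
    (hsplit : ∀ V : ValuationSubring F, IsSheet w x V → SplitAt m V g) :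
    CoverConclusion w x m τ g := by
  obtain ⟨ζ, hζ⟩ := hroot
  have hζF : IsPrimitiveRoot (algebraMap R F ζ) m := hζ.map_of_injective hinj
  let algRL : Algebra R (coverField τ r m g) :=
    ((algebraMap F (coverField τ r m g)).comp (algebraMap R F)).toAlgebra
  have tower : IsScalarTower R F (coverField τ r m g) :=
    IsScalarTower.of_algebraMap_eq (fun _ => rfl)
  refine ⟨coverField τ r m g, inferInstance, inferInstance, algRL, tower, ?_,
    coverLift τ r m g hm hτr, coverRoot τ r m g hr hm,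
    fun f => coverLift_algebraMap τ r m g hm hτr f, coverRoot_pow τ r m g hr hm⟩
  refine ⟨inferInstance, inferInstance, r, fun i => coverSeq τ r m g hr hm hτr i,
    fun i => (τ ^ (i : ℕ)) g, ?_, ?_, ?_, ?_, ?_⟩
  · intro i
    exact (map_ne_zero_iff _ (RingEquiv.injective _)).2 hg
  · intro i
    exact coverSeq_pow τ r m g hr hm hτr i
  · exact adjoin_range_coverSeq τ r m g hr hm hτr hζF
  · intro i
    exact horDiv_map m (τ ^ (i : ℕ)) (τR ^ (i : ℕ))
      (fun a => ringAut_pow_algebraMap τ τR hτR i a) hdiv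
  · intro i V hV
    refine splitAt_map m (τ ^ (i : ℕ)) V (hsplit _ ?_)
    exact hV.comap (τ ^ (i : ℕ)) (τR ^ (i : ℕ)) (fun a => ringAut_pow_algebraMap τ τR hτR i a)
      (fun a => ringAut_pow_dvd_iff w τR hτw i a) (ringAut_pow_fix τ hτx i)

/-- **Route G, ALG assembly with the leaf COVER discharged**: `H12.algG` for `τ` of finite order,
with `hCover` replaced by `HorDiv` + `SplitAt` for `g`. -/
theorem algG_of_finite_order [IsDomain R] [IsNoetherianRing R] [IsIntegrallyClosed R[X]]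
    [CharZero F] (w : R) (x : F) (m : ℕ) (τ : F ≃+* F) (τR : R ≃+* R)
    (hinj : Function.Injective (algebraMap R F)) (hx : Transcendental R x) (hw : Prime w)
    (hm : 0 < m) (hroot : ∃ ζ : R, IsPrimitiveRoot ζ m ∧ τR ζ = ζ)
    (hτx : τ x = x) (hτR : ∀ r, τ (algebraMap R F r) = algebraMap R F (τR r))
    (hτw : ∀ r, w ∣ r ↔ w ∣ τR r)
    (hτV : ∀ V : ValuationSubring F, IsSheet w x V → ∀ c : F,
      (c ∈ V ↔ τ c ∈ V) ∧ (c ∈ V → τ c - c ∈ V.nonunits))
    (hsheet : ∃ V : ValuationSubring F, IsSheet w x V)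
    (hSheets : ∀ (L : Type u) [Field L] [Algebra F L] [Algebra R L] [IsScalarTower R F L],
      IsKummerSplit L w x m → SheetsConclusion L w x)
    (hRed : ∀ (L : Type u) [Field L] [Algebra F L] [Algebra R L] [IsScalarTower R F L],
      IsKummerSplit L w x m → RedConclusion L w x)
    (hConst : ∀ (L : Type u) [Field L] [Algebra F L] [Algebra R L] [IsScalarTower R F L],
      IsKummerSplit L w x m → ConstConclusion (R := R) L x)
    (hCount : ∀ (L : Type u) [Field L] [Algebra F L] [Algebra R L] [IsScalarTower R F L],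
      IsKummerSplit L w x m → CountConclusion L w x)
    {r : ℕ} (hr : 0 < r) (hτr : τ ^ r = 1)
    (g : F) (hg : g ≠ 0) (hdiv : HorDiv R m g)
    (hsplit : ∀ V : ValuationSubring F, IsSheet w x V → SplitAt m V g) :
    ∃ z : F, τ g = z ^ m * g :=
  algG w x m τ τR hinj hx hw hm hroot hτx hτR hτw hτV hsheet hSheets hRed hConst hCount g hg
    (coverConclusion w x m τ τR hinj hm (hroot.imp fun _ h => h.1) hτx hτR hτw hr hτr g hg hdiv
      hsplit)

end Main

end Fermat.Agent.A2.H912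

end
-- ===== PACK-END A2/H912/CoverG.lean

-- ===== PACK-BEGIN A2/Mod/H216/Bridge.lean
section





/-!
# A2 / GOODRED (helper216): the BRIDGE between the `E`-level objects of `A2/Mod/Spec.lean`
and the concrete objects of row S18 (`S18/Mod/Defs.lean`)

`F_{M,E} = FE E M ⊆ E((t))` (A2 language)  versus  `Fc M E ⊆ Ω = Om M ⊆ Q̄((t))` (S18 language).

* `bridge E M : FE E M →+* Om M` : coefficientwise embedding `E ⊆ Q̄`; injective, range `Fc M E`;
* `bridge_algebraMap`, `bridge_cE`, `bridge_jE` : constants and generators;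
* `bridge_mem_VcSet_iff`  : `H708.IsGaussInt (RE P E) _ f ↔ bridge f ∈ VcSet M P E`
                            (so `IsVinf V` means `f ∈ V ↔ bridge f ∈ VcSet`);
* `bridge_mem_chart_iff`  : `f ∈ Mod.chart P E M y ↔ bridge f ∈ S18.Alg.chart Fc R (bridge y)`.
-/

set_option autoImplicit false
set_option linter.unusedSectionVars false
set_option linter.style.haveILetI false
set_option synthInstance.maxHeartbeats 400000
set_option maxHeartbeats 1600000

noncomputable section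

namespace Fermat.Agent.A2.Mod.H216

open ModularCurve HahnSeries Polynomial

variable (P : ValuationSubring _root_.Fermat.Agent.A2.Mod.Qb) (E : IntermediateField ℚ _root_.Fermat.Agent.A2.Mod.Qb) (M : ℕ)

/-- The coefficientwise embedding `F_{M,E} → Ω = F_M`. -/
def bridge : _root_.Fermat.Agent.A2.Mod.FE E M →+* S18.Mod.Om M where
  toFun f := ⟨coeffMap (algebraMap E _root_.Fermat.Agent.A2.Mod.Qb) (f : LaurentSeries E),
    S18.H602.coeffMap_mem_laurentBaseChange _ _ f.2⟩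
  map_one' := Subtype.ext (by simp)
  map_mul' x y := Subtype.ext (by simp)
  map_zero' := Subtype.ext (by simp)
  map_add' x y := Subtype.ext (by simp)

variable {E M}

theorem coe_bridge (f : _root_.Fermat.Agent.A2.Mod.FE E M) :
    ((bridge E M f : S18.Mod.Om M) : LaurentSeries _root_.Fermat.Agent.A2.Mod.Qb) =
      coeffMap (algebraMap E _root_.Fermat.Agent.A2.Mod.Qb) (f : LaurentSeries E) := rfl

theorem bridge_injective : Function.Injective (bridge E M) := by
  intro x y h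
  have h1 : coeffMap (algebraMap E _root_.Fermat.Agent.A2.Mod.Qb) (x : LaurentSeries E) =
      coeffMap (algebraMap E _root_.Fermat.Agent.A2.Mod.Qb) (y : LaurentSeries E) := congrArg Subtype.val h
  exact Subtype.ext (S18.H602.coeffMap_injective _ (algebraMap E _root_.Fermat.Agent.A2.Mod.Qb).injective h1)

theorem bridge_mem_Fc (f : _root_.Fermat.Agent.A2.Mod.FE E M) : bridge E M f ∈ S18.Mod.Fc M E := by
  obtain ⟨g, hg, hgf⟩ := S18.H576.exists_mem_Fc_of_mem_FE (M := M) (E := E) f.2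
  have : bridge E M f = g := Subtype.ext (by rw [coe_bridge, hgf])
  rw [this]
  exact hg

theorem exists_bridge_eq {g : S18.Mod.Om M} (hg : g ∈ S18.Mod.Fc M E) :
    ∃ f : _root_.Fermat.Agent.A2.Mod.FE E M, bridge E M f = g := by
  obtain ⟨y, hy, hyg⟩ := S18.H576.descendsTo_of_mem_Fc hg
  exact ⟨⟨y, hy⟩, Subtype.ext hyg⟩

theorem bridge_algebraMap (e : E) :
    bridge E M (algebraMap E (_root_.Fermat.Agent.A2.Mod.FE E M) e) = algebraMap _root_.Fermat.Agent.A2.Mod.Qb (S18.Mod.Om M) (e : _root_.Fermat.Agent.A2.Mod.Qb) := by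
  apply Subtype.ext
  rw [coe_bridge]
  exact S18.H602.coeffMap_algebraMap' (algebraMap E _root_.Fermat.Agent.A2.Mod.Qb) e

theorem bridge_cE (r : _root_.Fermat.Agent.A2.Mod.RE P E) :
    bridge E M (cE P E M r) = S18.H576.iotaR M P E r :=
  bridge_algebraMap (r : E)

theorem bridge_cE_mem_Rc (r : _root_.Fermat.Agent.A2.Mod.RE P E) : bridge E M (cE P E M r) ∈ S18.Mod.Rc M P E := by
  rw [bridge_cE]
  exact S18.H576.mem_Rc_iff_exists_iotaR.2 ⟨r, rfl⟩

theorem bridge_jE (d : ℕ) [NeZero d] (hd : d ∣ M) :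
    bridge E M (jE E M d hd) = S18.Mod.jd M d hd := by
  apply Subtype.ext
  rw [coe_bridge]
  exact S18.H602.coeffMap_coeffEmb' (algebraMap E _root_.Fermat.Agent.A2.Mod.Qb) _

/-! ### The Gauss valuation ring -/

theorem bridge_mem_VcSet_iff (f : _root_.Fermat.Agent.A2.Mod.FE E M) :
    bridge E M f ∈ S18.Mod.VcSet M P E ↔
      H708.IsGaussInt (_root_.Fermat.Agent.A2.Mod.RE P E) (modularFunctionFieldFull M) (f : LaurentSeries E) := by
  constructor
  · intro hf
    obtain ⟨V₁, V₂, h2, h⟩ := S18.H576.exists_rep_of_mem_VcSet hf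
    refine ⟨V₁.1, V₂.1, h2, V₂.2, ?_⟩
    apply S18.H602.coeffMap_injective _ (algebraMap E _root_.Fermat.Agent.A2.Mod.Qb).injective
    have h' := congrArg Subtype.val h
    rw [map_mul]
    exact h'
  · rintro ⟨U₁, U₂, h0, hm, he⟩
    have hm1 : coeffMap (_root_.Fermat.Agent.A2.Mod.RE P E).subtype U₁ ∈
        laurentBaseChange E (modularFunctionFieldFull M) := by
      have : H708.incl (_root_.Fermat.Agent.A2.Mod.RE P E) U₁ = (f : LaurentSeries E) * H708.incl (_root_.Fermat.Agent.A2.Mod.RE P E) U₂ := he.symm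
      show H708.incl (_root_.Fermat.Agent.A2.Mod.RE P E) U₁ ∈ _
      rw [this]
      exact mul_mem f.2 hm
    refine S18.H576.mem_VcSet_of_rep (M := M) (A := P) (E := E) ⟨U₁, hm1⟩ ⟨U₂, hm⟩ h0 ?_
    apply Subtype.ext
    show coeffMap (algebraMap E _root_.Fermat.Agent.A2.Mod.Qb) (f : LaurentSeries E) *
        coeffMap (algebraMap E _root_.Fermat.Agent.A2.Mod.Qb) (coeffMap (_root_.Fermat.Agent.A2.Mod.RE P E).subtype U₂) =
      coeffMap (algebraMap E _root_.Fermat.Agent.A2.Mod.Qb) (coeffMap (_root_.Fermat.Agent.A2.Mod.RE P E).subtype U₁)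
    rw [← map_mul]
    exact congrArg _ he

theorem mem_iff_bridge_mem_VcSet {V : ValuationSubring (_root_.Fermat.Agent.A2.Mod.FE E M)} (hV : IsVinf P E M V)
    (f : _root_.Fermat.Agent.A2.Mod.FE E M) : f ∈ V ↔ bridge E M f ∈ S18.Mod.VcSet M P E := by
  rw [bridge_mem_VcSet_iff]
  exact hV f

theorem mem_iff_bridge_mem_Vc {V : ValuationSubring (_root_.Fermat.Agent.A2.Mod.FE E M)} (hV : IsVinf P E M V)
    (f : _root_.Fermat.Agent.A2.Mod.FE E M) : f ∈ V ↔ bridge E M f ∈ S18.Mod.H216.Vc M P E := by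
  rw [mem_iff_bridge_mem_VcSet P hV]
  rw [← S18.Mod.H216.coe_Vc M P E]
  rfl

/-! ### The charts -/

section Chart

variable (y : _root_.Fermat.Agent.A2.Mod.FE E M)

/-- The structure map `R_E → F_{M,E}`. -/
abbrev c0 (P : ValuationSubring _root_.Fermat.Agent.A2.Mod.Qb) (E : IntermediateField ℚ _root_.Fermat.Agent.A2.Mod.Qb) (M : ℕ) : _root_.Fermat.Agent.A2.Mod.RE P E →+* _root_.Fermat.Agent.A2.Mod.FE E M :=
  (algebraMap E (_root_.Fermat.Agent.A2.Mod.FE E M)).comp (_root_.Fermat.Agent.A2.Mod.RE P E).subtype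

/-- `R_E → R = Rc M P E`. -/
def toRc (P : ValuationSubring _root_.Fermat.Agent.A2.Mod.Qb) (E : IntermediateField ℚ _root_.Fermat.Agent.A2.Mod.Qb) (M : ℕ) :
    _root_.Fermat.Agent.A2.Mod.RE P E →+* ↥(S18.Mod.Rc M P E) :=
  ((bridge E M).comp (c0 P E M)).codRestrict (S18.Mod.Rc M P E) (fun r => bridge_cE_mem_Rc P r)

theorem coe_toRc (r : _root_.Fermat.Agent.A2.Mod.RE P E) :
    ((toRc P E M r : ↥(S18.Mod.Rc M P E)) : S18.Mod.Om M) = bridge E M (c0 P E M r) := rfl

theorem toRc_surjective : Function.Surjective (toRc P E M) := by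
  rintro ⟨u, hu⟩
  obtain ⟨r, hr⟩ := S18.H576.mem_Rc_iff_exists_iotaR.1 hu
  have hr' : bridge E M (cE P E M (show _root_.Fermat.Agent.A2.Mod.RE P E from r)) = u := by
    rw [bridge_cE]
    exact hr
  exact ⟨(show _root_.Fermat.Agent.A2.Mod.RE P E from r), Subtype.ext hr'⟩

/-- `bridge (a(y)) = (ρ a)(bridge y)` for `a ∈ R_E[X]`. -/
theorem bridge_eval₂ (a : Polynomial (_root_.Fermat.Agent.A2.Mod.RE P E)) :
    bridge E M (a.eval₂ (c0 P E M) y) =
      S18.Mod.H216.evR (S18.Mod.Rc M P E) (bridge E M y) (a.map (toRc P E M)) := by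
  rw [S18.Mod.H216.evR_apply, Polynomial.eval₂_map, Polynomial.hom_eval₂]
  rfl

theorem bridge_eval₂_mem_polyRing (a : Polynomial (_root_.Fermat.Agent.A2.Mod.RE P E)) :
    bridge E M (a.eval₂ (c0 P E M) y) ∈
      S18.Alg.polyRing (S18.Mod.Rc M P E) (bridge E M y) := by
  rw [bridge_eval₂, S18.Mod.H216.mem_polyRing_iff]
  exact ⟨_, rfl⟩

/-- `R_E[X] → R[bridge y]`, `X ↦ bridge y`. -/
def toPolyRing : Polynomial (_root_.Fermat.Agent.A2.Mod.RE P E) →+*
    ↥(S18.Alg.polyRing (S18.Mod.Rc M P E) (bridge E M y)) :=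
  ((bridge E M).comp (Polynomial.eval₂RingHom (c0 P E M) y)).codRestrict _
    (fun a => bridge_eval₂_mem_polyRing P y a)

theorem coe_toPolyRing (a : Polynomial (_root_.Fermat.Agent.A2.Mod.RE P E)) :
    ((toPolyRing P y a : ↥(S18.Alg.polyRing (S18.Mod.Rc M P E) (bridge E M y))) :
      S18.Mod.Om M) = bridge E M (a.eval₂ (c0 P E M) y) := rfl

theorem toPolyRing_surjective : Function.Surjective (toPolyRing P y) := by
  rintro ⟨u, hu⟩
  obtain ⟨p, hp⟩ := (S18.Mod.H216.mem_polyRing_iff _ _).1 hu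
  obtain ⟨a, ha⟩ := Polynomial.map_surjective (toRc P E M) (toRc_surjective P) p
  refine ⟨a, Subtype.ext ?_⟩
  rw [coe_toPolyRing, bridge_eval₂, ha, hp]

theorem subtype_comp_toPolyRing :
    (S18.Alg.polyRing (S18.Mod.Rc M P E) (bridge E M y)).subtype.comp (toPolyRing P y) =
      (bridge E M).comp (Polynomial.eval₂RingHom (c0 P E M) y) :=
  RingHom.ext fun _ => rfl

/-- **The charts correspond.** -/
theorem bridge_mem_chart_iff (f : _root_.Fermat.Agent.A2.Mod.FE E M) :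
    f ∈ chart P E M y ↔
      bridge E M f ∈ S18.Alg.chart (S18.Mod.Fc M E) (S18.Mod.Rc M P E) (bridge E M y) := by
  constructor
  · rintro ⟨p, hpm, hp⟩
    refine ⟨bridge_mem_Fc f, p.map (toPolyRing P y), hpm.map _, ?_⟩
    rw [Polynomial.eval₂_map]
    have h1 : (algebraMap ↥(S18.Alg.polyRing (S18.Mod.Rc M P E) (bridge E M y))
        (S18.Mod.Om M)).comp (toPolyRing P y) =
        (bridge E M).comp (Polynomial.eval₂RingHom (c0 P E M) y) :=
      subtype_comp_toPolyRing P y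
    rw [h1, ← Polynomial.hom_eval₂]
    have hp' : p.eval₂ (Polynomial.eval₂RingHom (c0 P E M) y) f = 0 := hp
    rw [hp', map_zero]
  · rintro ⟨-, p, hpm, hp⟩
    have hl : p ∈ Polynomial.lifts (toPolyRing P y) := by
      rw [Polynomial.lifts_iff_coeff_lifts]
      intro i
      exact toPolyRing_surjective P y _
    obtain ⟨q, hq, -, hqm⟩ := Polynomial.lifts_and_natDegree_eq_and_monic hl hpm
    refine ⟨q, hqm, ?_⟩
    apply bridge_injective
    rw [map_zero, Polynomial.hom_eval₂]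
    have h1 : (algebraMap ↥(S18.Alg.polyRing (S18.Mod.Rc M P E) (bridge E M y))
        (S18.Mod.Om M)).comp (toPolyRing P y) =
        (bridge E M).comp (Polynomial.eval₂RingHom (c0 P E M) y) :=
      subtype_comp_toPolyRing P y
    rw [← h1, ← Polynomial.eval₂_map, hq]
    exact hp

end Chart

end Fermat.Agent.A2.Mod.H216

end
end
-- ===== PACK-END A2/Mod/H216/Bridge.lean

-- ===== PACK-BEGIN Ribet/H819/PerKum.lean
section



/-!
# Row 38, WALL-p, (S4) WILD: the context of INST-D from the Kummer generator `f_t` (helper819)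

`K` a field of characteristic `0` (`ℚ̄`), `F₀ ⊆ ℚ((t))`, `E₁ ⊆ K` the tame level,
`K₁ = F_{E₁} = laurentBaseChange E₁ F₀`, `f_t ∈ K₁` with leading coefficient `1`, order divisible
by `p`, not a `p`-th power in `K₁`.

* `rootBC` : a `p`-th root `h ∈ E₁((t)) ⊆ K((t))` of `f_t`; `rootBC_pow`, `rootBC_coeff_mem`,
  `rootBC_notMem`, `rootBC_leadingCoeff`;
* `PerCtx.ofKummer` : the context `c : PerCtx K` with `c.F₁ = imBC F₀ E₁` (by `rfl`),
  `c.h = rootBC`, `c.h ^ p = embBC f_t`;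
* `PerCtx.ofKummer_shell` : `PerShell.shell_period` for this context, from the ambient KD relation
  `σ₀ F = F · κ · f_t · G₀ ^ p` (`F = embBC f₂`), i.e. `σ₀ x = x + t` on Kummer generators.
-/

set_option autoImplicit false
set_option linter.unusedSectionVars false
set_option linter.style.haveILetI false
set_option maxHeartbeats 400000

noncomputable section

namespace Fermat.Agent.Ribet.H819

open ModularCurve

section Root

variable {K : Type} [Field K] [Algebra ℚ K] (F₀ : IntermediateField ℚ (LaurentSeries ℚ))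

theorem order_coeffMap_of_injective {R S : Type*} [Field R] [Field S] (f : R →+* S)
    (x : LaurentSeries R) : (coeffMap f x).order = x.order := by
  by_cases hx : x = 0
  · rw [hx, map_zero, HahnSeries.order_zero, HahnSeries.order_zero]
  have hinj : Function.Injective (coeffMap f) := (coeffMap f).injective
  have hy : coeffMap f x ≠ 0 := fun h0 => hx (hinj (by rw [h0, map_zero]))
  apply le_antisymm
  · apply HahnSeries.order_le_of_coeff_ne_zero
    rw [coeffMap_coeff]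
    intro h0
    have : x.coeff x.order = 0 := f.injective (by rw [h0, map_zero])
    exact hx (HahnSeries.coeff_order_eq_zero.mp this)
  · apply HahnSeries.order_le_of_coeff_ne_zero
    intro h0
    have : (coeffMap f x).coeff (coeffMap f x).order = 0 := by
      rw [coeffMap_coeff, h0, map_zero]
    exact hy (HahnSeries.coeff_order_eq_zero.mp this)

theorem leadingCoeff_coeffMap_of_injective {R S : Type*} [Field R] [Field S] (f : R →+* S)
    (x : LaurentSeries R) : (coeffMap f x).leadingCoeff = f x.leadingCoeff := by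
  rw [HahnSeries.leadingCoeff_eq, HahnSeries.leadingCoeff_eq, order_coeffMap_of_injective,
    coeffMap_coeff]

variable (p : ℕ) (hp0 : p ≠ 0) (E₁ : IntermediateField ℚ K) (ft : ↥(laurentBaseChange ↥E₁ F₀))
  (hlc : (ft : LaurentSeries ↥E₁).leadingCoeff = 1)
  (hord : (p : ℤ) ∣ (ft : LaurentSeries ↥E₁).order)

include hp0 hlc hord in
theorem exists_rootBC :
    ∃ h' : LaurentSeries ↥E₁, h' ^ p = (ft : LaurentSeries ↥E₁) ∧ h'.leadingCoeff = 1 := by
  have hp : ((p : ℕ) : ↥E₁) ≠ 0 := Nat.cast_ne_zero.mpr hp0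
  obtain ⟨h', h1, -, h2, -⟩ := exists_root_laurent_h819 p hp0 hp (ft : LaurentSeries ↥E₁) hlc hord
  exact ⟨h', h1, h2⟩

/-- A `p`-th root of `f_t` in `E₁((t)) ⊆ K((t))`. -/
def rootBC : LaurentSeries K :=
  coeffMap (algebraMap ↥E₁ K) (exists_rootBC F₀ p hp0 E₁ ft hlc hord).choose

theorem rootBC_pow : rootBC F₀ p hp0 E₁ ft hlc hord ^ p = embBC F₀ E₁ ft := by
  rw [rootBC, ← map_pow, (exists_rootBC F₀ p hp0 E₁ ft hlc hord).choose_spec.1]
  rfl

theorem rootBC_coeff_mem (n : ℤ) : (rootBC F₀ p hp0 E₁ ft hlc hord).coeff n ∈ E₁ := by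
  rw [rootBC, coeffMap_coeff]
  exact (((exists_rootBC F₀ p hp0 E₁ ft hlc hord).choose).coeff n).2

theorem rootBC_leadingCoeff : (rootBC F₀ p hp0 E₁ ft hlc hord).leadingCoeff = 1 := by
  rw [rootBC, leadingCoeff_coeffMap_of_injective,
    (exists_rootBC F₀ p hp0 E₁ ft hlc hord).choose_spec.2, map_one]

theorem rootBC_notMem (hnp : ∀ x : ↥(laurentBaseChange ↥E₁ F₀), x ^ p ≠ ft) :
    rootBC F₀ p hp0 E₁ ft hlc hord ∉ imBC F₀ E₁ := by
  intro hmem
  obtain ⟨x, hx⟩ := (mem_imBC_iff F₀ E₁ _).mp hmem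
  apply hnp x
  apply (embBC F₀ E₁).injective
  rw [map_pow, hx, rootBC_pow]

end Root

namespace PerCtx

section OfKummer

variable {K : Type} [Field K] [Algebra ℚ K] (F₀ : IntermediateField ℚ (LaurentSeries ℚ))
  (p : ℕ) (hp : p.Prime) (E₁ : IntermediateField ℚ K) (ζ : K) (hζ : IsPrimitiveRoot ζ p)
  (hζE : ζ ∈ E₁) (σ₀ : K ≃+* K) (hσE : ∀ c ∈ E₁, σ₀ c = c) (u : K) (hσu : σ₀ u = ζ⁻¹ * u)
  (hu0 : u ≠ 0) (hup : u ^ p ∈ E₁) (ft : ↥(laurentBaseChange ↥E₁ F₀))
  (hlc : (ft : LaurentSeries ↥E₁).leadingCoeff = 1)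
  (hord : (p : ℤ) ∣ (ft : LaurentSeries ↥E₁).order)
  (hnp : ∀ x : ↥(laurentBaseChange ↥E₁ F₀), x ^ p ≠ ft)

/-- **The context of INST-D** attached to the tame level `E₁`, the Kummer pair `(σ₀, u)` and the
normalised Kummer generator `f_t ∈ F_{E₁}` of `t`. -/
def ofKummer : PerCtx K :=
  ofBC F₀ p hp E₁ ζ hζ hζE σ₀ hσE u hσu hu0 hup (rootBC F₀ p hp.ne_zero E₁ ft hlc hord)
    (rootBC_coeff_mem F₀ p hp.ne_zero E₁ ft hlc hord)
    (by rw [rootBC_pow]; exact embBC_mem F₀ E₁ ft)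
    (rootBC_notMem F₀ p hp.ne_zero E₁ ft hlc hord hnp)

theorem ofKummer_p :
    (ofKummer F₀ p hp E₁ ζ hζ hζE σ₀ hσE u hσu hu0 hup ft hlc hord hnp).p = p := rfl

theorem ofKummer_u :
    (ofKummer F₀ p hp E₁ ζ hζ hζE σ₀ hσE u hσu hu0 hup ft hlc hord hnp).u = u := rfl

theorem ofKummer_zeta :
    (ofKummer F₀ p hp E₁ ζ hζ hζE σ₀ hσE u hσu hu0 hup ft hlc hord hnp).ζ = ζ := rfl

theorem ofKummer_sigma₀ :
    (ofKummer F₀ p hp E₁ ζ hζ hζE σ₀ hσE u hσu hu0 hup ft hlc hord hnp).σ₀ = σ₀ := rfl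

theorem ofKummer_F₁ :
    (ofKummer F₀ p hp E₁ ζ hζ hζE σ₀ hσE u hσu hu0 hup ft hlc hord hnp).F₁ = imBC F₀ E₁ := rfl

theorem ofKummer_E₁ :
    (ofKummer F₀ p hp E₁ ζ hζ hζE σ₀ hσE u hσu hu0 hup ft hlc hord hnp).E₁ = E₁.toSubfield :=
  rfl

theorem ofKummer_h_pow :
    (ofKummer F₀ p hp E₁ ζ hζ hζE σ₀ hσE u hσu hu0 hup ft hlc hord hnp).h ^ p =
      embBC F₀ E₁ ft :=
  rootBC_pow F₀ p hp.ne_zero E₁ ft hlc hord

theorem ofKummer_h_leadingCoeff :
    (ofKummer F₀ p hp E₁ ζ hζ hζE σ₀ hσE u hσu hu0 hup ft hlc hord hnp).h.leadingCoeff = 1 :=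
  rootBC_leadingCoeff F₀ p hp.ne_zero E₁ ft hlc hord

end OfKummer

end PerCtx

end Fermat.Agent.Ribet.H819

end

end
-- ===== PACK-END Ribet/H819/PerKum.lean

-- ===== PACK-BEGIN Ribet/H819/PerHK2.lean
section


/-!
# Row 38, WALL-p, (S4) WILD: `K₂ = K₁ · E₂` (helper819)

`K₁ = F_{E₁} = laurentBaseChange E₁ F₀`, `K₂ = F_{E₂}`, with ANY `[Algebra K₁ K₂]` compatible with
the embeddings into `K((t))` (`hcompat`).  Then `K₂` is generated over `K₁` by the constants of
`E₂`: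

  `adjoin_range_BC : IntermediateField.adjoin K₁ (Set.range (algebraMap E₂ K₂)) = ⊤`

(the hypothesis `hK2` of HOR-DESC: `H769.horDesc_frame769`, `H127.divisibleDiv_descent_frame_h127`).
-/

set_option autoImplicit false
set_option linter.unusedSectionVars false
set_option linter.style.haveILetI false
set_option maxHeartbeats 400000

noncomputable section

namespace Fermat.Agent.Ribet.H819

open ModularCurve

section HK2

variable {K : Type} [Field K] [Algebra ℚ K] (F₀ : IntermediateField ℚ (LaurentSeries ℚ))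
  {E₁ E₂ : IntermediateField ℚ K}

theorem embBC_injective (E : IntermediateField ℚ K) : Function.Injective (embBC F₀ E) :=
  (embBC F₀ E).injective

theorem embBC_coeffEmb (E : IntermediateField ℚ K) {y : LaurentSeries ℚ} (hy : y ∈ F₀) :
    embBC F₀ E ⟨coeffEmb ↥E y, coeffEmb_mem_laurentBaseChange ↥E hy⟩ = coeffEmb K y := by
  rw [embBC_apply]
  show coeffMap (algebraMap ↥E K) (coeffMap (algebraMap ℚ ↥E) y) = coeffMap (algebraMap ℚ K) y
  rw [coeffMap_coeffMap]
  exact coeffMap_congr (RingHom.ext fun q => (IsScalarTower.algebraMap_apply ℚ ↥E K q).symm) y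

variable [Algebra ↥(laurentBaseChange ↥E₁ F₀) ↥(laurentBaseChange ↥E₂ F₀)]
  (hcompat : ∀ x : ↥(laurentBaseChange ↥E₁ F₀),
    embBC F₀ E₂ (algebraMap ↥(laurentBaseChange ↥E₁ F₀) ↥(laurentBaseChange ↥E₂ F₀) x) =
      embBC F₀ E₁ x)

include hcompat in
theorem algebraMap_coeffEmb_BC {y : LaurentSeries ℚ} (hy : y ∈ F₀) :
    algebraMap ↥(laurentBaseChange ↥E₁ F₀) ↥(laurentBaseChange ↥E₂ F₀)
      ⟨coeffEmb ↥E₁ y, coeffEmb_mem_laurentBaseChange ↥E₁ hy⟩ =
      ⟨coeffEmb ↥E₂ y, coeffEmb_mem_laurentBaseChange ↥E₂ hy⟩ := by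
  apply embBC_injective F₀ E₂
  rw [hcompat, embBC_coeffEmb F₀ E₁ hy, embBC_coeffEmb F₀ E₂ hy]

include hcompat in
/-- **`K₂ = K₁ · E₂`.** -/
theorem adjoin_range_BC :
    IntermediateField.adjoin ↥(laurentBaseChange ↥E₁ F₀)
      (Set.range (algebraMap ↥E₂ ↥(laurentBaseChange ↥E₂ F₀))) = ⊤ := by
  rw [eq_top_iff]
  rintro ⟨z, hz⟩ -
  have key : ∀ (z : LaurentSeries ↥E₂) (hz : z ∈ laurentBaseChange ↥E₂ F₀),
      (⟨z, hz⟩ : ↥(laurentBaseChange ↥E₂ F₀)) ∈
        IntermediateField.adjoin ↥(laurentBaseChange ↥E₁ F₀)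
          (Set.range (algebraMap ↥E₂ ↥(laurentBaseChange ↥E₂ F₀))) := by
    intro z hz
    have hz' : z ∈ IntermediateField.adjoin ↥E₂
        (⇑(coeffEmb ↥E₂) '' (F₀ : Set (LaurentSeries ℚ))) := hz
    induction hz' using IntermediateField.adjoin_induction with
    | mem x hx =>
      obtain ⟨y, hy, rfl⟩ := hx
      have := algebraMap_coeffEmb_BC F₀ hcompat hy
      have h2 : (⟨coeffEmb ↥E₂ y, hz⟩ : ↥(laurentBaseChange ↥E₂ F₀)) =
          algebraMap ↥(laurentBaseChange ↥E₁ F₀) ↥(laurentBaseChange ↥E₂ F₀)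
            ⟨coeffEmb ↥E₁ y, coeffEmb_mem_laurentBaseChange ↥E₁ hy⟩ := this.symm
      rw [h2]
      exact IntermediateField.algebraMap_mem _ _
    | algebraMap x =>
      have h2 : (⟨algebraMap ↥E₂ (LaurentSeries ↥E₂) x, hz⟩ : ↥(laurentBaseChange ↥E₂ F₀)) =
          algebraMap ↥E₂ ↥(laurentBaseChange ↥E₂ F₀) x := Subtype.ext rfl
      rw [h2]
      exact IntermediateField.subset_adjoin _ _ ⟨x, rfl⟩
    | add x y hx hy ihx ihy =>
      have h2 : (⟨x + y, hz⟩ : ↥(laurentBaseChange ↥E₂ F₀)) = ⟨x, hx⟩ + ⟨y, hy⟩ :=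
        Subtype.ext rfl
      rw [h2]
      exact add_mem (ihx hx) (ihy hy)
    | inv x hx ihx =>
      have h2 : (⟨x⁻¹, hz⟩ : ↥(laurentBaseChange ↥E₂ F₀)) = (⟨x, hx⟩)⁻¹ := Subtype.ext rfl
      rw [h2]
      exact inv_mem (ihx hx)
    | mul x y hx hy ihx ihy =>
      have h2 : (⟨x * y, hz⟩ : ↥(laurentBaseChange ↥E₂ F₀)) = ⟨x, hx⟩ * ⟨y, hy⟩ :=
        Subtype.ext rfl
      rw [h2]
      exact mul_mem (ihx hx) (ihy hy)
  exact key z hz

end HK2

end Fermat.Agent.Ribet.H819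

end

end
-- ===== PACK-END Ribet/H819/PerHK2.lean

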