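import Fermat.Prelude.Def_AlgebraicCurve_DivisorPushPull
import Mathlib
import Fermat.Prelude.Def_AlgebraicCurve_DivisorClassGroup
import Fermat.Agent.Pack.S44.G1E0L0

-- ===== PACK-BEGIN Lib/FF460/Fund.lean
section



/-!
# Function-field library (helper460): the fundamental identity `∑ e(w|v) f(w|v) = [F' : F]`

For a finite extension `F'/F` of function fields over an algebraically closed field `K` of
characteristic zero, in the Prelude's `Place` language: `SumRamificationInertia K F F'`
(hence `FundamentalIdentity K F F'`).  Proof: Mathlib's Dedekind theory for the integral closure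
`B` of the discrete valuation ring `O_v` in `F'`.
-/

set_option autoImplicit false
set_option linter.unusedSectionVars false
set_option linter.style.haveILetI false

open IsDedekindDomain AlgebraicCurve

namespace Fermat.Agent.Lib.FF460

section Setup

variable {K F : Type*} (F' : Type*) [Field K] [Field F] [Field F'] [Algebra K F] [Algebra K F']
  [Algebra F F'] [IsScalarTower K F F']
variable (v : Place K F)

/-- The integral closure of the valuation ring `O_v` in `F'`. -/
abbrev intCl : Subalgebra ↥v.toValuationSubring F' := integralClosure ↥v.toValuationSubring F'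

instance instAlgebraIntCl : Algebra K (intCl F' v) :=
  ((algebraMap ↥v.toValuationSubring (intCl F' v)).comp
    (algebraMap K ↥v.toValuationSubring)).toAlgebra

instance instIsScalarTowerIntCl : IsScalarTower K (intCl F' v) F' :=
  IsScalarTower.of_algebraMap_eq fun k => by
    show algebraMap K F' k = algebraMap F F' (algebraMap K F k)
    rw [← IsScalarTower.algebraMap_apply]

instance instIsScalarTowerIntClMid : IsScalarTower K ↥v.toValuationSubring (intCl F' v) :=
  IsScalarTower.of_algebraMap_eq fun _ => rfl

theorem algebraMap_intCl_injective :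
    Function.Injective (algebraMap ↥v.toValuationSubring (intCl F' v)) := by
  intro a b h
  have h' : algebraMap F F' (a : F) = algebraMap F F' (b : F) := congrArg Subtype.val h
  exact Subtype.ext ((algebraMap F F').injective h')

instance instFaithfulSMulIntCl : FaithfulSMul ↥v.toValuationSubring (intCl F' v) :=
  (faithfulSMul_iff_algebraMap_injective _ _).mpr (algebraMap_intCl_injective F' v)

variable [FiniteDimensional F F'] [Algebra.IsSeparable F F']

instance instIsDedekindDomainIntCl : IsDedekindDomain (intCl F' v) :=
  integralClosure.isDedekindDomain ↥v.toValuationSubring F F'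

instance instIsFractionRingIntCl : IsFractionRing (intCl F' v) F' :=
  integralClosure.isFractionRing_of_finite_extension F F'

instance instModuleFiniteIntCl : Module.Finite ↥v.toValuationSubring (intCl F' v) :=
  IsIntegralClosure.finite ↥v.toValuationSubring F F' (intCl F' v)

end Setup

section Places

variable {K F F' : Type*} [Field K] [Field F] [Field F'] [Algebra K F] [Algebra K F']
  [Algebra F F'] [IsScalarTower K F F'] [FiniteDimensional F F'] [Algebra.IsSeparable F F']
variable (v : Place K F)

/-- The maximal ideal of the valuation ring of `v`. -/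
abbrev maxId : Ideal ↥v.toValuationSubring := IsLocalRing.maximalIdeal ↥v.toValuationSubring

omit [Field F'] [Algebra K F'] [Algebra F F'] [IsScalarTower K F F'] [FiniteDimensional F F']
  [Algebra.IsSeparable F F'] in
theorem maxId_ne_bot : maxId v ≠ ⊥ :=
  IsDiscreteValuationRing.not_a_field _

/-- The height-one prime of `B` attached to a prime over the maximal ideal of `O_v`. -/
def primeOfOver (Q : (maxId v).primesOver (intCl F' v)) : HeightOneSpectrum (intCl F' v) :=
  haveI := Q.2.2
  ⟨Q.1, Q.2.1, Ideal.ne_bot_of_liesOver_of_ne_bot (maxId_ne_bot v) Q.1⟩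

@[simp] theorem primeOfOver_asIdeal (Q : (maxId v).primesOver (intCl F' v)) :
    (primeOfOver v Q).asIdeal = Q.1 := rfl

instance primeOfOver_liesOver (Q : (maxId v).primesOver (intCl F' v)) :
    (primeOfOver v Q).asIdeal.LiesOver (maxId v) := Q.2.2

/-- The place of `F'` attached to a prime of `B` over the maximal ideal of `O_v`. -/
noncomputable def placeOfOver (Q : (maxId v).primesOver (intCl F' v)) : Place K F' :=
  Place.ofHeightOneSpectrum (K := K) (primeOfOver v Q)

theorem placeOfOver_injective :
    Function.Injective (placeOfOver (F' := F') v) := by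
  intro Q Q' h
  have := ofHeightOneSpectrum_injective (K := K) (F := F') (B := intCl F' v) h
  exact Subtype.ext (congrArg HeightOneSpectrum.asIdeal this)

/-- Elements of `B` are integral at every place attached to a height-one prime of `B`. -/
theorem coe_mem_ofHeightOneSpectrum (P : HeightOneSpectrum (intCl F' v)) (b : intCl F' v) :
    (b : F') ∈ (Place.ofHeightOneSpectrum (K := K) (F := F') P).toValuationSubring := by
  rw [Place.ofHeightOneSpectrum_toValuationSubring, Valuation.mem_valuationSubring_iff]
  exact P.valuation_le_one b

theorem le_restrict_ofHeightOneSpectrum (P : HeightOneSpectrum (intCl F' v)) :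
    v.toValuationSubring ≤ ((Place.ofHeightOneSpectrum (K := K) (F := F') P).restrict F).toValuationSubring := by
  intro a ha
  rw [Place.mem_restrict_iff]
  exact coe_mem_ofHeightOneSpectrum v P (algebraMap ↥v.toValuationSubring (intCl F' v) ⟨a, ha⟩)

theorem place_ext {w₁ w₂ : Place K F} (h : w₁.toValuationSubring = w₂.toValuationSubring) :
    w₁ = w₂ := by
  cases w₁; cases w₂; simp_all

theorem restrict_ofHeightOneSpectrum (P : HeightOneSpectrum (intCl F' v)) :
    (Place.ofHeightOneSpectrum (K := K) (F := F') P).restrict F = v := by
  symm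
  apply place_ext
  exact ValuationSubring.eq_of_le_of_ne_top _ (le_restrict_ofHeightOneSpectrum v P)
    (Place.ne_top' _)

theorem restrict_placeOfOver (Q : (maxId v).primesOver (intCl F' v)) :
    (placeOfOver v Q).restrict F = v :=
  restrict_ofHeightOneSpectrum v _

/-- Elements of `B` are integral at every place of `F'` above `v`. -/
theorem coe_mem_of_restrict_eq {w : Place K F'} (hw : w.restrict F = v) (b : intCl F' v) :
    (b : F') ∈ w.toValuationSubring := by
  have hA : ∀ a : ↥v.toValuationSubring, algebraMap F F' (a : F) ∈ w.toValuationSubring := by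
    intro a
    have : (a : F) ∈ (w.restrict F).toValuationSubring := hw ▸ a.2
    exact (Place.mem_restrict_iff w).mp this
  -- `b` is integral over `O_v`, hence over `O_w`, which is integrally closed
  have hb : IsIntegral ↥v.toValuationSubring (b : F') := b.2
  let φ : ↥v.toValuationSubring →+* ↥w.toValuationSubring :=
    (algebraMap F F').restrict v.toValuationSubring.toSubring w.toValuationSubring.toSubring
      (fun a ha => hA ⟨a, ha⟩)
  have hb' : IsIntegral ↥w.toValuationSubring (b : F') := by
    obtain ⟨p, hp, hpe⟩ := hb
    refine ⟨p.map φ, hp.map φ, ?_⟩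
    rw [← hpe, Polynomial.eval₂_map]
    rfl
  obtain ⟨y, hy⟩ := IsIntegrallyClosed.isIntegral_iff.mp hb'
  exact hy ▸ y.2

theorem exists_placeOfOver_eq {w : Place K F'} (hw : w.restrict F = v) :
    ∃ Q : (maxId v).primesOver (intCl F' v), placeOfOver v Q = w := by
  obtain ⟨P, hP⟩ := exists_heightOneSpectrum_of_le (K := K) (B := intCl F' v) w
    (fun b => coe_mem_of_restrict_eq v hw b)
  have hmax : (P.asIdeal.under ↥v.toValuationSubring).IsMaximal := by
    have hne : P.asIdeal.under ↥v.toValuationSubring ≠ ⊥ :=
      Ideal.under_ne_bot _ P.ne_bot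
    haveI := P.isPrime
    exact (Ideal.IsPrime.under _ P.asIdeal).isMaximal hne
  have hlies : P.asIdeal.LiesOver (maxId v) := ⟨(IsLocalRing.eq_maximalIdeal hmax).symm⟩
  refine ⟨⟨P.asIdeal, P.isPrime, hlies⟩, ?_⟩
  rw [← hP]
  rfl

/-- A uniformiser of `O_v` has `ord_v = 1`. -/
theorem ord_irreducible {π : ↥v.toValuationSubring} (hπ : Irreducible π) : v.ord (π : F) = 1 := by
  have h1 : (1 : F) ∈ v.toValuationSubring := one_mem _
  have := ord_eq_of_eq_mul_zpow v (ϖ := (π : F)) (g := 1) (f := (π : F)) (n := 1) π.2 hπ h1
    (by simp) one_ne_zero (by simp)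
  simpa using this

/-- `ord_w` of a uniformiser of `v` is the ramification index (in Mathlib's sense) of the prime
of `B` attached to `w`. -/
theorem ord_placeOfOver_eq_ramificationIdx (Q : (maxId v).primesOver (intCl F' v))
    {π : ↥v.toValuationSubring} (hπ : Irreducible π) :
    (placeOfOver v Q).ord (algebraMap F F' (π : F)) =
      (Q.1.ramificationIdx ↥v.toValuationSubring : ℤ) := by
  have hQ := (primeOfOver v Q).isPrime
  have hmap : (maxId v).map (algebraMap ↥v.toValuationSubring (intCl F' v)) =
      Ideal.span {algebraMap ↥v.toValuationSubring (intCl F' v) π} := by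
    rw [maxId, hπ.maximalIdeal_eq, Ideal.map_span, Set.image_singleton]
  have hπ0 : algebraMap ↥v.toValuationSubring (intCl F' v) π ≠ 0 :=
    (map_ne_zero_iff _ (algebraMap_intCl_injective F' v)).mpr hπ.ne_zero
  have hne : (maxId v).map (algebraMap ↥v.toValuationSubring (intCl F' v)) ≠ ⊥ := by
    rw [hmap, Ne, Ideal.span_singleton_eq_bot]
    exact hπ0
  rw [show Q.1 = (primeOfOver v Q).asIdeal from rfl,
    Ideal.IsDedekindDomain.ramificationIdx_eq_multiplicity (maxId v) (primeOfOver v Q).asIdeal hne,
    hmap, placeOfOver, ord_ofHeightOneSpectrum]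
  have h1 : (primeOfOver v Q).valuation F' (algebraMap F F' (π : F)) =
      (primeOfOver v Q).intValuation (algebraMap ↥v.toValuationSubring (intCl F' v) π) :=
    (primeOfOver v Q).valuation_of_algebraMap (algebraMap ↥v.toValuationSubring (intCl F' v) π)
  rw [h1, (primeOfOver v Q).intValuation_eq_exp_neg_multiplicity hπ0]
  simp

/-- The Prelude ramification index of the place attached to `Q` is Mathlib's ramification index
of `Q`. -/
theorem ramificationIndex_placeOfOver (Q : (maxId v).primesOver (intCl F' v)) :
    ((placeOfOver v Q).ramificationIndex F : ℤ) =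
      (Q.1.ramificationIdx ↥v.toValuationSubring : ℤ) := by
  obtain ⟨π, hπ⟩ := IsDiscreteValuationRing.exists_irreducible ↥v.toValuationSubring
  rw [← ord_placeOfOver_eq_ramificationIdx v Q hπ, Place.ord_restrict, restrict_placeOfOver,
    ord_irreducible v hπ, mul_one]

section AlgClosed

variable [IsAlgClosed K] {x : F'} (hx : Transcendental K x)
  [FiniteDimensional (IntermediateField.adjoin K {x}) F']

include hx

/-- All residue degrees are one. -/
theorem inertiaDeg_primesOver_eq_one (Q : (maxId v).primesOver (intCl F' v)) :
    Q.1.inertiaDeg ↥v.toValuationSubring = 1 := by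
  have hQmax : (primeOfOver v Q).asIdeal.IsMaximal :=
    (primeOfOver v Q).isPrime.isMaximal (primeOfOver v Q).ne_bot
  haveI : Q.1.IsMaximal := hQmax
  haveI : Q.1.LiesOver (maxId v) := Q.2.2
  refine Fermat.Agent.S24.FF.inertiaDeg_eq_one_of_forall_exists (maxId v) Q.1 fun s => ?_
  have hs : (s : F') ∈ (placeOfOver v Q).toValuationSubring :=
    coe_mem_ofHeightOneSpectrum v (primeOfOver v Q) s
  obtain ⟨a, ha⟩ := Fermat.Agent.S24.FF.exists_const_sub_mem_nonunits (placeOfOver v Q) hx hs
  refine ⟨algebraMap K ↥v.toValuationSubring a, ?_⟩
  have hcoe : algebraMap (intCl F' v) F'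
      (s - algebraMap ↥v.toValuationSubring (intCl F' v) (algebraMap K ↥v.toValuationSubring a))
      = (s : F') - algebraMap K F' a := by
    rw [map_sub, ← IsScalarTower.algebraMap_apply K ↥v.toValuationSubring (intCl F' v),
      ← IsScalarTower.algebraMap_apply K (intCl F' v) F']
    rfl
  have key : (primeOfOver v Q).valuation F' ((s : F') - algebraMap K F' a) < 1 := by
    have h1 := ha
    rw [placeOfOver, Place.ofHeightOneSpectrum_toValuationSubring] at h1
    exact (Fermat.Agent.S24.FF.mem_nonunits_valuationSubring_iff _ _).mp h1
  rw [← hcoe] at key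
  exact ((primeOfOver v Q).valuation_lt_one_iff_mem (K := F') _).mp key

/-- `∑_{w | v} e(w|v) = [F' : F]`, the sum running over the primes of `B` above `𝔪_v`. -/
theorem sum_ramificationIndex_placeOfOver :
    ∑ Q : (maxId v).primesOver (intCl F' v), ((placeOfOver v Q).ramificationIndex F : ℤ) =
      (Module.finrank F F' : ℤ) := by
  have h := Ideal.sum_ramification_inertia_eq_finrank (maxId v) (intCl F' v)
  rw [IsFractionRing.finrank_eq ↥v.toValuationSubring F (intCl F' v) F', ← h]
  push_cast
  refine Finset.sum_congr rfl fun Q _ => ?_
  rw [ramificationIndex_placeOfOver, inertiaDeg_primesOver_eq_one v hx Q]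
  simp

end AlgClosed

end Places

section Main

variable {K F F' : Type*} [Field K] [Field F] [Field F'] [Algebra K F] [Algebra K F']
  [Algebra F F'] [IsScalarTower K F F'] [FiniteDimensional F F']
  [IsAlgClosed K] [CharZero K]

theorem isSeparable_of_charZero (K : Type*) {F F' : Type*} [Field K] [Field F] [Field F']
    [Algebra K F] [Algebra F F'] [FiniteDimensional F F'] [CharZero K] :
    Algebra.IsSeparable F F' := by
  haveI : CharZero F := charZero_of_injective_algebraMap (algebraMap K F).injective
  exact Algebra.IsAlgebraic.isSeparable_of_perfectField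

/-- Over an algebraically closed constant field all residue degrees are one. -/
theorem place_inertiaDeg_eq_one {x : F'} (hx : Transcendental K x)
    [FiniteDimensional (IntermediateField.adjoin K {x}) F'] (w : Place K F') :
    w.inertiaDeg F = 1 := by
  have h := w.deg_restrict_mul_inertiaDeg (F := F)
  rw [Fermat.Agent.S24.FF.deg_eq_one w hx] at h
  exact Nat.eq_one_of_mul_eq_one_left h

/-- **Fundamental identity** `∑_{w | v} e(w|v) f(w|v) = [F' : F]` for a finite extension of
function fields over an algebraically closed field of characteristic zero. -/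
theorem sumRamificationInertia [HasPrincipalDivisors K F'] {x : F'} (hx : Transcendental K x)
    [FiniteDimensional (IntermediateField.adjoin K {x}) F'] :
    SumRamificationInertia K F F' where
  sum_ramificationIndex_mul_inertiaDeg v := by
    classical
    haveI : Algebra.IsSeparable F F' := isSeparable_of_charZero K
    rw [← sum_ramificationIndex_placeOfOver v hx]
    symm
    refine Finset.sum_bij (fun Q _ => placeOfOver v Q) ?_ ?_ ?_ ?_
    · intro Q _
      exact Place.mem_fiber.mpr (restrict_placeOfOver v Q)
    · intro Q _ Q' _ h
      exact placeOfOver_injective v h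
    · intro w hw
      obtain ⟨Q, hQ⟩ := exists_placeOfOver_eq v (Place.mem_fiber.mp hw)
      exact ⟨Q, Finset.mem_univ _, hQ⟩
    · intro Q _
      rw [place_inertiaDeg_eq_one hx]
      simp

/-- The fundamental identity in the form used by `Pic0.pullbackHom`. -/
theorem fundamentalIdentity [HasPrincipalDivisors K F'] {x : F'} (hx : Transcendental K x)
    [FiniteDimensional (IntermediateField.adjoin K {x}) F'] :
    FundamentalIdentity K F F' :=
  haveI := sumRamificationInertia (K := K) (F := F) hx
  inferInstance

end Main

end Fermat.Agent.Lib.FF460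

end
-- ===== PACK-END Lib/FF460/Fund.lean

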