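import Mathlib
import Fermat.Agent.Pack.S44.G0E20L3
import Fermat.Agent.Pack.S44.G0E17L1
import Fermat.Agent.Pack.S44.G0E10L1
import Fermat.Agent.Pack.S44.G0E19L2
import Fermat.Agent.Pack.S44.G0E2L0
import Fermat.Agent.Pack.S44.G0E1L2
import Fermat.Agent.Pack.S44.G0E8L2
import Fermat.Agent.Pack.S44.G0E3L1
import Fermat.Agent.Pack.S44.G0E3L0
import Fermat.Agent.Pack.S44.G0E8L1
import Fermat.Agent.Pack.S44.G0E8L0
import Fermat.Agent.Pack.S44.G0E14L1
import Fermat.Agent.Pack.S44.G0E12L0
import Fermat.Agent.Pack.S44.G0E12L1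
import Fermat.Agent.Pack.S44.G0E19L3
import Fermat.Agent.Pack.S44.G0E14L3
import Fermat.Agent.Pack.S44.G0E14L2
import Fermat.Agent.Pack.S44.G0E19L0
import Fermat.Agent.Pack.S44.G0E15L0
import Fermat.Agent.Pack.S44.G0E18L0
import Fermat.Agent.Pack.S44.G0E20L2
import Fermat.Agent.Pack.S44.G2E0L0
import Fermat.Agent.Pack.S44.G0E18L3
import Fermat.Agent.Pack.S44.G0E4L0
import Fermat.Agent.Pack.S44.G0E20L0
import Fermat.Agent.Pack.S44.G0E9L0

-- ===== PACK-BEGIN S24/Mod/H997HolBase.lean
section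




/-!
# S24 / MOD — the concrete `HolBase N` and `Nonempty (AnalyticCore N)`

`Hol := {f holomorphic on ℍ | ∀ γ ∈ SL(2,ℤ), f ∘ γ has a convergent expansion in exp(2πiτ/N)}`,
`J d τ := j(dτ)`, `qexp :=` expansion at `i∞` (helper384's `expInf`).
-/

set_option autoImplicit false

noncomputable section

open ModularCurve HahnSeries UpperHalfPlane ModularForm EisensteinSeries
open scoped MatrixGroups Manifold Real

namespace Fermat.Agent.S24.H997

open Fermat.Agent.S24.H624 Fermat.Agent.S20.L1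

/-- the `j`-function has the Prelude `q`-expansion -/
theorem infExp_jFun : InfExp 1 jFun infJq := by
  intro τ
  have h := Fermat.Agent.S24.JFun.hasSum_jFun τ
  have h1 : infJq = jqModC ℂ := by
    rw [infJq, ← map_jqModC (algebraMap ℚ ℂ), jqModC_rat]
    rfl
  have h2 : infZ 1 τ = Function.Periodic.qParam 1 (τ : ℂ) := by
    simp [infZ]
  rw [h1]
  simp only [h2]
  exact h

theorem jFun_smul' (γ : SL(2, ℤ)) (τ : ℍ) : jFun (γ • τ) = jFun τ :=
  Fermat.Agent.S24.M7.H47.jFun_smul γ τ

/-- `τ ↦ j(dτ)` -/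
def Jd (d : ℕ) : ℍ → ℂ := fun τ => jFun (infAff d 0 1 τ)

theorem Jd_one : Jd 1 = jFun := by
  funext τ
  simp [Jd]

theorem mdiff_Jd {d : ℕ} (hd : 0 < d) : MDiff (Jd d) := by
  rw [UpperHalfPlane.mdifferentiable_iff]
  have hj : DifferentiableOn ℂ (jFun ∘ ofComplex) {z : ℂ | 0 < z.im} :=
    UpperHalfPlane.mdifferentiable_iff.mp mdiff_jFun
  have hmul : DifferentiableOn ℂ (fun z : ℂ => (d : ℂ) * z) {z : ℂ | 0 < z.im} :=
    (differentiable_id.const_mul (d : ℂ)).differentiableOn
  have hmaps : Set.MapsTo (fun z : ℂ => (d : ℂ) * z) {z : ℂ | 0 < z.im} {z : ℂ | 0 < z.im} := by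
    intro z hz
    simp only [Set.mem_ofPred_eq] at hz ⊢
    have : ((d : ℂ) * z).im = d * z.im := by simp
    rw [this]
    have hd' : (0 : ℝ) < d := by exact_mod_cast hd
    positivity
  refine (hj.comp hmul hmaps).congr ?_
  intro z hz
  simp only [Set.mem_ofPred_eq] at hz
  simp only [Function.comp_apply, Jd]
  congr 1
  apply UpperHalfPlane.ext
  rw [infAff_coe hd one_pos, ofComplex_apply_of_im_pos hz]
  have hz' : 0 < ((d : ℂ) * z).im := hmaps hz
  rw [ofComplex_apply_of_im_pos hz']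
  simp

variable (N : ℕ) [NeZero N]

/-- the ring `Hol` -/
def holN : Subring (ℍ → ℂ) where
  carrier := {f | f ∈ holoRing ∧ ∀ γ : SL(2, ℤ), compSL γ f ∈ expRing N}
  mul_mem' := by
    rintro f g ⟨hf, hf'⟩ ⟨hg, hg'⟩
    exact ⟨mul_mem hf hg, fun γ => mul_mem (hf' γ) (hg' γ)⟩
  one_mem' := ⟨one_mem _, fun _ => one_mem _⟩
  add_mem' := by
    rintro f g ⟨hf, hf'⟩ ⟨hg, hg'⟩
    exact ⟨add_mem hf hg, fun γ => add_mem (hf' γ) (hg' γ)⟩
  zero_mem' := ⟨zero_mem _, fun _ => zero_mem _⟩
  neg_mem' := by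
    rintro f ⟨hf, hf'⟩
    exact ⟨neg_mem hf, fun γ => neg_mem (hf' γ)⟩

theorem mem_holN {f : ℍ → ℂ} :
    f ∈ holN N ↔ f ∈ holoRing ∧ ∀ γ : SL(2, ℤ), compSL γ f ∈ expRing N := Iff.rfl

theorem const_mem_holN (c : ℂ) : (fun _ : ℍ => c) ∈ holN N :=
  ⟨(algebraMap ℂ holoRing c).2, fun _ => (InfExp.const c).mem_expRing⟩

theorem comp_mem_holN (g : SL(2, ℤ)) (f : ℍ → ℂ) (hf : f ∈ holN N) : compSL g f ∈ holN N := by
  refine ⟨(precompSL g ⟨f, hf.1⟩).2, fun γ => ?_⟩
  rw [← compSL_mul]
  exact hf.2 _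

theorem Jd_mem_holN (d : ℕ) (hd : d ∣ N) : Jd d ∈ holN N := by
  have hN : 0 < N := Nat.pos_of_ne_zero (NeZero.ne N)
  have hd0 : 0 < d := Nat.pos_of_dvd_of_pos hd hN
  exact ⟨mdiff_Jd hd0, fun γ => inf_J_mul_smul_mem_expRing jFun_smul' infExp_jFun hd γ⟩

theorem Jd_inv (d : ℕ) (hd : d ∣ N) (g : SL(2, ℤ)) (hg : g ∈ CongruenceSubgroup.Gamma0 N)
    (τ : ℍ) : Jd d (g • τ) = Jd d τ := by
  have hN : 0 < N := Nat.pos_of_ne_zero (NeZero.ne N)
  have hd0 : 0 < d := Nat.pos_of_dvd_of_pos hd hN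
  have hNg : (N : ℤ) ∣ g 1 0 := by
    rw [CongruenceSubgroup.Gamma0_mem] at hg
    exact (ZMod.intCast_zmod_eq_zero_iff_dvd _ _).mp hg
  have hdg : (d : ℤ) ∣ g 1 0 := dvd_trans (by exact_mod_cast hd) hNg
  obtain ⟨c, hc⟩ := hdg
  have hdet := inf_sl_det g
  let g' : SL(2, ℤ) := ⟨!![g 0 0, d * g 0 1; c, g 1 1], by
    rw [Matrix.det_fin_two_of]
    rw [hc] at hdet
    linear_combination hdet⟩
  have h := inf_aff_smul_eq (d := d) (a := d) (d' := 1) (b := 0) hd0 hd0 one_pos g g'
    (by simp [g']; ring) (by simp [g']) (by simp [g', hc]; ring) (by simp [g']) τ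
  show jFun (infAff d 0 1 (g • τ)) = jFun (infAff d 0 1 τ)
  rw [h, jFun_smul']

theorem Jd_distinct (g : SL(2, ℤ)) (h : ∀ τ : ℍ, Jd N (g • τ) = Jd N τ) :
    g ∈ CongruenceSubgroup.Gamma0 N := by
  have := inf_distinct (J := jFun) jFun_smul' infExp_jFun (N := N) g 1
    (fun τ => by simpa [Jd] using h τ)
  simpa using this

/-- the inclusion `Hol → expRing N` -/
def holToExp : holN N →+* expRing N where
  toFun h := ⟨h.1, by simpa [compSL_one] using h.2.2 1⟩
  map_one' := rfl
  map_mul' _ _ := rfl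
  map_zero' := rfl
  map_add' _ _ := rfl

theorem holToExp_injective : Function.Injective (holToExp N) := by
  intro x y h
  exact Subtype.ext (congrArg (fun f : expRing N => (f : ℍ → ℂ)) h)

theorem expInf_Jd (d : ℕ) (hd : d ∣ N) :
    haveI : NeZero (d * N) := ⟨Nat.mul_ne_zero
      (Nat.pos_of_dvd_of_pos hd (Nat.pos_of_ne_zero (NeZero.ne N))).ne' (NeZero.ne N)⟩
    expInf N (holToExp N ⟨Jd d, Jd_mem_holN N d hd⟩) = qExpand ℂ (d * N) infJq := by
  have hN : 0 < N := Nat.pos_of_ne_zero (NeZero.ne N)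
  have hd0 : 0 < d := Nat.pos_of_dvd_of_pos hd hN
  exact (inf_J_mul_exp infExp_jFun hd0 hN).expInf_eq

/-- **The concrete `HolBase N`.** -/
def holBase : HolBase N where
  Hol := holN N
  const_mem := const_mem_holN N
  comp_mem := comp_mem_holN N
  J := Jd
  J_mem := Jd_mem_holN N
  J_one_inv g τ := by rw [Jd_one]; exact jFun_smul' g τ
  J_inv := Jd_inv N
  J_distinct := Jd_distinct N
  qexp := (expInf N).comp (holToExp N)
  qexp_injective := expInf_injective.comp (holToExp_injective N)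
  qexp_const c := (InfExp.const c).expInf_eq
  qexp_J d hd k := by
    have hN : 0 < N := Nat.pos_of_ne_zero (NeZero.ne N)
    have hd0 : 0 < d := Nat.pos_of_dvd_of_pos hd hN
    haveI : NeZero (d * N) := ⟨Nat.mul_ne_zero hd0.ne' (NeZero.ne N)⟩
    show (expInf N (holToExp N ⟨Jd d, Jd_mem_holN N d hd⟩)).coeff k = _
    rw [expInf_Jd N d hd]
    have hcast : ((N * d : ℕ) : ℤ) = ((d * N : ℕ) : ℤ) := by rw [mul_comm]
    rw [hcast]
    split_ifs with hk
    · obtain ⟨m, rfl⟩ := hk
      rw [qExpand_coeff_mul, Int.mul_ediv_cancel_left _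
        (by exact_mod_cast (NeZero.ne (d * N)) : ((d * N : ℕ) : ℤ) ≠ 0)]
      rfl
    · exact qExpand_coeff_of_not_dvd (d * N) _ hk

theorem holBase_isHolo : (holBase N).IsHolo where
  mdiff f hf := hf.1
  J_one := Jd_one

theorem T_smul_eq_infAff (τ : ℍ) : ModularGroup.T • τ = infAff 1 1 1 τ := by
  apply UpperHalfPlane.ext
  rw [UpperHalfPlane.modular_T_smul, infAff_coe one_pos one_pos]
  simp [add_comm]

theorem holBase_shift (h : (holBase N).Hol) (n : ℤ) :
    ((holBase N).qexp ((holBase N).compH ModularGroup.T h)).coeff n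
      = ((infRoot 1 N : ℂˣ) : ℂ) ^ n * ((holBase N).qexp h).coeff n := by
  have hf : InfExp N (h : ℍ → ℂ) ((holBase N).qexp h) := expInf_spec (holToExp N h)
  have hT := hf.comp_translate 1
  have hT' : InfExp N (((holBase N).compH ModularGroup.T h : (holBase N).Hol) : ℍ → ℂ)
      (infTwist (infRoot 1 N) ((holBase N).qexp h)) := by
    refine hT.congr fun τ => ?_
    show (h : ℍ → ℂ) (infAff 1 1 1 τ) = (h : ℍ → ℂ) (ModularGroup.T • τ)
    rw [T_smul_eq_infAff]
  have heq : (holBase N).qexp ((holBase N).compH ModularGroup.T h)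
      = infTwist (infRoot 1 N) ((holBase N).qexp h) :=
    (expInf_spec (holToExp N ((holBase N).compH ModularGroup.T h))).unique hT'
  rw [heq, infTwist_coeff, Units.val_zpow_eq_zpow_val, mul_comm]

theorem isPrimitiveRoot_infRoot : IsPrimitiveRoot ((infRoot 1 N : ℂˣ) : ℂ) N := by
  have h := Complex.isPrimitiveRoot_exp N (NeZero.ne N)
  have : ((infRoot 1 N : ℂˣ) : ℂ) = Complex.exp (2 * π * Complex.I / N) := by
    rw [infRoot_coe]
    congr 1
    push_cast
    ring
  rw [this]
  exact h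

/-- **The analytic core exists.** -/
def analyticCore : AnalyticCore N :=
  (holBase N).toAnalyticCore (holBase_isHolo N) _ (isPrimitiveRoot_infRoot N) (holBase_shift N)

theorem nonempty_analyticCore : Nonempty (AnalyticCore N) := ⟨analyticCore N⟩

end Fermat.Agent.S24.H997

end
end
-- ===== PACK-END S24/Mod/H997HolBase.lean

-- ===== PACK-BEGIN S18/H24/GaussC.lean
section



/-!
# S18 / MOD-ASM, piece G-V (helper24) — part C: `V_total`, `gauss`, `x ∈ V`

* `gaussForm_of_mem_Fc` : every `f ∈ Fc` is `0` or has a Gauss normal form `w^n U₁/U₂`;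
* `field_V_total`       : field `V_total` of `Alg.GoodModel`;
* `field_gauss`         : field `gauss` for every coordinate with an integral expansion `q⁻¹ + …`;
* `coord_mem_Vc`        : the coordinate lies in `V`.
-/

set_option autoImplicit false

noncomputable section

namespace Fermat.Agent.S18.H24

open ModularCurve AlgebraicCurve HahnSeries Fermat.Agent.S18 Fermat.Agent.S18.Mod
open Fermat.Agent.S18.H456

variable {M : ℕ} {A : ValuationSubring Qb} {E : IntermediateField ℚ Qb}

theorem residue_ne_zero_of_inv_mem {c : A} (hc0 : (c : Qb) ≠ 0) (hc : (c : Qb)⁻¹ ∈ A) :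
    IsLocalRing.residue A c ≠ 0 := by
  intro h
  have hm := (IsLocalRing.residue_eq_zero_iff _).mp h
  rcases (mem_maximalIdeal_iff _).mp hm with h0 | hni
  · exact hc0 h0
  · exact hni hc

/-- Gauss form of a nonzero constant of `E`. -/
theorem gaussForm_cst {w₀ : Qb} (hw : _root_.Fermat.Agent.S18.H24.IsUnif A E w₀) {c : Qb} (hcE : c ∈ E) (hc0 : c ≠ 0) :
    GaussForm M A E w₀ (cst M c) := by
  have hw0 := hw.ne_zero
  have hC := C_ne_zero' hw0
  -- the case `c ∈ A`
  have key : ∀ c : Qb, c ∈ E → c ≠ 0 → c ∈ A → GaussForm M A E w₀ (cst M c) := by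
    intro c hcE hc0 hcA
    obtain ⟨k, hk1, hk2⟩ := hw.discrete c hcA hcE hc0
    have hu0 : c * (w₀⁻¹) ^ k ≠ 0 := mul_ne_zero hc0 (pow_ne_zero _ (inv_ne_zero hw0))
    have huE : c * (w₀⁻¹) ^ k ∈ E := mul_mem hcE (pow_mem (inv_mem hw.mem_E) _)
    refine ⟨k, HahnSeries.C (⟨c * (w₀⁻¹) ^ k, hk1⟩ : A), 1, isIntE_C huE, isIntE_one, ?_, ?_, ?_⟩
    · rw [red_C]
      intro h
      exact residue_ne_zero_of_inv_mem (c := ⟨c * (w₀⁻¹) ^ k, hk1⟩) hu0 hk2
        (HahnSeries.C_injective (by rw [h, map_zero]))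
    · rw [map_one]; exact one_ne_zero
    · rw [map_one, mul_one, val_cst', inc_C, zpow_natCast, ← map_pow, ← map_mul]
      congr 1
      show c = w₀ ^ k * (c * (w₀⁻¹) ^ k)
      rw [inv_pow]
      field_simp
  rcases A.mem_or_inv_mem c with hcA | hcA
  · exact key c hcE hc0 hcA
  · have := (key c⁻¹ (inv_mem hcE) (inv_ne_zero hc0) hcA).inv hw0
    rwa [← map_inv₀, inv_inv] at this

theorem jqNModC_ne_zero (K : Type*) [CommRing K] [Nontrivial K] (d : ℕ) [NeZero d] :
    jqNModC K d ≠ 0 := by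
  intro h
  have : jqModC K = 0 := qExpand_injective d (by rw [map_zero]; exact h)
  exact jqModC_ne_zero_of_nontrivial K this

theorem val_jd (d : ℕ) [NeZero d] (hd : d ∣ M) :
    ((jd M d hd : Om M) : LaurentSeries Qb) = inc A (jqNModC A d) := by
  show coeffEmb Qb (qExpand ℚ d jq) = _
  have h1 : coeffEmb Qb (qExpand ℚ d jq) = jqNModC Qb d := coeffMap_jqNModC (algebraMap ℚ Qb) d
  rw [h1]
  exact (coeffMap_jqNModC A.subtype d).symm

theorem jd_mem_Fc (d : ℕ) [NeZero d] (hd : d ∣ M) : jd M d hd ∈ Fc M E :=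
  Subfield.subset_closure (Or.inr ⟨d, inferInstance, hd, rfl⟩)

theorem gaussForm_jd (w₀ : Qb) (d : ℕ) [NeZero d] (hd : d ∣ M) :
    GaussForm M A E w₀ (jd M d hd) := by
  refine ⟨0, jqNModC A d, 1, ?_, isIntE_one, ?_, ?_, ?_⟩
  · exact (isIntE_iff M A E).mpr ⟨jd M d hd, jd_mem_Fc d hd, val_jd d hd⟩
  · show coeffMap (IsLocalRing.residue A) (jqNModC A d) ≠ 0
    rw [coeffMap_jqNModC]
    exact jqNModC_ne_zero _ d
  · rw [map_one]; exact one_ne_zero
  · rw [map_one, mul_one, zpow_zero, one_mul, val_jd d hd]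

theorem gaussForm_one (w₀ : Qb) : GaussForm M A E w₀ 1 := by
  refine ⟨0, 1, 1, isIntE_one, isIntE_one, ?_, ?_, ?_⟩
  · rw [map_one]; exact one_ne_zero
  · rw [map_one]; exact one_ne_zero
  · rw [map_one, mul_one, zpow_zero, one_mul]; rfl

/-- **Gauss normal form.** -/
theorem gaussForm_of_mem_Fc {w₀ : Qb} (hw : _root_.Fermat.Agent.S18.H24.IsUnif A E w₀) {f : Om M} (hf : f ∈ Fc M E) :
    f = 0 ∨ GaussForm M A E w₀ f := by
  have hw0 := hw.ne_zero
  unfold Fc at hf
  induction hf using Subfield.closure_induction with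
  | mem y hy =>
    rcases hy with hy | hy
    · obtain ⟨c, hc, rfl⟩ := (mem_Ec_iff M E).1 hy
      by_cases hc0 : c = 0
      · left; rw [hc0]; exact map_zero _
      · right; exact gaussForm_cst hw hc hc0
    · obtain ⟨d, hd, hdM, rfl⟩ := hy
      right
      exact gaussForm_jd w₀ d hdM
  | one => right; exact gaussForm_one w₀
  | add x y _ _ hx hy =>
    rcases hx with rfl | hx
    · rw [zero_add]; exact hy
    · rcases hy with rfl | hy
      · rw [add_zero]; exact Or.inr hx
      · exact hx.add hw hy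
  | neg x _ hx =>
    rcases hx with rfl | hx
    · left; rw [neg_zero]
    · right; exact hx.neg
  | inv x _ hx =>
    rcases hx with rfl | hx
    · left; rw [inv_zero]
    · right; exact hx.inv hw0
  | mul x y _ _ hx hy =>
    rcases hx with rfl | hx
    · left; rw [zero_mul]
    · rcases hy with rfl | hy
      · left; rw [mul_zero]
      · right; exact hx.mul hw0 hy

/-- A Gauss form with `n ≥ 0` lies in `V`. -/
theorem GaussForm.mem_Vc_of_nonneg {w₀ : Qb} (hw : _root_.Fermat.Agent.S18.H24.IsUnif A E w₀) {f : Om M} (hfF : f ∈ Fc M E)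
    {n : ℕ} {U₁ U₂ : LaurentSeries A} (h₁ : IsIntE M A E U₁) (h₂ : IsIntE M A E U₂)
    (hr₂ : red A U₂ ≠ 0)
    (heq : (f : LaurentSeries Qb) * inc A U₂ = HahnSeries.C w₀ ^ n * inc A U₁) :
    f ∈ Vc M A E := by
  refine ⟨hfF, HahnSeries.C (⟨w₀, hw.mem_A⟩ ^ n : A) * U₁, U₂, IsIntE.mul (isIntE_C ?_) h₁, h₂,
    hr₂, ?_⟩
  · show ((⟨w₀, hw.mem_A⟩ ^ n : A) : Qb) ∈ E
    rw [SubmonoidClass.coe_pow]
    exact pow_mem hw.mem_E n
  · rw [heq, map_mul, inc_C, SubmonoidClass.coe_pow, map_pow]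

variable (M) in
/-- field `V_total`. -/
theorem field_V_total {w₀ : Qb} (hw : _root_.Fermat.Agent.S18.H24.IsUnif A E w₀) :
    ∀ f ∈ Fc M E, f ∈ Vc M A E ∨ f⁻¹ ∈ Vc M A E := by
  intro f hf
  rcases gaussForm_of_mem_Fc hw hf with rfl | hG
  · left; exact zero_mem _
  · have hw0 := hw.ne_zero
    obtain ⟨n, U₁, U₂, h₁, h₂, hr₁, hr₂, heq⟩ := hG
    rcases le_total 0 n with hn | hn
    · left
      obtain ⟨d, rfl⟩ := Int.eq_ofNat_of_zero_le hn
      rw [zpow_natCast] at heq
      exact GaussForm.mem_Vc_of_nonneg hw hf h₁ h₂ hr₂ heq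
    · right
      have hG' : GaussForm M A E w₀ f := ⟨n, U₁, U₂, h₁, h₂, hr₁, hr₂, heq⟩
      obtain ⟨n', W₁, W₂, k₁, k₂, kr₁, kr₂, heq'⟩ := hG'.inv hw0
      -- use the explicit inverse form instead
      have hf0 := hG'.ne_zero hw0
      have hfv0 : (f : LaurentSeries Qb) ≠ 0 := fun h => hf0 (val_eq_zero_iff.mp h)
      have hC := C_ne_zero' hw0
      obtain ⟨d, hd⟩ : ∃ d : ℕ, -n = d := Int.eq_ofNat_of_zero_le (by omega)
      have heq2 : ((f⁻¹ : Om M) : LaurentSeries Qb) * inc A U₁ = HahnSeries.C w₀ ^ d * inc A U₂ := by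
        rw [val_inv]
        have hCn : (HahnSeries.C w₀ : LaurentSeries Qb) ^ n ≠ 0 := zpow_ne_zero n hC
        have h1 : inc A U₁ = (HahnSeries.C w₀ ^ n)⁻¹ * ((f : LaurentSeries Qb) * inc A U₂) := by
          rw [heq, ← mul_assoc, inv_mul_cancel₀ hCn, one_mul]
        rw [h1, ← zpow_neg, hd, zpow_natCast]
        field_simp
      exact GaussForm.mem_Vc_of_nonneg hw (inv_mem hf) h₂ h₁ hr₁ heq2

/-! ### The coordinate and the field `gauss` -/

section Coord

variable [NeZero M]

/-- The integral series of a coordinate, over `A`. -/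
theorem exists_series_of_hasIntExp {x : Om M} (hx : HasIntExp M x) :
    ∃ XA : LaurentSeries A, IsIntE M A E XA ∧ inc A XA = (x : LaurentSeries Qb) ∧
      (red A XA).order ≠ 0 := by
  have hxF := mem_Fc_of_hasIntExp M E hx
  obtain ⟨X, h1, h2, h3, -⟩ := hx
  refine ⟨coeffMap (Int.castRingHom A) X, ?_, ?_, ?_⟩
  · refine (isIntE_iff M A E).mpr ⟨x, hxF, ?_⟩
    rw [h3]
    show _ = coeffMap A.subtype (coeffMap (Int.castRingHom A) X)
    rw [coeffMap_coeffMap]
    exact coeffMap_congr (RingHom.ext_int _ _) X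
  · rw [h3]
    show coeffMap A.subtype (coeffMap (Int.castRingHom A) X) = _
    rw [coeffMap_coeffMap]
    exact coeffMap_congr (RingHom.ext_int _ _) X
  · show (coeffMap (IsLocalRing.residue A) (coeffMap (Int.castRingHom A) X)).order ≠ 0
    rw [coeffMap_coeffMap]
    set Xk := coeffMap ((IsLocalRing.residue A).comp (Int.castRingHom A)) X with hXk
    have hc1 : Xk.coeff (-1) = 1 := by
      rw [hXk, coeffMap_coeff, h1, map_one]
    have hne : Xk ≠ 0 := by
      intro h
      rw [h, HahnSeries.coeff_zero] at hc1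
      exact zero_ne_one hc1
    have hle : Xk.order ≤ -1 := HahnSeries.order_le_of_coeff_ne_zero (by rw [hc1]; exact one_ne_zero)
    omega

theorem coord_mem_Vc {x : Om M} (hx : HasIntExp M x) : x ∈ Vc M A E := by
  obtain ⟨XA, hXA, hinc, -⟩ := exists_series_of_hasIntExp (A := A) (E := E) hx
  exact mem_VcSet_of_isIntE hXA hinc.symm

/-- field `gauss` (for a coordinate with integral expansion `q⁻¹ + …`). -/
theorem field_gauss {x : Om M} (hx : HasIntExp M x) :
    ∀ P : Polynomial (Om M), (∀ i, P.coeff i ∈ Rc M A E) →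
      (∃ i, P.coeff i ≠ 0 ∧ (P.coeff i)⁻¹ ∈ Rc M A E) → (P.eval x)⁻¹ ∈ Vc M A E := by
  intro P hP hunit
  have hxF := mem_Fc_of_hasIntExp M E hx
  obtain ⟨XA, hXA, hinc, hord⟩ := exists_series_of_hasIntExp (A := A) (E := E) hx
  -- lift `P` to `A[X]`
  let φ : A →+* Om M := (algebraMap Qb (Om M)).comp A.subtype
  have hlift : P ∈ Polynomial.lifts φ := by
    rw [Polynomial.lifts_iff_coeff_lifts]
    intro i
    obtain ⟨c, hcA, -, hc⟩ := (mem_Rc_iff M A E).mp (hP i)
    exact ⟨⟨c, hcA⟩, hc⟩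
  obtain ⟨p, hp'⟩ := hlift
  have hp : p.map φ = P := hp'
  have hpcoeff : ∀ i, cst M ((p.coeff i : A) : Qb) = P.coeff i := by
    intro i
    rw [← hp, Polynomial.coeff_map]
    rfl
  have hpE : ∀ i, ((p.coeff i : A) : Qb) ∈ E := by
    intro i
    obtain ⟨c, -, hcE, hc⟩ := (mem_Rc_iff M A E).mp (hP i)
    have : c = ((p.coeff i : A) : Qb) := cst_injective M (by rw [hc, hpcoeff])
    rw [← this]; exact hcE
  -- the series
  set U : LaurentSeries A := p.eval₂ (HahnSeries.C (Γ := ℤ) (R := A)) XA with hU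
  have hUint : IsIntE M A E U := by
    rw [hU, Polynomial.eval₂_eq_sum_range]
    have : ∀ (s : Finset ℕ), IsIntE M A E (∑ i ∈ s, HahnSeries.C (p.coeff i) * XA ^ i) := by
      intro s
      induction s using Finset.induction_on with
      | empty => rw [Finset.sum_empty]; exact isIntE_zero
      | insert a s ha ih =>
        rw [Finset.sum_insert ha]
        exact IsIntE.add (IsIntE.mul (isIntE_C (hpE a)) (IsIntE.pow hXA a)) ih
    exact this _
  have hincU : inc A U = ((P.eval x : Om M) : LaurentSeries Qb) := by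
    rw [hU, Polynomial.hom_eval₂, hinc]
    have h1 : ((P.eval x : Om M) : LaurentSeries Qb) =
        P.eval₂ (modularFunctionFieldBar M).val.toRingHom (x : LaurentSeries Qb) := by
      have := Polynomial.hom_eval₂ P (RingHom.id (Om M)) (modularFunctionFieldBar M).val.toRingHom x
      simp only [Polynomial.eval₂_id, RingHom.comp_id] at this
      exact this
    rw [h1, ← hp, Polynomial.eval₂_map]
    congr 1
    ext c : 1
    show inc A (HahnSeries.C c) = ((cst M (c : Qb) : Om M) : LaurentSeries Qb)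
    rw [inc_C, val_cst']
  have hredU : red A U ≠ 0 := by
    rw [hU, Polynomial.hom_eval₂]
    have hcomp : (red A).comp (HahnSeries.C (Γ := ℤ) (R := A)) =
        (HahnSeries.C (Γ := ℤ) (R := IsLocalRing.ResidueField A)).comp (IsLocalRing.residue A) := by
      ext c : 1
      exact red_C c
    rw [hcomp, ← Polynomial.eval₂_map]
    intro h0
    have hp0 := Fermat.Agent.S28.H806.eq_zero_of_eval₂_C_eq_zero _ hord _ h0
    obtain ⟨i, hi0, hiinv⟩ := hunit
    have hci : (p.map (IsLocalRing.residue A)).coeff i = 0 := by rw [hp0, Polynomial.coeff_zero]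
    rw [Polynomial.coeff_map] at hci
    have hc0 : ((p.coeff i : A) : Qb) ≠ 0 := by
      intro h
      apply hi0
      rw [← hpcoeff, h]
      exact map_zero _
    have hcinv : ((p.coeff i : A) : Qb)⁻¹ ∈ A := by
      obtain ⟨c, hcA, -, hc⟩ := (mem_Rc_iff M A E).mp hiinv
      rw [← hpcoeff, ← map_inv₀] at hc
      have := cst_injective M hc
      rw [← this]; exact hcA
    exact residue_ne_zero_of_inv_mem hc0 hcinv hci
  have hPx0 : ((P.eval x : Om M) : LaurentSeries Qb) ≠ 0 := by
    rw [← hincU]; exact red_ne_zero_imp_inc_ne_zero hredU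
  refine ⟨inv_mem ?_, 1, U, isIntE_one, hUint, hredU, ?_⟩
  · -- `P.eval x ∈ Fc`
    rw [Polynomial.eval_eq_sum_range]
    refine Subfield.sum_mem _ fun i _ => ?_
    exact mul_mem (field_E_le_F M E (field_R_le M A E (hP i))) (pow_mem hxF i)
  · rw [val_inv, hincU, map_one, inv_mul_cancel₀ hPx0]

end Coord

end Fermat.Agent.S18.H24

end
end
-- ===== PACK-END S18/H24/GaussC.lean

-- ===== PACK-BEGIN Lib/RR/H804/CharZero.lean
section



/-!
# RR library, bridge: `FF1 K F` for function fields over an algebraically closed field of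
characteristic zero  (helper804)

From the Dedekind dictionary of `Fermat.Agent.S24.FF`: if `K` is algebraically closed of
characteristic zero and `F` is finite over `K(x)` for a transcendental `x`, then `F/K` satisfies
the standing hypotheses `FF1 K F` of the RR library.
-/

set_option autoImplicit false

noncomputable section

open AlgebraicCurve IntermediateField

namespace Fermat.Agent.Lib.RR.H804

open Fermat.Agent.S24

variable {K F : Type*} [Field K] [Field F] [Algebra K F] [IsAlgClosed K] [CharZero K]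

/-- Every function has finitely many zeros and poles. -/
theorem finite_setOf_ord_ne_zero {x : F} (hx : Transcendental K x) [FiniteDimensional K⟮x⟯ F]
    (f : F) : {v : Place K F | v.ord f ≠ 0}.Finite := by
  by_cases hfr : f ∈ (algebraMap K F).range
  · obtain ⟨a, rfl⟩ := hfr
    convert Set.finite_empty
    ext v
    simp [FF.ord_algebraMap]
  · have hft : Transcendental K f := FF.transcendental_of_not_mem_range hfr
    have : FiniteDimensional K⟮f⟯ F := FF.finiteDimensional_adjoin_of_transcendental hx hft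
    exact FF.finite_setOf_ord_ne_zero hft

/-- The divisor of a function. -/
def divOf {x : F} (hx : Transcendental K x) [FiniteDimensional K⟮x⟯ F] (f : F) :
    Divisor K F :=
  Finsupp.ofSupportFinite (fun v => v.ord f) (finite_setOf_ord_ne_zero hx f)

@[simp] theorem divOf_apply {x : F} (hx : Transcendental K x) [FiniteDimensional K⟮x⟯ F]
    (f : F) (v : Place K F) : _root_.Fermat.Agent.Lib.RR.H804.divOf hx f v = v.ord f := rfl

theorem degree_divOf {x : F} (hx : Transcendental K x) [FiniteDimensional K⟮x⟯ F] (f : F) :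
    Divisor.degree (_root_.Fermat.Agent.Lib.RR.H804.divOf hx f) = 0 :=
  FF.degree_principal x hx f _ (fun _ => rfl)

/-- Principal divisors exist and have degree zero. -/
theorem hasPrincipalDivisors {x : F} (hx : Transcendental K x) [FiniteDimensional K⟮x⟯ F] :
    HasPrincipalDivisors K F :=
  ⟨fun f _ => ⟨_root_.Fermat.Agent.Lib.RR.H804.divOf hx f, fun _ => rfl, _root_.Fermat.Agent.Lib.RR.H804.degree_divOf hx f⟩⟩

/-- There is at least one place (a zero of `x`). -/
theorem nonempty_place {x : F} (hx : Transcendental K x) [FiniteDimensional K⟮x⟯ F] :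
    Nonempty (Place K F) := by
  by_contra hne
  rw [not_nonempty_iff] at hne
  have h := FF.sum_ord_eq_finrank hx (∅ : Finset (Place K F)) (fun v => (hne.false v).elim)
  rw [Finset.sum_empty] at h
  have hpos : 0 < Module.finrank K⟮x⟯ F := Module.finrank_pos
  omega

/-- There is a zero of `x - a` for every `a`. -/
theorem exists_place_ord_sub_pos {x : F} (hx : Transcendental K x) [FiniteDimensional K⟮x⟯ F]
    (a : K) : ∃ v : Place K F, 0 < v.ord (x - algebraMap K F a) := by
  by_contra hne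
  rw [not_exists] at hne
  have h := FF.sum_ord_sub_const_eq_finrank hx a (∅ : Finset (Place K F))
    (fun v => ⟨fun h => (Finset.notMem_empty v h).elim, fun h => (hne v h).elim⟩)
  rw [Finset.sum_empty] at h
  have hpos : 0 < Module.finrank K⟮x⟯ F := Module.finrank_pos
  omega

/-- There is a pole of `x`. -/
theorem exists_place_ord_neg {x : F} (hx : Transcendental K x) [FiniteDimensional K⟮x⟯ F] :
    ∃ v : Place K F, v.ord x < 0 := by
  by_contra hne
  rw [not_exists] at hne
  have h := FF.sum_ord_neg_eq_neg_finrank hx (∅ : Finset (Place K F))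
    (fun v => ⟨fun h => (Finset.notMem_empty v h).elim, fun h => (hne v h).elim⟩)
  rw [Finset.sum_empty] at h
  have hpos : 0 < Module.finrank K⟮x⟯ F := Module.finrank_pos
  omega

omit [CharZero K] in
/-- The residue field of every place is `K`. -/
theorem residue_bijective {x : F} (hx : Transcendental K x) [FiniteDimensional K⟮x⟯ F]
    (v : Place K F) : Function.Bijective (algebraMap K v.ResidueField) := by
  refine ⟨(algebraMap K v.ResidueField).injective, fun r => ?_⟩
  obtain ⟨f, rfl⟩ := IsLocalRing.residue_surjective r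
  obtain ⟨a, ha⟩ := FF.exists_const_sub_mem_nonunits v hx f.2
  refine ⟨a, ?_⟩
  rw [IsScalarTower.algebraMap_apply K v.toValuationSubring v.ResidueField]
  symm
  rw [IsLocalRing.ResidueField.algebraMap_eq, ← sub_eq_zero, ← map_sub,
    IsLocalRing.residue_eq_zero_iff]
  exact ValuationSubring.coe_mem_nonunits_iff.mp ha

omit [CharZero K] in
/-- Residue fields are finite over `K`. -/
theorem finite_residueField {x : F} (hx : Transcendental K x) [FiniteDimensional K⟮x⟯ F]
    (v : Place K F) : Module.Finite K v.ResidueField :=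
  Module.Finite.of_surjective (Algebra.linearMap K v.ResidueField)
    (residue_bijective hx v).2

/-- **Bridge**: `FF1 K F` for `K` algebraically closed of characteristic zero. -/
theorem ff1 {x : F} (hx : Transcendental K x) [FiniteDimensional K⟮x⟯ F] : FF1 K F where
  hpd := hasPrincipalDivisors hx
  deg_eq_one := fun v => FF.deg_eq_one v hx
  nonempty_place := nonempty_place hx
  exists_finite := ⟨x, hx, inferInstance⟩

end Fermat.Agent.Lib.RR.H804

end
end
-- ===== PACK-END Lib/RR/H804/CharZero.lean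

-- ===== PACK-BEGIN S21/MSInterface.lean
section











/-!
# S21 — interface statements for the minimizing sequence (MS)

All pieces are now proved:
* MS-A `exists_partition_SL2Z` (helper896, `Partition.lean`), repackaged here as
  `exists_isSL2ZPartition`;
* MS-C `exists_u0` (helper81, `H81/U0Final.lean`);
* INT-A (helper480, `IntA.lean`), INT-B (helper753, `IntB.lean`), INT-C (helper544, `IntC.lean`),
  INT-D (helper98, `IntD.lean`, `IntDCore.lean`).
-/

set_option autoImplicit false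

open ModularCurve ModularCurve.Period UpperHalfPlane CongruenceSubgroup Filter Topology
open MeasureTheory
open scoped MatrixGroups ComplexConjugate ContDiff

namespace Fermat.Agent.S21

/-- **MS-A**, packaged as a structure. -/
theorem exists_isSL2ZPartition : ∃ χ₁ : ℂ → ℝ, IsSL2ZPartition χ₁ := by
  obtain ⟨χ₁, h1, h2, h3, h4, h5⟩ := exists_partition_SL2Z
  exact ⟨χ₁, ⟨h1, h2, h3, h4, h5⟩⟩

/-- **MS-C**: the initial function `u₀` with periods `φ`, locally constant high in every cusp. -/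
theorem exists_u0 (N : ℕ) [NeZero N] (φ : Additive (Gamma0 N) →+ ℝ)
    (hφ : ModularCurve.Period.IsParabolicHom (Gamma0 N) φ) :
    ∃ u₀ : ℂ → ℝ, ContDiffOn ℝ ∞ u₀ Uhp ∧
      (∀ (γ : Gamma0 N) (z : ℍ), u₀ ↑((γ : SL(2, ℤ)) • z) = u₀ ↑z + φ (Additive.ofMul γ)) ∧
      (∀ (δ : SL(2, ℤ)) (z : ℂ), 2 < z.im → dz u₀ (mob δ z) = 0) :=
  H81.exists_u0 N φ hφ

end Fermat.Agent.S21

end
-- ===== PACK-END S21/MSInterface.lean

-- ===== PACK-BEGIN S37/H159/MMain.lean
section





/-!
# THEOREM M: normality of the special fibre, directly over a valuation ring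
(row S37, piece R-b / RED-E4 (H3); seat helper159)

Setting: `K` algebraically closed of characteristic `0`, `A ⊆ K` a valuation ring with residue
map `π : A ↠ k` (`k` algebraically closed); `F ⊇ K(x)` finite, `O ⊆ F` a valuation ring with
residue map `ρ : O ↠ F_k`, `F_k ⊇ k(x̄)` finite separable with `[F_k : k(x̄)] = [F : K(x)]`,
`ρ(P(x)) = P̄(x̄)` for `P ∈ A[X]` (a `RedCtx`).  `B_η` = integral closure of `K[x]` in `F`.

Hypothesis (NC): there is a finite set `S ⊆ A`, injective modulo `𝔪_A`, such that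
`(x - c) B_η` is a radical ideal for every `c ∈ A \ S` (no ramification over `x = c`).

Conclusion:
* `isIntegrallyClosed_Tk` : `T = ρ(O ∩ B_η)` is integrally closed;
* `lift_integral` : every element of `F_k` integral over `k[x̄]` is the reduction of an element
  of `O` which is integral over `A[x]`.

No noetherian hypothesis on `A`, no descent to a discrete valuation ring.
-/

set_option autoImplicit false
set_option linter.unusedSectionVars false
set_option linter.style.haveILetI false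

namespace Fermat.Agent.S37.H159

open Polynomial

namespace RedCtx

variable {K : Type*} [Field K] [IsAlgClosed K] [CharZero K] {A : ValuationSubring K}
  {k : Type*} [Field k] [IsAlgClosed k]
  {F : Type*} [Field F] [Algebra K[X] F] {Fk : Type*} [Field Fk] [Algebra k[X] Fk]
  (G : RedCtx A k F Fk)

variable (L₀ : Type*) [Field L₀] [Algebra K[X] L₀] [IsFractionRing K[X] L₀] [Algebra L₀ F]
  [IsScalarTower K[X] L₀ F] [FiniteDimensional L₀ F]
variable (L₀k : Type*) [Field L₀k] [Algebra k[X] L₀k] [IsFractionRing k[X] L₀k] [Algebra L₀k Fk]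
  [IsScalarTower k[X] L₀k Fk] [FiniteDimensional L₀k Fk] [Algebra.IsSeparable L₀k Fk]

include L₀ L₀k in
/-- **Theorem M** (ring form): the order `T = ρ(O ∩ B_η)` is integrally closed. -/
theorem isIntegrallyClosed_Tk (hdeg : Module.finrank L₀ F = Module.finrank L₀k Fk)
    (S : Finset A) (hS : Set.InjOn G.π (S : Set A))
    (hNC : ∀ c : A, c ∉ S → (Ideal.span
      {algebraMap K[X] (integralClosure K[X] F) (X - C (c : K))}).IsRadical) :
    IsIntegrallyClosed G.Tk := by
  classical
  obtain ⟨b, y, bk, hyint, hR, hbk, hyO, hρy⟩ := G.exists_basis_Tk L₀ L₀k hdeg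
  have hinj := algebraMap_injective_k (k := k) (Fk := Fk) L₀k
  haveI := finite_Tη (K := K) (F := F) L₀
  haveI := free_Tη (K := K) (F := F) L₀
  let β : Module.Basis (Fin (Module.finrank L₀k Fk)) K[X] (integralClosure K[X] F) :=
    Module.finBasisOfFinrankEq K[X] _ ((finrank_Tη (K := K) (F := F) L₀).trans hdeg)
  let yη : Fin (Module.finrank L₀k Fk) → integralClosure K[X] F := fun i => ⟨y i, hyint i⟩
  have hyηO : ∀ i, (yη i : F) ∈ G.O := hyO
  have hρη : ∀ i, G.redT (yη i) (hyηO i) = b i := fun i => Subtype.ext (hρy i)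
  have hρbk : ∀ i, G.ρ ⟨y i, hyO i⟩ = bk i := fun i => by rw [hbk]; exact hρy i
  obtain ⟨D, hD1, hD2⟩ := G.exists_discr_lift L₀ L₀k y hyO hR bk hρbk b hbk hdeg hyint
  have hdb : Algebra.discr k[X] b ≠ 0 := G.discr_Tk_ne_zero L₀ L₀k bk b hbk hdeg
  -- the matrix of `y` in the basis `β`
  set M : Matrix (Fin (Module.finrank L₀k Fk)) (Fin (Module.finrank L₀k Fk)) K[X] :=
    Matrix.of fun i j => β.repr (yη i) j with hM
  have hyM : yη = Matrix.vecMul (⇑β) (M.transpose.map (algebraMap K[X] (integralClosure K[X] F))) := by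
    funext i
    rw [Matrix.vecMul, dotProduct]
    conv_lhs => rw [← β.sum_repr (yη i)]
    refine Finset.sum_congr rfl fun j _ => ?_
    rw [Matrix.map_apply, Matrix.transpose_apply, Algebra.smul_def, mul_comm]
    rfl
  have hdisc : Algebra.discr K[X] yη = M.det ^ 2 * Algebra.discr K[X] β := by
    rw [hyM, Algebra.discr_of_matrix_vecMul, Matrix.det_transpose]
  have hDK : D.map (algebraMap A K) = M.det ^ 2 * Algebra.discr K[X] β := hD1.trans hdisc
  have hDπ : D.map G.π ≠ 0 := by rw [hD2]; exact hdb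
  have hD0 : D ≠ 0 := fun h0 => hDπ (by rw [h0, Polynomial.map_zero])
  have hDK0 : D.map (algebraMap A K) ≠ 0 := by
    intro h0
    apply hD0
    apply Polynomial.map_injective (algebraMap A K) Subtype.coe_injective
    rw [h0, Polynomial.map_zero]
  have hβ0 : Algebra.discr K[X] β ≠ 0 := by
    intro h0
    apply hDK0
    rw [hDK, h0, mul_zero]
  have hdet : ∀ c : A, ¬ (X - C (c : K)) ∣ M.det := fun c =>
    G.not_dvd_det hinj β b yη hyηO hρη c
  -- all roots of `D` in `A` lie in `S`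
  have hroots : ∀ c : A, (D.map (algebraMap A K)).IsRoot (c : K) → c ∈ S := by
    intro c hc
    by_contra hcS
    have h2 := not_dvd_discr_of_isRadical β L₀ (c : K) (hNC c hcS)
    rw [← Polynomial.dvd_iff_isRoot, hDK] at hc
    rcases (Polynomial.prime_X_sub_C _).dvd_or_dvd hc with h | h
    · exact hdet c ((Polynomial.prime_X_sub_C _).dvd_of_dvd_pow h)
    · exact h2 h
  refine H939.isIntegrallyClosed_of_discr_criterion b hdb (IsAlgClosed.splits _) ?_
  intro cbar hcbar
  rw [← hD2] at hcbar ⊢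
  obtain ⟨c, rfl, hc⟩ := exists_root_of_isRoot_map A G.π G.π_surj D hDπ cbar hcbar
  have hcS := hroots c hc
  have h1 := rootMultiplicity_map_le A G.π G.π_surj D hDπ c
    (fun c' hc' hπ => hS (hroots c' hc') hcS hπ)
  have h2 : (D.map (algebraMap A K)).rootMultiplicity (c : K) =
      (Algebra.discr K[X] β).rootMultiplicity (c : K) := by
    rw [hDK, Polynomial.rootMultiplicity_mul (by rw [← hDK]; exact hDK0),
      Polynomial.rootMultiplicity_eq_zero (p := M.det ^ 2), zero_add]
    intro hroot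
    rw [← Polynomial.dvd_iff_isRoot] at hroot
    exact hdet c ((Polynomial.prime_X_sub_C _).dvd_of_dvd_pow hroot)
  have h3 := G.not_pow_dvd_discr hinj β b L₀ c
  have h4 : (Algebra.discr K[X] β).rootMultiplicity (c : K) ≤
      Module.finrank L₀k Fk - H939.redRank G.Tk (G.π c) := by
    by_contra hlt
    push Not at hlt
    exact h3 ((Polynomial.le_rootMultiplicity_iff hβ0).mp hlt)
  have h5 : H939.redRank G.Tk (G.π c) ≤ Fintype.card (Fin (Module.finrank L₀k Fk)) :=
    redRank_le_card b _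
  rw [Fintype.card_fin] at h5 ⊢
  omega

include L₀ L₀k in
/-- **Theorem M** (lifting form, = (H3) of S37-RED): every element of `F_k` integral over
`k[x̄]` is the reduction of an element of `O` integral over `A[x]`. -/
theorem lift_integral (hdeg : Module.finrank L₀ F = Module.finrank L₀k Fk)
    (S : Finset A) (hS : Set.InjOn G.π (S : Set A))
    (hNC : ∀ c : A, c ∉ S → (Ideal.span
      {algebraMap K[X] (integralClosure K[X] F) (X - C (c : K))}).IsRadical)
    (z : Fk) (hz : IsIntegral k[X] z) :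
    ∃ f : G.O, (polyF (A := A) (F := F)).IsIntegralElem (f : F) ∧ G.ρ f = z := by
  haveI := G.isIntegrallyClosed_Tk L₀ L₀k hdeg S hS hNC
  haveI := G.isFractionRing_Tk L₀ L₀k
  have hzT : IsIntegral G.Tk z := hz.tower_top
  obtain ⟨t, ht⟩ := IsIntegrallyClosed.isIntegral_iff.mp hzT
  obtain ⟨f, hf, hfz⟩ := (G.mem_Tk _).mp t.2
  exact ⟨f, G.isIntegralElem_of_mem L₀ L₀k hdeg f f.2 hf, hfz.trans ht⟩

end RedCtx

end Fermat.Agent.S37.H159

end
-- ===== PACK-END S37/H159/MMain.lean

-- ===== PACK-BEGIN S37/Core/AssemblePull.lean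
section


/-!
# S37 row (helper37): assembly through an auxiliary level

For `ℓ ∈ {2, 3}` the smooth model is only available at levels `M` divisible by an auxiliary
prime.  `PullData N M ℓ` is the interface of piece [PULL]: a pullback map
`π^* : J₀(N) → J₀(M)` which is Galois equivariant, injective on prime-to-`ℓ` torsion and
commutes with `T_ℓ`.  `result_of_pieces'` is the variant of `result_of_pieces` in which the
place reduction may live at any such level `M` (take `M = N`, `pull = id` when possible).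
Fully proved.
-/

set_option autoImplicit false
set_option synthInstance.maxHeartbeats 400000

noncomputable section

namespace Fermat.Agent.S37.Core

open ModularCurve ValuationSubring AlgebraicCurve HahnSeries Fermat.Agent.S37.H99

/-- Interface of piece [PULL]. -/
structure PullData (N M : ℕ) [NeZero N] [NeZero M] (ℓ : ℕ) [NeZero ℓ] : Type where
  /-- the pullback map -/
  pull : JZero N →+ JZero M
  galois : ∀ (σ : AlgebraicClosure ℚ ≃ₐ[ℚ] AlgebraicClosure ℚ) (x : JZero N),
    pull (σ • x) = σ • pull x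
  inj_torsion : ∀ (m : ℕ), ¬ ℓ ∣ m → ∀ x : JZero N, m • x = 0 → pull x = 0 → x = 0
  hecke : ∀ x : JZero N,
    pull (heckeOperatorAlong (AlgebraicClosure ℚ) N ℓ x) =
      heckeOperatorAlong (AlgebraicClosure ℚ) M ℓ (pull x)

/-- the trivial pull datum -/
def PullData.refl (N : ℕ) [NeZero N] (ℓ : ℕ) [NeZero ℓ] : PullData N N ℓ where
  pull := AddMonoidHom.id _
  galois _ _ := rfl
  inj_torsion _ _ _ _ h := h
  hecke _ := rfl

/-- **S37 at one place from the pieces, through an auxiliary level `M`.** -/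
theorem isWeakRed_of_placeRed_pull (N M p : ℕ) [NeZero N] [NeZero M]
    (hcomm : HeckeOperatorsCommuteBar N)
    (A : ValuationSubring (AlgebraicClosure ℚ)) (ℓ : ℕ) (hℓ : ℓ.Prime) (hℓp : ¬ ℓ ∣ p)
    (σ₀ : AlgebraicClosure ℚ ≃ₐ[ℚ] AlgebraicClosure ℚ) (hσ₀ : A.IsFrobeniusAt σ₀ ℓ)
    (HIA : haveI : NeZero ℓ := ⟨hℓ.ne_zero⟩; HeckeInputsAlong (AlgebraicClosure ℚ) M ℓ)
    (hS18 : InjTorsionModL M ℓ A)
    (D : haveI : NeZero ℓ := ⟨hℓ.ne_zero⟩; PlaceRed M A ℓ σ₀)
    (Pd : haveI : NeZero ℓ := ⟨hℓ.ne_zero⟩; PullData N M ℓ) :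
    letI := heckeModuleBar N
    ∀ (_ : SMulCommClass (AlgebraicClosure ℚ ≃ₐ[ℚ] AlgebraicClosure ℚ) HeckeAlg (JZero N)),
      IsWeakRed (K := ℚ) p (JZero N) A ℓ hℓ σ₀
        (haveI : NeZero ℓ := ⟨hℓ.ne_zero⟩; D.red.comp Pd.pull) := by
  letI := heckeModuleBar N
  haveI : NeZero ℓ := ⟨hℓ.ne_zero⟩
  intro _
  refine ⟨hσ₀, ?_, ?_, ?_⟩
  · intro τ hτ x
    show D.red (Pd.pull (τ • x)) = D.red (Pd.pull x)
    rw [Pd.galois, D.red_inertia hτ]
  · rintro x ⟨n, hn⟩ hx
    have hℓpn : ¬ ℓ ∣ p ^ n := fun h => hℓp (hℓ.dvd_of_dvd_pow h)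
    refine Pd.inj_torsion (p ^ n) hℓpn x hn ?_
    refine D.red_inj_torsion hS18 (m := p ^ n) hℓpn ?_ hx
    rw [← map_nsmul, hn, map_zero]
  · intro x
    rw [heckeModuleBar_heckeGen_smul hcomm ⟨ℓ, hℓ⟩ (σ₀ • x)]
    show D.red (Pd.pull (σ₀ • σ₀ • x - heckeOperatorAlong (AlgebraicClosure ℚ) N ℓ (σ₀ • x)
      + ℓ • x)) = 0
    rw [map_add, map_sub, map_nsmul, Pd.galois, Pd.galois, Pd.hecke, Pd.galois]
    exact D.red_relation HIA (Pd.pull x)

/-- **S37 from the pieces, the place reduction living at auxiliary levels.** -/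
theorem result_of_pieces' (N p : ℕ) [NeZero N]
    (H : ∀ (ℓ : ℕ) (hℓ : ℓ.Prime), ¬ ℓ ∣ N →
      ∀ A : ValuationSubring (AlgebraicClosure ℚ), A.LiesOverPrime ℓ →
        ∀ σ₀ : AlgebraicClosure ℚ ≃ₐ[ℚ] AlgebraicClosure ℚ, A.IsFrobeniusAt σ₀ ℓ →
          haveI : NeZero ℓ := ⟨hℓ.ne_zero⟩
          ∃ (M : ℕ) (_ : NeZero M), HeckeInputsAlong (AlgebraicClosure ℚ) M ℓ ∧
            InjTorsionModL M ℓ A ∧ Nonempty (PlaceRed M A ℓ σ₀) ∧ Nonempty (PullData N M ℓ))
    (hcomm : ModularCurve.HeckeOperatorsCommuteBar N) :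
    letI := ModularCurve.heckeModuleBar N
    ∀ (_ : SMulCommClass (AlgebraicClosure ℚ ≃ₐ[ℚ] AlgebraicClosure ℚ) ModularCurve.HeckeAlg
      (ModularCurve.JZero N)),
      ModularCurve.SpecializationExists (K := ℚ) (L := AlgebraicClosure ℚ) N p
        (ModularCurve.JZero N) := by
  letI := ModularCurve.heckeModuleBar N
  intro inst ℓ hℓ hdvd A hA
  have hℓN : ¬ ℓ ∣ N := fun h => hdvd (Dvd.dvd.mul_right h p)
  have hℓp : ¬ ℓ ∣ p := fun h => hdvd (Dvd.dvd.mul_left h N)
  obtain ⟨σ₀, hσ₀⟩ := exists_isFrobeniusAt ℓ hℓ A hA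
  haveI : NeZero ℓ := ⟨hℓ.ne_zero⟩
  obtain ⟨M, hM, hHIA, hS18, ⟨D⟩, ⟨Pd⟩⟩ := H ℓ hℓ hℓN A hA σ₀ hσ₀
  exact exists_specialization_of_isWeakRed p A ℓ hℓ σ₀ (D.red.comp Pd.pull)
    (isWeakRed_of_placeRed_pull N M p hcomm A ℓ hℓ hℓp σ₀ hσ₀ hHIA hS18 D Pd inst)

end Fermat.Agent.S37.Core

end
end
-- ===== PACK-END S37/Core/AssemblePull.lean

-- ===== PACK-BEGIN Lib/RR/Duality.lean
section



/-!
# RR library, layer L5: Weil differentials, canonical divisor, duality  (Stichtenoth 1.5.5–1.5.16)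

A Weil differential is a `K`-linear map `ω : 𝔸 → K` vanishing on `𝔸(A) + F` for some divisor `A`.
They form a one-dimensional `F`-vector space; a nonzero `ω` has a largest such `A =: (ω)`, and
`x ↦ x ω` is an isomorphism `L((ω) - A) ≅ (𝔸 / (𝔸(A) + F))^*`.

The proof of `exists_canonical` is in `H80/{Weil,OneDim,Canonical}.lean` (helper80); the statements
are those of the frozen skeleton of helper320.
-/

set_option autoImplicit false

noncomputable section

open AlgebraicCurve

namespace Fermat.Agent.Lib.RR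

variable {K F : Type*} [Field K] [Field F] [Algebra K F]

/-- **L5**: existence of a canonical divisor (duality theorem). -/
theorem exists_canonical [FF1 K F] :
    ∃ W : Divisor K F, ∀ D : Divisor K F, Module.finrank K (H1 D) = ell (W - D) :=
  H80.exists_canonical_of (g := (genusR K F : ℤ)) finite_H1 ell_sub_finrank_H1
    exists_degree_bound

/-- **Riemann–Roch**. -/
theorem riemann_roch [FF1 K F] :
    ∃ W : Divisor K F, Divisor.degree W = 2 * (genusFF K F : ℤ) - 2 ∧ ell W = genusFF K F ∧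
      ∀ D : Divisor K F,
        (ell D : ℤ) = Divisor.degree D + 1 - (genusFF K F : ℤ) + ell (W - D) := by
  obtain ⟨W, hW⟩ := exists_canonical (K := K) (F := F)
  have hRR : ∀ D : Divisor K F,
      (ell D : ℤ) = Divisor.degree D + 1 - (genusFF K F : ℤ) + ell (W - D) := by
    intro D
    have := riemann_roch_H1 D
    rw [hW D] at this
    omega
  have h0 := hRR 0
  rw [ell_zero, map_zero, sub_zero] at h0
  have hW1 : (ell W : ℤ) = genusFF K F := by push_cast at h0; omega
  have h1 := hRR W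
  rw [sub_self, ell_zero] at h1
  refine ⟨W, ?_, by exact_mod_cast hW1, hRR⟩
  push_cast at h1
  omega

/-- `ℓ(D) = deg D + 1 - g` as soon as `deg D > 2g - 2`. -/
theorem ell_eq_of_degree_gt [FF1 K F] {D : Divisor K F}
    (h : 2 * (genusFF K F : ℤ) - 2 < Divisor.degree D) :
    (ell D : ℤ) = Divisor.degree D + 1 - (genusFF K F : ℤ) := by
  obtain ⟨W, hW, -, hRR⟩ := riemann_roch (K := K) (F := F)
  have h0 : ell (W - D) = 0 :=
    ell_eq_zero_of_degree_neg (by rw [map_sub, hW]; omega)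
  have := hRR D
  rw [h0] at this
  simpa using this

end Fermat.Agent.Lib.RR

end
end
-- ===== PACK-END Lib/RR/Duality.lean

-- ===== PACK-BEGIN S37/Red/H144/Monic.lean
section


/-!
# S37-RED, piece RED-D (route N), part 3: monic-like functions at the poles of `x̄` (helper144)

If `t = x^M (1 + x⁻¹ β)` with `β` integral over `A[x⁻¹]` and `M ≥ 1`, then `t̄` has a pole at
every pole of `x̄`.
-/

set_option autoImplicit false

noncomputable section

namespace Fermat.Agent.S37.Red.H144

open AlgebraicCurve IntermediateField Polynomial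

universe u

variable {K k F Fk : Type u} [Field K] [Field k] [Field F] [Field Fk]
  [Algebra K F] [Algebra k Fk] {A : ValuationSubring K} {π : A →+* k}

/-- An element integral over a subring of a valuation ring lies in the valuation ring. -/
theorem mem_of_isIntegral_subring {L : Type*} [Field L] (O : ValuationSubring L)
    (S : Subring L) (hS : S ≤ O.toSubring) {b : L} (hb : IsIntegral S b) : b ∈ O := by
  obtain ⟨p, hp, hev⟩ := hb
  let φ : S →+* O := Subring.inclusion hS
  have hcomp : (algebraMap O L).comp φ = algebraMap S L := by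
    ext s
    rfl
  have hint : IsIntegral O b := by
    refine ⟨p.map φ, hp.map φ, ?_⟩
    rw [Polynomial.eval₂_map, hcomp]
    exact hev
  obtain ⟨y, hy⟩ := IsIntegrallyClosed.isIntegral_iff.mp hint
  rw [← hy]
  exact y.2

/-- Reduction of integral elements: if `ρ` maps a subring `S ⊆ O` into a valuation ring `Q'`
of `F_k`, it maps the elements of `O` integral over `S` into `Q'`. -/
theorem rho_mem_of_isIntegral (G : Datum A π F Fk) (S : Subring F) (hS : S ≤ G.O.toSubring)
    (Q' : ValuationSubring Fk) (hSQ : ∀ s (hs : s ∈ S), G.ρ ⟨s, hS hs⟩ ∈ Q')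
    {b : F} (hb : IsIntegral S b) (hbO : b ∈ G.O) : G.ρ ⟨b, hbO⟩ ∈ Q' := by
  obtain ⟨p, hp, hev⟩ := hb
  let φ : S →+* G.O := Subring.inclusion hS
  let ψ : S →+* Q' := (G.ρ.comp φ).codRestrict Q'.toSubring (fun s => hSQ s.1 s.2)
  have hcomp : (algebraMap Q' Fk).comp ψ = G.ρ.comp φ := by
    ext s
    rfl
  have hcomp2 : (algebraMap G.O F).comp φ = algebraMap S F := by
    ext s
    rfl
  have hzero : Polynomial.eval₂ φ (⟨b, hbO⟩ : G.O) p = 0 := by
    apply Subtype.ext
    have h1 := Polynomial.hom_eval₂ p φ (algebraMap G.O F) (⟨b, hbO⟩ : G.O)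
    rw [hcomp2] at h1
    have h2 : (algebraMap G.O F) (⟨b, hbO⟩ : G.O) = b := rfl
    rw [h2, hev] at h1
    exact h1
  have hint : IsIntegral Q' (G.ρ ⟨b, hbO⟩) := by
    refine ⟨p.map ψ, hp.map ψ, ?_⟩
    rw [Polynomial.eval₂_map, hcomp, ← Polynomial.hom_eval₂, hzero, map_zero]
  obtain ⟨y, hy⟩ := IsIntegrallyClosed.isIntegral_iff.mp hint
  rw [← hy]
  exact y.2

theorem constRing_le_O (G : Datum A π F Fk) : G.constRing ≤ G.O.toSubring := by
  rintro s ⟨a, ha, rfl⟩
  exact G.const_mem ⟨a, ha⟩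

theorem polyRing_le_O (G : Datum A π F Fk) {t : F} (ht : t ∈ G.O) :
    G.polyRing t ≤ G.O.toSubring := by
  unfold Datum.polyRing
  refine sup_le (constRing_le_O G) ?_
  rw [Subring.closure_le]
  intro s hs
  rw [Set.mem_singleton_iff] at hs
  rw [hs]
  exact ht

/-- The chart `B_t` is contained in `O` as soon as `t ∈ O`. -/
theorem chart_le_O (G : Datum A π F Fk) {t : F} (ht : t ∈ G.O) {b : F}
    (hb : b ∈ G.chart t) : b ∈ G.O :=
  mem_of_isIntegral_subring G.O (G.polyRing t) (polyRing_le_O G ht) hb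

/-- If `ρ t` is regular at the valuation ring `Q'` of `F_k` (containing `k`), then `ρ` maps
`B_t` into `Q'`. -/
theorem rho_chart_mem (G : Datum A π F Fk) {t : F} (ht : t ∈ G.O) (Q' : ValuationSubring Fk)
    (hk : ∀ c : k, algebraMap k Fk c ∈ Q') (htQ : G.ρ ⟨t, ht⟩ ∈ Q')
    {b : F} (hb : b ∈ G.chart t) (hbO : b ∈ G.O) : G.ρ ⟨b, hbO⟩ ∈ Q' := by
  refine rho_mem_of_isIntegral G (G.polyRing t) (polyRing_le_O G ht) Q' ?_ hb hbO
  -- the subring of `F` of elements of `O` whose reduction lies in `Q'`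
  let S' : Subring F := (Q'.toSubring.comap G.ρ).map G.O.subtype
  have hS' : G.polyRing t ≤ S' := by
    unfold Datum.polyRing
    refine sup_le ?_ ?_
    · rintro s ⟨a, ha, rfl⟩
      refine ⟨⟨algebraMap K F a, G.const_mem ⟨a, ha⟩⟩, ?_, rfl⟩
      show G.ρ _ ∈ Q'
      rw [G.ρ_const ⟨a, ha⟩]
      exact hk _
    · rw [Subring.closure_le]
      intro s hs
      rw [Set.mem_singleton_iff] at hs
      rw [hs]
      exact ⟨⟨t, ht⟩, htQ, rfl⟩
  intro s hs
  obtain ⟨z, hz, hzs⟩ := hS' hs
  have : z = ⟨s, polyRing_le_O G ht hs⟩ := Subtype.ext hzs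
  rw [← this]
  exact hz

/-- **Monic-like functions have poles at the poles of `x̄`.** -/
theorem rho_not_mem_of_monicLike (G : Datum A π F Fk) {t : F} {M : ℕ} (hM : 0 < M)
    (hml : G.MonicLike t M) (ht : t ∈ G.O) (Q : Place k Fk)
    (hQ : G.xk ∉ Q.toValuationSubring) : G.ρ ⟨t, ht⟩ ∉ Q.toValuationSubring := by
  obtain ⟨-, β, hβ, heq⟩ := hml
  have hxi := x_inv_mem G
  have hβO : β ∈ G.O := chart_le_O G hxi hβ
  -- the relation after reduction
  have hrel : G.ρ ⟨t, ht⟩ = G.xk ^ M * (1 + G.xk⁻¹ * G.ρ ⟨β, hβO⟩) := by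
    have h1 : (⟨t, ht⟩ : G.O) =
        (⟨G.x, G.x_mem⟩ : G.O) ^ M * (1 + ⟨G.x⁻¹, hxi⟩ * ⟨β, hβO⟩) := Subtype.ext heq
    rw [h1, map_mul, map_pow, map_add, map_one, map_mul, rho_x_inv]
    rfl
  set v := Q.toValuationSubring.valuation with hv
  have hxk : v G.xk⁻¹ < 1 := valuation_inv_lt_of_not_mem hQ
  have hxkQ : G.xk⁻¹ ∈ Q.toValuationSubring :=
    (Q.toValuationSubring.valuation_le_one_iff _).mp hxk.le
  have hβQ : G.ρ ⟨β, hβO⟩ ∈ Q.toValuationSubring := by
    refine rho_chart_mem G hxi Q.toValuationSubring Q.algebraMap_mem' ?_ hβ hβO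
    rw [rho_x_inv]
    exact hxkQ
  have hβv : v (G.ρ ⟨β, hβO⟩) ≤ 1 := (Q.toValuationSubring.valuation_le_one_iff _).mpr hβQ
  have h2 : v (G.xk⁻¹ * G.ρ ⟨β, hβO⟩) < 1 := by
    rw [map_mul]
    calc v G.xk⁻¹ * v (G.ρ ⟨β, hβO⟩) ≤ v G.xk⁻¹ * 1 := mul_le_mul' le_rfl hβv
      _ = v G.xk⁻¹ := mul_one _
      _ < 1 := hxk
  have h3 : v (1 + G.xk⁻¹ * G.ρ ⟨β, hβO⟩) = 1 := by
    rw [Valuation.map_add_eq_of_lt_left _ (by rw [map_one]; exact h2), map_one]
  have h4 : 1 < v G.xk := by
    by_contra h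
    rw [not_lt] at h
    exact hQ ((Q.toValuationSubring.valuation_le_one_iff _).mp h)
  have h5 : 1 < v (G.ρ ⟨t, ht⟩) := by
    rw [hrel, map_mul, map_pow, h3, mul_one]
    exact one_lt_pow₀ h4 (Nat.pos_iff_ne_zero.mp hM)
  intro hmem
  have := (Q.toValuationSubring.valuation_le_one_iff _).mpr hmem
  exact absurd h5 (not_lt.mpr this)

end Fermat.Agent.S37.Red.H144

end
end
-- ===== PACK-END S37/Red/H144/Monic.lean

-- ===== PACK-BEGIN Lib/FF460/Norm.lean
section


/-!
# Function-field library (helper460): the norm formula `π_* div(f) = div(N_{F'/F} f)`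

For a finite extension `F'/F` of function fields over an algebraically closed field `K` of
characteristic zero, in the Prelude's language: `Divisor.PushforwardNormFormula K F F'`.
Proof: Mathlib's relative ideal norm for the integral closure `B` of `O_v` in `F'`.
-/

set_option autoImplicit false
set_option linter.unusedSectionVars false
set_option linter.style.haveILetI false

open IsDedekindDomain AlgebraicCurve

namespace Fermat.Agent.Lib.FF460

section Local

variable {K F F' : Type*} [Field K] [Field F] [Field F'] [Algebra K F] [Algebra K F']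
  [Algebra F F'] [IsScalarTower K F F'] [FiniteDimensional F F'] [Algebra.IsSeparable F F']
variable (v : Place K F)

/-- Every height-one prime of the integral closure of `O_v` lies over the maximal ideal. -/
theorem liesOver_maxId (P : HeightOneSpectrum (intCl F' v)) : P.asIdeal.LiesOver (maxId v) := by
  have hmax : (P.asIdeal.under ↥v.toValuationSubring).IsMaximal := by
    have hne : P.asIdeal.under ↥v.toValuationSubring ≠ ⊥ :=
      Ideal.under_ne_bot _ P.ne_bot
    haveI := P.isPrime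
    exact (Ideal.IsPrime.under _ P.asIdeal).isMaximal hne
  exact ⟨(IsLocalRing.eq_maximalIdeal hmax).symm⟩

/-- Primes over the maximal ideal of `O_v` are exactly the height-one primes of `B`. -/
def equivOver : (maxId v).primesOver (intCl F' v) ≃ HeightOneSpectrum (intCl F' v) where
  toFun := primeOfOver v
  invFun P := ⟨P.asIdeal, P.isPrime, liesOver_maxId v P⟩
  left_inv _ := Subtype.ext rfl
  right_inv _ := HeightOneSpectrum.ext rfl

noncomputable instance instFintypeHeightOneSpectrumIntCl :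
    Fintype (HeightOneSpectrum (intCl F' v)) :=
  Fintype.ofEquiv _ (equivOver v)

/-- The multiplicity of `P` in the factorisation of `(b)`. -/
noncomputable abbrev cnt (P : HeightOneSpectrum (intCl F' v)) (b : intCl F' v) : ℕ :=
  (Associates.mk P.asIdeal).count (Associates.mk (Ideal.span {b})).factors

theorem ord_ofHeightOneSpectrum_coe (P : HeightOneSpectrum (intCl F' v)) {b : intCl F' v}
    (hb : b ≠ 0) :
    (Place.ofHeightOneSpectrum (K := K) (F := F') P).ord (b : F') = (cnt v P b : ℤ) := by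
  rw [ord_ofHeightOneSpectrum]
  have h1 : P.valuation F' (b : F') = P.intValuation b := P.valuation_of_algebraMap b
  rw [h1, P.intValuation_if_neg hb]
  simp

variable [CharZero K]

theorem charZero_valuationSubring : CharZero ↥v.toValuationSubring :=
  charZero_of_injective_algebraMap (R := K) (FaithfulSMul.algebraMap_injective K _)

/-- `ord_v` of the integral norm of `b ∈ B` is the total multiplicity of `(b)`, provided all
residue degrees are one. -/
theorem ord_intNorm
    (hin : ∀ P : HeightOneSpectrum (intCl F' v), P.asIdeal.inertiaDeg ↥v.toValuationSubring = 1)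
    {b : intCl F' v} (hb : b ≠ 0) :
    v.ord (algebraMap ↥v.toValuationSubring F (Algebra.intNorm ↥v.toValuationSubring (intCl F' v) b))
      = ∑ P : HeightOneSpectrum (intCl F' v), (cnt v P b : ℤ) := by
  classical
  haveI := charZero_valuationSubring v
  haveI : CharZero (FractionRing ↥v.toValuationSubring) := IsFractionRing.charZero _
  obtain ⟨π, hπ⟩ := IsDiscreteValuationRing.exists_irreducible ↥v.toValuationSubring
  have hI : Ideal.span {b} ≠ (0 : Ideal (intCl F' v)) := by
    rw [Ne, Ideal.zero_eq_bot, Ideal.span_singleton_eq_bot]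
    exact hb
  have h1 := Ideal.finprod_heightOneSpectrum_factorization hI
  rw [finprod_eq_prod_of_fintype] at h1
  have h2 : Ideal.relNorm ↥v.toValuationSubring (Ideal.span {b}) =
      (maxId v) ^ (∑ P : HeightOneSpectrum (intCl F' v), cnt v P b) := by
    conv_lhs => rw [← h1]
    rw [map_prod, ← Finset.prod_pow_eq_pow_sum]
    refine Finset.prod_congr rfl fun P _ => ?_
    haveI := liesOver_maxId v P
    haveI : P.asIdeal.IsMaximal := P.isPrime.isMaximal P.ne_bot
    rw [HeightOneSpectrum.maxPowDividing, map_pow,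
      Ideal.relNorm_eq_pow_of_isMaximal P.asIdeal (maxId v), hin P, pow_one]
  rw [Ideal.relNorm_singleton, maxId, hπ.maximalIdeal_eq, Ideal.span_singleton_pow,
    Ideal.span_singleton_eq_span_singleton] at h2
  obtain ⟨u, hu⟩ := h2.symm
  -- `π ^ k * u = intNorm b`
  set k : ℕ := ∑ P : HeightOneSpectrum (intCl F' v), cnt v P b with hk
  have hu0 : ((u : ↥v.toValuationSubring) : F) ≠ 0 := by
    intro h
    have := u.ne_zero
    exact this (Subtype.ext h)
  have key := ord_eq_of_eq_mul_zpow v (ϖ := (π : F)) (g := ((u : ↥v.toValuationSubring) : F))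
    (f := algebraMap ↥v.toValuationSubring F
      (Algebra.intNorm ↥v.toValuationSubring (intCl F' v) b)) (n := (k : ℤ)) π.2 hπ
    (u : ↥v.toValuationSubring).2 ?_ hu0 ?_
  · rw [key, hk]
    push_cast
    rfl
  · have : (((u⁻¹ : (↥v.toValuationSubring)ˣ) : ↥v.toValuationSubring) : F)
        = ((u : ↥v.toValuationSubring) : F)⁻¹ := by
      apply eq_inv_of_mul_eq_one_left
      show ((((u⁻¹ : (↥v.toValuationSubring)ˣ) : ↥v.toValuationSubring) *
        (u : ↥v.toValuationSubring) : ↥v.toValuationSubring) : F) = 1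
      rw [Units.inv_mul]
      rfl
    rw [← this]
    exact ((u⁻¹ : (↥v.toValuationSubring)ˣ) : ↥v.toValuationSubring).2
  · rw [← hu]
    show ((π ^ k * (u : ↥v.toValuationSubring) : ↥v.toValuationSubring) : F) = _
    push_cast
    rw [zpow_natCast, mul_comm]

/-- The sum of `ord_w` over all places `w` above `v` (indexed by the height-one primes of `B`). -/
noncomputable abbrev sumOrd (f : F') : ℤ :=
  ∑ P : HeightOneSpectrum (intCl F' v), (Place.ofHeightOneSpectrum (K := K) (F := F') P).ord f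

theorem sumOrd_mul {f g : F'} (hf : f ≠ 0) (hg : g ≠ 0) :
    sumOrd v (f * g) = sumOrd v f + sumOrd v g := by
  simp only [sumOrd]
  rw [← Finset.sum_add_distrib]
  exact Finset.sum_congr rfl fun P _ => Place.ord_mul _ hf hg

theorem sumOrd_inv (f : F') : sumOrd v f⁻¹ = - sumOrd v f := by
  simp only [sumOrd]
  rw [← Finset.sum_neg_distrib]
  exact Finset.sum_congr rfl fun P _ => Place.ord_inv _ f

theorem sumOrd_coe
    (hin : ∀ P : HeightOneSpectrum (intCl F' v), P.asIdeal.inertiaDeg ↥v.toValuationSubring = 1)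
    {b : intCl F' v} (hb : b ≠ 0) :
    sumOrd v (b : F') = v.ord (Algebra.norm F (b : F')) := by
  have h := ord_intNorm v hin hb
  rw [Algebra.algebraMap_intNorm (L := F')] at h
  rw [show (b : F') = algebraMap (intCl F' v) F' b from rfl, h]
  exact Finset.sum_congr rfl fun P _ => ord_ofHeightOneSpectrum_coe v P hb

/-- **Norm formula, local form**: `∑_{w | v} ord_w f = ord_v (N_{F'/F} f)`. -/
theorem sumOrd_eq_ord_norm
    (hin : ∀ P : HeightOneSpectrum (intCl F' v), P.asIdeal.inertiaDeg ↥v.toValuationSubring = 1)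
    {f : F'} (hf : f ≠ 0) :
    sumOrd v f = v.ord (Algebra.norm F f) := by
  obtain ⟨x, y, hy, rfl⟩ := IsFractionRing.div_surjective (intCl F' v) f
  have hy0 : y ≠ 0 := nonZeroDivisors.ne_zero hy
  have hx0 : x ≠ 0 := by
    rintro rfl
    simp at hf
  have hx' : algebraMap (intCl F' v) F' x ≠ 0 :=
    (map_ne_zero_iff _ (IsFractionRing.injective _ _)).mpr hx0
  have hy' : algebraMap (intCl F' v) F' y ≠ 0 :=
    (map_ne_zero_iff _ (IsFractionRing.injective _ _)).mpr hy0
  have hnx : Algebra.norm F (algebraMap (intCl F' v) F' x) ≠ 0 :=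
    Algebra.norm_ne_zero_iff.mpr hx'
  have hny : Algebra.norm F (algebraMap (intCl F' v) F' y) ≠ 0 :=
    Algebra.norm_ne_zero_iff.mpr hy'
  have hinv : Algebra.norm F (algebraMap (intCl F' v) F' y)⁻¹ =
      (Algebra.norm F (algebraMap (intCl F' v) F' y))⁻¹ := by
    apply eq_inv_of_mul_eq_one_left
    rw [← map_mul, inv_mul_cancel₀ hy', map_one]
  rw [div_eq_mul_inv, sumOrd_mul v hx' (inv_ne_zero hy'), sumOrd_inv, map_mul, hinv,
    Place.ord_mul _ hnx (inv_ne_zero hny), Place.ord_inv]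
  have h1 := sumOrd_coe v hin hx0
  have h2 := sumOrd_coe v hin hy0
  rw [show (x : F') = algebraMap (intCl F' v) F' x from rfl] at h1
  rw [show (y : F') = algebraMap (intCl F' v) F' y from rfl] at h2
  rw [h1, h2]

end Local

section Main

variable {K F F' : Type*} [Field K] [Field F] [Field F'] [Algebra K F] [Algebra K F']
  [Algebra F F'] [IsScalarTower K F F'] [FiniteDimensional F F']
  [IsAlgClosed K] [CharZero K]

/-- **Norm formula** `π_* div(f) = div(N_{F'/F} f)` for a finite extension of function fields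
over an algebraically closed field of characteristic zero. -/
theorem pushforwardNormFormula {x : F'} (hx : Transcendental K x)
    [FiniteDimensional (IntermediateField.adjoin K {x}) F'] :
    Divisor.PushforwardNormFormula K F F' := by
  classical
  intro f hf D hD v
  haveI : Algebra.IsSeparable F F' := isSeparable_of_charZero K
  have hin : ∀ P : HeightOneSpectrum (intCl F' v),
      P.asIdeal.inertiaDeg ↥v.toValuationSubring = 1 := fun P =>
    inertiaDeg_primesOver_eq_one v hx ((equivOver v).symm P)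
  rw [← sumOrd_eq_ord_norm v hin hf, Divisor.pushforward_apply]
  -- rewrite the left-hand side as a sum over the fibre
  have hL : ∑ w ∈ D.support, (if w.restrict F = v then D w * (w.inertiaDeg F : ℤ) else 0)
      = ∑ w ∈ D.support.filter (fun w => w.restrict F = v), w.ord f := by
    rw [Finset.sum_filter]
    refine Finset.sum_congr rfl fun w _ => ?_
    by_cases h : w.restrict F = v
    · rw [if_pos h, if_pos h, hD, place_inertiaDeg_eq_one hx]
      simp
    · rw [if_neg h, if_neg h]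
  rw [hL]
  have hinj : Function.Injective
      (fun P : HeightOneSpectrum (intCl F' v) => Place.ofHeightOneSpectrum (K := K) (F := F') P) :=
    ofHeightOneSpectrum_injective (K := K) (F := F') (B := intCl F' v)
  have hR : sumOrd v f = ∑ w ∈ (Finset.univ.image
      (fun P : HeightOneSpectrum (intCl F' v) => Place.ofHeightOneSpectrum (K := K) (F := F') P)),
      w.ord f := by
    rw [Finset.sum_image (fun P _ Q _ h => hinj h)]
  rw [hR]
  refine Finset.sum_subset ?_ ?_
  · intro w hw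
    rw [Finset.mem_filter] at hw
    obtain ⟨Q, hQ⟩ := exists_placeOfOver_eq v hw.2
    exact Finset.mem_image.mpr ⟨primeOfOver v Q, Finset.mem_univ _, hQ⟩
  · intro w hw hw'
    obtain ⟨P, -, rfl⟩ := Finset.mem_image.mp hw
    rw [Finset.mem_filter, not_and] at hw'
    have : Place.ofHeightOneSpectrum (K := K) (F := F') P ∉ D.support := fun h =>
      hw' h (restrict_ofHeightOneSpectrum v P)
    rw [Finsupp.notMem_support_iff, hD] at this
    exact this

end Main

end Fermat.Agent.Lib.FF460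

end
-- ===== PACK-END Lib/FF460/Norm.lean

-- ===== PACK-BEGIN A2/H373/SheetsBase.lean
section




/-!
# Cell A2 — route G, leaf SHEETS: the sheets of the base field `F` (helper373)

In the context `SSCtx` of `H12/AlgLeaves.lean`:

* `isAlgebraic_adjoin_of_finite`, `exists_div_mem` : every element of `F` is a quotient `a / b`
  of elements of `Bf`;
* `sheet_mem_of_mem` : `Bf` lies in every sheet;
* `centreOn_eq_or` : the centre of a sheet on `Bf` is one of the two components `p₁`, `p₂`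
  (incomparability over `R[x]` + the Gauss condition);
* `sheet_eq_of_centre` : a discrete sheet is determined by its centre;
* `base_sheets_finite` : `F` has finitely many (at most two) sheets.
-/

set_option autoImplicit false
set_option linter.style.haveILetI false
set_option linter.unusedSectionVars false

namespace Fermat.Agent.A2.H373

open Polynomial
open Fermat.Agent.A2
open Fermat.Agent.A2.H12 (IsSheet SSCtx BaseConclusion)

section Frac

theorem algebraMap_RF_injective {R : Type} (E : Type) {F : Type} [CommRing R] [Field E]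
    [Algebra R E] [IsFractionRing R E] [Field F] [Algebra E F] [Algebra R F]
    [IsScalarTower R E F] : Function.Injective (algebraMap R F) := by
  rw [IsScalarTower.algebraMap_eq R E F]
  exact (algebraMap E F).injective.comp (IsFractionRing.injective R E)

variable {R E F : Type} [CommRing R] [IsDomain R] [Field E] [Algebra R E]
  [IsFractionRing R E] [Field F] [Algebra E F] [Algebra R F] [IsScalarTower R E F]

/-- clearing the denominators of a polynomial over `E = Frac R` -/
theorem exists_mul_aeval_eq (x : F) (r : E[X]) :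
    ∃ (d : R) (r' : R[X]), d ≠ 0 ∧ algebraMap R F d * aeval x r = aeval x r' := by
  obtain ⟨b, hbM, hb⟩ := IsLocalization.integerNormalization_spec (nonZeroDivisors R) r
  refine ⟨b, IsLocalization.integerNormalization (nonZeroDivisors R) r,
    nonZeroDivisors.ne_zero hbM, ?_⟩
  have h := congrArg (aeval x) hb
  rw [Polynomial.aeval_map_algebraMap] at h
  rw [h, ← algebraMap_smul E b r, map_smul, algebraMap_smul, Algebra.smul_def]

/-- every element of `E(x)` is a quotient of two elements of `R[x]` -/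
theorem exists_div_of_mem_adjoin (x : F) {z : F}
    (hz : z ∈ IntermediateField.adjoin E ({x} : Set F)) :
    ∃ a ∈ Algebra.adjoin R ({x} : Set F), ∃ b ∈ Algebra.adjoin R ({x} : Set F), z = a / b := by
  obtain ⟨r, s, rfl⟩ := (IntermediateField.mem_adjoin_simple_iff E z).1 hz
  obtain ⟨d, r', hd, hr⟩ := exists_mul_aeval_eq (R := R) x r
  obtain ⟨e, s', he, hs⟩ := exists_mul_aeval_eq (R := R) x s
  have hd' : algebraMap R F d ≠ 0 := fun h =>
    hd ((map_eq_zero_iff _ (algebraMap_RF_injective E)).1 h)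
  have he' : algebraMap R F e ≠ 0 := fun h =>
    he ((map_eq_zero_iff _ (algebraMap_RF_injective E)).1 h)
  have hmem : ∀ P : R[X], aeval x P ∈ Algebra.adjoin R ({x} : Set F) := by
    intro P
    rw [Algebra.adjoin_singleton_eq_range_aeval]
    exact ⟨P, rfl⟩
  refine ⟨algebraMap R F e * aeval x r', ?_, algebraMap R F d * aeval x s', ?_, ?_⟩
  · exact Subalgebra.mul_mem _ (Subalgebra.algebraMap_mem _ _) (hmem r')
  · exact Subalgebra.mul_mem _ (Subalgebra.algebraMap_mem _ _) (hmem s')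
  · rw [← hr, ← hs]
    by_cases h0 : aeval x s = 0
    · rw [h0]; simp
    · field_simp

theorem adjoin_le_adjoin_field (x : F) {a : F} (ha : a ∈ Algebra.adjoin R ({x} : Set F)) :
    a ∈ IntermediateField.adjoin E ({x} : Set F) := by
  induction ha using Algebra.adjoin_induction with
  | mem y hy => exact IntermediateField.subset_adjoin E _ hy
  | algebraMap r =>
    rw [IsScalarTower.algebraMap_apply R E F]
    exact IntermediateField.algebraMap_mem _ _
  | add y z _ _ hy hz => exact add_mem hy hz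
  | mul y z _ _ hy hz => exact mul_mem hy hz

/-- `F` is algebraic over `R[x]` if it is finite over `E(x)`. -/
theorem isAlgebraic_adjoin_of_finite (x : F)
    [FiniteDimensional (IntermediateField.adjoin E ({x} : Set F)) F] (y : F) :
    IsAlgebraic (Algebra.adjoin R ({x} : Set F)) y := by
  classical
  set A : Subalgebra R F := Algebra.adjoin R ({x} : Set F) with hA
  set K : IntermediateField E F := IntermediateField.adjoin E ({x} : Set F) with hK
  let φ : A →+* K :=
    { toFun := fun a => ⟨a, adjoin_le_adjoin_field x a.2⟩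
      map_one' := rfl
      map_mul' := fun _ _ => rfl
      map_zero' := rfl
      map_add' := fun _ _ => rfl }
  letI : Algebra A K := φ.toAlgebra
  haveI : IsScalarTower A K F := IsScalarTower.of_algebraMap_eq (fun _ => rfl)
  have hinj : Function.Injective (algebraMap A K) := by
    intro a b hab
    have : (a : F) = b := congrArg (fun t : K => (t : F)) hab
    exact Subtype.ext this
  haveI : FaithfulSMul A K := (faithfulSMul_iff_algebraMap_injective A K).2 hinj
  haveI : IsFractionRing A K := by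
    refine IsFractionRing.of_field A K (fun z => ?_)
    obtain ⟨a, ha, b, hb, h⟩ := exists_div_of_mem_adjoin (R := R) x z.2
    exact ⟨⟨a, ha⟩, ⟨b, hb⟩, Subtype.ext h⟩
  have hy : IsAlgebraic K y := Algebra.IsAlgebraic.isAlgebraic y
  exact (IsFractionRing.isAlgebraic_iff A K F).2 hy

end Frac

section Centre

variable {R F : Type} [CommRing R] [Field F] [Algebra R F]

/-- the inclusion of a subalgebra contained in a valuation subring -/
def inclV (V : ValuationSubring F) (B : Subalgebra R F) (h : ∀ b ∈ B, b ∈ V) : B →+* V where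
  toFun b := ⟨b, h b b.2⟩
  map_one' := rfl
  map_mul' _ _ := rfl
  map_zero' := rfl
  map_add' _ _ := rfl

/-- the centre of a valuation subring on a subalgebra contained in it -/
def centreOn (V : ValuationSubring F) (B : Subalgebra R F) (h : ∀ b ∈ B, b ∈ V) : Ideal B :=
  (IsLocalRing.maximalIdeal V).comap (inclV V B h)

theorem mem_centreOn (V : ValuationSubring F) (B : Subalgebra R F) (h : ∀ b ∈ B, b ∈ V)
    (b : B) : b ∈ centreOn V B h ↔ (b : F) ∈ V.nonunits := by
  rw [centreOn, Ideal.mem_comap, ValuationSubring.mem_nonunits_iff_exists_mem_maximalIdeal]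
  constructor
  · intro hb
    exact ⟨h b b.2, hb⟩
  · rintro ⟨_, hb⟩
    exact hb

instance centreOn_isPrime (V : ValuationSubring F) (B : Subalgebra R F) (h : ∀ b ∈ B, b ∈ V) :
    (centreOn V B h).IsPrime :=
  Ideal.comap_isPrime _ _

end Centre

section Sheets

variable {R F : Type} [CommRing R] [Field F] [Algebra R F]
variable {w : R} {x : F} {B : Subalgebra R F} {V V' : ValuationSubring F}

theorem sheet_mem_of_mem (hB : ∀ f : F, f ∈ B ↔ IsIntegral (Algebra.adjoin R ({x} : Set F)) f)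
    (hV : IsSheet w x V) : ∀ b ∈ B, b ∈ V := by
  intro b hb
  exact hV.chart_le (T := {x}) (by simp) ((hB b).1 hb)

theorem adjoin_le_of_hB (hB : ∀ f : F, f ∈ B ↔ IsIntegral (Algebra.adjoin R ({x} : Set F)) f) :
    Algebra.adjoin R ({x} : Set F) ≤ B := by
  intro a ha
  rw [hB]
  exact isIntegral_algebraMap (R := Algebra.adjoin R ({x} : Set F)) (x := ⟨a, ha⟩)

/-- every element of `F` is a quotient of elements of `B` -/
theorem exists_div_mem (hB : ∀ f : F, f ∈ B ↔ IsIntegral (Algebra.adjoin R ({x} : Set F)) f)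
    (halg : ∀ y : F, IsAlgebraic (Algebra.adjoin R ({x} : Set F)) y) (f : F) :
    ∃ a ∈ B, ∃ b ∈ B, b ≠ 0 ∧ f = a / b := by
  obtain ⟨y, hy0, hint⟩ := (halg f).exists_integral_multiple
  have hy0' : (y : F) ≠ 0 := fun h => hy0 (Subtype.ext h)
  refine ⟨(y : F) * f, (hB _).2 hint, (y : F), adjoin_le_of_hB hB y.2, hy0', ?_⟩
  field_simp

/-- Gauss condition: a polynomial in `x` which is a nonunit of a sheet is divisible by `w`. -/
theorem sheet_exists_mul_of_nonunit (hV : IsSheet w x V) (P : R[X])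
    (h : aeval x P ∈ V.nonunits) :
    ∃ Q : R[X], aeval x P = algebraMap R F w * aeval x Q := by
  by_cases h0 : aeval x P = 0
  · exact ⟨0, by rw [h0, map_zero, mul_zero]⟩
  have hall : ∀ i, w ∣ P.coeff i := by
    by_contra hcon
    rw [not_forall] at hcon
    have h1 := hV.2.2.2 P hcon
    rw [ValuationSubring.mem_nonunits_iff_or] at h
    rcases h with h | h
    · exact h0 h
    · exact h h1
  obtain ⟨Q, hQ⟩ := (Polynomial.C_dvd_iff_dvd_coeff w P).2 hall
  refine ⟨Q, ?_⟩
  rw [hQ, map_mul, aeval_C]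

/-- incomparability: the centre of a sheet on `B` is minimal over `w` -/
theorem centreOn_le_of_le (hB : ∀ f : F, f ∈ B ↔ IsIntegral (Algebra.adjoin R ({x} : Set F)) f)
    (hV : IsSheet w x V) (p : Ideal B) [p.IsPrime] (hw : algebraMap R B w ∈ p)
    (hle : p ≤ centreOn V B (sheet_mem_of_mem hB hV)) :
    centreOn V B (sheet_mem_of_mem hB hV) ≤ p := by
  by_contra hnot
  obtain ⟨b, hbc, hbp⟩ := SetLike.not_le_iff_exists.1 hnot
  set A : Subalgebra R F := Algebra.adjoin R ({x} : Set F) with hA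
  have hAB : A ≤ B := adjoin_le_of_hB hB
  letI : Algebra A B := (Subalgebra.inclusion hAB).toRingHom.toAlgebra
  have hint : IsIntegral A b := by
    obtain ⟨P, hPm, hP⟩ := (hB b).1 b.2
    refine ⟨P, hPm, ?_⟩
    apply Subtype.ext
    have := Polynomial.hom_eval₂ P (algebraMap A B) (B.val : B →+* F) b
    rw [show ((B.val : B →+* F) (eval₂ (algebraMap A B) b P) : F)
      = ((eval₂ (algebraMap A B) b P : B) : F) from rfl] at this
    rw [this]
    exact hP
  have hlt := Ideal.comap_lt_comap_of_integral_mem_sdiff hle ⟨hbc, hbp⟩ hint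
  obtain ⟨a, hac, hap⟩ := SetLike.exists_of_lt hlt
  rw [Ideal.mem_comap] at hac hap
  rw [mem_centreOn] at hac
  have haF : ((algebraMap A B a : B) : F) = (a : F) := rfl
  obtain ⟨P, hP⟩ : ∃ P : R[X], aeval x P = (a : F) := by
    have h1 : (a : F) ∈ Algebra.adjoin R ({x} : Set F) := a.2
    rw [Algebra.adjoin_singleton_eq_range_aeval] at h1
    exact h1
  rw [haF, ← hP] at hac
  obtain ⟨Q, hQ⟩ := sheet_exists_mul_of_nonunit hV P hac
  apply hap
  have hQB : aeval x Q ∈ B := hAB (by
    show aeval x Q ∈ Algebra.adjoin R ({x} : Set F)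
    rw [Algebra.adjoin_singleton_eq_range_aeval]
    exact ⟨Q, rfl⟩)
  have : algebraMap A B a = algebraMap R B w * ⟨aeval x Q, hQB⟩ := by
    apply Subtype.ext
    rw [haF, ← hP, hQ]
    rfl
  rw [this]
  exact Ideal.mul_mem_right _ _ hw

/-- the centre of a sheet on a semistable chart is one of the two components -/
theorem centreOn_eq_or (hB : ∀ f : F, f ∈ B ↔ IsIntegral (Algebra.adjoin R ({x} : Set F)) f)
    (hV : IsSheet w x V) (C : SSChart w B) :
    centreOn V B (sheet_mem_of_mem hB hV) = C.p₁ ∨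
      centreOn V B (sheet_mem_of_mem hB hV) = C.p₂ := by
  have hwc : algebraMap R B w ∈ centreOn V B (sheet_mem_of_mem hB hV) := by
    rw [mem_centreOn]
    exact hV.2.2.1
  have hspan : Ideal.span {algebraMap R B w} ≤ centreOn V B (sheet_mem_of_mem hB hV) := by
    rw [Ideal.span_le, Set.singleton_subset_iff]
    exact hwc
  have hw12 : algebraMap R B w ∈ C.p₁ ⊓ C.p₂ := by
    rw [C.inf_eq]
    exact Ideal.subset_span rfl
  rw [← C.inf_eq] at hspan
  haveI := C.prime₁
  haveI := C.prime₂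
  rcases ((centreOn_isPrime V B (sheet_mem_of_mem hB hV)).inf_le).1 hspan with h | h
  · left
    exact le_antisymm (centreOn_le_of_le hB hV C.p₁ hw12.1 h) h
  · right
    exact le_antisymm (centreOn_le_of_le hB hV C.p₂ hw12.2 h) h

/-- a discrete sheet is determined by its centre on a semistable chart -/
theorem sheet_eq_of_centre (hB : ∀ f : F, f ∈ B ↔ IsIntegral (Algebra.adjoin R ({x} : Set F)) f)
    (hfrac : ∀ f : F, ∃ a ∈ B, ∃ b ∈ B, b ≠ 0 ∧ f = a / b)
    (hw0 : algebraMap R F w ≠ 0) (hV : IsSheet w x V) (hV' : IsSheet w x V')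
    (hdisc : ∀ f : F, f ≠ 0 →
      ∃ (n : ℤ) (u : F), u ∈ V ∧ u⁻¹ ∈ V ∧ f = algebraMap R F w ^ n * u)
    (hdisc' : ∀ f : F, f ≠ 0 →
      ∃ (n : ℤ) (u : F), u ∈ V' ∧ u⁻¹ ∈ V' ∧ f = algebraMap R F w ^ n * u)
    (p p' : Ideal B) (hinf : p ⊓ p' ≤ Ideal.span {algebraMap R B w}) (hnot : ¬ p' ≤ p)
    (hc : centreOn V B (sheet_mem_of_mem hB hV) = p)
    (hc' : centreOn V' B (sheet_mem_of_mem hB hV') = p) : V = V' := by
  obtain ⟨s, hsp', hsp⟩ := SetLike.not_le_iff_exists.1 hnot
  have hBV := sheet_mem_of_mem hB hV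
  have hBV' := sheet_mem_of_mem hB hV'
  have hcV : ∀ b : B, (b : F) ∈ V.nonunits ↔ b ∈ p := by
    intro b
    rw [← mem_centreOn V B hBV, hc]
  have hcV' : ∀ b : B, (b : F) ∈ V'.nonunits ↔ b ∈ p := by
    intro b
    rw [← mem_centreOn V' B hBV', hc']
  have hcen : ∀ b ∈ B.toSubring, b ∈ V.nonunits ↔ b ∈ V'.nonunits := by
    intro b hb
    rw [hcV ⟨b, hb⟩, hcV' ⟨b, hb⟩]
  have hdiv : ∀ a ∈ B.toSubring, (a : F) ∈ V.nonunits →
      ∃ a' ∈ B.toSubring, (s : F) * a = algebraMap R F w * a' := by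
    intro a ha hanu
    have hap : (⟨a, ha⟩ : B) ∈ p := (hcV ⟨a, ha⟩).1 hanu
    have h1 : s * ⟨a, ha⟩ ∈ p ⊓ p' :=
      ⟨Ideal.mul_mem_left _ _ hap, Ideal.mul_mem_right _ _ hsp'⟩
    obtain ⟨a', ha'⟩ := Ideal.mem_span_singleton'.1 (hinf h1)
    refine ⟨a', a'.2, ?_⟩
    have := congrArg (fun t : B => (t : F)) ha'
    simp only [Subalgebra.coe_mul, Subalgebra.coe_algebraMap] at this
    rw [← this, mul_comm]
  have hWB : algebraMap R F w ∈ B.toSubring := B.algebraMap_mem w
  apply le_antisymm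
  · exact le_of_same_centre B.toSubring V V' hBV hBV' hV.2.2.1 hw0 hWB hdisc hfrac hcen
      s.2 (fun h => hsp ((hcV s).1 h)) hdiv
  · exact le_of_same_centre B.toSubring V' V hBV' hBV hV'.2.2.1 hw0 hWB hdisc' hfrac
      (fun b hb => (hcen b hb).symm) s.2 (fun h => hsp ((hcV' s).1 h))
      (fun a ha hanu => hdiv a ha ((hcen a ha).2 hanu))

end Sheets

section Finite

variable {R E F : Type} [CommRing R] [IsDomain R] [IsDiscreteValuationRing R]
    [HenselianLocalRing R] [IsAlgClosed (IsLocalRing.ResidueField R)]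
    [Field E] [CharZero E] [Algebra R E] [IsFractionRing R E]
    [Field F] [Algebra E F] [Algebra R F] [IsScalarTower R E F]
    {w : R} {q m : ℕ} {x : F} {Bf Bi : Subalgebra R F}
    {τ : F ≃+* F} {τE : E ≃+* E} {τR : R ≃+* R}

theorem algebraMap_w_ne_zero (ctx : SSCtx w q m x Bf Bi τ τE τR) : algebraMap R F w ≠ 0 := by
  intro h
  exact ctx.irr.ne_zero ((map_eq_zero_iff _ (algebraMap_RF_injective E)).1 h)

/-- **The base field has finitely many sheets** (at most two: the components of the chart). -/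
theorem base_sheets_finite (ctx : SSCtx w q m x Bf Bi τ τE τR) (hbase : BaseConclusion w x τ) :
    {V : ValuationSubring F | IsSheet w x V}.Finite := by
  classical
  obtain ⟨C⟩ := ctx.cf
  haveI := ctx.fin
  have hfrac := exists_div_mem ctx.hBf (isAlgebraic_adjoin_of_finite (R := R) (E := E) x)
  have hw0 := algebraMap_w_ne_zero ctx
  let f : ValuationSubring F → Prop := fun V =>
    ∀ b : Bf, (b : F) ∈ V.nonunits ↔ b ∈ C.p₁
  refine Set.Finite.of_injOn (f := f) (t := Set.univ) (fun _ _ => Set.mem_univ _) ?_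
    Set.finite_univ
  intro V hV V' hV' hff
  have hV : IsSheet w x V := hV
  have hV' : IsSheet w x V' := hV'
  have key : ∀ U : ValuationSubring F, ∀ hU : IsSheet w x U,
      (f U ↔ centreOn U Bf (sheet_mem_of_mem ctx.hBf hU) = C.p₁) := by
    intro U hU
    constructor
    · intro h
      ext b
      rw [mem_centreOn]
      exact h b
    · intro h b
      rw [← mem_centreOn U Bf (sheet_mem_of_mem ctx.hBf hU), h]
  by_cases h1 : f V
  · have h1' : f V' := by rw [← hff]; exact h1
    exact sheet_eq_of_centre ctx.hBf hfrac hw0 hV hV' (hbase.discrete V hV)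
      (hbase.discrete V' hV') C.p₁ C.p₂ C.inf_eq.le C.not_le₂₁
      ((key V hV).1 h1) ((key V' hV').1 h1')
  · have h1' : ¬ f V' := by rw [← hff]; exact h1
    have h2 : centreOn V Bf (sheet_mem_of_mem ctx.hBf hV) = C.p₂ :=
      (centreOn_eq_or ctx.hBf hV C).resolve_left (fun h => h1 ((key V hV).2 h))
    have h2' : centreOn V' Bf (sheet_mem_of_mem ctx.hBf hV') = C.p₂ :=
      (centreOn_eq_or ctx.hBf hV' C).resolve_left (fun h => h1' ((key V' hV').2 h))
    exact sheet_eq_of_centre ctx.hBf hfrac hw0 hV hV' (hbase.discrete V hV)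
      (hbase.discrete V' hV') C.p₂ C.p₁ (by rw [inf_comm]; exact C.inf_eq.le) C.not_le₁₂ h2 h2'

end Finite

end Fermat.Agent.A2.H373

end
-- ===== PACK-END A2/H373/SheetsBase.lean

-- ===== PACK-BEGIN A2/Mod/H13/S1.lean
section



/-!
# WALL A2 / MODASM, sub-assembly S1 (helper13): the two components of the special fibre

`s1 : VzeroNeStatement → DegStatement → IndInfStatement → IndZeroStatement → S1Statement`
(leaves L6, L8, L9, L10 of `Mod/Spec.lean`; L2 and L3 are used from main).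

For both charts `B = chartAlg y`, `y ∈ {x, x⁻¹}`, `x = j · j_q`: the ideals `p∞ = B ∩ w V∞`,
`p₀ = B ∩ w V₀` are prime, incomparable, and `p∞ ⊓ p₀ = w B` (the special fibre is reduced with
exactly two components).  Proof: `Frame.lean` (leaves ⟹ frame) + helper489's
`frame_exists_components(_inv)` (frame ⟹ components; two-extension theorem + QEP2).
-/

set_option autoImplicit false
set_option linter.unusedSectionVars false
set_option linter.style.haveILetI false
set_option synthInstance.maxHeartbeats 400000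
set_option maxHeartbeats 1600000

noncomputable section

namespace Fermat.Agent.A2.Mod.H13

open ModularCurve HahnSeries Polynomial IntermediateField
open Fermat.Agent.A2 Fermat.Agent.A2.Mod

variable {P : ValuationSubring _root_.Fermat.Agent.A2.Mod.Qb} {E : IntermediateField ℚ _root_.Fermat.Agent.A2.Mod.Qb} {M q : ℕ} [NeZero M] [NeZero q]
  {w : _root_.Fermat.Agent.A2.Mod.RE P E}

/-- **S1.** -/
theorem s1 (hL6 : VzeroNeStatement P E M q w) (hL8 : DegStatement E M q)
    (hL9 : IndInfStatement P E M q w) (hL10 : IndZeroStatement P E M q w) :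
    S1Statement P E M q w := by
  intro hS V W hV hW y hy
  haveI := hS.dvr
  obtain ⟨htr, hfr, -⟩ := hL8 hS.q_prime hS.q_not_dvd
  obtain ⟨b, hb, hbI⟩ := hL9 hS V hV
  obtain ⟨c, hc, hcI⟩ := hL10 hS V W hV hW
  have hu : H48.IsUnif V (cE P E (M * q) w) :=
    (H553.vinfBasic P E w (M * q) (NeZero.ne _) hS.dvr hS.unif V hV).1
  have hu₂ := isUnif_comap hu W
  have hG₁ := isGaussOver_xE hS.unif hV htr
  have hG₂ := isGaussOver_comap_xE hS.unif hV hW htr
  have hne : V ≠ V.comap (W : _root_.Fermat.Agent.A2.Mod.FE E (M * q) →+* _root_.Fermat.Agent.A2.Mod.FE E (M * q)) :=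
    fun h => hL6 hS V W hV hW h.symm
  have hpos : 0 < Module.finrank (IntermediateField.adjoin E ({xE E M q} : Set (_root_.Fermat.Agent.A2.Mod.FE E (M * q))))
      (_root_.Fermat.Agent.A2.Mod.FE E (M * q)) := by
    rw [hfr]
    have h1 := dedekindPsi_pos_of_ne_zero M (NeZero.ne M)
    positivity
  haveI hfin : FiniteDimensional (IntermediateField.adjoin E ({xE E M q} : Set (_root_.Fermat.Agent.A2.Mod.FE E (M * q))))
      (_root_.Fermat.Agent.A2.Mod.FE E (M * q)) := Module.finite_of_finrank_pos hpos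
  have hdeg : Module.finrank (IntermediateField.adjoin E ({xE E M q} : Set (_root_.Fermat.Agent.A2.Mod.FE E (M * q))))
      (_root_.Fermat.Agent.A2.Mod.FE E (M * q)) ≤ (q + 1) * dedekindPsi M + (q + 1) * dedekindPsi M := by
    rw [hfr, two_mul]
  have hI₁ := polyIndepMod_of_indepMod hS.unif hu hbI
  have hI₂ := polyIndepMod_of_indepMod hS.unif hu₂ hcI
  rcases hy with rfl | rfl
  · obtain ⟨p₁, p₂, hc₁, hc₂, hp₁, hp₂, -, h₁₂, h₂₁, hinf⟩ :=
      H489.frame_exists_components (E := E) hS.unif hG₁ hG₂ hu hu₂ hne hb hc hI₁ hI₂ hdeg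
        (chartAlg P E (M * q) (xE E M q)) (fun _ => Iff.rfl)
    exact ⟨p₁, p₂, fun b => (hc₁ b).trans (inW_iff_mem_nonunits hu _).symm,
      fun b => (hc₂ b).trans (inW_iff_mem_nonunits hu₂ _).symm, hp₁, hp₂, h₁₂, h₂₁, hinf⟩
  · obtain ⟨p₁, p₂, hc₁, hc₂, hp₁, hp₂, -, h₁₂, h₂₁, hinf⟩ :=
      H489.frame_exists_components_inv (E := E) hS.unif hG₁ hG₂ hu hu₂ hne hb hc hI₁ hI₂ hdeg
        (chartAlg P E (M * q) (xE E M q)⁻¹) (fun _ => Iff.rfl)
    exact ⟨p₁, p₂, fun b => (hc₁ b).trans (inW_iff_mem_nonunits hu _).symm,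
      fun b => (hc₂ b).trans (inW_iff_mem_nonunits hu₂ _).symm, hp₁, hp₂, h₁₂, h₂₁, hinf⟩

end Fermat.Agent.A2.Mod.H13

end
end
-- ===== PACK-END A2/Mod/H13/S1.lean

-- ===== PACK-BEGIN S18/B12/H638/Normal.lean
section



/-!
# S18 b2 (helper638): FULL NORMALITY of the special fibre — `B2NormalDomStatement`

Requested by row S37 (helper37, `coord/S37-b2-request.md`): hypothesis (H3) `lift_fin`/`lift_inf`
of the S37 reduction datum needs b2 for ALL integral elements of `Frac (B/wB)`, not only for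
idempotents.

* `H638.B2NormalDomStatement` : the requested statement `B2NormalStatement`, with the extra hypothesis
  `hdom : Prime (algebraMap R[X] B (C w))` (the special fibre is a domain; in the application
  `B/wB` embeds into `κ((q))` by the `q`-expansion principle).
* `B2IntClosedStatement` : same hypotheses, conclusion `IsIntegrallyClosed (B/wB)`.
* `b2IntClosed_of_pieces`, `b2NormalDom_of_pieces` : both from the frozen pieces
  `B2CoreAbsStatement` (A6'), `RegSeqAbsStatement` (A0), `IntClosedOfDiscrStatement` (A8),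
  `PolyInstStatement` (A1) of `B12/Spec*.lean`.
* `b2NormalDom_of_intClosed` : the pure algebra step (no pieces): in a domain `B` with `w` prime and
  `B/wB` integrally closed, `b/g` integral over `B/wB` implies `b ≡ g b₀ mod w`.
-/

set_option autoImplicit false
set_option linter.style.haveILetI false

noncomputable section

namespace Fermat.Agent.S18.B12.H638

open Polynomial

universe u v

/-- **b2, integrally closed form.**  Hypotheses of `B2RegularStatement`; conclusion: the special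
fibre `B/wB` is an integrally closed domain. -/
def B2IntClosedStatement : Prop :=
  ∀ (R : Type u) [CommRing R] [IsDomain R] [IsDiscreteValuationRing R] [CharZero R]
    (w : R) (_ : Irreducible w)
    (B : Type v) [CommRing B] [IsDomain B] [IsIntegrallyClosed B] [Algebra R[X] B]
    [Module.Finite R[X] B] [Module.IsTorsionFree R[X] B]
    (_ : Prime (algebraMap R[X] B (C w)))
    (_ : ∃ x : Fin (Module.finrank R[X] B) → B,
        ¬ C w ∣ (Matrix.of fun i j => Algebra.intTrace R[X] B (x i * x j)).det)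
    (S : Finset R) (_ : ∀ c ∈ S, ∀ c' ∈ S, c ≠ c' → IsUnit (c - c'))
    (_ : ∀ π : R[X], Prime π → ¬ Associated π (C w) → (∀ c ∈ S, ¬ Associated π (X - C c)) →
        (Ideal.span {algebraMap R[X] B π}).IsRadical),
    IsIntegrallyClosed (B ⧸ Ideal.span {algebraMap R[X] B (C w)})

/-- **b2, full normality form (domain case).**  `B2NormalStatement` of
`origin/helper37:coord/S37-b2-request.md` with the extra hypothesis that `w` is prime in `B`:
if `ε = b/g` satisfies `ε^d + Σ a_i ε^i = 0` in `Frac (B/wB)` then `ε ∈ B/wB`. -/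
def B2NormalDomStatement : Prop :=
  ∀ (R : Type u) [CommRing R] [IsDomain R] [IsDiscreteValuationRing R] [CharZero R]
    (w : R) (_ : Irreducible w)
    (B : Type v) [CommRing B] [IsDomain B] [IsIntegrallyClosed B] [Algebra R[X] B]
    [Module.Finite R[X] B] [Module.IsTorsionFree R[X] B]
    (_ : Prime (algebraMap R[X] B (C w)))
    (_ : ∃ x : Fin (Module.finrank R[X] B) → B,
        ¬ C w ∣ (Matrix.of fun i j => Algebra.intTrace R[X] B (x i * x j)).det)
    (S : Finset R) (_ : ∀ c ∈ S, ∀ c' ∈ S, c ≠ c' → IsUnit (c - c'))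
    (_ : ∀ π : R[X], Prime π → ¬ Associated π (C w) → (∀ c ∈ S, ¬ Associated π (X - C c)) →
        (Ideal.span {algebraMap R[X] B π}).IsRadical)
    (b : B) (g : R[X]), ¬ C w ∣ g →
    (∃ (d : ℕ) (a : Fin d → B),
        b ^ d + ∑ i : Fin d, a i * b ^ (i : ℕ) * algebraMap R[X] B g ^ (d - (i : ℕ)) ∈
          Ideal.span {algebraMap R[X] B (C w)}) →
      ∃ b₀ : B, b - algebraMap R[X] B g * b₀ ∈ Ideal.span {algebraMap R[X] B (C w)}


/-- In a torsion-free integral extension `B` of an integrally closed domain `P`, divisibility of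
elements of `P` can be tested in `B`. -/
theorem dvd_of_algebraMap_dvd {P : Type u} {B : Type v} [CommRing P] [IsDomain P]
    [IsIntegrallyClosed P] [CommRing B] [IsDomain B] [Algebra P B] [Algebra.IsIntegral P B]
    [Module.IsTorsionFree P B] (w g : P) (hw : w ≠ 0)
    (h : algebraMap P B w ∣ algebraMap P B g) : w ∣ g := by
  obtain ⟨c, hc⟩ := h
  have hinj : Function.Injective (algebraMap P B) := FaithfulSMul.algebraMap_injective P B
  let K := FractionRing P
  let L := FractionRing B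
  have hinjL : Function.Injective (algebraMap P L) := by
    rw [IsScalarTower.algebraMap_eq P B L]
    exact (IsFractionRing.injective B L).comp hinj
  haveI : FaithfulSMul P L := (faithfulSMul_iff_algebraMap_injective P L).mpr hinjL
  letI : Algebra K L := FractionRing.liftAlgebra P L
  haveI : IsScalarTower P K L := FractionRing.isScalarTower_liftAlgebra P L
  have hwK : algebraMap P K w ≠ 0 := by
    intro h0
    exact hw ((IsFractionRing.injective P K) (by rw [h0, map_zero]))
  set k : K := algebraMap P K g / algebraMap P K w with hk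
  have hkL : algebraMap K L k = algebraMap B L c := by
    have hwL : algebraMap K L (algebraMap P K w) ≠ 0 := by
      intro h0
      exact hwK ((algebraMap K L).injective (by rw [h0, map_zero]))
    rw [hk, map_div₀, div_eq_iff hwL, ← IsScalarTower.algebraMap_apply P K L,
      ← IsScalarTower.algebraMap_apply P K L, IsScalarTower.algebraMap_apply P B L g, hc,
      map_mul, IsScalarTower.algebraMap_apply P B L w, mul_comm]
  have hint : IsIntegral P k := by
    have h1 : IsIntegral P (algebraMap B L c) :=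
      (Algebra.IsIntegral.isIntegral (R := P) c).algebraMap
    rw [← hkL] at h1
    exact (isIntegral_algebraMap_iff (algebraMap K L).injective).mp h1
  obtain ⟨y, hy⟩ := (IsIntegrallyClosed.isIntegral_iff (R := P) (K := K)).mp hint
  refine ⟨y, ?_⟩
  apply IsFractionRing.injective P K
  rw [map_mul, hy, hk, mul_div_cancel₀ _ hwK]

/-- **Pure algebra step.**  `B` a commutative ring, `ϖ ∈ B` prime with `B/ϖB` integrally closed,
`γ ∉ ϖB`.  If `b^d + Σ_{i<d} a_i b^i γ^(d-i) ∈ ϖB` then `b ≡ γ b₀ mod ϖ` for some `b₀`. -/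
theorem exists_sub_mul_mem_of_isIntegrallyClosed {B : Type v} [CommRing B] (ϖ : B)
    (hϖ : Prime ϖ) [IsIntegrallyClosed (B ⧸ Ideal.span {ϖ})] (b γ : B)
    (hγ : γ ∉ Ideal.span {ϖ}) (d : ℕ) (a : Fin d → B)
    (h : b ^ d + ∑ i : Fin d, a i * b ^ (i : ℕ) * γ ^ (d - (i : ℕ)) ∈ Ideal.span {ϖ}) :
    ∃ b₀ : B, b - γ * b₀ ∈ Ideal.span {ϖ} := by
  haveI hprime : (Ideal.span {ϖ}).IsPrime := (Ideal.span_singleton_prime hϖ.ne_zero).mpr hϖ
  haveI : IsDomain (B ⧸ Ideal.span {ϖ}) := Ideal.Quotient.isDomain _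
  set Cq := B ⧸ Ideal.span {ϖ} with hCq
  set K := FractionRing Cq with hK
  let mk : B →+* Cq := Ideal.Quotient.mk _
  have hγ0 : mk γ ≠ 0 := fun h0 => hγ (Ideal.Quotient.eq_zero_iff_mem.mp h0)
  have hγK : algebraMap Cq K (mk γ) ≠ 0 := by
    intro h0
    exact hγ0 ((IsFractionRing.injective Cq K) (by rw [h0, map_zero]))
  -- the equation in `Cq`
  have heq : mk b ^ d + ∑ i : Fin d, mk (a i) * mk b ^ (i : ℕ) * mk γ ^ (d - (i : ℕ)) = 0 := by
    have := Ideal.Quotient.eq_zero_iff_mem.mpr h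
    simpa [map_add, map_sum, map_mul, map_pow] using this
  -- the monic polynomial
  let p : Cq[X] := X ^ d + ∑ i : Fin d, C (mk (a i)) * X ^ (i : ℕ)
  have hlt : (∑ i : Fin d, C (mk (a i)) * X ^ (i : ℕ) : Cq[X]).degree < (d : WithBot ℕ) :=
    Polynomial.degree_sum_fin_lt fun i => mk (a i)
  have hmonic : p.Monic := Polynomial.monic_X_pow_add hlt
  set ε : K := algebraMap Cq K (mk b) / algebraMap Cq K (mk γ) with hε
  have hroot : Polynomial.eval₂ (algebraMap Cq K) ε p = 0 := by
    have h1 := congrArg (algebraMap Cq K) heq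
    simp only [map_add, map_sum, map_mul, map_pow, map_zero] at h1
    have hb : algebraMap Cq K (mk b) = ε * algebraMap Cq K (mk γ) := by
      rw [hε, div_mul_cancel₀ _ hγK]
    simp only [p, Polynomial.eval₂_add, Polynomial.eval₂_pow, Polynomial.eval₂_X,
      Polynomial.eval₂_finsetSum, Polynomial.eval₂_mul, Polynomial.eval₂_C]
    have hgd : (algebraMap Cq K (mk γ)) ^ d ≠ 0 := pow_ne_zero _ hγK
    apply mul_right_cancel₀ hgd
    rw [zero_mul, add_mul, Finset.sum_mul, ← h1, hb]
    congr 1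
    · rw [mul_pow]
    · refine Finset.sum_congr rfl fun i _ => ?_
      have hi : (i : ℕ) + (d - (i : ℕ)) = d := Nat.add_sub_cancel' i.2.le
      calc algebraMap Cq K (mk (a i)) * ε ^ (i : ℕ) * algebraMap Cq K (mk γ) ^ d
          = algebraMap Cq K (mk (a i)) * ε ^ (i : ℕ) *
              (algebraMap Cq K (mk γ) ^ (i : ℕ) * algebraMap Cq K (mk γ) ^ (d - (i : ℕ))) := by
            rw [← pow_add, hi]
        _ = algebraMap Cq K (mk (a i)) * (ε * algebraMap Cq K (mk γ)) ^ (i : ℕ) *
              algebraMap Cq K (mk γ) ^ (d - (i : ℕ)) := by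
            rw [mul_pow]; ring
  have hint : IsIntegral Cq ε := ⟨p, hmonic, hroot⟩
  obtain ⟨c, hc⟩ := (IsIntegrallyClosed.isIntegral_iff (R := Cq) (K := K)).mp hint
  obtain ⟨b₀, rfl⟩ := Ideal.Quotient.mk_surjective c
  refine ⟨b₀, ?_⟩
  rw [← Ideal.Quotient.eq_zero_iff_mem, map_sub, map_mul, sub_eq_zero]
  apply IsFractionRing.injective Cq K
  rw [map_mul]
  change algebraMap Cq K (mk b) = algebraMap Cq K (mk γ) * algebraMap Cq K (mk b₀)
  rw [hc, hε, mul_div_cancel₀ _ hγK]

/-- `B2IntClosedStatement` from the frozen pieces (first half of `H33.b2Regular_of_pieces`). -/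
theorem b2IntClosed_of_pieces
    (hcore : B2CoreAbsStatement.{u, v}) (hA0 : RegSeqAbsStatement.{u, v})
    (hA8 : IntClosedOfDiscrStatement.{u, v}) (hA1 : PolyInstStatement.{u}) :
    B2IntClosedStatement.{u, v} := by
  intro R _ _ _ _ w hw B _ _ _ _ _ _ hdom hsep S hS hNC
  obtain ⟨hCw, hΛ, hΛ₀, hℚ, hc⟩ := hA1 R w hw
  have hJ : (Ideal.span {(C w : R[X])}).map (algebraMap R[X] B)
      = Ideal.span {algebraMap R[X] B (C w)} := by
    rw [Ideal.map_span, Set.image_singleton]
  rw [← hJ]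
  -- instances on the special fibre
  haveI hJprime : ((Ideal.span {(C w : R[X])}).map (algebraMap R[X] B)).IsPrime := by
    rw [hJ]; exact (Ideal.span_singleton_prime hdom.ne_zero).mpr hdom
  haveI := hΛ
  haveI : IsDomain (R[X] ⧸ Ideal.span {(C w : R[X])}) := by
    rw [Ideal.Quotient.isDomain_iff_prime]
    exact (Ideal.span_singleton_prime hCw.ne_zero).mpr hCw
  haveI tf := H33.isTorsionFree_quotient (B := B) hA0 (C w : R[X]) hCw
  haveI : Module.Finite (R[X] ⧸ Ideal.span {(C w : R[X])})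
      (B ⧸ (Ideal.span {(C w : R[X])}).map (algebraMap R[X] B)) :=
    Module.Finite.of_restrictScalars_finite R[X] _ _
  haveI : Module.Free (R[X] ⧸ Ideal.span {(C w : R[X])})
      (B ⧸ (Ideal.span {(C w : R[X])}).map (algebraMap R[X] B)) :=
    Module.free_of_finite_type_torsion_free'
  let bb := Module.finBasis (R[X] ⧸ Ideal.span {(C w : R[X])})
      (B ⧸ (Ideal.span {(C w : R[X])}).map (algebraMap R[X] B))
  -- translate the hypotheses
  classical
  have hS1' : ∀ s ∈ S.image (fun c => (X - C c : R[X])), Prime s ∧ ¬ Associated s (C w) ∧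
      (Ideal.span {(C w : R[X]), s}).IsMaximal ∧
      IsPrincipalIdealRing (R[X] ⧸ Ideal.span {s}) := by
    intro s hs
    obtain ⟨c, -, rfl⟩ := Finset.mem_image.mp hs
    obtain ⟨h1, h2, h3, h4, -⟩ := hc c
    exact ⟨h1, h2, h3, h4⟩
  have hS2' : ∀ s ∈ S.image (fun c => (X - C c : R[X])),
      ∀ s' ∈ S.image (fun c => (X - C c : R[X])), s ≠ s' →
      s' ∉ Ideal.span {(C w : R[X]), s} := by
    intro s hs s' hs' hne hmem
    obtain ⟨c, hcS, rfl⟩ := Finset.mem_image.mp hs
    obtain ⟨c', hcS', rfl⟩ := Finset.mem_image.mp hs'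
    have hcc : c ≠ c' := fun h => hne (by rw [h])
    exact (hc c).2.2.2.2 c' hmem (hS c hcS c' hcS' hcc)
  have hNC' : ∀ π : R[X], Prime π → ¬ Associated π (C w) →
      (∀ s ∈ S.image (fun c => (X - C c : R[X])), ¬ Associated π s) →
      (Ideal.span {algebraMap R[X] B π}).IsRadical := by
    intro π hπ hπw hπS
    exact hNC π hπ hπw (fun c hcS => hπS _ (Finset.mem_image_of_mem _ hcS))
  have hcore' := hcore R[X] (C w) hCw hΛ hΛ₀ hℚ B hsep (S.image (fun c => (X - C c : R[X])))
    hS1' hS2' hNC'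
  -- a prime of `Λ`
  obtain ⟨h01, h02, h03, -, -⟩ := hc 0
  have hw0 : ¬ (C w : R[X]) ∣ X - C 0 := by
    intro hdvd
    obtain ⟨r, hr⟩ := hdvd
    rcases h01.irreducible.isUnit_or_isUnit hr with h | h
    · exact hCw.not_isUnit h
    · exact h02 ⟨h.unit⁻¹, by rw [hr, mul_assoc, IsUnit.mul_val_inv, mul_one]⟩
  have ht₀ := H33.prime_mk_of_isMaximal (C w : R[X]) (X - C 0) hCw h03 hw0
  have hdisc := (hcore' _ ht₀ _ bb).1
  exact hA8 _ _ _ bb hdisc (fun t ht => (hcore' t ht _ bb).2)

/-- `B2NormalDomStatement` from `B2IntClosedStatement` (pure algebra). -/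
theorem b2NormalDom_of_intClosed (hIC : B2IntClosedStatement.{u, v}) :
    B2NormalDomStatement.{u, v} := by
  intro R _ _ _ _ w hw B _ _ _ _ _ _ hdom hsep S hS hNC b g hg hex
  obtain ⟨d, a, h⟩ := hex
  haveI := hIC R w hw B hdom hsep S hS hNC
  refine exists_sub_mul_mem_of_isIntegrallyClosed (algebraMap R[X] B (C w)) hdom b
    (algebraMap R[X] B g) ?_ d a h
  -- `g ∉ wB` from `¬ C w ∣ g`: `B` is integrally closed, `g / w ∈ Frac R[X]` integral
  intro hmem
  haveI : IsIntegrallyClosed R[X] := inferInstance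
  have hCw : (C w : R[X]) ≠ 0 := by
    rw [Ne, Polynomial.C_eq_zero]; exact hw.ne_zero
  exact hg (dvd_of_algebraMap_dvd (P := R[X]) (B := B) (C w) g hCw
    (Ideal.mem_span_singleton.mp hmem))

/-- **`B2NormalDomStatement` from the frozen pieces.** -/
theorem b2NormalDom_of_pieces
    (hcore : B2CoreAbsStatement.{u, v}) (hA0 : RegSeqAbsStatement.{u, v})
    (hA8 : IntClosedOfDiscrStatement.{u, v}) (hA1 : PolyInstStatement.{u}) :
    B2NormalDomStatement.{u, v} :=
  b2NormalDom_of_intClosed (b2IntClosed_of_pieces hcore hA0 hA8 hA1)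

end Fermat.Agent.S18.B12.H638

end
end
-- ===== PACK-END S18/B12/H638/Normal.lean

-- ===== PACK-BEGIN Ribet/H403/NodeRel.lean
section




/-!
# RIBET row 38, wall-p crux (I6), leaf NODE: `nodeRel_403 : H704.I6.NodeRelStatement`

Adapter from the thick-node form of the node-slope relation (`NodeSlope.lean`,
`node_slope_modEq_403`, `node_slope_eq_403`: `X * Y = ε * π ^ n`) to the frozen thickness-free
unit-pair form of `Fermat/Agent/Ribet/H704/I6Spec.lean`:

* `H704.I6.IsNode` gives the two discrete valuation rings `R ⧸ 𝔭ᵢ`, `𝔪 = (x, y, π)`;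
* `A2.H852.node_normal_form_exact` (unit pair `D * D' = π ^ N`) gives new coordinates
  `S' ≡ x`, `T' ≡ y (mod π)` with `S' * T' = π ^ (t + 1) * unit`;
* `node_slope_eq_403` for the vertical function `D` gives `(t + 1) * k = N`, so the thickness
  `t + 1` divides `N` and is prime to `m`;
* `node_slope_modEq_403` for `a` gives `(t + 1) * s ≡ n₁ (mod m)`; multiply by `k`.

Results: `nodeRel_403 : NodeRelStatement`, `nodeRelExact_403 : NodeRelExactStatement`.
-/

set_option autoImplicit false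

namespace Fermat.Agent.Ribet.H403

open IsLocalRing Fermat.Agent.Ribet.H704.I6

section adapter

variable {R : Type*} [CommRing R] [IsLocalRing R]

/-- In a local ring, a lift of a unit of a quotient by a proper ideal is a unit. -/
theorem isUnit_of_isUnit_mk_403 (I : Ideal R) (hI : I ≠ ⊤) {a : R}
    (h : IsUnit (Ideal.Quotient.mk I a)) : IsUnit a := by
  by_contra ha
  have ha' : a ∈ maximalIdeal R := (IsLocalRing.mem_maximalIdeal a).mpr ha
  obtain ⟨b, hb⟩ := h.exists_right_inv
  obtain ⟨b', rfl⟩ := Ideal.Quotient.mk_surjective b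
  rw [← map_mul, ← map_one (Ideal.Quotient.mk I), Ideal.Quotient.eq] at hb
  have h1 : a * b' - 1 ∈ maximalIdeal R := IsLocalRing.le_maximalIdeal hI hb
  have h2 : a * b' ∈ maximalIdeal R := Ideal.mul_mem_right _ _ ha'
  have h3 : (1 : R) ∈ maximalIdeal R := by
    have : (1 : R) = a * b' - (a * b' - 1) := by ring
    rw [this]
    exact Ideal.sub_mem _ h2 h1
  exact (IsLocalRing.maximalIdeal.isMaximal R).ne_top ((Ideal.eq_top_iff_one _).mpr h3)

omit [IsLocalRing R] in
/-- The branch uniformiser of an `H704.I6.IsNode` is irreducible modulo the branch. -/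
theorem irreducible_mk_of_unif_403 (𝔭 : Ideal R) [𝔭.IsPrime] {x : R} (hx : x ∉ 𝔭)
    (hnu : ¬ IsUnit (Ideal.Quotient.mk 𝔭 x))
    (hunif : ∀ a : R, a ∉ 𝔭 → ∃ s : ℕ, OrdOn 𝔭 x a s) :
    Irreducible (Ideal.Quotient.mk 𝔭 x) := by
  have hx0 : Ideal.Quotient.mk 𝔭 x ≠ 0 := by
    rwa [Ne, Ideal.Quotient.eq_zero_iff_mem]
  refine ⟨hnu, ?_⟩
  intro a b hab
  obtain ⟨a', rfl⟩ := Ideal.Quotient.mk_surjective a
  obtain ⟨b', rfl⟩ := Ideal.Quotient.mk_surjective b
  have ha0 : a' ∉ 𝔭 := by
    intro h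
    apply hx0
    rw [hab, Ideal.Quotient.eq_zero_iff_mem.mpr h, zero_mul]
  have hb0 : b' ∉ 𝔭 := by
    intro h
    apply hx0
    rw [hab, Ideal.Quotient.eq_zero_iff_mem.mpr h, mul_zero]
  obtain ⟨i, hi⟩ := hunif a' ha0
  obtain ⟨j, hj⟩ := hunif b' hb0
  unfold OrdOn at hi hj
  rcases Nat.eq_zero_or_pos i with h0 | hipos
  · left
    rw [h0, pow_zero] at hi
    exact associated_one_iff_isUnit.mp hi
  rcases Nat.eq_zero_or_pos j with h0 | hjpos
  · right
    rw [h0, pow_zero] at hj
    exact associated_one_iff_isUnit.mp hj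
  exfalso
  obtain ⟨u, hu⟩ := hi.mul_mul hj
  rw [← hab] at hu
  have h2 : (Ideal.Quotient.mk 𝔭 x) ^ i * (Ideal.Quotient.mk 𝔭 x) ^ j
      = Ideal.Quotient.mk 𝔭 x * (Ideal.Quotient.mk 𝔭 x) ^ (i + j - 1) := by
    rw [← pow_add, ← pow_succ']
    congr 1
    omega
  rw [h2] at hu
  have h3 : (u : R ⧸ 𝔭) = (Ideal.Quotient.mk 𝔭 x) ^ (i + j - 1) := mul_left_cancel₀ hx0 hu
  have h4 : IsUnit ((Ideal.Quotient.mk 𝔭 x) ^ (i + j - 1)) := h3 ▸ u.isUnit
  exact hnu ((isUnit_pow_iff (by omega)).mp h4)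

omit [IsLocalRing R] in
/-- The branches of an `H704.I6.IsNode` are discrete valuation rings. -/
theorem isDVR_of_unif_403 (𝔭 : Ideal R) [𝔭.IsPrime] {x : R} (hx : x ∉ 𝔭)
    (hnu : ¬ IsUnit (Ideal.Quotient.mk 𝔭 x))
    (hunif : ∀ a : R, a ∉ 𝔭 → ∃ s : ℕ, OrdOn 𝔭 x a s) :
    IsDiscreteValuationRing (R ⧸ 𝔭) := by
  apply IsDiscreteValuationRing.ofHasUnitMulPowIrreducibleFactorization
  refine ⟨Ideal.Quotient.mk 𝔭 x, irreducible_mk_of_unif_403 𝔭 hx hnu hunif, ?_⟩
  intro z hz
  obtain ⟨a, rfl⟩ := Ideal.Quotient.mk_surjective z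
  obtain ⟨s, hs⟩ := hunif a (by rwa [Ne, Ideal.Quotient.eq_zero_iff_mem] at hz)
  exact ⟨s, hs.symm⟩

/-- One branch of a node is generated by the uniformiser of the other branch and `π`. -/
theorem mem_span_pair_of_unif_403 (𝔭₁ 𝔭₂ : Ideal R) [𝔭₁.IsPrime] [𝔭₂.IsPrime] {π x : R}
    (hinf : 𝔭₁ ⊓ 𝔭₂ = Ideal.span {π}) (hx : x ∈ 𝔭₂)
    (hunif : ∀ a : R, a ∉ 𝔭₁ → ∃ s : ℕ, OrdOn 𝔭₁ x a s) {b : R} (hb : b ∈ 𝔭₂) :
    b ∈ Ideal.span ({x, π} : Set R) := by
  have hπmem : π ∈ Ideal.span ({x, π} : Set R) := Ideal.subset_span (by simp)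
  have hxmem : x ∈ Ideal.span ({x, π} : Set R) := Ideal.subset_span (by simp)
  have hle : 𝔭₁ ⊓ 𝔭₂ ≤ Ideal.span ({x, π} : Set R) := by
    rw [hinf, Ideal.span_le, Set.singleton_subset_iff]
    exact hπmem
  by_cases hb₁ : b ∈ 𝔭₁
  · exact hle ⟨hb₁, hb⟩
  obtain ⟨s, hs⟩ := hunif b hb₁
  unfold OrdOn at hs
  rcases Nat.eq_zero_or_pos s with h0 | hspos
  · exfalso
    rw [h0, pow_zero] at hs
    have hbu : IsUnit b :=
      isUnit_of_isUnit_mk_403 𝔭₁ (Ideal.IsPrime.ne_top ‹_›) (associated_one_iff_isUnit.mp hs)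
    exact (Ideal.IsPrime.ne_top ‹𝔭₂.IsPrime›) (Ideal.eq_top_of_isUnit_mem _ hb hbu)
  obtain ⟨u, hu⟩ := hs.symm
  -- `mk b = mk x ^ s * u`
  obtain ⟨r, hr⟩ := Ideal.Quotient.mk_surjective
    ((Ideal.Quotient.mk 𝔭₁ x) ^ (s - 1) * (u : R ⧸ 𝔭₁))
  have h1 : Ideal.Quotient.mk 𝔭₁ b = Ideal.Quotient.mk 𝔭₁ (x * r) := by
    rw [map_mul, hr, ← hu, ← mul_assoc, ← pow_succ']
    congr 2
    omega
  have h2 : b - x * r ∈ 𝔭₁ := Ideal.Quotient.eq.mp h1
  have h3 : b - x * r ∈ 𝔭₂ := Ideal.sub_mem _ hb (Ideal.mul_mem_right _ _ hx)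
  have h4 : b - x * r ∈ Ideal.span ({x, π} : Set R) := hle ⟨h2, h3⟩
  have : b = (b - x * r) + x * r := by ring
  rw [this]
  exact Ideal.add_mem _ h4 (Ideal.mul_mem_right _ _ hxmem)

/-- The maximal ideal of a node ring is `(x, y, π)`. -/
theorem maximalIdeal_eq_span_of_isNode_403 {𝔭₁ 𝔭₂ : Ideal R} {π x y : R}
    (h : IsNode 𝔭₁ 𝔭₂ π x y) : maximalIdeal R = Ideal.span ({x, y, π} : Set R) := by
  have := h.prime₁
  have := h.prime₂
  apply le_antisymm
  · rw [← h.sup_eq]
    apply sup_le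
    · intro b hb
      have h1 := mem_span_pair_of_unif_403 𝔭₂ 𝔭₁ (π := π) (x := y)
        (by rw [inf_comm]; exact h.inf_eq) h.hy h.unif₂ hb
      refine Ideal.span_mono ?_ h1
      intro z hz
      simp only [Set.mem_insert_iff, Set.mem_singleton_iff] at hz ⊢
      tauto
    · intro b hb
      have h1 := mem_span_pair_of_unif_403 𝔭₁ 𝔭₂ (π := π) (x := x) h.inf_eq h.hx h.unif₁ hb
      refine Ideal.span_mono ?_ h1
      intro z hz
      simp only [Set.mem_insert_iff, Set.mem_singleton_iff] at hz ⊢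
      tauto
  · rw [Ideal.span_le]
    have hπ : π ∈ 𝔭₁ ⊓ 𝔭₂ := h.inf_eq ▸ Ideal.mem_span_singleton_self π
    intro z hz
    simp only [Set.mem_insert_iff, Set.mem_singleton_iff] at hz
    rcases hz with rfl | rfl | rfl
    · exact IsLocalRing.le_maximalIdeal (Ideal.IsPrime.ne_top ‹𝔭₂.IsPrime›) h.hx
    · exact IsLocalRing.le_maximalIdeal (Ideal.IsPrime.ne_top ‹𝔭₁.IsPrime›) h.hy
    · exact IsLocalRing.le_maximalIdeal (Ideal.IsPrime.ne_top ‹𝔭₁.IsPrime›) hπ.1

omit [IsLocalRing R] in
/-- `OrdOn` in the unit form used by `NodeSlope.lean`. -/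
theorem ordOn_unit_form_403 (𝔭 : Ideal R) {ϖ ϖ' a : R} {s : ℕ} (h : OrdOn 𝔭 ϖ a s)
    (hϖ : Ideal.Quotient.mk 𝔭 ϖ' = Ideal.Quotient.mk 𝔭 ϖ) :
    ∃ ε' : (R ⧸ 𝔭)ˣ, Ideal.Quotient.mk 𝔭 a = ε' * (Ideal.Quotient.mk 𝔭 ϖ') ^ s := by
  obtain ⟨u, hu⟩ := h.symm
  exact ⟨u, by rw [hϖ, ← hu, mul_comm]⟩

end adapter

section main

variable {R : Type*} [CommRing R] [IsDomain R] [IsIntegrallyClosed R] [IsNoetherianRing R]
  [IsLocalRing R]

/-- Thick normal form of an `H704.I6.IsNode` with a unit pair: the data needed by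
`node_slope_modEq_403` / `node_slope_eq_403`, on both branches, together with
`thickness * ord₁(D) = N`. -/
theorem exists_thick_form_403 {𝔭₁ 𝔭₂ : Ideal R} {π x y : R} (hnode : IsNode 𝔭₁ 𝔭₂ π x y)
    [𝔭₁.IsPrime] [𝔭₂.IsPrime]
    [IsDiscreteValuationRing (R ⧸ 𝔭₁)] [IsDiscreteValuationRing (R ⧸ 𝔭₂)]
    {N : ℕ} (hN : 0 < N) {D D' : R} (hDD : IsUnitPair 𝔭₁ 𝔭₂ π D D' N) {k : ℕ}
    (hk : OrdOn 𝔭₁ x D k) :
    ∃ (S' T' G' : R) (n : ℕ), π ≠ 0 ∧ IsUnit G' ∧ S' * T' = G' * π ^ n ∧
      Ideal.Quotient.mk 𝔭₁ S' = Ideal.Quotient.mk 𝔭₁ x ∧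
      Ideal.Quotient.mk 𝔭₂ T' = Ideal.Quotient.mk 𝔭₂ y ∧
      S' ∈ 𝔭₂ ∧ T' ∈ 𝔭₁ ∧ n * k = N := by
  have hπmem : π ∈ 𝔭₁ ⊓ 𝔭₂ := hnode.inf_eq ▸ Ideal.mem_span_singleton_self π
  have hπ₁ : π ∈ 𝔭₁ := hπmem.1
  have hπ₂ : π ∈ 𝔭₂ := hπmem.2
  have hπ0 : π ≠ 0 := by
    rintro rfl
    have h0 := hDD.mul_eq
    rw [zero_pow hN.ne'] at h0
    rcases mul_eq_zero.mp h0 with h | h
    · exact hDD.hD (h ▸ 𝔭₁.zero_mem)
    · exact hDD.hD' (h ▸ 𝔭₂.zero_mem)
  have hcap : ∀ z, z ∈ 𝔭₁ → z ∈ 𝔭₂ → π ∣ z := by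
    intro z h1 h2
    have : z ∈ 𝔭₁ ⊓ 𝔭₂ := ⟨h1, h2⟩
    rw [hnode.inf_eq] at this
    exact Ideal.mem_span_singleton.mp this
  obtain ⟨G, hG⟩ : π ∣ x * y :=
    hcap _ (Ideal.mul_mem_left _ _ hnode.hy) (Ideal.mul_mem_right _ _ hnode.hx)
  -- the unit `ε` with `D ≡ ε x ^ k (mod 𝔭₁)`
  obtain ⟨ε', hε'⟩ := ordOn_unit_form_403 𝔭₁ hk rfl
  obtain ⟨e, he⟩ := Ideal.Quotient.mk_surjective ((ε' : (R ⧸ 𝔭₁)ˣ) : R ⧸ 𝔭₁)
  have heu : IsUnit e :=
    isUnit_of_isUnit_mk_403 𝔭₁ (Ideal.IsPrime.ne_top ‹_›) (he ▸ ε'.isUnit)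
  have hDS : D - e * x ^ k ∈ 𝔭₁ := by
    rw [← Ideal.Quotient.eq, map_mul, map_pow, he, hε']
  obtain ⟨S', T', G', ⟨β, hβ⟩, ⟨α, hα⟩, -, t, -, hprod, hG'⟩ :=
    Fermat.Agent.A2.H852.node_normal_form_exact 𝔭₁ 𝔭₂ π x y G D D' e N k hπ0 hπ₁ hπ₂ hcap
      (maximalIdeal_eq_span_of_isNode_403 hnode) hnode.hx₁ hnode.hy₂ hG hN hDD.mul_eq hDD.hD
      hDD.hD' heu hDS
  have hS₁ : Ideal.Quotient.mk 𝔭₁ S' = Ideal.Quotient.mk 𝔭₁ x := by
    rw [Ideal.Quotient.eq, hβ]
    have : x - π * β - x = -(π * β) := by ring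
    rw [this]
    exact neg_mem (Ideal.mul_mem_right _ _ hπ₁)
  have hT₂ : Ideal.Quotient.mk 𝔭₂ T' = Ideal.Quotient.mk 𝔭₂ y := by
    rw [Ideal.Quotient.eq, hα]
    have : y - π * α - y = -(π * α) := by ring
    rw [this]
    exact neg_mem (Ideal.mul_mem_right _ _ hπ₂)
  have hS₂ : S' ∈ 𝔭₂ := by
    rw [hβ]
    exact Ideal.sub_mem _ hnode.hx (Ideal.mul_mem_right _ _ hπ₂)
  have hT₁ : T' ∈ 𝔭₁ := by
    rw [hα]
    exact Ideal.sub_mem _ hnode.hy (Ideal.mul_mem_right _ _ hπ₁)
  have hprod' : S' * T' = G' * π ^ (t + 1) := by rw [hprod, mul_comm]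
  have hirr₁ : Irreducible (Ideal.Quotient.mk 𝔭₁ S') := by
    rw [hS₁]
    exact irreducible_mk_of_unif_403 𝔭₁ hnode.hx₁ hnode.nonunit₁ hnode.unif₁
  have hirr₂ : Irreducible (Ideal.Quotient.mk 𝔭₂ T') := by
    rw [hT₂]
    exact irreducible_mk_of_unif_403 𝔭₂ hnode.hy₂ hnode.nonunit₂ hnode.unif₂
  refine ⟨S', T', G', t + 1, hπ0, hG', hprod', hS₁, hT₂, hS₂, hT₁, ?_⟩
  -- the vertical function `D`: `(t + 1) * k = N`
  obtain ⟨ε₁, hε₁⟩ := ordOn_unit_form_403 𝔭₁ hk hS₁
  refine node_slope_eq_403 𝔭₂ 𝔭₁ hπ0 (by rw [inf_comm]; exact hnode.inf_eq.symm) hirr₁ hT₁ hirr₂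
    hG' hprod' hε₁ ?_ (σ₀ := D') (τ₀ := 1) hDD.hD' ?_ ?_
  · intro P hP hDP
    have h1 : π ^ N ∈ P := by
      rw [← hDD.mul_eq]
      exact Ideal.mul_mem_right _ _ hDP
    exact hP.mem_of_pow_mem N h1
  · exact fun h => (Ideal.IsPrime.ne_top ‹𝔭₂.IsPrime›) ((Ideal.eq_top_iff_one _).mpr h)
  · rw [mul_comm, hDD.mul_eq, one_mul]

/-- **NODE** (leaf of the I6 package, `Fermat/Agent/Ribet/H704/I6Spec.lean`). -/
theorem nodeRel_403 : NodeRelStatement := by
  intro R _ _ _ _ _ 𝔭₁ 𝔭₂ π x y hnode m N hm hNm D D' hDD a c d n₁ ha₂ hc₁ hd₁ had hdiv s k hs hk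
  rcases Nat.eq_zero_or_pos N with hN | hN
  · subst hN
    have hm1 : m = 1 := by simpa using hNm
    subst hm1
    simp
  have := hnode.prime₁
  have := hnode.prime₂
  have : IsDiscreteValuationRing (R ⧸ 𝔭₁) :=
    isDVR_of_unif_403 𝔭₁ hnode.hx₁ hnode.nonunit₁ hnode.unif₁
  have : IsDiscreteValuationRing (R ⧸ 𝔭₂) :=
    isDVR_of_unif_403 𝔭₂ hnode.hy₂ hnode.nonunit₂ hnode.unif₂
  obtain ⟨S', T', G', n, hπ0, hG', hprod, hS₁, hT₂, hS₂, hT₁, hnk⟩ :=
    exists_thick_form_403 hnode hN hDD hk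
  have hirr₁ : Irreducible (Ideal.Quotient.mk 𝔭₁ S') := by
    rw [hS₁]
    exact irreducible_mk_of_unif_403 𝔭₁ hnode.hx₁ hnode.nonunit₁ hnode.unif₁
  have hirr₂ : Irreducible (Ideal.Quotient.mk 𝔭₂ T') := by
    rw [hT₂]
    exact irreducible_mk_of_unif_403 𝔭₂ hnode.hy₂ hnode.nonunit₂ hnode.unif₂
  have hnm : Nat.Coprime n m := Nat.Coprime.coprime_dvd_left ⟨k, hnk.symm⟩ hNm
  obtain ⟨ε₂, hε₂⟩ := ordOn_unit_form_403 𝔭₂ hs hT₂
  have hcore := node_slope_modEq_403 𝔭₁ 𝔭₂ hπ0 hnode.inf_eq.symm hirr₂ hS₂ hirr₁ hG'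
    (by rw [mul_comm, hprod]) hε₂ (Nat.pos_of_ne_zero hm) hnm
    (fun P hP haP hπP => by
      obtain ⟨f, r, hr, hf⟩ := hdiv P hP haP hπP
      exact ⟨f, r, hr, by rw [hf, mul_comm]⟩)
    (σ₀ := d) (τ₀ := c) (c := n₁) hd₁ hc₁ (by rw [mul_comm d, had, mul_comm])
  rw [Int.modEq_iff_dvd] at hcore
  obtain ⟨w, hw⟩ := hcore
  refine ⟨-(k : ℤ) * w, ?_⟩
  have hN' : (N : ℤ) = (n : ℤ) * k := by exact_mod_cast hnk.symm
  push_cast at hw
  rw [hN']
  linear_combination (-(k : ℤ)) * hw

/-- **NODE, exact form** (function without horizontal zeros). -/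
theorem nodeRelExact_403 : NodeRelExactStatement := by
  intro R _ _ _ _ _ 𝔭₁ 𝔭₂ π x y hnode N D D' hN hDD a c d n₁ ha₂ hc₁ hd₁ had hv s k hs hk
  have := hnode.prime₁
  have := hnode.prime₂
  have : IsDiscreteValuationRing (R ⧸ 𝔭₁) :=
    isDVR_of_unif_403 𝔭₁ hnode.hx₁ hnode.nonunit₁ hnode.unif₁
  have : IsDiscreteValuationRing (R ⧸ 𝔭₂) :=
    isDVR_of_unif_403 𝔭₂ hnode.hy₂ hnode.nonunit₂ hnode.unif₂
  obtain ⟨S', T', G', n, hπ0, hG', hprod, hS₁, hT₂, hS₂, hT₁, hnk⟩ :=
    exists_thick_form_403 hnode hN hDD hk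
  have hirr₁ : Irreducible (Ideal.Quotient.mk 𝔭₁ S') := by
    rw [hS₁]
    exact irreducible_mk_of_unif_403 𝔭₁ hnode.hx₁ hnode.nonunit₁ hnode.unif₁
  have hirr₂ : Irreducible (Ideal.Quotient.mk 𝔭₂ T') := by
    rw [hT₂]
    exact irreducible_mk_of_unif_403 𝔭₂ hnode.hy₂ hnode.nonunit₂ hnode.unif₂
  obtain ⟨ε₂, hε₂⟩ := ordOn_unit_form_403 𝔭₂ hs hT₂
  have hcore : n * s = n₁ := node_slope_eq_403 𝔭₁ 𝔭₂ hπ0 hnode.inf_eq.symm hirr₂ hS₂ hirr₁ hG'
    (by rw [mul_comm, hprod]) hε₂ hv
    (σ₀ := d) (τ₀ := c) (c := n₁) hd₁ hc₁ (by rw [mul_comm d, had, mul_comm])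
  rw [← hnk, ← hcore]
  ring

end main

end Fermat.Agent.Ribet.H403

end
-- ===== PACK-END Ribet/H403/NodeRel.lean

-- ===== PACK-BEGIN A2/Mod/H398/PoleSum.lean
section



/-!
# A2 / MOD leaf L8 (helper398) — degree of a product of two mutually integral coordinates

`K` algebraically closed of characteristic `0`, `F / K` a function field of one variable,
`y, z ∈ F` with `z` integral over `K[y]` and `y` integral over `K[z]` (so `y`, `z` have the same
poles).  Then `[F : K(y z)] = [F : K(y)] + [F : K(z)]`.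
-/

set_option autoImplicit false
set_option linter.style.haveILetI false

noncomputable section

namespace Fermat.Agent.A2.Mod.H398

open AlgebraicCurve IntermediateField Polynomial

section PoleSum

variable {K F : Type*} [Field K] [Field F] [Algebra K F]

/-- An element integral over `K[y]` is integral at every place where `y` is. -/
theorem ord_nonneg_of_isIntegral_adjoin (v : Place K F) {y z : F}
    (hzy : IsIntegral (Algebra.adjoin K {y}) z) (hy : 0 ≤ v.ord y) : 0 ≤ v.ord z := by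
  have hyv : y ∈ v.toValuationSubring := (Fermat.Agent.S24.FF.mem_iff_ord_nonneg v).mpr hy
  have hle : ∀ a ∈ Algebra.adjoin K {y}, a ∈ v.toValuationSubring := by
    intro a ha
    induction ha using Algebra.adjoin_induction with
    | mem a ha =>
      rw [Set.mem_singleton_iff] at ha
      subst ha
      exact hyv
    | algebraMap r => exact v.algebraMap_mem' r
    | add a b _ _ ha hb => exact add_mem ha hb
    | mul a b _ _ ha hb => exact mul_mem ha hb
  let f : Algebra.adjoin K {y} →+* v.toValuationSubring :=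
    { toFun := fun a => ⟨a.1, hle a.1 a.2⟩
      map_one' := rfl
      map_mul' := fun _ _ => rfl
      map_zero' := rfl
      map_add' := fun _ _ => rfl }
  obtain ⟨p, hp, hpz⟩ := hzy
  have h1 : IsIntegral v.toValuationSubring z := by
    refine ⟨p.map f, hp.map f, ?_⟩
    rw [Polynomial.eval₂_map]
    exact hpz
  obtain ⟨w, hw⟩ := IsIntegrallyClosed.isIntegral_iff.mp h1
  rw [← Fermat.Agent.S24.FF.mem_iff_ord_nonneg, ← hw]
  exact w.2

variable [IsAlgClosed K] [CharZero K]

/-- **Degree of a product of two mutually integral coordinates.** -/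
theorem finrank_mul_of_mutually_integral {y z : F} (hy : Transcendental K y)
    [FiniteDimensional K⟮y⟯ F]
    (hzy : IsIntegral (Algebra.adjoin K {y}) z) (hyz : IsIntegral (Algebra.adjoin K {z}) y) :
    Transcendental K z ∧ Transcendental K (y * z) ∧ FiniteDimensional K⟮z⟯ F ∧
      FiniteDimensional K⟮y * z⟯ F ∧
      Module.finrank K⟮y * z⟯ F = Module.finrank K⟮y⟯ F + Module.finrank K⟮z⟯ F := by
  classical
  have hy0 : y ≠ 0 := fun h => hy (h ▸ isAlgebraic_zero)
  -- `z` is transcendental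
  have hz : Transcendental K z := by
    intro hz
    apply hy
    haveI : Algebra.IsIntegral K (Algebra.adjoin K {z}) :=
      Algebra.IsIntegral.adjoin (fun x hx => by
        rw [Set.mem_singleton_iff] at hx
        subst hx
        exact hz.isIntegral)
    exact (isIntegral_trans (R := K) (A := Algebra.adjoin K {z}) y hyz).isAlgebraic
  have hz0 : z ≠ 0 := fun h => hz (h ▸ isAlgebraic_zero)
  haveI hfz : FiniteDimensional K⟮z⟯ F :=
    Fermat.Agent.S24.FF.finiteDimensional_adjoin_of_transcendental hy hz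
  -- the common pole set
  have hiff : ∀ v : Place K F, v.ord z < 0 ↔ v.ord y < 0 := by
    intro v
    constructor
    · intro h
      by_contra h'
      have := ord_nonneg_of_isIntegral_adjoin v hzy (not_lt.mp h')
      omega
    · intro h
      by_contra h'
      have := ord_nonneg_of_isIntegral_adjoin v hyz (not_lt.mp h')
      omega
  have hmul : ∀ v : Place K F, v.ord (y * z) = v.ord y + v.ord z := fun v => v.ord_mul hy0 hz0
  have hiffx : ∀ v : Place K F, v.ord (y * z) < 0 ↔ v.ord y < 0 := by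
    intro v
    rw [hmul]
    constructor
    · intro h
      by_contra h'
      have h1 : ¬ v.ord z < 0 := fun h2 => h' ((hiff v).mp h2)
      omega
    · intro h
      have := (hiff v).mpr h
      omega
  set S : Finset (Place K F) := (Fermat.Agent.S24.FF.finite_setOf_ord_neg hy).toFinset with hS
  have hSy : ∀ v, v ∈ S ↔ v.ord y < 0 := fun v => by
    rw [hS, Set.Finite.mem_toFinset]; rfl
  have hsumy := Fermat.Agent.S24.FF.sum_ord_neg_eq_neg_finrank hy S hSy
  have hsumz := Fermat.Agent.S24.FF.sum_ord_neg_eq_neg_finrank hz S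
    (fun v => (hSy v).trans (hiff v).symm)
  have hposy : 0 < Module.finrank K⟮y⟯ F := Module.finrank_pos
  -- `y z` is transcendental
  have hx : Transcendental K (y * z) := by
    intro hx
    obtain ⟨c, hc⟩ := Fermat.Agent.S24.FF.mem_range_of_isAlgebraic hx
    have hne : S.Nonempty := by
      by_contra hne
      rw [Finset.not_nonempty_iff_eq_empty] at hne
      rw [hne, Finset.sum_empty] at hsumy
      have : (Module.finrank K⟮y⟯ F : ℤ) = 0 := by omega
      have : Module.finrank K⟮y⟯ F = 0 := by exact_mod_cast this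
      omega
    obtain ⟨v, hv⟩ := hne
    have h1 := (hiffx v).mpr ((hSy v).mp hv)
    rw [← hc] at h1
    have h2 := Fermat.Agent.S24.FF.ord_algebraMap v c
    omega
  haveI hfx : FiniteDimensional K⟮y * z⟯ F :=
    Fermat.Agent.S24.FF.finiteDimensional_adjoin_of_transcendental hy hx
  have hsumx := Fermat.Agent.S24.FF.sum_ord_neg_eq_neg_finrank hx S
    (fun v => (hSy v).trans (hiffx v).symm)
  refine ⟨hz, hx, hfz, hfx, ?_⟩
  have h3 : ∑ v ∈ S, v.ord (y * z) = ∑ v ∈ S, v.ord y + ∑ v ∈ S, v.ord z := by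
    rw [← Finset.sum_add_distrib]
    exact Finset.sum_congr rfl fun v _ => hmul v
  rw [hsumx, hsumy, hsumz] at h3
  omega

end PoleSum

end Fermat.Agent.A2.Mod.H398

end

end
-- ===== PACK-END A2/Mod/H398/PoleSum.lean

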