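import Mathlib.RingTheory.Invariant.Basic
import Mathlib.FieldTheory.Galois.Basic
import Mathlib
import Fermat.Agent.Pack.S44.G0E21L1
import Fermat.Agent.Pack.S44.G0E20L2
import Fermat.Agent.Pack.S44.G0E20L3
import Fermat.Agent.Pack.S44.G0E11L0
import Fermat.Agent.Pack.S44.G0E21L2
import Fermat.Agent.Pack.S44.G0E21L0
import Fermat.Agent.Pack.S44.G0E12L3
import Fermat.Agent.Pack.S44.G0E3L0
import Fermat.Agent.Pack.S44.G0E21L3
import Fermat.Agent.Pack.S44.G0E4L3
import Fermat.Agent.Pack.S44.G0E4L1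
import Fermat.Agent.Pack.S44.G0E11L3
import Fermat.Agent.Pack.S44.G0E11L1
import Fermat.Agent.Pack.S44.G0E20L1
import Fermat.Agent.Pack.S44.G0E11L2
import Fermat.Agent.Pack.S44.G0E16L3
import Fermat.Agent.Pack.S44.G0E16L0
import Fermat.Agent.Pack.S44.G0E5L3

-- ===== PACK-BEGIN Lib/NormL/Index.lean
section


/-!
# `NormL`, block KEY, part 3: passing from `Λ` to the sublattice `Λ * P`
-/

namespace Fermat.Agent.Lib.NormL

open NumberField Fermat.Agent.S14.H74
open scoped Classical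

variable {K : Type*} [Field K] [NumberField K]

/-- The kernel of `𝓞 ⧸ Λ' → 𝓞 ⧸ Λ`. -/
noncomputable abbrev factorKer (Λ' Λ : Ideal (𝓞 K)) (h : Λ' ≤ Λ) : AddSubgroup (𝓞 K ⧸ Λ') :=
  (Ideal.Quotient.factor h).toAddMonoidHom.ker

theorem mem_factorKer_iff {Λ' Λ : Ideal (𝓞 K)} (h : Λ' ≤ Λ) (q : 𝓞 K ⧸ Λ') :
    q ∈ factorKer Λ' Λ h ↔ Quotient.out q ∈ Λ := by
  rw [AddMonoidHom.mem_ker]
  conv_lhs => rw [← Ideal.Quotient.mk_out q]
  show Ideal.Quotient.factor h (Ideal.Quotient.mk Λ' (Quotient.out q)) = 0 ↔ _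
  rw [Ideal.Quotient.factor_mk, Ideal.Quotient.eq_zero_iff_mem]

theorem card_factorKer_mul (Λ' Λ : Ideal (𝓞 K)) (h : Λ' ≤ Λ) :
    Nat.card (factorKer Λ' Λ h) * Ideal.absNorm Λ = Ideal.absNorm Λ' := by
  have h1 := AddSubgroup.card_mul_index (factorKer Λ' Λ h)
  have h2 : (factorKer Λ' Λ h).index = Nat.card (𝓞 K ⧸ Λ) := by
    unfold factorKer
    rw [AddSubgroup.index_ker]
    have hsurj : Function.Surjective (Ideal.Quotient.factor h).toAddMonoidHom :=
      Ideal.Quotient.factor_surjective h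
    rw [AddMonoidHom.range_eq_top.mpr hsurj, AddSubgroup.card_top]
  rw [h2] at h1
  rw [Ideal.absNorm_apply, Ideal.absNorm_apply, Submodule.cardQuot_apply,
    Submodule.cardQuot_apply]
  exact h1

theorem card_factorKer_mul_right (Λ P : Ideal (𝓞 K)) (hΛ : Λ ≠ ⊥) :
    Nat.card (factorKer (Λ * P) Λ Ideal.mul_le_left) = Ideal.absNorm P := by
  have h := card_factorKer_mul (Λ * P) Λ Ideal.mul_le_left
  rw [map_mul, mul_comm] at h
  have h0 : Ideal.absNorm Λ ≠ 0 := by
    rwa [Ne, Ideal.absNorm_eq_zero_iff]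
  exact Nat.eq_of_mul_eq_mul_left (Nat.pos_of_ne_zero h0) h

/-- **K3**: `N(P) * ∑_{Λ P} GS (r' + ·) - ∑_{Λ} GS (r + ·)` extends continuously to `[1, 2]`. -/
theorem exists_continuousOn_index_sub (ε : Bool) (Λ P : Ideal (𝓞 K)) (hΛ : Λ ≠ ⊥) (hP : P ≠ ⊥)
    (r r' : 𝓞 K) :
    ∃ D : ℝ → ℝ, ContinuousOn D (Set.Icc 1 2) ∧ ∀ s : ℝ, 1 < s → s ≤ 2 →
      (Ideal.absNorm P : ℝ) * (∑' l : (Λ * P : Ideal (𝓞 K)), GS K ε s (r' + (l : 𝓞 K))) -
        (∑' l : Λ, GS K ε s (r + (l : 𝓞 K))) = D s := by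
  have hle : Λ * P ≤ Λ := Ideal.mul_le_left
  have hne : Λ * P ≠ ⊥ := mul_ne_zero hΛ hP
  have : Finite (𝓞 K ⧸ (Λ * P)) := Ideal.finiteQuotientOfFreeOfNeBot _ hne
  let _ : Fintype (factorKer (Λ * P) Λ hle) := Fintype.ofFinite _
  have hcard : Fintype.card (factorKer (Λ * P) Λ hle) = Ideal.absNorm P := by
    rw [← Nat.card_eq_fintype_card]
    exact card_factorKer_mul_right Λ P hΛ
  set rep : factorKer (Λ * P) Λ hle → 𝓞 K := fun q ↦ Quotient.out (q : 𝓞 K ⧸ (Λ * P)) with hrep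
  have hr : ∀ q, rep q ∈ Λ := fun q ↦ (mem_factorKer_iff hle _).mp q.2
  have hex : ∀ x ∈ Λ, ∃ q, x - rep q ∈ Λ * P := by
    intro x hx
    have hq : Ideal.Quotient.mk (Λ * P) x ∈ factorKer (Λ * P) Λ hle := by
      rw [AddMonoidHom.mem_ker]
      show Ideal.Quotient.factor hle (Ideal.Quotient.mk (Λ * P) x) = 0
      rw [Ideal.Quotient.factor_mk, Ideal.Quotient.eq_zero_iff_mem]
      exact hx
    refine ⟨⟨_, hq⟩, ?_⟩
    rw [← Ideal.Quotient.eq, hrep]
    simp only
    rw [Ideal.Quotient.mk_out]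
  have hinj : ∀ q q', rep q - rep q' ∈ Λ * P → q = q' := by
    intro q q' h
    rw [← Ideal.Quotient.eq, hrep] at h
    simp only at h
    rw [Ideal.Quotient.mk_out, Ideal.Quotient.mk_out] at h
    exact Subtype.ext h
  choose D hDc hD using fun q : factorKer (Λ * P) Λ hle ↦
    exists_continuousOn_coset_sub (K := K) ε (Λ * P) r' (r + rep q)
  refine ⟨fun s ↦ ∑ q, D q s, continuousOn_finsetSum _ fun q _ ↦ hDc q, fun s hs1 hs2 ↦ ?_⟩
  have hF : Summable fun x : 𝓞 K ↦ GS K ε s (r + x) :=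
    (summable_GS ε hs1).comp_injective (add_right_injective r)
  have h1 := tsum_ideal_eq_sum_cosets Λ (Λ * P) hle rep hr hex hinj
    (fun x : 𝓞 K ↦ GS K ε s (r + x)) hF
  rw [h1]
  have h2 : (Ideal.absNorm P : ℝ) * (∑' l : (Λ * P : Ideal (𝓞 K)), GS K ε s (r' + (l : 𝓞 K))) =
      ∑ _q : factorKer (Λ * P) Λ hle, ∑' l : (Λ * P : Ideal (𝓞 K)), GS K ε s (r' + (l : 𝓞 K)) := by
    rw [Finset.sum_const, Finset.card_univ, hcard, nsmul_eq_mul]
  rw [h2, ← Finset.sum_sub_distrib]
  refine Finset.sum_congr rfl fun q _ ↦ ?_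
  rw [← hD q s hs1 hs2]
  simp only [add_assoc]

end Fermat.Agent.Lib.NormL

end
-- ===== PACK-END Lib/NormL/Index.lean

-- ===== PACK-BEGIN S29/H222/ESKFrob.lean
section
/-
S29 / helper222 — piece ESK-F: every Frobenius element at `A` satisfies the Eichler–Shimura
relation `σ² - T_ℓ σ + ℓ = 0` on `J₀(N)(ℚ̄)[m]`, from `S18.CoreStatement N A m`, the Prelude's
`PrincipalGeneratedByIntegral`, `HeckeInputsAlong` and NORM-ID.

Proof: `x = [D]`, `m D = div U₁ - div U₂` (`U₁, U₂` integral).  With `K(U) := kronNorm ℓ (σU)`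
(`= Nm_α (β (σU))` by NORM-ID, reduction `Ū^ℓ · Φ²Ū` by the Kronecker congruence) put
`V₁ = σ²U₁ · U₁^ℓ · K(U₂)`, `V₂ = σ²U₂ · U₂^ℓ · K(U₁)`: same reduction, and
`div V₁ - div V₂ = m (σ²D - T_ℓ σD + ℓ D)`.  CORE gives `V₁ = c y^m V₂`.
-/


set_option autoImplicit false
set_option linter.style.haveILetI false

noncomputable section

namespace Fermat.Agent.S29.H222

open ModularCurve AlgebraicCurve HahnSeries IsLocalRing
open Fermat.Agent.S18 (Qb IsInt toF CoreStatement)
open Fermat.Agent.S37.H400 (kronNorm)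

variable {A : ValuationSubring Qb} {N : ℕ}

section Kron

variable [NeZero N] {ℓ : ℕ} [Fact ℓ.Prime] [NeZero ℓ] [CharP (ResidueField A) ℓ]

/-- Reduction of the Kronecker norm of `σU` for a Frobenius element `σ`. -/
theorem coeffMap_residue_kronNorm_galA {g : A.decompositionSubgroup ℚ}
    (hgk : decK g = frobenius (ResidueField A) ℓ) (U : LaurentSeries A) :
    coeffMap (residue A) (kronNorm ℓ (galA g U))
      = coeffMap (residue A) U ^ ℓ
        * coeffMap (decK g) (coeffMap (decK g) (coeffMap (residue A) U)) := by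
  have h1 := Fermat.Agent.S37.H400.coeffMap_kronNorm_char ℓ (residue A) (galA g U)
  have h2 := Fermat.Agent.S37.H400.laurent_pow_char ℓ (coeffMap (residue A) U)
  rw [coeffMap_residue_galA, ← hgk] at h1
  rw [← hgk] at h2
  rw [h1, h2]

/-- The integral Kronecker norm `K(U) = kronNorm ℓ (σ U)`. -/
theorem isInt_kronNorm_galA (hnid : NormId N ℓ) {g : A.decompositionSubgroup ℚ}
    (hgk : decK g = frobenius (ResidueField A) ℓ) {U : LaurentSeries A} (hU : IsInt A N U) :
    IsInt A N (kronNorm ℓ (galA g U)) := by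
  refine ⟨?_, ?_, ?_⟩
  · rw [Fermat.Agent.S37.H400.coeffMap_kronNorm]
    have := hnid (toF (isInt_galA g hU))
    rw [coe_toF] at this
    rw [← this]
    exact (heckeNorm N ℓ (toF (isInt_galA g hU))).2
  · rw [coeffMap_residue_kronNorm_galA hgk]
    exact mul_mem (pow_mem hU.2.1 ℓ) (coeffMap_mem_fullC _ (coeffMap_mem_fullC _ hU.2.1))
  · rw [coeffMap_residue_kronNorm_galA hgk]
    exact mul_ne_zero (pow_ne_zero ℓ hU.2.2)
      (coeffMap_ne_zero_of_injective _ (decK_injective g)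
        (coeffMap_ne_zero_of_injective _ (decK_injective g) hU.2.2))

theorem toF_kronNorm_galA (hnid : NormId N ℓ) {g : A.decompositionSubgroup ℚ}
    (hgk : decK g = frobenius (ResidueField A) ℓ) {U : LaurentSeries A} (hU : IsInt A N U) :
    toF (isInt_kronNorm_galA hnid hgk hU) = heckeNorm N ℓ (toF (isInt_galA g hU)) := by
  apply Subtype.ext
  rw [coe_toF, Fermat.Agent.S37.H400.coeffMap_kronNorm, hnid (toF (isInt_galA g hU)), coe_toF]

end Kron

end Fermat.Agent.S29.H222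

namespace Fermat.Agent.S29.H222

open ModularCurve AlgebraicCurve HahnSeries IsLocalRing
open Fermat.Agent.S18 (Qb IsInt toF CoreStatement)
open Fermat.Agent.S37.H400 (kronNorm)

variable {A : ValuationSubring Qb} {N : ℕ}

/-- A class is zero as soon as its divisor is the divisor of a function. -/
theorem pic0_mk_eq_zero_of_isDivOf
    (D : Divisor.degZero (K := Qb) (F := modularFunctionFieldBar N))
    {y : modularFunctionFieldBar N} (hy : y ≠ 0)
    (h : IsDivOf (K := Qb) y (D : Divisor Qb (modularFunctionFieldBar N))) :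
    (Pic0.mk D : JZero N) = 0 := by
  refine (QuotientAddGroup.eq_zero_iff _).mpr ?_
  rw [AddSubgroup.mem_addSubgroupOf]
  exact ⟨y, hy, h⟩

theorem galois_smul_mk (σ : Qb ≃ₐ[ℚ] Qb)
    (D : Divisor.degZero (K := Qb) (F := modularFunctionFieldBar N)) :
    σ • (Pic0.mk D : JZero N)
      = Pic0.mk (SemilinearAut.degZeroSMulHom
          (arithmeticGalois (modularFunctionFieldFull N) σ) D) := by
  rw [galois_smul_pic0_def, SemilinearAut.pic0_smul_mk]

/-- **ESK-F.** -/
theorem esk_frob : ESKFrobStatement := by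
  intro N _ ℓ hℓ m hm A hA hcore hpgi hHI hnid σ hσ x hx
  haveI : NeZero ℓ := ⟨hℓ.ne_zero⟩
  haveI : Fact ℓ.Prime := ⟨hℓ⟩
  haveI : CharP (ResidueField A) ℓ := charP_residueField_of_liesOver hℓ hA
  obtain ⟨hdec, hfrob⟩ := hσ
  set g : A.decompositionSubgroup ℚ := ⟨σ, hdec⟩ with hg
  have hgk : decK g = frobenius (ResidueField A) ℓ := RingHom.ext fun x => hfrob x
  obtain ⟨hα, hβ, hP, hfin, hFI, hN⟩ := hHI
  haveI := hP
  obtain ⟨D, rfl⟩ := Pic0.mk_surjective x
  obtain ⟨U₁, U₂, h₁, h₂, D₁, D₂, hd₁, hd₂, hDD⟩ :=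
    exists_isInt_of_principal hpgi (smul_mem_principal_of_torsion D hx)
  set G := arithmeticGalois (modularFunctionFieldFull N) σ with hG
  -- the integral series
  have hg₁ := isInt_galA g h₁
  have hg₂ := isInt_galA g h₂
  have hgg₁ := isInt_galA g hg₁
  have hgg₂ := isInt_galA g hg₂
  have hK₁ := isInt_kronNorm_galA hnid hgk h₁
  have hK₂ := isInt_kronNorm_galA hnid hgk h₂
  have hV₁ : IsInt A N (galA g (galA g U₁) * U₁ ^ ℓ * kronNorm ℓ (galA g U₂)) :=
    isInt_mul (isInt_mul hgg₁ (isInt_pow h₁ ℓ)) hK₂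
  have hV₂ : IsInt A N (galA g (galA g U₂) * U₂ ^ ℓ * kronNorm ℓ (galA g U₁)) :=
    isInt_mul (isInt_mul hgg₂ (isInt_pow h₂ ℓ)) hK₁
  -- equal reductions
  have hred : coeffMap (residue A) (galA g (galA g U₁) * U₁ ^ ℓ * kronNorm ℓ (galA g U₂))
      = coeffMap (residue A) (galA g (galA g U₂) * U₂ ^ ℓ * kronNorm ℓ (galA g U₁)) := by
    simp only [map_mul, map_pow, coeffMap_residue_galA, coeffMap_residue_kronNorm_galA hgk]
    ring
  -- divisors
  have hσ₁ : IsDivOf (toF hg₁) (G • D₁) := by rw [toF_galA]; exact hd₁.smul G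
  have hσ₂ : IsDivOf (toF hg₂) (G • D₂) := by rw [toF_galA]; exact hd₂.smul G
  have hσσ₁ : IsDivOf (toF hgg₁) (G • G • D₁) := by rw [toF_galA]; exact hσ₁.smul G
  have hσσ₂ : IsDivOf (toF hgg₂) (G • G • D₂) := by rw [toF_galA]; exact hσ₂.smul G
  have hp₁ : IsDivOf (toF (isInt_pow h₁ ℓ)) ((ℓ : ℤ) • D₁) := by
    rw [toF_pow]; exact hd₁.pow ℓ
  have hp₂ : IsDivOf (toF (isInt_pow h₂ ℓ)) ((ℓ : ℤ) • D₂) := by
    rw [toF_pow]; exact hd₂.pow ℓ
  have hT₁ : IsDivOf (toF hK₁) (heckeDivBar hα hβ (G • D₁)) := by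
    rw [toF_kronNorm_galA hnid hgk h₁]
    exact isDivOf_heckeDivBar hα hβ hfin hN (toF_ne_zero hg₁) hσ₁
  have hT₂ : IsDivOf (toF hK₂) (heckeDivBar hα hβ (G • D₂)) := by
    rw [toF_kronNorm_galA hnid hgk h₂]
    exact isDivOf_heckeDivBar hα hβ hfin hN (toF_ne_zero hg₂) hσ₂
  have hdV₁ : IsDivOf (toF hV₁)
      (G • G • D₁ + (ℓ : ℤ) • D₁ + heckeDivBar hα hβ (G • D₂)) := by
    rw [toF_mul (isInt_mul hgg₁ (isInt_pow h₁ ℓ)) hK₂, toF_mul hgg₁ (isInt_pow h₁ ℓ)]
    exact ((hσσ₁.mul (toF_ne_zero _) (toF_ne_zero _) hp₁).mul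
      (mul_ne_zero (toF_ne_zero _) (toF_ne_zero _)) (toF_ne_zero _) hT₂)
  have hdV₂ : IsDivOf (toF hV₂)
      (G • G • D₂ + (ℓ : ℤ) • D₂ + heckeDivBar hα hβ (G • D₁)) := by
    rw [toF_mul (isInt_mul hgg₂ (isInt_pow h₂ ℓ)) hK₁, toF_mul hgg₂ (isInt_pow h₂ ℓ)]
    exact ((hσσ₂.mul (toF_ne_zero _) (toF_ne_zero _) hp₂).mul
      (mul_ne_zero (toF_ne_zero _) (toF_ne_zero _)) (toF_ne_zero _) hT₁)
  -- the divisor of the relation
  set Dv : Divisor Qb (modularFunctionFieldBar N) := (D : Divisor Qb (modularFunctionFieldBar N))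
    with hDv
  set E : Divisor Qb (modularFunctionFieldBar N) :=
    G • G • Dv - heckeDivBar hα hβ (G • Dv) + (ℓ : ℤ) • Dv with hE
  have hGz : ∀ X : Divisor Qb (modularFunctionFieldBar N), G • ((m : ℤ) • X) = (m : ℤ) • (G • X) :=
    fun X => map_zsmul (DistribSMul.toAddMonoidHom (Divisor Qb (modularFunctionFieldBar N)) G) m X
  have hmE : (m : ℤ) • E
      = (G • G • D₁ + (ℓ : ℤ) • D₁ + heckeDivBar hα hβ (G • D₂))
        - (G • G • D₂ + (ℓ : ℤ) • D₂ + heckeDivBar hα hβ (G • D₁)) := by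
    have e1 : (m : ℤ) • E = G • G • ((m : ℤ) • Dv) - heckeDivBar hα hβ (G • ((m : ℤ) • Dv))
        + (ℓ : ℤ) • ((m : ℤ) • Dv) := by
      rw [hE, smul_add, smul_sub, hGz, hGz, map_zsmul, smul_comm (m : ℤ) (ℓ : ℤ) Dv]
    rw [e1, hDD, smul_sub, smul_sub, smul_sub, map_sub]
    abel
  have hkey : ∀ v : Place Qb (modularFunctionFieldBar N),
      (m : ℤ) * E v = v.ord (toF hV₁) - v.ord (toF hV₂) := by
    intro v
    rw [← hdV₁ v, ← hdV₂ v, ← Finsupp.sub_apply, ← hmE, Finsupp.smul_apply, smul_eq_mul]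
  have hord : ∀ v : Place Qb (modularFunctionFieldBar N),
      (m : ℤ) ∣ v.ord (toF hV₁) - v.ord (toF hV₂) := fun v => ⟨_, (hkey v).symm⟩
  obtain ⟨c, y, hc, hy, hcy⟩ := hcore _ _ hV₁ hV₂ hred hord
  have hEy : IsDivOf y E := isDivOf_of_eq_const_mul_pow hm hc hy (toF_ne_zero hV₂) hcy hkey
  -- conclusion in `Pic0`
  have hT : heckeOperatorBar N ⟨ℓ, hℓ⟩
      = (heckePic0Bar hα hβ hFI hfin hN).toIntLinearMap := by
    unfold heckeOperatorBar
    rw [heckeOperatorAlong_eq hα hβ hFI hfin hN]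
  rw [galois_smul_mk, galois_smul_mk, hT]
  show Pic0.mk _ - Pic0.correspondence _ _ hβ hα hFI hfin hN (Pic0.mk _) + (ℓ : ℤ) • Pic0.mk D = 0
  rw [Pic0.correspondence_mk]
  have hfinal : (Pic0.mk (SemilinearAut.degZeroSMulHom G (SemilinearAut.degZeroSMulHom G D))
      - Pic0.mk (Pic0.degZeroCorrespondence (heckeBetaBar Qb N ℓ) (heckeAlphaBar Qb N ℓ) hβ hα hFI
          (SemilinearAut.degZeroSMulHom G D))
      + (ℓ : ℤ) • Pic0.mk D : JZero N)
      = Pic0.mk (SemilinearAut.degZeroSMulHom G (SemilinearAut.degZeroSMulHom G D)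
          - Pic0.degZeroCorrespondence (heckeBetaBar Qb N ℓ) (heckeAlphaBar Qb N ℓ) hβ hα hFI
              (SemilinearAut.degZeroSMulHom G D)
          + (ℓ : ℤ) • D) := rfl
  rw [hfinal]
  exact pic0_mk_eq_zero_of_isDivOf _ hy hEy

end Fermat.Agent.S29.H222

end
end
-- ===== PACK-END S29/H222/ESKFrob.lean

-- ===== PACK-BEGIN S29/H812/IntBasis.lean
section


/-!
# S29 / H812 — a local integral basis at a place `v` of `F` for a finite extension `F'/F`

`InFib v x` : `x ∈ F'` is integral at every place above `v`.  We construct a basis `b` of `F'/F`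
consisting of such elements, such that the coordinates of every such element lie in the valuation
ring of `v`.
-/

set_option autoImplicit false

noncomputable section

open AlgebraicCurve IntermediateField

namespace Fermat.Agent.S29.H812

open Fermat.Agent.S24

variable {K F F' : Type*} [Field K] [Field F] [Field F']
  [Algebra K F] [Algebra K F'] [Algebra F F'] [IsScalarTower K F F']
  [Algebra.IsIntegral F F'] [HasPrincipalDivisors K F']

/-- `x` is integral at all places of `F'` above `v`. -/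
def InFib (v : Place K F) (x : F') : Prop := ∀ w ∈ v.fiber F', x ∈ w.toValuationSubring

theorem inFib_zero (v : Place K F) : InFib v (0 : F') := fun _ _ => zero_mem _

theorem inFib_one (v : Place K F) : InFib v (1 : F') := fun _ _ => one_mem _

theorem InFib.add {v : Place K F} {x y : F'} (hx : InFib v x) (hy : InFib v y) :
    InFib v (x + y) := fun w hw => add_mem (hx w hw) (hy w hw)

theorem InFib.mul {v : Place K F} {x y : F'} (hx : InFib v x) (hy : InFib v y) :
    InFib v (x * y) := fun w hw => mul_mem (hx w hw) (hy w hw)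

theorem inFib_sum {v : Place K F} {ι : Type*} (s : Finset ι) (f : ι → F')
    (h : ∀ i ∈ s, InFib v (f i)) : InFib v (∑ i ∈ s, f i) :=
  fun w hw => sum_mem fun i hi => h i hi w hw

theorem inFib_algebraMap {v : Place K F} {c : F} (hc : c ∈ v.toValuationSubring) :
    InFib v (algebraMap F F' c) := by
  intro w hw
  have h := Place.mem_fiber.mp hw
  rw [← h] at hc
  exact (Place.mem_restrict_iff w).mp hc

theorem InFib.smul {v : Place K F} {c : F} (hc : c ∈ v.toValuationSubring) {x : F'}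
    (hx : InFib v x) : InFib v (c • x) := by
  rw [Algebra.smul_def]
  exact (inFib_algebraMap hc).mul hx

theorem inFib_iff_ord {v : Place K F} {x : F'} :
    InFib v x ↔ ∀ w ∈ v.fiber F', 0 ≤ w.ord x :=
  forall₂_congr fun w _ => H117.mem_iff_ord_nonneg w

section Basis

variable [IsAlgClosed K] [CharZero K] [Module.Finite F F']

/-- **Local integral basis.** -/
theorem exists_integral_basis
    (hF : ∃ x : F, Transcendental K x ∧ FiniteDimensional K⟮x⟯ F) (v : Place K F) :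
    ∃ b : Module.Basis (FibIdx F' v) F F',
      (∀ i, InFib v (b i)) ∧
      (∀ x : F', InFib v x → ∀ i, b.repr x i ∈ v.toValuationSubring) := by
  classical
  obtain ⟨u, hu0, hu1, hu2⟩ := exists_family (F' := F') v
  have hli := family_linearIndependent v u hu0 hu1 hu2
  have hcard : Fintype.card (FibIdx F' v) = Module.finrank F F' := by
    rw [card_fibIdx, sum_ramificationIndex_eq_finrank hF v]
  set b : Module.Basis (FibIdx F' v) F F' := basisOfLinearIndependentOfCardEqFinrank' u hli hcard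
    with hb
  have hbu : ∀ i, b i = u i := fun i => by
    rw [hb, coe_basisOfLinearIndependentOfCardEqFinrank']
  refine ⟨b, ?_, ?_⟩
  · intro a
    rw [hbu, inFib_iff_ord]
    intro w hw
    by_cases h : w = a.1.1
    · rw [h, hu1]; exact Int.natCast_nonneg _
    · have hpos : 0 < w.ramificationIndex F := w.ramificationIndex_pos (F := F)
      have := hu2 a ⟨⟨w, hw⟩, ⟨0, hpos⟩⟩ h
      have h0 : (0 : ℤ) ≤ ((w.ramificationIndex F : ℕ) : ℤ) := Int.natCast_nonneg _
      exact h0.trans this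
  · intro x hx a
    by_cases hall : ∀ a, b.repr x a = 0
    · rw [hall a]; exact zero_mem _
    push Not at hall
    obtain ⟨a₀, hc₀, hmin, -, hord⟩ := family_coord v u hu0 hu1 hu2 (fun a => b.repr x a) hall
    have hsum : ∑ a, b.repr x a • u a = x := by
      have := b.sum_repr x
      simpa [hbu] using this
    rw [hsum] at hord
    have h0 : 0 ≤ a₀.1.1.ord x := H117.ord_nonneg_of_mem _ (hx a₀.1.1 a₀.1.2)
    have hi : ((a₀.2 : ℕ) : ℤ) < (a₀.1.1.ramificationIndex F : ℤ) := by exact_mod_cast a₀.2.2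
    have hm : 0 ≤ v.ord (b.repr x a₀) := by
      by_contra hneg
      push Not at hneg
      have he : (0 : ℤ) < (a₀.1.1.ramificationIndex F : ℤ) := by
        exact_mod_cast a₀.1.1.ramificationIndex_pos (F := F)
      nlinarith
    by_cases ha : b.repr x a = 0
    · rw [ha]; exact zero_mem _
    · exact H117.mem_of_ord_nonneg v (hm.trans (hmin a ha))

end Basis

end Fermat.Agent.S29.H812

end
end
-- ===== PACK-END S29/H812/IntBasis.lean

-- ===== PACK-BEGIN S21/MSAssembly.lean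
section



/-!
# S21 — assembly of MS (the minimizing sequence) from MS-A/B/C/E and INT-A..D
-/

set_option autoImplicit false

open ModularCurve ModularCurve.Period UpperHalfPlane CongruenceSubgroup Filter Topology
open MeasureTheory
open scoped MatrixGroups ComplexConjugate ContDiff

namespace Fermat.Agent.S21

section Measure

variable (N : ℕ) [NeZero N] {χ₁ : ℂ → ℝ}

/-- the density of the energy measure as an `ℝ≥0`-valued function -/
noncomputable def chiNN (N : ℕ) (χ₁ : ℂ → ℝ) : ℂ → NNReal := fun z => (chi N χ₁ z).toNNReal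

/-- the energy measure `χ dA` -/
noncomputable def nu (N : ℕ) (χ₁ : ℂ → ℝ) : Measure ℂ :=
  (volume : Measure ℂ).withDensity (fun z => (chiNN N χ₁ z : ENNReal))

theorem measurable_chiNN (hχ : IsSL2ZPartition χ₁) : Measurable (chiNN N χ₁) :=
  (measurable_chi N hχ).real_toNNReal

omit [NeZero N] in
theorem chi_eq_zero_of_notMem {z : ℂ} (hz : z ∉ Uhp) : chi N χ₁ z = 0 :=
  Set.indicator_of_notMem hz _

theorem integral_nu (hχ : IsSL2ZPartition χ₁) (g : ℂ → ℝ) :
    ∫ z, g z ∂(nu N χ₁) = ∫ z, g z * chi N χ₁ z := by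
  rw [nu, integral_withDensity_eq_integral_smul (measurable_chiNN N hχ)]
  refine integral_congr_ae (ae_of_all _ fun z => ?_)
  simp only [NNReal.smul_def, chiNN, Real.coe_toNNReal _ (chi_nonneg N hχ z), smul_eq_mul]
  ring

theorem integrable_nu_iff (hχ : IsSL2ZPartition χ₁) {g : ℂ → ℝ} :
    Integrable g (nu N χ₁) ↔ Integrable (fun z => g z * chi N χ₁ z) := by
  rw [nu, integrable_withDensity_iff_integrable_smul (measurable_chiNN N hχ)]
  refine integrable_congr (ae_of_all _ fun z => ?_)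
  simp only [NNReal.smul_def, chiNN, Real.coe_toNNReal _ (chi_nonneg N hχ z), smul_eq_mul]
  ring

theorem aesm_indicator {G : ℂ → ℂ} (hG : ContinuousOn G Uhp) (μ : Measure ℂ) :
    AEStronglyMeasurable (Set.indicator Uhp G) μ := by
  rw [aestronglyMeasurable_indicator_iff isOpen_Uhp.measurableSet]
  exact hG.aestronglyMeasurable isOpen_Uhp.measurableSet

theorem memLp_indicator (hχ : IsSL2ZPartition χ₁) {G : ℂ → ℂ} (hG : ContinuousOn G Uhp)
    (hfin : Integrable (fun z => ‖G z‖ ^ 2 * chi N χ₁ z)) :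
    MemLp (Set.indicator Uhp G) 2 (nu N χ₁) := by
  rw [memLp_two_iff_integrable_sq_norm (aesm_indicator hG _), integrable_nu_iff N hχ]
  refine hfin.congr (ae_of_all _ fun z => ?_)
  by_cases hz : z ∈ Uhp
  · simp [Set.indicator_of_mem hz]
  · simp [Set.indicator_of_notMem hz, chi_eq_zero_of_notMem N hz]

theorem integrable_of_memLp_indicator (hχ : IsSL2ZPartition χ₁) {G : ℂ → ℂ}
    (hG : ContinuousOn G Uhp) (h : MemLp (Set.indicator Uhp G) 2 (nu N χ₁)) :
    Integrable (fun z => ‖G z‖ ^ 2 * chi N χ₁ z) := by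
  rw [memLp_two_iff_integrable_sq_norm (aesm_indicator hG _), integrable_nu_iff N hχ] at h
  refine h.congr (ae_of_all _ fun z => ?_)
  by_cases hz : z ∈ Uhp
  · simp [Set.indicator_of_mem hz]
  · simp [Set.indicator_of_notMem hz, chi_eq_zero_of_notMem N hz]

theorem inner_toLp_indicator (hχ : IsSL2ZPartition χ₁) {G₁ G₂ : ℂ → ℂ}
    (h₁ : MemLp (Set.indicator Uhp G₁) 2 (nu N χ₁))
    (h₂ : MemLp (Set.indicator Uhp G₂) 2 (nu N χ₁)) :
    inner ℝ (h₁.toLp _) (h₂.toLp _) = ∫ z, (inner ℝ (G₁ z) (G₂ z) : ℝ) * chi N χ₁ z := by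
  rw [L2.inner_def]
  have e : ∫ z, (inner ℝ ((h₁.toLp _ : Lp ℂ 2 (nu N χ₁)) z) ((h₂.toLp _ : Lp ℂ 2 (nu N χ₁)) z) : ℝ)
        ∂(nu N χ₁)
      = ∫ z, (inner ℝ (Set.indicator Uhp G₁ z) (Set.indicator Uhp G₂ z) : ℝ) ∂(nu N χ₁) := by
    refine integral_congr_ae ?_
    filter_upwards [h₁.coeFn_toLp, h₂.coeFn_toLp] with z e1 e2
    rw [e1, e2]
  rw [e, integral_nu N hχ]
  refine integral_congr_ae (ae_of_all _ fun z => ?_)
  by_cases hz : z ∈ Uhp
  · simp [Set.indicator_of_mem hz]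
  · simp [Set.indicator_of_notMem hz, chi_eq_zero_of_notMem N hz]

theorem norm_sq_toLp_indicator (hχ : IsSL2ZPartition χ₁) {G : ℂ → ℂ}
    (h : MemLp (Set.indicator Uhp G) 2 (nu N χ₁)) :
    ‖h.toLp _‖ ^ 2 = ∫ z, ‖G z‖ ^ 2 * chi N χ₁ z := by
  rw [← real_inner_self_eq_norm_sq, inner_toLp_indicator N hχ h h]
  refine integral_congr_ae (ae_of_all _ fun z => ?_)
  simp only [real_inner_self_eq_norm_sq]

end Measure

theorem inner_dz (u w : ℂ → ℝ) (z : ℂ) :
    (inner ℝ (dz u z) (dz w z) : ℝ)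
      = fderiv ℝ u z 1 * fderiv ℝ w z 1 + fderiv ℝ u z Complex.I * fderiv ℝ w z Complex.I := by
  rw [Complex.inner]
  simp [dz]
  ring

theorem dz_const_mul {u : ℂ → ℝ} {z : ℂ} (hu : DifferentiableAt ℝ u z) (c : ℝ) :
    dz (fun w => c * u w) z = c * dz u z := by
  unfold dz
  have : fderiv ℝ (fun w => c * u w) z = c • fderiv ℝ u z := fderiv_const_mul hu c
  rw [this]
  simp only [smul_apply, smul_eq_mul]
  push_cast
  ring

theorem dz_zero (z : ℂ) : dz (fun _ => (0 : ℝ)) z = 0 := by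
  unfold dz
  simp

theorem isTest_add {η₁ η₂ : ℂ → ℝ} (h₁ : IsTest η₁) (h₂ : IsTest η₂) :
    IsTest (fun w => η₁ w + η₂ w) := by
  refine ⟨h₁.1.add h₂.1, h₁.2.1.add h₂.2.1, ?_⟩
  have : tsupport (fun w => η₁ w + η₂ w) ⊆ tsupport η₁ ∪ tsupport η₂ := by
    refine closure_minimal ?_ ((isClosed_tsupport _).union (isClosed_tsupport _))
    intro z hz
    by_contra hcon
    simp only [Set.mem_union, not_or] at hcon
    apply hz
    show η₁ z + η₂ z = 0
    rw [image_eq_zero_of_notMem_tsupport hcon.1, image_eq_zero_of_notMem_tsupport hcon.2, add_zero]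
  exact this.trans (Set.union_subset h₁.2.2 h₂.2.2)

theorem isTest_smul {η : ℂ → ℝ} (h : IsTest η) (c : ℝ) : IsTest (fun w => c * η w) := by
  refine ⟨contDiff_const.mul h.1, h.2.1.mul_left, ?_⟩
  have : tsupport (fun w => c * η w) ⊆ tsupport η := by
    refine closure_minimal ?_ (isClosed_tsupport _)
    intro z hz
    by_contra hcon
    apply hz
    show c * η z = 0
    rw [image_eq_zero_of_notMem_tsupport hcon, mul_zero]
  exact this.trans h.2.2

theorem isTest_zero : IsTest (fun _ => (0 : ℝ)) := by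
  refine ⟨contDiff_const, HasCompactSupport.zero, ?_⟩
  have : tsupport (fun _ : ℂ => (0 : ℝ)) = ∅ := by
    rw [tsupport_eq_empty_iff]; rfl
  rw [this]
  exact Set.empty_subset _

end Fermat.Agent.S21

namespace Fermat.Agent.S21

section Sub

variable (N : ℕ) [NeZero N] {χ₁ : ℂ → ℝ}

theorem differentiableAt_sym {η : ℂ → ℝ} (hη : IsTest η) {z : ℂ} (hz : z ∈ Uhp) :
    DifferentiableAt ℝ (sym N η) z :=
  ((contDiffOn_sym N hη).differentiableOn (by norm_cast)).differentiableAt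
    (isOpen_Uhp.mem_nhds hz)

theorem continuousOn_dz_sym {η : ℂ → ℝ} (hη : IsTest η) : ContinuousOn (dz (sym N η)) Uhp :=
  continuousOn_dz ((contDiffOn_sym N hη).of_le (by norm_cast))

theorem memLp_sym (hχ : IsSL2ZPartition χ₁) {η : ℂ → ℝ} (hη : IsTest η) :
    MemLp (Set.indicator Uhp (dz (sym N η))) 2 (nu N χ₁) :=
  memLp_indicator N hχ (continuousOn_dz_sym N hη) (integrable_energy_sym N hχ hη)

theorem dz_sym_add {η₁ η₂ : ℂ → ℝ} (h₁ : IsTest η₁) (h₂ : IsTest η₂) {z : ℂ} (hz : z ∈ Uhp) :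
    dz (sym N (fun w => η₁ w + η₂ w)) z = dz (sym N η₁) z + dz (sym N η₂) z := by
  have h : sym N (fun w => η₁ w + η₂ w) =ᶠ[𝓝 z] fun w => sym N η₁ w + sym N η₂ w := by
    filter_upwards [isOpen_Uhp.mem_nhds hz] with w hw
    exact sym_add N h₁ h₂ w hw
  rw [dz_congr h, dz_add (differentiableAt_sym N h₁ hz) (differentiableAt_sym N h₂ hz)]

theorem dz_sym_smul {η : ℂ → ℝ} (hη : IsTest η) (c : ℝ) {z : ℂ} (hz : z ∈ Uhp) :
    dz (sym N (fun w => c * η w)) z = c * dz (sym N η) z := by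
  have h : sym N (fun w => c * η w) =ᶠ[𝓝 z] fun w => c * sym N η w := by
    filter_upwards [isOpen_Uhp.mem_nhds hz] with w hw
    exact sym_smul N hη c w hw
  rw [dz_congr h, dz_const_mul (differentiableAt_sym N hη hz)]

/-- The space of (classes of) `dz` of symmetrized test functions. -/
noncomputable def Vsub (hχ : IsSL2ZPartition χ₁) : Submodule ℝ (Lp ℂ 2 (nu N χ₁)) where
  carrier := {x | ∃ η : ℂ → ℝ, ∃ hη : IsTest η, x = (memLp_sym N hχ hη).toLp _}
  zero_mem' := by
    refine ⟨fun _ => 0, isTest_zero, ?_⟩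
    have h0 : MemLp (0 : ℂ → ℂ) 2 (nu N χ₁) := MemLp.zero
    rw [← MemLp.toLp_zero h0]
    refine MemLp.toLp_congr _ _ (ae_of_all _ fun z => ?_)
    by_cases hz : z ∈ Uhp
    · rw [Set.indicator_of_mem hz]
      have h : sym N (fun _ => (0 : ℝ)) =ᶠ[𝓝 z] fun _ => (0 : ℝ) := by
        refine Filter.Eventually.of_forall fun w => ?_
        simp [sym]
      rw [dz_congr h, dz_zero]
      rfl
    · rw [Set.indicator_of_notMem hz]
      rfl
  add_mem' := by
    rintro x y ⟨η₁, h₁, rfl⟩ ⟨η₂, h₂, rfl⟩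
    refine ⟨fun w => η₁ w + η₂ w, isTest_add h₁ h₂, ?_⟩
    rw [← MemLp.toLp_add]
    refine MemLp.toLp_congr _ _ (ae_of_all _ fun z => ?_)
    by_cases hz : z ∈ Uhp
    · simp only [Pi.add_apply, Set.indicator_of_mem hz]
      rw [dz_sym_add N h₁ h₂ hz]
    · simp only [Pi.add_apply, Set.indicator_of_notMem hz, add_zero]
  smul_mem' := by
    rintro c x ⟨η, hη, rfl⟩
    refine ⟨fun w => c * η w, isTest_smul hη c, ?_⟩
    rw [← MemLp.toLp_const_smul]
    refine MemLp.toLp_congr _ _ (ae_of_all _ fun z => ?_)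
    by_cases hz : z ∈ Uhp
    · simp only [Pi.smul_apply, Set.indicator_of_mem hz]
      rw [dz_sym_smul N hη c hz]
      simp
    · simp only [Pi.smul_apply, Set.indicator_of_notMem hz, smul_zero]

end Sub

end Fermat.Agent.S21

namespace Fermat.Agent.S21

section Main

variable (N : ℕ) [NeZero N] {χ₁ : ℂ → ℝ}

/-- invariance of `dz (sym η)` -/
theorem dz_sym_inv {η : ℂ → ℝ} (hη : IsTest η) (γ : Gamma0 N) {z : ℂ} (hz : z ∈ Uhp) :
    dz (sym N η) (mob (γ : SL(2, ℤ)) z) = (cd (γ : SL(2, ℤ)) z) ^ 2 * dz (sym N η) z := by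
  refine asm_dz_inv ((contDiffOn_sym N hη).of_le (by norm_cast)) 0 (γ : SL(2, ℤ)) (fun w => ?_) hz
  rw [← mob_coe, sym_mob N hη γ _ (coe_mem_Uhp w), add_zero]

/-- The local `L²` estimate for differences of symmetrized test functions. -/
theorem ms_local (hχ : IsSL2ZPartition χ₁) {η₁ η₂ : ℂ → ℝ} (h₁ : IsTest η₁) (h₂ : IsTest η₂)
    (K : Set ℂ) (hK : IsCompact K) (hKU : K ⊆ Uhp) (M : ℕ)
    (hM : ∀ w ∈ Uhp, {g : SL(2, ℤ) | mob g w ∈ K}.encard ≤ M) :
    ∫ z in K, ‖dz (sym N η₁) z - dz (sym N η₂) z‖ ^ 2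
      ≤ M * ‖(memLp_sym N hχ h₁).toLp _ - (memLp_sym N hχ h₂).toLp _‖ ^ 2 := by
  set G : ℂ → ℂ := fun z => dz (sym N η₁) z - dz (sym N η₂) z with hG
  have hGc : ContinuousOn G Uhp := (continuousOn_dz_sym N h₁).sub (continuousOn_dz_sym N h₂)
  have hmem : MemLp (Set.indicator Uhp G) 2 (nu N χ₁) := by
    have := (memLp_sym N hχ h₁).sub (memLp_sym N hχ h₂)
    refine this.ae_eq (ae_of_all _ fun z => ?_)
    by_cases hz : z ∈ Uhp
    · simp [Set.indicator_of_mem hz, hG]
    · simp [Set.indicator_of_notMem hz]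
  have hfin := integrable_of_memLp_indicator N hχ hGc hmem
  have hinv : ∀ γ : Gamma0 N, ∀ z ∈ Uhp,
      G (mob (γ : SL(2, ℤ)) z) = (cd (γ : SL(2, ℤ)) z) ^ 2 * G z := by
    intro γ z hz
    simp only [hG]
    rw [dz_sym_inv N h₁ γ hz, dz_sym_inv N h₂ γ hz]
    ring
  have hfold := folding N hχ G hGc hinv hfin K hK.measurableSet hKU M hM
  have heq : (memLp_sym N hχ h₁).toLp _ - (memLp_sym N hχ h₂).toLp _ = hmem.toLp _ := by
    rw [← MemLp.toLp_sub]
    refine MemLp.toLp_congr _ _ (ae_of_all _ fun z => ?_)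
    by_cases hz : z ∈ Uhp
    · simp [Set.indicator_of_mem hz, hG]
    · simp [Set.indicator_of_notMem hz]
  rw [heq, norm_sq_toLp_indicator N hχ hmem]
  exact hfold

end Main

end Fermat.Agent.S21

namespace Fermat.Agent.S21

/-- **MS** (Dirichlet principle): an energy-minimizing sequence with periods `φ`. -/
theorem exists_minimizing_sequence (N : ℕ) [NeZero N] (φ : Additive (Gamma0 N) →+ ℝ)
    (hφ : IsParabolicHom (Gamma0 N) φ) :
    ∃ u : ℕ → ℂ → ℝ,
      (∀ n, ContDiffOn ℝ ∞ (u n) Uhp) ∧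
      (∀ n (γ : Gamma0 N) (z : ℍ),
          u n ↑((γ : SL(2, ℤ)) • z) = u n ↑z + φ (Additive.ofMul γ)) ∧
      (∀ K : Set ℂ, IsCompact K → K ⊆ Uhp → ∀ ε > 0, ∃ M, ∀ m ≥ M, ∀ n ≥ M,
          ∫ z in K, ‖dz (u n) z - dz (u m) z‖ ^ 2 < ε) ∧
      (∀ η : ℂ → ℝ, ContDiff ℝ ∞ η → HasCompactSupport η → tsupport η ⊆ Uhp →
          Tendsto (fun n => ∫ z, (fderiv ℝ (u n) z 1 * fderiv ℝ η z 1
              + fderiv ℝ (u n) z Complex.I * fderiv ℝ η z Complex.I)) atTop (𝓝 0)) ∧
      (∀ δ : SL(2, ℤ), ∃ C : ℝ, ∀ n, ∀ Y : ℝ,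
          ∫ z in strip Y, ‖dz (u n) (mob δ z)‖ ^ 2 / ‖cd δ z‖ ^ 4 ≤ C) := by
  obtain ⟨χ₁, hχ⟩ := exists_isSL2ZPartition
  obtain ⟨u₀, hu₀, hper₀, hcusp₀⟩ := exists_u0 N φ hφ
  have hu₀1 : ContDiffOn ℝ 1 u₀ Uhp := hu₀.of_le (by norm_cast)
  have hE₀ := integrable_energy_u0 N hχ u₀ hu₀ hcusp₀
  have ha := memLp_indicator N hχ (continuousOn_dz hu₀1) hE₀
  obtain ⟨v, hvV, hvC, hvO, hvB⟩ := abstract_dirichlet (ha.toLp _) (Vsub N hχ)
  choose η hη hv using hvV
  -- the functions
  set u : ℕ → ℂ → ℝ := fun n z => u₀ z + sym N (η n) z with hu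
  have hu_smooth : ∀ n, ContDiffOn ℝ ∞ (u n) Uhp := fun n =>
    hu₀.add (contDiffOn_sym N (hη n))
  have hu1 : ∀ n, ContDiffOn ℝ 1 (u n) Uhp := fun n => (hu_smooth n).of_le (by norm_cast)
  have hu_per : ∀ n (γ : Gamma0 N) (z : ℍ),
      u n ↑((γ : SL(2, ℤ)) • z) = u n ↑z + φ (Additive.ofMul γ) := by
    intro n γ z
    simp only [hu]
    rw [hper₀ γ z, ← mob_coe, sym_mob N (hη n) γ _ (coe_mem_Uhp z)]
    ring
  have hdz : ∀ n, ∀ z ∈ Uhp, dz (u n) z = dz u₀ z + dz (sym N (η n)) z := by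
    intro n z hz
    exact dz_add ((hu₀1.differentiableOn one_ne_zero).differentiableAt
      (isOpen_Uhp.mem_nhds hz)) (differentiableAt_sym N (hη n) hz)
  -- the class of `dz (u n)`
  have hmem : ∀ n, MemLp (Set.indicator Uhp (dz (u n))) 2 (nu N χ₁) := by
    intro n
    refine (ha.add (memLp_sym N hχ (hη n))).ae_eq (ae_of_all _ fun z => ?_)
    by_cases hz : z ∈ Uhp
    · simp [Set.indicator_of_mem hz, hdz n z hz]
    · simp [Set.indicator_of_notMem hz]
  have hclass : ∀ n, ha.toLp _ + v n = (hmem n).toLp _ := by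
    intro n
    rw [hv n, ← MemLp.toLp_add]
    refine MemLp.toLp_congr _ _ (ae_of_all _ fun z => ?_)
    by_cases hz : z ∈ Uhp
    · simp [Set.indicator_of_mem hz, hdz n z hz]
    · simp [Set.indicator_of_notMem hz]
  have hinv : ∀ n (γ : Gamma0 N), ∀ z ∈ Uhp,
      dz (u n) (mob (γ : SL(2, ℤ)) z) = (cd (γ : SL(2, ℤ)) z) ^ 2 * dz (u n) z :=
    fun n γ z hz => asm_dz_inv (hu1 n) _ (γ : SL(2, ℤ)) (hu_per n γ) hz
  have hfin : ∀ n, Integrable (fun z => ‖dz (u n) z‖ ^ 2 * chi N χ₁ z) := fun n =>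
    integrable_of_memLp_indicator N hχ (continuousOn_dz (hu1 n)) (hmem n)
  refine ⟨u, hu_smooth, hu_per, ?_, ?_, ?_⟩
  · -- local Cauchy
    intro K hK hKU ε hε
    obtain ⟨M, hM⟩ := mult_compact K hK hKU
    obtain ⟨M₀, hM₀⟩ := hvC (ε / (M + 1)) (by positivity)
    refine ⟨M₀, fun m hm n hn => ?_⟩
    have h1 := ms_local N hχ (hη n) (hη m) K hK hKU M hM
    rw [← hv n, ← hv m] at h1
    have h2 := hM₀ m hm n hn
    have h3 : ∫ z in K, ‖dz (u n) z - dz (u m) z‖ ^ 2
        = ∫ z in K, ‖dz (sym N (η n)) z - dz (sym N (η m)) z‖ ^ 2 := by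
      refine setIntegral_congr_fun hK.measurableSet fun z hz => ?_
      show ‖dz (u n) z - dz (u m) z‖ ^ 2 = ‖dz (sym N (η n)) z - dz (sym N (η m)) z‖ ^ 2
      rw [hdz n z (hKU hz), hdz m z (hKU hz)]
      congr 2
      ring
    rw [h3]
    have hMpos : (0 : ℝ) ≤ M := Nat.cast_nonneg M
    calc ∫ z in K, ‖dz (sym N (η n)) z - dz (sym N (η m)) z‖ ^ 2
        ≤ M * ‖v n - v m‖ ^ 2 := h1
      _ ≤ M * (ε / (M + 1)) := by gcongr
      _ < ε := by
        rw [← mul_div_assoc, div_lt_iff₀ (by positivity)]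
        nlinarith
  · -- weak harmonicity
    intro η' h1 h2 h3
    have hη' : IsTest η' := ⟨h1, h2, h3⟩
    have hw : (memLp_sym N hχ hη').toLp _ ∈ Vsub N hχ := ⟨η', hη', rfl⟩
    have := hvO _ hw
    refine this.congr fun n => ?_
    rw [hclass n, inner_toLp_indicator N hχ (hmem n) (memLp_sym N hχ hη')]
    simp_rw [inner_dz]
    exact unfolding N hχ (u n) (hu1 n) (hinv n) hη'
  · -- cusp bound
    intro δ
    refine ⟨10 * (‖ha.toLp _‖ ^ 2 + 1), fun n Y => ?_⟩
    have hcv := setIntegral_mob δ (strip Y) (isCompact_strip Y).measurableSet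
      (strip_subset_Uhp Y) (fun w => ‖dz (u n) w‖ ^ 2)
    rw [hcv]
    have hAc : IsCompact (mob δ '' strip Y) :=
      (isCompact_strip Y).image_of_continuousOn
        ((continuousOn_mob δ).mono (strip_subset_Uhp Y))
    have hAU : mob δ '' strip Y ⊆ Uhp := by
      rintro _ ⟨z, -, rfl⟩
      exact mob_mem_Uhp δ z
    have hfold := folding N hχ (dz (u n)) (continuousOn_dz (hu1 n)) (hinv n) (hfin n) _
      hAc.measurableSet hAU 10 (fun w hw => by exact_mod_cast mult_strip δ Y w hw)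
    have hnorm := norm_sq_toLp_indicator N hχ (hmem n)
    rw [← hclass n] at hnorm
    have hB := hvB n
    calc ∫ w in mob δ '' strip Y, ‖dz (u n) w‖ ^ 2
        ≤ ((10 : ℕ) : ℝ) * ∫ z, ‖dz (u n) z‖ ^ 2 * chi N χ₁ z := hfold
      _ = 10 * ‖ha.toLp _ + v n‖ ^ 2 := by rw [hnorm]; norm_num
      _ ≤ 10 * (‖ha.toLp _‖ ^ 2 + 1) := by gcongr

end Fermat.Agent.S21

end
-- ===== PACK-END S21/MSAssembly.lean

-- ===== PACK-BEGIN A3/H499/OrthDatum.lean
section




/-!
# A3 / GR-ORTH, route D (helper499): `GoodRed.orthonormal` from `S37.Red.Datum.Good`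

* `exists_orthBasis_of_finrank_eq` : in an abstract Gauss reduction context (`S37.H217.RedCtx`)
  with a coordinate `x ∈ O`, `x̄` transcendental, `[F : K(x)] = [F_k : k(x̄)] < ∞`, and a group
  `I` of semilinear automorphisms fixing `x` such that every element of `F_k` has an `I`-fixed
  lift in `O`: every finitely generated `K`-subspace `M ⊆ F` has an orthonormal basis, `I`-fixed
  if `M` is `I`-stable.
* `orthonormal_of_good` : the field `orthonormal` of `A3.H799.GoodRed`, verbatim, for a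
  `S37.Red.Datum` with good charts (only the degree fields (H1) of `Good` are used).
-/

set_option autoImplicit false
set_option linter.unusedSectionVars false
set_option linter.style.longLine false

noncomputable section

open AlgebraicCurve Polynomial IntermediateField

namespace Fermat.Agent.A3.H499

open Fermat.Agent.S37.H217

section Powers

/-- the powers of a transcendental element are linearly independent -/
theorem linearIndependent_pow_of_transcendental {R S : Type*} [CommRing R] [Ring S]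
    [Algebra R S] {y : S} (hy : Transcendental R y) :
    LinearIndependent R (fun j : ℕ => y ^ j) := by
  have h1 : LinearIndependent R (Polynomial.basisMonomials R) :=
    (Polynomial.basisMonomials R).linearIndependent
  have h2 := h1.map' (aeval y).toLinearMap
    (LinearMap.ker_eq_bot.mpr (transcendental_iff_injective.mp hy))
  have h3 : (fun j : ℕ => y ^ j) = (aeval y).toLinearMap ∘ (Polynomial.basisMonomials R) := by
    funext j
    simp
  rw [h3]
  exact h2

variable {k Fk : Type*} [Field k] [Field Fk] [Algebra k Fk]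

/-- if `y` is transcendental over `k` and the `c i` are `k(y)`-independent, the `y ^ j * c i`
are `k`-independent -/
theorem linearIndependent_pow_mul {y : Fk} (hy : Transcendental k y) {n : ℕ} (c : Fin n → Fk)
    (hc : LinearIndependent k⟮y⟯ c) :
    LinearIndependent k (fun p : ℕ × Fin n => y ^ p.1 * c p.2) := by
  have hb : LinearIndependent k (fun j : ℕ => (AdjoinSimple.gen k y) ^ j) := by
    apply LinearIndependent.of_comp (IntermediateField.val k⟮y⟯).toLinearMap
    convert linearIndependent_pow_of_transcendental hy using 1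
    funext j
    simp
  have h1 := linearIndependent_smul hb hc
  have h2 : (fun p : ℕ × Fin n => y ^ p.1 * c p.2) =
      fun p : ℕ × Fin n => (AdjoinSimple.gen k y) ^ p.1 • c p.2 := by
    funext p
    rw [Algebra.smul_def, IntermediateField.algebraMap_apply]
    simp
  rw [h2]
  exact h1

end Powers

variable {K F : Type*} [Field K] [Field F] [Algebra K F]
variable {k : Type*} {Fk : Type*} [Field k] [Field Fk] [Algebra k Fk]
variable {A : ValuationSubring K} {π : A →+* k}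

section Resid

variable (G : RedCtx A π F Fk) {t : F} (ht : t ∈ G.O) (htr : Transcendental k (G.ρ ⟨t, ht⟩))

include htr in
/-- lifts of a `k(t̄)`-independent family are residually independent over `O ∩ K(t)` -/
theorem residIndep_of_lifts {ι : Type*} [Fintype ι] (e : ι → G.O)
    (hind : LinearIndependent k⟮G.ρ ⟨t, ht⟩⟯ (fun i => G.ρ (e i))) :
    ResidIndep (G.V₀ t) G.O (fun i => ((e i : G.O) : F)) := by
  classical
  intro c hc hsum
  set s : G.O := ∑ i, G.incl t ⟨c i, hc i⟩ * e i with hs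
  have hsF : (s : F) = ∑ i, c i • ((e i : G.O) : F) := by
    rw [hs, ← ValuationSubring.subtype_apply, map_sum]
    refine Finset.sum_congr rfl fun i _ => ?_
    rw [map_mul, Algebra.smul_def]
    rfl
  have hρs : G.ρ s = 0 := by
    rw [G.ρ_eq_zero_iff, hsF]
    exact hsum
  have hρs' : ∑ i, G.ρ₀ ht htr ⟨c i, hc i⟩ • G.ρ (e i) = 0 := by
    rw [← hρs, hs, map_sum]
    refine Finset.sum_congr rfl fun i _ => ?_
    rw [map_mul, Algebra.smul_def]
    rfl
  have hzero := Fintype.linearIndependent_iff.mp hind _ hρs'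
  intro i
  have h1 : G.ρ (G.incl t ⟨c i, hc i⟩) = 0 := by
    have := congrArg (fun z : k⟮G.ρ ⟨t, ht⟩⟯ => (z : Fk)) (hzero i)
    simpa [RedCtx.coe_ρ₀] using this
  rw [G.ρ_eq_zero_iff, RedCtx.coe_incl] at h1
  exact ((G.valExtends t).mem_nonunits_iff (c i)).mp h1

end Resid

section Ctx

variable (G : RedCtx A π F Fk) {x : F} (hx : x ∈ G.O) (hxtr : Transcendental k (G.ρ ⟨x, hx⟩))

/-- elements of `K(x)` are quotients of polynomials (denominator form) -/
theorem exists_den_adjoin_simple (x : F) (c : K⟮x⟯) :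
    ∃ r s : K[X], s ≠ 0 ∧ aeval x s * ((c : K⟮x⟯) : F) = aeval x r := by
  obtain ⟨r, s, hrs⟩ := (mem_adjoin_simple_iff K ((c : K⟮x⟯) : F)).mp c.2
  by_cases hs : aeval x s = 0
  · refine ⟨0, 1, one_ne_zero, ?_⟩
    rw [hrs, hs, div_zero, mul_zero, map_zero]
  · refine ⟨r, s, fun h0 => hs (by rw [h0, map_zero]), ?_⟩
    rw [hrs, mul_div_cancel₀ _ hs]

include hxtr in
/-- **Route D.**  Orthonormal bases of all finitely generated subspaces from the degree
equality `[F : K(x)] = [F_k : k(x̄)]` and `I`-fixed lifts. -/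
theorem exists_orthBasis_of_finrank_eq
    [FiniteDimensional K⟮x⟯ F] [FiniteDimensional k⟮G.ρ ⟨x, hx⟩⟯ Fk]
    (hfr : Module.finrank K⟮x⟯ F = Module.finrank k⟮G.ρ ⟨x, hx⟩⟯ Fk)
    (I : Subgroup (SemilinearAut K F)) (hIx : ∀ g ∈ I, g • x = x)
    (hIlift : ∀ c : Fk, ∃ f : G.O, G.ρ f = c ∧ ∀ g ∈ I, g • ((f : G.O) : F) = f)
    (M : Submodule K F) (hMfg : M.FG) (hMI : ∀ g ∈ I, ∀ f ∈ M, g • f ∈ M) :
    ∃ (d : ℕ) (u : Fin d → G.O), IsOrthBasis k G.O G.ρ M u ∧
      ∀ g ∈ I, ∀ a, g • ((u a : G.O) : F) = u a := by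
  classical
  set b₁ := Module.finBasis k⟮G.ρ ⟨x, hx⟩⟯ Fk with hb₁
  choose w hw hwI using fun i => hIlift (b₁ i)
  have hind : LinearIndependent k⟮G.ρ ⟨x, hx⟩⟯ (fun i => G.ρ (w i)) := by
    have h1 : (fun i => G.ρ (w i)) = b₁ := funext hw
    rw [h1]
    exact b₁.linearIndependent
  have horth : LinearIndependent k
      (fun p : ℕ × Fin (Module.finrank k⟮G.ρ ⟨x, hx⟩⟯ Fk) =>
        G.ρ ((⟨x, hx⟩ : G.O) ^ p.1 * w p.2)) := by
    have h1 := linearIndependent_pow_mul hxtr _ hind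
    have h2 : (fun p : ℕ × Fin (Module.finrank k⟮G.ρ ⟨x, hx⟩⟯ Fk) =>
        G.ρ ((⟨x, hx⟩ : G.O) ^ p.1 * w p.2)) =
        fun p => G.ρ ⟨x, hx⟩ ^ p.1 * G.ρ (w p.2) := by
      funext p
      rw [map_mul, map_pow]
    rw [h2]
    exact h1
  have hR : ResidIndep (G.V₀ x) G.O (fun i => ((w i : G.O) : F)) :=
    residIndep_of_lifts G hx hxtr w hind
  have : Nonempty (Fin (Module.finrank k⟮G.ρ ⟨x, hx⟩⟯ Fk)) := ⟨⟨0, Module.finrank_pos⟩⟩
  obtain ⟨b, hb⟩ := exists_basis_of_residIndep hR (by rw [Fintype.card_fin, hfr])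
  have hbi : ∀ i, b i = ((w i : G.O) : F) := fun i => congrFun hb i
  have hspan : ∀ f : F, ∃ h : K[X], h ≠ 0 ∧
      aeval (((⟨x, hx⟩ : G.O) : G.O) : F) h * f ∈ polySpan (K := K) (⟨x, hx⟩ : G.O) w := by
    intro f
    choose r s hs hrs using fun i => exists_den_adjoin_simple x (b.repr f i)
    refine ⟨∏ i, s i, Finset.prod_ne_zero_iff.mpr (fun i _ => hs i), ?_⟩
    have hf : f = ∑ i, ((b.repr f i : K⟮x⟯) : F) * ((w i : G.O) : F) := by
      conv_lhs => rw [← b.sum_repr f]
      refine Finset.sum_congr rfl fun i _ => ?_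
      rw [hbi, Algebra.smul_def]
      rfl
    show aeval x (∏ i, s i) * f ∈ _
    rw [hf, Finset.mul_sum]
    refine Submodule.sum_mem _ fun i _ => ?_
    have h1 : aeval x (∏ l, s l) * (((b.repr f i : K⟮x⟯) : F) * ((w i : G.O) : F)) =
        aeval x ((∏ l ∈ Finset.univ.erase i, s l) * r i) * ((w i : G.O) : F) := by
      rw [← Finset.mul_prod_erase Finset.univ s (Finset.mem_univ i), map_mul, map_mul, ← hrs i]
      ring
    rw [h1]
    refine aeval_mul_mem_polySpan (⟨x, hx⟩ : G.O) w _ (Submodule.subset_span ⟨(0, i), ?_⟩)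
    show x ^ 0 * ((w i : G.O) : F) = _
    rw [pow_zero, one_mul]
  exact exists_orthBasis_of_span A G.O π G.ρ (fun a ha => G.const_mem ⟨a, ha⟩)
    (fun a _ => G.ρ_const a) G.ρ_surj (⟨x, hx⟩ : G.O) hxtr w horth hspan I hIx
    (fun g hg i => hwI i g hg) M hMfg hMI

end Ctx

section Datum

universe u

variable {K k F Fk : Type u} [Field K] [Field k] [Field F] [Field Fk]
  [Algebra K F] [Algebra k Fk] {A : ValuationSubring K} {π : A →+* k}

/-- the Gauss reduction context underlying a reduction datum of row S37 -/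
def ctxOfDatum (G : Fermat.Agent.S37.Red.Datum A π F Fk) : RedCtx A π F Fk where
  π_surj := G.π_surj
  O := G.O
  ρ := G.ρ
  ρ_surj := G.ρ_surj
  const_mem := G.const_mem
  ρ_const := G.ρ_const

/-- **GR-ORTH, route D.**  The field `orthonormal` of `A3.H799.GoodRed` (with `O := G.O`,
`red := G.ρ`), verbatim, for a reduction datum `G` of row S37 with the degree equality (H1) of
`G.Good`, a group `I` fixing the coordinate `G.x`, and `I`-fixed lifts of the elements of
`F_k`. -/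
theorem orthonormal_of_good (G : Fermat.Agent.S37.Red.Datum A π F Fk)
    (hfin : FiniteDimensional K⟮G.x⟯ F) (hfink : FiniteDimensional k⟮G.xk⟯ Fk)
    (hfr : Module.finrank K⟮G.x⟯ F = Module.finrank k⟮G.xk⟯ Fk)
    (hff : Fermat.Agent.Lib.RR.FF1 K F)
    (I : Subgroup (SemilinearAut K F)) (hIx : ∀ g ∈ I, g • G.x = G.x)
    (hIlift : ∀ c : Fk, ∃ f : G.O, G.ρ f = c ∧ ∀ g ∈ I, g • ((f : G.O) : F) = f) :
    ∀ D : Divisor K F, ∃ (n : ℕ) (b : Fin n → G.O),
      LinearIndependent k (fun i => G.ρ (b i)) ∧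
      (∀ i, ((b i : G.O) : F) ∈ riemannRochSpace D) ∧
      Submodule.span K (Set.range fun i => ((b i : G.O) : F)) = riemannRochSpace D ∧
      ((∀ g ∈ I, g • D = D) → ∀ i, ∀ g ∈ I, g • ((b i : G.O) : F) = ((b i : G.O) : F)) := by
  intro D
  have := hff
  have := hfin
  have : FiniteDimensional k⟮(ctxOfDatum G).ρ ⟨G.x, G.x_mem⟩⟯ Fk := hfink
  have hfg : (riemannRochSpace D : Submodule K F).FG := Module.Finite.iff_fg.mp inferInstance
  by_cases hD : ∀ g ∈ I, g • D = D
  · obtain ⟨n, b, ⟨h1, h2, h3⟩, h4⟩ :=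
      exists_orthBasis_of_finrank_eq (ctxOfDatum G) G.x_mem G.xk_transc hfr I hIx hIlift
        (riemannRochSpace D) hfg (fun g hg f hf => by
          have := smul_mem_L g hf
          rwa [hD g hg] at this)
    exact ⟨n, b, h1, h2, h3, fun _ i g hg => h4 g hg i⟩
  · obtain ⟨n, b, ⟨h1, h2, h3⟩, -⟩ :=
      exists_orthBasis_of_finrank_eq (ctxOfDatum G) G.x_mem G.xk_transc hfr ⊥
        (fun g hg => by rw [Subgroup.mem_bot.mp hg, one_smul])
        (fun c => by
          obtain ⟨f, hf, -⟩ := hIlift c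
          exact ⟨f, hf, fun g hg => by rw [Subgroup.mem_bot.mp hg, one_smul]⟩)
        (riemannRochSpace D) hfg (fun g hg f hf => by rwa [Subgroup.mem_bot.mp hg, one_smul])
    exact ⟨n, b, h1, h2, h3, fun h => absurd h hD⟩

/-- `orthonormal_of_good` with the hypothesis `G.Good`. -/
theorem orthonormal_of_good' (G : Fermat.Agent.S37.Red.Datum A π F Fk) (hgood : G.Good)
    (hff : Fermat.Agent.Lib.RR.FF1 K F)
    (I : Subgroup (SemilinearAut K F)) (hIx : ∀ g ∈ I, g • G.x = G.x)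
    (hIlift : ∀ c : Fk, ∃ f : G.O, G.ρ f = c ∧ ∀ g ∈ I, g • ((f : G.O) : F) = f) :
    ∀ D : Divisor K F, ∃ (n : ℕ) (b : Fin n → G.O),
      LinearIndependent k (fun i => G.ρ (b i)) ∧
      (∀ i, ((b i : G.O) : F) ∈ riemannRochSpace D) ∧
      Submodule.span K (Set.range fun i => ((b i : G.O) : F)) = riemannRochSpace D ∧
      ((∀ g ∈ I, g • D = D) → ∀ i, ∀ g ∈ I, g • ((b i : G.O) : F) = ((b i : G.O) : F)) :=
  orthonormal_of_good G hgood.finite hgood.finite_k hgood.finrank_eq hff I hIx hIlift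

end Datum

end Fermat.Agent.A3.H499

end

end
-- ===== PACK-END A3/H499/OrthDatum.lean

-- ===== PACK-BEGIN A2/H729/Contract.lean
section


/-!
# A2 (helper729): contraction of closed points of the chart of `F` to the chart of `F₀`

`chartMap x₀ : chart_{F₀} {x₀} →+* chart_F {x}` is an integral ring homomorphism, so maximal ideals
contract to maximal ideals.
-/

set_option autoImplicit false
set_option linter.unusedSectionVars false

namespace Fermat.Agent.A2.H729

open Polynomial Fermat.Agent.S18.H138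

variable {R : Type*} [CommRing R] {F₀ : Type*} [Field F₀] [Algebra R F₀]
  {F : Type*} [Field F] [Algebra R F] [Algebra F₀ F] [IsScalarTower R F₀ F]

/-- `R[x₀] → R[x]`. -/
noncomputable def adjoinMapS (x₀ : F₀) :
    Algebra.adjoin R ({x₀} : Set F₀) →ₐ[R] Algebra.adjoin R ({algebraMap F₀ F x₀} : Set F) :=
  AlgHom.codRestrict ((IsScalarTower.toAlgHom R F₀ F).comp (Algebra.adjoin R ({x₀} : Set F₀)).val)
    (Algebra.adjoin R ({algebraMap F₀ F x₀} : Set F)) (fun a => by
      have h := AlgHom.map_adjoin_singleton (IsScalarTower.toAlgHom R F₀ F) x₀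
      have h2 : (IsScalarTower.toAlgHom R F₀ F) a ∈
          Subalgebra.map (IsScalarTower.toAlgHom R F₀ F) (Algebra.adjoin R ({x₀} : Set F₀)) :=
        Subalgebra.mem_map.2 ⟨a, a.2, rfl⟩
      rw [h] at h2
      exact h2)

theorem coe_adjoinMapS (x₀ : F₀) (a : Algebra.adjoin R ({x₀} : Set F₀)) :
    ((adjoinMapS (F := F) x₀ a : Algebra.adjoin R ({algebraMap F₀ F x₀} : Set F)) : F) =
      algebraMap F₀ F a := rfl

theorem adjoinMapS_surjective (x₀ : F₀) :
    Function.Surjective (adjoinMapS (R := R) (F := F) x₀) := by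
  rintro ⟨b, hb⟩
  have h := AlgHom.map_adjoin_singleton (IsScalarTower.toAlgHom R F₀ F) x₀
  have hb' : b ∈ Subalgebra.map (IsScalarTower.toAlgHom R F₀ F)
      (Algebra.adjoin R ({x₀} : Set F₀)) := by
    rw [h]; exact hb
  obtain ⟨a, ha, rfl⟩ := Subalgebra.mem_map.1 hb'
  exact ⟨⟨a, ha⟩, Subtype.ext rfl⟩

/-- `chart_{F₀} {x₀} → chart_F {x}`. -/
noncomputable def chartMap (x₀ : F₀) :
    chart R ({x₀} : Set F₀) →+* chart R ({algebraMap F₀ F x₀} : Set F) where
  toFun z := ⟨algebraMap F₀ F z, algebraMap_mem_chart_singleton z.2⟩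
  map_one' := Subtype.ext (map_one _)
  map_mul' _ _ := Subtype.ext (map_mul _ _ _)
  map_zero' := Subtype.ext (map_zero _)
  map_add' _ _ := Subtype.ext (map_add _ _ _)

theorem coe_chartMap (x₀ : F₀) (z : chart R ({x₀} : Set F₀)) :
    ((chartMap (F := F) x₀ z : chart R ({algebraMap F₀ F x₀} : Set F)) : F) =
      algebraMap F₀ F z := rfl

theorem chartMap_algebraMap (x₀ : F₀) (r : R) :
    chartMap (R := R) (F := F) x₀ (algebraMap R (chart R ({x₀} : Set F₀)) r) =
      algebraMap R (chart R ({algebraMap F₀ F x₀} : Set F)) r := by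
  apply Subtype.ext
  rw [coe_chartMap]
  exact (IsScalarTower.algebraMap_apply R F₀ F r).symm

theorem chartMap_isIntegral (x₀ : F₀) : (chartMap (R := R) (F := F) x₀).IsIntegral := by
  classical
  intro c
  obtain ⟨p, hpm, hp⟩ := (mem_chart.1 c.2 :
    IsIntegral (Algebra.adjoin R ({algebraMap F₀ F x₀} : Set F)) (c : F))
  have hlift : p ∈ lifts (adjoinMapS (R := R) (F := F) x₀).toRingHom := by
    rw [lifts_iff_coeff_lifts]
    intro n
    exact adjoinMapS_surjective x₀ _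
  obtain ⟨q, hq, -, hqm⟩ := lifts_and_degree_eq_and_monic hlift hpm
  -- inclusion `R[x₀] → chart`
  let incl : Algebra.adjoin R ({x₀} : Set F₀) →+* chart R ({x₀} : Set F₀) :=
    (Subalgebra.inclusion (adjoin_le_chart (R := R) ({x₀} : Set F₀))).toRingHom
  refine ⟨q.map incl, hqm.map incl, ?_⟩
  apply Subtype.ext
  have h1 : ((eval₂ (chartMap (R := R) (F := F) x₀) c (q.map incl) :
      chart R ({algebraMap F₀ F x₀} : Set F)) : F) =
      eval₂ (((chart R ({algebraMap F₀ F x₀} : Set F)).val.toRingHom).comp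
        (chartMap (R := R) (F := F) x₀)) (c : F) (q.map incl) :=
    hom_eval₂ (q.map incl) (chartMap (R := R) (F := F) x₀)
      ((chart R ({algebraMap F₀ F x₀} : Set F)).val.toRingHom) c
  rw [h1, eval₂_map]
  have h2 : ((((chart R ({algebraMap F₀ F x₀} : Set F)).val.toRingHom).comp
      (chartMap (R := R) (F := F) x₀)).comp incl) =
      (algebraMap (Algebra.adjoin R ({algebraMap F₀ F x₀} : Set F)) F).comp
        (adjoinMapS (R := R) (F := F) x₀).toRingHom := by
    ext a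
    rfl
  rw [h2, ← eval₂_map, hq]
  exact hp

/-- Maximal ideals of the chart of `F` contract to maximal ideals of the chart of `F₀`. -/
theorem isMaximal_comap_chartMap (x₀ : F₀)
    (𝔫 : Ideal (chart R ({algebraMap F₀ F x₀} : Set F))) [𝔫.IsMaximal] :
    (Ideal.comap (chartMap (R := R) (F := F) x₀) 𝔫).IsMaximal :=
  Ideal.isMaximal_comap_of_isIntegral_of_isMaximal' _ (chartMap_isIntegral x₀) 𝔫

end Fermat.Agent.A2.H729

end
-- ===== PACK-END A2/H729/Contract.lean

-- ===== PACK-BEGIN A2/H652/RedLeaf.lean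
section


/-!
# Cell A2, route G — the leaf RED (helper652)

`redLeaf_of_sheets : SheetsLeaf → RedLeaf` (statements of `A2/H12/AlgLeaves.lean`, verbatim).

Only the fields `unif` (`e = 1`) and `exists_over` of `SheetsConclusion` are used.
Proof: `baseRed_of_ssChart` (base step: going down + valuation subrings centred at the two
components of the semistable charts) and `redConclusion_of_baseRed` (cover step: `coverRed`,
the coefficients of the minimal polynomial of `b / w` over `F`).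
-/

set_option autoImplicit false
set_option linter.style.haveILetI false

namespace Fermat.Agent.A2.H652

open Fermat.Agent.A2 Fermat.Agent.A2.H12

/-- `RedConclusion` for a Kummer-split cover, from `SheetsConclusion` for the same cover. -/
theorem redConclusion_of_sheetsConclusion {R E F : Type} [CommRing R] [IsDomain R]
    [IsDiscreteValuationRing R] [HenselianLocalRing R] [IsAlgClosed (IsLocalRing.ResidueField R)]
    [Field E] [CharZero E] [Algebra R E] [IsFractionRing R E]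
    [Field F] [Algebra E F] [Algebra R F] [IsScalarTower R E F]
    (w : R) (q m : ℕ) (x : F) (Bf Bi : Subalgebra R F)
    (τ : F ≃+* F) (τE : E ≃+* E) (τR : R ≃+* R) (ctx : SSCtx w q m x Bf Bi τ τE τR)
    (L : Type) [Field L] [Algebra F L] [Algebra R L] [IsScalarTower R F L]
    (hK : IsKummerSplit L w x m) (hS : SheetsConclusion L w x) : RedConclusion L w x := by
  haveI := hK.finite
  haveI := hK.galois
  have hinjRE : Function.Injective (algebraMap R E) := IsFractionRing.injective R E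
  have hinj : Function.Injective (algebraMap R F) := by
    rw [IsScalarTower.algebraMap_eq R E F]
    exact (algebraMap E F).injective.comp hinjRE
  have hxR : Transcendental R x := ctx.transc.restrictScalars hinjRE
  have hw : Prime w := ctx.irr.prime
  have hW0 : algebraMap R F w ≠ 0 := by
    intro h0
    exact ctx.irr.ne_zero (hinj (by rw [h0, map_zero]))
  obtain ⟨cf⟩ := ctx.cf
  obtain ⟨ci⟩ := ctx.ci
  exact redConclusion_of_baseRed w x hW0 hS
    (baseRed_of_ssChart w hw hxR Bf Bi ctx.hBf ctx.hBi cf ci)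

/-- **Leaf RED**, from the leaf SHEETS. -/
theorem redLeaf_of_sheets (hSheets : SheetsLeaf) : RedLeaf := by
  intro R E F _ _ _ _ _ _ _ _ _ _ _ _ _ w q m x Bf Bi τ τE τR ctx L _ _ _ _ hK
  exact redConclusion_of_sheetsConclusion w q m x Bf Bi τ τE τR ctx L hK
    (hSheets w q m x Bf Bi τ τE τR ctx L hK)

end Fermat.Agent.A2.H652

end
-- ===== PACK-END A2/H652/RedLeaf.lean

-- ===== PACK-BEGIN A2/H12/AlgSSU.lean
section



/-!
# Cell A2 — route G: `AlgSSStatement` from the corrected leaves (helper12, v2)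

`algSS_of_leavesU : BaseLeaf → RootLeaf → SheetsLeafU → RedLeafU → ConstLeafU → CountLeafU →
  CoverLeafU → Fermat.Agent.A2.AlgSSStatement`.
-/

set_option autoImplicit false

namespace Fermat.Agent.A2.H12

open Fermat.Agent.A2 Polynomial

universe u

section

variable {R : Type u} [CommRing R] {F : Type u} [Field F] [Algebra R F]

/-- **STEP I, split part** (corrected form). -/
theorem splitAtU_tauSubOne (w : R) (x : F) (m : ℕ) (hm : 0 < m) (τ : F ≃+* F) (τR : R ≃+* R)
    (hτR : ∀ r, τ (algebraMap R F r) = algebraMap R F (τR r))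
    (hW0 : algebraMap R F w ≠ 0)
    (hwunit : ∃ c d : R, τR w = w * c ∧ c * d = 1)
    (hpow : ∀ c : R, IsUnit c → ∃ c₀ : R, c = c₀ ^ m)
    (V : ValuationSubring F) (hV : IsSheet w x V)
    (hstab : ∀ c : F, c ∈ V → τ c - c ∈ V.nonunits)
    (hdisc : ∀ f : F, f ≠ 0 → ∃ (n : ℤ) (u : F), u ∈ V ∧ u⁻¹ ∈ V ∧
      f = algebraMap R F w ^ n * u)
    (f : F) (hf : f ≠ 0) : SplitAtU m V (τ f / f) := by
  obtain ⟨u, hu, hu', hg⟩ := splitAt_tauSubOne w x m hm τ τR hτR hW0 hwunit hpow V hV hstab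
    hdisc f hf
  refine ⟨u, ?_, hu, hu', hg⟩
  rintro rfl
  rw [zero_pow hm.ne', sub_zero] at hg
  -- `τ f / f ∈ 𝔪_V` is impossible: it is a unit of `V`
  obtain ⟨n, v, hv, hv', hfv⟩ := hdisc f hf
  obtain ⟨c, d, hc, hcd⟩ := hwunit
  have hv0 : v ≠ 0 := by
    rintro rfl
    rw [mul_zero] at hfv
    exact hf hfv
  have hτv0 : τ v ≠ 0 := fun h0 => hv0 ((map_eq_zero_iff τ τ.injective).1 h0)
  have hCd : algebraMap R F c * algebraMap R F d = 1 := by rw [← map_mul, hcd, map_one]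
  have hC0 : algebraMap R F c ≠ 0 := left_ne_zero_of_mul_eq_one hCd
  have hCinv : (algebraMap R F c)⁻¹ = algebraMap R F d := (eq_inv_of_mul_eq_one_right hCd).symm
  have hτW : τ (algebraMap R F w) = algebraMap R F w * algebraMap R F c := by
    rw [hτR, hc, map_mul]
  have hquot : τ f / f = algebraMap R F c ^ n * (τ v / v) := by
    rw [hfv, map_mul, map_zpow₀, hτW, mul_zpow]
    have hWn : algebraMap R F w ^ n ≠ 0 := zpow_ne_zero n hW0
    field_simp
  -- the inverse of `τ f / f` lies in `V`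
  have hτv : τ v ∈ V := by
    have := ValuationSubring.nonunits_subset (hstab v hv)
    have h2 : τ v = (τ v - v) + v := by ring
    rw [h2]
    exact V.add_mem _ _ this hv
  have hτv' : (τ v)⁻¹ ∈ V := by
    -- `τ v = v (1 + (τ v - v) / v)` with `(τ v - v)/v ∈ 𝔪_V`
    have h1 : (τ v - v) * v⁻¹ ∈ V.nonunits := by
      rw [mul_comm]
      exact mul_mem_nonunits V (hstab v hv) hv'
    have h2 : τ v * v⁻¹ = 1 + (τ v - v) * v⁻¹ := by
      field_simp
      ring
    have h3 : τ v * v⁻¹ ∉ V.nonunits := by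
      intro h
      have : (1 : F) = τ v * v⁻¹ - (τ v - v) * v⁻¹ := by rw [h2]; ring
      exact one_not_mem_nonunits V (this ▸ V.nonunits.sub_mem h h1)
    have h4 : τ v * v⁻¹ ≠ 0 := mul_ne_zero hτv0 (inv_ne_zero hv0)
    have h5 : (τ v * v⁻¹)⁻¹ ∈ V := by
      by_contra hcon
      apply h3
      rw [ValuationSubring.mem_nonunits_iff_or]
      exact Or.inr hcon
    have h6 : (τ v)⁻¹ = (τ v * v⁻¹)⁻¹ * v⁻¹ := by
      field_simp
    rw [h6]
    exact V.mul_mem _ _ h5 hv'
  have hinvmem : (τ f / f)⁻¹ ∈ V := by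
    rw [hquot, mul_inv, ← inv_zpow, inv_div]
    refine V.mul_mem _ _ (zpow_mem_of_unit V ?_ ?_ n) (by
      rw [div_eq_mul_inv]
      exact V.mul_mem _ _ hv hτv')
    · rw [hCinv]
      exact hV.1 d
    · rw [inv_inv]
      exact hV.1 c
  have := mul_mem_nonunits V hg hinvmem
  have hne : τ f / f ≠ 0 := div_ne_zero (fun h0 => hf ((map_eq_zero_iff τ τ.injective).1 h0)) hf
  rw [inv_mul_cancel₀ hne] at this
  exact one_not_mem_nonunits V this

variable [IsDomain R] [IsNoetherianRing R] [IsIntegrallyClosed R[X]] [CharZero F]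

/-- **Route G, ALG assembly** (corrected cover class). -/
theorem algGU (w : R) (x : F) (m : ℕ) (τ : F ≃+* F) (τR : R ≃+* R)
    (hinj : Function.Injective (algebraMap R F)) (hx : Transcendental R x) (hw : Prime w)
    (hm : 0 < m) (hroot : ∃ ζ : R, IsPrimitiveRoot ζ m ∧ τR ζ = ζ)
    (hτx : τ x = x) (hτR : ∀ r, τ (algebraMap R F r) = algebraMap R F (τR r))
    (hτw : ∀ r, w ∣ r ↔ w ∣ τR r)
    (hτV : ∀ V : ValuationSubring F, IsSheet w x V → ∀ c : F,
      (c ∈ V ↔ τ c ∈ V) ∧ (c ∈ V → τ c - c ∈ V.nonunits))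
    (hsheet : ∃ V : ValuationSubring F, IsSheet w x V)
    (hSheets : ∀ (L : Type u) [Field L] [Algebra F L] [Algebra R L] [IsScalarTower R F L],
      IsKummerSplitU L w x m → SheetsConclusion L w x)
    (hRed : ∀ (L : Type u) [Field L] [Algebra F L] [Algebra R L] [IsScalarTower R F L],
      IsKummerSplitU L w x m → RedConclusion L w x)
    (hConst : ∀ (L : Type u) [Field L] [Algebra F L] [Algebra R L] [IsScalarTower R F L],
      IsKummerSplitU L w x m → ConstConclusion (R := R) L x)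
    (hCount : ∀ (L : Type u) [Field L] [Algebra F L] [Algebra R L] [IsScalarTower R F L],
      IsKummerSplitU L w x m → CountConclusion L w x)
    (g : F) (hg : g ≠ 0) (hCover : CoverConclusionU w x m τ g) :
    ∃ z : F, τ g = z ^ m * g := by
  obtain ⟨L, _, _, _, _, hKS, τ₀, y, hτ₀, hy⟩ := hCover
  have := hKS.finite
  have := hKS.galois
  have S1 := hSheets L hKS
  obtain ⟨V₀, hV₀⟩ := hsheet
  obtain ⟨W₀, hW₀, -⟩ := S1.exists_over V₀ hV₀
  have hW₁ : IsSheet w (algebraMap F L x) (W₀.comap (τ₀.symm : L →+* L)) :=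
    lift_isSheet w x τ τR hτx hτR hτw τ₀ hτ₀ hW₀
  have hcol : (W₀.comap (τ₀.symm : L →+* L)).comap (algebraMap F L) =
      W₀.comap (algebraMap F L) := by
    ext f
    have h2 := (hτV _ (IsSheet.comap_algebraMap hW₀) (τ.symm f)).1
    rw [RingEquiv.apply_symm_apply] at h2
    rw [ValuationSubring.mem_comap, ValuationSubring.mem_comap]
    change τ₀.symm (algebraMap F L f) ∈ W₀ ↔ _
    rw [lift_symm_algebraMap τ τ₀ hτ₀, ← ValuationSubring.mem_comap, h2]
  obtain ⟨σ, hσ⟩ := S1.trans _ W₀ hW₁ hW₀ hcol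
  refine algG_core (L := L) w x m τ τR hinj hx hw hm hroot hτx hτR hτw hτV S1 (hRed L hKS)
    (hConst L hKS) (hCount L hKS) (τ₀.trans (σ : L ≃+* L)) ?_ W₀ hW₀ ?_ g hg y hy
  · intro f
    change σ (τ₀ (algebraMap F L f)) = _
    rw [hτ₀, σ.commutes]
  · intro b
    change b ∈ W₀ ↔ σ (τ₀ b) ∈ W₀
    rw [← hσ, ValuationSubring.mem_comap]
    change _ ↔ τ₀.symm (τ₀ b) ∈ W₀
    rw [RingEquiv.symm_apply_apply]

end

/-- **ALG from the corrected leaves (route G).** -/
theorem algSS_of_leavesU (hBase : BaseLeaf) (hRoot : RootLeaf) (hSheets : SheetsLeafU)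
    (hRed : RedLeafU) (hConst : ConstLeafU) (hCount : CountLeafU) (hCover : CoverLeafU) :
    AlgSSStatement := by
  intro R E F _ _ _ _ _ _ _ _ _ _ _ _ _ w hirr q m hq hqR hm hqm x hx hfin hconst Bf Bi hBf hBi
    cf ci sf si τ τE τR hτE hτR hτx hfo hτf hτi
  have ctx : SSCtx w q m x Bf Bi τ τE τR :=
    ⟨hirr, hq, hqR, hm, hqm, hx, hfin, hconst, hBf, hBi, ⟨cf⟩, ⟨ci⟩, sf, si, hτE, hτR, hτx, hfo,
      hτf, hτi⟩
  have B := hBase w q m x Bf Bi τ τE τR ctx
  have Rt := hRoot w q m x Bf Bi τ τE τR ctx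
  have hinjRE : Function.Injective (algebraMap R E) := IsFractionRing.injective R E
  have hinj : Function.Injective (algebraMap R F) := by
    rw [IsScalarTower.algebraMap_eq R E F]
    exact (algebraMap E F).injective.comp hinjRE
  have : CharZero F := charZero_of_injective_algebraMap (algebraMap E F).injective
  have hxR : Transcendental R x := hx.restrictScalars hinjRE
  have hw : Prime w := hirr.prime
  have hτRF : ∀ r, τ (algebraMap R F r) = algebraMap R F (τR r) := by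
    intro r
    rw [IsScalarTower.algebraMap_apply R E F, hτE, hτR, ← IsScalarTower.algebraMap_apply]
  have hdvd : ∀ r : R, w ∣ r ↔ ¬ IsUnit r := by
    intro r
    rw [← Ideal.mem_span_singleton, ← hirr.maximalIdeal_eq, IsLocalRing.mem_maximalIdeal,
      mem_nonunits_iff]
  have hτw : ∀ r, w ∣ r ↔ w ∣ τR r := by
    intro r
    rw [hdvd, hdvd]
    exact not_congr (MulEquiv.isUnit_map (τR : R ≃* R)).symm
  have hwunit : ∃ c d : R, τR w = w * c ∧ c * d = 1 := by
    obtain ⟨c, hc⟩ := (hτw w).1 dvd_rfl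
    have hirr' : Irreducible (τR w) := (MulEquiv.irreducible_iff (τR : R ≃* R)).2 hirr
    rw [hc] at hirr'
    rcases hirr'.isUnit_or_isUnit rfl with h | h
    · exact absurd h hirr.not_isUnit
    · obtain ⟨d, hd⟩ := h.exists_right_inv
      exact ⟨c, d, hc, hd⟩
  have hW0 : algebraMap R F w ≠ 0 := by
    intro h0
    exact hirr.ne_zero (hinj (by rw [h0, map_zero]))
  intro f hf hdiv
  have hHor : HorDiv R m f := horDiv_of_divisibleDiv hdiv
  have hτf0 : τ f ≠ 0 := fun h0 => hf ((map_eq_zero_iff τ τ.injective).1 h0)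
  have hg0 : τ f / f ≠ 0 := div_ne_zero hτf0 hf
  have hgHor : HorDiv R m (τ f / f) := (hHor.map τ τR hτRF).div hHor
  have hgSplit : ∀ V : ValuationSubring F, IsSheet w x V → SplitAtU m V (τ f / f) :=
    fun V hV => splitAtU_tauSubOne w x m hm τ τR hτRF hW0 hwunit Rt.unit_pow V hV
      (fun c hc => (B.stable V hV c).2 hc) (B.discrete V hV) f hf
  have hcov := hCover w q m x Bf Bi τ τE τR ctx (τ f / f) hg0 hgHor hgSplit
  obtain ⟨z, hz⟩ := algGU w x m τ τR hinj hxR hw hm Rt.root hτx hτRF hτw B.stable B.exists_sheet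
    (fun L _ _ _ _ h => hSheets w q m x Bf Bi τ τE τR ctx L h)
    (fun L _ _ _ _ h => hRed w q m x Bf Bi τ τE τR ctx L h)
    (fun L _ _ _ _ h => hConst w q m x Bf Bi τ τE τR ctx L h)
    (fun L _ _ _ _ h => hCount w q m x Bf Bi τ τE τR ctx L h)
    (τ f / f) hg0 hcov
  have hz0 : z ≠ 0 := by
    rintro rfl
    rw [zero_pow hm.ne', zero_mul] at hz
    exact hg0 ((map_eq_zero_iff τ τ.injective).1 hz)
  refine ⟨z, hz0, ?_⟩
  rw [map_div₀] at hz
  field_simp at hz
  rw [hz]
  ring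

end Fermat.Agent.A2.H12

end
-- ===== PACK-END A2/H12/AlgSSU.lean

-- ===== PACK-BEGIN A2/H733/CountChart.lean
section









/-!
# CountLeaf assembly, part 4: the charts of the base and of the cover as models

`R` a ring, `t : F`, `Λ := Algebra.adjoin R {t} ⊆ F`, `B : Subalgebra R F` the chart of `F`
(`hB : f ∈ B ↔ IsIntegral Λ f`), `L / F` a field extension, `B' := chart R {algebraMap F L t}`.

* `algΛB`, `algΛB'`, `algBB'` : the algebra structures `Λ → B`, `Λ → B'`, `B → B'`;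
* `galAction` : the action of `Gal(L/F)` on `B'`, `isInvariant_chart` : its invariants are `B`;
* `isIntegralClosure_chart`, `isIntegralClosure_cover` : `B`, `B'` are models of the integral
  closures of `Λ` in `F`, `L`.
-/

set_option autoImplicit false
set_option linter.unusedSectionVars false
set_option linter.style.haveILetI false

namespace Fermat.Agent.A2.H733

open Polynomial
open Fermat.Agent.A2 Fermat.Agent.A2.H12
open Fermat.Agent.S18.H138 (chart mem_chart)

section Maps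

variable {R F : Type*} [CommRing R] [Field F] [Algebra R F]
variable {L : Type*} [Field L] [Algebra F L] [Algebra R L] [IsScalarTower R F L]

/-- Integrality over `R[t] ⊆ F` of an element of `L` is membership in the chart of `L`. -/
theorem mem_chart_iff_isIntegral (t : F) (y : L) :
    y ∈ chart R ({algebraMap F L t} : Set L) ↔ IsIntegral (Algebra.adjoin R ({t} : Set F)) y := by
  rw [mem_chart, ← Set.image_singleton]
  exact ⟨Fermat.Agent.A2.H652.isIntegral_adjoin_of_isIntegral_adjoin_image {t},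
    Fermat.Agent.A2.H652.isIntegral_adjoin_image_of_isIntegral_adjoin {t}⟩

variable (L) in
/-- The chart of `F` maps into the chart of `L`. -/
theorem algebraMap_mem_chart {t : F} {B : Subalgebra R F}
    (hB : ∀ f : F, f ∈ B ↔ IsIntegral (Algebra.adjoin R ({t} : Set F)) f) (b : B) :
    algebraMap F L (b : F) ∈ chart R ({algebraMap F L t} : Set L) := by
  rw [mem_chart_iff_isIntegral]
  exact ((hB b).1 b.2).map (IsScalarTower.toAlgHom (Algebra.adjoin R ({t} : Set F)) F L)

variable (L) in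
/-- `B → B'`. -/
def chartMap {t : F} {B : Subalgebra R F}
    (hB : ∀ f : F, f ∈ B ↔ IsIntegral (Algebra.adjoin R ({t} : Set F)) f) :
    B →+* chart R ({algebraMap F L t} : Set L) where
  toFun b := ⟨algebraMap F L (b : F), algebraMap_mem_chart L hB b⟩
  map_one' := Subtype.ext (map_one _)
  map_mul' _ _ := Subtype.ext (map_mul _ _ _)
  map_zero' := Subtype.ext (map_zero _)
  map_add' _ _ := Subtype.ext (map_add _ _ _)

theorem coe_chartMap {t : F} {B : Subalgebra R F}
    (hB : ∀ f : F, f ∈ B ↔ IsIntegral (Algebra.adjoin R ({t} : Set F)) f) (b : B) :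
    ((chartMap L hB b : chart R ({algebraMap F L t} : Set L)) : L) = algebraMap F L (b : F) :=
  rfl

/-- `Λ → B`. -/
def baseMap {t : F} {B : Subalgebra R F}
    (hB : ∀ f : F, f ∈ B ↔ IsIntegral (Algebra.adjoin R ({t} : Set F)) f) :
    Algebra.adjoin R ({t} : Set F) →+* B where
  toFun a := ⟨(a : F), (hB a).2 isIntegral_algebraMap⟩
  map_one' := rfl
  map_mul' _ _ := rfl
  map_zero' := rfl
  map_add' _ _ := rfl

variable (L) in
/-- `Λ → B'`. -/
def coverMap (t : F) :
    Algebra.adjoin R ({t} : Set F) →+* chart R ({algebraMap F L t} : Set L) where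
  toFun a := ⟨algebraMap F L (a : F), (mem_chart_iff_isIntegral t _).2 isIntegral_algebraMap⟩
  map_one' := Subtype.ext (map_one _)
  map_mul' _ _ := Subtype.ext (map_mul _ _ _)
  map_zero' := Subtype.ext (map_zero _)
  map_add' _ _ := Subtype.ext (map_add _ _ _)

/-- The Galois group preserves the chart of the cover. -/
theorem galois_mem_chart (t : F) (σ : L ≃ₐ[F] L) {y : L}
    (hy : y ∈ chart R ({algebraMap F L t} : Set L)) :
    σ y ∈ chart R ({algebraMap F L t} : Set L) := by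
  rw [mem_chart_iff_isIntegral] at hy ⊢
  exact hy.map (σ.toAlgHom.restrictScalars (Algebra.adjoin R ({t} : Set F)))

variable (R L) in
/-- The action of `Gal(L/F)` on the chart of the cover. -/
@[reducible] def galAction (t : F) :
    MulSemiringAction (L ≃ₐ[F] L) (chart R ({algebraMap F L t} : Set L)) where
  smul σ y := ⟨σ (y : L), galois_mem_chart t σ y.2⟩
  one_smul _ := Subtype.ext rfl
  mul_smul _ _ _ := Subtype.ext rfl
  smul_zero σ := Subtype.ext (map_zero σ)
  smul_add σ _ _ := Subtype.ext (map_add σ _ _)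
  smul_one σ := Subtype.ext (map_one σ)
  smul_mul σ _ _ := Subtype.ext (map_mul σ _ _)

theorem coe_galAction_smul (t : F) (σ : L ≃ₐ[F] L) (y : chart R ({algebraMap F L t} : Set L)) :
    letI := galAction R L t
    ((σ • y : chart R ({algebraMap F L t} : Set L)) : L) = σ (y : L) := rfl

/-- `B` is a model of the integral closure of `Λ` in `F`. -/
theorem isIntegralClosure_chart {t : F} {B : Subalgebra R F}
    (hB : ∀ f : F, f ∈ B ↔ IsIntegral (Algebra.adjoin R ({t} : Set F)) f) :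
    IsIntegralClosure B (Algebra.adjoin R ({t} : Set F)) F where
  algebraMap_injective := Subtype.val_injective
  isIntegral_iff := fun {x} => by
    constructor
    · intro hx
      exact ⟨⟨x, (hB x).2 hx⟩, rfl⟩
    · rintro ⟨y, rfl⟩
      exact (hB y).1 y.2

variable (R L) in
/-- `B'` is a model of the integral closure of `Λ` in `L`. -/
theorem isIntegralClosure_cover (t : F) :
    IsIntegralClosure (chart R ({algebraMap F L t} : Set L)) (Algebra.adjoin R ({t} : Set F)) L where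
  algebraMap_injective := Subtype.val_injective
  isIntegral_iff := fun {x} => by
    constructor
    · intro hx
      exact ⟨⟨x, (mem_chart_iff_isIntegral t x).2 hx⟩, rfl⟩
    · rintro ⟨y, rfl⟩
      exact (mem_chart_iff_isIntegral t _).1 y.2

/-- The Galois action commutes with the scalars of the base chart. -/
theorem smulCommClass_chart {t : F} {B : Subalgebra R F}
    (hB : ∀ f : F, f ∈ B ↔ IsIntegral (Algebra.adjoin R ({t} : Set F)) f) :
    letI := (chartMap L hB).toAlgebra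
    letI := galAction R L t
    SMulCommClass (L ≃ₐ[F] L) B (chart R ({algebraMap F L t} : Set L)) := by
  letI := (chartMap L hB).toAlgebra
  letI := galAction R L t
  refine ⟨fun σ b y => ?_⟩
  apply Subtype.ext
  show σ (algebraMap F L (b : F) * (y : L)) = algebraMap F L (b : F) * σ (y : L)
  rw [map_mul, σ.commutes]

/-- The invariants of the Galois action on the chart of the cover are the chart of the base. -/
theorem isInvariant_chart [FiniteDimensional F L] [IsGalois F L] {t : F} {B : Subalgebra R F}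
    (hB : ∀ f : F, f ∈ B ↔ IsIntegral (Algebra.adjoin R ({t} : Set F)) f) :
    letI := (chartMap L hB).toAlgebra
    letI := galAction R L t
    Algebra.IsInvariant B (chart R ({algebraMap F L t} : Set L)) (L ≃ₐ[F] L) := by
  letI := (chartMap L hB).toAlgebra
  letI := galAction R L t
  refine ⟨fun y hy => ?_⟩
  have h1 : (y : L) ∈ Set.range (algebraMap F L) := by
    rw [IsGalois.mem_range_algebraMap_iff_fixed]
    intro σ
    exact congrArg Subtype.val (hy σ)
  obtain ⟨f, hf⟩ := h1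
  have hfB : f ∈ B := by
    rw [hB]
    have h2 : IsIntegral (Algebra.adjoin R ({t} : Set F)) (algebraMap F L f) := by
      rw [hf]
      exact (mem_chart_iff_isIntegral t _).1 y.2
    exact (isIntegral_algebraMap_iff (algebraMap F L).injective).1 h2
  exact ⟨⟨f, hfB⟩, Subtype.ext hf⟩

end Maps

section Base

variable {R E F : Type} [CommRing R] [IsDomain R] [IsDiscreteValuationRing R]
  [Field E] [Algebra R E] [IsFractionRing R E]
  [Field F] [Algebra E F] [Algebra R F] [IsScalarTower R E F]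

/-- **The two sheets of the base**: each component of the semistable chart is the centre of
exactly one sheet, which is the localisation of the chart at the component. -/
theorem exists_base_sheets (w : R) (hw : Irreducible w) (t : F) (ht : Transcendental E t)
    [FiniteDimensional (IntermediateField.adjoin E ({t} : Set F)) F]
    (B : Subalgebra R F)
    (hB : ∀ f : F, f ∈ B ↔ IsIntegral (Algebra.adjoin R ({t} : Set F)) f) (c : SSChart w B)
    (hdisc : ∀ V : ValuationSubring F, IsSheet w t V → ∀ f : F, f ≠ 0 →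
      ∃ (n : ℤ) (u : F), u ∈ V ∧ u⁻¹ ∈ V ∧ f = algebraMap R F w ^ n * u) :
    ∃ V₁ V₂ : ValuationSubring F, IsSheet w t V₁ ∧ IsSheet w t V₂ ∧
      (∀ b : B, (b : F) ∈ V₁.nonunits ↔ b ∈ c.p₁) ∧
      (∀ b : B, (b : F) ∈ V₂.nonunits ↔ b ∈ c.p₂) ∧
      (∀ V : ValuationSubring F, IsSheet w t V → V = V₁ ∨ V = V₂) ∧
      (∀ f ∈ V₁, ∃ a s : B, s ∉ c.p₁ ∧ f * (s : F) = a) ∧
      (∀ f ∈ V₂, ∃ a s : B, s ∉ c.p₂ ∧ f * (s : F) = a) := by
  have hinjRE : Function.Injective (algebraMap R E) := IsFractionRing.injective R E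
  have hinj : Function.Injective (algebraMap R F) := by
    rw [IsScalarTower.algebraMap_eq R E F]
    exact (algebraMap E F).injective.comp hinjRE
  have hxR : Transcendental R t := ht.restrictScalars hinjRE
  have hwp : Prime w := hw.prime
  have hw0 : algebraMap R F w ≠ 0 := fun h0 => hw.ne_zero (hinj (by rw [h0, map_zero]))
  haveI := c.prime₁
  haveI := c.prime₂
  have hinf' : c.p₂ ⊓ c.p₁ = Ideal.span {algebraMap R B w} := by
    rw [inf_comm]
    exact c.inf_eq
  obtain ⟨V₁, hBV₁, hV₁⟩ := Fermat.Agent.A2.H652.exists_valuationSubring_center B c.p₁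
  obtain ⟨V₂, hBV₂, hV₂⟩ := Fermat.Agent.A2.H652.exists_valuationSubring_center B c.p₂
  have hS₁ : IsSheet w t V₁ := Fermat.Agent.A2.H652.isSheet_of_center w hwp hxR B hB c.p₁ c.p₂
    c.inf_eq c.not_le₂₁ V₁ hBV₁ hV₁
  have hS₂ : IsSheet w t V₂ := Fermat.Agent.A2.H652.isSheet_of_center w hwp hxR B hB c.p₂ c.p₁
    hinf' c.not_le₁₂ V₂ hBV₂ hV₂
  have hfrac := Fermat.Agent.A2.H373.exists_div_mem hB
    (Fermat.Agent.A2.H373.isAlgebraic_adjoin_of_finite (R := R) (E := E) t)
  have hFrac : ∀ f : F, ∃ a s : B, (s : F) ≠ 0 ∧ f * (s : F) = a := by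
    intro f
    obtain ⟨a, ha, b, hb, hb0, hf⟩ := hfrac f
    refine ⟨⟨a, ha⟩, ⟨b, hb⟩, hb0, ?_⟩
    rw [hf]
    exact div_mul_cancel₀ a hb0
  obtain ⟨e₂, he₂, he₂'⟩ := SetLike.not_le_iff_exists.1 c.not_le₂₁
  obtain ⟨e₁, he₁, he₁'⟩ := SetLike.not_le_iff_exists.1 c.not_le₁₂
  refine ⟨V₁, V₂, hS₁, hS₂, hV₁, hV₂, ?_, ?_, ?_⟩
  · intro V hV
    have hc₁ : Fermat.Agent.A2.H373.centreOn V₁ B
        (Fermat.Agent.A2.H373.sheet_mem_of_mem hB hS₁) = c.p₁ := by
      ext b
      rw [Fermat.Agent.A2.H373.mem_centreOn]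
      exact hV₁ b
    have hc₂ : Fermat.Agent.A2.H373.centreOn V₂ B
        (Fermat.Agent.A2.H373.sheet_mem_of_mem hB hS₂) = c.p₂ := by
      ext b
      rw [Fermat.Agent.A2.H373.mem_centreOn]
      exact hV₂ b
    rcases Fermat.Agent.A2.H373.centreOn_eq_or hB hV c with h | h
    · left
      exact Fermat.Agent.A2.H373.sheet_eq_of_centre hB hfrac hw0 hV hS₁ (hdisc V hV)
        (hdisc V₁ hS₁) c.p₁ c.p₂ (le_of_eq c.inf_eq) c.not_le₂₁ h hc₁
    · right
      exact Fermat.Agent.A2.H373.sheet_eq_of_centre hB hfrac hw0 hV hS₂ (hdisc V hV)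
        (hdisc V₂ hS₂) c.p₂ c.p₁ (le_of_eq hinf') c.not_le₁₂ h hc₂
  · intro f hf
    exact exists_frac_of_mem B w c.p₁ c.p₂ hFrac V₁ (fun b => hBV₁ b b.2) hV₁
      (le_of_eq c.inf_eq) e₂ he₂ he₂' hS₁.2.2.1 hw0 (hdisc V₁ hS₁) f hf
  · intro f hf
    exact exists_frac_of_mem B w c.p₂ c.p₁ hFrac V₂ (fun b => hBV₂ b b.2) hV₂
      (le_of_eq hinf') e₁ he₁ he₁' hS₂.2.2.1 hw0 (hdisc V₂ hS₂) f hf

end Base

section Cover

variable {R F L : Type} [CommRing R] [Field F] [Algebra R F]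
  [Field L] [Algebra F L] [Algebra R L] [IsScalarTower R F L]

/-- The chart of the cover lies in every sheet. -/
theorem chart_le_sheet {w : R} {t : F} {W : ValuationSubring L}
    (hW : IsSheet w (algebraMap F L t) W) :
    ∀ b ∈ chart R ({algebraMap F L t} : Set L), b ∈ W :=
  fun _ hb => hW.chart_le (T := {algebraMap F L t}) (by simp) hb

/-- The centre of a sheet of the cover lies over the centre of its restriction. -/
theorem comap_centreOn_cover {w : R} {t : F} {B : Subalgebra R F}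
    (hB : ∀ f : F, f ∈ B ↔ IsIntegral (Algebra.adjoin R ({t} : Set F)) f)
    {W : ValuationSubring L} (hW : IsSheet w (algebraMap F L t) W) (p : Ideal B)
    (hcentre : ∀ b : B, (b : F) ∈ (W.comap (algebraMap F L)).nonunits ↔ b ∈ p) :
    (Fermat.Agent.A2.H373.centreOn W (chart R ({algebraMap F L t} : Set L))
      (chart_le_sheet hW)).comap (chartMap L hB) = p := by
  ext b
  rw [Ideal.mem_comap, Fermat.Agent.A2.H373.mem_centreOn, coe_chartMap, ← hcentre b,
    Fermat.Agent.A2.H12.mem_nonunits_comap]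

/-- **Residue degree one + normality of the component**: `B' = B + Q`. -/
theorem exists_sub_mem_centreOn {w : R} {t : F} {B : Subalgebra R F}
    (hB : ∀ f : F, f ∈ B ↔ IsIntegral (Algebra.adjoin R ({t} : Set F)) f)
    {W : ValuationSubring L} (hW : IsSheet w (algebraMap F L t) W) (p : Ideal B) [p.IsPrime]
    [IsIntegrallyClosed (B ⧸ p)]
    (hcentre : ∀ b : B, (b : F) ∈ (W.comap (algebraMap F L)).nonunits ↔ b ∈ p)
    (hfrac : ∀ f ∈ W.comap (algebraMap F L), ∃ a s : B, s ∉ p ∧ f * (s : F) = a)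
    (hres : ∀ b ∈ W, ∃ c : F, b - algebraMap F L c ∈ W.nonunits)
    (b' : chart R ({algebraMap F L t} : Set L)) :
    ∃ b : B, b' - chartMap L hB b ∈
      Fermat.Agent.A2.H373.centreOn W (chart R ({algebraMap F L t} : Set L))
        (chart_le_sheet hW) := by
  letI algΛB : Algebra (Algebra.adjoin R ({t} : Set F)) B := (baseMap hB).toAlgebra
  letI algΛB' : Algebra (Algebra.adjoin R ({t} : Set F)) (chart R ({algebraMap F L t} : Set L)) :=
    (coverMap L t).toAlgebra
  letI algBB' : Algebra B (chart R ({algebraMap F L t} : Set L)) := (chartMap L hB).toAlgebra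
  haveI : IsScalarTower (Algebra.adjoin R ({t} : Set F)) B
      (chart R ({algebraMap F L t} : Set L)) := IsScalarTower.of_algebraMap_eq (fun _ => rfl)
  haveI : IsScalarTower (Algebra.adjoin R ({t} : Set F)) (chart R ({algebraMap F L t} : Set L)) L :=
    IsScalarTower.of_algebraMap_eq (fun _ => rfl)
  haveI := isIntegralClosure_cover R L t
  have hb' : IsIntegral B b' :=
    (IsIntegralClosure.isIntegral (Algebra.adjoin R ({t} : Set F)) L b').tower_top
  obtain ⟨cF, hcF⟩ := hres (b' : L) (chart_le_sheet hW _ b'.2)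
  have hcW : algebraMap F L cF ∈ W := by
    have h1 : algebraMap F L cF = (b' : L) - ((b' : L) - algebraMap F L cF) := by ring
    rw [h1]
    exact sub_mem (chart_le_sheet hW _ b'.2) (ValuationSubring.nonunits_subset hcF)
  obtain ⟨a, s, hs, hcs⟩ := hfrac cF hcW
  have hcomap := comap_centreOn_cover hB hW p hcentre
  refine Fermat.Agent.A2.H492.exists_sub_mem_of_integrallyClosed
    (Fermat.Agent.A2.H373.centreOn W (chart R ({algebraMap F L t} : Set L))
      (chart_le_sheet hW)) p hcomap hb' (c := a) (d := s) hs ?_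
  rw [Fermat.Agent.A2.H373.mem_centreOn]
  have h2 : ((algebraMap B (chart R ({algebraMap F L t} : Set L)) s * b' -
      algebraMap B (chart R ({algebraMap F L t} : Set L)) a :
        chart R ({algebraMap F L t} : Set L)) : L) =
      algebraMap F L (s : F) * ((b' : L) - algebraMap F L cF) := by
    show algebraMap F L (s : F) * (b' : L) - algebraMap F L (a : F) = _
    rw [← hcs, map_mul]
    ring
  rw [h2]
  exact Fermat.Agent.A2.H12.mul_mem_nonunits W hcF
    (chart_le_sheet hW _ (algebraMap_mem_chart L hB s))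

end Cover

end Fermat.Agent.A2.H733

end
-- ===== PACK-END A2/H733/CountChart.lean

-- ===== PACK-BEGIN S18/B12/H638/NormalFinal.lean
section











/-!
# S18 b2 (helper638): FULL NORMALITY of the special fibre, UNCONDITIONAL

Assembly of the landed b2.5 pieces (A0, A2, A2' helper93; A3, A4, A5', A1 helper203; A5 helper444;
A8 helper84 with Theorem L of helper278; heart A6' helper33):

* `b2CoreAbs : B2CoreAbsStatement` (the heart, unconditional);
* `b2IntClosed : B2IntClosedStatement` — `R` DVR of char 0, `B` normal, finite, torsion-free over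
  `R[X]`, `w` prime in `B`, `hsep`, branch values `S` distinct mod `w`, unramified outside `S`
  ⟹ `B/wB` is integrally closed;
* `b2NormalDom : B2NormalDomStatement` — the shape requested by row S37
  (`origin/helper37:coord/S37-b2-request.md`, with `hdom`);
* `b2Regular : B2RegularStatement` (output O1 of `B12/Spec3.lean`).
-/

set_option autoImplicit false

namespace Fermat.Agent.S18.B12.H638

universe u v

/-- The heart A6' of b2, unconditional. -/
theorem b2CoreAbs : B2CoreAbsStatement.{u, v} :=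
  H33.b2CoreAbs_of_pieces H93.regSeqAbs H93.localBasis H93.localBasisRank H203.discrRed
    H203.ufdStep H444.genericDiscr H203.redBasisAbs

/-- **b2, integrally closed form, unconditional.** -/
theorem b2IntClosed : B2IntClosedStatement.{u, v} :=
  b2IntClosed_of_pieces b2CoreAbs H93.regSeqAbs H84.a8 H203.polyInst

/-- **b2, full normality form (domain case), unconditional.** -/
theorem b2NormalDom : B2NormalDomStatement.{u, v} :=
  b2NormalDom_of_intClosed b2IntClosed

/-- **b2, regular form (output O1), unconditional.** -/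
theorem b2Regular : B2RegularStatement.{u, v} :=
  H33.b2Regular_of_pieces b2CoreAbs H93.regSeqAbs H84.a8 H84.a9 H203.polyInst

end Fermat.Agent.S18.B12.H638

end
-- ===== PACK-END S18/B12/H638/NormalFinal.lean

-- ===== PACK-BEGIN S28/H589/UnitGood.lean
section



/-!
# S28 / [A-W], analytic part 2 (helper589): the unit is good; its `q`-expansions

Same route as `[A-Φ]` (`ModPoly.lean`): helper648's conjugate product for the good function
`u(τ) = p¹² Δ(pτ)/Δ(τ)` gives `W ∈ ℂ[Y][X]`, monic of degree `p + 1`, with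
`W(u(τ), j(τ)) = 0` and `W(Δ(τ)/Δ(pτ), j(pτ)) = 0`; `descent` shows `W ∈ ℤ[Y][X]`.
-/

set_option autoImplicit false

noncomputable section

open UpperHalfPlane ModularCurve CongruenceSubgroup Function
open scoped MatrixGroups Manifold Real Modular

namespace Fermat.Agent.S28.H589

open Fermat.Agent.S28.H565 (HasTExp deltaSeriesC deltaInvSeriesC)
open Fermat.Agent.S24.H648 (goodRing ExpGrowth)

local notation "Δ" => ModularForm.discriminant

/-! ### Analytic side -/

/-- For `γ ∈ Γ₀(p)` there is `γ' ∈ SL₂(ℤ)` with `γ' (pτ) = p (γ τ)` and the same automorphy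
factor. -/
theorem exists_smul_scaleH (p : ℕ) (hp : 0 < p) (γ : SL(2, ℤ)) (hγ : γ ∈ Gamma0 p) :
    ∃ γ' : SL(2, ℤ), ∀ τ : ℍ, γ' • scaleH p hp τ = scaleH p hp (γ • τ) ∧
      ((γ' 1 0 : ℂ) * (scaleH p hp τ : ℂ) + (γ' 1 1 : ℂ)) = ((γ 1 0 : ℂ) * τ + (γ 1 1 : ℂ)) := by
  have hN : (p : ℤ) ∣ γ 1 0 := by
    rw [Gamma0_mem] at hγ
    exact (ZMod.intCast_zmod_eq_zero_iff_dvd _ _).mp hγ
  obtain ⟨k, hk⟩ := hN
  have hdet : γ 0 0 * γ 1 1 - γ 0 1 * γ 1 0 = 1 := by
    have := γ.det_coe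
    rw [Matrix.det_fin_two] at this
    exact this
  have hdet' : (!![γ 0 0, γ 0 1 * p; k, γ 1 1] : Matrix (Fin 2) (Fin 2) ℤ).det = 1 := by
    rw [Matrix.det_fin_two_of]
    rw [hk] at hdet
    linear_combination hdet
  set γ' : SL(2, ℤ) := ⟨!![γ 0 0, γ 0 1 * p; k, γ 1 1], hdet'⟩ with hγ'def
  have e00 : γ' 0 0 = γ 0 0 := rfl
  have e01 : γ' 0 1 = γ 0 1 * p := rfl
  have e10 : γ' 1 0 = k := rfl
  have e11 : γ' 1 1 = γ 1 1 := rfl
  have hk' : ((γ 1 0 : ℤ) : ℂ) = p * k := by rw [hk]; push_cast; ring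
  refine ⟨γ', fun τ => ⟨?_, ?_⟩⟩
  · apply UpperHalfPlane.ext
    rw [scaleH_coe, coe_specialLinearGroup_apply γ τ, coe_specialLinearGroup_apply γ' _,
      scaleH_coe, e00, e01, e10, e11]
    simp only [algebraMap_int_eq, Int.coe_castRingHom, Complex.ofReal_intCast]
    have hden : ((γ 1 0 : ℤ) : ℂ) * τ + ((γ 1 1 : ℤ) : ℂ) ≠ 0 := by
      have := denom_ne_zero (γ : GL (Fin 2) ℝ) τ
      simpa [denom] using this
    have hd0 : (p : ℂ) ≠ 0 := by exact_mod_cast hp.ne'
    have hden' : (k : ℂ) * (p * τ) + ((γ 1 1 : ℤ) : ℂ) ≠ 0 := by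
      have : (k : ℂ) * (p * τ) + ((γ 1 1 : ℤ) : ℂ)
          = ((γ 1 0 : ℤ) : ℂ) * τ + ((γ 1 1 : ℤ) : ℂ) := by
        rw [hk']; ring
      rw [this]; exact hden
    rw [div_eq_iff hden', mul_div_assoc', div_mul_eq_mul_div, eq_div_iff hden, hk']
    push_cast
    ring
  · rw [scaleH_coe, e10, e11, hk']
    ring

theorem unitFun_smul (p : ℕ) (hp : 0 < p) (γ : SL(2, ℤ)) (hγ : γ ∈ Gamma0 p) (τ : ℍ) :
    unitFun p hp (γ • τ) = unitFun p hp τ := by
  obtain ⟨γ', hγ'⟩ := exists_smul_scaleH p hp γ hγ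
  obtain ⟨h1, h2⟩ := hγ' τ
  have hd := Fermat.Agent.S28.H565.denom_ne_zero' γ τ
  have hΔ : Δ τ ≠ 0 := ModularForm.discriminant_ne_zero τ
  rw [unitFun, unitFun, ← h1, Fermat.Agent.S28.H565.discriminant_smul,
    Fermat.Agent.S28.H565.discriminant_smul, h2]
  have hz : ((γ 1 0 : ℂ) * τ + (γ 1 1 : ℂ)) ^ (12 : ℤ) ≠ 0 := zpow_ne_zero _ hd
  field_simp

theorem mdifferentiable_unitFun (p : ℕ) (hp : 0 < p) :
    MDifferentiable 𝓘(ℂ) 𝓘(ℂ) (unitFun p hp) := by
  have h1 : MDifferentiable 𝓘(ℂ) 𝓘(ℂ) (fun τ : ℍ => Δ (scaleH p hp τ)) :=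
    Fermat.Agent.S24.H648.mdifferentiable_J_scale
      Fermat.Agent.S28.H565.mdifferentiable_discriminant p hp (scaleH p hp) (fun τ => rfl)
  have h2 : MDifferentiable 𝓘(ℂ) 𝓘(ℂ) (fun τ : ℍ => (p : ℂ) ^ 12 * Δ (scaleH p hp τ)) :=
    (mdifferentiable_const (c := ((p : ℂ) ^ 12))).mul h1
  have h3 := h2.div Fermat.Agent.S28.H565.mdifferentiable_discriminant
    (fun τ => ModularForm.discriminant_ne_zero τ)
  have he : unitFun p hp = (fun τ : ℍ => (p : ℂ) ^ 12 * Δ (scaleH p hp τ)) / Δ := by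
    funext τ
    simp [unitFun, div_eq_mul_inv]
  rw [he]
  exact h3

theorem unitFun_mem_goodRing (p : ℕ) (hp : 0 < p) : unitFun p hp ∈ goodRing p :=
  ⟨mdifferentiable_unitFun p hp, fun γ hγ τ => unitFun_smul p hp γ hγ τ,
    fun g => expGrowth_unitFun_smul p hp g⟩

/-- The `S`-conjugate of the unit at `pτ` is `Δ(τ)/Δ(pτ)`. -/
theorem unitFun_S_scaleH (p : ℕ) (hp : 0 < p) (w : ℍ) :
    unitFun p hp (ModularGroup.S • scaleH p hp w) = unitFun' p hp w := by
  have hw : (w : ℂ) ≠ 0 := UpperHalfPlane.ne_zero w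
  have hp' : (p : ℂ) ≠ 0 := by exact_mod_cast hp.ne'
  have hΔ : Δ (scaleH p hp w) ≠ 0 := ModularForm.discriminant_ne_zero _
  rw [unitFun, unitFun', scaleH_S_scaleH, Fermat.Agent.S28.H565.discriminant_smul,
    Fermat.Agent.S28.H565.discriminant_smul, scaleH_coe]
  have e10 : ((ModularGroup.S 1 0 : ℤ) : ℂ) = 1 := by simp [ModularGroup.S]
  have e11 : ((ModularGroup.S 1 1 : ℤ) : ℂ) = 0 := by simp [ModularGroup.S]
  rw [e10, e11]
  simp only [one_mul, add_zero]
  have h1 : (w : ℂ) ^ (12 : ℤ) ≠ 0 := zpow_ne_zero _ hw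
  have h2 : ((p : ℂ) * (w : ℂ)) ^ (12 : ℤ) = (p : ℂ) ^ 12 * (w : ℂ) ^ (12 : ℤ) := by
    rw [mul_zpow]; norm_cast
  rw [h2]
  field_simp

/-! ### `q`-expansions -/

/-- The formal series of the unit over `ℂ`. -/
def unitSeriesC (p : ℕ) [NeZero p] : LaurentSeries ℂ :=
  HahnSeries.C ((p : ℂ) ^ 12) * qExpand ℂ p deltaSeriesC * deltaInvSeriesC

/-- The formal series of `Δ(τ)/Δ(pτ)` over `ℂ`. -/
def unitSeriesC' (p : ℕ) [NeZero p] : LaurentSeries ℂ :=
  deltaSeriesC * qExpand ℂ p deltaInvSeriesC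

theorem hasTExp_unitFun (p : ℕ) [NeZero p] (hp : 0 < p) :
    HasTExp 1 (unitFun p hp) (unitSeriesC p) := by
  have h1 := (HasTExp.const (h := 1) ((p : ℂ) ^ 12)).mul
    (hasTExp_comp_scaleH p hp Fermat.Agent.S28.H565.hasTExp_discriminant)
  have h2 := h1.mul Fermat.Agent.S28.H565.hasTExp_discriminant_inv
  exact h2.congr fun τ => by simp [unitFun]

theorem hasTExp_unitFun' (p : ℕ) [NeZero p] (hp : 0 < p) :
    HasTExp 1 (unitFun' p hp) (unitSeriesC' p) := by
  have h1 := Fermat.Agent.S28.H565.hasTExp_discriminant.mul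
    (hasTExp_comp_scaleH p hp Fermat.Agent.S28.H565.hasTExp_discriminant_inv)
  exact h1.congr fun τ => by simp [unitFun']

end Fermat.Agent.S28.H589

end

end
-- ===== PACK-END S28/H589/UnitGood.lean

-- ===== PACK-BEGIN Ribet/H785/PeuCore.lean
section



/-!
# RIBET row 38, WALL-p: the bridging lemma PEU (helper785)

How to USE the hypothesis "`x` is fixed by the peu ramifiée subgroup" of the crux (S4) of
`Ribet/H944/WallSpec.lean` (`Wall.PeuFixes`), and how to PRODUCE it (ELOC-ord).  Everything is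
field theory in `ℚ̄`; no curves.  Vocabulary of `WallSpec`: see `PeuWall.lean` (adapter).

`A` a valuation subring of `ℚ̄` over `p`, `v = A.valuation`, `I = A.inertiaSubgroupIn ℚ`,
`I₁ = {τ ∈ I : τ ζ = ζ for ζ ^ p = 1}`, `K₁ = ℚ̄^{I₁} = ℚ̄^I(ζ_p)`.

## Part 1 (Mathlib only): eigen-descent
`L` a field, `G` a set of ring endomorphisms, `F = L^G`.  `x` is `G`-eigen if `g x = u * x`, `u ∈ F`.
* `eigen_descent` : a nonzero `G`-eigen element which is an `F`-combination of `G`-eigen elements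
  `y ∈ M` is `b * y` for ONE `y ∈ M`, `b ∈ F`.   (Kummer theory without Galois groups.)

## Part 2: Kummer theory over `K₁`
* `InK1 A p x`        : `x ∈ K₁` (unfolded form of the condition inside `Wall.PeuFixes`);
* `IsPeuFixing A p σ` : unfolded `Wall.PeuFixes A p σ`;
* `peu_kummer` (**PEU-KUM**) : `c ^ p ∈ K₁` and `c` fixed by the peu ramifiée subgroup  ⟹
  `c = z * y`, `z ∈ K₁`, `y` a unit of `A` with `y ^ p ∈ K₁`.
  Proof: `c ∈ K₁(Y)`, `Y` = units of `A` with `p`-th power in `K₁` (infinite Galois correspondence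
  + closedness of inertia, `A2/IF/H9`); `K₁(Y)` = `K₁`-span of `Y`; eigen-descent.

## Part 3: valuations
* `exists_val_pow_eq` : value group of `K₁`: `0 ≠ z ∈ K₁` ⟹ `v z ^ d = v p ^ k`, `0 < d < p`
  (norm to the inertia field, which is unramified: `A2/IF/H429`);
* `exists_val_pow_eq_of_peuFixed` (**PEU-VAL, general**) : the same for `c` with `c ^ p ∈ K₁`,
  `c` fixed by the peu ramifiée subgroup;
* `dvd_of_pow_eq_unit_mul_zpow` (**PEU-VAL**) : `c ^ p = κ * p ^ m`, `κ ∈ K₁` a unit of `A`, `c`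
  fixed by the peu ramifiée subgroup  ⟹  `p ∣ m`;
* `dvd_mul_of_pow_eq_unit_mul_zpow` : with `p` replaced by `ϖ`, `v ϖ ^ e = v p ^ f`: `p ∣ m * f`
  (e.g. `ϖ = 1 - ζ_p`, `e = p - 1`, `f = 1`).
WARNING (why `κ ∈ K₁` is needed): for a unit `κ` of `A` outside `K₁` the statement is false
(`K₁(Y)` is wildly ramified over `K₁`: `v(K₁(Y)^×) ∌ v p / p` fails).
-/

set_option autoImplicit false
set_option linter.style.haveILetI false
set_option linter.unusedSectionVars false

namespace Fermat.Agent.Ribet.H785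

section EigenDescent

variable {L : Type*} [Field L] {E : Type*} [FunLike E L L] [RingHomClass E L L]

/-- `x` is fixed by every element of `G`. -/
def FixedBy (G : Set E) (x : L) : Prop := ∀ g ∈ G, g x = x

/-- `x` is an eigenvector of every element of `G`, with eigenvalue fixed by `G`. -/
def EigenBy (G : Set E) (x : L) : Prop := ∀ g ∈ G, ∃ u : L, FixedBy G u ∧ g x = u * x

variable {G : Set E}

theorem FixedBy.zero : FixedBy G (0 : L) := fun g _ => map_zero g

theorem FixedBy.one : FixedBy G (1 : L) := fun g _ => map_one g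

theorem FixedBy.add {x y : L} (hx : FixedBy G x) (hy : FixedBy G y) : FixedBy G (x + y) :=
  fun g hg => by rw [map_add, hx g hg, hy g hg]

theorem FixedBy.sub {x y : L} (hx : FixedBy G x) (hy : FixedBy G y) : FixedBy G (x - y) :=
  fun g hg => by rw [map_sub, hx g hg, hy g hg]

theorem FixedBy.mul {x y : L} (hx : FixedBy G x) (hy : FixedBy G y) : FixedBy G (x * y) :=
  fun g hg => by rw [map_mul, hx g hg, hy g hg]

theorem FixedBy.inv {x : L} (hx : FixedBy G x) : FixedBy G x⁻¹ :=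
  fun g hg => by rw [map_inv₀, hx g hg]

theorem FixedBy.div {x y : L} (hx : FixedBy G x) (hy : FixedBy G y) : FixedBy G (x / y) :=
  fun g hg => by rw [map_div₀, hx g hg, hy g hg]

theorem FixedBy.eigenBy {x : L} (hx : FixedBy G x) : EigenBy G x :=
  fun g hg => ⟨1, FixedBy.one, by rw [hx g hg, one_mul]⟩

theorem EigenBy.mul {x y : L} (hx : EigenBy G x) (hy : EigenBy G y) : EigenBy G (x * y) := by
  intro g hg
  obtain ⟨u, hu, hux⟩ := hx g hg
  obtain ⟨v, hv, hvy⟩ := hy g hg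
  exact ⟨u * v, hu.mul hv, by rw [map_mul, hux, hvy]; ring⟩

/-- Elements whose `n`-th power is fixed are eigen, provided the `n`-th roots of unity are
fixed. -/
theorem eigenBy_of_pow_fixed {n : ℕ} (hμ : ∀ ζ : L, ζ ^ n = 1 → FixedBy G ζ) {x : L}
    (hx : FixedBy G (x ^ n)) : EigenBy G x := by
  intro g hg
  by_cases hx0 : x = 0
  · exact ⟨1, FixedBy.one, by rw [hx0, map_zero, mul_zero]⟩
  · refine ⟨g x / x, hμ _ ?_, by field_simp⟩
    rw [div_pow, ← map_pow, hx g hg, div_self (pow_ne_zero _ hx0)]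

/-- **Eigen-descent.**  A nonzero eigen element which is a combination, with fixed coefficients,
of eigen elements of `M` is a fixed multiple of one element of `M`. -/
theorem eigen_descent_aux (M : Set L) (hM : ∀ y ∈ M, EigenBy G y) (c : L) (hc0 : c ≠ 0)
    (hc : EigenBy G c) (n : ℕ) :
    ∀ (s : Finset L) (a : L → L), s.card = n → (∀ y ∈ s, y ∈ M) →
      (∀ y ∈ s, FixedBy G (a y)) → c = ∑ y ∈ s, a y * y →
      ∃ y ∈ M, ∃ b : L, FixedBy G b ∧ c = b * y := by
  classical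
  induction n using Nat.strong_induction_on with
  | _ n ih =>
    intro s a hcard hs ha hsum
    -- (0) drop the terms with a zero factor
    by_cases hz : ∃ y ∈ s, a y * y = 0
    · obtain ⟨y, hy, hy0⟩ := hz
      refine ih (s.erase y).card ?_ (s.erase y) a rfl
        (fun z hz => hs z (Finset.mem_of_mem_erase hz))
        (fun z hz => ha z (Finset.mem_of_mem_erase hz)) ?_
      · rw [← hcard]
        exact Finset.card_erase_lt_of_mem hy
      · rw [hsum, ← Finset.add_sum_erase s _ hy, hy0, zero_add]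
    push Not at hz
    -- (1), (2): at most one term
    rcases Nat.lt_or_ge s.card 2 with h2 | h2
    · rcases Nat.eq_zero_or_pos s.card with h0 | h1
      · rw [Finset.card_eq_zero] at h0
        rw [h0, Finset.sum_empty] at hsum
        exact absurd hsum hc0
      · have h1' : s.card = 1 := by omega
        obtain ⟨y, rfl⟩ := Finset.card_eq_one.mp h1'
        rw [Finset.sum_singleton] at hsum
        exact ⟨y, hs y (Finset.mem_singleton_self y), a y,
          ha y (Finset.mem_singleton_self y), hsum⟩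
    -- (3) two different terms
    obtain ⟨y₁, hy₁, y₂, hy₂, hne⟩ := Finset.one_lt_card.mp (by omega : 1 < s.card)
    have hy₁0 : y₁ ≠ 0 := fun h => hz y₁ hy₁ (by rw [h, mul_zero])
    have hy₂0 : y₂ ≠ 0 := fun h => hz y₂ hy₂ (by rw [h, mul_zero])
    by_cases hA : ∀ g ∈ G, g y₁ * y₂ = g y₂ * y₁
    · -- Case A: same character: merge `y₂` into `y₁`
      have hr : FixedBy G (y₂ / y₁) := by
        intro g hg
        have hg1 : g y₁ ≠ 0 := by
          intro h
          exact hy₁0 ((map_eq_zero_iff g (RingHom.injective (g : L →+* L))).mp h)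
        rw [map_div₀, div_eq_div_iff hg1 hy₁0, mul_comm y₂]
        exact (hA g hg).symm
      have hy₁' : y₁ ∈ s.erase y₂ := Finset.mem_erase.mpr ⟨hne, hy₁⟩
      refine ih (s.erase y₂).card ?_ (s.erase y₂)
        (Function.update a y₁ (a y₁ + a y₂ * (y₂ / y₁))) rfl
        (fun z hz => hs z (Finset.mem_of_mem_erase hz)) ?_ ?_
      · rw [← hcard]
        exact Finset.card_erase_lt_of_mem hy₂
      · intro z hz
        by_cases hzy : z = y₁
        · subst hzy
          rw [Function.update_self]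
          exact (ha z hy₁).add ((ha y₂ hy₂).mul hr)
        · rw [Function.update_of_ne hzy]
          exact ha z (Finset.mem_of_mem_erase hz)
      · rw [hsum, ← Finset.add_sum_erase s _ hy₂, ← Finset.add_sum_erase (s.erase y₂) _ hy₁',
          ← Finset.add_sum_erase (s.erase y₂) _ hy₁', Function.update_self]
        have hrest : ∑ x ∈ (s.erase y₂).erase y₁,
            Function.update a y₁ (a y₁ + a y₂ * (y₂ / y₁)) x * x
            = ∑ x ∈ (s.erase y₂).erase y₁, a x * x := by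
          refine Finset.sum_congr rfl fun x hx => ?_
          rw [Function.update_of_ne (Finset.ne_of_mem_erase hx)]
        rw [hrest]
        field_simp
        ring
    · -- Case B: an element `g` separating the two characters
      push Not at hA
      obtain ⟨g, hg, hgne⟩ := hA
      have hex : ∀ y ∈ s, ∃ u : L, FixedBy G u ∧ g y = u * y := fun y hy => hM y (hs y hy) g hg
      choose! u hu using hex
      obtain ⟨uc, huc, hgc⟩ := hc g hg
      have hu12 : u y₁ ≠ u y₂ := by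
        intro h
        apply hgne
        rw [(hu y₁ hy₁).2, (hu y₂ hy₂).2, h]
        ring
      -- `g c` computed termwise
      have hgsum : uc * c = ∑ y ∈ s, a y * (u y * y) := by
        rw [← hgc, hsum, map_sum]
        refine Finset.sum_congr rfl fun y hy => ?_
        rw [map_mul, ha y hy g hg, (hu y hy).2]
      -- the reduction step, for an index `y₀` with `uc ≠ u y₀`
      have key : ∀ y₀ ∈ s, uc ≠ u y₀ → ∃ y ∈ M, ∃ b : L, FixedBy G b ∧ c = b * y := by
        intro y₀ hy₀ hne0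
        have hd : uc - u y₀ ≠ 0 := sub_ne_zero.mpr hne0
        refine ih (s.erase y₀).card ?_ (s.erase y₀)
          (fun y => a y * (u y - u y₀) / (uc - u y₀)) rfl
          (fun z hz => hs z (Finset.mem_of_mem_erase hz)) ?_ ?_
        · rw [← hcard]
          exact Finset.card_erase_lt_of_mem hy₀
        · intro z hz
          have hzs := Finset.mem_of_mem_erase hz
          exact ((ha z hzs).mul ((hu z hzs).1.sub (hu y₀ hy₀).1)).div (huc.sub (hu y₀ hy₀).1)
        · have h1 : (uc - u y₀) * c = ∑ y ∈ s, a y * (u y - u y₀) * y := by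
            rw [sub_mul, hgsum]
            conv_lhs => rw [hsum]
            rw [Finset.mul_sum, ← Finset.sum_sub_distrib]
            refine Finset.sum_congr rfl fun y _ => ?_
            ring
          rw [← Finset.add_sum_erase s _ hy₀, sub_self, mul_zero, zero_mul, zero_add] at h1
          have h2 : c = (uc - u y₀)⁻¹ * ∑ y ∈ s.erase y₀, a y * (u y - u y₀) * y := by
            rw [← h1, ← mul_assoc, inv_mul_cancel₀ hd, one_mul]
          rw [h2, Finset.mul_sum]
          refine Finset.sum_congr rfl fun y _ => ?_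
          field_simp
      by_cases h1 : uc = u y₁
      · exact key y₂ hy₂ (fun h => hu12 (h1.symm.trans h))
      · exact key y₁ hy₁ h1

/-- **Eigen-descent**, final form. -/
theorem eigen_descent (M : Set L) (hM : ∀ y ∈ M, EigenBy G y) {c : L} (hc0 : c ≠ 0)
    (hc : EigenBy G c) (s : Finset L) (a : L → L) (hs : ∀ y ∈ s, y ∈ M)
    (ha : ∀ y ∈ s, FixedBy G (a y)) (hsum : c = ∑ y ∈ s, a y * y) :
    ∃ y ∈ M, ∃ b : L, FixedBy G b ∧ c = b * y :=
  eigen_descent_aux M hM c hc0 hc s.card s a rfl hs ha hsum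

end EigenDescent

open Fermat.Agent.S55.Bridge Fermat.Agent.A2.IF

attribute [local instance] isAlgebraic_Qbar isGalois_Qbar

local notation "Qb" => AlgebraicClosure ℚ


section Kummer

variable (A : ValuationSubring Qb) (p : ℕ)

/-- `x ∈ K₁ = ℚ̄^{I₁}`: `x` is fixed by every inertia element acting trivially on `μ_p`
(literally the condition of `Wall.PeuFixes`, with `Wall.CycloAt p τ 1` unfolded). -/
def InK1 (x : Qb) : Prop :=
  ∀ τ ∈ A.inertiaSubgroupIn ℚ, (∀ ζ : Qb, ζ ^ p = 1 → τ ζ = ζ ^ 1) → τ x = x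

/-- `σ` lies in the peu ramifiée subgroup of inertia at `A` (unfolded `Wall.PeuFixes`). -/
def IsPeuFixing (σ : Qb ≃ₐ[ℚ] Qb) : Prop :=
  σ ∈ A.inertiaSubgroupIn ℚ ∧
    ∀ y : Qb, y ∈ A → y⁻¹ ∈ A → InK1 A p (y ^ p) → σ y = y

/-- `I₁`: the inertia elements at `A` acting trivially on the `p`-th roots of unity. -/
def inertiaOne : Subgroup (Qb ≃ₐ[ℚ] Qb) where
  carrier := {τ | τ ∈ A.inertiaSubgroupIn ℚ ∧ ∀ ζ : Qb, ζ ^ p = 1 → τ ζ = ζ ^ 1}
  mul_mem' := by
    rintro σ τ ⟨hσ, hσ'⟩ ⟨hτ, hτ'⟩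
    refine ⟨mul_mem hσ hτ, fun ζ hζ => ?_⟩
    rw [AlgEquiv.mul_apply, hτ' ζ hζ, pow_one, hσ' ζ hζ, pow_one]
  one_mem' := ⟨one_mem _, fun ζ _ => by rw [pow_one]; rfl⟩
  inv_mem' := by
    rintro σ ⟨hσ, hσ'⟩
    refine ⟨inv_mem hσ, fun ζ hζ => ?_⟩
    have h := hσ' ζ hζ
    rw [pow_one] at h ⊢
    exact (AlgEquiv.symm_apply_eq σ).mpr h.symm

theorem mem_inertiaOne_iff {τ : Qb ≃ₐ[ℚ] Qb} :
    τ ∈ inertiaOne A p ↔
      τ ∈ A.inertiaSubgroupIn ℚ ∧ ∀ ζ : Qb, ζ ^ p = 1 → τ ζ = ζ ^ 1 := Iff.rfl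

theorem inK1_iff_fixedBy {x : Qb} :
    InK1 A p x ↔ FixedBy (inertiaOne A p : Set (Qb ≃ₐ[ℚ] Qb)) x :=
  ⟨fun h τ hτ => h τ hτ.1 hτ.2, fun h τ hτ hτ' => h τ ⟨hτ, hτ'⟩⟩

/-- `K₁`. -/
noncomputable def fieldOne : IntermediateField ℚ Qb :=
  IntermediateField.fixedField (inertiaOne A p)

theorem mem_fieldOne_iff {x : Qb} : x ∈ fieldOne A p ↔ InK1 A p x := by
  unfold fieldOne
  rw [IntermediateField.mem_fixedField_iff]
  exact ⟨fun h τ hτ hτ' => h τ ⟨hτ, hτ'⟩, fun h τ hτ => h τ hτ.1 hτ.2⟩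

variable {A p}

theorem InK1.zero : InK1 A p 0 := fun τ _ _ => map_zero τ

theorem InK1.one : InK1 A p 1 := fun τ _ _ => map_one τ

theorem InK1.mul {x y : Qb} (hx : InK1 A p x) (hy : InK1 A p y) : InK1 A p (x * y) :=
  fun τ hτ hτ' => by rw [map_mul, hx τ hτ hτ', hy τ hτ hτ']

theorem InK1.inv {x : Qb} (hx : InK1 A p x) : InK1 A p x⁻¹ :=
  fun τ hτ hτ' => by rw [map_inv₀, hx τ hτ hτ']

theorem InK1.div {x y : Qb} (hx : InK1 A p x) (hy : InK1 A p y) : InK1 A p (x / y) :=
  fun τ hτ hτ' => by rw [map_div₀, hx τ hτ hτ', hy τ hτ hτ']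

theorem InK1.pow {x : Qb} (hx : InK1 A p x) (n : ℕ) : InK1 A p (x ^ n) :=
  fun τ hτ hτ' => by rw [map_pow, hx τ hτ hτ']

theorem InK1.zpow {x : Qb} (hx : InK1 A p x) (n : ℤ) : InK1 A p (x ^ n) :=
  fun τ hτ hτ' => by rw [map_zpow₀, hx τ hτ hτ']

theorem InK1.natCast (n : ℕ) : InK1 A p (n : Qb) := fun τ _ _ => map_natCast τ n

theorem InK1.of_rootOfUnity {ζ : Qb} (hζ : ζ ^ p = 1) : InK1 A p ζ :=
  fun τ _ hτ' => by rw [hτ' ζ hζ, pow_one]

/-- Elements fixed by the whole inertia group lie in `K₁`. -/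
theorem InK1.of_inertia_fixed {x : Qb} (hx : ∀ τ ∈ A.inertiaSubgroupIn ℚ, τ x = x) :
    InK1 A p x := fun τ hτ _ => hx τ hτ

/-- An element of the peu ramifiée subgroup fixes `K₁` pointwise. -/
theorem IsPeuFixing.apply_eq_of_inK1 (hp : p ≠ 0) {σ : Qb ≃ₐ[ℚ] Qb} (hσ : IsPeuFixing A p σ)
    {x : Qb} (hx : InK1 A p x) : σ x = x := by
  refine hx σ hσ.1 fun ζ hζ => ?_
  rw [pow_one]
  have h1 : A.valuation ζ ^ p = 1 := by rw [← map_pow, hζ, Valuation.map_one]
  have h2 : A.valuation ζ = 1 := (pow_eq_one_iff_of_nonneg zero_le hp).mp h1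
  have hζA : ζ ∈ A := by
    rw [← A.valuation_le_one_iff]
    exact le_of_eq h2
  have hζA' : ζ⁻¹ ∈ A := by
    rw [← A.valuation_le_one_iff, map_inv₀, h2, inv_one]
  exact hσ.2 ζ hζA hζA' (by rw [hζ]; exact InK1.one)

theorem valuation_eq_one_iff_mem {y : Qb} :
    A.valuation y = 1 ↔ y ∈ A ∧ y⁻¹ ∈ A ∧ y ≠ 0 := by
  constructor
  · intro h
    refine ⟨(A.valuation_le_one_iff y).mp (le_of_eq h), ?_, ?_⟩
    · rw [← A.valuation_le_one_iff, map_inv₀, h, inv_one]
    · rintro rfl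
      rw [Valuation.map_zero] at h
      exact zero_ne_one h
  · rintro ⟨h1, h2, h0⟩
    have hv0 : A.valuation y ≠ 0 := (Valuation.ne_zero_iff _).mpr h0
    have h1' : A.valuation y ≤ 1 := (A.valuation_le_one_iff y).mpr h1
    have h2' : (A.valuation y)⁻¹ ≤ 1 := by
      rw [← map_inv₀]
      exact (A.valuation_le_one_iff _).mpr h2
    exact le_antisymm h1' ((inv_le_one₀ (zero_lt_iff.mpr hv0)).mp h2')

section Galois

variable (A p)

/-- The units `y` of `A` with `y ^ p ∈ K₁`. -/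
def peuUnits : Submonoid Qb where
  carrier := {y | A.valuation y = 1 ∧ InK1 A p (y ^ p)}
  mul_mem' := by
    rintro x y ⟨hx, hx'⟩ ⟨hy, hy'⟩
    exact ⟨by rw [map_mul, hx, hy, one_mul], by rw [mul_pow]; exact hx'.mul hy'⟩
  one_mem' := ⟨map_one _, by rw [one_pow]; exact InK1.one⟩

theorem mem_peuUnits_iff {y : Qb} :
    y ∈ peuUnits A p ↔ A.valuation y = 1 ∧ InK1 A p (y ^ p) := Iff.rfl

/-- An element fixed by the peu ramifiée subgroup lies in `K₁(Y)`. -/
theorem mem_adjoin_of_peuFixed {c : Qb} (hpeu : ∀ σ, IsPeuFixing A p σ → σ c = c) :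
    c ∈ IntermediateField.adjoin (fieldOne A p) (peuUnits A p : Set Qb) := by
  rw [← InfiniteGalois.fixedField_fixingSubgroup
    (IntermediateField.adjoin (fieldOne A p) (peuUnits A p : Set Qb)),
    IntermediateField.mem_fixedField_iff]
  intro σ' hσ'
  have h : IsPeuFixing A p (σ'.restrictScalars ℚ) := by
    refine ⟨?_, ?_⟩
    · apply Fermat.Agent.A2.IF.H9.mem_inertiaSubgroupIn_of_fixes_fixedField
      intro x hx
      have hx1 : x ∈ fieldOne A p :=
        (mem_fieldOne_iff A p).mpr (InK1.of_inertia_fixed fun τ hτ =>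
          (IntermediateField.mem_fixedField_iff _ _).mp hx τ hτ)
      exact σ'.commutes ⟨x, hx1⟩
    · intro y hy hy' hyp
      by_cases hy0 : y = 0
      · rw [hy0]
        exact map_zero _
      · have hyY : y ∈ peuUnits A p := ⟨valuation_eq_one_iff_mem.mpr ⟨hy, hy', hy0⟩, hyp⟩
        exact (IntermediateField.mem_fixingSubgroup_iff _ σ').mp hσ' y
          (IntermediateField.subset_adjoin _ _ hyY)
  exact hpeu _ h

/-- **PEU-KUM.**  If `c ^ p ∈ K₁` and `c` is fixed by the peu ramifiée subgroup of inertia, then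
`c = z * y` with `z ∈ K₁` and `y` a unit of `A` with `y ^ p ∈ K₁`. -/
theorem peu_kummer {c : Qb} (hc : InK1 A p (c ^ p))
    (hpeu : ∀ σ, IsPeuFixing A p σ → σ c = c) :
    ∃ y z : Qb, A.valuation y = 1 ∧ InK1 A p (y ^ p) ∧ InK1 A p z ∧ c = z * y := by
  by_cases hc0 : c = 0
  · exact ⟨1, 0, map_one _, by rw [one_pow]; exact InK1.one, InK1.zero,
      by rw [hc0, zero_mul]⟩
  have h1 : c ∈ (IntermediateField.adjoin (fieldOne A p)
      (peuUnits A p : Set Qb)).toSubalgebra := mem_adjoin_of_peuFixed A p hpeu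
  rw [IntermediateField.adjoin_toSubalgebra] at h1
  have h2 : c ∈ Subalgebra.toSubmodule
      (Algebra.adjoin (fieldOne A p) (peuUnits A p : Set Qb)) := h1
  rw [Algebra.adjoin_eq_span, Submonoid.closure_eq] at h2
  obtain ⟨f, t, ht, -, hsum⟩ := Submodule.mem_span_iff_exists_finset_subset.mp h2
  have hμ : ∀ ζ : Qb, ζ ^ p = 1 → FixedBy (inertiaOne A p : Set (Qb ≃ₐ[ℚ] Qb)) ζ :=
    fun ζ hζ => (inK1_iff_fixedBy A p).mp (InK1.of_rootOfUnity hζ)
  obtain ⟨y, hy, b, hb, hcb⟩ :=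
    eigen_descent (G := (inertiaOne A p : Set (Qb ≃ₐ[ℚ] Qb))) (peuUnits A p : Set Qb)
      (fun y hy => eigenBy_of_pow_fixed hμ ((inK1_iff_fixedBy A p).mp hy.2)) hc0
      (eigenBy_of_pow_fixed hμ ((inK1_iff_fixedBy A p).mp hc)) t (fun y => ((f y : Qb)))
      (fun y hy => ht hy)
      (fun y _ => (inK1_iff_fixedBy A p).mp ((mem_fieldOne_iff A p).mp (f y).2))
      (by rw [← hsum]; rfl)
  exact ⟨y, b, hy.1, hy.2, (inK1_iff_fixedBy A p).mpr hb, hcb⟩

end Galois

end Kummer


section Val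

variable (A : ValuationSubring Qb) {p : ℕ}

theorem val_prime_lt_one (hA : A.LiesOverPrime p) : A.valuation (p : Qb) < 1 :=
  A.mem_nonunits_iff.mp hA

theorem val_prime_pos (hp : p.Prime) : 0 < A.valuation (p : Qb) := by
  rw [zero_lt_iff, Valuation.ne_zero_iff]
  exact_mod_cast hp.ne_zero

/-- `v p ^ a = v p ^ b → a = b`. -/
theorem zpow_val_prime_injective (hp : p.Prime) (hA : A.LiesOverPrime p) {a b : ℤ}
    (h : A.valuation (p : Qb) ^ a = A.valuation (p : Qb) ^ b) : a = b :=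
  zpow_right_injective₀ (val_prime_pos A hp) (ne_of_lt (val_prime_lt_one A hA)) h

/-- **The value group of `K₁`.**  For `0 ≠ z ∈ K₁` there are `0 < d < p` and `k` with
`v z ^ d = v p ^ k`. -/
theorem exists_val_pow_eq (hp : p.Prime) (hA : A.LiesOverPrime p) {z : Qb} (hz : InK1 A p z)
    (hz0 : z ≠ 0) :
    ∃ (d : ℕ) (k : ℤ), 0 < d ∧ d < p ∧ A.valuation z ^ d = A.valuation (p : Qb) ^ k := by
  classical
  -- the orbit of `z` under inertia
  have hfin : {w : Qb | ∃ τ ∈ A.inertiaSubgroupIn ℚ, τ z = w}.Finite := by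
    refine (Polynomial.rootSet_finite (minpoly ℚ z) Qb).subset ?_
    rintro w ⟨τ, -, rfl⟩
    rw [Polynomial.mem_rootSet]
    have hint : IsIntegral ℚ z := Algebra.IsIntegral.isIntegral z
    refine ⟨minpoly.ne_zero hint, ?_⟩
    have h1 := Polynomial.aeval_algHom_apply ((τ : Qb ≃ₐ[ℚ] Qb) : Qb →ₐ[ℚ] Qb) z (minpoly ℚ z)
    rw [minpoly.aeval, map_zero] at h1
    exact h1
  set O : Finset Qb := hfin.toFinset with hO
  have hmemO : ∀ w, w ∈ O ↔ ∃ τ ∈ A.inertiaSubgroupIn ℚ, τ z = w := fun w => by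
    rw [hO, Set.Finite.mem_toFinset]; rfl
  have hzO : z ∈ O := (hmemO z).mpr ⟨1, one_mem _, rfl⟩
  -- the norm
  have hNfix : ∀ σ ∈ A.inertiaSubgroupIn ℚ, σ (∏ w ∈ O, w) = ∏ w ∈ O, w := by
    intro σ hσ
    rw [map_prod]
    refine Finset.prod_bij (fun w _ => σ w) ?_ ?_ ?_ ?_
    · intro w hw
      obtain ⟨τ, hτ, rfl⟩ := (hmemO w).mp hw
      exact (hmemO _).mpr ⟨σ * τ, mul_mem hσ hτ, rfl⟩
    · intro w₁ _ w₂ _ h
      exact σ.injective h
    · intro w hw
      obtain ⟨τ, hτ, rfl⟩ := (hmemO w).mp hw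
      refine ⟨σ⁻¹ (τ z), (hmemO _).mpr ⟨σ⁻¹ * τ, mul_mem (inv_mem hσ) hτ, rfl⟩, ?_⟩
      show σ (σ⁻¹ (τ z)) = τ z
      rw [← AlgEquiv.mul_apply, mul_inv_cancel, AlgEquiv.one_apply]
    · intro w _
      rfl
  have hN0 : (∏ w ∈ O, w) ≠ 0 := by
    rw [Finset.prod_ne_zero_iff]
    intro w hw
    obtain ⟨τ, -, rfl⟩ := (hmemO w).mp hw
    exact (map_ne_zero_iff τ τ.injective).mpr hz0
  have hNmem : (∏ w ∈ O, w) ∈ H429.inertiaField A :=
    (H429.mem_inertiaField_iff A).mpr hNfix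
  obtain ⟨k, hk⟩ := H429.exists_zpow_of_mem_inertiaField A p hp hA _ hNmem hN0
  have hvp0 : A.valuation (p : Qb) ≠ 0 := (val_prime_pos A hp).ne'
  have hvN : A.valuation (∏ w ∈ O, w) = A.valuation (p : Qb) ^ k := by
    rw [map_div₀, map_zpow₀] at hk
    exact (div_eq_one_iff_eq (zpow_ne_zero _ hvp0)).mp hk
  have hvN' : A.valuation (∏ w ∈ O, w) = A.valuation z ^ O.card := by
    rw [map_prod, ← Finset.prod_const]
    refine Finset.prod_congr rfl fun w hw => ?_
    obtain ⟨τ, hτ, rfl⟩ := (hmemO w).mp hw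
    exact H429.valuation_map_eq A (H429.decomp_of_inertia A hτ) z
  refine ⟨O.card, k, Finset.card_pos.mpr ⟨z, hzO⟩, ?_, by rw [← hvN', hvN]⟩
  -- the orbit injects into the nontrivial `p`-th roots of unity
  haveI : NeZero p := ⟨hp.ne_zero⟩
  obtain ⟨ζ₀, hζ₀⟩ := HasEnoughRootsOfUnity.exists_primitiveRoot Qb p
  have hζ₀1 : ζ₀ ≠ 1 := hζ₀.ne_one hp.one_lt
  have hex : ∀ w ∈ O, ∃ τ ∈ A.inertiaSubgroupIn ℚ, τ z = w := fun w hw => (hmemO w).mp hw
  choose! t ht using hex
  have hcard : O.card ≤ ((Polynomial.nthRootsFinset p (1 : Qb)).erase 1).card := by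
    refine Finset.card_le_card_of_injOn (fun w => t w ζ₀) ?_ ?_
    · intro w hw
      rw [Finset.mem_coe, Finset.mem_erase, Polynomial.mem_nthRootsFinset hp.pos]
      refine ⟨fun h => hζ₀1 ?_, by rw [← map_pow, hζ₀.pow_eq_one, map_one]⟩
      exact (t w).injective (h.trans (map_one _).symm)
    · intro w₁ hw₁ w₂ hw₂ h
      have h' : t w₁ ζ₀ = t w₂ ζ₀ := h
      have hτ : (t w₂)⁻¹ * t w₁ ∈ A.inertiaSubgroupIn ℚ :=
        mul_mem (inv_mem (ht w₂ hw₂).1) (ht w₁ hw₁).1
      have hτζ₀ : ((t w₂)⁻¹ * t w₁) ζ₀ = ζ₀ := by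
        rw [AlgEquiv.mul_apply, h']
        show (t w₂)⁻¹ ((t w₂) ζ₀) = ζ₀
        rw [← AlgEquiv.mul_apply, inv_mul_cancel, AlgEquiv.one_apply]
      have hτμ : ∀ ζ : Qb, ζ ^ p = 1 → ((t w₂)⁻¹ * t w₁) ζ = ζ ^ 1 := by
        intro ζ hζ
        obtain ⟨i, -, rfl⟩ := hζ₀.eq_pow_of_pow_eq_one hζ
        rw [map_pow, hτζ₀, pow_one]
      have h3 := hz _ hτ hτμ
      rw [AlgEquiv.mul_apply, (ht w₁ hw₁).2] at h3
      have h4 : (t w₂) ((t w₂)⁻¹ w₁) = (t w₂) z := congrArg (t w₂) h3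
      rw [← AlgEquiv.mul_apply, mul_inv_cancel, AlgEquiv.one_apply, (ht w₂ hw₂).2] at h4
      exact h4
  have h1mem : (1 : Qb) ∈ Polynomial.nthRootsFinset p (1 : Qb) := by
    rw [Polynomial.mem_nthRootsFinset hp.pos]
    exact one_pow p
  rw [Finset.card_erase_of_mem h1mem, hζ₀.card_nthRootsFinset] at hcard
  have := hp.pos
  omega

variable {A}

/-- **PEU-VAL, general form.**  If `c ^ p ∈ K₁`, `c ≠ 0` and `c` is fixed by the peu ramifiée
subgroup of inertia, then `v c ^ d = v p ^ k` for some `0 < d < p`, `k : ℤ`. -/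
theorem exists_val_pow_eq_of_peuFixed (hp : p.Prime) (hA : A.LiesOverPrime p) {c : Qb}
    (hc0 : c ≠ 0) (hc : InK1 A p (c ^ p)) (hpeu : ∀ σ, IsPeuFixing A p σ → σ c = c) :
    ∃ (d : ℕ) (k : ℤ), 0 < d ∧ d < p ∧ A.valuation c ^ d = A.valuation (p : Qb) ^ k := by
  obtain ⟨y, z, hy, -, hz, hcz⟩ := peu_kummer A p hc hpeu
  have hz0 : z ≠ 0 := by
    rintro rfl
    rw [zero_mul] at hcz
    exact hc0 hcz
  obtain ⟨d, k, hd, hdp, hdk⟩ := exists_val_pow_eq A hp hA hz hz0
  refine ⟨d, k, hd, hdp, ?_⟩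
  rw [hcz, map_mul, hy, mul_one, hdk]

/-- **PEU-VAL, form with an auxiliary uniformiser.**  `ϖ` with `v ϖ ^ e = v p ^ f`;
`c ^ p = κ * ϖ ^ m` with `κ` a unit of `A`, `c ^ p ∈ K₁`, `c` fixed by the peu ramifiée subgroup.
Then `p ∣ m * f`. -/
theorem dvd_mul_of_pow_eq_unit_mul_zpow (hp : p.Prime) (hA : A.LiesOverPrime p) {c κ ϖ : Qb}
    {m f : ℤ} {e : ℕ} (hϖ : A.valuation ϖ ^ e = A.valuation (p : Qb) ^ f)
    (hκ : A.valuation κ = 1) (hϖ0 : ϖ ≠ 0) (hcp : c ^ p = κ * ϖ ^ m) (hc : InK1 A p (c ^ p))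
    (hpeu : ∀ σ, IsPeuFixing A p σ → σ c = c) : (p : ℤ) ∣ m * f := by
  have hκ0 : κ ≠ 0 := by
    rintro rfl
    rw [Valuation.map_zero] at hκ
    exact zero_ne_one hκ
  have hc0 : c ≠ 0 := by
    rintro rfl
    rw [zero_pow hp.ne_zero] at hcp
    exact (mul_ne_zero hκ0 (zpow_ne_zero _ hϖ0)) hcp.symm
  obtain ⟨d, k, hd, hdp, hdk⟩ := exists_val_pow_eq_of_peuFixed hp hA hc0 hc hpeu
  -- `v c ^ p = v ϖ ^ m`
  have h1 : A.valuation c ^ p = A.valuation ϖ ^ m := by
    rw [← map_pow, hcp, map_mul, hκ, one_mul, map_zpow₀]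
  -- compare `v c ^ (p * d * e)`
  have h2 : A.valuation (p : Qb) ^ (m * f * (d : ℤ)) = A.valuation (p : Qb) ^ (k * p * (e : ℤ)) := by
    have a1 : (A.valuation ϖ ^ m) ^ e = A.valuation (p : Qb) ^ (f * m) := by
      rw [← zpow_natCast (A.valuation ϖ ^ m) e, ← zpow_mul, mul_comm, zpow_mul, zpow_natCast, hϖ,
        ← zpow_mul]
    have e1 : ((A.valuation ϖ ^ m) ^ e) ^ d = A.valuation (p : Qb) ^ (m * f * (d : ℤ)) := by
      rw [a1, ← zpow_natCast, ← zpow_mul]
      congr 1
      ring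
    have e2 : ((A.valuation c ^ p) ^ e) ^ d = A.valuation (p : Qb) ^ (k * p * (e : ℤ)) := by
      have a2 : ((A.valuation c ^ p) ^ e) ^ d = (A.valuation c ^ d) ^ (p * e) := by
        rw [← pow_mul, ← pow_mul, ← pow_mul]
        congr 1
        ring
      rw [a2, hdk, ← zpow_natCast, ← zpow_mul]
      congr 1
      push_cast
      ring
    rw [← e1, ← e2, h1]
  have h3 : m * f * (d : ℤ) = k * p * (e : ℤ) := zpow_val_prime_injective A hp hA h2
  have h4 : (p : ℤ) ∣ m * f * (d : ℤ) := ⟨k * e, by rw [h3]; ring⟩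
  rcases Int.Prime.dvd_mul' hp h4 with h5 | h5
  · exact h5
  · exfalso
    have h6 : p ∣ d := by exact_mod_cast h5
    exact absurd (Nat.le_of_dvd hd h6) (not_le.mpr hdp)

/-- **PEU-VAL.**  `c ^ p = κ * p ^ m` with `κ ∈ K₁` a unit of `A`, and `c` fixed by the peu
ramifiée subgroup of inertia.  Then `p ∣ m`. -/
theorem dvd_of_pow_eq_unit_mul_zpow (hp : p.Prime) (hA : A.LiesOverPrime p) {c κ : Qb} {m : ℤ}
    (hκ : A.valuation κ = 1) (hκ1 : InK1 A p κ) (hcp : c ^ p = κ * (p : Qb) ^ m)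
    (hpeu : ∀ σ, IsPeuFixing A p σ → σ c = c) : (p : ℤ) ∣ m := by
  have hp0 : (p : Qb) ≠ 0 := by exact_mod_cast hp.ne_zero
  have hc : InK1 A p (c ^ p) := by
    rw [hcp]
    exact hκ1.mul ((InK1.natCast p).zpow m)
  have h := dvd_mul_of_pow_eq_unit_mul_zpow hp hA (e := 1) (f := 1) (ϖ := (p : Qb))
    (by rw [pow_one, zpow_one]) hκ hp0 hcp hc hpeu
  rwa [mul_one] at h

end Val

end Fermat.Agent.Ribet.H785

end
-- ===== PACK-END Ribet/H785/PeuCore.lean

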