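import Mathlib.RingTheory.Ideal.AssociatedPrime.Localization
import Fermat.Agent.Pack.S44.G0E20L1
import Fermat.Agent.Pack.S44.G0E10L3
import Fermat.Agent.Pack.S44.G0E0L2
import Fermat.Agent.Pack.S44.G0E2L0
import Fermat.Agent.Pack.S44.G0E19L0
import Fermat.Agent.Pack.S44.G0E19L3
import Fermat.Agent.Pack.S44.G0E14L3
import Fermat.Agent.Pack.S44.G0E21L2
import Fermat.Agent.Pack.S44.G0E15L2
import Fermat.Agent.Pack.S44.G0E21L0
import Fermat.Agent.Pack.S44.G0E3L1
import Fermat.Agent.Pack.S44.G0E15L3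
import Fermat.Agent.Pack.S44.G0E17L1
import Fermat.Agent.Pack.S44.G0E21L3
import Fermat.Agent.Pack.S44.G0E4L2
import Fermat.Agent.Pack.S44.G0E20L2
import Fermat.Agent.Pack.S44.G0E21L1

-- ===== PACK-BEGIN Lib/Frob/Small/Three.lean
section



/-!
# Shared library `Frob`, small primes: the Hasse–Weil Frobenius relation over `𝔽_3` (helper545)

`Lib.Frob.FrobRelationFin` (piece A2) is stated and proved for primes `ℓ ≥ 5` only.  Here the same
statement for `ℓ = 3`:

* `frobRelationFin_three` : for every Weierstrass curve `E` over `ZMod 3` with `Δ ≠ 0`, every field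
  `k` over `ZMod 3` and every `P : (E⁄k).Point`:  `Φ (Φ P) - a₃ • Φ P + 3 • P = 0`.

Proof: complete the square (`2` is invertible in `𝔽_3`), then helper297's
`frobPsi_eq_zero_short` (Manin's exact-height argument over any finite field of odd
characteristic, curves `y² = x³ + a₂x² + a₄x + a₆`), transported by helper240's `frobRel_of_smul`.
-/

set_option autoImplicit false

open WeierstrassCurve WeierstrassCurve.Affine WeierstrassCurve.Affine.Point

namespace Fermat.Agent.Lib.Frob.Small

open Fermat.Agent.Lib.Frob Fermat.Agent.Lib.VC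

/-- The Frobenius relation over a prime field of odd characteristic, for curves with
`a₁ = a₃ = 0`. -/
theorem frobRel_of_a₁_a₃ (ℓ : ℕ) [Fact ℓ.Prime] (hℓ : ℓ ≠ 2) (E : WeierstrassCurve (ZMod ℓ))
    (h₁ : E.a₁ = 0) (h₃ : E.a₃ = 0) (hΔ : E.Δ ≠ 0)
    (k : Type) [Field k] [Algebra (ZMod ℓ) k] [DecidableEq k] (P : (E⁄k).Point) :
    frobPt ℓ E k (frobPt ℓ E k P) - E.traceOfFrobenius • frobPt ℓ E k P + (ℓ : ℤ) • P = 0 := by
  have hF : ringChar (ZMod ℓ) ≠ 2 := by
    rw [ZMod.ringChar_zmod_n]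
    exact hℓ
  have key := Fermat.Agent.S52.H297.frobPsi_eq_zero_short hF E h₁ h₃ hΔ (L := k) P
  rw [Fermat.Agent.Lib.FrobRel.H230.frobPsi_apply, ZMod.card] at key
  have ha : E.traceOfFrobenius = (ℓ : ℤ) + 1 - (Nat.card E.toAffine.Point : ℤ) := by
    unfold WeierstrassCurve.traceOfFrobenius WeierstrassCurve.card
    rw [Nat.card_eq_fintype_card, ZMod.card]
  rw [ha]
  exact key

/-- The Frobenius relation over a prime field of odd characteristic, any Weierstrass form. -/
theorem frobRel_of_odd (ℓ : ℕ) [Fact ℓ.Prime] (hℓ : ℓ ≠ 2) (E : WeierstrassCurve (ZMod ℓ))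
    (hΔ : E.Δ ≠ 0)
    (k : Type) [Field k] [Algebra (ZMod ℓ) k] [DecidableEq k] (P : (E⁄k).Point) :
    frobPt ℓ E k (frobPt ℓ E k P) - E.traceOfFrobenius • frobPt ℓ E k P + (ℓ : ℤ) • P = 0 := by
  have h2 : (2 : ZMod ℓ) ≠ 0 := by
    intro h
    have h2' : ((2 : ℕ) : ZMod ℓ) = 0 := by exact_mod_cast h
    rw [ZMod.natCast_eq_zero_iff] at h2'
    exact hℓ ((Nat.prime_dvd_prime_iff_eq (Fact.out : ℓ.Prime) Nat.prime_two).mp h2')
  set C : VariableChange (ZMod ℓ) := ⟨1, 0, -E.a₁ / 2, -E.a₃ / 2⟩ with hC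
  have h₁ : (C • E).a₁ = 0 := by
    rw [a₁_smul]
    simp only [hC, Units.val_one, inv_one, one_mul]
    field_simp
    ring
  have h₃ : (C • E).a₃ = 0 := by
    rw [a₃_smul]
    simp only [hC, Units.val_one, inv_one, one_pow, one_mul, zero_mul, add_zero]
    field_simp
    ring
  have hΔ' : (C • E).Δ ≠ 0 := by
    rw [variableChange_Δ]
    exact mul_ne_zero (pow_ne_zero _ (Units.ne_zero _)) hΔ
  exact Fermat.Agent.Lib.Frob.A2.H240.frobRel_of_smul ℓ E C k
    (frobRel_of_a₁_a₃ ℓ hℓ (C • E) h₁ h₃ hΔ' k) P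

/-- **Piece A2 at `ℓ = 3`.** -/
theorem frobRelationFin_three (E : WeierstrassCurve (ZMod 3)) (hΔ : E.Δ ≠ 0)
    (k : Type) [Field k] [Algebra (ZMod 3) k] [DecidableEq k] (P : (E⁄k).Point) :
    frobPt 3 E k (frobPt 3 E k P) - E.traceOfFrobenius • frobPt 3 E k P + ((3 : ℕ) : ℤ) • P = 0 :=
  frobRel_of_odd 3 (by norm_num) E hΔ k P

end Fermat.Agent.Lib.Frob.Small

end
-- ===== PACK-END Lib/Frob/Small/Three.lean

-- ===== PACK-BEGIN Ribet/H704/FreyBasic.lean
section








/-!
# RIBET / DETF + NMT (helper704), part 2: the `p`-torsion of the Frey curve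

* `frey_isElliptic`, `card_freyTorsion : #E[p] = p²`, `nonempty_basis_freyTorsion`;
* `exists_finite_level_frey` : `E[p]` is fixed by the Galois group of a finite extension;
* `frey_frobRelation` : the Frobenius relation `τ² - a_ℓ τ + ℓ = 0` on `E[p]` for `ℓ ≥ 5`
  a prime of good reduction of `P.freyCurveInt`, `ℓ ≠ p` (from `Lib.Frob`);
* `det_frob_of_not_scalar` : a non-scalar Frobenius at such an `ℓ` has determinant `ℓ`.
-/

set_option autoImplicit false

open WeierstrassCurve WeierstrassCurve.Affine WeierstrassCurve.Affine.Point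

namespace Fermat.Agent.Ribet.H704

open Fermat.Agent.Ribet.Spec (GQ FreyTorsion)

/-- The Frey curve over `ℚ̄` is an elliptic curve. -/
theorem frey_isElliptic (P : FreyPackage) : (P.freyCurve⁄(AlgebraicClosure ℚ)).IsElliptic := by
  constructor
  rw [isUnit_iff_ne_zero]
  exact Fermat.Agent.S13.H164.frey_baseChange_Δ_ne_zero P

/-- `#E[p] = p²` for the Frey curve. -/
theorem card_freyTorsion (P : FreyPackage) : Nat.card (FreyTorsion P) = P.p ^ 2 := by
  have := frey_isElliptic P
  exact Fermat.Agent.S59.H127.card_torsion_eq (P.freyCurve⁄(AlgebraicClosure ℚ)) P.p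

/-- `E[p]` is free of rank two over `𝔽_p`. -/
theorem nonempty_basis_freyTorsion (P : FreyPackage) :
    Nonempty (Module.Basis (Fin 2) (ZMod P.p) (FreyTorsion P)) := by
  have : Fact P.p.Prime := ⟨P.pp⟩
  have hcard := card_freyTorsion P
  have hfin : Finite (FreyTorsion P) :=
    Nat.finite_of_card_ne_zero (by rw [hcard]; exact pow_ne_zero _ P.pp.ne_zero)
  have hMf : Module.Finite (ZMod P.p) (FreyTorsion P) := Module.Finite.of_finite
  have hrank : Module.finrank (ZMod P.p) (FreyTorsion P) = 2 := by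
    have := Module.natCard_eq_pow_finrank (K := ZMod P.p) (V := FreyTorsion P)
    rw [hcard, Nat.card_zmod] at this
    exact (Nat.pow_right_injective P.pp.two_le this).symm
  exact ⟨Module.finBasisOfFinrankEq (ZMod P.p) (FreyTorsion P) hrank⟩

/-- `E[p]` is fixed by the Galois group of a finite extension of `ℚ`. -/
theorem exists_finite_level_frey (P : FreyPackage) :
    ∃ L : IntermediateField ℚ (AlgebraicClosure ℚ), FiniteDimensional ℚ L ∧
      ∀ σ : GQ, (∀ x ∈ L, σ x = x) → ∀ x : FreyTorsion P, σ • x = x := by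
  have := frey_isElliptic P
  obtain ⟨L, hL, h⟩ := Fermat.Agent.S59.H127.exists_finite_level P.freyCurve P.p
    P.pp.one_le
  refine ⟨L, hL, fun σ hσ x => ?_⟩
  apply Subtype.ext
  have hx : (P.p : ℕ) • (x : (P.freyCurve⁄(AlgebraicClosure ℚ)).Point) = 0 := by
    have := x.2
    rw [Submodule.mem_torsionBy_iff, natCast_zsmul] at this
    exact this
  exact h σ hσ x hx

/-- Transport of `Lib.Frob.FrobRelation` along an equality of curves. -/
theorem frobRelation_of_eq (E : WeierstrassCurve ℚ) (W : WeierstrassCurve ℤ)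
    (hE : E = W.map (Int.castRingHom ℚ)) {ℓ : ℕ} (hℓ : ℓ.Prime) (h5 : 5 ≤ ℓ)
    (hgood : W.IsGoodPrimeFor ℓ) (A : ValuationSubring (AlgebraicClosure ℚ))
    (hA : A.LiesOverPrime ℓ) (τ : GQ) (hτ : A.IsFrobeniusAt τ ℓ) (n : ℕ) (hn : 0 < n)
    (hℓn : ¬ ℓ ∣ n) (x : (E⁄(AlgebraicClosure ℚ)).Point) (hx : n • x = 0) :
    τ • τ • x - W.apOfModel ℓ • τ • x + (ℓ : ℤ) • x = 0 := by
  subst hE
  exact Fermat.Agent.Lib.Frob.frobRelation_of_parts Fermat.Agent.Lib.Frob.frobRelationFin
    Fermat.Agent.Lib.Frob.reductionData W ℓ hℓ h5 hgood A τ hA hτ n hn hℓn x hx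

/-- **Frobenius relation on `E[p]`** for the Frey curve. -/
theorem frey_frobRelation (P : FreyPackage) {ℓ : ℕ} (hℓ : ℓ.Prime) (h5 : 5 ≤ ℓ)
    (hℓp : ℓ ≠ P.p) (hgood : P.freyCurveInt.IsGoodPrimeFor ℓ)
    (A : ValuationSubring (AlgebraicClosure ℚ)) (hA : A.LiesOverPrime ℓ) (τ : GQ)
    (hτ : A.IsFrobeniusAt τ ℓ) (x : FreyTorsion P) :
    τ • τ • x - P.freyCurveInt.apOfModel ℓ • τ • x + (ℓ : ℤ) • x = 0 := by
  apply Subtype.ext
  have hx : (P.p : ℕ) • (x : (P.freyCurve⁄(AlgebraicClosure ℚ)).Point) = 0 := by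
    have := x.2
    rw [Submodule.mem_torsionBy_iff, natCast_zsmul] at this
    exact this
  have hℓn : ¬ ℓ ∣ P.p := fun h => hℓp ((Nat.prime_dvd_prime_iff_eq hℓ P.pp).mp h)
  exact frobRelation_of_eq P.freyCurve P.freyCurveInt (Fermat.Agent.S13.H164.freyCurve_eq_map P)
    hℓ h5 hgood A hA τ hτ P.p P.hppos hℓn x hx

/-- The Frobenius relation as an identity of endomorphisms of `E[p]`. -/
theorem frey_frobRelation_end (P : FreyPackage) {ℓ : ℕ} (hℓ : ℓ.Prime) (h5 : 5 ≤ ℓ)
    (hℓp : ℓ ≠ P.p) (hgood : P.freyCurveInt.IsGoodPrimeFor ℓ)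
    (A : ValuationSubring (AlgebraicClosure ℚ)) (hA : A.LiesOverPrime ℓ) (τ : GQ)
    (hτ : A.IsFrobeniusAt τ ℓ) :
    galoisRepModuleEnd (S := ℚ) (K := AlgebraicClosure ℚ) P.freyCurve P.p τ *
        galoisRepModuleEnd (S := ℚ) (K := AlgebraicClosure ℚ) P.freyCurve P.p τ
      - ((P.freyCurveInt.apOfModel ℓ : ℤ) : ZMod P.p) •
        galoisRepModuleEnd (S := ℚ) (K := AlgebraicClosure ℚ) P.freyCurve P.p τ
      + ((ℓ : ℕ) : ZMod P.p) • (1 : Module.End (ZMod P.p) (FreyTorsion P)) = 0 := by
  ext x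
  have h := frey_frobRelation P hℓ h5 hℓp hgood A hA τ hτ x
  simp only [LinearMap.add_apply, LinearMap.sub_apply, Module.End.mul_apply,
    LinearMap.smul_apply, Module.End.one_apply, galoisRepModuleEnd_apply, LinearMap.zero_apply]
  rw [Int.cast_smul_eq_zsmul, ← Int.cast_natCast (R := ZMod P.p) ℓ, Int.cast_smul_eq_zsmul]
  exact congrArg Subtype.val h

/-- **A non-scalar Frobenius at a good prime `ℓ ≥ 5`, `ℓ ≠ p`, has determinant `ℓ`.** -/
theorem det_frob_of_not_scalar (P : FreyPackage) {ℓ : ℕ} (hℓ : ℓ.Prime) (h5 : 5 ≤ ℓ)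
    (hℓp : ℓ ≠ P.p) (hgood : P.freyCurveInt.IsGoodPrimeFor ℓ)
    (A : ValuationSubring (AlgebraicClosure ℚ)) (hA : A.LiesOverPrime ℓ) (τ : GQ)
    (hτ : A.IsFrobeniusAt τ ℓ)
    (hns : ¬ ∃ s : ZMod P.p, ∀ x : FreyTorsion P, τ • x = s • x) :
    LinearMap.det (galoisRepModuleEnd (S := ℚ) (K := AlgebraicClosure ℚ) P.freyCurve P.p τ)
      = ((ℓ : ℕ) : ZMod P.p) := by
  have : Fact P.p.Prime := ⟨P.pp⟩
  obtain ⟨b⟩ := nonempty_basis_freyTorsion P
  exact (det_trace_of_quadratic b _ _ _
    (frey_frobRelation_end P hℓ h5 hℓp hgood A hA τ hτ) hns).1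

end Fermat.Agent.Ribet.H704

end
-- ===== PACK-END Ribet/H704/FreyBasic.lean

-- ===== PACK-BEGIN S37/Core/Final.lean
section


/-!
# S37 row (helper37): the FINAL interface `WeakRedData`

`WeakRedData M A ℓ σ₀` : an additive map `red : J₀(M) →+ Y` (any target) with
* `inertia`     : `red (τ • x) = red x` for `τ` in the inertia group at `A`,
* `inj_torsion` : `red` is injective on torsion of order prime to `ℓ`,
* `relation`    : `red (σ₀² x - T_ℓ σ₀ x + ℓ x) = 0` for the ONE Frobenius element `σ₀`,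
  where `T_ℓ = heckeOperatorAlong ℚ̄ M ℓ` is the Prelude operator (no `HeckeInputsAlong` needed
  here: it is needed by whoever proves `relation`).

`result_of_weakRedData` : the frozen statement S37 at level `N` from a `WeakRedData` at some
level `M` and a `PullData N M ℓ` (`M = N`, `PullData.refl` for `ℓ ≥ 5`).
Fully proved.
-/

set_option autoImplicit false
set_option synthInstance.maxHeartbeats 400000

noncomputable section

namespace Fermat.Agent.S37.Core

open ModularCurve ValuationSubring AlgebraicCurve HahnSeries Fermat.Agent.S37.H99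

/-- The final interface of the geometric part of S37. -/
structure WeakRedData (M : ℕ) [NeZero M] (A : ValuationSubring (AlgebraicClosure ℚ)) (ℓ : ℕ)
    [NeZero ℓ] (σ₀ : AlgebraicClosure ℚ ≃ₐ[ℚ] AlgebraicClosure ℚ) : Type 1 where
  /-- the target group -/
  Y : Type
  /-- additive group structure on the target -/
  instY : AddCommGroup Y
  /-- the reduction map -/
  red : JZero M →+ Y
  inertia : ∀ τ ∈ A.inertiaSubgroupIn ℚ, ∀ x : JZero M, red (τ • x) = red x
  inj_torsion : ∀ (m : ℕ), ¬ ℓ ∣ m → ∀ x : JZero M, m • x = 0 → red x = 0 → x = 0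
  relation : ∀ x : JZero M,
    red (σ₀ • σ₀ • x - heckeOperatorAlong (AlgebraicClosure ℚ) M ℓ (σ₀ • x) + ℓ • x) = 0

attribute [instance] WeakRedData.instY

/-- a `PlaceRed` gives a `WeakRedData` (pointwise route) -/
def PlaceRed.toWeakRedData {M : ℕ} [NeZero M] {A : ValuationSubring (AlgebraicClosure ℚ)}
    {ℓ : ℕ} [NeZero ℓ] {σ₀ : AlgebraicClosure ℚ ≃ₐ[ℚ] AlgebraicClosure ℚ}
    (D : PlaceRed M A ℓ σ₀) (HIA : HeckeInputsAlong (AlgebraicClosure ℚ) M ℓ)
    (hS18 : InjTorsionModL M ℓ A) : WeakRedData M A ℓ σ₀ where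
  Y := JZeroC (IsLocalRing.ResidueField A) M
  instY := inferInstance
  red := D.red
  inertia τ hτ x := D.red_inertia hτ x
  inj_torsion _ hm _ hx h0 := D.red_inj_torsion hS18 hm hx h0
  relation x := D.red_relation HIA x

/-- **S37 at one place from a `WeakRedData` at level `M` and a `PullData N M ℓ`.** -/
theorem isWeakRed_of_weakRedData (N M p : ℕ) [NeZero N] [NeZero M]
    (hcomm : HeckeOperatorsCommuteBar N)
    (A : ValuationSubring (AlgebraicClosure ℚ)) (ℓ : ℕ) (hℓ : ℓ.Prime) (hℓp : ¬ ℓ ∣ p)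
    (σ₀ : AlgebraicClosure ℚ ≃ₐ[ℚ] AlgebraicClosure ℚ) (hσ₀ : A.IsFrobeniusAt σ₀ ℓ)
    (W : haveI : NeZero ℓ := ⟨hℓ.ne_zero⟩; WeakRedData M A ℓ σ₀)
    (Pd : haveI : NeZero ℓ := ⟨hℓ.ne_zero⟩; PullData N M ℓ) :
    letI := heckeModuleBar N
    ∀ (_ : SMulCommClass (AlgebraicClosure ℚ ≃ₐ[ℚ] AlgebraicClosure ℚ) HeckeAlg (JZero N)),
      IsWeakRed (K := ℚ) p (JZero N) A ℓ hℓ σ₀
        (haveI : NeZero ℓ := ⟨hℓ.ne_zero⟩; W.red.comp Pd.pull) := by
  letI := heckeModuleBar N
  haveI : NeZero ℓ := ⟨hℓ.ne_zero⟩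
  intro _
  refine ⟨hσ₀, ?_, ?_, ?_⟩
  · intro τ hτ x
    show W.red (Pd.pull (τ • x)) = W.red (Pd.pull x)
    rw [Pd.galois, W.inertia τ hτ]
  · rintro x ⟨n, hn⟩ hx
    have hℓpn : ¬ ℓ ∣ p ^ n := fun h => hℓp (hℓ.dvd_of_dvd_pow h)
    refine Pd.inj_torsion (p ^ n) hℓpn x hn ?_
    refine W.inj_torsion (p ^ n) hℓpn _ ?_ hx
    rw [← map_nsmul, hn, map_zero]
  · intro x
    rw [heckeModuleBar_heckeGen_smul hcomm ⟨ℓ, hℓ⟩ (σ₀ • x)]
    show W.red (Pd.pull (σ₀ • σ₀ • x - heckeOperatorAlong (AlgebraicClosure ℚ) N ℓ (σ₀ • x)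
      + ℓ • x)) = 0
    rw [map_add, map_sub, map_nsmul, Pd.galois, Pd.galois, Pd.hecke, Pd.galois]
    exact W.relation (Pd.pull x)

/-- **S37 from `WeakRedData` at auxiliary levels.**  THE final glue of the row. -/
theorem result_of_weakRedData (N p : ℕ) [NeZero N]
    (H : ∀ (ℓ : ℕ) (hℓ : ℓ.Prime), ¬ ℓ ∣ N →
      ∀ A : ValuationSubring (AlgebraicClosure ℚ), A.LiesOverPrime ℓ →
        ∀ σ₀ : AlgebraicClosure ℚ ≃ₐ[ℚ] AlgebraicClosure ℚ, A.IsFrobeniusAt σ₀ ℓ →
          haveI : NeZero ℓ := ⟨hℓ.ne_zero⟩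
          ∃ (M : ℕ) (_ : NeZero M), Nonempty (WeakRedData M A ℓ σ₀) ∧ Nonempty (PullData N M ℓ))
    (hcomm : ModularCurve.HeckeOperatorsCommuteBar N) :
    letI := ModularCurve.heckeModuleBar N
    ∀ (_ : SMulCommClass (AlgebraicClosure ℚ ≃ₐ[ℚ] AlgebraicClosure ℚ) ModularCurve.HeckeAlg
      (ModularCurve.JZero N)),
      ModularCurve.SpecializationExists (K := ℚ) (L := AlgebraicClosure ℚ) N p
        (ModularCurve.JZero N) := by
  letI := ModularCurve.heckeModuleBar N
  intro inst ℓ hℓ hdvd A hA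
  have hℓN : ¬ ℓ ∣ N := fun h => hdvd (Dvd.dvd.mul_right h p)
  have hℓp : ¬ ℓ ∣ p := fun h => hdvd (Dvd.dvd.mul_left h N)
  obtain ⟨σ₀, hσ₀⟩ := exists_isFrobeniusAt ℓ hℓ A hA
  haveI : NeZero ℓ := ⟨hℓ.ne_zero⟩
  obtain ⟨M, hM, ⟨W⟩, ⟨Pd⟩⟩ := H ℓ hℓ hℓN A hA σ₀ hσ₀
  exact exists_specialization_of_isWeakRed p A ℓ hℓ σ₀ (W.red.comp Pd.pull)
    (isWeakRed_of_weakRedData N M p hcomm A ℓ hℓ hℓp σ₀ hσ₀ W Pd inst)

end Fermat.Agent.S37.Core

end
end
-- ===== PACK-END S37/Core/Final.lean

-- ===== PACK-BEGIN S37/Red/H160/FibreSum.lean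
section




/-!
# S37-RED, piece A (helper160): `FibreSumStatement` from `NormRedStatement`

`fibreSum G (hA1 : NormRedStatement G) : FibreSumStatement G`   (exact shapes of `Red/Spec.lean`).

Proof: `g := N_{F/K(t)}(y) = w · r₀(t)/s₀(t)` with `r₀, s₀ ∈ A[X]` primitive and `w ∈ Aˣ`
(`normRep`, from RED-A1); the norm formula on both sides (`sum_ord_fibre`, separable version) and
Gauss' lemma for roots (`rootMultiplicity_map_residue`).
-/

set_option autoImplicit false
set_option linter.unusedSectionVars false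

noncomputable section

namespace Fermat.Agent.S37.Red.H160

open AlgebraicCurve Polynomial IntermediateField
open Fermat.Agent.S37.Red Fermat.Agent.S37.H160

universe u

variable {K k F Fk : Type u} [Field K] [Field k] [Field F] [Field Fk]
  [Algebra K F] [Algebra k Fk] [IsAlgClosed K] [CharZero K] [IsAlgClosed k]
  {A : ValuationSubring K} {π : A →+* k} (G : Datum A π F Fk)

/-- A polynomial over `A` with a coefficient `1`, evaluated at `t ∈ O` with transcendental
reduction, is a unit of `O`. -/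
theorem ρ_aeval_ne_zero {t : F} (ht : t ∈ G.O) (htb : Transcendental k (G.ρ ⟨t, ht⟩))
    {p : A[X]} {n : ℕ} (hp : p.coeff n = 1) :
    G.ρ ⟨aeval t (p.map A.subtype), aeval_mem G ht p⟩ ≠ 0 := by
  rw [ρ_aeval G ht]
  intro h
  exact map_ne_zero_of_coeff_eq_one π hp ((transcendental_iff.mp htb) _ h)

/-- **Normal form of the norm** of a unit `y` of `O`:
`N(y) · s₀(t) = w · r₀(t)` and `N(ȳ) · s̄₀(t̄) = w̄ · r̄₀(t̄)` with `r₀, s₀ ∈ A[X]` primitive,
`w ∈ Aˣ`. -/
theorem normRep (hA1 : NormRedStatement G) {t : F} (ht : G.AuxCoord t) {y : F} (hy : y ∈ G.O)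
    (hρy : G.ρ ⟨y, hy⟩ ≠ 0) :
    ∃ (r₀ s₀ : A[X]) (w : A), (∃ n, r₀.coeff n = 1) ∧ (∃ n, s₀.coeff n = 1) ∧ π w ≠ 0 ∧
      algebraMap K⟮t⟯ F (Algebra.norm K⟮t⟯ y) * aeval t (s₀.map A.subtype)
        = aeval t (C (w : K) * r₀.map A.subtype) ∧
      algebraMap k⟮G.red t⟯ Fk (Algebra.norm k⟮G.red t⟯ (G.ρ ⟨y, hy⟩)) * aeval (G.red t) (s₀.map π)
        = aeval (G.red t) (C (π w) * r₀.map π) := by
  have htO := ht.mem
  have htb : Transcendental k (G.ρ ⟨t, htO⟩) := by
    have := ht.transc
    rwa [red_of_mem G htO] at this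
  have htK : Transcendental K t := transcendental_of_red G htO ht.transc
  haveI := ht.finite
  haveI := ht.finite_k
  obtain ⟨hgO, hgred⟩ := hA1 t ht y hy
  have hy0 : y ≠ 0 := by
    rintro rfl
    apply hρy
    have : (⟨0, hy⟩ : G.O) = 0 := rfl
    rw [this, map_zero]
  set g : K⟮t⟯ := Algebra.norm K⟮t⟯ y with hg
  have hg0 : g ≠ 0 := Algebra.norm_ne_zero_iff.mpr hy0
  -- reduction of the norm
  have hredy : G.red y = G.ρ ⟨y, hy⟩ := red_of_mem G hy
  have hρg : G.ρ ⟨(g : F), hgO⟩
      = algebraMap k⟮G.red t⟯ Fk (Algebra.norm k⟮G.red t⟯ (G.ρ ⟨y, hy⟩)) := by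
    rw [← red_of_mem G hgO, hgred, hredy]
    rfl
  have hρg0 : G.ρ ⟨(g : F), hgO⟩ ≠ 0 := by
    rw [hρg]
    intro h
    have h1 : Algebra.norm k⟮G.red t⟯ (G.ρ ⟨y, hy⟩) = 0 :=
      (algebraMap k⟮G.red t⟯ Fk).injective (by rw [h, map_zero])
    exact hρy (Algebra.norm_eq_zero_iff.mp h1)
  -- rational representation
  obtain ⟨r, s, hs, hrs⟩ := exists_aeval_div htK g
  have hcoe : ∀ p : K[X], ((aeval (AdjoinSimple.gen K t) p : K⟮t⟯) : F) = aeval t p := fun p => by
    rw [← AdjoinSimple.algebraMap_gen K t, aeval_algebraMap_apply]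
    rfl
  have hrsF : (g : F) * aeval t s = aeval t r := by
    have := congrArg (fun z : K⟮t⟯ => (z : F)) hrs
    simpa only [MulMemClass.coe_mul, hcoe] using this
  have hr : r ≠ 0 := by
    rintro rfl
    rw [map_zero] at hrs
    rcases mul_eq_zero.mp hrs with h | h
    · exact hg0 h
    · exact aeval_gen_ne_zero htK hs h
  obtain ⟨u₁, r₀, hu₁, hr₀, n₁, hn₁⟩ := exists_primitive_scale_one A r hr
  obtain ⟨u₂, s₀, hu₂, hs₀, n₂, hn₂⟩ := exists_primitive_scale_one A s hs
  -- values in `O`
  have hrO := aeval_mem G htO r₀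
  have hsO := aeval_mem G htO s₀
  have hρr := ρ_aeval_ne_zero G htO htb hn₁
  have hρs := ρ_aeval_ne_zero G htO htb hn₂
  have hr0 : aeval t (r₀.map A.subtype) ≠ 0 := by
    intro h
    apply hρr
    have : (⟨aeval t (r₀.map A.subtype), hrO⟩ : G.O) = 0 := Subtype.ext h
    rw [this, map_zero]
  -- the constant
  set w : K := u₁ / u₂ with hw
  have hw0 : w ≠ 0 := div_ne_zero hu₁ hu₂
  have hmain : (g : F) * aeval t (s₀.map A.subtype) = algebraMap K F w * aeval t (r₀.map A.subtype) := by
    have h1 : (g : F) * (algebraMap K F u₂ * aeval t (s₀.map A.subtype))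
        = algebraMap K F u₁ * aeval t (r₀.map A.subtype) := by
      have := hrsF
      rw [hr₀, hs₀] at this
      simpa only [map_mul, aeval_C] using this
    have hu₂' : algebraMap K F u₂ ≠ 0 := by simpa using hu₂
    rw [hw, map_div₀]
    field_simp
    linear_combination h1
  have hwO : algebraMap K F w ∈ G.O := by
    have hinv := inv_mem G hrO hρr
    have h1 : algebraMap K F w = (g : F) * aeval t (s₀.map A.subtype)
        * (aeval t (r₀.map A.subtype))⁻¹ := by
      rw [hmain]
      field_simp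
    rw [h1]
    exact mul_mem (mul_mem hgO hsO) hinv
  have hwA : w ∈ A := mem_of_algebraMap_mem G hwO
  -- the identity in `O` and its reduction
  have hO : (⟨(g : F), hgO⟩ : G.O) * ⟨aeval t (s₀.map A.subtype), hsO⟩
      = ⟨algebraMap K F ((⟨w, hwA⟩ : A) : K), G.const_mem ⟨w, hwA⟩⟩
        * ⟨aeval t (r₀.map A.subtype), hrO⟩ := Subtype.ext hmain
  have hρ := congrArg G.ρ hO
  rw [map_mul, map_mul, G.ρ_const, ρ_aeval G htO, ρ_aeval G htO, hρg] at hρ
  have hπw : π ⟨w, hwA⟩ ≠ 0 := by
    intro h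
    rw [h, map_zero, zero_mul] at hρ
    rcases mul_eq_zero.mp hρ with h1 | h1
    · rw [← hρg] at h1
      exact hρg0 h1
    · have := ρ_aeval_ne_zero G htO htb hn₂
      rw [ρ_aeval G htO] at this
      exact this h1
  refine ⟨r₀, s₀, ⟨w, hwA⟩, ⟨n₁, hn₁⟩, ⟨n₂, hn₂⟩, hπw, ?_, ?_⟩
  · rw [map_mul, aeval_C]
    exact hmain
  · rw [map_mul, aeval_C]
    rw [← red_of_mem G htO] at hρ
    exact hρ

/-- **RED-A**: fibre sums, from RED-A1. -/
theorem fibreSum (hA1 : NormRedStatement G) : FibreSumStatement G := by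
  classical
  intro t ht y hy hρy c S T hS2 hS1 hT2 hT1
  have htO := ht.mem
  have htbT : Transcendental k (G.red t) := ht.transc
  have htK : Transcendental K t := transcendental_of_red G htO ht.transc
  haveI := ht.finite
  haveI := ht.finite_k
  haveI := ht.sep_k
  haveI : CharZero F := charZero_of_injective_algebraMap (algebraMap K F).injective
  have hπ := ker_π G
  have hy0 : y ≠ 0 := by
    rintro rfl
    apply hρy
    have : (⟨0, hy⟩ : G.O) = 0 := rfl
    rw [this, map_zero]
  obtain ⟨r₀, s₀, w, ⟨n₁, hn₁⟩, ⟨n₂, hn₂⟩, hπw, hNK, hNk⟩ := normRep G hA1 ht hy hρy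
  have hw0 : (w : K) ≠ 0 := by
    intro h
    apply hπw
    have : w = 0 := Subtype.ext h
    rw [this, map_zero]
  have hr₀π : r₀.map π ≠ 0 := map_ne_zero_of_coeff_eq_one π hn₁
  have hs₀π : s₀.map π ≠ 0 := map_ne_zero_of_coeff_eq_one π hn₂
  have hr₀K : r₀.map A.subtype ≠ 0 := map_ne_zero_of_coeff_eq_one A.subtype hn₁
  have hs₀K : s₀.map A.subtype ≠ 0 := map_ne_zero_of_coeff_eq_one A.subtype hn₂
  have hsubK : ∀ a : K, t - algebraMap K F a ≠ 0 := by
    intro a h
    apply htK
    rw [sub_eq_zero.mp h]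
    exact isAlgebraic_algebraMap _
  have hsubk : ∀ a : k, G.red t - algebraMap k Fk a ≠ 0 := by
    intro a h
    apply htbT
    rw [sub_eq_zero.mp h]
    exact isAlgebraic_algebraMap _
  -- `k`-side
  have hkside : ∑ Q ∈ T, Q.ord (G.ρ ⟨y, hy⟩)
      = ((r₀.map π).rootMultiplicity (π c) : ℤ) - (s₀.map π).rootMultiplicity (π c) := by
    have h := sum_ord_fibre htbT (π c) (G.ρ ⟨y, hy⟩) hρy (C (π w) * r₀.map π) (s₀.map π) hs₀π hNk T
      (fun Q hQ => (valAt_iff_ord_pos Q (hsubk _)).mp (hT1 Q hQ))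
      (fun Q hQ hpos => hT2 Q hQ ((valAt_iff_ord_pos Q (hsubk _)).mpr hpos))
    rw [h, rootMultiplicity_mul (mul_ne_zero (by rwa [Ne, C_eq_zero]) hr₀π), rootMultiplicity_C]
    simp
  -- `K`-side, one value at a time
  have hKside : ∀ (a : K) (Sa : Finset (Place K F)),
      (∀ P ∈ Sa, 0 < P.ord (t - algebraMap K F a)) →
      (∀ P : Place K F, P.ord y ≠ 0 → 0 < P.ord (t - algebraMap K F a) → P ∈ Sa) →
      ∑ P ∈ Sa, P.ord y = ((r₀.map A.subtype).roots.count a : ℤ)
        - (s₀.map A.subtype).roots.count a := by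
    intro a Sa h1 h2
    have h := sum_ord_fibre htK a y hy0 (C (w : K) * r₀.map A.subtype) (s₀.map A.subtype) hs₀K
      hNK Sa h1 h2
    rw [h, rootMultiplicity_mul (mul_ne_zero (by rwa [Ne, C_eq_zero]) hr₀K), rootMultiplicity_C,
      count_roots, count_roots]
    simp
  -- the value map
  let pred : K → Prop := fun a => a ∈ A ∧ redK π a = π c
  let val : Place K F → K := fun P =>
    if h : ∃ a : A, π a = π c ∧ ValAt P t (a : K) then (h.choose : K) else 0
  have hval : ∀ P : Place K F, (∃ a : A, π a = π c ∧ ValAt P t (a : K)) →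
      pred (val P) ∧ ValAt P t (val P) := by
    intro P h
    have hv : val P = (h.choose : K) := dif_pos h
    rw [hv]
    refine ⟨⟨h.choose.2, ?_⟩, h.choose_spec.2⟩
    rw [redK_coe]
    exact h.choose_spec.1
  let Z : Finset K := ((r₀.map A.subtype).roots.filter pred).toFinset ∪
    ((s₀.map A.subtype).roots.filter pred).toFinset
  let U : Finset K := S.image val ∪ Z
  have hU : ∀ a ∈ U, pred a := by
    intro a ha
    rcases Finset.mem_union.mp ha with h | h
    · obtain ⟨P, hP, rfl⟩ := Finset.mem_image.mp h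
      exact (hval P (hS1 P hP)).1
    · rcases Finset.mem_union.mp h with h | h
      · exact (Multiset.mem_filter.mp (Multiset.mem_toFinset.mp h)).2
      · exact (Multiset.mem_filter.mp (Multiset.mem_toFinset.mp h)).2
  -- Gauss' lemma as a sum over `U`
  have hcard : ∀ m : Multiset K, (m.filter pred).toFinset ⊆ U →
      ((m.filter pred).card : ℤ) = ∑ a ∈ U, (m.count a : ℤ) := by
    intro m hm
    rw [← Multiset.toFinset_sum_count_eq, Nat.cast_sum]
    rw [Finset.sum_subset hm]
    · refine Finset.sum_congr rfl fun a ha => ?_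
      rw [Multiset.count_filter, if_pos (hU a ha)]
    · intro a _ ha
      rw [Multiset.mem_toFinset] at ha
      exact_mod_cast Multiset.count_eq_zero_of_notMem ha
  have hGr := rootMultiplicity_map_residue π hπ r₀ hr₀π (π c)
  have hGs := rootMultiplicity_map_residue π hπ s₀ hs₀π (π c)
  have hZr : ((r₀.map A.subtype).roots.filter pred).toFinset ⊆ U := fun a ha =>
    Finset.mem_union_right _ (Finset.mem_union_left _ ha)
  have hZs : ((s₀.map A.subtype).roots.filter pred).toFinset ⊆ U := fun a ha =>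
    Finset.mem_union_right _ (Finset.mem_union_right _ ha)
  rw [hkside, hGr, hGs, hcard _ hZr, hcard _ hZs, ← Finset.sum_sub_distrib]
  -- fibrewise decomposition of the `K`-side
  have hmaps : ∀ P ∈ S, val P ∈ U := fun P hP =>
    Finset.mem_union_left _ (Finset.mem_image_of_mem _ hP)
  rw [← Finset.sum_fiberwise_of_maps_to hmaps]
  refine Finset.sum_congr rfl fun a ha => ?_
  symm
  have hpa := hU a ha
  refine hKside a _ ?_ ?_
  · intro P hP
    obtain ⟨hPS, hPa⟩ := Finset.mem_filter.mp hP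
    have := (hval P (hS1 P hPS)).2
    rw [hPa] at this
    exact (valAt_iff_ord_pos P (hsubK _)).mp this
  · intro P hP hpos
    have hva : ValAt P t a := (valAt_iff_ord_pos P (hsubK _)).mpr hpos
    have hex : ∃ a' : A, π a' = π c ∧ ValAt P t (a' : K) :=
      ⟨⟨a, hpa.1⟩, by rw [← redK_of_mem π hpa.1]; exact hpa.2, hva⟩
    have hPS := hS2 P hP hex
    refine Finset.mem_filter.mpr ⟨hPS, ?_⟩
    exact valAt_unique P (hval P hex).2 hva

end Fermat.Agent.S37.Red.H160

end
end
-- ===== PACK-END S37/Red/H160/FibreSum.lean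

-- ===== PACK-BEGIN Lib/RR/H80/Res/Global.lean
section




/-!
# Tate's residue symbol on the adeles of a function field

`V = 𝔸 = repartitions K F`, `A = 𝔸(0)`.  For `t : F` the functional
`rho t : α ↦ tsym P (α·) (t·)` is a Weil differential ("`α ↦ Σ_v res_v(α_v dt)`"):
it vanishes on `F` (`rho_diag`), is a derivation in `t` (`rho_mul`), vanishes on locally
integral pairs (`rho_eq_zero_of_integral`) and is `1` on `π⁻¹` at a place with uniformizer `π`
(`rho_unif`).
-/

set_option autoImplicit false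

noncomputable section

open AlgebraicCurve

namespace Fermat.Agent.Lib.RR.H80

open Fermat.Agent.Lib.RR LinearMap Module

variable {K F : Type*} [Field K] [Field F] [Algebra K F]

/-! ### Multiplication by an adele -/

/-- Multiplication by an adele, as a `K`-linear endomorphism of `𝔸`. -/
def mulAd (α : ↥(repartitions K F)) : Module.End K ↥(repartitions K F) where
  toFun γ := α * γ
  map_add' := mul_add α
  map_smul' c γ := by
    apply Subtype.ext
    funext v
    show (α : Place K F → F) v * (c • (γ : Place K F → F) v) =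
      c • ((α : Place K F → F) v * (γ : Place K F → F) v)
    rw [mul_smul_comm]

@[simp] theorem mulAd_apply (α γ : ↥(repartitions K F)) : mulAd α γ = α * γ := rfl

theorem coe_mul_apply (α γ : ↥(repartitions K F)) (v : Place K F) :
    ((α * γ : ↥(repartitions K F)) : Place K F → F) v =
      (α : Place K F → F) v * (γ : Place K F → F) v := rfl

theorem mulAd_mul (α β : ↥(repartitions K F)) : mulAd (α * β) = mulAd α * mulAd β := by
  ext γ : 1
  simp only [mulAd_apply, Module.End.mul_apply, mul_assoc]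

theorem mulAd_comm (α β : ↥(repartitions K F)) : mulAd α * mulAd β = mulAd β * mulAd α := by
  rw [← mulAd_mul, ← mulAd_mul, mul_comm]

theorem mulAd_add (α β : ↥(repartitions K F)) : mulAd (α + β) = mulAd α + mulAd β := by
  ext γ : 1
  simp only [mulAd_apply, LinearMap.add_apply, add_mul]

theorem mulAd_smul (c : K) (α : ↥(repartitions K F)) : mulAd (c • α) = c • mulAd α := by
  ext γ : 1
  apply Subtype.ext
  funext v
  show (c • (α : Place K F → F) v) * (γ : Place K F → F) v =
    c • ((α : Place K F → F) v * (γ : Place K F → F) v)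
  rw [smul_mul_assoc]

theorem mulAd_one : mulAd (1 : ↥(repartitions K F)) = 1 := by
  ext γ : 1
  simp only [mulAd_apply, one_mul, Module.End.one_apply]

theorem mulAd_diag (x : F) : mulAd (H980.diag (K := K) x) = mulA x := by
  ext γ : 1
  apply Subtype.ext
  funext v
  show ((H980.diag x : ↥(repartitions K F)) : Place K F → F) v * (γ : Place K F → F) v = _
  rw [H980.diag_apply]
  rfl

theorem diag_mul (x y : F) : H980.diag (K := K) (x * y) = H980.diag x * H980.diag y := by
  apply Subtype.ext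
  funext v
  rw [coe_mul_apply, H980.diag_apply, H980.diag_apply, H980.diag_apply]

theorem diag_one : H980.diag (K := K) (1 : F) = 1 := by
  apply Subtype.ext
  funext v
  rw [H980.diag_apply]
  rfl

theorem diag_mul_eq_smul (x : F) (α : ↥(repartitions K F)) :
    H980.diag (K := K) x * α = x • α := by
  apply Subtype.ext
  funext v
  rw [coe_mul_apply, H980.diag_apply]
  rfl

/-! ### The integral adeles -/

theorem mem_A0_iff {α : ↥(repartitions K F)} :
    α ∈ repartitionsOf (0 : Divisor K F) ↔ ∀ v : Place K F, 0 ≤ v.ord ((α : Place K F → F) v) := by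
  rw [mem_repartitionsOf_iff]
  refine forall_congr' fun v => ?_
  simp only [Finsupp.coe_zero, Pi.zero_apply, neg_zero]
  constructor
  · rintro (h | h)
    · rw [h, Place.ord_zero]
    · exact h
  · exact fun h => Or.inr h

/-- The indicator adele of a set of places. -/
def indA (T : Set (Place K F)) : ↥(repartitions K F) :=
  ⟨fun v => by classical exact if v ∈ T then 1 else 0,
    mem_repartitions_of_finite_ord <| Set.finite_empty.subset fun v hv => by
      classical
      have hv : v.ord (if v ∈ T then (1 : F) else 0) < 0 := hv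
      split_ifs at hv
      · rw [Place.ord_one] at hv
        exact absurd hv (lt_irrefl _)
      · rw [Place.ord_zero] at hv
        exact absurd hv (lt_irrefl _)⟩

theorem indA_apply_of_mem {T : Set (Place K F)} {v : Place K F} (h : v ∈ T) :
    ((indA T : ↥(repartitions K F)) : Place K F → F) v = 1 := by
  classical
  simp [indA, h]

theorem indA_apply_of_not_mem {T : Set (Place K F)} {v : Place K F} (h : v ∉ T) :
    ((indA T : ↥(repartitions K F)) : Place K F → F) v = 0 := by
  classical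
  simp [indA, h]

theorem indA_mul_self (T : Set (Place K F)) : indA T * indA T = indA T := by
  apply Subtype.ext
  funext v
  rw [coe_mul_apply]
  by_cases h : v ∈ T
  · rw [indA_apply_of_mem h, one_mul]
  · rw [indA_apply_of_not_mem h, zero_mul]

theorem ord_indA_nonneg (T : Set (Place K F)) (v : Place K F) :
    0 ≤ v.ord (((indA T : ↥(repartitions K F)) : Place K F → F) v) := by
  by_cases h : v ∈ T
  · rw [indA_apply_of_mem h, Place.ord_one]
  · rw [indA_apply_of_not_mem h, Place.ord_zero]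

theorem indA_mul_mem_A0 (T : Set (Place K F)) {γ : ↥(repartitions K F)}
    (hγ : γ ∈ repartitionsOf (0 : Divisor K F)) :
    indA T * γ ∈ repartitionsOf (0 : Divisor K F) := by
  rw [mem_A0_iff] at hγ ⊢
  intro v
  rw [coe_mul_apply]
  exact H742.ord_mul_nonneg v (ord_indA_nonneg T v) (hγ v)

theorem mulAd_indA_idem (T : Set (Place K F)) :
    mulAd (indA T) * mulAd (indA T) = mulAd (indA T) := by
  rw [← mulAd_mul, indA_mul_self]

theorem map_mulAd_indA_le (T : Set (Place K F)) :
    (repartitionsOf (0 : Divisor K F)).map (mulAd (indA T)) ≤ repartitionsOf 0 := by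
  rintro _ ⟨γ, hγ, rfl⟩
  exact indA_mul_mem_A0 T hγ

/-- Membership in the corner `e_T 𝔸(0)`. -/
theorem mem_corner_iff (T : Set (Place K F)) {x : ↥(repartitions K F)} :
    x ∈ (repartitionsOf (0 : Divisor K F)).map (mulAd (indA T)) ↔
      x ∈ repartitionsOf (0 : Divisor K F) ∧ ∀ v ∉ T, (x : Place K F → F) v = 0 := by
  constructor
  · rintro ⟨γ, hγ, rfl⟩
    refine ⟨indA_mul_mem_A0 T hγ, fun v hv => ?_⟩
    rw [mulAd_apply, coe_mul_apply, indA_apply_of_not_mem hv, zero_mul]
  · rintro ⟨hx, hx0⟩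
    refine ⟨x, hx, ?_⟩
    apply Subtype.ext
    funext v
    rw [mulAd_apply, coe_mul_apply]
    by_cases h : v ∈ T
    · rw [indA_apply_of_mem h, one_mul]
    · rw [indA_apply_of_not_mem h, zero_mul, hx0 v h]

/-! ### Commensurability -/

theorem almostLE_of_finIdx {V : Type*} [AddCommGroup V] [Module K V] {X Y : Submodule K V}
    (h : H980.FinIdx X Y) : AlmostLE Y X := by
  obtain ⟨C, hC⟩ := Submodule.exists_isCompl (X.submoduleOf Y)
  have hfin : Module.Finite K (↥Y ⧸ X.submoduleOf Y) := h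
  have hCfin : FiniteDimensional K C :=
    Module.Finite.equiv (Submodule.quotientEquivOfIsCompl _ _ hC)
  refine ⟨C.map Y.subtype, inferInstance, fun y hy => ?_⟩
  have hmem : (⟨y, hy⟩ : ↥Y) ∈ X.submoduleOf Y ⊔ C := by
    rw [hC.sup_eq_top]
    exact Submodule.mem_top
  obtain ⟨a, ha, c, hc, hac⟩ := Submodule.mem_sup.mp hmem
  have : y = (a : V) + (c : V) := by
    have := congrArg Subtype.val hac
    simpa using this.symm
  rw [this]
  exact Submodule.add_mem _ (Submodule.mem_sup_left ha)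
    (Submodule.mem_sup_right (Submodule.mem_map_of_mem hc))

variable [hFF : FF1 K F]

theorem EE_mulAd (α : ↥(repartitions K F)) :
    EE (repartitionsOf (0 : Divisor K F)) (mulAd α) := by
  obtain ⟨E, hE⟩ := H742.exists_mem_repartitionsOf α
  have hE' : α ∈ repartitionsOf (E ⊔ 0) := repartitionsOf_mono le_sup_left hE
  have h1 : (repartitionsOf (0 : Divisor K F)).map (mulAd α) ≤ repartitionsOf (E ⊔ 0) := by
    rintro _ ⟨γ, hγ, rfl⟩
    intro v
    have h1 := hE' v
    have h2 := hγ v
    show v.adicValuation ((α : Place K F → F) v * (γ : Place K F → F) v) ≤ _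
    rw [map_mul]
    calc v.adicValuation ((α : Place K F → F) v) * v.adicValuation ((γ : Place K F → F) v)
        ≤ WithZero.exp ((E ⊔ 0) v) * WithZero.exp ((0 : Divisor K F) v) := mul_le_mul' h1 h2
      _ = WithZero.exp ((E ⊔ 0) v) := by
        rw [Finsupp.coe_zero, Pi.zero_apply, WithZero.exp_zero, mul_one]
  exact (AlmostLE.of_le h1).trans
    (almostLE_of_finIdx (H980.finIdx_and_idx_repartitionsOf (le_sup_right (a := E))).1)

theorem finiteDimensional_A0_inf_principal :
    FiniteDimensional K ↥(repartitionsOf (0 : Divisor K F) ⊓ principalRepartitions K F) :=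
  H980.finite_inf 0

theorem exists_cocompact :
    ∃ C : Submodule K ↥(repartitions K F), FiniteDimensional K C ∧
      repartitionsOf (0 : Divisor K F) ⊔ principalRepartitions K F ⊔ C = ⊤ := by
  obtain ⟨C, hC⟩ := Submodule.exists_isCompl
    (repartitionsOf (0 : Divisor K F) ⊔ principalRepartitions K F)
  have hfin : Module.Finite K (H1 (0 : Divisor K F)) := finite_H1 0
  exact ⟨C, Module.Finite.equiv (Submodule.quotientEquivOfIsCompl _ _ hC), hC.sup_eq_top⟩

/-! ### The Weil differential attached to `t` -/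

variable (K F) in
/-- A fixed projector onto the integral adeles. -/
def projA0 : Module.End K ↥(repartitions K F) :=
  (exists_isProj (repartitionsOf (0 : Divisor K F))).choose

omit hFF in
theorem isProj_projA0 : LinearMap.IsProj (repartitionsOf (0 : Divisor K F)) (projA0 K F) :=
  (exists_isProj (repartitionsOf (0 : Divisor K F))).choose_spec

/-- The Weil differential "`α ↦ Σ_v res_v (α_v dt)`". -/
def rho (t : F) : Module.Dual K ↥(repartitions K F) where
  toFun α := tsym (projA0 K F) (mulAd α) (mulAd (H980.diag t))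
  map_add' α β := by
    rw [mulAd_add]
    exact tsym_add_left isProj_projA0 (EE_mulAd α) (EE_mulAd β) (EE_mulAd _)
      (mulAd_comm _ _) (mulAd_comm _ _)
  map_smul' c α := by
    rw [mulAd_smul]
    exact tsym_smul_left _ _ _ c

theorem rho_apply (t : F) (α : ↥(repartitions K F)) :
    rho t α = tsym (projA0 K F) (mulAd α) (mulAd (H980.diag t)) := rfl

theorem rho_add (t s : F) : rho (K := K) (t + s) = rho t + rho s := by
  ext α
  rw [LinearMap.add_apply, rho_apply, rho_apply, rho_apply, map_add, mulAd_add]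
  exact tsym_add_right isProj_projA0 (EE_mulAd α) (EE_mulAd _) (EE_mulAd _)
    (mulAd_comm _ _) (mulAd_comm _ _)

theorem rho_smul (c : K) (t : F) : rho (K := K) (c • t) = c • rho t := by
  ext α
  rw [LinearMap.smul_apply, rho_apply, rho_apply, map_smul, mulAd_smul]
  exact tsym_smul_right _ _ _ c

theorem rho_one : rho (K := K) (1 : F) = 0 := by
  ext α
  rw [rho_apply, diag_one, mulAd_one, LinearMap.zero_apply]
  unfold tsym
  rw [mul_one, one_mul]
  have h0 : projA0 K F * mulAd α - projA0 K F * mulAd α = 0 := by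
    ext x : 1
    simp only [LinearMap.sub_apply, sub_self, LinearMap.zero_apply]
  rw [h0, fpTr_zero]

theorem rho_mul (t s : F) (α : ↥(repartitions K F)) :
    rho (t * s) α = rho t (s • α) + rho s (t • α) := by
  rw [rho_apply, rho_apply, rho_apply, diag_mul, mulAd_mul,
    tsym_leibniz isProj_projA0 (EE_mulAd α) (EE_mulAd _) (EE_mulAd _)
      (mulAd_comm _ _) (mulAd_comm _ _) (mulAd_comm _ _),
    ← mulAd_mul, ← mulAd_mul, mul_comm α, mul_comm α, diag_mul_eq_smul, diag_mul_eq_smul,
    add_comm]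

/-- The residue theorem: `rho t` vanishes on principal adeles. -/
theorem rho_diag (t x : F) : rho (K := K) t (H980.diag x) = 0 := by
  rw [rho_apply]
  obtain ⟨C, hC, hsup⟩ := exists_cocompact (K := K) (F := F)
  have hB : ∀ y : F, (principalRepartitions K F).map (mulAd (H980.diag (K := K) y)) ≤
      principalRepartitions K F := by
    intro y
    rintro _ ⟨γ, hγ, rfl⟩
    rw [← H980.range_diag] at hγ ⊢
    obtain ⟨z, rfl⟩ := hγ
    exact ⟨y * z, by rw [mulAd_apply, diag_mul]⟩
  exact tsym_eq_zero_of_cocompact isProj_projA0 (EE_mulAd _) (EE_mulAd _) (mulAd_comm _ _)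
    (hB x) (hB t) finiteDimensional_A0_inf_principal ⟨C, hC, hsup⟩

theorem rho_principal (t : F) {α : ↥(repartitions K F)} (hα : α ∈ principalRepartitions K F) :
    rho t α = 0 := by
  rw [← H980.range_diag] at hα
  obtain ⟨x, rfl⟩ := hα
  exact rho_diag t x

/-! ### Local vanishing and the residue of `π⁻¹ dπ` -/

/-- `rho t β = 0` if at each place either `β_v = 0` or both `β_v` and `t` are integral. -/
theorem rho_eq_zero_of_integral (t : F) (β : ↥(repartitions K F))
    (h : ∀ v : Place K F, (β : Place K F → F) v = 0 ∨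
      (0 ≤ v.ord ((β : Place K F → F) v) ∧ 0 ≤ v.ord t)) :
    rho t β = 0 := by
  rw [rho_apply]
  set T : Set (Place K F) := {v | (β : Place K F → F) v ≠ 0} with hT
  have hef : mulAd (indA T) * mulAd β = mulAd β := by
    rw [← mulAd_mul]
    congr 1
    apply Subtype.ext
    funext v
    rw [coe_mul_apply]
    by_cases hv : v ∈ T
    · rw [indA_apply_of_mem hv, one_mul]
    · rw [indA_apply_of_not_mem hv, zero_mul]
      have : (β : Place K F → F) v = 0 := by
        by_contra h0
        exact hv h0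
      rw [this]
  refine tsym_eq_zero_of_corner isProj_projA0 (mulAd_indA_idem T) (map_mulAd_indA_le T)
    (EE_mulAd _) (EE_mulAd _) (mulAd_comm _ _) hef ?_ ?_
  · rintro _ ⟨x, hx, rfl⟩
    rw [SetLike.mem_coe, mem_corner_iff] at hx
    rw [mem_corner_iff]
    obtain ⟨hxA, hx0⟩ := hx
    refine ⟨?_, fun v hv => ?_⟩
    · rw [mem_A0_iff] at hxA ⊢
      intro v
      rw [mulAd_apply, coe_mul_apply]
      rcases h v with h0 | ⟨h1, -⟩
      · rw [h0, zero_mul, Place.ord_zero]
      · exact H742.ord_mul_nonneg v h1 (hxA v)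
    · rw [mulAd_apply, coe_mul_apply, hx0 v hv, mul_zero]
  · rintro _ ⟨x, hx, rfl⟩
    rw [SetLike.mem_coe, mem_corner_iff] at hx
    rw [mem_corner_iff]
    obtain ⟨hxA, hx0⟩ := hx
    refine ⟨?_, fun v hv => ?_⟩
    · rw [mem_A0_iff] at hxA ⊢
      intro v
      rw [mulAd_apply, coe_mul_apply, H980.diag_apply]
      by_cases hv : v ∈ T
      · rcases h v with h0 | ⟨-, h2⟩
        · exact absurd h0 hv
        · exact H742.ord_mul_nonneg v h2 (hxA v)
      · rw [hx0 v hv, mul_zero, Place.ord_zero]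
    · rw [mulAd_apply, coe_mul_apply, hx0 v hv, mul_zero]

omit hFF in
theorem singleA_eq_indA_mul (v : Place K F) (a : F) :
    singleA v a = indA ({v} : Set (Place K F)) * H980.diag a := by
  apply Subtype.ext
  funext w
  rw [coe_mul_apply, H980.diag_apply]
  by_cases hw : w = v
  · subst hw
    rw [singleA_apply_self, indA_apply_of_mem (Set.mem_singleton _), one_mul]
  · rw [singleA_apply_of_ne _ _ hw, indA_apply_of_not_mem (by simpa using hw), zero_mul]

omit hFF in
theorem smul_singleA (v : Place K F) (c a : F) : c • singleA v a = singleA v (c * a) := by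
  apply Subtype.ext
  funext w
  rw [coe_smul_apply]
  by_cases hw : w = v
  · subst hw
    rw [singleA_apply_self, singleA_apply_self]
  · rw [singleA_apply_of_ne _ _ hw, singleA_apply_of_ne _ _ hw, mul_zero]

/-- `rho t` kills `single_v a` when `a` and `t` are integral at `v`. -/
theorem rho_singleA_eq_zero (v : Place K F) {t a : F} (ht : 0 ≤ v.ord t) (ha : 0 ≤ v.ord a) :
    rho t (singleA v a) = 0 := by
  refine rho_eq_zero_of_integral t _ fun w => ?_
  by_cases hw : w = v
  · subst hw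
    right
    rw [singleA_apply_self]
    exact ⟨ha, ht⟩
  · left
    exact singleA_apply_of_ne _ _ hw

/-- The residue of `π⁻¹ dπ` at a place where `π` is a uniformizer is `1`. -/
theorem rho_unif (v : Place K F) {π : F} (hπ : v.ord π = 1) :
    rho π (singleA v π⁻¹) = 1 := by
  rw [rho_apply]
  have hπ0 : π ≠ 0 := ne_zero_of_ord_ne_zero v (by rw [hπ]; exact one_ne_zero)
  have hidem := mulAd_indA_idem ({v} : Set (Place K F))
  have hmap := map_mulAd_indA_le ({v} : Set (Place K F))
  have hef : mulAd (indA ({v} : Set (Place K F))) * mulAd (singleA v π⁻¹) =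
      mulAd (singleA v π⁻¹) := by
    rw [singleA_eq_indA_mul, ← mulAd_mul, ← mul_assoc, indA_mul_self]
  rw [tsym_corner isProj_projA0 hidem hmap (EE_mulAd _) (EE_mulAd _) (mulAd_comm _ _) hef,
    singleA_eq_indA_mul, mulAd_mul]
  have hfix : ∀ x ∈ (repartitionsOf (0 : Divisor K F)).map (mulAd (indA ({v} : Set (Place K F)))),
      mulAd (indA ({v} : Set (Place K F))) x = x := by
    rintro _ ⟨γ, -, rfl⟩
    rw [← Module.End.mul_apply, hidem]
  refine tsym_unif (isProj_corner isProj_projA0 hidem hmap) (g := mulAd (H980.diag π))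
    ?_ (mulAd_comm _ _) ?_ ?_ 1 ?_ (indA {v}) ?_ ?_ ?_
  · rw [← mulAd_mul, ← diag_mul, inv_mul_cancel₀ hπ0, diag_one, mulAd_one]
  · rintro _ ⟨x, hx, rfl⟩
    rw [SetLike.mem_coe, mem_corner_iff] at hx
    rw [mem_corner_iff]
    obtain ⟨hxA, hx0⟩ := hx
    refine ⟨?_, fun w hw => ?_⟩
    · rw [mem_A0_iff] at hxA ⊢
      intro w
      rw [mulAd_apply, coe_mul_apply, H980.diag_apply]
      by_cases hw : w ∈ ({v} : Set (Place K F))
      · rw [Set.mem_singleton_iff] at hw
        subst hw
        exact H742.ord_mul_nonneg w (by rw [hπ]; exact zero_le_one) (hxA w)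
      · rw [hx0 w hw, mul_zero, Place.ord_zero]
    · rw [mulAd_apply, coe_mul_apply, hx0 w hw, mul_zero]
  · rintro _ ⟨x, hx, rfl⟩
    rw [hfix x hx]
    exact hx
  · intro a ha
    rw [hfix a ha, one_smul, sub_self]
    exact Submodule.zero_mem _
  · rw [mem_corner_iff]
    refine ⟨mem_A0_iff.mpr (ord_indA_nonneg _), fun w hw => indA_apply_of_not_mem hw⟩
  · rintro ⟨x, hx, hxeq⟩
    rw [SetLike.mem_coe, mem_corner_iff] at hx
    have hxA := mem_A0_iff.mp hx.1 v
    have h1 : π * (x : Place K F → F) v = 1 := by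
      have := congrArg (fun z : ↥(repartitions K F) => (z : Place K F → F) v) hxeq
      simp only [mulAd_apply, coe_mul_apply, H980.diag_apply] at this
      rw [this, indA_apply_of_mem (Set.mem_singleton v)]
    have hx0 : (x : Place K F → F) v ≠ 0 := by
      intro h0
      rw [h0, mul_zero] at h1
      exact zero_ne_one h1
    have h2 := v.ord_mul hπ0 hx0
    rw [h1, Place.ord_one, hπ] at h2
    omega
  · intro a ha
    rw [mem_corner_iff] at ha
    obtain ⟨haA, ha0⟩ := ha
    obtain ⟨k, hk⟩ := exists_const_sub v (FF1.deg_eq_one v) (mem_A0_iff.mp haA v)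
    refine ⟨k, ?_⟩
    set b : F := π⁻¹ * ((a : Place K F → F) v - algebraMap K F k) with hb
    have hb0 : 0 ≤ v.ord b := by
      rcases hk with hk | hk
      · rw [hb, hk, mul_zero, Place.ord_zero]
      · have hne : (a : Place K F → F) v - algebraMap K F k ≠ 0 := by
          intro h0
          rw [h0, Place.ord_zero] at hk
          exact lt_irrefl _ hk
        rw [hb, v.ord_mul (inv_ne_zero hπ0) hne, Place.ord_inv, hπ]
        omega
    refine ⟨singleA v b, ?_, ?_⟩
    · rw [SetLike.mem_coe, mem_corner_iff]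
      refine ⟨mem_A0_iff.mpr fun w => ?_, fun w hw => singleA_apply_of_ne _ _ (by simpa using hw)⟩
      by_cases hw : w = v
      · subst hw
        rw [singleA_apply_self]
        exact hb0
      · rw [singleA_apply_of_ne _ _ hw, Place.ord_zero]
    · apply Subtype.ext
      funext w
      rw [mulAd_apply, coe_mul_apply, H980.diag_apply]
      show _ = (a : Place K F → F) w - ((k • indA ({v} : Set (Place K F)) : ↥(repartitions K F)) :
        Place K F → F) w
      rw [H980.val_apply_smul]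
      by_cases hw : w = v
      · subst hw
        rw [singleA_apply_self, indA_apply_of_mem (Set.mem_singleton _), mul_one, hb,
          ← mul_assoc, mul_inv_cancel₀ hπ0, one_mul]
      · rw [singleA_apply_of_ne _ _ hw, indA_apply_of_not_mem (by simpa using hw), mul_zero,
          mul_zero, sub_zero, ha0 w (by simpa using hw)]

end Fermat.Agent.Lib.RR.H80

end
end
-- ===== PACK-END Lib/RR/H80/Res/Global.lean

-- ===== PACK-BEGIN Lib/RR/H259/Mult.lean
section


/-!
# RR library, add-on (helper259): multiplication maps of Riemann–Roch spaces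

For a function field `F/K` satisfying `FF1` with `K` infinite and genus `g = genusFF K F`:

* `mul_le_L`            : `L(A) * L(B) ≤ L(A + B)`;
* `IsBpfPencil D s₁ s₂` : `s₁, s₂ ∈ L(D)`, `s₁ ≠ 0`, at every place one of them has order exactly
  `-D v` (a base-point-free pencil);
* `exists_bpfPencil`    : `2g ≤ deg D` ⇒ a base-point-free pencil exists in `L(D)`;
* `pencil_trick`        : (base-point-free pencil trick) if `deg D + 2g - 1 ≤ deg E` then every
  `h ∈ L(E + D)` is `s₁ * a + s₂ * b` with `a, b ∈ L(E)`;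
* `L_mul_L_of_le`       : `2g ≤ deg D`, `deg D + 2g - 1 ≤ deg E` ⇒ `L(E) * L(D) = L(E + D)`;
* `L_mul_L`             : `4g ≤ deg A`, `4g ≤ deg B` ⇒ `L(A) * L(B) = L(A + B)`.

(Castelnuovo–Mumford type surjectivity of `L(A) ⊗ L(B) → L(A + B)`; the bound `4g` is not sharp,
but it is all that Khuri-Makdisi style linear algebra on divisors needs.)
-/

set_option autoImplicit false

noncomputable section

open AlgebraicCurve

namespace Fermat.Agent.Lib.RR.H259

open Fermat.Agent.Lib.RR

variable {K F : Type*} [Field K] [Field F] [Algebra K F]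

/-- `L(A) * L(B) ≤ L(A + B)`. -/
theorem mul_le_L (A B : Divisor K F) :
    riemannRochSpace A * riemannRochSpace B ≤ riemannRochSpace (A + B) := by
  rw [Submodule.mul_le]
  intro f hf g hg
  rw [mem_L_iff] at hf hg ⊢
  intro v
  rcases eq_or_ne f 0 with rfl | hf0
  · left; simp
  rcases eq_or_ne g 0 with rfl | hg0
  · left; simp
  right
  rw [v.ord_mul hf0 hg0]
  have h1 := (hf v).resolve_left hf0
  have h2 := (hg v).resolve_left hg0
  simp only [Finsupp.coe_add, Pi.add_apply]
  omega

/-- A base-point-free pencil in `L(D)`. -/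
structure IsBpfPencil (D : Divisor K F) (s₁ s₂ : F) : Prop where
  mem₁ : s₁ ∈ riemannRochSpace D
  mem₂ : s₂ ∈ riemannRochSpace D
  ne_zero : s₁ ≠ 0
  bpf : ∀ v : Place K F, v.ord s₁ = -D v ∨ (s₂ ≠ 0 ∧ v.ord s₂ = -D v)

theorem IsBpfPencil.degree_nonneg [HasPrincipalDivisors K F] {D : Divisor K F} {s₁ s₂ : F}
    (h : IsBpfPencil D s₁ s₂) : 0 ≤ Divisor.degree D :=
  degree_nonneg_of_mem_L h.mem₁ h.ne_zero


/-- the map `(a, b) ↦ s₁ a + s₂ b` on `L(E) × L(E)` -/
def pencilMap (E : Divisor K F) (s₁ s₂ : F) :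
    (riemannRochSpace E × riemannRochSpace E) →ₗ[K] F :=
  ((LinearMap.mulLeft K s₁).comp (riemannRochSpace E).subtype).coprod
    ((LinearMap.mulLeft K s₂).comp (riemannRochSpace E).subtype)

@[simp] theorem pencilMap_apply (E : Divisor K F) (s₁ s₂ : F)
    (p : riemannRochSpace E × riemannRochSpace E) :
    pencilMap E s₁ s₂ p = s₁ * (p.1 : F) + s₂ * (p.2 : F) := by
  simp [pencilMap]

theorem range_pencilMap_le {D E : Divisor K F} {s₁ s₂ : F} (h : IsBpfPencil D s₁ s₂) :
    LinearMap.range (pencilMap E s₁ s₂) ≤ riemannRochSpace (E + D) := by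
  rintro _ ⟨p, rfl⟩
  rw [pencilMap_apply]
  have h1 : s₁ * (p.1 : F) ∈ riemannRochSpace (E + D) := by
    rw [add_comm E D]
    exact mul_le_L D E (Submodule.mul_mem_mul h.mem₁ p.1.2)
  have h2 : s₂ * (p.2 : F) ∈ riemannRochSpace (E + D) := by
    rw [add_comm E D]
    exact mul_le_L D E (Submodule.mul_mem_mul h.mem₂ p.2.2)
  exact Submodule.add_mem _ h1 h2

/-- the kernel of the pencil map embeds into `L(E - D)` by `(a, b) ↦ -b / s₁` -/
theorem finrank_ker_pencilMap_le [FF1 K F] {D E : Divisor K F} {s₁ s₂ : F}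
    (h : IsBpfPencil D s₁ s₂) :
    Module.finrank K (LinearMap.ker (pencilMap E s₁ s₂)) ≤ ell (E - D) := by
  classical
  have hs₁ := h.ne_zero
  -- the map
  let ψ₀ : LinearMap.ker (pencilMap E s₁ s₂) →ₗ[K] F :=
    (LinearMap.mulLeft K (-s₁⁻¹)).comp ((riemannRochSpace E).subtype.comp
      ((LinearMap.snd K _ _).comp (LinearMap.ker (pencilMap E s₁ s₂)).subtype))
  have hψ₀ : ∀ p : LinearMap.ker (pencilMap E s₁ s₂), ψ₀ p = -s₁⁻¹ * (p.1.2 : F) := by
    intro p; rfl
  have hmem : ∀ p : LinearMap.ker (pencilMap E s₁ s₂), ψ₀ p ∈ riemannRochSpace (E - D) := by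
    intro p
    rw [hψ₀, mem_L_iff]
    intro v
    set a : F := (p.1.1 : F) with ha
    set b : F := (p.1.2 : F) with hb
    have hker : s₁ * a + s₂ * b = 0 := by
      have := p.2
      rw [LinearMap.mem_ker, pencilMap_apply] at this
      exact this
    have haL : a ∈ riemannRochSpace E := p.1.1.2
    have hbL : b ∈ riemannRochSpace E := p.1.2.2
    rw [mem_L_iff] at haL hbL
    rcases eq_or_ne b 0 with hb0 | hb0
    · left; rw [hb0]; simp
    right
    have hc0 : -s₁⁻¹ * b ≠ 0 := mul_ne_zero (neg_ne_zero.mpr (inv_ne_zero hs₁)) hb0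
    simp only [Finsupp.coe_sub, Pi.sub_apply]
    rcases h.bpf v with h1 | ⟨hs₂, h2⟩
    · have : v.ord (-s₁⁻¹ * b) = -v.ord s₁ + v.ord b := by
        rw [v.ord_mul (neg_ne_zero.mpr (inv_ne_zero hs₁)) hb0, ord_neg, v.ord_inv]
      rw [this, h1]
      have := (hbL v).resolve_left hb0
      omega
    · -- `-b / s₁ = a / s₂`
      have ha0 : a ≠ 0 := by
        intro ha0
        rw [ha0, mul_zero, zero_add] at hker
        exact hb0 ((mul_eq_zero.mp hker).resolve_left hs₂)
      have hc : -s₁⁻¹ * b = s₂⁻¹ * a := by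
        have e1 : s₁ * a = -(s₂ * b) := by linear_combination hker
        calc -s₁⁻¹ * b = s₂⁻¹ * s₁⁻¹ * (-(s₂ * b)) := by field_simp
          _ = s₂⁻¹ * s₁⁻¹ * (s₁ * a) := by rw [e1]
          _ = s₂⁻¹ * a := by field_simp
      have : v.ord (s₂⁻¹ * a) = -v.ord s₂ + v.ord a := by
        rw [v.ord_mul (inv_ne_zero hs₂) ha0, v.ord_inv]
      rw [hc, this, h2]
      have := (haL v).resolve_left ha0
      omega
  let ψ : LinearMap.ker (pencilMap E s₁ s₂) →ₗ[K] riemannRochSpace (E - D) :=
    LinearMap.codRestrict _ ψ₀ hmem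
  have hker : ∀ p : LinearMap.ker (pencilMap E s₁ s₂),
      s₁ * (p.1.1 : F) + s₂ * (p.1.2 : F) = 0 := by
    intro p
    have := p.2
    rw [LinearMap.mem_ker, pencilMap_apply] at this
    exact this
  have hinj0 : Function.Injective ψ₀ := by
    intro p q hpq
    rw [hψ₀, hψ₀] at hpq
    have hb : (p.1.2 : F) = (q.1.2 : F) :=
      mul_left_cancel₀ (neg_ne_zero.mpr (inv_ne_zero hs₁)) hpq
    have hkp := hker p
    have hkq := hker q
    have ha : (p.1.1 : F) = (q.1.1 : F) := by
      have : s₁ * (p.1.1 : F) = s₁ * (q.1.1 : F) := by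
        rw [hb] at hkp
        linear_combination hkp - hkq
      exact mul_left_cancel₀ hs₁ this
    exact Subtype.ext (Prod.ext (Subtype.ext ha) (Subtype.ext hb))
  have hinj : Function.Injective ψ := by
    intro p q hpq
    apply hinj0
    have := congrArg (fun x : riemannRochSpace (E - D) => (x : F)) hpq
    simpa [ψ] using this
  exact LinearMap.finrank_le_finrank_of_injective hinj


/-- **Base-point-free pencil trick.** -/
theorem range_pencilMap_eq [FF1 K F] {D E : Divisor K F} {s₁ s₂ : F} (h : IsBpfPencil D s₁ s₂)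
    (hdeg : Divisor.degree D + 2 * (genusFF K F : ℤ) - 1 ≤ Divisor.degree E) :
    LinearMap.range (pencilMap E s₁ s₂) = riemannRochSpace (E + D) := by
  have hD0 := h.degree_nonneg
  have hE : (ell E : ℤ) = Divisor.degree E + 1 - (genusFF K F : ℤ) :=
    ell_eq_of_degree_gt (by omega)
  have hED : (ell (E - D) : ℤ) = Divisor.degree E - Divisor.degree D + 1 - (genusFF K F : ℤ) := by
    have := ell_eq_of_degree_gt (D := E - D) (by rw [map_sub]; omega)
    rwa [map_sub] at this
  have hEpD : (ell (E + D) : ℤ)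
      = Divisor.degree E + Divisor.degree D + 1 - (genusFF K F : ℤ) := by
    have := ell_eq_of_degree_gt (D := E + D) (by rw [map_add]; omega)
    rwa [map_add] at this
  have hrn := LinearMap.finrank_range_add_finrank_ker (pencilMap E s₁ s₂)
  have hprod : Module.finrank K (riemannRochSpace E × riemannRochSpace E) = ell E + ell E :=
    Module.finrank_prod
  have hk := finrank_ker_pencilMap_le (E := E) h
  apply Submodule.eq_of_le_of_finrank_le (range_pencilMap_le h)
  have : Module.finrank K (riemannRochSpace (E + D)) = ell (E + D) := rfl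
  omega

/-- every `h ∈ L(E + D)` is `s₁ a + s₂ b` with `a, b ∈ L(E)` -/
theorem pencil_trick [FF1 K F] {D E : Divisor K F} {s₁ s₂ : F} (h : IsBpfPencil D s₁ s₂)
    (hdeg : Divisor.degree D + 2 * (genusFF K F : ℤ) - 1 ≤ Divisor.degree E) {f : F}
    (hf : f ∈ riemannRochSpace (E + D)) :
    ∃ a ∈ riemannRochSpace E, ∃ b ∈ riemannRochSpace E, f = s₁ * a + s₂ * b := by
  rw [← range_pencilMap_eq h hdeg] at hf
  obtain ⟨p, rfl⟩ := hf
  exact ⟨p.1, p.1.2, p.2, p.2.2, pencilMap_apply E s₁ s₂ p⟩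

/-- `L(D)` contains a base-point-free pencil as soon as `deg D ≥ 2g` (`K` infinite). -/
theorem exists_bpfPencil [FF1 K F] [Infinite K] {D : Divisor K F}
    (hD : 2 * (genusFF K F : ℤ) ≤ Divisor.degree D) : ∃ s₁ s₂ : F, IsBpfPencil D s₁ s₂ := by
  classical
  have hell : (ell D : ℤ) = Divisor.degree D + 1 - (genusFF K F : ℤ) :=
    ell_eq_of_degree_gt (by omega)
  have hpos : 0 < Module.finrank K (riemannRochSpace D) := by
    have : Module.finrank K (riemannRochSpace D) = ell D := rfl
    omega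
  obtain ⟨s₁', hs₁'⟩ : ∃ x : riemannRochSpace D, x ≠ 0 :=
    Module.finrank_pos_iff_exists_ne_zero.mp hpos
  have hs₁ : (s₁' : F) ≠ 0 := fun h => hs₁' (Subtype.ext h)
  let S : Finset (Place K F) := (divOf (K := K) (s₁' : F) hs₁ + D).support
  have hS : ∀ v ∉ S, v.ord (s₁' : F) = - D v := by
    intro v hv
    rw [Finsupp.notMem_support_iff] at hv
    simp only [Finsupp.coe_add, Pi.add_apply, divOf_apply] at hv
    omega
  let p : Place K F → Subspace K (riemannRochSpace D) := fun v =>
    (riemannRochSpace (D - prim v)).comap (riemannRochSpace D).subtype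
  have hp : ∀ v, p v ≠ ⊤ := by
    intro v htop
    have hle : riemannRochSpace D ≤ riemannRochSpace (D - prim v) := by
      intro f hf
      have : (⟨f, hf⟩ : riemannRochSpace D) ∈ p v := by rw [htop]; trivial
      exact this
    have h1 : ell D ≤ ell (D - prim v) := Submodule.finrank_mono hle
    have h2 : (ell (D - prim v) : ℤ) = Divisor.degree D - 1 + 1 - (genusFF K F : ℤ) := by
      have := ell_eq_of_degree_gt (D := D - prim v)
        (by rw [map_sub, degree_prim v (deg_eq_one v)]; omega)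
      rw [map_sub, degree_prim v (deg_eq_one v)] at this
      exact this
    omega
  have hnot : (⊤ : Subspace K (riemannRochSpace D)) ∉ S.image p := by
    intro hmem
    obtain ⟨v, -, hv⟩ := Finset.mem_image.mp hmem
    exact hp v hv
  have hne := Subspace.biUnion_ne_univ_of_top_notMem hnot
  obtain ⟨s₂', hs₂'⟩ : ∃ x : riemannRochSpace D,
      x ∉ ⋃ q ∈ S.image p, (q : Set (riemannRochSpace D)) := by
    by_contra hcon
    simp only [not_exists, not_not] at hcon
    exact hne (Set.eq_univ_of_forall hcon)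
  refine ⟨s₁', s₂', ⟨s₁'.2, s₂'.2, hs₁, fun v => ?_⟩⟩
  by_cases hv : v ∈ S
  · right
    have hnm : s₂' ∉ p v := fun hm =>
      hs₂' (Set.mem_biUnion (Finset.mem_image_of_mem p hv) hm)
    have hmem := s₂'.2
    rw [mem_L_iff] at hmem
    have hnm' : ¬ ((s₂' : F) ∈ riemannRochSpace (D - prim v)) := hnm
    rw [mem_L_iff] at hnm'
    simp only [not_forall, not_or, not_le] at hnm'
    obtain ⟨w, hw0, hw⟩ := hnm'
    have hwv : w = v := by
      by_contra hne'
      have h3 := (hmem w).resolve_left hw0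
      simp only [Finsupp.coe_sub, Pi.sub_apply, prim_apply_of_ne hne'] at hw
      omega
    subst hwv
    refine ⟨hw0, ?_⟩
    have h3 := (hmem w).resolve_left hw0
    simp only [Finsupp.coe_sub, Pi.sub_apply, prim_apply_self] at hw
    omega
  · left
    exact hS v hv

/-- `L(E) * L(D) = L(E + D)` if `deg D ≥ 2g` and `deg E ≥ deg D + 2g - 1`. -/
theorem L_mul_L_of_le [FF1 K F] [Infinite K] {D E : Divisor K F}
    (hD : 2 * (genusFF K F : ℤ) ≤ Divisor.degree D)
    (hE : Divisor.degree D + 2 * (genusFF K F : ℤ) - 1 ≤ Divisor.degree E) :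
    riemannRochSpace E * riemannRochSpace D = riemannRochSpace (E + D) := by
  apply le_antisymm (mul_le_L E D)
  obtain ⟨s₁, s₂, h⟩ := exists_bpfPencil hD
  intro f hf
  obtain ⟨a, ha, b, hb, rfl⟩ := pencil_trick h hE hf
  refine Submodule.add_mem _ ?_ ?_
  · exact (mul_comm a s₁) ▸ Submodule.mul_mem_mul ha h.mem₁
  · exact (mul_comm b s₂) ▸ Submodule.mul_mem_mul hb h.mem₂

theorem L_mul_L_aux [FF1 K F] [Infinite K] {A B : Divisor K F}
    (hA : 4 * (genusFF K F : ℤ) ≤ Divisor.degree A)
    (hB : 4 * (genusFF K F : ℤ) ≤ Divisor.degree B)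
    (hAB : Divisor.degree B ≤ Divisor.degree A) :
    riemannRochSpace A * riemannRochSpace B = riemannRochSpace (A + B) := by
  obtain ⟨v₀⟩ := FF1.nonempty_place (K := K) (F := F)
  have hg : (0 : ℤ) ≤ (genusFF K F : ℤ) := Int.natCast_nonneg _
  obtain ⟨n, hn1, hn2⟩ : ∃ n : ℤ, 2 * n ≤ Divisor.degree B ∧ Divisor.degree B ≤ 2 * n + 1 :=
    ⟨Divisor.degree B / 2, by omega, by omega⟩
  set B₂ : Divisor K F := n • prim v₀ with hB₂def
  set B₁ : Divisor K F := B - B₂ with hB₁def
  have hB₂ : Divisor.degree B₂ = n := by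
    rw [hB₂def, map_zsmul, degree_prim v₀ (deg_eq_one v₀)]; simp
  have hB₁ : Divisor.degree B₁ = Divisor.degree B - n := by
    rw [hB₁def, map_sub, hB₂]
  have e3 : B₂ + B₁ = B := by rw [hB₁def]; abel
  have e1 : riemannRochSpace (A + B₂) * riemannRochSpace B₁
      = riemannRochSpace (A + B₂ + B₁) :=
    L_mul_L_of_le (D := B₁) (E := A + B₂) (by omega) (by rw [map_add]; omega)
  have e2 : riemannRochSpace A * riemannRochSpace B₂ = riemannRochSpace (A + B₂) :=
    L_mul_L_of_le (D := B₂) (E := A) (by omega) (by omega)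
  apply le_antisymm (mul_le_L A B)
  have e4 : A + B₂ + B₁ = A + B := by rw [add_assoc, e3]
  rw [← e4, ← e1, ← e2, mul_assoc]
  have h5 : riemannRochSpace B₂ * riemannRochSpace B₁ ≤ riemannRochSpace B := by
    have := mul_le_L B₂ B₁
    rwa [e3] at this
  exact mul_le_mul' le_rfl h5

/-- **Multiplication of Riemann–Roch spaces**: `L(A) * L(B) = L(A + B)` as soon as both degrees
are at least `4g`. -/
theorem L_mul_L [FF1 K F] [Infinite K] {A B : Divisor K F}
    (hA : 4 * (genusFF K F : ℤ) ≤ Divisor.degree A)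
    (hB : 4 * (genusFF K F : ℤ) ≤ Divisor.degree B) :
    riemannRochSpace A * riemannRochSpace B = riemannRochSpace (A + B) := by
  rcases le_total (Divisor.degree B) (Divisor.degree A) with h | h
  · exact L_mul_L_aux hA hB h
  · rw [mul_comm, add_comm]
    exact L_mul_L_aux hB hA h

/-- element form: every `f ∈ L(A + B)` is a finite sum `∑ aᵢ bᵢ`, `aᵢ ∈ L(A)`, `bᵢ ∈ L(B)` -/
theorem exists_sum_mul_eq [FF1 K F] [Infinite K] {A B : Divisor K F}
    (hA : 4 * (genusFF K F : ℤ) ≤ Divisor.degree A)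
    (hB : 4 * (genusFF K F : ℤ) ≤ Divisor.degree B) {f : F}
    (hf : f ∈ riemannRochSpace (A + B)) :
    ∃ (n : ℕ) (a b : Fin n → F), (∀ i, a i ∈ riemannRochSpace A) ∧
      (∀ i, b i ∈ riemannRochSpace B) ∧ f = ∑ i, a i * b i := by
  rw [← L_mul_L hA hB] at hf
  refine Submodule.mul_induction_on hf ?_ ?_
  · intro a ha b hb
    exact ⟨1, fun _ => a, fun _ => b, fun _ => ha, fun _ => hb, by simp⟩
  · intro x y hx hy
    obtain ⟨n, a, b, ha, hb, rfl⟩ := hx
    obtain ⟨m, a', b', ha', hb', rfl⟩ := hy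
    refine ⟨n + m, Fin.append a a', Fin.append b b', ?_, ?_, ?_⟩
    · intro i
      refine Fin.addCases (fun j => ?_) (fun j => ?_) i
      · simpa using ha j
      · simpa using ha' j
    · intro i
      refine Fin.addCases (fun j => ?_) (fun j => ?_) i
      · simpa using hb j
      · simpa using hb' j
    · rw [Fin.sum_univ_add]
      simp

end Fermat.Agent.Lib.RR.H259

end
end
-- ===== PACK-END Lib/RR/H259/Mult.lean

-- ===== PACK-BEGIN S19/H195/RedDatum.lean
section


/-!
# A3 / WP-W4 (helper195): integral Riemann–Roch lattices, abstract form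

Language: Prelude `AlgebraicCurve` (`Place`, `Divisor`, `riemannRochSpace`, `genusFF`) + `Lib/RR`.

`RedDatum K F k Fk` : an abstract "good reduction datum" of the function field `F / K` with special
fibre `Fk / k`:

* `V ⊆ F` the Gauss valuation ring (only a subring is required), `red : V → Fk` its reduction;
* the constants `O = V ∩ K` form a valuation ring of `K` with residue field `k`
  (`const_total`, `red_const`, `red_const_surj`, `red_const_unit`);
* `r : Place K F → Place k Fk` the reduction of points, with `r_* div u = div (red u)` for every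
  `u ∈ V` with nonzero reduction (`ord_red`, same shape as the Prelude's `IsPlaceReductionAlong`).

`R.OrthOn W` : the finite-dimensional `K`-subspace `W ⊆ F` has a basis in `V` with `k`-linearly
independent reductions (an "orthonormal basis").

Main results (for `D` a divisor of `F / K`, `L(D) ∩ V` the integral lattice):

* `RedDatum.linearIndependent_of_red`  lifts of `k`-independent reductions are `K`-independent;
* `RedDatum.coeff_mem_of_red`  lattice property: if `∑ cᵢ wᵢ ∈ V` with `red wᵢ` independent then all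
  `cᵢ ∈ O`;
* `RedDatum.redL_le`   `red (L(D) ∩ V) ⊆ L(r_* D)`;
* `RedDatum.finrank_redL`  `dim_k red (L(D) ∩ V) = ℓ(D)`;
* `RedDatum.ell_le_ell_mapDomain`  upper semicontinuity `ℓ(D) ≤ ℓ(r_* D)`;
* `RedDatum.genusFF_le`  `g(Fk) ≤ g(F)`;
* `RedDatum.redL_eq`   **W4**: if `g(F) ≤ g(Fk)` and `deg D > 2 g(Fk) - 2` then
  `red (L(D) ∩ V) = L(r_* D)`;
* `RedDatum.exists_lattice_basis`  **W4, basis form**: a `K`-basis `w` of `L(D)` inside `V` whose
  reductions form a `k`-basis of `L(r_* D)`, and `L(D) ∩ V = ⊕ O wᵢ`.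
-/

set_option autoImplicit false

noncomputable section

open AlgebraicCurve Fermat.Agent.Lib.RR

namespace Fermat.Agent.S19.H195

universe u₁ u₂ u₃ u₄

/-- Abstract good-reduction datum for a function field `F / K` with special fibre `Fk / k`. -/
structure RedDatum (K : Type u₁) (F : Type u₂) (k : Type u₃) (Fk : Type u₄)
    [Field K] [Field F] [Algebra K F] [Field k] [Field Fk] [Algebra k Fk] where
  /-- the Gauss valuation ring -/
  V : Subring F
  /-- reduction modulo the maximal ideal of `V` -/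
  red : V →+* Fk
  /-- reduction of places -/
  r : Place K F → Place k Fk
  /-- the constants in `V` form a valuation ring of `K` -/
  const_total : ∀ a : K, algebraMap K F a ∈ V ∨ algebraMap K F a⁻¹ ∈ V
  /-- integral constants reduce to constants -/
  red_const : ∀ (a : K) (h : algebraMap K F a ∈ V), ∃ b : k, red ⟨_, h⟩ = algebraMap k Fk b
  /-- every constant of the special fibre is a reduction -/
  red_const_surj : ∀ b : k, ∃ (a : K) (h : algebraMap K F a ∈ V), red ⟨_, h⟩ = algebraMap k Fk b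
  /-- an integral constant with nonzero reduction is a unit -/
  red_const_unit : ∀ (a : K) (h : algebraMap K F a ∈ V), red ⟨_, h⟩ ≠ 0 →
    algebraMap K F a⁻¹ ∈ V
  /-- principal divisors specialise: `r_* div u = div (red u)` -/
  ord_red : ∀ (u : F) (hu : u ∈ V), red ⟨u, hu⟩ ≠ 0 → ∀ D : Divisor K F,
    (∀ P, D P = P.ord u) → ∀ Q, Finsupp.mapDomain r D Q = Q.ord (red ⟨u, hu⟩)

variable {K : Type u₁} {F : Type u₂} {k : Type u₃} {Fk : Type u₄}
  [Field K] [Field F] [Algebra K F] [Field k] [Field Fk] [Algebra k Fk]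

namespace RedDatum

variable (R : RedDatum K F k Fk)

/-- `W` has a basis in `V` with `k`-linearly independent reductions. -/
def OrthOn (W : Submodule K F) : Prop :=
  ∃ (n : ℕ) (w : Fin n → F) (hw : ∀ i, w i ∈ R.V), (∀ i, w i ∈ W) ∧
    W ≤ Submodule.span K (Set.range w) ∧
    LinearIndependent k (fun i => R.red ⟨w i, hw i⟩)

/-! ### Constants -/

theorem red_mk_eq {f g : F} (hf : f ∈ R.V) (hg : g ∈ R.V) (h : f = g) :
    R.red ⟨f, hf⟩ = R.red ⟨g, hg⟩ := by
  subst h; rfl

/-- Among finitely many constants, not all zero, one has maximal absolute value. -/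
theorem exists_max {ι : Type*} (s : Finset ι) (c : ι → K) (h : ∃ i ∈ s, c i ≠ 0) :
    ∃ j ∈ s, c j ≠ 0 ∧ ∀ i ∈ s, algebraMap K F (c i / c j) ∈ R.V := by
  classical
  induction s using Finset.induction_on with
  | empty => obtain ⟨i, hi, -⟩ := h; simp at hi
  | insert a s _ ih =>
    by_cases hs : ∃ i ∈ s, c i ≠ 0
    · obtain ⟨j, hj, hj0, hjs⟩ := ih hs
      by_cases hV : algebraMap K F (c a / c j) ∈ R.V
      · refine ⟨j, Finset.mem_insert_of_mem hj, hj0, fun i hi => ?_⟩
        rcases Finset.mem_insert.mp hi with rfl | hi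
        · exact hV
        · exact hjs i hi
      · have ha0 : c a ≠ 0 := by
          rintro h0
          apply hV
          rw [h0, zero_div, map_zero]
          exact R.V.zero_mem
        have hV' : algebraMap K F (c j / c a) ∈ R.V := by
          have := (R.const_total (c a / c j)).resolve_left hV
          rwa [inv_div] at this
        refine ⟨a, Finset.mem_insert_self a s, ha0, fun i hi => ?_⟩
        rcases Finset.mem_insert.mp hi with rfl | hi
        · rw [div_self ha0, map_one]; exact R.V.one_mem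
        · have h1 := R.V.mul_mem (hjs i hi) hV'
          rw [← map_mul] at h1
          have h2 : c i / c j * (c j / c a) = c i / c a := by
            field_simp
          rwa [h2] at h1
    · have ha0 : c a ≠ 0 := by
        obtain ⟨i, hi, hi0⟩ := h
        rcases Finset.mem_insert.mp hi with rfl | hi
        · exact hi0
        · exact absurd ⟨i, hi, hi0⟩ hs
      refine ⟨a, Finset.mem_insert_self a s, ha0, fun i hi => ?_⟩
      rcases Finset.mem_insert.mp hi with rfl | hi
      · rw [div_self ha0, map_one]; exact R.V.one_mem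
      · have : c i = 0 := by
          by_contra h0
          exact hs ⟨i, hi, h0⟩
        rw [this, zero_div, map_zero]
        exact R.V.zero_mem


/-! ### Orthogonality -/

/-- Core of all orthogonality arguments: a relation `∑ dᵢ wᵢ = t` with integral coefficients, one of
them equal to `1`, and `red t = 0` contradicts the independence of the `red wᵢ`. -/
theorem false_of_relation {ι : Type*} (w : ι → F) (hw : ∀ i, w i ∈ R.V)
    (hli : LinearIndependent k (fun i => R.red ⟨w i, hw i⟩))
    (s : Finset ι) (d : ι → K) (hd : ∀ i ∈ s, algebraMap K F (d i) ∈ R.V)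
    {j : ι} (hj : j ∈ s) (hdj : d j = 1) {t : F} (ht : t ∈ R.V) (hred : R.red ⟨t, ht⟩ = 0)
    (hsum : ∑ i ∈ s, d i • w i = t) : False := by
  classical
  -- the reductions of the coefficients
  have hb : ∀ i : s, ∃ b : k,
      R.red ⟨algebraMap K F (d i.1), hd i.1 i.2⟩ = algebraMap k Fk b :=
    fun i => R.red_const (d i.1) (hd i.1 i.2)
  choose b hb using hb
  let b' : ι → k := fun i => if h : i ∈ s then b ⟨i, h⟩ else 0
  have hb' : ∀ i : s, b' i.1 = b i := fun i => by simp [b', i.2]
  let x : R.V := ∑ i ∈ s.attach,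
    (⟨algebraMap K F (d i.1), hd i.1 i.2⟩ : R.V) * ⟨w i.1, hw i.1⟩
  have hx : (x : F) = t := by
    rw [← hsum, ← Finset.sum_attach s (fun i => d i • w i)]
    show (R.V.subtype x : F) = _
    rw [map_sum]
    exact Finset.sum_congr rfl fun i _ => (Algebra.smul_def _ _).symm
  have hx0 : R.red x = 0 := by
    have : x = ⟨t, ht⟩ := Subtype.ext hx
    rw [this, hred]
  have hsum' : ∑ i ∈ s, b' i • R.red ⟨w i, hw i⟩ = 0 := by
    rw [← Finset.sum_attach s (fun i => b' i • R.red ⟨w i, hw i⟩), ← hx0]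
    simp only [x, map_sum, map_mul]
    refine Finset.sum_congr rfl fun i _ => ?_
    rw [hb i, hb' i, Algebra.smul_def]
  have h0 := linearIndependent_iff'.mp hli s b' hsum' j hj
  have h1 : algebraMap k Fk (b' j) = 1 := by
    have := hb ⟨j, hj⟩
    rw [hb' ⟨j, hj⟩, ← this]
    have h1 : (⟨algebraMap K F (d j), hd j hj⟩ : R.V) = 1 := by
      apply Subtype.ext
      simp [hdj]
    rw [h1, map_one]
  rw [h0, map_zero] at h1
  exact zero_ne_one h1

/-- Elements of `V` with `k`-linearly independent reductions are `K`-linearly independent. -/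
theorem linearIndependent_of_red {ι : Type*} (w : ι → F) (hw : ∀ i, w i ∈ R.V)
    (hli : LinearIndependent k (fun i => R.red ⟨w i, hw i⟩)) : LinearIndependent K w := by
  classical
  rw [linearIndependent_iff']
  intro s g hg
  by_contra hne
  push Not at hne
  obtain ⟨j, hj, hj0, hjs⟩ := R.exists_max s g hne
  refine R.false_of_relation w hw hli s (fun i => g i / g j) hjs hj (div_self hj0)
    R.V.zero_mem (map_zero _) ?_
  have : ∑ i ∈ s, (g i / g j) • w i = (g j)⁻¹ • ∑ i ∈ s, g i • w i := by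
    rw [Finset.smul_sum]
    refine Finset.sum_congr rfl fun i _ => ?_
    rw [smul_smul, div_eq_inv_mul]
  rw [this, hg, smul_zero]

/-- **Lattice property**: if `∑ cᵢ wᵢ ∈ V` and the `red wᵢ` are `k`-independent, then all
coefficients are integral. -/
theorem coeff_mem_of_red {ι : Type*} (w : ι → F) (hw : ∀ i, w i ∈ R.V)
    (hli : LinearIndependent k (fun i => R.red ⟨w i, hw i⟩))
    (s : Finset ι) (c : ι → K) (hf : ∑ i ∈ s, c i • w i ∈ R.V) :
    ∀ i ∈ s, algebraMap K F (c i) ∈ R.V := by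
  classical
  by_contra hne
  push Not at hne
  obtain ⟨i₀, hi₀, hi₀V⟩ := hne
  have hi₀0 : c i₀ ≠ 0 := by
    rintro h0
    apply hi₀V
    rw [h0, map_zero]
    exact R.V.zero_mem
  obtain ⟨j, hj, hj0, hjs⟩ := R.exists_max s c ⟨i₀, hi₀, hi₀0⟩
  -- `c j` is not integral
  have hjV : algebraMap K F (c j) ∉ R.V := by
    intro h
    apply hi₀V
    have h1 := R.V.mul_mem (hjs i₀ hi₀) h
    rw [← map_mul, div_mul_cancel₀ _ hj0] at h1
    exact h1
  have hjinv : algebraMap K F (c j)⁻¹ ∈ R.V := (R.const_total (c j)).resolve_left hjV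
  have hjred : R.red ⟨_, hjinv⟩ = 0 := by
    by_contra h
    have := R.red_const_unit _ hjinv h
    rw [inv_inv] at this
    exact hjV this
  have ht : algebraMap K F (c j)⁻¹ * ∑ i ∈ s, c i • w i ∈ R.V := R.V.mul_mem hjinv hf
  refine R.false_of_relation w hw hli s (fun i => c i / c j) hjs hj (div_self hj0) ht ?_ ?_
  · have : (⟨_, ht⟩ : R.V) = ⟨_, hjinv⟩ * ⟨_, hf⟩ := Subtype.ext rfl
    rw [this, map_mul, hjred, zero_mul]
  · rw [← Algebra.smul_def, Finset.smul_sum]
    refine Finset.sum_congr rfl fun i _ => ?_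
    rw [smul_smul, div_eq_inv_mul]


/-! ### The reduction of `L(D) ∩ V` -/

/-- The reduction of the integral lattice `L(D) ∩ V`, a `k`-subspace of `Fk`. -/
def redL (D : Divisor K F) : Submodule k Fk where
  carrier := {g | ∃ (f : F) (hf : f ∈ R.V), f ∈ riemannRochSpace D ∧ R.red ⟨f, hf⟩ = g}
  zero_mem' := ⟨0, R.V.zero_mem, Submodule.zero_mem _, map_zero R.red⟩
  add_mem' := by
    rintro g g' ⟨f, hf, hfD, rfl⟩ ⟨f', hf', hfD', rfl⟩
    exact ⟨f + f', R.V.add_mem hf hf', Submodule.add_mem _ hfD hfD',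
      map_add R.red ⟨f, hf⟩ ⟨f', hf'⟩⟩
  smul_mem' := by
    rintro b g ⟨f, hf, hfD, rfl⟩
    obtain ⟨a, ha, hab⟩ := R.red_const_surj b
    refine ⟨algebraMap K F a * f, R.V.mul_mem ha hf, ?_, ?_⟩
    · rw [← Algebra.smul_def]; exact Submodule.smul_mem _ a hfD
    · have : (⟨algebraMap K F a * f, R.V.mul_mem ha hf⟩ : R.V) = ⟨_, ha⟩ * ⟨f, hf⟩ := rfl
      rw [this, map_mul, hab, Algebra.smul_def]

theorem mem_redL {D : Divisor K F} {g : Fk} :
    g ∈ R.redL D ↔ ∃ (f : F) (hf : f ∈ R.V), f ∈ riemannRochSpace D ∧ R.red ⟨f, hf⟩ = g :=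
  Iff.rfl

theorem red_mem_redL {D : Divisor K F} {f : F} (hf : f ∈ R.V) (hfD : f ∈ riemannRochSpace D) :
    R.red ⟨f, hf⟩ ∈ R.redL D :=
  ⟨f, hf, hfD, rfl⟩

theorem mapDomain_nonneg {α β : Type*} (f : α → β) {v : α →₀ ℤ} (hv : 0 ≤ v) :
    0 ≤ Finsupp.mapDomain f v := by
  classical
  rw [Finsupp.le_def]
  intro b
  rw [Finsupp.mapDomain, Finsupp.sum_apply]
  refine Finset.sum_nonneg fun a _ => ?_
  show 0 ≤ (Finsupp.single (f a) (v a)) b
  rw [Finsupp.single_apply]
  split_ifs
  · exact Finsupp.le_def.mp hv a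
  · exact le_rfl

/-- Reduction of divisors preserves the degree (all places have degree one). -/
theorem degree_mapDomain [FF1 K F] [FF1 k Fk] (D : Divisor K F) :
    Divisor.degree (Finsupp.mapDomain R.r D) = Divisor.degree D := by
  induction D using Finsupp.induction with
  | zero => simp
  | single_add P n D _ _ ih =>
    rw [Finsupp.mapDomain_add, map_add, map_add, ih, Finsupp.mapDomain_single,
      Divisor.degree_single, Divisor.degree_single, deg_eq_one, deg_eq_one]

/-- `red (L(D) ∩ V) ⊆ L(r_* D)`. -/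
theorem redL_le [FF1 K F] (D : Divisor K F) :
    R.redL D ≤ riemannRochSpace (Finsupp.mapDomain R.r D) := by
  rintro g ⟨f, hf, hfD, rfl⟩
  rw [mem_L_iff]
  intro Q
  by_cases hg : R.red ⟨f, hf⟩ = 0
  · exact Or.inl hg
  right
  have hf0 : f ≠ 0 := by
    rintro rfl
    exact hg (map_zero R.red)
  have hE := R.ord_red f hf hg (divOf f hf0) (fun P => divOf_apply f hf0 P) Q
  rw [← hE]
  have hnn : 0 ≤ D + divOf f hf0 := by
    rw [Finsupp.le_def]
    intro P
    have := (mem_L_iff.mp hfD P).resolve_left hf0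
    simp only [Finsupp.coe_zero, Pi.zero_apply, Finsupp.coe_add, Pi.add_apply, divOf_apply]
    omega
  have := Finsupp.le_def.mp (mapDomain_nonneg R.r hnn) Q
  rw [Finsupp.mapDomain_add] at this
  simp only [Finsupp.coe_zero, Pi.zero_apply, Finsupp.coe_add, Pi.add_apply] at this
  omega

/-- Consequences of an orthonormal basis of `L(D)`. -/
theorem exists_basis_of_orthOn [FF1 K F] (D : Divisor K F)
    (horth : R.OrthOn (riemannRochSpace D)) :
    ∃ (w : Fin (ell D) → F) (hw : ∀ i, w i ∈ R.V), (∀ i, w i ∈ riemannRochSpace D) ∧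
      LinearIndependent K w ∧ Submodule.span K (Set.range w) = riemannRochSpace D ∧
      LinearIndependent k (fun i => R.red ⟨w i, hw i⟩) ∧
      Submodule.span k (Set.range fun i => R.red ⟨w i, hw i⟩) = R.redL D ∧
      ∀ f ∈ riemannRochSpace D, f ∈ R.V →
        ∃ c : Fin (ell D) → K, (∀ i, algebraMap K F (c i) ∈ R.V) ∧ f = ∑ i, c i • w i := by
  classical
  obtain ⟨n, w, hw, hwD, hspan, hli⟩ := horth
  have hliK : LinearIndependent K w := R.linearIndependent_of_red w hw hli
  have hspan' : Submodule.span K (Set.range w) = riemannRochSpace D :=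
    le_antisymm (Submodule.span_le.mpr (by rintro _ ⟨i, rfl⟩; exact hwD i)) hspan
  have hn : n = ell D := by
    have := finrank_span_eq_card hliK
    rw [hspan', Fintype.card_fin] at this
    exact this.symm
  subst hn
  have hlat : ∀ f ∈ riemannRochSpace D, f ∈ R.V →
      ∃ c : Fin (ell D) → K, (∀ i, algebraMap K F (c i) ∈ R.V) ∧ f = ∑ i, c i • w i := by
    intro f hfD hfV
    rw [← hspan'] at hfD
    obtain ⟨c, hc⟩ := (Submodule.mem_span_range_iff_exists_fun K).mp hfD
    refine ⟨c, fun i => ?_, hc.symm⟩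
    exact R.coeff_mem_of_red w hw hli Finset.univ c (by rw [hc]; exact hfV) i (Finset.mem_univ i)
  refine ⟨w, hw, hwD, hliK, hspan', hli, ?_, hlat⟩
  apply le_antisymm
  · rw [Submodule.span_le]
    rintro _ ⟨i, rfl⟩
    exact R.red_mem_redL (hw i) (hwD i)
  · rintro g ⟨f, hf, hfD, rfl⟩
    obtain ⟨c, hcV, hfc⟩ := hlat f hfD hf
    have hx : (⟨f, hf⟩ : R.V) = ∑ i, (⟨_, hcV i⟩ : R.V) * ⟨w i, hw i⟩ := by
      apply Subtype.ext
      show f = (R.V.subtype _ : F)
      rw [map_sum, hfc]
      exact Finset.sum_congr rfl fun i _ => Algebra.smul_def _ _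
    rw [hx, map_sum]
    refine Submodule.sum_mem _ fun i _ => ?_
    rw [map_mul]
    obtain ⟨b, hb⟩ := R.red_const (c i) (hcV i)
    rw [hb, ← Algebra.smul_def]
    exact Submodule.smul_mem _ _ (Submodule.subset_span ⟨i, rfl⟩)

/-- `dim_k red (L(D) ∩ V) = ℓ(D)`. -/
theorem finrank_redL [FF1 K F] (D : Divisor K F) (horth : R.OrthOn (riemannRochSpace D)) :
    Module.finrank k (R.redL D) = ell D := by
  obtain ⟨w, hw, -, -, -, hli, hspan, -⟩ := R.exists_basis_of_orthOn D horth
  rw [← hspan, finrank_span_eq_card hli, Fintype.card_fin]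

/-- **Upper semicontinuity**: `ℓ(D) ≤ ℓ(r_* D)`. -/
theorem ell_le_ell_mapDomain [FF1 K F] [FF1 k Fk] (D : Divisor K F)
    (horth : R.OrthOn (riemannRochSpace D)) :
    ell D ≤ ell (Finsupp.mapDomain R.r D) := by
  rw [← R.finrank_redL D horth]
  exact Submodule.finrank_mono (R.redL_le D)

/-- The genus cannot go up under reduction. -/
theorem genusFF_le [FF1 K F] [FF1 k Fk]
    (horth : ∀ D : Divisor K F, R.OrthOn (riemannRochSpace D)) :
    genusFF k Fk ≤ genusFF K F := by
  obtain ⟨v⟩ := FF1.nonempty_place (K := K) (F := F)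
  -- a divisor of large degree
  set m : ℤ := 2 * (genusFF k Fk : ℤ) + 2 * (genusFF K F : ℤ) with hm
  let D : Divisor K F := Finsupp.single v m
  have hdeg : Divisor.degree D = m := by
    simp [D, deg_eq_one]
  have h1 : (ell D : ℤ) = Divisor.degree D + 1 - (genusFF K F : ℤ) :=
    ell_eq_of_degree_gt (by rw [hdeg]; omega)
  have h2 : (ell (Finsupp.mapDomain R.r D) : ℤ)
      = Divisor.degree (Finsupp.mapDomain R.r D) + 1 - (genusFF k Fk : ℤ) :=
    ell_eq_of_degree_gt (by rw [R.degree_mapDomain, hdeg]; omega)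
  have h3 := R.ell_le_ell_mapDomain D (horth D)
  rw [R.degree_mapDomain] at h2
  omega

/-- **W4**: if the genus does not drop and `deg D > 2 g - 2`, the integral lattice `L(D) ∩ V`
reduces ONTO `L(r_* D)`. -/
theorem redL_eq [FF1 K F] [FF1 k Fk] (hg : genusFF K F ≤ genusFF k Fk) (D : Divisor K F)
    (hD : 2 * (genusFF k Fk : ℤ) - 2 < Divisor.degree D)
    (horth : R.OrthOn (riemannRochSpace D)) :
    R.redL D = riemannRochSpace (Finsupp.mapDomain R.r D) := by
  refine Submodule.eq_of_le_of_finrank_le (R.redL_le D) ?_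
  rw [R.finrank_redL D horth]
  have h1 := riemann_inequality_genusFF D
  have h2 : (ell (Finsupp.mapDomain R.r D) : ℤ)
      = Divisor.degree (Finsupp.mapDomain R.r D) + 1 - (genusFF k Fk : ℤ) :=
    ell_eq_of_degree_gt (by rw [R.degree_mapDomain]; exact hD)
  rw [R.degree_mapDomain] at h2
  have : (ell (Finsupp.mapDomain R.r D) : ℤ) ≤ ell D := by
    have : (genusFF K F : ℤ) ≤ genusFF k Fk := by exact_mod_cast hg
    omega
  exact_mod_cast this

/-- In the situation of W4, `ℓ(D) = ℓ(r_* D) = deg D + 1 - g`. -/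
theorem ell_eq [FF1 K F] [FF1 k Fk] (hg : genusFF K F ≤ genusFF k Fk) (D : Divisor K F)
    (hD : 2 * (genusFF k Fk : ℤ) - 2 < Divisor.degree D)
    (horth : R.OrthOn (riemannRochSpace D)) :
    ell D = ell (Finsupp.mapDomain R.r D) ∧
      (ell D : ℤ) = Divisor.degree D + 1 - (genusFF k Fk : ℤ) := by
  have h0 := R.finrank_redL D horth
  rw [R.redL_eq hg D hD horth] at h0
  have h2 : (ell (Finsupp.mapDomain R.r D) : ℤ)
      = Divisor.degree (Finsupp.mapDomain R.r D) + 1 - (genusFF k Fk : ℤ) :=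
    ell_eq_of_degree_gt (by rw [R.degree_mapDomain]; exact hD)
  rw [R.degree_mapDomain] at h2
  have h3 : ell (Finsupp.mapDomain R.r D) = ell D := h0
  exact ⟨h3.symm, by rw [← h3]; exact h2⟩

/-- **W4, basis form**: for `deg D > 2 g - 2` (equal genus) there is a `K`-basis `w` of `L(D)`
inside `V` whose reductions form a `k`-basis of `L(r_* D)`, and `L(D) ∩ V = ⊕ O wᵢ`. -/
theorem exists_lattice_basis [FF1 K F] [FF1 k Fk] (hg : genusFF K F ≤ genusFF k Fk)
    (D : Divisor K F) (hD : 2 * (genusFF k Fk : ℤ) - 2 < Divisor.degree D)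
    (horth : R.OrthOn (riemannRochSpace D)) :
    ∃ (w : Fin (ell D) → F) (hw : ∀ i, w i ∈ R.V), (∀ i, w i ∈ riemannRochSpace D) ∧
      LinearIndependent K w ∧ Submodule.span K (Set.range w) = riemannRochSpace D ∧
      LinearIndependent k (fun i => R.red ⟨w i, hw i⟩) ∧
      Submodule.span k (Set.range fun i => R.red ⟨w i, hw i⟩)
        = riemannRochSpace (Finsupp.mapDomain R.r D) ∧
      ∀ f ∈ riemannRochSpace D, f ∈ R.V →
        ∃ c : Fin (ell D) → K, (∀ i, algebraMap K F (c i) ∈ R.V) ∧ f = ∑ i, c i • w i := by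
  obtain ⟨w, hw, h1, h2, h3, h4, h5, h6⟩ := R.exists_basis_of_orthOn D horth
  exact ⟨w, hw, h1, h2, h3, h4, by rw [h5, R.redL_eq hg D hD horth], h6⟩

end RedDatum

end Fermat.Agent.S19.H195

end
end
-- ===== PACK-END S19/H195/RedDatum.lean

-- ===== PACK-BEGIN A2/H609/Horizontal.lean
section




/-!
# Node purity, part 11: (H1) from divisibility of the horizontal valuations

`R` a noetherian integrally closed domain with fraction field `K`, `u ∈ R`, `u ≠ 0`, `𝔓` a
minimal prime of `(u)`.  Then `R_𝔓 ⊆ K` is a discrete valuation ring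
(`isDiscreteValuationRing_locAt_of_mem_minimalPrimes`), and if `u = u₀ h ^ m` with `u₀` a unit
of the corresponding valuation subring, then `f ^ m = u r` with `f, r ∈ R`, `r ∉ 𝔓`
(`exists_pow_eq_mul_of_divisible`): this is hypothesis (H1) of the purity theorems.
Mathlib + `A2.H849` (Hartogs).
-/

set_option autoImplicit false

namespace Fermat.Agent.A2.H609

open Fermat.Agent.A2.H849

variable {R : Type*} [CommRing R] [IsDomain R] [IsNoetherianRing R] [IsIntegrallyClosed R]
variable {K : Type*} [Field K] [Algebra R K] [IsFractionRing R K]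

omit [IsIntegrallyClosed R] [IsDomain R] in
/-- A minimal prime of `(u)` is a colon ideal `(u) : c`. -/
theorem exists_colon_of_mem_minimalPrimes {u : R} {𝔓 : Ideal R}
    (h𝔓 : 𝔓 ∈ (Ideal.span {u}).minimalPrimes) :
    ∃ c : R, ∀ r, r ∈ 𝔓 ↔ u ∣ r * c := by
  have h1 : 𝔓 ∈ (Module.annihilator R (R ⧸ Ideal.span {u})).minimalPrimes := by
    rw [Ideal.annihilator_quotient]
    exact h𝔓
  have h2 := Module.associatedPrimes.minimalPrimes_annihilator_subset_associatedPrimes R
    (R ⧸ Ideal.span {u}) h1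
  obtain ⟨-, y, hy⟩ := (isAssociatedPrime_iff (I := 𝔓) (M := R ⧸ Ideal.span {u})).1 h2
  obtain ⟨c, rfl⟩ := Ideal.Quotient.mk_surjective y
  refine ⟨c, fun r => ?_⟩
  rw [hy, Submodule.mem_colon_singleton, Submodule.mem_bot]
  exact smul_mk_span_eq_zero_iff u r c

/-- The localisation at a minimal prime of a nonzero principal ideal is a discrete valuation
ring. -/
theorem isDiscreteValuationRing_locAt_of_mem_minimalPrimes {u : R} (hu : u ≠ 0)
    {𝔓 : Ideal R} [𝔓.IsPrime] (h𝔓 : 𝔓 ∈ (Ideal.span {u}).minimalPrimes) :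
    IsDiscreteValuationRing (locAt K 𝔓) := by
  obtain ⟨c, hc⟩ := exists_colon_of_mem_minimalPrimes h𝔓
  exact isDiscreteValuationRing_locAt_of_colon 𝔓 u c hu hc

omit [IsDomain R] [IsNoetherianRing R] [IsIntegrallyClosed R] [Algebra R K]
  [IsFractionRing R K] in
/-- In a valuation subring, `x ^ m ∈ V → x ∈ V`. -/
theorem mem_valuationSubring_of_pow_mem (V : ValuationSubring K) {x : K} {m : ℕ} (hm : m ≠ 0)
    (hx : x ^ m ∈ V) : x ∈ V := by
  rcases V.mem_or_inv_mem x with h | h
  · exact h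
  · by_cases hx0 : x = 0
    · rw [hx0]
      exact V.zero_mem
    have h1 : x = x ^ m * x⁻¹ ^ (m - 1) := by
      obtain ⟨k, rfl⟩ := Nat.exists_eq_succ_of_ne_zero hm
      rw [Nat.succ_sub_one, pow_succ, inv_pow]
      field_simp
    rw [h1]
    exact V.mul_mem _ _ hx (V.pow_mem h _)

/-- **(H1) from divisibility.**  At a minimal prime `𝔓` of `(u)`: if `u = u₀ h ^ m` with `u₀` a
unit of the discrete valuation ring `R_𝔓`, then `f ^ m = u r` with `r ∉ 𝔓`. -/
theorem exists_pow_eq_mul_of_divisible {u : R} (hu : u ≠ 0) {m : ℕ} (hm : m ≠ 0)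
    {𝔓 : Ideal R} (h𝔓 : 𝔓 ∈ (Ideal.span {u}).minimalPrimes)
    (hdiv : ∀ V : ValuationSubring K, IsDiscreteValuationRing V →
      (∀ r : R, algebraMap R K r ∈ V) → (∀ s : R, s ∉ 𝔓 → (algebraMap R K s)⁻¹ ∈ V) →
      ∃ h u₀ : K, u₀ ∈ V ∧ u₀⁻¹ ∈ V ∧ algebraMap R K u = u₀ * h ^ m) :
    ∃ f r : R, r ∉ 𝔓 ∧ f ^ m = u * r := by
  have h𝔓p : 𝔓.IsPrime := h𝔓.1.1
  have hinj : Function.Injective (algebraMap R K) := IsFractionRing.injective R K
  have hdvr : IsDiscreteValuationRing (locAt K 𝔓) :=
    isDiscreteValuationRing_locAt_of_mem_minimalPrimes hu h𝔓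
  have hV := isLocDVR_locValuationSubring (K := K) 𝔓 hdvr
  set V : ValuationSubring K :=
    locValuationSubring 𝔓 (inferInstance : ValuationRing (locAt K 𝔓)) with hVdef
  obtain ⟨h, u₀, hu₀, hu₀', huh⟩ := hdiv V hV.dvr hV.le hV.inv_mem
  have huK : algebraMap R K u ≠ 0 := fun h0 => hu (hinj (by rw [h0, map_zero]))
  have hu₀0 : u₀ ≠ 0 := by
    rintro rfl
    rw [zero_mul] at huh
    exact huK huh
  have hh0 : h ≠ 0 := by
    rintro rfl
    rw [zero_pow hm, mul_zero] at huh
    exact huK huh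
  have hhV : h ∈ V := by
    refine mem_valuationSubring_of_pow_mem V hm ?_
    have : h ^ m = algebraMap R K u * u₀⁻¹ := by
      rw [huh]
      field_simp
    rw [this]
    exact V.mul_mem _ _ (hV.le u) hu₀'
  obtain ⟨φ, s, hs, hφ⟩ := hV.exists_frac h hhV
  obtain ⟨ρ, t, ht, hρ⟩ := hV.exists_frac u₀⁻¹ hu₀'
  have hsK : algebraMap R K s ≠ 0 := by
    intro h0
    apply hs
    rw [hinj (by rw [h0, map_zero] : algebraMap R K s = algebraMap R K 0)]
    exact 𝔓.zero_mem
  have htK : algebraMap R K t ≠ 0 := by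
    intro h0
    apply ht
    rw [hinj (by rw [h0, map_zero] : algebraMap R K t = algebraMap R K 0)]
    exact 𝔓.zero_mem
  have hρK : algebraMap R K ρ ≠ 0 := by
    intro h0
    rw [h0, zero_mul] at hρ
    exact inv_ne_zero hu₀0 hρ
  have hρ0 : ρ ≠ 0 := by
    rintro rfl
    exact hρK (map_zero _)
  have hu₀ρ : u₀ * algebraMap R K ρ = algebraMap R K t := by
    have h1 : u₀ * u₀⁻¹ = 1 := mul_inv_cancel₀ hu₀0
    rw [hρ] at h1
    field_simp at h1
    exact h1
  have hρ𝔓 : ρ ∉ 𝔓 := by
    intro hmem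
    apply hV.inv_not_mem ρ hmem hρ0
    have : (algebraMap R K ρ)⁻¹ = u₀ * (algebraMap R K t)⁻¹ := by
      rw [← hu₀ρ]
      field_simp
    rw [this]
    exact V.mul_mem _ _ hu₀ (hV.inv_mem t ht)
  refine ⟨φ * t, ρ * s ^ m * t ^ (m - 1), ?_, ?_⟩
  · intro hmem
    rcases h𝔓p.mem_or_mem hmem with h1 | h1
    · rcases h𝔓p.mem_or_mem h1 with h2 | h2
      · exact hρ𝔓 h2
      · exact hs (h𝔓p.mem_of_pow_mem m h2)
    · exact ht (h𝔓p.mem_of_pow_mem _ h1)
  · apply hinj
    obtain ⟨k, rfl⟩ := Nat.exists_eq_succ_of_ne_zero hm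
    rw [Nat.succ_sub_one]
    simp only [map_mul, map_pow]
    have hs' : h * algebraMap R K s = algebraMap R K φ := by
      rw [hφ]
      field_simp
    calc (algebraMap R K φ * algebraMap R K t) ^ (k + 1)
        = algebraMap R K t * (algebraMap R K φ) ^ (k + 1) * (algebraMap R K t) ^ k := by ring
      _ = (u₀ * algebraMap R K ρ) * (h * algebraMap R K s) ^ (k + 1) *
            (algebraMap R K t) ^ k := by rw [hu₀ρ, hs']
      _ = algebraMap R K u * (algebraMap R K ρ * (algebraMap R K s) ^ (k + 1) *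
            (algebraMap R K t) ^ k) := by rw [huh, Nat.succ_eq_add_one]; ring

end Fermat.Agent.A2.H609

end
-- ===== PACK-END A2/H609/Horizontal.lean

-- ===== PACK-BEGIN A2/H373/Sheets.lean
section





/-!
# Cell A2 — route G: leaf SHEETS (helper373)

`sheetsLeafU_of_base : H12.BaseLeaf → H12.SheetsLeafU` — the corrected leaf **SHEETS** of
`H12/AlgLeavesU.lean` in its EXACT shape, from the leaf **BASE** alone (the leaf **ROOT** is
`H12.rootLeaf`).

For a Kummer-split cover `L = F(g_i^{1/m})` in the context `SSCtx`: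

* `finite`      : `F` has at most two sheets (`base_sheets_finite`), and over each of them there
                  are finitely many sheets of `L` (`H93.CoverSplit.finite_setOf`);
* `exists_over` : Chevalley extension (`exists_sheet_over`);
* `unif`, `resdeg`, `free`, `trans` : COVER-SPLIT of helper93 (`H93.CoverSplit`), whose hypotheses
  are checked in `coverSplit_of_sheet`.

`sheetsConclusion_of_data` is the same statement with the Kummer data `(y, g)` explicit.
-/

set_option autoImplicit false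
set_option linter.style.haveILetI false
set_option linter.unusedSectionVars false

namespace Fermat.Agent.A2.H373

open Polynomial
open Fermat.Agent.A2
open Fermat.Agent.A2.H12 (IsSheet SSCtx BaseConclusion SheetsConclusion)

section Main

variable {R E F : Type} [CommRing R] [IsDomain R] [IsDiscreteValuationRing R]
    [HenselianLocalRing R] [IsAlgClosed (IsLocalRing.ResidueField R)]
    [Field E] [CharZero E] [Algebra R E] [IsFractionRing R E]
    [Field F] [Algebra E F] [Algebra R F] [IsScalarTower R E F]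
    {w : R} {q m : ℕ} {x : F} {Bf Bi : Subalgebra R F}
    {τ : F ≃+* F} {τE : E ≃+* E} {τR : R ≃+* R}

/-- **SHEETS** with explicit Kummer data. -/
theorem sheetsConclusion_of_data (ctx : SSCtx w q m x Bf Bi τ τE τR)
    (hbase : BaseConclusion w x τ)
    (L : Type) [Field L] [Algebra F L] [Algebra R L] [IsScalarTower R F L]
    [FiniteDimensional F L] [IsGalois F L]
    {n : ℕ} (y : Fin n → L) (g : Fin n → F) (hg0 : ∀ i, g i ≠ 0)
    (hy : ∀ i, y i ^ m = algebraMap F L (g i))
    (hgen : IntermediateField.adjoin F (Set.range y) = ⊤)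
    (hsplit : ∀ i, ∀ V : ValuationSubring F, IsSheet w x V →
      ∃ u : F, u ≠ 0 ∧ u ∈ V ∧ u⁻¹ ∈ V ∧ g i - u ^ m ∈ V.nonunits) :
    SheetsConclusion L w x := by
  classical
  -- the constants
  have hmu : IsUnit (m : R) := H12.isUnit_natCast_of_not_dvd ctx.qprime ctx.qmem ctx.qm
  obtain ⟨ζ, hζ, -⟩ := (H12.rootLeaf w q m x Bf Bi τ τE τR ctx).root
  have hinj : Function.Injective (algebraMap R F) := algebraMap_RF_injective E
  have hζF : IsPrimitiveRoot (algebraMap R F ζ) m := hζ.map_of_injective hinj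
  have hw0 : algebraMap R F w ≠ 0 := algebraMap_w_ne_zero ctx
  have hφw0 : algebraMap F L (algebraMap R F w) ≠ 0 := by
    intro h
    exact hw0 ((map_eq_zero_iff _ (algebraMap F L).injective).1 h)
  have hRL : algebraMap R L w = algebraMap F L (algebraMap R F w) :=
    IsScalarTower.algebraMap_apply R F L w
  -- generation as an algebra
  have hgen' : Algebra.adjoin F (Set.range y) = ⊤ := by
    have h1 := IntermediateField.adjoin_toSubalgebra (F := F) (E := L) (Set.range y)
    rw [hgen] at h1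
    rw [← h1]
    rfl
  -- the residual roots
  have hex : ∀ V : ValuationSubring F, ∃ c : Fin n → F, IsSheet w x V →
      ∀ i, c i ≠ 0 ∧ c i ∈ V ∧ (c i)⁻¹ ∈ V ∧ g i - c i ^ m ∈ V.nonunits := by
    intro V
    by_cases hV : IsSheet w x V
    · choose c hc using fun i => hsplit i V hV
      exact ⟨c, fun _ => hc⟩
    · exact ⟨fun _ => 0, fun h => absurd h hV⟩
  choose c hc using hex
  -- COVER-SPLIT at every sheet
  have D : ∀ (V : ValuationSubring F) (W : ValuationSubring L), IsSheet w x V →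
      W.comap (algebraMap F L) = V →
      H93.CoverSplit V W (algebraMap R F w) m (algebraMap R F ζ) y g (c V) :=
    fun V W hV hW => coverSplit_of_sheet ctx.mpos hmu hζF hV (hbase.discrete V hV) hw0 hg0 hy
      hgen' (hc V hV) hW
  have D' : ∀ W : ValuationSubring L, IsSheet w (algebraMap F L x) W →
      H93.CoverSplit (W.comap (algebraMap F L)) W (algebraMap R F w) m (algebraMap R F ζ) y g
        (c (W.comap (algebraMap F L))) :=
    fun W hW => D _ W (H12.IsSheet.comap_algebraMap hW) rfl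
  refine ⟨?_, ?_, ?_, ?_, ?_, ?_⟩
  · -- finite
    have hfin := base_sheets_finite ctx hbase
    refine (Set.Finite.biUnion hfin (fun V _ =>
      H93.CoverSplit.finite_setOf (L := L) V (algebraMap R F w) m (algebraMap R F ζ) y g
        (c V))).subset ?_
    intro W hW
    rw [Set.mem_iUnion₂]
    exact ⟨W.comap (algebraMap F L), H12.IsSheet.comap_algebraMap hW, D' W hW⟩
  · -- exists_over
    intro V hV
    exact exists_sheet_over hV
  · -- unif
    intro W hW a ha
    by_cases ha0 : a = 0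
    · exact ⟨0, W.zero_mem, by rw [ha0, mul_zero]⟩
    have haW : a ∈ W := mem_of_mem_nonunits W ha
    have hainv : a⁻¹ ∉ W := by
      rw [ValuationSubring.mem_nonunits_iff_or] at ha
      rcases ha with h | h
      · exact absurd h ha0
      · exact h
    refine ⟨a * (algebraMap F L (algebraMap R F w))⁻¹, (D' W hW).mul_inv_mem haW hainv, ?_⟩
    rw [hRL]
    field_simp
  · -- resdeg
    intro W hW b hb
    obtain ⟨a, -, ha⟩ := (D' W hW).exists_sub_mem hb
    refine ⟨a, ?_⟩
    have h1 : b - algebraMap F L a =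
        ((b - algebraMap F L a) * (algebraMap F L (algebraMap R F w))⁻¹) *
          algebraMap R L w := by
      rw [hRL]
      field_simp
    rw [h1]
    exact H12.mul_mem_nonunits W hW.2.2.1 ha
  · -- trans
    intro W W' hW hW' hcomap
    have D1 := D' W hW
    have D2 := D' W' hW'
    rw [← hcomap] at D2
    obtain ⟨σ, hσ⟩ := D1.exists_comap_eq D2
    refine ⟨σ.symm, fun b => ?_⟩
    rw [← hσ, ValuationSubring.mem_comap]
    show b ∈ W ↔ σ (σ.symm b) ∈ W
    rw [AlgEquiv.apply_symm_apply]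
  · -- free
    intro W hW σ hσ
    exact (D' W hW).eq_one_of_map_eq σ hσ

end Main

/-- **Leaf SHEETS (corrected shape `SheetsLeafU`) from leaf BASE.** -/
theorem sheetsLeafU_of_base (hBase : H12.BaseLeaf) : H12.SheetsLeafU := by
  intro R E F _ _ _ _ _ _ _ _ _ _ _ _ _ w q m x Bf Bi τ τE τR ctx L _ _ _ _ hK
  have hbase := hBase w q m x Bf Bi τ τE τR ctx
  obtain ⟨n, y, g, hg0, hy, hgen, -, hsplit⟩ := hK.gen
  haveI := hK.finite
  haveI := hK.galois
  exact sheetsConclusion_of_data ctx hbase L y g hg0 hy hgen hsplit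

end Fermat.Agent.A2.H373

end
-- ===== PACK-END A2/H373/Sheets.lean

-- ===== PACK-BEGIN A2/IF/H429/Local.lean
section


/-!
# A2 / IF (helper429): local lemmas for a valuation subring `P` of `ℚ̄` over `q`

* `root_unique_of_derivative_notMem` : a root of `f` is determined by its residue class when the
  derivative is a unit there;
* `exists_root_sub_mem_nonunits` : if `f(a) ≡ 0`, some root of the monic `f` is `≡ a`;
* `exists_pow_sub_mem_nonunits` : the residue field of `P` is algebraic over `𝔽_q`, in the form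
  `a ^ N ≡ a` for some `N` divisible by `q`;
* `exists_teichmuller` : every element of `P` is congruent to an element of the inertia field
  (a root of `X ^ N - X`).
-/

set_option autoImplicit false
set_option linter.style.haveILetI false
set_option linter.unusedSectionVars false

open scoped Pointwise
open Polynomial

namespace Fermat.Agent.A2.IF.H429

open Fermat.Agent.S55.Bridge Fermat.Agent.S55.Bridge.H594

attribute [local instance] isAlgebraic_Qbar isGalois_Qbar

local notation "Qb" => AlgebraicClosure ℚ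

/-- A root of `f` is determined by its class modulo `m` if `f'` is not in `m` there. -/
theorem root_unique_of_derivative_notMem {A : Type*} [CommRing A] [IsDomain A] (m : Ideal A)
    (f : A[X]) (a₀ α β : A) (hα : f.IsRoot α) (hβ : f.IsRoot β)
    (hd : f.derivative.eval a₀ ∉ m) (hαa : α - a₀ ∈ m) (hβa : β - a₀ ∈ m) : α = β := by
  by_contra hne
  obtain ⟨g, hg⟩ : ∃ g, f = (X - C α) * g := Polynomial.dvd_iff_isRoot.mpr hα
  have hgβ : g.eval β = 0 := by
    have h1 : f.eval β = 0 := hβ
    rw [hg, eval_mul, eval_sub, eval_X, eval_C] at h1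
    rcases mul_eq_zero.mp h1 with h | h
    · exact absurd (sub_eq_zero.mp h).symm hne
    · exact h
  apply hd
  have h2 : f.derivative.eval a₀ = g.eval a₀ + (a₀ - α) * g.derivative.eval a₀ := by
    rw [hg, derivative_mul, derivative_sub, derivative_X, derivative_C]
    simp
  rw [h2]
  apply m.add_mem
  · have h3 : a₀ - β ∣ g.eval a₀ - g.eval β := sub_dvd_eval_sub a₀ β g
    rw [hgβ, sub_zero] at h3
    obtain ⟨c, hc⟩ := h3
    rw [hc]
    apply m.mul_mem_right
    have : a₀ - β = -(β - a₀) := by ring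
    rw [this]
    exact m.neg_mem hβa
  · apply m.mul_mem_right
    have : a₀ - α = -(α - a₀) := by ring
    rw [this]
    exact m.neg_mem hαa

variable (P : ValuationSubring Qb)

/-- Roots of monic polynomials over `P` lie in `P`. -/
theorem mem_of_isRoot_map (g : (P : Type)[X]) (hg : g.Monic) (r : Qb)
    (hr : (g.map P.subtype).IsRoot r) : r ∈ P := by
  have hint : IsIntegral P r := by
    refine ⟨g, hg, ?_⟩
    have h1 : (g.map P.subtype).eval r = 0 := hr
    rw [eval_map] at h1
    exact h1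
  obtain ⟨y, hy⟩ := IsIntegrallyClosed.isIntegral_iff.mp hint
  rw [← hy]
  exact y.2

/-- If `f(a)` is a non-unit, then `a` is congruent to a root of the monic polynomial `f`. -/
theorem exists_root_sub_mem_nonunits (f : Qb[X]) (hf : f.Monic)
    (hroots : ∀ r ∈ f.roots, r ∈ P) (a : Qb) (ha : a ∈ P) (h : f.eval a ∈ P.nonunits) :
    ∃ r ∈ f.roots, a - r ∈ P.nonunits := by
  by_contra hcon
  have h1 : ∀ r ∈ f.roots, P.valuation (a - r) = 1 := by
    intro r hr
    have h2 : a - r ∉ P.nonunits := fun h' => hcon ⟨r, hr, h'⟩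
    rw [ValuationSubring.mem_nonunits_iff, not_lt] at h2
    exact le_antisymm ((P.valuation_le_one_iff _).mpr (sub_mem ha (hroots r hr))) h2
  have h3 : P.valuation (f.eval a) = 1 := by
    rw [(IsAlgClosed.splits f).eval_eq_prod_roots_of_monic hf a, map_multiset_prod,
      Multiset.map_map]
    apply Multiset.prod_eq_one
    intro x hx
    obtain ⟨r, hr, rfl⟩ := Multiset.mem_map.mp hx
    exact h1 r hr
  rw [ValuationSubring.mem_nonunits_iff, h3] at h
  exact lt_irrefl _ h

/-- Every algebraic number is a root of a primitive integer polynomial. -/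
theorem exists_primitive_aeval_eq_zero (a : Qb) :
    ∃ h : ℤ[X], h.IsPrimitive ∧ aeval a h = 0 := by
  have h1 : IsAlgebraic ℚ a := Algebra.IsAlgebraic.isAlgebraic a
  have h2 : IsAlgebraic ℤ a := (IsFractionRing.isAlgebraic_iff ℤ ℚ Qb).mpr h1
  obtain ⟨h, hh0, hha⟩ := h2
  refine ⟨h.primPart, h.isPrimitive_primPart, ?_⟩
  have h3 := h.eq_C_content_mul_primPart
  rw [h3, map_mul, aeval_C] at hha
  rcases mul_eq_zero.mp hha with h4 | h4
  · exfalso
    have h5 : h.content ≠ 0 := by
      rw [Ne, content_eq_zero_iff]; exact hh0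
    rw [eq_intCast, Int.cast_eq_zero] at h4
    exact h5 h4
  · exact h4

/-- The residue field of `P` is algebraic over `𝔽_q`, elementary form. -/
theorem exists_pow_sub_mem_nonunits (q : ℕ) (hq : q.Prime) (hP : P.LiesOverPrime q)
    (a : Qb) (ha : a ∈ P) : ∃ N : ℕ, q ∣ N ∧ 0 < N ∧ a ^ N - a ∈ P.nonunits := by
  classical
  haveI : Fact q.Prime := ⟨hq⟩
  let k := IsLocalRing.ResidueField P
  have hqk : ((q : ℕ) : k) = 0 := by
    have h1 : ((q : ℕ) : k) = IsLocalRing.residue P ((q : ℕ) : P) := by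
      rw [map_natCast]
    rw [h1, IsLocalRing.residue_eq_zero_iff, ← ValuationSubring.coe_mem_nonunits_iff]
    have h2 : (((q : ℕ) : P) : Qb) = (q : Qb) := by simp
    rw [h2]
    exact hP
  haveI : CharP k q := (CharP.charP_iff_prime_eq_zero hq).mpr hqk
  letI : Algebra (ZMod q) k := ZMod.algebra k q
  let a' : P := ⟨a, ha⟩
  let ā : k := IsLocalRing.residue P a'
  have halg : IsAlgebraic (ZMod q) ā := by
    obtain ⟨h, hprim, hha⟩ := exists_primitive_aeval_eq_zero a
    refine ⟨h.map (Int.castRingHom (ZMod q)), ?_, ?_⟩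
    · intro h0
      have hdvd : C (q : ℤ) ∣ h := by
        rw [C_dvd_iff_dvd_coeff]
        intro i
        have := congrArg (fun p => coeff p i) h0
        simp only [coeff_map, eq_intCast, coeff_zero] at this
        exact (ZMod.intCast_zmod_eq_zero_iff_dvd _ q).mp this
      have hu := hprim (q : ℤ) hdvd
      rw [Int.isUnit_iff] at hu
      rcases hu with hu | hu
      · have : q = 1 := by exact_mod_cast hu
        exact hq.one_lt.ne' this
      · have : (0 : ℤ) ≤ (q : ℤ) := Int.natCast_nonneg q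
        omega
    · rw [aeval_def, eval₂_map]
      have hcomp : (algebraMap (ZMod q) k).comp (Int.castRingHom (ZMod q)) =
          (IsLocalRing.residue P).comp (Int.castRingHom P) := RingHom.ext_int _ _
      rw [hcomp, ← hom_eval₂]
      have hz : eval₂ (Int.castRingHom P) a' h = 0 := by
        apply Subtype.ext
        have h1 := hom_eval₂ h (Int.castRingHom P) P.subtype a'
        have h2 : P.subtype.comp (Int.castRingHom P) = algebraMap ℤ Qb := RingHom.ext_int _ _
        rw [h2] at h1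
        have h3 : eval₂ (algebraMap ℤ Qb) (P.subtype a') h = 0 := hha
        rw [h3] at h1
        exact h1
      rw [hz, map_zero]
  let F : IntermediateField (ZMod q) k := IntermediateField.adjoin (ZMod q) {ā}
  haveI : FiniteDimensional (ZMod q) F :=
    IntermediateField.adjoin.finiteDimensional halg.isIntegral
  haveI : Finite F := Module.finite_of_finite (ZMod q)
  haveI : Fintype F := Fintype.ofFinite F
  let x : F := ⟨ā, IntermediateField.mem_adjoin_simple_self (ZMod q) ā⟩
  have hx : x ^ Fintype.card F = x := FiniteField.pow_card x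
  have hN0 : ((Fintype.card F : ℕ) : F) = 0 := FiniteField.cast_card_eq_zero F
  haveI : CharP F q := (RingHom.charP_iff (algebraMap F k) (algebraMap F k).injective q).mpr
    inferInstance
  refine ⟨Fintype.card F, (CharP.cast_eq_zero_iff F q _).mp hN0, Fintype.card_pos, ?_⟩
  have h1 : ā ^ Fintype.card F = ā := by
    have := congrArg (fun y : F => (y : k)) hx
    simpa using this
  have h2 : IsLocalRing.residue P (a' ^ Fintype.card F - a') = 0 := by
    rw [map_sub, map_pow]
    exact sub_eq_zero.mpr h1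
  rw [IsLocalRing.residue_eq_zero_iff, ← ValuationSubring.coe_mem_nonunits_iff] at h2
  simpa using h2


theorem natCast_mem_maximalIdeal_of_dvd (q : ℕ) (hP : P.LiesOverPrime q) (N : ℕ) (hqN : q ∣ N) :
    ((N : ℕ) : P) ∈ IsLocalRing.maximalIdeal P := by
  obtain ⟨c, rfl⟩ := hqN
  rw [Nat.cast_mul]
  apply Ideal.mul_mem_right
  rw [← ValuationSubring.coe_mem_nonunits_iff]
  have h2 : (((q : ℕ) : P) : Qb) = (q : Qb) := by simp
  rw [h2]
  exact hP

/-- **Teichmüller lifts.**  Every element of `P` is congruent modulo the maximal ideal to an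
element of the inertia field lying in `P`. -/
theorem exists_teichmuller (q : ℕ) (hq : q.Prime) (hP : P.LiesOverPrime q) (a : Qb)
    (ha : a ∈ P) : ∃ z : Qb, z ∈ P ∧ z ∈ inertiaField P ∧ a - z ∈ P.nonunits := by
  obtain ⟨N, hqN, hN0, haN⟩ := exists_pow_sub_mem_nonunits P q hq hP a ha
  have hN2 : 2 ≤ N := le_trans hq.two_le (Nat.le_of_dvd hN0 hqN)
  let g : (P : Type)[X] := X ^ N - X
  have hg : g.Monic := by
    apply monic_X_pow_sub
    rw [degree_X]
    exact_mod_cast hN2
  have hgmap : g.map P.subtype = X ^ N - X := by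
    simp [g]
  have hroots : ∀ r ∈ (g.map P.subtype).roots, r ∈ P := fun r hr =>
    mem_of_isRoot_map P g hg r (isRoot_of_mem_roots hr)
  have heval : (g.map P.subtype).eval a ∈ P.nonunits := by
    rw [hgmap]
    simpa using haN
  obtain ⟨z, hz, hza⟩ := exists_root_sub_mem_nonunits P _ (hg.map _) hroots a ha heval
  have hzP : z ∈ P := hroots z hz
  have hzN : z ^ N = z := by
    have h1 : (g.map P.subtype).eval z = 0 := isRoot_of_mem_roots hz
    rw [hgmap] at h1
    simp only [eval_sub, eval_pow, eval_X] at h1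
    exact sub_eq_zero.mp h1
  refine ⟨z, hzP, ?_, hza⟩
  rw [mem_inertiaField_iff]
  intro τ hτ
  have hτzP : τ z ∈ P := mem_of_mem_decomp P (decomp_of_inertia P hτ) hzP
  have hτzN : (τ z) ^ N = τ z := by rw [← map_pow, hzN]
  have key := root_unique_of_derivative_notMem (IsLocalRing.maximalIdeal P) g
    (⟨z, hzP⟩ : P) ⟨z, hzP⟩ ⟨τ z, hτzP⟩ ?_ ?_ ?_ ?_ ?_
  · exact (congrArg Subtype.val key).symm
  · show g.eval _ = 0
    simp only [g, eval_sub, eval_pow, eval_X]
    apply Subtype.ext
    simpa using sub_eq_zero.mpr hzN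
  · show g.eval _ = 0
    simp only [g, eval_sub, eval_pow, eval_X]
    apply Subtype.ext
    simpa using sub_eq_zero.mpr hτzN
  · intro hmem
    have hN := natCast_mem_maximalIdeal_of_dvd P q hP N hqN
    have h1 : g.derivative.eval (⟨z, hzP⟩ : P) =
        (N : P) * (⟨z, hzP⟩ : P) ^ (N - 1) - 1 := by
      simp [g, derivative_X_pow]
    rw [h1] at hmem
    have h2 : (1 : P) ∈ IsLocalRing.maximalIdeal P := by
      have := Ideal.sub_mem _ (Ideal.mul_mem_right ((⟨z, hzP⟩ : P) ^ (N - 1)) _ hN) hmem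
      simpa using this
    exact (Ideal.ne_top_iff_one _).mp (IsLocalRing.maximalIdeal.isMaximal P).ne_top h2
  · simp
  · rw [← ValuationSubring.coe_mem_nonunits_iff]
    exact sub_mem_nonunits_of_inertia P hτ hzP


end Fermat.Agent.A2.IF.H429

end
-- ===== PACK-END A2/IF/H429/Local.lean

-- ===== PACK-BEGIN Ribet/H819/PerAsm.lean
section




/-!
# Row 38, WALL-p, (S4) WILD: the cover side of `H704.CoreOut.WildFrame`, assembled (helper819)

`K = ℚ̄`, `F₀ = modularFunctionFieldFull N`, `E₁ ⊆ E₂ = E₁(u)` the tame and the wild level,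
`K₁ = F_{E₁}`, `K₂ = F_{E₂}` (`= A2.Mod.FE Eᵢ N`), `c : PerCtx K` with `c.F₁ = imBC F₀ E₁`
(e.g. `c = PerCtx.ofKummer …`), `e₁ = c.e₁BC`, `e₂ = c.e₂BC`, `L₁ = c.FcI`, `L₂ = c.L`.

* `hh_BC`           : `hI ^ p = algebraMap K₁ L₁ f_t`                               (field `hh`);
* `shell_period_BC` : from the ambient KD relation `σ₀ F = F · κ · f_t · G₀ ^ p`
  (`F = embBC f₂`, `κ ∈ E₂`): `f', G ∈ L₁`, `b ∈ L₂` with the fields `hper`, `hf₂`;
* the other cover fields: `PerShell` (`adjoin_incl_hI_algL`, `exists_pow_eq_tauF`, towers),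
  `PerWild` (`isGalois_algF`, `finiteDimensional_algF`, `adjoin_hI_algF`), `PerHK2`.
-/

set_option autoImplicit false
set_option linter.unusedSectionVars false
set_option linter.style.haveILetI false
set_option maxHeartbeats 400000

noncomputable section

namespace Fermat.Agent.Ribet.H819

open ModularCurve

namespace PerCtx

section Asm

variable {K : Type} [Field K] [Algebra ℚ K] (F₀ : IntermediateField ℚ (LaurentSeries ℚ))
  (c : PerCtx K) {E₁ E₂ : IntermediateField ℚ K}
  (hF₁ : c.F₁ = imBC F₀ E₁)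
  (hE : E₂.toSubfield = Subfield.closure ((E₁ : Set K) ∪ {c.u}))

theorem E'_eq_of (hE₁ : c.E₁ = E₁.toSubfield)
    (hE : E₂.toSubfield = Subfield.closure ((E₁ : Set K) ∪ {c.u})) :
    c.E' = E₂.toSubfield := by
  rw [hE, E', hE₁]
  rfl

/-- The field `hh` of `WildFrame`. -/
theorem hh_BC (ft : ↥(laurentBaseChange ↥E₁ F₀)) (hft : c.h ^ c.p = embBC F₀ E₁ ft) :
    letI := c.algF (c.e₁BC F₀ hF₁)
    c.hI ^ c.p = algebraMap ↥(laurentBaseChange ↥E₁ F₀) ↥c.FcI ft := by
  letI := c.algF (c.e₁BC F₀ hF₁)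
  exact c.hI_pow_algF (c.e₁BC F₀ hF₁) ft (by rw [coe_e₁BC, hft])

variable [Algebra ↥(laurentBaseChange ↥E₁ F₀) ↥(laurentBaseChange ↥E₂ F₀)]

/-- **The PER fields `hper`, `hf₂` of `WildFrame`** from the ambient KD relation. -/
theorem shell_period_BC (hE₁ : c.E₁ = E₁.toSubfield)
    (ft : ↥(laurentBaseChange ↥E₁ F₀)) (hft : c.h ^ c.p = embBC F₀ E₁ ft)
    (a : ↥(laurentBaseChange ↥E₁ F₀)) (ha : embBC F₀ E₁ a = HahnSeries.C (c.u ^ c.p))
    (f₂ G₀ ℓ₂ : ↥(laurentBaseChange ↥E₂ F₀)) (hf₂0 : f₂ ≠ 0)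
    (hℓ : embBC F₀ E₂ ℓ₂ = HahnSeries.C (embBC F₀ E₂ f₂).leadingCoeff)
    (κ : K) (hκ : κ ∈ E₂)
    (hσ : coeffMap (c.σ₀ : K →+* K) (embBC F₀ E₂ f₂) =
      embBC F₀ E₂ f₂ * HahnSeries.C κ * embBC F₀ E₁ ft * (embBC F₀ E₂ G₀) ^ c.p) :
    letI := c.algF (c.e₁BC F₀ hF₁)
    letI := c.algL (c.e₂BC F₀ hF₁ hE)
    letI := c.algLL
    ∃ (f' G : ↥c.FcI) (b : ↥c.L), f' ≠ 0 ∧ G ≠ 0 ∧ b ≠ 0 ∧
      c.tauF (c.e₁BC F₀ hF₁) f' =
        f' * algebraMap ↥(laurentBaseChange ↥E₁ F₀) ↥c.FcI a * G ^ c.p ∧
      algebraMap ↥(laurentBaseChange ↥E₂ F₀) ↥c.L f₂ =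
        algebraMap ↥(laurentBaseChange ↥E₂ F₀) ↥c.L ℓ₂ * algebraMap ↥c.FcI ↥c.L f' * b ^ c.p := by
  have hκ' : κ ∈ c.E' := by
    rw [c.E'_eq_of hE₁ hE]
    exact hκ
  refine c.shell_period (c.e₁BC F₀ hF₁) (c.e₂BC F₀ hF₁ hE) a ?_ f₂ G₀ ℓ₂ hf₂0 ?_ κ hκ' ?_
  · rw [coe_e₁BC]
    exact ha
  · rw [coe_e₂BC]
    exact hℓ
  · rw [coe_e₂BC, coe_e₂BC, hσ, mul_pow, hft]
    ring

end Asm

end PerCtx

end Fermat.Agent.Ribet.H819

end

end
-- ===== PACK-END Ribet/H819/PerAsm.lean

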