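import Mathlib
import Fermat.Agent.Pack.S44.G0E22L2
import Fermat.Agent.Pack.S44.G0E22L0
import Fermat.Agent.Pack.S44.G0E22L1
import Fermat.Agent.Pack.S44.G0E14L3
import Fermat.Agent.Pack.S44.G0E20L2
import Fermat.Agent.Pack.S44.G0E21L1
import Fermat.Agent.Pack.S44.G0E16L1
import Fermat.Agent.Pack.S44.G0E6L0
import Fermat.Agent.Pack.S44.G0E3L0
import Fermat.Agent.Pack.S44.G0E8L3
import Fermat.Agent.Pack.S44.G0E22L3
import Fermat.Agent.Pack.S44.G0E7L1
import Fermat.Agent.Pack.S44.G0E12L3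
import Fermat.Agent.Pack.S44.G0E18L0
import Fermat.Agent.Pack.S44.G0E21L0
import Fermat.Agent.Pack.S44.G0E17L3
import Fermat.Agent.Pack.S44.G0E7L2

-- ===== PACK-BEGIN A2/H528/FrickeGalois.lean
section


/-!
# A2 / W — the Fricke involution commutes with the arithmetic Galois action

* `wF_galois` : `w_N (σ • f) = σ • w_N f` for `σ ∈ Gal(ℚ̄/ℚ)` acting on the coefficients;
* `wSemi N : SemilinearAut ℚ̄ (FF N)` : `w_N` as a semilinear automorphism (so that it acts on
  places, divisors and on `JZero N = Pic0`), commuting with `arithmeticGalois`;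
* `wF_rat` : `w_N` preserves the `ℚ`-rational functions `coeffEmb (modularFunctionFieldFull N)`;
* `comapW` : pull back of a valuation subring by `w_N` (`V₀ := comapW V∞`), with transfer of
  "`σ`-stable" and "`σ` acts trivially on the residue field".
-/

set_option autoImplicit false
set_option synthInstance.maxHeartbeats 400000
set_option maxHeartbeats 1000000

noncomputable section

open ModularCurve HahnSeries AlgebraicCurve

namespace Fermat.Agent.A2.H528

open Fermat.Agent.S24 Fermat.Agent.S24.H997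

variable (N : ℕ) [NeZero N]

/-- the Galois action on `FF N` through the coefficients -/
abbrev gal (σ : Kbar ≃ₐ[ℚ] Kbar) : FF N ≃+* FF N :=
  arithmeticRingAut (modularFunctionFieldFull N) σ

omit [NeZero N] in
theorem gal_inclRN_jR (σ : Kbar ≃ₐ[ℚ] Kbar) (d : ℕ) [NeZero d] (hd : d ∣ N) :
    gal N σ (inclRN N (jR N d hd)) = inclRN N (jR N d hd) := by
  apply Subtype.ext
  show coeffMap (σ : Kbar →+* Kbar) (coeffEmb Kbar (qExpand ℚ d jq)) = _
  rw [coeffMap_coeffEmb]
  rfl

omit [NeZero N] in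
theorem gal_algebraMap (σ : Kbar ≃ₐ[ℚ] Kbar) (c : Kbar) :
    gal N σ (algebraMap Kbar (FF N) c) = algebraMap Kbar (FF N) (σ c) :=
  arithmeticRingAut_algebraMap (modularFunctionFieldFull N) σ c

theorem wFHom_gal_inclRN (σ : Kbar ≃ₐ[ℚ] Kbar) (r : RN N) :
    wFHom N (gal N σ (inclRN N r)) = gal N σ (wFHom N (inclRN N r)) := by
  obtain ⟨r, hr⟩ := r
  induction hr using Algebra.adjoin_induction with
  | mem x hx =>
      obtain ⟨y, ⟨d, hne, hd, rfl⟩, rfl⟩ := hx
      have := hne
      have := neZero_div N hd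
      have h1 : (⟨coeffEmb Kbar (qExpand ℚ d jq), Algebra.subset_adjoin
          ⟨_, ⟨d, hne, hd, rfl⟩, rfl⟩⟩ : RN N) = jR N d hd := rfl
      rw [h1, gal_inclRN_jR, wFHom_inclRN, wR_jR, gal_inclRN_jR]
  | algebraMap c =>
      have h1 : (⟨algebraMap Kbar (LaurentSeries Kbar) c, Subalgebra.algebraMap_mem _ c⟩ : RN N)
          = algebraMap Kbar (RN N) c := rfl
      have h2 : inclRN N (algebraMap Kbar (RN N) c) = algebraMap Kbar (FF N) c :=
        (inclRN N).commutes c
      rw [h1, h2, gal_algebraMap, wFHom_algebraMap, wFHom_algebraMap, gal_algebraMap]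
  | add x y hx hy ihx ihy =>
      have h1 : (⟨x + y, add_mem hx hy⟩ : RN N) = ⟨x, hx⟩ + ⟨y, hy⟩ := rfl
      rw [h1, map_add, map_add, map_add, map_add, map_add, ihx, ihy]
  | mul x y hx hy ihx ihy =>
      have h1 : (⟨x * y, mul_mem hx hy⟩ : RN N) = ⟨x, hx⟩ * ⟨y, hy⟩ := rfl
      rw [h1, map_mul, map_mul, map_mul, map_mul, map_mul, ihx, ihy]

/-- **`w_N` commutes with the Galois action on the coefficients.** -/
theorem wF_gal (σ : Kbar ≃ₐ[ℚ] Kbar) (f : FF N) :
    wF N (gal N σ f) = gal N σ (wF N f) := by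
  obtain ⟨r, t, -, rfl⟩ := exists_div_inclRN N f
  show wFHom N (gal N σ (inclRN N r / inclRN N t)) = gal N σ (wFHom N (inclRN N r / inclRN N t))
  rw [map_div₀, map_div₀, map_div₀, map_div₀, wFHom_gal_inclRN, wFHom_gal_inclRN]

/-- `w_N` as a semilinear automorphism of `FF N / ℚ̄` (trivial on the constants). -/
def wSemi : SemilinearAut Kbar (FF N) := SemilinearAut.ofAlgAut (wF N)

@[simp] theorem wSemi_smul (f : FF N) : wSemi N • f = wF N f := rfl

theorem wSemi_mul_self : wSemi N * wSemi N = 1 := by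
  rw [wSemi, ← map_mul]
  have h : wF N * wF N = 1 := AlgEquiv.ext fun f => wF_wF N f
  rw [h, map_one]

theorem wSemi_inv : (wSemi N)⁻¹ = wSemi N :=
  inv_eq_of_mul_eq_one_left (wSemi_mul_self N)

/-- **`w_N` commutes with `arithmeticGalois` inside `SemilinearAut`**; hence the actions on
places, divisors and on `JZero N` commute. -/
theorem wSemi_comm (σ : Kbar ≃ₐ[ℚ] Kbar) :
    wSemi N * arithmeticGalois (modularFunctionFieldFull N) σ
      = arithmeticGalois (modularFunctionFieldFull N) σ * wSemi N := by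
  refine Subtype.ext (Prod.ext (RingEquiv.ext fun f => ?_) ?_)
  · exact wF_gal N σ f
  · show (1 : RingAut Kbar) * σ.toRingEquiv = σ.toRingEquiv * 1
    rw [one_mul, mul_one]

/-- The actions of `w_N` and of the Galois group on `JZero N` commute. -/
theorem wSemi_smul_galois_smul (σ : Kbar ≃ₐ[ℚ] Kbar) (x : JZero N) :
    wSemi N • (σ • x) = σ • (wSemi N • x) := by
  rw [galois_smul_pic0_def, galois_smul_pic0_def, ← mul_smul, ← mul_smul, wSemi_comm]

/-- `w_N` preserves the `ℚ`-rational functions. -/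
theorem wF_rat {x : LaurentSeries ℚ} (hx : x ∈ modularFunctionFieldFull N) :
    ∃ y ∈ modularFunctionFieldFull N,
      ((wF N ⟨coeffEmb Kbar x, coeffEmb_mem_laurentBaseChange Kbar hx⟩ : FF N) :
        LaurentSeries Kbar) = coeffEmb Kbar y := by
  have key : ∀ x ∈ modularFunctionFieldFull N, ∀ hx' : coeffEmb Kbar x ∈ modularFunctionFieldBar N,
      ∃ y ∈ modularFunctionFieldFull N,
        ((wF N ⟨coeffEmb Kbar x, hx'⟩ : FF N) : LaurentSeries Kbar) = coeffEmb Kbar y := by
    intro x hx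
    have hx0 : x ∈ IntermediateField.adjoin ℚ (divisorExpansions N) := hx
    induction hx0 using IntermediateField.adjoin_induction with
    | mem y hy =>
        intro hx'
        obtain ⟨d, hne, hd, rfl⟩ := hy
        have := hne
        have := neZero_div N hd
        refine ⟨qExpand ℚ (N / d) jq, jqd_mem_full N (Nat.div_dvd_of_dvd hd), ?_⟩
        have h1 : (⟨coeffEmb Kbar (qExpand ℚ d jq), hx'⟩ : FF N) = jFd N d hd := rfl
        rw [h1, wF_jFd]
        rfl
    | algebraMap c =>
        intro hx'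
        refine ⟨algebraMap ℚ (LaurentSeries ℚ) c, IntermediateField.algebraMap_mem _ c, ?_⟩
        have h0 : coeffEmb Kbar (algebraMap ℚ (LaurentSeries ℚ) c)
            = algebraMap Kbar (LaurentSeries Kbar) (algebraMap ℚ Kbar c) := by
          rw [algebraMap_apply_eq_single, algebraMap_laurentSeries_eq_single, coeffEmb,
            coeffMap_single]
        have h1 : (⟨coeffEmb Kbar (algebraMap ℚ (LaurentSeries ℚ) c), hx'⟩ : FF N)
            = algebraMap Kbar (FF N) (algebraMap ℚ Kbar c) := Subtype.ext h0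
        rw [h1]
        show ((wFHom N (algebraMap Kbar (FF N) (algebraMap ℚ Kbar c)) : FF N) :
          LaurentSeries Kbar) = _
        rw [wFHom_algebraMap, h0]
        rfl
    | add y z hy hz ihy ihz =>
        intro hx'
        have hy' := coeffEmb_mem_laurentBaseChange Kbar (F₀ := modularFunctionFieldFull N) hy
        have hz' := coeffEmb_mem_laurentBaseChange Kbar (F₀ := modularFunctionFieldFull N) hz
        obtain ⟨a, ha, ha'⟩ := ihy hy hy'
        obtain ⟨b, hb, hb'⟩ := ihz hz hz'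
        refine ⟨a + b, add_mem ha hb, ?_⟩
        have h1 : (⟨coeffEmb Kbar (y + z), hx'⟩ : FF N)
            = ⟨coeffEmb Kbar y, hy'⟩ + ⟨coeffEmb Kbar z, hz'⟩ := Subtype.ext (map_add _ _ _)
        rw [h1, map_add, map_add]
        show ((wF N ⟨coeffEmb Kbar y, hy'⟩ : FF N) : LaurentSeries Kbar)
          + ((wF N ⟨coeffEmb Kbar z, hz'⟩ : FF N) : LaurentSeries Kbar) = _
        rw [ha', hb']
    | inv y hy ihy =>
        intro hx'
        have hy' := coeffEmb_mem_laurentBaseChange Kbar (F₀ := modularFunctionFieldFull N) hy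
        obtain ⟨a, ha, ha'⟩ := ihy hy hy'
        refine ⟨a⁻¹, inv_mem ha, ?_⟩
        have h1 : (⟨coeffEmb Kbar (y⁻¹), hx'⟩ : FF N)
            = (⟨coeffEmb Kbar y, hy'⟩ : FF N)⁻¹ := Subtype.ext (map_inv₀ _ _)
        rw [h1, map_inv₀, map_inv₀]
        show ((wF N ⟨coeffEmb Kbar y, hy'⟩ : FF N) : LaurentSeries Kbar)⁻¹ = _
        rw [ha']
    | mul y z hy hz ihy ihz =>
        intro hx'
        have hy' := coeffEmb_mem_laurentBaseChange Kbar (F₀ := modularFunctionFieldFull N) hy
        have hz' := coeffEmb_mem_laurentBaseChange Kbar (F₀ := modularFunctionFieldFull N) hz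
        obtain ⟨a, ha, ha'⟩ := ihy hy hy'
        obtain ⟨b, hb, hb'⟩ := ihz hz hz'
        refine ⟨a * b, mul_mem ha hb, ?_⟩
        have h1 : (⟨coeffEmb Kbar (y * z), hx'⟩ : FF N)
            = ⟨coeffEmb Kbar y, hy'⟩ * ⟨coeffEmb Kbar z, hz'⟩ := Subtype.ext (map_mul _ _ _)
        rw [h1, map_mul, map_mul]
        show ((wF N ⟨coeffEmb Kbar y, hy'⟩ : FF N) : LaurentSeries Kbar)
          * ((wF N ⟨coeffEmb Kbar z, hz'⟩ : FF N) : LaurentSeries Kbar) = _
        rw [ha', hb']
  exact key x hx _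

/-! ### Pull back of valuation subrings by `w_N` -/

/-- The pull back `V ∘ w_N` of a valuation subring of `FF N`. (`V₀ := comapW N V∞`.) -/
def comapW (V : ValuationSubring (FF N)) : ValuationSubring (FF N) :=
  V.comap (wF N : FF N ≃+* FF N).toRingHom

theorem mem_comapW {V : ValuationSubring (FF N)} {f : FF N} :
    f ∈ comapW N V ↔ wF N f ∈ V := Iff.rfl

theorem comapW_comapW (V : ValuationSubring (FF N)) : comapW N (comapW N V) = V := by
  ext f
  rw [mem_comapW, mem_comapW, wF_wF]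

/-- the constants of `V ∘ w_N` are the constants of `V` -/
theorem algebraMap_mem_comapW {V : ValuationSubring (FF N)} {c : Kbar} :
    algebraMap Kbar (FF N) c ∈ comapW N V ↔ algebraMap Kbar (FF N) c ∈ V := by
  rw [mem_comapW]
  show wFHom N (algebraMap Kbar (FF N) c) ∈ V ↔ _
  rw [wFHom_algebraMap]

/-- if `σ` stabilises `V`, it stabilises `V ∘ w_N` -/
theorem gal_mem_comapW {V : ValuationSubring (FF N)} (σ : Kbar ≃ₐ[ℚ] Kbar)
    (h : ∀ f : FF N, f ∈ V → gal N σ f ∈ V) (f : FF N) (hf : f ∈ comapW N V) :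
    gal N σ f ∈ comapW N V := by
  rw [mem_comapW] at hf ⊢
  rw [wF_gal]
  exact h _ hf

/-- if `σ` acts trivially on the residue field of `V`, it does so on that of `V ∘ w_N`:
`σ f - f` is a non-unit of `V ∘ w_N` for every `f ∈ V ∘ w_N`. -/
theorem gal_sub_mem_comapW {V : ValuationSubring (FF N)} (σ : Kbar ≃ₐ[ℚ] Kbar)
    (h : ∀ f : FF N, f ∈ V → V.valuation (gal N σ f - f) < 1) (f : FF N)
    (hf : f ∈ comapW N V) :
    V.valuation (wF N (gal N σ f - f)) < 1 := by
  rw [mem_comapW] at hf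
  rw [map_sub, wF_gal]
  exact h _ hf

end Fermat.Agent.A2.H528

end
end
-- ===== PACK-END A2/H528/FrickeGalois.lean

-- ===== PACK-BEGIN Lib/NormL/Key.lean
section


/-!
# `NormL`, block KEY: `N(P) * elemSum (A * P) - elemSum A` extends continuously to `[1, 2]`
-/

namespace Fermat.Agent.Lib.NormL

open NumberField Fermat.Agent.S14.H74
open scoped nonZeroDivisors Classical

variable {K : Type*} [Field K] [NumberField K]

/-- The weight `χ(N x)`. -/
noncomputable def wt {m : ℕ} (χ : DirichletCharacter ℂ m) (x : 𝓞 K) : ℂ :=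
  χ ((Algebra.norm ℤ x : ℤ) : ZMod m)

theorem wt_eq_of_sub_mem {m : ℕ} (χ : DirichletCharacter ℂ m) {x x' : 𝓞 K}
    (h : x - x' ∈ Ideal.span {(m : 𝓞 K)}) : wt χ x = wt χ x' := by
  unfold wt
  rw [norm_zmod_eq_of_sub_mem m h]

theorem norm_wt_le_one {m : ℕ} (χ : DirichletCharacter ℂ m) (x : 𝓞 K) : ‖wt χ x‖ ≤ 1 :=
  DirichletCharacter.norm_le_one χ _

theorem summable_wt_mul_GS {m : ℕ} (χ : DirichletCharacter ℂ m) (ε : Bool) {s : ℝ}
    (hs : 1 < s) : Summable fun x : 𝓞 K ↦ wt χ x * ((GS K ε s x : ℝ) : ℂ) :=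
  Summable.of_norm_bounded (summable_FS (K := K) hs) fun x ↦ by
    rw [norm_mul, Complex.norm_real, Real.norm_eq_abs]
    calc ‖wt χ x‖ * |GS K ε s x| ≤ 1 * FS K s x :=
          mul_le_mul (norm_wt_le_one χ x) (abs_GS_le ε s x) (abs_nonneg _) zero_le_one
      _ = FS K s x := one_mul _

theorem sup_span_natCast_eq_top {m : ℕ} {B : Ideal (𝓞 K)} (h : (Ideal.absNorm B).Coprime m) :
    B ⊔ Ideal.span {(m : 𝓞 K)} = ⊤ := by
  rw [Ideal.eq_top_iff_one]
  have hc : IsCoprime ((Ideal.absNorm B : ℕ) : ℤ) (m : ℤ) := Nat.isCoprime_iff_coprime.mpr h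
  obtain ⟨u, v, huv⟩ := hc
  have h1 : ((u * (Ideal.absNorm B : ℤ) + v * (m : ℤ) : ℤ) : 𝓞 K) = 1 := by
    rw [huv]
    simp
  rw [← h1]
  push_cast
  refine Submodule.add_mem_sup ?_ ?_
  · exact B.mul_mem_left _ (Ideal.absNorm_mem B)
  · exact Ideal.mul_mem_left _ _ (Ideal.subset_span rfl)

/-- **K2**: decomposition of `elemSum` along residues modulo `m`. -/
theorem elemSum_eq_sum_residues {m : ℕ} (χ : DirichletCharacter ℂ m) (ε : Bool)
    (B Λ M : Ideal (𝓞 K)) (hM : M = Ideal.span {(m : 𝓞 K)}) [Fintype (𝓞 K ⧸ M)]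
    (hB : B ⊔ M = ⊤) (h1 : Λ ≤ B) (h2 : Λ ≤ M) (h3 : B ⊓ M ≤ Λ) :
    ∃ r : (𝓞 K ⧸ M) → 𝓞 K, ∀ s : ℝ, 1 < s →
      elemSum K χ ε B s = ∑ ρ : 𝓞 K ⧸ M,
        wt χ (Quotient.out ρ) * ((∑' l : Λ, GS K ε s (r ρ + (l : 𝓞 K)) : ℝ) : ℂ) := by
  have hex0 : ∀ ρ : 𝓞 K ⧸ M, ∃ b : 𝓞 K, b ∈ B ∧ b - Quotient.out ρ ∈ M := by
    intro ρ
    have : Quotient.out ρ ∈ B ⊔ M := by rw [hB]; trivial
    obtain ⟨b, hb, c, hc, hbc⟩ := Submodule.mem_sup.mp this
    refine ⟨b, hb, ?_⟩
    have : b - Quotient.out ρ = -c := by rw [← hbc]; ring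
    rw [this]
    exact M.neg_mem hc
  choose r hrB hrM using hex0
  have hout : ∀ x : 𝓞 K, x - Quotient.out (Ideal.Quotient.mk M x) ∈ M := by
    intro x
    rw [← Ideal.Quotient.eq, Ideal.Quotient.mk_out]
  have hex : ∀ x ∈ B, ∃ ρ, x - r ρ ∈ Λ := by
    intro x hx
    refine ⟨Ideal.Quotient.mk M x, h3 ⟨B.sub_mem hx (hrB _), ?_⟩⟩
    have e : x - r (Ideal.Quotient.mk M x) =
        (x - Quotient.out (Ideal.Quotient.mk M x)) -
          (r (Ideal.Quotient.mk M x) - Quotient.out (Ideal.Quotient.mk M x)) := by ring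
    rw [e]
    exact M.sub_mem (hout x) (hrM _)
  have hinj : ∀ ρ ρ', r ρ - r ρ' ∈ Λ → ρ = ρ' := by
    intro ρ ρ' h
    have hm : Quotient.out ρ - Quotient.out ρ' ∈ M := by
      have e : Quotient.out ρ - Quotient.out ρ' =
          (r ρ - r ρ') - (r ρ - Quotient.out ρ) + (r ρ' - Quotient.out ρ') := by ring
      rw [e]
      exact M.add_mem (M.sub_mem (h2 h) (hrM ρ)) (hrM ρ')
    rw [← Ideal.Quotient.eq, Ideal.Quotient.mk_out, Ideal.Quotient.mk_out] at hm
    exact hm
  refine ⟨r, fun s hs ↦ ?_⟩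
  have hF := summable_wt_mul_GS (K := K) χ ε hs
  have hgen := tsum_ideal_eq_sum_cosets B Λ h1 r hrB hex hinj
    (fun x : 𝓞 K ↦ wt χ x * ((GS K ε s x : ℝ) : ℂ)) hF
  have e0 : elemSum K χ ε B s = ∑' x : B, wt χ (x : 𝓞 K) * ((GS K ε s (x : 𝓞 K) : ℝ) : ℂ) := rfl
  rw [e0, hgen]
  refine Finset.sum_congr rfl fun ρ _ ↦ ?_
  rw [Complex.ofReal_tsum, ← tsum_mul_left]
  refine tsum_congr fun l ↦ ?_
  congr 1
  apply wt_eq_of_sub_mem
  have e : r ρ + (l : 𝓞 K) - Quotient.out ρ = (r ρ - Quotient.out ρ) + (l : 𝓞 K) := by ring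
  rw [e, ← hM]
  exact M.add_mem (hrM ρ) (h2 l.2)

/-- **KEY**: for nonzero ideals `A`, `P` of norm coprime to `m`, the function
`N(P) * elemSum (A * P) - elemSum A` extends continuously to `[1, 2]`. -/
theorem exists_continuousOn_elemSum_sub (K : Type*) [Field K] [NumberField K]
    {m : ℕ} [NeZero m] (χ : DirichletCharacter ℂ m)
    (ε : Bool) (A P : (Ideal (𝓞 K))⁰)
    (hA : (Ideal.absNorm (A : Ideal (𝓞 K))).Coprime m)
    (hP : (Ideal.absNorm (P : Ideal (𝓞 K))).Coprime m) :
    ∃ Δ : ℝ → ℂ, ContinuousOn Δ (Set.Icc 1 2) ∧ ∀ s : ℝ, 1 < s → s ≤ 2 →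
      (Ideal.absNorm (P : Ideal (𝓞 K)) : ℂ) *
          elemSum K χ ε ((A : Ideal (𝓞 K)) * (P : Ideal (𝓞 K))) s -
        elemSum K χ ε (A : Ideal (𝓞 K)) s = Δ s := by
  set M : Ideal (𝓞 K) := Ideal.span {(m : 𝓞 K)} with hM
  have hm0 : (m : 𝓞 K) ≠ 0 := Nat.cast_ne_zero.mpr (NeZero.ne m)
  have hM0 : M ≠ ⊥ := by
    rw [hM, Ne, Ideal.span_singleton_eq_bot]
    exact hm0
  have hA0 : (A : Ideal (𝓞 K)) ≠ ⊥ := nonZeroDivisors.coe_ne_zero A
  have hP0 : (P : Ideal (𝓞 K)) ≠ ⊥ := nonZeroDivisors.coe_ne_zero P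
  have : Finite (𝓞 K ⧸ M) := Ideal.finiteQuotientOfFreeOfNeBot _ hM0
  let _ : Fintype (𝓞 K ⧸ M) := Fintype.ofFinite _
  have hAM : (A : Ideal (𝓞 K)) ⊔ M = ⊤ := sup_span_natCast_eq_top hA
  have hAPM : (A : Ideal (𝓞 K)) * (P : Ideal (𝓞 K)) ⊔ M = ⊤ := by
    apply sup_span_natCast_eq_top
    rw [map_mul]
    exact Nat.Coprime.mul_left hA hP
  set Λ : Ideal (𝓞 K) := (A : Ideal (𝓞 K)) * M with hΛ
  have hΛ0 : Λ ≠ ⊥ := mul_ne_zero hA0 hM0
  have hΛP : Λ * (P : Ideal (𝓞 K)) = (A : Ideal (𝓞 K)) * (P : Ideal (𝓞 K)) * M := by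
    rw [hΛ]
    ring
  obtain ⟨r, hr⟩ := elemSum_eq_sum_residues χ ε (A : Ideal (𝓞 K)) Λ M hM hAM Ideal.mul_le_left
    Ideal.mul_le_right (by
      rw [← Ideal.mul_eq_inf_of_isCoprime ((Ideal.isCoprime_iff_sup_eq).mpr hAM)])
  obtain ⟨r', hr'⟩ := elemSum_eq_sum_residues χ ε ((A : Ideal (𝓞 K)) * (P : Ideal (𝓞 K)))
    (Λ * (P : Ideal (𝓞 K))) M hM hAPM (by rw [hΛP]; exact Ideal.mul_le_left)
    (by rw [hΛP]; exact Ideal.mul_le_right) (by
      rw [hΛP, ← Ideal.mul_eq_inf_of_isCoprime ((Ideal.isCoprime_iff_sup_eq).mpr hAPM)])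
  choose D hDc hD using fun ρ : 𝓞 K ⧸ M ↦
    exists_continuousOn_index_sub (K := K) ε Λ (P : Ideal (𝓞 K)) hΛ0 hP0 (r ρ) (r' ρ)
  refine ⟨fun s ↦ ∑ ρ : 𝓞 K ⧸ M, wt χ (Quotient.out ρ) * ((D ρ s : ℝ) : ℂ), ?_,
    fun s hs1 hs2 ↦ ?_⟩
  · refine continuousOn_finsetSum _ fun ρ _ ↦ ?_
    exact continuousOn_const.mul (Complex.continuous_ofReal.comp_continuousOn (hDc ρ))
  · rw [hr s hs1, hr' s hs1, Finset.mul_sum, ← Finset.sum_sub_distrib]
    refine Finset.sum_congr rfl fun ρ _ ↦ ?_
    rw [← hD ρ s hs1 hs2]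
    push_cast
    ring

end Fermat.Agent.Lib.NormL

end
-- ===== PACK-END Lib/NormL/Key.lean

-- ===== PACK-BEGIN S18/Mod/H216/NodeJ.lean
section






/-!
# S18 / MOD (helper216): G-V and G-QEP for the coordinate `j` — UNCONDITIONAL

For `ℓ ∤ M` and `A` over `ℓ`:
* `coreData_residue` : S28 `CoreData M κ` for the residue field `κ` of `A`;
* `partVStatement_j`   : `PartVStatement M A (jOm M)`;
* `partQepStatement_j` : `PartQepStatement M A (jOm M)`.
-/

set_option autoImplicit false
set_option linter.unusedSectionVars false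

noncomputable section

namespace Fermat.Agent.S18.Mod.H216

open ModularCurve AlgebraicCurve HahnSeries Polynomial Fermat.Agent.S18 Fermat.Agent.S18.Mod
open Fermat.Agent.S28 Fermat.Agent.S18.Alg

variable {M : ℕ} [NeZero M] {ℓ : ℕ} [Fact ℓ.Prime] (A : ValuationSubring Qb)

theorem charP_residue (hA : A.LiesOverPrime ℓ) : CharP (IsLocalRing.ResidueField ↥A) ℓ := by
  have hp : ℓ.Prime := Fact.out
  rw [CharP.charP_iff_prime_eq_zero hp]
  obtain ⟨ha, hmem⟩ := (ValuationSubring.mem_nonunits_iff_exists_mem_maximalIdeal).mp hA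
  have h1 : IsLocalRing.residue ↥A ⟨(ℓ : Qb), ha⟩ = 0 :=
    (IsLocalRing.residue_eq_zero_iff _).mpr hmem
  have h2 : (⟨(ℓ : Qb), ha⟩ : ↥A) = ((ℓ : ℕ) : ↥A) := Subtype.ext (by simp)
  rw [h2, map_natCast] at h1
  exact h1

/-- S28 `CoreData` over the residue field of `A`. -/
theorem coreData_residue (hℓM : ¬ ℓ ∣ M) (hA : A.LiesOverPrime ℓ) :
    CoreData M (IsLocalRing.ResidueField ↥A) := by
  haveI := charP_residue A hA
  exact H867.coreData_of_inputs M ℓ hℓM (IsLocalRing.ResidueField ↥A)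
    (fun p hp _ _ => H807.nonempty_modPolyData p hp)
    (fun p hp _ _ => H807.nonempty_unitPolyData p hp)
    H25.theta_identity

/-- **G-V for `x = j`** (exact target `PartVStatement M A (jOm M)`). -/
theorem partVStatement_j (hℓM : ¬ ℓ ∣ M) (hA : A.LiesOverPrime ℓ) :
    PartVStatement M A (jOm M) :=
  fun E _ _ hR => partV_j A E (coreData_residue A hℓM hA) hR

/-- **G-QEP for `x = j`** (exact target `PartQepStatement M A (jOm M)`). -/
theorem partQepStatement_j (hℓM : ¬ ℓ ∣ M) (hA : A.LiesOverPrime ℓ) :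
    PartQepStatement M A (jOm M) :=
  fun E _ _ hR => partQep_j A E (coreData_residue A hℓM hA) hR

end Fermat.Agent.S18.Mod.H216

end
end
-- ===== PACK-END S18/Mod/H216/NodeJ.lean

-- ===== PACK-BEGIN S18/H24/Finite.lean
section




/-!
# S18 / node_mod, part G-FLD (helper24) — the field `finite` for `x = j`

`field_finite_j` : for every intermediate field `E` of `Q̄/ℚ` and every level `M ≥ 1`,

    ∃ s : Finset (Om M), ↑s ⊆ Fc M E ∧ ∀ f ∈ Fc M E, f ∈ Submodule.span (ratField (Ec M E) (jOm M)) ↑s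

(exact type of the field `finite` of `Alg.GoodModel` at the concrete objects, `x = jOm M`).

Proof: `Fc = Ec(j)(j_d : d ∣ M)`, finitely many generators, each integral over `ℤ[j]`
(modular polynomials, S28 `H867.coreData_integral` + `H807.nonempty_modPolyData`).
`field_finite_of_mem` : the same for any coordinate `x ∈ Fc` with `j ∈ Ec(x)` (e.g. `t₂`, `t₃`).
-/

set_option autoImplicit false

noncomputable section

namespace Fermat.Agent.S18.H24

open ModularCurve AlgebraicCurve HahnSeries Fermat.Agent.S18 Fermat.Agent.S18.Mod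
open Fermat.Agent.S18.Alg Fermat.Agent.S18.H456 Fermat.Agent.S28 Polynomial

variable (M : ℕ) [NeZero M] (E : IntermediateField ℚ Qb)

/-- `ℤ[Y] → Ω`, `Y ↦ j`. -/
def evJOm : Polynomial ℤ →+* Om M := (Polynomial.aeval (R := ℤ) (jOm M)).toRingHom

/-- The subtype map `Ω → Q̄((q))` as a ring hom. -/
abbrev valHom : Om M →+* LaurentSeries Qb := (modularFunctionFieldBar M).val.toRingHom

theorem valHom_injective : Function.Injective (valHom M) := Subtype.val_injective

theorem val_jd' (d : ℕ) [NeZero d] (hd : d ∣ M) :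
    valHom M (jd M d hd) = coeffMap (Int.castRingHom Qb) (qExpand ℤ d (jqModC ℤ)) := by
  show coeffEmb Qb (qExpand ℚ d jq) = _
  have h1 : coeffEmb Qb (qExpand ℚ d jq) = jqNModC Qb d := coeffMap_jqNModC (algebraMap ℚ Qb) d
  have h2 : coeffMap (Int.castRingHom Qb) (jqNModC ℤ d) = jqNModC Qb d :=
    coeffMap_jqNModC (Int.castRingHom Qb) d
  exact h1.trans h2.symm

theorem val_jOm' : valHom M (jOm M) = coeffMap (Int.castRingHom Qb) (jqModC ℤ) := by
  show ((jOm M : Om M) : LaurentSeries Qb) = _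
  rw [val_jOm, coeffMap_jqModC]

/-- compatibility of the two evaluations `ℤ[Y] → Q̄((q))`. -/
theorem valHom_comp_evJOm :
    (valHom M).comp (evJOm M) =
      (coeffMap (Int.castRingHom Qb)).comp (evalAt (jqModC ℤ)) := by
  apply Polynomial.ringHom_ext
  · intro a
    simp [evJOm, evalAt]
  · show valHom M (Polynomial.aeval (jOm M) (X : Polynomial ℤ)) =
      coeffMap (Int.castRingHom Qb) (Polynomial.aeval (jqModC ℤ) (X : Polynomial ℤ))
    rw [Polynomial.aeval_X, Polynomial.aeval_X]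
    exact val_jOm' M

/-- `j_d` is a root of a monic polynomial with coefficients in `ℤ[j] ⊆ Ω`. -/
theorem exists_monic_root_jd (d : ℕ) [NeZero d] (hd : d ∣ M) :
    ∃ P : Polynomial (Polynomial ℤ), P.Monic ∧ (P.map (evJOm M)).eval (jd M d hd) = 0 := by
  obtain ⟨P, hP, hPe⟩ := H867.coreData_integral M
    (fun p hp _ _ => H807.nonempty_modPolyData p hp) d hd
  refine ⟨P, hP, ?_⟩
  apply valHom_injective M
  rw [map_zero, Polynomial.eval_map, Polynomial.hom_eval₂, valHom_comp_evJOm, val_jd',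
    ← Polynomial.hom_eval₂, hPe, map_zero]

theorem jOm_mem_ratField : jOm M ∈ ratField (Ec M E) (jOm M) :=
  Subfield.subset_closure (Or.inr rfl)

theorem Ec_le_ratField (x : Om M) : Ec M E ≤ ratField (Ec M E) x :=
  fun _ h => Subfield.subset_closure (Or.inl h)

theorem evJOm_mem_ratField (p : Polynomial ℤ) : evJOm M p ∈ ratField (Ec M E) (jOm M) := by
  show Polynomial.aeval (jOm M) p ∈ _
  rw [Polynomial.aeval_def, Polynomial.eval₂_eq_sum_range]
  refine Subfield.sum_mem _ fun i _ => ?_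
  refine mul_mem ?_ (pow_mem (jOm_mem_ratField M E) i)
  rw [eq_intCast]
  exact intCast_mem _ _

/-- `j_d` is integral over `Ec(j)`. -/
theorem isIntegral_jd (d : ℕ) [NeZero d] (hd : d ∣ M) :
    IsIntegral (ratField (Ec M E) (jOm M)) (jd M d hd) := by
  obtain ⟨P, hP, hroot⟩ := exists_monic_root_jd M d hd
  have hl : P.map (evJOm M) ∈ Polynomial.lifts (ratField (Ec M E) (jOm M)).subtype := by
    rw [Polynomial.lifts_iff_coeff_lifts]
    intro i
    rw [Polynomial.coeff_map]
    exact ⟨⟨_, evJOm_mem_ratField M E (P.coeff i)⟩, rfl⟩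
  obtain ⟨q, hq, -, hqm⟩ := Polynomial.lifts_and_natDegree_eq_and_monic hl (hP.map _)
  refine ⟨q, hqm, ?_⟩
  have : eval₂ (ratField (Ec M E) (jOm M)).subtype (jd M d hd) q =
      eval (jd M d hd) (q.map (ratField (Ec M E) (jOm M)).subtype) := (eval_map _ _).symm
  rw [show (algebraMap (ratField (Ec M E) (jOm M)) (Om M)) =
    (ratField (Ec M E) (jOm M)).subtype from rfl, this, hq, hroot]

theorem gens_finite : (gens M).Finite := by
  classical
  have : gens M ⊆ Set.range (fun d : {d : ℕ // d ∣ M ∧ d ≠ 0} =>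
      haveI : NeZero d.1 := ⟨d.2.2⟩
      jd M d.1 d.2.1) := by
    rintro y ⟨d, hd, hdM, rfl⟩
    exact ⟨⟨d, hdM, hd.out⟩, rfl⟩
  refine Set.Finite.subset ?_ this
  have hfin : Finite {d : ℕ // d ∣ M ∧ d ≠ 0} := by
    have : {d : ℕ | d ∣ M ∧ d ≠ 0} ⊆ (M.divisors : Set ℕ) := by
      intro d hd
      exact Nat.mem_divisors.mpr ⟨hd.1, NeZero.ne M⟩
    exact Set.Finite.subset (Finset.finite_toSet _) this
  exact Set.finite_range _

/-- `Fc` as an intermediate field over `Ec(j)`. -/
theorem Fc_eq_adjoin :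
    (Fc M E : Set (Om M)) =
      (IntermediateField.adjoin (ratField (Ec M E) (jOm M)) (gens M) : Set (Om M)) := by
  have hjF : jOm M ∈ Fc M E :=
    Subfield.subset_closure (Or.inr ⟨1, inferInstance, one_dvd M, rfl⟩)
  have hK : ratField (Ec M E) (jOm M) ≤ Fc M E := by
    refine Subfield.closure_le.mpr ?_
    rintro y (hy | hy)
    · exact field_E_le_F M E hy
    · rw [Set.mem_singleton_iff] at hy
      rw [hy]; exact hjF
  apply Set.Subset.antisymm
  · -- `Fc ⊆ adjoin`
    have : Fc M E ≤ (IntermediateField.adjoin (ratField (Ec M E) (jOm M)) (gens M)).toSubfield := by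
      refine Subfield.closure_le.mpr ?_
      rintro y (hy | hy)
      · exact IntermediateField.algebraMap_mem
          (IntermediateField.adjoin (ratField (Ec M E) (jOm M)) (gens M))
          (⟨y, Ec_le_ratField M E _ hy⟩ : ratField (Ec M E) (jOm M))
      · exact IntermediateField.subset_adjoin _ _ hy
    exact this
  · -- `adjoin ⊆ Fc`
    intro y hy
    have h : IntermediateField.adjoin (ratField (Ec M E) (jOm M)) (gens M) ≤
        Subfield.toIntermediateField (Fc M E) (fun x => hK x.2) := by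
      rw [IntermediateField.adjoin_le_iff]
      intro z hz
      exact Subfield.subset_closure (Or.inr hz)
    exact h hy

/-- **field `finite` for `x = j`.** -/
theorem field_finite_j :
    ∃ s : Finset (Om M), (s : Set (Om M)) ⊆ Fc M E ∧
      ∀ f ∈ Fc M E, f ∈ Submodule.span (ratField (Ec M E) (jOm M)) (s : Set (Om M)) := by
  classical
  set K := ratField (Ec M E) (jOm M) with hKdef
  set L := IntermediateField.adjoin K (gens M) with hLdef
  have hint : ∀ y ∈ gens M, IsIntegral K y := by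
    rintro y ⟨d, hd, hdM, rfl⟩
    exact isIntegral_jd M E d hdM
  haveI : Finite (gens M) := (gens_finite M).to_subtype
  haveI hfd : FiniteDimensional K L := IntermediateField.finiteDimensional_adjoin hint
  -- a finite spanning set of `L` over `K`
  obtain ⟨s, hs⟩ := (Module.finite_def (R := K) (M := L)).mp hfd
  refine ⟨s.image (fun y : L => (y : Om M)), ?_, ?_⟩
  · intro y hy
    rw [Finset.coe_image] at hy
    obtain ⟨z, -, rfl⟩ := hy
    have h0 : (z : Om M) ∈
        (IntermediateField.adjoin (ratField (Ec M E) (jOm M)) (gens M) : Set (Om M)) := z.2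
    rw [← Fc_eq_adjoin M E] at h0
    exact h0
  · intro f hf
    have hfL : f ∈ L := by
      have h0 : f ∈
          (IntermediateField.adjoin (ratField (Ec M E) (jOm M)) (gens M) : Set (Om M)) := by
        rw [← Fc_eq_adjoin M E]; exact hf
      exact h0
    have h1 : (⟨f, hfL⟩ : L) ∈ Submodule.span K (s : Set L) := by
      rw [hs]; exact Submodule.mem_top
    have h2 := Submodule.mem_map_of_mem (f := (L.val.toLinearMap : L →ₗ[K] Om M)) h1
    rw [Submodule.map_span] at h2
    rw [Finset.coe_image]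
    exact h2

omit [NeZero M] in
theorem span_mono_subfield {K₁ K₂ : Subfield (Om M)} (h : K₁ ≤ K₂) (s : Set (Om M)) {f : Om M}
    (hf : f ∈ Submodule.span K₁ s) : f ∈ Submodule.span K₂ s := by
  induction hf using Submodule.span_induction with
  | mem x hx => exact Submodule.subset_span hx
  | zero => exact Submodule.zero_mem _
  | add x y _ _ hx hy => exact Submodule.add_mem _ hx hy
  | smul c x _ hx =>
    have : c • x = (⟨(c : Om M), h c.2⟩ : K₂) • x := rfl
    rw [this]
    exact Submodule.smul_mem _ _ hx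

/-- **field `finite`** for every admissible coordinate. -/
theorem field_finite {ℓ : ℕ} {x : Om M} {S : Finset (Om M)} (hx : IsCoordinate M ℓ x S) :
    ∃ s : Finset (Om M), (s : Set (Om M)) ⊆ Fc M E ∧
      ∀ f ∈ Fc M E, f ∈ Submodule.span (ratField (Ec M E) x) (s : Set (Om M)) := by
  have hx0 : x ≠ 0 := by
    rintro rfl
    exact field_x_transcendental M hx isAlgebraic_zero
  have hxK : x ∈ ratField (Ec M E) x := Subfield.subset_closure (Or.inr rfl)
  have hnat : ∀ n : ℕ, (n : Om M) ∈ ratField (Ec M E) x := fun n => natCast_mem _ n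
  -- `j ∈ Ec(x)`
  have hj : jOm M ∈ ratField (Ec M E) x := by
    rcases hx with ⟨-, rfl, -⟩ | ⟨h | h, -⟩
    · exact hxK
    · obtain ⟨-, hid, -⟩ := h
      have : jOm M = (x + 256) ^ 3 * (x ^ 2)⁻¹ := by
        rw [← hid]; field_simp
      rw [this]
      exact mul_mem (pow_mem (add_mem hxK (by exact_mod_cast hnat 256)) 3)
        (inv_mem (pow_mem hxK 2))
    · obtain ⟨-, hid, -⟩ := h
      have : jOm M = (x + 27) * (x + 243) ^ 3 * (x ^ 3)⁻¹ := by
        rw [← hid]; field_simp
      rw [this]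
      exact mul_mem (mul_mem (add_mem hxK (by exact_mod_cast hnat 27))
        (pow_mem (add_mem hxK (by exact_mod_cast hnat 243)) 3)) (inv_mem (pow_mem hxK 3))
  have hle : ratField (Ec M E) (jOm M) ≤ ratField (Ec M E) x := by
    refine Subfield.closure_le.mpr ?_
    rintro y (hy | hy)
    · exact Ec_le_ratField M E x hy
    · rw [Set.mem_singleton_iff] at hy
      rw [hy]; exact hj
  obtain ⟨s, hs, hspan⟩ := field_finite_j M E
  exact ⟨s, hs, fun f hf => span_mono_subfield M hle _ (hspan f hf)⟩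

end Fermat.Agent.S18.H24

end
end
-- ===== PACK-END S18/H24/Finite.lean

-- ===== PACK-BEGIN S37/Red/H940/Main.lean
section




/-!
# S37-RED (helper940): `MainStatement` from the fibre sums of the two coordinates `x`, `x⁻¹`

Interface: `Fermat/Agent/S37/Red/Spec.lean` (helper40).  For a reduction datum `G` with good
charts (`G.Good`) we prove

* `main_of_fibreSum` : `FibreSumStatement G → ∃ r, IsRed G r ∧ EvalCompat G r`;
* `main_of_fibreSum'`: the same from the fibre sums for the TWO auxiliary coordinates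
  `t = x` (all `c ∈ A`) and `t = x⁻¹` (`c = 0`) only  (`FibreSumAt G G.x`, `FibreSumAt G G.x⁻¹`);
* `mainStatement_of_fibreSum` : `(∀ G, FibreSumStatement G) → MainStatement`.

So the pieces RED-B (`DegEqStatement`), RED-D1 (`SepStatement`), RED-C and RED-D of
`coord/S37-red.md` are not needed: the construction of `r` and the count (ii) are done by the
fibre-local core `Fermat/Agent/S37/H940/{Core,Assembly,Line,Chart}.lean`
(`exists_red_of_coord`), which needs conservation of number only for the coordinate itself.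
Characteristic `0` of `K` and separability (`Good.sep_k`) are not used here.
-/

set_option autoImplicit false

noncomputable section

namespace Fermat.Agent.S37.Red.H940

open AlgebraicCurve IntermediateField Polynomial
open Fermat.Agent.S37.H940

universe u

variable {K k F Fk : Type u} [Field K] [Field k] [Field F] [Field Fk]
  [Algebra K F] [Algebra k Fk] {A : ValuationSubring K} {π : A →+* k} (G : Datum A π F Fk)

/-- `ValAt` is `InMax` of the difference -/
theorem valAt_iff_inMax {K F : Type u} [Field K] [Field F] [Algebra K F] (P : Place K F) (f : F)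
    (a : K) : ValAt P f a ↔ InMax P (f - algebraMap K F a) := by
  rw [inMax_iff_mem_nonunits, ValuationSubring.mem_nonunits_iff]
  rfl

/-- the fibre sums for ONE auxiliary coordinate `t` and one `c ∈ A` -/
def FibreSumAt (t : F) (c : A) : Prop :=
  ∀ (y : F) (hy : y ∈ G.O), G.ρ ⟨y, hy⟩ ≠ 0 →
    ∀ (S : Finset (Place K F)) (T : Finset (Place k Fk)),
      (∀ P : Place K F, P.ord y ≠ 0 → (∃ a : A, π a = π c ∧ ValAt P t a) → P ∈ S) →
      (∀ P ∈ S, ∃ a : A, π a = π c ∧ ValAt P t a) →
      (∀ Q : Place k Fk, Q.ord (G.ρ ⟨y, hy⟩) ≠ 0 → ValAt Q (G.red t) (π c) → Q ∈ T) →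
      (∀ Q ∈ T, ValAt Q (G.red t) (π c)) →
      ∑ Q ∈ T, Q.ord (G.ρ ⟨y, hy⟩) = ∑ P ∈ S, P.ord y

/-- **The reduction context of a datum.** -/
def ctx : Ctx K F k Fk where
  A := A
  π := π
  π_surj := G.π_surj
  π_eq_zero := fun a => by
    rw [H399.pi_eq_zero_iff G a, ValuationSubring.coe_mem_nonunits_iff,
      IsLocalRing.mem_maximalIdeal, mem_nonunits_iff]
  V := G.O.toSubring
  ρ := G.ρ
  A_mem := G.const_mem
  ρ_A := G.ρ_const
  inv_mem := fun u hu => by
    have h1 : ¬ ((u : F) ∈ G.O.nonunits) := fun h =>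
      hu ((H399.rho_eq_zero_iff G ⟨(u : F), u.2⟩).mpr h)
    rw [ValuationSubring.mem_nonunits_iff, not_lt] at h1
    show ((u : F))⁻¹ ∈ G.O
    rw [← ValuationSubring.valuation_le_one_iff, map_inv₀]
    have h2 : G.O.valuation (u : F) ≤ 1 := (ValuationSubring.valuation_le_one_iff _ _).mpr u.2
    have h3 : G.O.valuation (u : F) = 1 := le_antisymm h2 h1
    rw [h3, inv_one]

@[simp] theorem ctx_ρ (y : F) (hy : y ∈ G.O) : (ctx G).ρ ⟨y, hy⟩ = G.ρ ⟨y, hy⟩ := rfl

/-- the coordinate as an element of the context -/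
def cx : (ctx G).V := ⟨G.x, G.x_mem⟩

theorem ρ_cx : (ctx G).ρ (cx G) = G.xk := rfl

theorem transc_cx : Transcendental k ((ctx G).ρ (cx G)) := G.xk_transc

/-- elements of the chart of `t` are regular wherever `t` is regular -/
theorem regular_of_mem_chart {t b : F} (hb : b ∈ G.chart t) (P : Place K F)
    (ht : 0 ≤ P.ord t) : 0 ≤ P.ord b := by
  have hle : ∀ r : G.polyRing t, algebraMap (G.polyRing t) F r ∈ P.toValuationSubring.toSubring := by
    rintro ⟨r, hr⟩
    show r ∈ P.toValuationSubring.toSubring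
    have h1 : G.polyRing t ≤ P.toValuationSubring.toSubring := by
      unfold Datum.polyRing
      rw [sup_le_iff]
      constructor
      · rintro _ ⟨a, -, rfl⟩
        exact P.algebraMap_mem' a
      · rw [Subring.closure_le]
        rintro _ rfl
        exact (Line.regular_iff_mem P _).mp ht
    exact h1 hr
  have hcl : IsIntegrallyClosedIn P.toValuationSubring.toSubring F :=
    inferInstanceAs (IsIntegrallyClosedIn P.toValuationSubring F)
  have h2 := (Subring.integralClosure_le_iff (R := G.polyRing t)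
    (T := P.toValuationSubring.toSubring)).mpr hle
  exact (Line.regular_iff_mem P b).mpr (h2 hb)

section Main

variable [IsAlgClosed K] [IsAlgClosed k]

/-- the hypotheses of the fibre-local core for the coordinate `x` over `c̄ = π c` -/
theorem localCoord_fin (hG : G.Good) (c : A) (hFS : FibreSumAt G G.x c) :
    LocalCoord (ctx G) (cx G) (π c) where
  FC := by
    intro u hu S T h1 h2 h3 h4
    have hred : G.red G.x = G.xk := H399.red_eq_of_mem G G.x_mem
    refine (hFS (u : F) u.2 hu S T ?_ ?_ ?_ ?_).symm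
    · rintro P hP ⟨a, ha, hval⟩
      exact h1 P ⟨a, ha, (valAt_iff_inMax P _ _).mp hval⟩ hP
    · intro P hP
      obtain ⟨a, ha, hval⟩ := h2 P hP
      exact ⟨a, ha, (valAt_iff_inMax P _ _).mpr hval⟩
    · intro Q hQ hval
      rw [hred] at hval
      exact h3 Q ((valAt_iff_inMax Q _ _).mp hval) hQ
    · intro Q hQ
      rw [hred]
      exact (valAt_iff_inMax Q _ _).mpr (h4 Q hQ)
  LIFT := by
    intro τ hτ
    obtain ⟨b, hb, hbO, hρ⟩ := hG.lift_fin τ hτ
    exact ⟨⟨b, hbO⟩, hρ, fun P hP => regular_of_mem_chart G hb P hP⟩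

theorem xk_ne_zero : G.xk ≠ 0 := ρ_ne_zero_of_transcendental (ctx G) (cx G) (transc_cx G)

theorem xinv_mem : G.x⁻¹ ∈ G.O := (ctx G).inv_mem (cx G) (xk_ne_zero G)

theorem red_xinv : G.red G.x⁻¹ = G.xk⁻¹ := by
  rw [H399.red_eq_of_mem G (xinv_mem G)]
  exact (ctx G).ρ_inv (cx G) (xk_ne_zero G)

/-- the hypotheses of the fibre-local core for the coordinate `x⁻¹` over `0` -/
theorem localCoord_inf (hG : G.Good) (hFS : FibreSumAt G G.x⁻¹ 0) :
    LocalCoord (ctx G) (xinv (ctx G) (cx G) (transc_cx G)) 0 where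
  FC := by
    intro u hu S T h1 h2 h3 h4
    have hred : G.red G.x⁻¹ = G.xk⁻¹ := red_xinv G
    have hρ : (ctx G).ρ (xinv (ctx G) (cx G) (transc_cx G)) = G.xk⁻¹ :=
      ρ_xinv (ctx G) (cx G) (transc_cx G)
    have hπ0 : π (0 : A) = 0 := map_zero π
    refine (hFS (u : F) u.2 hu S T ?_ ?_ ?_ ?_).symm
    · rintro P hP ⟨a, ha, hval⟩
      rw [hπ0] at ha
      exact h1 P ⟨a, ha, (valAt_iff_inMax P _ _).mp hval⟩ hP
    · intro P hP
      obtain ⟨a, ha, hval⟩ := h2 P hP
      exact ⟨a, by rw [hπ0]; exact ha, (valAt_iff_inMax P _ _).mpr hval⟩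
    · intro Q hQ hval
      rw [hred, hπ0] at hval
      refine h3 Q ?_ hQ
      show InMax Q ((ctx G).ρ (xinv (ctx G) (cx G) (transc_cx G)) - algebraMap k Fk 0)
      rw [hρ]
      exact (valAt_iff_inMax Q _ _).mp hval
    · intro Q hQ
      rw [hred, hπ0]
      have := h4 Q hQ
      have h5 : InMax Q ((ctx G).ρ (xinv (ctx G) (cx G) (transc_cx G)) - algebraMap k Fk 0) :=
        this
      rw [hρ] at h5
      exact (valAt_iff_inMax Q _ _).mpr h5
  LIFT := by
    intro τ hτ
    have hρ : (ctx G).ρ (xinv (ctx G) (cx G) (transc_cx G)) = G.xk⁻¹ :=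
      ρ_xinv (ctx G) (cx G) (transc_cx G)
    rw [hρ] at hτ
    obtain ⟨b, hb, hbO, hρb⟩ := hG.lift_inf τ hτ
    exact ⟨⟨b, hbO⟩, hρb, fun P hP => regular_of_mem_chart G hb P hP⟩

/-- **MAIN from the fibre sums of the two coordinates.** -/
theorem main_of_fibreSum' (hG : G.Good) (hfin : ∀ c : A, FibreSumAt G G.x c)
    (hinf : FibreSumAt G G.x⁻¹ 0) :
    ∃ r : Place K F → Place k Fk, IsRed G r ∧ EvalCompat G r := by
  have i1 : FiniteDimensional K⟮((cx G : (ctx G).V) : F)⟯ F := hG.finite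
  have i2 : FiniteDimensional k⟮(ctx G).ρ (cx G)⟯ Fk := hG.finite_k
  have hfin' : ∀ c : k, LocalCoord (ctx G) (cx G) c := by
    intro c
    obtain ⟨a, rfl⟩ := G.π_surj c
    exact localCoord_fin G hG a (hfin a)
  obtain ⟨r, hdeg, hii, hecf, heci⟩ := exists_red_of_coord (ctx G) (cx G) (transc_cx G) hfin'
    (localCoord_inf G hG hinf)
  refine ⟨r, ⟨hdeg, fun y hy hρ D hD Q => hii ⟨y, hy⟩ hρ D hD Q⟩, ?_, ?_⟩
  · intro P a₀ ha₀ b hb hbO a hba
    rw [valAt_iff_inMax]
    exact hecf ⟨b, hbO⟩ (fun P' hP' => regular_of_mem_chart G hb P' hP') P a₀ a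
      ((valAt_iff_inMax P _ _).mp ha₀) ((valAt_iff_inMax P _ _).mp hba)
  · intro P a₀ ha₀ b hb hbO a hba
    rw [valAt_iff_inMax]
    exact heci ⟨b, hbO⟩ (fun P' hP' => regular_of_mem_chart G hb P' hP') P a₀ a
      ((valAt_iff_inMax P _ _).mp ha₀) ((valAt_iff_inMax P _ _).mp hba)

/-- an auxiliary coordinate from its data, with the reduction given by name -/
theorem auxCoord_of_eq [CharZero K] {t : F} (ht : t ∈ G.O) {s : Fk} (hs : G.red t = s)
    (htr : Transcendental k s) (h1 : FiniteDimensional K⟮t⟯ F)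
    (h2 : FiniteDimensional k⟮s⟯ Fk) (h3 : Algebra.IsSeparable k⟮s⟯ Fk)
    (h4 : Module.finrank K⟮t⟯ F = Module.finrank k⟮s⟯ Fk) : G.AuxCoord t := by
  subst hs
  exact ⟨ht, htr, h1, h2, h3, h4⟩

/-- the coordinate `x` is an auxiliary coordinate -/
theorem auxCoord_x [CharZero K] (hG : G.Good) : G.AuxCoord G.x :=
  auxCoord_of_eq G G.x_mem (H399.red_eq_of_mem G G.x_mem) G.xk_transc hG.finite hG.finite_k
    hG.sep_k hG.finrank_eq

omit [IsAlgClosed K] [IsAlgClosed k] in
theorem transport_adjoin {K F : Type u} [Field K] [Field F] [Algebra K F]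
    (p : IntermediateField K F → Prop) {L L' : IntermediateField K F} (h : L = L') (hp : p L) :
    p L' := h ▸ hp

/-- the coordinate `x⁻¹` is an auxiliary coordinate -/
theorem auxCoord_xinv [CharZero K] (hG : G.Good) : G.AuxCoord G.x⁻¹ := by
  have e1 : K⟮G.x⟯ = K⟮G.x⁻¹⟯ := Fermat.Agent.Lib.RR.adjoin_inv_eq G.x
  have e2 : k⟮G.xk⟯ = k⟮G.xk⁻¹⟯ := Fermat.Agent.Lib.RR.adjoin_inv_eq G.xk
  have htr : Transcendental k G.xk⁻¹ := by
    have := transcendental_ρ_xinv (ctx G) (cx G) (transc_cx G)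
    rwa [ρ_xinv] at this
  refine auxCoord_of_eq G (xinv_mem G) (red_xinv G) htr ?_ ?_ ?_ ?_
  · exact transport_adjoin (fun L => FiniteDimensional L F) e1 hG.finite
  · exact transport_adjoin (fun L => FiniteDimensional L Fk) e2 hG.finite_k
  · exact transport_adjoin (fun L => Algebra.IsSeparable L Fk) e2 hG.sep_k
  · have h1 : Module.finrank K⟮G.x⁻¹⟯ F = Module.finrank K⟮G.x⟯ F :=
      transport_adjoin (fun L => Module.finrank L F = Module.finrank K⟮G.x⟯ F) e1 rfl
    have h2 : Module.finrank k⟮G.xk⁻¹⟯ Fk = Module.finrank k⟮G.xk⟯ Fk :=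
      transport_adjoin (fun L => Module.finrank L Fk = Module.finrank k⟮G.xk⟯ Fk) e2 rfl
    rw [h1, h2]
    exact hG.finrank_eq

/-- **RED-MAIN from RED-A**: a datum with good charts and fibre sums has a place reduction map
with (i), (ii) and (EC). -/
theorem main_of_fibreSum [CharZero K] (hG : G.Good) (hFS : FibreSumStatement G) :
    ∃ r : Place K F → Place k Fk, IsRed G r ∧ EvalCompat G r :=
  main_of_fibreSum' G hG (fun c y hy hρ => hFS G.x (auxCoord_x G hG) y hy hρ c)
    (fun y hy hρ => hFS G.x⁻¹ (auxCoord_xinv G hG) y hy hρ 0)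

end Main

/-- **`MainStatement` from `FibreSumStatement`** (RED-A ⟹ RED-MAIN). -/
theorem mainStatement_of_fibreSum
    (h : ∀ (K k F Fk : Type u) [Field K] [Field k] [Field F] [Field Fk] [Algebra K F]
      [Algebra k Fk] [IsAlgClosed K] [CharZero K] [IsAlgClosed k] (A : ValuationSubring K)
      (π : A →+* k) (G : Datum A π F Fk), G.Good → FibreSumStatement G) :
    MainStatement.{u} :=
  fun K k F Fk _ _ _ _ _ _ _ _ _ A π G hG => main_of_fibreSum G hG (h K k F Fk A π G hG)

end Fermat.Agent.S37.Red.H940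

end
end
-- ===== PACK-END S37/Red/H940/Main.lean

-- ===== PACK-BEGIN Lib/RR/H80/Res/Bridge.lean
section



/-!
# The divisor of a Kähler differential is a canonical divisor

`K` algebraically closed of characteristic `0`, `F/K` a function field (`FF1 K F`).
For `ω ∈ Ω[F/K]`, `ω ≠ 0`, the function `v ↦ v.ordDifferential ω` is a divisor `W` (finite
support) and `dim_K H¹(D) = ℓ(W - D)` for all `D` (`exists_canonical_kaehler`).  Hence
`deg W = 2 g - 2` with `g = genusFF K F`, `HasCanonicalDivisor`, and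
`AlgebraicCurve.genus K F = genusFF K F`.

Method: Tate's residues.  `rho : F → Hom_K(𝔸, K)` is a `K`-derivation into the `F`-module
`Hom_K(𝔸, K)`, hence factors through `Ω[F/K]` (`rhoK`).
-/

set_option autoImplicit false

noncomputable section

open AlgebraicCurve KaehlerDifferential

namespace Fermat.Agent.Lib.RR.H80

open Fermat.Agent.Lib.RR LinearMap Module

variable {K F : Type*} [Field K] [Field F] [Algebra K F]

variable (K F) in
/-- `Hom_K(𝔸, K)` with its `F`-module structure `(x ω)(α) = ω (x α)`. -/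
def DualF : Type _ := Module.Dual K ↥(repartitions K F)

instance : AddCommGroup (DualF K F) :=
  inferInstanceAs (AddCommGroup (Module.Dual K ↥(repartitions K F)))

instance : Module K (DualF K F) :=
  inferInstanceAs (Module K (Module.Dual K ↥(repartitions K F)))

/-- The underlying functional. -/
def DualF.fn (ω : DualF K F) : Module.Dual K ↥(repartitions K F) := ω

/-- Constructor. -/
def DualF.mk (ω : Module.Dual K ↥(repartitions K F)) : DualF K F := ω

@[simp] theorem DualF.fn_mk (ω : Module.Dual K ↥(repartitions K F)) : (DualF.mk ω).fn = ω := rfl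

@[simp] theorem DualF.fn_add (ω ω' : DualF K F) : (ω + ω').fn = ω.fn + ω'.fn := rfl

@[simp] theorem DualF.fn_zero : (0 : DualF K F).fn = 0 := rfl

@[simp] theorem DualF.fn_smulK (c : K) (ω : DualF K F) : (c • ω).fn = c • ω.fn := rfl

theorem DualF.ext {ω ω' : DualF K F} (h : ∀ α, ω.fn α = ω'.fn α) : ω = ω' :=
  LinearMap.ext h

instance : Module F (DualF K F) where
  smul x ω := DualF.mk (smulD x ω.fn)
  one_smul ω := smulD_one ω.fn
  mul_smul x y ω := (smulD_smulD x y ω.fn).symm
  smul_zero x := smulD_zero_right x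
  smul_add x ω ω' := by
    apply DualF.ext
    intro α
    rfl
  add_smul x y ω := by
    apply DualF.ext
    intro α
    show ω.fn ((x + y) • α) = ω.fn (x • α) + ω.fn (y • α)
    rw [add_smul, map_add]
  zero_smul ω := smulD_zero_left ω.fn

@[simp] theorem DualF.fn_smul (x : F) (ω : DualF K F) : (x • ω).fn = smulD x ω.fn := rfl

theorem DualF.smul_apply (x : F) (ω : DualF K F) (α : ↥(repartitions K F)) :
    (x • ω).fn α = ω.fn (x • α) := rfl

instance : IsScalarTower K F (DualF K F) where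
  smul_assoc c x ω := by
    apply DualF.ext
    intro α
    show ω.fn ((c • x) • α) = c • ω.fn (x • α)
    rw [smul_assoc, map_smul]

variable [hFF : FF1 K F]

/-- `t ↦ rho t` as a derivation. -/
def rhoDer : Derivation K F (DualF K F) where
  toFun t := DualF.mk (rho t)
  map_add' t s := rho_add t s
  map_smul' c t := rho_smul c t
  map_one_eq_zero' := rho_one
  leibniz' t s := by
    apply DualF.ext
    intro α
    show rho (t * s) α = rho s (t • α) + rho t (s • α)
    rw [rho_mul, add_comm]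

@[simp] theorem rhoDer_apply (t : F) : (rhoDer (K := K) t).fn = rho t := rfl

/-- The Weil differential attached to a Kähler differential. -/
def rhoK : Ω[F⁄K] →ₗ[F] DualF K F := (rhoDer (K := K) (F := F)).liftKaehlerDifferential

theorem rhoK_D (t : F) : (rhoK (D K F t)).fn = rho t := by
  unfold rhoK
  rw [Derivation.liftKaehlerDifferential_comp_D]
  rfl

theorem rhoK_smul_D (c t : F) (α : ↥(repartitions K F)) :
    (rhoK (c • D K F t)).fn α = rho t (c • α) := by
  rw [map_smul, DualF.smul_apply, rhoK_D]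

/-! ### Local behaviour -/

theorem rhoK_singleA_eq_zero (v : Place K F) {π c a : F} (hπ : 0 ≤ v.ord π)
    (hca : 0 ≤ v.ord (c * a)) :
    (rhoK (c • D K F π)).fn (singleA v a) = 0 := by
  rw [rhoK_smul_D, smul_singleA]
  exact rho_singleA_eq_zero v hπ hca

theorem rhoK_singleA_eq_one (v : Place K F) {π c : F} (hπ : v.ord π = 1) (hc : c ≠ 0) :
    (rhoK (c • D K F π)).fn (singleA v (c * π)⁻¹) = 1 := by
  have hπ0 : π ≠ 0 := ne_zero_of_ord_ne_zero v (by rw [hπ]; exact one_ne_zero)
  rw [rhoK_smul_D, smul_singleA]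
  have : c * (c * π)⁻¹ = π⁻¹ := by
    field_simp
  rw [this]
  exact rho_unif v hπ

omit hFF in
theorem mul_mem_A0 {E : Divisor K F} {η α : ↥(repartitions K F)} (hη : η ∈ repartitionsOf E)
    (hα : α ∈ repartitionsOf (-E)) : η * α ∈ repartitionsOf (0 : Divisor K F) := by
  intro v
  have h1 := hη v
  have h2 := hα v
  show v.adicValuation ((η : Place K F → F) v * (α : Place K F → F) v) ≤ _
  rw [map_mul]
  calc v.adicValuation ((η : Place K F → F) v) * v.adicValuation ((α : Place K F → F) v)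
      ≤ WithZero.exp (E v) * WithZero.exp ((-E) v) := mul_le_mul' h1 h2
    _ = WithZero.exp ((0 : Divisor K F) v) := by
      rw [← WithZero.exp_add, Finsupp.neg_apply, add_neg_cancel, Finsupp.coe_zero, Pi.zero_apply]

/-- `rhoK ω` is a Weil differential: it vanishes on `𝔸(A₀) + F` for some divisor `A₀`. -/
theorem exists_rhoK_mem_Om [CharZero K] (ω : Ω[F⁄K]) :
    ∃ A₀ : Divisor K F, (rhoK ω).fn ∈ Om A₀ := by
  classical
  obtain ⟨j, hjtr, hjfin⟩ := FF1.exists_finite (K := K) (F := F)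
  have := hjfin
  have hA : Algebra.IsAlgebraic ↥(IntermediateField.adjoin K {j}) F :=
    Algebra.IsAlgebraic.of_finite _ _
  have hω : ω ∈ Submodule.span F {D K F j} := by
    rw [Fermat.Agent.S24.H84.span_D_eq_top j]
    trivial
  obtain ⟨h, rfl⟩ := Submodule.mem_span_singleton.1 hω
  have hj0 : j ≠ 0 := by
    rintro rfl
    exact hjtr (isAlgebraic_zero)
  set S : Set (Place K F) := {v | v.ord j < 0} with hS
  set η : ↥(repartitions K F) :=
    indA S * H980.diag (j ^ 2 * h) + indA Sᶜ * H980.diag h with hη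
  obtain ⟨E, hE⟩ := H742.exists_mem_repartitionsOf η
  have hηin : ∀ v ∈ S, (η : Place K F → F) v = j ^ 2 * h := by
    intro v hv
    rw [hη, H980.val_apply_add, coe_mul_apply, coe_mul_apply, indA_apply_of_mem hv,
      indA_apply_of_not_mem (show v ∉ Sᶜ from fun hc => hc hv), H980.diag_apply,
      H980.diag_apply, one_mul, zero_mul, add_zero]
  have hηout : ∀ v ∉ S, (η : Place K F → F) v = h := by
    intro v hv
    rw [hη, H980.val_apply_add, coe_mul_apply, coe_mul_apply, indA_apply_of_not_mem hv,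
      indA_apply_of_mem (show v ∈ Sᶜ from hv), H980.diag_apply, H980.diag_apply, one_mul,
      zero_mul, zero_add]
  refine ⟨-E, mem_Om_iff.mpr ⟨fun α hα => ?_, fun α hα => ?_⟩⟩
  · have hint := mem_A0_iff.mp (mul_mem_A0 hE hα)
    rw [rhoK_smul_D]
    have hsplit : h • α = indA S * (h • α) + indA Sᶜ * (h • α) := by
      apply Subtype.ext
      funext v
      rw [H980.val_apply_add, coe_mul_apply, coe_mul_apply]
      by_cases hv : v ∈ S
      · rw [indA_apply_of_mem hv, indA_apply_of_not_mem (show v ∉ Sᶜ from fun hc => hc hv), one_mul, zero_mul,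
          add_zero]
      · rw [indA_apply_of_not_mem hv, indA_apply_of_mem (show v ∈ Sᶜ from hv), one_mul, zero_mul,
          zero_add]
    rw [hsplit, map_add]
    have h2 : rho j (indA Sᶜ * (h • α)) = 0 := by
      refine rho_eq_zero_of_integral j _ fun v => ?_
      by_cases hv : v ∈ S
      · left
        rw [coe_mul_apply, indA_apply_of_not_mem (show v ∉ Sᶜ from fun hc => hc hv), zero_mul]
      · right
        refine ⟨?_, not_lt.mp hv⟩
        have := hint v
        rw [coe_mul_apply, hηout v hv] at this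
        rw [coe_mul_apply, indA_apply_of_mem (show v ∈ Sᶜ from hv), one_mul, coe_smul_apply]
        exact this
    have h1 : rho j (indA S * (h • α)) = 0 := by
      have hD : D K F j = (-j ^ 2) • D K F j⁻¹ :=
        (D K F).leibniz_of_mul_eq_one (mul_inv_cancel₀ hj0)
      have e1 : rho j (indA S * (h • α)) = (rhoK (D K F j)).fn (indA S * (h • α)) := by
        rw [rhoK_D]
      rw [e1, hD, rhoK_smul_D]
      refine rho_eq_zero_of_integral j⁻¹ _ fun v => ?_
      by_cases hv : v ∈ S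
      · right
        refine ⟨?_, ?_⟩
        · have := hint v
          rw [coe_mul_apply, hηin v hv] at this
          rw [coe_smul_apply, coe_mul_apply, indA_apply_of_mem hv, one_mul, coe_smul_apply,
            neg_mul, ord_neg, ← mul_assoc]
          exact this
        · rw [Place.ord_inv]
          have : v.ord j < 0 := hv
          omega
      · left
        rw [coe_smul_apply, coe_mul_apply, indA_apply_of_not_mem hv, zero_mul, mul_zero]
    rw [h1, h2, add_zero]
  · rw [rhoK_smul_D]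
    exact rho_principal j (smul_mem_principal h hα)

omit hFF in
theorem singleA_mem_repartitionsOf (W : Divisor K F) (v : Place K F) {a : F}
    (ha : a = 0 ∨ -W v ≤ v.ord a) : singleA v a ∈ repartitionsOf W := by
  rw [mem_repartitionsOf_iff]
  intro w
  by_cases hw : w = v
  · subst hw
    rw [singleA_apply_self]
    exact ha
  · left
    exact singleA_apply_of_ne _ _ hw

/-! ### The main theorem -/

/-- **Bridge**: the divisor of a nonzero Kähler differential exists and is a canonical divisor in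
the sense of Riemann–Roch. -/
theorem exists_canonical_kaehler [IsAlgClosed K] [CharZero K] (ω : Ω[F⁄K]) (hω : ω ≠ 0) :
    ∃ W : Divisor K F, (∀ v : Place K F, W v = v.ordDifferential ω) ∧
      ∀ D : Divisor K F, Module.finrank K (H1 D) = ell (W - D) := by
  obtain ⟨j, -, hjfin⟩ := FF1.exists_finite (K := K) (F := F)
  have := hjfin
  have hloc : ∀ v : Place K F, ∃ π c : F, v.ord π = 1 ∧ c ≠ 0 ∧ ω = c • D K F π ∧
      v.ordDifferential ω = v.ord c := by
    intro v
    have hgen : v.DCoordGenerates := Fermat.Agent.S24.H84.place_dCoordGenerates j v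
    obtain ⟨π, hπ, hd⟩ := Fermat.Agent.S24.H84.place_exists_uniformizer v
    refine ⟨π, v.differentialCoeff ω, hπ, ?_, ?_, rfl⟩
    · intro h0
      apply hω
      rw [← v.differentialCoeff_smul_dCoord ω, h0, zero_smul]
    · rw [← hd, v.differentialCoeff_smul_dCoord]
  have hR0 : (rhoK ω).fn ≠ 0 := by
    obtain ⟨v⟩ := FF1.nonempty_place (K := K) (F := F)
    obtain ⟨π, c, hπ, hc, hω', -⟩ := hloc v
    intro h0
    have h1 := rhoK_singleA_eq_one v hπ hc
    rw [← hω', h0, LinearMap.zero_apply] at h1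
    exact zero_ne_one h1
  obtain ⟨A₀, hA₀⟩ := exists_rhoK_mem_Om ω
  obtain ⟨W, hW⟩ := exists_divisor_of_ne_zero (g := (genusR K F : ℤ)) finite_H1
    ell_sub_finrank_H1 exists_degree_bound hA₀ hR0
  have hWW : (rhoK ω).fn ∈ Om W := (hW W).mpr le_rfl
  have hWv : ∀ v : Place K F, W v = v.ordDifferential ω := by
    intro v
    obtain ⟨π, c, hπ, hc, hω', hord⟩ := hloc v
    have hπ0 : π ≠ 0 := ne_zero_of_ord_ne_zero v (by rw [hπ]; exact one_ne_zero)
    rw [hord]
    apply le_antisymm
    · by_contra hlt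
      rw [not_le] at hlt
      have hmem : singleA v (c * π)⁻¹ ∈ repartitionsOf W := by
        apply singleA_mem_repartitionsOf
        right
        rw [Place.ord_inv, v.ord_mul hc hπ0, hπ]
        omega
      have h0 := (mem_Om_iff.mp hWW).1 _ hmem
      have h1 := rhoK_singleA_eq_one v hπ hc
      rw [← hω', h0] at h1
      exact zero_ne_one h1
    · by_contra hlt
      rw [not_le] at hlt
      have hmem : (rhoK ω).fn ∈ Om (W + prim v) := by
        refine mem_Om_iff.mpr ⟨fun α hα => ?_, (mem_Om_iff.mp hWW).2⟩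
        rw [mem_repartitionsOf_iff] at hα
        obtain ⟨a, ha⟩ : ∃ a : F, a = (α : Place K F → F) v := ⟨_, rfl⟩
        have hβ : α - singleA v a ∈ repartitionsOf W := by
          rw [mem_repartitionsOf_iff]
          intro w
          by_cases hw : w = v
          · left
            subst hw
            show (α : Place K F → F) w - ((singleA w a : ↥(repartitions K F)) : Place K F → F) w
              = 0
            rw [singleA_apply_self, ha, sub_self]
          · have e : ((α - singleA v a : ↥(repartitions K F)) : Place K F → F) w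
                = (α : Place K F → F) w := by
              show (α : Place K F → F) w -
                ((singleA v a : ↥(repartitions K F)) : Place K F → F) w = _
              rw [singleA_apply_of_ne _ _ hw, sub_zero]
            rw [e]
            have := hα w
            rwa [Finsupp.add_apply, prim_apply_of_ne hw, add_zero] at this
        have h1 : (rhoK ω).fn (α - singleA v a) = 0 := (mem_Om_iff.mp hWW).1 _ hβ
        have h2 : (rhoK ω).fn (singleA v a) = 0 := by
          rw [hω']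
          apply rhoK_singleA_eq_zero v (by rw [hπ]; exact zero_le_one)
          rcases eq_or_ne a 0 with h0 | h0
          · rw [h0, mul_zero, Place.ord_zero]
          · have := hα v
            rw [Finsupp.add_apply, prim_apply_self, ← ha] at this
            rcases this with h | h
            · exact absurd h h0
            · rw [v.ord_mul hc h0]
              omega
        have : α = (α - singleA v a) + singleA v a := by abel
        rw [this, map_add, h1, h2, add_zero]
      have hle := (hW _).mp hmem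
      have := Finsupp.le_def.mp hle v
      rw [Finsupp.add_apply, prim_apply_self] at this
      omega
  refine ⟨W, hWv, fun D => ?_⟩
  rw [← finrank_Om, ← map_muMap_eq_Om finite_H1 ell_sub_finrank_H1 hR0 hW D,
    finrank_map_muMap hR0]

/-- A canonical divisor has degree `2g - 2`. -/
theorem degree_eq_of_canonical {W : Divisor K F}
    (hW : ∀ D : Divisor K F, Module.finrank K (H1 D) = ell (W - D)) :
    Divisor.degree W = 2 * (genusFF K F : ℤ) - 2 := by
  have h0 : ell W = genusFF K F := by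
    have := hW 0
    rw [sub_zero] at this
    rw [← this]
    rfl
  have h1 := riemann_roch_H1 W
  rw [hW W, sub_self, ell_zero, h0] at h1
  push_cast at h1
  omega

variable [IsAlgClosed K] [CharZero K]

/-- `deg div(ω) = 2g - 2` for a nonzero Kähler differential. -/
theorem degree_kaehler {ω : Ω[F⁄K]} (hω : ω ≠ 0) {W : Divisor K F}
    (hW : ∀ v : Place K F, W v = v.ordDifferential ω) :
    Divisor.degree W = 2 * (genusFF K F : ℤ) - 2 := by
  obtain ⟨W', hW', hcan⟩ := exists_canonical_kaehler ω hω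
  have : W = W' := Finsupp.ext fun v => by rw [hW, hW']
  rw [this]
  exact degree_eq_of_canonical hcan

/-- the divisor of a Kähler differential is canonical -/
theorem finrank_H1_eq_ell_kaehler {ω : Ω[F⁄K]} (hω : ω ≠ 0) {W : Divisor K F}
    (hW : ∀ v : Place K F, W v = v.ordDifferential ω) (D : Divisor K F) :
    Module.finrank K (H1 D) = ell (W - D) := by
  obtain ⟨W', hW', hcan⟩ := exists_canonical_kaehler ω hω
  have : W = W' := Finsupp.ext fun v => by rw [hW, hW']
  rw [this]
  exact hcan D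

variable (K F) in
theorem hasCanonicalDivisor_of_FF1 : HasCanonicalDivisor (K := K) (F := F) :=
  ⟨fun ω hω => by
    obtain ⟨W, hW, -⟩ := exists_canonical_kaehler ω hω
    exact ⟨W, hW⟩⟩

omit [IsAlgClosed K] [CharZero K] in
variable (K F) in
theorem exists_kaehler_ne_zero : ∃ ω : Ω[F⁄K], ω ≠ 0 := by
  obtain ⟨v⟩ := FF1.nonempty_place (K := K) (F := F)
  obtain ⟨π, hπ⟩ := exists_ord_eq_one v
  refine ⟨D K F π, fun h0 => ?_⟩
  have h1 := rho_unif v hπ
  rw [← rhoK_D, h0, map_zero] at h1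
  exact zero_ne_one h1

theorem degree_canonicalDivisorOf [HasCanonicalDivisor (K := K) (F := F)] {ω : Ω[F⁄K]}
    (hω : ω ≠ 0) :
    Divisor.degree (canonicalDivisorOf hω) = 2 * (genusFF K F : ℤ) - 2 :=
  degree_kaehler hω (canonicalDivisorOf_apply hω)

variable (K F) in
/-- **The Kähler genus is the adelic genus.** -/
theorem genus_eq_genusFF [HasCanonicalDivisor (K := K) (F := F)] :
    AlgebraicCurve.genus K F = genusFF K F := by
  have hex := exists_kaehler_ne_zero K F
  unfold AlgebraicCurve.genus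
  rw [dif_pos hex, degree_canonicalDivisorOf hex.choose_spec]
  have : (2 * (genusFF K F : ℤ) - 2 + 2).toNat = 2 * genusFF K F := by omega
  rw [this, Nat.mul_div_cancel_left _ (by norm_num : 0 < 2)]

end Fermat.Agent.Lib.RR.H80

end
end
-- ===== PACK-END Lib/RR/H80/Res/Bridge.lean

-- ===== PACK-BEGIN A2/H609/ChartPrep.lean
section



/-!
# Node purity, part 12: preparations on a chart

`B` a domain with fraction field `F`, `u ∈ Fˣ` with constant unit residues on the components
`p₁`, `p₂` (elementwise: `u b = a`, `b ∉ p`, `a - c b ∈ p`, `c` a unit).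

* `exists_common_denominator` : one denominator `b ∉ p₁ ∪ p₂` for both components.
* the local ring `locAt F n = B_n ⊆ F` (from `A2.H849`) is an integrally closed domain with
  fraction field `F`.
-/

set_option autoImplicit false

namespace Fermat.Agent.A2.H609

open Fermat.Agent.A2.H849

section Denominator

variable {B : Type*} [CommRing B]
variable {F : Type*} [Field F] [Algebra B F]

/-- Independence of the representation: if `u b₁ = a₁` with `b₁ ∉ p`, `a₁ - c b₁ ∈ p`, then
`a - c b ∈ p` for every representation `u b = a`. -/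
theorem sub_mul_mem_of_eq [IsDomain B] [IsFractionRing B F] {p : Ideal B} [p.IsPrime] {u : F}
    {c a₁ b₁ a b : B} (hb₁ : b₁ ∉ p) (h₁ : a₁ - c * b₁ ∈ p)
    (hu₁ : u * algebraMap B F b₁ = algebraMap B F a₁)
    (hu : u * algebraMap B F b = algebraMap B F a) : a - c * b ∈ p := by
  have hinj : Function.Injective (algebraMap B F) := IsFractionRing.injective B F
  have h1 : a * b₁ = a₁ * b := by
    apply hinj
    rw [map_mul, map_mul, ← hu, ← hu₁]
    ring
  have h2 : b₁ * (a - c * b) = (a₁ - c * b₁) * b := by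
    linear_combination h1
  have h3 : b₁ * (a - c * b) ∈ p := by
    rw [h2]
    exact p.mul_mem_right _ h₁
  exact (Ideal.IsPrime.mem_or_mem inferInstance h3).resolve_left hb₁

/-- A common denominator outside `p₁ ∪ p₂`. -/
theorem exists_common_denominator {p₁ p₂ : Ideal B} [p₁.IsPrime] [p₂.IsPrime] {u : F}
    (hs₁ : ∃ a b : B, b ∉ p₁ ∧ u * algebraMap B F b = algebraMap B F a)
    (hs₂ : ∃ a b : B, b ∉ p₂ ∧ u * algebraMap B F b = algebraMap B F a) :
    ∃ a b : B, b ∉ p₁ ∧ b ∉ p₂ ∧ u * algebraMap B F b = algebraMap B F a := by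
  obtain ⟨a₁, b₁, hb₁, h₁⟩ := hs₁
  obtain ⟨a₂, b₂, hb₂, h₂⟩ := hs₂
  by_cases h12 : b₁ ∈ p₂
  · by_cases h21 : b₂ ∈ p₁
    · refine ⟨a₁ + a₂, b₁ + b₂, ?_, ?_, ?_⟩
      · intro h
        apply hb₁
        have : b₁ = (b₁ + b₂) - b₂ := by ring
        rw [this]
        exact p₁.sub_mem h h21
      · intro h
        apply hb₂
        have : b₂ = (b₁ + b₂) - b₁ := by ring
        rw [this]
        exact p₂.sub_mem h h12
      · rw [map_add, map_add, mul_add, h₁, h₂]
    · exact ⟨a₂, b₂, h21, hb₂, h₂⟩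
  · exact ⟨a₁, b₁, hb₁, h12, h₁⟩

end Denominator

section LocAt

variable {B : Type*} [CommRing B] [IsDomain B]
variable {F : Type*} [Field F] [Algebra B F] [IsFractionRing B F]

instance locAt_isFractionRing (n : Ideal B) [n.IsPrime] : IsFractionRing (locAt F n) F :=
  IsFractionRing.isFractionRing_of_isDomain_of_isLocalization n.primeCompl (locAt F n) F

instance locAt_isIntegrallyClosed [IsIntegrallyClosed B] (n : Ideal B) [n.IsPrime] :
    IsIntegrallyClosed (locAt F n) :=
  isIntegrallyClosed_of_isLocalization (locAt F n) n.primeCompl n.primeCompl_le_nonZeroDivisors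

theorem coe_algebraMap_locAt (n : Ideal B) [n.IsPrime] (b : B) :
    ((algebraMap B (locAt F n) b : locAt F n) : F) = algebraMap B F b := rfl

theorem algebraMap_locAt_apply (n : Ideal B) [n.IsPrime] (z : locAt F n) :
    algebraMap (locAt F n) F z = (z : F) := rfl

/-- `algebraMap b ∈ p B_n ↔ b ∈ p` for a prime `p ≤ n`. -/
theorem algebraMap_mem_map_iff {p n : Ideal B} [p.IsPrime] [n.IsPrime] (hpn : p ≤ n) (b : B) :
    algebraMap B (locAt F n) b ∈ p.map (algebraMap B (locAt F n)) ↔ b ∈ p := by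
  have hd : Disjoint (n.primeCompl : Set B) (p : Set B) :=
    Set.disjoint_left.mpr fun y hy hyp => hy (hpn hyp)
  have h := IsLocalization.under_map_of_isPrime_disjoint n.primeCompl (locAt F n)
    (inferInstance : p.IsPrime) hd
  constructor
  · intro hb
    have : b ∈ (p.map (algebraMap B (locAt F n))).under B := hb
    rwa [h] at this
  · exact fun hb => Ideal.mem_map_of_mem _ hb

/-- A unit of `B_n` is a quotient of two elements of `B ∖ n`. -/
theorem exists_frac_of_isUnit_locAt (n : Ideal B) [n.IsPrime] {z : locAt F n} (hz : IsUnit z) :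
    ∃ a s : B, a ∉ n ∧ s ∉ n ∧ (z : F) * algebraMap B F s = algebraMap B F a := by
  obtain ⟨a, s, hs, hzas⟩ := (mem_locAt_iff n (z : F)).1 z.2
  have hinj : Function.Injective (algebraMap B F) := IsFractionRing.injective B F
  have hsF : algebraMap B F s ≠ 0 := by
    intro h0
    apply hs
    rw [hinj (by rw [h0, map_zero] : algebraMap B F s = algebraMap B F 0)]
    exact n.zero_mem
  have hzs : (z : F) * algebraMap B F s = algebraMap B F a := by
    rw [hzas]
    field_simp
  refine ⟨a, s, ?_, hs, hzs⟩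
  have hunit : IsUnit (algebraMap B (locAt F n) a) := by
    have h1 : algebraMap B (locAt F n) a = z * algebraMap B (locAt F n) s := by
      apply Subtype.ext
      exact hzs.symm
    rw [h1]
    exact hz.mul ((IsLocalization.AtPrime.isUnit_to_map_iff (locAt F n) n s).2 hs)
  exact (IsLocalization.AtPrime.isUnit_to_map_iff (locAt F n) n a).1 hunit

/-- An element of `B_n` outside `p B_n` (`p ≤ n` prime) is a quotient `φ / s` with `φ ∉ p`,
`s ∉ n`. -/
theorem exists_frac_of_notMem_map {p n : Ideal B} [p.IsPrime] [n.IsPrime]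
    {z : locAt F n} (hz : z ∉ p.map (algebraMap B (locAt F n))) :
    ∃ φ s : B, φ ∉ p ∧ s ∉ n ∧ (z : F) * algebraMap B F s = algebraMap B F φ := by
  obtain ⟨φ, s, hs, hzas⟩ := (mem_locAt_iff n (z : F)).1 z.2
  have hinj : Function.Injective (algebraMap B F) := IsFractionRing.injective B F
  have hsF : algebraMap B F s ≠ 0 := by
    intro h0
    apply hs
    rw [hinj (by rw [h0, map_zero] : algebraMap B F s = algebraMap B F 0)]
    exact n.zero_mem
  have hzs : (z : F) * algebraMap B F s = algebraMap B F φ := by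
    rw [hzas]
    field_simp
  refine ⟨φ, s, ?_, hs, hzs⟩
  intro hφ
  apply hz
  have hsu : IsUnit (algebraMap B (locAt F n) s) :=
    (IsLocalization.AtPrime.isUnit_to_map_iff (locAt F n) n s).2 hs
  have h1 : z * algebraMap B (locAt F n) s = algebraMap B (locAt F n) φ := by
    apply Subtype.ext
    exact hzs
  have h2 : z * algebraMap B (locAt F n) s ∈ p.map (algebraMap B (locAt F n)) := by
    rw [h1]
    exact Ideal.mem_map_of_mem _ hφ
  obtain ⟨t, ht⟩ := hsu.exists_right_inv
  have h3 : z = z * algebraMap B (locAt F n) s * t := by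
    rw [mul_assoc, ht, mul_one]
  rw [h3]
  exact Ideal.mul_mem_right _ _ h2

end LocAt

end Fermat.Agent.A2.H609

end
-- ===== PACK-END A2/H609/ChartPrep.lean

-- ===== PACK-BEGIN A2/H729/LocalFact.lean
section



/-!
# A2 (helper729): from local factorisations on the base charts to local models of the Kummer root

`F₀ ⊆ F`, `y ∈ F`, `y ^ m = u ∈ F₀`.  A *local factorisation* of `u` at a closed point `𝔫₀ ∋ w`
of the chart of `F₀` is `u = ε * h ^ m` with `h ≡ 1 mod w O₀` and `ε` regular at `𝔫₀`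
(`s * ε ∈ chart` for some `s ∉ 𝔫₀`).  Then `y₁ := y / h` satisfies `y₁ ≡ y mod w O` and
`s * y₁ ∈ chart_F`: this is the local hypothesis of `kummer_trivial_of_local`.
-/

set_option autoImplicit false
set_option linter.unusedSectionVars false

namespace Fermat.Agent.A2.H729

open Polynomial Fermat.Agent.S18.H138

variable {R : Type*} [CommRing R] [IsDomain R] [IsIntegrallyClosed (Polynomial R)]
  {F₀ : Type*} [Field F₀] [Algebra R F₀]
  {F : Type*} [Field F] [Algebra R F] [Algebra F₀ F] [IsScalarTower R F₀ F]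

theorem gaussO_inv_le {w : R} (hw : Prime w) {x : F} (hx0 : x ≠ 0) :
    gaussO hw x ≤ gaussO hw x⁻¹ := fun _ ht =>
  exists_denom_inv_of_mem_gaussO hw hx0 ht

theorem gaussO_inv {w : R} (hw : Prime w) {x : F} (hx0 : x ≠ 0) :
    gaussO hw x⁻¹ = gaussO hw x := by
  apply le_antisymm
  · have := gaussO_inv_le hw (inv_ne_zero hx0)
    rwa [inv_inv] at this
  · exact gaussO_inv_le hw hx0

/-- The local hypothesis of `kummer_trivial_of_local` from local factorisations on the base. -/
theorem hloc_of_localFactorisation {w : R} (hw : Prime w) {x₀ : F₀}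
    (hx : Transcendental R (algebraMap F₀ F x₀)) {m : ℕ} (hm : 0 < m) {u : F₀} {y : F}
    (hyu : y ^ m = algebraMap F₀ F u) (hyO : y ∈ gaussO hw (algebraMap F₀ F x₀))
    (hLF : ∀ 𝔫₀ : Ideal (chart R ({x₀} : Set F₀)), 𝔫₀.IsMaximal →
      algebraMap R (chart R ({x₀} : Set F₀)) w ∈ 𝔫₀ →
      ∃ s : chart R ({x₀} : Set F₀), s ∉ 𝔫₀ ∧ ∃ h ε : F₀,
        InW (gaussO hw x₀) w (h - 1) ∧ u = ε * h ^ m ∧ (s : F₀) * ε ∈ chart R ({x₀} : Set F₀)) :
    ∀ 𝔫 : Ideal (chart R ({algebraMap F₀ F x₀} : Set F)), 𝔫.IsMaximal →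
      algebraMap R (chart R ({algebraMap F₀ F x₀} : Set F)) w ∈ 𝔫 →
      ∃ s : chart R ({algebraMap F₀ F x₀} : Set F), s ∉ 𝔫 ∧
        ∃ y₁ : F, InW (gaussO hw (algebraMap F₀ F x₀)) w (y - y₁) ∧
          (s : F) * y₁ ∈ chart R ({algebraMap F₀ F x₀} : Set F) := by
  intro 𝔫 h𝔫 hw𝔫
  have := h𝔫
  have hmax := isMaximal_comap_chartMap (R := R) (F := F) x₀ 𝔫
  have hw₀ : algebraMap R (chart R ({x₀} : Set F₀)) w ∈
      Ideal.comap (chartMap (R := R) (F := F) x₀) 𝔫 := by
    rw [Ideal.mem_comap, chartMap_algebraMap]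
    exact hw𝔫
  obtain ⟨s₀, hs₀, h, ε, hh, huε, hsε⟩ := hLF _ hmax hw₀
  have hhF : InW (gaussO hw (algebraMap F₀ F x₀)) w (algebraMap F₀ F h - 1) := by
    have := InW.map (F := F) hw hh
    rwa [map_sub, map_one] at this
  obtain ⟨hne, hinv, hinv1⟩ := inW_inv_sub_one hw hx hhF
  have hh0 : h ≠ 0 := fun h0 => hne (by rw [h0, map_zero])
  refine ⟨chartMap (R := R) (F := F) x₀ s₀, fun hs => hs₀ (Ideal.mem_comap.2 hs),
    y * (algebraMap F₀ F h)⁻¹, ?_, ?_⟩
  · have : y - y * (algebraMap F₀ F h)⁻¹ = -(y * ((algebraMap F₀ F h)⁻¹ - 1)) := by ring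
    rw [this]
    exact (hinv1.mul_left hyO).neg
  · refine mem_chart_of_pow_mem hm ?_
    have hε : ε = u * (h ^ m)⁻¹ := by
      rw [huε, mul_assoc, mul_inv_cancel₀ (pow_ne_zero _ hh0), mul_one]
    have : ((chartMap (R := R) (F := F) x₀ s₀ : chart R ({algebraMap F₀ F x₀} : Set F)) : F)
        = algebraMap F₀ F s₀ := rfl
    rw [this]
    have key : (algebraMap F₀ F s₀ * (y * (algebraMap F₀ F h)⁻¹)) ^ m =
        algebraMap F₀ F ((s₀ : F₀) ^ (m - 1) * ((s₀ : F₀) * ε)) := by
      rw [mul_pow, mul_pow, hyu, hε, inv_pow, ← map_pow, ← map_pow, ← map_inv₀, ← map_mul,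
        ← map_mul]
      congr 1
      have : (s₀ : F₀) ^ m = (s₀ : F₀) ^ (m - 1) * s₀ := by
        rw [← pow_succ]; congr 1; omega
      rw [this]
      ring
    rw [key]
    exact algebraMap_mem_chart_singleton
      (Subalgebra.mul_mem _ (Subalgebra.pow_mem _ s₀.2 _) hsε)

end Fermat.Agent.A2.H729

end
-- ===== PACK-END A2/H729/LocalFact.lean

-- ===== PACK-BEGIN A2/H912/CoverLeafU.lean
section



/-!
# Cell A2, route G: the CORRECTED leaf COVER `H12.CoverLeafU` — helper912

`coverLeafU : Fermat.Agent.A2.H12.CoverLeafU` (hypothesis `hCover` of `H12.algSS_of_leavesU`).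

Same proof as `coverLeaf` (`CoverLeaf.lean`) with `SplitAtU` (`u ≠ 0`) in place of `SplitAt`:
the cover is `L = F(τ^i(g)^{1/m} : i < r)` (`Cover.lean`), `r` the order of `τ`;
`SplitAtU` is transported along `τ^i` by `splitAtU_map`.
-/

set_option autoImplicit false

namespace Fermat.Agent.A2.H912

open Fermat.Agent.A2 Fermat.Agent.A2.H12

universe u

section Main

variable {R : Type u} [CommRing R] {F : Type u} [Field F] [Algebra R F]

/-- `SplitAtU` at `V` for `ψ g` follows from `SplitAtU` at `V.comap ψ` for `g`. -/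
theorem splitAtU_map (m : ℕ) (ψ : F ≃+* F) (V : ValuationSubring F) {g : F}
    (h : SplitAtU m (V.comap (ψ : F →+* F)) g) : SplitAtU m V (ψ g) := by
  obtain ⟨u, hu0, hu, hu', hg⟩ := h
  refine ⟨ψ u, (map_ne_zero_iff _ ψ.injective).2 hu0, hu, ?_, ?_⟩
  · rw [← map_inv₀]
    exact hu'
  · rw [mem_nonunits_comap] at hg
    simpa using hg

/-- **Leaf COVER of route G, corrected form** (`hCover` of `H12.algG` with `SplitAtU`). -/
theorem coverConclusionU [CharZero F] (w : R) (x : F) (m : ℕ) (τ : F ≃+* F) (τR : R ≃+* R)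
    (hinj : Function.Injective (algebraMap R F)) (hm : 0 < m)
    (hroot : ∃ ζ : R, IsPrimitiveRoot ζ m)
    (hτx : τ x = x) (hτR : ∀ r, τ (algebraMap R F r) = algebraMap R F (τR r))
    (hτw : ∀ r, w ∣ r ↔ w ∣ τR r)
    {r : ℕ} (hr : 0 < r) (hτr : τ ^ r = 1)
    (g : F) (hg : g ≠ 0) (hdiv : HorDiv R m g)
    (hsplit : ∀ V : ValuationSubring F, IsSheet w x V → SplitAtU m V g) :
    CoverConclusionU w x m τ g := by
  obtain ⟨ζ, hζ⟩ := hroot
  have hζF : IsPrimitiveRoot (algebraMap R F ζ) m := hζ.map_of_injective hinj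
  let algRL : Algebra R (coverField τ r m g) :=
    ((algebraMap F (coverField τ r m g)).comp (algebraMap R F)).toAlgebra
  have tower : IsScalarTower R F (coverField τ r m g) :=
    IsScalarTower.of_algebraMap_eq (fun _ => rfl)
  refine ⟨coverField τ r m g, inferInstance, inferInstance, algRL, tower, ?_,
    coverLift τ r m g hm hτr, coverRoot τ r m g hr hm,
    fun f => coverLift_algebraMap τ r m g hm hτr f, coverRoot_pow τ r m g hr hm⟩
  refine ⟨inferInstance, inferInstance, r, fun i => coverSeq τ r m g hr hm hτr i,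
    fun i => (τ ^ (i : ℕ)) g, ?_, ?_, ?_, ?_, ?_⟩
  · intro i
    exact (map_ne_zero_iff _ (RingEquiv.injective _)).2 hg
  · intro i
    exact coverSeq_pow τ r m g hr hm hτr i
  · exact adjoin_range_coverSeq τ r m g hr hm hτr hζF
  · intro i
    exact horDiv_map m (τ ^ (i : ℕ)) (τR ^ (i : ℕ))
      (fun a => ringAut_pow_algebraMap τ τR hτR i a) hdiv
  · intro i V hV
    refine splitAtU_map m (τ ^ (i : ℕ)) V (hsplit _ ?_)
    exact hV.comap (τ ^ (i : ℕ)) (τR ^ (i : ℕ)) (fun a => ringAut_pow_algebraMap τ τR hτR i a)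
      (fun a => ringAut_pow_dvd_iff w τR hτw i a) (ringAut_pow_fix τ hτx i)

end Main

/-- **Leaf COVER** of route G, corrected form. -/
theorem coverLeafU : CoverLeafU := by
  intro R E F _ _ _ _ _ _ _ _ _ _ _ _ _ w q m x Bf Bi τ τE τR ctx g hg hdiv hsplit
  have Rt := rootLeaf w q m x Bf Bi τ τE τR ctx
  have hinjRE : Function.Injective (algebraMap R E) := IsFractionRing.injective R E
  have hinj : Function.Injective (algebraMap R F) := by
    rw [IsScalarTower.algebraMap_eq R E F]
    exact (algebraMap E F).injective.comp hinjRE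
  have : CharZero F := charZero_of_injective_algebraMap (algebraMap E F).injective
  have hτRF : ∀ r, τ (algebraMap R F r) = algebraMap R F (τR r) := by
    intro r
    rw [IsScalarTower.algebraMap_apply R E F, ctx.hτE, ctx.hτR,
      ← IsScalarTower.algebraMap_apply]
  have hdvd : ∀ r : R, w ∣ r ↔ ¬ IsUnit r := by
    intro r
    rw [← Ideal.mem_span_singleton, ← ctx.irr.maximalIdeal_eq, IsLocalRing.mem_maximalIdeal,
      mem_nonunits_iff]
  have hτw : ∀ r, w ∣ r ↔ w ∣ τR r := by
    intro r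
    rw [hdvd, hdvd]
    exact not_congr (MulEquiv.isUnit_map (τR : R ≃* R)).symm
  obtain ⟨r, hr, hfo⟩ := ctx.hfo
  exact coverConclusionU w x m τ τR hinj ctx.mpos (Rt.root.imp fun _ h => h.1) ctx.hτx hτRF hτw
    hr (ringAut_pow_eq_one_of_iterate τ hfo) g hg hdiv hsplit

end Fermat.Agent.A2.H912

end
-- ===== PACK-END A2/H912/CoverLeafU.lean

-- ===== PACK-BEGIN A2/Mod/H900/L7.lean
section



/-!
# A2 / MOD leaf L7 (helper900): `FrickeStableStatement`, verbatim

At a level `M` prime to `q` the Fricke involution `W` of `F_{M,E}` preserves the Gauss valuation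
ring `V∞` (no discreteness of `R_E` is used; only `P ∣ q`, `q ∤ M`, `V∞` = Gauss-integral
elements, `W j_d = j_{M/d}`).

Proof (`L7Core.lean`): by `S28.CoreData M k` every `f ∈ F_{M,E}` is
`c · (∑ᵢ Hᵢ(j) yᵢ) / G(j)` with `G, Hᵢ ∈ R[X]` primitive and `yᵢ ∈ ℤ[j_d]`, and `f ∈ V∞ ↔ c ∈ R`
(independence of the residues `ȳᵢ` over `k(j̄)`); then
`W f = c · (∑ᵢ Hᵢ(j_M) W yᵢ) / G(j_M)` with `G(j_M)` an integral series of nonzero reduction.
-/

set_option autoImplicit false
set_option synthInstance.maxHeartbeats 400000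
set_option maxHeartbeats 1600000

noncomputable section

namespace Fermat.Agent.A2.Mod.H900

open ModularCurve HahnSeries Polynomial IntermediateField Fermat.Agent.S28

/-- `R_E = P ∩ E` lies over `q` when `P` does. -/
theorem liesOverPrime_RE {P : ValuationSubring _root_.Fermat.Agent.A2.Mod.Qb} (E : IntermediateField ℚ _root_.Fermat.Agent.A2.Mod.Qb) {q : ℕ}
    (hP : P.LiesOverPrime q) : (_root_.Fermat.Agent.A2.Mod.RE P E).LiesOverPrime q := by
  have h1 : (q : _root_.Fermat.Agent.A2.Mod.Qb) ∈ P.nonunits := hP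
  show (q : E) ∈ (_root_.Fermat.Agent.A2.Mod.RE P E).nonunits
  rw [ValuationSubring.mem_nonunits_iff_or] at h1 ⊢
  rcases h1 with h1 | h1
  · left
    have : algebraMap E _root_.Fermat.Agent.A2.Mod.Qb (q : E) = 0 := by rw [map_natCast]; exact h1
    exact (map_eq_zero _).mp this
  · right
    intro h2
    apply h1
    have h3 : algebraMap E _root_.Fermat.Agent.A2.Mod.Qb ((q : E)⁻¹) ∈ P := h2
    rwa [map_inv₀, map_natCast] at h3

/-- S28 core data for the residue field of `R_E`, `q ∤ M`. -/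
theorem coreData_RE {P : ValuationSubring _root_.Fermat.Agent.A2.Mod.Qb} (E : IntermediateField ℚ _root_.Fermat.Agent.A2.Mod.Qb) (M : ℕ) [NeZero M]
    {q : ℕ} (hq : q.Prime) (hqM : ¬ q ∣ M) (hP : P.LiesOverPrime q) :
    CoreData M (IsLocalRing.ResidueField (_root_.Fermat.Agent.A2.Mod.RE P E)) := by
  haveI : Fact q.Prime := ⟨hq⟩
  haveI := S18.H516.charP_residue (_root_.Fermat.Agent.A2.Mod.RE P E) (liesOverPrime_RE E hP)
  exact S18.H516.coreData_of_charP M q hqM _

/-- **Leaf L7 (FrickeStable), verbatim.** -/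
theorem frickeStable (P : ValuationSubring _root_.Fermat.Agent.A2.Mod.Qb) (E : IntermediateField ℚ _root_.Fermat.Agent.A2.Mod.Qb) (M q : ℕ)
    [NeZero M] [NeZero q] (w : _root_.Fermat.Agent.A2.Mod.RE P E) : FrickeStableStatement P E M q w := by
  intro hS V W hV hW f hf
  have core := coreData_RE E M hS.q_prime hS.q_not_dvd hS.lies_over
  have hW' : FrickeOnGens M W := fun d d' _ _ hd hd' h => hW.1 d d' hd hd' h
  exact (hV (W f)).mpr (frickeStable_core (_root_.Fermat.Agent.A2.Mod.RE P E) core hW' f ((hV f).mp hf))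

end Fermat.Agent.A2.Mod.H900

end
end
-- ===== PACK-END A2/Mod/H900/L7.lean

-- ===== PACK-BEGIN S37/Rim/H383/NormalLift.lean
section




/-!
# S37 / RIM-NORMAL (helper383), part 1: the normality lift over a DVR, inside a field

Typed, Mathlib-only consumer of b2 (`Fermat.Agent.S18.B12.H638.b2NormalDom`) and HSEP
(`Fermat.Agent.S18.H425.hsep_poly`).

Setting: `F` a field of characteristic `0`, `R : Subring F` a discrete valuation ring with
uniformiser `w`, `z : F` transcendental over `R`, `B := integralClosure R[z] F` (the chart),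
finite over `R[z]` with fraction field `F`; `V : ValuationSubring F` the Gauss valuation ring:
`R ⊆ V`, `z ∈ V`, `𝔪_V = w V`, and

* `qep`  : `b ∈ B`, `b / w ∈ V` ⟹ `b / w ∈ B`                      (`q`-expansion principle),
* `sepB` : every `f ∈ B` is a simple root mod `w` of a polynomial over `R[z]`,
* `S`, `hS` : branch values, pairwise distinct mod `w`,
* `hNC`  : for a prime `π ∈ R[X]` not associated to `w`, `X - c` (`c ∈ S`): `π(z) B` is radical
           (elementwise form).

**Theorem `exists_chart_lift`**: every `v ∈ V` which is integral over `B` modulo `w`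
(`Q(v) ∈ w V` for a monic `Q` with coefficients in `B`) is congruent modulo `w V` to an element
of `B`.  (Normality of the special fibre `B / w B`.)
-/

set_option autoImplicit false
set_option linter.style.haveILetI false
set_option linter.unusedSectionVars false

noncomputable section

namespace Fermat.Agent.S37.Rim.H383

open Polynomial

variable {F : Type*} [Field F] (R : Subring F) (z : F)

/-- The chart `B`: the integral closure of `R[z]` in `F`. -/
abbrev chartB : Subalgebra (Algebra.adjoin R ({z} : Set F)) F :=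
  integralClosure (Algebra.adjoin R ({z} : Set F)) F

/-- The structure map `R[X] → B`, `X ↦ z`. -/
def polyToChart : Polynomial R →+* chartB R z :=
  (algebraMap (Algebra.adjoin R ({z} : Set F)) (chartB R z)).comp
    ((aeval (⟨z, Algebra.self_mem_adjoin_singleton R z⟩ : Algebra.adjoin R ({z} : Set F)) :
      Polynomial R →ₐ[R] Algebra.adjoin R ({z} : Set F)) : Polynomial R →+*
        Algebra.adjoin R ({z} : Set F))

theorem coe_aeval_adjoin (p : Polynomial R) :
    ((aeval (⟨z, Algebra.self_mem_adjoin_singleton R z⟩ : Algebra.adjoin R ({z} : Set F)) p :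
      Algebra.adjoin R ({z} : Set F)) : F) = aeval z p := by
  have : (aeval (⟨z, Algebra.self_mem_adjoin_singleton R z⟩ :
      Algebra.adjoin R ({z} : Set F)) p : F) =
      (Algebra.adjoin R ({z} : Set F)).val (aeval (⟨z, Algebra.self_mem_adjoin_singleton R z⟩ :
        Algebra.adjoin R ({z} : Set F)) p) := rfl
  rw [this, ← aeval_algHom_apply]
  rfl

@[simp] theorem coe_polyToChart (p : Polynomial R) :
    ((polyToChart R z p : chartB R z) : F) = aeval z p :=
  coe_aeval_adjoin R z p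

theorem aeval_surjective_adjoin :
    Function.Surjective (aeval (⟨z, Algebra.self_mem_adjoin_singleton R z⟩ :
      Algebra.adjoin R ({z} : Set F)) : Polynomial R → Algebra.adjoin R ({z} : Set F)) := by
  rintro ⟨a, ha⟩
  obtain ⟨p, hp⟩ := Algebra.adjoin_mem_exists_aeval R z ha
  exact ⟨p, Subtype.ext (by rw [coe_aeval_adjoin, hp])⟩

theorem polyToChart_injective (hz : Transcendental R z) :
    Function.Injective (polyToChart R z) := by
  intro p q hpq
  have h : aeval z p = aeval z q := by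
    rw [← coe_polyToChart, ← coe_polyToChart, hpq]
  exact (transcendental_iff_injective.mp hz) h


/-! ### The Gauss valuation ring and the chart -/

section Gauss

variable {R z}
variable (V : ValuationSubring F) {w : F} (hwR : w ∈ R)

/-- `R[z] ⊆ V`. -/
theorem adjoin_le_V (hRV : ∀ r ∈ R, r ∈ V) (hzV : z ∈ V) {f : F}
    (hf : f ∈ Algebra.adjoin R ({z} : Set F)) : f ∈ V := by
  obtain ⟨P, rfl⟩ := Algebra.adjoin_mem_exists_aeval R z hf
  rw [aeval_eq_sum_range]
  refine V.toSubring.sum_mem fun i _ => ?_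
  rw [Algebra.smul_def]
  exact mul_mem (hRV _ (P.coeff i).2) (pow_mem hzV i)

/-- `B ⊆ V`: valuation rings are integrally closed. -/
theorem chart_le_V (hRV : ∀ r ∈ R, r ∈ V) (hzV : z ∈ V) {f : F} (hf : f ∈ chartB R z) :
    f ∈ V := by
  let i : Algebra.adjoin R ({z} : Set F) →+* V :=
    (algebraMap (Algebra.adjoin R ({z} : Set F)) F).codRestrict V.toSubring
      (fun a => adjoin_le_V V hRV hzV a.2)
  have hi : (algebraMap V F).comp i = algebraMap (Algebra.adjoin R ({z} : Set F)) F := by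
    ext a; rfl
  have hint : IsIntegral V f := by
    obtain ⟨p, hp, hpf⟩ := hf
    refine ⟨p.map i, hp.map i, ?_⟩
    rw [eval₂_map, hi]
    exact hpf
  obtain ⟨y, hy⟩ := (IsIntegrallyClosed.isIntegral_iff (R := V) (K := F)).1 hint
  rw [← hy]
  exact y.2

/-- the uniformiser as an element of the chart -/
def wB : chartB R z := polyToChart R z (C ⟨w, hwR⟩)

@[simp] theorem coe_wB : ((wB (z := z) hwR : chartB R z) : F) = w := by
  unfold wB
  rw [coe_polyToChart, aeval_C]
  rfl

/-- divisibility by `w` in the chart, elementwise -/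
theorem wB_dvd_iff (hw0 : w ≠ 0) (b : chartB R z) :
    wB (z := z) hwR ∣ b ↔ (b : F) * w⁻¹ ∈ chartB R z := by
  constructor
  · rintro ⟨c, rfl⟩
    have : ((wB (z := z) hwR * c : chartB R z) : F) * w⁻¹ = (c : F) := by
      rw [MulMemClass.coe_mul, coe_wB]
      field_simp
    rw [this]
    exact c.2
  · intro h
    refine ⟨⟨(b : F) * w⁻¹, h⟩, Subtype.ext ?_⟩
    rw [MulMemClass.coe_mul, coe_wB]
    field_simp

/-- divisibility by `π(z)` in the chart, elementwise -/
theorem polyToChart_dvd_iff (π : Polynomial R) (hπ : aeval z π ≠ 0) (b : chartB R z) :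
    polyToChart R z π ∣ b ↔ (b : F) * (aeval z π)⁻¹ ∈ chartB R z := by
  constructor
  · rintro ⟨c, rfl⟩
    have : ((polyToChart R z π * c : chartB R z) : F) * (aeval z π)⁻¹ = (c : F) := by
      rw [MulMemClass.coe_mul, coe_polyToChart]
      field_simp
    rw [this]
    exact c.2
  · intro h
    refine ⟨⟨(b : F) * (aeval z π)⁻¹, h⟩, Subtype.ext ?_⟩
    rw [MulMemClass.coe_mul, coe_polyToChart]
    field_simp

section Prime

variable (hw0 : w ≠ 0) (hRV : ∀ r ∈ R, r ∈ V) (hzV : z ∈ V)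
  (hwV : w⁻¹ ∉ V) (hVgen : ∀ f ∈ V, f⁻¹ ∉ V → f * w⁻¹ ∈ V)
  (qep : ∀ b ∈ chartB R z, b * w⁻¹ ∈ V → b * w⁻¹ ∈ chartB R z)

include hVgen in
/-- In `V`, if `a * b ∈ w V` then `a ∈ w V` or `b ∈ w V`. -/
theorem mem_wV_of_mul_mem {a b : F} (hab : a * b * w⁻¹ ∈ V) (ha : a ∈ V) :
    a * w⁻¹ ∈ V ∨ b * w⁻¹ ∈ V := by
  by_cases ha0 : a = 0
  · left; rw [ha0, zero_mul]; exact V.zero_mem
  by_cases hau : a⁻¹ ∈ V
  · right
    have : b * w⁻¹ = a⁻¹ * (a * b * w⁻¹) := by field_simp
    rw [this]
    exact mul_mem hau hab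
  · left
    exact hVgen a ha hau

include hw0 hRV hzV hwV hVgen qep in
/-- **`w` is a prime element of the chart.** -/
theorem prime_wB : Prime (wB (z := z) hwR) := by
  refine ⟨?_, ?_, ?_⟩
  · intro h
    apply hw0
    have := congrArg (Subtype.val : chartB R z → F) h
    simpa using this
  · rintro ⟨⟨u, v, huv, hvu⟩, hu⟩
    have hv : (v : F) = w⁻¹ := by
      have h1 : (u : F) * (v : F) = 1 := congrArg Subtype.val huv
      have h2 : (u : F) = w := by
        have h3 : u = wB (z := z) hwR := hu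
        rw [h3]; exact coe_wB hwR
      rw [h2] at h1
      exact eq_inv_of_mul_eq_one_right h1
    exact hwV (hv ▸ chart_le_V V hRV hzV v.2)
  · intro a b hab
    rw [wB_dvd_iff hwR hw0] at hab
    have haV := chart_le_V V hRV hzV a.2
    have habV : (a : F) * (b : F) * w⁻¹ ∈ V := by
      have := chart_le_V V hRV hzV hab
      simpa using this
    rcases mem_wV_of_mul_mem V hVgen habV haV with h | h
    · left
      rw [wB_dvd_iff hwR hw0]
      exact qep _ a.2 h
    · right
      rw [wB_dvd_iff hwR hw0]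
      exact qep _ b.2 h

include hwR hw0 hRV qep in
/-- stripping powers of `w`: if `w ^ n * y ∈ B` and `y ∈ V` then `y ∈ B`. -/
theorem mem_chart_of_pow_mul_mem {y : F} (hy : y ∈ V) (n : ℕ)
    (h : w ^ n * y ∈ chartB R z) : y ∈ chartB R z := by
  induction n with
  | zero => simpa using h
  | succ n ih =>
    apply ih
    have h1 : w ^ (n + 1) * y * w⁻¹ = w ^ n * y := by
      rw [pow_succ]; field_simp
    have hwV' : w ∈ V := hRV w hwR
    have h2 : w ^ (n + 1) * y * w⁻¹ ∈ V := by
      rw [h1]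
      exact mul_mem (pow_mem hwV' n) hy
    have := qep _ h h2
    rwa [h1] at this

end Prime

end Gauss

/-! ### The chart as an `R[X]`-algebra -/

section Typed

variable {R z}

/-- the `R[X]`-algebra structure of the chart (`X ↦ z`) -/
@[reducible] def polyAlgebra (R : Subring F) (z : F) : Algebra (Polynomial R) (chartB R z) :=
  (polyToChart R z).toAlgebra

theorem coe_eval₂_chart (b : chartB R z) (P : Polynomial (Polynomial R)) :
    ((eval₂ (polyToChart R z) b P : chartB R z) : F) =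
      (P.map ((aeval z : Polynomial R →ₐ[R] F) : Polynomial R →+* F)).eval (b : F) := by
  have h1 : ((eval₂ (polyToChart R z) b P : chartB R z) : F) =
      (chartB R z).val.toRingHom (eval₂ (polyToChart R z) b P) := rfl
  rw [h1, hom_eval₂, eval_map]
  congr 1
  ext p
  · simp
  · simp

theorem finite_poly [Module.Finite (Algebra.adjoin R ({z} : Set F)) (chartB R z)] :
    @Module.Finite (Polynomial R) (chartB R z) _ _ (polyAlgebra R z).toModule := by
  letI : Algebra (Polynomial R) (chartB R z) := polyAlgebra R z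
  letI : Algebra (Polynomial R) (Algebra.adjoin R ({z} : Set F)) :=
    ((aeval (⟨z, Algebra.self_mem_adjoin_singleton R z⟩ : Algebra.adjoin R ({z} : Set F)) :
      Polynomial R →ₐ[R] Algebra.adjoin R ({z} : Set F)) : Polynomial R →+*
        Algebra.adjoin R ({z} : Set F)).toAlgebra
  haveI : IsScalarTower (Polynomial R) (Algebra.adjoin R ({z} : Set F)) (chartB R z) :=
    IsScalarTower.of_algebraMap_eq (fun _ => rfl)
  haveI : Module.Finite (Polynomial R) (Algebra.adjoin R ({z} : Set F)) :=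
    Module.Finite.of_surjective (Algebra.linearMap (Polynomial R) (Algebra.adjoin R ({z} : Set F)))
      (aeval_surjective_adjoin R z)
  exact Module.Finite.trans (Algebra.adjoin R ({z} : Set F)) (chartB R z)

theorem torsionFree_poly (hz : Transcendental R z) :
    @Module.IsTorsionFree (Polynomial R) (chartB R z) _ _ (polyAlgebra R z).toModule := by
  letI : Algebra (Polynomial R) (chartB R z) := polyAlgebra R z
  rw [Module.isTorsionFree_iff_algebraMap_injective (R := Polynomial R) (A := chartB R z)]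
  exact polyToChart_injective R z hz

end Typed

/-! ### The hypotheses of b2 -/

section Hyps

variable {R z}
variable (V : ValuationSubring F) {w : F} (hwR : w ∈ R)

/-- lifting a polynomial with coefficients in `R[z]` to `R[X][X]` -/
theorem exists_lift_poly (P : Polynomial F)
    (hP : ∀ i, P.coeff i ∈ Algebra.adjoin R ({z} : Set F)) :
    ∃ P' : Polynomial (Polynomial R),
      P'.map ((aeval z : Polynomial R →ₐ[R] F) : Polynomial R →+* F) = P := by
  have : P ∈ Polynomial.lifts ((aeval z : Polynomial R →ₐ[R] F) : Polynomial R →+* F) := by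
    rw [Polynomial.lifts_iff_coeff_lifts]
    intro n
    obtain ⟨p, hp⟩ := Algebra.adjoin_mem_exists_aeval R z (hP n)
    exact ⟨p, hp⟩
  exact (Polynomial.mem_lifts _).mp this

variable (hw0 : w ≠ 0) (hRV : ∀ r ∈ R, r ∈ V) (hzV : z ∈ V) (hwV : w⁻¹ ∉ V)
  (qep : ∀ b ∈ chartB R z, b * w⁻¹ ∈ V → b * w⁻¹ ∈ chartB R z)

include hw0 hRV hzV hwV qep in
/-- the elementwise separability hypothesis of HSEP, from `sepB` -/
theorem hel_of_sepB
    (sepB : ∀ f ∈ chartB R z, ∃ P : Polynomial F,
      (∀ i, P.coeff i ∈ Algebra.adjoin R ({z} : Set F)) ∧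
      P.eval f * w⁻¹ ∈ V ∧ (derivative P).eval f ≠ 0 ∧ ((derivative P).eval f)⁻¹ ∈ V)
    (b : chartB R z) :
    ∃ P : Polynomial (Polynomial R), wB (z := z) hwR ∣ eval₂ (polyToChart R z) b P ∧
      ¬ wB (z := z) hwR ∣ eval₂ (polyToChart R z) b (derivative P) := by
  obtain ⟨P₀, hP₀c, hP₀v, hP₀d, hP₀u⟩ := sepB b b.2
  obtain ⟨P, hP⟩ := exists_lift_poly P₀ hP₀c
  refine ⟨P, ?_, ?_⟩
  · rw [wB_dvd_iff hwR hw0]
    have h1 : ((eval₂ (polyToChart R z) b P : chartB R z) : F) = P₀.eval (b : F) := by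
      rw [coe_eval₂_chart, hP]
    apply qep _ (Subtype.mem _)
    rw [h1]
    exact hP₀v
  · rw [wB_dvd_iff hwR hw0]
    have h1 : ((eval₂ (polyToChart R z) b (derivative P) : chartB R z) : F) =
        (derivative P₀).eval (b : F) := by
      rw [coe_eval₂_chart, ← hP, derivative_map]
    rw [h1]
    intro hmem
    apply hwV
    have hV := chart_le_V V hRV hzV hmem
    have : w⁻¹ = ((derivative P₀).eval (b : F))⁻¹ * ((derivative P₀).eval (b : F) * w⁻¹) := by
      field_simp
    rw [this]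
    exact mul_mem hP₀u hV

/-- the radical hypothesis `hNC` of b2 from its elementwise form -/
theorem isRadical_of_elementwise (hz : Transcendental R z) (π : Polynomial R) (hπ0 : π ≠ 0)
    (h : ∀ f ∈ chartB R z, ∀ n : ℕ, f ^ n * (aeval z π)⁻¹ ∈ chartB R z →
        f * (aeval z π)⁻¹ ∈ chartB R z) :
    (Ideal.span {polyToChart R z π}).IsRadical := by
  have hπz : aeval z π ≠ 0 := by
    intro h0
    apply hπ0
    apply transcendental_iff_injective.mp hz
    rw [h0, map_zero]
  intro f hf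
  obtain ⟨n, hn⟩ := hf
  rw [Ideal.mem_span_singleton] at hn ⊢
  rw [polyToChart_dvd_iff π hπz] at hn ⊢
  have := h f f.2 n (by simpa using hn)
  exact this

end Hyps

/-! ### The normality lift -/

section Main

variable {R z}
variable [CharZero F] [IsDiscreteValuationRing R]
variable [IsIntegrallyClosed (chartB R z)]
  [Module.Finite (Algebra.adjoin R ({z} : Set F)) (chartB R z)]

/-- **Normality of the special fibre, elementwise (RIM-NORMAL over a DVR).**
Every `v ∈ V` which is integral over the chart `B` modulo `w` is congruent modulo `w V` to an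
element of `B`. -/
theorem exists_chart_lift (hz : Transcendental R z)
    (halg : ∀ f : F, IsAlgebraic (Algebra.adjoin R ({z} : Set F)) f)
    (V : ValuationSubring F) {w : F} (hwR : w ∈ R) (hirr : Irreducible (⟨w, hwR⟩ : R))
    (hRV : ∀ r ∈ R, r ∈ V) (hzV : z ∈ V) (hwV : w⁻¹ ∉ V)
    (hVgen : ∀ f ∈ V, f⁻¹ ∉ V → f * w⁻¹ ∈ V)
    (qep : ∀ b ∈ chartB R z, b * w⁻¹ ∈ V → b * w⁻¹ ∈ chartB R z)
    (sepB : ∀ f ∈ chartB R z, ∃ P : Polynomial F,
      (∀ i, P.coeff i ∈ Algebra.adjoin R ({z} : Set F)) ∧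
      P.eval f * w⁻¹ ∈ V ∧ (derivative P).eval f ≠ 0 ∧ ((derivative P).eval f)⁻¹ ∈ V)
    (S : Finset R) (hS : ∀ c ∈ S, ∀ c' ∈ S, c ≠ c' → IsUnit (c - c'))
    (hNC : ∀ π : Polynomial R, Prime π → ¬ Associated π (C ⟨w, hwR⟩) →
      (∀ c ∈ S, ¬ Associated π (X - C c)) →
      ∀ f ∈ chartB R z, ∀ n : ℕ, f ^ n * (aeval z π)⁻¹ ∈ chartB R z →
        f * (aeval z π)⁻¹ ∈ chartB R z)
    {v : F} (hv : v ∈ V) (Q : Polynomial F) (hQ : Q.Monic)
    (hQc : ∀ i, Q.coeff i ∈ chartB R z) (hQv : Q.eval v * w⁻¹ ∈ V) :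
    ∃ b ∈ chartB R z, (v - b) * w⁻¹ ∈ V := by
  classical
  have hw0 : w ≠ 0 := fun h => hirr.ne_zero (Subtype.ext h)
  have hwVmem : w ∈ V := hRV w hwR
  letI : Algebra (Polynomial R) (chartB R z) := polyAlgebra R z
  haveI : Module.Finite (Polynomial R) (chartB R z) := finite_poly
  haveI : Module.IsTorsionFree (Polynomial R) (chartB R z) := torsionFree_poly hz
  haveI : CharZero R := RingHom.charZero R.subtype
  have hdom : Prime (algebraMap (Polynomial R) (chartB R z) (C ⟨w, hwR⟩)) :=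
    prime_wB V hwR hw0 hRV hzV hwV hVgen qep
  have hel : ∀ b : chartB R z, ∃ P : Polynomial (Polynomial R),
      algebraMap (Polynomial R) (chartB R z) (C ⟨w, hwR⟩) ∣ aeval b P ∧
      ¬ algebraMap (Polynomial R) (chartB R z) (C ⟨w, hwR⟩) ∣ aeval b (derivative P) :=
    fun b => hel_of_sepB V hwR hw0 hRV hzV hwV qep sepB b
  have hsep := Fermat.Agent.S18.H425.hsep_poly R ⟨w, hwR⟩ hirr (chartB R z) hdom hel
  have hNC' : ∀ π : Polynomial R, Prime π → ¬ Associated π (C ⟨w, hwR⟩) →
      (∀ c ∈ S, ¬ Associated π (X - C c)) →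
      (Ideal.span {algebraMap (Polynomial R) (chartB R z) π}).IsRadical :=
    fun π hπ h1 h2 => isRadical_of_elementwise hz π hπ.ne_zero (hNC π hπ h1 h2)
  -- a denominator `g ∈ R[X]`, `w ∤ g`, with `g(z) v ∈ B`
  obtain ⟨g₀, hg₀, hint⟩ := (halg v).exists_integral_multiple
  obtain ⟨G, hG⟩ := aeval_surjective_adjoin R z g₀
  have hG0 : G ≠ 0 := by
    rintro rfl
    apply hg₀
    rw [← hG, map_zero]
  have hCw : Prime (C (⟨w, hwR⟩ : R) : Polynomial R) := Polynomial.prime_C_iff.mpr hirr.prime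
  obtain ⟨n, g, hng, hGeq⟩ := WfDvdMonoid.max_power_factor hG0 hCw.irreducible
  have hgz : aeval z G = w ^ n * aeval z g := by
    rw [hGeq, map_mul, map_pow, aeval_C]
    rfl
  have hgV : aeval z g ∈ V :=
    adjoin_le_V V hRV hzV (by
      rw [← coe_aeval_adjoin]; exact Subtype.mem _)
  have hgvV : aeval z g * v ∈ V := mul_mem hgV hv
  have hbB : aeval z g * v ∈ chartB R z := by
    apply mem_chart_of_pow_mul_mem V hwR hw0 hRV qep hgvV n
    have : w ^ n * (aeval z g * v) = g₀ • v := by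
      rw [← mul_assoc, ← hgz, ← coe_aeval_adjoin, hG]
      rfl
    rw [this]
    exact hint
  -- `g(z)` is a unit of `V`
  have hgunit : (aeval z g)⁻¹ ∈ V := by
    by_contra hcon
    have h1 : aeval z g * w⁻¹ ∈ V := hVgen _ hgV hcon
    have h2 : aeval z g * w⁻¹ ∈ chartB R z := by
      have hmem : aeval z g ∈ chartB R z := by
        rw [← coe_polyToChart]; exact Subtype.mem _
      exact qep _ hmem h1
    have h3 : algebraMap (Polynomial R) (chartB R z) (C ⟨w, hwR⟩) ∣
        algebraMap (Polynomial R) (chartB R z) g := by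
      have := (wB_dvd_iff (z := z) hwR hw0 (polyToChart R z g)).mpr (by simpa using h2)
      exact this
    haveI : Algebra.IsIntegral (Polynomial R) (chartB R z) := Algebra.IsIntegral.of_finite _ _
    haveI hic : IsIntegrallyClosed (Polynomial R) := inferInstance
    have h7 : (C (⟨w, hwR⟩ : R) : Polynomial R) ∣ g :=
      Fermat.Agent.S18.B12.H638.dvd_of_algebraMap_dvd (P := Polynomial R) (B := chartB R z)
        (C ⟨w, hwR⟩) g hCw.ne_zero h3
    exact hng h7
  -- the integrality relation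
  set d := Q.natDegree with hd
  let a : Fin d → chartB R z := fun i => ⟨Q.coeff i, hQc i⟩
  let b : chartB R z := ⟨aeval z g * v, hbB⟩
  have hrel : b ^ d + ∑ i : Fin d, a i * b ^ (i : ℕ) *
      algebraMap (Polynomial R) (chartB R z) g ^ (d - (i : ℕ)) ∈
        Ideal.span {algebraMap (Polynomial R) (chartB R z) (C ⟨w, hwR⟩)} := by
    rw [Ideal.mem_span_singleton]
    have hval : ((b ^ d + ∑ i : Fin d, a i * b ^ (i : ℕ) *
        algebraMap (Polynomial R) (chartB R z) g ^ (d - (i : ℕ)) : chartB R z) : F) =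
        aeval z g ^ d * Q.eval v := by
      have hQsum : Q.eval v = v ^ d + ∑ i : Fin d, Q.coeff i * v ^ (i : ℕ) := by
        conv_lhs => rw [hQ.as_sum]
        rw [eval_add, eval_pow, eval_X, eval_finsetSum, Finset.sum_range]
        congr 1
        refine Finset.sum_congr rfl fun i _ => ?_
        rw [eval_mul, eval_C, eval_pow, eval_X]
      rw [hQsum, mul_add, Finset.mul_sum]
      push_cast
      congr 1
      · show (aeval z g * v) ^ d = _
        rw [mul_pow]
      · refine Finset.sum_congr rfl fun i _ => ?_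
        show Q.coeff i * (aeval z g * v) ^ (i : ℕ) *
          ((polyToChart R z g : chartB R z) : F) ^ (d - (i : ℕ)) = _
        rw [coe_polyToChart, mul_pow]
        have hi : (i : ℕ) + (d - (i : ℕ)) = d := by
          have := i.2
          omega
        calc Q.coeff i * (aeval z g ^ (i : ℕ) * v ^ (i : ℕ)) * aeval z g ^ (d - (i : ℕ))
            = aeval z g ^ ((i : ℕ) + (d - (i : ℕ))) * (Q.coeff i * v ^ (i : ℕ)) := by
              rw [pow_add]; ring
          _ = aeval z g ^ d * (Q.coeff i * v ^ (i : ℕ)) := by rw [hi]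
    apply (wB_dvd_iff (z := z) hwR hw0 _).mpr
    apply qep _ (Subtype.mem _)
    rw [hval, mul_assoc]
    exact mul_mem (pow_mem hgV d) hQv
  obtain ⟨b₀, hb₀⟩ := Fermat.Agent.S18.B12.H638.b2NormalDom R ⟨w, hwR⟩ hirr (chartB R z) hdom
    hsep S hS hNC' b g hng ⟨d, a, hrel⟩
  refine ⟨b₀, b₀.2, ?_⟩
  rw [Ideal.mem_span_singleton] at hb₀
  have h4 := (wB_dvd_iff (z := z) hwR hw0 _).mp hb₀
  have h5 : ((b - algebraMap (Polynomial R) (chartB R z) g * b₀ : chartB R z) : F) =
      aeval z g * (v - b₀) := by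
    push_cast
    show aeval z g * v - ((polyToChart R z g : chartB R z) : F) * (b₀ : F) = _
    rw [coe_polyToChart]
    ring
  rw [h5] at h4
  have h6 := chart_le_V V hRV hzV h4
  have hg0 : aeval z g ≠ 0 := by
    intro h0
    apply hng
    have : g = 0 := by
      apply transcendental_iff_injective.mp hz
      rw [h0, map_zero]
    rw [this]
    exact dvd_zero _
  have : (v - b₀) * w⁻¹ = (aeval z g)⁻¹ * (aeval z g * (v - b₀) * w⁻¹) := by
    field_simp
  rw [this]
  exact mul_mem hgunit h6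

end Main

end Fermat.Agent.S37.Rim.H383

end
end
-- ===== PACK-END S37/Rim/H383/NormalLift.lean

-- ===== PACK-BEGIN Ribet/H939/NodeRingAt.lean
section


/-!
# RIBET wall-p, (S4) CORE-OUT WILD: cover node ring at a GIVEN maximal ideal (helper939)

Ask (a) of helper704 (#9417).  `H132.exists_nodeRing_of_etale` chooses a maximal ideal of
`A = R[Y]`; the WILD plan needs the node ring `R' = A2.H348.locAt A 𝔫` for a GIVEN maximal ideal
`𝔫` (so that `𝔫₁ = 𝔫₂ ∩ R₁[Y]` and `R' ⊆ R''` for two levels `E₁ ⊆ E₂`).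

* `isLocalRing_locAt`, `mem_maximalIdeal_locAt_iff` : `locAt A 𝔫` is local with maximal ideal
  `𝔫 A_𝔫` (any prime `𝔫` of any subalgebra of a field).
* `nodeRing_locAt` : the étale node ring theorem at a GIVEN maximal ideal `𝔫` of `R[Y]`
  (same proof as `H132.exists_nodeRing_of_etale`), with two extra conclusions: the structure map
  `R → R'` is local and the residue field of `R'` is that of `R`.
* `exists_nodeRing_of_etale_at` : the same in the `∃ R'` shape of helper132, plus `R' = locAt A 𝔫`.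
* functoriality in the level: `locAt_map_le`, `isMaximal_comap_of_local` (`𝔫₁ = 𝔫₂ ∩ R₁[Y]` is
  maximal and `φ (R'₁) ⊆ R'₂`).

Mathlib + `A2.H348.SubLoc` + `H600.EtaleNode` + `H132.CoverNode`; sorry-free.
-/

set_option autoImplicit false
set_option linter.unusedSectionVars false
set_option linter.style.haveILetI false

open Polynomial

namespace Fermat.Agent.Ribet.H939

open Fermat.Agent.Ribet.H704

section Local

variable {R L : Type*} [CommRing R] [Field L] [Algebra R L]

/-- `locAt A 𝔫` is a local ring (any prime `𝔫` of a subalgebra of a field). -/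
theorem isLocalRing_locAt (A : Subalgebra R L) (𝔫 : Ideal A) [h𝔫 : 𝔫.IsPrime] :
    IsLocalRing (Fermat.Agent.A2.H348.locAt A 𝔫) := by
  letI : Algebra A (Fermat.Agent.A2.H348.locAt A 𝔫) :=
    (Subalgebra.inclusion (Fermat.Agent.A2.H348.le_locAt 𝔫)).toRingHom.toAlgebra
  haveI : IsLocalization.AtPrime (Fermat.Agent.A2.H348.locAt A 𝔫) 𝔫 :=
    Fermat.Agent.Ribet.H132.isLocalization_subLoc A 𝔫
  exact IsLocalization.AtPrime.isLocalRing (Fermat.Agent.A2.H348.locAt A 𝔫) 𝔫

/-- The maximal ideal of `locAt A 𝔫` contracts to `𝔫`. -/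
theorem mem_maximalIdeal_locAt_iff (A : Subalgebra R L) (𝔫 : Ideal A) [h𝔫 : 𝔫.IsPrime]
    [IsLocalRing (Fermat.Agent.A2.H348.locAt A 𝔫)] (a : A) :
    (⟨(a : L), Fermat.Agent.A2.H348.le_locAt 𝔫 a.2⟩ : Fermat.Agent.A2.H348.locAt A 𝔫) ∈
      IsLocalRing.maximalIdeal (Fermat.Agent.A2.H348.locAt A 𝔫) ↔ a ∈ 𝔫 := by
  letI : Algebra A (Fermat.Agent.A2.H348.locAt A 𝔫) :=
    (Subalgebra.inclusion (Fermat.Agent.A2.H348.le_locAt 𝔫)).toRingHom.toAlgebra
  haveI : IsLocalization.AtPrime (Fermat.Agent.A2.H348.locAt A 𝔫) 𝔫 :=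
    Fermat.Agent.Ribet.H132.isLocalization_subLoc A 𝔫
  exact IsLocalization.AtPrime.to_map_mem_maximal_iff (Fermat.Agent.A2.H348.locAt A 𝔫) 𝔫 a

end Local

section EtaleAt

variable {R L : Type} [CommRing R] [IsDomain R] [IsIntegrallyClosed R] [IsNoetherianRing R]
  [IsLocalRing R] [Field L] [Algebra R L]

/-- **Étale local extension inside a field, at a GIVEN maximal ideal** (form with a name `A` for
the subalgebra `R[Y]`).  Hypotheses as in `H132.exists_nodeRing_of_etale`; `𝔫` is any maximal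
ideal of `A = R[Y]` and `R' = locAt A 𝔫`. -/
theorem nodeRing_locAt_of_eq (hinj : Function.Injective (algebraMap R L))
    (hk : IsAlgClosed (IsLocalRing.ResidueField R))
    {𝔭₁ 𝔭₂ : Ideal R} {π x y : R} (hN : I6.IsNode 𝔭₁ 𝔭₂ π x y)
    (Y : L) (P : R[X]) (hP : P.Monic) (hPY : aeval Y P = 0)
    (A : Subalgebra R L) (hA : A = Algebra.adjoin R ({Y} : Set L))
    (hP' : ∃ w ∈ A, aeval Y (derivative P) * w = 1)
    (hfrac : ∀ z : L, ∃ a b : L, a ∈ A ∧ b ∈ A ∧ b ≠ 0 ∧ z * b = a)
    (𝔫 : Ideal A) [h𝔫 : 𝔫.IsMaximal]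
    [hlocal : IsLocalRing (Fermat.Agent.A2.H348.locAt A 𝔫)] :
    IsIntegrallyClosed (Fermat.Agent.A2.H348.locAt A 𝔫) ∧
    IsNoetherianRing (Fermat.Agent.A2.H348.locAt A 𝔫) ∧
    IsFractionRing (Fermat.Agent.A2.H348.locAt A 𝔫) L ∧
    I6.IsNode
      (𝔭₁.map (algebraMap R (Fermat.Agent.A2.H348.locAt A 𝔫)))
      (𝔭₂.map (algebraMap R (Fermat.Agent.A2.H348.locAt A 𝔫)))
      (algebraMap R (Fermat.Agent.A2.H348.locAt A 𝔫) π)
      (algebraMap R (Fermat.Agent.A2.H348.locAt A 𝔫) x)
      (algebraMap R (Fermat.Agent.A2.H348.locAt A 𝔫) y) ∧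
    (∀ a : R, algebraMap R (Fermat.Agent.A2.H348.locAt A 𝔫) a ∈
      𝔭₁.map (algebraMap R (Fermat.Agent.A2.H348.locAt A 𝔫)) → a ∈ 𝔭₁) ∧
    (∀ a : R, algebraMap R (Fermat.Agent.A2.H348.locAt A 𝔫) a ∈
      𝔭₂.map (algebraMap R (Fermat.Agent.A2.H348.locAt A 𝔫)) → a ∈ 𝔭₂) ∧
    IsLocalHom (algebraMap R (Fermat.Agent.A2.H348.locAt A 𝔫)) ∧
    (∀ z : Fermat.Agent.A2.H348.locAt A 𝔫, ∃ r : R,
      z - algebraMap R (Fermat.Agent.A2.H348.locAt A 𝔫) r ∈
        IsLocalRing.maximalIdeal (Fermat.Agent.A2.H348.locAt A 𝔫)) := by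
  classical
  have hYA : Y ∈ A := by rw [hA]; exact Algebra.subset_adjoin (Set.mem_singleton Y)
  have hYint : IsIntegral R Y := ⟨P, hP, by rwa [← aeval_def]⟩
  haveI hAint : Algebra.IsIntegral R A := by
    have h0 : Algebra.IsIntegral R (Algebra.adjoin R ({Y} : Set L)) :=
      Algebra.IsIntegral.adjoin (fun z hz => by rw [Set.mem_singleton_iff.1 hz]; exact hYint)
    exact hA.symm ▸ h0
  haveI h𝔫p : 𝔫.IsPrime := h𝔫.isPrime
  set R' : Subalgebra R L := Fermat.Agent.A2.H348.locAt A 𝔫 with hR'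
  have hle : A ≤ R' := Fermat.Agent.A2.H348.le_locAt 𝔫
  letI algAR' : Algebra A R' := (Subalgebra.inclusion hle).toRingHom.toAlgebra
  haveI hloc : IsLocalization.AtPrime R' 𝔫 := Fermat.Agent.Ribet.H132.isLocalization_subLoc A 𝔫
  haveI htower : IsScalarTower R A R' := IsScalarTower.of_algebraMap_eq fun r => rfl
  have hmaxR' : ∀ a : A, algebraMap A R' a ∈ IsLocalRing.maximalIdeal R' ↔ a ∈ 𝔫 := fun a =>
    IsLocalization.AtPrime.to_map_mem_maximal_iff R' 𝔫 a
  -- (1) `𝔫` lies over the maximal ideal of `R`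
  have hcomap : 𝔫.comap (algebraMap R A) = IsLocalRing.maximalIdeal R := by
    haveI : (𝔫.comap (algebraMap R A)).IsMaximal :=
      Ideal.isMaximal_comap_of_isIntegral_of_isMaximal (R := R) (S := A) 𝔫
    exact IsLocalRing.eq_maximalIdeal inferInstance
  have hm𝔫 : ∀ r : R, r ∈ IsLocalRing.maximalIdeal R → algebraMap R A r ∈ 𝔫 := by
    intro r hr
    rw [← hcomap] at hr
    exact hr
  -- (2) the structure map is local
  haveI hlh : IsLocalHom (algebraMap R R') := by
    constructor
    intro r hr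
    by_contra hnu
    have h1 : algebraMap R A r ∈ 𝔫 := hm𝔫 r ((IsLocalRing.mem_maximalIdeal r).2 hnu)
    have h2 : algebraMap A R' (algebraMap R A r) ∈ IsLocalRing.maximalIdeal R' := (hmaxR' _).2 h1
    rw [← IsScalarTower.algebraMap_apply] at h2
    exact (IsLocalRing.mem_maximalIdeal _).1 h2 hr
  -- (3) injectivity
  have hinj' : Function.Injective (algebraMap R R') := by
    intro a b hab
    apply hinj
    exact congrArg (fun t : R' => (t : L)) hab
  haveI : Module.IsTorsionFree R R' := Module.isTorsionFree_iff_algebraMap_injective.2 hinj'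
  -- (4) the root
  set Y' : R' := ⟨Y, hle hYA⟩ with hY'
  have hcoe : ∀ Q : R[X], ((aeval Y' Q : R') : L) = aeval Y Q := fun Q =>
    aeval_subalgebra_coe Q R' Y'
  have hPY' : aeval Y' P = 0 := by
    apply Subtype.ext
    rw [hcoe, hPY]
    rfl
  have hYint' : IsIntegral R Y' := ⟨P, hP, by rwa [← aeval_def]⟩
  -- (5) the derivative is a unit
  have hP'u : IsUnit (aeval Y' (derivative P)) := by
    obtain ⟨w, hw, hPw⟩ := hP'
    refine IsUnit.of_mul_eq_one (⟨w, hle hw⟩ : R') ?_
    apply Subtype.ext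
    show ((aeval Y' (derivative P) : R') : L) * w = 1
    rw [hcoe, hPw]
  -- (6) fractions
  have hadj : ∀ a₀ : L, ∀ ha₀ : a₀ ∈ A, (⟨a₀, hle ha₀⟩ : R') ∈ Algebra.adjoin R ({Y'} : Set R') := by
    intro a₀ ha₀
    have hmap : (Algebra.adjoin R ({Y'} : Set R')).map R'.val = A := by
      rw [AlgHom.map_adjoin, Set.image_singleton, hA]
      rfl
    have : a₀ ∈ (Algebra.adjoin R ({Y'} : Set R')).map R'.val := by rw [hmap]; exact ha₀
    obtain ⟨a', ha', hval⟩ := this
    have : a' = ⟨a₀, hle ha₀⟩ := Subtype.ext hval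
    rw [← this]
    exact ha'
  have hfracE : ∀ z : R', ∃ (a : R') (s : R'), a ∈ Algebra.adjoin R ({Y'} : Set R') ∧
      s ∈ Algebra.adjoin R ({Y'} : Set R') ∧ IsUnit s ∧ z * s = a := by
    intro z
    obtain ⟨s₀, hs₀, hsz⟩ := z.2
    refine ⟨⟨(s₀ : L) * z, hle hsz⟩, ⟨(s₀ : L), hle s₀.2⟩, hadj _ hsz, hadj _ s₀.2, ?_, ?_⟩
    · exact IsLocalization.map_units R' (⟨s₀, hs₀⟩ : 𝔫.primeCompl)
    · apply Subtype.ext
      show (z : L) * (s₀ : L) = (s₀ : L) * z
      exact mul_comm _ _
  -- (7) the residue field is trivial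
  have hresA : ∀ a : A, ∃ r : R, a - algebraMap R A r ∈ 𝔫 := by
    intro a
    letI : Field (A ⧸ 𝔫) := Ideal.Quotient.field 𝔫
    set φ : R →+* (A ⧸ 𝔫) := (Ideal.Quotient.mk 𝔫).comp (algebraMap R A) with hφ
    have hφint : φ.IsIntegral :=
      RingHom.IsIntegral.trans _ _ (fun a => Algebra.IsIntegral.isIntegral (R := R) a)
        (RingHom.isIntegral_of_surjective _ Ideal.Quotient.mk_surjective)
    have hkill : ∀ r ∈ IsLocalRing.maximalIdeal R, φ r = 0 := by
      intro r hr
      rw [hφ, RingHom.comp_apply, Ideal.Quotient.eq_zero_iff_mem]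
      exact hm𝔫 r hr
    let ρ : IsLocalRing.ResidueField R →+* (A ⧸ 𝔫) :=
      Ideal.Quotient.lift (IsLocalRing.maximalIdeal R) φ hkill
    have hρ : ∀ r : R, ρ (IsLocalRing.residue R r) = φ r := fun r => rfl
    have hρint : ρ.IsIntegral := by
      refine RingHom.IsIntegral.tower_top (IsLocalRing.residue R) ρ ?_
      have : ρ.comp (IsLocalRing.residue R) = φ := RingHom.ext hρ
      rw [this]
      exact hφint
    obtain ⟨c, hc⟩ := (IsAlgClosed.ringHom_bijective_of_isIntegral ρ hρint).2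
      (Ideal.Quotient.mk 𝔫 a)
    obtain ⟨r, rfl⟩ := IsLocalRing.residue_surjective c
    refine ⟨r, ?_⟩
    rw [← Ideal.Quotient.eq, ← hc, hρ]
    rfl
  have hres : ∀ z : R', ∃ r : R, z - algebraMap R R' r ∈ IsLocalRing.maximalIdeal R' := by
    intro z
    obtain ⟨⟨a, s⟩, hz⟩ := IsLocalization.surj 𝔫.primeCompl z
    obtain ⟨r₁, hr₁⟩ := hresA a
    obtain ⟨r₂, hr₂⟩ := hresA (s : A)
    have hr₂u : IsUnit r₂ := by
      by_contra hnu
      have h1 : algebraMap R A r₂ ∈ 𝔫 := hm𝔫 r₂ ((IsLocalRing.mem_maximalIdeal r₂).2 hnu)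
      have h2 : (s : A) ∈ 𝔫 := by
        have : (s : A) = ((s : A) - algebraMap R A r₂) + algebraMap R A r₂ := by ring
        rw [this]
        exact 𝔫.add_mem hr₂ h1
      exact s.2 h2
    obtain ⟨r₂', hr₂'⟩ := hr₂u.exists_right_inv
    refine ⟨r₁ * r₂', ?_⟩
    set ι := algebraMap A R' with hι
    have hsu : IsUnit (ι (s : A)) := IsLocalization.map_units R' s
    have e0 : algebraMap R R' (r₁ * r₂') = ι (algebraMap R A (r₁ * r₂')) :=
      IsScalarTower.algebraMap_apply R A R' _
    have key : (z - ι (algebraMap R A (r₁ * r₂'))) * ι (s : A) =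
        ι (a - algebraMap R A r₁) -
          ι (algebraMap R A (r₁ * r₂')) * ι ((s : A) - algebraMap R A r₂) := by
      have e1 : ι (algebraMap R A (r₁ * r₂')) * ι (algebraMap R A r₂) =
          ι (algebraMap R A r₁) := by
        rw [← map_mul, ← map_mul]
        congr 2
        rw [mul_assoc, mul_comm r₂' r₂, hr₂', mul_one]
      simp only [map_sub, sub_mul, mul_sub]
      rw [hz, e1]
      ring
    have hmem : (z - ι (algebraMap R A (r₁ * r₂'))) * ι (s : A) ∈
        IsLocalRing.maximalIdeal R' := by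
      rw [key]
      exact Ideal.sub_mem _ ((hmaxR' _).2 hr₁) (Ideal.mul_mem_left _ _ ((hmaxR' _).2 hr₂))
    obtain ⟨t, ht⟩ := hsu.exists_right_inv
    have : z - algebraMap R R' (r₁ * r₂') =
        (z - ι (algebraMap R A (r₁ * r₂'))) * ι (s : A) * t := by
      rw [mul_assoc, ht, mul_one, e0]
    rw [this]
    exact Ideal.mul_mem_right _ _ hmem
  -- (8) ETNODE
  obtain ⟨hIC, hNoeth, hNode⟩ := Fermat.Agent.Ribet.H600.etaleNode R R' 𝔭₁ 𝔭₂ π x y hN hinj'
    Y' P hP hPY' hP'u hfracE hres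
  -- (9) the fraction field
  have hFrac : IsFractionRing R' L := by
    haveI : FaithfulSMul R' L :=
      (faithfulSMul_iff_algebraMap_injective R' L).2 Subtype.val_injective
    refine IsFractionRing.of_field (R := R') (K := L) ?_
    intro z
    obtain ⟨a, b, ha, hb, hb0, hzb⟩ := hfrac z
    refine ⟨⟨a, hle ha⟩, ⟨b, hle hb⟩, ?_⟩
    show z = a / b
    rw [eq_div_iff hb0, hzb]
  exact ⟨hIC, hNoeth, hFrac, hNode,
    fun a ha => Fermat.Agent.Ribet.H600.mem_of_algebraMap_mem_map Y' hYint' hfracE hN.prime₁ ha,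
    fun a ha => Fermat.Agent.Ribet.H600.mem_of_algebraMap_mem_map Y' hYint' hfracE hN.prime₂ ha,
    hlh, hres⟩


/-- **Étale local extension inside a field, at a GIVEN maximal ideal `𝔫` of `R[Y]`.** -/
theorem nodeRing_locAt (hinj : Function.Injective (algebraMap R L))
    (hk : IsAlgClosed (IsLocalRing.ResidueField R))
    {𝔭₁ 𝔭₂ : Ideal R} {π x y : R} (hN : I6.IsNode 𝔭₁ 𝔭₂ π x y)
    (Y : L) (P : R[X]) (hP : P.Monic) (hPY : aeval Y P = 0)
    (hP' : ∃ w ∈ Algebra.adjoin R ({Y} : Set L), aeval Y (derivative P) * w = 1)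
    (hfrac : ∀ z : L, ∃ a b : L, a ∈ Algebra.adjoin R ({Y} : Set L) ∧
      b ∈ Algebra.adjoin R ({Y} : Set L) ∧ b ≠ 0 ∧ z * b = a)
    (𝔫 : Ideal (Algebra.adjoin R ({Y} : Set L))) [h𝔫 : 𝔫.IsMaximal]
    [hlocal : IsLocalRing (Fermat.Agent.A2.H348.locAt (Algebra.adjoin R ({Y} : Set L)) 𝔫)] :
    IsIntegrallyClosed (Fermat.Agent.A2.H348.locAt (Algebra.adjoin R ({Y} : Set L)) 𝔫) ∧
    IsNoetherianRing (Fermat.Agent.A2.H348.locAt (Algebra.adjoin R ({Y} : Set L)) 𝔫) ∧
    IsFractionRing (Fermat.Agent.A2.H348.locAt (Algebra.adjoin R ({Y} : Set L)) 𝔫) L ∧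
    I6.IsNode (𝔭₁.map (algebraMap R (Fermat.Agent.A2.H348.locAt (Algebra.adjoin R ({Y} : Set L)) 𝔫))) (𝔭₂.map (algebraMap R (Fermat.Agent.A2.H348.locAt (Algebra.adjoin R ({Y} : Set L)) 𝔫)))
      (algebraMap R (Fermat.Agent.A2.H348.locAt (Algebra.adjoin R ({Y} : Set L)) 𝔫) π) (algebraMap R (Fermat.Agent.A2.H348.locAt (Algebra.adjoin R ({Y} : Set L)) 𝔫) x) (algebraMap R (Fermat.Agent.A2.H348.locAt (Algebra.adjoin R ({Y} : Set L)) 𝔫) y) ∧
    (∀ a : R, algebraMap R (Fermat.Agent.A2.H348.locAt (Algebra.adjoin R ({Y} : Set L)) 𝔫) a ∈ 𝔭₁.map (algebraMap R (Fermat.Agent.A2.H348.locAt (Algebra.adjoin R ({Y} : Set L)) 𝔫)) → a ∈ 𝔭₁) ∧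
    (∀ a : R, algebraMap R (Fermat.Agent.A2.H348.locAt (Algebra.adjoin R ({Y} : Set L)) 𝔫) a ∈ 𝔭₂.map (algebraMap R (Fermat.Agent.A2.H348.locAt (Algebra.adjoin R ({Y} : Set L)) 𝔫)) → a ∈ 𝔭₂) ∧
    IsLocalHom (algebraMap R (Fermat.Agent.A2.H348.locAt (Algebra.adjoin R ({Y} : Set L)) 𝔫)) ∧
    (∀ z : (Fermat.Agent.A2.H348.locAt (Algebra.adjoin R ({Y} : Set L)) 𝔫), ∃ r : R, z - algebraMap R (Fermat.Agent.A2.H348.locAt (Algebra.adjoin R ({Y} : Set L)) 𝔫) r ∈ IsLocalRing.maximalIdeal (Fermat.Agent.A2.H348.locAt (Algebra.adjoin R ({Y} : Set L)) 𝔫)) :=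
  nodeRing_locAt_of_eq hinj hk hN Y P hP hPY _ rfl hP' hfrac 𝔫

/-- The shape of `H132.exists_nodeRing_of_etale`, with `R' = locAt (R[Y]) 𝔫` for the GIVEN
maximal ideal `𝔫`. -/
theorem exists_nodeRing_of_etale_at (hinj : Function.Injective (algebraMap R L))
    (hk : IsAlgClosed (IsLocalRing.ResidueField R))
    {𝔭₁ 𝔭₂ : Ideal R} {π x y : R} (hN : I6.IsNode 𝔭₁ 𝔭₂ π x y)
    (Y : L) (P : R[X]) (hP : P.Monic) (hPY : aeval Y P = 0)
    (hP' : ∃ w ∈ Algebra.adjoin R ({Y} : Set L), aeval Y (derivative P) * w = 1)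
    (hfrac : ∀ z : L, ∃ a b : L, a ∈ Algebra.adjoin R ({Y} : Set L) ∧
      b ∈ Algebra.adjoin R ({Y} : Set L) ∧ b ≠ 0 ∧ z * b = a)
    (𝔫 : Ideal (Algebra.adjoin R ({Y} : Set L))) [h𝔫 : 𝔫.IsMaximal] :
    ∃ (R' : Subalgebra R L) (_ : IsLocalRing R'),
      R' = (Fermat.Agent.A2.H348.locAt (Algebra.adjoin R ({Y} : Set L)) 𝔫) ∧
      IsIntegrallyClosed R' ∧ IsNoetherianRing R' ∧ IsFractionRing R' L ∧
      I6.IsNode (𝔭₁.map (algebraMap R R')) (𝔭₂.map (algebraMap R R')) (algebraMap R R' π)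
        (algebraMap R R' x) (algebraMap R R' y) ∧
      (∀ a : R, algebraMap R R' a ∈ 𝔭₁.map (algebraMap R R') → a ∈ 𝔭₁) ∧
      (∀ a : R, algebraMap R R' a ∈ 𝔭₂.map (algebraMap R R') → a ∈ 𝔭₂) ∧
      IsLocalHom (algebraMap R R') ∧
      (∀ z : R', ∃ r : R, z - algebraMap R R' r ∈ IsLocalRing.maximalIdeal R') := by
  haveI hl : IsLocalRing (Fermat.Agent.A2.H348.locAt (Algebra.adjoin R ({Y} : Set L)) 𝔫) := isLocalRing_locAt _ 𝔫
  obtain ⟨h1, h2, h3, h4, h5, h6, h7, h8⟩ :=
    nodeRing_locAt hinj hk hN Y P hP hPY hP' hfrac 𝔫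
  exact ⟨_, hl, rfl, h1, h2, h3, h4, h5, h6, h7, h8⟩

end EtaleAt

end Fermat.Agent.Ribet.H939

end
-- ===== PACK-END Ribet/H939/NodeRingAt.lean

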