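import Fermat.Prelude.Def_ModularCurve_HeckeOperatorTotal
import Fermat.Agent.Pack.S44.G0E22L1
import Fermat.Agent.Pack.S44.G0E17L2
import Fermat.Agent.Pack.S44.G0E22L0
import Fermat.Agent.Pack.S44.G0E19L1
import Fermat.Agent.Pack.S44.G0E2L0
import Fermat.Agent.Pack.S44.G0E21L2
import Fermat.Agent.Pack.S44.G0E20L0
import Fermat.Agent.Pack.S44.G0E17L0
import Fermat.Agent.Pack.S44.G0E16L2
import Fermat.Agent.Pack.S44.G0E14L3
import Fermat.Agent.Pack.S44.G0E11L0
import Fermat.Agent.Pack.S44.G0E14L2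
import Fermat.Agent.Pack.S44.G0E11L3
import Fermat.Agent.Pack.S44.G0E17L3
import Fermat.Agent.Pack.S44.G0E22L3
import Fermat.Agent.Pack.S44.G0E4L2
import Fermat.Agent.Pack.S44.G0E1L3
import Fermat.Agent.Pack.S44.G0E16L1
import Fermat.Agent.Pack.S44.G0E20L2
import Fermat.Agent.Pack.S44.G0E21L1
import Fermat.Agent.Pack.S44.G0E15L0
import Fermat.Agent.Pack.S44.G0E22L2
import Fermat.Agent.Pack.S44.G0E21L3

-- ===== PACK-BEGIN Lib/X0Deg/Basic.lean
section




/-!
# Shared library X0DEG (helper760): relative degrees of the function fields `ℚ̄(X₀(M))`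

All fields are the Prelude fields `modularFunctionFieldBar M ⊆ ℚ̄((q))`.

* `relfinrank_JB`      : `[F̄_N : ℚ̄(j)] = ψ(N)` in ambient (`IntermediateField.relfinrank`) form;
* `relfinrank_mul_psi` : `N ∣ M → [F̄_M : F̄_N] * ψ(N) = ψ(M)`;
* `finrankAlong_inclusion`, `finrankAlong_heckeAlphaBar_mul_psi`,
  `finrankAlong_heckeAlphaBar_of_not_dvd` (`= ℓ + 1`), `finrankAlong_heckeAlphaBar_of_dvd` (`= ℓ`),
  `finiteAlong_heckeAlphaBar` : the same for the Prelude degeneracy map `heckeAlphaBar`.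

Input: landed S24 (`nonempty_modularPackage`, `card_XX`) and S20 (`dedekindPsi` arithmetic).
-/

set_option autoImplicit false

noncomputable section

open ModularCurve AlgebraicCurve IntermediateField
open Fermat.Agent.S24

namespace Fermat.Agent.Lib.X0Deg

/-- The `j`-function as a Laurent series over `ℚ̄`. -/
def jB : LaurentSeries Kbar := coeffEmb Kbar jq

/-- `j(q^d)` as a Laurent series over `ℚ̄`. -/
def jBd (d : ℕ) [NeZero d] : LaurentSeries Kbar := coeffEmb Kbar (qExpand ℚ d jq)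

/-- `ℚ̄(j)` as an intermediate field of `ℚ̄((q))/ℚ̄`. -/
def JB : IntermediateField Kbar (LaurentSeries Kbar) := adjoin Kbar {jB}

theorem jBd_mem {d M : ℕ} [NeZero d] (hd : d ∣ M) : jBd d ∈ modularFunctionFieldBar M :=
  coeffEmb_mem_laurentBaseChange Kbar (jqd_mem_full M hd)

theorem jB_mem (M : ℕ) [NeZero M] : jB ∈ modularFunctionFieldBar M :=
  coeffEmb_mem_laurentBaseChange Kbar (modularFunctionField_le_full M (jq_mem M))

theorem jBd_one : jBd 1 = jB := by
  simp [jBd, jB, qExpand_one_apply]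

theorem JB_le (M : ℕ) [NeZero M] : JB ≤ modularFunctionFieldBar M := by
  rw [JB, adjoin_le_iff]
  rintro x hx
  rw [Set.mem_singleton_iff] at hx
  subst hx
  exact jB_mem M

/-- Monotonicity of the Prelude function fields in the level. -/
theorem modularFunctionFieldBar_mono {N M : ℕ} [NeZero N] [NeZero M] (h : N ∣ M) :
    modularFunctionFieldBar N ≤ modularFunctionFieldBar M := by
  show laurentBaseChange Kbar _ ≤ laurentBaseChange Kbar _
  rw [laurentBaseChange, adjoin_le_iff]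
  rintro _ ⟨y, hy, rfl⟩
  exact coeffEmb_mem_laurentBaseChange Kbar (full_degeneracy_le h hy)

theorem val_jF (N : ℕ) [NeZero N] : ((jF N : FF N) : LaurentSeries Kbar) = jB := rfl

theorem comap_val_JB (N : ℕ) [NeZero N] :
    JB.comap (modularFunctionFieldBar N).val = adjoin Kbar {jF N} := by
  have h1 : (adjoin Kbar {jF N}).map (modularFunctionFieldBar N).val = JB := by
    rw [adjoin_map, Set.image_singleton]
    rfl
  rw [← h1]
  exact comap_map _ _

/-- `[F̄_N : ℚ̄(j)] = ψ(N)`. -/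
theorem relfinrank_JB (N : ℕ) [NeZero N] :
    JB.relfinrank (modularFunctionFieldBar N) = dedekindPsi N := by
  obtain ⟨P⟩ := nonempty_modularPackage N
  have h1 := relfinrank_comap JB (modularFunctionFieldBar N).val ⊤
  rw [relfinrank_top_right, ← AlgHom.fieldRange_eq_map, fieldRange_val] at h1
  rw [← h1, ← card_XX N, ← P.finrank_eq]
  rw [comap_val_JB]

theorem dedekindPsi_pos (N : ℕ) [NeZero N] : 0 < dedekindPsi N := by
  rw [← card_XX N]
  exact Nat.card_pos

/-- `N ∣ M → [F̄_M : F̄_N] * ψ(N) = ψ(M)`. -/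
theorem relfinrank_mul_psi {N M : ℕ} [NeZero N] [NeZero M] (h : N ∣ M) :
    (modularFunctionFieldBar N).relfinrank (modularFunctionFieldBar M) * dedekindPsi N
      = dedekindPsi M := by
  have := relfinrank_mul_relfinrank (JB_le N) (modularFunctionFieldBar_mono h)
  rw [relfinrank_JB, relfinrank_JB] at this
  rw [mul_comm]
  exact this

end Fermat.Agent.Lib.X0Deg

end
end
-- ===== PACK-END Lib/X0Deg/Basic.lean

-- ===== PACK-BEGIN S29/H222/ESKFamily.lean
section
/-
S29 / helper222 — piece ESK, adapter: the Eichler–Shimura input of layer M in the exact shape of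
`Fermat.Agent.S29.M.ESStatement` (deputy helper30's `M/Defs.lean`), from the four external inputs
stated as families:

* `CoreFamily`   : `S18.CoreStatement N A m` for `ℓ ∤ N`, `ℓ ∤ m`, `A` over `ℓ`     (row S18)
* `PGIFamily`    : Prelude `PrincipalGeneratedByIntegral A (residue A) N`            (S18/S37, M1-Gauss)
* `HIFamily`     : Prelude `HeckeInputsAlong ℚ̄ N ℓ`                                  (piece HI)
* `NormIdFamily` : `NormId N ℓ`                                                      (piece NKI)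
-/


set_option autoImplicit false
set_option linter.style.haveILetI false

noncomputable section

namespace Fermat.Agent.S29.H222

open ModularCurve AlgebraicCurve HahnSeries IsLocalRing
open Fermat.Agent.S18 (Qb IsInt toF CoreStatement)

/-- Row S18: the Kummer core for all `ℓ ∤ N m`. -/
def CoreFamily : Prop :=
  ∀ (N : ℕ) [NeZero N] (ℓ : ℕ), ℓ.Prime → ¬ ℓ ∣ N → ∀ m : ℕ, ¬ ℓ ∣ m →
    ∀ A : ValuationSubring Qb, A.LiesOverPrime ℓ → CoreStatement N A m

/-- Principal divisors are generated by divisors of integral series (a theorem for `ℓ ∤ N`). -/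
def PGIFamily : Prop :=
  ∀ (N : ℕ) [NeZero N] (ℓ : ℕ), ℓ.Prime → ¬ ℓ ∣ N →
    ∀ A : ValuationSubring Qb, A.LiesOverPrime ℓ →
      PrincipalGeneratedByIntegral A (IsLocalRing.residue A) N

/-- The six Prelude inputs of the Hecke correspondence `T_ℓ`, `ℓ ∤ N`. -/
def HIFamily : Prop :=
  ∀ (N : ℕ) [NeZero N] (ℓ : ℕ) [NeZero ℓ], ℓ.Prime → ¬ ℓ ∣ N → HeckeInputsAlong Qb N ℓ

/-- NORM-ID for all `ℓ ∤ N`. -/
def NormIdFamily : Prop :=
  ∀ (N : ℕ) [NeZero N] (ℓ : ℕ) [NeZero ℓ], ℓ.Prime → ¬ ℓ ∣ N → NormId N ℓ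

/-- **ES raw**, in the exact shape of the body of `Fermat.Agent.S29.M.ESStatement`. -/
theorem esRaw_of_families (hcore : CoreFamily) (hpgi : PGIFamily) (hHI : HIFamily)
    (hnid : NormIdFamily) :
    ∀ (N p : ℕ) [NeZero N] (ℓ : ℕ) (hℓ : ℓ.Prime), ¬ ℓ ∣ N * p →
      ∀ A : ValuationSubring Qb, A.LiesOverPrime ℓ →
        (∀ τ ∈ A.inertiaSubgroupIn ℚ, ∀ x : JZero N, (∃ n : ℕ, p ^ n • x = 0) → τ • x = x) ∧
        (∀ σ : Qb ≃ₐ[ℚ] Qb, A.IsFrobeniusAt σ ℓ → ∀ x : JZero N, (∃ n : ℕ, p ^ n • x = 0) →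
          σ • σ • x - heckeOperatorBar N ⟨ℓ, hℓ⟩ (σ • x) + ℓ • x = 0) := by
  intro N p _ ℓ hℓ hℓNp A hA
  haveI : NeZero ℓ := ⟨hℓ.ne_zero⟩
  have hℓN : ¬ ℓ ∣ N := fun h => hℓNp (Dvd.dvd.mul_right h p)
  have hℓp : ¬ ℓ ∣ p := fun h => hℓNp (Dvd.dvd.mul_left h N)
  have hp0 : p ≠ 0 := fun h => hℓp (h ▸ dvd_zero ℓ)
  have hℓpn : ∀ n : ℕ, ¬ ℓ ∣ p ^ n := fun n h => hℓp (hℓ.dvd_of_dvd_pow h)
  have hx' : ∀ (n : ℕ) (x : JZero N), p ^ n • x = 0 → ((p ^ n : ℕ) : ℤ) • x = 0 := by
    intro n x hx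
    rw [natCast_zsmul]
    exact hx
  refine ⟨?_, ?_⟩
  · rintro τ hτ x ⟨n, hx⟩
    exact esk_inertia N (p ^ n) (pow_ne_zero n hp0) A (hcore N ℓ hℓ hℓN (p ^ n) (hℓpn n) A hA)
      (hpgi N ℓ hℓ hℓN A hA) τ hτ x (hx' n x hx)
  · rintro σ hσ x ⟨n, hx⟩
    have h := esk_frob N ℓ hℓ (p ^ n) (pow_ne_zero n hp0) A hA
      (hcore N ℓ hℓ hℓN (p ^ n) (hℓpn n) A hA) (hpgi N ℓ hℓ hℓN A hA)
      (hHI N ℓ hℓ hℓN) (hnid N ℓ hℓ hℓN) σ hσ x (hx' n x hx)
    rw [natCast_zsmul] at h
    exact h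

end Fermat.Agent.S29.H222

end
end
-- ===== PACK-END S29/H222/ESKFamily.lean

-- ===== PACK-BEGIN S29/H812/Norm.lean
section


/-!
# S29 / H812 — the norm formula `ord_v (N_{F'/F} f) = ∑_{w | v} ord_w f` for a finite extension
of function fields of one variable over an algebraically closed field of characteristic zero.
-/

set_option autoImplicit false

noncomputable section

open AlgebraicCurve IntermediateField

namespace Fermat.Agent.S29.H812

open Fermat.Agent.S24

section Single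

variable {K F : Type*} [Field K] [Field F] [Algebra K F]

theorem ord_prod (w : Place K F) {ι : Type*} (s : Finset ι) (g : ι → F)
    (hg : ∀ i ∈ s, g i ≠ 0) : w.ord (∏ i ∈ s, g i) = ∑ i ∈ s, w.ord (g i) := by
  classical
  induction s using Finset.induction_on with
  | empty => simp
  | insert a s ha ih =>
    rw [Finset.prod_insert ha, Finset.sum_insert ha,
      w.ord_mul (hg a (Finset.mem_insert_self _ _))
        (Finset.prod_ne_zero_iff.mpr fun i hi => hg i (Finset.mem_insert_of_mem hi)),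
      ih fun i hi => hg i (Finset.mem_insert_of_mem hi)]

theorem isUnit_of_ord_eq_zero (v : Place K F) (a : v.toValuationSubring) (ha : (a : F) ≠ 0)
    (h : v.ord (a : F) = 0) : IsUnit a := by
  rw [← v.adicValuation_coe_eq_one_iff, H504.adicValuation_eq_exp_neg_ord v ha, h]
  simp

end Single

variable {K F F' : Type*} [Field K] [Field F] [Field F']
  [Algebra K F] [Algebra K F'] [Algebra F F'] [IsScalarTower K F F']
  [Algebra.IsIntegral F F'] [HasPrincipalDivisors K F']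
  [IsAlgClosed K] [CharZero K] [Module.Finite F F']

/-- The matrix of multiplication by an integral element in a local integral basis, over the
valuation ring. -/
theorem exists_matrix (v : Place K F) [DecidableEq (FibIdx F' v)]
    (b : Module.Basis (FibIdx F' v) F F')
    (hb : ∀ i, InFib v (b i))
    (hrepr : ∀ x : F', InFib v x → ∀ i, b.repr x i ∈ v.toValuationSubring)
    {x : F'} (hx : InFib v x) :
    ∃ A : Matrix (FibIdx F' v) (FibIdx F' v) v.toValuationSubring,
      Algebra.leftMulMatrix b x = A.map v.toValuationSubring.subtype := by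
  refine ⟨fun i j => ⟨Algebra.leftMulMatrix b x i j, ?_⟩, ?_⟩
  · rw [Algebra.leftMulMatrix_eq_repr_mul]
    exact hrepr _ (hx.mul (hb j)) i
  · ext i j
    rfl

/-- The norm of an element integral above `v` is integral at `v`. -/
theorem norm_mem_of_inFib (hF : ∃ x : F, Transcendental K x ∧ FiniteDimensional K⟮x⟯ F)
    (v : Place K F) {x : F'} (hx : InFib v x) : Algebra.norm F x ∈ v.toValuationSubring := by
  classical
  obtain ⟨b, hb, hrepr⟩ := exists_integral_basis (F' := F') hF v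
  obtain ⟨A, hA⟩ := exists_matrix v b hb hrepr hx
  rw [Algebra.norm_eq_matrix_det b x, hA, ← RingHom.mapMatrix_apply, ← RingHom.map_det]
  exact (A.det).2

/-- If the norm of an integral element is a unit at `v`, the inverse is integral above `v`. -/
theorem inFib_inv_of_ord_norm_eq_zero
    (hF : ∃ x : F, Transcendental K x ∧ FiniteDimensional K⟮x⟯ F)
    (v : Place K F) {x : F'} (hx0 : x ≠ 0) (hx : InFib v x)
    (hN : v.ord (Algebra.norm F x) = 0) : InFib v x⁻¹ := by
  classical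
  obtain ⟨b, hb, hrepr⟩ := exists_integral_basis (F' := F') hF v
  obtain ⟨A, hA⟩ := exists_matrix v b hb hrepr hx
  have hdet : ((A.det : v.toValuationSubring) : F) = Algebra.norm F x := by
    rw [Algebra.norm_eq_matrix_det b x, hA, ← RingHom.mapMatrix_apply, ← RingHom.map_det]
    rfl
  have hNne : Algebra.norm F x ≠ 0 := Algebra.norm_ne_zero_iff.mpr hx0
  have hunit : IsUnit A.det :=
    isUnit_of_ord_eq_zero v A.det (by rw [hdet]; exact hNne) (by rw [hdet]; exact hN)
  -- the inverse matrix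
  have h1 : A⁻¹ * A = 1 := Matrix.nonsing_inv_mul A hunit
  have h2 : (A⁻¹).map v.toValuationSubring.subtype * Algebra.leftMulMatrix b x = 1 := by
    rw [hA, ← Matrix.map_mul, h1]
    exact Matrix.map_one _ (map_zero _) (map_one _)
  have h3 : Algebra.leftMulMatrix b x * Algebra.leftMulMatrix b x⁻¹ = 1 := by
    rw [← map_mul, mul_inv_cancel₀ hx0, map_one]
  have h4 : Algebra.leftMulMatrix b x⁻¹ = (A⁻¹).map v.toValuationSubring.subtype := by
    calc Algebra.leftMulMatrix b x⁻¹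
        = ((A⁻¹).map v.toValuationSubring.subtype * Algebra.leftMulMatrix b x)
            * Algebra.leftMulMatrix b x⁻¹ := by rw [h2, one_mul]
      _ = (A⁻¹).map v.toValuationSubring.subtype := by rw [mul_assoc, h3, mul_one]
  -- coordinates of `x⁻¹`
  have hcoord : ∀ i, b.repr x⁻¹ i ∈ v.toValuationSubring := by
    intro i
    have h5 := congrFun (Algebra.leftMulMatrix_mulVec_repr b x⁻¹ 1) i
    rw [mul_one] at h5
    rw [← h5, Matrix.mulVec, dotProduct]
    refine sum_mem fun j _ => mul_mem ?_ (hrepr 1 (inFib_one v) j)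
    rw [h4]
    exact (A⁻¹ i j).2
  rw [← b.sum_repr x⁻¹]
  exact inFib_sum _ _ fun i _ => (hb i).smul (hcoord i)

variable (hF : ∃ x : F, Transcendental K x ∧ FiniteDimensional K⟮x⟯ F)

include hF in
/-- Units above `v` have unit norm. -/
theorem ord_norm_eq_zero_of_unit (v : Place K F) {x : F'} (hx0 : x ≠ 0)
    (hx : ∀ w ∈ v.fiber F', w.ord x = 0) : v.ord (Algebra.norm F x) = 0 := by
  have h1 : InFib v x := inFib_iff_ord.mpr fun w hw => (hx w hw).ge
  have h2 : InFib v x⁻¹ := inFib_iff_ord.mpr fun w hw => by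
    rw [w.ord_inv, hx w hw]; rfl
  have h3 := H117.ord_nonneg_of_mem v (norm_mem_of_inFib hF v h1)
  have h4 := H117.ord_nonneg_of_mem v (norm_mem_of_inFib hF v h2)
  have h5 : Algebra.norm F x * Algebra.norm F x⁻¹ = 1 := by
    rw [← map_mul, mul_inv_cancel₀ hx0, map_one]
  have h6 : v.ord (Algebra.norm F x) + v.ord (Algebra.norm F x⁻¹) = 0 := by
    rw [← v.ord_mul (Algebra.norm_ne_zero_iff.mpr hx0)
      (Algebra.norm_ne_zero_iff.mpr (inv_ne_zero hx0)), h5, v.ord_one]
  omega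

include hF in
/-- Non-units above `v` have non-unit norm. -/
theorem ord_norm_pos_of_ord_pos (v : Place K F) {x : F'} (hx0 : x ≠ 0) (hx : InFib v x)
    {w₀ : Place K F'} (hw₀ : w₀ ∈ v.fiber F') (hpos : 0 < w₀.ord x) :
    0 < v.ord (Algebra.norm F x) := by
  have h3 := H117.ord_nonneg_of_mem v (norm_mem_of_inFib hF v hx)
  rcases eq_or_lt_of_le h3 with h0 | hlt
  · exfalso
    have h := inFib_inv_of_ord_norm_eq_zero hF v hx0 hx h0.symm
    have := H117.ord_nonneg_of_mem w₀ (h w₀ hw₀)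
    rw [w₀.ord_inv] at this
    omega
  · exact hlt

include hF in
/-- Elements with the same orders above `v` have norms of the same order at `v`. -/
theorem ord_norm_congr (v : Place K F) {g h : F'} (hg : g ≠ 0) (hh : h ≠ 0)
    (hgh : ∀ w ∈ v.fiber F', w.ord g = w.ord h) :
    v.ord (Algebra.norm F g) = v.ord (Algebra.norm F h) := by
  have hu0 : g * h⁻¹ ≠ 0 := mul_ne_zero hg (inv_ne_zero hh)
  have hu : v.ord (Algebra.norm F (g * h⁻¹)) = 0 :=
    ord_norm_eq_zero_of_unit hF v hu0 fun w hw => by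
      rw [w.ord_mul hg (inv_ne_zero hh), w.ord_inv, hgh w hw]; ring
  have h1 : g = (g * h⁻¹) * h := by field_simp
  have h2 : Algebra.norm F g = Algebra.norm F (g * h⁻¹) * Algebra.norm F h := by
    rw [← map_mul, ← h1]
  rw [h2, v.ord_mul (Algebra.norm_ne_zero_iff.mpr hu0) (Algebra.norm_ne_zero_iff.mpr hh), hu,
    zero_add]

end Fermat.Agent.S29.H812

end
end
-- ===== PACK-END S29/H812/Norm.lean

-- ===== PACK-BEGIN S29/H812/NormFormula.lean
section


/-!
# S29 / H812 — the norm formula and the Prelude classes `SumRamificationInertia`,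
`FundamentalIdentity`, `PushforwardNormFormula` for finite extensions of function fields over an
algebraically closed field of characteristic zero.
-/

set_option autoImplicit false

noncomputable section

open AlgebraicCurve IntermediateField

namespace Fermat.Agent.S29.H812

open Fermat.Agent.S24

variable {K F F' : Type*} [Field K] [Field F] [Field F']
  [Algebra K F] [Algebra K F'] [Algebra F F'] [IsScalarTower K F F']
  [Algebra.IsIntegral F F'] [HasPrincipalDivisors K F']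
  [IsAlgClosed K] [CharZero K] [Module.Finite F F']

variable (hF : ∃ x : F, Transcendental K x ∧ FiniteDimensional K⟮x⟯ F)

include hF in
omit [HasPrincipalDivisors K F'] [CharZero K] in
theorem inertiaDeg_eq_one (w : Place K F') : w.inertiaDeg F = 1 := by
  obtain ⟨x, hx, hxfin⟩ := hF
  haveI := finiteDimensional_adjoin_algebraMap (K := K) (F' := F') x
  have h := w.deg_restrict_mul_inertiaDeg (F := F)
  rw [FF.deg_eq_one (w.restrict F) hx,
    FF.deg_eq_one w (transcendental_algebraMap_of (F' := F') hx), one_mul] at h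
  exact h

include hF in
/-- **Norm formula**: `ord_v (N f) = ∑_{w | v} ord_w f`. -/
theorem ord_norm_eq_sum (v : Place K F) {f : F'} (hf : f ≠ 0) :
    v.ord (Algebra.norm F f) = ∑ w ∈ v.fiber F', w.ord f := by
  classical
  have hϖ : ∀ w : Place K F', ∃ ϖ : F', ϖ ≠ 0 ∧ w.ord ϖ = 1 ∧
      ∀ w' ∈ (v.fiber F').erase w, w'.ord ϖ = 0 := fun w =>
    exists_ord_eq_one_and_zero w _ (Finset.notMem_erase _ _)
  choose ϖ hϖ0 hϖ1 hϖ2 using hϖ
  set c : Place K F' → ℤ := fun w => v.ord (Algebra.norm F (ϖ w)) with hc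
  have hpne : ∀ k : Place K F' → ℕ, ∏ w ∈ v.fiber F', ϖ w ^ k w ≠ 0 := fun k =>
    Finset.prod_ne_zero_iff.mpr fun w _ => pow_ne_zero _ (hϖ0 w)
  have hprod : ∀ (k : Place K F' → ℕ), ∀ w' ∈ v.fiber F',
      w'.ord (∏ w ∈ v.fiber F', ϖ w ^ k w) = k w' := by
    intro k w' hw'
    rw [ord_prod w' _ _ fun w _ => pow_ne_zero _ (hϖ0 w)]
    simp_rw [H117.ord_pow]
    rw [Finset.sum_eq_single w']
    · rw [hϖ1 w']; ring
    · intro w _ hne
      rw [hϖ2 w w' (Finset.mem_erase.mpr ⟨fun h => hne h.symm, hw'⟩)]; ring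
    · intro h; exact absurd hw' h
  have hnorm : ∀ k : Place K F' → ℕ,
      v.ord (Algebra.norm F (∏ w ∈ v.fiber F', ϖ w ^ k w)) = ∑ w ∈ v.fiber F', (k w : ℤ) * c w := by
    intro k
    rw [map_prod, ord_prod v _ _ fun w _ =>
      Algebra.norm_ne_zero_iff.mpr (pow_ne_zero _ (hϖ0 w))]
    refine Finset.sum_congr rfl fun w _ => ?_
    rw [map_pow, H117.ord_pow]
  have hstar : ∀ f : F', f ≠ 0 →
      v.ord (Algebra.norm F f) = ∑ w ∈ v.fiber F', w.ord f * c w := by
    intro f hf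
    set p : Place K F' → ℕ := fun w => (w.ord f).toNat with hp
    set n : Place K F' → ℕ := fun w => (-(w.ord f)).toNat with hn
    have hpn : ∀ w : Place K F', w.ord f = (p w : ℤ) - (n w : ℤ) := by
      intro w
      simp only [hp, hn]
      omega
    have hcong := ord_norm_congr hF v (g := f * ∏ w ∈ v.fiber F', ϖ w ^ n w)
      (h := ∏ w ∈ v.fiber F', ϖ w ^ p w) (mul_ne_zero hf (hpne n)) (hpne p) (by
        intro w' hw'
        rw [w'.ord_mul hf (hpne n), hprod n w' hw', hprod p w' hw', hpn w']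
        ring)
    rw [map_mul, v.ord_mul (Algebra.norm_ne_zero_iff.mpr hf)
      (Algebra.norm_ne_zero_iff.mpr (hpne n)), hnorm, hnorm] at hcong
    have : ∑ w ∈ v.fiber F', w.ord f * c w
        = ∑ w ∈ v.fiber F', (p w : ℤ) * c w - ∑ w ∈ v.fiber F', (n w : ℤ) * c w := by
      rw [← Finset.sum_sub_distrib]
      refine Finset.sum_congr rfl fun w _ => ?_
      rw [hpn w]; ring
    rw [this]
    linarith
  -- the constants `c w` are all `1`
  obtain ⟨π, hπ0, hπ1⟩ := H117.exists_ord_eq_one v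
  have hπ' : algebraMap F F' π ≠ 0 := by simpa using hπ0
  have h1 := hstar (algebraMap F F' π) hπ'
  rw [Algebra.norm_algebraMap, H117.ord_pow, hπ1, mul_one] at h1
  have h2 : ∀ w ∈ v.fiber F', w.ord (algebraMap F F' π) = (w.ramificationIndex F : ℤ) := by
    intro w hw
    rw [w.ord_restrict, Place.mem_fiber.mp hw, hπ1, mul_one]
  have h3 : ((∑ w ∈ v.fiber F', w.ramificationIndex F : ℕ) : ℤ) = (Module.finrank F F' : ℤ) := by
    exact_mod_cast sum_ramificationIndex_eq_finrank hF v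
  have hcpos : ∀ w ∈ v.fiber F', 1 ≤ c w := by
    intro w hw
    have hin : InFib v (ϖ w) := inFib_iff_ord.mpr fun w' hw' => by
      by_cases h : w' = w
      · rw [h, hϖ1]; norm_num
      · rw [hϖ2 w w' (Finset.mem_erase.mpr ⟨h, hw'⟩)]
    have := ord_norm_pos_of_ord_pos hF v (hϖ0 w) hin hw (by rw [hϖ1]; norm_num)
    exact this
  have h4 : ∑ w ∈ v.fiber F', (w.ramificationIndex F : ℤ) * (c w - 1) = 0 := by
    have : ∑ w ∈ v.fiber F', (w.ramificationIndex F : ℤ) * (c w - 1)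
        = ∑ w ∈ v.fiber F', w.ord (algebraMap F F' π) * c w
          - ∑ w ∈ v.fiber F', (w.ramificationIndex F : ℤ) := by
      rw [← Finset.sum_sub_distrib]
      refine Finset.sum_congr rfl fun w hw => ?_
      rw [h2 w hw]; ring
    rw [this, ← h1]
    push_cast at h3
    rw [h3]; ring
  have h5 := (Finset.sum_eq_zero_iff_of_nonneg (fun w hw => by
    have he : (0 : ℤ) ≤ (w.ramificationIndex F : ℤ) := Int.natCast_nonneg _
    have := hcpos w hw
    exact mul_nonneg he (by omega))).mp h4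
  have hc1 : ∀ w ∈ v.fiber F', c w = 1 := by
    intro w hw
    have h6 := h5 w hw
    have he : (0 : ℤ) < (w.ramificationIndex F : ℤ) := by
      exact_mod_cast w.ramificationIndex_pos (F := F)
    rcases mul_eq_zero.mp h6 with h7 | h7
    · omega
    · omega
  rw [hstar f hf]
  refine Finset.sum_congr rfl fun w hw => ?_
  rw [hc1 w hw, mul_one]

include hF in
/-- The Prelude's `PushforwardNormFormula`. -/
theorem pushforwardNormFormula : Divisor.PushforwardNormFormula K F F' := by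
  classical
  intro f hf D hD v
  rw [Divisor.pushforward_apply, ord_norm_eq_sum hF v hf]
  have h1 : ∀ w ∈ D.support,
      (if w.restrict F = v then D w * (w.inertiaDeg F : ℤ) else 0)
        = if w.restrict F = v then w.ord f else 0 := by
    intro w _
    rw [inertiaDeg_eq_one hF w, hD w]
    simp
  rw [Finset.sum_congr rfl h1, ← Finset.sum_filter]
  refine Finset.sum_subset ?_ ?_
  · intro w hw
    exact Place.mem_fiber.mpr (Finset.mem_filter.mp hw).2
  · intro w hw hnot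
    have : w ∉ D.support := fun h => hnot (Finset.mem_filter.mpr ⟨h, Place.mem_fiber.mp hw⟩)
    rw [Finsupp.notMem_support_iff] at this
    rw [← hD w, this]

include hF in
/-- The Prelude's `SumRamificationInertia`. -/
theorem sumRamificationInertia : SumRamificationInertia K F F' where
  sum_ramificationIndex_mul_inertiaDeg v := by
    have h := sum_ramificationIndex_eq_finrank (F' := F') hF v
    rw [← h]
    push_cast
    refine Finset.sum_congr rfl fun w _ => ?_
    rw [inertiaDeg_eq_one hF w]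
    simp

include hF in
/-- The Prelude's `FundamentalIdentity`. -/
theorem fundamentalIdentity : FundamentalIdentity K F F' :=
  haveI := sumRamificationInertia (F' := F') hF
  inferInstance

end Fermat.Agent.S29.H812

end
end
-- ===== PACK-END S29/H812/NormFormula.lean

-- ===== PACK-BEGIN Lib/RR/H864/FF1Modular.lean
section



/-!
# RR library, bridge: `FF1` for the function field of `X₀(N)` over `ℚ̄`
-/

set_option autoImplicit false

noncomputable section

open AlgebraicCurve ModularCurve IntermediateField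

namespace Fermat.Agent.Lib.RR.H864

open Fermat.Agent.S24 in
theorem jF_not_mem_range (N : ℕ) [NeZero N] :
    jF N ∉ (algebraMap Kbar (FF N)).range := by
  rintro ⟨c, hc⟩
  have h1 : ((algebraMap Kbar (FF N) c : FF N) : LaurentSeries Kbar).coeff (-1)
      = ((jF N : FF N) : LaurentSeries Kbar).coeff (-1) := by rw [hc]
  have h2 : ((algebraMap Kbar (FF N) c : FF N) : LaurentSeries Kbar)
      = algebraMap Kbar (LaurentSeries Kbar) c := rfl
  rw [h2, algebraMap_laurentSeries_eq_single] at h1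
  have h3 : ((jF N : FF N) : LaurentSeries Kbar) = coeffEmb Kbar jq := rfl
  rw [h3, coeffEmb_coeff, coeff_jq_neg_one, map_one,
    HahnSeries.coeff_single_of_ne (by norm_num)] at h1
  exact zero_ne_one h1

open Fermat.Agent.S24 in
theorem transcendental_jF (N : ℕ) [NeZero N] : Transcendental Kbar (jF N) :=
  FF.transcendental_of_not_mem_range (jF_not_mem_range N)

open Fermat.Agent.S24 in
/-- **`FF1` for the modular function field** `ℚ̄(j(q^d) : d ∣ N)`. -/
theorem ff1_modularFunctionFieldBar (N : ℕ) [NeZero N] :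
    FF1 (AlgebraicClosure ℚ) ↥(modularFunctionFieldBar N) := by
  obtain ⟨P⟩ := nonempty_modularPackage N
  haveI := P.finiteDimensional
  exact ff1 (jF N) (transcendental_jF N)

/-- The modular function field has principal divisors. -/
theorem hasPrincipalDivisors_modularFunctionFieldBar (N : ℕ) [NeZero N] :
    HasPrincipalDivisors (AlgebraicClosure ℚ) ↥(modularFunctionFieldBar N) :=
  (ff1_modularFunctionFieldBar N).hpd

end Fermat.Agent.Lib.RR.H864

end
end
-- ===== PACK-END Lib/RR/H864/FF1Modular.lean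

-- ===== PACK-BEGIN S37/H819/Gamma.lean
section


/-!
# S37 / NORM (helper819) — matrix lemmas for the cosets of `Γ₀(Nℓ)` in `Γ₀(N)`

For a prime `ℓ ∤ N` and `h ∈ Γ₀(N)`:
* either `ℓ ∣ h₁₀` (then `h ∈ Γ₀(Nℓ)`), or there is `b` with `ℓ ∣ h₁₁ - b h₁₀`;
* in the second case `diag(dℓ,1)·h = γ'·[[d, d b],[0, ℓ]]` for every `d ∣ N`, i.e.
  `j(dℓ·hτ) = j(d(τ+b)/ℓ)`;
* every residue `b` occurs.
-/

set_option autoImplicit false

noncomputable section

open UpperHalfPlane
open scoped MatrixGroups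

namespace Fermat.Agent.S37.H819

open Fermat.Agent.S24 Fermat.Agent.S24.H997

theorem gamma0_mem_iff_dvd (N : ℕ) (g : SL(2, ℤ)) :
    g ∈ CongruenceSubgroup.Gamma0 N ↔ (N : ℤ) ∣ g 1 0 := by
  rw [CongruenceSubgroup.Gamma0_mem, ZMod.intCast_zmod_eq_zero_iff_dvd]

/-- If `ℓ ∣ h₁₀` and `h ∈ Γ₀(N)` with `gcd(N,ℓ) = 1`, then `h ∈ Γ₀(Nℓ)`. -/
theorem mem_gamma0_mul {N ℓ : ℕ} (hcop : Nat.Coprime N ℓ) {h : SL(2, ℤ)}
    (hN : h ∈ CongruenceSubgroup.Gamma0 N) (hℓ : (ℓ : ℤ) ∣ h 1 0) :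
    h ∈ CongruenceSubgroup.Gamma0 (N * ℓ) := by
  rw [gamma0_mem_iff_dvd] at hN ⊢
  have hc : IsCoprime (N : ℤ) (ℓ : ℤ) := Nat.isCoprime_iff_coprime.mpr hcop
  push_cast
  exact hc.mul_dvd hN hℓ

/-- For `ℓ` prime, either `ℓ ∣ h₁₀` or `h₁₁ ≡ b h₁₀ mod ℓ` for some `b`. -/
theorem dvd_or_exists_b {ℓ : ℕ} (hℓ : ℓ.Prime) (h : SL(2, ℤ)) :
    (ℓ : ℤ) ∣ h 1 0 ∨ ∃ b : ℤ, (ℓ : ℤ) ∣ h 1 1 - b * h 1 0 := by
  by_cases hd : (ℓ : ℤ) ∣ h 1 0
  · exact Or.inl hd
  · right
    have hp : Prime (ℓ : ℤ) := Nat.prime_iff_prime_int.mp hℓ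
    have hc : IsCoprime (ℓ : ℤ) (h 1 0) := (Prime.coprime_iff_not_dvd hp).mpr hd
    obtain ⟨s, t, hst⟩ := hc
    refine ⟨h 1 1 * t, ⟨h 1 1 * s, ?_⟩⟩
    linear_combination (-(h 1 1)) * hst

/-- `ℓ ∣ h₁₁ - b h₁₀` excludes `ℓ ∣ h₁₀`. -/
theorem not_dvd_of_twist {ℓ : ℕ} (hℓ : ℓ.Prime) {h : SL(2, ℤ)} {b : ℤ}
    (hb : (ℓ : ℤ) ∣ h 1 1 - b * h 1 0) : ¬ (ℓ : ℤ) ∣ h 1 0 := by
  intro hd
  have h11 : (ℓ : ℤ) ∣ h 1 1 := by
    have := dvd_add hb (Dvd.dvd.mul_left hd b)
    simpa using this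
  have hdet := inf_sl_det h
  have h1 : (ℓ : ℤ) ∣ 1 := by
    rw [← hdet]
    exact dvd_sub (Dvd.dvd.mul_left h11 _) (Dvd.dvd.mul_left hd _)
  have hp : Prime (ℓ : ℤ) := Nat.prime_iff_prime_int.mp hℓ
  exact hp.not_dvd_one h1

/-- The Hermite normal form `diag(dℓ,1)·h = γ'·[[d, d b],[0, ℓ]]`. -/
theorem exists_hnf_twist (d ℓ : ℕ) (b : ℤ) (h : SL(2, ℤ)) (hd : (d : ℤ) ∣ h 1 0)
    (hb : (ℓ : ℤ) ∣ h 1 1 - b * h 1 0) :
    ∃ γ' : SL(2, ℤ), ((d * ℓ : ℕ) : ℤ) * h 0 0 = γ' 0 0 * (d : ℕ) ∧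
      ((d * ℓ : ℕ) : ℤ) * h 0 1 = γ' 0 0 * ((d : ℤ) * b) + γ' 0 1 * (ℓ : ℕ) ∧
      h 1 0 = γ' 1 0 * (d : ℕ) ∧ h 1 1 = γ' 1 0 * ((d : ℤ) * b) + γ' 1 1 * (ℓ : ℕ) := by
  obtain ⟨c, hc⟩ := hd
  obtain ⟨e, he⟩ := hb
  have hdet := inf_sl_det h
  refine ⟨⟨!![(ℓ : ℤ) * h 0 0, (d : ℤ) * h 0 1 - (d : ℤ) * b * h 0 0; c, e], ?_⟩, ?_, ?_, ?_, ?_⟩
  · rw [Matrix.det_fin_two_of]
    have h11 : h 1 1 = (ℓ : ℤ) * e + b * h 1 0 := by linarith
    rw [h11, hc] at hdet
    linear_combination hdet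
  · simp; ring
  · simp; ring
  · simp [hc]; ring
  · simp
    have h11 : h 1 1 = (ℓ : ℤ) * e + b * h 1 0 := by linarith
    rw [h11, hc]; ring

/-- Every residue class `b` is realised by some `h ∈ Γ₀(N)`. -/
theorem exists_rep {N ℓ : ℕ} (hcop : Nat.Coprime N ℓ) (b : ℤ) :
    ∃ h : SL(2, ℤ), h ∈ CongruenceSubgroup.Gamma0 N ∧ (ℓ : ℤ) ∣ h 1 1 - b * h 1 0 := by
  have hc : IsCoprime (b * N + ℓ : ℤ) (N : ℤ) := by
    have h0 : IsCoprime (ℓ : ℤ) (N : ℤ) := (Nat.isCoprime_iff_coprime.mpr hcop).symm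
    have := h0.add_mul_right_left b
    simpa [add_comm] using this
  obtain ⟨s, t, hst⟩ := hc
  have hdet : (!![s, -t; (N : ℤ), b * N + ℓ] : Matrix (Fin 2) (Fin 2) ℤ).det = 1 := by
    rw [Matrix.det_fin_two_of]
    linear_combination hst
  let g : SL(2, ℤ) := ⟨!![s, -t; (N : ℤ), b * N + ℓ], hdet⟩
  have g10 : g 1 0 = (N : ℤ) := by simp [g]
  have g11 : g 1 1 = b * N + ℓ := by simp [g]
  refine ⟨g, ?_, ?_⟩
  · rw [gamma0_mem_iff_dvd, g10]
  · rw [g10, g11]
    exact ⟨1, by ring⟩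

end Fermat.Agent.S37.H819

end
end
-- ===== PACK-END S37/H819/Gamma.lean

-- ===== PACK-BEGIN S29/H332/KummerFun.lean
section




/-!
# S29 / M4b / K1 — the Kummer function `h = E^χ₁₂ / (2Δ)`

For a character `χ : Γ₀(N) →* ℂˣ`, unitary and trivial on all elements of trace `±2`, the function
`kummerFun N χ = E^χ₁₂ / (2Δ)` is holomorphic on `ℍ`, satisfies `h(γτ) = χ(γ) h(τ)`, belongs to the
S24 ring `holN N` (expansions in `exp(2πiτ/N)` at all cusps) and has a simple pole with leading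
coefficient `1` at `i∞` (in `q = exp(2πiτ)`).

The first part is abstract: any holomorphic function with a parabolic character and moderate growth
belongs to `holN N`.
-/

set_option autoImplicit false

noncomputable section

open UpperHalfPlane EisensteinSeries ModularForm Filter Topology HahnSeries ModularCurve
open scoped Matrix MatrixGroups Manifold

namespace Fermat.Agent.S29.H332

open Fermat.Agent.S24 Fermat.Agent.S24.H997 Fermat.Agent.S24.H624

local notation "Δ" => ModularForm.discriminant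

/-! ### Conjugates of translations -/

/-- `g T^w g⁻¹` has trace `2`. -/
theorem trace_conj_T_zpow (g : SL(2, ℤ)) (w : ℤ) :
    (g * ModularGroup.T ^ w * g⁻¹ : SL(2, ℤ)).1.trace = 2 := by
  rw [Matrix.SpecialLinearGroup.coe_mul, Matrix.SpecialLinearGroup.coe_mul, Matrix.trace_mul_comm,
    ← Matrix.mul_assoc, ← Matrix.SpecialLinearGroup.coe_mul, inv_mul_cancel,
    Matrix.SpecialLinearGroup.coe_one, Matrix.one_mul, ModularGroup.coe_T_zpow]
  simp [Matrix.trace_fin_two]

/-- `g T^N g⁻¹ ∈ Γ₀(N)` for every `g ∈ SL(2,ℤ)`. -/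
theorem conj_T_zpow_mem_Gamma0 (N : ℕ) (g : SL(2, ℤ)) (m : ℤ) :
    g * ModularGroup.T ^ ((N : ℤ) * m) * g⁻¹ ∈ CongruenceSubgroup.Gamma0 N := by
  rw [CongruenceSubgroup.Gamma0_mem]
  have h : (g * ModularGroup.T ^ ((N : ℤ) * m) * g⁻¹ : SL(2, ℤ)).1 1 0
      = -((N : ℤ) * m * (g.1 1 0) ^ 2) := by
    rw [Matrix.SpecialLinearGroup.coe_mul, Matrix.SpecialLinearGroup.coe_mul,
      ModularGroup.coe_T_zpow, Matrix.SpecialLinearGroup.coe_inv, Matrix.adjugate_fin_two]
    simp [Matrix.mul_apply, Fin.sum_univ_two]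
    ring
  rw [h]
  push_cast
  simp

/-! ### The discriminant -/

theorem mdiff_delta : MDiff Δ := CuspForm.discriminant.holo'

theorem mdiff_delta_pow (m : ℕ) : MDiff (fun τ : ℍ => Δ τ ^ m) := by
  induction m with
  | zero => simpa using (mdifferentiable_const : MDiff (fun _ : ℍ => (1 : ℂ)))
  | succ m ih =>
    have := ih.mul mdiff_delta
    have e : (fun τ : ℍ => Δ τ ^ (m + 1)) = (fun τ => Δ τ ^ m) * Δ := by
      funext τ
      simp [pow_succ]
    rw [e]
    exact this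

theorem delta_slash (γ : SL(2, ℤ)) : Δ ∣[(12 : ℤ)] γ = Δ := by
  have := SlashInvariantFormClass.slash_action_eq CuspForm.discriminant
    (Matrix.SpecialLinearGroup.mapGL ℝ γ) ⟨γ, rfl⟩
  rw [CuspForm.coe_discriminant] at this
  rw [ModularForm.SL_slash]
  exact this

theorem delta_smul (γ : SL(2, ℤ)) (τ : ℍ) : Δ (γ • τ) = denom γ τ ^ (12 : ℤ) * Δ τ := by
  have h := congrFun (delta_slash γ) τ
  rw [SL_slash_apply] at h
  have hd : denom γ τ ≠ 0 := denom_ne_zero γ τ
  rw [← h, mul_comm, mul_assoc, ← zpow_add₀ hd]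
  simp

theorem delta_vadd (n : ℤ) (τ : ℍ) : Δ ((n : ℝ) +ᵥ τ) = Δ τ := by
  have h := delta_smul (ModularGroup.T ^ n) τ
  rw [denom_T_zpow, one_zpow, one_mul, UpperHalfPlane.modular_T_zpow_smul] at h
  exact h

/-- A function on `ℍ` invariant under `τ ↦ τ + N` gives an `N`-periodic function on `ℂ`. -/
theorem periodic_comp_ofComplex_of_vadd {f : ℍ → ℂ} {N : ℕ}
    (h : ∀ τ : ℍ, f (((N : ℤ) : ℝ) +ᵥ τ) = f τ) :
    Function.Periodic (f ∘ ofComplex) (N : ℝ) := by
  intro z
  simp only [Function.comp_apply]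
  by_cases hz : 0 < z.im
  · have hz' : 0 < (z + (N : ℝ)).im := by simpa using hz
    rw [ofComplex_apply_of_im_pos hz, ofComplex_apply_of_im_pos hz']
    rw [← h ⟨z, hz⟩]
    congr 1
    apply UpperHalfPlane.ext
    simp [add_comm]
  · have hz' : ¬ 0 < (z + (N : ℝ)).im := by simpa using hz
    rw [ofComplex_apply_eq_of_im_nonpos (not_lt.mp hz') (not_lt.mp hz)]

theorem infExp_deltaInv (N : ℕ) [NeZero N] :
    InfExp N (fun τ : ℍ => (Δ τ)⁻¹) (qExpand ℂ N Fermat.Agent.S28.H568.dInvS) := by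
  have hN : 0 < N := Nat.pos_of_ne_zero (NeZero.ne N)
  have h := Fermat.Agent.S28.H568.infExp_delta_inv_aff (N := N) (e := N) 0 one_pos one_pos hN
    (by ring)
  rw [infRoot_zero, infTwist_one] at h
  exact h.congr fun τ => by rw [infAff_one_zero_one]

/-! ### Functions with a parabolic character -/

section Character

variable {N : ℕ} [NeZero N]

/-- `χ` is trivial on all elements of `Γ₀(N)` of trace `±2` (cusp stabilisers and `-1`). -/
def ParTrivial (χ : CongruenceSubgroup.Gamma0 N →* ℂˣ) : Prop :=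
  ∀ γ : CongruenceSubgroup.Gamma0 N,
    ((γ : SL(2, ℤ)).1.trace = 2 ∨ (γ : SL(2, ℤ)).1.trace = -2) → χ γ = 1

/-- `h(γ τ) = χ(γ) h(τ)` for all `γ ∈ Γ₀(N)`. -/
def HasCharacter (χ : CongruenceSubgroup.Gamma0 N →* ℂˣ) (h : ℍ → ℂ) : Prop :=
  ∀ (γ : CongruenceSubgroup.Gamma0 N) (τ : ℍ), h ((γ : SL(2, ℤ)) • τ) = (χ γ : ℂ) * h τ

variable {χ : CongruenceSubgroup.Gamma0 N →* ℂˣ} {h : ℍ → ℂ}

omit [NeZero N] in
/-- If `g T^w g⁻¹ ∈ Γ₀(N)`, then `h ∘ g` is invariant under `τ ↦ τ + w` (local parameter of width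
`w` at the cusp `g∞`). -/
theorem HasCharacter.compSL_T_zpow (hh : HasCharacter χ h) (hχ : ParTrivial χ) (g : SL(2, ℤ))
    (w : ℤ) (hw : g * ModularGroup.T ^ w * g⁻¹ ∈ CongruenceSubgroup.Gamma0 N) (τ : ℍ) :
    compSL g h (ModularGroup.T ^ w • τ) = compSL g h τ := by
  have h1 : g • (ModularGroup.T ^ w • τ) = (g * ModularGroup.T ^ w * g⁻¹) • (g • τ) := by
    rw [← mul_smul, ← mul_smul, mul_assoc, mul_assoc, inv_mul_cancel, mul_one]
  have h2 := hh ⟨_, hw⟩ (g • τ)
  rw [hχ ⟨_, hw⟩ (Or.inl (trace_conj_T_zpow g w))] at h2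
  simp only [compSL_apply]
  rw [h1, h2, Units.val_one, one_mul]

omit [NeZero N] in
/-- `h ∘ g` is `w`-periodic if `g T^w g⁻¹ ∈ Γ₀(N)`. -/
theorem HasCharacter.compSL_vadd (hh : HasCharacter χ h) (hχ : ParTrivial χ) (g : SL(2, ℤ))
    (w : ℕ) (hw : g * ModularGroup.T ^ (w : ℤ) * g⁻¹ ∈ CongruenceSubgroup.Gamma0 N)
    (τ : ℍ) : compSL g h (((w : ℤ) : ℝ) +ᵥ τ) = compSL g h τ := by
  have := hh.compSL_T_zpow hχ g (w : ℤ) hw τ
  rwa [UpperHalfPlane.modular_T_zpow_smul] at this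

omit [NeZero N] in
theorem HasCharacter.periodic (hh : HasCharacter χ h) (hχ : ParTrivial χ) (g : SL(2, ℤ))
    (w : ℕ) (hw : g * ModularGroup.T ^ (w : ℤ) * g⁻¹ ∈ CongruenceSubgroup.Gamma0 N) :
    Function.Periodic (compSL g h ∘ ofComplex) (w : ℝ) :=
  periodic_comp_ofComplex_of_vadd (hh.compSL_vadd hχ g w hw)

/-- The expansion of `h ∘ g` in the local parameter of width `w`, as an explicit Laurent series
(`m` = a bound for the pole order in units of `Δ⁻¹`). -/
def cuspExp (h : ℍ → ℂ) (m : ℕ) (g : SL(2, ℤ)) (w : ℕ) [NeZero w] : LaurentSeries ℂ :=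
  qExpand ℂ w Fermat.Agent.S28.H568.dInvS ^ m *
    HahnSeries.ofPowerSeries ℤ ℂ
      (UpperHalfPlane.qExpansion (w : ℝ) (fun τ => Δ τ ^ m * compSL g h τ))

omit [NeZero N] in
/-- Expansion at the cusp `g∞` in the local parameter of width `w` (any `w` with
`g T^w g⁻¹ ∈ Γ₀(N)`): a holomorphic function with a parabolic character such that
`Δ^m · (h ∘ g)` is bounded at `i∞` has a Laurent expansion in `exp(2πiτ/w)`. -/
theorem HasCharacter.infExp_cuspExp (hh : HasCharacter χ h) (hχ : ParTrivial χ)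
    (hhol : MDiff h) (m : ℕ) (g : SL(2, ℤ)) (w : ℕ) [NeZero w]
    (hw : g * ModularGroup.T ^ (w : ℤ) * g⁻¹ ∈ CongruenceSubgroup.Gamma0 N)
    (hbd : IsBoundedAtImInfty (fun τ => Δ τ ^ m * compSL g h τ)) :
    InfExp w (compSL g h) (cuspExp h m g w) := by
  have hN : (0 : ℝ) < w := by exact_mod_cast Nat.pos_of_ne_zero (NeZero.ne w)
  set F : ℍ → ℂ := fun τ => Δ τ ^ m * compSL g h τ with hF
  have hcomp : MDiff (compSL g h) := (precompSL g ⟨h, hhol⟩).2
  have hFhol : MDiff F := (mdiff_delta_pow m).mul hcomp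
  have hFper : Function.Periodic (F ∘ ofComplex) (w : ℝ) := by
    intro z
    have h1 := hh.periodic hχ g w hw z
    have h2 := periodic_comp_ofComplex_of_vadd (f := Δ) (N := w) (fun τ => delta_vadd w τ) z
    simp only [Function.comp_apply, hF] at h1 h2 ⊢
    rw [h1, h2]
  have hsum := fun τ => UpperHalfPlane.hasSum_qExpansion hN hFper hFhol hbd τ
  have hP : InfPExp w F (UpperHalfPlane.qExpansion (w : ℝ) F) := by
    intro τ
    simpa [infZ, smul_eq_mul] using hsum τ
  have hE : InfExp w F (HahnSeries.ofPowerSeries ℤ ℂ (UpperHalfPlane.qExpansion (w : ℝ) F)) := by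
    have := hP.infExp 0
    simp only [zpow_zero, one_mul] at this
    have e : (HahnSeries.single (0 : ℤ) (1 : ℂ)) = 1 := rfl
    rwa [e, one_mul] at this
  have hDinv : InfExp w (fun τ => (Δ τ)⁻¹ ^ m)
      (qExpand ℂ w Fermat.Agent.S28.H568.dInvS ^ m) :=
    Fermat.Agent.S28.H568.InfExp.pow' (infExp_deltaInv w) m
  have : compSL g h = fun τ => (Δ τ)⁻¹ ^ m * F τ := by
    funext τ
    simp only [hF]
    have hΔ : Δ τ ≠ 0 := ModularForm.discriminant_ne_zero τ
    rw [← mul_assoc, ← mul_pow, inv_mul_cancel₀ hΔ, one_pow, one_mul]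
  rw [this]
  exact hDinv.mul hE

/-- Abstract membership criterion at one cusp. -/
theorem HasCharacter.compSL_mem_expRing (hh : HasCharacter χ h) (hχ : ParTrivial χ)
    (hhol : MDiff h) (m : ℕ) (g : SL(2, ℤ))
    (hbd : IsBoundedAtImInfty (fun τ => Δ τ ^ m * compSL g h τ)) :
    compSL g h ∈ expRing N :=
  (hh.infExp_cuspExp hχ hhol m g N (by simpa using conj_T_zpow_mem_Gamma0 N g 1) hbd).mem_expRing

/-- Abstract membership criterion: a holomorphic function with a parabolic character such that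
`Δ^m · (h ∘ g)` is bounded at `i∞` for every `g ∈ SL(2,ℤ)` lies in the S24 ring `holN N`. -/
theorem HasCharacter.mem_holN (hh : HasCharacter χ h) (hχ : ParTrivial χ)
    (hhol : MDiff h) (m : ℕ)
    (hbd : ∀ g : SL(2, ℤ), IsBoundedAtImInfty (fun τ => Δ τ ^ m * compSL g h τ)) :
    h ∈ holN N :=
  ⟨hhol, fun g => hh.compSL_mem_expRing hχ hhol m g (hbd g)⟩

omit [NeZero N] in
/-- Powers: `h ^ p` has character `χ ^ p`; in particular it is `Γ₀(N)`-invariant if `χ ^ p = 1`. -/
theorem HasCharacter.pow_invariant (hh : HasCharacter χ h) {p : ℕ}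
    (hp : ∀ γ, χ γ ^ p = 1) (γ : CongruenceSubgroup.Gamma0 N) (τ : ℍ) :
    h ((γ : SL(2, ℤ)) • τ) ^ p = h τ ^ p := by
  rw [hh γ τ, mul_pow, ← Units.val_pow_eq_pow_val, hp γ, Units.val_one, one_mul]

end Character

/-! ### The Kummer function -/

section Kummer

variable (N : ℕ) [NeZero N] (χ : CongruenceSubgroup.Gamma0 N →* ℂˣ)

/-- The Kummer function `E^χ₁₂ / (2Δ)`. -/
def kummerFun : ℍ → ℂ :=
  fun τ => twistedEis (CongruenceSubgroup.Gamma0 N) χ 12 τ / (2 * Δ τ)

variable {N χ}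

omit [NeZero N] in
theorem ParTrivial.trivialOnUnipotent (hχ : ParTrivial χ) : TrivialOnUnipotent χ := by
  intro γ hγ
  apply hχ γ
  left
  have h10 : (γ : SL(2, ℤ)).1 1 0 = 0 := by
    have := congrFun hγ 0
    simpa [botRow] using this
  have h11 : (γ : SL(2, ℤ)).1 1 1 = 1 := by
    have := congrFun hγ 1
    simpa [botRow] using this
  have hdet := (γ : SL(2, ℤ)).det_coe
  rw [Matrix.det_fin_two, h10, h11, mul_zero, sub_zero, mul_one] at hdet
  rw [Matrix.trace_fin_two, hdet, h11]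
  rfl

omit [NeZero N] in
theorem ParTrivial.neg_one (hχ : ParTrivial χ)
    (hneg : (-1 : SL(2, ℤ)) ∈ CongruenceSubgroup.Gamma0 N) : χ ⟨-1, hneg⟩ = 1 := by
  apply hχ
  right
  simp [Matrix.trace_fin_two]

omit [NeZero N] in
theorem neg_one_mem_Gamma0 : (-1 : SL(2, ℤ)) ∈ CongruenceSubgroup.Gamma0 N := by
  rw [CongruenceSubgroup.Gamma0_mem]
  simp

omit [NeZero N] in
theorem compSL_kummerFun (g : SL(2, ℤ)) :
    compSL g (kummerFun N χ)
      = fun τ => (twistedEis (CongruenceSubgroup.Gamma0 N) χ 12 ∣[(12 : ℤ)] g) τ / (2 * Δ τ) := by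
  funext τ
  have hd : denom g τ ≠ 0 := denom_ne_zero g τ
  have hΔ : Δ τ ≠ 0 := ModularForm.discriminant_ne_zero τ
  simp only [compSL_apply, kummerFun]
  rw [SL_slash_apply, delta_smul, zpow_neg]
  field_simp

omit [NeZero N] in
theorem hasCharacter_kummerFun (hχ : ParTrivial χ) : HasCharacter χ (kummerFun N χ) := by
  intro γ τ
  have h := congrFun (compSL_kummerFun (N := N) (χ := χ) (γ : SL(2, ℤ))) τ
  rw [compSL_apply] at h
  rw [h, twistedEis_slash hχ.trivialOnUnipotent]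
  simp only [Pi.smul_apply, smul_eq_mul, kummerFun]
  ring

omit [NeZero N] in
theorem mdiff_kummerFun (hχ : ParTrivial χ) (hnorm : ∀ γ, ‖(χ γ : ℂ)‖ = 1) :
    MDiff (kummerFun N χ) := by
  have hE : MDiff (twistedEis (CongruenceSubgroup.Gamma0 N) χ 12) :=
    twistedEis_mdifferentiable hχ.trivialOnUnipotent hnorm (by norm_num)
  rw [UpperHalfPlane.mdifferentiable_iff] at hE ⊢
  have hΔ := UpperHalfPlane.mdifferentiable_iff.mp mdiff_delta
  have h2 : DifferentiableOn ℂ (fun z => 2 * (Δ ∘ ofComplex) z) {z : ℂ | 0 < z.im} :=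
    hΔ.const_mul 2
  refine (hE.div h2 ?_).congr ?_
  · intro z hz
    exact mul_ne_zero two_ne_zero (ModularForm.discriminant_ne_zero _)
  · intro z hz
    simp [kummerFun]

omit [NeZero N] in
theorem isBoundedAtImInfty_delta_mul_kummerFun (hχ : ParTrivial χ)
    (hnorm : ∀ γ, ‖(χ γ : ℂ)‖ = 1) (g : SL(2, ℤ)) :
    IsBoundedAtImInfty (fun τ => Δ τ ^ 1 * compSL g (kummerFun N χ) τ) := by
  have hE := twistedEis_slash_isBoundedAtImInfty hχ.trivialOnUnipotent hnorm
    (k := 12) (by norm_num) g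
  have : (fun τ => Δ τ ^ 1 * compSL g (kummerFun N χ) τ)
      = (fun _ : ℍ => (1 / 2 : ℂ)) * (twistedEis (CongruenceSubgroup.Gamma0 N) χ 12 ∣[(12 : ℤ)] g) := by
    funext τ
    have hΔ : Δ τ ≠ 0 := ModularForm.discriminant_ne_zero τ
    rw [compSL_kummerFun]
    simp only [Pi.mul_apply, pow_one]
    field_simp
  rw [this]
  exact (Filter.const_boundedAtFilter _ _).mul hE

/-- **K1**: the Kummer function lies in the S24 ring `holN N`. -/
theorem kummerFun_mem_holN (hχ : ParTrivial χ) (hnorm : ∀ γ, ‖(χ γ : ℂ)‖ = 1) :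
    kummerFun N χ ∈ holN N :=
  (hasCharacter_kummerFun hχ).mem_holN hχ (mdiff_kummerFun hχ hnorm) 1
    (isBoundedAtImInfty_delta_mul_kummerFun hχ hnorm)

/-! ### The expansion of the Kummer function at `i∞` -/

omit [NeZero N] in
theorem T_mem_Gamma0 :
    (1 : SL(2, ℤ)) * ModularGroup.T ^ ((1 : ℕ) : ℤ) * (1 : SL(2, ℤ))⁻¹
      ∈ CongruenceSubgroup.Gamma0 N := by
  rw [CongruenceSubgroup.Gamma0_mem]
  simp [ModularGroup.T]

omit [NeZero N] in
theorem delta_mul_kummerFun (τ : ℍ) :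
    Δ τ ^ 1 * compSL 1 (kummerFun N χ) τ
      = twistedEis (CongruenceSubgroup.Gamma0 N) χ 12 τ / 2 := by
  have hΔ : Δ τ ≠ 0 := ModularForm.discriminant_ne_zero τ
  rw [compSL_one]
  simp only [kummerFun, pow_one]
  field_simp

omit [NeZero N] in
theorem tendsto_delta_mul_kummerFun (hχ : ParTrivial χ) (hnorm : ∀ γ, ‖(χ γ : ℂ)‖ = 1) :
    Tendsto (fun τ => Δ τ ^ 1 * compSL 1 (kummerFun N χ) τ) atImInfty (𝓝 1) := by
  have h := tendsto_twistedEis_two hχ.trivialOnUnipotent hnorm (k := 12) (by norm_num)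
    (by decide) neg_one_mem_Gamma0 (hχ.neg_one _)
  have h2 := h.div_const 2
  rw [div_self (two_ne_zero)] at h2
  refine h2.congr fun τ => ?_
  rw [delta_mul_kummerFun]

variable (N χ) in
/-- The expansion of the Kummer function at `i∞` in `q = exp(2πiτ)`. -/
def kummerExp : LaurentSeries ℂ := cuspExp (kummerFun N χ) 1 1 1

omit [NeZero N] in
theorem infExp_kummerFun (hχ : ParTrivial χ) (hnorm : ∀ γ, ‖(χ γ : ℂ)‖ = 1) :
    InfExp 1 (kummerFun N χ) (kummerExp N χ) := by
  have h := (hasCharacter_kummerFun hχ).infExp_cuspExp hχ (mdiff_kummerFun hχ hnorm) 1 1 1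
    T_mem_Gamma0 (isBoundedAtImInfty_delta_mul_kummerFun hχ hnorm 1)
  rwa [compSL_one] at h

omit [NeZero N] in
theorem coeff_zero_qExpansion_kummer (hχ : ParTrivial χ) (hnorm : ∀ γ, ‖(χ γ : ℂ)‖ = 1) :
    (UpperHalfPlane.qExpansion ((1 : ℕ) : ℝ)
      (fun τ => Δ τ ^ 1 * compSL 1 (kummerFun N χ) τ)).coeff 0 = 1 := by
  have hper : Function.Periodic ((fun τ => Δ τ ^ 1 * compSL 1 (kummerFun N χ) τ) ∘ ofComplex)
      ((1 : ℕ) : ℝ) := by
    intro z
    have h1 := (hasCharacter_kummerFun hχ).periodic hχ 1 1 T_mem_Gamma0 z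
    have h2 := periodic_comp_ofComplex_of_vadd (f := Δ) (N := 1) (fun τ => delta_vadd (1 : ℕ) τ) z
    simp only [Function.comp_apply] at h1 h2 ⊢
    rw [h1, h2]
  have hhol : MDiff (fun τ => Δ τ ^ 1 * compSL 1 (kummerFun N χ) τ) :=
    (mdiff_delta_pow 1).mul (precompSL 1 ⟨_, mdiff_kummerFun hχ hnorm⟩).2
  have han := UpperHalfPlane.analyticAt_cuspFunction_zero (h := ((1 : ℕ) : ℝ)) (by norm_num)
    hper hhol (isBoundedAtImInfty_delta_mul_kummerFun hχ hnorm 1)
  rw [UpperHalfPlane.qExpansion_coeff_zero (by norm_num) han hper]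
  exact (tendsto_delta_mul_kummerFun hχ hnorm).limUnder_eq

omit [NeZero N] in
theorem kummerExp_eq (hχ : ParTrivial χ) (hnorm : ∀ γ, ‖(χ γ : ℂ)‖ = 1) :
    (kummerExp N χ).order = -1 ∧ (kummerExp N χ).leadingCoeff = 1 := by
  set ψ := UpperHalfPlane.qExpansion ((1 : ℕ) : ℝ)
      (fun τ => Δ τ ^ 1 * compSL 1 (kummerFun N χ) τ) with hψ
  have hc : PowerSeries.coeff 0 ψ = 1 := coeff_zero_qExpansion_kummer hχ hnorm
  have hord : ψ.order = ((0 : ℕ) : ℕ∞) := by
    rw [PowerSeries.order_eq_nat]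
    exact ⟨by rw [hc]; exact one_ne_zero, fun i hi => absurd hi (Nat.not_lt_zero i)⟩
  have h1 : (HahnSeries.ofPowerSeries ℤ ℂ ψ).order = 0 := by
    simpa using order_ofPowerSeries hord
  have h2 : (HahnSeries.ofPowerSeries ℤ ℂ ψ).leadingCoeff = 1 := by
    rw [leadingCoeff_ofPowerSeries hord, hc]
  have h3 : (qExpand ℂ 1 Fermat.Agent.S28.H568.dInvS ^ 1).order = -1 := by
    rw [pow_one, inf_qExpand_order, Fermat.Agent.S28.H568.dInvS_order]
    simp
  have h4 : (qExpand ℂ 1 Fermat.Agent.S28.H568.dInvS ^ 1).leadingCoeff = 1 := by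
    rw [pow_one, inf_qExpand_leadingCoeff, Fermat.Agent.S28.H568.dInvS_leadingCoeff]
  have hx : (qExpand ℂ 1 Fermat.Agent.S28.H568.dInvS ^ 1) ≠ 0 := by
    intro h0
    rw [h0] at h4
    simp at h4
  have hy : (HahnSeries.ofPowerSeries ℤ ℂ ψ) ≠ 0 := by
    intro h0
    rw [h0] at h2
    simp at h2
  refine ⟨?_, ?_⟩
  · show (_ * _ : LaurentSeries ℂ).order = -1
    rw [HahnSeries.order_mul hx hy, h3, h1, add_zero]
  · show (_ * _ : LaurentSeries ℂ).leadingCoeff = 1
    rw [HahnSeries.leadingCoeff_mul, h4, h2, one_mul]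

omit [NeZero N] in
theorem kummerExp_ne_zero (hχ : ParTrivial χ) (hnorm : ∀ γ, ‖(χ γ : ℂ)‖ = 1) :
    kummerExp N χ ≠ 0 := by
  intro h0
  have := (kummerExp_eq hχ hnorm).2
  rw [h0] at this
  simp at this

omit [NeZero N] in
theorem kummerFun_ne_zero (hχ : ParTrivial χ) (hnorm : ∀ γ, ‖(χ γ : ℂ)‖ = 1) :
    kummerFun N χ ≠ 0 := by
  intro h0
  have h := infExp_kummerFun hχ hnorm
  rw [h0] at h
  exact kummerExp_ne_zero hχ hnorm (InfExp.eq_zero h)

/-- The expansion in `exp(2πiτ/N)` (the S24 `qexp`). -/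
theorem infExp_kummerFun_level (hχ : ParTrivial χ) (hnorm : ∀ γ, ‖(χ γ : ℂ)‖ = 1) :
    InfExp N (kummerFun N χ) (qExpand ℂ N (kummerExp N χ)) := by
  have hN : (N : ℂ) ≠ 0 := by exact_mod_cast NeZero.ne N
  have h := (infExp_kummerFun hχ hnorm).subst (N := N) (fun τ => τ) 1 N (fun τ => by
    rw [infZ_def, infZ_def, Units.val_one, one_mul, ← Complex.exp_nat_mul]
    congr 1
    push_cast
    field_simp)
  rwa [infTwist_one] at h

theorem expInf_kummerFun (hχ : ParTrivial χ) (hnorm : ∀ γ, ‖(χ γ : ℂ)‖ = 1) :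
    expInf N (holToExp N ⟨kummerFun N χ, kummerFun_mem_holN hχ hnorm⟩)
      = qExpand ℂ N (kummerExp N χ) :=
  (infExp_kummerFun_level hχ hnorm).expInf_eq

end Kummer


end Fermat.Agent.S29.H332

end
end
-- ===== PACK-END S29/H332/KummerFun.lean

-- ===== PACK-BEGIN S18/H24/Branch.lean
section






/-!
# S18 / MOD (M2) — ramification of `F_N / ℚ̄(j)` in `Place` language  (helper24)

`F_N = modularFunctionFieldBar N = ℚ̄(j(q^d) : d ∣ N)`, `j = jF N`.  For a place `v` of `F_N/ℚ̄`: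

* `ord_sub_eq_one`     : `a ≠ 0, 1728`, `0 < v.ord (j - a)`  ⟹  `v.ord (j - a) = 1`   (unramified);
* `ord_zero_dvd`       : `0 < v.ord j`                      ⟹  `v.ord j ∣ 3`;
* `ord_1728_dvd`       : `0 < v.ord (j - 1728)`             ⟹  `v.ord (j - 1728) ∣ 2`;
* `ord_inv_dvd`        : `0 < v.ord j⁻¹`                    ⟹  `v.ord j⁻¹ ∣ N`;
* `finrank_eq_psi`     : `[F_N : ℚ̄(j)] = ψ(N)`.

So `F_N/ℚ̄(j)` is tamely ramified, with branch values in `{0, 1728, ∞}` and ramification indices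
dividing `3`, `2`, `N` respectively.  Source: the `LocalData` of the S24 modular package
(`H997.analyticCore`), helper117's local theorem and the relations `S² = (ST)³ = -1`,
`T^N ∈ Γ(N)`.
-/

set_option autoImplicit false

noncomputable section

open AlgebraicCurve ModularCurve IntermediateField
open scoped MatrixGroups

namespace Fermat.Agent.S18.H24

open Fermat.Agent.S24

variable (N : ℕ) [NeZero N]

/-- `[F_N : ℚ̄(j)]` is finite. -/
instance finiteDimensional_FF :
    FiniteDimensional ↥(IntermediateField.adjoin Kbar {jF N}) (FF N) :=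
  (Deg457.degree_fields N).1

theorem finrank_eq_card :
    Module.finrank ↥(IntermediateField.adjoin Kbar {jF N}) (FF N) = Nat.card (XX N) := by
  obtain ⟨hfd, hle⟩ := Deg457.degree_fields N
  obtain ⟨_, _, h1, -⟩ := (H997.analyticCore N).modularPackage_fields hfd hle
  exact h1

/-- `[F_N : ℚ̄(j)] = ψ(N)`. -/
theorem finrank_eq_psi :
    Module.finrank ↥(IntermediateField.adjoin Kbar {jF N}) (FF N) = dedekindPsi N := by
  rw [finrank_eq_card, card_XX]

instance finite_XX : Finite (XX N) := by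
  apply Nat.finite_of_card_ne_zero
  rw [← finrank_eq_card]
  exact Module.finrank_pos.ne'

section Generic

variable {N}
variable {t : FF N} (L : LocalData Kbar (FF N) ℂ (XX N) t)

/-- General principle: if `perm ^ k = 1` then every ramification index over `t = 0`
divides `k`. -/
theorem ord_dvd_of_perm_pow (hE : IntermediateField.adjoin Kbar {jF N} ≤ Kbar⟮t⟯) (k : ℕ)
    (hk : L.perm ^ k = 1) (v : Place Kbar (FF N)) (hv : 0 < v.ord t) : v.ord t ∣ (k : ℤ) := by
  obtain ⟨x, rfl⟩ := H117.exists_placeOf_eq L (IntermediateField.adjoin Kbar {jF N}) hE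
    (finrank_eq_card N) v hv
  exact H117.ord_t_dvd_of_pow_apply_eq L x k (by rw [hk]; rfl)

end Generic

theorem adjoin_le_sub (a : Kbar) :
    IntermediateField.adjoin Kbar {jF N} ≤ Kbar⟮jF N - algebraMap Kbar (FF N) a⟯ := by
  rw [IntermediateField.adjoin_simple_le_iff]
  have h1 : jF N - algebraMap Kbar (FF N) a ∈ Kbar⟮jF N - algebraMap Kbar (FF N) a⟯ :=
    IntermediateField.mem_adjoin_simple_self _ _
  have h2 : algebraMap Kbar (FF N) a ∈ Kbar⟮jF N - algebraMap Kbar (FF N) a⟯ :=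
    IntermediateField.algebraMap_mem _ a
  have := add_mem h1 h2
  rwa [sub_add_cancel] at this

theorem adjoin_le_inv : IntermediateField.adjoin Kbar {jF N} ≤ Kbar⟮(jF N)⁻¹⟯ := by
  rw [IntermediateField.adjoin_simple_le_iff]
  have h1 : (jF N)⁻¹ ∈ Kbar⟮(jF N)⁻¹⟯ := IntermediateField.mem_adjoin_simple_self _ _
  have := inv_mem h1
  rwa [inv_inv] at this

/-! ### the permutations of the concrete local data -/

theorem permOf_pow (g : SL(2, ℤ)) (k : ℕ) : (permOf N g) ^ k = permOf N (g ^ k) :=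
  (map_pow (MulAction.toPermHom SL(2, ℤ) (XX N)) g k).symm

theorem permOf_neg_one : permOf N (-1) = 1 := by
  ext x
  exact Fermat.Agent.S20.Comb.neg_one_smul_quotient N x

theorem permOf_one' : permOf N 1 = 1 := by
  ext x
  simp [permOf]

theorem dataFin_perm_zero :
    ((H997.analyticCore N).dataFin 0).perm = permOf N (ModularGroup.S * ModularGroup.T)⁻¹ := by
  unfold H997.AnalyticCore.dataFin
  rw [dif_pos rfl]
  rfl

theorem dataFin_perm_1728 :
    ((H997.analyticCore N).dataFin 1728).perm = permOf N ModularGroup.S⁻¹ := by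
  have h0 : (1728 : Kbar) ≠ 0 := by norm_num
  unfold H997.AnalyticCore.dataFin
  rw [dif_neg h0, dif_pos rfl]
  rfl

theorem dataInf_perm : (H997.analyticCore N).dataInf.perm = permOf N ModularGroup.T⁻¹ := rfl

theorem perm_zero_pow : ((H997.analyticCore N).dataFin 0).perm ^ 3 = 1 := by
  rw [dataFin_perm_zero, permOf_pow, inv_pow, Fermat.Agent.S20.Comb.ST_pow_three]
  have : ((-1 : SL(2, ℤ)))⁻¹ = -1 := by
    rw [inv_eq_iff_eq_inv, eq_inv_iff_mul_eq_one]
    simp
  rw [this, permOf_neg_one]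

theorem perm_1728_pow : ((H997.analyticCore N).dataFin 1728).perm ^ 2 = 1 := by
  rw [dataFin_perm_1728, permOf_pow, inv_pow, Fermat.Agent.S20.Comb.S_pow_two]
  have : ((-1 : SL(2, ℤ)))⁻¹ = -1 := by
    rw [inv_eq_iff_eq_inv, eq_inv_iff_mul_eq_one]
    simp
  rw [this, permOf_neg_one]

/-- `T ^ N` acts trivially on `SL₂(ℤ)/Γ₀(N)`. -/
theorem permOf_T_pow : permOf N (ModularGroup.T ^ N) = 1 := by
  ext x
  obtain ⟨g, rfl⟩ := QuotientGroup.mk_surjective x
  show (ModularGroup.T ^ N) • (QuotientGroup.mk g : SL(2, ℤ) ⧸ CongruenceSubgroup.Gamma0 N) = _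
  rw [Equiv.Perm.one_apply, Fermat.Agent.S20.Comb.smul_mk_eq_mk_iff]
  have hT : ((ModularGroup.T ^ N : SL(2, ℤ)) : Matrix (Fin 2) (Fin 2) ℤ) = !![1, (N : ℤ); 0, 1] := by
    have := ModularGroup.coe_T_zpow (N : ℤ)
    rw [zpow_natCast] at this
    exact this
  have h00 : ((ModularGroup.T ^ N * g : SL(2, ℤ)) 0 0 : ℤ) = g 0 0 + N * g 1 0 := by
    rw [Matrix.SpecialLinearGroup.coe_mul, hT, Matrix.mul_apply, Fin.sum_univ_two]
    simp
  have h10 : ((ModularGroup.T ^ N * g : SL(2, ℤ)) 1 0 : ℤ) = g 1 0 := by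
    rw [Matrix.SpecialLinearGroup.coe_mul, hT, Matrix.mul_apply, Fin.sum_univ_two]
    simp
  rw [h00, h10]
  push_cast
  simp
  ring

theorem perm_inf_pow : (H997.analyticCore N).dataInf.perm ^ N = 1 := by
  rw [dataInf_perm, permOf_pow, inv_pow, ← permOf_one' N]
  have h : permOf N ((ModularGroup.T ^ N)⁻¹) = (permOf N (ModularGroup.T ^ N))⁻¹ := by
    ext x
    simp [permOf]
  rw [h, permOf_T_pow, inv_one, permOf_one']

/-! ### the ramification statements -/

/-- **Unramified outside `0, 1728, ∞`.** -/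
theorem ord_sub_eq_one (a : Kbar) (h0 : a ≠ 0) (h1 : a ≠ 1728) (v : Place Kbar (FF N))
    (hv : 0 < v.ord (jF N - algebraMap Kbar (FF N) a)) :
    v.ord (jF N - algebraMap Kbar (FF N) a) = 1 := by
  have hperm : ((H997.analyticCore N).dataFin a).perm ^ 1 = 1 := by
    rw [pow_one]
    exact (H997.analyticCore N).dataFin_perm_generic a h0 h1
  have h := ord_dvd_of_perm_pow ((H997.analyticCore N).dataFin a) (adjoin_le_sub N a) 1 hperm v hv
  have h2 : v.ord (jF N - algebraMap Kbar (FF N) a) ≤ 1 := Int.le_of_dvd one_pos (by simpa using h)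
  omega

/-- Over `j = 0` the ramification indices divide `3`. -/
theorem ord_zero_dvd (v : Place Kbar (FF N)) (hv : 0 < v.ord (jF N)) : v.ord (jF N) ∣ 3 := by
  have hv' : 0 < v.ord (jF N - algebraMap Kbar (FF N) 0) := by rwa [map_zero, sub_zero]
  have h := ord_dvd_of_perm_pow ((H997.analyticCore N).dataFin 0) (adjoin_le_sub N 0) 3
    (perm_zero_pow N) v hv'
  rw [map_zero, sub_zero] at h
  exact_mod_cast h

/-- Over `j = 1728` the ramification indices divide `2`. -/
theorem ord_1728_dvd (v : Place Kbar (FF N))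
    (hv : 0 < v.ord (jF N - algebraMap Kbar (FF N) 1728)) :
    v.ord (jF N - algebraMap Kbar (FF N) 1728) ∣ 2 := by
  have h := ord_dvd_of_perm_pow ((H997.analyticCore N).dataFin 1728) (adjoin_le_sub N 1728) 2
    (perm_1728_pow N) v hv
  exact_mod_cast h

/-- Over `j = ∞` the ramification indices divide `N`. -/
theorem ord_inv_dvd (v : Place Kbar (FF N)) (hv : 0 < v.ord (jF N)⁻¹) :
    v.ord (jF N)⁻¹ ∣ (N : ℤ) :=
  ord_dvd_of_perm_pow (H997.analyticCore N).dataInf (adjoin_le_inv N) N (perm_inf_pow N) v hv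

end Fermat.Agent.S18.H24

end
end
-- ===== PACK-END S18/H24/Branch.lean

-- ===== PACK-BEGIN S21/HodgeAssembly.lean
section





/-!
# S21 — assembly of D' (Hodge existence) from the interface pieces
-/

set_option autoImplicit false

open ModularCurve ModularCurve.Period UpperHalfPlane CongruenceSubgroup Filter Topology
open MeasureTheory
open scoped MatrixGroups ComplexConjugate ContDiff

namespace Fermat.Agent.S21

/-- The integrand `∇u · ∇η` is continuous with compact support. -/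
theorem asm_integrable_pair {u : ℂ → ℝ} (hu : ContDiffOn ℝ 1 u Uhp) {η : ℂ → ℝ}
    (hη : ContDiff ℝ ∞ η) (hc : HasCompactSupport η) (hs : tsupport η ⊆ Uhp) (a b : ℂ) :
    Integrable (fun z => fderiv ℝ u z a * fderiv ℝ η z b) := by
  have hcont : Continuous (fun z => fderiv ℝ u z a * fderiv ℝ η z b) := by
    rw [continuous_iff_continuousAt]
    intro z
    by_cases hz : z ∈ tsupport η
    · have hzU : z ∈ Uhp := hs hz
      have h1 : ContinuousOn (fderiv ℝ u) Uhp :=
        hu.continuousOn_fderiv_of_isOpen isOpen_Uhp le_rfl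
      have h2 : ContinuousAt (fderiv ℝ u) z := h1.continuousAt (isOpen_Uhp.mem_nhds hzU)
      have h3 : ContinuousAt (fun z => fderiv ℝ u z a) z :=
        (ContinuousLinearMap.apply ℝ ℝ a).continuous.continuousAt.comp h2
      have h4 : Continuous (fun z => fderiv ℝ η z b) :=
        (ContinuousLinearMap.apply ℝ ℝ b).continuous.comp
          (hη.continuous_fderiv (by norm_num))
      exact h3.mul h4.continuousAt
    · have hopen : IsOpen (tsupport η)ᶜ := (isClosed_tsupport η).isOpen_compl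
      have : (fun z => fderiv ℝ u z a * fderiv ℝ η z b) =ᶠ[𝓝 z] fun _ => 0 := by
        filter_upwards [hopen.mem_nhds hz] with w hw
        rw [fderiv_of_notMem_tsupport ℝ hw]
        simp
      exact (continuousAt_const).congr this.symm
  refine hcont.integrable_of_hasCompactSupport ?_
  refine hc.mono' ?_
  intro z hz
  by_contra hzn
  apply hz
  show fderiv ℝ u z a * fderiv ℝ η z b = 0
  rw [fderiv_of_notMem_tsupport ℝ hzn]
  simp

/-- The hypothesis `hweak` of the Weyl lemma for `g n = dz (u n)`. -/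
theorem asm_weak {u : ℕ → ℂ → ℝ} (hu : ∀ n, ContDiffOn ℝ ∞ (u n) Uhp)
    (hw : ∀ η : ℂ → ℝ, ContDiff ℝ ∞ η → HasCompactSupport η → tsupport η ⊆ Uhp →
          Tendsto (fun n => ∫ z, (fderiv ℝ (u n) z 1 * fderiv ℝ η z 1
              + fderiv ℝ (u n) z Complex.I * fderiv ℝ η z Complex.I)) atTop (𝓝 0))
    (η : ℂ → ℝ) (hη : ContDiff ℝ ∞ η) (hc : HasCompactSupport η) (hs : tsupport η ⊆ Uhp) :
    Tendsto (fun n => ∫ z, dz (u n) z *
          (((fderiv ℝ η z 1 : ℝ) : ℂ) + Complex.I * ((fderiv ℝ η z Complex.I : ℝ) : ℂ)))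
          atTop (𝓝 0) := by
  have key : ∀ n, ∫ z, dz (u n) z *
          (((fderiv ℝ η z 1 : ℝ) : ℂ) + Complex.I * ((fderiv ℝ η z Complex.I : ℝ) : ℂ))
      = ((∫ z, (fderiv ℝ (u n) z 1 * fderiv ℝ η z 1
              + fderiv ℝ (u n) z Complex.I * fderiv ℝ η z Complex.I) : ℝ) : ℂ) := by
    intro n
    have hu1 : ContDiffOn ℝ 1 (u n) Uhp := (hu n).of_le (by norm_num)
    have hu2 : ContDiffOn ℝ 2 (u n) Uhp := (hu n).of_le (by norm_cast)
    have i11 := asm_integrable_pair hu1 hη hc hs 1 1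
    have iII := asm_integrable_pair hu1 hη hc hs Complex.I Complex.I
    have i1I := asm_integrable_pair hu1 hη hc hs 1 Complex.I
    have iI1 := asm_integrable_pair hu1 hη hc hs Complex.I 1
    have hcurl := integral_curl_eq_zero (u n) hu2 η hη hc hs
    have hpt : ∀ z, dz (u n) z *
          (((fderiv ℝ η z 1 : ℝ) : ℂ) + Complex.I * ((fderiv ℝ η z Complex.I : ℝ) : ℂ))
        = (((fderiv ℝ (u n) z 1 * fderiv ℝ η z 1
              + fderiv ℝ (u n) z Complex.I * fderiv ℝ η z Complex.I : ℝ)) : ℂ)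
          + (((fderiv ℝ (u n) z 1 * fderiv ℝ η z Complex.I
              - fderiv ℝ (u n) z Complex.I * fderiv ℝ η z 1 : ℝ)) : ℂ) * Complex.I := by
      intro z
      unfold dz
      push_cast
      ring_nf
      rw [Complex.I_sq]
      ring
    simp_rw [hpt]
    rw [integral_add, integral_mul_const]
    · rw [integral_complex_ofReal, integral_complex_ofReal, hcurl]
      simp
    · exact (i11.add iII).ofReal
    · exact ((i1I.sub iI1).ofReal).mul_const _
  simp_rw [key]
  have := (Complex.continuous_ofReal.tendsto (0 : ℝ)).comp (hw η hη hc hs)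
  exact this

end Fermat.Agent.S21

namespace Fermat.Agent.S21

/-- `L²` convergence on compacts transfers under Möbius maps. -/
theorem asm_tendsto_mob {g : ℕ → ℂ → ℂ} {f : ℂ → ℂ}
    (hconv : ∀ K : Set ℂ, IsCompact K → K ⊆ Uhp →
      Tendsto (fun n => ∫ z in K, ‖g n z - f z‖ ^ 2) atTop (𝓝 0))
    (δ : SL(2, ℤ)) (K : Set ℂ) (hK : IsCompact K) (hKU : K ⊆ Uhp) :
    Tendsto (fun n => ∫ z in K, ‖g n (mob δ z) - f (mob δ z)‖ ^ 2 / ‖cd δ z‖ ^ 4)
      atTop (𝓝 0) := by
  have h1 : IsCompact (mob δ '' K) := hK.image_of_continuousOn ((continuousOn_mob δ).mono hKU)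
  have h2 : mob δ '' K ⊆ Uhp := by
    rintro _ ⟨z, -, rfl⟩
    exact mob_mem_Uhp δ z
  have h3 := hconv _ h1 h2
  have h4 : ∀ n, ∫ z in K, ‖g n (mob δ z) - f (mob δ z)‖ ^ 2 / ‖cd δ z‖ ^ 4
      = ∫ w in mob δ '' K, ‖g n w - f w‖ ^ 2 := fun n =>
    setIntegral_mob δ K hK.measurableSet hKU (fun w => ‖g n w - f w‖ ^ 2)
  simp_rw [h4]
  exact h3

theorem asm_integrableOn {F : ℂ → ℝ} {K : Set ℂ} (hK : IsCompact K) (hF : ContinuousOn F K) :
    IntegrableOn F K := hF.integrableOn_compact hK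

/-- If a continuous nonnegative function has arbitrarily small integral on every small closed
ball, it vanishes. -/
theorem asm_eq_zero_of_integral_le {D : ℂ → ℝ} (hD : ContinuousOn D Uhp) (hpos : ∀ z, 0 ≤ D z)
    (h : ∀ K : Set ℂ, IsCompact K → K ⊆ Uhp → ∫ z in K, D z ≤ 0) {z₀ : ℂ} (hz₀ : z₀ ∈ Uhp) :
    D z₀ = 0 := by
  by_contra hne
  have hpos0 : 0 < D z₀ := lt_of_le_of_ne (hpos z₀) (Ne.symm hne)
  -- a small ball where `D ≥ D z₀ / 2`
  have hopen : {z | z ∈ Uhp ∧ D z₀ / 2 < D z} ∈ 𝓝 z₀ := by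
    have h1 : Uhp ∈ 𝓝 z₀ := isOpen_Uhp.mem_nhds hz₀
    have h2 : ∀ᶠ z in 𝓝 z₀, D z₀ / 2 < D z := by
      have := (hD.continuousAt h1).eventually (lt_mem_nhds (show D z₀ / 2 < D z₀ by linarith))
      exact this
    filter_upwards [h1, h2] with z hz1 hz2 using ⟨hz1, hz2⟩
  obtain ⟨r, hr, hball⟩ := Metric.nhds_basis_closedBall.mem_iff.mp hopen
  have hKU : Metric.closedBall z₀ r ⊆ Uhp := fun z hz => (hball hz).1
  have hK : IsCompact (Metric.closedBall z₀ r) := isCompact_closedBall z₀ r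
  have hint := h _ hK hKU
  have hvol : 0 < (volume (Metric.closedBall z₀ r)).toReal := by
    refine ENNReal.toReal_pos ?_ ?_
    · exact (Metric.measure_closedBall_pos volume z₀ hr).ne'
    · exact hK.measure_lt_top.ne
  have hge : (D z₀ / 2) * (volume (Metric.closedBall z₀ r)).toReal
      ≤ ∫ z in Metric.closedBall z₀ r, D z := by
    have hc : ∫ _z in Metric.closedBall z₀ r, (D z₀ / 2) = (D z₀ / 2) * (volume (Metric.closedBall z₀ r)).toReal := by
      rw [setIntegral_const]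
      simp [Measure.real, mul_comm]
    rw [← hc]
    refine setIntegral_mono_on ?_ ?_ hK.measurableSet ?_
    · exact (continuousOn_const).integrableOn_compact hK
    · exact (hD.mono hKU).integrableOn_compact hK
    · intro z hz
      exact (hball hz).2.le
  have : 0 < (D z₀ / 2) * (volume (Metric.closedBall z₀ r)).toReal := by positivity
  linarith

end Fermat.Agent.S21

namespace Fermat.Agent.S21

theorem asm_cont_comp_mob {E : Type*} [TopologicalSpace E] {h : ℂ → E} (hh : ContinuousOn h Uhp)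
    (δ : SL(2, ℤ)) : ContinuousOn (fun z => h (mob δ z)) Uhp :=
  hh.comp (continuousOn_mob δ) fun z _ => mob_mem_Uhp δ z

theorem asm_norm_sq_add_le (a b : ℂ) : ‖a + b‖ ^ 2 ≤ 2 * ‖a‖ ^ 2 + 2 * ‖b‖ ^ 2 := by
  have h1 : ‖a + b‖ ≤ ‖a‖ + ‖b‖ := norm_add_le a b
  have h2 : ‖a + b‖ ^ 2 ≤ (‖a‖ + ‖b‖) ^ 2 := by
    apply pow_le_pow_left₀ (norm_nonneg _) h1
  nlinarith [sq_nonneg (‖a‖ - ‖b‖)]

/-- weight-2 invariance of the limit `f`. -/
theorem asm_f_inv {g : ℕ → ℂ → ℂ} {f : ℂ → ℂ} (hg : ∀ n, ContinuousOn (g n) Uhp)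
    (hf : ContinuousOn f Uhp)
    (hconv : ∀ K : Set ℂ, IsCompact K → K ⊆ Uhp →
      Tendsto (fun n => ∫ z in K, ‖g n z - f z‖ ^ 2) atTop (𝓝 0))
    (γ : SL(2, ℤ)) (hginv : ∀ n, ∀ z ∈ Uhp, g n (mob γ z) = (cd γ z) ^ 2 * g n z)
    {z₀ : ℂ} (hz₀ : z₀ ∈ Uhp) : f (mob γ z₀) = (cd γ z₀) ^ 2 * f z₀ := by
  set D : ℂ → ℝ := fun z => ‖f (mob γ z) - (cd γ z) ^ 2 * f z‖ ^ 2 / ‖cd γ z‖ ^ 4 with hD
  have hcdcont : ContinuousOn (fun z => ‖cd γ z‖ ^ 4) Uhp :=
    ((continuous_cd γ).norm.pow 4).continuousOn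
  have hcdpos : ∀ z ∈ Uhp, ‖cd γ z‖ ^ 4 ≠ 0 := fun z hz =>
    pow_ne_zero 4 (norm_ne_zero_iff.mpr (cd_ne_zero γ hz))
  have hDcont : ContinuousOn D Uhp := by
    refine ContinuousOn.div ?_ hcdcont hcdpos
    refine (ContinuousOn.norm ?_).pow 2
    exact (asm_cont_comp_mob hf γ).sub (((continuous_cd γ).pow 2).continuousOn.mul hf)
  have hDpos : ∀ z, 0 ≤ D z := fun z => by positivity
  have key : ∀ K : Set ℂ, IsCompact K → K ⊆ Uhp → ∫ z in K, D z ≤ 0 := by
    intro K hK hKU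
    have ha := asm_tendsto_mob hconv γ K hK hKU
    have hb := hconv K hK hKU
    have hlim : Tendsto (fun n => 2 * (∫ z in K, ‖g n (mob γ z) - f (mob γ z)‖ ^ 2 / ‖cd γ z‖ ^ 4)
        + 2 * ∫ z in K, ‖g n z - f z‖ ^ 2) atTop (𝓝 0) := by
      have := (ha.const_mul 2).add (hb.const_mul 2)
      simpa using this
    refine ge_of_tendsto' hlim fun n => ?_
    have hi1 : IntegrableOn (fun z => ‖g n (mob γ z) - f (mob γ z)‖ ^ 2 / ‖cd γ z‖ ^ 4) K := by
      refine ContinuousOn.integrableOn_compact hK (ContinuousOn.mono ?_ hKU)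
      refine ContinuousOn.div ?_ hcdcont hcdpos
      exact (((asm_cont_comp_mob (hg n) γ).sub (asm_cont_comp_mob hf γ)).norm).pow 2
    have hi2 : IntegrableOn (fun z => ‖g n z - f z‖ ^ 2) K :=
      ContinuousOn.integrableOn_compact hK ((((hg n).sub hf).norm.pow 2).mono hKU)
    rw [← integral_const_mul, ← integral_const_mul, ← integral_add (hi1.const_mul 2) (hi2.const_mul 2)]
    refine setIntegral_mono_on ((hDcont.mono hKU).integrableOn_compact hK)
      ((hi1.const_mul 2).add (hi2.const_mul 2)) hK.measurableSet fun z hz => ?_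
    have hzU := hKU hz
    have hne := cd_ne_zero γ hzU
    have hpos : 0 < ‖cd γ z‖ ^ 4 := by positivity
    have e : f (mob γ z) - (cd γ z) ^ 2 * f z
        = (f (mob γ z) - g n (mob γ z)) + (cd γ z) ^ 2 * (g n z - f z) := by
      rw [hginv n z hzU]; ring
    have h1 := asm_norm_sq_add_le (f (mob γ z) - g n (mob γ z)) ((cd γ z) ^ 2 * (g n z - f z))
    have h2 : ‖(cd γ z) ^ 2 * (g n z - f z)‖ ^ 2 = ‖cd γ z‖ ^ 4 * ‖g n z - f z‖ ^ 2 := by
      rw [norm_mul, norm_pow]; ring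
    have h3 : ‖f (mob γ z) - g n (mob γ z)‖ = ‖g n (mob γ z) - f (mob γ z)‖ := norm_sub_rev _ _
    show D z ≤ _
    simp only [hD]
    rw [e, div_le_iff₀ hpos]
    rw [h2, h3] at h1
    have : (2 * (‖g n (mob γ z) - f (mob γ z)‖ ^ 2 / ‖cd γ z‖ ^ 4) + 2 * ‖g n z - f z‖ ^ 2)
        * ‖cd γ z‖ ^ 4 = 2 * ‖g n (mob γ z) - f (mob γ z)‖ ^ 2
          + 2 * (‖cd γ z‖ ^ 4 * ‖g n z - f z‖ ^ 2) := by
      field_simp
    rw [this]
    exact h1
  have hzero := asm_eq_zero_of_integral_le hDcont hDpos key hz₀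
  have hne := cd_ne_zero γ hz₀
  have hpos : 0 < ‖cd γ z₀‖ ^ 4 := by positivity
  simp only [hD] at hzero
  rw [div_eq_zero_iff] at hzero
  rcases hzero with h | h
  · have := pow_eq_zero_iff (two_ne_zero) |>.mp h
    exact sub_eq_zero.mp (norm_eq_zero.mp this)
  · exact absurd h hpos.ne'

/-- The cusp-strip energy bound passes to the limit. -/
theorem asm_f_cusp {g : ℕ → ℂ → ℂ} {f : ℂ → ℂ} (hg : ∀ n, ContinuousOn (g n) Uhp)
    (hf : ContinuousOn f Uhp)
    (hconv : ∀ K : Set ℂ, IsCompact K → K ⊆ Uhp →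
      Tendsto (fun n => ∫ z in K, ‖g n z - f z‖ ^ 2) atTop (𝓝 0))
    (δ : SL(2, ℤ)) (C : ℝ) (Y : ℝ)
    (hC : ∀ n, ∫ z in strip Y, ‖g n (mob δ z)‖ ^ 2 / ‖cd δ z‖ ^ 4 ≤ C) :
    ∫ z in strip Y, ‖f (mob δ z)‖ ^ 2 / ‖cd δ z‖ ^ 4 ≤ C := by
  have hK := isCompact_strip Y
  have hKU := strip_subset_Uhp Y
  have hcdcont : ContinuousOn (fun z => ‖cd δ z‖ ^ 4) Uhp :=
    ((continuous_cd δ).norm.pow 4).continuousOn
  have hcdpos : ∀ z ∈ Uhp, ‖cd δ z‖ ^ 4 ≠ 0 := fun z hz =>
    pow_ne_zero 4 (norm_ne_zero_iff.mpr (cd_ne_zero δ hz))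
  have hlim := asm_tendsto_mob hconv δ (strip Y) hK hKU
  -- for every `ε > 0`: `b ≤ (1+ε) C + (1+1/ε) e_n`
  have hC0 : 0 ≤ C := by
    refine le_trans ?_ (hC 0)
    exact integral_nonneg fun z => by positivity
  refine le_of_forall_pos_le_add fun ε hε => ?_
  -- choose t with t * C ≤ ε
  obtain ⟨t, ht, htC⟩ : ∃ t : ℝ, 0 < t ∧ t * C ≤ ε := by
    refine ⟨ε / (C + 1), by positivity, ?_⟩
    rw [div_mul_eq_mul_div, div_le_iff₀ (by positivity)]
    nlinarith
  have hlim2 : Tendsto (fun n => (1 + t) * C + (1 + 1 / t) *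
      ∫ z in strip Y, ‖g n (mob δ z) - f (mob δ z)‖ ^ 2 / ‖cd δ z‖ ^ 4) atTop
      (𝓝 ((1 + t) * C + (1 + 1 / t) * 0)) :=
    tendsto_const_nhds.add (hlim.const_mul _)
  have hle : ∫ z in strip Y, ‖f (mob δ z)‖ ^ 2 / ‖cd δ z‖ ^ 4 ≤ (1 + t) * C + (1 + 1 / t) * 0 := by
    refine ge_of_tendsto' hlim2 fun n => ?_
    have hi0 : IntegrableOn (fun z => ‖f (mob δ z)‖ ^ 2 / ‖cd δ z‖ ^ 4) (strip Y) := by
      refine ContinuousOn.integrableOn_compact hK (ContinuousOn.mono ?_ hKU)
      exact ContinuousOn.div ((asm_cont_comp_mob hf δ).norm.pow 2) hcdcont hcdpos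
    have hi1 : IntegrableOn (fun z => ‖g n (mob δ z)‖ ^ 2 / ‖cd δ z‖ ^ 4) (strip Y) := by
      refine ContinuousOn.integrableOn_compact hK (ContinuousOn.mono ?_ hKU)
      exact ContinuousOn.div ((asm_cont_comp_mob (hg n) δ).norm.pow 2) hcdcont hcdpos
    have hi2 : IntegrableOn (fun z => ‖g n (mob δ z) - f (mob δ z)‖ ^ 2 / ‖cd δ z‖ ^ 4)
        (strip Y) := by
      refine ContinuousOn.integrableOn_compact hK (ContinuousOn.mono ?_ hKU)
      refine ContinuousOn.div ?_ hcdcont hcdpos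
      exact (((asm_cont_comp_mob (hg n) δ).sub (asm_cont_comp_mob hf δ)).norm).pow 2
    have hmono : ∫ z in strip Y, ‖f (mob δ z)‖ ^ 2 / ‖cd δ z‖ ^ 4
        ≤ ∫ z in strip Y, ((1 + t) * (‖g n (mob δ z)‖ ^ 2 / ‖cd δ z‖ ^ 4)
          + (1 + 1 / t) * (‖g n (mob δ z) - f (mob δ z)‖ ^ 2 / ‖cd δ z‖ ^ 4)) := by
      refine setIntegral_mono_on hi0 ((hi1.const_mul _).add (hi2.const_mul _))
        hK.measurableSet fun z hz => ?_
      have hzU := hKU hz
      have hne := cd_ne_zero δ hzU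
      have hpos : 0 < ‖cd δ z‖ ^ 4 := by positivity
      have hpt : ‖f (mob δ z)‖ ^ 2 ≤ (1 + t) * ‖g n (mob δ z)‖ ^ 2
          + (1 + 1 / t) * ‖g n (mob δ z) - f (mob δ z)‖ ^ 2 := by
        set a := ‖g n (mob δ z)‖
        set b := ‖g n (mob δ z) - f (mob δ z)‖
        have h1 : ‖f (mob δ z)‖ ≤ a + b := by
          have : f (mob δ z) = g n (mob δ z) - (g n (mob δ z) - f (mob δ z)) := by ring
          calc ‖f (mob δ z)‖ = ‖g n (mob δ z) - (g n (mob δ z) - f (mob δ z))‖ := by rw [← this]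
            _ ≤ a + b := norm_sub_le _ _
        have ha : 0 ≤ a := norm_nonneg _
        have hb : 0 ≤ b := norm_nonneg _
        have h2 : ‖f (mob δ z)‖ ^ 2 ≤ (a + b) ^ 2 := pow_le_pow_left₀ (norm_nonneg _) h1 2
        have h3 : 2 * a * b ≤ t * a ^ 2 + (1 / t) * b ^ 2 := by
          have := sq_nonneg (t * a - b)
          have e : t * a ^ 2 + (1 / t) * b ^ 2 - 2 * a * b = (t * a - b) ^ 2 / t := by
            field_simp
            ring
          have : 0 ≤ (t * a - b) ^ 2 / t := by positivity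
          linarith
        nlinarith
      have : (1 + t) * (‖g n (mob δ z)‖ ^ 2 / ‖cd δ z‖ ^ 4)
          + (1 + 1 / t) * (‖g n (mob δ z) - f (mob δ z)‖ ^ 2 / ‖cd δ z‖ ^ 4)
          = ((1 + t) * ‖g n (mob δ z)‖ ^ 2
              + (1 + 1 / t) * ‖g n (mob δ z) - f (mob δ z)‖ ^ 2) / ‖cd δ z‖ ^ 4 := by
        ring
      rw [this]
      exact div_le_div_of_nonneg_right hpt hpos.le
    rw [integral_add (hi1.const_mul _) (hi2.const_mul _), integral_const_mul,
      integral_const_mul] at hmono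
    have := hC n
    have h1t : 0 ≤ 1 + t := by linarith
    nlinarith [mul_le_mul_of_nonneg_left this h1t]
  calc ∫ z in strip Y, ‖f (mob δ z)‖ ^ 2 / ‖cd δ z‖ ^ 4 ≤ (1 + t) * C + (1 + 1 / t) * 0 := hle
    _ = C + t * C := by ring
    _ ≤ C + ε := by linarith

end Fermat.Agent.S21

namespace Fermat.Agent.S21

/-- **D'** (Hodge existence): every real parabolic homomorphism is the real part of the period
homomorphism of a cusp form. -/
theorem exists_cuspForm_re_period_eq (N : ℕ) [NeZero N] (φ : Additive (Gamma0 N) →+ ℝ)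
    (hφ : IsParabolicHom (Gamma0 N) φ) :
    ∃ (f : CuspForm (Gamma0 N) 2) (F : ℍ → ℂ), HasEquivariantPrimitive N f F ∧
      ∀ γ : Gamma0 N,
        (F ((γ : SL(2, ℤ)) • UpperHalfPlane.I) - F UpperHalfPlane.I).re
          = φ (Additive.ofMul γ) := by
  obtain ⟨u, hu_smooth, hu_per, hu_cauchy, hu_weak, hu_cusp⟩ :=
    exists_minimizing_sequence N φ hφ
  have hu1 : ∀ n, ContDiffOn ℝ 1 (u n) Uhp := fun n => (hu_smooth n).of_le (by norm_cast)
  have hg_cont : ∀ n, ContinuousOn (dz (u n)) Uhp := fun n => continuousOn_dz (hu1 n)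
  obtain ⟨f, hf_diff, hf_conv⟩ :=
    weyl_lemma (fun n => dz (u n)) hg_cont hu_cauchy (asm_weak hu_smooth hu_weak)
  have hf_cont : ContinuousOn f Uhp := hf_diff.continuousOn
  have hf_inv : ∀ (γ : Gamma0 N) (z : ℍ),
      f ↑((γ : SL(2, ℤ)) • z) = (cd (γ : SL(2, ℤ)) z) ^ 2 * f ↑z := by
    intro γ z
    have := asm_f_inv hg_cont hf_cont hf_conv (γ : SL(2, ℤ))
      (fun n w hw => asm_dz_inv (hu1 n) _ _ (hu_per n γ) hw) (coe_mem_Uhp z)
    rwa [mob_coe] at this
  have hf_cusp : ∀ δ : SL(2, ℤ), ∃ C : ℝ, ∀ Y : ℝ,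
      ∫ z in strip Y, ‖f (mob δ z)‖ ^ 2 / ‖cd δ z‖ ^ 4 ≤ C := by
    intro δ
    obtain ⟨C, hC⟩ := hu_cusp δ
    exact ⟨C, fun Y => asm_f_cusp hg_cont hf_cont hf_conv δ C Y (fun n => hC n Y)⟩
  obtain ⟨fc, hfc⟩ := exists_cuspForm_of_energy N f hf_diff hf_inv hf_cusp
  obtain ⟨F, hF⟩ := exists_primitive N fc
  refine ⟨fc, F, hF, fun γ => ?_⟩
  -- periods
  set v : ℕ → ℂ → ℝ := fun n z => u n z - (F (ofComplex z)).re with hv
  have hQ : ∀ z ∈ Uhp, HasDerivAt (F ∘ ofComplex) (f z) z := by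
    intro z hz
    have := hF.1 ⟨z, hz⟩
    rw [hfc] at this
    exact this
  have hQdiff : DifferentiableOn ℂ (F ∘ ofComplex) Uhp := fun z hz =>
    (hQ z hz).differentiableAt.differentiableWithinAt
  have hQsmooth : ContDiffOn ℝ 1 (fun z => (F (ofComplex z)).re) Uhp := by
    have h1 : ContDiffOn ℂ 1 (F ∘ ofComplex) Uhp := hQdiff.contDiffOn isOpen_Uhp
    have h2 : ContDiffOn ℝ 1 (F ∘ ofComplex) Uhp := h1.restrict_scalars ℝ
    exact Complex.reCLM.contDiff.comp_contDiffOn h2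
  have hv1 : ∀ n, ContDiffOn ℝ 1 (v n) Uhp := fun n => (hu1 n).sub hQsmooth
  have hdzv : ∀ n, ∀ z ∈ Uhp, dz (v n) z = dz (u n) z - f z := by
    intro n z hz
    have hU := isOpen_Uhp.mem_nhds hz
    have d1 : DifferentiableAt ℝ (u n) z :=
      ((hu1 n).differentiableOn one_ne_zero).differentiableAt hU
    have d2 : DifferentiableAt ℝ (fun z => (F (ofComplex z)).re) z :=
      (hQsmooth.differentiableOn one_ne_zero).differentiableAt hU
    have e := dz_sub d1 d2
    have e2 : dz (fun z => (F (ofComplex z)).re) z = f z := dz_re_of_hasDerivAt (hQ z hz)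
    rw [e2] at e
    exact e
  have hconv : ∀ K : Set ℂ, IsCompact K → K ⊆ Uhp →
      Tendsto (fun n => ∫ z in K, ‖dz (v n) z‖ ^ 2) atTop (𝓝 0) := by
    intro K hK hKU
    refine (hf_conv K hK hKU).congr fun n => ?_
    refine setIntegral_congr_fun hK.measurableSet fun z hz => ?_
    show ‖dz (u n) z - f z‖ ^ 2 = ‖dz (v n) z‖ ^ 2
    rw [hdzv n z (hKU hz)]
  have hper : ∀ n (z : ℍ), v n ↑((γ : SL(2, ℤ)) • z) = v n ↑z + (φ (Additive.ofMul γ)
      - (F ((γ : SL(2, ℤ)) • UpperHalfPlane.I) - F UpperHalfPlane.I).re) := by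
    intro n z
    have h1 := hu_per n γ z
    have h2 := hF.2.2.1.sub_eq_period γ z
    have h3 := hF.2.2.1.sub_eq_period γ UpperHalfPlane.I
    simp only [hv, ofComplex_apply]
    have : F ((γ : SL(2, ℤ)) • z)
        = F z + (F ((γ : SL(2, ℤ)) • UpperHalfPlane.I) - F UpperHalfPlane.I) := by
      rw [h3, ← h2]; ring
    rw [h1, this, Complex.add_re]
    ring
  have := period_eq_zero_of_tendsto v hv1 hconv (γ : SL(2, ℤ)) _ hper
  linarith

end Fermat.Agent.S21

end
-- ===== PACK-END S21/HodgeAssembly.lean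

-- ===== PACK-BEGIN S37/H697/RedDataOf.lean
section





/-!
# S37 (helper697): reduction data `H99.RedData` / `Core.WeakRedData` from named inputs

`redData_of` constructs helper99's `RedData N A ℓ hℓ` (hence, via `H99.result_of_redData`, the
frozen statement S37), and `weakRedData_of` constructs the row's final interface
`Core.WeakRedData N A ℓ σ₀`, from

* `h    : ReductionInputsModL A N`              — existence of a place reduction (good reduction),
* `hinj : …`                                   — the conclusion of S18 (injectivity on torsion),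
* `hHIA : HeckeInputsAlong ℚ̄ N ℓ`              — the Hecke correspondence is defined,
* `hK   : KroneckerNorm …`                      — Kronecker congruence for the norm of `y(q^ℓ)`,
* `hR   : RiemannBound ℚ̄ F_N`, `hdeg`           — consequences of Riemann's inequality / `FF1`.

No pointwise description of the reduction of places or of `T_ℓ` is needed.
-/

set_option autoImplicit false
set_option linter.style.haveILetI false

noncomputable section

open HahnSeries IntermediateField AlgebraicCurve ModularCurve ValuationSubring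

namespace Fermat.Agent.S37.H697

section ResidueAction

variable {K L : Type*} [Field K] [Field L] [Algebra K L] (A : ValuationSubring L)

/-- Elements of the decomposition group preserve `A`. -/
theorem apply_mem_of_mem_decompositionSubgroup {σ : L ≃ₐ[K] L}
    (hσ : σ ∈ A.decompositionSubgroup K) : ∀ a ∈ A, σ a ∈ A :=
  fun a ha => ((⟨σ, hσ⟩ : A.decompositionSubgroup K) • (⟨a, ha⟩ : A)).2

/-- The automorphism of the residue field induced by an element of the decomposition group. -/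
def resAut (d : A.decompositionSubgroup K) :
    IsLocalRing.ResidueField A ≃+* IsLocalRing.ResidueField A :=
  MulSemiringAction.toRingEquiv (A.decompositionSubgroup K) (IsLocalRing.ResidueField A) d

theorem resAut_apply (d : A.decompositionSubgroup K) (x : IsLocalRing.ResidueField A) :
    resAut A d x = d • x := rfl

theorem residue_apply_eq_resAut {σ : L ≃ₐ[K] L} (hσ : σ ∈ A.decompositionSubgroup K) (a : A) :
    IsLocalRing.residue A ⟨σ a, apply_mem_of_mem_decompositionSubgroup A hσ a a.2⟩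
      = resAut A ⟨σ, hσ⟩ (IsLocalRing.residue A a) :=
  IsLocalRing.ResidueField.residue_smul (A.decompositionSubgroup K)
    (⟨σ, hσ⟩ : A.decompositionSubgroup K) a

theorem resAut_eq_refl_of_mem_inertiaSubgroup {d : A.decompositionSubgroup K}
    (hd : d ∈ A.inertiaSubgroup K) : resAut A d = RingEquiv.refl _ := by
  have h : MulSemiringAction.toRingAut (A.decompositionSubgroup K)
      (IsLocalRing.ResidueField A) d = 1 := MonoidHom.mem_ker.mp hd
  exact h

end ResidueAction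

section Main

set_option synthInstance.maxHeartbeats 400000
set_option maxHeartbeats 1600000

variable (N : ℕ) [NeZero N] (A : ValuationSubring (AlgebraicClosure ℚ)) (ℓ : ℕ) [NeZero ℓ]

omit [NeZero N] in
/-- Equivariance of `reductionModL` for the decomposition group. -/
theorem reductionModL_smul
    (h : ReductionInputsModL A N)
    (hR : RiemannBound (AlgebraicClosure ℚ) (modularFunctionFieldBar N))
    (σ : AlgebraicClosure ℚ ≃ₐ[ℚ] AlgebraicClosure ℚ)
    (hσ : σ ∈ A.decompositionSubgroup ℚ) (x : JZero N) :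
    reductionModL A N (σ • x) = coeffSL N (resAut A ⟨σ, hσ⟩) • reductionModL A N x := by
  have hred : reductionModL A N = reductionPic0Along h.choose h.choose_spec.1 h.choose_spec.2 :=
    reductionAlong_eq h
  rw [hred]
  exact reductionPic0Along_galois_smul h.choose_spec.1 h.choose_spec.2 hR σ
    (apply_mem_of_mem_decompositionSubgroup A hσ) (resAut A ⟨σ, hσ⟩)
    (residue_apply_eq_resAut A hσ) x

omit [NeZero N] in
/-- Inertia acts trivially after reduction. -/
theorem reductionModL_inertia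
    (h : ReductionInputsModL A N)
    (hR : RiemannBound (AlgebraicClosure ℚ) (modularFunctionFieldBar N))
    (τ : AlgebraicClosure ℚ ≃ₐ[ℚ] AlgebraicClosure ℚ) (hτ : τ ∈ A.inertiaSubgroupIn ℚ)
    (x : JZero N) :
    reductionModL A N (τ • x) = reductionModL A N x := by
  obtain ⟨d, hd, rfl⟩ := hτ
  have h1 := reductionModL_smul N A h hR d.1 d.2 x
  rw [show (⟨d.1, d.2⟩ : A.decompositionSubgroup ℚ) = d from rfl,
    resAut_eq_refl_of_mem_inertiaSubgroup A hd, coeffSL_refl, one_smul] at h1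
  exact h1

omit [NeZero N] in
/-- Elements of the decomposition group preserve the kernel of the reduction. -/
theorem reductionModL_decomp_ker
    (h : ReductionInputsModL A N)
    (hR : RiemannBound (AlgebraicClosure ℚ) (modularFunctionFieldBar N))
    (σ : AlgebraicClosure ℚ ≃ₐ[ℚ] AlgebraicClosure ℚ) (hσ : σ ∈ A.decompositionSubgroup ℚ)
    (x : JZero N) (hx : reductionModL A N x = 0) :
    reductionModL A N (σ • x) = 0 := by
  rw [reductionModL_smul N A h hR σ hσ x, hx]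
  exact smul_zero (A := JZeroC (IsLocalRing.ResidueField A) N) (coeffSL N (resAut A ⟨σ, hσ⟩))

/-- The reduction of the Hecke operator: `red ∘ T_ℓ = (Φ + ℓ Φ⁻¹) ∘ red`. -/
theorem reductionModL_hecke
    (h : ReductionInputsModL A N)
    (hR : RiemannBound (AlgebraicClosure ℚ) (modularFunctionFieldBar N))
    (hdeg : ∀ P : Place (AlgebraicClosure ℚ) (modularFunctionFieldBar N), P.deg = 1)
    (hHIA : HeckeInputsAlong (AlgebraicClosure ℚ) N ℓ)
    (φ : IsLocalRing.ResidueField A ≃+* IsLocalRing.ResidueField A)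
    (hK : KroneckerNorm A (IsLocalRing.residue A) N ℓ φ)
    (y : JZero N) :
    reductionModL A N (heckeOperatorAlong (AlgebraicClosure ℚ) N ℓ y)
      = coeffSL N φ • reductionModL A N y + ℓ • ((coeffSL N φ)⁻¹ • reductionModL A N y) := by
  obtain ⟨hα, hβ, hP, hfin, hFI, hN⟩ := hHIA
  haveI := hP
  have hred : reductionModL A N = reductionPic0Along h.choose h.choose_spec.1 h.choose_spec.2 :=
    reductionAlong_eq h
  have hT : heckeOperatorAlong (AlgebraicClosure ℚ) N ℓ y = heckePic0Bar hα hβ hFI hfin hN y :=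
    congrFun (congrArg DFunLike.coe (heckeOperatorAlong_eq hα hβ hFI hfin hN)) y
  have hC : ∀ P : Place (AlgebraicClosure ℚ) (modularFunctionFieldBar N),
      l1norm (heckeDivBar hα hβ (Finsupp.single P 1))
        ≤ finrankAlong (AlgebraicClosure ℚ) (heckeBetaBar (AlgebraicClosure ℚ) N ℓ) :=
    fun P => (l1norm_heckeDivBar_single hα hβ hdeg hFI P).le
  rw [hT, hred]
  exact reductionPic0Along_hecke hα hβ h.choose_spec.1 h.choose_spec.2 hR hFI hfin hN φ hK _ hC y

/-- The Eichler–Shimura relation after reduction. -/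
theorem reductionModL_relation
    (h : ReductionInputsModL A N)
    (hR : RiemannBound (AlgebraicClosure ℚ) (modularFunctionFieldBar N))
    (hdeg : ∀ P : Place (AlgebraicClosure ℚ) (modularFunctionFieldBar N), P.deg = 1)
    (hHIA : HeckeInputsAlong (AlgebraicClosure ℚ) N ℓ)
    (hK : ∀ φ : IsLocalRing.ResidueField A ≃+* IsLocalRing.ResidueField A, (∀ x, φ x = x ^ ℓ) →
        KroneckerNorm A (IsLocalRing.residue A) N ℓ φ)
    (σ : AlgebraicClosure ℚ ≃ₐ[ℚ] AlgebraicClosure ℚ) (hσ : A.IsFrobeniusAt σ ℓ)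
    (x : JZero N) :
    reductionModL A N
      (σ • σ • x - heckeOperatorAlong (AlgebraicClosure ℚ) N ℓ (σ • x) + ℓ • x) = 0 := by
  have hσmem := hσ.mem_decompositionSubgroup
  have hφpow : ∀ y, resAut A ⟨σ, hσmem⟩ y = y ^ ℓ := fun y => hσ.smul_residue_eq y
  have h1 := reductionModL_hecke N A ℓ h hR hdeg hHIA (resAut A ⟨σ, hσmem⟩)
    (hK _ hφpow) (σ • x)
  have h2 := reductionModL_smul N A h hR σ hσmem (σ • x)
  have h3 := reductionModL_smul N A h hR σ hσmem x
  rw [h3, inv_smul_smul] at h1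
  rw [map_add, map_sub, map_nsmul, h1, h2, h3, sub_add_eq_sub_sub, sub_self, zero_sub,
    neg_add_cancel]

/-- **The row's final interface `Core.WeakRedData` from named inputs** (no pointwise
description of the reduction of places is needed). -/
def weakRedData_of
    (h : ReductionInputsModL A N)
    (hinj : Core.InjTorsionModL N ℓ A)
    (hR : RiemannBound (AlgebraicClosure ℚ) (modularFunctionFieldBar N))
    (hdeg : ∀ P : Place (AlgebraicClosure ℚ) (modularFunctionFieldBar N), P.deg = 1)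
    (hHIA : HeckeInputsAlong (AlgebraicClosure ℚ) N ℓ)
    (hK : ∀ φ : IsLocalRing.ResidueField A ≃+* IsLocalRing.ResidueField A, (∀ x, φ x = x ^ ℓ) →
        KroneckerNorm A (IsLocalRing.residue A) N ℓ φ)
    (σ₀ : AlgebraicClosure ℚ ≃ₐ[ℚ] AlgebraicClosure ℚ) (hσ₀ : A.IsFrobeniusAt σ₀ ℓ) :
    Core.WeakRedData N A ℓ σ₀ where
  Y := JZeroC (IsLocalRing.ResidueField A) N
  instY := inferInstance
  red := reductionModL A N
  inertia := fun τ hτ x => reductionModL_inertia N A h hR τ hτ x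
  inj_torsion := fun m hm x hmx hx => hinj h m hm x hmx hx
  relation := fun x => reductionModL_relation N A ℓ h hR hdeg hHIA hK σ₀ hσ₀ x

/-- **helper99's reduction data from named inputs.** -/
theorem redData_of (hℓ : ℓ.Prime)
    (h : ReductionInputsModL A N)
    (hinj : Core.InjTorsionModL N ℓ A)
    (hR : RiemannBound (AlgebraicClosure ℚ) (modularFunctionFieldBar N))
    (hdeg : ∀ P : Place (AlgebraicClosure ℚ) (modularFunctionFieldBar N), P.deg = 1)
    (hHIA : HeckeInputsAlong (AlgebraicClosure ℚ) N ℓ)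
    (hK : ∀ φ : IsLocalRing.ResidueField A ≃+* IsLocalRing.ResidueField A, (∀ x, φ x = x ^ ℓ) →
        KroneckerNorm A (IsLocalRing.residue A) N ℓ φ) :
    Nonempty (H99.RedData N A ℓ hℓ) :=
  ⟨{ Y := JZeroC (IsLocalRing.ResidueField A) N
     instY := inferInstance
     red := reductionModL A N
     inertia := fun τ hτ x => reductionModL_inertia N A h hR τ hτ x
     frob_ker := fun σ hσ x hx =>
       reductionModL_decomp_ker N A h hR σ hσ.mem_decompositionSubgroup x hx
     inj_torsion := fun m x hm hmx hx =>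
       hinj h m ((Nat.Prime.coprime_iff_not_dvd hℓ).mp (Nat.Coprime.symm hm)) x hmx hx
     relation := fun σ hσ x => reductionModL_relation N A ℓ h hR hdeg hHIA hK σ hσ x }⟩

end Main

end Fermat.Agent.S37.H697

end
end
-- ===== PACK-END S37/H697/RedDataOf.lean

-- ===== PACK-BEGIN S18/MOD/H396/SepLaurent.lean
section






/-!
# S18 / MOD, piece SEP for Laurent series and for the modular function field (helper396)

* `laurentD_ne_zero_of_coeff` : a series `x = c q⁻¹ + …` (`c ≠ 0`) has `dx/dq ≠ 0` (any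
  characteristic).
* `isSeparable_laurent`, `exists_bivariate_separable_laurent` : SEP in `κ((q))`, `κ` perfect.
* `isAlgebraic_of_mem_full`, `isSeparable_of_mem_full`, `exists_bivariate_of_mem_full` :
  every `y ∈ F_κ = modularFunctionFieldFullC κ N` is algebraic and SEPARABLE over `κ(j̄)` when the
  primes dividing `N` are invertible in the perfect field `κ` (field G-SEP of `GoodModel`, `x = j`).
-/

set_option autoImplicit false

noncomputable section

namespace Fermat.Agent.S18.MOD.H396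

open Polynomial IntermediateField ModularCurve

variable (κ : Type*) [Field κ]

theorem laurentD_ne_zero_of_coeff (x : LaurentSeries κ) (hx : x.coeff (-1) ≠ 0) :
    Fermat.Agent.S24.H84.laurentD κ x ≠ 0 := by
  intro h
  have h2 := congrArg (fun f : LaurentSeries κ => f.coeff (-2)) h
  simp only [Fermat.Agent.S24.H84.laurentD_coeff, HahnSeries.coeff_zero] at h2
  have e : ((-2 : ℤ) + 1) = -1 := by norm_num
  rw [e] at h2
  rcases mul_eq_zero.mp h2 with h3 | h3
  · have : ((-1 : ℤ) : κ) = -1 := by norm_num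
    rw [this] at h3
    exact one_ne_zero (neg_eq_zero.mp h3)
  · exact hx h3

theorem laurentD_jqModC_ne_zero : Fermat.Agent.S24.H84.laurentD κ (jqModC κ) ≠ 0 :=
  laurentD_ne_zero_of_coeff κ _ (by rw [coeff_jqModC_neg_one]; exact one_ne_zero)

/-- `d/dq` as a derivation for the `Algebra.toModule` structure. -/
def laurentDer :
    @Derivation κ (LaurentSeries κ) (LaurentSeries κ) _ _ _ _ Algebra.toModule Algebra.toModule :=
  derivationOfFun (k := κ) (K := LaurentSeries κ) (fun f => Fermat.Agent.S24.H84.laurentD κ f)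
    (fun a b => map_add _ a b)
    (fun a b => by
      have := (Fermat.Agent.S24.H84.laurentD κ).leibniz a b
      simpa only [smul_eq_mul] using this)
    (fun c => (Fermat.Agent.S24.H84.laurentD κ).map_algebraMap c)

theorem laurentDer_apply (f : LaurentSeries κ) :
    laurentDer κ f = Fermat.Agent.S24.H84.laurentD κ f := rfl

/-- **SEP in `κ((q))`.** -/
theorem isSeparable_laurent [PerfectField κ] (x : LaurentSeries κ) (hx : x.coeff (-1) ≠ 0)
    (y : LaurentSeries κ) (hy : IsAlgebraic κ⟮x⟯ y) : IsSeparable κ⟮x⟯ y :=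
  isSeparable_of_D_ne_zero (laurentDer κ) x
    (by rw [laurentDer_apply]; exact laurentD_ne_zero_of_coeff κ x hx) y hy

/-- **SEP in `κ((q))`, bivariate form.** -/
theorem exists_bivariate_separable_laurent [PerfectField κ] (x : LaurentSeries κ)
    (hx : x.coeff (-1) ≠ 0) (y : LaurentSeries κ) (hy : IsAlgebraic κ⟮x⟯ y) :
    ∃ Q : (κ[X])[X], Q.eval₂ (aeval x : κ[X] →ₐ[κ] LaurentSeries κ).toRingHom y = 0 ∧
      (derivative Q).eval₂ (aeval x : κ[X] →ₐ[κ] LaurentSeries κ).toRingHom y ≠ 0 :=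
  exists_bivariate_separable (laurentDer κ) x
    (by rw [laurentDer_apply]; exact laurentD_ne_zero_of_coeff κ x hx) y hy

/-- Every element of `F_κ` is algebraic over `κ(j̄)`. -/
theorem isAlgebraic_of_mem_full (N : ℕ) (hN : N ≠ 0)
    (hchar : ∀ p : ℕ, p.Prime → p ∣ N → (p : κ) ≠ 0)
    (y : LaurentSeries κ) (hy : y ∈ modularFunctionFieldFullC κ N) :
    IsAlgebraic κ⟮jqModC κ⟯ y := by
  have : NeZero N := ⟨hN⟩
  have H : Fermat.Agent.S28.H626.HasModPolys κ N :=
    Fermat.Agent.S28.H867.hasModPolys κ N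
      (fun p hp _ _ => Fermat.Agent.S28.H807.nonempty_modPolyData p hp) hchar
  have hfin := Fermat.Agent.S28.H626.finiteDimensional_extendScalars N H
  have hle := Fermat.Agent.S28.H626.adjoin_j_le_full (k := κ) N
  have hy' : y ∈ extendScalars hle := (mem_extendScalars hle).mpr hy
  have h1 : IsAlgebraic κ⟮jqModC κ⟯ (⟨y, hy'⟩ : extendScalars hle) :=
    (IsIntegral.of_finite κ⟮jqModC κ⟯ (⟨y, hy'⟩ : extendScalars hle)).isAlgebraic
  exact (IntermediateField.isAlgebraic_iff).mp h1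

/-- **G-SEP at level `N`, coordinate `j`**: `F_κ / κ(j̄)` is separable. -/
theorem isSeparable_of_mem_full [PerfectField κ] (N : ℕ) (hN : N ≠ 0)
    (hchar : ∀ p : ℕ, p.Prime → p ∣ N → (p : κ) ≠ 0)
    (y : LaurentSeries κ) (hy : y ∈ modularFunctionFieldFullC κ N) :
    IsSeparable κ⟮jqModC κ⟯ y :=
  isSeparable_laurent κ _ (by rw [coeff_jqModC_neg_one]; exact one_ne_zero) y
    (isAlgebraic_of_mem_full κ N hN hchar y hy)

/-- **G-SEP at level `N`, coordinate `j`, bivariate form.** -/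
theorem exists_bivariate_of_mem_full [PerfectField κ] (N : ℕ) (hN : N ≠ 0)
    (hchar : ∀ p : ℕ, p.Prime → p ∣ N → (p : κ) ≠ 0)
    (y : LaurentSeries κ) (hy : y ∈ modularFunctionFieldFullC κ N) :
    ∃ Q : (κ[X])[X],
      Q.eval₂ (aeval (jqModC κ) : κ[X] →ₐ[κ] LaurentSeries κ).toRingHom y = 0 ∧
      (derivative Q).eval₂ (aeval (jqModC κ) : κ[X] →ₐ[κ] LaurentSeries κ).toRingHom y ≠ 0 :=
  exists_bivariate_separable_laurent κ _ (by rw [coeff_jqModC_neg_one]; exact one_ne_zero) y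
    (isAlgebraic_of_mem_full κ N hN hchar y hy)

end Fermat.Agent.S18.MOD.H396

end
end
-- ===== PACK-END S18/MOD/H396/SepLaurent.lean

-- ===== PACK-BEGIN A2/Mod/H873/L13.lean
section



/-!
# A2 / MOD — leaf L13 `ChartCompatStatement` (helper873)

`x = j · j_q`.  Then `j, j_q` are integral over `R_E[x]` and `1/j, 1/j_q` are integral over
`R_E[1/x]`.

Proof (valuative criterion, `iInf_valuationSubring_superset`): let `V` be a valuation subring of
`F_N` containing `x`.  If `j ∉ V` then `1/j ∈ V`, so `j_q = x / j ∈ V`; but `j` is integral over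
`ℤ[j_q]` (`Φ_q(j, j_q) = 0`, `Φ_q` monic), hence `j ∈ V`.  Chart at infinity: if `1/x ∈ V` and
`1/j ∉ V` then `j ∈ V`, so `j_q ∈ V` (integral over `ℤ[j]`), and `1/j = j_q · (1/x) ∈ V`.
Only the monicity of `Φ_q` in the outer variable and the two vanishing properties of
`S28.ModPolyData` are used.

Main results:
* `chartCompat_of_modPolyData (D : S28.ModPolyData q) : ChartCompatStatement P E M q`
* `chartCompat : ChartCompatStatement P E M q`   (exact frozen leaf of `Mod/Spec.lean`)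
-/

set_option autoImplicit false
set_option synthInstance.maxHeartbeats 400000
set_option maxHeartbeats 1600000

noncomputable section

namespace Fermat.Agent.A2.Mod.H873

open ModularCurve HahnSeries Polynomial

/-! ## Abstract part (Mathlib only) -/

section Abstract

variable {K : Type*} [Field K]

/-- valuative criterion, one element: `a` lies in every valuation subring containing `x`
implies `a` is integral over `ℤ[x]`. -/
theorem isIntegral_closure_of_forall_valuationSubring {x a : K}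
    (h : ∀ V : ValuationSubring K, x ∈ V → a ∈ V) :
    IsIntegral (Subring.closure ({x} : Set K)) a := by
  have key := iInf_valuationSubring_superset (K := K) (s := ({x} : Set K))
  have hmem : a ∈ (integralClosure (Subring.closure ({x} : Set K)) K).toSubring := by
    rw [← key]
    rw [Subring.mem_iInf]
    rintro ⟨V, hV⟩
    exact h V (hV (Set.mem_singleton x))
  exact hmem

/-- an element integral over `ℤ[b]` lies in every valuation subring containing `b` -/
theorem mem_valuationSubring_of_monic_eval {a b : K} (Φ : Polynomial (Polynomial ℤ))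
    (hΦ : Φ.Monic) (h : Φ.eval₂ (Polynomial.aeval (R := ℤ) b).toRingHom a = 0)
    (V : ValuationSubring K) (hb : b ∈ V) : a ∈ V := by
  have hint : IsIntegral V a := by
    refine ⟨Φ.map (Polynomial.aeval (R := ℤ) (⟨b, hb⟩ : V)).toRingHom, hΦ.map _, ?_⟩
    rw [Polynomial.eval₂_map]
    rw [← h]
    congr 1
    apply Polynomial.ringHom_ext
    · intro n
      simp
    · simp
  have := IsIntegrallyClosed.isIntegral_iff (R := V) (K := K) |>.mp hint
  obtain ⟨y, hy⟩ := this
  rw [← hy]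
  exact y.2

/-- **core of L13, finite chart**: `Φ(X = a; Y = b) = 0`, `Φ` monic in `X` ⟹ `a` integral over
`ℤ[a b]`. -/
theorem isIntegral_closure_mul {a b : K} (Φ : Polynomial (Polynomial ℤ))
    (hΦ : Φ.Monic) (h : Φ.eval₂ (Polynomial.aeval (R := ℤ) b).toRingHom a = 0) :
    IsIntegral (Subring.closure ({a * b} : Set K)) a := by
  refine isIntegral_closure_of_forall_valuationSubring fun V hx => ?_
  by_contra ha
  have ha0 : a ≠ 0 := fun h0 => ha (h0 ▸ V.zero_mem)
  have hinv : a⁻¹ ∈ V := (V.mem_or_inv_mem a).resolve_left ha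
  have hb : b ∈ V := by
    have : b = a * b * a⁻¹ := by field_simp
    rw [this]
    exact V.mul_mem _ _ hx hinv
  exact ha (mem_valuationSubring_of_monic_eval Φ hΦ h V hb)

/-- **core of L13, chart at infinity**: `Φ(X = b; Y = a) = 0`, `Φ` monic in `X`, `b ≠ 0`
⟹ `a⁻¹` integral over `ℤ[(a b)⁻¹]`. -/
theorem isIntegral_closure_inv_mul {a b : K} (hb0 : b ≠ 0) (Φ : Polynomial (Polynomial ℤ))
    (hΦ : Φ.Monic) (h : Φ.eval₂ (Polynomial.aeval (R := ℤ) a).toRingHom b = 0) :
    IsIntegral (Subring.closure ({(a * b)⁻¹} : Set K)) a⁻¹ := by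
  refine isIntegral_closure_of_forall_valuationSubring fun V hx => ?_
  by_contra ha
  have ha0 : a ≠ 0 := fun h0 => ha (by rw [h0, inv_zero]; exact V.zero_mem)
  have haV : a ∈ V := by
    have := (V.mem_or_inv_mem a⁻¹).resolve_left ha
    rwa [inv_inv] at this
  have hb : b ∈ V := mem_valuationSubring_of_monic_eval Φ hΦ h V haV
  have : a⁻¹ = b * (a * b)⁻¹ := by field_simp
  exact ha (this ▸ V.mul_mem _ _ hb hx)

/-- from integrality over `ℤ[x]` to integrality along `R[X] → K`, `X ↦ x`. -/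
theorem isIntegralElem_of_isIntegral_closure {R : Type*} [CommRing R] (φ : R →+* K) {x a : K}
    (h : IsIntegral (Subring.closure ({x} : Set K)) a) :
    ∃ p : Polynomial (Polynomial R), p.Monic ∧ p.eval₂ (Polynomial.eval₂RingHom φ x) a = 0 := by
  obtain ⟨p, hp, hpa⟩ := h
  set ψ : Polynomial R →+* K := Polynomial.eval₂RingHom φ x with hψ
  have hle : Subring.closure ({x} : Set K) ≤ ψ.range := by
    rw [Subring.closure_le]
    rintro y hy
    rw [Set.mem_singleton_iff] at hy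
    subst hy
    exact ⟨Polynomial.X, by simp [hψ]⟩
  set incl : Subring.closure ({x} : Set K) →+* ψ.range := Subring.inclusion hle with hincl
  have hlift : p.map incl ∈ Polynomial.lifts ψ.rangeRestrict := by
    rw [Polynomial.lifts_iff_coeff_lifts]
    intro n
    exact ψ.rangeRestrict_surjective _
  obtain ⟨q, hq, -, hqm⟩ := Polynomial.lifts_and_natDegree_eq_and_monic hlift (hp.map incl)
  refine ⟨q, hqm, ?_⟩
  have h1 : q.eval₂ ψ a = (q.map ψ.rangeRestrict).eval₂ ψ.range.subtype a := by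
    rw [Polynomial.eval₂_map]
    rfl
  rw [h1, hq, Polynomial.eval₂_map]
  exact hpa

end Abstract

/-! ## Concrete part -/

section Concrete

variable (P : ValuationSubring _root_.Fermat.Agent.A2.Mod.Qb) (E : IntermediateField ℚ _root_.Fermat.Agent.A2.Mod.Qb) (M q : ℕ) [NeZero M] [NeZero q]

/-- the underlying series of `j_d` is `j(t^d)` over `E` -/
theorem coe_jE (N d : ℕ) [NeZero d] (hd : d ∣ N) :
    ((jE E N d hd : _root_.Fermat.Agent.A2.Mod.FE E N) : LaurentSeries E) = qExpand E d (jqModC E) := by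
  show coeffEmb E (qExpand ℚ d jq) = _
  rw [coeffEmb, coeffMap_qExpand, ← jqModC_rat, coeffMap_jqModC]

/-- the underlying series of `j_d` is the image of the integral series `j(t^d)` -/
theorem coe_jE_int (N d : ℕ) [NeZero d] (hd : d ∣ N) :
    ((jE E N d hd : _root_.Fermat.Agent.A2.Mod.FE E N) : LaurentSeries E) =
      coeffMap (Int.castRingHom E) (qExpand ℤ d (jqModC ℤ)) := by
  rw [coe_jE, coeffMap_qExpand, coeffMap_jqModC]

theorem coe_jE_one (N : ℕ) :
    ((jE E N 1 (one_dvd N) : _root_.Fermat.Agent.A2.Mod.FE E N) : LaurentSeries E) =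
      coeffMap (Int.castRingHom E) (jqModC ℤ) := by
  rw [coe_jE_int, qExpand_one_apply]

/-- evaluation of a two-variable integral polynomial commutes with the coercion
`F_N → E((t))` -/
theorem coe_eval₂_aeval (N : ℕ) (Φ : Polynomial (Polynomial ℤ)) (a b : _root_.Fermat.Agent.A2.Mod.FE E N) :
    ((Φ.eval₂ (Polynomial.aeval (R := ℤ) b).toRingHom a : _root_.Fermat.Agent.A2.Mod.FE E N) : LaurentSeries E) =
      Φ.eval₂ (Polynomial.aeval (R := ℤ) (b : LaurentSeries E)).toRingHom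
        (a : LaurentSeries E) := by
  have h := Polynomial.hom_eval₂ Φ (Polynomial.aeval (R := ℤ) b).toRingHom
    (_root_.Fermat.Agent.A2.Mod.FE E N).val.toRingHom a
  have hcomp : ((_root_.Fermat.Agent.A2.Mod.FE E N).val.toRingHom).comp (Polynomial.aeval (R := ℤ) b).toRingHom =
      (Polynomial.aeval (R := ℤ) (b : LaurentSeries E)).toRingHom := by
    apply Polynomial.ringHom_ext
    · intro n
      simp
    · simp
  rw [hcomp] at h
  exact h

/-- transfer of a vanishing statement from `ℤ((t))` to `F_N` -/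
theorem eval₂_eq_zero_of_int (N : ℕ) (Φ : Polynomial (Polynomial ℤ)) (a b : _root_.Fermat.Agent.A2.Mod.FE E N)
    (A B : LaurentSeries ℤ) (ha : (a : LaurentSeries E) = coeffMap (Int.castRingHom E) A)
    (hb : (b : LaurentSeries E) = coeffMap (Int.castRingHom E) B)
    (h : Φ.eval₂ (S28.evalAt B) A = 0) :
    Φ.eval₂ (Polynomial.aeval (R := ℤ) b).toRingHom a = 0 := by
  apply Subtype.ext
  rw [coe_eval₂_aeval, ha, hb]
  have h2 := Polynomial.hom_eval₂ Φ (S28.evalAt B) (coeffMap (Int.castRingHom E)) A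
  have hcomp : (coeffMap (Int.castRingHom E)).comp (S28.evalAt B) =
      (Polynomial.aeval (R := ℤ) (coeffMap (Int.castRingHom E) B)).toRingHom := by
    apply Polynomial.ringHom_ext
    · intro n
      simp [S28.evalAt]
    · simp [S28.evalAt]
  rw [hcomp, h, map_zero] at h2
  rw [← h2]
  rfl

theorem jE_ne_zero (N d : ℕ) [NeZero d] (hd : d ∣ N) : jE E N d hd ≠ 0 := by
  intro h
  have h1 : ((jE E N d hd : _root_.Fermat.Agent.A2.Mod.FE E N) : LaurentSeries E) = 0 := by rw [h]; rfl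
  rw [coe_jE] at h1
  have h2 : jqModC E = 0 := by
    have hinj : Function.Injective (qExpand E d) := by
      intro x y hxy
      ext n
      have := congrArg (fun z => z.coeff ((d : ℤ) * n)) hxy
      simpa [qExpand_coeff_mul] using this
    exact hinj (by rw [h1, map_zero])
  exact jqModC_ne_zero_of_nontrivial E h2

/-- **L13 from the modular polynomial.** -/
theorem chartCompat_of_modPolyData (D : S28.ModPolyData q) : ChartCompatStatement P E M q := by
  intro _
  -- the two vanishing statements in `F_N`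
  have hj : D.Φ.eval₂ (Polynomial.aeval (R := ℤ)
      (jE E (M * q) q (dvd_mul_left q M))).toRingHom (jE E (M * q) 1 (one_dvd _)) = 0 :=
    eval₂_eq_zero_of_int E (M * q) D.Φ _ _ _ _ (coe_jE_one E (M * q))
      (coe_jE_int E (M * q) q (dvd_mul_left q M)) D.eval_j
  have hjq : D.Φ.eval₂ (Polynomial.aeval (R := ℤ)
      (jE E (M * q) 1 (one_dvd _))).toRingHom (jE E (M * q) q (dvd_mul_left q M)) = 0 :=
    eval₂_eq_zero_of_int E (M * q) D.Φ _ _ _ _ (coe_jE_int E (M * q) q (dvd_mul_left q M))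
      (coe_jE_one E (M * q)) D.eval_jp
  refine ⟨?_, ?_, ?_, ?_⟩
  · exact isIntegralElem_of_isIntegral_closure _ (isIntegral_closure_mul D.Φ D.monic hj)
  · have h := isIntegral_closure_mul D.Φ D.monic hjq
    rw [mul_comm (jE E (M * q) q (dvd_mul_left q M)) (jE E (M * q) 1 (one_dvd _))] at h
    exact isIntegralElem_of_isIntegral_closure _ h
  · exact isIntegralElem_of_isIntegral_closure _
      (isIntegral_closure_inv_mul (jE_ne_zero E (M * q) q (dvd_mul_left q M)) D.Φ D.monic hjq)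
  · have h := isIntegral_closure_inv_mul (jE_ne_zero E (M * q) 1 (one_dvd _)) D.Φ D.monic hj
    rw [mul_comm (jE E (M * q) q (dvd_mul_left q M)) (jE E (M * q) 1 (one_dvd _))] at h
    exact isIntegralElem_of_isIntegral_closure _ h

/-- **L13** (exact frozen leaf of `Mod/Spec.lean`). -/
theorem chartCompat : ChartCompatStatement P E M q := fun hq =>
  chartCompat_of_modPolyData P E M q (S28.H807.nonempty_modPolyData q hq).some hq

end Concrete

end Fermat.Agent.A2.Mod.H873

end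

end
-- ===== PACK-END A2/Mod/H873/L13.lean

-- ===== PACK-BEGIN Ribet/H868/NodeSym.lean
section



/-!
# RIBET row 38, WALL-p, leaf SYM: the symmetric node relation, fraction form (helper868)

`R` a node ring (`H704.I6.IsNode 𝔭₁ 𝔭₂ π x y`, noetherian local normal domain), `K = Frac R`,
with a unit pair `D · D' = π ^ N`, `N > 0` (NO coprimality hypothesis: the thickness of the node
may be divisible by `m`; this is the situation over a WILD level).

**`nodeSymFrac`**: if `u ∈ Kˣ` is horizontally `m`-divisible, then its slopes `s₁`, `s₂` along the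
two branches at the closed point satisfy `m ∣ s₁ + s₂`.

Math: `s₁(u) + s₂(u)` is the intersection number at the closed point of the horizontal part of
`div u` with the principal special fibre `π = 0`.  Proof: the vertical part of `u ^ N` is removed
with the unit pair (`G = u ^ N / (D' ^ n₁ D ^ n₂) ∈ R ∖ (𝔭₁ ∪ 𝔭₂)` by Hartogs, horizontally
`m N`-divisible), `ℓ(R / (G, π)) = ord₁ G + ord₂ G` and the multiplicity identity give
`m N ∣ N (s₁ + s₂)`.
-/

set_option autoImplicit false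
set_option linter.unusedSectionVars false
set_option linter.style.haveILetI false

namespace Fermat.Agent.Ribet.H868

open IsLocalRing Fermat.Agent.Ribet.H704 Fermat.Agent.A2

/-- **SYM, abstract form** (fraction form; shape of `H704.I6.NodeRelFracStatement`). -/
def NodeSymFracStatement : Prop :=
  ∀ (R K : Type) [CommRing R] [IsDomain R] [IsIntegrallyClosed R] [IsNoetherianRing R]
    [IsLocalRing R] [Field K] [Algebra R K] [IsFractionRing R K]
    (𝔭₁ 𝔭₂ : Ideal R) (π x y : R), I6.IsNode 𝔭₁ 𝔭₂ π x y →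
    ∀ (N : ℕ) (D D' : R), 0 < N → I6.IsUnitPair 𝔭₁ 𝔭₂ π D D' N →
    ∀ (m : ℕ), m ≠ 0 → ∀ (u : K), u ≠ 0 → I6.HorDivFrac K π m u →
    ∀ (s₁ s₂ : ℤ), I6.SlopeAt K 𝔭₁ π x u s₁ → I6.SlopeAt K 𝔭₂ π y u s₂ →
      (m : ℤ) ∣ s₁ + s₂

section Main

variable {R K : Type} [CommRing R] [IsDomain R] [IsIntegrallyClosed R] [IsNoetherianRing R]
  [IsLocalRing R] [Field K] [Algebra R K] [IsFractionRing R K]

/-- The two orders of a unit pair agree: `ord₁ D = ord₂ D'`. -/
theorem unitPair_ord_eq {𝔭₁ 𝔭₂ : Ideal R} {π x y : R} (hN : I6.IsNode 𝔭₁ 𝔭₂ π x y)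
    {N : ℕ} {D D' : R} (hNpos : 0 < N) (hDD : I6.IsUnitPair 𝔭₁ 𝔭₂ π D D' N)
    {k k' : ℕ} (hk : I6.OrdOn 𝔭₁ x D k) (hk' : I6.OrdOn 𝔭₂ y D' k') : k' = k := by
  have hnh : I6.NoHorZero π D' := by
    intro P hP hD'P
    have h1 : π ^ N ∈ P := by
      rw [← hDD.mul_eq]
      exact Ideal.mul_mem_left _ _ hD'P
    exact hP.mem_of_pow_mem N h1
  have h1ne : (1 : R) ∉ 𝔭₁ := fun h =>
    hN.prime₁.ne_top ((Ideal.eq_top_iff_one _).mpr h)
  have h := H403.nodeRelExact_403 R 𝔭₁ 𝔭₂ π x y hN N D D' hNpos hDD D' 1 D N hDD.hD' h1ne hDD.hD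
    (by rw [mul_comm, hDD.mul_eq, mul_one]) hnh k' k hk' hk
  exact Nat.eq_of_mul_eq_mul_left hNpos h

/-- Element form with arbitrary vertical part: for `g ∈ R ∖ {0}` horizontally `m`-divisible the
slopes of `g` along the two branches satisfy `m ∣ σ₁ + σ₂`. -/
theorem nodeSym_elem {𝔭₁ 𝔭₂ : Ideal R} {π x y : R} (hN : I6.IsNode 𝔭₁ 𝔭₂ π x y)
    {N : ℕ} {D D' : R} (hNpos : 0 < N) (hDD : I6.IsUnitPair 𝔭₁ 𝔭₂ π D D' N)
    {m : ℕ} (hm : m ≠ 0) {g : R} (hg0 : g ≠ 0) (hg : I6.HorDiv π m g)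
    {σ₁ σ₂ : ℤ} (hσ₁ : I6.SlopeAt K 𝔭₁ π x (algebraMap R K g) σ₁)
    (hσ₂ : I6.SlopeAt K 𝔭₂ π y (algebraMap R K g) σ₂) : (m : ℤ) ∣ σ₁ + σ₂ := by
  haveI := hN.prime₁
  haveI := hN.prime₂
  have hinj : Function.Injective (algebraMap R K) := IsFractionRing.injective R K
  have h₁ := H132.branchData_left hN
  have h₂ := H132.branchData_right hN
  have hπ : Ideal.span {π} = 𝔭₁ ⊓ 𝔭₂ := hN.inf_eq.symm
  have hπ' : Ideal.span {π} = 𝔭₂ ⊓ 𝔭₁ := by rw [inf_comm]; exact hπ
  have hπ0 : π ≠ 0 := H132.isNode_pi_ne_zero hN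
  have hπmem : π ∈ 𝔭₁ ⊓ 𝔭₂ := hπ ▸ Ideal.mem_span_singleton_self π
  have hπK : algebraMap R K π ≠ 0 := by rwa [Ne, map_eq_zero_iff _ hinj]
  have hD0 : D ≠ 0 := fun h => hDD.hD (h ▸ 𝔭₁.zero_mem)
  have hD'0 : D' ≠ 0 := fun h => hDD.hD' (h ▸ 𝔭₂.zero_mem)
  have hDK : algebraMap R K D ≠ 0 := by rwa [Ne, map_eq_zero_iff _ hinj]
  have hD'K : algebraMap R K D' ≠ 0 := by rwa [Ne, map_eq_zero_iff _ hinj]
  have hgK : algebraMap R K g ≠ 0 := by rwa [Ne, map_eq_zero_iff _ hinj]
  have hDDK : algebraMap R K D * algebraMap R K D' = algebraMap R K π ^ N := by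
    rw [← map_mul, hDD.mul_eq, map_pow]
  -- orders of the unit pair
  obtain ⟨k, hk⟩ := hN.unif₁ D hDD.hD
  obtain ⟨k', hk'⟩ := hN.unif₂ D' hDD.hD'
  have hkk : k' = k := unitPair_ord_eq hN hNpos hDD hk hk'
  subst hkk
  -- slopes and valuations of `D`, `D'`
  have eD' : algebraMap R K D' = algebraMap R K π ^ N * (algebraMap R K D)⁻¹ := by
    rw [← hDDK]; field_simp
  have eD : algebraMap R K D = algebraMap R K π ^ N * (algebraMap R K D')⁻¹ := by
    rw [← hDDK]; field_simp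
  have SD₁ : I6.SlopeAt K 𝔭₁ π x (algebraMap R K D) k' := H132.slopeAt_of_ordOn h₁ hDD.hD hk
  have SD'₂ : I6.SlopeAt K 𝔭₂ π y (algebraMap R K D') k' :=
    H132.slopeAt_of_ordOn h₂ hDD.hD' hk'
  have SD'₁ : I6.SlopeAt K 𝔭₁ π x (algebraMap R K D') (-(k' : ℤ)) := by
    have := H132.slopeAt_mul h₁ (H132.slopeAt_pow h₁ (H132.slopeAt_pi (K := K) h₁) N)
      (H132.slopeAt_inv h₁ SD₁)
    rw [← eD'] at this
    simpa using this
  have SD₂ : I6.SlopeAt K 𝔭₂ π y (algebraMap R K D) (-(k' : ℤ)) := by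
    have := H132.slopeAt_mul h₂ (H132.slopeAt_pow h₂ (H132.slopeAt_pi (K := K) h₂) N)
      (H132.slopeAt_inv h₂ SD'₂)
    rw [← eD] at this
    simpa using this
  have VD₁ : I6.ValAt K 𝔭₁ π (algebraMap R K D) 0 := H132.valAt_of_notMem h₁.vert hDD.hD
  have VD'₂ : I6.ValAt K 𝔭₂ π (algebraMap R K D') 0 := H132.valAt_of_notMem h₂.vert hDD.hD'
  have VD'₁ : I6.ValAt K 𝔭₁ π (algebraMap R K D') N := by
    have := H132.valAt_mul h₁.vert (H132.valAt_pow h₁.vert (H132.valAt_pi (K := K) h₁.vert) N)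
      (H132.valAt_inv h₁.vert VD₁)
    rw [← eD'] at this
    simpa using this
  have VD₂ : I6.ValAt K 𝔭₂ π (algebraMap R K D) N := by
    have := H132.valAt_mul h₂.vert (H132.valAt_pow h₂.vert (H132.valAt_pi (K := K) h₂.vert) N)
      (H132.valAt_inv h₂.vert VD'₂)
    rw [← eD] at this
    simpa using this
  -- vertical valuations of `g`
  obtain ⟨n₁, a₁, b₁, ha₁, hb₁, hab₁⟩ := H403.exists_val_403 𝔭₁ 𝔭₂ hπ hN.hx hN.hx₁ hg0
  obtain ⟨n₂, a₂, b₂, ha₂, hb₂, hab₂⟩ := H403.exists_val_403 𝔭₂ 𝔭₁ hπ' hN.hy hN.hy₂ hg0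
  have Vg₁ : I6.ValAt K 𝔭₁ π (algebraMap R K g) n₁ := by
    refine ⟨b₁, a₁, hb₁, ha₁, ?_⟩
    rw [zpow_natCast, ← map_pow, ← map_mul, ← map_mul]
    congr 1
    linear_combination hab₁
  have Vg₂ : I6.ValAt K 𝔭₂ π (algebraMap R K g) n₂ := by
    refine ⟨b₂, a₂, hb₂, ha₂, ?_⟩
    rw [zpow_natCast, ← map_pow, ← map_mul, ← map_mul]
    congr 1
    linear_combination hab₂
  -- the element `W = g ^ N / (D' ^ n₁ D ^ n₂)`
  set W : K := algebraMap R K g ^ N * ((algebraMap R K D') ^ n₁)⁻¹ * ((algebraMap R K D) ^ n₂)⁻¹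
    with hW
  have VW₁ : I6.ValAt K 𝔭₁ π W 0 := by
    have := H132.valAt_mul h₁.vert (H132.valAt_mul h₁.vert (H132.valAt_pow h₁.vert Vg₁ N)
      (H132.valAt_inv h₁.vert (H132.valAt_pow h₁.vert VD'₁ n₁)))
      (H132.valAt_inv h₁.vert (H132.valAt_pow h₁.vert VD₁ n₂))
    have e : (N : ℤ) * n₁ + -((n₁ : ℤ) * N) + -((n₂ : ℤ) * 0) = 0 := by ring
    rwa [e] at this
  have VW₂ : I6.ValAt K 𝔭₂ π W 0 := by
    have := H132.valAt_mul h₂.vert (H132.valAt_mul h₂.vert (H132.valAt_pow h₂.vert Vg₂ N)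
      (H132.valAt_inv h₂.vert (H132.valAt_pow h₂.vert VD'₂ n₁)))
      (H132.valAt_inv h₂.vert (H132.valAt_pow h₂.vert VD₂ n₂))
    have e : (N : ℤ) * n₂ + -((n₁ : ℤ) * 0) + -((n₂ : ℤ) * N) = 0 := by ring
    rwa [e] at this
  -- Hartogs: `W ∈ R`
  have hWR : W ∈ (algebraMap R K).range := by
    refine H849.mem_range_of_forall_isLocDVR W (fun O P hOP => ?_)
    have hPp := hOP.prime
    have key : ∀ (𝔭 : Ideal R), 𝔭.IsPrime → π ∈ 𝔭 → 𝔭 ≤ P → I6.ValAt K 𝔭 π W 0 → W ∈ O := by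
      intro 𝔭 h𝔭 hπ𝔭 hle hV
      have h𝔭0 : 𝔭 ≠ ⊥ := fun h => hπ0 (by simpa [h] using hπ𝔭)
      have hEq : 𝔭 = P := hOP.height_one 𝔭 h𝔭 h𝔭0 hle
      obtain ⟨a, b, -, hb, hab⟩ := hV
      have hbK : algebraMap R K b ≠ 0 := by
        rw [Ne, map_eq_zero_iff _ hinj]
        rintro rfl
        exact hb 𝔭.zero_mem
      have hWab : W = algebraMap R K a * (algebraMap R K b)⁻¹ := by
        rw [zpow_zero, one_mul] at hab
        rw [← hab]; field_simp
      rw [hWab]
      exact O.mul_mem _ _ (hOP.le a) (hOP.inv_mem b (hEq ▸ hb))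
    by_cases hπP : π ∈ P
    · have hle : 𝔭₁ ⊓ 𝔭₂ ≤ P := by
        rw [← hπ, Ideal.span_singleton_le_iff_mem]
        exact hπP
      rcases (Ideal.IsPrime.inf_le hPp).mp hle with h | h
      · exact key 𝔭₁ inferInstance hπmem.1 h VW₁
      · exact key 𝔭₂ inferInstance hπmem.2 h VW₂
    · have hDP : D ∉ P := fun h => hπP (hPp.mem_of_pow_mem N (by
        rw [← hDD.mul_eq]; exact Ideal.mul_mem_right _ _ h))
      have hD'P : D' ∉ P := fun h => hπP (hPp.mem_of_pow_mem N (by
        rw [← hDD.mul_eq]; exact Ideal.mul_mem_left _ _ h))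
      rw [hW, ← inv_pow, ← inv_pow]
      exact O.mul_mem _ _ (O.mul_mem _ _ (pow_mem (hOP.le g) N)
        (pow_mem (hOP.inv_mem D' hD'P) n₁)) (pow_mem (hOP.inv_mem D hDP) n₂)
  obtain ⟨G, hGW⟩ := hWR
  have hG_not : ∀ (𝔭 : Ideal R), 𝔭.IsPrime → I6.ValAt K 𝔭 π W 0 → G ∉ 𝔭 := by
    intro 𝔭 h𝔭 hV hG
    obtain ⟨a, b, ha, -, hab⟩ := hV
    rw [zpow_zero, one_mul, ← hGW, ← map_mul] at hab
    have := hinj hab
    exact ha (this ▸ 𝔭.mul_mem_right _ hG)
  have hG₁ : G ∉ 𝔭₁ := hG_not 𝔭₁ inferInstance VW₁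
  have hG₂ : G ∉ 𝔭₂ := hG_not 𝔭₂ inferInstance VW₂
  have hrel : G * D' ^ n₁ * D ^ n₂ = g ^ N := by
    apply hinj
    rw [map_mul, map_mul, map_pow, map_pow, map_pow, hGW, hW]
    field_simp
  -- `G` is horizontally `m N`-divisible
  have hMpos : 0 < m * N := Nat.mul_pos (Nat.pos_of_ne_zero hm) hNpos
  have hhor : I6.HorDiv π (m * N) G := by
    intro P hP hGP hπP
    have hgP : g ∈ P := by
      have : g ^ N ∈ P := by
        rw [← hrel]
        exact Ideal.mul_mem_right _ _ (Ideal.mul_mem_right _ _ hGP)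
      exact hP.mem_of_pow_mem N this
    have hDP : D ∉ P := fun h => hπP (hP.mem_of_pow_mem N (by
      rw [← hDD.mul_eq]; exact Ideal.mul_mem_right _ _ h))
    have hD'P : D' ∉ P := fun h => hπP (hP.mem_of_pow_mem N (by
      rw [← hDD.mul_eq]; exact Ideal.mul_mem_left _ _ h))
    obtain ⟨f, r, hr, hf⟩ := hg P hP hgP hπP
    refine ⟨f, D' ^ n₁ * D ^ n₂ * r ^ N, ?_, ?_⟩
    · intro h
      rcases hP.mem_or_mem h with h1 | h1
      · rcases hP.mem_or_mem h1 with h2 | h2
        · exact hD'P (hP.mem_of_pow_mem _ h2)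
        · exact hDP (hP.mem_of_pow_mem _ h2)
      · exact hr (hP.mem_of_pow_mem _ h1)
    · rw [pow_mul, hf, mul_pow, ← hrel]
      ring
  obtain ⟨i, hi⟩ := hN.unif₁ G hG₁
  obtain ⟨j, hj⟩ := hN.unif₂ G hG₂
  have hdvd : m * N ∣ i + j := dvd_ord_add_ord hN hMpos hG₁ hG₂ hhor hi hj
  -- slopes of `W = G`
  have SG₁ : I6.SlopeAt K 𝔭₁ π x W i := hGW ▸ H132.slopeAt_of_ordOn h₁ hG₁ hi
  have SG₂ : I6.SlopeAt K 𝔭₂ π y W j := hGW ▸ H132.slopeAt_of_ordOn h₂ hG₂ hj
  have SW₁ := H132.slopeAt_mul h₁ (H132.slopeAt_mul h₁ (H132.slopeAt_pow h₁ hσ₁ N)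
      (H132.slopeAt_inv h₁ (H132.slopeAt_pow h₁ SD'₁ n₁)))
      (H132.slopeAt_inv h₁ (H132.slopeAt_pow h₁ SD₁ n₂))
  have SW₂ := H132.slopeAt_mul h₂ (H132.slopeAt_mul h₂ (H132.slopeAt_pow h₂ hσ₂ N)
      (H132.slopeAt_inv h₂ (H132.slopeAt_pow h₂ SD'₂ n₁)))
      (H132.slopeAt_inv h₂ (H132.slopeAt_pow h₂ SD₂ n₂))
  have e₁ := H132.slopeAt_unique h₁ SG₁ SW₁
  have e₂ := H132.slopeAt_unique h₂ SG₂ SW₂
  have hsum : ((i + j : ℕ) : ℤ) = (σ₁ + σ₂) * N := by
    push_cast
    rw [e₁, e₂]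
    ring
  have h3 : ((m * N : ℕ) : ℤ) ∣ (σ₁ + σ₂) * N := by
    rw [← hsum]
    exact Int.natCast_dvd_natCast.mpr hdvd
  rw [Nat.cast_mul] at h3
  exact (mul_dvd_mul_iff_right (by exact_mod_cast hNpos.ne' : (N : ℤ) ≠ 0)).mp h3

/-- **SYM, abstract form (fraction form).** -/
theorem nodeSymFrac : NodeSymFracStatement := by
  intro R K _ _ _ _ _ _ _ _ 𝔭₁ 𝔭₂ π x y hN N D D' hNpos hDD m hm u hu hdiv s₁ s₂ hs₁ hs₂
  have hinj : Function.Injective (algebraMap R K) := IsFractionRing.injective R K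
  have h₁ := H132.branchData_left hN
  have h₂ := H132.branchData_right hN
  obtain ⟨a, b, hb0, hab, hhor⟩ := hdiv
  have hbK : algebraMap R K b ≠ 0 := by rwa [Ne, map_eq_zero_iff _ hinj]
  have ha0 : a ≠ 0 := by
    rintro rfl
    rw [map_zero] at hab
    exact (mul_ne_zero hu hbK) hab
  have hg0 : a * b ^ (m - 1) ≠ 0 := mul_ne_zero ha0 (pow_ne_zero _ hb0)
  have hgu : algebraMap R K (a * b ^ (m - 1)) = u * algebraMap R K b ^ m := by
    rw [map_mul, map_pow, ← hab, mul_assoc, mul_pow_sub_one hm]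
  obtain ⟨t₁, ht₁⟩ := H132.exists_slopeAt (K := K) h₁ hbK
  obtain ⟨t₂, ht₂⟩ := H132.exists_slopeAt (K := K) h₂ hbK
  have S₁ := H132.slopeAt_mul h₁ hs₁ (H132.slopeAt_pow h₁ ht₁ m)
  have S₂ := H132.slopeAt_mul h₂ hs₂ (H132.slopeAt_pow h₂ ht₂ m)
  rw [← hgu] at S₁ S₂
  have h := nodeSym_elem hN hNpos hDD hm hg0 hhor S₁ S₂
  have e : s₁ + (m : ℤ) * t₁ + (s₂ + (m : ℤ) * t₂) = (s₁ + s₂) + (m : ℤ) * (t₁ + t₂) := by ring
  rw [e] at h
  exact (Int.dvd_add_left (Dvd.intro _ rfl)).mp h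

end Main

end Fermat.Agent.Ribet.H868

end
-- ===== PACK-END Ribet/H868/NodeSym.lean

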