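import Fermat.Prelude.Def_ModularCurve_HeckeOperator
import Mathlib
import Fermat.Prelude.Def_ModularCurve_X0ModL
import Fermat.Agent.Pack.S44.G0E22L2
import Fermat.Agent.Pack.S44.G0E10L3
import Fermat.Agent.Pack.S44.G0E18L2
import Fermat.Agent.Pack.S44.G0E22L1
import Fermat.Agent.Pack.S44.G0E18L0
import Fermat.Agent.Pack.S44.G0E0L2
import Fermat.Agent.Pack.S44.G0E14L3
import Fermat.Agent.Pack.S44.G0E19L0
import Fermat.Agent.Pack.S44.G0E20L1
import Fermat.Agent.Pack.S44.G0E1L0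
import Fermat.Agent.Pack.S44.G0E13L3
import Fermat.Agent.Pack.S44.G0E19L1
import Fermat.Agent.Pack.S44.G0E7L2
import Fermat.Agent.Pack.S44.G0E7L1
import Fermat.Agent.Pack.S44.G0E11L0
import Fermat.Agent.Pack.S44.G0E10L2
import Fermat.Agent.Pack.S44.G0E16L1
import Fermat.Agent.Pack.S44.G0E20L2
import Fermat.Agent.Pack.S44.G0E21L1
import Fermat.Agent.Pack.S44.G0E3L0
import Fermat.Agent.Pack.S44.G0E14L0
import Fermat.Agent.Pack.S44.G0E22L3
import Fermat.Agent.Pack.S44.G0E15L0
import Fermat.Agent.Pack.S44.G0E0L0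
import Fermat.Agent.Pack.S44.G0E17L1
import Fermat.Agent.Pack.S44.G0E5L2

-- ===== PACK-BEGIN S37/H218/Degree.lean
section




/-!
# S37 / [ES] leaf D-deg (helper218): the degree of the degeneracy map `β = V_ℓ`

`E_N(k) := modularFunctionFieldFullC k N = k(j(q^d) : d ∣ N) ⊂ k((q))`, `V_ℓ : f(q) ↦ f(q^ℓ)`.

* `relfinrank_map_qExpand_full_mul_prime` :
  `[E_{Np}(k) : V_p(E_N(k))] = p + 1` if `p ∤ N`, `= p` if `p ∣ N`
  (all primes dividing `N p` invertible in `k`);
* `relfinrank_map_qExpand_bar_mul_prime` : the same for the Prelude's `modularFunctionFieldBar`;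
* `finrankAlong_heckeBetaBar` :
  `finrankAlong ℚ̄ (heckeBetaBar ℚ̄ N ℓ) = [F̄_{Nℓ} : V_ℓ(F̄_N)]` (as a `relfinrank`);
* `finrankAlong_heckeBetaBar_of_not_dvd` : `finrankAlong ℚ̄ (heckeBetaBar ℚ̄ N ℓ) = ℓ + 1` for a
  prime `ℓ ∤ N`;  `finrankAlong_heckeBetaBar_of_dvd` : `= ℓ` for a prime `ℓ ∣ N`.

Proof: degree counting over `k(j)` and `k(j(q^p))` with the landed S28 degree theory
(`H867.PrimeLevel`: `[k(j, j_p) : k(j)] = p + 1 = [k(j, j_p) : k(j_p)]`, `H988`: `[E_N : k(j)] = ψ(N)`).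
-/

set_option autoImplicit false

noncomputable section

open ModularCurve HahnSeries IntermediateField AlgebraicCurve

namespace Fermat.Agent.S37.H218

open Fermat.Agent.S28

section AnyField

variable (k : Type*) [Field k]

/-- `[E_{Np} : V_p(E_N)] * ψ(N) = ψ(N p)` for a prime `p`. -/
theorem relfinrank_map_qExpand_full_mul_psi (N p : ℕ) [NeZero p] (hN : N ≠ 0) (hp : p.Prime)
    (hchar : ∀ r : ℕ, r.Prime → r ∣ N * p → (r : k) ≠ 0) :
    dedekindPsi N *
      ((modularFunctionFieldFullC k N).map (qExpandAlgHomC k p)).relfinrank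
        (modularFunctionFieldFullC k (N * p)) = dedekindPsi (N * p) := by
  have hNp : N * p ≠ 0 := Nat.mul_ne_zero hN hp.ne_zero
  have hG := H988.good_of_char k (N * p) hNp hchar
  have hP : H867.PrimeLevel k p := hG.prime p hp (dvd_mul_left p N)
  set V := qExpandAlgHomC k p with hV
  set A₀ := jField k with hA₀
  set A := H867.jpField k p with hA
  set B := (modularFunctionFieldFullC k N).map V with hB
  set E' := modularFunctionFieldFullC k (N * p) with hE'
  set P := A₀ ⊔ A with hPdef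
  have hAB : A ≤ B := by
    rw [hA, H867.jpField_eq_map, hB]
    exact IntermediateField.map_mono _ (H867.jField_le_EF k N)
  have hBE : B ≤ E' := H867.map_EF_le k N p
  have hA₀E : A₀ ≤ E' := H867.jField_le_EF k (N * p)
  have hPE : P ≤ E' := sup_le hA₀E (hAB.trans hBE)
  have hA₀P : A₀ ≤ P := le_sup_left
  have hAP : A ≤ P := le_sup_right
  have h1 : A₀.relfinrank E' = A.relfinrank E' := by
    rw [← relfinrank_mul_relfinrank hA₀P hPE, ← relfinrank_mul_relfinrank hAP hPE,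
      hP.deg_j, hP.deg_jp]
  have h3 : A.relfinrank B = dedekindPsi N := by
    rw [hA, H867.jpField_eq_map, hB, relfinrank_map_map]
    exact H988.relfinrank_jField_full_eq k N hN
      (fun r hr hrN => hchar r hr (hrN.trans (Dvd.intro p rfl)))
  have h4 : A₀.relfinrank E' = dedekindPsi (N * p) :=
    H988.relfinrank_jField_full_eq k (N * p) hNp hchar
  rw [← h3, relfinrank_mul_relfinrank hAB hBE, ← h1, h4]

/-- **Degree of `β = V_p`.** `[E_{Np} : V_p(E_N)] = p + 1` if `p ∤ N`, `= p` if `p ∣ N`. -/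
theorem relfinrank_map_qExpand_full_mul_prime (N p : ℕ) [NeZero p] (hN : N ≠ 0) (hp : p.Prime)
    (hchar : ∀ r : ℕ, r.Prime → r ∣ N * p → (r : k) ≠ 0) :
    ((modularFunctionFieldFullC k N).map (qExpandAlgHomC k p)).relfinrank
        (modularFunctionFieldFullC k (N * p)) = if p ∣ N then p else p + 1 := by
  have h := relfinrank_map_qExpand_full_mul_psi k N p hN hp hchar
  have hpos := H988.dedekindPsi_pos N hN
  by_cases hpN : p ∣ N
  · rw [if_pos hpN]
    rw [H626.psi_mul_prime_of_dvd hN hp hpN, mul_comm p] at h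
    exact Nat.eq_of_mul_eq_mul_left hpos h
  · rw [if_neg hpN]
    rw [H626.psi_mul_prime_of_not_dvd hN hp hpN, mul_comm (p + 1)] at h
    exact Nat.eq_of_mul_eq_mul_left hpos h

end AnyField

section Bar

/-- `[ℚ̄(X₀(Np)) : V_p ℚ̄(X₀(N))] = p + 1` if `p ∤ N`, `= p` if `p ∣ N`. -/
theorem relfinrank_map_qExpand_bar_mul_prime (N p : ℕ) [NeZero p] (hN : N ≠ 0) (hp : p.Prime) :
    ((modularFunctionFieldBar N).map (qExpandAlgHomC (AlgebraicClosure ℚ) p)).relfinrank
        (modularFunctionFieldBar (N * p)) = if p ∣ N then p else p + 1 := by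
  rw [H988.modularFunctionFieldBar_eq_fullC, H988.modularFunctionFieldBar_eq_fullC]
  exact relfinrank_map_qExpand_full_mul_prime _ N p hN hp
    (fun r hr _ => H988.natCast_ne_zero_bar hr.ne_zero)

variable (N ℓ : ℕ) [NeZero N] [NeZero ℓ]

omit [NeZero N] in
theorem map_qExpand_bar_le :
    (modularFunctionFieldBar N).map (qExpandAlgHomC (AlgebraicClosure ℚ) ℓ)
      ≤ modularFunctionFieldBar (N * ℓ) := by
  rintro _ ⟨x, hx, rfl⟩
  exact (heckeBetaBar (AlgebraicClosure ℚ) N ℓ ⟨x, hx⟩).2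

omit [NeZero N] in
/-- The degree of the Prelude degeneracy map `β` is `[F̄_{Nℓ} : V_ℓ(F̄_N)]`. -/
theorem finrankAlong_heckeBetaBar :
    finrankAlong (AlgebraicClosure ℚ) (heckeBetaBar (AlgebraicClosure ℚ) N ℓ)
      = ((modularFunctionFieldBar N).map (qExpandAlgHomC (AlgebraicClosure ℚ) ℓ)).relfinrank
          (modularFunctionFieldBar (N * ℓ)) := by
  have hle := map_qExpand_bar_le N ℓ
  rw [relfinrank_eq_finrank_of_le hle]
  let _ := algebraAlong (heckeBetaBar (AlgebraicClosure ℚ) N ℓ)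
  show Module.finrank ↥(modularFunctionFieldBar N) ↥(modularFunctionFieldBar (N * ℓ)) = _
  let i : ↥(modularFunctionFieldBar N) ≃+*
      ↥((modularFunctionFieldBar N).map (qExpandAlgHomC (AlgebraicClosure ℚ) ℓ)) :=
    (IntermediateField.equivMap (modularFunctionFieldBar N)
      (qExpandAlgHomC (AlgebraicClosure ℚ) ℓ)).toRingEquiv
  let j : ↥(modularFunctionFieldBar (N * ℓ)) ≃+* ↥(extendScalars hle) :=
    { toFun := fun x => ⟨x.1, x.2⟩
      invFun := fun y => ⟨y.1, y.2⟩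
      left_inv := fun _ => rfl
      right_inv := fun _ => rfl
      map_mul' := fun _ _ => rfl
      map_add' := fun _ _ => rfl }
  refine Algebra.finrank_eq_of_equiv_equiv i j ?_
  ext x
  rfl

/-- For a prime `ℓ ∤ N` the degeneracy map `β : F̄_N → F̄_{Nℓ}` has degree `ℓ + 1`. -/
theorem finrankAlong_heckeBetaBar_of_not_dvd (hℓ : ℓ.Prime) (h : ¬ ℓ ∣ N) :
    finrankAlong (AlgebraicClosure ℚ) (heckeBetaBar (AlgebraicClosure ℚ) N ℓ) = ℓ + 1 := by
  rw [finrankAlong_heckeBetaBar, relfinrank_map_qExpand_bar_mul_prime N ℓ (NeZero.ne N) hℓ,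
    if_neg h]

/-- For a prime `ℓ ∣ N` the degeneracy map `β : F̄_N → F̄_{Nℓ}` has degree `ℓ`. -/
theorem finrankAlong_heckeBetaBar_of_dvd (hℓ : ℓ.Prime) (h : ℓ ∣ N) :
    finrankAlong (AlgebraicClosure ℚ) (heckeBetaBar (AlgebraicClosure ℚ) N ℓ) = ℓ := by
  rw [finrankAlong_heckeBetaBar, relfinrank_map_qExpand_bar_mul_prime N ℓ (NeZero.ne N) hℓ,
    if_pos h]

/-- For every prime `ℓ` the degree of `β` is at most `ℓ + 1`. -/
theorem finrankAlong_heckeBetaBar_le (hℓ : ℓ.Prime) :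
    finrankAlong (AlgebraicClosure ℚ) (heckeBetaBar (AlgebraicClosure ℚ) N ℓ) ≤ ℓ + 1 := by
  by_cases h : ℓ ∣ N
  · rw [finrankAlong_heckeBetaBar_of_dvd N ℓ hℓ h]
    exact Nat.le_succ ℓ
  · rw [finrankAlong_heckeBetaBar_of_not_dvd N ℓ hℓ h]

end Bar

end Fermat.Agent.S37.H218

end

end
-- ===== PACK-END S37/H218/Degree.lean

-- ===== PACK-BEGIN Ribet/H375/ELOCOrd.lean
section





/-!
# RIBET / WALL-p / ELOC-ord (good reduction): status of the leaves  (helper375)

* `elocPeu  : ELOCPeuStatement`  — **PEU is closed** (`(K)` helper375, `(F)`, `(U)` helper215).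
* `elocSs   : ELOCssStatement`   — adapter of `H187.not_ordinaryInertiaAt_of_ss`.
* `elocOrdGoodIrr_of_line : ELOCLineStatement → ELOCOrdGoodIrrStatement` — only (LINE) is left.
-/

set_option autoImplicit false

open WeierstrassCurve WeierstrassCurve.Affine WeierstrassCurve.Affine.Point

namespace Fermat.Agent.Ribet.H375

open Fermat.Agent.Ribet.Spec Fermat.Agent.Ribet.H944.Wall
open Fermat.Agent.S05.SameRed (InKer IntegralCoeffs)

/-- **(PEU)**, unconditional. -/
theorem elocPeu : ELOCPeuStatement :=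
  elocPeu_of Fermat.Agent.Ribet.H215.firstOrder Fermat.Agent.Ribet.H215.twoUnit

/-- **(ELOC-ss)** in the shape of `ELOCOrdSpec` (proof: helper187). -/
theorem elocSs : ELOCssStatement := by
  intro W p hΔ hp hp2 _ A hA hall
  refine Fermat.Agent.Ribet.H187.not_ordinaryInertiaAt_of_ss hΔ hp hp2 A hA ?_
  intro P hP0 hPp
  have hmem : P ∈ Submodule.torsionBy ℤ
      ((W.map (Int.castRingHom ℚ))⁄(AlgebraicClosure ℚ)).Point p := by
    rw [Submodule.mem_torsionBy_iff, natCast_zsmul]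
    exact hPp
  have h := hall ⟨P, hmem⟩
  unfold InE1 at h
  rcases P with _ | ⟨x, y, hxy⟩
  · exact absurd rfl hP0
  · exact h

/-- **ELOC-ord-good from (LINE) alone.** -/
theorem elocOrdGoodIrr_of_line (hline : ELOCLineStatement) : ELOCOrdGoodIrrStatement :=
  elocOrdGoodIrr_of elocSs hline elocPeu

/-- The ordinary case of the wall (S40 form) from the filtration package, (LINE) and the landed
`NMT-W`, `NE-W`. -/
theorem ordCaseGood_of_line (hF : AtPFiltrationStatement) (hline : ELOCLineStatement)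
    (hNMT : NotMultTypeWStatement) (hNE : NonEisWStatement) : OrdCaseGoodStatement :=
  ordCaseGood_of_irr hF (elocOrdGoodIrr_of_line hline) hNMT hNE

end Fermat.Agent.Ribet.H375

end
-- ===== PACK-END Ribet/H375/ELOCOrd.lean

-- ===== PACK-BEGIN Ribet/H343/DetCyc.lean
section











/-!
# RIBET, piece DETF/NMT core (helper343): `det ρ_{E,p} = cyclotomic` for the Frey curve

No Weil pairing.  For the Frey curve `E` of a Frey package `P` and `p = P.p`:

* `frey_det_eq_cycloPow`: `det (σ | E[p]) = χ_p(σ)` for every `σ ∈ G_ℚ`, where `χ_p` is the mod-`p`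
  cyclotomic character (`Fermat.Agent.S55.H414.cycloPow`);
* `frey_det_eq_of_apply_root`: if `σ ζ = ζ ^ c` for all `p`-th roots of unity `ζ`, then
  `det (σ | E[p]) = c`.

Route: `Lib/Cheb` Tier 1 (Frobenius division) + `Lib/Frob` (Frobenius relation
`τ² - a_ℓ τ + ℓ = 0` on `E[p]` at good `ℓ ≥ 5`) + Cayley–Hamilton in dimension two for the
non-scalar elements; a non-scalar element exists for every Frey package (otherwise `S13` gives a
cofixed line, hence trivial action, excluded by `T7`); the determinant character and the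
cyclotomic character agree on the non-scalar elements, hence everywhere.
-/

set_option autoImplicit false
set_option linter.style.haveILetI false

open WeierstrassCurve WeierstrassCurve.Affine WeierstrassCurve.Affine.Point

namespace Fermat.Agent.Ribet.H343

/-- `ℚ̄`. -/
abbrev Qb : Type := AlgebraicClosure ℚ

/-- `Gal(ℚ̄/ℚ)`. -/
abbrev GQ : Type := Qb ≃ₐ[ℚ] Qb

/-- `E[p](ℚ̄)` of the Frey curve. -/
abbrev Vp (P : FreyPackage) : Type :=
  Submodule.torsionBy ℤ (P.freyCurve⁄Qb).Point P.p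

/-- The mod-`p` representation of the Frey curve, with values in `End`. -/
noncomputable abbrev rho (P : FreyPackage) : GQ →* Module.End (ZMod P.p) (Vp P) :=
  galoisRepModuleEnd (S := ℚ) (K := Qb) P.freyCurve P.p

theorem rho_apply (P : FreyPackage) (σ : GQ) (x : Vp P) : rho P σ x = σ • x := rfl

instance instNeZeroFreyP (P : FreyPackage) : NeZero P.p := ⟨P.hp0⟩

theorem isElliptic_frey (P : FreyPackage) : (P.freyCurve⁄Qb).IsElliptic := by
  constructor
  rw [isUnit_iff_ne_zero]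
  exact Fermat.Agent.S13.H164.frey_baseChange_Δ_ne_zero P

theorem finrank_Vp (P : FreyPackage) : Module.finrank (ZMod P.p) (Vp P) = 2 := by
  haveI : Fact P.p.Prime := ⟨P.pp⟩
  haveI := isElliptic_frey P
  exact Fermat.Agent.S41.H701.finrank_torsion_eq_two_h701 (K := Qb) P.freyCurve P.p

theorem finite_Vp (P : FreyPackage) : Finite (Vp P) := by
  haveI := isElliptic_frey P
  exact Fermat.Agent.S41.H701.finite_torsion_prelude_h701 (K := Qb) P.freyCurve P.p
    P.pp.one_le

/-! ### The Frobenius relation on `E[p]` -/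

/-- The landed Frobenius relation (`Lib/Frob`). -/
theorem frobRelation_main : Fermat.Agent.Lib.Frob.FrobRelation :=
  Fermat.Agent.Lib.Frob.frobRelation_of_parts Fermat.Agent.Lib.Frob.frobRelationFin
    Fermat.Agent.Lib.Frob.reductionData

/-- Transport of the Frobenius relation to a curve over `ℚ` equal to the base change of an
integral model. -/
theorem frob_rel_of_eq_map (W : WeierstrassCurve ℤ) (E : WeierstrassCurve ℚ)
    (hE : E = W.map (Int.castRingHom ℚ)) (ℓ : ℕ) (hℓ : ℓ.Prime) (h5 : 5 ≤ ℓ)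
    (hgood : W.IsGoodPrimeFor ℓ) (A : ValuationSubring Qb) (τ : GQ) (hA : A.LiesOverPrime ℓ)
    (hτ : A.IsFrobeniusAt τ ℓ) (n : ℕ) (hn : 0 < n) (hℓn : ¬ ℓ ∣ n) (Q : (E⁄Qb).Point)
    (hQ : n • Q = 0) :
    τ • τ • Q - W.apOfModel ℓ • τ • Q + (ℓ : ℤ) • Q = 0 := by
  subst hE
  exact frobRelation_main W ℓ hℓ h5 hgood A τ hA hτ n hn hℓn Q hQ

theorem freyCurveInt_Δ_ne_zero (P : FreyPackage) : P.freyCurveInt.Δ ≠ 0 := by
  intro h
  have h1 := Fermat.Agent.S13.H164.freyCurve_Δ_ne_zero P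
  rw [Fermat.Agent.S13.H164.freyCurve_eq_map, WeierstrassCurve.map_Δ, h] at h1
  exact h1 (map_zero _)

/-- The Frobenius relation on `E[p]` of the Frey curve, pointwise. -/
theorem frey_frob_rel (P : FreyPackage) (ℓ : ℕ) (hℓ : ℓ.Prime) (h5 : 5 ≤ ℓ)
    (hgood : P.freyCurveInt.IsGoodPrimeFor ℓ) (hℓp : ℓ ≠ P.p)
    (A : ValuationSubring Qb) (τ : GQ) (hA : A.LiesOverPrime ℓ) (hτ : A.IsFrobeniusAt τ ℓ)
    (x : Vp P) :
    τ • τ • x - P.freyCurveInt.apOfModel ℓ • τ • x + (ℓ : ℤ) • x = 0 := by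
  have hx : P.p • (x : (P.freyCurve⁄Qb).Point) = 0 := by
    have := x.2
    rw [Submodule.mem_torsionBy_iff] at this
    rw [← this]
    exact (natCast_zsmul _ _).symm
  have hℓn : ¬ ℓ ∣ P.p := fun h => hℓp ((Nat.prime_dvd_prime_iff_eq hℓ P.pp).1 h)
  have key := frob_rel_of_eq_map P.freyCurveInt P.freyCurve
    (Fermat.Agent.S13.H164.freyCurve_eq_map P) ℓ hℓ h5 hgood A τ hA hτ P.p P.hppos hℓn
    (x : (P.freyCurve⁄Qb).Point) hx
  apply Subtype.ext
  exact key

/-- The Frobenius relation on `E[p]` of the Frey curve, in `End (E[p])`. -/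
theorem frey_frob_rel_end (P : FreyPackage) (ℓ : ℕ) (hℓ : ℓ.Prime) (h5 : 5 ≤ ℓ)
    (hgood : P.freyCurveInt.IsGoodPrimeFor ℓ) (hℓp : ℓ ≠ P.p)
    (A : ValuationSubring Qb) (τ : GQ) (hA : A.LiesOverPrime ℓ) (hτ : A.IsFrobeniusAt τ ℓ) :
    rho P τ * rho P τ - ((P.freyCurveInt.apOfModel ℓ : ℤ) : ZMod P.p) • rho P τ
      + ((ℓ : ℕ) : ZMod P.p) • (1 : Module.End (ZMod P.p) (Vp P)) = 0 := by
  apply LinearMap.ext
  intro x
  have key := frey_frob_rel P ℓ hℓ h5 hgood hℓp A τ hA hτ x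
  simp only [LinearMap.add_apply, LinearMap.sub_apply, Module.End.mul_apply, LinearMap.smul_apply,
    Module.End.one_apply, rho_apply, LinearMap.zero_apply]
  rw [Int.cast_smul_eq_zsmul, Nat.cast_smul_eq_nsmul]
  rw [← key, natCast_zsmul]

/-! ### Determinant and cyclotomic character at a good Frobenius -/

/-- `IsScalar f`: the endomorphism `f` is a scalar. -/
def IsScalarEnd (P : FreyPackage) (f : Module.End (ZMod P.p) (Vp P)) : Prop :=
  ∃ c : ZMod P.p, f = c • (1 : Module.End (ZMod P.p) (Vp P))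

/-- A non-scalar Frobenius at a good prime `ℓ ≥ 5`, `ℓ ≠ p`, has determinant `ℓ`. -/
theorem det_rho_frob (P : FreyPackage) (ℓ : ℕ) (hℓ : ℓ.Prime) (h5 : 5 ≤ ℓ)
    (hgood : P.freyCurveInt.IsGoodPrimeFor ℓ) (hℓp : ℓ ≠ P.p)
    (A : ValuationSubring Qb) (τ : GQ) (hA : A.LiesOverPrime ℓ) (hτ : A.IsFrobeniusAt τ ℓ)
    (hns : ¬ IsScalarEnd P (rho P τ)) :
    LinearMap.det (rho P τ) = ((ℓ : ℕ) : ZMod P.p) := by
  haveI : Fact P.p.Prime := ⟨P.pp⟩
  exact Fermat.Agent.S41.H701.det_eq_of_quadratic_h701 (finrank_Vp P) (rho P τ) _ _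
    (frey_frob_rel_end P ℓ hℓ h5 hgood hℓp A τ hA hτ) (fun s hs => hns ⟨s, hs⟩)

/-- The mod-`p` cyclotomic character. -/
noncomputable abbrev chi (P : FreyPackage) : GQ →* (ZMod P.p)ˣ :=
  Fermat.Agent.S55.H414.cycloPow P.p

/-- A Frobenius at `ℓ ≠ p` has cyclotomic character `ℓ`. -/
theorem chi_frob (P : FreyPackage) (ℓ : ℕ) (hℓ : ℓ.Prime) (hℓp : ℓ ≠ P.p)
    (A : ValuationSubring Qb) (τ : GQ) (hA : A.LiesOverPrime ℓ) (hτ : A.IsFrobeniusAt τ ℓ) :
    ((chi P τ : (ZMod P.p)ˣ) : ZMod P.p) = ((ℓ : ℕ) : ZMod P.p) := by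
  have hNv : A.valuation ((P.p : ℕ) : Qb) = 1 :=
    Fermat.Agent.S55.Bridge.val_prime_eq_one (A := A) hA hℓ P.pp hℓp
  have hζ : τ (Fermat.Agent.S55.H414.zetaBar P.p) = Fermat.Agent.S55.H414.zetaBar P.p ^ ℓ :=
    Fermat.Agent.S55.H414.IsFrobeniusAt_apply_root hτ P.hp0 hNv
      (Fermat.Agent.S55.H414.zetaBar_spec P.p).pow_eq_one
  exact Fermat.Agent.S55.H414.coe_cycloPow_of_apply_eq_pow P.p τ ℓ hζ

/-- If `σ ζ = ζ ^ c` for all `p`-th roots of unity then `χ(σ) = c`. -/
theorem chi_eq_of_apply_root (P : FreyPackage) (σ : GQ) (c : ℕ)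
    (h : ∀ ζ : Qb, ζ ^ P.p = 1 → σ ζ = ζ ^ c) :
    ((chi P σ : (ZMod P.p)ˣ) : ZMod P.p) = (c : ZMod P.p) :=
  Fermat.Agent.S55.H414.coe_cycloPow_of_apply_eq_pow P.p σ c
    (h _ (Fermat.Agent.S55.H414.zetaBar_spec P.p).pow_eq_one)

/-- `σ ζ = ζ ^ χ(σ)` for every `p`-th root of unity `ζ`. -/
theorem apply_root_eq_pow_chi (P : FreyPackage) (σ : GQ) (ζ : Qb) (hζ : ζ ^ P.p = 1) :
    σ ζ = ζ ^ ((chi P σ : (ZMod P.p)ˣ) : ZMod P.p).val := by
  obtain ⟨i, -, rfl⟩ := (Fermat.Agent.S55.H414.zetaBar_spec P.p).eq_pow_of_pow_eq_one hζ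
  rw [map_pow, Fermat.Agent.S55.H414.cycloPow_spec, ← pow_mul, ← pow_mul, mul_comm]

/-! ### A finite extension through which `ρ` and `χ` factor -/

theorem exists_field_rho_chi (P : FreyPackage) :
    ∃ E : IntermediateField ℚ Qb, FiniteDimensional ℚ E ∧
      ∀ σ₁ σ₂ : GQ, (∀ x ∈ E, σ₁ x = σ₂ x) → rho P σ₁ = rho P σ₂ ∧ chi P σ₁ = chi P σ₂ := by
  classical
  obtain ⟨s, hs⟩ := Fermat.Agent.S13.Skel.exists_finset_fix P (finite_Vp P)
  let T : Set Qb := (↑(insert (Fermat.Agent.S55.H414.zetaBar P.p) s) : Set Qb)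
  haveI : Algebra.IsAlgebraic ℚ Qb := AlgebraicClosure.isAlgebraic ℚ
  haveI : Algebra.IsIntegral ℚ Qb := Algebra.IsAlgebraic.isIntegral
  refine ⟨IntermediateField.adjoin ℚ T, ?_, ?_⟩
  · exact IntermediateField.finiteDimensional_adjoin (fun x _ => Algebra.IsIntegral.isIntegral x)
  · intro σ₁ σ₂ h
    have hfix : ∀ x ∈ T, (σ₂⁻¹ * σ₁) x = x := by
      intro x hx
      have h1 := h x (IntermediateField.subset_adjoin ℚ T hx)
      rw [AlgEquiv.mul_apply, h1]
      exact σ₂.symm_apply_apply x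
    have hV : ∀ v : Vp P, (σ₂⁻¹ * σ₁) • v = v :=
      hs _ (fun x hx => hfix x (by
        show x ∈ (↑(insert (Fermat.Agent.S55.H414.zetaBar P.p) s) : Set Qb)
        exact Finset.mem_coe.2 (Finset.mem_insert_of_mem hx)))
    have hζ : (σ₂⁻¹ * σ₁) (Fermat.Agent.S55.H414.zetaBar P.p)
        = Fermat.Agent.S55.H414.zetaBar P.p :=
      hfix _ (by
        show _ ∈ (↑(insert (Fermat.Agent.S55.H414.zetaBar P.p) s) : Set Qb)
        exact Finset.mem_coe.2 (Finset.mem_insert_self _ _))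
    constructor
    · apply LinearMap.ext
      intro v
      rw [rho_apply, rho_apply]
      have h2 : σ₂ • ((σ₂⁻¹ * σ₁) • v) = σ₂ • v := by rw [hV v]
      rw [← h2, mul_smul, smul_inv_smul]
    · have h1 : chi P (σ₂⁻¹ * σ₁) = 1 := by
        rw [Fermat.Agent.S55.H414.cycloPow_eq_iff]
        rw [hζ]
        have : ((1 : (ZMod P.p)ˣ) : ZMod P.p).val = 1 := by
          rw [Units.val_one]
          haveI : Fact (1 < P.p) := ⟨P.pp.one_lt⟩
          exact ZMod.val_one P.p
        rw [this, pow_one]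
      rw [map_mul, map_inv, inv_mul_eq_one] at h1
      exact h1.symm

/-! ### A non-scalar element exists -/

theorem nontrivial_Vp (P : FreyPackage) : Nontrivial (Vp P) := by
  haveI : Fact P.p.Prime := ⟨P.pp⟩
  apply Module.nontrivial_of_finrank_pos (R := ZMod P.p)
  rw [finrank_Vp P]
  norm_num

/-- **NONSC**: the image of `ρ_{E,p}` for a Frey curve contains a non-scalar element. -/
theorem exists_not_isScalarEnd (P : FreyPackage) : ∃ σ₀ : GQ, ¬ IsScalarEnd P (rho P σ₀) := by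
  haveI : Fact P.p.Prime := ⟨P.pp⟩
  haveI := nontrivial_Vp P
  haveI := finite_Vp P
  haveI : Module.Finite (ZMod P.p) (Vp P) := Module.Finite.of_finite
  by_contra hcon
  push Not at hcon
  obtain ⟨v, hv⟩ := exists_ne (0 : Vp P)
  -- the line spanned by `v` is stable
  have hstable : IsGaloisStable (K := Qb) ℚ (Submodule.span (ZMod P.p) {v}) := by
    intro σ x hx
    obtain ⟨c, hc⟩ := hcon σ
    have : σ • x = c • x := by
      rw [← rho_apply, hc]
      rfl
    rw [this]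
    exact Submodule.smul_mem _ _ hx
  have hbot : Submodule.span (ZMod P.p) {v} ≠ ⊥ := by
    intro h
    exact hv ((Submodule.span_singleton_eq_bot).1 h)
  have htop : Submodule.span (ZMod P.p) {v} ≠ ⊤ := by
    intro h
    have h1 : Module.finrank (ZMod P.p) (Submodule.span (ZMod P.p) {v}) = 1 :=
      finrank_span_singleton hv
    rw [h, finrank_top, finrank_Vp P] at h1
    norm_num at h1
  have hred : ¬ GaloisRepIsIrreducible (K := Qb) ℚ P.freyCurve P.p := by
    rintro ⟨-, hirr⟩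
    rcases hirr _ hstable with h | h
    · exact hbot h
    · exact htop h
  obtain ⟨N, -, -, hNtop, hcof⟩ := Fermat.Agent.S13.result P hred
  obtain ⟨x, hx⟩ : ∃ x : Vp P, x ∉ N := by
    by_contra hall
    push Not at hall
    exact hNtop ((Submodule.eq_top_iff').2 hall)
  have htriv : ∀ σ : GQ, ∀ y : Vp P, σ • y = y := by
    intro σ y
    obtain ⟨c, hc⟩ := hcon σ
    have hact : ∀ z : Vp P, σ • z = c • z := by
      intro z
      rw [← rho_apply, hc]
      rfl
    have hc1 : c = 1 := by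
      by_contra hne
      have h1 := hcof σ x
      rw [hact x] at h1
      have h2 : c • x - x = (c - 1) • x := by rw [sub_smul, one_smul]
      rw [h2] at h1
      have h3 : (c - 1)⁻¹ • ((c - 1) • x) ∈ N := Submodule.smul_mem _ _ h1
      rw [smul_smul, inv_mul_cancel₀ (sub_ne_zero.2 hne), one_smul] at h3
      exact hx h3
    rw [hact y, hc1, one_smul]
  exact hv (Fermat.Agent.S13.H13.frey_T7 P v (fun σ => htriv σ v))

/-! ### `det ρ = χ` -/

theorem isUnit_of_isScalarEnd_rho (P : FreyPackage) (σ : GQ) (c : ZMod P.p)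
    (hc : rho P σ = c • (1 : Module.End (ZMod P.p) (Vp P))) : c ≠ 0 := by
  haveI := nontrivial_Vp P
  intro h0
  have h1 : rho P σ * rho P σ⁻¹ = 1 := by
    rw [← map_mul, mul_inv_cancel, map_one]
  rw [hc, h0, zero_smul, zero_mul] at h1
  exact zero_ne_one h1

/-- `det ρ(σ) = χ(σ)` when `ρ(σ)` is not a scalar. -/
theorem det_eq_chi_of_not_scalar (P : FreyPackage) (σ : GQ)
    (hns : ¬ IsScalarEnd P (rho P σ)) :
    LinearMap.det (rho P σ) = ((chi P σ : (ZMod P.p)ˣ) : ZMod P.p) := by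
  classical
  obtain ⟨E, hE, hfac⟩ := exists_field_rho_chi P
  obtain ⟨ℓ, A, τ, k, j, hℓ, hℓS, hA, hτ, -, -, hj⟩ :=
    Fermat.Agent.Lib.Cheb.frobeniusDivision E hE σ
      (insert 2 (insert 3 (insert P.p P.freyCurveInt.Δ.natAbs.primeFactors)))
  simp only [Finset.mem_insert, not_or] at hℓS
  obtain ⟨hℓ2, hℓ3, hℓp, hℓΔ⟩ := hℓS
  have h5 : 5 ≤ ℓ := by
    have h2 := hℓ.two_le
    by_contra hlt
    push Not at hlt
    have h4 : ℓ ≠ 4 := by
      rintro rfl
      exact absurd hℓ (by norm_num)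
    omega
  have hgood : P.freyCurveInt.IsGoodPrimeFor ℓ := by
    intro hdvd
    apply hℓΔ
    rw [Nat.mem_primeFactors]
    refine ⟨hℓ, Int.natCast_dvd.1 hdvd, ?_⟩
    exact Int.natAbs_ne_zero.2 (freyCurveInt_Δ_ne_zero P)
  obtain ⟨hρ, hχ⟩ := hfac (τ ^ j) σ hj
  have hρ' : rho P σ = rho P τ ^ j := by rw [← hρ, map_pow]
  have hχ' : chi P σ = chi P τ ^ j := by rw [← hχ, map_pow]
  have hnsτ : ¬ IsScalarEnd P (rho P τ) := by
    rintro ⟨c, hc⟩
    apply hns
    refine ⟨c ^ j, ?_⟩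
    rw [hρ', hc, smul_pow, one_pow]
  have hdet := det_rho_frob P ℓ hℓ h5 hgood hℓp A τ hA hτ hnsτ
  have hchi := chi_frob P ℓ hℓ hℓp A τ hA hτ
  rw [hρ', hχ', map_pow, hdet, Units.val_pow_eq_pow_val, hchi]

/-- **`det ρ_{E,p} = χ_p`** for the Frey curve (no Weil pairing). -/
theorem frey_det_eq_chi (P : FreyPackage) (σ : GQ) :
    LinearMap.det (rho P σ) = ((chi P σ : (ZMod P.p)ˣ) : ZMod P.p) := by
  haveI : Fact P.p.Prime := ⟨P.pp⟩
  by_cases hs : IsScalarEnd P (rho P σ)
  · obtain ⟨σ₀, hσ₀⟩ := exists_not_isScalarEnd P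
    obtain ⟨c, hc⟩ := hs
    have hc0 := isUnit_of_isScalarEnd_rho P σ c hc
    have hns : ¬ IsScalarEnd P (rho P (σ * σ₀)) := by
      rintro ⟨d, hd⟩
      apply hσ₀
      refine ⟨c⁻¹ * d, ?_⟩
      rw [map_mul, hc, smul_mul_assoc, one_mul] at hd
      rw [mul_smul, ← hd, smul_smul, inv_mul_cancel₀ hc0, one_smul]
    have h1 := det_eq_chi_of_not_scalar P (σ * σ₀) hns
    have h2 := det_eq_chi_of_not_scalar P σ₀ hσ₀
    rw [map_mul, map_mul, map_mul, Units.val_mul, h2] at h1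
    exact mul_right_cancel₀ (Units.ne_zero _) h1
  · exact det_eq_chi_of_not_scalar P σ hs

/-- If `σ ζ = ζ ^ c` for every `p`-th root of unity `ζ`, then `det (σ | E[p]) = c`. -/
theorem frey_det_eq_of_apply_root (P : FreyPackage) (σ : GQ) (c : ℕ)
    (h : ∀ ζ : Qb, ζ ^ P.p = 1 → σ ζ = ζ ^ c) :
    LinearMap.det (rho P σ) = (c : ZMod P.p) := by
  rw [frey_det_eq_chi, chi_eq_of_apply_root P σ c h]

end Fermat.Agent.Ribet.H343

end
-- ===== PACK-END Ribet/H343/DetCyc.lean

-- ===== PACK-BEGIN S29/H882/MeroMain.lean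
section




/-!
# S29 / MERO (helper882), part 3: good functions have `q`-expansions in the function field

Main result `qexpFun_mem_FC`: for `f` holomorphic on `ℍ`, `Γ₀(N)`-invariant, with all
`SL₂(ℤ)`-translates of at most exponential growth at `i∞` (i.e. `f ∈ S24.H648.goodRing N`), the
`q`-expansion of `f` lies in `laurentBaseChange ℂ (modularFunctionFieldFull N)`, the function field
of `X₀(N)` over `ℂ` of the Prelude.

Proof: the field `MC N` generated by all such `q`-expansions has degree `≤ [SL₂(ℤ):Γ₀(N)]` over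
`ℂ(j)` (conjugate product, landed S24), and contains `FC N`, which has degree `≥ [SL₂(ℤ):Γ₀(N)]`
(landed S24 over `ℚ̄`, transported to `ℂ` by descent of relations).
-/

set_option autoImplicit false

noncomputable section

open UpperHalfPlane ModularGroup CongruenceSubgroup Polynomial ModularCurve IntermediateField
open scoped MatrixGroups Manifold Modular Real

namespace Fermat.Agent.S29.H882

open Fermat.Agent.S24 Fermat.Agent.S24.H648 Fermat.Agent.S24.H708 Fermat.Agent.S24.Deg457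

section BaseChange

variable {K L : Type*} [Field K] [Algebra ℚ K] [Field L] [Algebra ℚ L]

/-- `coeffMap ι` maps the function field over `K` into the function field over `L`. -/
theorem coeffMap_mem_laurentBaseChange_of_mem (ι : K →+* L)
    (F₀ : IntermediateField ℚ (LaurentSeries ℚ)) {x : LaurentSeries K}
    (hx : x ∈ laurentBaseChange K F₀) : coeffMap ι x ∈ laurentBaseChange L F₀ := by
  rw [mem_laurentBaseChange_iff] at hx
  induction hx using Subfield.closure_induction with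
  | mem y hy =>
      rcases hy with ⟨a, rfl⟩ | ⟨z, hz, rfl⟩
      · rw [coeffMap_algebraMap']
        exact (laurentBaseChange L F₀).algebraMap_mem _
      · rw [coeffMap_coeffEmb']
        exact coeffEmb_mem_laurentBaseChange L hz
  | one => simp
  | add x y _ _ hx hy => simpa using add_mem hx hy
  | neg x _ hx => simpa using neg_mem hx
  | inv x _ hx => simpa using inv_mem hx
  | mul x y _ _ hx hy => simpa using mul_mem hx hy

end BaseChange

variable (N : ℕ) [NeZero N]

/-- The function field of `X₀(N)` over `ℂ` (Prelude object). -/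
abbrev FC : IntermediateField ℂ (LaurentSeries ℂ) :=
  laurentBaseChange ℂ (modularFunctionFieldFull N)

/-- The field generated by the `q`-expansions of good functions. -/
def MC : IntermediateField ℂ (LaurentSeries ℂ) :=
  IntermediateField.adjoin ℂ (goodQ N : Set (LaurentSeries ℂ))

theorem goodQ_le_MC {b : LaurentSeries ℂ} (hb : b ∈ goodQ N) : b ∈ MC N :=
  IntermediateField.subset_adjoin ℂ _ hb

theorem JK_mem_FC : JK ℂ ∈ FC N :=
  coeffEmb_mem_laurentBaseChange ℂ (modularFunctionField_le_full N (jq_mem N))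

theorem FC_le_MC : FC N ≤ MC N := by
  refine (laurentBaseChange_full_le (K := ℂ) N).trans ?_
  refine IntermediateField.adjoin.mono ℂ _ _ ?_
  intro b hb
  exact AK_le_goodQ N (Algebra.subset_adjoin hb)

/-- `j` as an element of `MC N`. -/
def jM : MC N := ⟨JK ℂ, goodQ_le_MC N (JK_mem_goodQ N)⟩

theorem aeval_jM_ne_zero {t : ℂ[X]} (ht : t ≠ 0) :
    aeval (AdjoinSimple.gen ℂ (jM N)) t ≠ 0 := by
  intro h0
  apply aeval_JK_ne_zero ℂ ht
  have h1 := congrArg (algebraMap ↥(IntermediateField.adjoin ℂ {jM N}) (MC N)) h0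
  rw [← aeval_algebraMap_apply, map_zero, AdjoinSimple.algebraMap_gen] at h1
  have h2 := congrArg (algebraMap (MC N) (LaurentSeries ℂ)) h1
  rw [← aeval_algebraMap_apply, map_zero] at h2
  exact h2

theorem algebraMap_comp_aeval_jM :
    (algebraMap (MC N) (LaurentSeries ℂ)).comp
      ((aeval (jM N) : ℂ[X] →ₐ[ℂ] MC N).toRingHom) = evJ (JK ℂ) := by
  refine Polynomial.ringHom_ext ?_ ?_
  · intro c
    simp [evJ, ← IsScalarTower.algebraMap_apply]
  · simp [evJ]
    rfl

/-- **Degree bound**: `[MC N : ℂ(j)] ≤ [SL₂(ℤ) : Γ₀(N)]`. -/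
theorem finiteDimensional_and_finrank_le_MC :
    FiniteDimensional ↥(IntermediateField.adjoin ℂ {jM N}) (MC N) ∧
      Module.finrank ↥(IntermediateField.adjoin ℂ {jM N}) (MC N) ≤ Nat.card (XX N) := by
  refine finiteDimensional_and_finrank_le_of_forall_natDegree_minpoly_le _ fun x => ?_
  obtain ⟨Q, hQ0, hQn, hQ⟩ := algDeg_of_mem_adjoin (goodQ N) (JK_mem_goodQ N)
    (fun b hb => algDeg_of_mem_goodQ hb) x.2
  have hinc : Function.Injective (algebraMap (MC N) (LaurentSeries ℂ)) :=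
    (algebraMap (MC N) (LaurentSeries ℂ)).injective
  refine isIntegral_and_natDegree_le_of_relation (K := ℂ)
    (AdjoinSimple.gen ℂ (jM N)) (fun t ht => aeval_jM_ne_zero N ht) x Q hQ0 _ hQn ?_
  apply hinc
  rw [map_zero, Polynomial.hom_eval₂, AdjoinSimple.algebraMap_gen, algebraMap_comp_aeval_jM]
  exact hQ

end Fermat.Agent.S29.H882

end
end
-- ===== PACK-END S29/H882/MeroMain.lean

-- ===== PACK-BEGIN S18/H264/SepConcrete.lean
section






/-!
# S18 / G-SEP at the concrete objects (helper264)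

The field `separable` of `Alg.GoodModel` for the concrete objects of `Mod/Defs.lean`
(`Rc M A E`, `VcSet M A E`, coordinate `jOm M`), for every subring `V` with underlying set
`VcSet M A E` and every uniformiser `w` of `Rc M A E`.
-/

set_option autoImplicit false

noncomputable section

namespace Fermat.Agent.S18.H264

open ModularCurve AlgebraicCurve Polynomial Fermat.Agent.S18 Fermat.Agent.S18.Mod
open Fermat.Agent.S28

/-! ### (C1) the residue field of a valuation ring of `Q̄` over `ℓ` is algebraic over `𝔽_ℓ` -/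

section ResAlg

variable (A : ValuationSubring Qb) (ℓ : ℕ) [hℓ : Fact ℓ.Prime]
  [Algebra (ZMod ℓ) (IsLocalRing.ResidueField A)]

theorem isAlgebraic_residue_zmod (c : IsLocalRing.ResidueField A) : IsAlgebraic (ZMod ℓ) c := by
  obtain ⟨a, rfl⟩ := IsLocalRing.residue_surjective c
  have halgQ : IsAlgebraic ℚ (a : Qb) := (AlgebraicClosure.isAlgebraic ℚ).isAlgebraic _
  have halgZ : IsAlgebraic ℤ (a : Qb) := (IsFractionRing.isAlgebraic_iff ℤ ℚ Qb).mpr halgQ
  obtain ⟨p, hp0, hpa⟩ := halgZ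
  have hq0 : p.primPart ≠ 0 := primPart_ne_zero p
  have hqa : aeval (a : Qb) p.primPart = 0 := aeval_primPart_eq_zero hp0 hpa
  have hqA : Polynomial.eval₂ (Int.castRingHom A) a p.primPart = 0 := by
    apply Subtype.ext
    have h := Polynomial.hom_eval₂ p.primPart (Int.castRingHom A) A.subtype a
    rw [ZeroMemClass.coe_zero, ← hqa, aeval_def]
    have hc : (A.subtype).comp (Int.castRingHom A) = algebraMap ℤ Qb := RingHom.ext_int _ _
    rw [← hc]
    exact h
  refine ⟨p.primPart.map (Int.castRingHom (ZMod ℓ)), ?_, ?_⟩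
  · intro h0
    have hdvd : Polynomial.C (ℓ : ℤ) ∣ p.primPart := by
      rw [C_dvd_iff_dvd_coeff]
      intro i
      have := congrArg (fun r => r.coeff i) h0
      simp only [coeff_map, coeff_zero, eq_intCast] at this
      exact (ZMod.intCast_zmod_eq_zero_iff_dvd _ _).mp this
    have hu := (isPrimitive_iff_isUnit_of_C_dvd.mp (isPrimitive_primPart p)) _ hdvd
    have := Int.isUnit_iff.mp hu
    have h2 := hℓ.out.two_le
    omega
  · rw [aeval_def, Polynomial.eval₂_map]
    have hc : (algebraMap (ZMod ℓ) (IsLocalRing.ResidueField A)).comp (Int.castRingHom (ZMod ℓ)) =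
        (IsLocalRing.residue A).comp (Int.castRingHom A) := RingHom.ext_int _ _
    rw [hc, ← Polynomial.hom_eval₂, hqA, map_zero]

instance algebra_isAlgebraic_residue_zmod :
    Algebra.IsAlgebraic (ZMod ℓ) (IsLocalRing.ResidueField A) :=
  ⟨isAlgebraic_residue_zmod A ℓ⟩

end ResAlg

/-! ### (C2), (C3) the function field `F_k` is algebraic over `𝔽_ℓ(j̄)` -/

section FullAlg

variable {k : Type} [Field k] (ℓ : ℕ) [hℓ : Fact ℓ.Prime]

theorem evalAt_eq_eval₂RingHom {B : Type*} [CommRing B] (y : LaurentSeries B) :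
    evalAt y = Polynomial.eval₂RingHom (Int.castRingHom (LaurentSeries B)) y := by
  refine Polynomial.ringHom_ext (fun n => ?_) ?_
  · simp [evalAt]
  · simp [evalAt]

/-- Base change of the integrality equation of `j(q^d)` to `k((q))`. -/
theorem evalZZ_jd_eq_zero {N : ℕ} [NeZero N] (core : CoreData N k) (d : ℕ) [NeZero d]
    (hd : d ∣ N) :
    ∃ P : Polynomial (Polynomial ℤ), P.Monic ∧
      evalZZ (jqModC k) (qExpand k d (jqModC k)) P = 0 := by
  obtain ⟨P, hP, h0⟩ := core.integral d hd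
  refine ⟨P, hP, ?_⟩
  rw [evalAt_eq_eval₂RingHom, ← evalZZ_apply] at h0
  have h := map_evalZZ (coeffMap (Int.castRingHom k)) (jqModC ℤ) (qExpand ℤ d (jqModC ℤ)) P
  rw [h0, map_zero, coeffMap_qExpand, coeffMap_jqModC] at h
  exact h.symm

/-- `j(q^d)` is integral over `𝔽_ℓ(j̄)`. -/
theorem isIntegral_jd [Algebra (ZMod ℓ) (LaurentSeries k)] {N : ℕ} [NeZero N]
    (core : CoreData N k) (d : ℕ) [NeZero d] (hd : d ∣ N) :
    IsIntegral (IntermediateField.adjoin (ZMod ℓ) {jqModC k}) (qExpand k d (jqModC k)) := by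
  obtain ⟨P, hP, h0⟩ := evalZZ_jd_eq_zero core d hd
  set J := IntermediateField.adjoin (ZMod ℓ) {jqModC k} with hJ
  set ψ : Polynomial ℤ →+* J := Polynomial.eval₂RingHom (Int.castRingHom J)
    ⟨jqModC k, IntermediateField.mem_adjoin_simple_self _ _⟩ with hψ
  have hcomp : (algebraMap J (LaurentSeries k)).comp ψ =
      Polynomial.eval₂RingHom (Int.castRingHom (LaurentSeries k)) (jqModC k) := by
    refine Polynomial.ringHom_ext (fun n => ?_) ?_
    · simp [hψ]
    · simp [hψ]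
  refine ⟨P.map ψ, hP.map _, ?_⟩
  rw [Polynomial.eval₂_map, hcomp, ← evalZZ_apply]
  exact h0

/-- Every element of `F_k = k(j(q^d) : d ∣ N)` is algebraic over `𝔽_ℓ(j̄)`. -/
theorem isAlgebraic_of_mem_fullC [Algebra (ZMod ℓ) k] [Algebra.IsAlgebraic (ZMod ℓ) k]
    {N : ℕ} [NeZero N] (core : CoreData N k)
    {a : LaurentSeries k} (ha : a ∈ modularFunctionFieldFullC k N) :
    IsAlgebraic (IntermediateField.adjoin (ZMod ℓ) {jqModC k}) a := by
  set J := IntermediateField.adjoin (ZMod ℓ) {jqModC k} with hJ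
  rw [← mem_algebraicClosure_iff]
  have hle : (modularFunctionFieldFullC k N).toSubfield ≤ (algebraicClosure J (LaurentSeries k)).toSubfield := by
    rw [modularFunctionFieldFullC, IntermediateField.adjoin_toSubfield, Subfield.closure_le]
    rintro y (⟨c, rfl⟩ | ⟨d, hd0, hd, rfl⟩)
    · show algebraMap k (LaurentSeries k) c ∈ algebraicClosure J (LaurentSeries k)
      rw [mem_algebraicClosure_iff]
      obtain ⟨p, hp0, hpc⟩ := (Algebra.IsAlgebraic.isAlgebraic c : IsAlgebraic (ZMod ℓ) c)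
      refine ⟨p.map (algebraMap (ZMod ℓ) J), (Polynomial.map_ne_zero_iff
        (algebraMap (ZMod ℓ) J).injective).mpr hp0, ?_⟩
      rw [aeval_def, Polynomial.eval₂_map]
      have hc : (algebraMap J (LaurentSeries k)).comp (algebraMap (ZMod ℓ) J) =
          (algebraMap k (LaurentSeries k)).comp (algebraMap (ZMod ℓ) k) := RingHom.ext_zmod _ _
      rw [hc, ← Polynomial.hom_eval₂, ← aeval_def, hpc, map_zero]
    · show qExpand k d (jqModC k) ∈ algebraicClosure J (LaurentSeries k)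
      rw [mem_algebraicClosure_iff']
      have := hd0
      exact isIntegral_jd ℓ core d hd
  exact hle ha

end FullAlg

/-! ### (C4) the reduction relation on the Gauss valuation ring -/

section RedRel

variable (M : ℕ) (A : ValuationSubring Qb) (E : IntermediateField ℚ Qb)

/-- Reduction of series modulo the maximal ideal of `A`. -/
abbrev redS : LaurentSeries A →+* LaurentSeries (IsLocalRing.ResidueField A) :=
  coeffMap (IsLocalRing.residue A)

/-- Inclusion `A((q)) → Q̄((q))`. -/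
abbrev inclS : LaurentSeries A →+* LaurentSeries Qb := coeffMap A.subtype

/-- The coercion `Ω = F_M → Q̄((q))` as a ring homomorphism. -/
def omValH : Om M →+* LaurentSeries Qb := (modularFunctionFieldBar M).val.toRingHom

@[simp] theorem omValH_apply (f : Om M) : omValH M f = (f : LaurentSeries Qb) := rfl

/-- Series over `Q̄` all of whose coefficients lie in `E`. -/
def coeffsInE : Subring (LaurentSeries Qb) where
  carrier := {U | ∀ n : ℤ, U.coeff n ∈ E}
  zero_mem' := fun n => by simp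
  one_mem' := fun n => by
    rw [HahnSeries.coeff_one]
    split_ifs
    · exact one_mem _
    · exact zero_mem _
  add_mem' := fun {a b} ha hb n => by
    rw [HahnSeries.coeff_add]
    exact add_mem (ha n) (hb n)
  neg_mem' := fun {a} ha n => by
    rw [HahnSeries.coeff_neg]
    exact neg_mem (ha n)
  mul_mem' := fun {a b} ha hb n => by
    rw [HahnSeries.coeff_mul]
    exact sum_mem fun ij _ => mul_mem (ha _) (hb _)

/-- The subring of `A((q))` cut out by `IsIntE`. -/
def intESub : Subring (LaurentSeries A) :=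
  (coeffsInE E).comap (inclS A) ⊓ ((Fc M E).toSubring.map (omValH M)).comap (inclS A)

theorem mem_intESub {U : LaurentSeries A} : U ∈ intESub M A E ↔ IsIntE M A E U := by
  constructor
  · rintro ⟨h1, f, hf, hfU⟩
    exact ⟨fun n => h1 n, f, hf, hfU⟩
  · rintro ⟨h1, f, hf, hfU⟩
    exact ⟨fun n => h1 n, f, hf, hfU⟩

/-- The reduction relation: `(g, ḡ) ∈ redRel` iff `g = U₁/U₂` and `ḡ = Ū₁/Ū₂` for `E`-rational
integral series `U₁, U₂` in `Fc` with `Ū₂ ≠ 0`. -/
def redRel : Subring (Om M × LaurentSeries (IsLocalRing.ResidueField A)) where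
  carrier := {z | z.1 ∈ Fc M E ∧ ∃ U₁ U₂ : LaurentSeries A, U₁ ∈ intESub M A E ∧
    U₂ ∈ intESub M A E ∧ redS A U₂ ≠ 0 ∧
    (z.1 : LaurentSeries Qb) * inclS A U₂ = inclS A U₁ ∧ z.2 * redS A U₂ = redS A U₁}
  zero_mem' := by
    refine ⟨zero_mem _, 0, 1, zero_mem _, one_mem _, ?_, ?_, ?_⟩
    · rw [map_one]; exact one_ne_zero
    · simp
    · simp
  one_mem' := by
    refine ⟨one_mem _, 1, 1, one_mem _, one_mem _, ?_, ?_, ?_⟩
    · rw [map_one]; exact one_ne_zero
    · simp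
    · simp
  add_mem' := by
    rintro ⟨f, a⟩ ⟨g, b⟩ ⟨hf, U₁, U₂, h₁, h₂, hne, heq, hred⟩ ⟨hg, W₁, W₂, k₁, k₂, kne, keq, kred⟩
    refine ⟨add_mem hf hg, U₁ * W₂ + W₁ * U₂, U₂ * W₂, add_mem (mul_mem h₁ k₂) (mul_mem k₁ h₂),
      mul_mem h₂ k₂, ?_, ?_, ?_⟩
    · rw [map_mul]; exact mul_ne_zero hne kne
    · simp only [Prod.fst_add] at heq keq ⊢
      push_cast
      rw [map_add, map_mul, map_mul, map_mul, ← heq, ← keq]
      ring
    · simp only [Prod.snd_add] at hred kred ⊢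
      rw [map_add, map_mul, map_mul, map_mul, ← hred, ← kred]
      ring
  neg_mem' := by
    rintro ⟨f, a⟩ ⟨hf, U₁, U₂, h₁, h₂, hne, heq, hred⟩
    refine ⟨neg_mem hf, -U₁, U₂, neg_mem h₁, h₂, hne, ?_, ?_⟩
    · simp only [Prod.fst_neg] at heq ⊢
      push_cast
      rw [map_neg, ← heq]
      ring
    · simp only [Prod.snd_neg] at hred ⊢
      rw [map_neg, ← hred]
      ring
  mul_mem' := by
    rintro ⟨f, a⟩ ⟨g, b⟩ ⟨hf, U₁, U₂, h₁, h₂, hne, heq, hred⟩ ⟨hg, W₁, W₂, k₁, k₂, kne, keq, kred⟩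
    refine ⟨mul_mem hf hg, U₁ * W₁, U₂ * W₂, mul_mem h₁ k₁, mul_mem h₂ k₂, ?_, ?_, ?_⟩
    · rw [map_mul]; exact mul_ne_zero hne kne
    · simp only [Prod.fst_mul] at heq keq ⊢
      push_cast
      rw [map_mul, map_mul, ← heq, ← keq]
      ring
    · simp only [Prod.snd_mul] at hred kred ⊢
      rw [map_mul, map_mul, ← hred, ← kred]
      ring

theorem mem_redRel {g : Om M} {a : LaurentSeries (IsLocalRing.ResidueField A)} :
    (g, a) ∈ redRel M A E ↔ g ∈ Fc M E ∧ ∃ U₁ U₂ : LaurentSeries A, U₁ ∈ intESub M A E ∧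
      U₂ ∈ intESub M A E ∧ redS A U₂ ≠ 0 ∧
      (g : LaurentSeries Qb) * inclS A U₂ = inclS A U₁ ∧ a * redS A U₂ = redS A U₁ := Iff.rfl

/-- (R2) every element of the Gauss valuation ring has a reduction. -/
theorem exists_red_of_mem_VcSet {f : Om M} (hf : f ∈ VcSet M A E) :
    ∃ a, (f, a) ∈ redRel M A E := by
  obtain ⟨hfF, U₁, U₂, h₁, h₂, hne, heq⟩ := hf
  refine ⟨redS A U₁ * (redS A U₂)⁻¹, hfF, U₁, U₂, (mem_intESub M A E).mpr h₁,
    (mem_intESub M A E).mpr h₂, hne, heq, ?_⟩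
  rw [mul_assoc, inv_mul_cancel₀ hne, mul_one]

theorem mem_VcSet_of_mem_redRel {g : Om M} {a : LaurentSeries (IsLocalRing.ResidueField A)}
    (h : (g, a) ∈ redRel M A E) : g ∈ VcSet M A E := by
  obtain ⟨hgF, U₁, U₂, h₁, h₂, hne, heq, -⟩ := h
  exact ⟨hgF, U₁, U₂, (mem_intESub M A E).mp h₁, (mem_intESub M A E).mp h₂, hne, heq⟩

/-- (R4) an element with nonzero reduction is a unit of the Gauss valuation ring. -/
theorem inv_mem_VcSet_of_red_ne_zero {g : Om M}
    {a : LaurentSeries (IsLocalRing.ResidueField A)} (h : (g, a) ∈ redRel M A E) (ha : a ≠ 0) :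
    g ≠ 0 ∧ g⁻¹ ∈ VcSet M A E := by
  obtain ⟨hgF, U₁, U₂, h₁, h₂, hne, heq, hred⟩ := h
  have hne₁ : redS A U₁ ≠ 0 := by
    rw [← hred]
    exact mul_ne_zero ha hne
  have hg0 : g ≠ 0 := by
    rintro rfl
    apply hne₁
    have h0 : inclS A U₁ = 0 := by
      rw [← heq]
      simp
    have hU : U₁ = 0 := H516.incl_injective A (by rw [h0, map_zero])
    rw [hU, map_zero]
  refine ⟨hg0, inv_mem hgF, U₂, U₁, (mem_intESub M A E).mp h₂, (mem_intESub M A E).mp h₁,
    hne₁, ?_⟩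
  have hg0' : (g : LaurentSeries Qb) ≠ 0 := fun h => hg0 (Subtype.ext h)
  push_cast
  rw [← heq, ← mul_assoc, inv_mul_cancel₀ hg0', one_mul]

/-- (C5) reductions lie in the function field `F_k`. -/
theorem red_mem_fullC [NeZero M] (core : CoreData M (IsLocalRing.ResidueField A)) {g : Om M}
    {a : LaurentSeries (IsLocalRing.ResidueField A)} (h : (g, a) ∈ redRel M A E) :
    a ∈ modularFunctionFieldFullC (IsLocalRing.ResidueField A) M := by
  obtain ⟨-, U₁, U₂, h₁, h₂, hne, -, hred⟩ := h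
  have key : ∀ U : LaurentSeries A, U ∈ intESub M A E →
      redS A U ∈ modularFunctionFieldFullC (IsLocalRing.ResidueField A) M := by
    intro U hU
    obtain ⟨-, f, -, hfU⟩ := (mem_intESub M A E).mp hU
    refine H516.red_mem_of_incl_mem A (IsLocalRing.residue A) M core ?_
    rw [← hfU]
    exact f.2
  have ha : a = redS A U₁ * (redS A U₂)⁻¹ := by
    rw [← hred, mul_assoc, mul_inv_cancel₀ hne, mul_one]
  rw [ha]
  exact mul_mem (key U₁ h₁) (inv_mem (key U₂ h₂))

/-- (R5) the reduction of `j` is `j̄`. -/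
theorem jOm_mem_redRel : (jOm M, jqModC (IsLocalRing.ResidueField A)) ∈ redRel M A E := by
  have hjF : jOm M ∈ Fc M E :=
    Subfield.subset_closure (Set.mem_union_right _ ⟨1, inferInstance, one_dvd M, rfl⟩)
  have hjval : (jOm M : LaurentSeries Qb) = inclS A (jqModC A) := by
    show coeffEmb Qb (qExpand ℚ 1 jq) = coeffMap A.subtype (jqModC A)
    rw [qExpand_one_apply, H516.coeffEmb_jq, coeffMap_jqModC]
  have hjint : jqModC A ∈ intESub M A E := by
    refine ⟨fun n => ?_, jOm M, hjF, hjval⟩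
    show ((coeffMap A.subtype (jqModC A)).coeff n) ∈ E
    rw [coeffMap_jqModC, coeff_jqModC_eq_intCast]
    exact intCast_mem E _
  refine ⟨hjF, jqModC A, 1, hjint, one_mem _, ?_, ?_, ?_⟩
  · rw [map_one]; exact one_ne_zero
  · rw [map_one, mul_one, hjval]
  · rw [map_one, mul_one]
    exact (coeffMap_jqModC (IsLocalRing.residue A)).symm

/-- (R3) an element with zero reduction is divisible by the uniformiser `w`. -/
theorem mul_inv_mem_VcSet_of_red_eq_zero {w : Om M} (hw : w ∈ Rc M A E) (hw0 : w ≠ 0)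
    (hgen : ∀ r ∈ Rc M A E, r⁻¹ ∉ Rc M A E → r * w⁻¹ ∈ Rc M A E) {g : Om M}
    (h : (g, (0 : LaurentSeries (IsLocalRing.ResidueField A))) ∈ redRel M A E) :
    g * w⁻¹ ∈ VcSet M A E := by
  obtain ⟨hgF, U₁, U₂, h₁, h₂, hne, heq, hred⟩ := h
  simp only [zero_mul] at hred
  obtain ⟨aw, ⟨hawA, hawE⟩, rfl⟩ := hw
  have haw0 : aw ≠ 0 := by
    rintro rfl
    exact hw0 (map_zero _)
  obtain ⟨hU₁E, f₁, hf₁F, hf₁U⟩ := (mem_intESub M A E).mp h₁
  have hinj : Function.Injective (algebraMap Qb (Om M)) := (algebraMap Qb (Om M)).injective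
  -- every coefficient of `U₁` is divisible by `aw` in `A`
  have hdiv : ∀ n : ℤ, ((U₁.coeff n : A) : Qb) * aw⁻¹ ∈ A := by
    intro n
    by_cases hc0 : ((U₁.coeff n : A) : Qb) = 0
    · rw [hc0, zero_mul]
      exact zero_mem _
    have hcres : IsLocalRing.residue A (U₁.coeff n) = 0 := by
      have := congrArg (fun S : LaurentSeries (IsLocalRing.ResidueField A) => S.coeff n) hred
      simpa using this.symm
    have hr : algebraMap Qb (Om M) ((U₁.coeff n : A) : Qb) ∈ Rc M A E :=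
      ⟨_, ⟨(U₁.coeff n).2, hU₁E n⟩, rfl⟩
    have hrinv : (algebraMap Qb (Om M) ((U₁.coeff n : A) : Qb))⁻¹ ∉ Rc M A E := by
      rintro ⟨b, ⟨hbA, -⟩, hb⟩
      have hb' : b = ((U₁.coeff n : A) : Qb)⁻¹ := hinj (by rw [hb, map_inv₀])
      have hunit : IsUnit (U₁.coeff n) := by
        refine isUnit_iff_exists_inv.mpr ⟨⟨b, hbA⟩, Subtype.ext ?_⟩
        show ((U₁.coeff n : A) : Qb) * b = 1
        rw [hb', mul_inv_cancel₀ hc0]
      have hmem : U₁.coeff n ∈ IsLocalRing.maximalIdeal A :=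
        (IsLocalRing.residue_eq_zero_iff _).mp hcres
      exact (IsLocalRing.mem_maximalIdeal _).mp hmem hunit
    obtain ⟨b, ⟨hbA, -⟩, hb⟩ := hgen _ hr hrinv
    have hb' : b = ((U₁.coeff n : A) : Qb) * aw⁻¹ := hinj (by rw [hb, map_mul, map_inv₀])
    rw [← hb']
    exact hbA
  -- the divided series
  let U₁' : LaurentSeries A :=
    ⟨fun n => ⟨((U₁.coeff n : A) : Qb) * aw⁻¹, hdiv n⟩,
      U₁.isPWO_support.mono (fun n hn => by
        intro h0
        apply hn
        apply Subtype.ext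
        show ((U₁.coeff n : A) : Qb) * aw⁻¹ = 0
        rw [h0]
        simp)⟩
  have hwval : algebraMap Qb (LaurentSeries Qb) aw = HahnSeries.single 0 aw :=
    algebraMap_laurentSeries_eq_single Qb aw
  have hwcoe : ((algebraMap Qb (Om M) aw : Om M) : LaurentSeries Qb) =
      algebraMap Qb (LaurentSeries Qb) aw := rfl
  have hwne : algebraMap Qb (LaurentSeries Qb) aw ≠ 0 := by
    rw [← hwcoe]
    exact fun h => hw0 (Subtype.ext h)
  have hU' : inclS A U₁' * algebraMap Qb (LaurentSeries Qb) aw = inclS A U₁ := by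
    rw [hwval]
    ext n
    rw [HahnSeries.coeff_mul_single_zero]
    show ((U₁.coeff n : A) : Qb) * aw⁻¹ * aw = ((U₁.coeff n : A) : Qb)
    rw [mul_assoc, inv_mul_cancel₀ haw0, mul_one]
  have hU'' : inclS A U₁' = inclS A U₁ * (algebraMap Qb (LaurentSeries Qb) aw)⁻¹ := by
    rw [← hU', mul_assoc, mul_inv_cancel₀ hwne, mul_one]
  have hwF : algebraMap Qb (Om M) aw ∈ Fc M E :=
    Subfield.subset_closure (Set.mem_union_left _ ⟨aw, hawE, rfl⟩)
  have hU₁' : IsIntE M A E U₁' := by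
    refine ⟨fun n => ?_, f₁ * (algebraMap Qb (Om M) aw)⁻¹, mul_mem hf₁F (inv_mem hwF), ?_⟩
    · show ((U₁.coeff n : A) : Qb) * aw⁻¹ ∈ E
      exact mul_mem (hU₁E n) (inv_mem hawE)
    · show (f₁ : LaurentSeries Qb) *
        (((algebraMap Qb (Om M) aw : Om M) : LaurentSeries Qb))⁻¹ = inclS A U₁'
      rw [hwcoe, hf₁U, hU'']
  refine ⟨mul_mem hgF (inv_mem hwF), U₁', U₂, hU₁', (mem_intESub M A E).mp h₂, hne, ?_⟩
  show (g : LaurentSeries Qb) * (((algebraMap Qb (Om M) aw : Om M) : LaurentSeries Qb))⁻¹ *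
    inclS A U₂ = inclS A U₁'
  rw [hwcoe, hU'', ← heq]
  ring

end RedRel

/-! ### (C6) the field `separable` at the concrete objects -/

section Main

variable (M : ℕ) [NeZero M] {ℓ : ℕ} [hℓ : Fact ℓ.Prime]

/-- **G-SEP at the concrete objects, coordinate `j`.**  For every subring `V` with underlying
set `VcSet M A E` and every `w ∈ Rc M A E`, `w ≠ 0`, generating the maximal ideal of `Rc M A E`
(fields `w_mem`, `w_ne_zero`, `w_gen` of `PartR`): the field `separable` of `Alg.GoodModel`.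
No hypothesis on `E`.  The polynomial even has coefficients in `ℤ[j]`. -/
theorem separable_jOm (hℓM : ¬ ℓ ∣ M) (A : ValuationSubring Qb) (hA : A.LiesOverPrime ℓ)
    (E : IntermediateField ℚ Qb) (V : Subring (Om M)) (hV : (V : Set (Om M)) = VcSet M A E)
    (w : Om M) (hw : w ∈ Rc M A E) (hw0 : w ≠ 0)
    (hgen : ∀ r ∈ Rc M A E, r⁻¹ ∉ Rc M A E → r * w⁻¹ ∈ Rc M A E) :
    ∀ f ∈ V, ∃ P : Polynomial (Om M), (∀ i, P.coeff i ∈ Alg.polyRing (Rc M A E) (jOm M)) ∧
      P.eval f * w⁻¹ ∈ V ∧ (Polynomial.derivative P).eval f ≠ 0 ∧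
      ((Polynomial.derivative P).eval f)⁻¹ ∈ V := by
  intro f hf
  have hmemV : ∀ g : Om M, g ∈ V ↔ g ∈ VcSet M A E := fun g => by
    rw [← hV]
    rfl
  have hchar : CharP (IsLocalRing.ResidueField A) ℓ := H516.charP_residue A hA
  let _ : Algebra (ZMod ℓ) (IsLocalRing.ResidueField A) := ZMod.algebra _ ℓ
  have core := H516.coreData_residue M hℓM A hA
  obtain ⟨a, ha⟩ := exists_red_of_mem_VcSet M A E ((hmemV f).mp hf)
  have halg := isAlgebraic_of_mem_fullC ℓ core (red_mem_fullC M A E core ha)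
  have hv : HahnSeries.addVal ℤ (IsLocalRing.ResidueField A)
      (jqModC (IsLocalRing.ResidueField A)) = ((-1 : ℤ) : WithTop ℤ) := by
    rw [HahnSeries.addVal_apply_of_ne (jqModC_ne_zero_of_nontrivial _), order_jqModC]
  exact exists_poly_of_graph_sep ℓ (HahnSeries.addVal ℤ _) (redRel M A E) V (Rc M A E) w
    (jOm M) f (jqModC _) a (jOm_mem_redRel M A E) ha
    (fun g hg => (hmemV _).mpr (mul_inv_mem_VcSet_of_red_eq_zero M A E hw hw0 hgen hg))
    (fun g b hg hb => ⟨(inv_mem_VcSet_of_red_ne_zero M A E hg hb).1,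
      (hmemV _).mpr (inv_mem_VcSet_of_red_ne_zero M A E hg hb).2⟩)
    (-1) hv (not_prime_dvd_neg_one ℓ hℓ.out) halg

end Main

end Fermat.Agent.S18.H264

end
end
-- ===== PACK-END S18/H264/SepConcrete.lean

-- ===== PACK-BEGIN S18/H739/ModFinite.lean
section
/-
S18 helper (helper739), piece MOD.1 of squad S18/S05 (statement frozen in
`origin/helper5:Fermat/Agent/S18/Sq05/Spec.lean` as `ModFiniteStatement`):
`j` is transcendental over `k` and `k(j(q^d) : d ∣ N)` is finite over `k(j)`, for every field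
`k` in which the primes dividing `N` are invertible.  From landed S28: upper bound of helper626,
modular polynomials of helper807.
-/







set_option autoImplicit false

noncomputable section

open ModularCurve IntermediateField

namespace Fermat.Agent.S18.H739

open Fermat.Agent.S28

variable (k : Type*) [Field k]

/-- `j` is transcendental over `k` in `k((q))`. -/
theorem transcendental_jqModC : Transcendental k (jqModC k) :=
  (transcendental_iff_injective).mpr (h88_aeval_jqModC_injective k)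

/-- `j`, as an element of the function field, is transcendental over `k`. -/
theorem transcendental_jC (N : ℕ) :
    Transcendental k (⟨jqModC k, jqModC_mem_full k N⟩ : modularFunctionFieldFullC k N) := by
  intro h
  have h2 : IsAlgebraic k (algebraMap (modularFunctionFieldFullC k N) (LaurentSeries k)
      ⟨jqModC k, jqModC_mem_full k N⟩) := h.algebraMap
  exact transcendental_jqModC k h2

/-- The modular polynomials exist at every prime, so `HasModPolys` only needs invertibility. -/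
theorem hasModPolys_of_invertible (N : ℕ) (hchar : ∀ p : ℕ, p.Prime → p ∣ N → (p : k) ≠ 0) :
    H626.HasModPolys k N :=
  H867.hasModPolys k N (fun p hp _ _ => H807.nonempty_modPolyData p hp) hchar

/-- `k(j)`, inside the function field, is the preimage of `k(j) ⊂ k((q))`. -/
theorem adjoin_jC_eq_comap (N : ℕ) :
    k⟮(⟨jqModC k, jqModC_mem_full k N⟩ : modularFunctionFieldFullC k N)⟯ =
      (IntermediateField.adjoin k {jqModC k}).comap (modularFunctionFieldFullC k N).val := by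
  rw [← IntermediateField.comap_map (modularFunctionFieldFullC k N).val
    k⟮(⟨jqModC k, jqModC_mem_full k N⟩ : modularFunctionFieldFullC k N)⟯,
    IntermediateField.adjoin_map, Set.image_singleton]
  rfl

/-- **MOD.1**, finiteness part. -/
theorem finiteDimensional_adjoin_jC (N : ℕ) [NeZero N]
    (hchar : ∀ p : ℕ, p.Prime → p ∣ N → (p : k) ≠ 0) :
    FiniteDimensional k⟮(⟨jqModC k, jqModC_mem_full k N⟩ : modularFunctionFieldFullC k N)⟯
      (modularFunctionFieldFullC k N) := by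
  have H := hasModPolys_of_invertible k N hchar
  have h1 := H626.relrank_adjoin_j_full_le N H
  rw [adjoin_jC_eq_comap]
  have h2 : Module.rank
      ((IntermediateField.adjoin k {jqModC k}).comap (modularFunctionFieldFullC k N).val)
      (modularFunctionFieldFullC k N) < Cardinal.aleph0 := by
    rw [IntermediateField.rank_comap, IntermediateField.fieldRange_val]
    exact lt_of_le_of_lt h1 (Cardinal.natCast_lt_aleph0)
  exact IsNoetherian.iff_fg.1 (IsNoetherian.iff_rank_lt_aleph0.2 h2)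

/-- **MOD.1** (unfolded `Fermat.Agent.S18.Sq05.ModFiniteStatement`; `Sq05.jC k N` is by definition
`⟨jqModC k, jqModC_mem_full k N⟩`). -/
theorem modFinite :
    ∀ (k : Type) [Field k] (N : ℕ) [NeZero N], (∀ p : ℕ, p.Prime → p ∣ N → (p : k) ≠ 0) →
      Transcendental k (⟨jqModC k, jqModC_mem_full k N⟩ : modularFunctionFieldFullC k N) ∧
      FiniteDimensional k⟮(⟨jqModC k, jqModC_mem_full k N⟩ : modularFunctionFieldFullC k N)⟯
        (modularFunctionFieldFullC k N) :=
  fun k _ N _ hchar => ⟨transcendental_jC k N, finiteDimensional_adjoin_jC k N hchar⟩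

end Fermat.Agent.S18.H739

end

end
-- ===== PACK-END S18/H739/ModFinite.lean

-- ===== PACK-BEGIN S37/Red/H159/LiftNC.lean
section




/-!
# S37-RED, (H3) normality of the special fibre from (H1) + (NC)   (helper159, THEOREM M)

For a reduction datum `G : Red.Datum A π F Fk` (helper40's `Red/Spec.lean`) over algebraically
closed constants (`K` of characteristic `0`):

* `NoRamOutside G t S` : (NC) for the coordinate `t`: for every `c ∈ A \ S` the ideal
  `(t - c)` of the integral closure `K·B_t` of `K[t]` is radical (no ramification over `t = c`),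
  in elementwise form;
* `lift_of_NC` : (H1) for `t` + (NC) with `S` finite and injective mod `𝔪_A`  ⟹  (H3) for `t`;
* `lift_fin_of_NC`, `lift_inf_of_NC` : the fields `lift_fin`, `lift_inf` of `Datum.Good`;
* `good_of_NC` : `G.Good` from (H1) + (NC) on both charts.

No noetherian hypothesis, no descent to a DVR, no model over `ℤ_(ℓ)`.
-/

set_option autoImplicit false

namespace Fermat.Agent.S37.Red.H159

open AlgebraicCurve IntermediateField

universe u

variable {K k : Type u} [Field K] [Field k] {A : ValuationSubring K} {π : A →+* k}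
  {F Fk : Type u} [Field F] [Field Fk] [Algebra K F] [Algebra k Fk]

/-- **(NC)** for the coordinate `t`, outside `S`: if `f` and `f² / (t - c)` are integral over
`K[t]` then so is `f / (t - c)`  (`c ∈ A \ S`). -/
def NoRamOutside (G : Datum A π F Fk) (t : F) (S : Finset A) : Prop :=
  ∀ c : A, c ∉ S → ∀ f ∈ G.chartK t, f ^ 2 / (t - algebraMap K F (c : K)) ∈ G.chartK t →
    f / (t - algebraMap K F (c : K)) ∈ G.chartK t

variable [IsAlgClosed K] [CharZero K] [IsAlgClosed k]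

/-- **(H3) from (H1) + (NC)**, arbitrary coordinate. -/
theorem lift_of_NC (G : Datum A π F Fk) {t : F} (ht : t ∈ G.O)
    (htr : Transcendental k (G.ρ ⟨t, ht⟩))
    [FiniteDimensional K⟮t⟯ F] [FiniteDimensional k⟮G.ρ ⟨t, ht⟩⟯ Fk]
    [Algebra.IsSeparable k⟮G.ρ ⟨t, ht⟩⟯ Fk]
    (hfr : Module.finrank K⟮t⟯ F = Module.finrank k⟮G.ρ ⟨t, ht⟩⟯ Fk)
    (S : Finset A) (hS : Set.InjOn π (S : Set A)) (hNC : NoRamOutside G t S) :
    ∀ z ∈ G.chartk (G.ρ ⟨t, ht⟩), ∃ b ∈ G.chart t, ∃ hb : b ∈ G.O, G.ρ ⟨b, hb⟩ = z := by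
  intro z hz
  obtain ⟨b, hb, hbint, hbz⟩ :=
    Fermat.Agent.S37.H159.lift_integral_adjoin A π G.π_surj G.O G.ρ G.ρ_surj G.const_mem
      G.ρ_const t ht htr hfr S hS (fun c hc f hf hf2 => hNC c hc f hf hf2) z hz
  exact ⟨b, hbint, hb, hbz⟩

/-- **(H3) at the finite chart.** -/
theorem lift_fin_of_NC (G : Datum A π F Fk)
    [FiniteDimensional K⟮G.x⟯ F] [hk : FiniteDimensional k⟮G.xk⟯ Fk]
    [hs : Algebra.IsSeparable k⟮G.xk⟯ Fk]
    (hfr : Module.finrank K⟮G.x⟯ F = Module.finrank k⟮G.xk⟯ Fk)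
    (S : Finset A) (hS : Set.InjOn π (S : Set A)) (hNC : NoRamOutside G G.x S) :
    ∀ c ∈ G.chartk G.xk, ∃ b ∈ G.chart G.x, ∃ hb : b ∈ G.O, G.ρ ⟨b, hb⟩ = c := by
  have hk' : FiniteDimensional k⟮G.ρ ⟨G.x, G.x_mem⟩⟯ Fk := hk
  have hs' : Algebra.IsSeparable k⟮G.ρ ⟨G.x, G.x_mem⟩⟯ Fk := hs
  exact lift_of_NC G G.x_mem G.xk_transc hfr S hS hNC

/-- **(H3) at the chart at infinity.** -/
theorem lift_inf_of_NC (G : Datum A π F Fk)
    [hfin : FiniteDimensional K⟮G.x⟯ F] [hfink : FiniteDimensional k⟮G.xk⟯ Fk]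
    [hsep : Algebra.IsSeparable k⟮G.xk⟯ Fk]
    (hfr : Module.finrank K⟮G.x⟯ F = Module.finrank k⟮G.xk⟯ Fk)
    (S : Finset A) (hS : Set.InjOn π (S : Set A)) (hNC : NoRamOutside G G.x⁻¹ S) :
    ∀ c ∈ G.chartk G.xk⁻¹, ∃ b ∈ G.chart G.x⁻¹, ∃ hb : b ∈ G.O, G.ρ ⟨b, hb⟩ = c := by
  have hρ := Red.H217.ρ_x_inv G
  have htr : Transcendental k (G.ρ ⟨G.x⁻¹, Red.H217.x_inv_mem G⟩) := by
    rw [hρ]
    intro h
    apply G.xk_transc
    have := h.inv
    rwa [inv_inv] at this
  have : FiniteDimensional K⟮G.x⁻¹⟯ F := by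
    rw [Red.H217.adjoin_inv_eq']; exact hfin
  have : FiniteDimensional k⟮G.ρ ⟨G.x⁻¹, Red.H217.x_inv_mem G⟩⟯ Fk := by
    rw [hρ, Red.H217.adjoin_inv_eq']; exact hfink
  have : Algebra.IsSeparable k⟮G.ρ ⟨G.x⁻¹, Red.H217.x_inv_mem G⟩⟯ Fk := by
    rw [hρ, Red.H217.adjoin_inv_eq']; exact hsep
  have hfr' : Module.finrank K⟮G.x⁻¹⟯ F =
      Module.finrank k⟮G.ρ ⟨G.x⁻¹, Red.H217.x_inv_mem G⟩⟯ Fk := by
    rw [hρ, Red.H217.adjoin_inv_eq', Red.H217.adjoin_inv_eq']
    exact hfr
  have key := lift_of_NC G (Red.H217.x_inv_mem G) htr hfr' S hS hNC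
  rw [hρ] at key
  exact key

/-- **`G.Good` from (H1) + (NC) on both charts.** -/
theorem good_of_NC (G : Datum A π F Fk)
    (finite : FiniteDimensional K⟮G.x⟯ F) (finite_k : FiniteDimensional k⟮G.xk⟯ Fk)
    (sep_k : Algebra.IsSeparable k⟮G.xk⟯ Fk)
    (finrank_eq : Module.finrank K⟮G.x⟯ F = Module.finrank k⟮G.xk⟯ Fk)
    (S S' : Finset A) (hS : Set.InjOn π (S : Set A)) (hS' : Set.InjOn π (S' : Set A))
    (hNC : NoRamOutside G G.x S) (hNC' : NoRamOutside G G.x⁻¹ S') : G.Good :=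
  Red.H217.good_of G finite finite_k sep_k finrank_eq
    (lift_fin_of_NC G finrank_eq S hS hNC) (lift_inf_of_NC G finrank_eq S' hS' hNC')

end Fermat.Agent.S37.Red.H159

end
-- ===== PACK-END S37/Red/H159/LiftNC.lean

-- ===== PACK-BEGIN S37/Core/RawES.lean
section


/-!
# S37 row (helper37): RAW Eichler-Shimura on torsion points (export for rows S29 / S30 / S42)

`rawES_of_weakRedData` : from the same hypothesis `H` as `Core.result_of_weakRedData`
(a `WeakRedData` at some level `M` and a `PullData N M ℓ`, for every `ℓ ∤ N`, `A`, Frobenius `σ₀`)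
we get, for every prime `ℓ ∤ N * p` and every `A` over `ℓ`:
* inertia at `A` fixes every `x : JZero N` with `p • x = 0`,
* every Frobenius `σ` at `A` satisfies `σ²x - T_ℓ(σ x) + ℓ x = 0` on such `x`.
This is the body of `Fermat.Agent.S29.RawESStatement` (no Hecke module structure, no commutation
hypothesis).  Fully proved.
-/

set_option autoImplicit false
set_option synthInstance.maxHeartbeats 400000

noncomputable section

namespace Fermat.Agent.S37.Core

open ModularCurve ValuationSubring AlgebraicCurve HahnSeries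

section

variable {N M : ℕ} [NeZero N] [NeZero M] {A : ValuationSubring (AlgebraicClosure ℚ)} {ℓ : ℕ}
  [NeZero ℓ] {σ₀ : AlgebraicClosure ℚ ≃ₐ[ℚ] AlgebraicClosure ℚ}

/-- `red ∘ π^*` is injective on torsion of order prime to `ℓ` -/
theorem WeakRedData.eq_zero_of_red_pull (W : WeakRedData M A ℓ σ₀) (Pd : PullData N M ℓ)
    {m : ℕ} (hm : ¬ ℓ ∣ m) {x : JZero N} (hx : m • x = 0) (h : W.red (Pd.pull x) = 0) :
    x = 0 := by
  refine Pd.inj_torsion m hm x hx ?_
  refine W.inj_torsion m hm _ ?_ h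
  rw [← map_nsmul, hx, map_zero]

/-- inertia acts trivially on torsion of order prime to `ℓ` -/
theorem WeakRedData.inertia_smul_eq (W : WeakRedData M A ℓ σ₀) (Pd : PullData N M ℓ)
    {m : ℕ} (hm : ¬ ℓ ∣ m) {τ : AlgebraicClosure ℚ ≃ₐ[ℚ] AlgebraicClosure ℚ}
    (hτ : τ ∈ A.inertiaSubgroupIn ℚ) {x : JZero N} (hx : m • x = 0) : τ • x = x := by
  rw [← sub_eq_zero]
  refine W.eq_zero_of_red_pull Pd hm ?_ ?_
  · have h1 : m • (τ • x) = τ • (m • x) := smul_comm m τ x
    have z1 : τ • (0 : JZero N) = 0 := smul_zero (A := JZero N) τ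
    rw [nsmul_sub, h1, hx, z1, sub_zero]
  · rw [map_sub, Pd.galois, map_sub, W.inertia τ hτ, sub_self]

/-- the Eichler-Shimura relation at `σ₀` on torsion of order prime to `ℓ` -/
theorem WeakRedData.relation_eq_zero (W : WeakRedData M A ℓ σ₀) (Pd : PullData N M ℓ)
    {m : ℕ} (hm : ¬ ℓ ∣ m) {x : JZero N} (hx : m • x = 0) :
    σ₀ • σ₀ • x - heckeOperatorAlong (AlgebraicClosure ℚ) N ℓ (σ₀ • x) + ℓ • x = 0 := by
  refine W.eq_zero_of_red_pull Pd hm ?_ ?_
  · have h1 : m • (σ₀ • σ₀ • x) = σ₀ • σ₀ • (m • x) := by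
      rw [smul_comm m σ₀, smul_comm m σ₀]
    have h2 : m • heckeOperatorAlong (AlgebraicClosure ℚ) N ℓ (σ₀ • x) =
        heckeOperatorAlong (AlgebraicClosure ℚ) N ℓ (σ₀ • (m • x)) := by
      rw [← map_nsmul, smul_comm m σ₀]
    have h3 : m • (ℓ • x) = ℓ • (m • x) := smul_comm m ℓ x
    have z1 : σ₀ • (0 : JZero N) = 0 := smul_zero (A := JZero N) σ₀
    have z2 : ℓ • (0 : JZero N) = 0 := smul_zero ℓ
    rw [nsmul_add, nsmul_sub, h1, h2, h3, hx, z1, z1, map_zero, sub_zero, z2, add_zero]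
  · rw [map_add, map_sub, map_nsmul, Pd.galois, Pd.galois, Pd.hecke, Pd.galois]
    exact W.relation (Pd.pull x)

end

/-- **RAW Eichler-Shimura** (body of `Fermat.Agent.S29.RawESStatement` at level `N`). -/
theorem rawES_of_weakRedData (N : ℕ) [NeZero N]
    (H : ∀ (ℓ : ℕ) (hℓ : ℓ.Prime), ¬ ℓ ∣ N →
      ∀ A : ValuationSubring (AlgebraicClosure ℚ), A.LiesOverPrime ℓ →
        ∀ σ₀ : AlgebraicClosure ℚ ≃ₐ[ℚ] AlgebraicClosure ℚ, A.IsFrobeniusAt σ₀ ℓ →
          haveI : NeZero ℓ := ⟨hℓ.ne_zero⟩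
          ∃ (M : ℕ) (_ : NeZero M), Nonempty (WeakRedData M A ℓ σ₀) ∧ Nonempty (PullData N M ℓ))
    (p : ℕ) (ℓ : ℕ) (hℓ : ℓ.Prime) (hdvd : ¬ ℓ ∣ N * p)
    (A : ValuationSubring (AlgebraicClosure ℚ)) (hA : A.LiesOverPrime ℓ) :
    (∀ σ ∈ A.inertiaSubgroupIn ℚ, ∀ x : JZero N, (p : ℤ) • x = 0 → σ • x = x) ∧
      (∀ σ : AlgebraicClosure ℚ ≃ₐ[ℚ] AlgebraicClosure ℚ, A.IsFrobeniusAt σ ℓ →
        ∀ x : JZero N, (p : ℤ) • x = 0 →
          σ • σ • x - heckeOperatorBar N ⟨ℓ, hℓ⟩ (σ • x) + (ℓ : ℤ) • x = 0) := by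
  have hℓN : ¬ ℓ ∣ N := fun h => hdvd (Dvd.dvd.mul_right h p)
  have hℓp : ¬ ℓ ∣ p := fun h => hdvd (Dvd.dvd.mul_left h N)
  haveI : NeZero ℓ := ⟨hℓ.ne_zero⟩
  constructor
  · intro τ hτ x hx
    obtain ⟨σ₀, hσ₀⟩ := Fermat.Agent.S37.H99.exists_isFrobeniusAt ℓ hℓ A hA
    obtain ⟨M, hM, ⟨W⟩, ⟨Pd⟩⟩ := H ℓ hℓ hℓN A hA σ₀ hσ₀
    refine W.inertia_smul_eq Pd hℓp hτ ?_
    rwa [natCast_zsmul] at hx
  · intro σ hσ x hx
    obtain ⟨M, hM, ⟨W⟩, ⟨Pd⟩⟩ := H ℓ hℓ hℓN A hA σ hσ
    have h := W.relation_eq_zero Pd hℓp (x := x) (by rwa [natCast_zsmul] at hx)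
    rw [natCast_zsmul]
    exact h

end Fermat.Agent.S37.Core

end
end
-- ===== PACK-END S37/Core/RawES.lean

-- ===== PACK-BEGIN A2/IF/H429/Level.lean
section


/-!
# A2 / IF (helper429): levels `E ⊇ ℚ̄^{I_P}`

For an intermediate field `E` containing the inertia field of `P`, the valuation ring
`R_E = P ∩ E = P.comap (algebraMap E ℚ̄)` is henselian with algebraically closed residue field.
-/

set_option autoImplicit false
set_option linter.style.haveILetI false
set_option linter.unusedSectionVars false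

open scoped Pointwise
open Polynomial

namespace Fermat.Agent.A2.IF.H429

open Fermat.Agent.S55.Bridge Fermat.Agent.S55.Bridge.H594

attribute [local instance] isAlgebraic_Qbar isGalois_Qbar

local notation "Qb" => AlgebraicClosure ℚ

variable (P : ValuationSubring Qb) (E : IntermediateField ℚ Qb)

/-- The inclusion `R_E → P`. -/
noncomputable def inclRE : (P.comap (algebraMap E Qb)) →+* P where
  toFun x := ⟨algebraMap E Qb (x : E), x.2⟩
  map_one' := Subtype.ext (by simp)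
  map_mul' x y := Subtype.ext (by simp)
  map_zero' := Subtype.ext (by simp)
  map_add' x y := Subtype.ext (by simp)

theorem inclRE_coe (x : P.comap (algebraMap E Qb)) :
    ((inclRE P E x : P) : Qb) = ((x : E) : Qb) := rfl

theorem mem_maximalIdeal_RE_iff (x : P.comap (algebraMap E Qb)) :
    x ∈ IsLocalRing.maximalIdeal (P.comap (algebraMap E Qb)) ↔ ((x : E) : Qb) ∈ P.nonunits := by
  rw [← ValuationSubring.coe_mem_nonunits_iff, mem_nonunits_comap_iff]
  rfl

/-- An element of `ℚ̄` fixed by every automorphism fixing `E` lies in `E`. -/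
theorem mem_of_fixed (x : Qb) (hx : ∀ σ : Qb ≃ₐ[ℚ] Qb, (∀ e ∈ E, σ e = e) → σ x = x) :
    x ∈ E := by
  have h1 : x ∈ IntermediateField.fixedField E.fixingSubgroup := by
    rw [IntermediateField.mem_fixedField_iff]
    intro σ hσ
    exact hx σ (fun e he => (IntermediateField.mem_fixingSubgroup_iff E σ).mp hσ e he)
  rwa [InfiniteGalois.fixedField_fixingSubgroup] at h1

/-- An automorphism fixing `E ⊇ E_I` pointwise preserves the non-units of `P`. -/
theorem map_mem_nonunits_of_fixes (hE : inertiaField P ≤ E) (σ : Qb ≃ₐ[ℚ] Qb)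
    (hσ : ∀ e ∈ E, σ e = e) {x : Qb} (hx : x ∈ P.nonunits) : σ x ∈ P.nonunits := by
  obtain ⟨τ, hτ, h⟩ := exists_inertia_apply_eq P σ (fun e he => hσ e (hE he)) x
  rw [h]
  exact mem_nonunits_of_mem_decomp P (decomp_of_inertia P hτ) hx

/-- An automorphism fixing `E ⊇ E_I` pointwise preserves the valuation of `P`. -/
theorem valuation_map_eq_of_fixes (hE : inertiaField P ≤ E) (σ : Qb ≃ₐ[ℚ] Qb)
    (hσ : ∀ e ∈ E, σ e = e) (x : Qb) : P.valuation (σ x) = P.valuation x := by
  obtain ⟨τ, hτ, h⟩ := exists_inertia_apply_eq P σ (fun e he => hσ e (hE he)) x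
  rw [h]
  exact valuation_map_eq P (decomp_of_inertia P hτ) x

/-- **Galois-fixed simple roots.**  Let `f` be a monic polynomial over `R_E`, `E ⊇ E_I`, and
`a₀ ∈ R_E` with `f(a₀) ≡ 0` and `f'(a₀)` a unit.  Then `f` has a root `≡ a₀` in `R_E`. -/
theorem exists_root_RE (hE : inertiaField P ≤ E) (f : (P.comap (algebraMap E Qb) : Type)[X])
    (hf : f.Monic) (a₀ : P.comap (algebraMap E Qb))
    (h₁ : f.eval a₀ ∈ IsLocalRing.maximalIdeal (P.comap (algebraMap E Qb)))
    (h₂ : IsUnit (f.derivative.eval a₀)) :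
    ∃ a : P.comap (algebraMap E Qb), f.IsRoot a ∧
      a - a₀ ∈ IsLocalRing.maximalIdeal (P.comap (algebraMap E Qb)) := by
  let ι := inclRE P E
  let g : (P : Type)[X] := f.map ι
  have hg : g.Monic := hf.map ι
  let φ : (P.comap (algebraMap E Qb)) →+* Qb := P.subtype.comp ι
  have hFg : g.map P.subtype = f.map φ := by
    rw [Polynomial.map_map]
  have hroots : ∀ r ∈ (f.map φ).roots, r ∈ P := fun r hr =>
    mem_of_isRoot_map P g hg r (by rw [hFg]; exact isRoot_of_mem_roots hr)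
  have ha₀P : ((a₀ : E) : Qb) ∈ P := a₀.2
  have heval : (f.map φ).eval ((a₀ : E) : Qb) ∈ P.nonunits := by
    have h3 : (f.map φ).eval (φ a₀) = φ (f.eval a₀) := eval_map_apply φ a₀
    have h4 : φ a₀ = ((a₀ : E) : Qb) := rfl
    rw [h4] at h3
    rw [h3]
    exact (mem_maximalIdeal_RE_iff P E _).mp h₁
  obtain ⟨α, hα, hαa⟩ := exists_root_sub_mem_nonunits P _ (hf.map φ) hroots _ ha₀P heval
  have hαP : α ∈ P := hroots α hα
  have hαroot : (f.map φ).eval α = 0 := isRoot_of_mem_roots hα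
  have hgα : g.IsRoot (⟨α, hαP⟩ : P) := by
    show g.eval _ = 0
    apply Subtype.ext
    have h3 : (g.map P.subtype).eval (P.subtype ⟨α, hαP⟩) = P.subtype (g.eval ⟨α, hαP⟩) :=
      eval_map_apply P.subtype _
    rw [hFg] at h3
    have h4 : P.subtype ⟨α, hαP⟩ = α := rfl
    rw [h4, hαroot] at h3
    exact h3.symm
  have hder : g.derivative.eval (ι a₀) ∉ IsLocalRing.maximalIdeal P := by
    have h3 : g.derivative.eval (ι a₀) = ι (f.derivative.eval a₀) := by
      show (f.map ι).derivative.eval (ι a₀) = _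
      rw [derivative_map, eval_map_apply]
    rw [h3]
    intro hmem
    exact (IsLocalRing.mem_maximalIdeal _).mp hmem (h₂.map ι)
  have hαa' : (⟨α, hαP⟩ : P) - ι a₀ ∈ IsLocalRing.maximalIdeal P := by
    rw [← ValuationSubring.coe_mem_nonunits_iff]
    have h3 : (((⟨α, hαP⟩ : P) - ι a₀ : P) : Qb) = -(((a₀ : E) : Qb) - α) := by
      show α - ((a₀ : E) : Qb) = _
      ring
    rw [h3]
    exact neg_mem hαa
  -- `α` is fixed by every automorphism fixing `E`
  have hfix : ∀ σ : Qb ≃ₐ[ℚ] Qb, (∀ e ∈ E, σ e = e) → σ α = α := by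
    intro σ hσ
    have hσφ : (σ : Qb →+* Qb).comp φ = φ := by
      ext x
      exact hσ _ (x : E).2
    have hσroot : (f.map φ).eval (σ α) = 0 := by
      have h3 : ((f.map φ).map (σ : Qb →+* Qb)).eval ((σ : Qb →+* Qb) α) =
          (σ : Qb →+* Qb) ((f.map φ).eval α) := eval_map_apply (σ : Qb →+* Qb) α
      rw [Polynomial.map_map, hσφ, hαroot, map_zero] at h3
      exact h3
    have hσαP : σ α ∈ P := by
      apply hroots
      rw [mem_roots (hf.map φ).ne_zero]
      exact hσroot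
    have hgσ : g.IsRoot (⟨σ α, hσαP⟩ : P) := by
      show g.eval _ = 0
      apply Subtype.ext
      have h3 : (g.map P.subtype).eval (P.subtype ⟨σ α, hσαP⟩) =
          P.subtype (g.eval ⟨σ α, hσαP⟩) := eval_map_apply P.subtype _
      rw [hFg] at h3
      have h4 : P.subtype ⟨σ α, hσαP⟩ = σ α := rfl
      rw [h4, hσroot] at h3
      exact h3.symm
    have hσa : (⟨σ α, hσαP⟩ : P) - ι a₀ ∈ IsLocalRing.maximalIdeal P := by
      rw [← ValuationSubring.coe_mem_nonunits_iff]
      have h3 : (((⟨σ α, hσαP⟩ : P) - ι a₀ : P) : Qb) = σ (-(((a₀ : E) : Qb) - α)) := by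
        show σ α - ((a₀ : E) : Qb) = _
        rw [map_neg, map_sub, hσ _ (a₀ : E).2]
        ring
      rw [h3]
      exact map_mem_nonunits_of_fixes P E hE σ hσ (neg_mem hαa)
    have key := root_unique_of_derivative_notMem (IsLocalRing.maximalIdeal P) g (ι a₀)
      ⟨α, hαP⟩ ⟨σ α, hσαP⟩ hgα hgσ hder hαa' hσa
    exact (congrArg Subtype.val key).symm
  have hαE : α ∈ E := mem_of_fixed E α hfix
  refine ⟨⟨⟨α, hαE⟩, hαP⟩, ?_, ?_⟩
  · show f.eval _ = 0
    have hφinj : Function.Injective φ := by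
      intro x y hxy
      apply Subtype.ext
      apply Subtype.ext
      exact hxy
    apply hφinj
    rw [map_zero, ← eval_map_apply φ]
    exact hαroot
  · rw [mem_maximalIdeal_RE_iff]
    have h3 : ((((⟨⟨α, hαE⟩, hαP⟩ : P.comap (algebraMap E Qb)) - a₀ :
        P.comap (algebraMap E Qb)) : E) : Qb) = -(((a₀ : E) : Qb) - α) := by
      show α - ((a₀ : E) : Qb) = _
      ring
    rw [h3]
    exact neg_mem hαa

/-- `R_E` is henselian for `E ⊇ E_I`. -/
theorem henselian_RE (hE : inertiaField P ≤ E) :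
    HenselianLocalRing (P.comap (algebraMap E Qb)) where
  is_henselian f hf a₀ h₁ h₂ := exists_root_RE P E hE f hf a₀ h₁ h₂

/-- The residue field of `R_E` is algebraically closed for `E ⊇ E_I`. -/
theorem isAlgClosed_residueField_RE (q : ℕ) (hq : q.Prime) (hP : P.LiesOverPrime q)
    (hE : inertiaField P ≤ E) :
    IsAlgClosed (IsLocalRing.ResidueField (P.comap (algebraMap E Qb))) := by
  apply IsAlgClosed.of_exists_root
  intro p hpm hpi
  obtain ⟨f, hfp, hfdeg, hfm⟩ := Polynomial.lifts_and_natDegree_eq_and_monic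
    ((Polynomial.mem_lifts p).mpr
      (Polynomial.map_surjective _ IsLocalRing.residue_surjective p)) hpm
  let ι := inclRE P E
  let g : (P : Type)[X] := f.map ι
  have hg : g.Monic := hfm.map ι
  have hgdeg : (g.map P.subtype).degree ≠ 0 := by
    have h1 : (g.map P.subtype).Monic := hg.map _
    have h2 : (g.map P.subtype).natDegree = p.natDegree := by
      rw [hg.natDegree_map P.subtype, hfm.natDegree_map ι, hfdeg]
    have h3 : 0 < p.natDegree := hpi.natDegree_pos
    intro h0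
    have := natDegree_eq_zero_iff_degree_le_zero.mpr h0.le
    omega
  obtain ⟨α, hα⟩ := IsAlgClosed.exists_root (g.map P.subtype) hgdeg
  have hαP : α ∈ P := mem_of_isRoot_map P g hg α hα
  obtain ⟨z, hzP, hzI, hαz⟩ := exists_teichmuller P q hq hP α hαP
  have hzE : z ∈ E := hE hzI
  let zR : P.comap (algebraMap E Qb) := ⟨⟨z, hzE⟩, hzP⟩
  refine ⟨IsLocalRing.residue _ zR, ?_⟩
  rw [← hfp, eval_map_apply, IsLocalRing.residue_eq_zero_iff, mem_maximalIdeal_RE_iff]
  have hgα : g.eval (⟨α, hαP⟩ : P) = 0 := by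
    apply Subtype.ext
    have h3 : (g.map P.subtype).eval (P.subtype ⟨α, hαP⟩) = P.subtype (g.eval ⟨α, hαP⟩) :=
      eval_map_apply P.subtype _
    have h4 : (g.map P.subtype).eval α = 0 := hα
    have h5 : P.subtype ⟨α, hαP⟩ = α := rfl
    rw [h5, h4] at h3
    exact h3.symm
  have h6 : (⟨z, hzP⟩ : P) - ⟨α, hαP⟩ ∣ g.eval (⟨z, hzP⟩ : P) - g.eval (⟨α, hαP⟩ : P) :=
    sub_dvd_eval_sub _ _ g
  rw [hgα, sub_zero] at h6
  obtain ⟨c, hc⟩ := h6
  have h7 : g.eval (⟨z, hzP⟩ : P) ∈ IsLocalRing.maximalIdeal P := by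
    rw [hc]
    apply Ideal.mul_mem_right
    rw [← ValuationSubring.coe_mem_nonunits_iff]
    have h8 : (((⟨z, hzP⟩ : P) - ⟨α, hαP⟩ : P) : Qb) = -(α - z) := by
      show z - α = _
      ring
    rw [h8]
    exact neg_mem hαz
  rw [← ValuationSubring.coe_mem_nonunits_iff] at h7
  have h9 : ((g.eval (⟨z, hzP⟩ : P) : P) : Qb) = (((f.eval zR : P.comap (algebraMap E Qb)) : E) : Qb) := by
    have h10 : g.eval (ι zR) = ι (f.eval zR) := eval_map_apply ι zR
    have h11 : ι zR = ⟨z, hzP⟩ := rfl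
    rw [h11] at h10
    rw [h10]
    rfl
  rw [← h9]
  exact h7


end Fermat.Agent.A2.IF.H429

end
-- ===== PACK-END A2/IF/H429/Level.lean

-- ===== PACK-BEGIN A2/Mod/H753/IndInf.lean
section






/-!
# A2 / MOD leaf L9 `IndInf` (helper753): residue independence on `C∞`

Level `N = M q`, `q ∤ M`, `R = R_E` a DVR with uniformiser `w`, `k = R / w` (characteristic `q`).

* `exists_monomials` : `ψ(M)` integral monomials `Y i ∈ ℤ[j_d : d ∣ M]` whose reductions are
  polynomially independent over `k[j̄]` (row S28: `Good.exists_linearIndependent`);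
* `red_eq_zero_of_inW` : an `R`-integral series lying in `w V∞` has zero reduction;
* `indInf_strong` : the family `g (a, i) = Y i · j^a ∈ F_M` (`0 ≤ a ≤ q`) consists of integral
  series (so it lies in EVERY Gauss ring of level `M`), and `b = α ∘ g` is `IndepMod` for the
  coordinate `x = j j_q`  (`x̄ = j̄^(q+1)`, Frobenius congruence + base-`(q+1)` digits);
* `indInf : IndInfStatement P E M q w`;
* `eq_zero_of_sum_expand_mul_X_pow` : `∑_{a<n} p_a(X^n) X^a = 0 ⟹ p_a = 0` (Mathlib-only).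
-/

set_option autoImplicit false
set_option synthInstance.maxHeartbeats 400000
set_option maxHeartbeats 1600000

noncomputable section

namespace Fermat.Agent.A2.Mod.H753

open ModularCurve HahnSeries Polynomial
open Fermat.Agent.S28 (intDivisorExpansions jField)
open Fermat.Agent.S28.H325 (castL PolyIndep)

/-! ## 0. base-`n` digits of polynomials (Mathlib-only) -/


/-- coefficient of `∑_{a<n} p_a(X^n) X^a` at `n m + a₀` is the `m`-th coefficient of `p_{a₀}`. -/
theorem coeff_sum_expand_mul_X_pow {k : Type*} [CommSemiring k] {n : ℕ} (hn : 0 < n)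
    (p : Fin n → k[X]) (a₀ : Fin n) (m : ℕ) :
    (∑ a : Fin n, expand k n (p a) * X ^ (a : ℕ)).coeff (n * m + a₀) = (p a₀).coeff m := by
  rw [Polynomial.finsetSum_coeff]
  rw [Finset.sum_eq_single a₀]
  · rw [coeff_mul_X_pow, coeff_expand_mul' hn]
  · intro a _ hne
    rw [coeff_mul_X_pow']
    split_ifs with hle
    · rw [coeff_expand hn, if_neg]
      intro hdvd
      apply hne
      have h1 : (n : ℤ) ∣ ((a₀ : ℕ) : ℤ) - ((a : ℕ) : ℤ) := by
        have h2 : (n : ℤ) ∣ ((n * m + a₀ - a : ℕ) : ℤ) := by exact_mod_cast hdvd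
        rw [Nat.cast_sub hle] at h2
        push_cast at h2
        have h3 : ((n : ℤ) * m + a₀ - a) = (a₀ - a) + n * m := by ring
        rw [h3] at h2
        exact (Int.dvd_add_left (Dvd.intro _ rfl)).mp h2
      have ha : ((a : ℕ) : ℤ) < n := by exact_mod_cast a.2
      have ha₀ : ((a₀ : ℕ) : ℤ) < n := by exact_mod_cast a₀.2
      have h0a : (0 : ℤ) ≤ ((a : ℕ) : ℤ) := by positivity
      have h0a₀ : (0 : ℤ) ≤ ((a₀ : ℕ) : ℤ) := by positivity
      have h4 : ((a₀ : ℕ) : ℤ) - ((a : ℕ) : ℤ) = 0 := by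
        apply Int.eq_zero_of_abs_lt_dvd h1
        rw [abs_lt]
        constructor <;> linarith
      apply Fin.ext
      have : ((a : ℕ) : ℤ) = ((a₀ : ℕ) : ℤ) := by linarith
      exact_mod_cast this
    · rfl
  · intro h
    exact absurd (Finset.mem_univ a₀) h

/-- **Digits.**  `∑_{a<n} p_a(X^n) X^a = 0 ⟹ p_a = 0`. -/
theorem eq_zero_of_sum_expand_mul_X_pow {k : Type*} [CommSemiring k] {n : ℕ} (hn : 0 < n)
    (p : Fin n → k[X]) (h : ∑ a : Fin n, expand k n (p a) * X ^ (a : ℕ) = 0) (a₀ : Fin n) :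
    p a₀ = 0 := by
  ext m
  rw [← coeff_sum_expand_mul_X_pow hn p a₀ m, h, Polynomial.coeff_zero, Polynomial.coeff_zero]

/-! ## 1. the residue field has characteristic `q` -/

section Char

variable (P : ValuationSubring _root_.Fermat.Agent.A2.Mod.Qb) (E : IntermediateField ℚ _root_.Fermat.Agent.A2.Mod.Qb)

theorem natCast_mem_maximalIdeal {q : ℕ} (hP : P.LiesOverPrime q) :
    (q : _root_.Fermat.Agent.A2.Mod.RE P E) ∈ IsLocalRing.maximalIdeal (_root_.Fermat.Agent.A2.Mod.RE P E) := by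
  rw [IsLocalRing.mem_maximalIdeal, mem_nonunits_iff]
  intro hu
  obtain ⟨u, hu⟩ := hu.exists_right_inv
  have h1 : ((q : _root_.Fermat.Agent.A2.Mod.RE P E) : E) * (u : E) = 1 := by
    have := congrArg (fun z : _root_.Fermat.Agent.A2.Mod.RE P E => (z : E)) hu
    simpa using this
  have h2 : (q : _root_.Fermat.Agent.A2.Mod.Qb) * algebraMap E _root_.Fermat.Agent.A2.Mod.Qb (u : E) = 1 := by
    have := congrArg (algebraMap E _root_.Fermat.Agent.A2.Mod.Qb) h1
    simpa using this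
  have hmem : algebraMap E _root_.Fermat.Agent.A2.Mod.Qb (u : E) ∈ P := u.2
  have hq : (q : _root_.Fermat.Agent.A2.Mod.Qb) ∈ P := natCast_mem P q
  have hunit : IsUnit (⟨(q : _root_.Fermat.Agent.A2.Mod.Qb), hq⟩ : P) := by
    refine IsUnit.of_mul_eq_one (⟨algebraMap E _root_.Fermat.Agent.A2.Mod.Qb (u : E), hmem⟩ : P) ?_
    exact Subtype.ext h2
  have h3 : ((⟨(q : _root_.Fermat.Agent.A2.Mod.Qb), hq⟩ : P) : _root_.Fermat.Agent.A2.Mod.Qb) ∈ P.nonunits := hP
  rw [ValuationSubring.coe_mem_nonunits_iff, IsLocalRing.mem_maximalIdeal, mem_nonunits_iff] at h3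
  exact h3 hunit

theorem charP_residueField {q : ℕ} (hq : q.Prime) (hP : P.LiesOverPrime q) :
    CharP (IsLocalRing.ResidueField (_root_.Fermat.Agent.A2.Mod.RE P E)) q := by
  refine (CharP.charP_iff_prime_eq_zero hq).mpr ?_
  have h3 := (IsLocalRing.residue_eq_zero_iff (q : _root_.Fermat.Agent.A2.Mod.RE P E)).mpr (natCast_mem_maximalIdeal P E hP)
  rwa [map_natCast] at h3

end Char

/-! ## 2. the monomials -/

/-- `ψ(M)` integral monomials with polynomially independent reductions. -/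
theorem exists_monomials (M q : ℕ) [NeZero M] (hq : q.Prime) (hqM : ¬ q ∣ M)
    (k : Type*) [Field k] [CharP k q] :
    ∃ Y : Fin (dedekindPsi M) → LaurentSeries ℤ,
      (∀ i, Y i ∈ Submonoid.closure (intDivisorExpansions M)) ∧
      PolyIndep (jqModC k) (fun i => castL k (Y i)) := by
  have hchar : ∀ p : ℕ, p.Prime → p ∣ M → (p : k) ≠ 0 := by
    intro p hp hpM h0
    have hdvd : q ∣ p := (CharP.cast_eq_zero_iff k q p).mp h0
    have : q = p := (Nat.prime_dvd_prime_iff_eq hq hp).mp hdvd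
    exact hqM (this ▸ hpM)
  have hΦ : ∀ p : ℕ, p.Prime → p ∣ M → ∀ [NeZero p], Nonempty (Fermat.Agent.S28.ModPolyData p) :=
    fun p hp _ _ => Fermat.Agent.S28.H807.nonempty_modPolyData p hp
  have hW : ∀ p : ℕ, p.Prime → p ∣ M → ∀ [NeZero p], Nonempty (Fermat.Agent.S28.UnitPolyData p) :=
    fun p hp _ _ => Fermat.Agent.S28.H807.nonempty_unitPolyData p hp
  have hgood : Fermat.Agent.S28.H867.Good k M :=
    Fermat.Agent.S28.H867.good_of_inputs k M (NeZero.ne M) hΦ hW
      Fermat.Agent.S28.H25.theta_identity hchar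
  obtain ⟨Y, hY, hli⟩ := Fermat.Agent.S28.H325.exists_monomials_linearIndependent k M
    (Fermat.Agent.S28.H867.coreData_integral M hΦ) (dedekindPsi M) hgood.exists_linearIndependent
  refine ⟨Y, hY, ?_⟩
  exact Fermat.Agent.S28.H325.polyIndep_of_linearIndependent
    (fun Q hQ => (Fermat.Agent.S28.H325.aeval_jqModC_eq_zero_iff k Q).mp hQ) hli

/-! ## 3. integral series in `w V∞` have zero reduction -/

section Red

variable (P : ValuationSubring _root_.Fermat.Agent.A2.Mod.Qb) (E : IntermediateField ℚ _root_.Fermat.Agent.A2.Mod.Qb) (N : ℕ)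

theorem coe_cE (r : _root_.Fermat.Agent.A2.Mod.RE P E) :
    ((cE P E N r : _root_.Fermat.Agent.A2.Mod.FE E N) : LaurentSeries E) = H708.cst ((r : E)) := rfl

variable {P E N}

theorem red_eq_zero_of_inW {V : ValuationSubring (_root_.Fermat.Agent.A2.Mod.FE E N)} (hV : IsVinf P E N V) {w : _root_.Fermat.Agent.A2.Mod.RE P E}
    (hw0 : w ≠ 0) (hw : w ∈ IsLocalRing.maximalIdeal (_root_.Fermat.Agent.A2.Mod.RE P E)) {f : _root_.Fermat.Agent.A2.Mod.FE E N}
    {S : LaurentSeries (_root_.Fermat.Agent.A2.Mod.RE P E)} (hS : (f : LaurentSeries E) = H708.incl (_root_.Fermat.Agent.A2.Mod.RE P E) S)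
    (h : InW P E N V w f) : H708.red (_root_.Fermat.Agent.A2.Mod.RE P E) S = 0 := by
  obtain ⟨U₁, U₂, hU₂, -, he⟩ := (hV _).mp h
  have hwE : ((w : E)) ≠ 0 := fun h0 => hw0 (Subtype.ext h0)
  have hc : H708.cst (w : E) ≠ 0 := H708.cst_ne_zero hwE
  have hcoe : (((f * (cE P E N w)⁻¹ : _root_.Fermat.Agent.A2.Mod.FE E N)) : LaurentSeries E)
      = (f : LaurentSeries E) * (H708.cst (w : E))⁻¹ := by
    rw [IntermediateField.coe_mul, IntermediateField.coe_inv]
    rfl
  have he' : (f : LaurentSeries E) * H708.incl (_root_.Fermat.Agent.A2.Mod.RE P E) U₂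
      = H708.cst (w : E) * H708.incl (_root_.Fermat.Agent.A2.Mod.RE P E) U₁ := by
    rw [← he, hcoe]
    field_simp
  have h2 : S * U₂ = H708.cstA (_root_.Fermat.Agent.A2.Mod.RE P E) w * U₁ := by
    apply H708.incl_injective (_root_.Fermat.Agent.A2.Mod.RE P E)
    rw [map_mul, map_mul, H708.incl_cstA, ← hS, he']
  have h3 := congrArg (H708.red (_root_.Fermat.Agent.A2.Mod.RE P E)) h2
  rw [map_mul, map_mul, H708.red_cstA, (IsLocalRing.residue_eq_zero_iff w).mpr hw,
    HahnSeries.single_eq_zero, zero_mul] at h3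
  rcases mul_eq_zero.mp h3 with h4 | h4
  · exact h4
  · exact absurd h4 hU₂

end Red

/-! ## 4. the family `Y i · j^a` -/

section Family

variable (M q : ℕ)

/-- the integral series `Y_i · j^a`, indexed by `Fin ((q+1) ψ(M)) ≃ Fin (q+1) × Fin ψ(M)`. -/
def monoZ (Y : Fin (dedekindPsi M) → LaurentSeries ℤ) (i : Fin ((q + 1) * dedekindPsi M)) :
    LaurentSeries ℤ :=
  Y (finProdFinEquiv.symm i).2 * jqModC ℤ ^ ((finProdFinEquiv.symm i).1 : ℕ)

/-- the integral series of the coordinate `x = j · j_q`. -/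
def xZ [NeZero q] : LaurentSeries ℤ := jqModC ℤ * qExpand ℤ q (jqModC ℤ)

theorem castQ_jqModC : H708.castQ (jqModC ℤ) = jq := by
  rw [H708.castQ, coeffMap_jqModC, jqModC_rat]

theorem castQ_mem_full_of_mem_closure [NeZero M] {y : LaurentSeries ℤ}
    (hy : y ∈ Submonoid.closure (intDivisorExpansions M)) :
    H708.castQ y ∈ modularFunctionFieldFull M := by
  have h1 : castL ℚ y ∈ castL ℚ ''
      ((Submonoid.closure (intDivisorExpansions M) : Submonoid (LaurentSeries ℤ)) :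
        Set (LaurentSeries ℤ)) := ⟨y, hy, rfl⟩
  rw [Fermat.Agent.S28.H325.castL_image_closure] at h1
  exact Fermat.Agent.S28.H325.monomials_subset_full ℚ M h1

theorem castQ_monoZ_mem [NeZero M] {Y : Fin (dedekindPsi M) → LaurentSeries ℤ}
    (hY : ∀ i, Y i ∈ Submonoid.closure (intDivisorExpansions M))
    (i : Fin ((q + 1) * dedekindPsi M)) :
    H708.castQ (monoZ M q Y i) ∈ modularFunctionFieldFull M := by
  rw [monoZ, map_mul, map_pow, castQ_jqModC]
  refine mul_mem (castQ_mem_full_of_mem_closure M (hY _)) (pow_mem ?_ _)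
  have := jqd_mem_full M (one_dvd M)
  rwa [qExpand_one_apply] at this

end Family

section Main

variable (P : ValuationSubring _root_.Fermat.Agent.A2.Mod.Qb) (E : IntermediateField ℚ _root_.Fermat.Agent.A2.Mod.Qb) (M q : ℕ) [NeZero M] [NeZero q]

/-- the elements `g i = Y i · j^a` of `F_M`. -/
def gFam {Y : Fin (dedekindPsi M) → LaurentSeries ℤ}
    (hY : ∀ i, Y i ∈ Submonoid.closure (intDivisorExpansions M))
    (i : Fin ((q + 1) * dedekindPsi M)) : _root_.Fermat.Agent.A2.Mod.FE E M :=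
  ⟨coeffEmb E (H708.castQ (monoZ M q Y i)),
    coeffEmb_mem_laurentBaseChange E (castQ_monoZ_mem M q hY i)⟩

omit [NeZero q] in
theorem coe_gFam {Y : Fin (dedekindPsi M) → LaurentSeries ℤ}
    (hY : ∀ i, Y i ∈ Submonoid.closure (intDivisorExpansions M))
    (i : Fin ((q + 1) * dedekindPsi M)) :
    ((gFam E M q hY i : _root_.Fermat.Agent.A2.Mod.FE E M) : LaurentSeries E)
      = H708.incl (_root_.Fermat.Agent.A2.Mod.RE P E) (H708.castA (_root_.Fermat.Agent.A2.Mod.RE P E) (monoZ M q Y i)) := by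
  rw [H708.incl_castA]
  rfl

omit [NeZero q] in
theorem gFam_mem {Y : Fin (dedekindPsi M) → LaurentSeries ℤ}
    (hY : ∀ i, Y i ∈ Submonoid.closure (intDivisorExpansions M))
    {VM : ValuationSubring (_root_.Fermat.Agent.A2.Mod.FE E M)} (hVM : IsVinf P E M VM)
    (i : Fin ((q + 1) * dedekindPsi M)) : gFam E M q hY i ∈ VM := by
  rw [hVM, coe_gFam P]
  exact H708.IsGaussInt.of_incl _

theorem alpha_gFam_mem {Y : Fin (dedekindPsi M) → LaurentSeries ℤ}
    (hY : ∀ i, Y i ∈ Submonoid.closure (intDivisorExpansions M))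
    {V : ValuationSubring (_root_.Fermat.Agent.A2.Mod.FE E (M * q))} (hV : IsVinf P E (M * q) V)
    (i : Fin ((q + 1) * dedekindPsi M)) : αE E M q (gFam E M q hY i) ∈ V := by
  rw [hV, coe_heckeAlphaBar, coe_gFam P]
  exact H708.IsGaussInt.of_incl _

omit [NeZero M] in
theorem coe_xE :
    ((xE E M q : _root_.Fermat.Agent.A2.Mod.FE E (M * q)) : LaurentSeries E)
      = H708.incl (_root_.Fermat.Agent.A2.Mod.RE P E) (H708.castA (_root_.Fermat.Agent.A2.Mod.RE P E) (xZ q)) := by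
  rw [H708.incl_castA, xZ, map_mul, H708.castQ, coeffMap_qExpand, ← H708.castQ, castQ_jqModC,
    map_mul, xE, IntermediateField.coe_mul]
  show coeffEmb E (qExpand ℚ 1 jq) * coeffEmb E (qExpand ℚ q jq) = _
  rw [qExpand_one_apply]

/-- the coercion of `ev x p` is the inclusion of the integral series `p(X)`. -/
theorem coe_ev {N : ℕ} (x : _root_.Fermat.Agent.A2.Mod.FE E N) (X : LaurentSeries (_root_.Fermat.Agent.A2.Mod.RE P E))
    (hx : (x : LaurentSeries E) = H708.incl (_root_.Fermat.Agent.A2.Mod.RE P E) X) (p : Polynomial (_root_.Fermat.Agent.A2.Mod.RE P E)) :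
    ((ev P E N x p : _root_.Fermat.Agent.A2.Mod.FE E N) : LaurentSeries E) = H708.incl (_root_.Fermat.Agent.A2.Mod.RE P E) (aeval X p) := by
  rw [H708.incl, Fermat.Agent.S28.H325.coeffMap_aeval, ← H708.incl, ← hx, aeval_def,
    Polynomial.eval₂_map, ev]
  exact Polynomial.hom_eval₂ p ((algebraMap E (_root_.Fermat.Agent.A2.Mod.FE E N)).comp (_root_.Fermat.Agent.A2.Mod.RE P E).subtype)
    (algebraMap (_root_.Fermat.Agent.A2.Mod.FE E N) (LaurentSeries E)) x

/-! ## 5. reductions -/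

theorem red_castA (Z : LaurentSeries ℤ) :
    H708.red (_root_.Fermat.Agent.A2.Mod.RE P E) (H708.castA (_root_.Fermat.Agent.A2.Mod.RE P E) Z)
      = castL (IsLocalRing.ResidueField (_root_.Fermat.Agent.A2.Mod.RE P E)) Z := by
  rw [H708.red, H708.castA, coeffMap_coeffMap]
  exact coeffMap_congr (RingHom.ext_int _ _) Z

/-- Frobenius: `j̄_q = j̄^q` in characteristic `q`. -/
theorem castL_qExpand_jqModC (hq : q.Prime) (k : Type*) [Field k] [CharP k q] :
    castL k (qExpand ℤ q (jqModC ℤ)) = jqModC k ^ q := by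
  have : Fact q.Prime := ⟨hq⟩
  obtain ⟨g, hg⟩ := H528.exists_frobCong q (jqModC ℤ)
  have h1 : qExpand ℤ q (jqModC ℤ) = jqModC ℤ ^ q + HahnSeries.C (q : ℤ) * g := by
    rw [← hg]; ring
  have h2 : castL k (HahnSeries.C (q : ℤ)) = 0 := by
    ext n
    rw [castL, coeffMap_coeff, HahnSeries.coeff_zero, HahnSeries.C_apply,
      HahnSeries.coeff_single]
    split_ifs
    · rw [eq_intCast, Int.cast_natCast, CharP.cast_eq_zero k q]
    · rw [map_zero]
  rw [h1, map_add, map_mul, h2, zero_mul, add_zero, map_pow,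
    Fermat.Agent.S28.H325.castL_jqModC]

theorem castL_xZ (hq : q.Prime) (k : Type*) [Field k] [CharP k q] :
    castL k (xZ q) = jqModC k ^ (q + 1) := by
  rw [xZ, map_mul, castL_qExpand_jqModC q hq k, Fermat.Agent.S28.H325.castL_jqModC, pow_succ']

omit [NeZero M] [NeZero q] in
theorem castL_monoZ (k : Type*) [Field k] (Y : Fin (dedekindPsi M) → LaurentSeries ℤ)
    (i : Fin ((q + 1) * dedekindPsi M)) :
    castL k (monoZ M q Y i)
      = castL k (Y (finProdFinEquiv.symm i).2) * jqModC k ^ ((finProdFinEquiv.symm i).1 : ℕ) := by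
  rw [monoZ, map_mul, map_pow, Fermat.Agent.S28.H325.castL_jqModC]

/-- polynomial independence of the family `v i · J^a` over `k[J^(q+1)]`. -/
theorem polyIndep_tower {k : Type*} [Field k] {n : ℕ} (m : ℕ) (hm : 0 < m)
    (J : LaurentSeries k) (v : Fin n → LaurentSeries k) (hv : PolyIndep J v)
    (p : Fin (m * n) → Polynomial k)
    (h : ∑ i, aeval (J ^ m) (p i) *
      (v (finProdFinEquiv.symm i).2 * J ^ ((finProdFinEquiv.symm i).1 : ℕ)) = 0)
    (i : Fin (m * n)) : p i = 0 := by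
  have h1 : ∑ i' : Fin n, aeval J (∑ a : Fin m,
      expand k m (p (finProdFinEquiv (a, i'))) * X ^ (a : ℕ)) * v i' = 0 := by
    rw [← h]
    rw [Fintype.sum_equiv finProdFinEquiv.symm
      (fun i => aeval (J ^ m) (p i) *
        (v (finProdFinEquiv.symm i).2 * J ^ ((finProdFinEquiv.symm i).1 : ℕ)))
      (fun z : Fin m × Fin n => aeval (J ^ m) (p (finProdFinEquiv z)) * (v z.2 * J ^ (z.1 : ℕ)))
      (fun i => by simp only [Equiv.apply_symm_apply])]
    rw [Fintype.sum_prod_type, Finset.sum_comm]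
    refine Finset.sum_congr rfl fun i' _ => ?_
    rw [map_sum, Finset.sum_mul]
    refine Finset.sum_congr rfl fun a _ => ?_
    rw [map_mul, expand_aeval, map_pow, aeval_X]
    ring
  have h2 := hv _ h1 (finProdFinEquiv.symm i).2
  have h3 : p (finProdFinEquiv ((finProdFinEquiv.symm i).1, (finProdFinEquiv.symm i).2)) = 0 :=
    eq_zero_of_sum_expand_mul_X_pow hm
      (fun a => p (finProdFinEquiv (a, (finProdFinEquiv.symm i).2))) h2 (finProdFinEquiv.symm i).1
  rwa [Prod.mk.eta, Equiv.apply_symm_apply] at h3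

/-- `p̄ = 0 ⟹ w ∣ p`. -/
theorem C_dvd_of_map_residue_eq_zero {w : _root_.Fermat.Agent.A2.Mod.RE P E} (hdvr : IsDiscreteValuationRing (_root_.Fermat.Agent.A2.Mod.RE P E))
    (hw : Irreducible w) {p : Polynomial (_root_.Fermat.Agent.A2.Mod.RE P E)}
    (hp : p.map (IsLocalRing.residue (_root_.Fermat.Agent.A2.Mod.RE P E)) = 0) : Polynomial.C w ∣ p := by
  rw [Polynomial.C_dvd_iff_dvd_coeff]
  intro n
  have h1 : IsLocalRing.residue (_root_.Fermat.Agent.A2.Mod.RE P E) (p.coeff n) = 0 := by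
    have := congrArg (fun z => z.coeff n) hp
    simpa using this
  rw [IsLocalRing.residue_eq_zero_iff, hw.maximalIdeal_eq, Ideal.mem_span_singleton] at h1
  exact h1

/-! ## 6. the leaf -/

/-- **L9, strong form.**  There is a family `g` of `(q+1) ψ(M)` elements of `F_M`, integral
series (hence in every Gauss ring of level `M`), such that `α ∘ g` lies in `V∞` (level `M q`) and
is independent modulo `w` over `R[x]`, `x = j j_q`. -/
theorem indInf_strong (w : _root_.Fermat.Agent.A2.Mod.RE P E) (hS : Setting P E M q w) :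
    ∃ g : Fin ((q + 1) * dedekindPsi M) → _root_.Fermat.Agent.A2.Mod.FE E M,
      (∀ VM : ValuationSubring (_root_.Fermat.Agent.A2.Mod.FE E M), IsVinf P E M VM → ∀ i, g i ∈ VM) ∧
      ∀ V : ValuationSubring (_root_.Fermat.Agent.A2.Mod.FE E (M * q)), IsVinf P E (M * q) V →
        (∀ i, αE E M q (g i) ∈ V) ∧
        IndepMod P E (M * q) V w (xE E M q) (fun i => αE E M q (g i)) := by
  have hdvr := hS.dvr
  have : CharP (IsLocalRing.ResidueField (_root_.Fermat.Agent.A2.Mod.RE P E)) q :=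
    charP_residueField P E hS.q_prime hS.lies_over
  obtain ⟨Y, hY, hYi⟩ := exists_monomials M q hS.q_prime hS.q_not_dvd
    (IsLocalRing.ResidueField (_root_.Fermat.Agent.A2.Mod.RE P E))
  refine ⟨gFam E M q hY, fun VM hVM i => gFam_mem P E M q hY hVM i, fun V hV => ⟨fun i =>
    alpha_gFam_mem P E M q hY hV i, ?_⟩⟩
  intro a ha i
  -- the integral series of the relation
  set S : LaurentSeries (_root_.Fermat.Agent.A2.Mod.RE P E) :=
    ∑ i, aeval (H708.castA (_root_.Fermat.Agent.A2.Mod.RE P E) (xZ q)) (a i) * H708.castA (_root_.Fermat.Agent.A2.Mod.RE P E) (monoZ M q Y i) with hSdef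
  have hcoe : ((∑ i, ev P E (M * q) (xE E M q) (a i) * αE E M q (gFam E M q hY i) :
      _root_.Fermat.Agent.A2.Mod.FE E (M * q)) : LaurentSeries E) = H708.incl (_root_.Fermat.Agent.A2.Mod.RE P E) S := by
    rw [hSdef, map_sum, IntermediateField.coe_sum]
    refine Finset.sum_congr rfl fun i _ => ?_
    rw [IntermediateField.coe_mul, coe_ev P E (xE E M q) _ (coe_xE P E M q) (a i),
      coe_heckeAlphaBar, coe_gFam P, map_mul]
  have hw0 : w ≠ 0 := hS.unif.ne_zero
  have hwm : w ∈ IsLocalRing.maximalIdeal (_root_.Fermat.Agent.A2.Mod.RE P E) := by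
    rw [IsLocalRing.mem_maximalIdeal, mem_nonunits_iff]
    exact hS.unif.not_isUnit
  have hred := red_eq_zero_of_inW hV hw0 hwm hcoe ha
  rw [hSdef, map_sum] at hred
  have hred' : ∑ i, aeval (jqModC (IsLocalRing.ResidueField (_root_.Fermat.Agent.A2.Mod.RE P E)) ^ (q + 1))
      ((a i).map (IsLocalRing.residue (_root_.Fermat.Agent.A2.Mod.RE P E))) *
      (castL (IsLocalRing.ResidueField (_root_.Fermat.Agent.A2.Mod.RE P E)) (Y (finProdFinEquiv.symm i).2) *
        jqModC (IsLocalRing.ResidueField (_root_.Fermat.Agent.A2.Mod.RE P E)) ^ ((finProdFinEquiv.symm i).1 : ℕ)) = 0 := by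
    rw [← hred]
    refine Finset.sum_congr rfl fun i _ => ?_
    rw [map_mul, H708.red, Fermat.Agent.S28.H325.coeffMap_aeval, ← H708.red, red_castA, red_castA,
      castL_xZ q hS.q_prime, castL_monoZ]
  have hzero := polyIndep_tower (q + 1) (Nat.succ_pos q) _ _ hYi
    (fun i => (a i).map (IsLocalRing.residue (_root_.Fermat.Agent.A2.Mod.RE P E))) hred' i
  exact C_dvd_of_map_residue_eq_zero P E hdvr hS.unif hzero

end Main

/-- **L9** `IndInf` (exact shape of `Spec.IndInfStatement`). -/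
theorem indInf (P : ValuationSubring _root_.Fermat.Agent.A2.Mod.Qb) (E : IntermediateField ℚ _root_.Fermat.Agent.A2.Mod.Qb) (M q : ℕ) [NeZero q]
    (w : _root_.Fermat.Agent.A2.Mod.RE P E) : IndInfStatement P E M q w := by
  intro hS V hV
  have : NeZero M := ⟨hS.M_ne_zero⟩
  obtain ⟨g, -, hg⟩ := indInf_strong P E M q w hS
  exact ⟨fun i => αE E M q (g i), (hg V hV).1, (hg V hV).2⟩

end Fermat.Agent.A2.Mod.H753

end

end
-- ===== PACK-END A2/Mod/H753/IndInf.lean

-- ===== PACK-BEGIN A2/Mod/H96/L12.lean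
section




/-!
# A2 / MOD leaf L12 (helper96): the Kronecker congruence, semilinear form

`kron : KronStatement P E M q w` (`Mod/Spec.lean`, verbatim):
for `a ∈ V∞_M` there is `a' ∈ V∞_M` with `β a ≡ (α a')^q mod w V∞` at level `M q`.

Proof.  `a = U₁/U₂` with `U₁, U₂ ∈ R((t)) ∩ F_M`, `Ū₂ ≠ 0`.  By `S28.CoreData M k` (good reduction
at level `M`, via `S18.H516.red_mem_of_incl_mem`) the residues `Ū₁, Ū₂` lie in
`F_k = k(j̄_d : d ∣ M)`.  `F_k` is stable under the inverse Frobenius twist of the coefficients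
(`exists_frob_root_of_mem_fullC`: `k` is perfect, the generators have coefficients in `𝔽_q`): there
is `r' ∈ F_k` with `r'^q = (Ū₁/Ū₂)(t^q)`.  Lift `r' = W̄₁/W̄₂` (`exists_lift_of_mem_fullC`) and put
`a' := W₁/W₂`.  Then `β a − (α a')^q = (U₁(t^q) W₂^q − W₁^q U₂(t^q)) / (U₂(t^q) W₂^q)`, the
denominator is primitive and the numerator reduces to `0`, hence is divisible by `w`.
-/

set_option autoImplicit false
set_option linter.unusedSectionVars false
set_option linter.style.haveILetI false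
set_option synthInstance.maxHeartbeats 400000
set_option maxHeartbeats 1600000

noncomputable section

namespace Fermat.Agent.A2.Mod.H96

open ModularCurve HahnSeries Fermat.Agent.S28

section Residue

variable (P : ValuationSubring _root_.Fermat.Agent.A2.Mod.Qb) (E : IntermediateField ℚ _root_.Fermat.Agent.A2.Mod.Qb)

/-- `R_E` lies over `q` if `P` does. -/
theorem liesOver_RE {q : ℕ} (hP : P.LiesOverPrime q) : (_root_.Fermat.Agent.A2.Mod.RE P E).LiesOverPrime q := by
  have h1 : P.valuation ((q : ℕ) : _root_.Fermat.Agent.A2.Mod.Qb) < 1 := (ValuationSubring.mem_nonunits_iff _).mp hP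
  show ((q : ℕ) : E) ∈ (_root_.Fermat.Agent.A2.Mod.RE P E).nonunits
  rw [ValuationSubring.mem_nonunits_iff_exists_mem_maximalIdeal]
  have hmem : ((q : ℕ) : E) ∈ _root_.Fermat.Agent.A2.Mod.RE P E := by
    show algebraMap E _root_.Fermat.Agent.A2.Mod.Qb ((q : ℕ) : E) ∈ P
    rw [map_natCast]
    exact natCast_mem P q
  refine ⟨hmem, ?_⟩
  rw [IsLocalRing.mem_maximalIdeal, mem_nonunits_iff]
  intro hu
  obtain ⟨s, hs⟩ := isUnit_iff_exists_inv.mp hu
  have h2 : ((q : ℕ) : _root_.Fermat.Agent.A2.Mod.Qb) * algebraMap E _root_.Fermat.Agent.A2.Mod.Qb (s : E) = 1 := by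
    have := congrArg (fun z : _root_.Fermat.Agent.A2.Mod.RE P E => algebraMap E _root_.Fermat.Agent.A2.Mod.Qb (z : E)) hs
    simpa using this
  have h3 : P.valuation (algebraMap E _root_.Fermat.Agent.A2.Mod.Qb (s : E)) ≤ 1 :=
    (P.valuation_le_one_iff _).mpr s.2
  have h4 := congrArg P.valuation h2
  rw [map_mul, map_one] at h4
  have h5 : P.valuation ((q : ℕ) : _root_.Fermat.Agent.A2.Mod.Qb) * P.valuation (algebraMap E _root_.Fermat.Agent.A2.Mod.Qb (s : E)) < 1 :=
    calc P.valuation ((q : ℕ) : _root_.Fermat.Agent.A2.Mod.Qb) * P.valuation (algebraMap E _root_.Fermat.Agent.A2.Mod.Qb (s : E))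
        ≤ P.valuation ((q : ℕ) : _root_.Fermat.Agent.A2.Mod.Qb) * 1 := mul_le_mul_right h3 _
      _ = P.valuation ((q : ℕ) : _root_.Fermat.Agent.A2.Mod.Qb) := mul_one _
      _ < 1 := h1
  exact absurd h4 h5.ne

/-- Every element of `R_E` is a root of an integer polynomial which is nonzero modulo `q`. -/
theorem exists_intPoly_residue (r : _root_.Fermat.Agent.A2.Mod.RE P E) {q : ℕ} (hq : q.Prime) :
    ∃ G : Polynomial ℤ, G.map (Int.castRingHom (ZMod q)) ≠ 0 ∧
      Polynomial.eval₂ (Int.castRingHom (_root_.Fermat.Agent.A2.Mod.RE P E)) r G = 0 := by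
  haveI : Fact q.Prime := ⟨hq⟩
  have halgQ : IsAlgebraic ℚ ((r : E) : _root_.Fermat.Agent.A2.Mod.Qb) := (AlgebraicClosure.isAlgebraic ℚ).isAlgebraic _
  have halgZ : IsAlgebraic ℤ ((r : E) : _root_.Fermat.Agent.A2.Mod.Qb) := (IsFractionRing.isAlgebraic_iff ℤ ℚ _root_.Fermat.Agent.A2.Mod.Qb).mpr halgQ
  obtain ⟨G, hG0, hG⟩ := halgZ
  have hprim : G.primPart.IsPrimitive := Polynomial.isPrimitive_primPart G
  have hev : Polynomial.aeval ((r : E) : _root_.Fermat.Agent.A2.Mod.Qb) G.primPart = 0 := by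
    have h1 := G.eq_C_content_mul_primPart
    rw [h1, map_mul, Polynomial.aeval_C] at hG
    rcases mul_eq_zero.mp hG with h | h
    · exfalso
      have : (G.content : _root_.Fermat.Agent.A2.Mod.Qb) = 0 := by simpa using h
      have h2 : G.content = 0 := by exact_mod_cast this
      exact hG0 (Polynomial.content_eq_zero_iff.mp h2)
    · exact h
  refine ⟨G.primPart, ?_, ?_⟩
  · intro h0
    have hdvd : Polynomial.C (q : ℤ) ∣ G.primPart := by
      rw [Polynomial.C_dvd_iff_dvd_coeff]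
      intro i
      have := congrArg (fun Q : Polynomial (ZMod q) => Q.coeff i) h0
      simp only [Polynomial.coeff_map, Polynomial.coeff_zero, eq_intCast] at this
      exact (ZMod.intCast_zmod_eq_zero_iff_dvd _ _).mp this
    have hu := hprim _ hdvd
    have : IsUnit (q : ℤ) := hu
    rw [Int.isUnit_iff] at this
    have hq2 := hq.two_le
    omega
  · have hinj : Function.Injective ((algebraMap E _root_.Fermat.Agent.A2.Mod.Qb).comp (_root_.Fermat.Agent.A2.Mod.RE P E).subtype) := by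
      intro a b h
      exact Subtype.ext (Subtype.ext h)
    apply hinj
    rw [map_zero, Polynomial.hom_eval₂]
    have : (((algebraMap E _root_.Fermat.Agent.A2.Mod.Qb).comp (_root_.Fermat.Agent.A2.Mod.RE P E).subtype).comp (Int.castRingHom (_root_.Fermat.Agent.A2.Mod.RE P E))) =
        algebraMap ℤ _root_.Fermat.Agent.A2.Mod.Qb := RingHom.ext_int _ _
    rw [this]
    exact hev

/-- The residue field of `R_E` is perfect: Frobenius is surjective. -/
theorem exists_pow_eq_residue {q : ℕ} (hq : q.Prime) (hP : P.LiesOverPrime q)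
    (c : IsLocalRing.ResidueField (_root_.Fermat.Agent.A2.Mod.RE P E)) :
    ∃ c' : IsLocalRing.ResidueField (_root_.Fermat.Agent.A2.Mod.RE P E), c' ^ q = c := by
  haveI : Fact q.Prime := ⟨hq⟩
  haveI : CharP (IsLocalRing.ResidueField (_root_.Fermat.Agent.A2.Mod.RE P E)) q :=
    Fermat.Agent.S18.H516.charP_residue (_root_.Fermat.Agent.A2.Mod.RE P E) (liesOver_RE P E hP)
  letI : Algebra (ZMod q) (IsLocalRing.ResidueField (_root_.Fermat.Agent.A2.Mod.RE P E)) := ZMod.algebra _ q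
  haveI : Algebra.IsAlgebraic (ZMod q) (IsLocalRing.ResidueField (_root_.Fermat.Agent.A2.Mod.RE P E)) := by
    refine ⟨fun x => ?_⟩
    obtain ⟨r', rfl⟩ := IsLocalRing.residue_surjective x
    obtain ⟨G, hG0, hG⟩ := exists_intPoly_residue P E r' hq
    refine ⟨G.map (Int.castRingHom (ZMod q)), hG0, ?_⟩
    rw [Polynomial.aeval_def, Polynomial.eval₂_map]
    have h1 : (algebraMap (ZMod q) (IsLocalRing.ResidueField (_root_.Fermat.Agent.A2.Mod.RE P E))).comp
        (Int.castRingHom (ZMod q)) =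
        (IsLocalRing.residue (_root_.Fermat.Agent.A2.Mod.RE P E)).comp (Int.castRingHom (_root_.Fermat.Agent.A2.Mod.RE P E)) := RingHom.ext_int _ _
    rw [h1, ← Polynomial.hom_eval₂, hG, map_zero]
  haveI : PerfectField (IsLocalRing.ResidueField (_root_.Fermat.Agent.A2.Mod.RE P E)) :=
    Algebra.IsAlgebraic.perfectField (ZMod q)
  haveI : ExpChar (IsLocalRing.ResidueField (_root_.Fermat.Agent.A2.Mod.RE P E)) q := ExpChar.prime hq
  obtain ⟨y, hy⟩ := surjective_frobenius (IsLocalRing.ResidueField (_root_.Fermat.Agent.A2.Mod.RE P E)) q c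
  exact ⟨y, hy⟩

end Residue

section Divide

variable {L : Type*} [Field L] (A : ValuationSubring L)

/-- An integral series with zero reduction is divisible by a uniformiser. -/
theorem exists_incl_eq_inv_mul [IsDiscreteValuationRing A] {w : A} (hw : Irreducible w)
    {U : LaurentSeries A} (hU : H708.red A U = 0) :
    ∃ U' : LaurentSeries A, H708.incl A U' = H708.cst ((w : L))⁻¹ * H708.incl A U := by
  apply H708.exists_incl_eq
  intro n
  rw [H708.coeff_cst_mul, H708.coeff_incl]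
  have h1 : A.valuation ((U.coeff n : A) : L) < 1 := (H708.red_eq_zero_iff A U).mp hU n
  have h2 : U.coeff n ∈ IsLocalRing.maximalIdeal A := (A.valuation_lt_one_iff _).mpr h1
  rw [hw.maximalIdeal_eq, Ideal.mem_span_singleton'] at h2
  obtain ⟨y, hy⟩ := h2
  have hw0 : (w : L) ≠ 0 := by
    intro h
    exact hw.ne_zero (Subtype.ext h)
  have h3 : ((U.coeff n : A) : L) = (y : L) * (w : L) := by
    rw [← hy]; rfl
  rw [h3, mul_comm (y : L), ← mul_assoc, inv_mul_cancel₀ hw0, one_mul]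
  exact y.2

end Divide

section Main

variable (P : ValuationSubring _root_.Fermat.Agent.A2.Mod.Qb) (E : IntermediateField ℚ _root_.Fermat.Agent.A2.Mod.Qb) (M q : ℕ) [NeZero M] [NeZero q]
  (w : _root_.Fermat.Agent.A2.Mod.RE P E)

/-- **L12 (Kronecker, semilinear form).** -/
theorem kron : KronStatement P E M q w := by
  intro hS VM V hVM hV a ha
  have hq := hS.q_prime
  haveI : Fact q.Prime := ⟨hq⟩
  haveI := hS.dvr
  have hAq : (_root_.Fermat.Agent.A2.Mod.RE P E).LiesOverPrime q := liesOver_RE P E hS.lies_over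
  haveI : CharP (IsLocalRing.ResidueField (_root_.Fermat.Agent.A2.Mod.RE P E)) q :=
    Fermat.Agent.S18.H516.charP_residue (_root_.Fermat.Agent.A2.Mod.RE P E) hAq
  have core : CoreData M (IsLocalRing.ResidueField (_root_.Fermat.Agent.A2.Mod.RE P E)) :=
    Fermat.Agent.S18.H516.coreData_of_charP M q hS.q_not_dvd _
  -- a representation of `a`
  obtain ⟨U₁, U₂, hU₂, hU₂F, hU⟩ := (hVM a).mp ha
  have hU₁F : H708.incl (_root_.Fermat.Agent.A2.Mod.RE P E) U₁ ∈ _root_.Fermat.Agent.A2.Mod.FE E M := by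
    rw [← hU]; exact mul_mem a.2 hU₂F
  -- the residues lie in `F_k`
  have hr₁ : H708.red (_root_.Fermat.Agent.A2.Mod.RE P E) U₁ ∈ modularFunctionFieldFullC _ M :=
    Fermat.Agent.S18.H516.red_mem_of_incl_mem (_root_.Fermat.Agent.A2.Mod.RE P E) (IsLocalRing.residue _) M core hU₁F
  have hr₂ : H708.red (_root_.Fermat.Agent.A2.Mod.RE P E) U₂ ∈ modularFunctionFieldFullC _ M :=
    Fermat.Agent.S18.H516.red_mem_of_incl_mem (_root_.Fermat.Agent.A2.Mod.RE P E) (IsLocalRing.residue _) M core hU₂F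
  -- the Frobenius twist of the residue of `a`
  obtain ⟨r', hr', hr'e⟩ := exists_frob_root_of_mem_fullC _ q M hq
    (exists_pow_eq_residue P E hq hS.lies_over) (mul_mem hr₁ (inv_mem hr₂))
  -- lift it
  obtain ⟨W₁, W₂, hW₁F, hW₂F, hW₂, hW⟩ := exists_lift_of_mem_fullC (_root_.Fermat.Agent.A2.Mod.RE P E) M hr'
  have hW₂0 : H708.incl (_root_.Fermat.Agent.A2.Mod.RE P E) W₂ ≠ 0 :=
    H708.incl_ne_zero _ (H708.ne_zero_of_red_ne_zero _ hW₂)
  have hU₂0 : H708.incl (_root_.Fermat.Agent.A2.Mod.RE P E) U₂ ≠ 0 :=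
    H708.incl_ne_zero _ (H708.ne_zero_of_red_ne_zero _ hU₂)
  set a' : _root_.Fermat.Agent.A2.Mod.FE E M := ⟨H708.incl (_root_.Fermat.Agent.A2.Mod.RE P E) W₁, hW₁F⟩ * (⟨H708.incl (_root_.Fermat.Agent.A2.Mod.RE P E) W₂, hW₂F⟩)⁻¹ with ha'
  have ha'c : (a' : LaurentSeries E) = H708.incl (_root_.Fermat.Agent.A2.Mod.RE P E) W₁ * (H708.incl (_root_.Fermat.Agent.A2.Mod.RE P E) W₂)⁻¹ := by
    rw [ha', IntermediateField.coe_mul, IntermediateField.coe_inv]
  have ha'V : a' ∈ VM := by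
    rw [hVM]
    refine ⟨W₁, W₂, hW₂, hW₂F, ?_⟩
    rw [ha'c, mul_assoc, inv_mul_cancel₀ hW₂0, mul_one]
  refine ⟨a', ha'V, ?_⟩
  -- the numerator
  set Wn : LaurentSeries (_root_.Fermat.Agent.A2.Mod.RE P E) :=
    qExpand _ q U₁ * W₂ ^ q - W₁ ^ q * qExpand _ q U₂ with hWn
  have hρ₂ : qExpand _ q (H708.red (_root_.Fermat.Agent.A2.Mod.RE P E) U₂) ≠ 0 := by
    rw [Ne, map_eq_zero_iff _ (RingHom.injective _)]
    exact hU₂
  have hred : H708.red (_root_.Fermat.Agent.A2.Mod.RE P E) Wn = 0 := by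
    rw [hWn, map_sub, map_mul, map_mul, map_pow, map_pow]
    show coeffMap _ (qExpand _ q U₁) * _ - _ * coeffMap _ (qExpand _ q U₂) = 0
    rw [coeffMap_qExpand, coeffMap_qExpand]
    show qExpand _ q (H708.red (_root_.Fermat.Agent.A2.Mod.RE P E) U₁) * _ - _ * qExpand _ q (H708.red (_root_.Fermat.Agent.A2.Mod.RE P E) U₂) = 0
    rw [hW, mul_pow, hr'e, map_mul, map_inv₀]
    field_simp
    ring
  obtain ⟨W', hW'⟩ := exists_incl_eq_inv_mul (_root_.Fermat.Agent.A2.Mod.RE P E) hS.unif hred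
  -- conclusion
  show (βE E M q a - (αE E M q a') ^ q) * (cE P E (M * q) w)⁻¹ ∈ V
  rw [hV]
  refine ⟨W', qExpand _ q U₂ * W₂ ^ q, ?_, ?_, ?_⟩
  · rw [map_mul, map_pow]
    show coeffMap _ (qExpand _ q U₂) * _ ≠ 0
    rw [coeffMap_qExpand]
    exact mul_ne_zero hρ₂ (pow_ne_zero _ hW₂)
  · rw [map_mul, map_pow]
    show coeffMap _ (qExpand _ q U₂) * _ ∈ _
    rw [coeffMap_qExpand]
    exact mul_mem (βE E M q ⟨H708.incl (_root_.Fermat.Agent.A2.Mod.RE P E) U₂, hU₂F⟩).2
      (pow_mem (αE E M q ⟨H708.incl (_root_.Fermat.Agent.A2.Mod.RE P E) W₂, hW₂F⟩).2 _)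
  · rw [hW']
    have hc : (((βE E M q a - (αE E M q a') ^ q) * (cE P E (M * q) w)⁻¹ : _root_.Fermat.Agent.A2.Mod.FE E (M * q)) :
        LaurentSeries E) =
        (qExpand E q (a : LaurentSeries E) - (a' : LaurentSeries E) ^ q) *
          (H708.cst ((w : E)))⁻¹ := rfl
    have hcst : H708.cst ((w : E))⁻¹ = (H708.cst ((w : E)))⁻¹ := map_inv₀ _ _
    have hq1 : H708.incl (_root_.Fermat.Agent.A2.Mod.RE P E) (qExpand _ q U₁) = qExpand E q (H708.incl (_root_.Fermat.Agent.A2.Mod.RE P E) U₁) :=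
      coeffMap_qExpand _ q U₁
    have hq2 : H708.incl (_root_.Fermat.Agent.A2.Mod.RE P E) (qExpand _ q U₂) = qExpand E q (H708.incl (_root_.Fermat.Agent.A2.Mod.RE P E) U₂) :=
      coeffMap_qExpand _ q U₂
    have hpow : (a' : LaurentSeries E) ^ q * (H708.incl (_root_.Fermat.Agent.A2.Mod.RE P E) W₂) ^ q =
        (H708.incl (_root_.Fermat.Agent.A2.Mod.RE P E) W₁) ^ q := by
      rw [ha'c, ← mul_pow, mul_assoc, inv_mul_cancel₀ hW₂0, mul_one]
    rw [hc, hcst, hWn, map_sub, map_mul, map_mul, map_mul, map_pow, map_pow, hq1, hq2,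
      ← hU, map_mul, ← hpow]
    ring

end Main

end Fermat.Agent.A2.Mod.H96

end
end
-- ===== PACK-END A2/Mod/H96/L12.lean

-- ===== PACK-BEGIN Ribet/H819/PerCov.lean
section



/-!
# Row 38, WALL-p, (S4) WILD: bridge from `PerCtx` to the carriers of `H712.Frame` (helper819)

`H712.Frame.nonempty_wildFrame` (on main) builds `Nonempty (WildFrame …)` on the carriers
`cov ι h = closure (range ι ∪ {h}) ⊆ K((t))` with deck transformation `covDeck`, and takes PER in
`t`-expansion form.  This file feeds it from `PerCtx`: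

`c : PerCtx K`, `ι₁ : K₁ →+* K((t))` with `c.F₁ = ι₁.fieldRange`, `ι₂ : K₂ →+* K((t))` with
`c.F₂ = ι₂.fieldRange`.

* `cov_eq_Fc : cov ι₁ c.h = c.Fc`, `cov_eq_L : cov ι₂ c.h = c.L.toSubfield`;
* `coe_covDeck : ↑(covDeck ι₁ c.h … z) = ↑(c.tauA ⟨z, _⟩)`;
* **`per_cov`** : from the ambient KD relation `σ₀ F = F · κ · f_t · G₀ ^ p` (`F = ι₂ f₂`):
  `f', G : cov ι₁ c.h`, `b : cov ι₂ c.h` with
  `↑(covDeck f') = ↑f' · ι₁ a · ↑G ^ p` and `ι₂ f₂ = ι₂ ℓ₂ · ↑f' · ↑b ^ p`
  = the hypotheses `hper`, `hf₂` of `H712.Frame.nonempty_wildFrame` VERBATIM.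
-/

set_option autoImplicit false
set_option linter.unusedSectionVars false
set_option linter.style.haveILetI false
set_option maxHeartbeats 400000

noncomputable section

namespace Fermat.Agent.Ribet.H819

open ModularCurve Fermat.Agent.Ribet.H712.Frame

namespace PerCtx

section Cov

variable {K : Type} [Field K] (c : PerCtx K) {K₁ : Type} [Field K₁]
  (ι₁ : K₁ →+* LaurentSeries K) (hF₁ : c.F₁ = ι₁.fieldRange)

include hF₁ in
theorem cov_eq_Fc : cov ι₁ c.h = c.Fc := by
  rw [cov, Fc, hF₁, RingHom.coe_fieldRange]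

include hF₁ in
theorem mem_FcI_of_mem_cov {z : LaurentSeries K} (hz : z ∈ cov ι₁ c.h) : z ∈ c.FcI := by
  rw [c.mem_FcI_iff, ← c.cov_eq_Fc ι₁ hF₁]
  exact hz

include hF₁ in
theorem mem_cov_of_mem_FcI {z : LaurentSeries K} (hz : z ∈ c.FcI) : z ∈ cov ι₁ c.h := by
  rw [c.cov_eq_Fc ι₁ hF₁, ← c.mem_FcI_iff]
  exact hz

/-- `cov ι₁ h → FcI`, as a function. -/
def covToFun (z : ↥(cov ι₁ c.h)) : ↥c.FcI := ⟨z.1, c.mem_FcI_of_mem_cov ι₁ hF₁ z.2⟩

theorem coe_covToFun (z : ↥(cov ι₁ c.h)) : (c.covToFun ι₁ hF₁ z).1 = z.1 := Subtype.coe_mk _ _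

/-- `cov ι₁ h → FcI` (the identity on underlying Laurent series). -/
def covTo : ↥(cov ι₁ c.h) →+* ↥c.FcI where
  toFun := c.covToFun ι₁ hF₁
  map_one' := by
    apply Subtype.ext
    rw [coe_covToFun, IntermediateField.coe_one]
    rfl
  map_mul' x y := by
    apply Subtype.ext
    rw [coe_covToFun, IntermediateField.coe_mul, coe_covToFun, coe_covToFun]
    rfl
  map_zero' := by
    apply Subtype.ext
    rw [coe_covToFun, IntermediateField.coe_zero]
    rfl
  map_add' x y := by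
    apply Subtype.ext
    rw [coe_covToFun, IntermediateField.coe_add, coe_covToFun, coe_covToFun]
    rfl

theorem coe_covTo (z : ↥(cov ι₁ c.h)) :
    ((c.covTo ι₁ hF₁ z : ↥c.FcI) : LaurentSeries K) = (z : LaurentSeries K) :=
  c.coe_covToFun ι₁ hF₁ z

/-- The deck transformation `tauA`, as a ring homomorphism `cov ι₁ h → K((t))`. -/
def covDeckHom : ↥(cov ι₁ c.h) →+* LaurentSeries K :=
  ((algebraMap ↥c.FcI (LaurentSeries K)).comp (c.tauA : ↥c.FcI →+* ↥c.FcI)).comp
    (c.covTo ι₁ hF₁)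

theorem covDeckHom_apply (z : ↥(cov ι₁ c.h)) :
    c.covDeckHom ι₁ hF₁ z = ((c.tauA (c.covTo ι₁ hF₁ z) : ↥c.FcI) : LaurentSeries K) := rfl

variable {ζ₁ a₁ : K₁} (hζ₁ : IsPrimitiveRoot ζ₁ c.p) (hζc : ι₁ ζ₁ = HahnSeries.C c.ζ)
  (ha₁ : c.h ^ c.p = ι₁ a₁) (hh : c.h ∉ Set.range ι₁)

include hζc in
/-- **`covDeck = tauA`** on underlying Laurent series. -/
theorem coe_covDeck (z : ↥(cov ι₁ c.h)) :
    letI := covAlgebra ι₁ c.h
    ((covDeck ι₁ c.h c.hp hζ₁ ha₁ hh z : ↥(cov ι₁ c.h)) : LaurentSeries K) =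
      ((c.tauA (c.covTo ι₁ hF₁ z) : ↥c.FcI) : LaurentSeries K) := by
  letI := covAlgebra ι₁ c.h
  rw [← c.covDeckHom_apply ι₁ hF₁ z]
  refine covDeck_eq_of_ringHom ι₁ c.h c.hp hζ₁ ha₁ hh (c.covDeckHom ι₁ hF₁) ?_ ?_ z
  · intro x
    rw [covDeckHom_apply]
    have hx : ι₁ x ∈ c.F₁ := by
      rw [hF₁]
      exact RingHom.mem_fieldRange.mpr ⟨x, rfl⟩
    have e : c.covTo ι₁ hF₁ (covMap ι₁ c.h x) = algebraMap ↥c.F₁ ↥c.FcI ⟨ι₁ x, hx⟩ := by
      apply Subtype.ext
      rw [coe_covTo, IntermediateField.coe_algebraMap_apply]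
      rfl
    rw [e, AlgEquiv.commutes, IntermediateField.coe_algebraMap_apply]
    rfl
  · rw [covDeckHom_apply]
    have e : c.covTo ι₁ hF₁ (covGen ι₁ c.h) = c.hI := by
      apply Subtype.ext
      rw [coe_covTo]
      rfl
    rw [e, c.coe_tauA_hI, hζc]
    rfl

end Cov

section Per

variable {K : Type} [Field K] [Algebra ℚ K] (F₀ : IntermediateField ℚ (LaurentSeries ℚ))
  (c : PerCtx K) {E₁ E₂ : IntermediateField ℚ K}
  (hF₁ : c.F₁ = imBC F₀ E₁)
  (hE : E₂.toSubfield = Subfield.closure ((E₁ : Set K) ∪ {c.u}))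

include hF₁ hE in
theorem cov_eq_L : cov (embBC F₀ E₂) c.h = c.L.toSubfield := by
  have hF₂ : c.F₂ = (embBC F₀ E₂).fieldRange := c.F₂_eq_imBC F₀ hF₁ hE
  apply le_antisymm
  · apply cov_le
    · intro x
      apply c.mem_L_of_mem_F₂
      rw [hF₂]
      exact RingHom.mem_fieldRange.mpr ⟨x, rfl⟩
    · exact c.h_mem_L
  · apply c.L_le
    · intro z hz
      have : z ∈ c.F₂ := c.F₁_le_F₂ hz
      rw [hF₂] at this
      obtain ⟨x, rfl⟩ := RingHom.mem_fieldRange.mp this
      exact map_mem_cov _ _ x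
    · have : c.uC ∈ c.F₂ := c.uC_mem_F₂
      rw [hF₂] at this
      obtain ⟨x, hx⟩ := RingHom.mem_fieldRange.mp this
      rw [← hx]
      exact map_mem_cov _ _ x
    · exact gen_mem_cov _ _

variable [Algebra ↥(laurentBaseChange ↥E₁ F₀) ↥(laurentBaseChange ↥E₂ F₀)]

include hF₁ hE in
/-- **PER on the carriers of `H712.Frame`**: the hypotheses `hper`, `hf₂` of
`H712.Frame.nonempty_wildFrame` from the ambient KD relation. -/
theorem per_cov (hE₁ : c.E₁ = E₁.toSubfield)
    {ζ₁ : ↥(laurentBaseChange ↥E₁ F₀)} (hζ₁ : IsPrimitiveRoot ζ₁ c.p)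
    (hζc : embBC F₀ E₁ ζ₁ = HahnSeries.C c.ζ)
    (ft : ↥(laurentBaseChange ↥E₁ F₀)) (hft : c.h ^ c.p = embBC F₀ E₁ ft)
    (hh : c.h ∉ Set.range (embBC F₀ E₁))
    (a : ↥(laurentBaseChange ↥E₁ F₀)) (ha : embBC F₀ E₁ a = HahnSeries.C (c.u ^ c.p))
    (f₂ G₀ ℓ₂ : ↥(laurentBaseChange ↥E₂ F₀)) (hf₂0 : f₂ ≠ 0)
    (hℓ : embBC F₀ E₂ ℓ₂ = HahnSeries.C (embBC F₀ E₂ f₂).leadingCoeff)
    (κ : K) (hκ : κ ∈ E₂)
    (hσ : coeffMap (c.σ₀ : K →+* K) (embBC F₀ E₂ f₂) =
      embBC F₀ E₂ f₂ * HahnSeries.C κ * embBC F₀ E₁ ft * (embBC F₀ E₂ G₀) ^ c.p) :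
    letI := covAlgebra (embBC F₀ E₁) c.h
    ∃ (f' G : ↥(cov (embBC F₀ E₁) c.h)) (b : ↥(cov (embBC F₀ E₂) c.h)),
      f' ≠ 0 ∧ G ≠ 0 ∧ b ≠ 0 ∧
      ((covDeck (embBC F₀ E₁) c.h c.hp hζ₁ hft hh f' : ↥(cov (embBC F₀ E₁) c.h)) :
          LaurentSeries K) =
        (f' : LaurentSeries K) * embBC F₀ E₁ a * (G : LaurentSeries K) ^ c.p ∧
      embBC F₀ E₂ f₂ =
        embBC F₀ E₂ ℓ₂ * (f' : LaurentSeries K) * (b : LaurentSeries K) ^ c.p := by
  letI := covAlgebra (embBC F₀ E₁) c.h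
  have hF₁' : c.F₁ = (embBC F₀ E₁).fieldRange := hF₁
  obtain ⟨f', G, b, hf', hG, hb, hτ, hfeq⟩ :=
    c.shell_period_BC F₀ hF₁ hE hE₁ ft hft a ha f₂ G₀ ℓ₂ hf₂0 hℓ κ hκ hσ
  have hτ' := congrArg (fun z : ↥c.FcI => (z : LaurentSeries K)) hτ
  have hfeq' := congrArg (fun z : ↥c.L => (z : LaurentSeries K)) hfeq
  simp only [IntermediateField.coe_mul, IntermediateField.coe_pow] at hτ' hfeq'
  refine ⟨⟨(f' : LaurentSeries K), c.mem_cov_of_mem_FcI _ hF₁' f'.2⟩,
    ⟨(G : LaurentSeries K), c.mem_cov_of_mem_FcI _ hF₁' G.2⟩,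
    ⟨(b : LaurentSeries K), by
      have : (b : LaurentSeries K) ∈ c.L.toSubfield := b.2
      rw [← c.cov_eq_L F₀ hF₁ hE] at this
      exact this⟩, ?_, ?_, ?_, ?_, ?_⟩
  · intro h0
    apply hf'
    apply Subtype.ext
    have := congrArg (fun z : ↥(cov (embBC F₀ E₁) c.h) => (z : LaurentSeries K)) h0
    exact this
  · intro h0
    apply hG
    apply Subtype.ext
    have := congrArg (fun z : ↥(cov (embBC F₀ E₁) c.h) => (z : LaurentSeries K)) h0
    exact this
  · intro h0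
    apply hb
    apply Subtype.ext
    have := congrArg (fun z : ↥(cov (embBC F₀ E₂) c.h) => (z : LaurentSeries K)) h0
    exact this
  · rw [c.coe_covDeck (embBC F₀ E₁) hF₁' hζ₁ hζc hft hh]
    have e : c.covTo (embBC F₀ E₁) hF₁' ⟨(f' : LaurentSeries K),
        c.mem_cov_of_mem_FcI _ hF₁' f'.2⟩ = f' := by
      apply Subtype.ext
      rw [coe_covTo]
    rw [e]
    rw [c.tauF_apply] at hτ'
    rw [hτ', c.coe_algebraMap_algF', coe_e₁BC]
  · rw [c.coe_algebraMap_algL, c.coe_algebraMap_algL, coe_e₂BC, coe_e₂BC, c.algebraMap_algLL,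
      c.coe_incl] at hfeq'
    exact hfeq'

end Per

end PerCtx

end Fermat.Agent.Ribet.H819

end

end
-- ===== PACK-END Ribet/H819/PerCov.lean

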