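import Mathlib
import Fermat.Agent.Pack.S44.G0E23L2
import Fermat.Agent.Pack.S44.G0E16L0
import Fermat.Agent.Pack.S44.G0E20L2
import Fermat.Agent.Pack.S44.G0E21L1
import Fermat.Agent.Pack.S44.G0E16L1
import Fermat.Agent.Pack.S44.G0E23L1
import Fermat.Agent.Pack.S44.G0E19L1
import Fermat.Agent.Pack.S44.G0E8L2
import Fermat.Agent.Pack.S44.G0E18L2
import Fermat.Agent.Pack.S44.G0E23L0
import Fermat.Agent.Pack.S44.G0E21L2
import Fermat.Agent.Pack.S44.G0E15L2
import Fermat.Agent.Pack.S44.G0E3L0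
import Fermat.Agent.Pack.S44.G0E19L0
import Fermat.Agent.Pack.S44.G0E22L2
import Fermat.Agent.Pack.S44.G0E7L3
import Fermat.Agent.Pack.S44.G0E11L1
import Fermat.Agent.Pack.S44.G0E18L3
import Fermat.Agent.Pack.S44.G0E23L3
import Fermat.Agent.Pack.S44.G0E4L2
import Fermat.Agent.Pack.S44.G0E17L1
import Fermat.Agent.Pack.S44.G0E17L2
import Fermat.Agent.Pack.S44.G0E17L0
import Fermat.Agent.Pack.S44.G0E15L1
import Fermat.Agent.Pack.S44.G0E5L0
import Fermat.Agent.Pack.S44.G1E0L0
import Fermat.Agent.Pack.S44.G0E22L1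

-- ===== PACK-BEGIN Lib/X0Deg/Gen.lean
section


/-!
# X0DEG (helper760): `ℚ̄(X₀(M)) = ℚ̄(j, j(q^M))`

* `adjoin_jF_jMF_eq_top` : `ℚ̄(j)(j_M) = F̄_M` (as intermediate field of `F̄_M / ℚ̄(j)`);
* `modularFunctionFieldBar_eq_adjoin_pair` : `F̄_M = ℚ̄(j, j(q^M))` inside `ℚ̄((q))`;
* `modularFunctionFieldBar_eq_sup` : `N ∣ M → F̄_M = F̄_N ⊔ ℚ̄(j(q^M))`;
* `modularFunctionFieldBar_square` : `F̄_{Nℓℓ'} = F̄_{Nℓ} ⊔ V_ℓ(F̄_{Nℓ'})` (the square used for the
  commutation of Hecke operators is "cartesian").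

Proof: the `ψ(M)` embeddings `σ_x : F̄_M → ℂ((z))` of S24 (`H997.HolBase.sigmaX`) agree on `ℚ̄(j)`
and are pairwise distinct on `j(q^M)`; compare with `[F̄_M : ℚ̄(j)] = ψ(M)`.
-/

set_option autoImplicit false

noncomputable section

open ModularCurve AlgebraicCurve IntermediateField
open Fermat.Agent.S24

namespace Fermat.Agent.Lib.X0Deg

variable (M : ℕ) [NeZero M]

/-- `j(q^M)` as an element of the function field `F̄_M`. -/
def jMF : FF M := H997.inclRN M (H997.jR M M dvd_rfl)

theorem val_jMF : ((jMF M : FF M) : LaurentSeries Kbar) = jBd M := rfl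

/-- The S24 embeddings `σ_x` are pairwise distinct on `j(q^M)`. -/
theorem sigmaX_jMF_injective (B : H997.HolBase M) (X : H997.Expansion B) {x y : XX M}
    (hxy : B.sigmaX X x (jMF M) = B.sigmaX X y (jMF M)) : x = y := by
  obtain ⟨g, rfl⟩ := QuotientGroup.mk_surjective x
  obtain ⟨g', rfl⟩ := QuotientGroup.mk_surjective y
  rw [H997.HolBase.sigmaX_mk, H997.HolBase.sigmaX_mk] at hxy
  have h1 : X.E (B.compH g⁻¹ (B.JH M dvd_rfl)) = X.E (B.compH g'⁻¹ (B.JH M dvd_rfl)) := by
    have := hxy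
    simp only [jMF, H997.HolBase.sigmaG_inclRN, H997.HolBase.bridge_jR] at this
    exact this
  have h2 := X.inj h1
  apply QuotientGroup.eq.mpr
  apply B.J_distinct
  intro τ
  have h3 := congrArg (fun h : B.Hol => (h : UpperHalfPlane → ℂ) (g' • τ)) h2
  simp only [H997.HolBase.compH_apply] at h3
  rw [← mul_smul, ← mul_smul, inv_mul_cancel, one_smul] at h3
  exact h3

/-- `ℚ̄(j)(j(q^M)) = F̄_M`. -/
theorem adjoin_jF_jMF_eq_top :
    IntermediateField.adjoin ↥(IntermediateField.adjoin Kbar {jF M}) {jMF M} = ⊤ := by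
  classical
  obtain ⟨P⟩ := nonempty_modularPackage M
  have := P.finiteDimensional
  set E := IntermediateField.adjoin Kbar {jF M} with hE
  set E' := IntermediateField.adjoin ↥E {jMF M} with hE'
  let A := H997.analyticCore M
  let X := A.toHolBase.qexpExpansion
  let x0 : XX M := ((1 : Matrix.SpecialLinearGroup (Fin 2) ℤ) : XX M)
  let ψ : ↥E →+* LaurentSeries ℂ := (A.toHolBase.sigmaX X x0).comp (algebraMap ↥E (FF M))
  let _ : Algebra ↥E (LaurentSeries ℂ) := ψ.toAlgebra
  let a : XX M → (FF M →ₐ[↥E] LaurentSeries ℂ) := fun x =>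
    { A.toHolBase.sigmaX X x with
      commutes' := fun y => A.sigmaX_eq_on_adjoin X x x0 y.2 }
  let b : XX M → (↥E' →ₐ[↥E] LaurentSeries ℂ) := fun x => (a x).comp E'.val
  have hb : Function.Injective b := by
    intro x y hxy
    apply sigmaX_jMF_injective M A.toHolBase X
    have hmem : jMF M ∈ E' := IntermediateField.mem_adjoin_simple_self _ _
    have := congrArg (fun φ : ↥E' →ₐ[↥E] LaurentSeries ℂ => φ ⟨jMF M, hmem⟩) hxy
    exact this
  have : Module.Free ↥E ↥E' := Module.Free.of_divisionRing ↥E ↥E'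
  have : Module.Finite ↥E ↥E' := inferInstance
  have : Finite (↥E' →ₐ[↥E] LaurentSeries ℂ) := Finite.algHom ↥E ↥E' (LaurentSeries ℂ)
  have h1 : Nat.card (XX M) ≤ Module.finrank ↥E ↥E' :=
    calc Nat.card (XX M) ≤ Nat.card (↥E' →ₐ[↥E] LaurentSeries ℂ) :=
          Nat.card_le_card_of_injective b hb
      _ ≤ Module.finrank ↥E ↥E' := card_algHom_le_finrank ↥E ↥E' (LaurentSeries ℂ)
  have h2 : Module.finrank ↥E (FF M) = Nat.card (XX M) := P.finrank_eq
  have h3 : Module.finrank ↥E ↥E' ≤ Module.finrank ↥E (FF M) :=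
    Submodule.finrank_le (Subalgebra.toSubmodule E'.toSubalgebra)
  have h4 : Module.finrank ↥E ↥E' = Module.finrank ↥E (FF M) := le_antisymm h3 (h2 ▸ h1)
  exact IntermediateField.eq_of_le_of_finrank_eq le_top
    (by rw [h4, IntermediateField.finrank_top'])

/-- `F̄_M = ℚ̄(j, j(q^M))` inside `ℚ̄((q))`. -/
theorem modularFunctionFieldBar_eq_adjoin_pair :
    modularFunctionFieldBar M = IntermediateField.adjoin Kbar {jB, jBd M} := by
  apply le_antisymm
  · intro x hx
    have h1 : (⟨x, hx⟩ : FF M) ∈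
        IntermediateField.adjoin ↥(IntermediateField.adjoin Kbar {jF M}) {jMF M} := by
      rw [adjoin_jF_jMF_eq_top]
      exact IntermediateField.mem_top
    have h2 : (⟨x, hx⟩ : FF M) ∈ IntermediateField.adjoin Kbar ({jF M} ∪ {jMF M}) := by
      rw [← IntermediateField.adjoin_adjoin_left]
      exact h1
    have h3 : (IntermediateField.adjoin Kbar ({jF M} ∪ {jMF M} : Set (FF M))).map
        (modularFunctionFieldBar M).val = IntermediateField.adjoin Kbar {jB, jBd M} := by
      rw [IntermediateField.adjoin_map, Set.image_union, Set.image_singleton,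
        Set.image_singleton]
      rfl
    rw [← h3]
    exact ⟨⟨x, hx⟩, h2, rfl⟩
  · rw [IntermediateField.adjoin_le_iff]
    rintro x (rfl | rfl)
    · exact jB_mem M
    · exact jBd_mem dvd_rfl

/-- `N ∣ M → F̄_M = F̄_N ⊔ ℚ̄(j(q^M))`. -/
theorem modularFunctionFieldBar_eq_sup {N : ℕ} [NeZero N] (h : N ∣ M) :
    modularFunctionFieldBar M
      = modularFunctionFieldBar N ⊔ IntermediateField.adjoin Kbar {jBd M} := by
  apply le_antisymm
  · rw [modularFunctionFieldBar_eq_adjoin_pair M, IntermediateField.adjoin_le_iff]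
    rintro x (rfl | rfl)
    · exact (le_sup_left : modularFunctionFieldBar N ≤ _) (jB_mem N)
    · exact (le_sup_right : IntermediateField.adjoin Kbar {jBd M} ≤ _)
        (IntermediateField.mem_adjoin_simple_self _ _)
  · refine sup_le (modularFunctionFieldBar_mono h) ?_
    rw [IntermediateField.adjoin_le_iff]
    rintro x rfl
    exact jBd_mem dvd_rfl

theorem coeffMap_qExpand_comm {R S : Type*} [CommRing R] [CommRing S] (f : R →+* S) (n : ℕ)
    [NeZero n] (x : LaurentSeries R) : coeffMap f (qExpand R n x) = qExpand S n (coeffMap f x) := by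
  ext k
  by_cases hk : (n : ℤ) ∣ k
  · obtain ⟨m, rfl⟩ := hk
    rw [coeffMap_coeff, qExpand_coeff_mul, qExpand_coeff_mul, coeffMap_coeff]
  · rw [coeffMap_coeff, qExpand_coeff_of_not_dvd n _ hk, qExpand_coeff_of_not_dvd n _ hk,
      map_zero]

theorem qExpand_congr_level {R : Type*} [CommRing R] {a b : ℕ} [NeZero a] [NeZero b] (h : a = b)
    (f : LaurentSeries R) : qExpand R a f = qExpand R b f := by
  subst h
  rfl

/-- `V_k (j(q^M)) = j(q^{M k})`. -/
theorem qExpand_jBd (k : ℕ) [NeZero k] : qExpand Kbar k (jBd M) = jBd (M * k) := by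
  unfold jBd coeffEmb
  rw [← coeffMap_qExpand_comm, qExpand_qExpand]
  congr 1
  exact qExpand_congr_level (mul_comm k M) _

omit [NeZero M] in
/-- `V_k` maps `F̄_M` into `F̄_{M k}`. -/
theorem map_qExpand_le (k : ℕ) [NeZero k] :
    (modularFunctionFieldBar M).map (qExpandAlgHomC Kbar k) ≤ modularFunctionFieldBar (M * k) := by
  rintro _ ⟨x, hx, rfl⟩
  exact (heckeBetaBar Kbar M k ⟨x, hx⟩).2

/-- **Cartesian square, general form.** For every `N' ∣ M k`:
`F̄_{M k} = F̄_{N'} ⊔ V_k(F̄_M)`. -/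
theorem modularFunctionFieldBar_mul_eq_sup (k : ℕ) [NeZero k] {N' : ℕ} [NeZero N']
    (h : N' ∣ M * k) :
    modularFunctionFieldBar (M * k)
      = modularFunctionFieldBar N' ⊔ (modularFunctionFieldBar M).map (qExpandAlgHomC Kbar k) := by
  apply le_antisymm
  · rw [modularFunctionFieldBar_eq_adjoin_pair (M * k), IntermediateField.adjoin_le_iff]
    rintro x (rfl | rfl)
    · exact (le_sup_left : modularFunctionFieldBar N' ≤ _) (jB_mem N')
    · refine (le_sup_right : (modularFunctionFieldBar M).map (qExpandAlgHomC Kbar k) ≤ _) ?_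
      exact ⟨jBd M, jBd_mem dvd_rfl, qExpand_jBd M k⟩
  · exact sup_le (modularFunctionFieldBar_mono h) (map_qExpand_le M k)

/-- **Cartesian square for the commutation of Hecke operators.**
`F̄_{Nℓℓ'} = F̄_{Nℓ} ⊔ V_ℓ(F̄_{Nℓ'})`. -/
theorem modularFunctionFieldBar_square (N ℓ ℓ' : ℕ) [NeZero N] [NeZero ℓ] [NeZero ℓ'] :
    modularFunctionFieldBar (N * ℓ * ℓ')
      = modularFunctionFieldBar (N * ℓ)
        ⊔ (modularFunctionFieldBar (N * ℓ')).map (qExpandAlgHomC Kbar ℓ) := by
  have e : N * ℓ * ℓ' = N * ℓ' * ℓ := by ring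
  have h : N * ℓ ∣ N * ℓ' * ℓ := by rw [← e]; exact dvd_mul_right _ _
  rw [e]
  exact modularFunctionFieldBar_mul_eq_sup (N * ℓ') ℓ h

end Fermat.Agent.Lib.X0Deg

end
end
-- ===== PACK-END Lib/X0Deg/Gen.lean

-- ===== PACK-BEGIN S37/H98/Gen.lean
section






/-!
# S37, piece R-f [GEN] (helper98): `PrincipalGeneratedByIntegral` unconditionally

`gen N ℓ hℓ hℓN A hA : PrincipalGeneratedByIntegral A (IsLocalRing.residue A) N`
for every valuation subring `A` of `ℚ̄` over a prime `ℓ ∤ N`: the field `gen` of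
`Core.PlaceRed` / `Core.GeoRed` (second half of the Prelude `ReductionInputsModL A N`).

Assembly of landed pieces only:
* `H700.pgi` (helper700): PGI from `S28.CoreData N k` and `HasPrincipalDivisors ℚ̄ F̄_N`;
* `S28.H867.coreData_of_inputs` + `H807` + `H25` (row S28): `CoreData N k` for every field `k`
  of characteristic `ℓ ∤ N`;
* `Lib.RR.H864.hasPrincipalDivisors_modularFunctionFieldBar` (from row S24).
Also exported: `charP_residueField` (the residue field of `A` has characteristic `ℓ`),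
`coreData_residueField`, and `reduction_mem` (hypothesis `hyk` of the Prelude property (ii) is
automatic).
-/

set_option autoImplicit false
set_option synthInstance.maxHeartbeats 400000

noncomputable section

namespace Fermat.Agent.S37.H98

open ModularCurve ValuationSubring AlgebraicCurve HahnSeries

/-- The residue field of a valuation subring over the prime `ℓ` has characteristic `ℓ`. -/
theorem charP_residueField {L : Type*} [Field L] (A : ValuationSubring L) (ℓ : ℕ)
    (hℓ : ℓ.Prime) (hA : A.LiesOverPrime ℓ) : CharP (IsLocalRing.ResidueField A) ℓ := by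
  have hℓm : ((ℓ : ℕ) : A) ∈ IsLocalRing.maximalIdeal A := by
    obtain ⟨ha, hm⟩ := (ValuationSubring.mem_nonunits_iff_exists_mem_maximalIdeal).mp hA
    have : (⟨(ℓ : L), ha⟩ : A) = ((ℓ : ℕ) : A) := by
      apply Subtype.ext; simp
    rwa [this] at hm
  have h0 : ((ℓ : ℕ) : IsLocalRing.ResidueField A) = 0 := by
    have := (IsLocalRing.residue_eq_zero_iff ((ℓ : ℕ) : A)).mpr hℓm
    rwa [map_natCast] at this
  have : Fact ℓ.Prime := ⟨hℓ⟩
  exact (CharP.charP_iff_prime_eq_zero hℓ).mpr h0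

/-- `S28.CoreData` over the residue field of a valuation subring of `ℚ̄` over `ℓ ∤ N`. -/
theorem coreData_residueField (N : ℕ) [NeZero N] (ℓ : ℕ) (hℓ : ℓ.Prime) (hℓN : ¬ ℓ ∣ N)
    (A : ValuationSubring (AlgebraicClosure ℚ)) (hA : A.LiesOverPrime ℓ) :
    Fermat.Agent.S28.CoreData N (IsLocalRing.ResidueField A) := by
  have : Fact ℓ.Prime := ⟨hℓ⟩
  have : CharP (IsLocalRing.ResidueField A) ℓ := charP_residueField A ℓ hℓ hA
  exact Fermat.Agent.S28.H867.coreData_of_inputs N ℓ hℓN (IsLocalRing.ResidueField A)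
    (fun p hp _ _ => Fermat.Agent.S28.H807.nonempty_modPolyData p hp)
    (fun p hp _ _ => Fermat.Agent.S28.H807.nonempty_unitPolyData p hp)
    Fermat.Agent.S28.H25.theta_identity

/-- **R-f [GEN]**: every principal divisor of `ℚ̄(X₀(N))` is generated by divisors of
Gauss-integral functions with nonzero reduction (Prelude `PrincipalGeneratedByIntegral`), for
every valuation subring `A` of `ℚ̄` over a prime `ℓ ∤ N`. -/
theorem gen (N : ℕ) [NeZero N] (ℓ : ℕ) (hℓ : ℓ.Prime) (hℓN : ¬ ℓ ∣ N)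
    (A : ValuationSubring (AlgebraicClosure ℚ)) (hA : A.LiesOverPrime ℓ) :
    PrincipalGeneratedByIntegral A (IsLocalRing.residue A) N := by
  have := Fermat.Agent.Lib.RR.H864.hasPrincipalDivisors_modularFunctionFieldBar N
  exact Fermat.Agent.S37.H700.pgi (coreData_residueField N ℓ hℓ hℓN A hA)

/-- Reductions of Gauss-integral elements of `ℚ̄(X₀(N))` lie in the function field of the
special fibre: the hypothesis `hyk` of the Prelude property (ii) is automatic. -/
theorem reduction_mem (N : ℕ) [NeZero N] (ℓ : ℕ) (hℓ : ℓ.Prime) (hℓN : ¬ ℓ ∣ N)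
    (A : ValuationSubring (AlgebraicClosure ℚ)) (hA : A.LiesOverPrime ℓ)
    (u : LaurentSeries A) (hu : coeffMap A.subtype u ∈ modularFunctionFieldBar N) :
    coeffMap (IsLocalRing.residue A) u ∈
      modularFunctionFieldFullC (IsLocalRing.ResidueField A) N :=
  Fermat.Agent.S37.H700.reduction_mem (coreData_residueField N ℓ hℓ hℓN A hA) u hu

end Fermat.Agent.S37.H98

end
end
-- ===== PACK-END S37/H98/Gen.lean

-- ===== PACK-BEGIN S18/H438/Front/AlgMain.lean
section




/-!
# S18 / node_alg (helper438): `Alg.AlgMainStatement` (v4, prime `m`)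

    theorem algMain (Lc x S 𝓕) : Alg.AlgMainStatement Lc x S 𝓕

Wiring: for a member `(Ec, Fc, R, V, w)` of the good family, `G : Alg.GoodModel …`,
`R' := Rf Fc R`, `x' := xf G`, charts `B₀ = H138.chart R' {x'}`, `B₁ = H138.chart R' {x'⁻¹}`:

* `H394.kummer_charts_of_regular` (typed core: LE + graded Kummer algebra + b5) needs on both
  charts: `Prime w`, `H754.RegularAlong w`, `H754.OneModPi w u`, `H754.DivisibleDivisor B m u`;
* these are `GoodModelFront.prime_chart`, `regularAlong_chart` (b2 = `B12.H33`, hNC = `H754`),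
  `oneModPi_chart`, `divisibleDivisor_chart` (places = `H845`), applied to `G` and to
  `H425.goodModel_inv G`.
-/

set_option autoImplicit false
set_option linter.style.haveILetI false
set_option linter.unusedSectionVars false

noncomputable section

namespace Fermat.Agent.S18.H438

open Alg Polynomial

variable {Ω : Type*} [Field Ω] {Lc Ec Fc : Subfield Ω} {R V : Subring Ω} {w x : Ω}
  {S : Finset Ω}

namespace GoodModelFront

/-- **node_alg for one good model** (no enlargement of constants is needed). -/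
theorem algMain_of_goodModel (G : GoodModel Lc Ec Fc R V w x S)
    (m : ℕ) (hm : m.Prime) (hmR : ((m : Ω))⁻¹ ∈ R)
    (u : Ω) (huF : u ∈ Fc) (hu0 : u ≠ 0) (hu1 : (u - 1) * w⁻¹ ∈ V)
    (hdiv : ∀ O : ValuationSubring Ω, (∀ a ∈ Lc, a ∈ O) →
      ∃ t : Ω, t ≠ 0 ∧ u * t ^ m ∈ O ∧ (u * t ^ m)⁻¹ ∈ O) :
    ∃ y : Ω, ∃ c ∈ Lc, c ≠ 0 ∧ u = c * y ^ m := by
  classical
  haveI := G.charZero
  haveI := charZero_Fc G
  haveI := isDiscreteValuationRing_Rf G
  haveI := finiteDimensional_baseField G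
  have G' := H425.goodModel_inv G
  have hxinv : xf G' = (xf G)⁻¹ := rfl
  have hwR : wR G' = wR G := rfl
  -- the data in `Fc`
  set u' : Fc := ⟨u, huF⟩ with hu'
  have hu'0 : u' ≠ 0 := fun h => hu0 (congrArg Subtype.val h)
  have hm0 : (m : Ω) ≠ 0 := Nat.cast_ne_zero.2 hm.ne_zero
  let ν : Rf Fc R := ⟨⟨(m : Ω)⁻¹, R_le_Fc G hmR⟩, hmR⟩
  have hν : ν * (m : Rf Fc R) = 1 := by
    apply Subtype.ext
    apply Subtype.ext
    show (m : Ω)⁻¹ * (((m : Rf Fc R) : Fc) : Ω) = 1
    have : ((((m : Rf Fc R) : Fc) : Ω)) = (m : Ω) := by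
      simp
    rw [this, inv_mul_cancel₀ hm0]
  have hinjR : Function.Injective (algebraMap (Rf Fc R) Fc) := Subtype.val_injective
  -- both charts
  have hw₁ : Prime (algebraMap (Rf Fc R) (H138.chart (Rf Fc R) ({(xf G)⁻¹} : Set Fc)) (wR G)) :=
    prime_chart G'
  have hreg₁ : H754.RegularAlong
      (algebraMap (Rf Fc R) (H138.chart (Rf Fc R) ({(xf G)⁻¹} : Set Fc)) (wR G)) :=
    regularAlong_chart G'
  have hu₁ : H754.OneModPi
      (algebraMap (Rf Fc R) (H138.chart (Rf Fc R) ({(xf G)⁻¹} : Set Fc)) (wR G)) u' :=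
    oneModPi_chart G' hu1
  have hdiv₁ : H754.DivisibleDivisor (H138.chart (Rf Fc R) ({(xf G)⁻¹} : Set Fc)) m u' :=
    divisibleDivisor_chart G' hu1 hdiv
  obtain ⟨r, a, y, hr, h⟩ := H394.kummer_charts_of_regular hinjR (isIntegral_Rf_mem_range G)
    (transcendental_xf G) (wR G) m hm ν hν u' hu'0
    (prime_chart G) hw₁ (regularAlong_chart G) hreg₁ (oneModPi_chart G hu1) hu₁
    (divisibleDivisor_chart G hu1 hdiv) hdiv₁
  have hrΩ : ((r : Fc) : Ω) ≠ 0 := fun h0 => hr (Subtype.ext (Subtype.ext h0))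
  refine ⟨(y : Ω), ((r : Fc) : Ω) ^ a, ?_, zpow_ne_zero _ hrΩ, ?_⟩
  · exact Lc.zpow_mem (G.E_le_L (G.R_le r.2)) a
  · have h2 : u = ((algebraMap (Rf Fc R) Fc r ^ a * y ^ m : Fc) : Ω) :=
      congrArg (fun t : Fc => (t : Ω)) h
    have h3 : ((algebraMap (Rf Fc R) Fc r ^ a * y ^ m : Fc) : Ω) =
        ((r : Fc) : Ω) ^ a * (y : Ω) ^ m := by
      have h4 : Fc.subtype (algebraMap (Rf Fc R) Fc r ^ a) = ((r : Fc) : Ω) ^ a :=
        map_zpow₀ Fc.subtype _ a
      show Fc.subtype (algebraMap (Rf Fc R) Fc r ^ a * y ^ m) = _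
      rw [map_mul, map_pow, h4]
      rfl
    exact h2.trans h3

end GoodModelFront

/-- **node_alg**: the ALG main statement (v4, prime `m`), for every good family. -/
theorem algMain (Lc : Subfield Ω) (x : Ω) (S : Finset Ω) (𝓕 : Set (Model Ω)) :
    AlgMainStatement Lc x S 𝓕 := by
  intro hfam p hp m hm hmR u huF hu0 hu1 hdiv
  exact GoodModelFront.algMain_of_goodModel (hfam.good p hp) m hm hmR u huF hu0 hu1 hdiv

end Fermat.Agent.S18.H438

end
end
-- ===== PACK-END S18/H438/Front/AlgMain.lean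

-- ===== PACK-BEGIN Ribet/H764/I3Main.lean
section




/-!
# I3 = W-R3P, current status (helper764)

PROVED: `lift_proved : LiftStatement`, `desc_proved : DescStatement`, `rank_proved : RankStatement`,
glue `r3p_of`, `logDiffForms_of`.  Hence

* `r3p_of_logDiffForms : LogDiffFormsStatement → R3PStatement`
* `r3p_of_geo : IncStatement → DimStatement → LogHolStatement → R3PStatement`

OPEN leaves (geometry of `X₀(M)_k`, `p ∤ M`): INC, DIMK, LOGHOL.
-/

set_option autoImplicit false

namespace Fermat.Agent.Ribet.H764.I3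

/-- I3 from the geometric heart alone. -/
theorem r3p_of_logDiffForms (hG : LogDiffFormsStatement) : R3PStatement :=
  r3p_of lift_proved desc_proved hG

/-- I3 from the three open geometric leaves. -/
theorem r3p_of_geo (hI : IncStatement) (hD : DimStatement) (hH : LogHolStatement) :
    R3PStatement :=
  r3p_of_logDiffForms (logDiffForms_of hI hD rank_proved hH)

end Fermat.Agent.Ribet.H764.I3

end
-- ===== PACK-END Ribet/H764/I3Main.lean

-- ===== PACK-BEGIN Ribet/H537/HoloDim.lean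
section


/-!
# Holomorphic Kähler differentials have dimension at most the genus (any characteristic)

(helper537, row 38 / WALL-p / leaf I3-DIMK, abstract core.)

`K` any field, `F / K` a function field with `FF1 K F` (all places of degree one).
A Kähler differential `ω ∈ Ω[F⁄K]` is *holomorphic* (`IsHolo ω`) if at every place `v` it can be
written `ω = c • D π` with `π` a uniformiser at `v` and `c` regular at `v`.

Tate's residue functional `rhoK : Ω[F⁄K] →ₗ[F] Hom_K(𝔸, K)` of `Lib/RR/H80/Res` (helper80;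
characteristic-free) maps a holomorphic differential to a functional vanishing on `𝔸(0) + F`
(`rhoK_eq_zero_of_isHolo`: local vanishing + the residue theorem `rho_principal`), and is
injective (`rhoK_singleA_eq_one`).  Hence

* `finrank_le_genusFF_of_isHolo` : a `K`-subspace `W ⊆ Ω[F⁄K]` of holomorphic differentials has
  `finrank K W ≤ genusFF K F`.

No hypothesis on the characteristic, no completions, no Riemann–Hurwitz.
-/

set_option autoImplicit false

noncomputable section

open AlgebraicCurve KaehlerDifferential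

namespace Fermat.Agent.Ribet.H537

open Fermat.Agent.Lib.RR Fermat.Agent.Lib.RR.H80 LinearMap Module

variable {K F : Type*} [Field K] [Field F] [Algebra K F]

/-- `ω` is holomorphic: at every place it is `c • D π`, `π` a uniformiser, `c` regular. -/
def IsHolo (ω : Ω[F⁄K]) : Prop :=
  ∀ v : Place K F, ∃ π c : F, v.ord π = 1 ∧ 0 ≤ v.ord c ∧ ω = c • D K F π

variable [hFF : FF1 K F]

/-- The residue functional of a holomorphic differential kills integral adeles with finite
support. -/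
theorem rhoK_eq_zero_of_support {ω : Ω[F⁄K]} (hω : IsHolo ω) (S : Finset (Place K F)) :
    ∀ β : ↥(repartitions K F), (∀ w : Place K F, 0 ≤ w.ord ((β : Place K F → F) w)) →
      (∀ w : Place K F, w ∉ S → (β : Place K F → F) w = 0) → (rhoK ω).fn β = 0 := by
  classical
  induction S using Finset.induction_on with
  | empty =>
    intro β _ h0
    have hβ : β = 0 := by
      apply Subtype.ext
      funext w
      exact h0 w (Finset.notMem_empty w)
    rw [hβ, map_zero]
  | insert v S hv ih =>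
    intro β hint h0
    obtain ⟨π, c, hπ, hc, rfl⟩ := hω v
    have hsplit : β = (β - singleA v ((β : Place K F → F) v)) +
        singleA v ((β : Place K F → F) v) := by
      rw [sub_add_cancel]
    have hval : ∀ w : Place K F,
        ((β - singleA v ((β : Place K F → F) v) : ↥(repartitions K F)) : Place K F → F) w =
          (β : Place K F → F) w - (singleA v ((β : Place K F → F) v) : Place K F → F) w := by
      intro w
      rfl
    have h1 : (rhoK (c • D K F π)).fn (β - singleA v ((β : Place K F → F) v)) = 0 := by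
      refine ih _ ?_ ?_
      · intro w
        rw [hval]
        by_cases hw : w = v
        · subst hw
          rw [singleA_apply_self, sub_self, Place.ord_zero]
        · rw [singleA_apply_of_ne _ _ hw, sub_zero]
          exact hint w
      · intro w hw
        rw [hval]
        by_cases hwv : w = v
        · subst hwv
          rw [singleA_apply_self, sub_self]
        · rw [singleA_apply_of_ne _ _ hwv, sub_zero]
          exact h0 w (by
            intro hmem
            rcases Finset.mem_insert.1 hmem with h | h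
            · exact hwv h
            · exact hw h)
    have h2 : (rhoK (c • D K F π)).fn (singleA v ((β : Place K F → F) v)) = 0 :=
      rhoK_singleA_eq_zero v (by rw [hπ]; exact zero_le_one)
        (H742.ord_mul_nonneg v hc (hint v))
    rw [hsplit, map_add, h1, h2, add_zero]

/-- The residue functional of a holomorphic differential vanishes on the integral adeles. -/
theorem rhoK_eq_zero_of_mem_A0 {ω : Ω[F⁄K]} (hω : IsHolo ω) {α : ↥(repartitions K F)}
    (hα : α ∈ repartitionsOf (0 : Divisor K F)) : (rhoK ω).fn α = 0 := by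
  classical
  obtain ⟨v₀⟩ := FF1.nonempty_place (K := K) (F := F)
  obtain ⟨t, c, -, -, hωeq⟩ := hω v₀
  have hint := mem_A0_iff.mp hα
  set S : Set (Place K F) := {v | v.ord c < 0} ∪ {v | v.ord t < 0} with hS
  have hSfin : S.Finite := (H742.finite_poles c).union (H742.finite_poles t)
  have hsplit : α = indA S * α + indA Sᶜ * α := by
    apply Subtype.ext
    funext v
    rw [H980.val_apply_add, coe_mul_apply, coe_mul_apply]
    by_cases hv : v ∈ S
    · rw [indA_apply_of_mem hv, indA_apply_of_not_mem (show v ∉ Sᶜ from fun hc => hc hv),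
        one_mul, zero_mul, add_zero]
    · rw [indA_apply_of_not_mem hv, indA_apply_of_mem (show v ∈ Sᶜ from hv), one_mul, zero_mul,
        zero_add]
  have h1 : (rhoK ω).fn (indA S * α) = 0 := by
    refine rhoK_eq_zero_of_support hω hSfin.toFinset _ (fun w => ?_) (fun w hw => ?_)
    · rw [coe_mul_apply]
      by_cases hv : w ∈ S
      · rw [indA_apply_of_mem hv, one_mul]
        exact hint w
      · rw [indA_apply_of_not_mem hv, zero_mul, Place.ord_zero]
    · have hw' : w ∉ S := fun h => hw (hSfin.mem_toFinset.2 h)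
      rw [coe_mul_apply, indA_apply_of_not_mem hw', zero_mul]
  have h2 : (rhoK ω).fn (indA Sᶜ * α) = 0 := by
    rw [hωeq, rhoK_smul_D]
    refine rho_eq_zero_of_integral t _ fun v => ?_
    by_cases hv : v ∈ S
    · left
      rw [H80.coe_smul_apply, coe_mul_apply,
        indA_apply_of_not_mem (show v ∉ Sᶜ from fun hc => hc hv), zero_mul, mul_zero]
    · right
      have hc0 : 0 ≤ v.ord c := not_lt.mp fun h => hv (Or.inl h)
      have ht0 : 0 ≤ v.ord t := not_lt.mp fun h => hv (Or.inr h)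
      refine ⟨?_, ht0⟩
      rw [H80.coe_smul_apply, coe_mul_apply, indA_apply_of_mem (show v ∈ Sᶜ from hv), one_mul]
      exact H742.ord_mul_nonneg v hc0 (hint v)
  rw [hsplit, map_add, h1, h2, add_zero]

/-- The residue functional of a holomorphic differential vanishes on `𝔸(0) + F`. -/
theorem rhoK_eq_zero_of_isHolo {ω : Ω[F⁄K]} (hω : IsHolo ω) {α : ↥(repartitions K F)}
    (hα : α ∈ repartitionsOf (0 : Divisor K F) ⊔ principalRepartitions K F) :
    (rhoK ω).fn α = 0 := by
  obtain ⟨a, ha, b, hb, rfl⟩ := Submodule.mem_sup.1 hα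
  rw [map_add, rhoK_eq_zero_of_mem_A0 hω ha, zero_add]
  obtain ⟨v₀⟩ := FF1.nonempty_place (K := K) (F := F)
  obtain ⟨t, c, -, -, hωeq⟩ := hω v₀
  rw [hωeq, rhoK_smul_D]
  refine rho_principal t ?_
  rw [← H980.range_diag] at hb ⊢
  obtain ⟨x, rfl⟩ := hb
  exact ⟨c * x, by rw [← diag_mul_eq_smul, diag_mul]⟩

/-- A nonzero holomorphic differential has a nonzero residue functional. -/
theorem rhoK_ne_zero_of_isHolo {ω : Ω[F⁄K]} (hω : IsHolo ω) (h0 : ω ≠ 0) :
    (rhoK ω).fn ≠ 0 := by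
  obtain ⟨v₀⟩ := FF1.nonempty_place (K := K) (F := F)
  obtain ⟨t, c, ht, -, hωeq⟩ := hω v₀
  have hc : c ≠ 0 := by
    rintro rfl
    rw [zero_smul] at hωeq
    exact h0 hωeq
  intro h
  have h1 := rhoK_singleA_eq_one (K := K) v₀ ht hc
  rw [← hωeq, h, LinearMap.zero_apply] at h1
  exact zero_ne_one h1

/-- **Dimension bound.**  A `K`-space of holomorphic Kähler differentials has dimension at most
the genus `genusFF K F = dim_K 𝔸 / (𝔸(0) + F)`. -/
theorem finrank_le_genusFF_of_isHolo (W : Submodule K Ω[F⁄K]) (hW : ∀ ω ∈ W, IsHolo ω) :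
    Module.finrank K W ≤ genusFF K F := by
  set N : Submodule K ↥(repartitions K F) :=
    repartitionsOf (0 : Divisor K F) ⊔ principalRepartitions K F with hN
  have hfin : Module.Finite K (↥(repartitions K F) ⧸ N) := finite_H1 (0 : Divisor K F)
  -- the residue map, `K`-linear
  let R : W →ₗ[K] Module.Dual K ↥(repartitions K F) :=
    { toFun := fun ω => (rhoK (ω : Ω[F⁄K])).fn
      map_add' := fun ω ω' => by
        show (rhoK ((ω : Ω[F⁄K]) + (ω' : Ω[F⁄K]))).fn = _
        rw [map_add]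
        rfl
      map_smul' := fun c ω => by
        show (rhoK (c • (ω : Ω[F⁄K]))).fn = _
        rw [← algebraMap_smul F c (ω : Ω[F⁄K]), map_smul, algebraMap_smul]
        rfl }
  have hRann : ∀ ω : W, R ω ∈ N.dualAnnihilator := by
    intro ω
    rw [Submodule.mem_dualAnnihilator]
    intro α hα
    exact rhoK_eq_zero_of_isHolo (hW ω ω.2) hα
  have hRinj : Function.Injective (R.codRestrict N.dualAnnihilator hRann) := by
    refine (injective_iff_map_eq_zero _).2 ?_
    intro ω hω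
    by_contra h0
    have h1 : (ω : Ω[F⁄K]) ≠ 0 := fun h => h0 (Subtype.ext h)
    have h2 : R ω = 0 := congrArg Subtype.val hω
    exact rhoK_ne_zero_of_isHolo (hW ω ω.2) h1 h2
  have e := Submodule.dualQuotEquivDualAnnihilator N
  have hfin2 : Module.Finite K (Module.Dual K (↥(repartitions K F) ⧸ N)) := inferInstance
  have hfin3 : Module.Finite K N.dualAnnihilator := Module.Finite.equiv e
  calc Module.finrank K W ≤ Module.finrank K N.dualAnnihilator :=
        LinearMap.finrank_le_finrank_of_injective hRinj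
    _ = Module.finrank K (Module.Dual K (↥(repartitions K F) ⧸ N)) := e.finrank_eq.symm
    _ = Module.finrank K (↥(repartitions K F) ⧸ N) := Subspace.dual_finrank_eq
    _ = genusFF K F := rfl

end Fermat.Agent.Ribet.H537

end
end
-- ===== PACK-END Ribet/H537/HoloDim.lean

-- ===== PACK-BEGIN S19/H195/GenusGood.lean
section








/-!
# A3 / GR-GENUS (helper195), part 2: `g(F) ≤ g(F_k)` from good charts

For a reduction datum `G : S37.Red.Datum A π F Fk` with good charts (`G.Good`: equal degrees over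
the coordinate line and normality of the special fibre in the lifting form `lift_fin`, `lift_inf`)
over algebraically closed constants:

* `Datum.exists_lift_polar` : **integral Riemann–Roch surjectivity** — for all large `M` every
  `ψ ∈ L_k(M D̄_∞)` is the reduction of some `f ∈ O ∩ L(M D_∞)` (`D_∞`, `D̄_∞` the polar divisors of
  the coordinate `x` and of its reduction `x̄`);
* `Datum.ell_polar_le`      : `ℓ_k(M D̄_∞) ≤ ℓ(M D_∞)` for all large `M`;
* `Datum.genusFF_le_of_good`: `genusFF K F ≤ genusFF k Fk`.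

Only `lift_fin`, `lift_inf`, `finite`, `finite_k`, `finrank_eq` of `G.Good` are used: no
saturation, no finiteness of the Čech `H¹` over `A`, no place map `r`, no Gauss lemma.
Proof: `U m := ρ (B_fin ∩ x ^ m B_inf)` and the pencil lifting lemma `L_le_of_torsion`.
-/

set_option autoImplicit false
set_option linter.style.haveILetI false
set_option linter.unusedSectionVars false

noncomputable section

open AlgebraicCurve Polynomial

namespace Fermat.Agent.S19.H195

open Fermat.Agent.Lib.RR Fermat.Agent.S37.Red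

/-! ## 1. Scaling integral elements -/

section Scaling

variable {F : Type*} [Field F]

/-- every element of `C[t⁻¹]` becomes an element of `C[t]` after multiplication by a large power
of `t` -/
theorem exists_pow_mul_mem_closure (C : Subring F) {t : F} (ht : t ≠ 0) {c : F}
    (hc : c ∈ C ⊔ Subring.closure {t⁻¹}) :
    ∃ i₀ : ℕ, ∀ i, i₀ ≤ i → t ^ i * c ∈ C ⊔ Subring.closure {t} := by
  have htmem : t ∈ C ⊔ Subring.closure {t} :=
    (le_sup_right : Subring.closure {t} ≤ _) (Subring.subset_closure rfl)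
  have hpow : ∀ i : ℕ, t ^ i ∈ C ⊔ Subring.closure {t} := fun i => Subring.pow_mem _ htmem i
  have hsup : C ⊔ Subring.closure {t⁻¹} = Subring.closure ((C : Set F) ∪ {t⁻¹}) := by
    rw [Subring.closure_union, Subring.closure_eq]
  rw [hsup] at hc
  induction hc using Subring.closure_induction with
  | mem c hc =>
    rcases hc with hc | hc
    · exact ⟨0, fun i _ => Subring.mul_mem _ (hpow i) ((le_sup_left : C ≤ _) hc)⟩
    · rw [Set.mem_singleton_iff] at hc
      subst hc
      refine ⟨1, fun i hi => ?_⟩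
      obtain ⟨j, rfl⟩ : ∃ j, i = j + 1 := ⟨i - 1, by omega⟩
      rw [pow_succ, mul_assoc, mul_inv_cancel₀ ht, mul_one]
      exact hpow j
  | zero => exact ⟨0, fun i _ => by rw [mul_zero]; exact Subring.zero_mem _⟩
  | one => exact ⟨0, fun i _ => by rw [mul_one]; exact hpow i⟩
  | add a b _ _ ha hb =>
    obtain ⟨ia, hia⟩ := ha
    obtain ⟨ib, hib⟩ := hb
    refine ⟨max ia ib, fun i hi => ?_⟩
    rw [mul_add]
    exact Subring.add_mem _ (hia i ((le_max_left _ _).trans hi))
      (hib i ((le_max_right _ _).trans hi))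
  | neg a _ ha =>
    obtain ⟨ia, hia⟩ := ha
    refine ⟨ia, fun i hi => ?_⟩
    rw [mul_neg]
    exact Subring.neg_mem _ (hia i hi)
  | mul a b _ _ ha hb =>
    obtain ⟨ia, hia⟩ := ha
    obtain ⟨ib, hib⟩ := hb
    refine ⟨ia + ib, fun i hi => ?_⟩
    have e : t ^ i * (a * b) = (t ^ ia * a) * (t ^ (i - ia) * b) := by
      have : i = ia + (i - ia) := by omega
      conv_lhs => rw [this, pow_add]
      ring
    rw [e]
    exact Subring.mul_mem _ (hia ia le_rfl) (hib (i - ia) (by omega))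

/-- **Scaling**: an element integral over `C[t⁻¹]` becomes integral over `C[t]` after
multiplication by a large power of `t`. -/
theorem exists_pow_mul_isIntegral (C : Subring F) {t : F} (ht : t ≠ 0) {b : F}
    (hb : IsIntegral (C ⊔ Subring.closure {t⁻¹} : Subring F) b) :
    ∃ i₀ : ℕ, ∀ i, i₀ ≤ i → IsIntegral (C ⊔ Subring.closure {t} : Subring F) (t ^ i * b) := by
  classical
  rw [H759.isIntegral_subring_iff] at hb
  obtain ⟨P, hP, hcoeff, hPb⟩ := hb
  have h1 : ∀ l : ℕ, ∃ i₀ : ℕ, ∀ i, i₀ ≤ i → t ^ i * P.coeff l ∈ C ⊔ Subring.closure {t} :=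
    fun l => exists_pow_mul_mem_closure C ht (hcoeff l)
  choose thr hthr using h1
  refine ⟨(Finset.range (P.natDegree + 1)).sup thr + 1, fun i hi => ?_⟩
  rw [H759.isIntegral_subring_iff]
  refine ⟨P.scaleRoots (t ^ i), (monic_scaleRoots_iff _).mpr hP, fun l => ?_, ?_⟩
  · rw [coeff_scaleRoots]
    rcases lt_trichotomy l P.natDegree with hl | hl | hl
    · -- `l < n`
      have hle : thr l ≤ i * (P.natDegree - l) := by
        have h2 : thr l ≤ (Finset.range (P.natDegree + 1)).sup thr :=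
          Finset.le_sup (f := thr) (Finset.mem_range.mpr (by omega))
        have h3 : i ≤ i * (P.natDegree - l) := Nat.le_mul_of_pos_right i (by omega)
        omega
      rw [← pow_mul, mul_comm]
      exact hthr l _ hle
    · -- `l = n`
      subst hl
      rw [Nat.sub_self, pow_zero, mul_one]
      have : P.coeff P.natDegree = 1 := hP
      rw [this]
      exact Subring.one_mem _
    · rw [coeff_eq_zero_of_natDegree_lt hl, zero_mul]
      exact Subring.zero_mem _
  · rw [scaleRoots_eval_mul, hPb, mul_zero]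

end Scaling

/-! ## 2. Polar divisors -/

section Polar

variable {K F : Type*} [Field K] [Field F] [Algebra K F]

/-- the polar divisor of a nonzero function -/
theorem exists_polar [HasPrincipalDivisors K F] {f : F} (hf : f ≠ 0) :
    ∃ D : Divisor K F, ∀ P : Place K F, D P = max 0 (-(P.ord f)) := by
  obtain ⟨D₀, hD₀, -⟩ := HasPrincipalDivisors.exists_divisor (K := K) f hf
  refine ⟨D₀.mapRange (fun n : ℤ => max 0 (-n)) (by simp), fun P => ?_⟩
  rw [Finsupp.mapRange_apply, hD₀]

/-- `(1, x)` is a base-point-free pencil in `L(D_∞)` -/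
theorem isBpfPencil_polar {x : F} (hx : x ≠ 0) {D : Divisor K F}
    (hD : ∀ P : Place K F, D P = max 0 (-(P.ord x))) : H259.IsBpfPencil D 1 x where
  mem₁ := by
    rw [mem_L_iff]
    intro v
    right
    rw [Place.ord_one, hD]
    have := le_max_left (0 : ℤ) (-(v.ord x))
    omega
  mem₂ := by
    rw [mem_L_iff]
    intro v
    right
    rw [hD]
    have := le_max_right (0 : ℤ) (-(v.ord x))
    omega
  ne_zero := one_ne_zero
  bpf := by
    intro v
    rw [hD, Place.ord_one]
    rcases le_or_gt 0 (v.ord x) with h | h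
    · left
      rw [max_eq_left (by omega)]
      rfl
    · right
      refine ⟨hx, ?_⟩
      rw [max_eq_right (by omega)]
      omega

/-- the degree of the polar divisor is the degree of the function -/
theorem degree_polar [IsAlgClosed K] {x : F} (hx : Transcendental K x)
    [FiniteDimensional (IntermediateField.adjoin K {x}) F] {D : Divisor K F}
    (hD : ∀ P : Place K F, D P = max 0 (-(P.ord x))) :
    Divisor.degree D = (Module.finrank (IntermediateField.adjoin K {x}) F : ℤ) := by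
  have hS : ∀ v : Place K F, v ∈ D.support ↔ v.ord x < 0 := by
    intro v
    rw [Finsupp.mem_support_iff, hD]
    constructor
    · intro h
      by_contra h'
      exact h (max_eq_left (by omega))
    · intro h
      rw [max_eq_right (by omega)]
      omega
  rw [← H443.sum_ord_poles_eq_finrank' hx D.support hS, degree_eq_sum]
  refine Finset.sum_congr rfl fun v hv => ?_
  rw [H443.deg_eq_one_of_isAlgClosed hx v, Nat.cast_one, mul_one, hD]
  have := (hS v).mp hv
  exact max_eq_right (by omega)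

end Polar

/-! ## 3. The charts of a reduction datum -/

section Datum

universe u

variable {K k F Fk : Type u} [Field K] [Field k] [Field F] [Field Fk]
  [Algebra K F] [Algebra k Fk] {A : ValuationSubring K} {π : A →+* k} (G : Datum A π F Fk)

namespace GenusGood

/-- `x ^ i b ∈ B_fin` for `b ∈ B_inf` and `i` large -/
theorem loc_inf {b : F} (hb : b ∈ G.chart G.x⁻¹) :
    ∃ i₀ : ℕ, ∀ i, i₀ ≤ i → G.x ^ i * b ∈ G.chart G.x :=
  exists_pow_mul_isIntegral G.constRing (H144.x_ne_zero G) hb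

/-- `x ^ (-i) b ∈ B_inf` for `b ∈ B_fin` and `i` large -/
theorem loc_fin {b : F} (hb : b ∈ G.chart G.x) :
    ∃ i₀ : ℕ, ∀ i, i₀ ≤ i → G.x⁻¹ ^ i * b ∈ G.chart G.x⁻¹ := by
  have hb' : IsIntegral (G.constRing ⊔ Subring.closure {(G.x⁻¹)⁻¹} : Subring F) b := by
    rw [inv_inv]
    exact hb
  exact exists_pow_mul_isIntegral G.constRing (inv_ne_zero (H144.x_ne_zero G)) hb'

/-- constants of `A` lie in every chart -/
theorem const_mem_chart (t : F) (a : A) : algebraMap K F (a : K) ∈ G.chart t :=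
  H144.polyRing_le_chart G t (H144.const_mem_polyRing G t a)

/-- **The lattice `U m = ρ (B_fin ∩ x ^ m B_inf)`**, a `k`-subspace of `F_k`. -/
def U (m : ℕ) : Submodule k Fk where
  carrier := {ψ | ∃ b, b ∈ G.chart G.x ∧ G.x⁻¹ ^ m * b ∈ G.chart G.x⁻¹ ∧
    ∃ hb : b ∈ G.O, G.ρ ⟨b, hb⟩ = ψ}
  zero_mem' := ⟨0, Subring.zero_mem _, by rw [mul_zero]; exact Subring.zero_mem _,
    G.O.zero_mem, map_zero _⟩
  add_mem' := by
    rintro _ _ ⟨b, hb1, hb2, hbO, rfl⟩ ⟨b', hb1', hb2', hbO', rfl⟩
    refine ⟨b + b', Subring.add_mem _ hb1 hb1', ?_, G.O.add_mem _ _ hbO hbO', ?_⟩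
    · rw [mul_add]
      exact Subring.add_mem _ hb2 hb2'
    · rw [← map_add]
      rfl
  smul_mem' := by
    rintro c _ ⟨b, hb1, hb2, hbO, rfl⟩
    obtain ⟨a, rfl⟩ := G.π_surj c
    refine ⟨algebraMap K F (a : K) * b, Subring.mul_mem _ (const_mem_chart G _ a) hb1, ?_,
      G.O.mul_mem _ _ (G.const_mem a) hbO, ?_⟩
    · rw [mul_left_comm]
      exact Subring.mul_mem _ (const_mem_chart G _ a) hb2
    · have h1 : (⟨algebraMap K F (a : K) * b, G.O.mul_mem _ _ (G.const_mem a) hbO⟩ : G.O) =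
          ⟨algebraMap K F (a : K), G.const_mem a⟩ * ⟨b, hbO⟩ := rfl
      rw [h1, map_mul, G.ρ_const, Algebra.smul_def]

theorem mem_U {m : ℕ} {ψ : Fk} : ψ ∈ U G m ↔ ∃ b, b ∈ G.chart G.x ∧
    G.x⁻¹ ^ m * b ∈ G.chart G.x⁻¹ ∧ ∃ hb : b ∈ G.O, G.ρ ⟨b, hb⟩ = ψ := Iff.rfl

theorem U_mono (m : ℕ) : U G m ≤ U G (m + 1) := by
  rintro _ ⟨b, hb1, hb2, hbO, rfl⟩
  refine ⟨b, hb1, ?_, hbO, rfl⟩
  rw [pow_succ', mul_assoc]
  exact Subring.mul_mem _ (H144.self_mem_chart G _) hb2

theorem U_mul (m : ℕ) : ∀ f ∈ U G m, G.xk * f ∈ U G (m + 1) := by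
  rintro _ ⟨b, hb1, hb2, hbO, rfl⟩
  refine ⟨G.x * b, Subring.mul_mem _ (H144.self_mem_chart G _) hb1, ?_,
    G.O.mul_mem _ _ G.x_mem hbO, ?_⟩
  · have e : G.x⁻¹ ^ (m + 1) * (G.x * b) = G.x⁻¹ ^ m * b := by
      rw [pow_succ, mul_assoc, ← mul_assoc G.x⁻¹, inv_mul_cancel₀ (H144.x_ne_zero G), one_mul]
    rw [e]
    exact hb2
  · have h1 : (⟨G.x * b, G.O.mul_mem _ _ G.x_mem hbO⟩ : G.O) = ⟨G.x, G.x_mem⟩ * ⟨b, hbO⟩ := rfl
    rw [h1, map_mul]
    rfl

/-- **Regular functions are integral**: a function of `F_k` which is regular at every place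
where `s` is regular is integral over `k[s]`. -/
theorem mem_chartk_of_regular [IsAlgClosed k] [FiniteDimensional (IntermediateField.adjoin k {G.xk}) Fk]
    (s : Fk) {ψ : Fk}
    (h : ∀ Q : Place k Fk, s ∈ Q.toValuationSubring → ψ ∈ Q.toValuationSubring) :
    ψ ∈ G.chartk s := by
  have key := iInf_valuationSubring_superset (K := Fk)
    (s := Set.range (algebraMap k Fk) ∪ {s})
  have hψ : ψ ∈ ⨅ V : {V : ValuationSubring Fk //
      Set.range (algebraMap k Fk) ∪ {s} ⊆ V.toSubring}, V.1.toSubring := by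
    rw [Subring.mem_iInf]
    rintro ⟨V, hV⟩
    show ψ ∈ V
    by_cases htop : V = ⊤
    · rw [htop]; exact ValuationSubring.mem_top ψ
    · have hK : ∀ a : k, algebraMap k Fk a ∈ V := fun a => hV (Or.inl ⟨a, rfl⟩)
      have hxt : Transcendental k G.xk := G.xk_transc
      obtain ⟨Q, hQ⟩ := H443.exists_place_eq V hK htop hxt
      have hs : s ∈ Q.toValuationSubring := by
        rw [hQ]
        exact hV (Or.inr rfl)
      have := h Q hs
      rwa [hQ] at this
  rw [key] at hψ
  have h1 : IsIntegral (Subring.closure (Set.range (algebraMap k Fk) ∪ {s})) ψ := hψ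
  have h2 : IsIntegral (Algebra.adjoin k {s}).toSubring ψ := by
    refine H759.isIntegral_subring_mono ?_ h1
    rw [Algebra.adjoin_eq_ring_closure]
  exact (H759.isIntegral_subalgebra_iff (Algebra.adjoin k {s}) ψ).mpr h2

variable [IsAlgClosed k] [FF1 k Fk]

/-- `T₀`-torsion: every `ψ ∈ L_k(m D̄_∞)` lies in some `U j`. -/
theorem U_T0 (hG : G.Good) {Dk : Divisor k Fk}
    (hDk : ∀ Q : Place k Fk, Dk Q = max 0 (-(Q.ord G.xk))) (m : ℕ) :
    ∀ ψ ∈ riemannRochSpace ((m : ℤ) • Dk), ∃ j, ψ ∈ U G j := by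
  intro ψ hψ
  haveI := hG.finite_k
  have hreg : ∀ Q : Place k Fk, G.xk ∈ Q.toValuationSubring → ψ ∈ Q.toValuationSubring := by
    intro Q hQ
    rcases eq_or_ne ψ 0 with rfl | hψ0
    · exact Q.toValuationSubring.zero_mem
    have h1 := (mem_L_iff.mp hψ Q).resolve_left hψ0
    rw [Finsupp.smul_apply, smul_eq_mul, hDk,
      max_eq_left (by have := (mem_iff_ord_nonneg Q G.xk).mp hQ; omega), mul_zero,
      neg_zero] at h1
    exact (mem_iff_ord_nonneg Q ψ).mpr h1
  obtain ⟨b, hb, hbO, hρ⟩ := hG.lift_fin ψ (mem_chartk_of_regular G G.xk hreg)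
  obtain ⟨i₀, hi₀⟩ := loc_fin G hb
  exact ⟨i₀, b, hb, hi₀ i₀ le_rfl, hbO, hρ⟩

/-- `T₁`-torsion: for every `ψ ∈ L_k(m D̄_∞)` some `x̄ ^ (j - m) ψ` lies in `U j`. -/
theorem U_T1 (hG : G.Good) {Dk : Divisor k Fk}
    (hDk : ∀ Q : Place k Fk, Dk Q = max 0 (-(Q.ord G.xk))) (m : ℕ) :
    ∀ ψ ∈ riemannRochSpace ((m : ℤ) • Dk), ∃ j, m ≤ j ∧ G.xk ^ (j - m) * ψ ∈ U G j := by
  intro ψ hψ
  haveI := hG.finite_k
  have hxk0 : G.xk ≠ 0 := H144.xk_ne_zero G
  have hx0 : G.x ≠ 0 := H144.x_ne_zero G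
  have hreg : ∀ Q : Place k Fk, G.xk⁻¹ ∈ Q.toValuationSubring →
      G.xk⁻¹ ^ m * ψ ∈ Q.toValuationSubring := by
    intro Q hQ
    rcases eq_or_ne ψ 0 with rfl | hψ0
    · rw [mul_zero]; exact Q.toValuationSubring.zero_mem
    have h1 := (mem_L_iff.mp hψ Q).resolve_left hψ0
    rw [Finsupp.smul_apply, smul_eq_mul, hDk] at h1
    have h2 : 0 ≤ Q.ord G.xk⁻¹ := (mem_iff_ord_nonneg Q _).mp hQ
    rw [Q.ord_inv] at h2
    rw [max_eq_right (by omega)] at h1
    apply (mem_iff_ord_nonneg Q _).mpr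
    rw [Q.ord_mul (pow_ne_zero _ (inv_ne_zero hxk0)) hψ0, ord_pow, Q.ord_inv]
    nlinarith
  obtain ⟨b', hb', hbO', hρ'⟩ := hG.lift_inf _ (mem_chartk_of_regular G G.xk⁻¹ hreg)
  obtain ⟨i₀, hi₀⟩ := loc_inf G hb'
  refine ⟨max i₀ m, le_max_right _ _, G.x ^ (max i₀ m) * b', hi₀ _ (le_max_left _ _), ?_,
    G.O.mul_mem _ _ (G.O.pow_mem G.x_mem _) hbO', ?_⟩
  · have e : G.x⁻¹ ^ (max i₀ m) * (G.x ^ (max i₀ m) * b') = b' := by
      rw [← mul_assoc, ← mul_pow, inv_mul_cancel₀ hx0, one_pow, one_mul]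
    rw [e]
    exact hb'
  · have h1 : (⟨G.x ^ (max i₀ m) * b', G.O.mul_mem _ _ (G.O.pow_mem G.x_mem _) hbO'⟩ : G.O) =
        ⟨G.x, G.x_mem⟩ ^ (max i₀ m) * ⟨b', hbO'⟩ := rfl
    rw [h1, map_mul, map_pow, hρ']
    show G.xk ^ (max i₀ m) * (G.xk⁻¹ ^ m * ψ) = G.xk ^ (max i₀ m - m) * ψ
    have hm : max i₀ m = (max i₀ m - m) + m := by
      have := le_max_right i₀ m
      omega
    conv_lhs => rw [hm, pow_add]
    rw [mul_assoc, ← mul_assoc (G.xk ^ m), ← mul_pow, mul_inv_cancel₀ hxk0, one_pow, one_mul]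

/-- elements of `B_fin ∩ x ^ M B_inf` lie in `L(M D_∞)` -/
theorem mem_L_of_mem_charts {D : Divisor K F}
    (hD : ∀ P : Place K F, D P = max 0 (-(P.ord G.x))) {M : ℕ} {b : F}
    (hb1 : b ∈ G.chart G.x) (hb2 : G.x⁻¹ ^ M * b ∈ G.chart G.x⁻¹) :
    b ∈ riemannRochSpace ((M : ℤ) • D) := by
  have hx0 : G.x ≠ 0 := H144.x_ne_zero G
  have hreg : ∀ {t c : F}, c ∈ G.chart t → ∀ P : Place K F, 0 ≤ P.ord t → 0 ≤ P.ord c := by
    intro t c hc P ht
    have hle : G.polyRing t ≤ P.toValuationSubring.toSubring := by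
      unfold Datum.polyRing
      rw [sup_le_iff]
      constructor
      · rintro _ ⟨a, -, rfl⟩
        exact P.algebraMap_mem' a
      · rw [Subring.closure_le]
        rintro _ rfl
        exact (mem_iff_ord_nonneg P _).mpr ht
    exact (mem_iff_ord_nonneg P c).mp
      (H144.mem_of_isIntegral_subring P.toValuationSubring (G.polyRing t) hle hc)
  rw [mem_L_iff]
  intro P
  rcases eq_or_ne b 0 with rfl | hb0
  · exact Or.inl rfl
  right
  rw [Finsupp.smul_apply, smul_eq_mul, hD]
  rcases le_or_gt 0 (P.ord G.x) with hP | hP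
  · rw [max_eq_left (by omega), mul_zero, neg_zero]
    exact hreg hb1 P hP
  · rw [max_eq_right (by omega)]
    have h1 := hreg hb2 P (by rw [P.ord_inv]; omega)
    rw [P.ord_mul (pow_ne_zero _ (inv_ne_zero hx0)) hb0, ord_pow, P.ord_inv] at h1
    nlinarith

/-- **Integral Riemann–Roch surjectivity** for the multiples of the polar divisor of the
coordinate. -/
theorem exists_lift_polar (hG : G.Good) {D : Divisor K F}
    (hD : ∀ P : Place K F, D P = max 0 (-(P.ord G.x))) {Dk : Divisor k Fk}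
    (hDk : ∀ Q : Place k Fk, Dk Q = max 0 (-(Q.ord G.xk))) :
    ∃ M₀ : ℕ, ∀ M : ℕ, M₀ ≤ M → ∀ ψ ∈ riemannRochSpace ((M : ℤ) • Dk),
      ∃ (f : F) (hf : f ∈ G.O), f ∈ riemannRochSpace ((M : ℤ) • D) ∧ G.ρ ⟨f, hf⟩ = ψ := by
  haveI := hG.finite_k
  have hxk0 : G.xk ≠ 0 := H144.xk_ne_zero G
  have hpen := isBpfPencil_polar hxk0 hDk
  have hdeg : 0 < Divisor.degree Dk := by
    have hxt : Transcendental k G.xk := G.xk_transc
    rw [degree_polar hxt hDk]
    exact_mod_cast Module.finrank_pos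
  obtain ⟨M₀, hM₀⟩ := L_le_of_torsion G.xk Dk hpen hdeg (U G) (U_mono G) (U_mul G)
    (U_T0 G hG hDk) (U_T1 G hG hDk)
  refine ⟨M₀, fun M hM ψ hψ => ?_⟩
  obtain ⟨b, hb1, hb2, hbO, hρ⟩ := hM₀ M hM hψ
  exact ⟨b, hbO, mem_L_of_mem_charts G hD hb1 hb2, hρ⟩

omit [IsAlgClosed k] [FF1 k Fk] in
/-- lifts of `k`-linearly independent functions are residually independent -/
theorem residIndep_of_linearIndependent {ι : Type*} [Fintype ι] (f : ι → F)
    (hf : ∀ i, f i ∈ G.O) (hli : LinearIndependent k (fun i => G.ρ ⟨f i, hf i⟩)) :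
    S37.H217.ResidIndep A G.O f := by
  classical
  intro c hc hsum i
  -- the combination as an element of `O`
  set y : G.O := ∑ j, (⟨algebraMap K F (c j), G.const_mem ⟨c j, hc j⟩⟩ : G.O) * ⟨f j, hf j⟩
    with hy
  have hycoe : (y : F) = ∑ j, c j • f j := by
    rw [hy]
    have : ((∑ j, (⟨algebraMap K F (c j), G.const_mem ⟨c j, hc j⟩⟩ : G.O) * ⟨f j, hf j⟩ : G.O) : F)
        = G.O.subtype (∑ j, (⟨algebraMap K F (c j), G.const_mem ⟨c j, hc j⟩⟩ : G.O) *
            ⟨f j, hf j⟩) := rfl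
    rw [this, map_sum]
    refine Finset.sum_congr rfl fun j _ => ?_
    rw [Algebra.smul_def]
    rfl
  have hynon : (y : F) ∈ G.O.nonunits := by rw [hycoe]; exact hsum
  have hρy : G.ρ y = 0 := by
    rw [H160.ρ_eq_zero_iff]
    exact ValuationSubring.coe_mem_nonunits_iff.mp hynon
  have hρy' : G.ρ y = ∑ j, π ⟨c j, hc j⟩ • G.ρ ⟨f j, hf j⟩ := by
    rw [hy, map_sum]
    refine Finset.sum_congr rfl fun j _ => ?_
    rw [map_mul, G.ρ_const ⟨c j, hc j⟩, Algebra.smul_def]
  rw [hρy'] at hρy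
  have h0 := Fintype.linearIndependent_iff.mp hli (fun j => π ⟨c j, hc j⟩) hρy i
  have h1 : (⟨c i, hc i⟩ : A) ∈ IsLocalRing.maximalIdeal A := (H160.ker_π G _).mp h0
  exact ValuationSubring.coe_mem_nonunits_iff.mpr h1

/-- `ℓ_k(M D̄_∞) ≤ ℓ(M D_∞)` for all large `M`. -/
theorem ell_polar_le [FF1 K F] (hG : G.Good) {D : Divisor K F}
    (hD : ∀ P : Place K F, D P = max 0 (-(P.ord G.x))) {Dk : Divisor k Fk}
    (hDk : ∀ Q : Place k Fk, Dk Q = max 0 (-(Q.ord G.xk))) :
    ∃ M₀ : ℕ, ∀ M : ℕ, M₀ ≤ M → ell ((M : ℤ) • Dk) ≤ ell ((M : ℤ) • D) := by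
  classical
  obtain ⟨M₀, hM₀⟩ := exists_lift_polar G hG hD hDk
  refine ⟨M₀, fun M hM => ?_⟩
  let bs := Module.finBasis k (riemannRochSpace ((M : ℤ) • Dk))
  choose f hfO hfL hρ using fun i =>
    hM₀ M hM ((bs i : riemannRochSpace ((M : ℤ) • Dk)) : Fk) (bs i).2
  have hind : LinearIndependent k (fun i => G.ρ ⟨f i, hfO i⟩) := by
    have h1 : LinearIndependent k ((riemannRochSpace ((M : ℤ) • Dk)).subtype ∘ bs) :=
      bs.linearIndependent.map' _ (Submodule.ker_subtype _)
    have h2 : (fun i => G.ρ ⟨f i, hfO i⟩) = (riemannRochSpace ((M : ℤ) • Dk)).subtype ∘ bs := by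
      funext i
      rw [hρ i]
      rfl
    rw [h2]
    exact h1
  have hlift : LinearIndependent K f :=
    S37.H217.linearIndependent_of_residIndep (residIndep_of_linearIndependent G f hfO hind)
  have hv : LinearIndependent K
      (fun i => (⟨f i, hfL i⟩ : riemannRochSpace ((M : ℤ) • D))) := by
    refine LinearIndependent.of_comp (riemannRochSpace ((M : ℤ) • D)).subtype ?_
    exact hlift
  have hcard := hv.fintype_card_le_finrank
  rw [Fintype.card_fin] at hcard
  exact hcard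

/-- **GR-GENUS, the hard direction**: the genus does not drop under a reduction with good
charts. -/
theorem genusFF_le_of_good [IsAlgClosed K] [FF1 K F] (hG : G.Good) :
    genusFF K F ≤ genusFF k Fk := by
  haveI := hG.finite
  haveI := hG.finite_k
  have hxk0 : G.xk ≠ 0 := H144.xk_ne_zero G
  have hx0 : G.x ≠ 0 := H144.x_ne_zero G
  obtain ⟨P₀⟩ := FF1.nonempty_place (K := K) (F := F)
  have hxt : Transcendental K G.x := H144.transcendental_x G hG P₀
  have hxkt : Transcendental k G.xk := G.xk_transc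
  obtain ⟨D, hD⟩ := exists_polar (K := K) hx0
  obtain ⟨Dk, hDk⟩ := exists_polar (K := k) hxk0
  have hdegD := degree_polar hxt hD
  have hdegDk := degree_polar hxkt hDk
  have hn : (0 : ℤ) < (Module.finrank (IntermediateField.adjoin k {G.xk}) Fk : ℤ) := by
    exact_mod_cast Module.finrank_pos
  rw [hG.finrank_eq] at hdegD
  obtain ⟨M₀, hM₀⟩ := ell_polar_le G hG hD hDk
  set n : ℤ := (Module.finrank (IntermediateField.adjoin k {G.xk}) Fk : ℤ) with hndef
  set M : ℕ := max M₀ (2 * genusFF K F) with hMdef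
  have hM1 : M₀ ≤ M := le_max_left _ _
  have hM2 : 2 * genusFF K F ≤ M := le_max_right _ _
  have hM2' : 2 * (genusFF K F : ℤ) ≤ (M : ℤ) := by exact_mod_cast hM2
  have hdegK : Divisor.degree ((M : ℤ) • D) = (M : ℤ) * n := by
    rw [map_zsmul, smul_eq_mul, hdegD]
  have hdegk : Divisor.degree ((M : ℤ) • Dk) = (M : ℤ) * n := by
    rw [map_zsmul, smul_eq_mul, hdegDk]
  have hMn : (M : ℤ) ≤ (M : ℤ) * n := by nlinarith
  have h1 : (ell ((M : ℤ) • D) : ℤ) = (M : ℤ) * n + 1 - (genusFF K F : ℤ) := by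
    have := ell_eq_of_degree_gt (D := (M : ℤ) • D) (by rw [hdegK]; omega)
    rwa [hdegK] at this
  have h2 := riemann_inequality_genusFF (K := k) (F := Fk) ((M : ℤ) • Dk)
  rw [hdegk] at h2
  have h3 : (ell ((M : ℤ) • Dk) : ℤ) ≤ (ell ((M : ℤ) • D) : ℤ) := by
    exact_mod_cast hM₀ M hM1
  have h4 : (genusFF K F : ℤ) ≤ (genusFF k Fk : ℤ) := by omega
  exact_mod_cast h4

end GenusGood

end Datum

end Fermat.Agent.S19.H195

end

end
-- ===== PACK-END S19/H195/GenusGood.lean

-- ===== PACK-BEGIN S37/H157/NormKron.lean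
section
/-
S37 helper (helper157), piece NORM-ID, part E: unconditional form and identification with the
formal Kronecker norm.

* `finrank_algIncl`, `hasModPolys_of_charZero` : the two hypotheses of `norm_betaHom` hold for every
  field of characteristic `0` (from the landed S28 degree theory, `Fermat.Agent.S28.H988`).
* `qExpand_det_secMat` : `(det (secMat ℓ f))(q^ℓ) = ∏_{b<ℓ} f(ζ^b q)`.
* `norm_betaHom_eq_kronNorm` : for `y ∈ F = K(j(q^d) : d ∣ N)`, `ℓ ∤ N` prime,
    `N_{F'/F}(y(q^ℓ)) = kronNorm ℓ y = y(q^ℓ) · det (secMat ℓ y)`      (in `K((q))`),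
  with `kronNorm` the formal Kronecker norm of `Fermat.Agent.S37.H400` (which has the reduction
  statement `coeffMap_kronNorm_char`).
-/






set_option autoImplicit false
set_option linter.unusedSectionVars false
set_option linter.style.haveILetI false

noncomputable section

open ModularCurve HahnSeries Polynomial IntermediateField
open Fermat.Agent.S28.H626

namespace Fermat.Agent.S37.H157

/-! ### Discharging the hypotheses in characteristic zero -/

section Discharge

variable (K : Type*) [Field K] [CharZero K]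

theorem hasModPolys_of_charZero (M : ℕ) : HasModPolys K M :=
  Fermat.Agent.S28.H867.hasModPolys K M
    (fun p hp _ _ => Fermat.Agent.S28.H807.nonempty_modPolyData p hp)
    (fun p hp _ => Nat.cast_ne_zero.mpr hp.ne_zero)

theorem finrank_algIncl (N ℓ : ℕ) [NeZero N] [NeZero ℓ] (hℓ : ℓ.Prime) (hℓN : ¬ ℓ ∣ N) :
    @Module.finrank ↥(modularFunctionFieldFullC K N)
      ↥(modularFunctionFieldFullC K (N * ℓ)) _ _ (algIncl K N ℓ).toModule = ℓ + 1 := by
  have h := Fermat.Agent.S28.H988.relfinrank_full_mul_prime K N ℓ (NeZero.ne N) hℓ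
    (fun r hr _ => Nat.cast_ne_zero.mpr hr.ne_zero)
  rw [if_neg hℓN, relfinrank_eq_finrank_of_le (full_le_full_mul K N ℓ)] at h
  rw [← h]
  letI := algIncl K N ℓ
  let e : ↥(modularFunctionFieldFullC K (N * ℓ)) ≃ₗ[↥(modularFunctionFieldFullC K N)]
      ↥(extendScalars (full_le_full_mul K N ℓ)) :=
    { toFun := fun x => ⟨x.1, x.2⟩
      invFun := fun y => ⟨y.1, y.2⟩
      map_add' := fun _ _ => rfl
      map_smul' := fun _ _ => rfl
      left_inv := fun _ => rfl
      right_inv := fun _ => rfl }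
  exact e.finrank_eq

end Discharge

/-! ### The product of the twists as a determinant -/

section Det

variable {K : Type*} [Field K] {ℓ : ℕ} [NeZero ℓ]

theorem kronMat_eq_secMat (f : LaurentSeries K) :
    Fermat.Agent.S37.H340.kronMat ℓ f = Fermat.Agent.S37.H400.secMat ℓ f := by
  ext i j n
  rw [Fermat.Agent.S37.H340.kronMat_apply, Fermat.Agent.S37.H400.secMat_apply',
    Fermat.Agent.S37.H340.sect_coeff, Fermat.Agent.S37.H400.secL_coeff]

theorem zpw_eq_zpow (ζ : Kˣ) (hζ : ζ ^ ℓ = 1) (n : ℤ) :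
    Fermat.Agent.S37.H340.zpw ℓ (ζ : K) n = ((ζ ^ n : Kˣ) : K) := by
  have hℓ : (ℓ : ℤ) ≠ 0 := by exact_mod_cast NeZero.ne ℓ
  have h1 : ζ ^ n = ζ ^ (n % (ℓ : ℤ)).toNat := by
    conv_lhs => rw [← Int.mul_ediv_add_emod n ℓ, zpow_add, zpow_mul, zpow_natCast, hζ, one_zpow,
      one_mul]
    rw [← zpow_natCast, Int.toNat_of_nonneg (Int.emod_nonneg n hℓ)]
  rw [h1, Units.val_pow_eq_pow_val]
  rfl

theorem tw_eq_twist (ζ : Kˣ) (hζ : ζ ^ ℓ = 1) (f : LaurentSeries K) :
    Fermat.Agent.S37.H340.tw ℓ (ζ : K) f = twist ζ f := by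
  ext n
  rw [Fermat.Agent.S37.H340.tw_coeff, twist_coeff, zpw_eq_zpow ζ hζ]

/-- `(det (secMat ℓ f))(q^ℓ) = ∏_{b<ℓ} f(ζ^b q)`. -/
theorem qExpand_det_secMat (ζ : Kˣ) (hζ : IsPrimitiveRoot ζ ℓ) (f : LaurentSeries K) :
    qExpand K ℓ (Fermat.Agent.S37.H400.secMat ℓ f).det
      = ∏ b ∈ Finset.range ℓ, twist (ζ ^ b) f := by
  have hζ' : IsPrimitiveRoot (ζ : K) ℓ := hζ.map_of_injective (f := Units.coeHom K)
    Units.val_injective
  have hprod := Fermat.Agent.S37.H340.kron_map_qExpand_eq_prod hζ' f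
  have h0 := congrArg (fun p : (LaurentSeries K)[X] => p.eval 0) hprod
  simp only [Polynomial.eval_prod, Polynomial.eval_sub, Polynomial.eval_X, Polynomial.eval_C,
    zero_sub] at h0
  rw [Polynomial.eval_zero_map, Fermat.Agent.S37.H340.kron, kronMat_eq_secMat,
    ← Polynomial.coeff_zero_eq_eval_zero] at h0
  rw [Matrix.det_eq_sign_charpoly_coeff, Fintype.card_fin, map_mul, map_pow, map_neg, map_one, h0,
    Finset.prod_neg, Finset.card_univ, Fintype.card_fin, ← mul_assoc, ← mul_pow]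
  simp only [mul_neg, mul_one, neg_neg, one_pow, one_mul]
  rw [← Fin.prod_univ_eq_prod_range (fun b => twist (ζ ^ b) f) ℓ]
  refine Finset.prod_congr rfl fun b _ => ?_
  have hb : (ζ ^ (b : ℕ)) ^ ℓ = 1 := by
    rw [← pow_mul, mul_comm, pow_mul, hζ.pow_eq_one, one_pow]
  rw [← tw_eq_twist (ζ ^ (b : ℕ)) hb, Units.val_pow_eq_pow_val]

end Det

/-! ### NORM-ID in closed form -/

section Closed

variable {K : Type*} [Field K] [CharZero K] {N ℓ : ℕ} [NeZero N] [NeZero ℓ]

/-- **NORM-ID (closed form).**  For a prime `ℓ ∤ N`, a field `K` of characteristic `0` containing a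
primitive `ℓ`-th root of unity and `y ∈ F = K(j(q^d) : d ∣ N)`:
`N_{F'/F}(y(q^ℓ)) = y(q^ℓ) · det (secMat ℓ y)`, the formal Kronecker norm. -/
theorem norm_betaHom_eq_kronNorm (hℓ : ℓ.Prime) (hℓN : ¬ ℓ ∣ N)
    (ζ : Kˣ) (hζ : IsPrimitiveRoot ζ ℓ) (y : modularFunctionFieldFullC K N) :
    ((@Algebra.norm ↥(modularFunctionFieldFullC K N) _ _ _ (algIncl K N ℓ)
        (betaHom K N ℓ y) : modularFunctionFieldFullC K N) : LaurentSeries K)
      = Fermat.Agent.S37.H400.kronNorm ℓ (y : LaurentSeries K) := by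
  apply qExpand_injective (R := K) ℓ
  rw [norm_betaHom hℓ hℓN (hasModPolys_of_charZero K (N * ℓ)) ζ hζ
    (finrank_algIncl K N ℓ hℓ hℓN), Fermat.Agent.S37.H400.kronNorm, map_mul, qExpand_qExpand,
    qExpand_det_secMat ζ hζ]

end Closed

end Fermat.Agent.S37.H157

end

end
-- ===== PACK-END S37/H157/NormKron.lean

-- ===== PACK-BEGIN S37/H88/ALDegree.lean
section







/-!
# S37 / E-a (helper88): the degree of the second degeneracy map

`k` a field in which the primes dividing `N ℓ` are invertible, `ℓ ∤ N` prime.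
`F_M = k(j(q^d) : d ∣ M) ⊆ k((q))` (`modularFunctionFieldFullC k M`), `V = (q ↦ q^ℓ)`.

* `K0 k N ℓ := V(F_N)`, an intermediate field of `k((q))/k` contained in `F_{Nℓ}`;
* `relfinrank_K0` : `[F_{Nℓ} : V(F_N)] = ℓ + 1`.
-/

set_option autoImplicit false

noncomputable section

namespace Fermat.Agent.S37.H88

open ModularCurve Polynomial IntermediateField Fermat.Agent.S28

variable (k : Type*) [Field k]

/-- `V(F_N)`, the image of the function field of level `N` under `q ↦ q^ℓ`. -/
def K0 (N ℓ : ℕ) [NeZero ℓ] : IntermediateField k (LaurentSeries k) :=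
  (modularFunctionFieldFullC k N).map (qExpandAlgHomC k ℓ)

/-- `k(j(q^ℓ)) = V(k(j))`. -/
abbrev J1 (ℓ : ℕ) [NeZero ℓ] : IntermediateField k (LaurentSeries k) :=
  (jField k).map (qExpandAlgHomC k ℓ)

theorem jd_mem_fullC {d M : ℕ} [NeZero d] (hd : d ∣ M) :
    qExpand k d (jqModC k) ∈ modularFunctionFieldFullC k M :=
  subset_adjoin k _ ⟨d, ‹_›, hd, rfl⟩

theorem jq_mem_fullC (M : ℕ) : jqModC k ∈ modularFunctionFieldFullC k M := by
  have h := jd_mem_fullC k (d := 1) (one_dvd M)
  rwa [qExpand_one_apply] at h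

theorem fullC_mono {N M : ℕ} (h : N ∣ M) :
    modularFunctionFieldFullC k N ≤ modularFunctionFieldFullC k M := by
  rw [modularFunctionFieldFullC, adjoin_le_iff]
  rintro _ ⟨d, hd0, hd, rfl⟩
  exact jd_mem_fullC k (hd.trans h)

theorem jField_le_fullC (M : ℕ) : jField k ≤ modularFunctionFieldFullC k M := by
  rw [jField, adjoin_le_iff]
  rintro x hx
  rw [Set.mem_singleton_iff] at hx
  subst hx
  exact jq_mem_fullC k M

theorem K0_le (N ℓ : ℕ) [NeZero ℓ] : K0 k N ℓ ≤ modularFunctionFieldFullC k (N * ℓ) := by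
  rw [K0, modularFunctionFieldFullC, adjoin_map, adjoin_le_iff]
  rintro _ ⟨_, ⟨d, hd0, hd, rfl⟩, rfl⟩
  have : NeZero (ℓ * d) := ⟨Nat.mul_ne_zero (NeZero.ne ℓ) (NeZero.ne d)⟩
  have h1 : qExpandAlgHomC k ℓ (qExpand k d (jqModC k)) = qExpand k (ℓ * d) (jqModC k) := by
    rw [qExpandAlgHomC_apply, qExpand_qExpand]
  rw [h1]
  exact jd_mem_fullC k (by rw [mul_comm]; exact Nat.mul_dvd_mul_right hd ℓ)

theorem J1_le_K0 (N ℓ : ℕ) [NeZero ℓ] : J1 k ℓ ≤ K0 k N ℓ :=
  IntermediateField.map_mono _ (jField_le_fullC k N)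

section Degree

variable (N ℓ : ℕ) [NeZero ℓ]

theorem J1_le_fullC_prime : J1 k ℓ ≤ modularFunctionFieldFullC k ℓ := by
  have h := (J1_le_K0 k 1 ℓ).trans (K0_le k 1 ℓ)
  rwa [one_mul] at h

/-- `k(j, j_ℓ) = k(j_ℓ)(j)`. -/
theorem extendScalars_fullC_prime (hℓ : ℓ.Prime) :
    extendScalars (J1_le_fullC_prime k ℓ) = adjoin (J1 k ℓ) {jqModC k} := by
  apply IntermediateField.restrictScalars_injective k
  rw [IntermediateField.restrictScalars_adjoin_eq_sup]
  apply le_antisymm
  · show modularFunctionFieldFullC k ℓ ≤ _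
    rw [modularFunctionFieldFullC, adjoin_le_iff]
    rintro _ ⟨d, hd0, hd, rfl⟩
    rcases (Nat.dvd_prime hℓ).mp hd with rfl | rfl
    · rw [qExpand_one_apply]
      exact (le_sup_right : adjoin k {jqModC k} ≤ _) (mem_adjoin_simple_self k _)
    · exact (le_sup_left : J1 k d ≤ _) (h88_jp_mem_map k d)
  · refine sup_le (J1_le_fullC_prime k ℓ) ?_
    rw [adjoin_le_iff]
    rintro x hx
    rw [Set.mem_singleton_iff] at hx
    subst hx
    exact jq_mem_fullC k ℓ

/-- `[k(j, j_ℓ) : k(j_ℓ)] = ℓ + 1`. -/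
theorem relfinrank_J1_fullC_prime (hℓ : ℓ.Prime) (hℓk : (ℓ : k) ≠ 0) :
    (J1 k ℓ).relfinrank (modularFunctionFieldFullC k ℓ) = ℓ + 1 := by
  obtain ⟨Φ⟩ := H807.nonempty_modPolyData ℓ hℓ
  obtain ⟨W⟩ := H807.nonempty_unitPolyData ℓ hℓ
  have hdeg := h88_natDegree_minpoly_j k ℓ hℓk hℓ.one_lt Φ W H25.theta_identity
  have hint := h88_isIntegral_j_K1 k ℓ Φ
  rw [relfinrank_eq_finrank_of_le (J1_le_fullC_prime k ℓ), extendScalars_fullC_prime k ℓ hℓ,
    adjoin.finrank hint, hdeg]

/-- **Degree of the second degeneracy map**: `[F_{Nℓ} : V(F_N)] = ℓ + 1` for `ℓ ∤ N`. -/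
theorem relfinrank_K0 (hN : N ≠ 0) (hℓ : ℓ.Prime) (hℓN : ¬ ℓ ∣ N)
    (hchar : ∀ r : ℕ, r.Prime → r ∣ N * ℓ → (r : k) ≠ 0) :
    (K0 k N ℓ).relfinrank (modularFunctionFieldFullC k (N * ℓ)) = ℓ + 1 := by
  have hNℓ : N * ℓ ≠ 0 := Nat.mul_ne_zero hN hℓ.ne_zero
  have hℓk : (ℓ : k) ≠ 0 := hchar ℓ hℓ (dvd_mul_left ℓ N)
  have a1 : (jField k).relfinrank (modularFunctionFieldFullC k N) = dedekindPsi N :=
    H988.relfinrank_jField_full_eq k N hN
      (fun r hr hrN => hchar r hr (hrN.trans (dvd_mul_right N ℓ)))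
  have a2 : (jField k).relfinrank (modularFunctionFieldFullC k (N * ℓ)) = dedekindPsi (N * ℓ) :=
    H988.relfinrank_jField_full_eq k (N * ℓ) hNℓ hchar
  have a3 : (jField k).relfinrank (modularFunctionFieldFullC k ℓ) = dedekindPsi ℓ :=
    H988.relfinrank_jField_full_eq k ℓ hℓ.ne_zero
      (fun r hr hrℓ => hchar r hr (hrℓ.trans (dvd_mul_left ℓ N)))
  have p1 : dedekindPsi (N * ℓ) = (ℓ + 1) * dedekindPsi N :=
    H626.psi_mul_prime_of_not_dvd hN hℓ hℓN
  have p2 : dedekindPsi ℓ = ℓ + 1 := by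
    have h := H626.psi_mul_prime_of_not_dvd (N := 1) one_ne_zero hℓ
      (fun h => hℓ.one_lt.ne' (Nat.dvd_one.mp h))
    rwa [one_mul, dedekindPsi_one, mul_one] at h
  have b1 : (J1 k ℓ).relfinrank (K0 k N ℓ) = dedekindPsi N := by
    rw [K0, relfinrank_map_map, a1]
  have b2 := relfinrank_J1_fullC_prime k ℓ hℓ hℓk
  have c1 := relfinrank_mul_relfinrank (jField_le_fullC k ℓ) (fullC_mono k (dvd_mul_left ℓ N))
  have c2 := relfinrank_mul_relfinrank (J1_le_fullC_prime k ℓ) (fullC_mono k (dvd_mul_left ℓ N))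
  have c3 := relfinrank_mul_relfinrank (J1_le_K0 k N ℓ) (K0_le k N ℓ)
  rw [a3, a2, p2] at c1
  rw [b2, c1] at c2
  rw [b1, ← c2, p1] at c3
  have hpos : 0 < dedekindPsi N := H988.dedekindPsi_pos N hN
  rw [mul_comm (ℓ + 1)] at c3
  exact Nat.eq_of_mul_eq_mul_left hpos c3

end Degree

end Fermat.Agent.S37.H88

end
end
-- ===== PACK-END S37/H88/ALDegree.lean

-- ===== PACK-BEGIN A2/IF/H429/Good.lean
section



/-!
# A2 / IF (helper429): finite levels over the inertia field are discretely valued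

`E₁` a finite extension of the inertia field `E_I = ℚ̄^{I_P}` inside `ℚ̄`.  Then
`P ∩ E₁` is a discrete valuation ring.  The level `level P S = E_I(conjugates of S)` is stable
under the inertia group.
-/

set_option autoImplicit false
set_option linter.style.haveILetI false
set_option linter.unusedSectionVars false

open scoped Pointwise
open Polynomial

namespace Fermat.Agent.A2.IF.H429

open Fermat.Agent.S55.Bridge Fermat.Agent.S55.Bridge.H594

attribute [local instance] isAlgebraic_Qbar isGalois_Qbar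

local notation "Qb" => AlgebraicClosure ℚ

variable (P : ValuationSubring Qb)

theorem valuation_natCast_lt_one (q : ℕ) (hP : P.LiesOverPrime q) :
    P.valuation (q : Qb) < 1 := by
  have h : (q : Qb) ∈ P.nonunits := hP
  rwa [ValuationSubring.mem_nonunits_iff] at h

theorem valuation_natCast_ne_zero (q : ℕ) (hq : q.Prime) : P.valuation (q : Qb) ≠ 0 := by
  rw [Valuation.ne_zero_iff]
  exact_mod_cast hq.ne_zero

/-- Conjugates over the inertia field have the same valuation. -/
theorem valuation_eq_of_root_minpoly (x r : Qb)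
    (hr : aeval r (minpoly (inertiaField P) x) = 0) : P.valuation r = P.valuation x := by
  haveI : IsGalois (inertiaField P) Qb := IsGalois.tower_top_of_isGalois ℚ (inertiaField P) Qb
  haveI : Normal (inertiaField P) Qb := IsGalois.to_normal
  have hx : IsAlgebraic (inertiaField P) x := Algebra.IsAlgebraic.isAlgebraic x
  obtain ⟨σ, hσ⟩ := minpoly.exists_algEquiv_of_root hx hr
  have h1 := valuation_map_eq_of_fixes P (inertiaField P) le_rfl (σ.restrictScalars ℚ)
    (fun e he => σ.commutes ⟨e, he⟩) r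
  rw [← hσ]
  exact h1.symm

/-- For `x` in a finite extension `E₁` of the inertia field, `x ^ [E₁ : E_I]!` has the value of a
power of `q`. -/
theorem exists_pow_valuation_eq (q : ℕ) (hq : q.Prime) (hP : P.LiesOverPrime q)
    (E₁ : IntermediateField (inertiaField P) Qb) [FiniteDimensional (inertiaField P) E₁]
    (x : Qb) (hx : x ∈ E₁) (hx0 : x ≠ 0) :
    ∃ k : ℤ, P.valuation (x ^ (Module.finrank (inertiaField P) E₁).factorial) =
      P.valuation (q : Qb) ^ k := by
  have hxint : IsIntegral (inertiaField P) x := Algebra.IsIntegral.isIntegral x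
  set p := minpoly (inertiaField P) x with hp
  have hd0 : 0 < p.natDegree := minpoly.natDegree_pos hxint
  have hd : p.natDegree ≤ Module.finrank (inertiaField P) E₁ := by
    have h1 := minpoly.natDegree_le (A := inertiaField P) (⟨x, hx⟩ : E₁)
    rw [IntermediateField.minpoly_eq] at h1
    exact h1
  have hpm : p.Monic := minpoly.monic hxint
  have hc0 : p.coeff 0 ≠ 0 := minpoly.coeff_zero_ne_zero hxint hx0
  -- the value of the constant coefficient
  have hval : P.valuation ((p.coeff 0 : inertiaField P) : Qb) = P.valuation x ^ p.natDegree := by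
    have hsplit : (p.map (algebraMap (inertiaField P) Qb)).Splits := IsAlgClosed.splits _
    have h1 := hsplit.coeff_zero_eq_prod_roots_of_monic (hpm.map _)
    rw [coeff_map] at h1
    have h2 : algebraMap (inertiaField P) Qb (p.coeff 0) = ((p.coeff 0 : inertiaField P) : Qb) :=
      rfl
    rw [h2] at h1
    rw [h1, map_mul, map_pow, Valuation.map_neg, map_one, one_pow, one_mul, map_multiset_prod]
    have h3 : (p.map (algebraMap (inertiaField P) Qb)).roots.map P.valuation =
        Multiset.replicate (p.map (algebraMap (inertiaField P) Qb)).roots.card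
          (P.valuation x) := by
      rw [Multiset.eq_replicate]
      refine ⟨Multiset.card_map _ _, fun b hb => ?_⟩
      obtain ⟨r, hr, rfl⟩ := Multiset.mem_map.mp hb
      apply valuation_eq_of_root_minpoly P x r
      have h4 := isRoot_of_mem_roots hr
      rw [IsRoot, eval_map, ← aeval_def] at h4
      exact h4
    rw [h3, Multiset.prod_replicate, ← hsplit.natDegree_eq_card_roots, hpm.natDegree_map]
  obtain ⟨k, hk⟩ := exists_zpow_of_mem_inertiaField P q hq hP
    ((p.coeff 0 : inertiaField P) : Qb) (p.coeff 0).2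
    (fun h => hc0 (Subtype.ext h))
  rw [map_div₀, map_zpow₀] at hk
  have hqv : P.valuation (q : Qb) ^ k ≠ 0 :=
    zpow_ne_zero k (valuation_natCast_ne_zero P q hq)
  have hk' : P.valuation ((p.coeff 0 : inertiaField P) : Qb) = P.valuation (q : Qb) ^ k :=
    (div_eq_one_iff_eq hqv).mp hk
  obtain ⟨e, he⟩ := Nat.dvd_factorial hd0 hd
  refine ⟨k * e, ?_⟩
  rw [he, map_pow, pow_mul, ← hval, hk', zpow_mul, zpow_natCast]

/-- `P ∩ E` is a discrete valuation ring when every element of `E` has, after raising to a fixed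
power `N`, the value of a power of `q`. -/
theorem isDiscreteValuationRing_RE_of_pow (q : ℕ) (hq : q.Prime) (hP : P.LiesOverPrime q)
    (E : IntermediateField ℚ Qb) (N : ℕ) (hN : 0 < N)
    (h : ∀ x : Qb, x ∈ E → x ≠ 0 → ∃ k : ℤ, P.valuation (x ^ N) = P.valuation (q : Qb) ^ k) :
    IsDiscreteValuationRing (P.comap (algebraMap E Qb)) := by
  have hqlt := valuation_natCast_lt_one P q hP
  have hq0 := valuation_natCast_ne_zero P q hq
  have hqpos : 0 < P.valuation (q : Qb) := zero_lt_iff.mpr hq0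
  have hcoe : ∀ n : ℕ, ((((n : ℕ) : P.comap (algebraMap E Qb)) : E) : Qb) = (n : Qb) := by
    intro n
    simp
  refine isDiscreteValuationRing_of_pow_associated
    ((q : ℕ) : P.comap (algebraMap E Qb)) ?_ ?_ N hN ?_
  · intro h0
    have h1 := hcoe q
    rw [h0] at h1
    have h2 : (q : Qb) = 0 := by
      rw [← h1]; rfl
    exact hq.ne_zero (by exact_mod_cast h2)
  · intro hu
    have h1 : ((q : ℕ) : P.comap (algebraMap E Qb)) ∈
        IsLocalRing.maximalIdeal (P.comap (algebraMap E Qb)) := by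
      rw [mem_maximalIdeal_RE_iff, hcoe]
      exact hP
    exact (IsLocalRing.mem_maximalIdeal _).mp h1 hu
  · intro x hx
    have hxE : ((x : E) : Qb) ∈ E := (x : E).2
    have hx0 : ((x : E) : Qb) ≠ 0 := by
      intro h0
      apply hx
      apply Subtype.ext
      apply Subtype.ext
      exact h0
    have hxP : ((x : E) : Qb) ∈ P := x.2
    obtain ⟨k, hk⟩ := h _ hxE hx0
    -- `k ≥ 0`
    have hle : P.valuation (((x : E) : Qb) ^ N) ≤ 1 :=
      (P.valuation_le_one_iff _).mpr (pow_mem hxP N)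
    have hk0 : 0 ≤ k := by
      by_contra hneg
      rw [not_le] at hneg
      have h1 : 1 < P.valuation (q : Qb) ^ k := by
        obtain ⟨m, hm⟩ : ∃ m : ℕ, k = -((m : ℤ) + 1) := ⟨(-k - 1).toNat, by omega⟩
        rw [hm, zpow_neg]
        have h2 : P.valuation (q : Qb) ^ ((m : ℤ) + 1) < 1 := by
          have : P.valuation (q : Qb) ^ ((m : ℤ) + 1) = P.valuation (q : Qb) ^ (m + 1) := by
            exact_mod_cast zpow_natCast (P.valuation (q : Qb)) (m + 1)
          rw [this]
          exact pow_lt_one₀ zero_le hqlt (Nat.succ_ne_zero m)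
        have h3 : 0 < P.valuation (q : Qb) ^ ((m : ℤ) + 1) := zpow_pos hqpos _
        exact (one_lt_inv₀ h3).mpr h2
      rw [← hk] at h1
      exact absurd hle (not_le.mpr h1)
    obtain ⟨n, rfl⟩ := Int.eq_ofNat_of_zero_le hk0
    rw [zpow_natCast] at hk
    refine ⟨n, ?_⟩
    -- the unit
    let u : Qb := ((x : E) : Qb) ^ N / (q : Qb) ^ n
    have huv : P.valuation u = 1 := by
      show P.valuation (((x : E) : Qb) ^ N / (q : Qb) ^ n) = 1
      rw [map_div₀, hk, map_pow]
      exact div_self (pow_ne_zero n hq0)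
    have huE : u ∈ E := div_mem (pow_mem hxE N) (pow_mem (natCast_mem E q) n)
    have huP : u ∈ P := (P.valuation_le_one_iff _).mp huv.le
    let uR : P.comap (algebraMap E Qb) := ⟨⟨u, huE⟩, huP⟩
    have huR : IsUnit uR := by
      rw [← IsLocalRing.notMem_maximalIdeal, mem_maximalIdeal_RE_iff,
        ValuationSubring.mem_nonunits_iff]
      show ¬ P.valuation u < 1
      rw [huv]
      exact lt_irrefl _
    have heq : x ^ N = ((q : ℕ) : P.comap (algebraMap E Qb)) ^ n * uR := by
      apply Subtype.ext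
      apply Subtype.ext
      show ((x : E) : Qb) ^ N = ((((q : ℕ) : P.comap (algebraMap E Qb)) : E) : Qb) ^ n * u
      rw [hcoe]
      have hqn : (q : Qb) ^ n ≠ 0 := pow_ne_zero n (by exact_mod_cast hq.ne_zero)
      show ((x : E) : Qb) ^ N = (q : Qb) ^ n * (((x : E) : Qb) ^ N / (q : Qb) ^ n)
      field_simp
    rw [heq]
    exact associated_mul_unit_left _ uR huR


/-- All conjugates over `ℚ` of the elements of a finite set. -/
noncomputable def conjSet (S : Finset Qb) : Set Qb := (∏ s ∈ S, minpoly ℚ s).rootSet Qb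

theorem conjSet_prod_ne_zero (S : Finset Qb) : (∏ s ∈ S, minpoly ℚ s) ≠ 0 :=
  Finset.prod_ne_zero_iff.mpr fun s _ => minpoly.ne_zero (Algebra.IsIntegral.isIntegral s)

theorem conjSet_finite (S : Finset Qb) : (conjSet S).Finite := Polynomial.rootSet_finite _ _

theorem mem_conjSet_iff (S : Finset Qb) (x : Qb) :
    x ∈ conjSet S ↔ aeval x (∏ s ∈ S, minpoly ℚ s) = 0 := by
  unfold conjSet
  rw [Polynomial.mem_rootSet]
  exact ⟨fun h => h.2, fun h => ⟨conjSet_prod_ne_zero S, h⟩⟩

theorem mem_conjSet (S : Finset Qb) {s : Qb} (hs : s ∈ S) : s ∈ conjSet S := by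
  rw [mem_conjSet_iff, map_prod]
  exact Finset.prod_eq_zero hs (minpoly.aeval ℚ s)

theorem map_mem_conjSet (S : Finset Qb) (σ : Qb ≃ₐ[ℚ] Qb) {x : Qb} (hx : x ∈ conjSet S) :
    σ x ∈ conjSet S := by
  rw [mem_conjSet_iff] at hx ⊢
  have := Polynomial.aeval_algHom_apply (σ : Qb →ₐ[ℚ] Qb) x (∏ s ∈ S, minpoly ℚ s)
  rw [hx, map_zero] at this
  exact this

/-- The level: the inertia field with all conjugates of `S` adjoined, over the inertia field. -/
noncomputable def level₁ (S : Finset Qb) : IntermediateField (inertiaField P) Qb :=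
  IntermediateField.adjoin (inertiaField P) (conjSet S)

instance level₁_finiteDimensional (S : Finset Qb) :
    FiniteDimensional (inertiaField P) (level₁ P S) := by
  haveI : Finite (conjSet S) := (conjSet_finite S).to_subtype
  exact IntermediateField.finiteDimensional_adjoin
    (fun x _ => Algebra.IsIntegral.isIntegral x)

/-- The level as an intermediate field of `ℚ̄/ℚ`. -/
noncomputable def level (S : Finset Qb) : IntermediateField ℚ Qb :=
  (level₁ P S).restrictScalars ℚ

theorem mem_level_iff (S : Finset Qb) (x : Qb) : x ∈ level P S ↔ x ∈ level₁ P S := Iff.rfl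

theorem inertiaField_le_level (S : Finset Qb) : inertiaField P ≤ level P S := by
  intro x hx
  rw [mem_level_iff]
  exact (level₁ P S).algebraMap_mem ⟨x, hx⟩

theorem mem_level_of_mem (S : Finset Qb) {s : Qb} (hs : s ∈ S) : s ∈ level P S := by
  rw [mem_level_iff]
  exact IntermediateField.subset_adjoin _ _ (mem_conjSet S hs)

/-- The level is stable under every automorphism fixing the inertia field pointwise. -/
theorem level_stable (S : Finset Qb) (τ : Qb ≃ₐ[ℚ] Qb)
    (hτ : ∀ e ∈ inertiaField P, τ e = e) {x : Qb} (hx : x ∈ level P S) : τ x ∈ level P S := by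
  let τK : Qb ≃ₐ[inertiaField P] Qb :=
    { τ.toRingEquiv with commutes' := fun e => hτ (e : Qb) e.2 }
  have hτK : ∀ y : Qb, τK y = τ y := fun _ => rfl
  have h1 : (level₁ P S).map (τK : Qb →ₐ[inertiaField P] Qb) ≤ level₁ P S := by
    unfold level₁
    rw [IntermediateField.adjoin_map]
    apply IntermediateField.adjoin.mono
    rintro _ ⟨y, hy, rfl⟩
    exact map_mem_conjSet S τ hy
  rw [mem_level_iff] at hx ⊢
  apply h1
  rw [IntermediateField.mem_map]
  exact ⟨x, hx, rfl⟩

theorem level_stable_inertia (S : Finset Qb) {τ : Qb ≃ₐ[ℚ] Qb}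
    (hτ : τ ∈ P.inertiaSubgroupIn ℚ) {x : Qb} (hx : x ∈ level P S) : τ x ∈ level P S :=
  level_stable P S τ (fun e he => (mem_inertiaField_iff P).mp he τ hτ) hx

/-- The level is discretely valued. -/
theorem isDiscreteValuationRing_level (q : ℕ) (hq : q.Prime) (hP : P.LiesOverPrime q)
    (S : Finset Qb) : IsDiscreteValuationRing (P.comap (algebraMap (level P S) Qb)) :=
  isDiscreteValuationRing_RE_of_pow P q hq hP (level P S)
    (Module.finrank (inertiaField P) (level₁ P S)).factorial (Nat.factorial_pos _)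
    (fun x hx hx0 => exists_pow_valuation_eq P q hq hP (level₁ P S) x hx hx0)


theorem iterate_eq_pow_apply (σ : Qb ≃ₐ[ℚ] Qb) (r : ℕ) (x : Qb) : (⇑σ)^[r] x = (σ ^ r) x := by
  induction r with
  | zero => rfl
  | succ n ih =>
    rw [Function.iterate_succ_apply', ih, pow_succ']
    rfl

theorem pow_mul_apply_eq (σ : Qb ≃ₐ[ℚ] Qb) (a b : ℕ) (x : Qb) (h : (σ ^ a) x = x) :
    (σ ^ (a * b)) x = x := by
  induction b with
  | zero => simp
  | succ n ih =>
    rw [Nat.mul_succ, pow_add]
    show (σ ^ (a * n)) ((σ ^ a) x) = x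
    rw [h, ih]

/-- Some positive power of `σ` fixes every element of a finite set. -/
theorem exists_pow_fixes_finset (σ : Qb ≃ₐ[ℚ] Qb) (T : Finset Qb) :
    ∃ r : ℕ, 0 < r ∧ ∀ x ∈ T, (σ ^ r) x = x := by
  classical
  induction T using Finset.induction_on with
  | empty => exact ⟨1, one_pos, fun x hx => absurd hx (Finset.notMem_empty x)⟩
  | insert a T _ ih =>
    obtain ⟨r, hr, hT⟩ := ih
    obtain ⟨k, hk⟩ := exists_pow_apply_eq σ a
    refine ⟨(k + 1) * r, Nat.mul_pos (Nat.succ_pos k) hr, fun x hx => ?_⟩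
    rcases Finset.mem_insert.mp hx with rfl | hx
    · exact pow_mul_apply_eq σ (k + 1) r x hk
    · rw [mul_comm]
      exact pow_mul_apply_eq σ r (k + 1) x (hT x hx)

/-- An automorphism fixing the inertia field and the conjugates of `S` fixes the level. -/
theorem level_fixed (S : Finset Qb) (ρ : Qb ≃ₐ[ℚ] Qb)
    (hρ : ∀ e ∈ inertiaField P, ρ e = e) (hS : ∀ x ∈ conjSet S, ρ x = x)
    {x : Qb} (hx : x ∈ level P S) : ρ x = x := by
  rw [mem_level_iff] at hx
  unfold level₁ at hx
  induction hx using IntermediateField.adjoin_induction with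
  | mem x hx => exact hS x hx
  | algebraMap x => exact hρ _ x.2
  | add x y _ _ hx hy => rw [map_add, hx, hy]
  | inv x _ hx => rw [map_inv₀, hx]
  | mul x y _ _ hx hy => rw [map_mul, hx, hy]

/-- Every element of the inertia group has finite order on the level. -/
theorem level_finite_order (S : Finset Qb) {τ : Qb ≃ₐ[ℚ] Qb}
    (hτ : τ ∈ P.inertiaSubgroupIn ℚ) :
    ∃ r : ℕ, 0 < r ∧ ∀ e : Qb, e ∈ level P S → (⇑τ)^[r] e = e := by
  obtain ⟨r, hr, hT⟩ := exists_pow_fixes_finset τ (conjSet_finite S).toFinset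
  refine ⟨r, hr, fun e he => ?_⟩
  rw [iterate_eq_pow_apply]
  apply level_fixed P S (τ ^ r) _ _ he
  · intro e he
    exact (mem_inertiaField_iff P).mp he (τ ^ r) (Subgroup.pow_mem _ hτ r)
  · intro x hx
    exact hT x ((conjSet_finite S).mem_toFinset.mpr hx)


end Fermat.Agent.A2.IF.H429

end
-- ===== PACK-END A2/IF/H429/Good.lean

-- ===== PACK-BEGIN A2/Mod/H189/GoodRedT.lean
section






/-!
# Cell A2 / MOD, GOODRED part G3 (helper189): `GoodRedAt` for `j`, `1/j` from the Hauptmodul charts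

The level-`M` hypothesis `Mod.GoodRedAt P E M w VM y` of MODASM (`A2/Mod/Spec.lean`) is needed for
`y = j` and `y = j⁻¹`.  Row S18 proves good reduction in the coordinate `j` only for residue
characteristic `≥ 5`; for `q = 3` (`2 ∣ M`) and `q = 2` (`3 ∣ M`) it works with the Hauptmodul
`t = t₂` (`j t² = (t + 256)³`) resp. `t = t₃` (`j t³ = (t + 27)(t + 243)³`).  Here:

* `mem_chart_iff`       : the frozen `Mod.chart` is the integral closure of `R_E[y]`;
* `goodRedAt_iff_goodOn`: `Mod.GoodRedAt` is `H189.GoodOn` (the Mathlib-only form);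
* `goodRedAt_j_of_t2`, `goodRedAt_j_of_t3` : `GoodRedAt` at `t`, `t⁻¹` ⟹ `GoodRedAt` at `j`, `j⁻¹`
  (unit conditions as hypotheses);
* `goodRedAt_j_of_t2_polar`, `goodRedAt_j_of_t3_polar` : the same, with the unit conditions
  discharged by L3 (`H816.vinfGauss`) and L2 (`H708.vinfBasic`) for a polar `t = t⁻¹·(unit + …)`.
-/

set_option autoImplicit false
set_option synthInstance.maxHeartbeats 400000
set_option maxHeartbeats 1600000

noncomputable section

namespace Fermat.Agent.A2.Mod.H189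

open ModularCurve HahnSeries Polynomial Fermat.Agent.A2 Fermat.Agent.A2.Mod

section Chart

variable (P : ValuationSubring _root_.Fermat.Agent.A2.Mod.Qb) (E : IntermediateField ℚ _root_.Fermat.Agent.A2.Mod.Qb) (N : ℕ)

/-- `R_E[X] → R_E[y] ⊆ F`. -/
def evAdjoin (y : _root_.Fermat.Agent.A2.Mod.FE E N) :
    Polynomial (_root_.Fermat.Agent.A2.Mod.RE P E) →+* Algebra.adjoin (_root_.Fermat.Agent.A2.Mod.RE P E) ({y} : Set (_root_.Fermat.Agent.A2.Mod.FE E N)) :=
  ((Polynomial.aeval (R := _root_.Fermat.Agent.A2.Mod.RE P E) y).codRestrict (Algebra.adjoin (_root_.Fermat.Agent.A2.Mod.RE P E) ({y} : Set (_root_.Fermat.Agent.A2.Mod.FE E N)))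
    (fun p => by
      rw [Algebra.adjoin_singleton_eq_range_aeval]
      exact ⟨p, rfl⟩)).toRingHom

theorem evAdjoin_surjective (y : _root_.Fermat.Agent.A2.Mod.FE E N) : Function.Surjective (evAdjoin P E N y) := by
  rintro ⟨a, ha⟩
  rw [Algebra.adjoin_singleton_eq_range_aeval] at ha
  obtain ⟨p, hp⟩ := ha
  exact ⟨p, Subtype.ext hp⟩

theorem algebraMap_comp_evAdjoin (y : _root_.Fermat.Agent.A2.Mod.FE E N) :
    (algebraMap (Algebra.adjoin (_root_.Fermat.Agent.A2.Mod.RE P E) ({y} : Set (_root_.Fermat.Agent.A2.Mod.FE E N))) (_root_.Fermat.Agent.A2.Mod.FE E N)).comp (evAdjoin P E N y)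
      = Polynomial.eval₂RingHom ((algebraMap E (_root_.Fermat.Agent.A2.Mod.FE E N)).comp (_root_.Fermat.Agent.A2.Mod.RE P E).subtype) y := by
  refine Polynomial.ringHom_ext (fun a => ?_) ?_
  · show (Polynomial.aeval (R := _root_.Fermat.Agent.A2.Mod.RE P E) y) (C a) = _
    rw [Polynomial.aeval_C, Polynomial.coe_eval₂RingHom, Polynomial.eval₂_C]
    rfl
  · show (Polynomial.aeval (R := _root_.Fermat.Agent.A2.Mod.RE P E) y) X = _
    rw [Polynomial.aeval_X, Polynomial.coe_eval₂RingHom, Polynomial.eval₂_X]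

/-- The frozen chart of `Mod/Spec.lean` is the integral closure of `R_E[y]`. -/
theorem mem_chart_iff {y f : _root_.Fermat.Agent.A2.Mod.FE E N} :
    f ∈ chart P E N y ↔ IsIntegral (Algebra.adjoin (_root_.Fermat.Agent.A2.Mod.RE P E) ({y} : Set (_root_.Fermat.Agent.A2.Mod.FE E N))) f := by
  constructor
  · rintro ⟨p, hp, hpf⟩
    refine ⟨p.map (evAdjoin P E N y), hp.map _, ?_⟩
    rw [eval₂_map, algebraMap_comp_evAdjoin]
    exact hpf
  · rintro ⟨q, hq, hqf⟩
    have hl : q ∈ lifts (evAdjoin P E N y) := by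
      rw [lifts_iff_coeff_lifts]
      intro n
      exact evAdjoin_surjective P E N y _
    obtain ⟨p, hpq, -, hp⟩ := lifts_and_degree_eq_and_monic hl hq
    refine ⟨p, hp, ?_⟩
    rw [← algebraMap_comp_evAdjoin, ← eval₂_map, hpq]
    exact hqf

variable {N} in
/-- `Mod.GoodRedAt` in Mathlib-only form. -/
theorem goodRedAt_iff_goodOn (w : _root_.Fermat.Agent.A2.Mod.RE P E) (VM : ValuationSubring (_root_.Fermat.Agent.A2.Mod.FE E N)) (y : _root_.Fermat.Agent.A2.Mod.FE E N) :
    GoodRedAt P E N w VM y ↔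
      GoodOn VM.toSubring (cE P E N w) (Algebra.adjoin (_root_.Fermat.Agent.A2.Mod.RE P E) ({y} : Set (_root_.Fermat.Agent.A2.Mod.FE E N))) := by
  constructor
  · intro h
    refine ⟨fun b hb hbw => ?_, fun f hf hint => ?_⟩
    · exact (mem_chart_iff P E N).1 (h.qep b ((mem_chart_iff P E N).2 hb) hbw)
    · obtain ⟨n, c, hc, hcw⟩ := hint
      obtain ⟨b, hb, hbw⟩ := h.normal f hf ⟨n, c, fun i => (mem_chart_iff P E N).2 (hc i), hcw⟩
      exact ⟨b, (mem_chart_iff P E N).1 hb, hbw⟩
  · rintro ⟨hq, hn⟩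
    refine ⟨fun b hb hbw => ?_, fun f hf hint => ?_⟩
    · exact (mem_chart_iff P E N).2 (hq b ((mem_chart_iff P E N).1 hb) hbw)
    · obtain ⟨n, c, hc, hcw⟩ := hint
      obtain ⟨b, hb, hbw⟩ := hn f hf ⟨n, c, fun i => (mem_chart_iff P E N).1 (hc i), hcw⟩
      exact ⟨b, (mem_chart_iff P E N).2 hb, hbw⟩

end Chart

section Main

variable (P : ValuationSubring _root_.Fermat.Agent.A2.Mod.Qb) (E : IntermediateField ℚ _root_.Fermat.Agent.A2.Mod.Qb) (M : ℕ) (w : _root_.Fermat.Agent.A2.Mod.RE P E)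

/-- `n ≡ 1 mod q` is a unit of `R_E` when `P` lies over `q`. -/
theorem exists_inv_of_liesOver {q : ℕ} (hP : P.LiesOverPrime q) (n k : ℕ) (hn : n = q * k + 1) :
    ∃ i : _root_.Fermat.Agent.A2.Mod.RE P E, (n : _root_.Fermat.Agent.A2.Mod.RE P E) * i = 1 := by
  have hq : P.valuation (q : _root_.Fermat.Agent.A2.Mod.Qb) < 1 := by
    have h : (q : _root_.Fermat.Agent.A2.Mod.Qb) ∈ P.nonunits := hP
    exact (P.mem_nonunits_iff).1 h
  have hk : P.valuation ((q : _root_.Fermat.Agent.A2.Mod.Qb) * (k : _root_.Fermat.Agent.A2.Mod.Qb)) < 1 := by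
    calc P.valuation ((q : _root_.Fermat.Agent.A2.Mod.Qb) * (k : _root_.Fermat.Agent.A2.Mod.Qb)) = P.valuation (q : _root_.Fermat.Agent.A2.Mod.Qb) * P.valuation (k : _root_.Fermat.Agent.A2.Mod.Qb) :=
          map_mul _ _ _
      _ ≤ P.valuation (q : _root_.Fermat.Agent.A2.Mod.Qb) * 1 := by
          gcongr
          exact (P.valuation_le_one_iff _).2 (natCast_mem P k)
      _ = P.valuation (q : _root_.Fermat.Agent.A2.Mod.Qb) := mul_one _
      _ < 1 := hq
  have hval : P.valuation (n : _root_.Fermat.Agent.A2.Mod.Qb) = 1 := by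
    have e : (n : _root_.Fermat.Agent.A2.Mod.Qb) = 1 + (q : _root_.Fermat.Agent.A2.Mod.Qb) * (k : _root_.Fermat.Agent.A2.Mod.Qb) := by
      rw [hn]
      push_cast
      ring
    rw [e, ← map_one P.valuation]
    exact Valuation.map_add_eq_of_lt_left _ (by rw [map_one]; exact hk)
  have hinv : ((n : _root_.Fermat.Agent.A2.Mod.Qb))⁻¹ ∈ P := by
    refine (P.valuation_le_one_iff _).1 ?_
    rw [map_inv₀, hval, inv_one]
  have hn0 : (n : E) ≠ 0 := by
    have : n ≠ 0 := by omega
    exact_mod_cast this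
  refine ⟨⟨((n : E))⁻¹, ?_⟩, Subtype.ext ?_⟩
  · show algebraMap E _root_.Fermat.Agent.A2.Mod.Qb ((n : E))⁻¹ ∈ P
    rw [map_inv₀, map_natCast]
    exact hinv
  · show ((n : _root_.Fermat.Agent.A2.Mod.RE P E) : E) * ((n : E))⁻¹ = 1
    have : ((n : _root_.Fermat.Agent.A2.Mod.RE P E) : E) = (n : E) := by simp
    rw [this, mul_inv_cancel₀ hn0]

/-- **`t₂ → j`** (`q = 3`, `2 ∣ M`): good reduction in the charts of the Hauptmodul `t` of `X₀(2)`
gives good reduction in the charts of `j`. -/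
theorem goodRedAt_j_of_t2 (i : _root_.Fermat.Agent.A2.Mod.RE P E) (hi : (256 : _root_.Fermat.Agent.A2.Mod.RE P E) * i = 1)
    (VM : ValuationSubring (_root_.Fermat.Agent.A2.Mod.FE E M))
    (hRV : ∀ r : _root_.Fermat.Agent.A2.Mod.RE P E, algebraMap (_root_.Fermat.Agent.A2.Mod.RE P E) (_root_.Fermat.Agent.A2.Mod.FE E M) r ∈ VM)
    (t : _root_.Fermat.Agent.A2.Mod.FE E M) (hrel : jE E M 1 (one_dvd _) * t ^ 2 = (t + 256) ^ 3)
    (htV : t ∈ VM) (htV' : t⁻¹ ∈ VM) (huV : (t + 256)⁻¹ ∈ VM)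
    (hg : GoodRedAt P E M w VM t) (hg' : GoodRedAt P E M w VM t⁻¹) :
    GoodRedAt P E M w VM (jE E M 1 (one_dvd _)) ∧
      GoodRedAt P E M w VM (jE E M 1 (one_dvd _))⁻¹ := by
  rw [goodRedAt_iff_goodOn] at hg hg' ⊢
  rw [goodRedAt_iff_goodOn]
  have hj := H873.jE_ne_zero E M 1 (one_dvd _)
  exact ⟨goodOn_j_of_t2 i hi hj hrel htV htV' hg,
    goodOn_jinv_of_t2 i hi hj hrel hRV htV htV' huV hg hg'⟩

/-- **`t₃ → j`** (`q = 2`, `3 ∣ M`): good reduction in the charts of the Hauptmodul `t` of `X₀(3)`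
gives good reduction in the charts of `j`. -/
theorem goodRedAt_j_of_t3 (i : _root_.Fermat.Agent.A2.Mod.RE P E) (hi : (3 : _root_.Fermat.Agent.A2.Mod.RE P E) * i = 1)
    (VM : ValuationSubring (_root_.Fermat.Agent.A2.Mod.FE E M))
    (hRV : ∀ r : _root_.Fermat.Agent.A2.Mod.RE P E, algebraMap (_root_.Fermat.Agent.A2.Mod.RE P E) (_root_.Fermat.Agent.A2.Mod.FE E M) r ∈ VM)
    (t : _root_.Fermat.Agent.A2.Mod.FE E M) (hrel : jE E M 1 (one_dvd _) * t ^ 3 = (t + 27) * (t + 243) ^ 3)
    (htV : t ∈ VM) (htV' : t⁻¹ ∈ VM) (hu₁V : (t + 27)⁻¹ ∈ VM) (hu₂V : (t + 243)⁻¹ ∈ VM)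
    (hg : GoodRedAt P E M w VM t) (hg' : GoodRedAt P E M w VM t⁻¹) :
    GoodRedAt P E M w VM (jE E M 1 (one_dvd _)) ∧
      GoodRedAt P E M w VM (jE E M 1 (one_dvd _))⁻¹ := by
  rw [goodRedAt_iff_goodOn] at hg hg' ⊢
  rw [goodRedAt_iff_goodOn]
  have hj := H873.jE_ne_zero E M 1 (one_dvd _)
  exact ⟨goodOn_j_of_t3 i hi hj hrel htV htV' hg,
    goodOn_jinv_of_t3 i hi hj hrel hRV htV htV' hu₁V hu₂V hg hg'⟩

/-! ### Unit conditions from L2 and L3 -/

theorem not_C_dvd_X_add_C {w : _root_.Fermat.Agent.A2.Mod.RE P E} (hw : Irreducible w) (c : _root_.Fermat.Agent.A2.Mod.RE P E) :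
    ¬ (Polynomial.C w : Polynomial (_root_.Fermat.Agent.A2.Mod.RE P E)) ∣ Polynomial.X + Polynomial.C c := by
  intro h
  rw [Polynomial.C_dvd_iff_dvd_coeff] at h
  have h1 := h 1
  rw [Polynomial.coeff_add, Polynomial.coeff_X_one, Polynomial.coeff_C] at h1
  simp only [one_ne_zero, if_false, add_zero] at h1
  exact hw.not_isUnit (isUnit_of_dvd_one h1)

theorem ev_X_add_C (t : _root_.Fermat.Agent.A2.Mod.FE E M) (c : _root_.Fermat.Agent.A2.Mod.RE P E) :
    ev P E M t (Polynomial.X + Polynomial.C c) = t + algebraMap (_root_.Fermat.Agent.A2.Mod.RE P E) (_root_.Fermat.Agent.A2.Mod.FE E M) c := by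
  unfold ev
  rw [Polynomial.eval₂_add, Polynomial.eval₂_X, Polynomial.eval₂_C]
  rfl

/-- For a polar `t = t⁻¹ · (unit + …)` all `t + c`, `c ∈ R_E`, are units of `V∞` (L3). -/
theorem add_const_unit_of_polar (hM : M ≠ 0) (hdvr : IsDiscreteValuationRing (_root_.Fermat.Agent.A2.Mod.RE P E))
    (hw : Irreducible w) (VM : ValuationSubring (_root_.Fermat.Agent.A2.Mod.FE E M)) (hVM : IsVinf P E M VM)
    (t : _root_.Fermat.Agent.A2.Mod.FE E M) (U : LaurentSeries (_root_.Fermat.Agent.A2.Mod.RE P E))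
    (hU : (t : LaurentSeries E) = H708.incl (_root_.Fermat.Agent.A2.Mod.RE P E) U)
    (hlow : ∀ n : ℤ, n < -1 → U.coeff n = 0) (htop : IsUnit (U.coeff (-1))) (c : _root_.Fermat.Agent.A2.Mod.RE P E) :
    t + algebraMap (_root_.Fermat.Agent.A2.Mod.RE P E) (_root_.Fermat.Agent.A2.Mod.FE E M) c ∈ VM ∧ (t + algebraMap (_root_.Fermat.Agent.A2.Mod.RE P E) (_root_.Fermat.Agent.A2.Mod.FE E M) c)⁻¹ ∈ VM := by
  have h := H816.vinfGauss P E w M hM hdvr hw VM hVM t U 1 one_pos hU
    (by simpa using hlow) (by simpa using htop) (Polynomial.X + Polynomial.C c)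
    (not_C_dvd_X_add_C P E hw c)
  rwa [ev_X_add_C] at h

theorem const_mem_of_isVinf (hM : M ≠ 0) (hdvr : IsDiscreteValuationRing (_root_.Fermat.Agent.A2.Mod.RE P E))
    (hw : Irreducible w) (VM : ValuationSubring (_root_.Fermat.Agent.A2.Mod.FE E M)) (hVM : IsVinf P E M VM)
    (r : _root_.Fermat.Agent.A2.Mod.RE P E) : algebraMap (_root_.Fermat.Agent.A2.Mod.RE P E) (_root_.Fermat.Agent.A2.Mod.FE E M) r ∈ VM :=
  ((H708.vinfBasic P E w M hM hdvr hw VM hVM).2.1 (r : E)).2 r.2

/-- **`t₂ → j`**, polar form: `P` over `3`, `t` the image of an integral series `t⁻¹(unit + …)`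
with `j t² = (t + 256)³`. -/
theorem goodRedAt_j_of_t2_polar (hP : P.LiesOverPrime 3) (hM : M ≠ 0)
    (hdvr : IsDiscreteValuationRing (_root_.Fermat.Agent.A2.Mod.RE P E)) (hw : Irreducible w)
    (VM : ValuationSubring (_root_.Fermat.Agent.A2.Mod.FE E M)) (hVM : IsVinf P E M VM)
    (t : _root_.Fermat.Agent.A2.Mod.FE E M) (U : LaurentSeries (_root_.Fermat.Agent.A2.Mod.RE P E))
    (hU : (t : LaurentSeries E) = H708.incl (_root_.Fermat.Agent.A2.Mod.RE P E) U)
    (hlow : ∀ n : ℤ, n < -1 → U.coeff n = 0) (htop : IsUnit (U.coeff (-1)))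
    (hrel : jE E M 1 (one_dvd _) * t ^ 2 = (t + 256) ^ 3)
    (hg : GoodRedAt P E M w VM t) (hg' : GoodRedAt P E M w VM t⁻¹) :
    GoodRedAt P E M w VM (jE E M 1 (one_dvd _)) ∧
      GoodRedAt P E M w VM (jE E M 1 (one_dvd _))⁻¹ := by
  obtain ⟨i, hi⟩ := exists_inv_of_liesOver P E hP 256 85 (by norm_num)
  have hi' : (256 : _root_.Fermat.Agent.A2.Mod.RE P E) * i = 1 := by
    rw [← hi]
    norm_num
  have h0 := add_const_unit_of_polar P E M w hM hdvr hw VM hVM t U hU hlow htop 0
  rw [map_zero, add_zero] at h0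
  have h256 := add_const_unit_of_polar P E M w hM hdvr hw VM hVM t U hU hlow htop 256
  rw [map_ofNat] at h256
  exact goodRedAt_j_of_t2 P E M w i hi' VM
    (const_mem_of_isVinf P E M w hM hdvr hw VM hVM) t hrel h0.1 h0.2 h256.2 hg hg'

/-- **`t₃ → j`**, polar form: `P` over `2`, `t` the image of an integral series `t⁻¹(unit + …)`
with `j t³ = (t + 27)(t + 243)³`. -/
theorem goodRedAt_j_of_t3_polar (hP : P.LiesOverPrime 2) (hM : M ≠ 0)
    (hdvr : IsDiscreteValuationRing (_root_.Fermat.Agent.A2.Mod.RE P E)) (hw : Irreducible w)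
    (VM : ValuationSubring (_root_.Fermat.Agent.A2.Mod.FE E M)) (hVM : IsVinf P E M VM)
    (t : _root_.Fermat.Agent.A2.Mod.FE E M) (U : LaurentSeries (_root_.Fermat.Agent.A2.Mod.RE P E))
    (hU : (t : LaurentSeries E) = H708.incl (_root_.Fermat.Agent.A2.Mod.RE P E) U)
    (hlow : ∀ n : ℤ, n < -1 → U.coeff n = 0) (htop : IsUnit (U.coeff (-1)))
    (hrel : jE E M 1 (one_dvd _) * t ^ 3 = (t + 27) * (t + 243) ^ 3)
    (hg : GoodRedAt P E M w VM t) (hg' : GoodRedAt P E M w VM t⁻¹) :
    GoodRedAt P E M w VM (jE E M 1 (one_dvd _)) ∧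
      GoodRedAt P E M w VM (jE E M 1 (one_dvd _))⁻¹ := by
  obtain ⟨i, hi⟩ := exists_inv_of_liesOver P E hP 3 1 (by norm_num)
  have hi' : (3 : _root_.Fermat.Agent.A2.Mod.RE P E) * i = 1 := by
    rw [← hi]
    norm_num
  have h0 := add_const_unit_of_polar P E M w hM hdvr hw VM hVM t U hU hlow htop 0
  rw [map_zero, add_zero] at h0
  have h27 := add_const_unit_of_polar P E M w hM hdvr hw VM hVM t U hU hlow htop 27
  rw [map_ofNat] at h27
  have h243 := add_const_unit_of_polar P E M w hM hdvr hw VM hVM t U hU hlow htop 243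
  rw [map_ofNat] at h243
  exact goodRedAt_j_of_t3 P E M w i hi' VM
    (const_mem_of_isVinf P E M w hM hdvr hw VM hVM) t hrel h0.1 h0.2 h27.2 h243.2 hg hg'

end Main

end Fermat.Agent.A2.Mod.H189

end
end
-- ===== PACK-END A2/Mod/H189/GoodRedT.lean

-- ===== PACK-BEGIN A2/Mod/H31/DegField.lean
section



/-!
# A2 / MOD leaf L8 (helper31) — part 2: `[k(j(t^d) : d ∣ M q) : k(j · j_q)] = 2 (q+1) ψ(M)`

`k` any field in which the primes dividing `M q` are invertible, `q ∤ M` prime.
Inputs: helper988's degree formula `[F_N : k(j)] = ψ(N)`, the modular polynomial `Φ_q`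
(`S28.ModPolyData`, both vanishing properties), and the bivariate degree lemma of `Biv.lean`.
-/

set_option autoImplicit false

noncomputable section

namespace Fermat.Agent.A2.Mod.H31

open ModularCurve HahnSeries Polynomial IntermediateField
open scoped Polynomial.Bivariate

/-! ### Algebraic Laurent series are constant -/

section LaurentConst

variable {K : Type*} [Field K]

/-- A Laurent series over a field `K` which is algebraic over `K` is constant. -/
theorem laurent_const_of_isAlgebraic (f : LaurentSeries K) (hf : IsAlgebraic K f) :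
    ∃ c : K, f = algebraMap K (LaurentSeries K) c := by
  have key : ∀ g : LaurentSeries K, IsAlgebraic K g →
      ∃ y : PowerSeries K, algebraMap (PowerSeries K) (LaurentSeries K) y = g := by
    intro g hg
    obtain ⟨p, hpm, hp⟩ := hg.isIntegral
    have h2 : IsIntegral (PowerSeries K) g := by
      refine ⟨p.map (PowerSeries.C (R := K)), hpm.map _, ?_⟩
      rw [Polynomial.eval₂_map]
      exact hp
    exact IsIntegrallyClosed.isIntegral_iff.mp h2
  obtain ⟨y, hy⟩ := key f hf
  set c₀ := PowerSeries.constantCoeff y with hc₀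
  by_cases hg : y - PowerSeries.C c₀ = 0
  · refine ⟨c₀, ?_⟩
    rw [← hy, sub_eq_zero.mp hg]
    rfl
  · exfalso
    have hg' : algebraMap (PowerSeries K) (LaurentSeries K) (y - PowerSeries.C c₀) ≠ 0 := by
      intro h
      exact hg ((injective_iff_map_eq_zero _).1
        (IsFractionRing.injective (PowerSeries K) (LaurentSeries K)) _ h)
    have halg : IsAlgebraic K (algebraMap (PowerSeries K) (LaurentSeries K)
        (y - PowerSeries.C c₀)) := by
      rw [map_sub, hy]
      refine hf.sub ?_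
      have : algebraMap (PowerSeries K) (LaurentSeries K) (PowerSeries.C c₀) =
          algebraMap K (LaurentSeries K) c₀ := rfl
      rw [this]
      exact isAlgebraic_algebraMap c₀
    obtain ⟨z, hz⟩ := key _ halg.inv
    have h1 : algebraMap (PowerSeries K) (LaurentSeries K) ((y - PowerSeries.C c₀) * z) =
        algebraMap (PowerSeries K) (LaurentSeries K) 1 := by
      rw [map_mul, hz, map_one, mul_inv_cancel₀ hg']
    have h2 := IsFractionRing.injective (PowerSeries K) (LaurentSeries K) h1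
    have h3 := congrArg (PowerSeries.constantCoeff (R := K)) h2
    rw [map_mul, map_sub, PowerSeries.constantCoeff_C, ← hc₀, sub_self, zero_mul, map_one] at h3
    exact zero_ne_one h3

/-- A Laurent series with a pole is transcendental over the constants. -/
theorem transcendental_of_order_neg {f : LaurentSeries K} (hf : f.order < 0) :
    Transcendental K f := by
  intro halg
  obtain ⟨c, hc⟩ := laurent_const_of_isAlgebraic f halg
  rw [hc, algebraMap_laurentSeries_eq_single, ← HahnSeries.C_apply, HahnSeries.order_C] at hf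
  exact lt_irrefl _ hf

end LaurentConst

/-! ### The generators `j`, `j_q` and the coordinate `x = j j_q` over a field -/

section Main

variable (k : Type*) [Field k]

theorem order_qExpand_jqModC_neg (d : ℕ) [NeZero d] : (qExpand k d (jqModC k)).order < 0 := by
  have h1 : (qExpand k d (jqModC k)).coeff (-(d : ℤ)) = 1 := by
    rw [show (-(d : ℤ)) = (d : ℤ) * (-1) by ring, qExpand_coeff_mul, coeff_jqModC_neg_one]
  have h2 : (qExpand k d (jqModC k)).coeff (-(d : ℤ)) ≠ 0 := by
    rw [h1]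
    exact one_ne_zero
  have h3 := HahnSeries.order_le_of_coeff_ne_zero h2
  have h4 : (0 : ℤ) < d := by exact_mod_cast Nat.pos_of_ne_zero (NeZero.ne d)
  omega

theorem order_jqModC_neg : (jqModC k).order < 0 := by
  have := order_qExpand_jqModC_neg k 1
  rwa [qExpand_one_apply] at this

theorem transcendental_jqModC : Transcendental k (jqModC k) :=
  transcendental_of_order_neg (order_jqModC_neg k)

theorem order_x_neg (q : ℕ) [NeZero q] : (jqModC k * qExpand k q (jqModC k)).order < 0 := by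
  have h1 := order_jqModC_neg k
  have h2 := order_qExpand_jqModC_neg k q
  have hj : jqModC k ≠ 0 := by
    intro h
    rw [h] at h1
    simp at h1
  have hjq : qExpand k q (jqModC k) ≠ 0 := by
    intro h
    rw [h] at h2
    simp at h2
  rw [HahnSeries.order_mul hj hjq]
  omega

theorem transcendental_x (q : ℕ) [NeZero q] :
    Transcendental k (jqModC k * qExpand k q (jqModC k)) :=
  transcendental_of_order_neg (order_x_neg k q)

/-! ### The modular polynomial over `k` -/

/-- The modular polynomial `Φ_q` with coefficients in `k`. -/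
def modPolyK (q : ℕ) [NeZero q] (D : S28.ModPolyData q) : k[X][Y] :=
  D.Φ.map (mapRingHom (Int.castRingHom k))

theorem modPolyK_monic (q : ℕ) [NeZero q] (D : S28.ModPolyData q) : (modPolyK k q D).Monic :=
  D.monic.map _

theorem natDegree_modPolyK (q : ℕ) [NeZero q] (D : S28.ModPolyData q) :
    (modPolyK k q D).natDegree = q + 1 := by
  rw [modPolyK, D.monic.natDegree_map, D.natDegree_eq]

theorem aeval_comp_mapRingHom (y : LaurentSeries k) :
    (aeval (R := k) y).toRingHom.comp (mapRingHom (Int.castRingHom k)) = S28.evalAt y := by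
  refine Polynomial.ringHom_ext' (Subsingleton.elim _ _) ?_
  simp [S28.evalAt]

theorem coeffMap_comp_evalAt (y : LaurentSeries ℤ) :
    (coeffMap (Int.castRingHom k)).comp (S28.evalAt y)
      = S28.evalAt (coeffMap (Int.castRingHom k) y) := by
  refine Polynomial.ringHom_ext' (Subsingleton.elim _ _) ?_
  simp [S28.evalAt]

theorem aevalAeval_modPolyK (q : ℕ) [NeZero q] (D : S28.ModPolyData q) :
    aevalAeval (jqModC k) (qExpand k q (jqModC k)) (modPolyK k q D) = 0 := by
  rw [aevalAeval_eq_eval₂, modPolyK, eval₂_map, aeval_comp_mapRingHom]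
  have h := congrArg (coeffMap (Int.castRingHom k)) D.eval_jp
  rw [Polynomial.hom_eval₂, map_zero, coeffMap_comp_evalAt, coeffMap_qExpand,
    coeffMap_jqModC] at h
  exact h

theorem aevalAeval_modPolyK' (q : ℕ) [NeZero q] (D : S28.ModPolyData q) :
    aevalAeval (qExpand k q (jqModC k)) (jqModC k) (modPolyK k q D) = 0 := by
  rw [aevalAeval_eq_eval₂, modPolyK, eval₂_map, aeval_comp_mapRingHom]
  have h := congrArg (coeffMap (Int.castRingHom k)) D.eval_j
  rw [Polynomial.hom_eval₂, map_zero, coeffMap_comp_evalAt, coeffMap_qExpand,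
    coeffMap_jqModC] at h
  exact h

/-! ### Degrees -/

theorem divisorExpansionsC_prime {q : ℕ} [NeZero q] (hq : q.Prime) :
    divisorExpansionsC k q = {jqModC k, qExpand k q (jqModC k)} := by
  ext x
  constructor
  · rintro ⟨d, hd, hdq, rfl⟩
    rcases (Nat.dvd_prime hq).mp hdq with h | h
    · subst h
      left
      exact qExpand_one_apply _
    · subst h
      right
      rfl
  · rintro (rfl | rfl)
    · exact ⟨1, inferInstance, one_dvd _, (qExpand_one_apply _).symm⟩
    · exact ⟨q, inferInstance, dvd_rfl, rfl⟩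

theorem fullC_prime_eq {q : ℕ} [NeZero q] (hq : q.Prime) :
    modularFunctionFieldFullC k q = adjoin k {jqModC k, qExpand k q (jqModC k)} := by
  rw [modularFunctionFieldFullC, divisorExpansionsC_prime k hq]

theorem fullC_mono {N N' : ℕ} (h : N ∣ N') :
    modularFunctionFieldFullC k N ≤ modularFunctionFieldFullC k N' := by
  apply IntermediateField.adjoin.mono
  rintro x ⟨d, hd, hdN, rfl⟩
  exact ⟨d, hd, hdN.trans h, rfl⟩

theorem dedekindPsi_prime {q : ℕ} (hq : q.Prime) : dedekindPsi q = q + 1 := by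
  have h := S28.H626.psi_mul_prime_of_not_dvd (N := 1) one_ne_zero hq
    (fun h => hq.one_lt.ne' (Nat.dvd_one.mp h))
  rwa [one_mul, dedekindPsi_one, mul_one] at h

theorem relfinrank_j_fullC (N : ℕ) (hN : N ≠ 0)
    (hchar : ∀ p : ℕ, p.Prime → p ∣ N → (p : k) ≠ 0) :
    (k⟮jqModC k⟯).relfinrank (modularFunctionFieldFullC k N) = dedekindPsi N :=
  S28.H988.relfinrank_jField_full_eq k N hN hchar

theorem jField_le_fullC (N : ℕ) : k⟮jqModC k⟯ ≤ modularFunctionFieldFullC k N := by
  rw [adjoin_le_iff]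
  rintro x hx
  rw [Set.mem_singleton_iff] at hx
  subst hx
  exact IntermediateField.subset_adjoin k _ ⟨1, inferInstance, one_dvd _, (qExpand_one_apply _).symm⟩

/-- `[k(j, j_q) : k(j)] = q + 1`, in the form needed by `finrank_adjoin_mul`. -/
theorem finrank_adjoin_jq {q : ℕ} [NeZero q] (hq : q.Prime) (hchar : (q : k) ≠ 0) :
    Module.finrank k⟮jqModC k⟯ (k⟮jqModC k⟯)⟮qExpand k q (jqModC k)⟯ = q + 1 := by
  have h1 := relfinrank_j_fullC k q hq.ne_zero (fun p hp hpq => by
    rw [(Nat.prime_dvd_prime_iff_eq hp hq).mp hpq]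
    exact hchar)
  rw [dedekindPsi_prime hq, relfinrank_eq_finrank_of_le (jField_le_fullC k q)] at h1
  have hext : extendScalars (jField_le_fullC k q)
      = (k⟮jqModC k⟯)⟮qExpand k q (jqModC k)⟯ := by
    apply restrictScalars_injective k
    rw [extendScalars_restrictScalars, adjoin_adjoin_left, fullC_prime_eq k hq,
      Set.singleton_union]
  rw [← h1]
  exact (congrArg (fun F : IntermediateField (k⟮jqModC k⟯) (LaurentSeries k) =>
    Module.finrank k⟮jqModC k⟯ F) hext).symm

/-- `[k(j, j_q) : k(j j_q)] = 2 (q + 1)`. -/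
theorem relfinrank_x_fullC_prime {q : ℕ} [NeZero q] (hq : q.Prime) (hchar : (q : k) ≠ 0) :
    (k⟮jqModC k * qExpand k q (jqModC k)⟯).relfinrank (modularFunctionFieldFullC k q)
      = 2 * (q + 1) := by
  obtain ⟨D⟩ := S28.H807.nonempty_modPolyData q hq
  have hmain := finrank_adjoin_mul (transcendental_jqModC k) (transcendental_x k q)
    (modPolyK_monic k q D) (aevalAeval_modPolyK k q D) (aevalAeval_modPolyK' k q D)
    (by rw [natDegree_modPolyK]; exact finrank_adjoin_jq k hq hchar)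
  rw [natDegree_modPolyK] at hmain
  have hj0 : jqModC k ≠ 0 := by
    intro h
    have := order_jqModC_neg k
    rw [h] at this
    simp at this
  have hset : adjoin k ({jqModC k * qExpand k q (jqModC k)} ∪ {jqModC k})
      = modularFunctionFieldFullC k q := by
    rw [fullC_prime_eq k hq]
    apply le_antisymm
    · rw [adjoin_le_iff]
      rintro x (hx | hx)
      · rw [Set.mem_singleton_iff] at hx
        subst hx
        exact mul_mem (subset_adjoin k _ (Set.mem_insert _ _))
          (subset_adjoin k _ (Set.mem_insert_of_mem _ rfl))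
      · rw [Set.mem_singleton_iff] at hx
        subst hx
        exact subset_adjoin k _ (Set.mem_insert _ _)
    · rw [adjoin_le_iff]
      rintro x (hx | hx)
      · subst hx
        exact subset_adjoin k _ (Or.inr rfl)
      · rw [Set.mem_singleton_iff] at hx
        subst hx
        have h1 : (jqModC k)⁻¹ * (jqModC k * qExpand k q (jqModC k))
            = qExpand k q (jqModC k) := by
          rw [← mul_assoc, inv_mul_cancel₀ hj0, one_mul]
        have h2 : (jqModC k)⁻¹ * (jqModC k * qExpand k q (jqModC k)) ∈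
            adjoin k ({jqModC k * qExpand k q (jqModC k)} ∪ {jqModC k}) :=
          mul_mem (inv_mem (subset_adjoin k _ (Or.inr rfl))) (subset_adjoin k _ (Or.inl rfl))
        rwa [h1] at h2
  have hle : k⟮jqModC k * qExpand k q (jqModC k)⟯ ≤ modularFunctionFieldFullC k q := by
    rw [← hset]
    exact IntermediateField.adjoin.mono k _ _ Set.subset_union_left
  rw [relfinrank_eq_finrank_of_le hle]
  have hext : extendScalars hle
      = (k⟮jqModC k * qExpand k q (jqModC k)⟯)⟮jqModC k⟯ := by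
    apply restrictScalars_injective k
    rw [extendScalars_restrictScalars, adjoin_adjoin_left, hset]
  rw [← hmain]
  exact congrArg (fun F : IntermediateField (k⟮jqModC k * qExpand k q (jqModC k)⟯)
    (LaurentSeries k) => Module.finrank k⟮jqModC k * qExpand k q (jqModC k)⟯ F) hext

/-- **Degree over `k(x)`, `x = j j_q`, at level `M q`.** -/
theorem relfinrank_x_fullC (M : ℕ) {q : ℕ} [NeZero q] (hq : q.Prime) (hqM : ¬ q ∣ M)
    (hchar : ∀ p : ℕ, p.Prime → p ∣ M * q → (p : k) ≠ 0) :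
    (k⟮jqModC k * qExpand k q (jqModC k)⟯).relfinrank (modularFunctionFieldFullC k (M * q))
      = 2 * ((q + 1) * dedekindPsi M) := by
  have hM : M ≠ 0 := by
    rintro rfl
    exact hqM (dvd_zero q)
  have hqk : (q : k) ≠ 0 := hchar q hq (dvd_mul_left q M)
  have hqdvd : q ∣ M * q := dvd_mul_left q M
  have h1 := relfinrank_j_fullC k q hq.ne_zero (fun p hp hpq =>
    hchar p hp (hpq.trans hqdvd))
  have h2 := relfinrank_j_fullC k (M * q) (Nat.mul_ne_zero hM hq.ne_zero) hchar
  rw [dedekindPsi_prime hq] at h1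
  rw [S28.H626.psi_mul_prime_of_not_dvd hM hq hqM] at h2
  have h3 := relfinrank_mul_relfinrank (jField_le_fullC k q) (fullC_mono k hqdvd)
  rw [h1, h2] at h3
  have h4 : (modularFunctionFieldFullC k q).relfinrank (modularFunctionFieldFullC k (M * q))
      = dedekindPsi M := Nat.eq_of_mul_eq_mul_left (Nat.succ_pos q) h3
  have h5 := relfinrank_x_fullC_prime k hq hqk
  have hle : k⟮jqModC k * qExpand k q (jqModC k)⟯ ≤ modularFunctionFieldFullC k q := by
    rw [adjoin_simple_le_iff, fullC_prime_eq k hq]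
    exact mul_mem (subset_adjoin k _ (Set.mem_insert _ _))
      (subset_adjoin k _ (Set.mem_insert_of_mem _ rfl))
  have h6 := relfinrank_mul_relfinrank hle (fullC_mono k hqdvd)
  rw [h5, h4] at h6
  rw [← h6]
  ring

end Main

end Fermat.Agent.A2.Mod.H31

end

end
-- ===== PACK-END A2/Mod/H31/DegField.lean

-- ===== PACK-BEGIN Ribet/H868/NodePure.lean
section





/-!
# RIBET row 38, WALL-p / WALL-q: purity at a node from slope `0` on ONE branch (helper868)

`R` a node ring (`H704.I6.IsNode 𝔭₁ 𝔭₂ π x y`), `K = Frac R`, `u ∈ Kˣ` horizontally `m`-divisible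
(valuation form `I6.HorDivVal`), a unit on both components (`ValAt … u 0`).

* `nodePure_both` : if `m ∣ slope₁ u` and `m ∣ slope₂ u`, then `u · d ^ m ∈ Rˣ` for some `d ∈ Kˣ`
  which is a unit on both components (NO unit pair, NO thickness).
  This is `A2.H609.exists_unit_mul_pow_of_node` for fractions, with the branch hypothesis (H2) in
  slope form.
* `nodePure` : `NodePureStatement` — the same from `m ∣ slope₂ u` ALONE, given a unit pair of any
  exponent `N > 0` (`nodeSymFrac`: `m ∣ slope₁ + slope₂`).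

Consumers: the passage "slopes `0` at the supersingular points ⇒ `NodeGen` / `FinGen`"
(with the chart dictionary `u · d ^ m ∈ B_nˣ ⇒ m ∣ ord_Q (red u)`).
-/

set_option autoImplicit false
set_option linter.unusedSectionVars false
set_option linter.style.haveILetI false

namespace Fermat.Agent.Ribet.H868

open IsLocalRing Fermat.Agent.Ribet.H704 Fermat.Agent.A2

/-- **NODE-PURE**: purity at a node from slope `0` on one branch. -/
def NodePureStatement : Prop :=
  ∀ (R K : Type) [CommRing R] [IsDomain R] [IsIntegrallyClosed R] [IsNoetherianRing R]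
    [IsLocalRing R] [Field K] [Algebra R K] [IsFractionRing R K]
    (𝔭₁ 𝔭₂ : Ideal R) (π x y : R), I6.IsNode 𝔭₁ 𝔭₂ π x y →
    ∀ (N : ℕ) (D D' : R), 0 < N → I6.IsUnitPair 𝔭₁ 𝔭₂ π D D' N →
    ∀ (m : ℕ), m ≠ 0 → ∀ (u : K), I6.HorDivVal K π m u →
      I6.ValAt K 𝔭₁ π u 0 → I6.ValAt K 𝔭₂ π u 0 →
      ∀ s₂ : ℤ, I6.SlopeAt K 𝔭₂ π y u s₂ → (m : ℤ) ∣ s₂ →
      ∃ (d : K) (ε : Rˣ), d ≠ 0 ∧ u * d ^ m = algebraMap R K (ε : R) ∧
        I6.ValAt K 𝔭₁ π d 0 ∧ I6.ValAt K 𝔭₂ π d 0

section Main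

variable {R K : Type*} [CommRing R] [IsDomain R] [IsIntegrallyClosed R] [IsNoetherianRing R]
  [IsLocalRing R] [Field K] [Algebra R K] [IsFractionRing R K]

/-- (H2) of `A2.H609.exists_unit_mul_pow_of_node` from an order divisible by `m`. -/
theorem exists_associated_pow_of_ordOn {𝔭 : Ideal R} {ϖ a : R} {m k : ℕ} (hk : m ∣ k)
    (h : I6.OrdOn 𝔭 ϖ a k) :
    ∃ v : R ⧸ 𝔭, Associated (v ^ m) (Ideal.Quotient.mk 𝔭 a) := by
  obtain ⟨l, rfl⟩ := hk
  refine ⟨(Ideal.Quotient.mk 𝔭 ϖ) ^ l, ?_⟩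
  rw [← pow_mul, mul_comm l m]
  exact h.symm

/-- **Purity at a node, both slopes divisible by `m`** (fraction form, no unit pair). -/
theorem nodePure_both {𝔭₁ 𝔭₂ : Ideal R} {π x y : R} (hN : I6.IsNode 𝔭₁ 𝔭₂ π x y)
    {m : ℕ} (hm : m ≠ 0) {u : K} (hdiv : I6.HorDivVal K π m u)
    (hv₁ : I6.ValAt K 𝔭₁ π u 0) (hv₂ : I6.ValAt K 𝔭₂ π u 0)
    {s₁ s₂ : ℤ} (hs₁ : I6.SlopeAt K 𝔭₁ π x u s₁) (hs₂ : I6.SlopeAt K 𝔭₂ π y u s₂)
    (h₁ : (m : ℤ) ∣ s₁) (h₂ : (m : ℤ) ∣ s₂) :
    ∃ (d : K) (ε : Rˣ), d ≠ 0 ∧ u * d ^ m = algebraMap R K (ε : R) ∧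
      I6.ValAt K 𝔭₁ π d 0 ∧ I6.ValAt K 𝔭₂ π d 0 := by
  haveI := hN.prime₁
  haveI := hN.prime₂
  haveI : IsDiscreteValuationRing (R ⧸ 𝔭₁) :=
    H403.isDVR_of_unif_403 𝔭₁ hN.hx₁ hN.nonunit₁ hN.unif₁
  haveI : IsDiscreteValuationRing (R ⧸ 𝔭₂) :=
    H403.isDVR_of_unif_403 𝔭₂ hN.hy₂ hN.nonunit₂ hN.unif₂
  have hinj : Function.Injective (algebraMap R K) := IsFractionRing.injective R K
  have hb₁ := H132.branchData_left hN
  have hb₂ := H132.branchData_right hN
  have hu0 : u ≠ 0 := H132.valAt_ne_zero hb₁.vert hv₁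
  obtain ⟨a₁, b₁, ha₁, hb₁', hab₁⟩ := hv₁
  obtain ⟨a₂, b₂, ha₂, hb₂', hab₂⟩ := hv₂
  rw [zpow_zero, one_mul] at hab₁ hab₂
  -- a common denominator outside both branches
  obtain ⟨a, e, he₁, he₂, hae⟩ := H609.exists_common_denominator (p₁ := 𝔭₁) (p₂ := 𝔭₂)
    (u := u) ⟨a₁, b₁, hb₁', hab₁⟩ ⟨a₂, b₂, hb₂', hab₂⟩
  have ha_not : ∀ (𝔭 : Ideal R), 𝔭.IsPrime → ∀ a' b' : R, a' ∉ 𝔭 → e ∉ 𝔭 →
      u * algebraMap R K b' = algebraMap R K a' → a ∉ 𝔭 := by
    intro 𝔭 h𝔭 a' b' ha' he hab' ha
    have e1 : a * b' = a' * e := by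
      apply hinj
      rw [map_mul, map_mul, ← hae, ← hab']
      ring
    have : a' * e ∈ 𝔭 := e1 ▸ 𝔭.mul_mem_right _ ha
    rcases h𝔭.mem_or_mem this with h | h
    · exact ha' h
    · exact he h
  have haN₁ : a ∉ 𝔭₁ := ha_not 𝔭₁ inferInstance a₁ b₁ ha₁ he₁ hab₁
  have haN₂ : a ∉ 𝔭₂ := ha_not 𝔭₂ inferInstance a₂ b₂ ha₂ he₂ hab₂
  -- the normalised element `u' = u e ^ m ∈ R`
  set u' : R := a * e ^ (m - 1) with hu'def
  have hu' : algebraMap R K u' = u * algebraMap R K e ^ m := by
    rw [hu'def, map_mul, map_pow, ← hae, mul_assoc, mul_pow_sub_one hm]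
  have hu'₁ : u' ∉ 𝔭₁ := fun h =>
    (Ideal.IsPrime.mem_or_mem inferInstance h).elim haN₁
      (fun h' => he₁ (Ideal.IsPrime.mem_of_pow_mem inferInstance _ h'))
  have hu'₂ : u' ∉ 𝔭₂ := fun h =>
    (Ideal.IsPrime.mem_or_mem inferInstance h).elim haN₂
      (fun h' => he₂ (Ideal.IsPrime.mem_of_pow_mem inferInstance _ h'))
  have hhor : I6.HorDiv π m u' := H132.horDiv_of_divisible hN hm hu0 (b := e) hu' hdiv
  -- orders of `u'` on the branches
  obtain ⟨k₁, hk₁⟩ := hN.unif₁ u' hu'₁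
  obtain ⟨k₂, hk₂⟩ := hN.unif₂ u' hu'₂
  obtain ⟨t₁, ht₁⟩ := hN.unif₁ e he₁
  obtain ⟨t₂, ht₂⟩ := hN.unif₂ e he₂
  have hdvd : ∀ {𝔭 𝔮 : Ideal R} {ϖ : R} (hb : H132.BranchData π 𝔭 𝔮 ϖ) {s : ℤ} {k t : ℕ},
      I6.SlopeAt K 𝔭 π ϖ u s → (m : ℤ) ∣ s → u' ∉ 𝔭 → e ∉ 𝔭 → I6.OrdOn 𝔭 ϖ u' k →
      I6.OrdOn 𝔭 ϖ e t → m ∣ k := by
    intro 𝔭 𝔮 ϖ hb s k t hs hms hu'p hep hk ht
    have S1 := H132.slopeAt_of_ordOn (K := K) hb hu'p hk
    have S2 := H132.slopeAt_mul hb hs
      (H132.slopeAt_pow hb (H132.slopeAt_of_ordOn (K := K) hb hep ht) m)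
    rw [← hu'] at S2
    have e1 := H132.slopeAt_unique hb S1 S2
    have : (m : ℤ) ∣ (k : ℤ) := by
      rw [e1]
      exact dvd_add hms (Dvd.intro _ rfl)
    exact Int.natCast_dvd_natCast.mp this
  have hmk₁ : m ∣ k₁ := hdvd hb₁ hs₁ h₁ hu'₁ he₁ hk₁ ht₁
  have hmk₂ : m ∣ k₂ := hdvd hb₂ hs₂ h₂ hu'₂ he₂ hk₂ ht₂
  obtain ⟨f, ε, hf⟩ := H609.exists_unit_mul_pow_of_node hm 𝔭₁ 𝔭₂ hN.inf_eq hN.sup_eq hu'₁ hu'₂
    hhor (exists_associated_pow_of_ordOn hmk₁ hk₁) (exists_associated_pow_of_ordOn hmk₂ hk₂)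
  have hf_not : ∀ (𝔭 : Ideal R), 𝔭.IsPrime → u' ∉ 𝔭 → f ∉ 𝔭 := by
    intro 𝔭 _ hu'p hfp
    apply hu'p
    rw [hf]
    exact 𝔭.mul_mem_left _ (Ideal.pow_mem_of_mem _ hfp _ (Nat.pos_of_ne_zero hm))
  have hf₁ : f ∉ 𝔭₁ := hf_not 𝔭₁ inferInstance hu'₁
  have hf₂ : f ∉ 𝔭₂ := hf_not 𝔭₂ inferInstance hu'₂
  have hf0 : algebraMap R K f ≠ 0 := by
    rw [Ne, map_eq_zero_iff _ hinj]
    rintro rfl
    exact hf₁ 𝔭₁.zero_mem
  have he0 : algebraMap R K e ≠ 0 := by
    rw [Ne, map_eq_zero_iff _ hinj]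
    rintro rfl
    exact he₁ 𝔭₁.zero_mem
  refine ⟨algebraMap R K e * (algebraMap R K f)⁻¹, ε, mul_ne_zero he0 (inv_ne_zero hf0), ?_, ?_,
    ?_⟩
  · have h1 : u * algebraMap R K e ^ m = algebraMap R K (ε : R) * algebraMap R K f ^ m := by
      rw [← hu', hf, map_mul, map_pow]
    rw [mul_pow, inv_pow, ← mul_assoc, h1]
    field_simp
  · have := H132.valAt_mul hb₁.vert (H132.valAt_of_notMem (K := K) hb₁.vert he₁)
      (H132.valAt_inv hb₁.vert (H132.valAt_of_notMem (K := K) hb₁.vert hf₁))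
    simpa using this
  · have := H132.valAt_mul hb₂.vert (H132.valAt_of_notMem (K := K) hb₂.vert he₂)
      (H132.valAt_inv hb₂.vert (H132.valAt_of_notMem (K := K) hb₂.vert hf₂))
    simpa using this

end Main

/-- **NODE-PURE** (slope `0` on ONE branch suffices, given a unit pair). -/
theorem nodePure : NodePureStatement := by
  intro R K _ _ _ _ _ _ _ _ 𝔭₁ 𝔭₂ π x y hN N D D' hNpos hDD m hm u hdiv hv₁ hv₂ s₂ hs₂ h₂
  have hb₁ := H132.branchData_left hN
  have hu0 : u ≠ 0 := H132.valAt_ne_zero hb₁.vert hv₁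
  obtain ⟨s₁, hs₁⟩ := H132.exists_slopeAt (K := K) hb₁ hu0
  have hsym := nodeSymFrac R K 𝔭₁ 𝔭₂ π x y hN N D D' hNpos hDD m hm u hu0
    (H132.horDivFrac_of_horDivVal hN hm hu0 hdiv) s₁ s₂ hs₁ hs₂
  have h₁ : (m : ℤ) ∣ s₁ := (Int.dvd_add_left h₂).mp hsym
  exact nodePure_both hN hm hdiv hv₁ hv₂ hs₁ hs₂ h₁ h₂

end Fermat.Agent.Ribet.H868

end
-- ===== PACK-END Ribet/H868/NodePure.lean

-- ===== PACK-BEGIN S18/H504/ConstF.lean
section





/-!
# S18 / T2 (CONST_F, characteristic 0): a function without zeros and poles is constant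

* `const_of_ord_zero` : generic form, for a function field `F/K` finite over `K(j)`.
* `constOfOrdZero_modularFunctionFieldBar` : the instance `F = ℚ̄(X₀(N))`; its statement is the
  unfolded `H94.ConstOfOrdZero (AlgebraicClosure ℚ) (modularFunctionFieldBar N)`.
-/

set_option autoImplicit false

namespace Fermat.Agent.S18.H504

open AlgebraicCurve IntermediateField Fermat.Agent.S24

variable {K F : Type*} [Field K] [Field F] [Algebra K F]

/-- A nonzero function with no zeros is constant (char 0, algebraically closed constants). -/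
theorem const_of_forall_ord_le_zero [IsAlgClosed K] [CharZero K] {j : F}
    (hj : Transcendental K j) [FiniteDimensional K⟮j⟯ F] (u : F)
    (h : ∀ v : Place K F, v.ord u ≤ 0) : ∃ c : K, u = algebraMap K F c := by
  by_contra hc
  have hnr : u ∉ (algebraMap K F).range := fun ⟨c, hc'⟩ => hc ⟨c, hc'.symm⟩
  have hut : Transcendental K u := FF.transcendental_of_not_mem_range hnr
  have : FiniteDimensional K⟮u⟯ F := FF.finiteDimensional_adjoin_of_transcendental hj hut
  have hsum := FF.sum_ord_pos_eq_finrank hut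
  have hempty : (FF.finite_setOf_ord_pos hut).toFinset = ∅ := by
    ext v
    simp only [Set.Finite.mem_toFinset, Set.mem_ofPred_eq, Finset.notMem_empty, iff_false, not_lt]
    exact h v
  rw [hempty, Finset.sum_empty] at hsum
  have hpos : 0 < Module.finrank K⟮u⟯ F := Module.finrank_pos
  omega

/-- **CONST_F.** A nonzero function without zeros and poles is constant. -/
theorem const_of_ord_zero [IsAlgClosed K] [CharZero K] {j : F}
    (hj : Transcendental K j) [FiniteDimensional K⟮j⟯ F] (u : F) (_hu : u ≠ 0)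
    (h : ∀ v : Place K F, v.ord u = 0) : ∃ c : K, u = algebraMap K F c :=
  const_of_forall_ord_le_zero hj u fun v => (h v).le

/-- **T2.** `ConstOfOrdZero ℚ̄ (modularFunctionFieldBar N)` (unfolded). -/
theorem constOfOrdZero_modularFunctionFieldBar (N : ℕ) [NeZero N] :
    ∀ u : ModularCurve.modularFunctionFieldBar N, u ≠ 0 →
      (∀ v : Place (AlgebraicClosure ℚ) (ModularCurve.modularFunctionFieldBar N), v.ord u = 0) →
      ∃ c : AlgebraicClosure ℚ,
        u = algebraMap (AlgebraicClosure ℚ) (ModularCurve.modularFunctionFieldBar N) c := by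
  obtain ⟨P⟩ := nonempty_modularPackage N
  have := P.finiteDimensional
  have hj : Transcendental Kbar (jF N) := transcendental_of_localData_inv (jF N) P.dataInf
  exact fun u hu h => const_of_ord_zero hj u hu h

end Fermat.Agent.S18.H504

end
-- ===== PACK-END S18/H504/ConstF.lean

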