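import Fermat.Prelude.Def_AlgebraicCurve_Correspondence
import Fermat.Prelude.Def_FLTPrelim_Ramification
import Mathlib
import Fermat.Prelude.Def_ModularCurve_HeckeModule
import Fermat.Agent.Pack.S44.G0E23L2
import Fermat.Agent.Pack.S44.G0E0L0
import Fermat.Agent.Pack.S44.G0E16L3
import Fermat.Agent.Pack.S44.G0E7L1
import Fermat.Agent.Pack.S44.G0E19L0
import Fermat.Agent.Pack.S44.G0E22L1
import Fermat.Agent.Pack.S44.G0E23L1
import Fermat.Agent.Pack.S44.G0E22L3
import Fermat.Agent.Pack.S44.G0E22L2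
import Fermat.Agent.Pack.S44.G0E14L2
import Fermat.Agent.Pack.S44.G0E3L0
import Fermat.Agent.Pack.S44.G0E17L3
import Fermat.Agent.Pack.S44.G0E23L0
import Fermat.Agent.Pack.S44.G0E18L0
import Fermat.Agent.Pack.S44.G0E17L0
import Fermat.Agent.Pack.S44.G0E4L2

-- ===== PACK-BEGIN S29/H812/Along.lean
section



/-!
# S29 / H812 — the Prelude's `…Along` predicates for an arbitrary `K`-algebra homomorphism between
function fields of one variable over an algebraically closed field of characteristic zero.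
-/

set_option autoImplicit false

noncomputable section

open AlgebraicCurve IntermediateField

namespace Fermat.Agent.S29.H812

open Fermat.Agent.S24

variable {K F F' : Type*} [Field K] [Field F] [Field F'] [Algebra K F] [Algebra K F']
  [IsAlgClosed K] [CharZero K]

/-- A `K`-algebra homomorphism of function fields of one variable is finite. -/
theorem finiteAlong (hF : ∃ x : F, Transcendental K x ∧ FiniteDimensional K⟮x⟯ F)
    (hF' : ∃ x : F', Transcendental K x ∧ FiniteDimensional K⟮x⟯ F') (φ : F →ₐ[K] F') :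
    FiniteAlong K φ := by
  letI := algebraAlong φ
  haveI := isScalarTower_along φ
  obtain ⟨x, hx, -⟩ := hF
  obtain ⟨x', hx', hx'fin⟩ := hF'
  have hφx : Transcendental K (algebraMap F F' x) := transcendental_algebraMap_of hx
  haveI : FiniteDimensional K⟮algebraMap F F' x⟯ F' :=
    FF.finiteDimensional_adjoin_of_transcendental hx' hφx
  exact finite_of_finite_adjoin_algebraMap (K := K) x

theorem isIntegral_of_finiteAlong {φ : F →ₐ[K] F'} (h : FiniteAlong K φ) :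
    φ.toRingHom.IsIntegral := by
  letI := algebraAlong φ
  haveI : Module.Finite F F' := h
  exact (Algebra.IsIntegral.of_finite F F').isIntegral

theorem fundamentalIdentityAlong (hF : ∃ x : F, Transcendental K x ∧ FiniteDimensional K⟮x⟯ F)
    [HasPrincipalDivisors K F'] (φ : F →ₐ[K] F') (hfin : FiniteAlong K φ)
    (hφ : φ.toRingHom.IsIntegral) : FundamentalIdentityAlong K φ hφ := by
  letI := algebraAlong φ
  haveI := isScalarTower_along φ
  haveI := isIntegral_along φ hφ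
  haveI : Module.Finite F F' := hfin
  exact fundamentalIdentity (F' := F') hF

theorem normFormulaAlong (hF : ∃ x : F, Transcendental K x ∧ FiniteDimensional K⟮x⟯ F)
    [HasPrincipalDivisors K F'] (φ : F →ₐ[K] F') (hfin : FiniteAlong K φ) :
    NormFormulaAlong K φ hfin := by
  letI := algebraAlong φ
  haveI := isScalarTower_along φ
  haveI : Module.Finite F F' := hfin
  exact pushforwardNormFormula (F' := F') hF

end Fermat.Agent.S29.H812

end
end
-- ===== PACK-END S29/H812/Along.lean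

-- ===== PACK-BEGIN S29/H332/Growth.lean
section




/-!
# S29 / M4b / K1 → K2 bridge: `holN N` ⊆ exponential growth, and `h ^ p ∈ goodRing N`

* `expGrowth_of_infExp` : a convergent Laurent expansion in `exp(2πiτ/N)` gives the S24 `ExpGrowth`
  bound on all of `im τ ≥ 1`;
* `mem_goodRing_of_mem_holN` : a `Γ₀(N)`-invariant element of the S24 ring `holN N` lies in the S24
  ring `goodRing N` (the input of helper882's MERO);
* `kummerFun_pow_mem_goodRing`, `hasQExp_kummerFun_pow`.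
-/

set_option autoImplicit false

noncomputable section

open UpperHalfPlane HahnSeries ModularCurve Complex
open scoped Real MatrixGroups Manifold

namespace Fermat.Agent.S29.H332

open Fermat.Agent.S24 Fermat.Agent.S24.H997 Fermat.Agent.S24.H624 Fermat.Agent.S24.H648

variable {N : ℕ} [NeZero N]

omit [NeZero N] in
theorem norm_infZ_eq (τ : ℍ) : ‖infZ N τ‖ = Real.exp (-2 * π * τ.im / N) := by
  rw [infZ, Function.Periodic.norm_qParam]
  rfl

/-- A convergent power series in `z = exp (2πiτ/N)` is bounded on `‖z‖ ≤ r` for every `r < 1`. -/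
theorem exists_bound_of_infPExp_of_lt {g : ℍ → ℂ} {ψ : PowerSeries ℂ} (h : InfPExp N g ψ)
    {r : ℝ} (hr0 : 0 < r) (hr1 : r < 1) :
    ∃ C : ℝ, ∀ τ : ℍ, ‖infZ N τ‖ ≤ r → ‖g τ‖ ≤ C := by
  obtain ⟨ρ, hrρ, hρ1⟩ : ∃ ρ, r < ρ ∧ ρ < 1 := exists_between hr1
  have hρ0 : 0 < ρ := hr0.trans hrρ
  obtain ⟨τ₀, hτ₀⟩ := exists_infZ_eq N (z := ((ρ : ℝ) : ℂ))
    (by exact_mod_cast hρ0.ne')
    (by rw [Complex.norm_real, Real.norm_eq_abs, abs_of_pos hρ0]; exact hρ1)
  have h0 := h τ₀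
  rw [hτ₀] at h0
  have hterm := h0.summable.tendsto_atTop_zero
  obtain ⟨B, hB⟩ := (Metric.isBounded_range_of_tendsto _ hterm).exists_norm_le
  have hB' : ∀ n : ℕ, ‖PowerSeries.coeff n ψ‖ * ρ ^ n ≤ B := by
    intro n
    have := hB _ ⟨n, rfl⟩
    rwa [norm_mul, norm_pow, Complex.norm_real, Real.norm_eq_abs, abs_of_pos hρ0] at this
  have hB0 : 0 ≤ B := le_trans (by positivity) (hB' 0)
  have hq0 : 0 ≤ r / ρ := by positivity
  have hq1 : r / ρ < 1 := (div_lt_one hρ0).mpr hrρ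
  refine ⟨B * (1 - r / ρ)⁻¹, fun τ hτ => ?_⟩
  have hgeo : HasSum (fun n : ℕ => B * (r / ρ) ^ n) (B * (1 - r / ρ)⁻¹) :=
    (hasSum_geometric_of_lt_one hq0 hq1).mul_left B
  rw [← (h τ).tsum_eq]
  refine tsum_of_norm_bounded hgeo fun n => ?_
  rw [norm_mul, norm_pow]
  have h1 : ‖infZ N τ‖ ^ n ≤ r ^ n := pow_le_pow_left₀ (norm_nonneg _) hτ n
  calc ‖PowerSeries.coeff n ψ‖ * ‖infZ N τ‖ ^ n
      ≤ ‖PowerSeries.coeff n ψ‖ * r ^ n :=
        mul_le_mul_of_nonneg_left h1 (norm_nonneg _)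
    _ = (‖PowerSeries.coeff n ψ‖ * ρ ^ n) * (r / ρ) ^ n := by
        have e : ρ * (r / ρ) = r := by field_simp
        rw [mul_assoc, ← mul_pow, e]
    _ ≤ B * (r / ρ) ^ n := mul_le_mul_of_nonneg_right (hB' n) (by positivity)

/-- A function with a convergent Laurent expansion in `exp (2πiτ/N)` satisfies the S24
`ExpGrowth` bound (on all of `im τ ≥ 1`). -/
theorem expGrowth_of_infExp {f : ℍ → ℂ} {φ : LaurentSeries ℂ} (h : InfExp N f φ) :
    ExpGrowth f := by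
  have hN : (0 : ℝ) < N := by exact_mod_cast Nat.pos_of_ne_zero (NeZero.ne N)
  have hN1 : (1 : ℝ) ≤ N := by exact_mod_cast Nat.one_le_iff_ne_zero.mpr (NeZero.ne N)
  set r : ℝ := Real.exp (-2 * π / N) with hr
  have hr0 : 0 < r := Real.exp_pos _
  have hr1 : r < 1 := by
    rw [hr, Real.exp_lt_one_iff]
    have : 0 < 2 * π / N := by positivity
    have e : -2 * π / N = -(2 * π / N) := by ring
    rw [e]
    linarith
  obtain ⟨C, hC⟩ := exists_bound_of_infPExp_of_lt h.powerSeriesPart hr0 hr1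
  refine ⟨C, (-φ.order).toNat, fun τ hτ => ?_⟩
  have hz0 : infZ N τ ≠ 0 := infZ_ne_zero N τ
  have hzpos : 0 < ‖infZ N τ‖ := norm_pos_iff.mpr hz0
  have hzle : ‖infZ N τ‖ ≤ r := by
    rw [norm_infZ_eq, hr]
    apply Real.exp_le_exp.mpr
    have hpi := Real.pi_pos
    rw [div_le_div_iff_of_pos_right hN]
    nlinarith
  have hg := hC τ hzle
  rw [norm_mul, norm_zpow] at hg
  have hf : ‖f τ‖ = ‖infZ N τ‖ ^ φ.order * (‖infZ N τ‖ ^ (-φ.order) * ‖f τ‖) := by
    rw [← mul_assoc, ← zpow_add₀ hzpos.ne', add_neg_cancel, zpow_zero, one_mul]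
  have hC0 : 0 ≤ C := le_trans (by positivity) hg
  have hpow : ‖infZ N τ‖ ^ φ.order ≤ Real.exp (2 * π * ((-φ.order).toNat : ℕ) * τ.im) := by
    have hz1 : ‖infZ N τ‖ ≤ 1 := hzle.trans hr1.le
    have hle : -(((-φ.order).toNat : ℕ) : ℤ) ≤ φ.order := by
      have := Int.self_le_toNat (-φ.order)
      omega
    have h1 : ‖infZ N τ‖ ^ φ.order ≤ ‖infZ N τ‖ ^ (-(((-φ.order).toNat : ℕ) : ℤ)) :=
      zpow_le_zpow_right_of_le_one₀ hzpos hz1 hle
    refine h1.trans ?_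
    rw [zpow_neg, zpow_natCast, ← inv_pow, norm_infZ_eq, ← Real.exp_neg, ← Real.exp_nat_mul]
    apply Real.exp_le_exp.mpr
    have him : 0 < τ.im := τ.im_pos
    have hm0 : (0 : ℝ) ≤ ((-φ.order).toNat : ℕ) := Nat.cast_nonneg _
    have hq : 2 * π * τ.im / N ≤ 2 * π * τ.im := by
      rw [div_le_iff₀ hN]
      have : 0 < 2 * π * τ.im := by positivity
      nlinarith
    have : -(-2 * π * τ.im / N) = 2 * π * τ.im / N := by ring
    rw [this]
    calc (((-φ.order).toNat : ℕ) : ℝ) * (2 * π * τ.im / N)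
        ≤ (((-φ.order).toNat : ℕ) : ℝ) * (2 * π * τ.im) :=
          mul_le_mul_of_nonneg_left hq hm0
      _ = 2 * π * ((-φ.order).toNat : ℕ) * τ.im := by ring
  rw [hf]
  calc ‖infZ N τ‖ ^ φ.order * (‖infZ N τ‖ ^ (-φ.order) * ‖f τ‖)
      ≤ Real.exp (2 * π * ((-φ.order).toNat : ℕ) * τ.im) * C :=
        mul_le_mul hpow hg (by positivity) (Real.exp_pos _).le
    _ = C * Real.exp (2 * π * ((-φ.order).toNat : ℕ) * τ.im) := mul_comm _ _

/-- A `Γ₀(N)`-invariant element of `holN N` lies in `goodRing N`. -/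
theorem mem_goodRing_of_mem_holN {f : ℍ → ℂ} (hf : f ∈ holN N)
    (hinv : ∀ γ ∈ CongruenceSubgroup.Gamma0 N, ∀ τ : ℍ, f (γ • τ) = f τ) :
    f ∈ goodRing N := by
  refine ⟨hf.1, hinv, fun g => ?_⟩
  obtain ⟨φ, hφ⟩ := hf.2 g
  exact expGrowth_of_infExp hφ

/-- **K1 → MERO**: the `p`-th power of the Kummer function is a good function of level `N`. -/
theorem kummerFun_pow_mem_goodRing {χ : CongruenceSubgroup.Gamma0 N →* ℂˣ} (hχ : ParTrivial χ)
    (hnorm : ∀ γ, ‖(χ γ : ℂ)‖ = 1) {p : ℕ} (hp : ∀ γ, χ γ ^ p = 1) :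
    kummerFun N χ ^ p ∈ goodRing N := by
  refine mem_goodRing_of_mem_holN (pow_mem (kummerFun_mem_holN hχ hnorm) p) ?_
  intro γ hγ τ
  exact (hasCharacter_kummerFun hχ).pow_invariant hp ⟨γ, hγ⟩ τ

/-- `InfExp` (S24 `Inf`) implies `HasQExp` (S24 `H708`) for holomorphic functions. -/
theorem hasQExp_of_infExp {f : ℍ → ℂ} {φ : LaurentSeries ℂ} (hol : MDiff f)
    (h : InfExp N f φ) : Fermat.Agent.S24.H708.HasQExp N f φ :=
  Fermat.Agent.S24.H708.HasQExp.of_hasSum hol h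

omit [NeZero N] in
/-- The `q`-expansion of the Kummer function (S24 `H708` form). -/
theorem hasQExp_kummerFun {χ : CongruenceSubgroup.Gamma0 N →* ℂˣ} (hχ : ParTrivial χ)
    (hnorm : ∀ γ, ‖(χ γ : ℂ)‖ = 1) :
    Fermat.Agent.S24.H708.HasQExp 1 (kummerFun N χ) (kummerExp N χ) :=
  hasQExp_of_infExp (mdiff_kummerFun hχ hnorm) (infExp_kummerFun hχ hnorm)

omit [NeZero N] in
/-- The `q`-expansion of the `p`-th power of the Kummer function. -/
theorem hasQExp_kummerFun_pow {χ : CongruenceSubgroup.Gamma0 N →* ℂˣ} (hχ : ParTrivial χ)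
    (hnorm : ∀ γ, ‖(χ γ : ℂ)‖ = 1) (p : ℕ) :
    Fermat.Agent.S24.H708.HasQExp 1 (kummerFun N χ ^ p) (kummerExp N χ ^ p) :=
  (hasQExp_kummerFun hχ hnorm).pow p

end Fermat.Agent.S29.H332

end
end
-- ===== PACK-END S29/H332/Growth.lean

-- ===== PACK-BEGIN S29/H332/Rot.lean
section



/-!
# S29 / M4b / K2 (analytic part): local orders of a function with character

In the S24 framework (`HolBase`, `Expansion`, `RotData`): if `f ∈ Hol` is invariant under `ε ^ k`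
then `R.m ∣ k * ord (X.E f)`.  For a function `h` with a character `χ` of `Γ₀(N)` and the coset
`x = g Γ₀(N)`, `h ∘ g⁻¹` is invariant under `ε ^ k` as soon as `ε ^ k x = x` and `χ` is trivial on
`g⁻¹ ε ^ k g` (automatic if `χ` kills parabolic and finite-order elements).  Hence the order of
the expansion `σ_x` of `h ^ p` is divisible by `p * (m / k)`: the divisor of `h ^ p` is divisible
by `p` at every place.
-/

set_option autoImplicit false
set_option linter.unusedSectionVars false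

noncomputable section

open UpperHalfPlane HahnSeries ModularCurve
open scoped MatrixGroups

namespace Fermat.Agent.S29.H332

open Fermat.Agent.S24 Fermat.Agent.S24.H997

variable {N : ℕ} [NeZero N]

section Abstract

variable (B : HolBase N) (X : Expansion B) {ε : SL(2, ℤ)} (R : RotData B X ε)

/-- Iterating the rotation relation. -/
theorem rotRel_pow (k : ℕ) (f : B.Hol) :
    RotRel (R.ζ ^ k) (X.E f) (X.E (B.compH (ε ^ k) f)) := by
  induction k with
  | zero =>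
    rw [pow_zero, pow_zero, HolBase.compH_one]
    exact ⟨rfl, by simp⟩
  | succ k ih =>
    have h1 := R.rot (B.compH (ε ^ k) f)
    rw [← HolBase.compH_mul, ← pow_succ] at h1
    refine ⟨h1.1.trans ih.1, ?_⟩
    rw [h1.2, ih.1, ih.2, ← mul_assoc, pow_succ, mul_zpow, mul_comm (R.ζ ^ (X.E f).order)]

/-- If `f ≠ 0` is invariant under `ε ^ k`, then `m ∣ k * ord (E f)`. -/
theorem dvd_mul_order_of_compH_pow_eq (k : ℕ) {f : B.Hol} (hf : f ≠ 0)
    (hinv : B.compH (ε ^ k) f = f) : (R.m : ℤ) ∣ (k : ℤ) * (X.E f).order := by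
  have h := rotRel_pow B X R k f
  rw [hinv] at h
  have hE : X.E f ≠ 0 := fun h0 => hf (X.inj (by rw [h0, map_zero]))
  have hlc : (X.E f).leadingCoeff ≠ 0 := leadingCoeff_ne_zero.mpr hE
  have h2 := h.2
  have h3 : (R.ζ ^ k) ^ (X.E f).order = 1 := by
    have : (R.ζ ^ k) ^ (X.E f).order * (X.E f).leadingCoeff = 1 * (X.E f).leadingCoeff := by
      rw [one_mul]
      exact h2.symm
    exact mul_right_cancel₀ hlc this
  rw [← zpow_natCast, ← zpow_mul] at h3
  exact (R.hζ.zpow_eq_one_iff_dvd _).mp h3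

end Abstract

section Character

variable {χ : CongruenceSubgroup.Gamma0 N →* ℂˣ} {h : ℍ → ℂ}

omit [NeZero N] in
/-- `h ∘ g` is invariant under `δ` if `g δ g⁻¹ ∈ Γ₀(N)` and `χ (g δ g⁻¹) = 1`. -/
theorem HasCharacter.compSL_compSL (hh : HasCharacter χ h) (g δ : SL(2, ℤ))
    (hδ : g * δ * g⁻¹ ∈ CongruenceSubgroup.Gamma0 N) (hχ : χ ⟨_, hδ⟩ = 1) :
    compSL δ (compSL g h) = compSL g h := by
  funext τ
  simp only [compSL_apply]
  have h1 : g • (δ • τ) = (g * δ * g⁻¹) • (g • τ) := by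
    rw [← mul_smul, ← mul_smul, mul_assoc, mul_assoc, inv_mul_cancel, mul_one]
  have h2 := hh ⟨_, hδ⟩ (g • τ)
  rw [hχ, Units.val_one, one_mul] at h2
  rw [h1, h2]

/-- `χ` is trivial on the elements of finite order. -/
def EllTrivial (χ : CongruenceSubgroup.Gamma0 N →* ℂˣ) : Prop :=
  ∀ (γ : CongruenceSubgroup.Gamma0 N) (n : ℕ), 0 < n → γ ^ n = 1 → χ γ = 1

/-- **Local divisibility.**  Let `h ∈ holN N` be nonzero with character `χ`, `X` an expansion with
rotation data for `ε`, `g ∈ SL(2,ℤ)` and `k` with `g ε^k g⁻¹ ∈ Γ₀(N)`, `χ(g ε^k g⁻¹) = 1`.  Then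
`m ∣ k * ord (E (h ∘ g))`. -/
theorem HasCharacter.dvd_mul_order (hh : HasCharacter χ h) (hmem : h ∈ holN N) (h0 : h ≠ 0)
    (X : Expansion (holBase N)) {ε : SL(2, ℤ)} (R : RotData (holBase N) X ε)
    (g : SL(2, ℤ)) (k : ℕ) (hk : g * ε ^ k * g⁻¹ ∈ CongruenceSubgroup.Gamma0 N)
    (hχ : χ ⟨_, hk⟩ = 1) :
    (R.m : ℤ) ∣ (k : ℤ) * (X.E ((holBase N).compH g ⟨h, hmem⟩)).order := by
  refine dvd_mul_order_of_compH_pow_eq (holBase N) X R k ?_ ?_
  · intro hz
    apply h0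
    have := (holBase N).compH_injective g (hz.trans (map_zero _).symm)
    exact congrArg Subtype.val this
  · apply Subtype.ext
    exact hh.compSL_compSL g (ε ^ k) hk hχ

omit [NeZero N] in
/-- Conjugates of elements of finite order have finite order. -/
theorem EllTrivial.conj (hχ : EllTrivial χ) {ε : SL(2, ℤ)} {n : ℕ} (hn : 0 < n) (hε : ε ^ n = 1)
    (g : SL(2, ℤ)) (k : ℕ) (hk : g * ε ^ k * g⁻¹ ∈ CongruenceSubgroup.Gamma0 N) :
    χ ⟨_, hk⟩ = 1 := by
  refine hχ _ n hn ?_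
  apply Subtype.ext
  rw [SubgroupClass.coe_pow, Subgroup.coe_mk, OneMemClass.coe_one]
  have : (g * ε ^ k * g⁻¹) ^ n = g * (ε ^ k) ^ n * g⁻¹ := conj_pow
  rw [this, ← pow_mul, mul_comm, pow_mul, hε, one_pow, mul_one, mul_inv_cancel]

omit [NeZero N] in
/-- Conjugates of powers of `T` are parabolic. -/
theorem ParTrivial.conj_T (hχ : ParTrivial χ) (g : SL(2, ℤ)) (k : ℕ)
    (hk : g * ModularGroup.T ^ k * g⁻¹ ∈ CongruenceSubgroup.Gamma0 N) :
    χ ⟨_, hk⟩ = 1 := by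
  apply hχ
  left
  have := trace_conj_T_zpow g (k : ℤ)
  rwa [zpow_natCast] at this

/-- Local divisibility at a point with finite-order rotation `ε` (elliptic points: `ε = S`,
`ε = S * T`; generic points: `ε = 1`). -/
theorem HasCharacter.dvd_mul_order_of_finite_order (hh : HasCharacter χ h) (hmem : h ∈ holN N)
    (h0 : h ≠ 0) (hχ : EllTrivial χ)
    (X : Expansion (holBase N)) {ε : SL(2, ℤ)} (R : RotData (holBase N) X ε)
    {n : ℕ} (hn : 0 < n) (hε : ε ^ n = 1)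
    (g : SL(2, ℤ)) (k : ℕ) (hk : g * ε ^ k * g⁻¹ ∈ CongruenceSubgroup.Gamma0 N) :
    (R.m : ℤ) ∣ (k : ℤ) * (X.E ((holBase N).compH g ⟨h, hmem⟩)).order :=
  hh.dvd_mul_order hmem h0 X R g k hk (hχ.conj hn hε g k hk)

/-- Local divisibility at the cusps (`ε = T`). -/
theorem HasCharacter.dvd_mul_order_T (hh : HasCharacter χ h) (hmem : h ∈ holN N)
    (h0 : h ≠ 0) (hχ : ParTrivial χ)
    (X : Expansion (holBase N)) (R : RotData (holBase N) X ModularGroup.T)
    (g : SL(2, ℤ)) (k : ℕ)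
    (hk : g * ModularGroup.T ^ k * g⁻¹ ∈ CongruenceSubgroup.Gamma0 N) :
    (R.m : ℤ) ∣ (k : ℤ) * (X.E ((holBase N).compH g ⟨h, hmem⟩)).order :=
  hh.dvd_mul_order hmem h0 X R g k hk (hχ.conj_T g k hk)

end Character

end Fermat.Agent.S29.H332

end
end
-- ===== PACK-END S29/H332/Rot.lean

-- ===== PACK-BEGIN S18/H965/GlueLemmas.lean
section





/-!
# S18 / GLUE (helper965): lemmas for `node_glue`

Interface-independent lemmas about the concrete objects of `Mod/Defs.lean`: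

* `coeff_mem_of_mem_Fc`      : elements of `Fc M E` have `q`-expansion coefficients in `E`;
* `exists_finset_mem_Fc`     : every `f ∈ Ω = F_M` lies in `Fc M E` as soon as `E` contains a
                               finite set `T` of constants (descent to a number field);
* `natCast_inv_mem_Rc`       : `ℓ ∤ m` ⟹ `m⁻¹ ∈ Rc M A E`;
* `exists_unit_twist`        : the divisor hypothesis of `CoreStatement` in the valuation-subring
                               form required by `Alg.AlgMainStatement`;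
* `sub_one_mul_inv_mem_VcSet`: `u = U₁/U₂`, `Ū₁ = Ū₂` ⟹ `(u - 1)/w ∈ VcSet M A E`.
-/

set_option autoImplicit false

noncomputable section

namespace Fermat.Agent.S18.H965

open ModularCurve AlgebraicCurve HahnSeries Fermat.Agent.S18 Fermat.Agent.S18.Mod

variable (M : ℕ) (E : IntermediateField ℚ Qb)

/-- The subfield of `Ω = F_M` of series all of whose coefficients lie in `E`. -/
def coeffField : Subfield (Om M) :=
  ((coeffMap (algebraMap (↥E) Qb)).fieldRange).comap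
    (algebraMap (Om M) (LaurentSeries Qb))

variable {M E}

theorem coeff_mem_of_mem_coeffField {f : Om M} (hf : f ∈ coeffField M E) (n : ℤ) :
    ((f : LaurentSeries Qb)).coeff n ∈ E := by
  obtain ⟨y, hy⟩ := hf
  have h : (f : LaurentSeries Qb) = coeffMap (algebraMap (↥E) Qb) y := hy.symm
  rw [h, coeffMap_coeff]
  exact (y.coeff n).2

theorem Ec_le_coeffField : Ec M E ≤ coeffField M E := by
  rintro y ⟨a, ha, rfl⟩
  refine ⟨HahnSeries.single 0 ⟨a, ha⟩, ?_⟩
  rw [coeffMap_single]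
  change _ = algebraMap Qb (LaurentSeries Qb) a
  rw [algebraMap_laurentSeries_eq_single]
  rfl

theorem gens_subset_coeffField : gens M ⊆ (coeffField M E : Set (Om M)) := by
  rintro y ⟨d, hd, hdM, rfl⟩
  refine ⟨coeffMap (algebraMap ℚ (↥E)) (qExpand ℚ d jq), ?_⟩
  rw [coeffMap_coeffMap]
  change _ = coeffEmb Qb (qExpand ℚ d jq)
  unfold coeffEmb
  exact coeffMap_congr (RingHom.ext fun c => rfl) _

theorem Fc_le_coeffField : Fc M E ≤ coeffField M E := by
  unfold Fc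
  rw [Subfield.closure_le]
  rintro y (hy | hy)
  · exact Ec_le_coeffField hy
  · exact gens_subset_coeffField hy

/-- Elements of `Fc M E` have all their `q`-expansion coefficients in `E`. -/
theorem coeff_mem_of_mem_Fc {f : Om M} (hf : f ∈ Fc M E) (n : ℤ) :
    ((f : LaurentSeries Qb)).coeff n ∈ E :=
  coeff_mem_of_mem_coeffField (Fc_le_coeffField hf) n


/-! ### Descent to a number field -/

theorem Ec_le_Fc : Ec M E ≤ Fc M E := fun _ hy =>
  Subfield.subset_closure (Or.inl hy)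

theorem algebraMap_mem_Ec {a : Qb} (ha : a ∈ E) : algebraMap Qb (Om M) a ∈ Ec M E :=
  ⟨a, ha, rfl⟩

theorem algebraMap_mem_Fc {a : Qb} (ha : a ∈ E) : algebraMap Qb (Om M) a ∈ Fc M E :=
  Ec_le_Fc (algebraMap_mem_Ec ha)

/-- The image of `ℚ(j_d : d ∣ M)` lies in `Fc M E` for every `E`. -/
theorem exists_mem_Fc_of_mem_full {z : LaurentSeries ℚ} (hz : z ∈ modularFunctionFieldFull M) :
    ∃ f ∈ Fc M E, (f : LaurentSeries Qb) = coeffEmb Qb z := by
  unfold modularFunctionFieldFull at hz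
  induction hz using IntermediateField.adjoin_induction with
  | mem y hy =>
      obtain ⟨d, hd, hdM, rfl⟩ := hy
      exact ⟨jd M d hdM, Subfield.subset_closure (Or.inr ⟨d, hd, hdM, rfl⟩), rfl⟩
  | algebraMap r =>
      refine ⟨algebraMap Qb (Om M) (algebraMap ℚ Qb r),
        algebraMap_mem_Fc (E.algebraMap_mem r), ?_⟩
      change algebraMap Qb (LaurentSeries Qb) (algebraMap ℚ Qb r) = _
      rw [algebraMap_laurentSeries_eq_single, algebraMap_laurentSeries_eq_single]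
      unfold coeffEmb
      rw [coeffMap_single]
  | add x y _ _ hx hy =>
      obtain ⟨f, hf, hfx⟩ := hx
      obtain ⟨g, hg, hgy⟩ := hy
      exact ⟨f + g, add_mem hf hg, by rw [map_add, ← hfx, ← hgy]; rfl⟩
  | inv x _ hx =>
      obtain ⟨f, hf, hfx⟩ := hx
      exact ⟨f⁻¹, inv_mem hf, by rw [map_inv₀, ← hfx]; rfl⟩
  | mul x y _ _ hx hy =>
      obtain ⟨f, hf, hfx⟩ := hx
      obtain ⟨g, hg, hgy⟩ := hy
      exact ⟨f * g, mul_mem hf hg, by rw [map_mul, ← hfx, ← hgy]; rfl⟩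

variable (M) in
/-- **Descent.**  Every element of `Ω = F_M` lies in `Fc M E` as soon as the number field `E`
contains a certain finite set of constants. -/
theorem exists_finset_series (x : LaurentSeries Qb) (hx : x ∈ modularFunctionFieldBar M) :
    ∃ T : Finset Qb, ∀ E : IntermediateField ℚ Qb, (∀ a ∈ T, a ∈ E) →
      ∃ f ∈ Fc M E, (f : LaurentSeries Qb) = x := by
  classical
  rw [mem_laurentBaseChange_iff] at hx
  induction hx using Subfield.closure_induction with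
  | mem y hy =>
      rcases hy with ⟨a, rfl⟩ | ⟨z, hz, rfl⟩
      · refine ⟨{a}, fun E hE => ⟨algebraMap Qb (Om M) a, algebraMap_mem_Fc (hE a (by simp)), rfl⟩⟩
      · exact ⟨∅, fun E _ => exists_mem_Fc_of_mem_full hz⟩
  | one => exact ⟨∅, fun E _ => ⟨1, one_mem _, rfl⟩⟩
  | add x y _ _ hx hy =>
      obtain ⟨T₁, h₁⟩ := hx
      obtain ⟨T₂, h₂⟩ := hy
      refine ⟨T₁ ∪ T₂, fun E hE => ?_⟩
      obtain ⟨f, hf, hfx⟩ := h₁ E (fun a ha => hE a (Finset.mem_union_left _ ha))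
      obtain ⟨g, hg, hgy⟩ := h₂ E (fun a ha => hE a (Finset.mem_union_right _ ha))
      exact ⟨f + g, add_mem hf hg, by rw [← hfx, ← hgy]; rfl⟩
  | neg x _ hx =>
      obtain ⟨T₁, h₁⟩ := hx
      refine ⟨T₁, fun E hE => ?_⟩
      obtain ⟨f, hf, hfx⟩ := h₁ E hE
      exact ⟨-f, neg_mem hf, by rw [← hfx]; rfl⟩
  | inv x _ hx =>
      obtain ⟨T₁, h₁⟩ := hx
      refine ⟨T₁, fun E hE => ?_⟩
      obtain ⟨f, hf, hfx⟩ := h₁ E hE
      exact ⟨f⁻¹, inv_mem hf, by rw [← hfx]; rfl⟩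
  | mul x y _ _ hx hy =>
      obtain ⟨T₁, h₁⟩ := hx
      obtain ⟨T₂, h₂⟩ := hy
      refine ⟨T₁ ∪ T₂, fun E hE => ?_⟩
      obtain ⟨f, hf, hfx⟩ := h₁ E (fun a ha => hE a (Finset.mem_union_left _ ha))
      obtain ⟨g, hg, hgy⟩ := h₂ E (fun a ha => hE a (Finset.mem_union_right _ ha))
      exact ⟨f * g, mul_mem hf hg, by rw [← hfx, ← hgy]; rfl⟩

variable (M) in
/-- **Descent**, elementwise form. -/
theorem exists_finset_mem_Fc (f : Om M) :
    ∃ T : Finset Qb, ∀ E : IntermediateField ℚ Qb, (∀ a ∈ T, a ∈ E) → f ∈ Fc M E := by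
  obtain ⟨T, hT⟩ := exists_finset_series M (f : LaurentSeries Qb) f.2
  refine ⟨T, fun E hE => ?_⟩
  obtain ⟨g, hg, hgf⟩ := hT E hE
  have : g = f := Subtype.ext hgf
  exact this ▸ hg


/-! ### `m` is a unit of `A ∩ E` -/

theorem natCast_inv_mem_valuationSubring {ℓ : ℕ} (hℓ : ℓ.Prime) (A : ValuationSubring Qb)
    (hA : A.LiesOverPrime ℓ) {m : ℕ} (hm : ¬ ℓ ∣ m) : ((m : Qb))⁻¹ ∈ A := by
  have hcop : IsCoprime (ℓ : ℤ) (m : ℤ) :=
    Nat.isCoprime_iff_coprime.mpr ((Nat.Prime.coprime_iff_not_dvd hℓ).mpr hm)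
  obtain ⟨a, b, hab⟩ := hcop
  have habQ : (a : Qb) * (ℓ : Qb) + (b : Qb) * (m : Qb) = 1 := by exact_mod_cast hab
  have hℓv : A.valuation (ℓ : Qb) < 1 := (A.mem_nonunits_iff).mp hA
  have hint : ∀ c : ℤ, A.valuation (c : Qb) ≤ 1 := fun c =>
    (A.valuation_le_one_iff _).mpr (intCast_mem A c)
  have hmle : A.valuation (m : Qb) ≤ 1 := (A.valuation_le_one_iff _).mpr (natCast_mem A m)
  have hmge : ¬ A.valuation (m : Qb) < 1 := by
    intro hlt
    have h1 : A.valuation ((a : Qb) * (ℓ : Qb)) < 1 := by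
      rw [map_mul]
      calc A.valuation (a : Qb) * A.valuation (ℓ : Qb) ≤ 1 * A.valuation (ℓ : Qb) :=
            mul_le_mul' (hint a) le_rfl
        _ = A.valuation (ℓ : Qb) := one_mul _
        _ < 1 := hℓv
    have h2 : A.valuation ((b : Qb) * (m : Qb)) < 1 := by
      rw [map_mul]
      calc A.valuation (b : Qb) * A.valuation (m : Qb) ≤ 1 * A.valuation (m : Qb) :=
            mul_le_mul' (hint b) le_rfl
        _ = A.valuation (m : Qb) := one_mul _
        _ < 1 := hlt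
    have h3 : A.valuation ((a : Qb) * (ℓ : Qb) + (b : Qb) * (m : Qb)) < 1 :=
      Valuation.map_add_lt _ h1 h2
    rw [habQ, map_one] at h3
    exact lt_irrefl _ h3
  have hm1 : A.valuation (m : Qb) = 1 := le_antisymm hmle (not_lt.mp hmge)
  rw [← A.valuation_le_one_iff, map_inv₀, hm1, inv_one]

theorem mem_Rc_iff {A : ValuationSubring Qb} {y : Om M} :
    y ∈ Rc M A E ↔ ∃ a : Qb, a ∈ A ∧ a ∈ E ∧ algebraMap Qb (Om M) a = y := by
  constructor
  · rintro ⟨a, ⟨haA, haE⟩, rfl⟩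
    exact ⟨a, haA, haE, rfl⟩
  · rintro ⟨a, haA, haE, rfl⟩
    exact ⟨a, ⟨haA, haE⟩, rfl⟩

theorem natCast_inv_mem_Rc {ℓ : ℕ} (hℓ : ℓ.Prime) (A : ValuationSubring Qb)
    (hA : A.LiesOverPrime ℓ) {m : ℕ} (hm : ¬ ℓ ∣ m) : ((m : Om M))⁻¹ ∈ Rc M A E := by
  rw [mem_Rc_iff]
  refine ⟨((m : Qb))⁻¹, natCast_inv_mem_valuationSubring hℓ A hA hm,
    inv_mem (natCast_mem E m), ?_⟩
  rw [map_inv₀, map_natCast]

theorem Rc_le_Ec {A : ValuationSubring Qb} {y : Om M} (hy : y ∈ Rc M A E) : y ∈ Ec M E := by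
  obtain ⟨a, -, haE, rfl⟩ := mem_Rc_iff.mp hy
  exact algebraMap_mem_Ec haE

/-! ### The divisor hypothesis in valuation-subring form -/

theorem exists_unit_twist [NeZero M] {m : ℕ} {f g : Om M} (hf : f ≠ 0) (hg : g ≠ 0)
    (hdiv : ∀ v : Place Qb (modularFunctionFieldBar M), (m : ℤ) ∣ v.ord f - v.ord g)
    (O : ValuationSubring (Om M)) (hO : ∀ a ∈ Lc M, a ∈ O) :
    ∃ t : Om M, t ≠ 0 ∧ (f / g) * t ^ m ∈ O ∧ ((f / g) * t ^ m)⁻¹ ∈ O := by
  by_cases hO' : O = ⊤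
  · subst hO'
    exact ⟨1, one_ne_zero, ValuationSubring.mem_top _, ValuationSubring.mem_top _⟩
  obtain ⟨P⟩ := Fermat.Agent.S24.nonempty_modularPackage M
  have := P.finiteDimensional
  obtain ⟨v, hv⟩ := Fermat.Agent.Lib.RR.H443.exists_place_eq O
    (fun a => hO _ ⟨a, rfl⟩) hO' (Fermat.Agent.Lib.RR.H864.transcendental_jF M)
  obtain ⟨k, hk⟩ := hdiv v
  obtain ⟨π, hπ⟩ := Fermat.Agent.Lib.RR.exists_ord_eq_one v
  have hπ0 : π ≠ 0 := Fermat.Agent.Lib.RR.ne_zero_of_ord_ne_zero v (by rw [hπ]; exact one_ne_zero)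
  have ht0 : π ^ (-k) ≠ 0 := zpow_ne_zero _ hπ0
  have hfg : f / g ≠ 0 := div_ne_zero hf hg
  have hord : v.ord ((f / g) * (π ^ (-k)) ^ m) = 0 := by
    rw [v.ord_mul hfg (pow_ne_zero _ ht0), div_eq_mul_inv, v.ord_mul hf (inv_ne_zero hg),
      v.ord_inv, Fermat.Agent.Lib.RR.ord_pow, v.ord_zpow, hπ]
    have : v.ord f = v.ord g + m * k := by linarith
    rw [this]
    ring
  refine ⟨π ^ (-k), ht0, ?_, ?_⟩
  · rw [← hv]
    exact Fermat.Agent.Lib.RR.mem_of_ord_nonneg v (by rw [hord])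
  · rw [← hv]
    exact Fermat.Agent.Lib.RR.mem_of_ord_nonneg v (by rw [v.ord_inv, hord, neg_zero])


/-! ### `u ≡ 1` modulo the uniformiser -/

/-- A series over `Q̄` with coefficients in `A` comes from a series over `A`. -/
theorem exists_series_of_coeff_mem (A : ValuationSubring Qb) (x : LaurentSeries Qb)
    (hx : ∀ n, x.coeff n ∈ A) : ∃ U : LaurentSeries A, coeffMap A.subtype U = x := by
  refine ⟨⟨fun n => ⟨x.coeff n, hx n⟩, x.isPWO_support.mono ?_⟩, ?_⟩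
  · intro n hn
    rw [HahnSeries.mem_support]
    intro h0
    exact hn (Subtype.ext h0)
  · ext n
    rfl

theorem toF_ne_zero {A : ValuationSubring Qb} {U : LaurentSeries A} (hU : IsInt A M U) :
    toF hU ≠ 0 := by
  intro h0
  apply hU.2.2
  have h1 : coeffMap A.subtype U = 0 := congrArg Subtype.val h0
  have h2 : U = 0 := by
    ext n
    have := congrArg (fun x => x.coeff n) h1
    simpa using this
  rw [h2, map_zero]

theorem coe_toF {A : ValuationSubring Qb} {U : LaurentSeries A} (hU : IsInt A M U) :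
    ((toF hU : Om M) : LaurentSeries Qb) = coeffMap A.subtype U := rfl

/-- **`u ≡ 1 mod w`.**  If `U₁, U₂` are integral with the same reduction and `toF U_i ∈ Fc M E`,
then `(U₁/U₂ - 1)/w` lies in the Gauss valuation ring `VcSet M A E`, for any `w` generating the
maximal ideal of `Rc M A E`. -/
theorem sub_one_mul_inv_mem_VcSet (A : ValuationSubring Qb) {U₁ U₂ : LaurentSeries A}
    (h₁ : IsInt A M U₁) (h₂ : IsInt A M U₂)
    (hred : coeffMap (IsLocalRing.residue A) U₁ = coeffMap (IsLocalRing.residue A) U₂)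
    (hf₁ : toF h₁ ∈ Fc M E) (hf₂ : toF h₂ ∈ Fc M E)
    {w : Om M} (hw : w ∈ Rc M A E)
    (hgen : ∀ r ∈ Rc M A E, r⁻¹ ∉ Rc M A E → r * w⁻¹ ∈ Rc M A E) :
    (toF h₁ / toF h₂ - 1) * w⁻¹ ∈ VcSet M A E := by
  obtain ⟨w', hw'A, hw'E, rfl⟩ := mem_Rc_iff.mp hw
  have hg0 : toF h₂ ≠ 0 := toF_ne_zero h₂
  have hwF : algebraMap Qb (Om M) w' ∈ Fc M E := algebraMap_mem_Fc hw'E
  set f : Om M := (toF h₁ - toF h₂) * (algebraMap Qb (Om M) w')⁻¹ with hf
  have hfF : f ∈ Fc M E := mul_mem (sub_mem hf₁ hf₂) (inv_mem hwF)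
  have huF : (toF h₁ / toF h₂ - 1) * (algebraMap Qb (Om M) w')⁻¹ ∈ Fc M E :=
    mul_mem (sub_mem (div_mem hf₁ hf₂) (one_mem _)) (inv_mem hwF)
  -- coefficients of `f`
  have hcoeff : ∀ n : ℤ, (f : LaurentSeries Qb).coeff n
      = ((U₁.coeff n : Qb) - (U₂.coeff n : Qb)) * w'⁻¹ := by
    intro n
    have e1 : (f : LaurentSeries Qb) = (coeffMap A.subtype U₁ - coeffMap A.subtype U₂)
        * (algebraMap Qb (LaurentSeries Qb) w')⁻¹ := rfl
    rw [e1, ← map_inv₀, algebraMap_laurentSeries_eq_single, HahnSeries.coeff_mul_single_zero,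
      HahnSeries.coeff_sub, coeffMap_coeff, coeffMap_coeff]
    rfl
  have hcoeffE : ∀ (U : LaurentSeries A) (hU : IsInt A M U), toF hU ∈ Fc M E →
      ∀ n : ℤ, ((U.coeff n : A) : Qb) ∈ E := by
    intro U hU hUF n
    have := coeff_mem_of_mem_Fc hUF n
    rwa [coe_toF, coeffMap_coeff] at this
  have hcoeffA : ∀ n : ℤ, (f : LaurentSeries Qb).coeff n ∈ A := by
    intro n
    rw [hcoeff]
    set d : A := U₁.coeff n - U₂.coeff n with hd
    have hdval : ((U₁.coeff n : Qb) - (U₂.coeff n : Qb)) = (d : Qb) := rfl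
    rw [hdval]
    have hdE : (d : Qb) ∈ E := sub_mem (hcoeffE U₁ h₁ hf₁ n) (hcoeffE U₂ h₂ hf₂ n)
    have hres : IsLocalRing.residue A d = 0 := by
      have := congrArg (fun x => x.coeff n) hred
      simp only [coeffMap_coeff] at this
      rw [hd, map_sub, this, sub_self]
    have hnu : ¬ IsUnit d := by
      rw [IsLocalRing.residue_eq_zero_iff] at hres
      exact (IsLocalRing.mem_maximalIdeal _).mp hres
    by_cases hd0 : (d : Qb) = 0
    · rw [hd0, zero_mul]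
      exact A.zero_mem
    have hr : algebraMap Qb (Om M) (d : Qb) ∈ Rc M A E := mem_Rc_iff.mpr ⟨d, d.2, hdE, rfl⟩
    have hr' : (algebraMap Qb (Om M) (d : Qb))⁻¹ ∉ Rc M A E := by
      intro hmem
      obtain ⟨b, hbA, -, hb⟩ := mem_Rc_iff.mp hmem
      rw [← map_inv₀] at hb
      have hb' : b = (d : Qb)⁻¹ := (algebraMap Qb (Om M)).injective hb
      apply hnu
      refine IsUnit.of_mul_eq_one (⟨b, hbA⟩ : A) (Subtype.ext ?_)
      change (d : Qb) * b = 1
      rw [hb', mul_inv_cancel₀ hd0]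
    obtain ⟨c, hcA, -, hc⟩ := mem_Rc_iff.mp (hgen _ hr hr')
    rw [← map_inv₀, ← map_mul] at hc
    have hc' : c = (d : Qb) * w'⁻¹ := (algebraMap Qb (Om M)).injective hc
    rw [← hc']
    exact hcA
  obtain ⟨W₁, hW₁⟩ := exists_series_of_coeff_mem A (f : LaurentSeries Qb) hcoeffA
  refine ⟨huF, W₁, U₂, ⟨?_, f, hfF, hW₁.symm⟩, ⟨hcoeffE U₂ h₂ hf₂, toF h₂, hf₂, rfl⟩,
    h₂.2.2, ?_⟩
  · intro n
    have := coeff_mem_of_mem_Fc hfF n
    rwa [← hW₁, coeffMap_coeff] at this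
  · rw [hW₁, ← coe_toF h₂]
    have : (toF h₁ / toF h₂ - 1) * (algebraMap Qb (Om M) w')⁻¹ * toF h₂ = f := by
      rw [hf]
      field_simp
    rw [← this]
    rfl

end Fermat.Agent.S18.H965

end
end
-- ===== PACK-END S18/H965/GlueLemmas.lean

-- ===== PACK-BEGIN S18/H558/BranchJ.lean
section



/-!
# S18 / MOD M2 (part 1): char-0 ramification of `F_M / ℚ̄(j)` in Prelude `Place` language

From the landed S24 analytic core (`H997.analyticCore`, `H117` local theorem), for every level `N`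
(`FF N = modularFunctionFieldBar N`, `jF N` the `j`-function, `Kbar = ℚ̄`):

* `ord_j_sub_eq_one`   : `a ≠ 0`, `a ≠ 1728`, `0 < v.ord (j - a)` ⟹ `v.ord (j - a) = 1`;
* `ord_j_dvd_three`    : `0 < v.ord j` ⟹ `v.ord j ∣ 3`;
* `ord_j_sub_1728_dvd_two` : `0 < v.ord (j - 1728)` ⟹ `v.ord (j - 1728) ∣ 2`;
* `finrank_jF`         : `[FF N : ℚ̄(j)] = #(SL₂(ℤ)/Γ₀(N))`.
-/

set_option autoImplicit false

noncomputable section

open AlgebraicCurve ModularCurve
open scoped MatrixGroups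

namespace Fermat.Agent.S18.H558

open Fermat.Agent.S24

variable (N : ℕ) [NeZero N]

/-- `-1` acts trivially on `SL₂(ℤ) / Γ₀(N)`. -/
theorem permOf_neg_one : permOf N (-1 : SL(2, ℤ)) = 1 := by
  ext x
  obtain ⟨g, rfl⟩ := QuotientGroup.mk_surjective x
  show ((-1 : SL(2, ℤ)) • (g : XX N)) = (g : XX N)
  rw [MulAction.Quotient.smul_mk, smul_eq_mul]
  apply QuotientGroup.eq.mpr
  have hinv : ((-1 : SL(2, ℤ)))⁻¹ = -1 := by
    rw [inv_eq_iff_eq_inv, eq_comm, inv_eq_iff_mul_eq_one, neg_mul_neg, one_mul]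
  have h : (-1 * g)⁻¹ * g = (-1 : SL(2, ℤ)) := by
    rw [neg_one_mul, ← mul_neg_one, mul_inv_rev, mul_assoc, inv_mul_cancel, mul_one, hinv]
  rw [h, CongruenceSubgroup.Gamma0_mem]
  simp

omit [NeZero N] in
theorem permOf_mul (g h : SL(2, ℤ)) : permOf N (g * h) = permOf N g * permOf N h := by
  ext x
  simp [permOf, mul_smul]

theorem permOf_pow (g : SL(2, ℤ)) (n : ℕ) : permOf N (g ^ n) = permOf N g ^ n := by
  induction n with
  | zero => simp [H997.permOf_one]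
  | succ n ih => rw [pow_succ, pow_succ, permOf_mul, ih]

theorem S_sq : ModularGroup.S ^ 2 = (-1 : SL(2, ℤ)) := by
  apply Subtype.ext
  rw [pow_two, Matrix.SpecialLinearGroup.coe_mul, ModularGroup.coe_S,
    Matrix.SpecialLinearGroup.coe_neg, Matrix.SpecialLinearGroup.coe_one]
  ext i j
  fin_cases i <;> fin_cases j <;> simp [Matrix.mul_apply, Fin.sum_univ_two]

theorem ST_cube : (ModularGroup.S * ModularGroup.T) ^ 3 = (-1 : SL(2, ℤ)) := by
  apply Subtype.ext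
  rw [pow_succ, pow_two, Matrix.SpecialLinearGroup.coe_mul, Matrix.SpecialLinearGroup.coe_mul,
    Matrix.SpecialLinearGroup.coe_mul, ModularGroup.coe_S, ModularGroup.coe_T,
    Matrix.SpecialLinearGroup.coe_neg, Matrix.SpecialLinearGroup.coe_one]
  ext i j
  fin_cases i <;> fin_cases j <;> simp [Matrix.mul_apply, Fin.sum_univ_two]

theorem permOf_inv_pow_eq_one (g : SL(2, ℤ)) (n : ℕ) (hg : g ^ n = -1) :
    (permOf N g⁻¹) ^ n = 1 := by
  rw [H997.permOf_inv, inv_pow, ← permOf_pow, hg, permOf_neg_one, inv_one]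

/-- The degree of `F_N` over `ℚ̄(j)`. -/
theorem finrank_jF :
    FiniteDimensional ↥(IntermediateField.adjoin Kbar {jF N}) (FF N) ∧
      Module.finrank ↥(IntermediateField.adjoin Kbar {jF N}) (FF N) = Nat.card (XX N) := by
  obtain ⟨hfd, hle⟩ := Deg457.degree_fields N
  exact ⟨hfd, le_antisymm hle (H997.analyticCore N).card_le_finrank⟩

/-- Generic values of `j` are unramified. -/
theorem ord_j_sub_eq_one (a : Kbar) (h0 : a ≠ 0) (h1 : a ≠ 1728) (v : Place Kbar (FF N))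
    (hv : 0 < v.ord (jF N - algebraMap Kbar (FF N) a)) :
    v.ord (jF N - algebraMap Kbar (FF N) a) = 1 := by
  obtain ⟨hfd, hrank⟩ := finrank_jF N
  obtain ⟨Z, -, -, -, h⟩ := local_fin (jF N) hrank a ((H997.analyticCore N).dataFin a)
  exact h ((H997.analyticCore N).dataFin_perm_generic a h0 h1) v hv

/-- General divisibility: if the `n`-th power of the monodromy at `a` is trivial, every zero of
`j - a` has order dividing `n`. -/
theorem ord_j_sub_dvd (a : Kbar) (n : ℕ)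
    (hperm : ((H997.analyticCore N).dataFin a).perm ^ n = 1) (v : Place Kbar (FF N))
    (hv : 0 < v.ord (jF N - algebraMap Kbar (FF N) a)) :
    v.ord (jF N - algebraMap Kbar (FF N) a) ∣ (n : ℤ) := by
  obtain ⟨hfd, hrank⟩ := finrank_jF N
  set L := (H997.analyticCore N).dataFin a with hL
  have hE : IntermediateField.adjoin Kbar {jF N} ≤
      IntermediateField.adjoin Kbar {jF N - algebraMap Kbar (FF N) a} :=
    (adjoin_sub_algebraMap Kbar (jF N) a).ge
  obtain ⟨x, rfl⟩ := H117.exists_placeOf_eq L _ hE hrank v hv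
  exact H117.ord_t_dvd_of_pow_apply_eq L x n (by rw [hperm]; rfl)

theorem dataFin_zero_perm_eq :
    ((H997.analyticCore N).dataFin 0).perm = permOf N (ModularGroup.S * ModularGroup.T)⁻¹ := by
  unfold H997.AnalyticCore.dataFin
  rw [dif_pos rfl]
  rfl

theorem dataFin_1728_perm_eq :
    ((H997.analyticCore N).dataFin 1728).perm = permOf N (ModularGroup.S)⁻¹ := by
  have h0 : (1728 : Kbar) ≠ 0 := by norm_num
  unfold H997.AnalyticCore.dataFin
  rw [dif_neg h0, dif_pos rfl]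
  rfl

/-- Zeros of `j` have order `1` or `3`. -/
theorem ord_j_dvd_three (v : Place Kbar (FF N)) (hv : 0 < v.ord (jF N)) :
    v.ord (jF N) ∣ 3 := by
  have h := ord_j_sub_dvd N 0 3
    (by rw [dataFin_zero_perm_eq]; exact permOf_inv_pow_eq_one N _ 3 ST_cube) v
    (by rwa [map_zero, sub_zero])
  rw [map_zero, sub_zero] at h
  exact_mod_cast h

/-- Zeros of `j - 1728` have order `1` or `2`. -/
theorem ord_j_sub_1728_dvd_two (v : Place Kbar (FF N))
    (hv : 0 < v.ord (jF N - algebraMap Kbar (FF N) 1728)) :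
    v.ord (jF N - algebraMap Kbar (FF N) 1728) ∣ 2 := by
  have h := ord_j_sub_dvd N 1728 2
    (by rw [dataFin_1728_perm_eq]; exact permOf_inv_pow_eq_one N _ 2 S_sq) v hv
  exact_mod_cast h

end Fermat.Agent.S18.H558

end
end
-- ===== PACK-END S18/H558/BranchJ.lean

-- ===== PACK-BEGIN Ribet/H704/NonScalar.lean
section



/-!
# RIBET / DETF + NMT (helper704), part 3: the Galois image on `E[p]` is not scalar

For EVERY Frey package (no irreducibility hypothesis) some element of `G_ℚ` does not act on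
`E[p]` through a scalar.  Proof: otherwise every line is Galois-stable, so `E[p]` is reducible,
the landed S13 gives a cofixed line `N`, a scalar action which is trivial on `E[p]/N` is trivial,
and the Frey curve would have a nonzero rational `p`-torsion point, which the landed T7 of row S13
excludes.
-/

set_option autoImplicit false

open WeierstrassCurve WeierstrassCurve.Affine WeierstrassCurve.Affine.Point

namespace Fermat.Agent.Ribet.H704

open Fermat.Agent.Ribet.Spec (GQ FreyTorsion)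

/-- **NONSC.** Some element of `G_ℚ` is not a scalar on the `p`-torsion of the Frey curve. -/
theorem exists_not_scalar (P : FreyPackage) :
    ∃ h : GQ, ¬ ∃ s : ZMod P.p, ∀ x : FreyTorsion P, h • x = s • x := by
  have : Fact P.p.Prime := ⟨P.pp⟩
  by_contra H
  push Not at H
  obtain ⟨b⟩ := nonempty_basis_freyTorsion P
  -- every line is stable, hence `E[p]` is reducible
  have hred : ¬ GaloisRepIsIrreducible (K := AlgebraicClosure ℚ) ℚ P.freyCurve P.p := by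
    rintro ⟨-, hirr⟩
    obtain ⟨N, hbot, htop, hN⟩ := exists_line b
    have hst : IsGaloisStable (K := AlgebraicClosure ℚ) ℚ N := by
      intro σ x hx
      obtain ⟨s, hs⟩ := H σ
      rw [hs x]
      exact hN s x hx
    rcases hirr N hst with h0 | h1
    · exact hbot h0
    · exact htop h1
  obtain ⟨N, -, -, htop, hcof⟩ := Fermat.Agent.S13.result P hred
  -- a point outside `N`
  obtain ⟨x, hx⟩ : ∃ x : FreyTorsion P, x ∉ N := by
    by_contra hall
    push Not at hall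
    exact htop (eq_top_iff.mpr fun y _ => hall y)
  -- every `σ` acts trivially
  have htriv : ∀ (σ : GQ) (y : FreyTorsion P), σ • y = y := by
    intro σ y
    obtain ⟨s, hs⟩ := H σ
    have h1 : s = 1 := by
      by_contra hne
      have h2 := hcof σ x
      rw [hs x] at h2
      have h3 : (s - 1) • x ∈ N := by rwa [sub_smul, one_smul]
      have h4 : s - 1 ≠ 0 := sub_ne_zero.mpr hne
      have h5 := N.smul_mem (s - 1)⁻¹ h3
      rw [smul_smul, inv_mul_cancel₀ h4, one_smul] at h5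
      exact hx h5
    rw [hs y, h1, one_smul]
  have hb0 : b 0 = 0 := Fermat.Agent.S13.H13.frey_T7 P (b 0) (fun σ => htriv σ (b 0))
  exact b.ne_zero 0 hb0

end Fermat.Agent.Ribet.H704

end
-- ===== PACK-END Ribet/H704/NonScalar.lean

-- ===== PACK-BEGIN S21/Glue.lean
section



/-!
# S21 — glue: the frozen statement from the six interface theorems
-/

set_option autoImplicit false

open ModularCurve ModularCurve.Period UpperHalfPlane CongruenceSubgroup Filter Topology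
open scoped MatrixGroups ComplexConjugate

namespace Fermat.Agent.S21

variable {N : ℕ}

theorem hasEquivariantPrimitive_add {f g : CuspForm (Gamma0 N) 2} {F G : ℍ → ℂ}
    (hF : HasEquivariantPrimitive N f F) (hG : HasEquivariantPrimitive N g G) :
    HasEquivariantPrimitive N (f + g) (F + G) := by
  refine ⟨fun τ => ?_, ?_, fun γ => ?_, fun δ => ?_⟩
  · have := (hF.1 τ).add (hG.1 τ)
    exact this
  · have := hF.2.1.add hG.2.1
    rw [add_zero] at this
    exact this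
  · obtain ⟨c, hc⟩ := hF.2.2.1 γ
    obtain ⟨d, hd⟩ := hG.2.2.1 γ
    refine ⟨c + d, fun z => ?_⟩
    have h1 := hc z
    have h2 := hd z
    simp only [Pi.add_apply]
    linear_combination h1 + h2
  · obtain ⟨L, hL⟩ := hF.2.2.2 δ
    obtain ⟨M, hM⟩ := hG.2.2.2 δ
    exact ⟨L + M, hL.add hM⟩

theorem hasEquivariantPrimitive_smul (c : ℂ) {f : CuspForm (Gamma0 N) 2} {F : ℍ → ℂ}
    (hF : HasEquivariantPrimitive N f F) :
    HasEquivariantPrimitive N (c • f) (c • F) := by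
  refine ⟨fun τ => ?_, ?_, fun γ => ?_, fun δ => ?_⟩
  · have := (hF.1 τ).const_smul c
    exact this
  · have := hF.2.1.const_smul c
    rw [smul_zero] at this
    exact this
  · obtain ⟨d, hd⟩ := hF.2.2.1 γ
    refine ⟨c * d, fun z => ?_⟩
    have h1 := hd z
    simp only [Pi.smul_apply, smul_eq_mul]
    linear_combination c * h1
  · obtain ⟨L, hL⟩ := hF.2.2.2 δ
    exact ⟨c • L, hL.const_smul c⟩

theorem periodMap_eq_of_primitive {f : CuspForm (Gamma0 N) 2} {F : ℍ → ℂ}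
    (hF : HasEquivariantPrimitive N f F) :
    periodMap N f = hF.2.2.1.periodHom := by
  obtain ⟨F₀, h₀, h⟩ := periodMap_def N f hF
  have hFF : F₀ = F := primitive_unique N f h₀ hF
  subst hFF
  exact h

theorem periodMap_apply {f : CuspForm (Gamma0 N) 2} {F : ℍ → ℂ}
    (hF : HasEquivariantPrimitive N f F) (γ : Gamma0 N) :
    periodMap N f (Additive.ofMul γ)
      = F ((γ : SL(2, ℤ)) • UpperHalfPlane.I) - F UpperHalfPlane.I := by
  rw [periodMap_eq_of_primitive hF]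
  rfl

variable (N) in
theorem existsPeriodMapLinear [NeZero N] : ExistsPeriodMapLinear N := by
  refine ⟨{ toFun := periodMap N, map_add' := fun f g => ?_, map_smul' := fun c f => ?_ },
    fun f => rfl⟩
  · obtain ⟨F, hF⟩ := exists_primitive N f
    obtain ⟨G, hG⟩ := exists_primitive N g
    refine AddMonoidHom.ext fun γ => ?_
    obtain ⟨γ, rfl⟩ := Additive.ofMul.surjective γ
    rw [AddMonoidHom.add_apply, periodMap_apply hF, periodMap_apply hG,
      periodMap_apply (hasEquivariantPrimitive_add hF hG)]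
    simp only [Pi.add_apply]
    ring
  · obtain ⟨F, hF⟩ := exists_primitive N f
    refine AddMonoidHom.ext fun γ => ?_
    obtain ⟨γ, rfl⟩ := Additive.ofMul.surjective γ
    rw [RingHom.id_apply, AddMonoidHom.smul_apply, periodMap_apply hF,
      periodMap_apply (hasEquivariantPrimitive_smul c hF)]
    simp only [Pi.smul_apply, smul_eq_mul]
    ring

/-- The period map as a linear map. -/
noncomputable def periodLin (N : ℕ) [NeZero N] :
    CuspForm (Gamma0 N) 2 →ₗ[ℂ] (Additive (Gamma0 N) →+ ℂ) :=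
  (existsPeriodMapLinear N).choose

theorem periodLin_apply [NeZero N] (f : CuspForm (Gamma0 N) 2) :
    periodLin N f = periodMap N f :=
  (existsPeriodMapLinear N).choose_spec f

theorem periodHomPair_eq [NeZero N] :
    periodHomPair N = LinearMap.coprod
      ((LinearMap.id + charInvolution N ℂ ℂ) ∘ₗ periodLin N)
      ((LinearMap.id - charInvolution N ℂ ℂ) ∘ₗ periodLin N) := by
  unfold periodHomPair
  rw [dif_pos (existsPeriodMapLinear N)]
  rfl

theorem periodHomPair_apply [NeZero N] (f g : CuspForm (Gamma0 N) 2) (γ : Gamma0 N) :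
    periodHomPair N (f, g) (Additive.ofMul γ)
      = (periodMap N f (Additive.ofMul γ)
          + periodMap N f (Additive.ofMul (jConjGamma0 N γ)))
        + (periodMap N g (Additive.ofMul γ)
          - periodMap N g (Additive.ofMul (jConjGamma0 N γ))) := by
  rw [periodHomPair_eq]
  simp [LinearMap.coprod_apply, periodLin_apply, charInvolution_apply]

theorem periodMap_add [NeZero N] (f g : CuspForm (Gamma0 N) 2) :
    periodMap N (f + g) = periodMap N f + periodMap N g := by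
  rw [← periodLin_apply, map_add, periodLin_apply, periodLin_apply]

theorem periodMap_sub [NeZero N] (f g : CuspForm (Gamma0 N) 2) :
    periodMap N (f - g) = periodMap N f - periodMap N g := by
  rw [← periodLin_apply, map_sub, periodLin_apply, periodLin_apply]

theorem periodMap_smul [NeZero N] (c : ℂ) (f : CuspForm (Gamma0 N) 2) :
    periodMap N (c • f) = c • periodMap N f := by
  rw [← periodLin_apply, map_smul, periodLin_apply]

theorem periodMap_mem_parabolicHoms [NeZero N] (f : CuspForm (Gamma0 N) 2) :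
    periodMap N f ∈ parabolicHoms ℂ (Gamma0 N) ℂ :=
  periodMap_mem_parabolicHoms' N f

/-- C' restated with `periodMap`. -/
theorem eq_zero_of_re_periodMap_eq_zero [NeZero N] (f : CuspForm (Gamma0 N) 2)
    (h : ∀ γ : Gamma0 N, (periodMap N f (Additive.ofMul γ)).re = 0) : f = 0 := by
  obtain ⟨F, hF⟩ := exists_primitive N f
  refine eq_zero_of_re_period_eq_zero N f hF fun γ => ?_
  rw [← periodMap_apply hF]
  exact h γ

/-- D' restated with `periodMap`. -/
theorem exists_re_periodMap_eq [NeZero N] (φ : Additive (Gamma0 N) →+ ℝ)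
    (hφ : IsParabolicHom (Gamma0 N) φ) :
    ∃ f : CuspForm (Gamma0 N) 2, ∀ γ : Gamma0 N,
      (periodMap N f (Additive.ofMul γ)).re = φ (Additive.ofMul γ) := by
  obtain ⟨f, F, hF, h⟩ := exists_cuspForm_re_period_eq N φ hφ
  refine ⟨f, fun γ => ?_⟩
  rw [periodMap_apply hF]
  exact h γ

/-- E1 restated with `periodMap`. -/
theorem exists_star [NeZero N] (f : CuspForm (Gamma0 N) 2) :
    ∃ g : CuspForm (Gamma0 N) 2, ∀ γ : Gamma0 N,
      periodMap N g (Additive.ofMul γ)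
        = - conj (periodMap N f (Additive.ofMul (jConjGamma0 N γ))) := by
  obtain ⟨F, hF⟩ := exists_primitive N f
  obtain ⟨g, G, hG, h⟩ := exists_conj_partner N f hF
  refine ⟨g, fun γ => ?_⟩
  rw [periodMap_apply hG, periodMap_apply hF]
  exact h γ

theorem exists_star' [NeZero N] (f : CuspForm (Gamma0 N) 2) :
    ∃ g : CuspForm (Gamma0 N) 2, (∀ γ : Gamma0 N,
      periodMap N g (Additive.ofMul γ)
        = - conj (periodMap N f (Additive.ofMul (jConjGamma0 N γ)))) ∧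
      ∀ γ : Gamma0 N, periodMap N g (Additive.ofMul (jConjGamma0 N γ))
        = - conj (periodMap N f (Additive.ofMul γ)) := by
  obtain ⟨g, hg⟩ := exists_star f
  refine ⟨g, hg, fun γ => ?_⟩
  rw [hg, jConjGamma0_jConjGamma0]

/-- The `+`-part: `(1 + ι) P f = 0 → f = 0`. -/
theorem eq_zero_of_plus [NeZero N] (f : CuspForm (Gamma0 N) 2)
    (h : ∀ γ : Gamma0 N, periodMap N f (Additive.ofMul γ)
          + periodMap N f (Additive.ofMul (jConjGamma0 N γ)) = 0) : f = 0 := by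
  obtain ⟨s, hs, -⟩ := exists_star' f
  -- `P s = conj (P f)`
  have hs' : ∀ γ : Gamma0 N,
      periodMap N s (Additive.ofMul γ) = conj (periodMap N f (Additive.ofMul γ)) := by
    intro γ
    rw [hs, ← map_neg]
    congr 1
    linear_combination - h γ
  have h1 : f - s = 0 := by
    refine eq_zero_of_re_periodMap_eq_zero _ fun γ => ?_
    rw [periodMap_sub, AddMonoidHom.sub_apply, hs', Complex.sub_re, Complex.conj_re, sub_self]
  have h2 : (Complex.I : ℂ) • (f + s) = 0 := by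
    refine eq_zero_of_re_periodMap_eq_zero _ fun γ => ?_
    rw [periodMap_smul, periodMap_add, AddMonoidHom.smul_apply, AddMonoidHom.add_apply, hs']
    simp
  have h3 : f + s = 0 := by
    have := congrArg (fun x => (-Complex.I) • x) h2
    simpa [smul_smul] using this
  have h4 : f = s := sub_eq_zero.mp h1
  rw [← h4] at h3
  have h5 : (2 : ℂ) • f = 0 := by rw [two_smul]; exact h3
  have := congrArg (fun x => (2⁻¹ : ℂ) • x) h5
  simpa [smul_smul] using this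

/-- The `-`-part: `(1 - ι) P g = 0 → g = 0`. -/
theorem eq_zero_of_minus [NeZero N] (g : CuspForm (Gamma0 N) 2)
    (h : ∀ γ : Gamma0 N, periodMap N g (Additive.ofMul γ)
          - periodMap N g (Additive.ofMul (jConjGamma0 N γ)) = 0) : g = 0 := by
  obtain ⟨s, hs, -⟩ := exists_star' g
  -- `P s = - conj (P g)`
  have hs' : ∀ γ : Gamma0 N,
      periodMap N s (Additive.ofMul γ) = - conj (periodMap N g (Additive.ofMul γ)) := by
    intro γ
    rw [hs]
    congr 2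
    linear_combination - h γ
  have h1 : g + s = 0 := by
    refine eq_zero_of_re_periodMap_eq_zero _ fun γ => ?_
    rw [periodMap_add, AddMonoidHom.add_apply, hs', Complex.add_re, Complex.neg_re,
      Complex.conj_re, add_neg_cancel]
  have h2 : (Complex.I : ℂ) • (g - s) = 0 := by
    refine eq_zero_of_re_periodMap_eq_zero _ fun γ => ?_
    rw [periodMap_smul, periodMap_sub, AddMonoidHom.smul_apply, AddMonoidHom.sub_apply, hs']
    simp
  have h3 : g - s = 0 := by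
    have := congrArg (fun x => (-Complex.I) • x) h2
    simpa [smul_smul] using this
  have h4 : g = s := sub_eq_zero.mp h3
  rw [← h4] at h1
  have h5 : (2 : ℂ) • g = 0 := by rw [two_smul]; exact h1
  have := congrArg (fun x => (2⁻¹ : ℂ) • x) h5
  simpa [smul_smul] using this

theorem periodHomPair_injective (N : ℕ) [NeZero N] : Function.Injective (periodHomPair N) := by
  rw [injective_iff_map_eq_zero]
  rintro ⟨f, g⟩ hfg
  have key : ∀ γ : Gamma0 N,
      (periodMap N f (Additive.ofMul γ) + periodMap N f (Additive.ofMul (jConjGamma0 N γ)))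
        + (periodMap N g (Additive.ofMul γ)
          - periodMap N g (Additive.ofMul (jConjGamma0 N γ))) = 0 := by
    intro γ
    rw [← periodHomPair_apply, hfg]
    rfl
  have hf : f = 0 := by
    refine eq_zero_of_plus f fun γ => ?_
    have h1 := key γ
    have h2 := key (jConjGamma0 N γ)
    rw [jConjGamma0_jConjGamma0] at h2
    linear_combination (1 / 2 : ℂ) * h1 + (1 / 2 : ℂ) * h2
  have hg : g = 0 := by
    refine eq_zero_of_minus g fun γ => ?_
    have h1 := key γ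
    have h2 := key (jConjGamma0 N γ)
    rw [jConjGamma0_jConjGamma0] at h2
    linear_combination (1 / 2 : ℂ) * h1 - (1 / 2 : ℂ) * h2
  rw [hf, hg]
  rfl

theorem periodHomPair_mem_parabolicHoms [NeZero N] (x : CuspForm (Gamma0 N) 2 × CuspForm (Gamma0 N) 2) :
    periodHomPair N x ∈ parabolicHoms ℂ (Gamma0 N) ℂ := by
  rw [periodHomPair_eq]
  obtain ⟨f, g⟩ := x
  simp only [LinearMap.coprod_apply, LinearMap.comp_apply, LinearMap.add_apply,
    LinearMap.sub_apply, LinearMap.id_apply, periodLin_apply]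
  have hf := periodMap_mem_parabolicHoms f
  have hg := periodMap_mem_parabolicHoms g
  exact Submodule.add_mem _
    (Submodule.add_mem _ hf (charInvolution_mem_parabolicHoms N ℂ ℂ hf))
    (Submodule.sub_mem _ hg (charInvolution_mem_parabolicHoms N ℂ ℂ hg))

/-- real part of a complex parabolic hom -/
noncomputable def reHom (ψ : Additive (Gamma0 N) →+ ℂ) : Additive (Gamma0 N) →+ ℝ :=
  (Complex.reLm.toAddMonoidHom).comp ψ

/-- imaginary part of a complex parabolic hom -/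
noncomputable def imHom (ψ : Additive (Gamma0 N) →+ ℂ) : Additive (Gamma0 N) →+ ℝ :=
  (Complex.imLm.toAddMonoidHom).comp ψ

theorem periodHomPair_surjective [NeZero N] (ψ : Additive (Gamma0 N) →+ ℂ)
    (hψ : ψ ∈ parabolicHoms ℂ (Gamma0 N) ℂ) : ∃ x, periodHomPair N x = ψ := by
  rw [mem_parabolicHoms_iff] at hψ
  have h1 : IsParabolicHom (Gamma0 N) (reHom ψ) := fun γ hγ => by
    show (ψ (Additive.ofMul γ)).re = 0
    rw [hψ γ hγ]; rfl
  have h2 : IsParabolicHom (Gamma0 N) (imHom ψ) := fun γ hγ => by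
    show (ψ (Additive.ofMul γ)).im = 0
    rw [hψ γ hγ]; rfl
  obtain ⟨f₁, hf₁⟩ := exists_re_periodMap_eq (reHom ψ) h1
  obtain ⟨f₂, hf₂⟩ := exists_re_periodMap_eq (imHom ψ) h2
  obtain ⟨s₁, -, hs₁⟩ := exists_star' f₁
  obtain ⟨s₂, -, hs₂⟩ := exists_star' (Complex.I • f₂)
  -- `ψ = ½ P(a) + ½ ι P(b)`, `a = f₁ + i f₂`, `b = s₂ - s₁`
  set a : CuspForm (Gamma0 N) 2 := f₁ + Complex.I • f₂ with ha
  set b : CuspForm (Gamma0 N) 2 := s₂ - s₁ with hb
  refine ⟨((4⁻¹ : ℂ) • (a + b), (4⁻¹ : ℂ) • (a - b)), ?_⟩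
  refine AddMonoidHom.ext fun γ => ?_
  obtain ⟨γ, rfl⟩ := Additive.ofMul.surjective γ
  rw [periodHomPair_apply]
  simp only [periodMap_smul, periodMap_add, periodMap_sub, AddMonoidHom.smul_apply,
    AddMonoidHom.add_apply, AddMonoidHom.sub_apply, ha, hb, hs₁, hs₂, smul_eq_mul]
  have e1 : (periodMap N f₁ (Additive.ofMul γ)).re = (ψ (Additive.ofMul γ)).re := hf₁ γ
  have e2 : (periodMap N f₂ (Additive.ofMul γ)).re = (ψ (Additive.ofMul γ)).im := hf₂ γ
  apply Complex.ext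
  · simp only [Complex.add_re, Complex.sub_re, Complex.mul_re, Complex.neg_re, Complex.conj_re,
      Complex.I_re, Complex.I_im, Complex.conj_im, Complex.add_im, Complex.sub_im, Complex.mul_im,
      Complex.neg_im, map_mul, Complex.conj_I, Complex.inv_re, Complex.inv_im]
    norm_num
    linarith
  · simp only [Complex.add_re, Complex.sub_re, Complex.mul_re, Complex.neg_re, Complex.conj_re,
      Complex.I_re, Complex.I_im, Complex.conj_im, Complex.add_im, Complex.sub_im, Complex.mul_im,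
      Complex.neg_im, map_mul, Complex.conj_I, Complex.inv_re, Complex.inv_im]
    norm_num
    linarith

theorem main (N : ℕ) [NeZero N] :
    Function.Injective (ModularCurve.periodHomPair N)
      ∧ LinearMap.range (ModularCurve.periodHomPair N)
          = ModularCurve.Period.parabolicHoms ℂ (CongruenceSubgroup.Gamma0 N) ℂ := by
  refine ⟨periodHomPair_injective N, le_antisymm ?_ ?_⟩
  · rintro ψ ⟨x, rfl⟩
    exact periodHomPair_mem_parabolicHoms x
  · intro ψ hψ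
    exact periodHomPair_surjective ψ hψ

end Fermat.Agent.S21

end
-- ===== PACK-END S21/Glue.lean

-- ===== PACK-BEGIN Ribet/H940/GaussTheta.lean
section




/-!
# RIBET wall-p, leaf I3 (helper940): the Gauss lemma for ratios of integral `q`-series

Setting of `S37/H940/QSeries.lean`: `F ⊆ L((q))`, `F_k ⊆ k((q))`, `A ⊆ L` a valuation ring with
residue map `π : A → k`, `V` = fractions of integral `q`-series of `F` (`qData`).

* `gauss_ratio` : if `u ∈ F` and `u · B = N` for INTEGRAL series `B, N ∈ A((q))` (not necessarily in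
  `F`) with `B̄ ≠ 0`, then `u ∈ V` and `ρ(u) · B̄ = N̄`   (needs the value-group hypothesis);
* `link_frac` : for a reduction datum `G` on `(F, F_k)` with the `link` property, `V ⊆ G.O` and
  `G.ρ = ρ` on `V`;
* `mem_V_of_mem_O` : conversely `G.O ⊆ V`.
-/

set_option autoImplicit false
set_option synthInstance.maxHeartbeats 400000
set_option linter.unusedSectionVars false
set_option linter.style.haveILetI false

noncomputable section

namespace Fermat.Agent.Ribet.H940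

open AlgebraicCurve ModularCurve HahnSeries
open Fermat.Agent.S37.H940 Fermat.Agent.S37.Red

universe u

variable {L : Type u} [Field L] (A : ValuationSubring L) {k : Type u} [Field k] (π : A →+* k)
variable (F : IntermediateField L (LaurentSeries L)) (Fk : IntermediateField k (LaurentSeries k))
variable (hsurj : Function.Surjective π) (hker : ∀ a : A, π a = 0 ↔ ¬ IsUnit a)

/-- the constant `c ∈ A` as an integral `q`-series of `F` -/
def constQ (c : A) : intQ A π F Fk := ⟨algebraMap L F (c : L), const_isIntQ A π F Fk c⟩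

theorem coeffMap_single_constQ (c : A) :
    coeffMap A.subtype (HahnSeries.single 0 c) = (((constQ A π F Fk c : intQ A π F Fk) : F) :
      LaurentSeries L) := by
  rw [coeffMap_single]
  show HahnSeries.single 0 (c : L) = algebraMap L (LaurentSeries L) (c : L)
  rw [algebraMap_laurentSeries_eq_single]

theorem coe_redQ_constQ (c : A) :
    ((redQ A π F Fk (constQ A π F Fk c) : Fk) : LaurentSeries k) =
      coeffMap π (HahnSeries.single 0 c) :=
  coe_redQ A π F Fk (constQ A π F Fk c) (coeffMap_single_constQ A π F Fk c)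

theorem coeffMap_single_zero_of_eq_zero {c : A} (hc : π c = 0) :
    coeffMap π (HahnSeries.single 0 c) = 0 := by
  rw [coeffMap_single, hc, HahnSeries.single_eq_zero]

include hker in
/-- **Gauss lemma for ratios**, core form. -/
theorem gauss_ratio_core (hVG : ValueGroupHyp A π F Fk) (u : F) (B N : LaurentSeries A)
    (h : (u : LaurentSeries L) * coeffMap A.subtype B = coeffMap A.subtype N)
    (hB : coeffMap π B ≠ 0) :
    ∃ a b : intQ A π F Fk, redQ A π F Fk b ≠ 0 ∧ u * (b : F) = (a : F) ∧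
      ((redQ A π F Fk a : Fk) : LaurentSeries k) * coeffMap π B =
        ((redQ A π F Fk b : Fk) : LaurentSeries k) * coeffMap π N := by
  rcases eq_or_ne u 0 with rfl | hu
  · refine ⟨0, 1, by rw [map_one]; exact one_ne_zero, by simp, ?_⟩
    have hN : N = 0 := by
      apply coeffMap_subtype_injective A
      rw [← h, map_zero]
      simp
    rw [hN, map_zero, map_zero, mul_zero]
    simp
  obtain ⟨c, hc, y₁, y₂, h₁, h₂, hfy⟩ := hVG u hu
  set Y₁ := series A π F Fk y₁ with hY₁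
  set Y₂ := series A π F Fk y₂ with hY₂
  have e₁ : coeffMap A.subtype Y₁ = ((y₁ : F) : LaurentSeries L) := coeffMap_series A π F Fk y₁
  have e₂ : coeffMap A.subtype Y₂ = ((y₂ : F) : LaurentSeries L) := coeffMap_series A π F Fk y₂
  have r₁ : ((redQ A π F Fk y₁ : Fk) : LaurentSeries k) = coeffMap π Y₁ :=
    coe_redQ A π F Fk y₁ e₁
  have r₂ : ((redQ A π F Fk y₂ : Fk) : LaurentSeries k) = coeffMap π Y₂ :=
    coe_redQ A π F Fk y₂ e₂
  have hY₁0 : coeffMap π Y₁ ≠ 0 := by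
    rw [← r₁]
    intro h0
    exact h₁ (Subtype.ext h0)
  -- the relation in `L((q))`
  have hrel : (u : LaurentSeries L) * ((y₂ : F) : LaurentSeries L) =
      algebraMap L (LaurentSeries L) c * ((y₁ : F) : LaurentSeries L) :=
    congrArg (fun z : F => (z : LaurentSeries L)) hfy
  by_cases hcA : c ∈ A
  · -- `c ∈ A`
    refine ⟨constQ A π F Fk ⟨c, hcA⟩ * y₁, y₂, h₂, hfy, ?_⟩
    have hser : HahnSeries.single 0 (⟨c, hcA⟩ : A) * Y₁ * B = Y₂ * N := by
      apply coeffMap_subtype_injective A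
      rw [map_mul, map_mul, map_mul, e₁, e₂, ← h, coeffMap_single]
      show HahnSeries.single 0 c * ((y₁ : F) : LaurentSeries L) * _ = _
      rw [← algebraMap_laurentSeries_eq_single, ← hrel]
      ring
    have hra : ((redQ A π F Fk (constQ A π F Fk ⟨c, hcA⟩ * y₁) : Fk) : LaurentSeries k) =
        coeffMap π (HahnSeries.single 0 (⟨c, hcA⟩ : A) * Y₁) := by
      rw [map_mul, map_mul]
      show ((redQ A π F Fk (constQ A π F Fk ⟨c, hcA⟩) : Fk) : LaurentSeries k) *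
        ((redQ A π F Fk y₁ : Fk) : LaurentSeries k) = _
      rw [coe_redQ_constQ, r₁]
    rw [hra, r₂, ← map_mul, ← map_mul, hser]
  · -- `c ∉ A`: impossible
    exfalso
    have hinv : c⁻¹ ∈ A := (A.mem_or_inv_mem c).resolve_left hcA
    have hnu : ¬ IsUnit (⟨c⁻¹, hinv⟩ : A) := by
      intro hun
      obtain ⟨b, hb⟩ := isUnit_iff_exists_inv.mp hun
      have hb' : c⁻¹ * (b : L) = 1 := by
        have := congrArg (fun x : A => (x : L)) hb
        simpa using this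
      apply hcA
      have : (b : L) = c := by
        field_simp at hb'
        exact hb'
      rw [← this]
      exact b.2
    have hπ : π ⟨c⁻¹, hinv⟩ = 0 := (hker _).mpr hnu
    have hser : Y₁ * B = HahnSeries.single 0 (⟨c⁻¹, hinv⟩ : A) * Y₂ * N := by
      apply coeffMap_subtype_injective A
      rw [map_mul, map_mul, map_mul, e₁, e₂, ← h, coeffMap_single]
      show _ = HahnSeries.single 0 c⁻¹ * ((y₂ : F) : LaurentSeries L) * _
      rw [← algebraMap_laurentSeries_eq_single]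
      have hc' : algebraMap L (LaurentSeries L) c ≠ 0 := by
        rwa [Ne, map_eq_zero_iff _ (algebraMap L (LaurentSeries L)).injective]
      rw [map_inv₀]
      have : ((y₁ : F) : LaurentSeries L) =
          (algebraMap L (LaurentSeries L) c)⁻¹ * ((u : LaurentSeries L) *
            ((y₂ : F) : LaurentSeries L)) := by
        rw [hrel, ← mul_assoc, inv_mul_cancel₀ hc', one_mul]
      rw [this]
      ring
    have hred := congrArg (coeffMap π) hser
    rw [map_mul, map_mul, map_mul, coeffMap_single_zero_of_eq_zero A π hπ, zero_mul,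
      zero_mul] at hred
    exact mul_ne_zero hY₁0 hB hred

include hker in
/-- **Gauss lemma for ratios.** -/
theorem gauss_ratio (hVG : ValueGroupHyp A π F Fk) (u : F) (B N : LaurentSeries A)
    (h : (u : LaurentSeries L) * coeffMap A.subtype B = coeffMap A.subtype N)
    (hB : coeffMap π B ≠ 0) :
    ∃ hu : u ∈ (qData A π F Fk hsurj hker).V,
      (((qData A π F Fk hsurj hker).ρ ⟨u, hu⟩ : Fk) : LaurentSeries k) * coeffMap π B =
        coeffMap π N := by
  obtain ⟨a, b, hb, hab, hrel⟩ := gauss_ratio_core A π F Fk hker hVG u B N h hB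
  have hu : u ∈ (qData A π F Fk hsurj hker).V := ⟨a, b, hb, hab⟩
  refine ⟨hu, ?_⟩
  have hρ := (qData A π F Fk hsurj hker).ρ_apply ⟨u, hu⟩ (a := a) (b := b) hb hab
  have hb0 : ((redQ A π F Fk b : Fk) : LaurentSeries k) ≠ 0 := fun h0 => hb (Subtype.ext h0)
  have hρ' : (((qData A π F Fk hsurj hker).ρ ⟨u, hu⟩ : Fk) : LaurentSeries k) =
      ((redQ A π F Fk a : Fk) : LaurentSeries k) / ((redQ A π F Fk b : Fk) : LaurentSeries k) := by
    rw [hρ]
    rfl
  rw [hρ', div_mul_eq_mul_div, hrel, mul_comm, mul_div_assoc, div_self hb0, mul_one]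

section Link

variable {A π F Fk}
variable (G : Datum A π F Fk)

/-- the `link` property of a reduction datum on fields of `q`-series
(= `Red.H759.Link` in the modular case) -/
def LinkQ : Prop :=
  ∀ (y : LaurentSeries A) (hy : coeffMap A.subtype y ∈ F) (hyk : coeffMap π y ∈ Fk),
    coeffMap π y ≠ 0 →
    ∃ h : (⟨coeffMap A.subtype y, hy⟩ : F) ∈ G.O,
      G.ρ ⟨⟨coeffMap A.subtype y, hy⟩, h⟩ = ⟨coeffMap π y, hyk⟩

variable {G}

theorem link_intQ_of_ne (hlink : LinkQ G) (a : intQ A π F Fk) (ha : redQ A π F Fk a ≠ 0) :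
    ∃ h : (a : F) ∈ G.O, G.ρ ⟨a, h⟩ = redQ A π F Fk a := by
  have e : coeffMap A.subtype (series A π F Fk a) = ((a : F) : LaurentSeries L) :=
    coeffMap_series A π F Fk a
  have hy : coeffMap A.subtype (series A π F Fk a) ∈ F := by
    rw [e]
    exact (a : F).2
  have hyk : coeffMap π (series A π F Fk a) ∈ Fk := coeffMap_series_mem A π F Fk a
  have hne : coeffMap π (series A π F Fk a) ≠ 0 := by
    intro h0
    apply ha
    apply Subtype.ext
    exact h0
  obtain ⟨h, hρ⟩ := hlink _ hy hyk hne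
  have key : ∀ (f : F), f = ⟨coeffMap A.subtype (series A π F Fk a), hy⟩ →
      ∃ h' : f ∈ G.O, G.ρ ⟨f, h'⟩ = ⟨coeffMap π (series A π F Fk a), hyk⟩ := by
    rintro f rfl
    exact ⟨h, hρ⟩
  exact key (a : F) (Subtype.ext e.symm)

theorem link_intQ (hlink : LinkQ G) (a : intQ A π F Fk) :
    ∃ h : (a : F) ∈ G.O, G.ρ ⟨a, h⟩ = redQ A π F Fk a := by
  by_cases ha : redQ A π F Fk a = 0
  · have h1 : redQ A π F Fk (a + 1) ≠ 0 := by
      rw [map_add, ha, zero_add, map_one]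
      exact one_ne_zero
    obtain ⟨h, hρ⟩ := link_intQ_of_ne hlink (a + 1) h1
    have hmem : (a : F) ∈ G.O := by
      have h2 : ((a : F) + 1) - 1 ∈ G.O := sub_mem h (one_mem _)
      rwa [add_sub_cancel_right] at h2
    refine ⟨hmem, ?_⟩
    have h3 : (⟨(a : F), hmem⟩ : G.O) = ⟨((a + 1 : intQ A π F Fk) : F), h⟩ - 1 := by
      apply Subtype.ext
      show (a : F) = ((a : F) + 1) - 1
      rw [add_sub_cancel_right]
    rw [h3, map_sub, hρ, map_one, map_add, map_one, add_sub_cancel_right]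
  · exact link_intQ_of_ne hlink a ha

/-- **`V ⊆ G.O`, with the same reduction.** -/
theorem link_frac (hlink : LinkQ G) (u : F) (hu : u ∈ (qData A π F Fk hsurj hker).V) :
    ∃ h : u ∈ G.O, G.ρ ⟨u, h⟩ = (qData A π F Fk hsurj hker).ρ ⟨u, hu⟩ := by
  obtain ⟨a, b, hb, hab⟩ := hu
  obtain ⟨ha', hρa⟩ := link_intQ hlink a
  obtain ⟨hb', hρb⟩ := link_intQ hlink b
  have hb0 : G.ρ ⟨(b : F), hb'⟩ ≠ 0 := by
    rw [hρb]
    exact hb
  have hbinv : ((b : F))⁻¹ ∈ G.O :=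
    (Fermat.Agent.S37.Red.H940.ctx G).inv_mem ⟨(b : F), hb'⟩ hb0
  have hbne : (b : F) ≠ 0 := by
    intro h0
    apply hb0
    have : (⟨(b : F), hb'⟩ : G.O) = 0 := Subtype.ext h0
    rw [this, map_zero]
  have hu_eq : u = (a : F) * ((b : F))⁻¹ := by
    rw [← hab, mul_assoc, mul_inv_cancel₀ hbne, mul_one]
  have hmem : u ∈ G.O := by
    rw [hu_eq]
    exact mul_mem ha' hbinv
  refine ⟨hmem, ?_⟩
  have hmul : (⟨u, hmem⟩ : G.O) * ⟨(b : F), hb'⟩ = ⟨(a : F), ha'⟩ := Subtype.ext hab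
  have h1 := congrArg G.ρ hmul
  rw [map_mul, hρa, hρb] at h1
  rw [(qData A π F Fk hsurj hker).ρ_apply ⟨u, ⟨a, b, hb, hab⟩⟩ (a := a) (b := b) hb hab]
  exact eq_div_of_mul_eq hb h1

include hker hsurj in
/-- **`G.O ⊆ V`.** -/
theorem mem_V_of_mem_O (hVG : ValueGroupHyp A π F Fk) (hlink : LinkQ G) {t : F}
    (ht : t ∈ G.O) : t ∈ (qData A π F Fk hsurj hker).V := by
  rcases eq_or_ne t 0 with rfl | ht0
  · exact Subring.zero_mem _
  obtain ⟨c, hc, y₁, y₂, h₁, h₂, hfy⟩ := hVG t ht0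
  by_cases hcA : c ∈ A
  · exact ⟨constQ A π F Fk ⟨c, hcA⟩ * y₁, y₂, h₂, hfy⟩
  · exfalso
    have hinv : c⁻¹ ∈ A := (A.mem_or_inv_mem c).resolve_left hcA
    have hnu : ¬ IsUnit (⟨c⁻¹, hinv⟩ : A) := by
      intro hun
      obtain ⟨b, hb⟩ := isUnit_iff_exists_inv.mp hun
      have hb' : c⁻¹ * (b : L) = 1 := by
        have := congrArg (fun x : A => (x : L)) hb
        simpa using this
      apply hcA
      have : (b : L) = c := by
        field_simp at hb'
        exact hb'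
      rw [← this]
      exact b.2
    have hπ : π ⟨c⁻¹, hinv⟩ = 0 := (hker _).mpr hnu
    have hy₁ : (y₁ : F) ≠ 0 := (qData A π F Fk hsurj hker).coe_ne_zero h₁
    have hc' : algebraMap L F c ≠ 0 := by
      rwa [Ne, map_eq_zero_iff _ (algebraMap L F).injective]
    have hrel : t⁻¹ * (y₁ : F) = ((constQ A π F Fk ⟨c⁻¹, hinv⟩ * y₂ : intQ A π F Fk) : F) := by
      show t⁻¹ * (y₁ : F) = algebraMap L F c⁻¹ * (y₂ : F)
      rw [map_inv₀, inv_mul_eq_iff_eq_mul₀ ht0, ← mul_assoc, mul_comm t, mul_assoc, hfy,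
        ← mul_assoc, inv_mul_cancel₀ hc', one_mul]
    have hV : t⁻¹ ∈ (qData A π F Fk hsurj hker).V :=
      ⟨constQ A π F Fk ⟨c⁻¹, hinv⟩ * y₂, y₁, h₁, hrel⟩
    obtain ⟨hO, hρ⟩ := link_frac hsurj hker hlink t⁻¹ hV
    have hzero : (qData A π F Fk hsurj hker).ρ ⟨t⁻¹, hV⟩ = 0 := by
      rw [(qData A π F Fk hsurj hker).ρ_apply ⟨t⁻¹, hV⟩
        (a := constQ A π F Fk ⟨c⁻¹, hinv⟩ * y₂) (b := y₁) h₁ hrel]
      have : redQ A π F Fk (constQ A π F Fk ⟨c⁻¹, hinv⟩ * y₂) = 0 := by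
        rw [map_mul]
        have h0 : redQ A π F Fk (constQ A π F Fk ⟨c⁻¹, hinv⟩) = 0 := by
          apply Subtype.ext
          rw [coe_redQ_constQ, coeffMap_single_zero_of_eq_zero A π hπ]
          rfl
        rw [h0, zero_mul]
      show redQ A π F Fk (constQ A π F Fk ⟨c⁻¹, hinv⟩ * y₂) / redQ A π F Fk y₁ = 0
      rw [this, zero_div]
    have hmul : (⟨t, ht⟩ : G.O) * ⟨t⁻¹, hO⟩ = 1 := Subtype.ext (mul_inv_cancel₀ ht0)
    have h1 := congrArg G.ρ hmul
    rw [map_mul, hρ, hzero, mul_zero, map_one] at h1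
    exact zero_ne_one h1

end Link

end Fermat.Agent.Ribet.H940

end
end
-- ===== PACK-END Ribet/H940/GaussTheta.lean

-- ===== PACK-BEGIN S37/H818/ModularNorm.lean
section
/-
S37 / LEVEL TRANSFER (helper818), part 10: degrees, generation and norm compatibility for the
modular function fields (char 0), from the S28 degree API (helper988).
-/







set_option autoImplicit false
set_option linter.style.haveILetI false

noncomputable section

namespace Fermat.Agent.S37.H818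

open AlgebraicCurve ModularCurve IntermediateField Fermat.Agent.S28

variable {L : Type*} [Field L] [Algebra ℚ L]

theorem natCast_ne_zero_of_prime {r : ℕ} (hr : r.Prime) : ((r : ℕ) : L) ≠ 0 := by
  haveI : CharZero L := algebraRat.charZero L
  exact Nat.cast_ne_zero.mpr hr.ne_zero

/-- `[F_{Nℓ} : F_N] = ℓ + 1` for a prime `ℓ ∤ N`, in `finrankAlong` form. -/
theorem finrankAlong_heckeAlphaBar (N ℓ : ℕ) [NeZero N] [NeZero ℓ] (hℓ : ℓ.Prime)
    (hℓN : ¬ ℓ ∣ N) : finrankAlong L (heckeAlphaBar L N ℓ) = ℓ + 1 := by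
  have h := H988.relfinrank_full_mul_prime L N ℓ (NeZero.ne N) hℓ
    (fun r hr _ => natCast_ne_zero_of_prime hr)
  rw [if_neg hℓN, ← H988.laurentBaseChange_full_eq_fullC, ← H988.laurentBaseChange_full_eq_fullC]
    at h
  rw [← h]
  exact finrankAlong_inclusion _

/-- `[F_{Np} : F_N] = p` or `p + 1` for a prime `p`. -/
theorem finrankAlong_heckeAlphaBar' (N p : ℕ) [NeZero N] [NeZero p] (hp : p.Prime) :
    finrankAlong L (heckeAlphaBar L N p) = if p ∣ N then p else p + 1 := by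
  have h := H988.relfinrank_full_mul_prime L N p (NeZero.ne N) hp
    (fun r hr _ => natCast_ne_zero_of_prime hr)
  rw [← H988.laurentBaseChange_full_eq_fullC, ← H988.laurentBaseChange_full_eq_fullC] at h
  rw [← h]
  exact finrankAlong_inclusion _

theorem finiteAlong_heckeAlphaBar (N p : ℕ) [NeZero N] [NeZero p] (hp : p.Prime) :
    FiniteAlong L (heckeAlphaBar L N p) := by
  have h := finrankAlong_heckeAlphaBar' (L := L) N p hp
  unfold FiniteAlong
  unfold finrankAlong at h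
  letI := algebraAlong (heckeAlphaBar L N p)
  refine Module.finite_of_finrank_pos ?_
  rw [h]
  split_ifs
  · exact hp.pos
  · exact Nat.succ_pos _

theorem isIntegral_heckeAlphaBar (N p : ℕ) [NeZero N] [NeZero p] (hp : p.Prime) :
    (heckeAlphaBar L N p).toRingHom.IsIntegral := by
  have hfin := finiteAlong_heckeAlphaBar (L := L) N p hp
  letI := algebraAlong (heckeAlphaBar L N p)
  haveI : Module.Finite (FB L N) (FB L (N * p)) := hfin
  intro x
  exact Algebra.IsIntegral.isIntegral (R := FB L N) x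

/-- Generation: `F_{N k ℓ} ≤ F_{N k} ⊔ F_{N ℓ}` for a prime `ℓ ∤ k`. -/
theorem FB_le_sup (N k ℓ : ℕ) [NeZero N] [NeZero k] [NeZero ℓ] (hℓ : ℓ.Prime) (hℓk : ¬ ℓ ∣ k) :
    FB L (N * k * ℓ) ≤ FB L (N * k) ⊔ FB L (N * ℓ) := by
  have hM : N * k ≠ 0 := Nat.mul_ne_zero (NeZero.ne N) (NeZero.ne k)
  have hMℓ : N * k * ℓ ≠ 0 := Nat.mul_ne_zero hM (NeZero.ne ℓ)
  have hNℓ : N * ℓ ≠ 0 := Nat.mul_ne_zero (NeZero.ne N) (NeZero.ne ℓ)
  show laurentBaseChange L (modularFunctionFieldFull (N * k * ℓ)) ≤ _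
  rw [H988.laurentBaseChange_full_eq_fullC, H988.full_le_iff L hMℓ]
  have hA : modularFunctionFieldFullC L (N * k) ≤ FB L (N * k) ⊔ FB L (N * ℓ) := by
    refine le_trans (le_of_eq ?_) le_sup_left
    exact (H988.laurentBaseChange_full_eq_fullC L (N * k)).symm
  have hB : modularFunctionFieldFullC L (N * ℓ) ≤ FB L (N * k) ⊔ FB L (N * ℓ) := by
    refine le_trans (le_of_eq ?_) le_sup_right
    exact (H988.laurentBaseChange_full_eq_fullC L (N * ℓ)).symm
  let Φ : ℕ → Polynomial (Polynomial ℤ) := fun r =>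
    if hr : r.Prime then
      (haveI : NeZero r := ⟨hr.ne_zero⟩; (Classical.choice (H807.nonempty_modPolyData (p := r) hr)).Φ)
    else 0
  have hΦ : ∀ r, r.Prime → r ∣ N * k * ℓ → H988.PhiRel L r (Φ r) := by
    intro r hr _
    haveI : NeZero r := ⟨hr.ne_zero⟩
    have := H988.phiRel_of_modPolyData L r (Classical.choice (H807.nonempty_modPolyData (p := r) hr))
    simpa [Φ, hr] using this
  refine H988.jd_mem_of_dvd_mul Φ hM hℓ hΦ _ (fun d hd => hA (H988.jd_mem_full L hM hd)) ?_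
  intro b hb
  apply hB
  apply H988.jd_mem_full L hNℓ
  have hcop : Nat.Coprime (ℓ ^ b) k :=
    Nat.Coprime.pow_left b ((Nat.Prime.coprime_iff_not_dvd hℓ).mpr hℓk)
  have h1 : ℓ ^ b ∣ k * (N * ℓ) := by
    rw [show k * (N * ℓ) = N * k * ℓ by ring]
    exact hb
  exact hcop.dvd_of_dvd_mul_left h1

/-- **Norm compatibility for the modular `α`-square** (`ℓ` prime, `ℓ ∤ N k`). -/
theorem normCompat_modular (N k ℓ : ℕ) [NeZero N] [NeZero k] [NeZero ℓ] (hℓ : ℓ.Prime)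
    (hℓN : ¬ ℓ ∣ N) (hℓk : ¬ ℓ ∣ k) :
    NormCompat (heckeAlphaBar L N ℓ) (heckeAlphaBar L N k)
      (heckeAlphaBar L (N * k) ℓ) (degenTop L N k ℓ) := by
  have hℓM : ¬ ℓ ∣ N * k := fun h => (hℓ.dvd_mul.mp h).elim hℓN hℓk
  refine normCompat_of_finrank_eq _ _ _ _ (square_alpha L N k ℓ)
    (finiteAlong_heckeAlphaBar N ℓ hℓ) (finiteAlong_heckeAlphaBar (N * k) ℓ hℓ) ?_ ?_
  · rw [finrankAlong_heckeAlphaBar N ℓ hℓ hℓN, finrankAlong_heckeAlphaBar (N * k) ℓ hℓ hℓM]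
  · exact adjoin_range_inclusion_eq_top _ _ (FB_le_sup N k ℓ hℓ hℓk)
      (finiteAlong_heckeAlphaBar (N * k) ℓ hℓ)

end Fermat.Agent.S37.H818

end

end
-- ===== PACK-END S37/H818/ModularNorm.lean

-- ===== PACK-BEGIN Ribet/H224/WPNBranch.lean
section



/-!
# RIBET row 38, WALL-p, W-ALGP leaf WPN: the branch calculus  (helper224)

`B` a domain with fraction field `F`, `q` a prime of `B` (a component of the special fibre),
`V = B_q = locAt F q`.  Elementwise forms (fractions with denominators outside `q`):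

* `wpn_lam_pow`        : `(ζ - 1) ^ (p - 1) = p · unit`;
* `wpn_branch_newton`  : `u ∈ 1 + lam^p w V ⟹ u = H ^ p (1 + lam^p w^k c)` with `H, c ∈ V`, every `k`;
* `wpn_branch_pthPow`  : the branch hypothesis of `H704.I6.WildPurityStatement` for `g = a b^(p-1)`,
  `u = a / b`;
* `wpn_branch_close`   : `u ∈ 1 + lam^p w V`, `u d ^ p ∈ 1 + lam^p V ⟹ d ∈ 1 + lam V`.
-/

set_option autoImplicit false
set_option linter.unusedSectionVars false

namespace Fermat.Agent.Ribet.H224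

open Fermat.Agent.A2.H849 Fermat.Agent.A2.H609 Finset

/-- `(ζ - 1) ^ (p - 1) = p · unit` for a primitive `p`-th root of unity in a domain. -/
theorem wpn_lam_pow {R : Type*} [CommRing R] [IsDomain R] {p : ℕ} (hp : p.Prime) {ζ : R}
    (hζ : IsPrimitiveRoot ζ p) : ∃ ε : R, IsUnit ε ∧ (ζ - 1) ^ (p - 1) = (p : R) * ε := by
  have hpp : p = (p - 1) + 1 := by have := hp.two_le; omega
  have hζ' : IsPrimitiveRoot ζ ((p - 1) + 1) := by rw [← hpp]; exact hζ
  have hprod := hζ'.prod_pow_sub_one_eq_order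
  have hex : ∀ k : ℕ, ∃ v : Rˣ, k ∈ range (p - 1) → (ζ - 1) * v = ζ ^ (k + 1) - 1 := by
    intro k
    by_cases hk : k ∈ range (p - 1)
    · have hk' : k + 1 < p := by rw [mem_range] at hk; omega
      have hcop : (k + 1).Coprime p :=
        (Nat.coprime_comm.1 ((Nat.Prime.coprime_iff_not_dvd hp).2
          (Nat.not_dvd_of_pos_of_lt (Nat.succ_pos k) hk')))
      obtain ⟨v, hv⟩ := hζ.associated_sub_one_pow_sub_one_of_coprime hcop
      exact ⟨v, fun _ => hv⟩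
    · exact ⟨1, fun h => absurd h hk⟩
  choose v hv using hex
  have h1 : ∏ k ∈ range (p - 1), (ζ ^ (k + 1) - 1)
      = (ζ - 1) ^ (p - 1) * ((∏ k ∈ range (p - 1), v k : Rˣ) : R) := by
    rw [Units.coe_prod]
    calc ∏ k ∈ range (p - 1), (ζ ^ (k + 1) - 1)
        = ∏ k ∈ range (p - 1), ((ζ - 1) * ((v k : Rˣ) : R)) :=
          Finset.prod_congr rfl fun k hk => (hv k hk).symm
      _ = (ζ - 1) ^ (p - 1) * ∏ k ∈ range (p - 1), ((v k : Rˣ) : R) := by
          rw [Finset.prod_mul_distrib, Finset.prod_const, Finset.card_range]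
  set W : Rˣ := (-1) ^ (p - 1) * ∏ k ∈ range (p - 1), v k with hW
  have h2 : (ζ - 1) ^ (p - 1) * (W : R) = (p : R) := by
    have h3 : ((p - 1 : ℕ) : R) + 1 = (p : R) := by
      rw [← Nat.cast_succ]
      congr 1
      omega
    rw [← h3, ← hprod, h1, hW]
    push_cast
    ring
  refine ⟨((W⁻¹ : Rˣ) : R), Units.isUnit _, ?_⟩
  rw [← h2, mul_assoc, Units.mul_inv, mul_one]

section Branch

variable {B : Type*} [CommRing B] [IsDomain B]
variable {F : Type*} [Field F] [Algebra B F] [IsFractionRing B F]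

omit [IsDomain B] in
/-- `b ∉ q ⟹ algebraMap b ≠ 0`. -/
theorem wpn_ne_zero {q : Ideal B} {b : B} (hb : b ∉ q) : algebraMap B F b ≠ 0 := by
  intro h
  apply hb
  have : b = 0 := IsFractionRing.injective B F (by rw [h, map_zero])
  rw [this]
  exact q.zero_mem

/-- The deep hypothesis in fraction form: `u = 1 + lam^p w (s / b)`. -/
theorem wpn_deep_frac {q : Ideal B} {lam w : B} {p : ℕ} {u : F}
    (hdeep : ∃ a b : B, b ∉ q ∧ a - b ∈ Ideal.span {lam ^ p * w} ∧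
      u * algebraMap B F b = algebraMap B F a) :
    ∃ s b : B, b ∉ q ∧ u = 1 + algebraMap B F lam ^ p * algebraMap B F w *
      (algebraMap B F s * (algebraMap B F b)⁻¹) := by
  obtain ⟨a, b, hb, hab, e⟩ := hdeep
  obtain ⟨s, hs⟩ := Ideal.mem_span_singleton'.1 hab
  have hb0 : algebraMap B F b ≠ 0 := wpn_ne_zero hb
  refine ⟨s, b, hb, ?_⟩
  have ha : algebraMap B F a = algebraMap B F b +
      algebraMap B F s * (algebraMap B F lam ^ p * algebraMap B F w) := by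
    have : a = b + s * (lam ^ p * w) := by rw [hs]; ring
    rw [this]
    simp only [map_add, map_mul, map_pow]
  have hu : u = algebraMap B F a * (algebraMap B F b)⁻¹ := by
    rw [← e, mul_assoc, mul_inv_cancel₀ hb0, mul_one]
  rw [hu, ha]
  field_simp

/-- **Newton on a branch**: `u ∈ 1 + lam^p w B_q` is, for every `k ≥ 1`, of the form
`(α/ρ) ^ p (1 + lam^p w^k γ/σ)` with `ρ, σ ∉ q`. -/
theorem wpn_branch_newton (q : Ideal B) [q.IsPrime] {p : ℕ} (hp : p.Prime) {lam κ w : B}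
    (hκ : IsUnit κ) (hpl : (p : B) = lam ^ (p - 1) * κ) (hwq : w ∈ q) {u : F}
    (hdeep : ∃ a b : B, b ∉ q ∧ a - b ∈ Ideal.span {lam ^ p * w} ∧
      u * algebraMap B F b = algebraMap B F a)
    (k : ℕ) (hk : 1 ≤ k) :
    ∃ α ρ γ σ : B, ρ ∉ q ∧ σ ∉ q ∧
      u * algebraMap B F ρ ^ p * algebraMap B F σ =
        algebraMap B F α ^ p *
          (algebraMap B F σ + algebraMap B F lam ^ p * algebraMap B F w ^ k * algebraMap B F γ) := by
  obtain ⟨s, b, hb, hu⟩ := wpn_deep_frac hdeep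
  have hb0 : algebraMap B F b ≠ 0 := wpn_ne_zero hb
  let T : locAt F q := ⟨algebraMap B F s * (algebraMap B F b)⁻¹, (mem_locAt_iff q _).2
    ⟨s, b, hb, rfl⟩⟩
  have hπ : algebraMap B (locAt F q) w ∈ IsLocalRing.maximalIdeal (locAt F q) :=
    (IsLocalization.AtPrime.to_map_mem_maximal_iff (locAt F q) q w).2 hwq
  have hpl' : ((p : ℕ) : locAt F q) = algebraMap B (locAt F q) lam ^ (p - 1) *
      algebraMap B (locAt F q) κ := by
    rw [← map_pow, ← map_mul, ← hpl, map_natCast]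
  obtain ⟨H, c', -, e⟩ := wpn_newton hp (hκ.map (algebraMap B (locAt F q))) hpl' hπ T k hk
  obtain ⟨α, ρ, hρ, hH⟩ := (mem_locAt_iff q (H : F)).1 H.2
  obtain ⟨γ, σ, hσ, hc'⟩ := (mem_locAt_iff q (c' : F)).1 c'.2
  have hρ0 : algebraMap B F ρ ≠ 0 := wpn_ne_zero hρ
  have hσ0 : algebraMap B F σ ≠ 0 := wpn_ne_zero hσ
  have eF := congrArg (fun z : locAt F q => (z : F)) e
  simp only [Subalgebra.coe_add, Subalgebra.coe_mul, Subalgebra.coe_pow, Subalgebra.coe_one,
    coe_algebraMap_locAt] at eF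
  have hT : (T : F) = algebraMap B F s * (algebraMap B F b)⁻¹ := rfl
  rw [hT, ← hu, hH, hc'] at eF
  refine ⟨α, ρ, γ, σ, hρ, hσ, ?_⟩
  have h1 : (algebraMap B F α * (algebraMap B F ρ)⁻¹) ^ p * algebraMap B F ρ ^ p
      = algebraMap B F α ^ p := by
    rw [← mul_pow, mul_assoc, inv_mul_cancel₀ hρ0, mul_one]
  have h2 : (1 + algebraMap B F lam ^ p * algebraMap B F w ^ k *
      (algebraMap B F γ * (algebraMap B F σ)⁻¹)) * algebraMap B F σ
      = algebraMap B F σ + algebraMap B F lam ^ p * algebraMap B F w ^ k * algebraMap B F γ := by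
    field_simp
  rw [← h1, ← h2, eF]
  ring

/-- **The branch hypothesis of WPUR**, inside `B`: for `u = a / b`, `g = a b ^ (p - 1)`
(`= u b ^ p`) is a `p`-th power modulo `w ^ k` in `B_q`, for every `k`. -/
theorem wpn_branch_pthPow (q : Ideal B) [q.IsPrime] {p : ℕ} (hp : p.Prime) {lam κ w : B}
    (hκ : IsUnit κ) (hpl : (p : B) = lam ^ (p - 1) * κ) (hwq : w ∈ q) {u : F}
    (hdeep : ∃ a b : B, b ∉ q ∧ a - b ∈ Ideal.span {lam ^ p * w} ∧
      u * algebraMap B F b = algebraMap B F a)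
    {a b : B} (hab : u * algebraMap B F b = algebraMap B F a) (k : ℕ) :
    ∃ h r t : B, r ∉ q ∧ (a * b ^ (p - 1)) * r ^ p - h ^ p = w ^ k * t := by
  rcases Nat.eq_zero_or_pos k with rfl | hk
  · refine ⟨0, 1, a * b ^ (p - 1), fun h => ?_, ?_⟩
    · exact (inferInstance : q.IsPrime).ne_top ((Ideal.eq_top_iff_one q).2 h)
    · rw [zero_pow hp.ne_zero]
      ring
  obtain ⟨α, ρ, γ, σ, hρ, hσ, e⟩ := wpn_branch_newton q hp hκ hpl hwq hdeep k hk
  refine ⟨α * b * σ, ρ * σ, lam ^ p * γ * α ^ p * b ^ p * σ ^ (p - 1), fun h => ?_, ?_⟩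
  · rcases (inferInstance : q.IsPrime).mem_or_mem h with h | h
    · exact hρ h
    · exact hσ h
  · apply IsFractionRing.injective B F
    have hpp : p = (p - 1) + 1 := by have := hp.two_le; omega
    have hb : algebraMap B F b ^ p = algebraMap B F b ^ (p - 1) * algebraMap B F b := by
      rw [← pow_succ, ← hpp]
    have hσp : algebraMap B F σ ^ p = algebraMap B F σ ^ (p - 1) * algebraMap B F σ := by
      rw [← pow_succ, ← hpp]
    simp only [map_sub, map_mul, map_pow]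
    rw [← hab]
    have e' : u * algebraMap B F b ^ p * (algebraMap B F ρ ^ p * algebraMap B F σ ^ p)
        = (u * algebraMap B F ρ ^ p * algebraMap B F σ) *
          (algebraMap B F b ^ p * algebraMap B F σ ^ (p - 1)) := by
      rw [hσp]
      ring
    have e'' : u * algebraMap B F b * algebraMap B F b ^ (p - 1) = u * algebraMap B F b ^ p := by
      rw [hb]
      ring
    rw [mul_pow, e'', e', e, mul_pow, mul_pow, hσp]
    ring

/-- **Closing on a branch**: if `u ∈ 1 + lam^p w B_q` and `u d ^ p ∈ 1 + lam^p B_q` then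
`d ∈ 1 + lam B_q`. -/
theorem wpn_branch_close [IsIntegrallyClosed B] (q : Ideal B) [q.IsPrime]
    [ValuationRing (locAt F q)] {p : ℕ} (hp : p.Prime)
    {lam κ w : B} (hpl : (p : B) = lam ^ (p - 1) * κ) (hwq : w ∈ q) {u : F}
    (hdeep : ∃ a b : B, b ∉ q ∧ a - b ∈ Ideal.span {lam ^ p * w} ∧
      u * algebraMap B F b = algebraMap B F a)
    {d : F} {z : F} (hz : z ∈ locAt F q) (hd : u * d ^ p = 1 + algebraMap B F lam ^ p * z) :
    ∃ a b : B, b ∉ q ∧ a - b ∈ Ideal.span {lam} ∧ d * algebraMap B F b = algebraMap B F a := by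
  obtain ⟨s, b, hb, hu⟩ := wpn_deep_frac hdeep
  have hb0 : algebraMap B F b ≠ 0 := wpn_ne_zero hb
  set V := locAt F q with hV
  have hcoe : ∀ b : B, ((algebraMap B V b : V) : F) = algebraMap B F b := fun _ => rfl
  have hlamV : algebraMap B F lam ∈ V := V.algebraMap_mem lam
  have hwV : algebraMap B F w ∈ V := V.algebraMap_mem w
  have htV : algebraMap B F s * (algebraMap B F b)⁻¹ ∈ V := (mem_locAt_iff q _).2 ⟨s, b, hb, rfl⟩
  -- `u` is a unit of `V`
  have hbq : b + lam ^ p * w * s ∉ q := by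
    intro h
    apply hb
    have : b = (b + lam ^ p * w * s) - lam ^ p * w * s := by ring
    rw [this]
    exact q.sub_mem h (q.mul_mem_right _ (q.mul_mem_left _ hwq))
  have hbq0 : algebraMap B F (b + lam ^ p * w * s) ≠ 0 := wpn_ne_zero hbq
  have hu' : u = algebraMap B F (b + lam ^ p * w * s) * (algebraMap B F b)⁻¹ := by
    rw [hu]
    simp only [map_add, map_mul, map_pow]
    field_simp
  have hu0 : u ≠ 0 := by
    rw [hu']
    exact mul_ne_zero hbq0 (inv_ne_zero hb0)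
  have huinv : u⁻¹ ∈ V := by
    rw [hV, mem_locAt_iff]
    refine ⟨b, b + lam ^ p * w * s, hbq, ?_⟩
    rw [hu', mul_inv, inv_inv, mul_comm]
  -- `d ^ p ∈ V`, hence `d ∈ V`
  have hdp : d ^ p = (1 + algebraMap B F lam ^ p * z) * u⁻¹ := by
    rw [← hd, mul_comm u, mul_assoc, mul_inv_cancel₀ hu0, mul_one]
  have hdpV : d ^ p ∈ V := by
    rw [hdp]
    exact V.mul_mem (V.add_mem V.one_mem (V.mul_mem (V.pow_mem hlamV p) hz)) huinv
  have hint : IsIntegral V (d ^ p) := by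
    have : d ^ p = algebraMap V F ⟨d ^ p, hdpV⟩ := rfl
    rw [this]
    exact isIntegral_algebraMap
  obtain ⟨D, hD⟩ := IsIntegrallyClosed.exists_algebraMap_eq_of_isIntegral_pow (R := V) (K := F)
    hp.pos hint
  have hDd : (D : F) = d := hD
  -- `lam ^ p ∣ D ^ p - 1`
  let Q : V := ⟨(z - algebraMap B F w * (algebraMap B F s * (algebraMap B F b)⁻¹)) * u⁻¹,
    V.mul_mem (V.sub_mem hz (V.mul_mem hwV htV)) huinv⟩
  have hdvd : algebraMap B V lam ^ p ∣ D ^ p - 1 := by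
    refine ⟨Q, ?_⟩
    apply Subtype.ext
    simp only [Subalgebra.coe_sub, Subalgebra.coe_mul, Subalgebra.coe_pow, Subalgebra.coe_one,
      hcoe]
    rw [hDd, hdp]
    show _ = algebraMap B F lam ^ p *
      ((z - algebraMap B F w * (algebraMap B F s * (algebraMap B F b)⁻¹)) * u⁻¹)
    have h1 : u * u⁻¹ = 1 := mul_inv_cancel₀ hu0
    linear_combination (-u⁻¹) * hu + h1
  have hplV : ((p : ℕ) : V) = algebraMap B V lam ^ (p - 1) * algebraMap B V κ := by
    rw [← map_pow, ← map_mul, ← hpl, map_natCast]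
  obtain ⟨q', hq'⟩ := wpn_root_close hp hplV hdvd
  obtain ⟨aq, sq, hsq, hq'F⟩ := (mem_locAt_iff q (q' : F)).1 q'.2
  have hsq0 : algebraMap B F sq ≠ 0 := wpn_ne_zero hsq
  have hq'F' := congrArg (fun z : V => (z : F)) hq'
  simp only [Subalgebra.coe_sub, Subalgebra.coe_mul, Subalgebra.coe_one, hcoe] at hq'F'
  rw [hDd, hq'F] at hq'F'
  refine ⟨sq + lam * aq, sq, hsq, ?_, ?_⟩
  · rw [add_sub_cancel_left]
    exact Ideal.mul_mem_right _ _ (Ideal.mem_span_singleton_self _)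
  · have hd' : d = 1 + algebraMap B F lam * (algebraMap B F aq * (algebraMap B F sq)⁻¹) := by
      linear_combination hq'F'
    rw [hd']
    simp only [map_add, map_mul]
    field_simp

end Branch

end Fermat.Agent.Ribet.H224

end
-- ===== PACK-END Ribet/H224/WPNBranch.lean

-- ===== PACK-BEGIN A2/H609/ChartNode.lean
section


/-!
# Node purity, part 13: purity at a crossing point of a semistable chart

`B` a noetherian integrally closed domain with fraction field `F` (a chart of the model),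
`p₁ p₂` the two components of the special fibre (`p₁ ⊓ p₂ = (w)`, `B ⧸ pᵢ` Dedekind,
`p₁ ⊔ p₂` radical), `n ⊇ p₁ + p₂` a crossing point.  If `u ∈ Fˣ`

* is locally `unit × m`-th power at every discrete valuation ring `V ⊇ B[1/w]` of `F`
  (`m ∣ ord_V u` at the horizontal valuations), and
* has constant unit residues on both components (`u b = a`, `b ∉ pᵢ`, `a - c b ∈ pᵢ`, `c ∈ Bˣ`),

then there is `d ∈ Fˣ` with `u d ^ m ∈ (B_n)ˣ` and `d` a unit on both components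
(`exists_pureAt_node`).  No `δ`-count, no separating coordinate, no hypothesis on the thickness
of the node.  Mathlib + `A2.H849` + `A2.H372`.
-/

set_option autoImplicit false

namespace Fermat.Agent.A2.H609

open Fermat.Agent.A2.H849

variable {B : Type*} [CommRing B] [IsDomain B] [IsNoetherianRing B] [IsIntegrallyClosed B]
variable {F : Type*} [Field F] [Algebra B F] [IsFractionRing B F]

omit [IsDomain B] [IsNoetherianRing B] [IsIntegrallyClosed B] [IsFractionRing B F] in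
/-- The data of the normalised element `u' = a b ^ (m - 1) = u b ^ m ∈ B`. -/
theorem normalised_element {p : Ideal B} [p.IsPrime] {u : F} {m : ℕ} (hm : m ≠ 0)
    {a b c : B} (hc : IsUnit c) (hb : b ∉ p) (hab : a - c * b ∈ p)
    (hu : u * algebraMap B F b = algebraMap B F a) :
    algebraMap B F (a * b ^ (m - 1)) = u * algebraMap B F b ^ m ∧
      a * b ^ (m - 1) - c * b ^ m ∈ p ∧ a * b ^ (m - 1) ∉ p := by
  obtain ⟨k, rfl⟩ := Nat.exists_eq_succ_of_ne_zero hm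
  rw [Nat.succ_sub_one, Nat.succ_eq_add_one]
  have h2 : a * b ^ k - c * b ^ (k + 1) ∈ p := by
    have : a * b ^ k - c * b ^ (k + 1) = (a - c * b) * b ^ k := by ring
    rw [this]
    exact p.mul_mem_right _ hab
  refine ⟨?_, h2, ?_⟩
  · rw [map_mul, map_pow, ← hu]
    ring
  · intro h
    have h3 : c * b ^ (k + 1) ∈ p := by
      have : c * b ^ (k + 1) = a * b ^ k - (a * b ^ k - c * b ^ (k + 1)) := by ring
      rw [this]
      exact p.sub_mem h h2
    rcases Ideal.IsPrime.mem_or_mem inferInstance h3 with h4 | h4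
    · exact (Ideal.IsPrime.ne_top inferInstance) (Ideal.eq_top_of_isUnit_mem p h4 hc)
    · exact hb (Ideal.IsPrime.mem_of_pow_mem inferInstance _ h4)

omit [IsNoetherianRing B] [IsIntegrallyClosed B] in
/-- (H2) for the normalised element on a branch. -/
theorem exists_associated_pow_mk {p n : Ideal B} [p.IsPrime] [n.IsPrime]
    {m : ℕ} {u' b c : B} (hc : IsUnit c) (h : u' - c * b ^ m ∈ p) :
    ∃ v : locAt F n ⧸ p.map (algebraMap B (locAt F n)),
      Associated (v ^ m) (Ideal.Quotient.mk (p.map (algebraMap B (locAt F n)))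
        (algebraMap B (locAt F n) u')) := by
  refine ⟨Ideal.Quotient.mk _ (algebraMap B (locAt F n) b), ?_⟩
  have hcu : IsUnit (Ideal.Quotient.mk (p.map (algebraMap B (locAt F n)))
      (algebraMap B (locAt F n) c)) := (hc.map _).map _
  obtain ⟨ε, hε⟩ := hcu
  refine ⟨ε, ?_⟩
  rw [hε, ← map_pow, ← map_pow, ← map_mul, ← map_mul, eq_comm, Ideal.Quotient.eq]
  rw [← map_sub]
  have : u' - b ^ m * c = u' - c * b ^ m := by ring
  rw [this]
  exact Ideal.mem_map_of_mem _ h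

/-- **Purity at a crossing point of a semistable chart.** -/
theorem exists_pureAt_node {w : B} {m : ℕ} (hm : m ≠ 0)
    (p₁ p₂ n : Ideal B) [p₁.IsPrime] [p₂.IsPrime] [n.IsPrime]
    [IsDedekindDomain (B ⧸ p₁)] [IsDedekindDomain (B ⧸ p₂)]
    (hinf : p₁ ⊓ p₂ = Ideal.span {w}) (h₁₂ : ¬ p₁ ≤ p₂) (h₂₁ : ¬ p₂ ≤ p₁)
    (htr : (p₁ ⊔ p₂).IsRadical) (h₁ : p₁ ≤ n) (h₂ : p₂ ≤ n)
    (u : F)
    (hdiv : ∀ V : ValuationSubring F, IsDiscreteValuationRing V →
      (∀ b : B, algebraMap B F b ∈ V) → (algebraMap B F w)⁻¹ ∈ V →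
      ∃ h u₀ : F, u₀ ∈ V ∧ u₀⁻¹ ∈ V ∧ u = u₀ * h ^ m)
    (hs₁ : ∃ c a b : B, IsUnit c ∧ b ∉ p₁ ∧ a - c * b ∈ p₁ ∧
      u * algebraMap B F b = algebraMap B F a)
    (hs₂ : ∃ c a b : B, IsUnit c ∧ b ∉ p₂ ∧ a - c * b ∈ p₂ ∧
      u * algebraMap B F b = algebraMap B F a) :
    ∃ d : F, d ≠ 0 ∧
      (∃ a b : B, a ∉ n ∧ b ∉ n ∧ u * d ^ m * algebraMap B F b = algebraMap B F a) ∧
      (∃ a b : B, a ∉ p₁ ∧ b ∉ p₁ ∧ d * algebraMap B F b = algebraMap B F a) ∧
      (∃ a b : B, a ∉ p₂ ∧ b ∉ p₂ ∧ d * algebraMap B F b = algebraMap B F a) := by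
  have hinj : Function.Injective (algebraMap B F) := IsFractionRing.injective B F
  obtain ⟨c₁, a₁, b₁, hc₁, hb₁, hab₁, hu₁⟩ := hs₁
  obtain ⟨c₂, a₂, b₂, hc₂, hb₂, hab₂, hu₂⟩ := hs₂
  -- common denominator
  obtain ⟨a, b, hbp₁, hbp₂, hub⟩ := exists_common_denominator (p₁ := p₁) (p₂ := p₂)
    ⟨a₁, b₁, hb₁, hu₁⟩ ⟨a₂, b₂, hb₂, hu₂⟩
  have hab₁' : a - c₁ * b ∈ p₁ := sub_mul_mem_of_eq hb₁ hab₁ hu₁ hub
  have hab₂' : a - c₂ * b ∈ p₂ := sub_mul_mem_of_eq hb₂ hab₂ hu₂ hub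
  obtain ⟨hu'F, hu'₁, hu'n₁⟩ := normalised_element (p := p₁) hm hc₁ hbp₁ hab₁' hub
  obtain ⟨-, hu'₂, hu'n₂⟩ := normalised_element (p := p₂) hm hc₂ hbp₂ hab₂' hub
  set u' : B := a * b ^ (m - 1) with hu'def
  have hbF : algebraMap B F b ≠ 0 := by
    intro h0
    apply hbp₁
    rw [hinj (by rw [h0, map_zero] : algebraMap B F b = algebraMap B F 0)]
    exact p₁.zero_mem
  -- the local ring
  obtain ⟨hP₁, hP₂, hinf', hsup', hdvr₁, hdvr₂⟩ :=
    Fermat.Agent.A2.H372.node_local_data (locAt F n) hinf h₁₂ h₂₁ htr h₁ h₂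
  rw [IsLocalization.AtPrime.map_eq_maximalIdeal n (locAt F n)] at hsup'
  set U : locAt F n := algebraMap B (locAt F n) u' with hUdef
  have hUF : (U : F) = u * algebraMap B F b ^ m := hu'F
  have hU₁ : U ∉ p₁.map (algebraMap B (locAt F n)) := fun h =>
    hu'n₁ ((algebraMap_mem_map_iff h₁ u').1 h)
  have hU₂ : U ∉ p₂.map (algebraMap B (locAt F n)) := fun h =>
    hu'n₂ ((algebraMap_mem_map_iff h₂ u').1 h)
  have hU0 : U ≠ 0 := by
    intro h0
    apply hU₁
    rw [h0]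
    exact Ideal.zero_mem _
  -- (H1)
  have H1 : ∀ 𝔓 ∈ (Ideal.span {U}).minimalPrimes, algebraMap B (locAt F n) w ∉ 𝔓 →
      ∃ f r : locAt F n, r ∉ 𝔓 ∧ f ^ m = U * r := by
    intro 𝔓 h𝔓 hw𝔓
    refine exists_pow_eq_mul_of_divisible (K := F) hU0 hm h𝔓 ?_
    intro V hV hle hinv
    obtain ⟨h, u₀, hu₀, hu₀', huh⟩ := hdiv V hV
      (fun b => hle (algebraMap B (locAt F n) b)) (hinv _ hw𝔓)
    refine ⟨h * algebraMap B F b, u₀, hu₀, hu₀', ?_⟩
    rw [algebraMap_locAt_apply, hUF, huh]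
    ring
  -- (H2)
  have H2₁ := exists_associated_pow_mk (F := F) (p := p₁) (n := n) (m := m) hc₁ hu'₁
  have H2₂ := exists_associated_pow_mk (F := F) (p := p₂) (n := n) (m := m) hc₂ hu'₂
  -- purity in the local ring
  obtain ⟨f, ε, hfε⟩ := exists_unit_mul_pow_of_node_min (R := locAt F n) hm
    (p₁.map (algebraMap B (locAt F n))) (p₂.map (algebraMap B (locAt F n)))
    hinf' hsup' hU₁ hU₂ H1 H2₁ H2₂
  have hf0 : f ≠ 0 := by
    rintro rfl
    rw [zero_pow hm, mul_zero] at hfε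
    exact hU0 hfε
  have hfF : (f : F) ≠ 0 := fun h => hf0 (Subtype.ext h)
  have hf₁ : f ∉ p₁.map (algebraMap B (locAt F n)) := by
    intro h
    apply hU₁
    rw [hfε]
    exact Ideal.mul_mem_left _ _ (Ideal.pow_mem_of_mem _ h m (Nat.pos_of_ne_zero hm))
  have hf₂ : f ∉ p₂.map (algebraMap B (locAt F n)) := by
    intro h
    apply hU₂
    rw [hfε]
    exact Ideal.mul_mem_left _ _ (Ideal.pow_mem_of_mem _ h m (Nat.pos_of_ne_zero hm))
  have hfεF : u * algebraMap B F b ^ m = ((ε : locAt F n) : F) * (f : F) ^ m := by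
    rw [← hUF, hfε]
    rfl
  refine ⟨algebraMap B F b / (f : F), div_ne_zero hbF hfF, ?_, ?_, ?_⟩
  · obtain ⟨a', s', ha', hs', h'⟩ := exists_frac_of_isUnit_locAt (F := F) n ε.isUnit
    refine ⟨a', s', ha', hs', ?_⟩
    rw [← h', div_pow, ← mul_div_assoc, hfεF]
    field_simp
  · obtain ⟨φ, s, hφ, hs, h'⟩ := exists_frac_of_notMem_map (F := F) (p := p₁) (n := n) hf₁
    refine ⟨b * s, φ, ?_, hφ, ?_⟩
    · intro h
      rcases Ideal.IsPrime.mem_or_mem inferInstance h with h3 | h3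
      · exact hbp₁ h3
      · exact hs (h₁ h3)
    · rw [← h', map_mul]
      field_simp
  · obtain ⟨φ, s, hφ, hs, h'⟩ := exists_frac_of_notMem_map (F := F) (p := p₂) (n := n) hf₂
    refine ⟨b * s, φ, ?_, hφ, ?_⟩
    · intro h
      rcases Ideal.IsPrime.mem_or_mem inferInstance h with h3 | h3
      · exact hbp₂ h3
      · exact hs (h₂ h3)
    · rw [← h', map_mul]
      field_simp

end Fermat.Agent.A2.H609

end
-- ===== PACK-END A2/H609/ChartNode.lean

-- ===== PACK-BEGIN Ribet/H463/NodeSlopeFrac.lean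
section



/-!
# RIBET / WALL-p, leaf CT2 = P-NODE: the node-slope relation (fraction field form)

Setting of `NodeSlope.lean`: `IsNode463 𝔭₁ 𝔭₂ π x y N` in a noetherian local integrally closed
domain `R` with fraction field `K` (`x` a uniformiser along `𝔭₁`, `v_{𝔭₂}(x) = N`;
`y` a uniformiser along `𝔭₂`, `v_{𝔭₁}(y) = N`; `v_{𝔭ᵢ}(π) = 1`).

Let `u ∈ Kˣ` with `m ∣ ord_V u` at every discrete valuation ring `V ⊇ R[1/π]` of `K`
(horizontal valuations), written on the two branches as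

  `u b₁ = π ^ k₁ a₁`, `a₁, b₁ ∉ 𝔭₁`    (so `v_{𝔭₁}(u) = k₁`),
  `u b₂ = π ^ k₂ a₂`, `a₂, b₂ ∉ 𝔭₂`    (so `v_{𝔭₂}(u) = k₂`),

and let `α = ord (a₁ mod 𝔭₁)`, `β = ord (b₁ mod 𝔭₁)`, so that `α - β` is the order at the node of
the reduction of `u π ^ (-k₁)` along the branch `𝔭₁` (the *slope* of `u` at the node).  Then

  `m ∣ N * (N * (α - β) + k₁ - k₂)`,

and if `m` is prime to the thickness `N`:  `v_{𝔭₂}(u) - v_{𝔭₁}(u) ≡ N * slope  (mod m)`.
-/

set_option autoImplicit false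

namespace Fermat.Agent.Ribet.H463

open Ideal Fermat.Agent.A2.H609 IsDiscreteValuationRing

namespace IsNode463

variable {R : Type*} [CommRing R] [IsLocalRing R] [IsDomain R]
variable {K : Type*} [Field K] [Algebra R K] [IsFractionRing R K]
variable {𝔭₁ 𝔭₂ : Ideal R} {π x y : R} {N : ℕ}

/-- `x` is a unit at every valuation ring containing `R[1/π]`. -/
theorem inv_x_mem (h : IsNode463 𝔭₁ 𝔭₂ π x y N) (V : ValuationSubring K)
    (hR : ∀ r : R, algebraMap R K r ∈ V) (hπ : (algebraMap R K π)⁻¹ ∈ V) :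
    (algebraMap R K x)⁻¹ ∈ V := by
  obtain ⟨ε, hε⟩ := h.mul_eq
  have hinj : Function.Injective (algebraMap R K) := IsFractionRing.injective R K
  have hπ0 : algebraMap R K π ≠ 0 := fun h0 =>
    h.pi_ne_zero (hinj (by rw [h0, map_zero]))
  have h2 : x * (y * ((ε⁻¹ : Rˣ) : R)) = π ^ N := by
    calc x * (y * ((ε⁻¹ : Rˣ) : R)) = (x * y) * ((ε⁻¹ : Rˣ) : R) := by ring
      _ = π ^ N := by rw [hε, mul_comm (ε : R), mul_assoc, Units.mul_inv, mul_one]
  have h1 : algebraMap R K x * (algebraMap R K (y * ((ε⁻¹ : Rˣ) : R)) *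
      (algebraMap R K π)⁻¹ ^ N) = 1 := by
    rw [← mul_assoc, ← map_mul, h2, map_pow, ← mul_pow, mul_inv_cancel₀ hπ0, one_pow]
  rw [← eq_inv_of_mul_eq_one_right h1]
  exact V.mul_mem _ _ (hR _) (V.pow_mem hπ N)

section General

variable [IsIntegrallyClosed R] [IsNoetherianRing R] [𝔭₁.IsPrime] [𝔭₂.IsPrime]
  [IsDiscreteValuationRing (R ⧸ 𝔭₁)] [IsDiscreteValuationRing (R ⧸ 𝔭₂)]

/-- **Node-slope relation** (natural exponents, branch `𝔭₁`). -/
theorem dvd_slope_left_nat (h : IsNode463 𝔭₁ 𝔭₂ π x y N) {m : ℕ} (hm : m ≠ 0) {u : K}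
    (hdiv : ∀ V : ValuationSubring K, IsDiscreteValuationRing V →
      (∀ r : R, algebraMap R K r ∈ V) → (algebraMap R K π)⁻¹ ∈ V →
      ∃ g u₀ : K, u₀ ∈ V ∧ u₀⁻¹ ∈ V ∧ u = u₀ * g ^ m)
    {a₁ b₁ a₂ b₂ : R} {k₁ k₂ : ℕ}
    (ha₁ : a₁ ∉ 𝔭₁) (hb₁ : b₁ ∉ 𝔭₁) (ha₂ : a₂ ∉ 𝔭₂) (hb₂ : b₂ ∉ 𝔭₂)
    (h₁ : u * algebraMap R K b₁ = algebraMap R K π ^ k₁ * algebraMap R K a₁)
    (h₂ : u * algebraMap R K b₂ = algebraMap R K π ^ k₂ * algebraMap R K a₂)
    {α β : ℕ} {εa εb : (R ⧸ 𝔭₁)ˣ}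
    (hα : Ideal.Quotient.mk 𝔭₁ a₁ = εa * (Ideal.Quotient.mk 𝔭₁ x) ^ α)
    (hβ : Ideal.Quotient.mk 𝔭₁ b₁ = εb * (Ideal.Quotient.mk 𝔭₁ x) ^ β) :
    (m : ℤ) ∣ N * (N * ((α : ℤ) - β) + k₁ - k₂) := by
  obtain ⟨ε, hε⟩ := h.mul_eq
  have hinj : Function.Injective (algebraMap R K) := IsFractionRing.injective R K
  have hne : ∀ {z : R}, z ≠ 0 → algebraMap R K z ≠ 0 := fun hz h0 =>
    hz (hinj (by rw [h0, map_zero]))
  have hp₁ : 𝔭₁.IsPrime := inferInstance
  have hp₂ : 𝔭₂.IsPrime := inferInstance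
  have hεn₁ : (ε : R) ∉ 𝔭₁ := fun hmem => hp₁.ne_top (𝔭₁.eq_top_of_isUnit_mem hmem ε.isUnit)
  have hεn₂ : (ε : R) ∉ 𝔭₂ := fun hmem => hp₂.ne_top (𝔭₂.eq_top_of_isUnit_mem hmem ε.isUnit)
  have hmulₙ : ∀ {𝔭 : Ideal R}, 𝔭.IsPrime → ∀ {s t : R}, s ∉ 𝔭 → t ∉ 𝔭 → s * t ∉ 𝔭 :=
    fun h𝔭 _ _ hs ht hst => (h𝔭.mem_or_mem hst).elim hs ht
  have hpowₙ : ∀ {𝔭 : Ideal R}, 𝔭.IsPrime → ∀ {s : R} (n : ℕ), s ∉ 𝔭 → s ^ n ∉ 𝔭 :=
    fun h𝔭 _ n hs hsn => hs (h𝔭.mem_of_pow_mem n hsn)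
  -- the normalised element `g = u ^ N / (x ^ k₂ * y ^ k₁)` on the two branches
  obtain ⟨A₁, hA₁⟩ : ∃ A₁ : R, A₁ = x ^ k₁ * a₁ ^ N := ⟨_, rfl⟩
  obtain ⟨B₁, hB₁⟩ : ∃ B₁ : R, B₁ = x ^ k₂ * b₁ ^ N * (ε : R) ^ k₁ := ⟨_, rfl⟩
  obtain ⟨A₂, hA₂⟩ : ∃ A₂ : R, A₂ = y ^ k₂ * a₂ ^ N := ⟨_, rfl⟩
  obtain ⟨B₂, hB₂⟩ : ∃ B₂ : R, B₂ = y ^ k₁ * b₂ ^ N * (ε : R) ^ k₂ := ⟨_, rfl⟩
  have hA₁n : A₁ ∉ 𝔭₁ := by
    rw [hA₁]
    exact hmulₙ hp₁ (hpowₙ hp₁ _ h.x_notMem) (hpowₙ hp₁ _ ha₁)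
  have hB₁n : B₁ ∉ 𝔭₁ := by
    rw [hB₁]
    exact hmulₙ hp₁ (hmulₙ hp₁ (hpowₙ hp₁ _ h.x_notMem) (hpowₙ hp₁ _ hb₁)) (hpowₙ hp₁ _ hεn₁)
  have hA₂n : A₂ ∉ 𝔭₂ := by
    rw [hA₂]
    exact hmulₙ hp₂ (hpowₙ hp₂ _ h.y_notMem) (hpowₙ hp₂ _ ha₂)
  have hB₂n : B₂ ∉ 𝔭₂ := by
    rw [hB₂]
    exact hmulₙ hp₂ (hmulₙ hp₂ (hpowₙ hp₂ _ h.y_notMem) (hpowₙ hp₂ _ hb₂)) (hpowₙ hp₂ _ hεn₂)
  have hcross : π ^ k₁ * a₁ * b₂ = π ^ k₂ * a₂ * b₁ := by
    apply hinj
    simp only [map_mul, map_pow]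
    calc algebraMap R K π ^ k₁ * algebraMap R K a₁ * algebraMap R K b₂
        = (u * algebraMap R K b₁) * algebraMap R K b₂ := by rw [h₁]
      _ = (u * algebraMap R K b₂) * algebraMap R K b₁ := by ring
      _ = algebraMap R K π ^ k₂ * algebraMap R K a₂ * algebraMap R K b₁ := by rw [h₂]
  have hAB : A₁ * B₂ = A₂ * B₁ := by
    have e1 : A₁ * B₂ = (ε : R) ^ k₂ * (x * y) ^ k₁ * (a₁ * b₂) ^ N := by
      rw [hA₁, hB₂]; ring
    have e2 : A₂ * B₁ = (ε : R) ^ k₁ * (x * y) ^ k₂ * (a₂ * b₁) ^ N := by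
      rw [hA₂, hB₁]; ring
    have e3 : (ε : R) ^ k₂ * ((ε : R) * π ^ N) ^ k₁ * (a₁ * b₂) ^ N =
        (ε : R) ^ k₁ * (ε : R) ^ k₂ * (π ^ k₁ * a₁ * b₂) ^ N := by ring
    have e4 : (ε : R) ^ k₁ * ((ε : R) * π ^ N) ^ k₂ * (a₂ * b₁) ^ N =
        (ε : R) ^ k₁ * (ε : R) ^ k₂ * (π ^ k₂ * a₂ * b₁) ^ N := by ring
    rw [e1, e2, hε, e3, e4, hcross]
  have hB₁0 : algebraMap R K B₁ ≠ 0 := hne (fun h0 => hB₁n (h0 ▸ 𝔭₁.zero_mem))
  obtain ⟨g, hg⟩ : ∃ g : K, g = algebraMap R K A₁ / algebraMap R K B₁ := ⟨_, rfl⟩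
  have hg₁ : g * algebraMap R K B₁ = algebraMap R K A₁ := by
    rw [hg]
    exact div_mul_cancel₀ _ hB₁0
  have hg₂ : g * algebraMap R K B₂ = algebraMap R K A₂ := by
    rw [hg, div_mul_eq_mul_div, div_eq_iff hB₁0, ← map_mul, ← map_mul, hAB]
  obtain ⟨A, B, hBn₁, hBn₂, hgB⟩ := exists_common_denominator (p₁ := 𝔭₁) (p₂ := 𝔭₂)
    ⟨A₁, B₁, hB₁n, hg₁⟩ ⟨A₂, B₂, hB₂n, hg₂⟩
  have hAB₁ : A * B₁ = A₁ * B := by
    apply hinj
    rw [map_mul, map_mul, ← hgB, ← hg₁]
    ring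
  have hAB₂ : A * B₂ = A₂ * B := by
    apply hinj
    rw [map_mul, map_mul, ← hgB, ← hg₂]
    ring
  have hAn₁ : A ∉ 𝔭₁ := by
    intro hA
    have : A₁ * B ∈ 𝔭₁ := hAB₁ ▸ 𝔭₁.mul_mem_right _ hA
    exact hmulₙ hp₁ hA₁n hBn₁ this
  have hAn₂ : A ∉ 𝔭₂ := by
    intro hA
    have : A₂ * B ∈ 𝔭₂ := hAB₂ ▸ 𝔭₂.mul_mem_right _ hA
    exact hmulₙ hp₂ hA₂n hBn₂ this
  obtain ⟨m', hm'⟩ := Nat.exists_eq_succ_of_ne_zero hm
  rw [Nat.succ_eq_add_one] at hm'
  subst hm'
  obtain ⟨U, hU⟩ : ∃ U : R, U = A * B ^ m' := ⟨_, rfl⟩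
  have hUn₁ : U ∉ 𝔭₁ := by
    rw [hU]
    exact hmulₙ hp₁ hAn₁ (hpowₙ hp₁ _ hBn₁)
  have hUn₂ : U ∉ 𝔭₂ := by
    rw [hU]
    exact hmulₙ hp₂ hAn₂ (hpowₙ hp₂ _ hBn₂)
  have hU0 : U ≠ 0 := fun h0 => hUn₁ (h0 ▸ 𝔭₁.zero_mem)
  have hUK : algebraMap R K U = g * algebraMap R K B ^ (m' + 1) := by
    rw [hU, map_mul, map_pow, ← hgB]
    ring
  have hπK : algebraMap R K π ≠ 0 := hne h.pi_ne_zero
  have hxK : algebraMap R K x ≠ 0 := hne h.x_ne_zero
  have hεK : algebraMap R K (ε : R) ≠ 0 := hne ε.ne_zero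
  have hb₁K : algebraMap R K b₁ ≠ 0 := hne (fun h0 => hb₁ (h0 ▸ 𝔭₁.zero_mem))
  -- `g` in terms of `u`
  have hgu : g * (algebraMap R K π ^ (N * k₁) * algebraMap R K x ^ k₂ *
      algebraMap R K (ε : R) ^ k₁) = u ^ N * algebraMap R K x ^ k₁ := by
    apply mul_right_cancel₀ (pow_ne_zero N hb₁K)
    have e1 : g * (algebraMap R K x ^ k₂ * algebraMap R K b₁ ^ N *
        algebraMap R K (ε : R) ^ k₁) = algebraMap R K x ^ k₁ * algebraMap R K a₁ ^ N := by
      have := hg₁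
      rw [hB₁, hA₁] at this
      simpa only [map_mul, map_pow] using this
    calc g * (algebraMap R K π ^ (N * k₁) * algebraMap R K x ^ k₂ *
          algebraMap R K (ε : R) ^ k₁) * algebraMap R K b₁ ^ N
        = algebraMap R K π ^ (N * k₁) * (g * (algebraMap R K x ^ k₂ *
            algebraMap R K b₁ ^ N * algebraMap R K (ε : R) ^ k₁)) := by ring
      _ = algebraMap R K x ^ k₁ * (algebraMap R K π ^ k₁ * algebraMap R K a₁) ^ N := by
          rw [e1, mul_comm N k₁, pow_mul]; ring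
      _ = u ^ N * algebraMap R K x ^ k₁ * algebraMap R K b₁ ^ N := by rw [← h₁]; ring
  -- (H1) for `U`
  have H1 : ∀ 𝔓 ∈ (Ideal.span {U}).minimalPrimes, π ∉ 𝔓 →
      ∃ f r : R, r ∉ 𝔓 ∧ f ^ (m' + 1) = U * r := by
    intro 𝔓 h𝔓 hπ𝔓
    refine exists_pow_eq_mul_of_divisible (K := K) hU0 hm h𝔓 ?_
    intro V hV hle hinv
    have hπV : (algebraMap R K π)⁻¹ ∈ V := hinv π hπ𝔓
    obtain ⟨g₀, u₀, hu₀, hu₀', hug⟩ := hdiv V hV hle hπV
    have hxV : (algebraMap R K x)⁻¹ ∈ V := h.inv_x_mem V hle hπV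
    obtain ⟨c, hc⟩ : ∃ c : K, c = algebraMap R K (x ^ k₁ * ((ε⁻¹ : Rˣ) : R) ^ k₁) *
      ((algebraMap R K π)⁻¹ ^ (N * k₁) * (algebraMap R K x)⁻¹ ^ k₂) := ⟨_, rfl⟩
    obtain ⟨c', hc'⟩ : ∃ c' : K, c' = algebraMap R K (π ^ (N * k₁) * x ^ k₂ * (ε : R) ^ k₁) *
      (algebraMap R K x)⁻¹ ^ k₁ := ⟨_, rfl⟩
    have hεε : algebraMap R K ((ε⁻¹ : Rˣ) : R) * algebraMap R K (ε : R) = 1 := by
      rw [← map_mul, Units.inv_mul, map_one]
    have hcc : c * c' = 1 := by
      rw [hc, hc']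
      simp only [map_mul, map_pow]
      have e1 : algebraMap R K x ^ k₁ * algebraMap R K ((ε⁻¹ : Rˣ) : R) ^ k₁ *
          ((algebraMap R K π)⁻¹ ^ (N * k₁) * (algebraMap R K x)⁻¹ ^ k₂) *
          (algebraMap R K π ^ (N * k₁) * algebraMap R K x ^ k₂ * algebraMap R K (ε : R) ^ k₁ *
            (algebraMap R K x)⁻¹ ^ k₁) =
          (algebraMap R K x * (algebraMap R K x)⁻¹) ^ k₁ *
          (algebraMap R K ((ε⁻¹ : Rˣ) : R) * algebraMap R K (ε : R)) ^ k₁ *
          ((algebraMap R K π)⁻¹ * algebraMap R K π) ^ (N * k₁) *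
          ((algebraMap R K x)⁻¹ * algebraMap R K x) ^ k₂ := by ring
      rw [e1, mul_inv_cancel₀ hxK, inv_mul_cancel₀ hπK, inv_mul_cancel₀ hxK, hεε]
      simp
    have hcV : c ∈ V := by
      rw [hc]
      exact V.mul_mem _ _ (hle _) (V.mul_mem _ _ (V.pow_mem hπV _) (V.pow_mem hxV _))
    have hc'V : c' ∈ V := by
      rw [hc']
      exact V.mul_mem _ _ (hle _) (V.pow_mem hxV _)
    have hgc : g = u ^ N * c := by
      have e2 : algebraMap R K π ^ (N * k₁) * algebraMap R K x ^ k₂ *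
          algebraMap R K (ε : R) ^ k₁ ≠ 0 :=
        mul_ne_zero (mul_ne_zero (pow_ne_zero _ hπK) (pow_ne_zero _ hxK)) (pow_ne_zero _ hεK)
      apply mul_right_cancel₀ e2
      rw [hgu, hc]
      simp only [map_mul, map_pow]
      have e3 : u ^ N * (algebraMap R K x ^ k₁ * algebraMap R K ((ε⁻¹ : Rˣ) : R) ^ k₁ *
          ((algebraMap R K π)⁻¹ ^ (N * k₁) * (algebraMap R K x)⁻¹ ^ k₂)) *
          (algebraMap R K π ^ (N * k₁) * algebraMap R K x ^ k₂ * algebraMap R K (ε : R) ^ k₁) =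
          u ^ N * algebraMap R K x ^ k₁ *
          ((algebraMap R K ((ε⁻¹ : Rˣ) : R) * algebraMap R K (ε : R)) ^ k₁ *
          ((algebraMap R K π)⁻¹ * algebraMap R K π) ^ (N * k₁) *
          ((algebraMap R K x)⁻¹ * algebraMap R K x) ^ k₂) := by ring
      rw [e3, inv_mul_cancel₀ hπK, inv_mul_cancel₀ hxK, hεε]
      simp
    refine ⟨g₀ ^ N * algebraMap R K B, u₀ ^ N * c, V.mul_mem _ _ (V.pow_mem hu₀ _) hcV, ?_, ?_⟩
    · have e4 : (u₀ ^ N * c)⁻¹ = u₀⁻¹ ^ N * c' := by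
        rw [mul_inv, inv_pow, inv_eq_of_mul_eq_one_right hcc]
      rw [e4]
      exact V.mul_mem _ _ (V.pow_mem hu₀' _) hc'V
    · rw [hUK, hgc, hug]
      ring
  -- the orders on the branch `𝔭₁`
  have hq0 : ∀ {z : R}, z ∉ 𝔭₁ → Ideal.Quotient.mk 𝔭₁ z ≠ 0 := fun hz h0 =>
    hz (Ideal.Quotient.eq_zero_iff_mem.mp h0)
  obtain ⟨nU, εU, hnU⟩ := eq_unit_mul_pow_irreducible (hq0 hUn₁) h.x_irr
  have hcore : (m' + 1) ∣ N * nU :=
    h.dvd_thickness_mul_ord_left hm hUn₁ hUn₂ H1 hnU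
  obtain ⟨nA, εA, hnA⟩ := eq_unit_mul_pow_irreducible (hq0 hAn₁) h.x_irr
  obtain ⟨nB, εB, hnB⟩ := eq_unit_mul_pow_irreducible (hq0 hBn₁) h.x_irr
  have hvx : addVal (R ⧸ 𝔭₁) (Ideal.Quotient.mk 𝔭₁ x) = 1 := addVal_uniformizer h.x_irr
  have hvε : addVal (R ⧸ 𝔭₁) (Ideal.Quotient.mk 𝔭₁ (ε : R)) = 0 :=
    addVal_eq_zero_of_unit (Units.map (Ideal.Quotient.mk 𝔭₁ : R →* R ⧸ 𝔭₁) ε)
  have hva : addVal (R ⧸ 𝔭₁) (Ideal.Quotient.mk 𝔭₁ a₁) = α := addVal_def _ εa h.x_irr α hα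
  have hvb : addVal (R ⧸ 𝔭₁) (Ideal.Quotient.mk 𝔭₁ b₁) = β := addVal_def _ εb h.x_irr β hβ
  have hvA : addVal (R ⧸ 𝔭₁) (Ideal.Quotient.mk 𝔭₁ A) = nA := addVal_def _ εA h.x_irr nA hnA
  have hvB : addVal (R ⧸ 𝔭₁) (Ideal.Quotient.mk 𝔭₁ B) = nB := addVal_def _ εB h.x_irr nB hnB
  have hvU : addVal (R ⧸ 𝔭₁) (Ideal.Quotient.mk 𝔭₁ U) = nU := addVal_def _ εU h.x_irr nU hnU
  have e5 : nU = nA + m' * nB := by
    have := hvU
    rw [hU, map_mul, map_pow, addVal_mul, addVal_pow, hvA, hvB, nsmul_eq_mul] at this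
    exact_mod_cast this.symm
  have e6 : nA + (k₂ + N * β) = k₁ + N * α + nB := by
    have := congrArg (fun z => addVal (R ⧸ 𝔭₁) (Ideal.Quotient.mk 𝔭₁ z)) hAB₁
    simp only [hA₁, hB₁, map_mul, map_pow, addVal_mul, addVal_pow, hvA, hvB, hva, hvb, hvx, hvε,
      nsmul_eq_mul, mul_one, mul_zero, add_zero] at this
    exact_mod_cast this
  obtain ⟨c, hc⟩ := hcore
  refine ⟨(c : ℤ) - N * nB, ?_⟩
  have e5' : (nU : ℤ) = nA + m' * nB := by exact_mod_cast e5
  have e6' : (nA : ℤ) + (k₂ + N * β) = k₁ + N * α + nB := by exact_mod_cast e6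
  have hc' : (N : ℤ) * nU = (m' + 1) * c := by exact_mod_cast hc
  push_cast
  linear_combination hc' - (N : ℤ) * e5' - (N : ℤ) * e6'

/-- **Node-slope relation** (natural exponents, branch `𝔭₂`). -/
theorem dvd_slope_right_nat (h : IsNode463 𝔭₁ 𝔭₂ π x y N) {m : ℕ} (hm : m ≠ 0) {u : K}
    (hdiv : ∀ V : ValuationSubring K, IsDiscreteValuationRing V →
      (∀ r : R, algebraMap R K r ∈ V) → (algebraMap R K π)⁻¹ ∈ V →
      ∃ g u₀ : K, u₀ ∈ V ∧ u₀⁻¹ ∈ V ∧ u = u₀ * g ^ m)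
    {a₁ b₁ a₂ b₂ : R} {k₁ k₂ : ℕ}
    (ha₁ : a₁ ∉ 𝔭₁) (hb₁ : b₁ ∉ 𝔭₁) (ha₂ : a₂ ∉ 𝔭₂) (hb₂ : b₂ ∉ 𝔭₂)
    (h₁ : u * algebraMap R K b₁ = algebraMap R K π ^ k₁ * algebraMap R K a₁)
    (h₂ : u * algebraMap R K b₂ = algebraMap R K π ^ k₂ * algebraMap R K a₂)
    {α β : ℕ} {εa εb : (R ⧸ 𝔭₂)ˣ}
    (hα : Ideal.Quotient.mk 𝔭₂ a₂ = εa * (Ideal.Quotient.mk 𝔭₂ y) ^ α)
    (hβ : Ideal.Quotient.mk 𝔭₂ b₂ = εb * (Ideal.Quotient.mk 𝔭₂ y) ^ β) :
    (m : ℤ) ∣ N * (N * ((α : ℤ) - β) + k₂ - k₁) :=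
  h.symm.dvd_slope_left_nat hm hdiv ha₂ hb₂ ha₁ hb₁ h₂ h₁ hα hβ

/-- **Node-slope relation** (CT2 = P-NODE, branch `𝔭₁`).  `u ∈ Kˣ` with `m ∣ ord_V u` at the
horizontal valuations, `v_{𝔭₁}(u) = k₁`, `v_{𝔭₂}(u) = k₂`, slope `α - β` along `𝔭₁` at the node:
`m ∣ N * (N * (α - β) + k₁ - k₂)`. -/
theorem dvd_slope_left (h : IsNode463 𝔭₁ 𝔭₂ π x y N) {m : ℕ} (hm : m ≠ 0) {u : K}
    (hdiv : ∀ V : ValuationSubring K, IsDiscreteValuationRing V →
      (∀ r : R, algebraMap R K r ∈ V) → (algebraMap R K π)⁻¹ ∈ V →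
      ∃ g u₀ : K, u₀ ∈ V ∧ u₀⁻¹ ∈ V ∧ u = u₀ * g ^ m)
    {a₁ b₁ a₂ b₂ : R} {k₁ k₂ : ℤ}
    (ha₁ : a₁ ∉ 𝔭₁) (hb₁ : b₁ ∉ 𝔭₁) (ha₂ : a₂ ∉ 𝔭₂) (hb₂ : b₂ ∉ 𝔭₂)
    (h₁ : u * algebraMap R K b₁ = algebraMap R K π ^ k₁ * algebraMap R K a₁)
    (h₂ : u * algebraMap R K b₂ = algebraMap R K π ^ k₂ * algebraMap R K a₂)
    {α β : ℕ} {εa εb : (R ⧸ 𝔭₁)ˣ}
    (hα : Ideal.Quotient.mk 𝔭₁ a₁ = εa * (Ideal.Quotient.mk 𝔭₁ x) ^ α)
    (hβ : Ideal.Quotient.mk 𝔭₁ b₁ = εb * (Ideal.Quotient.mk 𝔭₁ x) ^ β) :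
    (m : ℤ) ∣ N * (N * ((α : ℤ) - β) + k₁ - k₂) := by
  have hinj : Function.Injective (algebraMap R K) := IsFractionRing.injective R K
  have hπK : algebraMap R K π ≠ 0 := fun h0 =>
    h.pi_ne_zero (hinj (by rw [h0, map_zero]))
  obtain ⟨c, hc⟩ : ∃ c : ℕ, c = k₁.natAbs + k₂.natAbs := ⟨_, rfl⟩
  have hk₁ : 0 ≤ k₁ + c := by rw [hc]; push_cast; have := abs_nonneg k₂; have := neg_abs_le k₁; omega
  have hk₂ : 0 ≤ k₂ + c := by rw [hc]; push_cast; have := abs_nonneg k₁; have := neg_abs_le k₂; omega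
  have hpow : ∀ k : ℤ, 0 ≤ k + c →
      algebraMap R K π ^ (k + c).toNat = algebraMap R K π ^ k * algebraMap R K π ^ c := by
    intro k hk
    rw [← zpow_natCast, Int.toNat_of_nonneg hk, zpow_add₀ hπK, zpow_natCast]
  have hdiv' : ∀ V : ValuationSubring K, IsDiscreteValuationRing V →
      (∀ r : R, algebraMap R K r ∈ V) → (algebraMap R K π)⁻¹ ∈ V →
      ∃ g u₀ : K, u₀ ∈ V ∧ u₀⁻¹ ∈ V ∧ u * algebraMap R K π ^ c = u₀ * g ^ m := by
    intro V hV hle hπV
    obtain ⟨g, u₀, hu₀, hu₀', hug⟩ := hdiv V hV hle hπV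
    refine ⟨g, u₀ * algebraMap R K π ^ c, V.mul_mem _ _ hu₀ (V.pow_mem (hle π) c), ?_, ?_⟩
    · rw [mul_inv, ← inv_pow]
      exact V.mul_mem _ _ hu₀' (V.pow_mem hπV c)
    · rw [hug]
      ring
  have h₁' : u * algebraMap R K π ^ c * algebraMap R K b₁ =
      algebraMap R K π ^ (k₁ + c).toNat * algebraMap R K a₁ := by
    rw [hpow k₁ hk₁]
    calc u * algebraMap R K π ^ c * algebraMap R K b₁
        = (u * algebraMap R K b₁) * algebraMap R K π ^ c := by ring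
      _ = algebraMap R K π ^ k₁ * algebraMap R K π ^ c * algebraMap R K a₁ := by rw [h₁]; ring
  have h₂' : u * algebraMap R K π ^ c * algebraMap R K b₂ =
      algebraMap R K π ^ (k₂ + c).toNat * algebraMap R K a₂ := by
    rw [hpow k₂ hk₂]
    calc u * algebraMap R K π ^ c * algebraMap R K b₂
        = (u * algebraMap R K b₂) * algebraMap R K π ^ c := by ring
      _ = algebraMap R K π ^ k₂ * algebraMap R K π ^ c * algebraMap R K a₂ := by rw [h₂]; ring
  have key := h.dvd_slope_left_nat hm hdiv' ha₁ hb₁ ha₂ hb₂ h₁' h₂' hα hβ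
  rw [Int.toNat_of_nonneg hk₁, Int.toNat_of_nonneg hk₂] at key
  have e : (N : ℤ) * (N * ((α : ℤ) - β) + (k₁ + c) - (k₂ + c)) =
      N * (N * ((α : ℤ) - β) + k₁ - k₂) := by ring
  rwa [e] at key

/-- **Node-slope relation** (CT2 = P-NODE, branch `𝔭₂`). -/
theorem dvd_slope_right (h : IsNode463 𝔭₁ 𝔭₂ π x y N) {m : ℕ} (hm : m ≠ 0) {u : K}
    (hdiv : ∀ V : ValuationSubring K, IsDiscreteValuationRing V →
      (∀ r : R, algebraMap R K r ∈ V) → (algebraMap R K π)⁻¹ ∈ V →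
      ∃ g u₀ : K, u₀ ∈ V ∧ u₀⁻¹ ∈ V ∧ u = u₀ * g ^ m)
    {a₁ b₁ a₂ b₂ : R} {k₁ k₂ : ℤ}
    (ha₁ : a₁ ∉ 𝔭₁) (hb₁ : b₁ ∉ 𝔭₁) (ha₂ : a₂ ∉ 𝔭₂) (hb₂ : b₂ ∉ 𝔭₂)
    (h₁ : u * algebraMap R K b₁ = algebraMap R K π ^ k₁ * algebraMap R K a₁)
    (h₂ : u * algebraMap R K b₂ = algebraMap R K π ^ k₂ * algebraMap R K a₂)
    {α β : ℕ} {εa εb : (R ⧸ 𝔭₂)ˣ}
    (hα : Ideal.Quotient.mk 𝔭₂ a₂ = εa * (Ideal.Quotient.mk 𝔭₂ y) ^ α)
    (hβ : Ideal.Quotient.mk 𝔭₂ b₂ = εb * (Ideal.Quotient.mk 𝔭₂ y) ^ β) :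
    (m : ℤ) ∣ N * (N * ((α : ℤ) - β) + k₂ - k₁) :=
  h.symm.dvd_slope_left hm hdiv ha₂ hb₂ ha₁ hb₁ h₂ h₁ hα hβ

/-- **Node-slope relation for thickness prime to `m`** (the form used in (I6)):
`v_{𝔭₂}(u) - v_{𝔭₁}(u) ≡ N * (slope of u along 𝔭₁ at the node)  (mod m)`. -/
theorem slope_left_of_coprime (h : IsNode463 𝔭₁ 𝔭₂ π x y N) {m : ℕ} (hm : m ≠ 0)
    (hmN : Nat.Coprime m N) {u : K}
    (hdiv : ∀ V : ValuationSubring K, IsDiscreteValuationRing V →
      (∀ r : R, algebraMap R K r ∈ V) → (algebraMap R K π)⁻¹ ∈ V →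
      ∃ g u₀ : K, u₀ ∈ V ∧ u₀⁻¹ ∈ V ∧ u = u₀ * g ^ m)
    {a₁ b₁ a₂ b₂ : R} {k₁ k₂ : ℤ}
    (ha₁ : a₁ ∉ 𝔭₁) (hb₁ : b₁ ∉ 𝔭₁) (ha₂ : a₂ ∉ 𝔭₂) (hb₂ : b₂ ∉ 𝔭₂)
    (h₁ : u * algebraMap R K b₁ = algebraMap R K π ^ k₁ * algebraMap R K a₁)
    (h₂ : u * algebraMap R K b₂ = algebraMap R K π ^ k₂ * algebraMap R K a₂)
    {α β : ℕ} {εa εb : (R ⧸ 𝔭₁)ˣ}
    (hα : Ideal.Quotient.mk 𝔭₁ a₁ = εa * (Ideal.Quotient.mk 𝔭₁ x) ^ α)
    (hβ : Ideal.Quotient.mk 𝔭₁ b₁ = εb * (Ideal.Quotient.mk 𝔭₁ x) ^ β) :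
    k₂ - k₁ ≡ N * ((α : ℤ) - β) [ZMOD m] := by
  have key := h.dvd_slope_left hm hdiv ha₁ hb₁ ha₂ hb₂ h₁ h₂ hα hβ
  have hcop : IsCoprime (m : ℤ) (N : ℤ) := Nat.isCoprime_iff_coprime.mpr hmN
  have h3 : (m : ℤ) ∣ N * ((α : ℤ) - β) + k₁ - k₂ := hcop.dvd_of_dvd_mul_left key
  rw [Int.modEq_iff_dvd]
  have e : (N : ℤ) * ((α : ℤ) - β) - (k₂ - k₁) = N * ((α : ℤ) - β) + k₁ - k₂ := by ring
  rwa [e]

/-- **Node-slope relation for thickness prime to `m`**, branch `𝔭₂`: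
`v_{𝔭₁}(u) - v_{𝔭₂}(u) ≡ N * (slope of u along 𝔭₂ at the node)  (mod m)`. -/
theorem slope_right_of_coprime (h : IsNode463 𝔭₁ 𝔭₂ π x y N) {m : ℕ} (hm : m ≠ 0)
    (hmN : Nat.Coprime m N) {u : K}
    (hdiv : ∀ V : ValuationSubring K, IsDiscreteValuationRing V →
      (∀ r : R, algebraMap R K r ∈ V) → (algebraMap R K π)⁻¹ ∈ V →
      ∃ g u₀ : K, u₀ ∈ V ∧ u₀⁻¹ ∈ V ∧ u = u₀ * g ^ m)
    {a₁ b₁ a₂ b₂ : R} {k₁ k₂ : ℤ}
    (ha₁ : a₁ ∉ 𝔭₁) (hb₁ : b₁ ∉ 𝔭₁) (ha₂ : a₂ ∉ 𝔭₂) (hb₂ : b₂ ∉ 𝔭₂)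
    (h₁ : u * algebraMap R K b₁ = algebraMap R K π ^ k₁ * algebraMap R K a₁)
    (h₂ : u * algebraMap R K b₂ = algebraMap R K π ^ k₂ * algebraMap R K a₂)
    {α β : ℕ} {εa εb : (R ⧸ 𝔭₂)ˣ}
    (hα : Ideal.Quotient.mk 𝔭₂ a₂ = εa * (Ideal.Quotient.mk 𝔭₂ y) ^ α)
    (hβ : Ideal.Quotient.mk 𝔭₂ b₂ = εb * (Ideal.Quotient.mk 𝔭₂ y) ^ β) :
    k₁ - k₂ ≡ N * ((α : ℤ) - β) [ZMOD m] :=
  h.symm.slope_left_of_coprime hm hmN hdiv ha₂ hb₂ ha₁ hb₁ h₂ h₁ hα hβ

end General

end IsNode463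

end Fermat.Agent.Ribet.H463

end
-- ===== PACK-END Ribet/H463/NodeSlopeFrac.lean

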