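import Fermat.Agent.Pack.S44.G0E19L0
import Fermat.Agent.Pack.S44.G0E6L1
import Fermat.Agent.Pack.S44.G0E23L1
import Fermat.Agent.Pack.S44.G0E24L2
import Fermat.Agent.Pack.S44.G0E24L3
import Fermat.Agent.Pack.S44.G0E18L0
import Fermat.Agent.Pack.S44.G0E11L3
import Fermat.Agent.Pack.S44.G0E18L2
import Fermat.Agent.Pack.S44.G0E22L1
import Fermat.Agent.Pack.S44.G0E11L0
import Fermat.Agent.Pack.S44.G0E12L2
import Fermat.Agent.Pack.S44.G0E20L1
import Fermat.Agent.Pack.S44.G0E15L0
import Fermat.Agent.Pack.S44.G0E22L3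
import Fermat.Agent.Pack.S44.G0E20L2
import Fermat.Agent.Pack.S44.G0E23L0
import Fermat.Agent.Pack.S44.G0E6L2
import Fermat.Agent.Pack.S44.G0E18L3
import Fermat.Agent.Pack.S44.G0E24L0
import Fermat.Agent.Pack.S44.G0E20L0
import Fermat.Agent.Pack.S44.G0E17L1
import Fermat.Agent.Pack.S44.G0E17L0
import Fermat.Agent.Pack.S44.G0E24L1
import Fermat.Agent.Pack.S44.G0E19L1
import Fermat.Agent.Pack.S44.G0E17L3

-- ===== PACK-BEGIN Ribet/H52/TraceFormulaFrey.lean
section





/-!
# Row RIBET, piece TF (helper52): the trace formula for the Frey curve, UNCONDITIONAL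

`traceFormulaFrey_h52 : Spec.TraceFormulaFreyStatement` — for every integral model `W` of the
Frey curve, every prime `ℓ ≠ p` of good reduction of `W` (INCLUDING `ℓ = 2, 3`) and every
Frobenius `τ` at a place over `ℓ`:  `tr (τ | E[p]) = a_ℓ(W)` in `𝔽_p`.

Inputs, all on main: the Frobenius relation at all good primes
(`Lib.Frob.Small.frobRelationAll`, helper545), the determinant formula
(`Ribet.H343.detFrob`, helper343), `dim E[p] = 2` (`S41/H701`), `Lib/VC`.

Also `trace_of_det_uncond_h52`: the general form (any elliptic curve `E` over `ℚ`, any prime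
`n`) with the determinant as a hypothesis, unconditional in the Frobenius relation.
-/

set_option autoImplicit false

open WeierstrassCurve WeierstrassCurve.Affine WeierstrassCurve.Affine.Point

namespace Fermat.Agent.Ribet.H52

open Fermat.Agent.Lib.Frob (Qb Pts)
open Fermat.Agent.Ribet.Spec (GQ)

/-- The Frobenius relation at all good primes (landed by helper545). -/
theorem frobRelAll_h52 : FrobRelAll :=
  fun W ℓ hℓ hgood A σ hA hσ n hn hℓn P hP =>
    Fermat.Agent.Lib.Frob.Small.frobRelationAll W ℓ hℓ hgood A σ hA hσ n hn hℓn P hP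

/-- **Trace from determinant, unconditional in the Frobenius relation.**  `E` an elliptic curve
over `ℚ`, `W` an integral model of `E`, `n ≠ ℓ` primes, `W` good at `ℓ`, `τ` a Frobenius at a
place over `ℓ`.  If `det (τ | E[n]) = ℓ` then `tr (τ | E[n]) = a_ℓ(W)`. -/
theorem trace_of_det_uncond_h52 (E : WeierstrassCurve ℚ) [E.IsElliptic] (W : WeierstrassCurve ℤ)
    (hW : W.IsIntegralModelOf E) (n ℓ : ℕ) (hn : n.Prime) (hℓ : ℓ.Prime) (hℓn : ℓ ≠ n)
    (hgood : W.IsGoodPrimeFor ℓ) (A : ValuationSubring Qb) (hA : A.LiesOverPrime ℓ)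
    (τ : GQ) (hτ : A.IsFrobeniusAt τ ℓ)
    (hdet : LinearMap.det (galoisRepModuleEnd (S := ℚ) (K := Qb) E n τ) = (ℓ : ZMod n)) :
    galoisTrace (S := ℚ) (K := Qb) E n τ = ((W.apOfModel ℓ : ℤ) : ZMod n) :=
  trace_of_det_h52 E frobRelAll_h52 W hW n ℓ hn hℓ hℓn hgood A hA τ hτ hdet

/-- **(TF-Frey), unconditional.** -/
theorem traceFormulaFrey_h52 : Fermat.Agent.Ribet.Spec.TraceFormulaFreyStatement :=
  traceFormulaFrey_of_h52 frobRelAll_h52 Fermat.Agent.Ribet.H343.detFrob

/-- The general trace formula `Spec.TraceFormulaStatement` from the determinant formula for all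
elliptic curves over `ℚ` alone. -/
theorem traceFormula_of_detAll_h52 (hD : DetFrobAllStatement) :
    Fermat.Agent.Ribet.Spec.TraceFormulaStatement :=
  traceFormula_of_det_h52 frobRelAll_h52 hD

end Fermat.Agent.Ribet.H52

end
-- ===== PACK-END Ribet/H52/TraceFormulaFrey.lean

-- ===== PACK-BEGIN S29/H282/LocalK.lean
section


/-!
# S29 / M4b-K2 (helper282) — `LocalData` for the function field over `K` from an expansion

Port of `Fermat/Agent/S24/Mod/H997Local.lean` (namespace `HolBase`) and of the first half of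
`H997Core.lean` from `(ℚ̄, ιK)` to an arbitrary field `K` with `ι : K →+* ℂ`.
-/

set_option autoImplicit false

noncomputable section

open ModularCurve HahnSeries UpperHalfPlane
open scoped MatrixGroups

namespace Fermat.Agent.S29.H282

open Fermat.Agent.S24 Fermat.Agent.S24.H997 Fermat.Agent.S24.Deg457

variable {K : Type*} [Field K] [Algebra ℚ K] (ι : K →+* ℂ)
variable {N : ℕ} [NeZero N] (B : HolBase N) (X : Expansion B)

/-- the ring hom `R_N(K) → ℂ((z))`, `r ↦ E (e r ∘ g⁻¹)` -/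
def sGK (g : SL(2, ℤ)) : RNK K N →+* LaurentSeries ℂ :=
  X.E.comp ((B.compH g⁻¹).comp (bridgeK ι B))

theorem sGK_apply (g : SL(2, ℤ)) (r : RNK K N) :
    sGK ι B X g r = X.E (B.compH g⁻¹ (bridgeK ι B r)) := rfl

theorem sGK_injective (g : SL(2, ℤ)) : Function.Injective (sGK ι B X g) :=
  X.inj.comp ((B.compH_injective g⁻¹).comp (bridgeK_injective ι B))

/-- the embedding `FFK K N → ℂ((z))` attached to `g` -/
def sigmaGK (g : SL(2, ℤ)) : FFK K N →+* LaurentSeries ℂ :=
  liftFK (sGK ι B X g) (sGK_injective ι B X g)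

theorem sigmaGK_inclRNK (g : SL(2, ℤ)) (r : RNK K N) :
    sigmaGK ι B X g (inclRNK K N r) = X.E (B.compH g⁻¹ (bridgeK ι B r)) :=
  liftFK_inclRNK _ _ r

theorem sigmaGK_algebraMap (g : SL(2, ℤ)) (c : K) :
    sigmaGK ι B X g (algebraMap K (FFK K N) c) = HahnSeries.C (ι c) := by
  rw [sigmaGK, liftFK_algebraMap, sGK_apply, bridgeK_algebraMap, HolBase.compH_constH, X.const]

theorem sigmaGK_jFK (g : SL(2, ℤ)) :
    sigmaGK ι B X g (jFK K N) = X.E (B.JH 1 (one_dvd N)) := by
  rw [← inclRNK_jRK_one, sigmaGK_inclRNK, bridgeK_jRK, HolBase.compH_JH_one]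

theorem sGK_mul_of_mem (g : SL(2, ℤ)) {δ : SL(2, ℤ)} (hδ : δ ∈ CongruenceSubgroup.Gamma0 N) :
    sGK ι B X (g * δ) = sGK ι B X g := by
  ext1 r
  rw [sGK_apply, sGK_apply, mul_inv_rev, HolBase.compH_mul,
    compH_bridgeK_of_mem ι B (inv_mem hδ)]

theorem sigmaGK_mul_of_mem (g : SL(2, ℤ)) {δ : SL(2, ℤ)}
    (hδ : δ ∈ CongruenceSubgroup.Gamma0 N) : sigmaGK ι B X (g * δ) = sigmaGK ι B X g := by
  unfold sigmaGK
  congr 1
  exact sGK_mul_of_mem ι B X g hδ

theorem sigmaGK_eq_of_mk_eq {g g' : SL(2, ℤ)}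
    (h : (g : XX N) = (g' : XX N)) : sigmaGK ι B X g = sigmaGK ι B X g' := by
  have hmem : g⁻¹ * g' ∈ CongruenceSubgroup.Gamma0 N := QuotientGroup.eq.mp h
  have := sigmaGK_mul_of_mem ι B X g hmem
  rw [mul_inv_cancel_left] at this
  exact this.symm

/-- the embedding attached to a coset -/
def sigmaXK (x : XX N) : FFK K N →+* LaurentSeries ℂ := sigmaGK ι B X (Quotient.out x)

theorem sigmaXK_mk (g : SL(2, ℤ)) : sigmaXK ι B X (g : XX N) = sigmaGK ι B X g :=
  sigmaGK_eq_of_mk_eq ι B X (QuotientGroup.out_eq' _)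

theorem sigmaXK_injective : Function.Injective (sigmaXK (K := K) ι B X) := by
  intro x y hxy
  obtain ⟨g, rfl⟩ := QuotientGroup.mk_surjective x
  obtain ⟨g', rfl⟩ := QuotientGroup.mk_surjective y
  rw [sigmaXK_mk, sigmaXK_mk] at hxy
  have h1 := congrArg (fun s => s (inclRNK K N (jRK K N N dvd_rfl))) hxy
  simp only [sigmaGK_inclRNK, bridgeK_jRK] at h1
  have h2 := X.inj h1
  apply QuotientGroup.eq.mpr
  apply B.J_distinct
  intro τ
  have h3 := congrArg (fun h : B.Hol => (h : ℍ → ℂ) (g' • τ)) h2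
  simp only [HolBase.compH_apply] at h3
  rw [← mul_smul, ← mul_smul, inv_mul_cancel, one_smul] at h3
  exact h3

theorem rotRel_sigmaGK (ε : SL(2, ℤ)) (R : RotData B X ε) (g : SL(2, ℤ)) (f : FFK K N) :
    RotRel R.ζ (sigmaGK ι B X g f) (sigmaGK ι B X (ε⁻¹ * g) f) := by
  have hζ : R.ζ ≠ 0 := R.hζ.ne_zero R.m_pos.ne'
  obtain ⟨r, t, -, rfl⟩ := exists_div_inclRNK K N f
  rw [map_div₀, map_div₀]
  have key : ∀ r : RNK K N, RotRel R.ζ (sigmaGK ι B X g (inclRNK K N r))
      (sigmaGK ι B X (ε⁻¹ * g) (inclRNK K N r)) := by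
    intro r
    rw [sigmaGK_inclRNK, sigmaGK_inclRNK, mul_inv_rev, inv_inv, HolBase.compH_mul]
    exact R.rot _
  exact (key r).div hζ (key t)

/-- `LocalData` from an expansion with rotation data. -/
def mkLocalDataK (ε : SL(2, ℤ)) (R : RotData B X ε) (t : FFK K N) (u : LaurentSeries ℂ)
    (ht : ∀ g : SL(2, ℤ), sigmaGK ι B X g t = u) (hu : u.order = (R.m : ℤ)) :
    LocalData K (FFK K N) ℂ (XX N) t where
  m := R.m
  m_pos := R.m_pos
  ζ := R.ζ
  hζ := R.hζ
  ι := ι
  perm := permOf N ε⁻¹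
  σ := sigmaXK ι B X
  σ_inj := sigmaXK_injective ι B X
  σ_const x c := sigmaGK_algebraMap ι B X _ c
  σ_t_eq x y := by
    show sigmaGK ι B X _ t = sigmaGK ι B X _ t
    rw [ht, ht]
  σ_t_order x := by
    show (sigmaGK ι B X _ t).order = _
    rw [ht, hu]
  σ_perm_order x f := by
    obtain ⟨g, rfl⟩ := QuotientGroup.mk_surjective x
    have h : permOf N ε⁻¹ (g : XX N) = ((ε⁻¹ * g : SL(2, ℤ)) : XX N) := rfl
    rw [h, sigmaXK_mk, sigmaXK_mk]
    exact (rotRel_sigmaGK ι B X ε R g f).1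
  σ_perm_leadingCoeff x f := by
    obtain ⟨g, rfl⟩ := QuotientGroup.mk_surjective x
    have h : permOf N ε⁻¹ (g : XX N) = ((ε⁻¹ * g : SL(2, ℤ)) : XX N) := rfl
    rw [h, sigmaXK_mk, sigmaXK_mk]
    exact (rotRel_sigmaGK ι B X ε R g f).2

@[simp] theorem mkLocalDataK_perm (ε : SL(2, ℤ)) (R : RotData B X ε) (t : FFK K N)
    (u : LaurentSeries ℂ) (ht : ∀ g : SL(2, ℤ), sigmaGK ι B X g t = u)
    (hu : u.order = (R.m : ℤ)) :
    (mkLocalDataK ι B X ε R t u ht hu).perm = permOf N ε⁻¹ := rfl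

@[simp] theorem mkLocalDataK_σ (ε : SL(2, ℤ)) (R : RotData B X ε) (t : FFK K N)
    (u : LaurentSeries ℂ) (ht : ∀ g : SL(2, ℤ), sigmaGK ι B X g t = u)
    (hu : u.order = (R.m : ℤ)) :
    (mkLocalDataK ι B X ε R t u ht hu).σ = sigmaXK ι B X := rfl

@[simp] theorem mkLocalDataK_m (ε : SL(2, ℤ)) (R : RotData B X ε) (t : FFK K N)
    (u : LaurentSeries ℂ) (ht : ∀ g : SL(2, ℤ), sigmaGK ι B X g t = u)
    (hu : u.order = (R.m : ℤ)) :
    (mkLocalDataK ι B X ε R t u ht hu).m = R.m := rfl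

@[simp] theorem mkLocalDataK_ζ (ε : SL(2, ℤ)) (R : RotData B X ε) (t : FFK K N)
    (u : LaurentSeries ℂ) (ht : ∀ g : SL(2, ℤ), sigmaGK ι B X g t = u)
    (hu : u.order = (R.m : ℤ)) :
    (mkLocalDataK ι B X ε R t u ht hu).ζ = R.ζ := rfl

end Fermat.Agent.S29.H282

end
end
-- ===== PACK-END S29/H282/LocalK.lean

-- ===== PACK-BEGIN S18/H558/BranchT2.lean
section


/-!
# S18 / MOD M2 (part 2): ramification of `F_M / ℚ̄(t)` for the Hauptmodul `t = t₂` of `X₀(2)`

Hypothesis (proved elsewhere, piece c3-i): `t ∈ FF M` with `j * t ^ 2 = (t + 256) ^ 3`.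
Then `F_M / ℚ̄(t)` is unramified outside `t ∈ {0, -64, ∞}`:

* `ord_t2_sub_eq_one` : `c ≠ 0`, `c ≠ -64`, `0 < v.ord (t - c)` ⟹ `v.ord (t - c) = 1`;
* `ord_t2_add_64_dvd_two` : `0 < v.ord (t + 64)` ⟹ `v.ord (t + 64) ∣ 2`;
* `ord_t2_inv_sub_eq_one` : the same in the coordinate `1/t` (chart at infinity).
-/

set_option autoImplicit false

noncomputable section

open AlgebraicCurve ModularCurve

namespace Fermat.Agent.S18.H558

open Fermat.Agent.S24

section Generic

variable {K F : Type*} [Field K] [Field F] [Algebra K F] (v : Place K F)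

/-- A nonzero constant plus an element of positive order has order `0`. -/
theorem ord_const_add {g : K} (hg : g ≠ 0) {z : F} (hz : 0 < v.ord z) :
    v.ord (algebraMap K F g + z) = 0 := by
  have hg' : algebraMap K F g ≠ 0 := (map_ne_zero _).2 hg
  have h0 : v.ord (algebraMap K F g) = 0 := H117.ord_algebraMap v g
  rw [H117.ord_add_eq_of_lt v (by rw [h0]; exact hz) hg', h0]

/-- A nonzero constant plus `T * y` with `0 < ord T`, `y` integral, has order `0`. -/
theorem ord_const_add_mul {g : K} (hg : g ≠ 0) {T y : F} (hT : 0 < v.ord T)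
    (hy : y ∈ v.toValuationSubring) : v.ord (algebraMap K F g + T * y) = 0 := by
  rcases eq_or_ne y 0 with rfl | hy0
  · rw [mul_zero, add_zero]; exact H117.ord_algebraMap v g
  · have hT0 : T ≠ 0 := H117.ne_zero_of_ord_ne_zero v hT.ne'
    refine ord_const_add v hg ?_
    rw [v.ord_mul hT0 hy0]
    have := H117.ord_nonneg_of_mem v hy
    omega

/-- If `0 < ord (t - c)` then `t` is integral at `v`. -/
theorem mem_of_ord_sub_pos {t : F} {c : K} (h : 0 < v.ord (t - algebraMap K F c)) :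
    t ∈ v.toValuationSubring := by
  have h1 : t - algebraMap K F c ∈ v.toValuationSubring := H117.mem_of_ord_nonneg v h.le
  have h2 : algebraMap K F c ∈ v.toValuationSubring := v.algebraMap_mem' c
  have := add_mem h1 h2
  rwa [sub_add_cancel] at this

/-- If `0 < ord (t - c)` and `c ≠ 0` then `ord t = 0`. -/
theorem ord_eq_zero_of_ord_sub_pos {t : F} {c : K} (hc : c ≠ 0)
    (h : 0 < v.ord (t - algebraMap K F c)) : v.ord t = 0 := by
  have := ord_const_add v hc h
  rwa [add_sub_cancel] at this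

/-- Nonvanishing version of `ord_const_add_mul`. -/
theorem const_add_mul_ne_zero {g : K} (hg : g ≠ 0) {T y : F} (hT : 0 < v.ord T)
    (hy : y ∈ v.toValuationSubring) : algebraMap K F g + T * y ≠ 0 := by
  intro h
  rcases eq_or_ne y 0 with rfl | hy0
  · rw [mul_zero, add_zero] at h
    exact hg ((map_eq_zero _).1 h)
  · have hT0 : T ≠ 0 := H117.ne_zero_of_ord_ne_zero v hT.ne'
    have h1 : T * y = algebraMap K F (-g) := by
      rw [map_neg, eq_neg_iff_add_eq_zero, add_comm]; exact h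
    have h2 := congrArg v.ord h1
    rw [v.ord_mul hT0 hy0, H117.ord_algebraMap] at h2
    have := H117.ord_nonneg_of_mem v hy
    omega

/-- **Tower lemma.**  If `J * D = T ^ k * U` with `D`, `U` units at `v`, then
`ord J = k * ord T`. -/
theorem ord_eq_of_key {J D T U : F} (k : ℕ) (hkey : J * D = T ^ k * U)
    (hD0 : D ≠ 0) (hD : v.ord D = 0) (hU0 : U ≠ 0) (hU : v.ord U = 0) (hT0 : T ≠ 0) :
    J ≠ 0 ∧ v.ord J = k * v.ord T := by
  have hJ0 : J ≠ 0 := by
    intro h
    rw [h, zero_mul] at hkey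
    exact (mul_ne_zero (pow_ne_zero k hT0) hU0) hkey.symm
  refine ⟨hJ0, ?_⟩
  have h1 := congrArg v.ord hkey
  rw [v.ord_mul hJ0 hD0, v.ord_mul (pow_ne_zero k hT0) hU0, H117.ord_pow, hD, hU] at h1
  simpa using h1

/-- A positive integer `e` with `k * e ∣ k` (`k > 0`) is `1`. -/
theorem eq_one_of_mul_dvd {k : ℕ} (hk : 0 < k) {e : ℤ} (he : 0 < e) (h : (k : ℤ) * e ∣ (k : ℤ)) :
    e = 1 := by
  have hk' : (k : ℤ) ≠ 0 := by exact_mod_cast hk.ne'
  have h1 : (k : ℤ) * e ∣ (k : ℤ) * 1 := by rwa [mul_one]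
  have h2 : e ∣ 1 := (mul_dvd_mul_iff_left hk').mp h1
  exact Int.eq_one_of_dvd_one he.le h2

end Generic

section T2

variable (M : ℕ) [NeZero M] (t : FF M) (hid : jF M * t ^ 2 = (t + 256) ^ 3)

include hid

theorem t2_ne_zero : t ≠ 0 := by
  rintro rfl
  norm_num at hid

/-- Places over `t = -64`: ramification index `1` or `2`. -/
theorem ord_t2_add_64_dvd_two (v : Place Kbar (FF M))
    (hv : 0 < v.ord (t - algebraMap Kbar (FF M) (-64))) :
    v.ord (t - algebraMap Kbar (FF M) (-64)) ∣ 2 := by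
  set T := t - algebraMap Kbar (FF M) (-64) with hT
  have ht0 : t ≠ 0 := t2_ne_zero M t hid
  have hT0 : T ≠ 0 := H117.ne_zero_of_ord_ne_zero v hv.ne'
  have htv : v.ord t = 0 := ord_eq_zero_of_ord_sub_pos v (by norm_num) hv
  have htmem : t ∈ v.toValuationSubring := mem_of_ord_sub_pos v hv
  have hTmem : T ∈ v.toValuationSubring := H117.mem_of_ord_nonneg v hv.le
  -- (j - 1728) t^2 = (t + 64) (t - 512)^2
  have key : (jF M - algebraMap Kbar (FF M) 1728) * t ^ 2
      = T * (algebraMap Kbar (FF M) (-576) + T * 1) ^ 2 := by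
    have e1 : algebraMap Kbar (FF M) (-64) = -64 := by rw [map_neg, map_ofNat]
    have e2 : algebraMap Kbar (FF M) 1728 = 1728 := map_ofNat _ _
    have e3 : algebraMap Kbar (FF M) (-576) = -576 := by rw [map_neg, map_ofNat]
    rw [hT, e1, e2, e3]
    linear_combination hid
  have hU : v.ord (algebraMap Kbar (FF M) (-576) + T * 1) = 0 :=
    ord_const_add_mul v (by norm_num) hv (one_mem _)
  have hU0 : algebraMap Kbar (FF M) (-576) + T * 1 ≠ 0 := by
    intro h
    have h2 : t ^ 2 ≠ 0 := pow_ne_zero 2 ht0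
    rw [h] at key
    simp only [ne_eq, OfNat.ofNat_ne_zero, not_false_eq_true, zero_pow, mul_zero, mul_eq_zero,
      h2, or_false] at key
    -- j = 1728, so `j` would be constant; contradiction with hid? use orders instead
    have hj : jF M = algebraMap Kbar (FF M) 1728 := sub_eq_zero.mp key
    have ht512 : t = algebraMap Kbar (FF M) 512 := by
      have : t = algebraMap Kbar (FF M) (-64) + T := by rw [hT]; ring
      have hT' : T = algebraMap Kbar (FF M) 576 := by
        have : T * 1 = -algebraMap Kbar (FF M) (-576) := by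
          rw [eq_neg_iff_add_eq_zero, add_comm]; exact h
        rw [mul_one] at this
        rw [this, ← map_neg]; norm_num
      rw [this, hT', ← map_add]; norm_num
    have : v.ord T = 0 := by
      have hT' : T = algebraMap Kbar (FF M) 576 := by
        rw [hT, ht512, ← map_sub]; norm_num
      rw [hT']; exact H117.ord_algebraMap v _
    omega
  have hj0 : jF M - algebraMap Kbar (FF M) 1728 ≠ 0 := by
    intro h
    rw [h, zero_mul] at key
    have := mul_ne_zero hT0 (pow_ne_zero 2 hU0)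
    exact this key.symm
  have hord : v.ord (jF M - algebraMap Kbar (FF M) 1728) = v.ord T := by
    have h1 := congrArg v.ord key
    rw [v.ord_mul hj0 (pow_ne_zero 2 ht0), v.ord_mul hT0 (pow_ne_zero 2 hU0),
      H117.ord_pow, H117.ord_pow, htv, hU] at h1
    simpa using h1
  have hpos : 0 < v.ord (jF M - algebraMap Kbar (FF M) 1728) := by rw [hord]; exact hv
  have := ord_j_sub_1728_dvd_two M v hpos
  rwa [hord] at this

end T2

end Fermat.Agent.S18.H558

namespace Fermat.Agent.S18.H558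

open Fermat.Agent.S24

section T2main

variable (M : ℕ) [NeZero M] (t : FF M) (hid : jF M * t ^ 2 = (t + 256) ^ 3)

include hid

/-- **`F_M / ℚ̄(t₂)` is unramified outside `t₂ ∈ {0, -64, ∞}`.** -/
theorem ord_t2_sub_eq_one (c : Kbar) (hc0 : c ≠ 0) (hc64 : c ≠ -64) (v : Place Kbar (FF M))
    (hv : 0 < v.ord (t - algebraMap Kbar (FF M) c)) :
    v.ord (t - algebraMap Kbar (FF M) c) = 1 := by
  set C : FF M := algebraMap Kbar (FF M) c with hC
  set T := t - C with hT
  have ht0 : t ≠ 0 := t2_ne_zero M t hid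
  have hT0 : T ≠ 0 := H117.ne_zero_of_ord_ne_zero v hv.ne'
  have htv : v.ord t = 0 := ord_eq_zero_of_ord_sub_pos v hc0 hv
  have htmem : t ∈ v.toValuationSubring := mem_of_ord_sub_pos v hv
  have hCmem : C ∈ v.toValuationSubring := v.algebraMap_mem' c
  have hC0 : C ≠ 0 := (map_ne_zero _).2 hc0
  have hCv : v.ord C = 0 := H117.ord_algebraMap v c
  have ht2 : v.ord (t ^ 2) = 0 := by rw [H117.ord_pow, htv]; simp
  by_cases h256 : c = -256
  · -- `j t² = (t + 256)³`
    have hCe : C = -256 := by rw [hC, h256, map_neg, map_ofNat]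
    have key : jF M * t ^ 2 = T ^ 3 * 1 := by
      rw [hT, hCe]; linear_combination hid
    obtain ⟨hJ0, hJ⟩ := ord_eq_of_key v 3 key (pow_ne_zero 2 ht0) ht2 one_ne_zero v.ord_one hT0
    have hpos : 0 < v.ord (jF M) := by rw [hJ]; positivity
    have h3 := ord_j_dvd_three M v hpos
    rw [hJ] at h3
    exact eq_one_of_mul_dvd (k := 3) (by norm_num) hv (by exact_mod_cast h3)
  by_cases h512 : c = 512
  · -- `(j - 1728) t² = (t - 512)² (t + 64)`
    have hCe : C = 512 := by rw [hC, h512, map_ofNat]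
    have e2 : algebraMap Kbar (FF M) 1728 = 1728 := map_ofNat _ _
    have e3 : algebraMap Kbar (FF M) 576 = 576 := map_ofNat _ _
    have key : (jF M - algebraMap Kbar (FF M) 1728) * t ^ 2
        = T ^ 2 * (algebraMap Kbar (FF M) 576 + T * 1) := by
      rw [hT, hCe, e2, e3]; linear_combination hid
    obtain ⟨hJ0, hJ⟩ := ord_eq_of_key v 2 key (pow_ne_zero 2 ht0) ht2
      (const_add_mul_ne_zero v (by norm_num) hv (one_mem _))
      (ord_const_add_mul v (by norm_num) hv (one_mem _)) hT0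
    have hpos : 0 < v.ord (jF M - algebraMap Kbar (FF M) 1728) := by rw [hJ]; positivity
    have h2 := ord_j_sub_1728_dvd_two M v hpos
    rw [hJ] at h2
    exact eq_one_of_mul_dvd (k := 2) (by norm_num) hv (by exact_mod_cast h2)
  · -- generic case
    set a : Kbar := (c + 256) ^ 3 / c ^ 2 with ha
    have hc2 : c ^ 2 ≠ 0 := pow_ne_zero 2 hc0
    have hac : a * c ^ 2 = (c + 256) ^ 3 := by rw [ha]; field_simp
    have ha0 : a ≠ 0 := by
      rw [ha]
      refine div_ne_zero (pow_ne_zero 3 ?_) hc2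
      intro h
      exact h256 (eq_neg_of_add_eq_zero_left h)
    have ha1728 : a ≠ 1728 := by
      intro h
      rw [h] at hac
      have : (c + 64) * (c - 512) ^ 2 = 0 := by linear_combination -hac
      rcases mul_eq_zero.mp this with h1 | h1
      · exact hc64 (eq_neg_of_add_eq_zero_left h1)
      · exact h512 (sub_eq_zero.mp (pow_eq_zero_iff (by norm_num) |>.mp h1))
    set q : Kbar := c * (c + 256) ^ 2 * (c - 512) with hq
    have hq0 : q ≠ 0 := by
      rw [hq]
      refine mul_ne_zero (mul_ne_zero hc0 (pow_ne_zero 2 ?_)) (sub_ne_zero.mpr h512)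
      intro h
      exact h256 (eq_neg_of_add_eq_zero_left h)
    have hA : algebraMap Kbar (FF M) a * C ^ 2 = (C + 256) ^ 3 := by
      have := congrArg (algebraMap Kbar (FF M)) hac
      simpa [map_mul, map_pow, map_add, map_ofNat] using this
    have hQ : algebraMap Kbar (FF M) q = C * (C + 256) ^ 2 * (C - 512) := by
      rw [hq]; simp [map_mul, map_pow, map_add, map_sub, map_ofNat, hC]
    set W : FF M := t * C ^ 2 + C ^ 3 - 196608 * C - 16777216 with hW
    have hWmem : W ∈ v.toValuationSubring := by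
      have h1 : (196608 : FF M) ∈ v.toValuationSubring := by
        have := v.algebraMap_mem' (196608 : Kbar); rwa [map_ofNat] at this
      have h2 : (16777216 : FF M) ∈ v.toValuationSubring := by
        have := v.algebraMap_mem' (16777216 : Kbar); rwa [map_ofNat] at this
      exact sub_mem (sub_mem (add_mem (mul_mem htmem (pow_mem hCmem 2)) (pow_mem hCmem 3))
        (mul_mem h1 hCmem)) h2
    have key : (jF M - algebraMap Kbar (FF M) a) * (t ^ 2 * C ^ 2)
        = T ^ 1 * (algebraMap Kbar (FF M) q + T * W) := by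
      rw [hQ, hW, hT]
      linear_combination C ^ 2 * hid - t ^ 2 * hA
    have hD0 : t ^ 2 * C ^ 2 ≠ 0 := mul_ne_zero (pow_ne_zero 2 ht0) (pow_ne_zero 2 hC0)
    have hD : v.ord (t ^ 2 * C ^ 2) = 0 := by
      rw [v.ord_mul (pow_ne_zero 2 ht0) (pow_ne_zero 2 hC0), ht2, H117.ord_pow, hCv]; simp
    obtain ⟨hJ0, hJ⟩ := ord_eq_of_key v 1 key hD0 hD
      (const_add_mul_ne_zero v hq0 hv hWmem) (ord_const_add_mul v hq0 hv hWmem) hT0
    have hJ' : v.ord (jF M - algebraMap Kbar (FF M) a) = v.ord T := by simpa using hJ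
    have hpos : 0 < v.ord (jF M - algebraMap Kbar (FF M) a) := by rw [hJ']; exact hv
    rw [← hJ']
    exact ord_j_sub_eq_one M a ha0 ha1728 v hpos

/-- The same statement in the coordinate `s = 1/t` (chart at infinity): unramified outside
`s ∈ {0, -1/64}`. -/
theorem ord_t2_inv_sub_eq_one (s : Kbar) (hs0 : s ≠ 0) (hs64 : s ≠ -(1 / 64))
    (v : Place Kbar (FF M)) (hv : 0 < v.ord (t⁻¹ - algebraMap Kbar (FF M) s)) :
    v.ord (t⁻¹ - algebraMap Kbar (FF M) s) = 1 := by
  have ht0 : t ≠ 0 := t2_ne_zero M t hid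
  have hti : v.ord t⁻¹ = 0 := ord_eq_zero_of_ord_sub_pos v hs0 hv
  have htv : v.ord t = 0 := by rw [v.ord_inv] at hti; omega
  set S : FF M := algebraMap Kbar (FF M) s with hS
  have hS0 : S ≠ 0 := (map_ne_zero _).2 hs0
  have hSv : v.ord S = 0 := H117.ord_algebraMap v s
  -- `t⁻¹ - s = -(s / t) (t - 1/s)`
  have hrel : t⁻¹ - S = (-(S * t⁻¹)) * (t - algebraMap Kbar (FF M) s⁻¹) := by
    rw [map_inv₀, ← hS]
    have h1 : S * S⁻¹ = 1 := mul_inv_cancel₀ hS0
    have h2 : t * t⁻¹ = 1 := mul_inv_cancel₀ ht0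
    linear_combination (-t⁻¹) * h1 + S * h2
  have hne1 : -(S * t⁻¹) ≠ 0 := neg_ne_zero.mpr (mul_ne_zero hS0 (inv_ne_zero ht0))
  have hord1 : v.ord (-(S * t⁻¹)) = 0 := by
    rw [H117.ord_neg, v.ord_mul hS0 (inv_ne_zero ht0), hSv, hti]; rfl
  have hne2 : t - algebraMap Kbar (FF M) s⁻¹ ≠ 0 := by
    intro h
    rw [h, mul_zero] at hrel
    rw [hrel, v.ord_zero] at hv
    exact lt_irrefl _ hv
  have hord : v.ord (t⁻¹ - S) = v.ord (t - algebraMap Kbar (FF M) s⁻¹) := by
    rw [hrel, v.ord_mul hne1 hne2, hord1, zero_add]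
  rw [hord] at hv ⊢
  refine ord_t2_sub_eq_one M t hid s⁻¹ (inv_ne_zero hs0) ?_ v hv
  intro h
  apply hs64
  have : s = (s⁻¹)⁻¹ := (inv_inv s).symm
  rw [this, h]
  norm_num

end T2main

end Fermat.Agent.S18.H558

namespace Fermat.Agent.S18.H558

open Fermat.Agent.S24

/-- `j`-line, chart at infinity: in the coordinate `s = 1/j`, `F_N / ℚ̄(j)` is unramified outside
`s ∈ {0, 1/1728}`. -/
theorem ord_j_inv_sub_eq_one (N : ℕ) [NeZero N] (s : Kbar) (hs0 : s ≠ 0) (hs : s ≠ 1 / 1728)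
    (v : Place Kbar (FF N)) (hv : 0 < v.ord ((jF N)⁻¹ - algebraMap Kbar (FF N) s)) :
    v.ord ((jF N)⁻¹ - algebraMap Kbar (FF N) s) = 1 := by
  have hti : v.ord (jF N)⁻¹ = 0 := ord_eq_zero_of_ord_sub_pos v hs0 hv
  have ht0 : jF N ≠ 0 := by
    intro h
    rw [h, inv_zero, zero_sub, H117.ord_neg, H117.ord_algebraMap] at hv
    exact lt_irrefl _ hv
  set S : FF N := algebraMap Kbar (FF N) s with hS
  have hS0 : S ≠ 0 := (map_ne_zero _).2 hs0
  have hSv : v.ord S = 0 := H117.ord_algebraMap v s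
  have hrel : (jF N)⁻¹ - S = (-(S * (jF N)⁻¹)) * (jF N - algebraMap Kbar (FF N) s⁻¹) := by
    rw [map_inv₀, ← hS]
    have h1 : S * S⁻¹ = 1 := mul_inv_cancel₀ hS0
    have h2 : jF N * (jF N)⁻¹ = 1 := mul_inv_cancel₀ ht0
    linear_combination (-(jF N)⁻¹) * h1 + S * h2
  have hne1 : -(S * (jF N)⁻¹) ≠ 0 := neg_ne_zero.mpr (mul_ne_zero hS0 (inv_ne_zero ht0))
  have hord1 : v.ord (-(S * (jF N)⁻¹)) = 0 := by
    rw [H117.ord_neg, v.ord_mul hS0 (inv_ne_zero ht0), hSv, hti]; rfl
  have hne2 : jF N - algebraMap Kbar (FF N) s⁻¹ ≠ 0 := by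
    intro h
    rw [h, mul_zero] at hrel
    rw [hrel, v.ord_zero] at hv
    exact lt_irrefl _ hv
  have hord : v.ord ((jF N)⁻¹ - S) = v.ord (jF N - algebraMap Kbar (FF N) s⁻¹) := by
    rw [hrel, v.ord_mul hne1 hne2, hord1, zero_add]
  rw [hord] at hv ⊢
  refine ord_j_sub_eq_one N s⁻¹ (inv_ne_zero hs0) ?_ v hv
  intro h
  apply hs
  have : s = (s⁻¹)⁻¹ := (inv_inv s).symm
  rw [this, h]
  norm_num

end Fermat.Agent.S18.H558

end
end
-- ===== PACK-END S18/H558/BranchT2.lean

-- ===== PACK-BEGIN S18/H558/BranchT3.lean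
section


/-!
# S18 / MOD M2 (part 3): ramification of `F_M / ℚ̄(t)` for the Hauptmodul `t = t₃` of `X₀(3)`

Hypothesis (proved elsewhere, piece c3-i): `t ∈ FF M` with `j * t ^ 3 = (t + 27) * (t + 243) ^ 3`.
Then `F_M / ℚ̄(t)` is unramified outside `t ∈ {0, -27, ∞}`:

* `ord_t3_sub_eq_one` : `c ≠ 0`, `c ≠ -27`, `0 < v.ord (t - c)` ⟹ `v.ord (t - c) = 1`;
* `ord_t3_add_27_dvd_three` : `0 < v.ord (t + 27)` ⟹ `v.ord (t + 27) ∣ 3`;
* `ord_t3_inv_sub_eq_one` : the same in the coordinate `1/t` (chart at infinity).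
-/

set_option autoImplicit false

noncomputable section

open AlgebraicCurve ModularCurve

namespace Fermat.Agent.S18.H558

open Fermat.Agent.S24

section T3

variable (M : ℕ) [NeZero M] (t : FF M) (hid : jF M * t ^ 3 = (t + 27) * (t + 243) ^ 3)

include hid

theorem t3_ne_zero : t ≠ 0 := by
  rintro rfl
  norm_num at hid

/-- Places over `t = -27`: ramification index `1` or `3`. -/
theorem ord_t3_add_27_dvd_three (v : Place Kbar (FF M))
    (hv : 0 < v.ord (t - algebraMap Kbar (FF M) (-27))) :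
    v.ord (t - algebraMap Kbar (FF M) (-27)) ∣ 3 := by
  set T := t - algebraMap Kbar (FF M) (-27) with hT
  have ht0 : t ≠ 0 := t3_ne_zero M t hid
  have hT0 : T ≠ 0 := H117.ne_zero_of_ord_ne_zero v hv.ne'
  have htv : v.ord t = 0 := ord_eq_zero_of_ord_sub_pos v (by norm_num) hv
  have ht3 : v.ord (t ^ 3) = 0 := by rw [H117.ord_pow, htv]; simp
  have e1 : algebraMap Kbar (FF M) (-27) = -27 := by rw [map_neg, map_ofNat]
  have e3 : algebraMap Kbar (FF M) 216 = 216 := map_ofNat _ _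
  have key : jF M * t ^ 3 = T ^ 1 * (algebraMap Kbar (FF M) 216 + T * 1) ^ 3 := by
    rw [hT, e1, e3]; linear_combination hid
  have hU0 := const_add_mul_ne_zero v (g := (216 : Kbar)) (by norm_num) hv (one_mem _)
  have hU := ord_const_add_mul v (g := (216 : Kbar)) (by norm_num) hv (one_mem _)
  obtain ⟨hJ0, hJ⟩ := ord_eq_of_key v 1 key (pow_ne_zero 3 ht0) ht3 (pow_ne_zero 3 hU0)
    (by rw [H117.ord_pow, hU]; simp) hT0
  have hJ' : v.ord (jF M) = v.ord T := by simpa using hJ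
  have hpos : 0 < v.ord (jF M) := by rw [hJ']; exact hv
  have := ord_j_dvd_three M v hpos
  rwa [hJ'] at this

/-- **`F_M / ℚ̄(t₃)` is unramified outside `t₃ ∈ {0, -27, ∞}`.** -/
theorem ord_t3_sub_eq_one (c : Kbar) (hc0 : c ≠ 0) (hc27 : c ≠ -27) (v : Place Kbar (FF M))
    (hv : 0 < v.ord (t - algebraMap Kbar (FF M) c)) :
    v.ord (t - algebraMap Kbar (FF M) c) = 1 := by
  set C : FF M := algebraMap Kbar (FF M) c with hC
  set T := t - C with hT
  have ht0 : t ≠ 0 := t3_ne_zero M t hid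
  have hT0 : T ≠ 0 := H117.ne_zero_of_ord_ne_zero v hv.ne'
  have htv : v.ord t = 0 := ord_eq_zero_of_ord_sub_pos v hc0 hv
  have htmem : t ∈ v.toValuationSubring := mem_of_ord_sub_pos v hv
  have hCmem : C ∈ v.toValuationSubring := v.algebraMap_mem' c
  have hC0 : C ≠ 0 := (map_ne_zero _).2 hc0
  have hCv : v.ord C = 0 := H117.ord_algebraMap v c
  have ht3 : v.ord (t ^ 3) = 0 := by rw [H117.ord_pow, htv]; simp
  by_cases h243 : c = -243
  · -- `j t³ = (t + 243)³ (t + 27)`
    have hCe : C = -243 := by rw [hC, h243, map_neg, map_ofNat]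
    have e3 : algebraMap Kbar (FF M) (-216) = -216 := by rw [map_neg, map_ofNat]
    have key : jF M * t ^ 3 = T ^ 3 * (algebraMap Kbar (FF M) (-216) + T * 1) := by
      rw [hT, hCe, e3]; linear_combination hid
    obtain ⟨hJ0, hJ⟩ := ord_eq_of_key v 3 key (pow_ne_zero 3 ht0) ht3
      (const_add_mul_ne_zero v (by norm_num) hv (one_mem _))
      (ord_const_add_mul v (by norm_num) hv (one_mem _)) hT0
    have hpos : 0 < v.ord (jF M) := by rw [hJ]; positivity
    have h3 := ord_j_dvd_three M v hpos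
    rw [hJ] at h3
    exact eq_one_of_mul_dvd (k := 3) (by norm_num) hv (by exact_mod_cast h3)
  by_cases hquad : c ^ 2 - 486 * c - 19683 = 0
  · -- `(j - 1728) t³ = (t² - 486 t - 19683)² = (t - c)² (t - c')²`
    have e2 : algebraMap Kbar (FF M) 1728 = 1728 := map_ofNat _ _
    have hg : (2 * c - 486 : Kbar) ≠ 0 := by
      intro h
      have hc : c = 243 := by linear_combination h / 2
      rw [hc] at hquad
      norm_num at hquad
    have hG : algebraMap Kbar (FF M) (2 * c - 486) = 2 * C - 486 := by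
      simp [map_sub, map_mul, map_ofNat, hC]
    have hquad' : C ^ 2 - 486 * C - 19683 = 0 := by
      have := congrArg (algebraMap Kbar (FF M)) hquad
      simpa [map_sub, map_mul, map_pow, map_ofNat, hC] using this
    have key : (jF M - algebraMap Kbar (FF M) 1728) * t ^ 3
        = T ^ 2 * (algebraMap Kbar (FF M) (2 * c - 486) + T * 1) ^ 2 := by
      rw [hG, hT, e2]
      linear_combination hid + (2 * t ^ 2 - 972 * t - 39366 - (C ^ 2 - 486 * C - 19683)) * hquad'
    have hU0 := const_add_mul_ne_zero v hg hv (one_mem _)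
    have hU := ord_const_add_mul v hg hv (one_mem _)
    obtain ⟨hJ0, hJ⟩ := ord_eq_of_key v 2 key (pow_ne_zero 3 ht0) ht3 (pow_ne_zero 2 hU0)
      (by rw [H117.ord_pow, hU]; simp) hT0
    have hpos : 0 < v.ord (jF M - algebraMap Kbar (FF M) 1728) := by rw [hJ]; positivity
    have h2 := ord_j_sub_1728_dvd_two M v hpos
    rw [hJ] at h2
    exact eq_one_of_mul_dvd (k := 2) (by norm_num) hv (by exact_mod_cast h2)
  · -- generic case
    set a : Kbar := (c + 27) * (c + 243) ^ 3 / c ^ 3 with ha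
    have hc3 : c ^ 3 ≠ 0 := pow_ne_zero 3 hc0
    have h27' : c + 27 ≠ 0 := fun h => hc27 (eq_neg_of_add_eq_zero_left h)
    have h243' : c + 243 ≠ 0 := fun h => h243 (eq_neg_of_add_eq_zero_left h)
    have hac : a * c ^ 3 = (c + 27) * (c + 243) ^ 3 := by rw [ha]; field_simp
    have ha0 : a ≠ 0 := by
      rw [ha]
      exact div_ne_zero (mul_ne_zero h27' (pow_ne_zero 3 h243')) hc3
    have ha1728 : a ≠ 1728 := by
      intro h
      rw [h] at hac
      have : (c ^ 2 - 486 * c - 19683) ^ 2 = 0 := by linear_combination -hac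
      exact hquad (pow_eq_zero_iff (by norm_num) |>.mp this)
    set q : Kbar := c ^ 2 * (c + 243) ^ 2 * (c ^ 2 - 486 * c - 19683) with hq
    have hq0 : q ≠ 0 := by
      rw [hq]
      exact mul_ne_zero (mul_ne_zero (pow_ne_zero 2 hc0) (pow_ne_zero 2 h243')) hquad
    have hA : algebraMap Kbar (FF M) a * C ^ 3 = (C + 27) * (C + 243) ^ 3 := by
      have := congrArg (algebraMap Kbar (FF M)) hac
      simpa [map_mul, map_pow, map_add, map_ofNat] using this
    have hQ : algebraMap Kbar (FF M) q = C ^ 2 * (C + 243) ^ 2 * (C ^ 2 - 486 * C - 19683) := by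
      rw [hq]; simp [map_mul, map_pow, map_add, map_sub, map_ofNat, hC]
    set W : FF M := t ^ 2 * C ^ 3 + t * C ^ 4 - 196830 * (t * C ^ 2) - 19131876 * (t * C)
      - 387420489 * t + C ^ 5 - 196830 * C ^ 3 - 38263752 * C ^ 2 - 774840978 * C with hW
    have hnum : ∀ n : ℕ, (n : FF M) ∈ v.toValuationSubring := fun n => natCast_mem _ n
    have hWmem : W ∈ v.toValuationSubring := by
      have h1 : (196830 : FF M) ∈ v.toValuationSubring := by exact_mod_cast hnum 196830
      have h2 : (19131876 : FF M) ∈ v.toValuationSubring := by exact_mod_cast hnum 19131876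
      have h3 : (387420489 : FF M) ∈ v.toValuationSubring := by exact_mod_cast hnum 387420489
      have h4 : (38263752 : FF M) ∈ v.toValuationSubring := by exact_mod_cast hnum 38263752
      have h5 : (774840978 : FF M) ∈ v.toValuationSubring := by exact_mod_cast hnum 774840978
      refine sub_mem (sub_mem (sub_mem (add_mem (sub_mem (sub_mem (sub_mem (add_mem ?_ ?_) ?_) ?_)
        ?_) ?_) ?_) ?_) ?_
      · exact mul_mem (pow_mem htmem 2) (pow_mem hCmem 3)
      · exact mul_mem htmem (pow_mem hCmem 4)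
      · exact mul_mem h1 (mul_mem htmem (pow_mem hCmem 2))
      · exact mul_mem h2 (mul_mem htmem hCmem)
      · exact mul_mem h3 htmem
      · exact pow_mem hCmem 5
      · exact mul_mem h1 (pow_mem hCmem 3)
      · exact mul_mem h4 (pow_mem hCmem 2)
      · exact mul_mem h5 hCmem
    have key : (jF M - algebraMap Kbar (FF M) a) * (t ^ 3 * C ^ 3)
        = T ^ 1 * (algebraMap Kbar (FF M) q + T * W) := by
      rw [hQ, hW, hT]
      linear_combination C ^ 3 * hid - t ^ 3 * hA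
    have hD0 : t ^ 3 * C ^ 3 ≠ 0 := mul_ne_zero (pow_ne_zero 3 ht0) (pow_ne_zero 3 hC0)
    have hD : v.ord (t ^ 3 * C ^ 3) = 0 := by
      rw [v.ord_mul (pow_ne_zero 3 ht0) (pow_ne_zero 3 hC0), ht3, H117.ord_pow, hCv]; simp
    obtain ⟨hJ0, hJ⟩ := ord_eq_of_key v 1 key hD0 hD
      (const_add_mul_ne_zero v hq0 hv hWmem) (ord_const_add_mul v hq0 hv hWmem) hT0
    have hJ' : v.ord (jF M - algebraMap Kbar (FF M) a) = v.ord T := by simpa using hJ
    have hpos : 0 < v.ord (jF M - algebraMap Kbar (FF M) a) := by rw [hJ']; exact hv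
    rw [← hJ']
    exact ord_j_sub_eq_one M a ha0 ha1728 v hpos

/-- The same statement in the coordinate `s = 1/t` (chart at infinity): unramified outside
`s ∈ {0, -1/27}`. -/
theorem ord_t3_inv_sub_eq_one (s : Kbar) (hs0 : s ≠ 0) (hs27 : s ≠ -(1 / 27))
    (v : Place Kbar (FF M)) (hv : 0 < v.ord (t⁻¹ - algebraMap Kbar (FF M) s)) :
    v.ord (t⁻¹ - algebraMap Kbar (FF M) s) = 1 := by
  have ht0 : t ≠ 0 := t3_ne_zero M t hid
  have hti : v.ord t⁻¹ = 0 := ord_eq_zero_of_ord_sub_pos v hs0 hv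
  have htv : v.ord t = 0 := by rw [v.ord_inv] at hti; omega
  set S : FF M := algebraMap Kbar (FF M) s with hS
  have hS0 : S ≠ 0 := (map_ne_zero _).2 hs0
  have hSv : v.ord S = 0 := H117.ord_algebraMap v s
  have hrel : t⁻¹ - S = (-(S * t⁻¹)) * (t - algebraMap Kbar (FF M) s⁻¹) := by
    rw [map_inv₀, ← hS]
    have h1 : S * S⁻¹ = 1 := mul_inv_cancel₀ hS0
    have h2 : t * t⁻¹ = 1 := mul_inv_cancel₀ ht0
    linear_combination (-t⁻¹) * h1 + S * h2
  have hne1 : -(S * t⁻¹) ≠ 0 := neg_ne_zero.mpr (mul_ne_zero hS0 (inv_ne_zero ht0))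
  have hord1 : v.ord (-(S * t⁻¹)) = 0 := by
    rw [H117.ord_neg, v.ord_mul hS0 (inv_ne_zero ht0), hSv, hti]; rfl
  have hne2 : t - algebraMap Kbar (FF M) s⁻¹ ≠ 0 := by
    intro h
    rw [h, mul_zero] at hrel
    rw [hrel, v.ord_zero] at hv
    exact lt_irrefl _ hv
  have hord : v.ord (t⁻¹ - S) = v.ord (t - algebraMap Kbar (FF M) s⁻¹) := by
    rw [hrel, v.ord_mul hne1 hne2, hord1, zero_add]
  rw [hord] at hv ⊢
  refine ord_t3_sub_eq_one M t hid s⁻¹ (inv_ne_zero hs0) ?_ v hv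
  intro h
  apply hs27
  have : s = (s⁻¹)⁻¹ := (inv_inv s).symm
  rw [this, h]
  norm_num

end T3

end Fermat.Agent.S18.H558

end
end
-- ===== PACK-END S18/H558/BranchT3.lean

-- ===== PACK-BEGIN Lib/HFree/H412/R3Core.lean
section







/-!
# R3 core: a Hecke eigen-character modulo `p` of `Γ₀(M)` comes from an eigenform of level `M`

Let `c : Γ₀(M) → ℤ/p` be a nonzero parabolic character (killing parabolic and finite order
elements) with `T_ℓ c = a_ℓ c` for the primes `ℓ ∤ M`, `ℓ ∉ S`.  Then there is a normalised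
eigenform `g` of weight 2 and level `M` and a maximal ideal `𝔪 ∋ p` of `ℤ̄` with
`a_ℓ(g) ≡ a_ℓ mod 𝔪` for all those `ℓ`.

Inputs: HFree (this library), the real form of Eichler–Shimura (S21: `f ↦ Re per_f` is a
bijection `S₂(Γ₀(M)) → Hom_par(Γ₀(M), ℝ)`), Hecke equivariance of the period map (S29/H201) and
Deligne–Serre lifting (Lib/Ribet/H584).
-/

set_option autoImplicit false
set_option linter.unusedSectionVars false
set_option linter.style.haveILetI false

open CuspForm CongruenceSubgroup ModularFormClass ModularCurve ModularCurve.Period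
open scoped MatrixGroups

namespace Fermat.Agent.Lib.HFree.H412

open Fermat.Agent.S29.H201 (heckeHom heckeHom_comp heckeHom_mem_pe IsPe periodMap_heckeTLin)
open Fermat.Agent.S21 (reHom exists_re_periodMap_eq eq_zero_of_re_periodMap_eq_zero
  periodMap_add periodMap_sub periodMap_smul)

variable {M : ℕ} [NeZero M]

/-! ### Integral parabolic characters -/

/-- `ℤ`-valued characters kill elements of finite order. -/
theorem int_hom_finOrder (c : Additive (Gamma0 M) →+ ℤ) (γ : Gamma0 M) (hγ : IsOfFinOrder γ) :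
    c (Additive.ofMul γ) = 0 := by
  obtain ⟨n, hn, hγn⟩ := hγ.exists_pow_eq_one
  have h1 : c (Additive.ofMul (γ ^ n)) = n • c (Additive.ofMul γ) := by
    rw [ofMul_pow, map_nsmul]
  rw [hγn, ofMul_one, map_zero] at h1
  have hn' : (n : ℤ) ≠ 0 := by exact_mod_cast hn.ne'
  rw [nsmul_eq_mul] at h1
  exact (mul_eq_zero.mp h1.symm).resolve_left hn'

theorem isPe_int {c : Additive (Gamma0 M) →+ ℤ} (hc : IsParabolicHom (Gamma0 M) c) : IsPe c :=
  ⟨hc, fun γ hγ => int_hom_finOrder c γ hγ⟩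

/-- HFree for bundled characters. -/
theorem exists_lift_isPe (m : ℕ) [NeZero m] (c : Additive (Gamma0 M) →+ ZMod m) (hc : IsPe c) :
    ∃ c' : Additive (Gamma0 M) →+ ℤ, IsParabolicHom (Gamma0 M) c' ∧
      (Int.castAddHom (ZMod m)).comp c' = c := by
  obtain ⟨c', hc', hpar, hred⟩ := exists_lift_addChar (Γ := Gamma0 M)
    (neg_one_mem_Gamma0_HFree M) m (fun γ => c (Additive.ofMul γ))
    (fun γ γ' => map_add c (Additive.ofMul γ) (Additive.ofMul γ'))
    (fun γ n hn hγ => hc.2 γ (isOfFinOrder_iff_pow_eq_one.mpr ⟨n, hn, hγ⟩))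
    (fun γ hγ => hc.1 γ (by rw [hγ]; norm_num))
  refine ⟨AddMonoidHom.mk' (fun γ => c' (Additive.toMul γ)) (fun γ γ' => hc' _ _), ?_, ?_⟩
  · intro γ hγ
    have h2 : ((γ : SL(2, ℤ)) : Matrix (Fin 2) (Fin 2) ℤ).trace = 2 ∨
        ((γ : SL(2, ℤ)) : Matrix (Fin 2) (Fin 2) ℤ).trace = -2 := by
      have : (((γ : SL(2, ℤ)) : Matrix (Fin 2) (Fin 2) ℤ).trace - 2) *
          (((γ : SL(2, ℤ)) : Matrix (Fin 2) (Fin 2) ℤ).trace + 2) = 0 := by
        linear_combination hγ
      rcases mul_eq_zero.mp this with h' | h'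
      · left; linarith
      · right; linarith
    exact hpar γ h2
  · refine AddMonoidHom.ext fun γ => ?_
    exact hred (Additive.toMul γ)

/-- An integral parabolic character which vanishes modulo `m` is divisible by `m`. -/
theorem exists_eq_nsmul_of_comp_eq_zero (m : ℕ) [NeZero m] (c : Additive (Gamma0 M) →+ ℤ)
    (hc : IsParabolicHom (Gamma0 M) c) (h0 : (Int.castAddHom (ZMod m)).comp c = 0) :
    ∃ c' : Additive (Gamma0 M) →+ ℤ, IsParabolicHom (Gamma0 M) c' ∧ c = m • c' := by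
  have hm0 : (m : ℤ) ≠ 0 := by exact_mod_cast NeZero.ne m
  have hdvd : ∀ γ : Additive (Gamma0 M), ∃ e : ℤ, c γ = m * e := fun γ =>
    (ZMod.intCast_zmod_eq_zero_iff_dvd (c γ) m).mp (DFunLike.congr_fun h0 γ)
  choose c' hc' using hdvd
  refine ⟨AddMonoidHom.mk' c' (fun γ γ' => ?_), fun γ hγ => ?_, ?_⟩
  · apply mul_left_cancel₀ hm0
    rw [mul_add, ← hc', ← hc', ← hc', map_add]
  · apply mul_left_cancel₀ hm0
    show (m : ℤ) * c' (Additive.ofMul γ) = m * 0
    rw [← hc', mul_zero, hc γ hγ]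
  · refine AddMonoidHom.ext fun γ => ?_
    show c γ = (m • AddMonoidHom.mk' c' _) γ
    rw [AddMonoidHom.smul_apply, nsmul_eq_mul]
    exact hc' γ

/-! ### The lattice of cusp forms with integral real periods -/

/-- The cusp forms whose real periods form an integral parabolic character. -/
def intPerLattice (M : ℕ) [NeZero M] : AddSubgroup (CuspForm (Gamma0 M) 2) where
  carrier := {f | ∃ c : Additive (Gamma0 M) →+ ℤ, IsParabolicHom (Gamma0 M) c ∧
    reHom (periodMap M f) = (Int.castAddHom ℝ).comp c}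
  zero_mem' := by
    refine ⟨0, fun _ _ => rfl, ?_⟩
    refine AddMonoidHom.ext fun γ => ?_
    have h0 : periodMap M (0 : CuspForm (Gamma0 M) 2) = 0 := by
      have := periodMap_smul (N := M) (0 : ℂ) (0 : CuspForm (Gamma0 M) 2)
      rwa [zero_smul, zero_smul] at this
    show (periodMap M (0 : CuspForm (Gamma0 M) 2) γ).re = ((0 : ℤ) : ℝ)
    rw [h0]
    simp
  add_mem' := by
    rintro f g ⟨c, hc, hf⟩ ⟨d, hd, hg⟩
    refine ⟨c + d, fun γ hγ => ?_, ?_⟩
    · show c (Additive.ofMul γ) + d (Additive.ofMul γ) = 0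
      rw [hc γ hγ, hd γ hγ, add_zero]
    · refine AddMonoidHom.ext fun γ => ?_
      have h1 : (periodMap M f γ).re = ((c γ : ℤ) : ℝ) := DFunLike.congr_fun hf γ
      have h2 : (periodMap M g γ).re = ((d γ : ℤ) : ℝ) := DFunLike.congr_fun hg γ
      show (periodMap M (f + g) γ).re = (((c + d) γ : ℤ) : ℝ)
      rw [periodMap_add, AddMonoidHom.add_apply, Complex.add_re, h1, h2,
        AddMonoidHom.add_apply]
      push_cast
      rfl
  neg_mem' := by
    rintro f ⟨c, hc, hf⟩
    refine ⟨-c, fun γ hγ => ?_, ?_⟩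
    · show -c (Additive.ofMul γ) = 0
      rw [hc γ hγ, neg_zero]
    · refine AddMonoidHom.ext fun γ => ?_
      have h1 : (periodMap M f γ).re = ((c γ : ℤ) : ℝ) := DFunLike.congr_fun hf γ
      have hneg : periodMap M (-f) = -periodMap M f := by
        have := periodMap_smul (N := M) (-1 : ℂ) f
        rwa [neg_one_smul, neg_one_smul] at this
      show (periodMap M (-f) γ).re = (((-c) γ : ℤ) : ℝ)
      rw [hneg, AddMonoidHom.neg_apply, Complex.neg_re, h1, AddMonoidHom.neg_apply]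
      push_cast
      rfl

theorem mem_intPerLattice {f : CuspForm (Gamma0 M) 2} :
    f ∈ intPerLattice M ↔ ∃ c : Additive (Gamma0 M) →+ ℤ, IsParabolicHom (Gamma0 M) c ∧
      reHom (periodMap M f) = (Int.castAddHom ℝ).comp c := Iff.rfl

/-- Every integral parabolic character is the real period character of a cusp form. -/
theorem exists_mem_intPerLattice (c : Additive (Gamma0 M) →+ ℤ)
    (hc : IsParabolicHom (Gamma0 M) c) :
    ∃ f : CuspForm (Gamma0 M) 2, reHom (periodMap M f) = (Int.castAddHom ℝ).comp c := by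
  obtain ⟨f, hf⟩ := exists_re_periodMap_eq ((Int.castAddHom ℝ).comp c) (fun γ hγ => by
    show ((c (Additive.ofMul γ) : ℤ) : ℝ) = 0
    rw [hc γ hγ]
    simp)
  refine ⟨f, AddMonoidHom.ext fun γ => ?_⟩
  obtain ⟨γ, rfl⟩ : ∃ γ' : Gamma0 M, Additive.ofMul γ' = γ := ⟨Additive.toMul γ, rfl⟩
  exact hf γ

/-- A cusp form is determined by its real periods. -/
theorem eq_of_reHom_periodMap_eq {f g : CuspForm (Gamma0 M) 2}
    (h : reHom (periodMap M f) = reHom (periodMap M g)) : f = g := by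
  rw [← sub_eq_zero]
  refine eq_zero_of_re_periodMap_eq_zero (f - g) fun γ => ?_
  have h1 : (periodMap M f (Additive.ofMul γ)).re = (periodMap M g (Additive.ofMul γ)).re :=
    DFunLike.congr_fun h (Additive.ofMul γ)
  rw [periodMap_sub, AddMonoidHom.sub_apply, Complex.sub_re, h1, sub_self]

/-- Real periods of `T_ℓ f`. -/
theorem reHom_periodMap_heckeTLin {ℓ : ℕ} [Fact ℓ.Prime] (hℓ : ℓ.Prime) (hℓM : ¬ ℓ ∣ M)
    (f : CuspForm (Gamma0 M) 2) :
    reHom (periodMap M (heckeTLin 2 hℓ hℓM f)) = heckeHom ℓ hℓM ℝ (reHom (periodMap M f)) := by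
  rw [periodMap_heckeTLin hℓ hℓM f]
  exact (heckeHom_comp hℓM Complex.reLm.toAddMonoidHom (periodMap M f)).symm

theorem heckeTLin_mem_intPerLattice {ℓ : ℕ} (hℓ : ℓ.Prime) (hℓM : ¬ ℓ ∣ M)
    {f : CuspForm (Gamma0 M) 2} (hf : f ∈ intPerLattice M) :
    heckeTLin 2 hℓ hℓM f ∈ intPerLattice M := by
  haveI : Fact ℓ.Prime := ⟨hℓ⟩
  obtain ⟨c, hc, hfc⟩ := hf
  refine ⟨heckeHom ℓ hℓM ℤ c, (heckeHom_mem_pe hℓM (isPe_int hc)).1, ?_⟩
  rw [reHom_periodMap_heckeTLin hℓ hℓM, hfc, heckeHom_comp]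

/-- The Hecke algebra away from `S'` (containing all primes dividing `M`) preserves the lattice. -/
theorem apply_mem_intPerLattice (S' : Set ℕ) (hS' : ∀ q : ℕ, q.Prime → q ∣ M → q ∈ S')
    {t : Module.End ℂ (CuspForm (Gamma0 M) 2)} (ht : t ∈ heckeAlgebra M 2 S')
    {f : CuspForm (Gamma0 M) 2} (hf : f ∈ intPerLattice M) : t f ∈ intPerLattice M := by
  induction ht using Algebra.adjoin_induction generalizing f with
  | mem x hx =>
    rcases hx with ⟨ℓ, hℓ, hℓM, -, rfl⟩ | ⟨q, hqM, hq, hqS, rfl⟩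
    · exact heckeTLin_mem_intPerLattice hℓ hℓM hf
    · exact absurd (hS' q hq hqM) hqS
  | algebraMap r =>
    rw [Algebra.algebraMap_eq_smul_one, LinearMap.smul_apply, Module.End.one_apply]
    exact (intPerLattice M).zsmul_mem hf r
  | add x y _ _ hx hy =>
    rw [LinearMap.add_apply]
    exact (intPerLattice M).add_mem (hx hf) (hy hf)
  | mul x y _ _ hx hy =>
    rw [Module.End.mul_apply]
    exact hx (hy hf)

/-! ### The main theorem -/

/-- **R3 core.** A nonzero parabolic Hecke eigen-character modulo `p` of `Γ₀(M)` is congruent to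
a normalised eigenform of level `M`. -/
theorem exists_eigenform_of_eigen_isPe {p : ℕ} (hp : p.Prime) (S : Set ℕ) (a : ℕ → ℤ)
    (c : Additive (Gamma0 M) →+ ZMod p) (hc : IsPe c) (hc0 : c ≠ 0)
    (heig : ∀ (ℓ : ℕ) [Fact ℓ.Prime] (hℓM : ¬ ℓ ∣ M), ℓ ∉ S →
      heckeHom ℓ hℓM (ZMod p) c = a ℓ • c) :
    ∃ (g : CuspForm (Gamma0 M) 2) (𝔪 : Ideal (integralClosure ℤ ℂ)),
      g.IsNormalizedEigenform ∧ 𝔪.IsMaximal ∧ (p : integralClosure ℤ ℂ) ∈ 𝔪 ∧
      ∀ ℓ : ℕ, ℓ.Prime → ¬ ℓ ∣ M → ℓ ∉ S →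
        ∃ b : integralClosure ℤ ℂ, (b : ℂ) = qCoeff g ℓ ∧
          b - ((a ℓ : ℤ) : integralClosure ℤ ℂ) ∈ 𝔪 := by
  classical
  haveI : NeZero p := ⟨hp.ne_zero⟩
  -- the excluded set
  set S' : Set ℕ := {ℓ | ℓ ∈ S ∨ ℓ ∣ M} with hS'def
  have hS' : ∀ q : ℕ, q.Prime → q ∣ M → q ∈ S' := fun q _ hqM => Or.inr hqM
  -- lift the character and realise it by real periods
  obtain ⟨c', hc'par, hc'red⟩ := exists_lift_isPe p c hc
  obtain ⟨f₀, hf₀⟩ := exists_mem_intPerLattice c' hc'par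
  have hf₀L : f₀ ∈ intPerLattice M := ⟨c', hc'par, hf₀⟩
  -- the ideal
  set gens : Set (heckeAlgebra M 2 S') :=
    insert ((p : ℕ) : heckeAlgebra M 2 S')
      {t | ∃ (ℓ : ℕ) (hℓ : ℓ.Prime) (hℓM : ¬ ℓ ∣ M) (hℓS : ℓ ∉ S'),
        t = heckeAlgebra.T hℓ hℓM hℓS - ((a ℓ : ℤ) : heckeAlgebra M 2 S')} with hgens
  have hkey : ∀ t ∈ Ideal.span gens, ∃ f' ∈ intPerLattice M,
      (t : Module.End ℂ (CuspForm (Gamma0 M) 2)) f₀ = p • f' := by
    intro t ht
    induction ht using Submodule.span_induction with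
    | mem x hx =>
      rcases hx with rfl | ⟨ℓ, hℓ, hℓM, hℓS, rfl⟩
      · refine ⟨f₀, hf₀L, ?_⟩
        show ((heckeAlgebra M 2 S').val ((p : ℕ) : heckeAlgebra M 2 S')) f₀ = p • f₀
        rw [map_natCast, Module.End.natCast_apply]
      · haveI : Fact ℓ.Prime := ⟨hℓ⟩
        have hℓS0 : ℓ ∉ S := fun h => hℓS (Or.inl h)
        -- the integral character `T_ℓ c' - a_ℓ c'` vanishes mod `p`
        set d : Additive (Gamma0 M) →+ ℤ := heckeHom ℓ hℓM ℤ c' - a ℓ • c' with hd
        have hdpar : IsParabolicHom (Gamma0 M) d := by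
          intro γ hγ
          show heckeHom ℓ hℓM ℤ c' (Additive.ofMul γ) - a ℓ • c' (Additive.ofMul γ) = 0
          rw [(heckeHom_mem_pe hℓM (isPe_int hc'par)).1 γ hγ, hc'par γ hγ]
          simp
        have hdred : (Int.castAddHom (ZMod p)).comp d = 0 := by
          have h1 : (Int.castAddHom (ZMod p)).comp (heckeHom ℓ hℓM ℤ c') =
              heckeHom ℓ hℓM (ZMod p) c := by
            rw [← heckeHom_comp, hc'red]
          refine AddMonoidHom.ext fun γ => ?_
          have h2 := DFunLike.congr_fun h1 γ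
          have h3 := DFunLike.congr_fun (heig ℓ hℓM hℓS0) γ
          have h4 := DFunLike.congr_fun hc'red γ
          simp only [AddMonoidHom.comp_apply, Int.coe_castAddHom, AddMonoidHom.smul_apply]
            at h2 h3 h4
          show (((heckeHom ℓ hℓM ℤ c' γ - a ℓ • c' γ : ℤ)) : ZMod p) = 0
          rw [smul_eq_mul]
          push_cast
          rw [h2, h3, h4, zsmul_eq_mul, sub_self]
        obtain ⟨d', hd'par, hdd'⟩ := exists_eq_nsmul_of_comp_eq_zero p d hdpar hdred
        obtain ⟨f', hf'⟩ := exists_mem_intPerLattice d' hd'par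
        refine ⟨f', ⟨d', hd'par, hf'⟩, ?_⟩
        have hcoe : ((heckeAlgebra.T hℓ hℓM hℓS - ((a ℓ : ℤ) : heckeAlgebra M 2 S') :
            heckeAlgebra M 2 S') : Module.End ℂ (CuspForm (Gamma0 M) 2)) f₀ =
            heckeTLin 2 hℓ hℓM f₀ - (a ℓ : ℤ) • f₀ := by
          show ((heckeAlgebra M 2 S').val (heckeAlgebra.T hℓ hℓM hℓS -
            ((a ℓ : ℤ) : heckeAlgebra M 2 S'))) f₀ = _
          rw [map_sub, map_intCast, LinearMap.sub_apply, Module.End.intCast_apply]
          rfl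
        rw [hcoe]
        apply eq_of_reHom_periodMap_eq
        refine AddMonoidHom.ext fun γ => ?_
        have e1 := DFunLike.congr_fun (reHom_periodMap_heckeTLin hℓ hℓM f₀) γ
        have e2 := DFunLike.congr_fun hf₀ γ
        have e3 := DFunLike.congr_fun hf' γ
        have e4 := DFunLike.congr_fun hdd' γ
        have e5 := DFunLike.congr_fun (heckeHom_comp hℓM (Int.castAddHom ℝ) c') γ
        rw [hf₀] at e1
        rw [e5] at e1
        have hsmulp : periodMap M (p • f') = (p : ℂ) • periodMap M f' := by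
          rw [← periodMap_smul, Nat.cast_smul_eq_nsmul]
        have hsmula : periodMap M ((a ℓ : ℤ) • f₀) = (a ℓ : ℂ) • periodMap M f₀ := by
          rw [← periodMap_smul, Int.cast_smul_eq_zsmul]
        show (periodMap M (heckeTLin 2 hℓ hℓM f₀ - (a ℓ : ℤ) • f₀) γ).re =
          (periodMap M (p • f') γ).re
        rw [periodMap_sub, hsmulp, hsmula]
        simp only [AddMonoidHom.sub_apply, AddMonoidHom.smul_apply, Complex.sub_re,
          smul_eq_mul, Complex.mul_re, Complex.intCast_re, Complex.intCast_im,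
          Complex.natCast_re, Complex.natCast_im, zero_mul, sub_zero]
        have e1' : (periodMap M (heckeTLin 2 hℓ hℓM f₀) γ).re =
            ((heckeHom ℓ hℓM ℤ c' γ : ℤ) : ℝ) := e1
        have e2' : (periodMap M f₀ γ).re = ((c' γ : ℤ) : ℝ) := e2
        have e3' : (periodMap M f' γ).re = ((d' γ : ℤ) : ℝ) := e3
        have e4' : heckeHom ℓ hℓM ℤ c' γ - a ℓ * c' γ = p * d' γ := by
          simpa [hd, AddMonoidHom.sub_apply, AddMonoidHom.smul_apply, zsmul_eq_mul,
            nsmul_eq_mul] using e4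
        rw [e1', e2', e3']
        exact_mod_cast e4'
    | zero =>
      refine ⟨0, (intPerLattice M).zero_mem, ?_⟩
      simp
    | add x y _ _ hx hy =>
      obtain ⟨f₁, hf₁, e₁⟩ := hx
      obtain ⟨f₂, hf₂, e₂⟩ := hy
      refine ⟨f₁ + f₂, (intPerLattice M).add_mem hf₁ hf₂, ?_⟩
      rw [Subalgebra.coe_add, LinearMap.add_apply, e₁, e₂, smul_add]
    | smul b x _ hx =>
      obtain ⟨f₁, hf₁, e₁⟩ := hx
      refine ⟨(b : Module.End ℂ (CuspForm (Gamma0 M) 2)) f₁,
        apply_mem_intPerLattice S' hS' b.2 hf₁, ?_⟩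
      rw [smul_eq_mul, Subalgebra.coe_mul, Module.End.mul_apply, e₁, map_nsmul]
  -- the ideal is proper
  have hne : Ideal.span gens ≠ ⊤ := by
    intro htop
    obtain ⟨f', ⟨d', hd'par, hf'⟩, e⟩ := hkey 1 (htop ▸ Submodule.mem_top)
    rw [Subalgebra.coe_one, Module.End.one_apply] at e
    apply hc0
    rw [← hc'red]
    refine AddMonoidHom.ext fun γ => ?_
    have e2 : (periodMap M f₀ γ).re = ((c' γ : ℤ) : ℝ) := DFunLike.congr_fun hf₀ γ
    have e3 : (periodMap M f' γ).re = ((d' γ : ℤ) : ℝ) := DFunLike.congr_fun hf' γ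
    have hsmulp : periodMap M (p • f') = (p : ℂ) • periodMap M f' := by
      rw [← periodMap_smul, Nat.cast_smul_eq_nsmul]
    rw [e, hsmulp] at e2
    simp only [AddMonoidHom.smul_apply, smul_eq_mul, Complex.mul_re, Complex.natCast_re,
      Complex.natCast_im, zero_mul, sub_zero] at e2
    rw [e3] at e2
    have e4 : (p : ℤ) * d' γ = c' γ := by exact_mod_cast e2
    show ((c' γ : ℤ) : ZMod p) = 0
    rw [← e4]
    push_cast
    simp
  obtain ⟨𝔫, h𝔫max, h𝔫le⟩ := Ideal.exists_le_maximal _ hne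
  letI : Field (heckeAlgebra M 2 S' ⧸ 𝔫) := Ideal.Quotient.field 𝔫
  have hpk : ((p : ℕ) : heckeAlgebra M 2 S' ⧸ 𝔫) = 0 := by
    have h1 : ((p : ℕ) : heckeAlgebra M 2 S') ∈ 𝔫 :=
      h𝔫le (Ideal.subset_span (Set.mem_insert _ _))
    have h2 := Ideal.Quotient.eq_zero_iff_mem.mpr h1
    rwa [map_natCast] at h2
  haveI : CharP (heckeAlgebra M 2 S' ⧸ 𝔫) p := (CharP.charP_iff_prime_eq_zero hp).mpr hpk
  obtain ⟨g, 𝔪, hg, h𝔪, hp𝔪, hcongr⟩ :=
    Fermat.Agent.Lib.Ribet.H584.exists_eigenform_congr_of_ringHom S' p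
      (Ideal.Quotient.mk 𝔫) a (fun ℓ hℓ hℓM hℓS => by
        have h1 : heckeAlgebra.T hℓ hℓM hℓS - ((a ℓ : ℤ) : heckeAlgebra M 2 S') ∈ 𝔫 :=
          h𝔫le (Ideal.subset_span (Set.mem_insert_of_mem _ ⟨ℓ, hℓ, hℓM, hℓS, rfl⟩))
        have h2 := Ideal.Quotient.eq_zero_iff_mem.mpr h1
        rw [map_sub, map_intCast, sub_eq_zero] at h2
        exact h2)
  refine ⟨g, 𝔪, hg, h𝔪, hp𝔪, fun ℓ hℓ hℓM hℓS => hcongr ℓ hℓ hℓM ?_⟩
  rintro (h | h)
  · exact hℓS h
  · exact hℓM h

/-! ### The same in the language of `Fermat.Agent.S29.DefsM` (`G0`, `IsParHom`, `heckeCoh`) -/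

open Fermat.Agent.S29 (G0 IsParHom heckeCoh)

/-- The bundled character of a parabolic character in the sense of `S29.DefsM`. -/
def bundle {A : Type*} [AddCommGroup A] (c : G0 M → A) (hc : IsParHom c) :
    Additive (Gamma0 M) →+ A :=
  AddMonoidHom.mk' (fun γ => c (Additive.toMul γ)) (fun _ _ => hc.map_mul _ _)

theorem bundle_apply {A : Type*} [AddCommGroup A] (c : G0 M → A) (hc : IsParHom c)
    (γ : Gamma0 M) : bundle c hc (Additive.ofMul γ) = c γ := rfl

theorem isPe_bundle {A : Type*} [AddCommGroup A] (c : G0 M → A) (hc : IsParHom c) :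
    IsPe (bundle c hc) := by
  refine ⟨fun γ hγ => ?_, fun γ hγ => ?_⟩
  · have h2 : ((γ : SL(2, ℤ)) : Matrix (Fin 2) (Fin 2) ℤ).trace = 2 ∨
        ((γ : SL(2, ℤ)) : Matrix (Fin 2) (Fin 2) ℤ).trace = -2 := by
      have : (((γ : SL(2, ℤ)) : Matrix (Fin 2) (Fin 2) ℤ).trace - 2) *
          (((γ : SL(2, ℤ)) : Matrix (Fin 2) (Fin 2) ℤ).trace + 2) = 0 := by
        linear_combination hγ
      rcases mul_eq_zero.mp this with h' | h'
      · left; linarith
      · right; linarith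
    exact hc.parabolic γ h2
  · obtain ⟨n, hn, hγn⟩ := hγ.exists_pow_eq_one
    exact hc.elliptic γ n hn hγn

theorem heckeHom_bundle {A : Type*} [AddCommGroup A] {ℓ : ℕ} [Fact ℓ.Prime] (hℓM : ¬ ℓ ∣ M)
    (c : G0 M → A) (hc : IsParHom c) (γ : Gamma0 M) :
    heckeHom ℓ hℓM A (bundle c hc) (Additive.ofMul γ) = heckeCoh M ℓ c γ := by
  rw [Fermat.Agent.S29.M4aTop_heckeCoh_eq_sum_trf hℓM c γ]
  rfl

/-- **R3 core**, `S29.DefsM` form. -/
theorem exists_eigenform_of_eigen_isParHom {p : ℕ} (hp : p.Prime) (S : Set ℕ) (a : ℕ → ℤ)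
    (c : G0 M → ZMod p) (hc : IsParHom c) (hc0 : ∃ γ, c γ ≠ 0)
    (heig : ∀ ℓ : ℕ, ℓ.Prime → ¬ ℓ ∣ M → ℓ ∉ S →
      ∀ γ : G0 M, heckeCoh M ℓ c γ = (a ℓ : ZMod p) * c γ) :
    ∃ (g : CuspForm (Gamma0 M) 2) (𝔪 : Ideal (integralClosure ℤ ℂ)),
      g.IsNormalizedEigenform ∧ 𝔪.IsMaximal ∧ (p : integralClosure ℤ ℂ) ∈ 𝔪 ∧
      ∀ ℓ : ℕ, ℓ.Prime → ¬ ℓ ∣ M → ℓ ∉ S →
        ∃ b : integralClosure ℤ ℂ, (b : ℂ) = qCoeff g ℓ ∧
          b - ((a ℓ : ℤ) : integralClosure ℤ ℂ) ∈ 𝔪 := by
  refine exists_eigenform_of_eigen_isPe hp S a (bundle c hc) (isPe_bundle c hc) ?_ ?_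
  · intro h0
    obtain ⟨γ, hγ⟩ := hc0
    apply hγ
    rw [← bundle_apply c hc γ, h0]
    rfl
  · intro ℓ _ hℓM hℓS
    refine AddMonoidHom.ext fun γ => ?_
    obtain ⟨γ, rfl⟩ : ∃ γ' : Gamma0 M, Additive.ofMul γ' = γ := ⟨Additive.toMul γ, rfl⟩
    rw [heckeHom_bundle hℓM c hc γ, heig ℓ Fact.out hℓM hℓS γ, AddMonoidHom.smul_apply,
      bundle_apply, zsmul_eq_mul]

end Fermat.Agent.Lib.HFree.H412

end
-- ===== PACK-END Lib/HFree/H412/R3Core.lean

-- ===== PACK-BEGIN Ribet/H132/InstA.lean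
section




/-!
# RIBET wall-p, I6 instantiation leaf INST-A: chart → node ring (helper132)

Board: `origin/helper704:coord/RIBET-I6-helper704.md` §9.  The leaves NODE / WPUR / ETNODE of
`Ribet/H704/I6Spec.lean` are statements about an abstract *node ring* (`I6.IsNode`).  This file
produces the node ring of a semistable chart at a crossing point.

* `exists_uniformiser_mem`  : in a local ring with `P₁ ⊔ P₂ = 𝔪` and `O ⧸ P₁` a discrete valuation
  ring, some element of `P₂` is a uniformiser of `O ⧸ P₁`.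
* `isNode_of_uniformisers`  : the structure `I6.IsNode` from the local data of
  `A2.H372.node_local_data` and two branch uniformisers.
* `exists_isNode_locAt`     : `B` a noetherian integrally closed domain with fraction field `F`,
  `p₁ ⊓ p₂ = (w)`, `B ⧸ pᵢ` Dedekind, `p₁ ⊔ p₂` radical, `n ⊇ p₁ + p₂` prime: the local ring
  `B_n = A2.H849.locAt F n ⊆ F` is a node ring, with uniformisers `x ∈ p₂`, `y ∈ p₁` taken in `B`.
  (`B_n` is a noetherian integrally closed local domain with fraction field `F`: instances of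
  `A2.H849` / `A2.H609`.)
* `exists_isNode_chart`     : the same for a chart of `A2.SSChart` in the setting `Alg.ChartCtx`
  of wall A2 (all instances derived from the chart hypotheses).

Mathlib + landed A2 files only; no completion, no hypothesis on the thickness.
-/

set_option autoImplicit false
set_option linter.unusedSectionVars false
set_option linter.style.haveILetI false

namespace Fermat.Agent.Ribet.H132

open Fermat.Agent.Ribet.H704 Fermat.Agent.A2 Fermat.Agent.A2.H849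

section Abstract

variable {O : Type*} [CommRing O] [IsLocalRing O]

/-- In a local ring with `P₁ ⊔ P₂ = 𝔪` and `O ⧸ P₁` a discrete valuation ring, some element of
`P₂` is a uniformiser of the branch `O ⧸ P₁`. -/
theorem exists_uniformiser_mem (P₁ P₂ : Ideal O) [P₁.IsPrime]
    [IsDiscreteValuationRing (O ⧸ P₁)]
    (hsup : P₁ ⊔ P₂ = IsLocalRing.maximalIdeal O) :
    ∃ x ∈ P₂, Irreducible (Ideal.Quotient.mk P₁ x) := by
  obtain ⟨ϖ, hϖ⟩ := IsDiscreteValuationRing.exists_irreducible (O ⧸ P₁)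
  obtain ⟨z, rfl⟩ := Ideal.Quotient.mk_surjective ϖ
  have hz : z ∈ IsLocalRing.maximalIdeal O := by
    rw [IsLocalRing.mem_maximalIdeal, mem_nonunits_iff]
    exact fun h => hϖ.not_isUnit (h.map _)
  rw [← hsup] at hz
  obtain ⟨a, ha, x, hx, rfl⟩ := Submodule.mem_sup.1 hz
  refine ⟨x, hx, ?_⟩
  have : Ideal.Quotient.mk P₁ (a + x) = Ideal.Quotient.mk P₁ x := by
    rw [map_add, Ideal.Quotient.eq_zero_iff_mem.2 ha, zero_add]
  rwa [this] at hϖ

/-- The structure `I6.IsNode` from the local data at a crossing point and two branch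
uniformisers. -/
theorem isNode_of_uniformisers (P₁ P₂ : Ideal O) (π x y : O) [hP₁ : P₁.IsPrime]
    [hP₂ : P₂.IsPrime] [IsDiscreteValuationRing (O ⧸ P₁)] [IsDiscreteValuationRing (O ⧸ P₂)]
    (hinf : P₁ ⊓ P₂ = Ideal.span {π}) (hsup : P₁ ⊔ P₂ = IsLocalRing.maximalIdeal O)
    (hx : x ∈ P₂) (hxi : Irreducible (Ideal.Quotient.mk P₁ x))
    (hy : y ∈ P₁) (hyi : Irreducible (Ideal.Quotient.mk P₂ y)) :
    I6.IsNode P₁ P₂ π x y where
  prime₁ := hP₁
  prime₂ := hP₂
  inf_eq := hinf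
  sup_eq := hsup
  hx := hx
  hy := hy
  unif₁ := fun _ ha =>
    IsDiscreteValuationRing.associated_pow_irreducible
      (fun h => ha (Ideal.Quotient.eq_zero_iff_mem.1 h)) hxi
  unif₂ := fun _ ha =>
    IsDiscreteValuationRing.associated_pow_irreducible
      (fun h => ha (Ideal.Quotient.eq_zero_iff_mem.1 h)) hyi
  hx₁ := fun h => hxi.ne_zero (Ideal.Quotient.eq_zero_iff_mem.2 h)
  hy₂ := fun h => hyi.ne_zero (Ideal.Quotient.eq_zero_iff_mem.2 h)
  nonunit₁ := hxi.not_isUnit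
  nonunit₂ := hyi.not_isUnit

end Abstract

section LocAt

variable {B : Type*} [CommRing B] [IsDomain B]
variable {F : Type*} [Field F] [Algebra B F] [IsFractionRing B F]

/-- A uniformiser of the branch `B_n ⧸ p B_n` lying in `q B_n` can be taken in `q ⊆ B`. -/
theorem exists_uniformiser_mem_chart (p q n : Ideal B) [n.IsPrime]
    [hp : (p.map (algebraMap B (locAt F n))).IsPrime]
    [IsDiscreteValuationRing (locAt F n ⧸ p.map (algebraMap B (locAt F n)))]
    (hsup : p.map (algebraMap B (locAt F n)) ⊔ q.map (algebraMap B (locAt F n)) =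
      IsLocalRing.maximalIdeal (locAt F n)) :
    ∃ x ∈ q, Irreducible (Ideal.Quotient.mk (p.map (algebraMap B (locAt F n)))
      (algebraMap B (locAt F n) x)) := by
  obtain ⟨z, hz, hzi⟩ := exists_uniformiser_mem _ _ hsup
  obtain ⟨⟨b, s⟩, hbs⟩ := (IsLocalization.mem_map_algebraMap_iff n.primeCompl (locAt F n)).1 hz
  refine ⟨b.1, b.2, ?_⟩
  have hs : IsUnit (algebraMap B (locAt F n) (s : B)) :=
    IsLocalization.map_units (locAt F n) s
  rw [← hbs, map_mul]
  exact (irreducible_mul_isUnit (hs.map _)).2 hzi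

variable [IsNoetherianRing B] [IsIntegrallyClosed B]

/-- **INST-A (abstract chart).**  The local ring `B_n ⊆ F` of a semistable chart at a crossing
point `n ⊇ p₁ + p₂` is a node ring in the sense of `I6.IsNode`, with the uniformiser `w` of the
base and branch uniformisers `x ∈ p₂`, `y ∈ p₁` taken in `B`. -/
theorem exists_isNode_locAt {w : B} (p₁ p₂ n : Ideal B) [p₁.IsPrime] [p₂.IsPrime] [n.IsPrime]
    [IsDedekindDomain (B ⧸ p₁)] [IsDedekindDomain (B ⧸ p₂)]
    (hinf : p₁ ⊓ p₂ = Ideal.span {w}) (h₁₂ : ¬ p₁ ≤ p₂) (h₂₁ : ¬ p₂ ≤ p₁)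
    (htr : (p₁ ⊔ p₂).IsRadical) (h₁ : p₁ ≤ n) (h₂ : p₂ ≤ n) :
    ∃ x y : B, x ∈ p₂ ∧ x ∉ p₁ ∧ y ∈ p₁ ∧ y ∉ p₂ ∧
      I6.IsNode (p₁.map (algebraMap B (locAt F n))) (p₂.map (algebraMap B (locAt F n)))
        (algebraMap B (locAt F n) w) (algebraMap B (locAt F n) x)
        (algebraMap B (locAt F n) y) := by
  obtain ⟨hP₁, hP₂, hinf', hsup', hdvr₁, hdvr₂⟩ :=
    Fermat.Agent.A2.H372.node_local_data (locAt F n) hinf h₁₂ h₂₁ htr h₁ h₂
  rw [IsLocalization.AtPrime.map_eq_maximalIdeal n (locAt F n)] at hsup'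
  haveI := hP₁
  haveI := hP₂
  haveI := hdvr₁
  haveI := hdvr₂
  obtain ⟨x, hx, hxi⟩ := exists_uniformiser_mem_chart (F := F) p₁ p₂ n hsup'
  obtain ⟨y, hy, hyi⟩ := exists_uniformiser_mem_chart (F := F) p₂ p₁ n
    (by rw [sup_comm]; exact hsup')
  have hnode := isNode_of_uniformisers _ _ (algebraMap B (locAt F n) w) _ _ hinf' hsup'
    (Ideal.mem_map_of_mem _ hx) hxi (Ideal.mem_map_of_mem _ hy) hyi
  exact ⟨x, y, hx, fun h => hnode.hx₁ (Ideal.mem_map_of_mem _ h), hy,
    fun h => hnode.hy₂ (Ideal.mem_map_of_mem _ h), hnode⟩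

end LocAt

section Chart

variable {R E F : Type*} [CommRing R] [IsDomain R] [IsDiscreteValuationRing R]
  [Field E] [CharZero E] [Algebra R E] [IsFractionRing R E]
  [Field F] [Algebra E F] [Algebra R F] [IsScalarTower R E F]

/-- **INST-A (chart of wall A2).**  `B` a chart in the setting `Alg.ChartCtx`, semistable with
components `c : SSChart w B`, `n` a crossing point.  Then `B` is a noetherian integrally closed
domain with fraction field `F` and the local ring `B_n = locAt F n ⊆ F` is a node ring with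
uniformiser `w` and branch uniformisers `x ∈ p₂ ∖ p₁`, `y ∈ p₁ ∖ p₂` taken in `B`. -/
theorem exists_isNode_chart (w : R) (x₀ : F) (B : Subalgebra R F) (hC : Alg.ChartCtx E w x₀ B)
    (c : SSChart w B) (n : Ideal B) [n.IsPrime] (h₁ : c.p₁ ≤ n) (h₂ : c.p₂ ≤ n) :
    ∃ (_ : IsNoetherianRing B) (_ : IsIntegrallyClosed B) (_ : IsFractionRing B F) (x y : B),
      x ∈ c.p₂ ∧ x ∉ c.p₁ ∧ y ∈ c.p₁ ∧ y ∉ c.p₂ ∧
      I6.IsNode (c.p₁.map (algebraMap B (locAt F n))) (c.p₂.map (algebraMap B (locAt F n)))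
        (algebraMap B (locAt F n) (algebraMap R B w)) (algebraMap B (locAt F n) x)
        (algebraMap B (locAt F n) y) := by
  obtain ⟨hnoeth, hic, hfr⟩ := Fermat.Agent.A2.Alg.H34.chart_instances' w x₀ B hC
  haveI := hnoeth
  haveI := hic
  haveI := hfr
  haveI := c.prime₁
  haveI := c.prime₂
  haveI : IsDedekindDomain (B ⧸ c.p₁) :=
    Fermat.Agent.A2.Alg.H132.isDedekindDomain_quotient_p₁ w x₀ B hC c
  haveI : IsDedekindDomain (B ⧸ c.p₂) :=
    Fermat.Agent.A2.Alg.H132.isDedekindDomain_quotient_p₂ w x₀ B hC c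
  obtain ⟨x, y, hx, hx', hy, hy', hnode⟩ := exists_isNode_locAt (F := F) c.p₁ c.p₂ n c.inf_eq
    c.not_le₁₂ c.not_le₂₁ c.transversal h₁ h₂
  exact ⟨hnoeth, hic, hfr, x, y, hx, hx', hy, hy', hnode⟩

end Chart

end Fermat.Agent.Ribet.H132

end
-- ===== PACK-END Ribet/H132/InstA.lean

-- ===== PACK-BEGIN Ribet/H883/SheetsW.lean
section




/-!
# RIBET / S2 / W-ALGP, leaf SHEETS-W   (helper883)

`SheetsConclusion L w x` (of `A2/H12/GSpec.lean`) for a WILD Kummer cover
`L = F(g_i^{1/p})`, `p` prime (possibly the residue characteristic), `ζ ∈ R` a primitive `p`-th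
root of unity, every `g_i` split at every sheet `V` of `F` in the sense of
`H912.SplitAtLam (ζ - 1) p V` (`g_i ≡ u^p mod (ζ - 1)^p 𝔪_V`, `u ∈ Vˣ`).

* `sheetsConclusion_wild`      : from finiteness + discreteness of the sheets of `F`;
* `sheetsConclusion_wild_ctx`  : in the context `SSCtx` (any auxiliary `m`) with leaf BASE;
* `sheetsW`                    : for `H912.IsKummerCover L w x p (SplitAtLam (ζ - 1) p)`
                                  (the output of `H912.coverWild`).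

Core: `Ribet/H883/SplitW.lean` (`KummerSplitW`).
-/

set_option autoImplicit false
set_option linter.style.haveILetI false
set_option linter.unusedSectionVars false

namespace Fermat.Agent.Ribet.H883

open Polynomial
open Fermat.Agent.A2
open Fermat.Agent.A2.H12 (IsSheet SSCtx BaseConclusion SheetsConclusion)
open Fermat.Agent.A2.H373

section Unif

variable {F : Type*} [Field F]

/-- a discrete valuation subring in the sense of `BaseConclusion.discrete` is `IsUnif` -/
theorem isUnif_of_disc {V : ValuationSubring F} {w : F} (hw : w ∈ V.nonunits) (hw0 : w ≠ 0)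
    (hdisc : ∀ f : F, f ≠ 0 → ∃ (n : ℤ) (u : F), u ∈ V ∧ u⁻¹ ∈ V ∧ f = w ^ n * u) :
    IsUnif V w := by
  refine ⟨ValuationSubring.nonunits_subset hw, ?_, ?_⟩
  · rw [ValuationSubring.mem_nonunits_iff_or] at hw
    rcases hw with h | h
    · exact absurd h hw0
    · exact h
  · intro f hf
    obtain ⟨n, u, hu, hu', hfu⟩ := hdisc f hf
    have e : f * w ^ (-n) = u := by
      rw [hfu, mul_comm (w ^ n), mul_assoc, ← zpow_add₀ hw0, add_neg_cancel, zpow_zero, mul_one]
    refine ⟨n, ?_, ?_⟩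
    · rw [e]; exact hu
    · rw [e]; exact hu'

end Unif

section Data

variable {R F L : Type} [CommRing R] [Field F] [Algebra R F]
  [Field L] [Algebra F L] [Algebra R L] [IsScalarTower R F L]

/-- **Bridge to the wild COVER-SPLIT**: `KummerSplitW` at a discrete sheet at which the Kummer
generators split wildly. -/
theorem kummerSplitW_of_sheet {w : R} {x : F} {p : ℕ} (hp : p.Prime)
    {ζ : R} (hζ : IsPrimitiveRoot (algebraMap R F ζ) p)
    {V : ValuationSubring F} (hV : IsSheet w x V)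
    (hdisc : ∀ f : F, f ≠ 0 →
      ∃ (n : ℤ) (u : F), u ∈ V ∧ u⁻¹ ∈ V ∧ f = algebraMap R F w ^ n * u)
    (hw0 : algebraMap R F w ≠ 0)
    {n : ℕ} {y : Fin n → L} {g c : Fin n → F} (hg0 : ∀ i, g i ≠ 0)
    (hy : ∀ i, y i ^ p = algebraMap F L (g i))
    (hgen : Algebra.adjoin F (Set.range y) = ⊤)
    (hc : ∀ i, c i ≠ 0 ∧ c i ∈ V ∧ (c i)⁻¹ ∈ V ∧
      ∃ z ∈ V.nonunits, g i - c i ^ p = algebraMap R F (ζ - 1) ^ p * z) :
    KummerSplitW V (algebraMap R F w) p (algebraMap R F ζ) y g c := by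
  have hlamV : algebraMap R F (ζ - 1) ∈ V := hV.1 _
  have hlam : algebraMap R F (ζ - 1) = algebraMap R F ζ - 1 := by rw [map_sub, map_one]
  have hlam0 : algebraMap R F ζ - 1 ≠ 0 := sub_ne_zero.2 (hζ.ne_one hp.one_lt)
  have hvc : ∀ i, V.valuation (c i) = 1 := by
    intro i
    have h1 : V.valuation (c i) ≤ 1 := (ValuationSubring.valuation_le_one_iff _ _).2 (hc i).2.1
    have h2 : V.valuation (c i)⁻¹ ≤ 1 :=
      (ValuationSubring.valuation_le_one_iff _ _).2 (hc i).2.2.1
    rw [map_inv₀] at h2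
    have hpos : 0 < V.valuation (c i) := zero_lt_iff.2 ((Valuation.ne_zero_iff _).2 (hc i).1)
    exact le_antisymm h1 ((inv_le_one₀ hpos).1 h2)
  have hcong : ∀ i, V.valuation (g i - c i ^ p) < V.valuation ((algebraMap R F ζ - 1) ^ p) := by
    intro i
    obtain ⟨z, hz, hgz⟩ := (hc i).2.2.2
    rw [ValuationSubring.mem_nonunits_iff] at hz
    rw [hgz, hlam, map_mul]
    have hpos : 0 < V.valuation ((algebraMap R F ζ - 1) ^ p) :=
      zero_lt_iff.2 ((Valuation.ne_zero_iff _).2 (pow_ne_zero _ hlam0))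
    calc V.valuation ((algebraMap R F ζ - 1) ^ p) * V.valuation z
        < V.valuation ((algebraMap R F ζ - 1) ^ p) * 1 := mul_lt_mul_of_pos_left hz hpos
      _ = _ := mul_one _
  have hcong1 : ∀ i, V.valuation (g i - c i ^ p) < 1 := by
    intro i
    refine (hcong i).trans_le ?_
    rw [← hlam]
    exact (ValuationSubring.valuation_le_one_iff _ _).2 (V.pow_mem hlamV p)
  have hvg : ∀ i, V.valuation (g i) = 1 := by
    intro i
    have e : g i = c i ^ p + (g i - c i ^ p) := by ring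
    have h1 : V.valuation (c i ^ p) = 1 := by rw [map_pow, hvc i, one_pow]
    rw [e, Valuation.map_add_eq_of_lt_left, h1]
    rw [h1]
    exact hcong1 i
  exact
    { unif := isUnif_of_disc hV.2.2.1 hw0 hdisc
      prime := hp
      prim := hζ
      pow := hy
      g_ne := hg0
      g_mem := fun i => by rw [← ValuationSubring.valuation_le_one_iff, hvg i]
      g_inv := fun i => by rw [← ValuationSubring.valuation_le_one_iff, map_inv₀, hvg i, inv_one]
      c_mem := fun i => (hc i).2.1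
      cong := hcong
      gen := hgen }

/-- **SHEETS-W** with explicit Kummer data, from finiteness and discreteness of the sheets of
the base field. -/
theorem sheetsConclusion_wild {w : R} {x : F}
    (hfinB : {V : ValuationSubring F | IsSheet w x V}.Finite)
    (hdisc : ∀ V : ValuationSubring F, IsSheet w x V → ∀ f : F, f ≠ 0 →
      ∃ (n : ℤ) (u : F), u ∈ V ∧ u⁻¹ ∈ V ∧ f = algebraMap R F w ^ n * u)
    (hw0 : algebraMap R F w ≠ 0)
    {p : ℕ} (hp : p.Prime) {ζ : R} (hζ : IsPrimitiveRoot (algebraMap R F ζ) p)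
    [FiniteDimensional F L] [IsGalois F L]
    {n : ℕ} (y : Fin n → L) (g : Fin n → F) (hg0 : ∀ i, g i ≠ 0)
    (hy : ∀ i, y i ^ p = algebraMap F L (g i))
    (hgen : IntermediateField.adjoin F (Set.range y) = ⊤)
    (hsplit : ∀ i, ∀ V : ValuationSubring F, IsSheet w x V →
      H912.SplitAtLam (algebraMap R F (ζ - 1)) p V (g i)) :
    SheetsConclusion L w x := by
  classical
  have hφw0 : algebraMap F L (algebraMap R F w) ≠ 0 := by
    intro h
    exact hw0 ((map_eq_zero_iff _ (algebraMap F L).injective).1 h)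
  have hRL : algebraMap R L w = algebraMap F L (algebraMap R F w) :=
    IsScalarTower.algebraMap_apply R F L w
  have hgen' : Algebra.adjoin F (Set.range y) = ⊤ := by
    have h1 := IntermediateField.adjoin_toSubalgebra (F := F) (E := L) (Set.range y)
    rw [hgen] at h1
    rw [← h1]
    rfl
  -- the residual roots
  have hex : ∀ V : ValuationSubring F, ∃ c : Fin n → F, IsSheet w x V →
      ∀ i, c i ≠ 0 ∧ c i ∈ V ∧ (c i)⁻¹ ∈ V ∧
        ∃ z ∈ V.nonunits, g i - c i ^ p = algebraMap R F (ζ - 1) ^ p * z := by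
    intro V
    by_cases hV : IsSheet w x V
    · choose u z hu0 hu hu' hz hg using fun i => hsplit i V hV
      exact ⟨u, fun _ i => ⟨hu0 i, hu i, hu' i, z i, hz i, hg i⟩⟩
    · exact ⟨fun _ => 0, fun h => absurd h hV⟩
  choose c hc using hex
  have D : ∀ V : ValuationSubring F, IsSheet w x V →
      KummerSplitW V (algebraMap R F w) p (algebraMap R F ζ) y g (c V) :=
    fun V hV => kummerSplitW_of_sheet hp hζ hV (hdisc V hV) hw0 hg0 hy hgen' (hc V hV)
  have hover : ∀ W : ValuationSubring L, Over (W.comap (algebraMap F L)) W :=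
    fun W a => Iff.rfl
  refine ⟨?_, ?_, ?_, ?_, ?_, ?_⟩
  · -- finite
    refine (Set.Finite.biUnion hfinB (fun V hV => (D V hV).finite (L := L))).subset ?_
    intro W hW
    rw [Set.mem_iUnion₂]
    exact ⟨W.comap (algebraMap F L), H12.IsSheet.comap_algebraMap hW, hover W⟩
  · -- exists_over
    intro V hV
    exact exists_sheet_over hV
  · -- unif
    intro W hW a ha
    have hV := H12.IsSheet.comap_algebraMap hW
    rw [ValuationSubring.mem_nonunits_iff] at ha
    refine ⟨a * (algebraMap F L (algebraMap R F w))⁻¹, (D _ hV).unramified (hover W) ha, ?_⟩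
    rw [hRL]
    field_simp
  · -- resdeg
    intro W hW b hb
    have hV := H12.IsSheet.comap_algebraMap hW
    obtain ⟨a, -, ha⟩ := (D _ hV).residue (hover W) hb
    exact ⟨a, (ValuationSubring.mem_nonunits_iff _).2 ha⟩
  · -- trans
    intro W W' hW hW' hcomap
    have hV := H12.IsSheet.comap_algebraMap hW
    have hoverW' : Over (W.comap (algebraMap F L)) W' := by
      rw [hcomap]
      exact hover W'
    exact (D _ hV).trans_mem (hover W) hoverW'
  · -- free
    intro W hW σ hσ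
    have hV := H12.IsSheet.comap_algebraMap hW
    exact (D _ hV).free_mem (hover W) σ hσ

end Data

section Ctx

variable {R E F : Type} [CommRing R] [IsDomain R] [IsDiscreteValuationRing R]
    [HenselianLocalRing R] [IsAlgClosed (IsLocalRing.ResidueField R)]
    [Field E] [CharZero E] [Algebra R E] [IsFractionRing R E]
    [Field F] [Algebra E F] [Algebra R F] [IsScalarTower R E F]
    {w : R} {q m : ℕ} {x : F} {Bf Bi : Subalgebra R F}
    {τ : F ≃+* F} {τE : E ≃+* E} {τR : R ≃+* R}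

/-- **SHEETS-W** in the context `SSCtx` (with ANY auxiliary exponent `m`, e.g. `m = 1`), from
leaf BASE. -/
theorem sheetsConclusion_wild_ctx (ctx : SSCtx w q m x Bf Bi τ τE τR)
    (hbase : BaseConclusion w x τ)
    {p : ℕ} (hp : p.Prime) {ζ : R} (hζ : IsPrimitiveRoot ζ p)
    (L : Type) [Field L] [Algebra F L] [Algebra R L] [IsScalarTower R F L]
    [FiniteDimensional F L] [IsGalois F L]
    {n : ℕ} (y : Fin n → L) (g : Fin n → F) (hg0 : ∀ i, g i ≠ 0)
    (hy : ∀ i, y i ^ p = algebraMap F L (g i))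
    (hgen : IntermediateField.adjoin F (Set.range y) = ⊤)
    (hsplit : ∀ i, ∀ V : ValuationSubring F, IsSheet w x V →
      H912.SplitAtLam (algebraMap R F (ζ - 1)) p V (g i)) :
    SheetsConclusion L w x :=
  sheetsConclusion_wild (base_sheets_finite ctx hbase) hbase.discrete (algebraMap_w_ne_zero ctx)
    hp (hζ.map_of_injective (algebraMap_RF_injective E)) y g hg0 hy hgen hsplit

/-- **Leaf SHEETS-W** for the wild Kummer cover of `H912.coverWild`. -/
theorem sheetsW (ctx : SSCtx w q m x Bf Bi τ τE τR) (hbase : BaseConclusion w x τ)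
    {p : ℕ} (hp : p.Prime) {ζ : R} (hζ : IsPrimitiveRoot ζ p)
    (L : Type) [Field L] [Algebra F L] [Algebra R L] [IsScalarTower R F L]
    (hK : H912.IsKummerCover (R := R) L w x p (H912.SplitAtLam (algebraMap R F (ζ - 1)) p)) :
    SheetsConclusion L w x := by
  obtain ⟨n, y, g, hg0, hy, hgen, -, hsplit⟩ := hK.gen
  haveI := hK.finite
  haveI := hK.galois
  exact sheetsConclusion_wild_ctx ctx hbase hp hζ L y g hg0 hy hgen hsplit

end Ctx

end Fermat.Agent.Ribet.H883

end
-- ===== PACK-END Ribet/H883/SheetsW.lean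

-- ===== PACK-BEGIN Ribet/H573/SlopeSpec.lean
section





/-!
# Row 38, WALL-p, leaves W-SLOPE + W-DLOG: the subgroups `𝓕` (finite part) and `𝒮` (split part)
  (helper573; DEFINITIONS ONLY, no statement is assumed)

`N = p * M'`, `A ⊆ ℚ̄` a valuation subring over `p`, `k = A/𝔪`.  Everything is on the level of
`ℚ̄`, in the language of `A2/H553` (Gauss valuation of the `t`-expansion):

* `V∞ = H553.VinfModular A _ hA N ⊆ F_N = modularFunctionFieldBar N`, the Gauss valuation ring,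
  `red∞ = H553.redInf : V∞ →+* k((t))` the coefficientwise reduction;
* `W = H528.wF N` the Fricke involution of `F_N`, `V₀ = V∞ ∘ W`, `red₀ = red∞ ∘ W`;
* `F_{M',k} = FkM A M' = modularFunctionFieldFullC k M' ⊆ k((t))`.

A class `x ∈ J₀(N)(ℚ̄)` with `p x = 0` is `x = [D]`, `p D = div f`: `IsKummerFn p N x f`.

Predicates on functions `f ∈ F_N` (both are subgroups of `F_Nˣ`, see `Slope.lean`):

* `RedPow p A hA N f`      : `f = c · g ^ p · u`, `c ∈ ℚ̄ˣ`, `g ∈ F_Nˣ`, `u ∈ 1 + 𝔪_{V∞}`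
                             ("the reduction of `f` on `C∞` is a constant times a `p`-th power");
* `RedSlopeZero p M' A hA N f` : `f = c · u`, `u ∈ V∞`, `red∞ u = h ∈ F_{M',k}`, `h ≠ 0` and
                             `p ∣ ord_Q h` at EVERY place `Q` of `F_{M',k}`
                             ("all slopes of `f` seen from `C∞` vanish").

Subgroups of `JZero N` (for a ring automorphism `T` of `F_N`; `T = 1` gives the component `C∞`,
`T = W` the component `C₀`):

* `splitAt p A hA N T`   : classes with a Kummer function `f` such that `RedPow (T f)`;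
* `finAt p M' A hA N T`  : classes with a Kummer function `f` such that `RedSlopeZero (T f)`;
* `splitInf`, `splitZero`, `splitPart = splitInf ⊓ splitZero`;
  `finInf`, `finZero`, `finPart = finInf ⊓ finZero`.
-/

set_option autoImplicit false
set_option linter.unusedSectionVars false
set_option linter.style.haveILetI false

noncomputable section

namespace Fermat.Agent.Ribet.H573

open AlgebraicCurve ModularCurve HahnSeries
open Fermat.Agent.A2.H129 Fermat.Agent.A2.H553 Fermat.Agent.A2.H528 Fermat.Agent.S37.Rim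

/-- The constant `c ∈ ℚ̄` as an element of `F_N`. -/
abbrev cst (N : ℕ) (c : Qb) : ↥(modularFunctionFieldBar N) :=
  algebraMap Qb ↥(modularFunctionFieldBar N) c

/-- `f` is a Kummer function of the class `x`: `x = [D]` and `div f = m · D`. -/
def IsKummerFn (m N : ℕ) (x : JZero N) (f : ↥(modularFunctionFieldBar N)) : Prop :=
  f ≠ 0 ∧ ∃ D : Divisor.degZero (K := Qb) (F := ↥(modularFunctionFieldBar N)),
    Pic0.mk D = x ∧
      ∀ v : Place Qb ↥(modularFunctionFieldBar N), v.ord f = (m : ℤ) * (D : Divisor Qb _) v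

section Fn

variable (p M' : ℕ) (A : ValuationSubring Qb) (hA : A.LiesOverPrime p) (N : ℕ)

/-- The Gauss valuation ring `V∞` of `F_N` over `A`. -/
abbrev VInf (hp : p ≠ 0) : ValuationSubring ↥(modularFunctionFieldBar N) :=
  VinfModular A hp hA N

/-- The reduction `V∞ → k((t))`. -/
abbrev redV (hp : p ≠ 0) :
    ↥(VInf p A hA N hp) →+* LaurentSeries (kA A) :=
  redInf (gaussInput_modular A hp hA N)

/-- `f ∈ ℚ̄ˣ · (F_Nˣ)^p · (1 + 𝔪_{V∞})`: the reduction of `f` along `V∞` is a constant times a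
`p`-th power. -/
def RedPow (hp : p ≠ 0) (f : ↥(modularFunctionFieldBar N)) : Prop :=
  ∃ c : Qb, c ≠ 0 ∧ ∃ g : ↥(modularFunctionFieldBar N), g ≠ 0 ∧
    OneAddNonunits (VInf p A hA N hp) (f * (cst N c)⁻¹ * (g ^ p)⁻¹)

/-- `f = c · u` with `u ∈ V∞` whose reduction `h` lies in `F_{M',k}`, is nonzero and has all its
orders divisible by `p`. -/
def RedSlopeZero (hp : p ≠ 0) (f : ↥(modularFunctionFieldBar N)) : Prop :=
  ∃ c : Qb, c ≠ 0 ∧ ∃ (hm : f * (cst N c)⁻¹ ∈ VInf p A hA N hp) (h : ↥(FkM A M')), h ≠ 0 ∧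
    redV p A hA N hp ⟨f * (cst N c)⁻¹, hm⟩ = (h : LaurentSeries (kA A)) ∧
    ∀ Q : Place (kA A) ↥(FkM A M'), (p : ℤ) ∣ Q.ord h

/-! ### Both predicates cut out subgroups of `F_Nˣ` -/

variable {p M' A hA N}

theorem RedPow.one (hp : p ≠ 0) : RedPow p A hA N hp 1 := by
  refine ⟨1, one_ne_zero, 1, one_ne_zero, ?_⟩
  have e : (1 : ↥(modularFunctionFieldBar N)) * (cst N 1)⁻¹ * (1 ^ p)⁻¹ = 1 := by
    rw [cst, map_one, one_pow, inv_one, mul_one, mul_one]
  rw [e]
  exact OneAddNonunits.one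

theorem RedPow.mul {hp : p ≠ 0} {f₁ f₂ : ↥(modularFunctionFieldBar N)}
    (h₁ : RedPow p A hA N hp f₁) (h₂ : RedPow p A hA N hp f₂) :
    RedPow p A hA N hp (f₁ * f₂) := by
  obtain ⟨c₁, hc₁, g₁, hg₁, hu₁⟩ := h₁
  obtain ⟨c₂, hc₂, g₂, hg₂, hu₂⟩ := h₂
  refine ⟨c₁ * c₂, mul_ne_zero hc₁ hc₂, g₁ * g₂, mul_ne_zero hg₁ hg₂, ?_⟩
  have e : f₁ * f₂ * (cst N (c₁ * c₂))⁻¹ * ((g₁ * g₂) ^ p)⁻¹ =
      (f₁ * (cst N c₁)⁻¹ * (g₁ ^ p)⁻¹) * (f₂ * (cst N c₂)⁻¹ * (g₂ ^ p)⁻¹) := by
    rw [cst, map_mul, mul_pow, mul_inv, mul_inv]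
    ring
  rw [e]
  exact hu₁.mul hu₂

theorem RedPow.inv {hp : p ≠ 0} {f : ↥(modularFunctionFieldBar N)}
    (h : RedPow p A hA N hp f) : RedPow p A hA N hp f⁻¹ := by
  obtain ⟨c, hc, g, hg, hu⟩ := h
  refine ⟨c⁻¹, inv_ne_zero hc, g⁻¹, inv_ne_zero hg, ?_⟩
  have e : f⁻¹ * (cst N c⁻¹)⁻¹ * (g⁻¹ ^ p)⁻¹ = (f * (cst N c)⁻¹ * (g ^ p)⁻¹)⁻¹ := by
    rw [cst, map_inv₀, inv_pow, mul_inv, mul_inv]
  rw [e]
  exact hu.inv

/-- an element of `V∞` with nonzero reduction is a unit of `V∞` -/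
theorem inv_mem_of_redV_ne_zero {hp : p ≠ 0} {u : ↥(modularFunctionFieldBar N)}
    (hm : u ∈ VInf p A hA N hp) (h : redV p A hA N hp ⟨u, hm⟩ ≠ 0) :
    u⁻¹ ∈ VInf p A hA N hp := by
  have h1 : ¬ (VInf p A hA N hp).valuation u < 1 := fun hlt =>
    h ((redInf_eq_zero_iff (gaussInput_modular A hp hA N) ⟨u, hm⟩).mpr hlt)
  rw [valuation_lt_one_iff_mem] at h1
  by_contra hcon
  exact h1 ⟨hm, Or.inr hcon⟩

theorem RedSlopeZero.one (hp : p ≠ 0) : RedSlopeZero p M' A hA N hp 1 := by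
  have e : (1 : ↥(modularFunctionFieldBar N)) * (cst N 1)⁻¹ = 1 := by
    rw [cst, map_one, inv_one, mul_one]
  have hm : (1 : ↥(modularFunctionFieldBar N)) * (cst N 1)⁻¹ ∈ VInf p A hA N hp := by
    rw [e]; exact one_mem _
  refine ⟨1, one_ne_zero, hm, 1, one_ne_zero, ?_, fun Q => ?_⟩
  · have : (⟨(1 : ↥(modularFunctionFieldBar N)) * (cst N 1)⁻¹, hm⟩ : ↥(VInf p A hA N hp)) = 1 :=
      Subtype.ext e
    rw [this, map_one]
    rfl
  · rw [Place.ord_one]
    exact dvd_zero _

theorem RedSlopeZero.mul {hp : p ≠ 0} {f₁ f₂ : ↥(modularFunctionFieldBar N)}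
    (h₁ : RedSlopeZero p M' A hA N hp f₁) (h₂ : RedSlopeZero p M' A hA N hp f₂) :
    RedSlopeZero p M' A hA N hp (f₁ * f₂) := by
  obtain ⟨c₁, hc₁, hm₁, k₁, hk₁, hr₁, hd₁⟩ := h₁
  obtain ⟨c₂, hc₂, hm₂, k₂, hk₂, hr₂, hd₂⟩ := h₂
  have e : f₁ * f₂ * (cst N (c₁ * c₂))⁻¹ = (f₁ * (cst N c₁)⁻¹) * (f₂ * (cst N c₂)⁻¹) := by
    rw [cst, map_mul, mul_inv]
    ring
  have hm : f₁ * f₂ * (cst N (c₁ * c₂))⁻¹ ∈ VInf p A hA N hp := by
    rw [e]; exact mul_mem hm₁ hm₂
  refine ⟨c₁ * c₂, mul_ne_zero hc₁ hc₂, hm, k₁ * k₂, mul_ne_zero hk₁ hk₂, ?_, fun Q => ?_⟩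
  · have : (⟨f₁ * f₂ * (cst N (c₁ * c₂))⁻¹, hm⟩ : ↥(VInf p A hA N hp)) =
        ⟨f₁ * (cst N c₁)⁻¹, hm₁⟩ * ⟨f₂ * (cst N c₂)⁻¹, hm₂⟩ := Subtype.ext e
    rw [this, map_mul, hr₁, hr₂]
    rfl
  · rw [Q.ord_mul hk₁ hk₂]
    exact dvd_add (hd₁ Q) (hd₂ Q)

theorem RedSlopeZero.inv {hp : p ≠ 0} {f : ↥(modularFunctionFieldBar N)}
    (h : RedSlopeZero p M' A hA N hp f) : RedSlopeZero p M' A hA N hp f⁻¹ := by
  obtain ⟨c, hc, hm, k, hk, hr, hd⟩ := h
  have hne : redV p A hA N hp ⟨f * (cst N c)⁻¹, hm⟩ ≠ 0 := by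
    rw [hr]
    intro h0
    exact hk (Subtype.ext h0)
  have e : f⁻¹ * (cst N c⁻¹)⁻¹ = (f * (cst N c)⁻¹)⁻¹ := by
    rw [cst, map_inv₀, mul_inv]
  have hm' : f⁻¹ * (cst N c⁻¹)⁻¹ ∈ VInf p A hA N hp := by
    rw [e]; exact inv_mem_of_redV_ne_zero hm hne
  refine ⟨c⁻¹, inv_ne_zero hc, hm', k⁻¹, inv_ne_zero hk, ?_, fun Q => ?_⟩
  · have hu0 : f * (cst N c)⁻¹ ≠ 0 := by
      intro h0
      apply hne
      have : (⟨f * (cst N c)⁻¹, hm⟩ : ↥(VInf p A hA N hp)) = 0 := Subtype.ext h0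
      rw [this, map_zero]
    have hprod : (⟨f⁻¹ * (cst N c⁻¹)⁻¹, hm'⟩ : ↥(VInf p A hA N hp)) *
        ⟨f * (cst N c)⁻¹, hm⟩ = 1 := by
      apply Subtype.ext
      show f⁻¹ * (cst N c⁻¹)⁻¹ * (f * (cst N c)⁻¹) = 1
      rw [e, inv_mul_cancel₀ hu0]
    have h2 := congrArg (redV p A hA N hp) hprod
    rw [map_mul, map_one, hr] at h2
    have hk' : ((k : ↥(FkM A M')) : LaurentSeries (kA A)) ≠ 0 := fun h0 => hk (Subtype.ext h0)
    have h3 : redV p A hA N hp ⟨f⁻¹ * (cst N c⁻¹)⁻¹, hm'⟩ =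
        ((k : ↥(FkM A M')) : LaurentSeries (kA A))⁻¹ := eq_inv_of_mul_eq_one_left h2
    rw [h3]
    rfl
  · rw [Q.ord_inv]
    exact (dvd_neg).mpr (hd Q)

/-! ### Kummer functions -/

theorem IsKummerFn.zero (m N : ℕ) : IsKummerFn m N 0 1 := by
  refine ⟨one_ne_zero, 0, rfl, fun v => ?_⟩
  rw [Place.ord_one]
  simp

theorem IsKummerFn.add {m N : ℕ} {x y : JZero N} {f g : ↥(modularFunctionFieldBar N)}
    (hf : IsKummerFn m N x f) (hg : IsKummerFn m N y g) : IsKummerFn m N (x + y) (f * g) := by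
  obtain ⟨hf0, D, rfl, hD⟩ := hf
  obtain ⟨hg0, E, rfl, hE⟩ := hg
  refine ⟨mul_ne_zero hf0 hg0, D + E, rfl, fun v => ?_⟩
  rw [v.ord_mul hf0 hg0, hD v, hE v]
  simp only [AddSubgroup.coe_add, Finsupp.add_apply]
  ring

theorem IsKummerFn.neg {m N : ℕ} {x : JZero N} {f : ↥(modularFunctionFieldBar N)}
    (hf : IsKummerFn m N x f) : IsKummerFn m N (-x) f⁻¹ := by
  obtain ⟨hf0, D, rfl, hD⟩ := hf
  refine ⟨inv_ne_zero hf0, -D, rfl, fun v => ?_⟩
  rw [v.ord_inv, hD v]
  simp only [AddSubgroup.coe_neg, Finsupp.neg_apply]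
  ring

end Fn

/-! ## The subgroups -/

section Subgroups

variable (p M' : ℕ) (A : ValuationSubring Qb) (hA : A.LiesOverPrime p) (N : ℕ) (hp : p ≠ 0)

/-- Classes with a Kummer function `f` such that the reduction of `T f` along `V∞` is a constant
times a `p`-th power. -/
def splitAt (T : ↥(modularFunctionFieldBar N) ≃+* ↥(modularFunctionFieldBar N)) :
    AddSubgroup (JZero N) where
  carrier := {x | ∃ f, IsKummerFn p N x f ∧ RedPow p A hA N hp (T f)}
  zero_mem' := ⟨1, IsKummerFn.zero p N, by rw [map_one]; exact RedPow.one hp⟩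
  add_mem' := by
    rintro x y ⟨f, hf, hf'⟩ ⟨g, hg, hg'⟩
    exact ⟨f * g, hf.add hg, by rw [map_mul]; exact hf'.mul hg'⟩
  neg_mem' := by
    rintro x ⟨f, hf, hf'⟩
    exact ⟨f⁻¹, hf.neg, by rw [map_inv₀]; exact hf'.inv⟩

/-- Classes with a Kummer function `f` such that `T f` has all slopes zero along `V∞`. -/
def finAt (T : ↥(modularFunctionFieldBar N) ≃+* ↥(modularFunctionFieldBar N)) :
    AddSubgroup (JZero N) where
  carrier := {x | ∃ f, IsKummerFn p N x f ∧ RedSlopeZero p M' A hA N hp (T f)}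
  zero_mem' := ⟨1, IsKummerFn.zero p N, by rw [map_one]; exact RedSlopeZero.one hp⟩
  add_mem' := by
    rintro x y ⟨f, hf, hf'⟩ ⟨g, hg, hg'⟩
    exact ⟨f * g, hf.add hg, by rw [map_mul]; exact hf'.mul hg'⟩
  neg_mem' := by
    rintro x ⟨f, hf, hf'⟩
    exact ⟨f⁻¹, hf.neg, by rw [map_inv₀]; exact hf'.inv⟩

variable {p M' A hA N hp}

theorem mem_splitAt {T : ↥(modularFunctionFieldBar N) ≃+* ↥(modularFunctionFieldBar N)}
    {x : JZero N} :
    x ∈ splitAt p A hA N hp T ↔ ∃ f, IsKummerFn p N x f ∧ RedPow p A hA N hp (T f) := Iff.rfl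

theorem mem_finAt {T : ↥(modularFunctionFieldBar N) ≃+* ↥(modularFunctionFieldBar N)}
    {x : JZero N} :
    x ∈ finAt p M' A hA N hp T ↔
      ∃ f, IsKummerFn p N x f ∧ RedSlopeZero p M' A hA N hp (T f) := Iff.rfl

end Subgroups

section Parts

variable (p M' : ℕ) [NeZero (p * M')] (A : ValuationSubring Qb) (hA : A.LiesOverPrime p)
  (hp : p ≠ 0)

/-- `𝒮∞`: the reduction on `C∞` is a constant times a `p`-th power. -/
def splitInf : AddSubgroup (JZero (p * M')) :=
  splitAt p A hA (p * M') hp (RingEquiv.refl _)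

/-- `𝒮₀`: the reduction on `C₀` is a constant times a `p`-th power. -/
def splitZero : AddSubgroup (JZero (p * M')) :=
  splitAt p A hA (p * M') hp (wF (p * M')).toRingEquiv

/-- **`𝒮`, the split part**: both reductions are constants times `p`-th powers. -/
def splitPart : AddSubgroup (JZero (p * M')) :=
  splitInf p M' A hA hp ⊓ splitZero p M' A hA hp

/-- `𝓕∞`: all slopes seen from `C∞` vanish. -/
def finInf : AddSubgroup (JZero (p * M')) :=
  finAt p M' A hA (p * M') hp (RingEquiv.refl _)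

/-- `𝓕₀`: all slopes seen from `C₀` vanish. -/
def finZero : AddSubgroup (JZero (p * M')) :=
  finAt p M' A hA (p * M') hp (wF (p * M')).toRingEquiv

/-- **`𝓕`, the finite part**: all slopes vanish, on both components. -/
def finPart : AddSubgroup (JZero (p * M')) :=
  finInf p M' A hA hp ⊓ finZero p M' A hA hp

end Parts

end Fermat.Agent.Ribet.H573

end
end
-- ===== PACK-END Ribet/H573/SlopeSpec.lean

-- ===== PACK-BEGIN A2/Mod/H216/NormalChart.lean
section


/-!
# A2 / GOODRED (helper216): normality of the special fibre of a good model, CHART coefficients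

`normalAbs_chart` : for `G : Alg.GoodModel Lc Ec Fc R V w x S`, an element `f ∈ V` which is a
root modulo `w` of a monic polynomial with coefficients in the CHART `B = Alg.chart Fc R x`
(not only in `R[x]`) is congruent modulo `w` to an element of `B`.

Same proof as `S37.Rim.H383.normalAbs` (helper383): `H383.exists_chart_lift` already allows
coefficients in the chart.
-/

set_option autoImplicit false
set_option linter.style.haveILetI false
set_option linter.unusedSectionVars false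

noncomputable section

namespace Fermat.Agent.A2.Mod.H216

open Polynomial Fermat.Agent.S18 Fermat.Agent.S18.Alg Fermat.Agent.S18.H438
open Fermat.Agent.S18.H438.GoodModelFront Fermat.Agent.S37.Rim.H383

variable {Ω : Type*} [Field Ω] {Lc Ec Fc : Subfield Ω} {R V : Subring Ω} {w x : Ω}
  {S : Finset Ω}

/-- A polynomial over `Ω` with coefficients in the chart is the image of a polynomial over `Fc`
with coefficients in the typed chart. -/
theorem exists_poly_Fc_chart (hR : ∀ r ∈ R, r ∈ Fc) (z : Fc) (P : Polynomial Ω)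
    (hP : ∀ i, P.coeff i ∈ _root_.Fermat.Agent.S18.Alg.chart Fc R (z : Ω)) :
    ∃ Q : Polynomial Fc, Q.map Fc.subtype = P ∧
      ∀ i, Q.coeff i ∈ chartB (Rf Fc R) z := by
  have hl : P ∈ Polynomial.lifts Fc.subtype := by
    rw [Polynomial.lifts_iff_coeff_lifts]
    intro i
    exact ⟨⟨P.coeff i, (hP i).1⟩, rfl⟩
  obtain ⟨Q, hQ⟩ := (Polynomial.mem_lifts P).1 hl
  refine ⟨Q, hQ, fun i => ?_⟩
  have h1 : ((Q.coeff i : Fc) : Ω) = P.coeff i := by
    rw [← hQ, coeff_map]
    rfl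
  have h2 : Q.coeff i ∈ chartRing (Rf Fc R) z := by
    rw [mem_chartRing_iff Fc R z hR, h1]
    exact hP i
  exact h2

/-- **Normality of the special fibre of a good model, chart coefficients.** -/
theorem normalAbs_chart (G : GoodModel Lc Ec Fc R V w x S) :
    ∀ f ∈ V, ∀ P : Polynomial Ω, P.Monic → (∀ i, P.coeff i ∈ _root_.Fermat.Agent.S18.Alg.chart Fc R x) →
      P.eval f * w⁻¹ ∈ V → ∃ b ∈ _root_.Fermat.Agent.S18.Alg.chart Fc R x, (f - b) * w⁻¹ ∈ V := by
  intro f hf P hPm hPc hPv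
  haveI := charZero_Fc G
  haveI := isDiscreteValuationRing_Rf G
  haveI := isIntegrallyClosed_chartB G
  haveI := finite_chartB G
  have hR : ∀ r ∈ R, r ∈ Fc := fun r hr => R_le_Fc G hr
  obtain ⟨Q, hQ, hQc⟩ := exists_poly_Fc_chart hR (xf G) P hPc
  have hQm : Q.Monic := by
    rw [← hQ] at hPm
    exact Polynomial.monic_of_injective Fc.subtype_injective hPm
  have hv : (⟨f, G.V_le hf⟩ : Fc) ∈ Vf G := hf
  have hQv : Q.eval (⟨f, G.V_le hf⟩ : Fc) * (wf G)⁻¹ ∈ Vf G := by
    show ((Q.eval (⟨f, G.V_le hf⟩ : Fc) * (wf G)⁻¹ : Fc) : Ω) ∈ V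
    rw [Subfield.coe_mul, Subfield.coe_inv, _root_.Fermat.Agent.S37.Rim.H383.coe_eval_Fc, hQ]
    exact hPv
  obtain ⟨b, hb, hbv⟩ := exists_chart_lift (transcendental_xf G)
    (isAlgebraic_adjoin_of_goodModel G) (Vf G) (wf_mem_Rf G) (irreducible_wf G) (Rf_le_Vf G)
    (xf_mem_Vf G) (wf_inv_not_mem_Vf G) (Vf_gen G) (qep_fin' G) (sepB_of_goodModel G) (Sf G)
    (isUnit_sub_Sf G) (hNC_of_goodModel G) hv Q hQm hQc hQv
  exact ⟨(b : Ω), (mem_chartRing_iff Fc R (xf G) hR).1 hb, hbv⟩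

/-- The same on the chart at infinity. -/
theorem normalAbs_chart_inv (G : GoodModel Lc Ec Fc R V w x S) :
    ∀ f ∈ V, ∀ P : Polynomial Ω, P.Monic → (∀ i, P.coeff i ∈ _root_.Fermat.Agent.S18.Alg.chart Fc R x⁻¹) →
      P.eval f * w⁻¹ ∈ V → ∃ b ∈ _root_.Fermat.Agent.S18.Alg.chart Fc R x⁻¹, (f - b) * w⁻¹ ∈ V := by
  classical
  exact normalAbs_chart (Fermat.Agent.S18.H425.goodModel_inv G)

end Fermat.Agent.A2.Mod.H216

end
end
-- ===== PACK-END A2/Mod/H216/NormalChart.lean

-- ===== PACK-BEGIN A2/Mod/H189/GoodRedCoord.lean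
section



/-!
# Cell A2 / MOD, GOODRED part G3 (helper189): the Hauptmoduln `t₂`, `t₃` at a level `E`

`t2E E M`, `t3E E M : FE E M` are the images of the integral series `S18.H333.t2Z`, `t3Z`
(`2 ∣ M` resp. `3 ∣ M`); they satisfy `j t₂² = (t₂ + 256)³`, `j t₃³ = (t₃ + 27)(t₃ + 243)³` and are
polar (`t⁻¹ + …`).  Hence (`GoodRedT.lean`):

* `goodRedHyp_of_t2` : `P` over `3`, `2 ∣ M`: `GoodRedAt` at `t₂`, `t₂⁻¹` (for all `w`, `VM`)
  ⟹ `Mod.GoodRedHyp P E M`;
* `goodRedHyp_of_t3` : `P` over `2`, `3 ∣ M`: `GoodRedAt` at `t₃`, `t₃⁻¹` ⟹ `Mod.GoodRedHyp P E M`.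

So a producer of good reduction only has to work in the coordinate of row S18
(`j` for `q ≥ 5`, `t₂` for `q = 3`, `t₃` for `q = 2`).
-/

set_option autoImplicit false
set_option synthInstance.maxHeartbeats 400000
set_option maxHeartbeats 1600000

noncomputable section

namespace Fermat.Agent.A2.Mod.H189

open ModularCurve HahnSeries Polynomial Fermat.Agent.A2 Fermat.Agent.A2.Mod
open Fermat.Agent.S18.H333 (t2Z t3Z)

variable (P : ValuationSubring _root_.Fermat.Agent.A2.Mod.Qb) (E : IntermediateField ℚ _root_.Fermat.Agent.A2.Mod.Qb) (M : ℕ)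

theorem coeffEmb_castQ_eq (X : LaurentSeries ℤ) :
    coeffEmb E (H708.castQ X) = coeffMap (Int.castRingHom E) X := by
  rw [coeffEmb, H708.castQ, coeffMap_coeffMap]
  exact coeffMap_congr (RingHom.ext_int _ _) X

theorem coe_jE_one : ((jE E M 1 (one_dvd _) : _root_.Fermat.Agent.A2.Mod.FE E M) : LaurentSeries E) = jqModC E := by
  show coeffEmb E (qExpand ℚ 1 jq) = jqModC E
  rw [qExpand_one_apply, ← jqModC_rat, coeffEmb, coeffMap_jqModC]

/-- The element of `F_{M,E}` given by an integral series lying in `ℚ(j_d : d ∣ M)`. -/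
def feOf (X : LaurentSeries ℤ) (hX : H708.castQ X ∈ modularFunctionFieldFull M) : _root_.Fermat.Agent.A2.Mod.FE E M :=
  ⟨coeffEmb E (H708.castQ X), coeffEmb_mem_laurentBaseChange E hX⟩

theorem coe_feOf (X : LaurentSeries ℤ) (hX : H708.castQ X ∈ modularFunctionFieldFull M) :
    ((feOf E M X hX : _root_.Fermat.Agent.A2.Mod.FE E M) : LaurentSeries E) = coeffMap (Int.castRingHom E) X :=
  coeffEmb_castQ_eq E X

theorem coe_feOf_incl (X : LaurentSeries ℤ) (hX : H708.castQ X ∈ modularFunctionFieldFull M) :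
    ((feOf E M X hX : _root_.Fermat.Agent.A2.Mod.FE E M) : LaurentSeries E) =
      H708.incl (_root_.Fermat.Agent.A2.Mod.RE P E) (H708.castA (_root_.Fermat.Agent.A2.Mod.RE P E) X) :=
  (H708.incl_castA (_root_.Fermat.Agent.A2.Mod.RE P E) X).symm

/-- `t₂ ∈ F_{M,E}` (`2 ∣ M`). -/
def t2E (hM : 2 ∣ M) : _root_.Fermat.Agent.A2.Mod.FE E M := feOf E M t2Z (Fermat.Agent.S18.H333.t2Q_mem M hM)

/-- `t₃ ∈ F_{M,E}` (`3 ∣ M`). -/
def t3E (hM : 3 ∣ M) : _root_.Fermat.Agent.A2.Mod.FE E M := feOf E M t3Z (Fermat.Agent.S18.H333.t3Q_mem M hM)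

theorem t2E_rel (hM : 2 ∣ M) :
    jE E M 1 (one_dvd _) * t2E E M hM ^ 2 = (t2E E M hM + 256) ^ 3 := by
  apply Subtype.ext
  have h := Fermat.Agent.S18.H333.t2_rel_a E
  have hx : ((t2E E M hM : _root_.Fermat.Agent.A2.Mod.FE E M) : LaurentSeries E) = Fermat.Agent.S18.H333.t2 E :=
    coe_feOf E M t2Z _
  push_cast
  rw [coe_jE_one, hx]
  exact h

theorem t3E_rel (hM : 3 ∣ M) :
    jE E M 1 (one_dvd _) * t3E E M hM ^ 3 = (t3E E M hM + 27) * (t3E E M hM + 243) ^ 3 := by
  apply Subtype.ext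
  have h := Fermat.Agent.S18.H333.t3_rel_a E
  have hx : ((t3E E M hM : _root_.Fermat.Agent.A2.Mod.FE E M) : LaurentSeries E) = Fermat.Agent.S18.H333.t3 E :=
    coe_feOf E M t3Z _
  push_cast
  rw [coe_jE_one, hx]
  exact h

theorem castA_coeff (X : LaurentSeries ℤ) (k : ℤ) :
    (H708.castA (_root_.Fermat.Agent.A2.Mod.RE P E) X).coeff k = ((X.coeff k : ℤ) : _root_.Fermat.Agent.A2.Mod.RE P E) := rfl

/-- **GOODRED for `q = 3`** from good reduction in the charts of `t₂`. -/
theorem goodRedHyp_of_t2 (hP : P.LiesOverPrime 3) (hM0 : M ≠ 0) (hM : 2 ∣ M)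
    (hdvr : IsDiscreteValuationRing (_root_.Fermat.Agent.A2.Mod.RE P E))
    (h : ∀ (w : _root_.Fermat.Agent.A2.Mod.RE P E) (VM : ValuationSubring (_root_.Fermat.Agent.A2.Mod.FE E M)), Irreducible w → IsVinf P E M VM →
      GoodRedAt P E M w VM (t2E E M hM) ∧ GoodRedAt P E M w VM (t2E E M hM)⁻¹) :
    GoodRedHyp P E M := by
  intro w VM hw hVM
  obtain ⟨hg, hg'⟩ := h w VM hw hVM
  refine goodRedAt_j_of_t2_polar P E M w hP hM0 hdvr hw VM hVM (t2E E M hM)
    (H708.castA (_root_.Fermat.Agent.A2.Mod.RE P E) t2Z) (coe_feOf_incl P E M t2Z _) ?_ ?_ (t2E_rel E M hM) hg hg'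
  · intro n hn
    rw [castA_coeff, Fermat.Agent.S18.H333.t2Z_coeff_of_lt hn, Int.cast_zero]
  · rw [castA_coeff, Fermat.Agent.S18.H333.t2Z_coeff_neg_one, Int.cast_one]
    exact isUnit_one

/-- **GOODRED for `q = 2`** from good reduction in the charts of `t₃`. -/
theorem goodRedHyp_of_t3 (hP : P.LiesOverPrime 2) (hM0 : M ≠ 0) (hM : 3 ∣ M)
    (hdvr : IsDiscreteValuationRing (_root_.Fermat.Agent.A2.Mod.RE P E))
    (h : ∀ (w : _root_.Fermat.Agent.A2.Mod.RE P E) (VM : ValuationSubring (_root_.Fermat.Agent.A2.Mod.FE E M)), Irreducible w → IsVinf P E M VM →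
      GoodRedAt P E M w VM (t3E E M hM) ∧ GoodRedAt P E M w VM (t3E E M hM)⁻¹) :
    GoodRedHyp P E M := by
  intro w VM hw hVM
  obtain ⟨hg, hg'⟩ := h w VM hw hVM
  refine goodRedAt_j_of_t3_polar P E M w hP hM0 hdvr hw VM hVM (t3E E M hM)
    (H708.castA (_root_.Fermat.Agent.A2.Mod.RE P E) t3Z) (coe_feOf_incl P E M t3Z _) ?_ ?_ (t3E_rel E M hM) hg hg'
  · intro n hn
    rw [castA_coeff, Fermat.Agent.S18.H333.t3Z_coeff_of_lt hn, Int.cast_zero]
  · rw [castA_coeff, Fermat.Agent.S18.H333.t3Z_coeff_neg_one, Int.cast_one]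
    exact isUnit_one

end Fermat.Agent.A2.Mod.H189

end
end
-- ===== PACK-END A2/Mod/H189/GoodRedCoord.lean

-- ===== PACK-BEGIN A2/Top/H994/ModTop.lean
section





/-!
# WALL A2 / MOD — final assembly `ModSSGoodStatement` (deputy helper994, MOD architect)

`Mod.modSSData_of_parts` (helper13, `A2/Mod/Asm.lean`) produces `ModSSData P E (M * q)` from the
leaves L1, L4, L8, the sub-assemblies S1–S4, Sτ and the level-`M` hypothesis `GoodRedHyp`.
This file turns it into the statement consumed by the wall (`Top.H994.wall`,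
`H562.wall_of_alg_if_mod`):

* `GoodRedStatement` : the EXACT target of the GOODRED owners (good reduction of `X₀(M)` at
  `q ∤ M` over every good level `E`, in the two charts `j`, `1/j`; for `q = 3` only when `2 ∣ M`,
  for `q = 2` only when `3 ∣ M`);
* `modSSGood_of_parts` : L8 + S1–S4 + Sτ + GOODRED ⟹ `ModSSGoodStatement`
  (L1 = `H553.vinfExists`, L4 = `H751.frickeExists` are plugged in from main).
-/

set_option autoImplicit false
set_option linter.unusedSectionVars false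
set_option synthInstance.maxHeartbeats 400000
set_option maxHeartbeats 1600000

noncomputable section

namespace Fermat.Agent.A2.Top.H994

open ModularCurve Fermat.Agent.A2

/-- **GOODRED (target statement).**  Good reduction of `X₀(M)` at a prime `q ∤ M` over every good
level `E`, in the charts of `j` and `1/j` (`Mod.GoodRedHyp`), at the levels carrying the auxiliary
prime (`2 ∣ M` for `q = 3`, `3 ∣ M` for `q = 2`). -/
def GoodRedStatement : Prop :=
  ∀ (P : ValuationSubring Qb) (E : IntermediateField ℚ Qb) (M q : ℕ) [NeZero M] [NeZero q],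
    q.Prime → ¬ q ∣ M → (q = 3 → 2 ∣ M) → (q = 2 → 3 ∣ M) → P.LiesOverPrime q →
    GoodField P E → Mod.GoodRedHyp P E M

/-- **MOD, final assembly.** -/
theorem modSSGood_of_parts
    (hDeg : ∀ (E : IntermediateField ℚ Qb) (M q : ℕ) [NeZero M] [NeZero q],
      Mod.DegStatement E M q)
    (hS1 : ∀ (P : ValuationSubring Qb) (E : IntermediateField ℚ Qb) (M q : ℕ) [NeZero M]
      [NeZero q] (w : RE P E), Mod.S1Statement P E M q w)
    (hS2 : ∀ (P : ValuationSubring Qb) (E : IntermediateField ℚ Qb) (M q : ℕ) [NeZero M]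
      [NeZero q] (w : RE P E), Mod.S2Statement P E M q w)
    (hS3 : ∀ (P : ValuationSubring Qb) (E : IntermediateField ℚ Qb) (M q : ℕ) [NeZero M]
      [NeZero q] (w : RE P E), Mod.S3Statement P E M q w)
    (hS4 : ∀ (P : ValuationSubring Qb) (E : IntermediateField ℚ Qb) (M q : ℕ) [NeZero M]
      [NeZero q] (w : RE P E), Mod.S4Statement P E M q w)
    (hSτ : ∀ (P : ValuationSubring Qb) (E : IntermediateField ℚ Qb) (M q : ℕ) [NeZero M]
      [NeZero q] (w : RE P E), Mod.StauStatement P E M q w)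
    (hGood : GoodRedStatement) :
    ModSSGoodStatement := by
  intro P E N q hq hqN hq2 hN h3 h2 hP hE
  obtain ⟨M, hM⟩ := hqN
  have hNM : N = M * q := by rw [hM, mul_comm]
  subst hNM
  have hM0 : M ≠ 0 := fun h => hN (by rw [h, zero_mul])
  haveI : NeZero M := ⟨hM0⟩
  haveI : NeZero q := ⟨hq.ne_zero⟩
  have hqM : ¬ q ∣ M := by
    rintro ⟨c, hc⟩
    exact hq2 ⟨c, by rw [hc]; ring⟩
  have h3' : q = 3 → 2 ∣ M := by
    intro h
    have h2N := h3 h
    subst h
    exact (Nat.Coprime.dvd_mul_right (by norm_num : Nat.Coprime 2 3)).1 h2N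
  have h2' : q = 2 → 3 ∣ M := by
    intro h
    have h3N := h2 h
    subst h
    exact (Nat.Coprime.dvd_mul_right (by norm_num : Nat.Coprime 3 2)).1 h3N
  exact Mod.modSSData_of_parts P E M q hq hqM hP hE.dvr
    (Mod.H553.vinfExists P E M hM0 hE.dvr)
    (Mod.H553.vinfExists P E (M * q) hN hE.dvr)
    (Mod.H751.frickeExists E (M * q) hN)
    (hDeg E M q) (hS1 P E M q) (hS2 P E M q) (hS3 P E M q) (hS4 P E M q) (hSτ P E M q)
    (hGood P E M q hq hqM h3' h2' hP hE)

end Fermat.Agent.A2.Top.H994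

end

end
-- ===== PACK-END A2/Top/H994/ModTop.lean

-- ===== PACK-BEGIN A2/Mod/H31/Deg.lean
section



/-!
# A2 / MOD leaf L8 (helper31): `DegStatement`

`[F_{Mq} : E(x)] = 2 (q+1) ψ(M)` for `x = j · j_q`, `x` transcendental over `E`, and `E` is
algebraically closed in `F_{Mq}`.  Statement VERBATIM from `Fermat/Agent/A2/Mod/Spec.lean`.
-/

set_option autoImplicit false
set_option synthInstance.maxHeartbeats 400000
set_option maxHeartbeats 1600000

noncomputable section

namespace Fermat.Agent.A2.Mod.H31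

open ModularCurve HahnSeries Polynomial IntermediateField

variable (E : IntermediateField ℚ _root_.Fermat.Agent.A2.Mod.Qb)

theorem FE_eq_fullC (N : ℕ) : _root_.Fermat.Agent.A2.Mod.FE E N = modularFunctionFieldFullC E N :=
  S28.H988.laurentBaseChange_full_eq_fullC E N

theorem coe_jE (N d : ℕ) [NeZero d] (hd : d ∣ N) :
    ((jE E N d hd : _root_.Fermat.Agent.A2.Mod.FE E N) : LaurentSeries E) = qExpand E d (jqModC E) := by
  show coeffEmb E (qExpand ℚ d jq) = _
  rw [coeffEmb, ← jqModC_rat, coeffMap_qExpand, coeffMap_jqModC]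

theorem coe_xE (M q : ℕ) [NeZero q] :
    ((xE E M q : _root_.Fermat.Agent.A2.Mod.FE E (M * q)) : LaurentSeries E) = jqModC E * qExpand E q (jqModC E) := by
  rw [xE, MulMemClass.coe_mul, coe_jE, coe_jE, qExpand_one_apply]

/-- **Leaf L8.** -/
theorem deg (M q : ℕ) [NeZero q] : DegStatement E M q := by
  intro hq hqM
  have hchar : ∀ p : ℕ, p.Prime → p ∣ M * q → ((p : ℕ) : E) ≠ 0 :=
    fun p hp _ => Nat.cast_ne_zero.mpr hp.ne_zero
  refine ⟨?_, ?_, ?_⟩
  · intro h
    have h2 : IsAlgebraic E ((xE E M q : _root_.Fermat.Agent.A2.Mod.FE E (M * q)) : LaurentSeries E) :=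
      (isAlgebraic_algHom_iff (_root_.Fermat.Agent.A2.Mod.FE E (M * q)).val Subtype.val_injective).mpr h
    rw [coe_xE] at h2
    exact transcendental_x E q h2
  · have h1 : adjoin E {xE E M q}
        = (adjoin E {((xE E M q : _root_.Fermat.Agent.A2.Mod.FE E (M * q)) : LaurentSeries E)}).comap
            (_root_.Fermat.Agent.A2.Mod.FE E (M * q)).val := by
      have h0 : (adjoin E {xE E M q}).map (_root_.Fermat.Agent.A2.Mod.FE E (M * q)).val
          = adjoin E {((xE E M q : _root_.Fermat.Agent.A2.Mod.FE E (M * q)) : LaurentSeries E)} := by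
        rw [adjoin_map, Set.image_singleton]
        rfl
      rw [← h0, comap_map]
    rw [h1, finrank_comap, fieldRange_val, coe_xE, FE_eq_fullC]
    exact relfinrank_x_fullC E M hq hqM hchar
  · intro f hf
    have h2 : IsAlgebraic E ((f : _root_.Fermat.Agent.A2.Mod.FE E (M * q)) : LaurentSeries E) :=
      (isAlgebraic_algHom_iff (_root_.Fermat.Agent.A2.Mod.FE E (M * q)).val Subtype.val_injective).mpr hf
    obtain ⟨c, hc⟩ := laurent_const_of_isAlgebraic _ h2
    exact ⟨c, Subtype.ext hc.symm⟩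

end Fermat.Agent.A2.Mod.H31

end

end
-- ===== PACK-END A2/Mod/H31/Deg.lean

-- ===== PACK-BEGIN A2/Mod/H751/Stau.lean
section





/-!
# A2 / MODASM, sub-assembly `Sτ` (helper751)

`stau_of_s1 : S1Statement P E M q w → StauStatement P E M q w` — inertia fixes the coordinate
`x = j · j_q` and acts trivially modulo `w` on both charts.  All leaves are taken from main
(L1, L2: `H553`; L4: `H751`; L14: `H549`); the only hypothesis is the sub-assembly `S1`.

Abstract lemmas (Mathlib only):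

* `mem_valuationSubring_of_isIntegral_adjoin` : a valuation ring containing `R` and `y` contains
  the integral closure of `R[y]`;
* `isIntegral_adjoin_map` : a ring endomorphism `σ` of `F` with `σ ∘ algebraMap = algebraMap ∘ ρ`
  and `σ y = y` preserves the integral closure of `R[y]`;
* `exists_eq_mul_of_mem_inf` : `p₁ ⊓ p₂ = (w)` read elementwise.
-/

set_option autoImplicit false
set_option linter.unusedSectionVars false
set_option synthInstance.maxHeartbeats 400000
set_option maxHeartbeats 1600000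

noncomputable section

namespace Fermat.Agent.A2.Mod.H751

open ModularCurve HahnSeries Polynomial

/-! ### Abstract lemmas -/

section Abstract

variable {R F : Type*} [CommRing R] [Field F] [Algebra R F]

/-- A valuation subring of `F` containing the image of `R` and `y` contains every element
integral over `R[y]`. -/
theorem mem_valuationSubring_of_isIntegral_adjoin (V : ValuationSubring F)
    (hR : ∀ r : R, algebraMap R F r ∈ V) {y : F} (hy : y ∈ V) {b : F}
    (hb : IsIntegral (Algebra.adjoin R ({y} : Set F)) b) : b ∈ V := by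
  have hle : ∀ a ∈ Algebra.adjoin R ({y} : Set F), a ∈ V := by
    intro a ha
    induction ha using Algebra.adjoin_induction with
    | mem z hz =>
        rw [Set.mem_singleton_iff] at hz
        rw [hz]; exact hy
    | algebraMap r => exact hR r
    | add a c _ _ ha hc => exact V.add_mem _ _ ha hc
    | mul a c _ _ ha hc => exact V.mul_mem _ _ ha hc
  let φ : ↥(Algebra.adjoin R ({y} : Set F)) →+* ↥V :=
    { toFun := fun a => ⟨(a : F), hle a a.2⟩
      map_one' := rfl
      map_mul' := fun _ _ => rfl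
      map_zero' := rfl
      map_add' := fun _ _ => rfl }
  have h1 : IsIntegral ↥V ((RingHom.id F) b) :=
    IsIntegral.map_of_comp_eq φ (RingHom.id F) (RingHom.ext fun _ => rfl) hb
  have h2 : IsIntegral ↥V b := h1
  obtain ⟨v, hv⟩ := (IsIntegrallyClosed.isIntegral_iff (R := ↥V) (K := F)).mp h2
  rw [← hv]
  exact v.2

/-- A ring endomorphism `σ` of `F`, semilinear over `ρ : R →+* R` and fixing `y`, preserves the
integral closure of `R[y]`. -/
theorem isIntegral_adjoin_map (σ : F →+* F) (ρ : R →+* R)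
    (hσ : ∀ r : R, σ (algebraMap R F r) = algebraMap R F (ρ r)) {y : F} (hy : σ y = y) {b : F}
    (hb : IsIntegral (Algebra.adjoin R ({y} : Set F)) b) :
    IsIntegral (Algebra.adjoin R ({y} : Set F)) (σ b) := by
  have hle : ∀ a ∈ Algebra.adjoin R ({y} : Set F), σ a ∈ Algebra.adjoin R ({y} : Set F) := by
    intro a ha
    induction ha using Algebra.adjoin_induction with
    | mem z hz =>
        rw [Set.mem_singleton_iff] at hz
        rw [hz, hy]
        exact Algebra.subset_adjoin (Set.mem_singleton y)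
    | algebraMap r =>
        rw [hσ]
        exact Subalgebra.algebraMap_mem _ _
    | add a c _ _ ha hc =>
        rw [map_add]
        exact add_mem ha hc
    | mul a c _ _ ha hc =>
        rw [map_mul]
        exact mul_mem ha hc
  let φ : ↥(Algebra.adjoin R ({y} : Set F)) →+* ↥(Algebra.adjoin R ({y} : Set F)) :=
    { toFun := fun a => ⟨σ (a : F), hle a a.2⟩
      map_one' := Subtype.ext (map_one σ)
      map_mul' := fun a c => Subtype.ext (map_mul σ (a : F) (c : F))
      map_zero' := Subtype.ext (map_zero σ)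
      map_add' := fun a c => Subtype.ext (map_add σ (a : F) (c : F)) }
  exact IsIntegral.map_of_comp_eq φ σ (RingHom.ext fun _ => rfl) hb

/-- `p₁ ⊓ p₂ = (w)`, elementwise. -/
theorem exists_eq_mul_of_mem_inf (B : Subalgebra R F) (w : R) (p₁ p₂ : Ideal B)
    (hinf : p₁ ⊓ p₂ = Ideal.span {algebraMap R B w}) {d : F} (hd : d ∈ B)
    (h₁ : (⟨d, hd⟩ : B) ∈ p₁) (h₂ : (⟨d, hd⟩ : B) ∈ p₂) :
    ∃ c ∈ B, d = algebraMap R F w * c := by
  have h : (⟨d, hd⟩ : B) ∈ p₁ ⊓ p₂ := ⟨h₁, h₂⟩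
  rw [hinf, Ideal.mem_span_singleton] at h
  obtain ⟨c, hc⟩ := h
  refine ⟨(c : F), c.2, ?_⟩
  have := congrArg (fun z : B => (z : F)) hc
  simpa using this

end Abstract

/-! ### The sub-assembly `Sτ` -/

section Concrete

variable (P : ValuationSubring _root_.Fermat.Agent.A2.Mod.Qb) (E : IntermediateField ℚ _root_.Fermat.Agent.A2.Mod.Qb) (M q : ℕ) [NeZero M] [NeZero q]
  (w : _root_.Fermat.Agent.A2.Mod.RE P E)

/-- `τ j_d = j_d`. -/
theorem arith_jE (N d : ℕ) [NeZero d] (hd : d ∣ N) (τE : E ≃ₐ[ℚ] E) :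
    arithmeticRingAut (modularFunctionFieldFull N) τE (jE E N d hd) = jE E N d hd :=
  Subtype.ext (coeffMap_coeffEmb τE _)

/-- `τ x = x`. -/
theorem arith_xE (τE : E ≃ₐ[ℚ] E) :
    arithmeticRingAut (modularFunctionFieldFull (M * q)) τE (xE E M q) = xE E M q := by
  unfold xE
  rw [map_mul, arith_jE, arith_jE]

/-- An automorphism in the inertia group whose restriction to `E` is `τE` preserves `R_E`. -/
theorem resE_mem_RE {τ : _root_.Fermat.Agent.A2.Mod.Qb ≃ₐ[ℚ] _root_.Fermat.Agent.A2.Mod.Qb} {τE : E ≃ₐ[ℚ] E} (hτ : τ ∈ P.inertiaSubgroupIn ℚ)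
    (hτE : ∀ e : E, ((τE e : E) : _root_.Fermat.Agent.A2.Mod.Qb) = τ (e : _root_.Fermat.Agent.A2.Mod.Qb)) : ∀ a ∈ _root_.Fermat.Agent.A2.Mod.RE P E, τE a ∈ _root_.Fermat.Agent.A2.Mod.RE P E := by
  intro a ha
  have hτD := Fermat.Agent.A2.H708.mem_decomposition_of_mem_inertiaIn P hτ
  rw [ValuationSubring.mem_comap] at ha ⊢
  have e : algebraMap ↥E _root_.Fermat.Agent.A2.Mod.Qb (τE a) = τ (algebraMap ↥E _root_.Fermat.Agent.A2.Mod.Qb a) := hτE a
  rw [e]
  exact Fermat.Agent.A2.H708.apply_mem_of_mem_decomposition P hτD ha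

/-- **Sub-assembly `Sτ`** from `S1` (all leaves from main). -/
theorem stau_of_s1 (hS1 : S1Statement P E M q w) : StauStatement P E M q w := by
  intro hS τ τE hτ hτE
  refine ⟨arith_xE E M q τE, ?_⟩
  intro y hy b hb
  have hN : M * q ≠ 0 := mul_ne_zero hS.M_ne_zero hS.q_prime.ne_zero
  haveI : NeZero (M * q) := ⟨hN⟩
  obtain ⟨V, hV⟩ := H553.vinfExists P E (M * q) hN hS.dvr
  have hW : IsFricke E (M * q) (frickeE E (M * q)) := isFricke_frickeE E (M * q)
  obtain ⟨p₁, p₂, hc₁, hc₂, -, -, -, -, hinf⟩ := hS1 hS V (frickeE E (M * q)) hV hW y hy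
  obtain ⟨-, hconst, hj⟩ := H553.vinfBasic P E w (M * q) hN hS.dvr hS.unif V hV
  obtain ⟨hcomm, hin⟩ := H549.inertia_core P E w (M * q) hN hS.dvr hS.unif V
    (frickeE E (M * q)) hV hW.1 τ τE hτE hτ
  -- notation
  set W := frickeE E (M * q) with hWdef
  set j1 := jE E (M * q) 1 (one_dvd _) with hj1
  set jq' := jE E (M * q) q (dvd_mul_left q M) with hjq
  have hx : xE E M q = j1 * jq' := rfl
  -- (a) constants
  have hRV : ∀ r : _root_.Fermat.Agent.A2.Mod.RE P E, algebraMap (_root_.Fermat.Agent.A2.Mod.RE P E) (_root_.Fermat.Agent.A2.Mod.FE E (M * q)) r ∈ V := fun r =>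
    (hconst (r : E)).mpr r.2
  have hRV0 : ∀ r : _root_.Fermat.Agent.A2.Mod.RE P E, algebraMap (_root_.Fermat.Agent.A2.Mod.RE P E) (_root_.Fermat.Agent.A2.Mod.FE E (M * q)) r ∈
      V.comap (W : _root_.Fermat.Agent.A2.Mod.FE E (M * q) →+* _root_.Fermat.Agent.A2.Mod.FE E (M * q)) := by
    intro r
    rw [ValuationSubring.mem_comap]
    have h1 : (W : _root_.Fermat.Agent.A2.Mod.FE E (M * q) →+* _root_.Fermat.Agent.A2.Mod.FE E (M * q)) (algebraMap (_root_.Fermat.Agent.A2.Mod.RE P E) (_root_.Fermat.Agent.A2.Mod.FE E (M * q)) r)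
        = algebraMap (_root_.Fermat.Agent.A2.Mod.RE P E) (_root_.Fermat.Agent.A2.Mod.FE E (M * q)) r := W.commutes (r : E)
    rw [h1]
    exact hRV r
  -- (b) the coordinate and its inverse
  have hxV : xE E M q ∈ V := by
    rw [hx]; exact V.mul_mem _ _ (hj 1 (one_dvd _)).1 (hj q (dvd_mul_left q M)).1
  have hxV' : (xE E M q)⁻¹ ∈ V := by
    rw [hx, mul_inv]; exact V.mul_mem _ _ (hj 1 (one_dvd _)).2 (hj q (dvd_mul_left q M)).2
  have hW1 : W j1 = jE E (M * q) (M * q) dvd_rfl :=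
    hW.1 1 (M * q) (one_dvd _) dvd_rfl (one_mul _)
  have hWq : W jq' = jE E (M * q) M (dvd_mul_right M q) :=
    hW.1 q M (dvd_mul_left q M) (dvd_mul_right M q) (mul_comm q M)
  have hWx : W (xE E M q) = jE E (M * q) (M * q) dvd_rfl * jE E (M * q) M (dvd_mul_right M q) := by
    rw [hx, map_mul, hW1, hWq]
  have hxV0 : xE E M q ∈ V.comap (W : _root_.Fermat.Agent.A2.Mod.FE E (M * q) →+* _root_.Fermat.Agent.A2.Mod.FE E (M * q)) := by
    rw [ValuationSubring.mem_comap]
    show W (xE E M q) ∈ V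
    rw [hWx]
    exact V.mul_mem _ _ (hj (M * q) dvd_rfl).1 (hj M (dvd_mul_right M q)).1
  have hxV0' : (xE E M q)⁻¹ ∈ V.comap (W : _root_.Fermat.Agent.A2.Mod.FE E (M * q) →+* _root_.Fermat.Agent.A2.Mod.FE E (M * q)) := by
    rw [ValuationSubring.mem_comap]
    show W (xE E M q)⁻¹ ∈ V
    rw [map_inv₀, hWx, mul_inv]
    exact V.mul_mem _ _ (hj (M * q) dvd_rfl).2 (hj M (dvd_mul_right M q)).2
  have hyV : y ∈ V := by
    rcases hy with rfl | rfl
    · exact hxV
    · exact hxV'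
  have hyV0 : y ∈ V.comap (W : _root_.Fermat.Agent.A2.Mod.FE E (M * q) →+* _root_.Fermat.Agent.A2.Mod.FE E (M * q)) := by
    rcases hy with rfl | rfl
    · exact hxV0
    · exact hxV0'
  -- (c) `b ∈ V ∩ V₀`
  have hbI : IsIntegral (Algebra.adjoin (_root_.Fermat.Agent.A2.Mod.RE P E) ({y} : Set (_root_.Fermat.Agent.A2.Mod.FE E (M * q)))) b := hb
  have hbV : b ∈ V := mem_valuationSubring_of_isIntegral_adjoin V hRV hyV hbI
  have hbV0 : W b ∈ V := by
    have := mem_valuationSubring_of_isIntegral_adjoin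
      (V.comap (W : _root_.Fermat.Agent.A2.Mod.FE E (M * q) →+* _root_.Fermat.Agent.A2.Mod.FE E (M * q))) hRV0 hyV0 hbI
    rwa [ValuationSubring.mem_comap] at this
  -- (d) `τ b ∈ B`
  have hσA := resE_mem_RE P E hτ hτE
  have hτy : arithmeticRingAut (modularFunctionFieldFull (M * q)) τE y = y := by
    rcases hy with rfl | rfl
    · exact arith_xE E M q τE
    · rw [map_inv₀, arith_xE]
  have hτb : arithmeticRingAut (modularFunctionFieldFull (M * q)) τE b ∈
      chartAlg P E (M * q) y := by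
    have h1 := isIntegral_adjoin_map (R := _root_.Fermat.Agent.A2.Mod.RE P E) (F := _root_.Fermat.Agent.A2.Mod.FE E (M * q))
      ((arithmeticRingAut (modularFunctionFieldFull (M * q)) τE :
        _root_.Fermat.Agent.A2.Mod.FE E (M * q) ≃+* _root_.Fermat.Agent.A2.Mod.FE E (M * q)) : _root_.Fermat.Agent.A2.Mod.FE E (M * q) →+* _root_.Fermat.Agent.A2.Mod.FE E (M * q))
      (H549.resA (_root_.Fermat.Agent.A2.Mod.RE P E) τE hσA)
      (fun r => arithmeticRingAut_algebraMap (modularFunctionFieldFull (M * q)) τE (r : E))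
      hτy hbI
    exact h1
  have hd : arithmeticRingAut (modularFunctionFieldFull (M * q)) τE b - b ∈
      chartAlg P E (M * q) y := sub_mem hτb hb
  -- (e) `τ b - b ∈ w V ∩ w V₀`
  have h₁ : InW P E (M * q) V w
      (arithmeticRingAut (modularFunctionFieldFull (M * q)) τE b - b) := hin b hbV
  have h₂ : InW P E (M * q) (V.comap (W : _root_.Fermat.Agent.A2.Mod.FE E (M * q) →+* _root_.Fermat.Agent.A2.Mod.FE E (M * q))) w
      (arithmeticRingAut (modularFunctionFieldFull (M * q)) τE b - b) := by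
    have h3 := hin (W b) hbV0
    show (arithmeticRingAut (modularFunctionFieldFull (M * q)) τE b - b) * (cE P E (M * q) w)⁻¹
      ∈ V.comap (W : _root_.Fermat.Agent.A2.Mod.FE E (M * q) →+* _root_.Fermat.Agent.A2.Mod.FE E (M * q))
    rw [ValuationSubring.mem_comap]
    show W ((arithmeticRingAut (modularFunctionFieldFull (M * q)) τE b - b)
      * (cE P E (M * q) w)⁻¹) ∈ V
    have hWc : W (cE P E (M * q) w) = cE P E (M * q) w := W.commutes (w : E)
    rw [map_mul, map_sub, map_inv₀, hWc, ← hcomm b]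
    exact h3
  -- (f) conclusion
  exact exists_eq_mul_of_mem_inf (chartAlg P E (M * q) y) w p₁ p₂ hinf hd
    ((hc₁ ⟨_, hd⟩).mpr h₁) ((hc₂ ⟨_, hd⟩).mpr h₂)

end Concrete

end Fermat.Agent.A2.Mod.H751

end
end
-- ===== PACK-END A2/Mod/H751/Stau.lean

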