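import Mathlib
import Fermat.Prelude.Def_ModularCurve_HeckeModule
import Fermat.Agent.Pack.S44.G0E24L1
import Fermat.Agent.Pack.S44.G0E6L0
import Fermat.Agent.Pack.S44.G0E1L2
import Fermat.Agent.Pack.S44.G0E24L2
import Fermat.Agent.Pack.S44.G0E24L3
import Fermat.Agent.Pack.S44.G0E24L0
import Fermat.Agent.Pack.S44.G0E7L1
import Fermat.Agent.Pack.S44.G0E17L3
import Fermat.Agent.Pack.S44.G0E21L2
import Fermat.Agent.Pack.S44.G0E22L1
import Fermat.Agent.Pack.S44.G0E16L3
import Fermat.Agent.Pack.S44.G0E23L0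
import Fermat.Agent.Pack.S44.G0E12L2
import Fermat.Agent.Pack.S44.G0E9L0
import Fermat.Agent.Pack.S44.G0E4L0
import Fermat.Agent.Pack.S44.G1E0L0

-- ===== PACK-BEGIN S37/H819/Enum.lean
section


/-!
# S37 / NORM (helper819) — enumeration of the `FF N`-embeddings of `FF (N ℓ)` and the norm
-/

set_option autoImplicit false

noncomputable section

open ModularCurve HahnSeries UpperHalfPlane AlgebraicCurve
open scoped MatrixGroups

namespace Fermat.Agent.S37.H819

open Fermat.Agent.S24 Fermat.Agent.S24.H997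

variable (N ℓ : ℕ) [NeZero N] [NeZero ℓ]

/-- `α (j) = j` -/
theorem alpha_jF : heckeAlphaBar Kbar N ℓ (jF N) = jF (N * ℓ) := by
  apply Subtype.ext
  rw [coe_heckeAlphaBar]
  rfl

/-- every element of `ℚ̄(j) ⊆ FF (N ℓ)` lies in the image of `α` -/
theorem exists_alpha_eq_of_mem_adjoin {c : FF (N * ℓ)}
    (hc : c ∈ IntermediateField.adjoin Kbar {jF (N * ℓ)}) :
    ∃ c' : FF N, heckeAlphaBar Kbar N ℓ c' = c := by
  induction hc using IntermediateField.adjoin_induction with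
  | mem z hz =>
      rw [Set.mem_singleton_iff] at hz
      subst hz
      exact ⟨jF N, alpha_jF N ℓ⟩
  | algebraMap a => exact ⟨algebraMap Kbar (FF N) a, (heckeAlphaBar Kbar N ℓ).commutes a⟩
  | add z w _ _ hz hw =>
      obtain ⟨z', rfl⟩ := hz
      obtain ⟨w', rfl⟩ := hw
      exact ⟨z' + w', map_add _ _ _⟩
  | inv z _ hz =>
      obtain ⟨z', rfl⟩ := hz
      exact ⟨z'⁻¹, map_inv₀ _ _⟩
  | mul z w _ _ hz hw =>
      obtain ⟨z', rfl⟩ := hz
      obtain ⟨w', rfl⟩ := hw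
      exact ⟨z' * w', map_mul _ _ _⟩

/-- `FF (N ℓ)` is finite over `FF N` (along `α`). -/
theorem finite_alpha :
    letI := algebraAlong (heckeAlphaBar Kbar N ℓ)
    Module.Finite (FF N) (FF (N * ℓ)) := by
  letI := algebraAlong (heckeAlphaBar Kbar N ℓ)
  haveI hfd := (Deg457.degree_fields (N * ℓ)).1
  obtain ⟨s, hs⟩ := (Module.Finite.fg_top :
    (⊤ : Submodule ↥(IntermediateField.adjoin Kbar {jF (N * ℓ)}) (FF (N * ℓ))).FG)
  refine ⟨⟨s, ?_⟩⟩
  rw [eq_top_iff]
  intro x hxt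
  have hx : x ∈ Submodule.span ↥(IntermediateField.adjoin Kbar {jF (N * ℓ)})
      (s : Set (FF (N * ℓ))) := by rw [hs]; trivial
  revert hxt
  induction hx using Submodule.span_induction with
  | mem y hy => exact fun _ => Submodule.subset_span hy
  | zero => exact fun _ => zero_mem _
  | add y z _ _ hy hz => exact fun _ => add_mem (hy trivial) (hz trivial)
  | smul c y _ hy =>
      obtain ⟨c', hc'⟩ := exists_alpha_eq_of_mem_adjoin N ℓ c.2
      have e : c • y = c' • y := by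
        show (c : FF (N * ℓ)) * y = heckeAlphaBar Kbar N ℓ c' * y
        rw [hc']
      rw [e]
      exact fun _ => Submodule.smul_mem _ c' (hy trivial)

/-! ### The target field and the algebra structures -/

/-- An algebraic closure of `ℂ((z))` (type synonym carrying `N`, `ℓ`). -/
def Om (_N _ℓ : ℕ) : Type := AlgebraicClosure (LaurentSeries ℂ)

instance : Field (Om N ℓ) := inferInstanceAs (Field (AlgebraicClosure (LaurentSeries ℂ)))

instance : IsAlgClosed (Om N ℓ) :=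
  inferInstanceAs (IsAlgClosed (AlgebraicClosure (LaurentSeries ℂ)))

/-- the inclusion `ℂ((z)) → Ω` -/
def incOm : LaurentSeries ℂ →+* Om N ℓ :=
  algebraMap (LaurentSeries ℂ) (AlgebraicClosure (LaurentSeries ℂ))

theorem incOm_injective : Function.Injective (incOm N ℓ) :=
  (algebraMap (LaurentSeries ℂ) (AlgebraicClosure (LaurentSeries ℂ))).injective

/-- `FF (N ℓ)` as an `FF N`-algebra along `α` (the Prelude's `algebraAlong`) -/
local instance instAlgAlpha : Algebra (FF N) (FF (N * ℓ)) :=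
  algebraAlong (heckeAlphaBar Kbar N ℓ)

/-- `Ω` as an `FF N`-algebra through `σ₁ ∘ α` -/
local instance instAlgOm : Algebra (FF N) (Om N ℓ) :=
  (((incOm N ℓ).comp (sig N ℓ 1)).comp (heckeAlphaBar Kbar N ℓ).toRingHom).toAlgebra

theorem algebraMap_alpha (y : FF N) :
    algebraMap (FF N) (FF (N * ℓ)) y = heckeAlphaBar Kbar N ℓ y := rfl

theorem algebraMap_Om (y : FF N) :
    algebraMap (FF N) (Om N ℓ) y = incOm N ℓ (sig N ℓ 1 (heckeAlphaBar Kbar N ℓ y)) := rfl

local instance instFiniteAlpha : Module.Finite (FF N) (FF (N * ℓ)) := finite_alpha N ℓ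

example : Algebra.IsSeparable (FF N) (FF (N * ℓ)) := inferInstance

/-- the `FF N`-embedding `σ_{h⁻¹}` for `h ∈ Γ₀(N)` -/
def embOf (h : SL(2, ℤ)) (hh : h ∈ CongruenceSubgroup.Gamma0 N) :
    FF (N * ℓ) →ₐ[FF N] Om N ℓ :=
  { (incOm N ℓ).comp (sig N ℓ h⁻¹) with
    commutes' := fun y => by
      show incOm N ℓ (sig N ℓ h⁻¹ (heckeAlphaBar Kbar N ℓ y))
        = incOm N ℓ (sig N ℓ 1 (heckeAlphaBar Kbar N ℓ y))
      rw [sig_alpha N ℓ hh, sig_one, coe_heckeAlphaBar] }

theorem embOf_apply (h : SL(2, ℤ)) (hh : h ∈ CongruenceSubgroup.Gamma0 N) (x : FF (N * ℓ)) :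
    embOf N ℓ h hh x = incOm N ℓ (sig N ℓ h⁻¹ x) := rfl

/-! ### Every `FF N`-embedding is some `σ_g` -/

/-- all the `σ_g` agree with `σ₁` on `ℚ̄(j)` -/
theorem sig_eq_on_adjoin (g : SL(2, ℤ)) {f : FF (N * ℓ)}
    (hf : f ∈ IntermediateField.adjoin Kbar {jF (N * ℓ)}) : sig N ℓ g f = sig N ℓ 1 f := by
  induction hf using IntermediateField.adjoin_induction with
  | mem z hz =>
      rw [Set.mem_singleton_iff] at hz
      subst hz
      unfold sig
      rw [HolBase.sigmaG_jF, HolBase.sigmaG_jF]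
  | algebraMap c => rw [sig_algebraMap, sig_algebraMap]
  | add z w _ _ hz hw => rw [map_add, map_add, hz, hw]
  | inv z _ hz => rw [map_inv₀, map_inv₀, hz]
  | mul z w _ _ hz hw => rw [map_mul, map_mul, hz, hw]

/-- `ℚ̄(j)` inside `FF (N ℓ)` -/
abbrev Kj : Type := ↥(IntermediateField.adjoin Kbar {jF (N * ℓ)})

/-- `Ω` as a `ℚ̄(j)`-algebra through `σ₁` -/
local instance instAlgKjOm : Algebra (Kj N ℓ) (Om N ℓ) :=
  (((incOm N ℓ).comp (sig N ℓ 1)).comp (algebraMap (Kj N ℓ) (FF (N * ℓ)))).toAlgebra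

/-- the `ℚ̄(j)`-embedding attached to a coset -/
def embK (x : XX (N * ℓ)) : FF (N * ℓ) →ₐ[Kj N ℓ] Om N ℓ :=
  { (incOm N ℓ).comp ((holBase (N * ℓ)).sigmaX (holBase (N * ℓ)).qexpExpansion x) with
    commutes' := fun c => by
      show incOm N ℓ (sig N ℓ (Quotient.out x) (c : FF (N * ℓ)))
        = incOm N ℓ (sig N ℓ 1 (c : FF (N * ℓ)))
      rw [sig_eq_on_adjoin N ℓ _ c.2] }

theorem embK_apply (x : XX (N * ℓ)) (f : FF (N * ℓ)) :
    embK N ℓ x f = incOm N ℓ ((holBase (N * ℓ)).sigmaX (holBase (N * ℓ)).qexpExpansion x f) :=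
  rfl

theorem embK_injective : Function.Injective (embK N ℓ) := by
  intro x y hxy
  apply (holBase (N * ℓ)).sigmaX_injective (holBase (N * ℓ)).qexpExpansion
  refine RingHom.ext fun f => ?_
  apply incOm_injective N ℓ
  have := congrArg (fun φ : FF (N * ℓ) →ₐ[Kj N ℓ] Om N ℓ => φ f) hxy
  simpa only [embK_apply] using this

theorem embK_bijective : Function.Bijective (embK N ℓ) := by
  haveI hfd := (Deg457.degree_fields (N * ℓ)).1
  haveI : Module.Finite (Kj N ℓ) (FF (N * ℓ)) := hfd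
  haveI : Module.Free (Kj N ℓ) (FF (N * ℓ)) := Module.Free.of_divisionRing _ _
  haveI : Finite (FF (N * ℓ) →ₐ[Kj N ℓ] Om N ℓ) := Finite.algHom _ _ _
  refine (embK_injective N ℓ).bijective_of_nat_card_le ?_
  calc Nat.card (FF (N * ℓ) →ₐ[Kj N ℓ] Om N ℓ)
      ≤ Module.finrank (Kj N ℓ) (FF (N * ℓ)) := card_algHom_le_finrank _ _ _
    _ ≤ Nat.card (XX (N * ℓ)) := (Deg457.degree_fields (N * ℓ)).2

/-- an `FF N`-embedding agrees with `σ₁` on `ℚ̄(j)` -/
theorem algHom_eq_on_adjoin (τ : FF (N * ℓ) →ₐ[FF N] Om N ℓ) {f : FF (N * ℓ)}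
    (hf : f ∈ IntermediateField.adjoin Kbar {jF (N * ℓ)}) :
    τ f = incOm N ℓ (sig N ℓ 1 f) := by
  obtain ⟨c', rfl⟩ := exists_alpha_eq_of_mem_adjoin N ℓ hf
  exact τ.commutes c'

/-- **Classification.** Every `FF N`-embedding of `FF (N ℓ)` into `Ω` is `σ_{h⁻¹}` for some
`h ∈ Γ₀(N)`. -/
theorem exists_embOf_eq (τ : FF (N * ℓ) →ₐ[FF N] Om N ℓ) :
    ∃ (h : SL(2, ℤ)) (hh : h ∈ CongruenceSubgroup.Gamma0 N), τ = embOf N ℓ h hh := by
  -- view `τ` as a `ℚ̄(j)`-embedding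
  let τK : FF (N * ℓ) →ₐ[Kj N ℓ] Om N ℓ :=
    { τ.toRingHom with
      commutes' := fun c => algHom_eq_on_adjoin N ℓ τ c.2 }
  obtain ⟨x, hx⟩ := (embK_bijective N ℓ).2 τK
  obtain ⟨g, rfl⟩ := QuotientGroup.mk_surjective x
  have hτ : ∀ f : FF (N * ℓ), τ f = incOm N ℓ (sig N ℓ g f) := by
    intro f
    have h1 : τK f = τ f := rfl
    rw [← h1, ← hx, embK_apply, HolBase.sigmaX_mk]
    rfl
  -- `g⁻¹ ∈ Γ₀(N)`
  have hg : g⁻¹ ∈ CongruenceSubgroup.Gamma0 N := by
    have hNN : N ∣ N * ℓ := Dvd.intro ℓ rfl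
    have h2 := hτ (heckeAlphaBar Kbar N ℓ (inclRN N (jR N N dvd_rfl)))
    have h3 : τ (heckeAlphaBar Kbar N ℓ (inclRN N (jR N N dvd_rfl)))
        = incOm N ℓ (sig N ℓ 1 (heckeAlphaBar Kbar N ℓ (inclRN N (jR N N dvd_rfl)))) :=
      τ.commutes _
    rw [h3] at h2
    have h4 := incOm_injective N ℓ h2
    rw [alpha_inclRN_jR N ℓ N dvd_rfl hNN, sig_inclRN, sig_inclRN, HolBase.bridge_jR, inv_one,
      HolBase.compH_one] at h4
    have h5 := (holBase (N * ℓ)).qexp_injective h4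
    apply Jd_distinct N
    intro t
    have h6 := congrArg (fun f : (holBase (N * ℓ)).Hol => (f : ℍ → ℂ) t) h5
    exact h6.symm
  refine ⟨g⁻¹, hg, ?_⟩
  apply AlgHom.ext
  intro f
  rw [hτ f, embOf_apply, inv_inv]

/-! ### Generation of `FF (N ℓ)` by `α(FF N)` and `β(FF N)` -/

omit [NeZero ℓ] in
theorem dvd_cases {ℓ : ℕ} (hℓ : ℓ.Prime) {N d : ℕ} (hd : d ∣ N * ℓ) :
    d ∣ N ∨ ∃ d', d' ∣ N ∧ d = d' * ℓ := by
  by_cases hℓd : ℓ ∣ d
  · right
    obtain ⟨d', rfl⟩ := hℓd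
    refine ⟨d', ?_, Nat.mul_comm _ _⟩
    rw [Nat.mul_comm N ℓ] at hd
    exact Nat.dvd_of_mul_dvd_mul_left hℓ.pos hd
  · left
    have hc : Nat.Coprime d ℓ := (Nat.coprime_comm.mp ((Nat.Prime.coprime_iff_not_dvd hℓ).mpr hℓd))
    exact hc.dvd_of_dvd_mul_right hd

/-- Two ring homs out of `FF (N ℓ)` agreeing on `α(FF N)` and on `β(FF N)` are equal. -/
theorem ringHom_ext_alpha_beta (hℓ : ℓ.Prime) {E : Type*} [Field E]
    (f g : FF (N * ℓ) →+* E)
    (hα : ∀ y : FF N, f (heckeAlphaBar Kbar N ℓ y) = g (heckeAlphaBar Kbar N ℓ y))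
    (hβ : ∀ y : FF N, f (heckeBetaBar Kbar N ℓ y) = g (heckeBetaBar Kbar N ℓ y)) : f = g := by
  apply ringHom_ext_FF (N * ℓ) f g
  · intro c
    have := hα (algebraMap Kbar (FF N) c)
    rwa [AlgHom.commutes] at this
  · intro d hne hd
    rcases dvd_cases hℓ hd with hdN | ⟨d', hd', rfl⟩
    · rw [← alpha_inclRN_jR N ℓ d hdN hd]
      exact hα _
    · haveI : NeZero d' := ⟨fun h0 => hne.out (by rw [h0, Nat.zero_mul])⟩
      rw [← beta_inclRN_jR N ℓ d' hd' hd]
      exact hβ _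

/-! ### The `ℓ + 1` embeddings -/

section Reps

variable (hℓ : ℓ.Prime) (hℓN : ¬ ℓ ∣ N)

include hℓ hℓN in
theorem coprime_N_ℓ : Nat.Coprime N ℓ :=
  Nat.coprime_comm.mp ((Nat.Prime.coprime_iff_not_dvd hℓ).mpr hℓN)

/-- a representative `h_b ∈ Γ₀(N)` with `(h_b)₁₁ ≡ b (h_b)₁₀ mod ℓ` -/
def hrep (b : ℤ) : SL(2, ℤ) := Classical.choose (exists_rep (coprime_N_ℓ N ℓ hℓ hℓN) b)

theorem hrep_mem (b : ℤ) : hrep N ℓ hℓ hℓN b ∈ CongruenceSubgroup.Gamma0 N :=
  (Classical.choose_spec (exists_rep (coprime_N_ℓ N ℓ hℓ hℓN) b)).1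

theorem hrep_dvd (b : ℤ) :
    (ℓ : ℤ) ∣ (hrep N ℓ hℓ hℓN b) 1 1 - b * (hrep N ℓ hℓ hℓN b) 1 0 :=
  (Classical.choose_spec (exists_rep (coprime_N_ℓ N ℓ hℓ hℓN) b)).2

/-- the `ℓ + 1` embeddings: `none ↦ σ₁`, `some b ↦ σ_{h_b⁻¹}` -/
def embList : Option (Fin ℓ) → (FF (N * ℓ) →ₐ[FF N] Om N ℓ)
  | none => embOf N ℓ 1 (one_mem _)
  | some b => embOf N ℓ (hrep N ℓ hℓ hℓN (b : ℕ)) (hrep_mem N ℓ hℓ hℓN _)

theorem embList_none_beta (y : FF N) :
    embList N ℓ hℓ hℓN none (heckeBetaBar Kbar N ℓ y)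
      = incOm N ℓ (HolBase.Φ (N * ℓ) (qExpand Kbar ℓ (y : LaurentSeries Kbar))) := by
  show incOm N ℓ (sig N ℓ 1⁻¹ (heckeBetaBar Kbar N ℓ y)) = _
  rw [inv_one, sig_one, coe_heckeBetaBar]

theorem embList_some_beta (b : Fin ℓ) (y : FF N) :
    embList N ℓ hℓ hℓN (some b) (heckeBetaBar Kbar N ℓ y)
      = incOm N ℓ (qExpand ℂ N (infTwist (infRoot (b : ℕ) ℓ)
          (coeffMap ιK (y : LaurentSeries Kbar)))) := by
  show incOm N ℓ (sig N ℓ (hrep N ℓ hℓ hℓN (b : ℕ))⁻¹ (heckeBetaBar Kbar N ℓ y)) = _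
  rw [sig_beta N ℓ (hrep_mem N ℓ hℓ hℓN _) (hrep_dvd N ℓ hℓ hℓN _)]

/-- the test element `j ∈ FF N` -/
def jTest : FF N := inclRN N (jR N 1 (one_dvd N))

theorem coe_jTest : ((jTest N : FF N) : LaurentSeries Kbar) = coeffEmb Kbar (qExpand ℚ 1 jq) :=
  rfl

theorem phi_beta_jTest_order :
    (HolBase.Φ (N * ℓ) (qExpand Kbar ℓ ((jTest N : FF N) : LaurentSeries Kbar))).order
      = -(((N * ℓ * ℓ : ℕ)) : ℤ) := by
  rw [coe_jTest]
  show (qExpand ℂ (N * ℓ) (coeffMap ιK (qExpand Kbar ℓ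
    (coeffEmb Kbar (qExpand ℚ 1 jq))))).order = _
  rw [coeffMap_qExpand, coeffMap_ιK_coeffEmb, coeffEmb, coeffMap_qExpand, inf_qExpand_order,
    inf_qExpand_order, inf_qExpand_order]
  have : coeffMap (algebraMap ℚ ℂ) jq = infJq := rfl
  rw [this, infJq_order]
  push_cast
  ring

theorem twist_jTest_eq (b : ℤ) :
    haveI : NeZero (1 * N) := ⟨by rw [one_mul]; exact NeZero.ne N⟩
    qExpand ℂ N (infTwist (infRoot b ℓ) (coeffMap ιK ((jTest N : FF N) : LaurentSeries Kbar)))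
      = infGenExp (1 * N) (((1 : ℕ) : ℤ) * b) ℓ := by
  rw [coe_jTest]
  exact (infGenExp_eq_twist N ℓ 1 b).symm

include hℓ in
theorem embList_injective : Function.Injective (embList N ℓ hℓ hℓN) := by
  haveI : NeZero (1 * N) := ⟨by rw [one_mul]; exact NeZero.ne N⟩
  have hℓ2 : 2 ≤ ℓ := hℓ.two_le
  have hN1 : 1 ≤ N := Nat.pos_of_ne_zero (NeZero.ne N)
  have key_ns : ∀ b : Fin ℓ, embList N ℓ hℓ hℓN none ≠ embList N ℓ hℓ hℓN (some b) := by
    intro b hEq
    have h1 := congrArg (fun φ : FF (N * ℓ) →ₐ[FF N] Om N ℓ =>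
      φ (heckeBetaBar Kbar N ℓ (jTest N))) hEq
    simp only [embList_none_beta, embList_some_beta] at h1
    have h2 := incOm_injective N ℓ h1
    have h3 := congrArg HahnSeries.order h2
    rw [phi_beta_jTest_order, twist_jTest_eq, infGenExp_order] at h3
    have h4 : N * ℓ * ℓ = 1 * N := by
      have : ((N * ℓ * ℓ : ℕ) : ℤ) = ((1 * N : ℕ) : ℤ) := by linarith
      exact_mod_cast this
    have h5 : N * 4 ≤ N * ℓ * ℓ := by
      rw [Nat.mul_assoc]
      exact Nat.mul_le_mul_left N (Nat.mul_le_mul hℓ2 hℓ2)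
    omega
  have key_ss : ∀ b b' : Fin ℓ, embList N ℓ hℓ hℓN (some b) = embList N ℓ hℓ hℓN (some b') →
      b = b' := by
    intro b b' hEq
    have h1 := congrArg (fun φ : FF (N * ℓ) →ₐ[FF N] Om N ℓ =>
      φ (heckeBetaBar Kbar N ℓ (jTest N))) hEq
    simp only [embList_some_beta] at h1
    have h2 := incOm_injective N ℓ h1
    rw [twist_jTest_eq, twist_jTest_eq] at h2
    have h3 := congrArg HahnSeries.leadingCoeff h2
    rw [infGenExp_leadingCoeff, infGenExp_leadingCoeff] at h3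
    have h4 : infRoot (((1 : ℕ) : ℤ) * ((b : ℕ) : ℤ)) ℓ = infRoot (((1 : ℕ) : ℤ) * ((b' : ℕ) : ℤ)) ℓ :=
      inv_injective (Units.val_inj.mp h3)
    obtain ⟨k, hk⟩ := (infRoot_eq_iff hℓ.pos).mp h4
    have hb := b.2
    have hb' := b'.2
    apply Fin.ext
    have h5 : ((b : ℕ) : ℤ) - ((b' : ℕ) : ℤ) = ℓ * k := by
      simp only [Nat.cast_one, one_mul] at hk
      exact hk
    have hk0 : k = 0 := by
      by_contra hne
      rcases lt_or_gt_of_ne hne with hlt | hgt
      · have : (ℓ : ℤ) * k ≤ ℓ * (-1) :=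
          mul_le_mul_of_nonneg_left (by omega) (by positivity)
        have h6 : ((b : ℕ) : ℤ) < ℓ := by exact_mod_cast hb
        have h7 : (0 : ℤ) ≤ ((b : ℕ) : ℤ) := by positivity
        have h8 : ((b' : ℕ) : ℤ) < ℓ := by exact_mod_cast hb'
        linarith
      · have : (ℓ : ℤ) * 1 ≤ ℓ * k :=
          mul_le_mul_of_nonneg_left (by omega) (by positivity)
        have h6 : ((b : ℕ) : ℤ) < ℓ := by exact_mod_cast hb
        have h7 : (0 : ℤ) ≤ ((b' : ℕ) : ℤ) := by positivity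
        linarith
    rw [hk0, mul_zero] at h5
    have : ((b : ℕ) : ℤ) = ((b' : ℕ) : ℤ) := by linarith
    exact_mod_cast this
  intro o o' hEq
  rcases o with _ | b <;> rcases o' with _ | b'
  · rfl
  · exact absurd hEq (key_ns b')
  · exact absurd hEq.symm (key_ns b)
  · rw [key_ss b b' hEq]

include hℓ in
theorem embList_surjective : Function.Surjective (embList N ℓ hℓ hℓN) := by
  intro τ
  obtain ⟨h, hh, rfl⟩ := exists_embOf_eq N ℓ τ
  rcases dvd_or_exists_b hℓ h with hd | ⟨b, hb⟩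
  · -- `h ∈ Γ₀(N ℓ)`, so `σ_{h⁻¹} = σ₁`
    refine ⟨none, ?_⟩
    have hM : h ∈ CongruenceSubgroup.Gamma0 (N * ℓ) :=
      mem_gamma0_mul (coprime_N_ℓ N ℓ hℓ hℓN) hh hd
    have e : sig N ℓ h⁻¹ = sig N ℓ (1 : SL(2, ℤ))⁻¹ := by
      have := (holBase (N * ℓ)).sigmaG_mul_of_mem (holBase (N * ℓ)).qexpExpansion 1
        (inv_mem hM)
      rw [one_mul] at this
      rw [inv_one]
      exact this
    apply AlgHom.ext
    intro f
    show incOm N ℓ (sig N ℓ (1 : SL(2, ℤ))⁻¹ f) = incOm N ℓ (sig N ℓ h⁻¹ f)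
    rw [e]
  · -- `σ_{h⁻¹} = σ_{h_{b₀}⁻¹}` with `b₀ = b mod ℓ`
    have hℓpos : (0 : ℤ) < ℓ := by exact_mod_cast hℓ.pos
    have hb0 : 0 ≤ b % (ℓ : ℤ) := Int.emod_nonneg b hℓpos.ne'
    have hb1 : b % (ℓ : ℤ) < ℓ := Int.emod_lt_of_pos b hℓpos
    let b₀ : Fin ℓ := ⟨(b % (ℓ : ℤ)).toNat, by
      have := hb1
      omega⟩
    have hb₀ : ((b₀ : ℕ) : ℤ) = b % (ℓ : ℤ) := Int.toNat_of_nonneg hb0
    refine ⟨some b₀, ?_⟩
    have e : sig N ℓ (hrep N ℓ hℓ hℓN ((b₀ : ℕ) : ℤ))⁻¹ = sig N ℓ h⁻¹ := by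
      apply ringHom_ext_alpha_beta N ℓ hℓ
      · intro y
        rw [sig_alpha N ℓ (hrep_mem N ℓ hℓ hℓN _), sig_alpha N ℓ hh]
      · intro y
        rw [sig_beta N ℓ (hrep_mem N ℓ hℓ hℓN _) (hrep_dvd N ℓ hℓ hℓN _), sig_beta N ℓ hh hb]
        have : infRoot ((b₀ : ℕ) : ℤ) ℓ = infRoot b ℓ := by
          rw [infRoot_eq_iff hℓ.pos, hb₀]
          exact ⟨-(b / (ℓ : ℤ)), by linarith [Int.emod_add_mul_ediv b ℓ]⟩
        rw [this]
    apply AlgHom.ext
    intro f
    show incOm N ℓ (sig N ℓ (hrep N ℓ hℓ hℓN ((b₀ : ℕ) : ℤ))⁻¹ f) = incOm N ℓ (sig N ℓ h⁻¹ f)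
    rw [e]

include hℓ in
theorem embList_bijective : Function.Bijective (embList N ℓ hℓ hℓN) :=
  ⟨embList_injective N ℓ hℓ hℓN, embList_surjective N ℓ hℓ hℓN⟩

end Reps

end Fermat.Agent.S37.H819

end
end
-- ===== PACK-END S37/H819/Enum.lean

-- ===== PACK-BEGIN S29/M4b/Defs.lean
section
/-
S29 row, LAYER M, SUB-LAYER M4b (the Kummer map) — FROZEN interface definitions
(sub-architect: deputy helper822).  Namespace `Fermat.Agent.S29.M4b`.
Do not edit; propose changes via a note kind='question' stmt='S29'.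

The relation `IsKum N p c x` ("`x` is the Kummer class of the character `c`"):
`x = [D]`, `p • D = div f` (landed `H455.IsKummerClass`), and after clearing poles by a `p`-th power
`t ^ p` the function `f * t ^ p` is the `p`-th power of a holomorphic `U : ℍ → ℂ` which transforms
under `Γ₀(N)` by the character `γ ↦ ζ_p ^ c(γ)`.

"Analytic realisation" = equality of `q`-expansions at `i∞` (landed S24 / H882 language):
`G` realises `u ∈ FF N` iff `G ∈ S24.H648.goodRing N` (holomorphic, `Γ₀(N)`-invariant, all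
`SL₂(ℤ)`-translates of at most exponential growth) and `qexpFun 1 G = coeffMap iotaC u`.
-/




set_option autoImplicit false

noncomputable section

open ModularCurve AlgebraicCurve CongruenceSubgroup UpperHalfPlane
open scoped MatrixGroups Manifold

namespace Fermat.Agent.S29.M4b

open Fermat.Agent.S24 Fermat.Agent.S29

/-- The fixed primitive `p`-th root of unity `exp(2πi/p)`. -/
def zetaP (p : ℕ) : ℂ := Complex.exp (2 * Real.pi * Complex.I / p)

/-- `G : ℍ → ℂ` realises `u ∈ FF N = ℚ̄(j(q^d) : d ∣ N)`: `G` is a "good" function (holomorphic on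
`ℍ`, `Γ₀(N)`-invariant, exponential growth at all cusps) whose `q`-expansion at `i∞` is `u`, the
coefficients being embedded by the fixed `Deg457.iotaC : ℚ̄ → ℂ`. -/
def Realises (N : ℕ) [NeZero N] (u : FF N) (G : ℍ → ℂ) : Prop :=
  G ∈ H648.goodRing N ∧
    H708.qexpFun 1 G = coeffMap Deg457.iotaC ((u : FF N) : LaurentSeries Kbar)

/-- `U` transforms under `Γ₀(N)` by the character `γ ↦ ζ_p ^ c(γ)`. -/
def HasChar (N p : ℕ) (c : G0 N → ZMod p) (U : ℍ → ℂ) : Prop :=
  ∀ (γ : G0 N) (τ : ℍ), U ((γ : SL(2, ℤ)) • τ) = zetaP p ^ (c γ).val * U τ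

/-- `U` is a twisted function of character `c`: holomorphic on `ℍ`, not identically zero, of
character `c`, with `U ^ p` good (i.e. `U` has at most exponential growth at every cusp). -/
structure IsTwisted (N p : ℕ) (c : G0 N → ZMod p) (U : ℍ → ℂ) : Prop where
  mdiff : MDifferentiable 𝓘(ℂ) 𝓘(ℂ) U
  ne_zero : ∃ τ : ℍ, U τ ≠ 0
  hasChar : HasChar N p c U
  pow_mem : (fun τ => U τ ^ p) ∈ H648.goodRing N

/-- **The Kummer relation.**  `x ∈ J₀(N)(ℚ̄)` is the Kummer class of the character `c`. -/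
def IsKum (N p : ℕ) [NeZero N] (c : G0 N → ZMod p) (x : JZero N) : Prop :=
  ∃ (f t : FF N) (U : ℍ → ℂ), t ≠ 0 ∧ H455.IsKummerClass (p : ℤ) f x ∧
    IsTwisted N p c U ∧ Realises N (f * t ^ p) (fun τ => U τ ^ p)

/-- `c'` is the transfer (= Hecke image `T_ℓ c`) of `c`: `c'(γ) = ∑ᵢ c(δᵢ)` for EVERY
factorisation `αᵢ γ = δᵢ α_{π i}` (`αᵢ = heckeRep ℓ i` of `DefsM`).  For `ℓ ∤ N` prime the
factorisation exists and is unique (piece `HCoh`), so `c' = heckeCoh N ℓ c`. -/
def IsTransfer (N ℓ : ℕ) {A : Type*} [AddCommMonoid A] (c c' : G0 N → A) : Prop :=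
  ∀ (γ : G0 N) (π : Option (Fin ℓ) → Option (Fin ℓ)) (δ : Option (Fin ℓ) → G0 N),
    (∀ i, IsHeckeFactor ℓ γ i (π i, δ i)) → c' γ = ∑ i, c (δ i)

end Fermat.Agent.S29.M4b

end
end
-- ===== PACK-END S29/M4b/Defs.lean

-- ===== PACK-BEGIN S29/H332/KummerChar.lean
section




/-!
# S29 / M4b / K1 — Kummer functions of additive characters `Γ₀(N) → ℤ/m`

For an additive map `c : Γ₀(N) → ZMod m` vanishing on all elements of trace `±2` we package the
character `χ_c(γ) = exp(2πi c(γ)/m)` and the Kummer function `h_c = E^{χ_c}₁₂ / (2Δ)`: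

* `h_c ∈ holN N`, `h_c(γτ) = χ_c(γ) h_c(τ)`;
* `h_c ^ m ∈ goodRing N` and its `q`-expansion `kummerExp ^ m` lies in the function field
  `laurentBaseChange ℂ (modularFunctionFieldFull N)` (via helper882's MERO);
* `q`-expansion of `h_c` has order `-1` and leading coefficient `1`.

The modulus `m ≥ 1` is arbitrary (rows S29: `m = p`; S30: `m = p ^ n`).
-/

set_option autoImplicit false
set_option linter.unusedSectionVars false

noncomputable section

open UpperHalfPlane HahnSeries ModularCurve Complex AlgebraicCurve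
open scoped Real MatrixGroups Manifold

namespace Fermat.Agent.S29.H332

open Fermat.Agent.S24 Fermat.Agent.S24.H997 Fermat.Agent.S24.H624 Fermat.Agent.S24.H648

variable {N m : ℕ} [NeZero m]

/-- An additive character `Γ₀(N) → ℤ/m` vanishing on the elements of trace `±2`. -/
structure IsParAdd (c : CongruenceSubgroup.Gamma0 N → ZMod m) : Prop where
  map_mul : ∀ γ γ' : CongruenceSubgroup.Gamma0 N, c (γ * γ') = c γ + c γ'
  parabolic : ∀ γ : CongruenceSubgroup.Gamma0 N,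
    ((γ : SL(2, ℤ)).1.trace = 2 ∨ (γ : SL(2, ℤ)).1.trace = -2) → c γ = 0

namespace IsParAdd

variable {c c' : CongruenceSubgroup.Gamma0 N → ZMod m}

theorem map_one (hc : IsParAdd c) : c 1 = 0 := by
  have h := hc.map_mul 1 1
  rw [mul_one] at h
  exact left_eq_add.mp h

/-- The multiplicative character `γ ↦ exp(2πi c(γ)/m)`. -/
def char (hc : IsParAdd c) : CongruenceSubgroup.Gamma0 N →* ℂˣ :=
  MonoidHom.toHomUnits
    { toFun := fun γ => ZMod.stdAddChar (c γ)
      map_one' := by rw [hc.map_one, AddChar.map_zero_eq_one]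
      map_mul' := fun γ γ' => by rw [hc.map_mul, AddChar.map_add_eq_mul] }

@[simp]
theorem char_apply (hc : IsParAdd c) (γ : CongruenceSubgroup.Gamma0 N) :
    (hc.char γ : ℂ) = ZMod.stdAddChar (c γ) := rfl

theorem norm_char (hc : IsParAdd c) (γ : CongruenceSubgroup.Gamma0 N) :
    ‖(hc.char γ : ℂ)‖ = 1 := by
  rw [char_apply, ZMod.stdAddChar_apply]
  exact Circle.norm_coe _

theorem char_pow (hc : IsParAdd c) (γ : CongruenceSubgroup.Gamma0 N) : hc.char γ ^ m = 1 := by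
  apply Units.ext
  rw [Units.val_pow_eq_pow_val, char_apply, ← AddChar.map_nsmul_eq_pow, Units.val_one]
  have : m • c γ = 0 := by
    rw [nsmul_eq_mul]
    simp
  rw [this, AddChar.map_zero_eq_one]

theorem char_eq_one_iff (hc : IsParAdd c) (γ : CongruenceSubgroup.Gamma0 N) :
    hc.char γ = 1 ↔ c γ = 0 := by
  constructor
  · intro h
    have h1 : (hc.char γ : ℂ) = 1 := by rw [h, Units.val_one]
    rw [char_apply, ← AddChar.map_zero_eq_one (ZMod.stdAddChar (N := m))] at h1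
    exact ZMod.injective_stdAddChar h1
  · intro h
    apply Units.ext
    rw [char_apply, h, AddChar.map_zero_eq_one, Units.val_one]

theorem parTrivial (hc : IsParAdd c) : ParTrivial hc.char := by
  intro γ hγ
  rw [char_eq_one_iff]
  exact hc.parabolic γ hγ

theorem ellTrivial (hc : IsParAdd c)
    (hell : ∀ (γ : CongruenceSubgroup.Gamma0 N) (n : ℕ), 0 < n → γ ^ n = 1 → c γ = 0) :
    EllTrivial hc.char := by
  intro γ n hn hγ
  rw [char_eq_one_iff]
  exact hell γ n hn hγ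

theorem add (hc : IsParAdd c) (hc' : IsParAdd c') : IsParAdd (c + c') where
  map_mul γ γ' := by
    simp only [Pi.add_apply, hc.map_mul, hc'.map_mul]
    abel
  parabolic γ hγ := by
    simp only [Pi.add_apply, hc.parabolic γ hγ, hc'.parabolic γ hγ, add_zero]

theorem char_add (hc : IsParAdd c) (hc' : IsParAdd c') :
    (hc.add hc').char = hc.char * hc'.char := by
  ext γ
  simp [AddChar.map_add_eq_mul]

variable [NeZero N]

variable (N) in
/-- The Kummer function of an additive parabolic character. -/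
def kfun (hc : IsParAdd c) : ℍ → ℂ := kummerFun N hc.char

variable (N) in
/-- Its `q`-expansion at `i∞`. -/
def kexp (hc : IsParAdd c) : LaurentSeries ℂ := kummerExp N hc.char

theorem kfun_mem_holN (hc : IsParAdd c) : hc.kfun N ∈ holN N :=
  kummerFun_mem_holN hc.parTrivial hc.norm_char

theorem kfun_smul (hc : IsParAdd c) (γ : CongruenceSubgroup.Gamma0 N) (τ : ℍ) :
    hc.kfun N ((γ : SL(2, ℤ)) • τ) = ZMod.stdAddChar (c γ) * hc.kfun N τ :=
  hasCharacter_kummerFun hc.parTrivial γ τ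

theorem kfun_pow_mem_goodRing (hc : IsParAdd c) : hc.kfun N ^ m ∈ goodRing N :=
  kummerFun_pow_mem_goodRing hc.parTrivial hc.norm_char hc.char_pow

theorem hasQExp_kfun (hc : IsParAdd c) :
    Fermat.Agent.S24.H708.HasQExp 1 (hc.kfun N) (hc.kexp N) :=
  hasQExp_kummerFun hc.parTrivial hc.norm_char

theorem kexp_order (hc : IsParAdd c) : (hc.kexp N).order = -1 :=
  (kummerExp_eq hc.parTrivial hc.norm_char).1

theorem kexp_leadingCoeff (hc : IsParAdd c) : (hc.kexp N).leadingCoeff = 1 :=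
  (kummerExp_eq hc.parTrivial hc.norm_char).2

theorem kexp_ne_zero (hc : IsParAdd c) : hc.kexp N ≠ 0 :=
  kummerExp_ne_zero hc.parTrivial hc.norm_char

theorem kfun_ne_zero (hc : IsParAdd c) : hc.kfun N ≠ 0 :=
  kummerFun_ne_zero hc.parTrivial hc.norm_char

theorem hasCharacter_kfun (hc : IsParAdd c) : HasCharacter hc.char (hc.kfun N) :=
  hasCharacter_kummerFun hc.parTrivial

/-- **K2 (analytic part)**: local divisibility of the orders of the Kummer function, at a point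
with rotation `ε` of finite order (`ε = 1`, `S`, `S * T`), for the coset `g⁻¹ Γ₀(N)` of
`ε`-period `k`. -/
theorem kfun_dvd_mul_order_of_finite_order (hc : IsParAdd c)
    (hell : ∀ (γ : CongruenceSubgroup.Gamma0 N) (n : ℕ), 0 < n → γ ^ n = 1 → c γ = 0)
    (X : Expansion (holBase N)) {ε : SL(2, ℤ)} (R : RotData (holBase N) X ε)
    {n : ℕ} (hn : 0 < n) (hε : ε ^ n = 1)
    (g : SL(2, ℤ)) (k : ℕ) (hk : g * ε ^ k * g⁻¹ ∈ CongruenceSubgroup.Gamma0 N) :
    (R.m : ℤ) ∣ (k : ℤ) * (X.E ((holBase N).compH g ⟨hc.kfun N, hc.kfun_mem_holN⟩)).order :=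
  hc.hasCharacter_kfun.dvd_mul_order_of_finite_order hc.kfun_mem_holN hc.kfun_ne_zero
    (hc.ellTrivial hell) X R hn hε g k hk

/-- **K2 (analytic part)** at the cusps (`ε = T`). -/
theorem kfun_dvd_mul_order_T (hc : IsParAdd c)
    (X : Expansion (holBase N)) (R : RotData (holBase N) X ModularGroup.T)
    (g : SL(2, ℤ)) (k : ℕ)
    (hk : g * ModularGroup.T ^ k * g⁻¹ ∈ CongruenceSubgroup.Gamma0 N) :
    (R.m : ℤ) ∣ (k : ℤ) * (X.E ((holBase N).compH g ⟨hc.kfun N, hc.kfun_mem_holN⟩)).order :=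
  hc.hasCharacter_kfun.dvd_mul_order_T hc.kfun_mem_holN hc.kfun_ne_zero hc.parTrivial X R g k hk

/-- **K1 + MERO**: the `q`-expansion of `h_c ^ m` lies in the function field of `X₀(N)` over `ℂ`. -/
theorem kexp_pow_mem_FC (hc : IsParAdd c) :
    hc.kexp N ^ m ∈ laurentBaseChange ℂ (modularFunctionFieldFull N) :=
  Fermat.Agent.S29.H882.mem_FC_of_hasQExp hc.kfun_pow_mem_goodRing
    ((hc.hasQExp_kfun).pow m)

end IsParAdd

end Fermat.Agent.S29.H332

end
end
-- ===== PACK-END S29/H332/KummerChar.lean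

-- ===== PACK-BEGIN S18/H438/NodeAlg.lean
section



/-!
# S18 / NODE ALG (helper438): `Mod.AlgStatement M`

Exact type of `Integ.node_alg` (skeleton v4 of row-lead helper18):

    theorem node_alg (M : ℕ) : Mod.AlgStatement M

It is the instance `Ω = Om M` of `H438.algMain : Alg.AlgMainStatement Lc x S 𝓕`
(`Front/AlgMain.lean`), which holds for every field `Ω` and every good family.
-/

set_option autoImplicit false

namespace Fermat.Agent.S18.H438

/-- **NODE ALG.** -/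
theorem node_alg (M : ℕ) : Mod.AlgStatement M :=
  fun Lc x S 𝓕 => algMain Lc x S 𝓕

end Fermat.Agent.S18.H438

end
-- ===== PACK-END S18/H438/NodeAlg.lean

-- ===== PACK-BEGIN Ribet/H764/I3At.lean
section


/-!
# I3 = W-R3P at a FIXED field `k` (helper764)

The leaves of `I3Spec.lean` for one field `k` of characteristic `p` (in the wall:
`k = IsLocalRing.ResidueField A`, `A` a valuation subring of `ℚ̄` over `p`), and the glue.
Owners of INC / DIMK / LOGHOL may prove the `…At` forms for their `k` only.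

* `IncAt M k`, `DimAt M k`, `LogHolAt p M k`, `LogDiffFormsAt p M k`, `R3PAt p M k`;
* PROVED: `logDiffFormsAt_of`, `r3pAt_of_logDiffForms`, `r3pAt_of_geo`;
  the `∀ k` statements of `I3Spec.lean` are the conjunctions over all `k`
  (`incAt_of`, … , `r3p_of_at`).
-/

set_option autoImplicit false
set_option linter.style.haveILetI false

open CuspForm ModularFormClass ModularCurve AlgebraicCurve

namespace Fermat.Agent.Ribet.H764.I3

open Fermat.Agent.Ribet.H944.Wall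

/-- (INC) at `k`. -/
def IncAt (M : ℕ) [NeZero M] (k : Type) [Field k] : Prop :=
  ∀ g : PowerSeries k, IsRedOfForm k M g → IsHoloSeries k M g

/-- (DIMK) at `k`. -/
def DimAt (M : ℕ) [NeZero M] (k : Type) [Field k] : Prop :=
  ∀ W : Submodule k (PowerSeries k), Module.Finite k W → (∀ g ∈ W, IsHoloSeries k M g) →
    Module.finrank k W ≤ Module.finrank ℂ (CuspForm (CongruenceSubgroup.Gamma0 M) 2)

/-- (LOGHOL) at `k`. -/
def LogHolAt (p M : ℕ) [NeZero M] (k : Type) [Field k] : Prop :=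
  ∀ h : modularFunctionFieldFullC k M, h ≠ 0 →
    (∀ Q : Place k (modularFunctionFieldFullC k M), (p : ℤ) ∣ Q.ord h) →
    ∀ g : PowerSeries k, IsDlog (h : LaurentSeries k) g → IsHoloSeries k M g

/-- (GEO) at `k`. -/
def LogDiffFormsAt (p M : ℕ) [NeZero M] (k : Type) [Field k] : Prop :=
  ∀ h : modularFunctionFieldFullC k M, h ≠ 0 →
    (∀ Q : Place k (modularFunctionFieldFullC k M), (p : ℤ) ∣ Q.ord h) →
    ∀ g : PowerSeries k, IsDlog (h : LaurentSeries k) g → g ∈ redForms k M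

/-- **I3 at `k`.** -/
def R3PAt (p M : ℕ) [NeZero M] (k : Type) [Field k] : Prop :=
  ∀ (S : Finset ℕ) (a : ℕ → ℤ) (h : modularFunctionFieldFullC k M), h ≠ 0 →
    (∀ Q : Place k (modularFunctionFieldFullC k M), (p : ℤ) ∣ Q.ord h) →
    ∀ g : PowerSeries k, IsDlog (h : LaurentSeries k) g → g ≠ 0 → IsEigenSeries M S a g →
      Lowered M p S a

variable {p M : ℕ} [NeZero M] {k : Type} [Field k]

/-- Glue at `k`: the geometric heart from INC, DIMK, LOGHOL (RANK is proved). -/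
theorem logDiffFormsAt_of [CharP k p] (hp : p.Prime) (hI : IncAt M k) (hD : DimAt M k)
    (hH : LogHolAt p M k) : LogDiffFormsAt p M k := by
  intro h h0 hdiv g hg
  obtain ⟨hfin, hrank⟩ := rank_proved p M hp k
  haveI := hfin
  have hVH : redForms k M ≤ holoSeries k M :=
    Submodule.span_le.mpr fun x hx => hI x hx
  have hgH : g ∈ holoSeries k M := hH h h0 hdiv g hg
  set W : Submodule k (PowerSeries k) := redForms k M ⊔ Submodule.span k {g} with hW
  have hWH : W ≤ holoSeries k M :=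
    sup_le hVH (Submodule.span_le.mpr (Set.singleton_subset_iff.mpr hgH))
  haveI : Module.Finite k (Submodule.span k ({g} : Set (PowerSeries k))) :=
    Module.Finite.span_of_finite k (Set.finite_singleton g)
  haveI hWfin : Module.Finite k W := Submodule.finite_sup _ _
  have hdim : Module.finrank k W ≤ Module.finrank k (redForms k M) := by
    rw [hrank]
    exact hD W hWfin fun x hx => hWH hx
  have hVW : redForms k M ≤ W := le_sup_left
  have hEq : redForms k M = W := Submodule.eq_of_le_of_finrank_le hVW hdim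
  rw [hEq]
  exact (le_sup_right : Submodule.span k {g} ≤ W) (Submodule.mem_span_singleton_self g)

/-- I3 at `k` from the geometric heart at `k`. -/
theorem r3pAt_of_logDiffForms [CharP k p] (hp : p.Prime) (hG : LogDiffFormsAt p M k) :
    R3PAt p M k := by
  intro S a h h0 hdiv g hg hg0 heig
  obtain ⟨S', hS', hE⟩ :=
    lift_proved p M hp S a (desc_proved p M hp k S a g (hG h h0 hdiv g hg) hg0 heig)
  exact ⟨S', hS', Or.inr hE⟩

/-- **I3 at `k` from the three open geometric leaves at `k`.** -/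
theorem r3pAt_of_geo [CharP k p] (hp : p.Prime) (hI : IncAt M k) (hD : DimAt M k)
    (hH : LogHolAt p M k) : R3PAt p M k :=
  r3pAt_of_logDiffForms hp (logDiffFormsAt_of hp hI hD hH)

/-- The `∀ k` statement from the statements at each `k`. -/
theorem r3p_of_at
    (h : ∀ (p M : ℕ) [NeZero M], p.Prime → ¬ p ∣ M →
      ∀ (k : Type) [Field k] [IsAlgClosed k] [CharP k p], R3PAt p M k) : R3PStatement :=
  fun p M _ hp hpM k _ _ _ => h p M hp hpM k

end Fermat.Agent.Ribet.H764.I3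

end
-- ===== PACK-END Ribet/H764/I3At.lean

-- ===== PACK-BEGIN S37/H818/Transfer.lean
section
/-
S37 / LEVEL TRANSFER (helper818), part 11: reduction data at level `N * k` give reduction data at
level `N`, when `[F_{N k} : F_N]` is a power of `ℓ` (e.g. `(ℓ, k) = (3, 2)` or `(2, 3)`,
`gcd(N, 6) = 1`):   `red_N := red_{N k} ∘ π^*`.
-/





set_option autoImplicit false
set_option linter.style.haveILetI false

noncomputable section

namespace Fermat.Agent.S37.H818

open AlgebraicCurve ModularCurve IntermediateField Fermat.Agent.S37.H99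

/-- `ℚ̄`. -/
abbrev Qb : Type := AlgebraicClosure ℚ

variable (N k ℓ : ℕ) [NeZero N] [NeZero k] [NeZero ℓ]

/-- The inputs of the level transfer `N * k → N` at the Hecke prime `ℓ`. -/
structure TransferInputs : Prop where
  hℓ : ℓ.Prime
  hk : k.Prime
  hℓN : ¬ ℓ ∣ N
  hℓk : ¬ ℓ ∣ k
  /-- Hecke inputs at level `N` -/
  heckeN : HeckeInputsAlong Qb N ℓ
  /-- Hecke inputs at level `N * k` -/
  heckeM : HeckeInputsAlong Qb (N * k) ℓ
  /-- the norm formula for the degeneracy map `F_N ⊂ F_{N k}` -/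
  normFormula : NormFormulaAlong Qb (heckeAlphaBar Qb N k) (finiteAlong_heckeAlphaBar N k hk)
  /-- the degree of the degeneracy map is a power of `ℓ` -/
  deg_pow : ∃ e : ℕ, finrankAlong Qb (heckeAlphaBar Qb N k) = ℓ ^ e

variable {N k ℓ}

namespace TransferInputs

variable [HasPrincipalDivisors Qb (FB Qb N)] [HasPrincipalDivisors Qb (FB Qb (N * k))]

variable (T : TransferInputs N k ℓ)

include T

omit [HasPrincipalDivisors Qb (FB Qb N)] [HasPrincipalDivisors Qb (FB Qb (N * k))] in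
theorem isIntegral : (heckeAlphaBar Qb N k).toRingHom.IsIntegral :=
  isIntegral_heckeAlphaBar N k T.hk

theorem fundamentalIdentity : FundamentalIdentityAlong Qb (heckeAlphaBar Qb N k) T.isIntegral :=
  fundamentalIdentityAlong_of_normFormula _ _ (finiteAlong_heckeAlphaBar N k T.hk) T.normFormula

/-- The pullback `π^* : J₀(N) → J₀(N k)`. -/
def pullback : JZero N →+ JZero (N * k) :=
  pullbackPic0Along (heckeAlphaBar Qb N k) T.isIntegral T.fundamentalIdentity

theorem pullback_galois (σ : Qb ≃ₐ[ℚ] Qb) (x : JZero N) :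
    T.pullback (σ • x) = σ • T.pullback x :=
  pullbackPic0Along_galois T.isIntegral T.fundamentalIdentity σ x

theorem pullback_hecke (x : JZero N) :
    T.pullback (heckeOperatorBar N ⟨ℓ, T.hℓ⟩ x) =
      heckeOperatorBar (N * k) ⟨ℓ, T.hℓ⟩ (T.pullback x) := by
  have hi₁ : (degenTop Qb N k ℓ).toRingHom.IsIntegral := by
    -- `F_{N k ℓ}` is finite over `F_N`, hence integral over `F_{N ℓ}`
    have hα := isIntegral_heckeAlphaBar (L := Qb) (N * k) ℓ T.hℓ
    have hι := T.isIntegral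
    have hcomp : ((heckeAlphaBar Qb (N * k) ℓ).comp (heckeAlphaBar Qb N k)).toRingHom.IsIntegral :=
      RingHom.IsIntegral.trans _ _ hι hα
    rw [← square_alpha] at hcomp
    exact RingHom.IsIntegral.tower_top _ _ hcomp
  exact pullback_heckeOperatorAlong T.heckeN T.heckeM T.isIntegral T.fundamentalIdentity hi₁
    (normCompat_modular N k ℓ T.hℓ T.hℓN T.hℓk) x

theorem pullback_eq_zero (x : JZero N) (hx : T.pullback x = 0) :
    finrankAlong Qb (heckeAlphaBar Qb N k) • x = 0 :=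
  nsmul_eq_zero_of_pullbackPic0Along_eq_zero _ _ (finiteAlong_heckeAlphaBar N k T.hk)
    T.normFormula T.fundamentalIdentity x hx

/-- `π^*` is injective on torsion of order prime to `ℓ`. -/
theorem pullback_injective_of_coprime (m : ℕ) (hm : m.Coprime ℓ) (x : JZero N)
    (hmx : m • x = 0) (hx : T.pullback x = 0) : x = 0 := by
  obtain ⟨e, he⟩ := T.deg_pow
  have hd := T.pullback_eq_zero x hx
  rw [he] at hd
  have hcop : Nat.Coprime m (ℓ ^ e) := Nat.Coprime.pow_right e hm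
  have hord : addOrderOf x ∣ m := addOrderOf_dvd_of_nsmul_eq_zero hmx
  have hord' : addOrderOf x ∣ ℓ ^ e := addOrderOf_dvd_of_nsmul_eq_zero hd
  have h1 : addOrderOf x ∣ Nat.gcd m (ℓ ^ e) := Nat.dvd_gcd hord hord'
  rw [hcop.gcd_eq_one, Nat.dvd_one] at h1
  exact AddMonoid.addOrderOf_eq_one_iff.mp h1

/-- **Level transfer of reduction data.** -/
def redData (A : ValuationSubring Qb) (D : RedData (N * k) A ℓ T.hℓ) : RedData N A ℓ T.hℓ where
  Y := D.Y
  instY := D.instY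
  red := D.red.comp T.pullback
  inertia τ hτ x := by
    rw [AddMonoidHom.comp_apply, AddMonoidHom.comp_apply, T.pullback_galois]
    exact D.inertia τ hτ _
  frob_ker σ hσ x hx := by
    rw [AddMonoidHom.comp_apply] at hx ⊢
    rw [T.pullback_galois]
    exact D.frob_ker σ hσ _ hx
  inj_torsion m x hm hmx hx := by
    rw [AddMonoidHom.comp_apply] at hx
    refine T.pullback_injective_of_coprime m hm x hmx ?_
    refine D.inj_torsion m _ hm ?_ hx
    rw [← map_nsmul, hmx, map_zero]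
  relation σ hσ x := by
    rw [AddMonoidHom.comp_apply, map_add, map_sub, map_nsmul, T.pullback_hecke,
      T.pullback_galois, T.pullback_galois]
    exact D.relation σ hσ _

end TransferInputs

end Fermat.Agent.S37.H818

end

end
-- ===== PACK-END S37/H818/Transfer.lean

-- ===== PACK-BEGIN S37/H818/NodePull.lean
section
/-
S37 / node_pull (helper818): the interface `Core.PullData N (N * a) ℓ` of the row plan, for
`(ℓ, a) = (3, 2)` and `(2, 3)`, `a ∤ N`, `ℓ ∤ N`  — UNCONDITIONAL.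

`pull := π^* : J₀(N) → J₀(N a)` (conorm along the inclusion `F_N ⊂ F_{N a}` of function fields),
Galois equivariant, commuting with `T_ℓ`, injective on prime-to-`ℓ` torsion because
`π_* π^* = [F_{N a} : F_N] = a + 1` is a power of `ℓ`.
-/





set_option autoImplicit false
set_option linter.style.haveILetI false

noncomputable section

namespace Fermat.Agent.S37.H818

open AlgebraicCurve ModularCurve IntermediateField Fermat.Agent.S37.H99 Fermat.Agent.S37.Core

/-- **The inputs of the level transfer hold unconditionally** (as soon as the degree of the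
degeneracy map is a power of `ℓ`). -/
theorem transferInputs (N k ℓ : ℕ) [NeZero N] [NeZero k] [NeZero ℓ] (hℓ : ℓ.Prime)
    (hk : k.Prime) (hℓN : ¬ ℓ ∣ N) (hℓk : ¬ ℓ ∣ k)
    (hdeg : ∃ e : ℕ, finrankAlong Qb (heckeAlphaBar Qb N k) = ℓ ^ e) :
    TransferInputs N k ℓ where
  hℓ := hℓ
  hk := hk
  hℓN := hℓN
  hℓk := hℓk
  heckeN := Fermat.Agent.Lib.FF398.heckeInputsAlong N ℓ
  heckeM := Fermat.Agent.Lib.FF398.heckeInputsAlong (N * k) ℓ
  normFormula := Fermat.Agent.Lib.FF398.normFormulaAlong_alpha N k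
  deg_pow := hdeg

/-- The degree of `X₀(N a) → X₀(N)` is a power of `ℓ` in the two cases of the row plan. -/
theorem finrankAlong_pow (N a ℓ : ℕ) [NeZero N] [NeZero a]
    (ha : (ℓ = 3 ∧ a = 2) ∨ (ℓ = 2 ∧ a = 3)) (haN : ¬ a ∣ N) :
    ∃ e : ℕ, finrankAlong Qb (heckeAlphaBar Qb N a) = ℓ ^ e := by
  rcases ha with ⟨rfl, rfl⟩ | ⟨rfl, rfl⟩
  · refine ⟨1, ?_⟩
    rw [finrankAlong_heckeAlphaBar' (L := Qb) N 2 Nat.prime_two, if_neg haN]
    norm_num
  · refine ⟨2, ?_⟩
    rw [finrankAlong_heckeAlphaBar' (L := Qb) N 3 Nat.prime_three, if_neg haN]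
    norm_num

/-- The pull datum attached to transfer inputs. -/
def TransferInputs.pullData {N k ℓ : ℕ} [NeZero N] [NeZero k] [NeZero ℓ]
    (T : TransferInputs N k ℓ) : PullData N (N * k) ℓ where
  pull := T.pullback
  galois σ x := T.pullback_galois σ x
  inj_torsion m hm x hmx hx :=
    T.pullback_injective_of_coprime m
      ((Nat.Coprime.symm ((Nat.Prime.coprime_iff_not_dvd T.hℓ).mpr hm))) x hmx hx
  hecke x := T.pullback_hecke x

/-- **NODE [PULL]** (exact statement of `Board.node_pull`). -/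
theorem node_pull (N a ℓ : ℕ) [NeZero N] [NeZero a] [NeZero ℓ] (hℓ : ℓ.Prime)
    (ha : (ℓ = 3 ∧ a = 2) ∨ (ℓ = 2 ∧ a = 3)) (haN : ¬ a ∣ N) (hℓN : ¬ ℓ ∣ N) :
    Nonempty (PullData N (N * a) ℓ) := by
  have hk : a.Prime := by
    rcases ha with ⟨-, rfl⟩ | ⟨-, rfl⟩
    · exact Nat.prime_two
    · exact Nat.prime_three
  have hℓa : ¬ ℓ ∣ a := by
    rcases ha with ⟨rfl, rfl⟩ | ⟨rfl, rfl⟩ <;> decide
  exact ⟨(transferInputs N a ℓ hℓ hk hℓN hℓa (finrankAlong_pow N a ℓ ha haN)).pullData⟩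

/-- General form: `PullData N (N * k) ℓ` for primes `k`, `ℓ ∤ N k`, with `[F_{N k} : F_N]` a
power of `ℓ`. -/
theorem nonempty_pullData (N k ℓ : ℕ) [NeZero N] [NeZero k] [NeZero ℓ] (hℓ : ℓ.Prime)
    (hk : k.Prime) (hℓN : ¬ ℓ ∣ N) (hℓk : ¬ ℓ ∣ k)
    (hdeg : ∃ e : ℕ, finrankAlong Qb (heckeAlphaBar Qb N k) = ℓ ^ e) :
    Nonempty (PullData N (N * k) ℓ) :=
  ⟨(transferInputs N k ℓ hℓ hk hℓN hℓk hdeg).pullData⟩

end Fermat.Agent.S37.H818

end

end
-- ===== PACK-END S37/H818/NodePull.lean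

-- ===== PACK-BEGIN Ribet/H537/DimK.lean
section






/-!
# Row 38 / WALL-p / leaf I3-DIMK (helper537): holomorphic `q`-series have dimension `≤ genus`

`k` algebraically closed of characteristic `p ∤ M`, `F = modularFunctionFieldFullC k M ⊆ k((q))`.

Generic part (`K`, `F` a function field `FF1 K F`, `σ : F → K((q))` constant on `K`):
* `theta`      : `θ = q d/dq` on `K((q))`; `isTheta_iff` : `IsTheta f f' ↔ f' = theta f`;
* `exists_Theta` : a `K`-linear `Θ : Ω[F⁄K] → K((q))` with `Θ (c • ω) = σ c · Θ ω`,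
  `Θ (D t) = θ (σ t)`;
* `span_D_eq_top_of_isSeparable`, `Theta_injective`;
* `isHolo_of_Theta` : if `Θ ω` is a holomorphic `q`-series (`IsHoloVia σ`), then `ω` is a
  holomorphic Kähler differential (`H537.IsHolo`);
* `finrank_le_genusFF_of_isHoloVia` : a space of holomorphic `q`-series has dimension
  `≤ genusFF K F` (from `HoloDim.finrank_le_genusFF_of_isHolo`: Tate residues, no reduction
  theory, any characteristic).

Modular part:
* `finrank_le_genusFF` : for `W ⊆ k⟦q⟧` consisting of `I3.IsHoloSeries k M`,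
  `finrank k W ≤ genusFF k (modularFunctionFieldFullC k M)`;
* `dimStatement_of_genusBound : GenusBoundStatement → I3.DimStatement`.
-/

set_option autoImplicit false

noncomputable section

open AlgebraicCurve KaehlerDifferential ModularCurve HahnSeries IntermediateField

namespace Fermat.Agent.Ribet.H537

open Fermat.Agent.Lib.RR Fermat.Agent.Ribet.H764.I3 Fermat.Agent.S24.H84

/-! ## `θ = q d/dq` -/

section Theta

variable {k : Type*} [Field k]

/-- `θ = q · d/dq` on Laurent series. -/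
def theta (f : LaurentSeries k) : LaurentSeries k :=
  HahnSeries.single (1 : ℤ) (1 : k) * laurentD k f

theorem theta_coeff (f : LaurentSeries k) (n : ℤ) : (theta f).coeff n = (n : k) * f.coeff n := by
  have h : n = (n - 1) + 1 := by ring
  unfold theta
  conv_lhs => rw [h]
  rw [HahnSeries.coeff_single_mul_add, one_mul, laurentD_coeff, sub_add_cancel]

theorem theta_jqModC_ne_zero : theta (jqModC k) ≠ 0 := by
  intro h
  have h1 := theta_coeff (jqModC k) (-1)
  rw [h, coeff_jqModC_neg_one] at h1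
  simp at h1

end Theta

section ThetaI3

variable {k : Type} [Field k]

theorem isTheta_theta (f : LaurentSeries k) : IsTheta f (theta f) := fun n => theta_coeff f n

theorem isTheta_iff {f f' : LaurentSeries k} : IsTheta f f' ↔ f' = theta f := by
  constructor
  · intro h
    ext n
    rw [h n, theta_coeff]
  · rintro rfl
    exact isTheta_theta f

end ThetaI3

/-! ## Generic part -/

section Generic

variable {K F : Type*} [Field K] [Field F] [Algebra K F]

/-- `ofPowerSeries` as a `K`-linear map (for the coefficientwise `K`-action on `K((q))`). -/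
def ofPSLin (K : Type*) [Field K] : PowerSeries K →ₗ[K] LaurentSeries K where
  toFun g := HahnSeries.ofPowerSeries ℤ K g
  map_add' a b := map_add _ a b
  map_smul' c g := by
    rw [RingHom.id_apply, ← HahnSeries.C_mul_eq_smul, ← HahnSeries.ofPowerSeries_C,
      ← map_mul]
    congr 1
    ext n
    simp

theorem ofPSLin_apply (g : PowerSeries K) : ofPSLin K g = HahnSeries.ofPowerSeries ℤ K g := rfl

theorem ofPSLin_injective : Function.Injective (ofPSLin K) :=
  HahnSeries.ofPowerSeries_injective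

/-- `Θ : Ω[F⁄K] → K((q))`, `K`-linear, `σ`-semilinear, `Θ (D t) = θ (σ t)`. -/
theorem exists_Theta (σ : F →+* LaurentSeries K)
    (hσ : ∀ c : K, σ (algebraMap K F c) = HahnSeries.C c) :
    ∃ Θ : Ω[F⁄K] →ₗ[K] LaurentSeries K,
      (∀ (f : F) (ω : Ω[F⁄K]), Θ (f • ω) = σ f * Θ ω) ∧
      ∀ y : F, Θ (D K F y) = theta (σ y) := by
  obtain ⟨L, hL1, hL2⟩ := exists_kaehler_to_laurent σ (RingHom.id K) hσ
  refine ⟨{ toFun := fun ω => HahnSeries.single (1 : ℤ) (1 : K) * L ω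
            map_add' := fun a b => by rw [map_add, mul_add]
            map_smul' := fun c ω => ?_ }, fun f ω => ?_, fun y => ?_⟩
  · rw [RingHom.id_apply, ← algebraMap_smul F c ω, hL1, hσ, ← HahnSeries.C_mul_eq_smul]
    ring
  · show HahnSeries.single (1 : ℤ) (1 : K) * L (f • ω) =
      σ f * (HahnSeries.single (1 : ℤ) (1 : K) * L ω)
    rw [hL1]
    ring
  · show HahnSeries.single (1 : ℤ) (1 : K) * L (D K F y) = theta (σ y)
    rw [hL2]
    rfl

/-- If `F / K(x)` is separable algebraic, then `D x` spans `Ω[F⁄K]` (any characteristic). -/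
theorem span_D_eq_top_of_isSeparable (x : F) [Algebra.IsSeparable K⟮x⟯ F] :
    Submodule.span F {D K F x} = ⊤ := by
  have : Algebra.FormallyUnramified K⟮x⟯ F := Algebra.FormallyUnramified.of_isSeparable _ _
  have : Subsingleton Ω[F⁄K⟮x⟯] := Algebra.FormallyUnramified.subsingleton_kaehlerDifferential
  rw [eq_top_iff]
  intro ω _
  have hex := KaehlerDifferential.exact_mapBaseChange_map K K⟮x⟯ F
  have h0 : KaehlerDifferential.map K K⟮x⟯ F F ω = 0 := Subsingleton.elim _ _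
  obtain ⟨t, rfl⟩ := (hex ω).1 h0
  exact mapBaseChange_mem_span_D x t

/-- `Θ` is injective as soon as `Ω[F⁄K] = F · D j` with `θ (σ j) ≠ 0`. -/
theorem Theta_injective (σ : F →+* LaurentSeries K) (Θ : Ω[F⁄K] →ₗ[K] LaurentSeries K)
    (hΘ1 : ∀ (f : F) (ω : Ω[F⁄K]), Θ (f • ω) = σ f * Θ ω)
    (hΘ2 : ∀ y : F, Θ (D K F y) = theta (σ y))
    (j : F) (hj : Submodule.span F {D K F j} = ⊤) (hθ : theta (σ j) ≠ 0) :
    Function.Injective Θ := by
  rw [injective_iff_map_eq_zero]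
  intro ω hω
  have hmem : ω ∈ Submodule.span F {D K F j} := by rw [hj]; trivial
  obtain ⟨c, rfl⟩ := Submodule.mem_span_singleton.1 hmem
  rw [hΘ1, hΘ2, mul_eq_zero] at hω
  rcases hω with h | h
  · rw [map_eq_zero] at h
    rw [h, zero_smul]
  · exact absurd h hθ

/-- `g · dq/q` is a holomorphic differential of `F` (seen in `K((q))` via `σ`). -/
def IsHoloVia (σ : F →+* LaurentSeries K) (g : PowerSeries K) : Prop :=
  ∀ (Q : Place K F) (t : F), Q.ord t = 1 →
    ∃ u : F, 0 ≤ Q.ord u ∧ HahnSeries.ofPowerSeries ℤ K g = σ u * theta (σ t)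

theorem isHolo_of_Theta (σ : F →+* LaurentSeries K) (Θ : Ω[F⁄K] →ₗ[K] LaurentSeries K)
    (hΘ1 : ∀ (f : F) (ω : Ω[F⁄K]), Θ (f • ω) = σ f * Θ ω)
    (hΘ2 : ∀ y : F, Θ (D K F y) = theta (σ y)) (hinj : Function.Injective Θ)
    (ω : Ω[F⁄K]) (g : PowerSeries K) (hω : Θ ω = HahnSeries.ofPowerSeries ℤ K g)
    (hg : IsHoloVia σ g) : IsHolo ω := by
  intro v
  obtain ⟨t, ht⟩ := exists_ord_eq_one v
  obtain ⟨u, hu, hgu⟩ := hg v t ht
  refine ⟨t, u, ht, hu, hinj ?_⟩
  rw [hω, hgu, hΘ1, hΘ2]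

variable [hFF : FF1 K F]

/-- **Generic dimension bound**: a `K`-space of `q`-series which are holomorphic differentials of
`F` has dimension at most `genusFF K F`. -/
theorem finrank_le_genusFF_of_isHoloVia (σ : F →+* LaurentSeries K)
    (hσ : ∀ c : K, σ (algebraMap K F c) = HahnSeries.C c)
    (j : F) (hj : Submodule.span F {D K F j} = ⊤) (hθ : theta (σ j) ≠ 0)
    (W : Submodule K (PowerSeries K)) (hW : ∀ g ∈ W, IsHoloVia σ g) :
    Module.finrank K W ≤ genusFF K F := by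
  obtain ⟨Θ, hΘ1, hΘ2⟩ := exists_Theta σ hσ
  have hinj := Theta_injective σ Θ hΘ1 hΘ2 j hj hθ
  set W' : Submodule K (LaurentSeries K) := W.map (ofPSLin K) with hW'
  set U : Submodule K Ω[F⁄K] := W'.comap Θ with hU
  have hle : W' ≤ LinearMap.range Θ := by
    rintro _ ⟨g, hgW, rfl⟩
    obtain ⟨v⟩ := hFF.nonempty_place
    obtain ⟨t, ht⟩ := exists_ord_eq_one v
    obtain ⟨u, -, hgu⟩ := hW g hgW v t ht
    refine ⟨u • D K F t, ?_⟩
    rw [hΘ1, hΘ2, ofPSLin_apply, hgu]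
  have hUW : U.map Θ = W' := by
    rw [hU, Submodule.map_comap_eq, inf_eq_right.2 hle]
  have hholo : ∀ ω ∈ U, IsHolo ω := by
    intro ω hω
    obtain ⟨g, hgW, hg⟩ := hω
    exact isHolo_of_Theta σ Θ hΘ1 hΘ2 hinj ω g hg.symm (hW g hgW)
  have e1 : Module.finrank K W = Module.finrank K W' :=
    (Submodule.equivMapOfInjective (ofPSLin K) ofPSLin_injective W).finrank_eq
  have e2 : Module.finrank K U = Module.finrank K (U.map Θ) :=
    (Submodule.equivMapOfInjective Θ hinj U).finrank_eq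
  rw [e1, ← hUW, ← e2]
  exact finrank_le_genusFF_of_isHolo U hholo

end Generic

/-! ## The modular function field -/

section Modular

variable (k : Type) [Field k] (M : ℕ) [NeZero M]

/-- `I3.IsHoloSeries` is `IsHoloVia` for the inclusion `F ⊆ k((q))`. -/
theorem isHoloVia_of_isHoloSeries {g : PowerSeries k} (hg : IsHoloSeries k M g) :
    IsHoloVia (algebraMap (modularFunctionFieldFullC k M) (LaurentSeries k)) g := by
  intro Q t ht
  obtain ⟨u, t', ht', hu, hgu⟩ := hg Q t ht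
  refine ⟨u, ord_nonneg_of_mem Q hu, ?_⟩
  rw [hgu, isTheta_iff.1 ht']
  rfl

/-- **DIMK over a fixed `k`**: a space of holomorphic `q`-series has dimension at most the genus
of `F_k = modularFunctionFieldFullC k M` (`k` algebraically closed of characteristic `p ∤ M`). -/
theorem finrank_le_genusFF [IsAlgClosed k] (p : ℕ) (hp : p.Prime) (hpM : ¬ p ∣ M) [CharP k p]
    (W : Submodule k (PowerSeries k)) (hW : ∀ g ∈ W, IsHoloSeries k M g) :
    Module.finrank k W ≤ genusFF k (modularFunctionFieldFullC k M) := by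
  have : Fact p.Prime := ⟨hp⟩
  have hchar : ∀ ℓ : ℕ, ℓ.Prime → ℓ ∣ M → (ℓ : k) ≠ 0 := by
    intro ℓ hℓ hℓM h0
    have hpl : p ∣ ℓ := (CharP.cast_eq_zero_iff k p ℓ).1 h0
    have : p = ℓ := (Nat.prime_dvd_prime_iff_eq hp hℓ).1 hpl
    exact hpM (this ▸ hℓM)
  have hFF : FF1 k (modularFunctionFieldFullC k M) := Fermat.Agent.S18.H383.ff1_fullC k M hchar
  have hfin : FiniteDimensional
      k⟮(⟨jqModC k, jqModC_mem_full k M⟩ : modularFunctionFieldFullC k M)⟯
      (modularFunctionFieldFullC k M) :=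
    Fermat.Agent.S18.H739.finiteDimensional_adjoin_jC k M hchar
  have halg : Algebra.IsAlgebraic
      k⟮(⟨jqModC k, jqModC_mem_full k M⟩ : modularFunctionFieldFullC k M)⟯
      (modularFunctionFieldFullC k M) := Algebra.IsAlgebraic.of_finite _ _
  have hsep : Algebra.IsSeparable
      k⟮(⟨jqModC k, jqModC_mem_full k M⟩ : modularFunctionFieldFullC k M)⟯
      (modularFunctionFieldFullC k M) :=
    Fermat.Agent.S18.H264.algebra_isSeparable_full k p M
  refine finrank_le_genusFF_of_isHoloVia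
    (algebraMap (modularFunctionFieldFullC k M) (LaurentSeries k)) ?_
    (⟨jqModC k, jqModC_mem_full k M⟩ : modularFunctionFieldFullC k M)
    (span_D_eq_top_of_isSeparable _) ?_ W (fun g hg => isHoloVia_of_isHoloSeries k M (hW g hg))
  · intro c
    rw [← laurent_algebraMap_eq_C]
    rfl
  · exact theta_jqModC_ne_zero

end Modular

/-! ## `DimStatement` from the genus bound -/

/-- The genus of `X₀(M)` over `k` (algebraically closed, characteristic `p ∤ M`) is at most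
`dim S₂(Γ₀(M))`  (good reduction: `genus(F_k) ≤ genus(F_ℚ̄)`, + S24 + S20). -/
def GenusBoundStatement : Prop :=
  ∀ (p M : ℕ) [NeZero M], p.Prime → ¬ p ∣ M →
    ∀ (k : Type) [Field k] [IsAlgClosed k] [CharP k p],
      genusFF k (modularFunctionFieldFullC k M) ≤
        Module.finrank ℂ (CuspForm (CongruenceSubgroup.Gamma0 M) 2)

/-- **I3-DIMK** from the genus bound. -/
theorem dimStatement_of_genusBound (h : GenusBoundStatement) : DimStatement := by
  intro p M _ hp hpM k _ _ _ W _ hW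
  exact (finrank_le_genusFF k M p hp hpM W hW).trans (h p M hp hpM k)

end Fermat.Agent.Ribet.H537

end
end
-- ===== PACK-END Ribet/H537/DimK.lean

-- ===== PACK-BEGIN Lib/RR/H80/Res/ModularGenus.lean
section




/-!
# The adelic genus of `X₀(N)` is given by the classical genus formula

Combines the bridge `genus_eq_genusFF` (Kähler genus = adelic genus `genusFF`), the landed
statement `S24` (Kähler genus of `ℚ̄(X₀(N))` = `genusFormula N`) and `ff1_modular`.
-/

set_option autoImplicit false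

noncomputable section

open AlgebraicCurve ModularCurve

namespace Fermat.Agent.Lib.RR.H80

open Fermat.Agent.Lib.RR

variable (N : ℕ) [NeZero N]

/-- `ℚ̄(X₀(N))` has canonical divisors (in the Prelude's Kähler sense). -/
theorem hasCanonicalDivisor_modular :
    HasCanonicalDivisor (K := AlgebraicClosure ℚ) (F := ↥(modularFunctionFieldBar N)) :=
  hasCanonicalDivisor_of_FF1 (AlgebraicClosure ℚ) ↥(modularFunctionFieldBar N)

/-- **The adelic genus of `X₀(N)`** is the classical genus formula. -/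
theorem genusFF_modular_eq_genusFormula :
    (genusFF (AlgebraicClosure ℚ) ↥(modularFunctionFieldBar N) : ℚ) = genusFormula N := by
  have := hasCanonicalDivisor_modular N
  rw [← genus_eq_genusFF (AlgebraicClosure ℚ) ↥(modularFunctionFieldBar N)]
  exact Fermat.Agent.S24.result N

/-- The Kähler genus of `X₀(N)` is the adelic genus. -/
theorem genus_modular_eq_genusFF
    [HasCanonicalDivisor (K := AlgebraicClosure ℚ) (F := ↥(modularFunctionFieldBar N))] :
    AlgebraicCurve.genus (AlgebraicClosure ℚ) ↥(modularFunctionFieldBar N) =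
      genusFF (AlgebraicClosure ℚ) ↥(modularFunctionFieldBar N) :=
  genus_eq_genusFF (AlgebraicClosure ℚ) ↥(modularFunctionFieldBar N)

/-- `deg div(ω) = 2 g - 2` on `X₀(N)`, `g = genusFF`. -/
theorem degree_kaehler_modular
    {ω : Ω[↥(modularFunctionFieldBar N)⁄AlgebraicClosure ℚ]} (hω : ω ≠ 0)
    {W : Divisor (AlgebraicClosure ℚ) ↥(modularFunctionFieldBar N)}
    (hW : ∀ v : Place (AlgebraicClosure ℚ) ↥(modularFunctionFieldBar N),
      W v = v.ordDifferential ω) :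
    Divisor.degree W =
      2 * (genusFF (AlgebraicClosure ℚ) ↥(modularFunctionFieldBar N) : ℤ) - 2 :=
  degree_kaehler hω hW

end Fermat.Agent.Lib.RR.H80

end
end
-- ===== PACK-END Lib/RR/H80/Res/ModularGenus.lean

-- ===== PACK-BEGIN A2/Mod/H372/S3Coord.lean
section


/-!
# A2 / MODASM S3, the coordinate facts (helper372)

For the two coordinate pairs `(j, x)` and `(j⁻¹, x⁻¹)`, `x = j · j_q`:
`y = α(y_M) · β(y_M)`, `β y_M ≡ (α y_M)^q mod w V∞`, `α y_M ≡ (β y_M)^q mod w V₀`,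
`α y_M, β y_M ∈ chart(y)` (leaf L13).
-/

set_option autoImplicit false
set_option synthInstance.maxHeartbeats 400000
set_option maxHeartbeats 1600000
set_option linter.unusedSectionVars false
set_option linter.style.haveILetI false

noncomputable section

namespace Fermat.Agent.A2.Mod.H372

open ModularCurve HahnSeries Polynomial

variable {P : ValuationSubring _root_.Fermat.Agent.A2.Mod.Qb} {E : IntermediateField ℚ _root_.Fermat.Agent.A2.Mod.Qb} {M q : ℕ} [NeZero M] [NeZero q]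
  (w : _root_.Fermat.Agent.A2.Mod.RE P E)

/-- `f ∈ w V₀ ↔ W f ∈ w V∞`. -/
theorem inW_comap_iff {N : ℕ} (V : ValuationSubring (_root_.Fermat.Agent.A2.Mod.FE E N)) (W : _root_.Fermat.Agent.A2.Mod.FE E N ≃ₐ[E] _root_.Fermat.Agent.A2.Mod.FE E N)
    (f : _root_.Fermat.Agent.A2.Mod.FE E N) :
    InW P E N (V.comap (W : _root_.Fermat.Agent.A2.Mod.FE E N →+* _root_.Fermat.Agent.A2.Mod.FE E N)) w f ↔ InW P E N V w (W f) := by
  have hWc : W (cE P E N w) = cE P E N w := W.commutes (w : E)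
  show W (f * (cE P E N w)⁻¹) ∈ V ↔ W f * (cE P E N w)⁻¹ ∈ V
  rw [map_mul, map_inv₀, hWc]

/-- The facts about a coordinate pair used by S3. -/
structure CoordFacts (VM : ValuationSubring (_root_.Fermat.Agent.A2.Mod.FE E M)) (V : ValuationSubring (_root_.Fermat.Agent.A2.Mod.FE E (M * q)))
    (W : _root_.Fermat.Agent.A2.Mod.FE E (M * q) ≃ₐ[E] _root_.Fermat.Agent.A2.Mod.FE E (M * q)) (yM : _root_.Fermat.Agent.A2.Mod.FE E M) (y : _root_.Fermat.Agent.A2.Mod.FE E (M * q)) : Prop where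
  mem : yM ∈ VM
  eq_mul : y = αE E M q yM * βE E M q yM
  beta_mem : βE E M q yM ∈ V
  alpha_mem₀ : W (αE E M q yM) ∈ V
  beta_mem₀ : W (βE E M q yM) ∈ V
  cong₁ : InW P E (M * q) V w (βE E M q yM - (αE E M q yM) ^ q)
  cong₂ : InW P E (M * q) V w (W (αE E M q yM) - (W (βE E M q yM)) ^ q)
  alpha_chart : αE E M q yM ∈ chartAlg P E (M * q) y
  beta_chart : βE E M q yM ∈ chartAlg P E (M * q) y

theorem beta_jE_one : βE E M q (jE E M 1 (one_dvd _)) = jE E (M * q) q (dvd_mul_left q M) := by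
  rw [beta_jE 1 (one_dvd M)]
  exact jE_congr (one_mul q) _ _

theorem alpha_jE_one : αE E M q (jE E M 1 (one_dvd _)) = jE E (M * q) 1 (one_dvd _) :=
  alpha_jE 1 (one_dvd M)

theorem fricke_jE_one {W : _root_.Fermat.Agent.A2.Mod.FE E (M * q) ≃ₐ[E] _root_.Fermat.Agent.A2.Mod.FE E (M * q)} (hW : IsFricke E (M * q) W) :
    W (jE E (M * q) 1 (one_dvd _)) = jE E (M * q) (M * q) (dvd_refl _) :=
  hW.1 1 (M * q) (one_dvd _) (dvd_refl _) (one_mul _)

theorem fricke_jE_q {W : _root_.Fermat.Agent.A2.Mod.FE E (M * q) ≃ₐ[E] _root_.Fermat.Agent.A2.Mod.FE E (M * q)} (hW : IsFricke E (M * q) W) :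
    W (jE E (M * q) q (dvd_mul_left q M)) = jE E (M * q) M (dvd_mul_right M q) :=
  hW.1 q M (dvd_mul_left q M) (dvd_mul_right M q) (mul_comm q M)

theorem coordFacts_fin (hS : Setting P E M q w) {VM : ValuationSubring (_root_.Fermat.Agent.A2.Mod.FE E M)}
    {V : ValuationSubring (_root_.Fermat.Agent.A2.Mod.FE E (M * q))} {W : _root_.Fermat.Agent.A2.Mod.FE E (M * q) ≃ₐ[E] _root_.Fermat.Agent.A2.Mod.FE E (M * q)}
    (hVM : IsVinf P E M VM) (hV : IsVinf P E (M * q) V) (hW : IsFricke E (M * q) W) :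
    CoordFacts w VM V W (jE E M 1 (one_dvd _)) (xE E M q) := by
  have hN := level_ne_zero w hS
  obtain ⟨h1, h2, -, -⟩ := H873.chartCompat P E M q hS.q_prime
  refine ⟨jE_mem w hS hS.M_ne_zero hVM 1 (one_dvd _), ?_, ?_, ?_, ?_, ?_, ?_, ?_, ?_⟩
  · rw [alpha_jE_one, beta_jE_one]; rfl
  · rw [beta_jE_one]; exact jE_mem w hS hN hV _ _
  · rw [alpha_jE_one, fricke_jE_one hW]; exact jE_mem w hS hN hV _ _
  · rw [beta_jE_one, fricke_jE_q hW]; exact jE_mem w hS hN hV _ _
  · rw [alpha_jE_one, beta_jE_one]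
    have := inW_jE_sub_pow w hS hV 1 (one_dvd M)
    rwa [jE_congr (one_mul q) _ (dvd_mul_left q M)] at this
  · rw [alpha_jE_one, beta_jE_one, fricke_jE_one hW, fricke_jE_q hW]
    exact inW_jE_sub_pow w hS hV M (dvd_refl M)
  · rw [alpha_jE_one]; exact mem_chart_iff.mp h1
  · rw [beta_jE_one]; exact mem_chart_iff.mp h2

theorem coordFacts_inf (hS : Setting P E M q w) {VM : ValuationSubring (_root_.Fermat.Agent.A2.Mod.FE E M)}
    {V : ValuationSubring (_root_.Fermat.Agent.A2.Mod.FE E (M * q))} {W : _root_.Fermat.Agent.A2.Mod.FE E (M * q) ≃ₐ[E] _root_.Fermat.Agent.A2.Mod.FE E (M * q)}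
    (hVM : IsVinf P E M VM) (hV : IsVinf P E (M * q) V) (hW : IsFricke E (M * q) W) :
    CoordFacts w VM V W (jE E M 1 (one_dvd _))⁻¹ (xE E M q)⁻¹ := by
  have hN := level_ne_zero w hS
  obtain ⟨-, -, h3, h4⟩ := H873.chartCompat P E M q hS.q_prime
  have hu := unifE w hS hN hV
  refine ⟨jE_inv_mem w hS hS.M_ne_zero hVM 1 (one_dvd _), ?_, ?_, ?_, ?_, ?_, ?_, ?_, ?_⟩
  · rw [map_inv₀, map_inv₀, alpha_jE_one, beta_jE_one, ← mul_inv]; rfl
  · rw [map_inv₀, beta_jE_one]; exact jE_inv_mem w hS hN hV _ _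
  · rw [map_inv₀, map_inv₀, alpha_jE_one, fricke_jE_one hW]; exact jE_inv_mem w hS hN hV _ _
  · rw [map_inv₀, map_inv₀, beta_jE_one, fricke_jE_q hW]; exact jE_inv_mem w hS hN hV _ _
  · rw [map_inv₀, map_inv₀, alpha_jE_one, beta_jE_one, inv_pow]
    have := inW_jE_sub_pow w hS hV 1 (one_dvd M)
    rw [jE_congr (one_mul q) _ (dvd_mul_left q M)] at this
    refine inv_sub_inv_mul_mem V (H873.jE_ne_zero _ _ _ _) (pow_ne_zero _ (H873.jE_ne_zero _ _ _ _))
      (jE_inv_mem w hS hN hV _ _) ?_ this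
    rw [← inv_pow]
    exact V.pow_mem (jE_inv_mem w hS hN hV _ _) _
  · rw [map_inv₀, map_inv₀, map_inv₀, map_inv₀, alpha_jE_one, beta_jE_one, fricke_jE_one hW,
      fricke_jE_q hW, inv_pow]
    have := inW_jE_sub_pow w hS hV M (dvd_refl M)
    refine inv_sub_inv_mul_mem V (H873.jE_ne_zero _ _ _ _) (pow_ne_zero _ (H873.jE_ne_zero _ _ _ _))
      (jE_inv_mem w hS hN hV _ _) ?_ this
    rw [← inv_pow]
    exact V.pow_mem (jE_inv_mem w hS hN hV _ _) _
  · rw [map_inv₀, alpha_jE_one]; exact mem_chart_iff.mp h3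
  · rw [map_inv₀, beta_jE_one]; exact mem_chart_iff.mp h4

theorem coordFacts_of_isCoordPair (hS : Setting P E M q w) {VM : ValuationSubring (_root_.Fermat.Agent.A2.Mod.FE E M)}
    {V : ValuationSubring (_root_.Fermat.Agent.A2.Mod.FE E (M * q))} {W : _root_.Fermat.Agent.A2.Mod.FE E (M * q) ≃ₐ[E] _root_.Fermat.Agent.A2.Mod.FE E (M * q)}
    (hVM : IsVinf P E M VM) (hV : IsVinf P E (M * q) V) (hW : IsFricke E (M * q) W)
    {yM : _root_.Fermat.Agent.A2.Mod.FE E M} {y : _root_.Fermat.Agent.A2.Mod.FE E (M * q)} (hy : IsCoordPair E M q yM y) :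
    CoordFacts w VM V W yM y := by
  rcases hy with ⟨rfl, rfl⟩ | ⟨rfl, rfl⟩
  · exact coordFacts_fin w hS hVM hV hW
  · exact coordFacts_inf w hS hVM hV hW

end Fermat.Agent.A2.Mod.H372

end
end
-- ===== PACK-END A2/Mod/H372/S3Coord.lean

-- ===== PACK-BEGIN A2/Mod/H372/S3Noeth.lean
section



/-!
# A2 / MODASM S3 (helper372): the charts of level `Mq` are noetherian

From leaf L8 (`DegStatement`: `x` transcendental over `E`, `[F_{Mq} : E(x)] < ∞`) and
`S18.H394.chart_instances`.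
-/

set_option autoImplicit false
set_option synthInstance.maxHeartbeats 400000
set_option maxHeartbeats 1600000
set_option linter.unusedSectionVars false
set_option linter.style.haveILetI false

noncomputable section

namespace Fermat.Agent.A2.Mod.H372

open ModularCurve HahnSeries Polynomial
open Fermat.Agent.S18

variable {P : ValuationSubring _root_.Fermat.Agent.A2.Mod.Qb} {E : IntermediateField ℚ _root_.Fermat.Agent.A2.Mod.Qb}

/-- `E(x) ⊆ R_E(x)` inside `F`. -/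
theorem adjoin_le_baseField {N : ℕ} (x : _root_.Fermat.Agent.A2.Mod.FE E N) {f : _root_.Fermat.Agent.A2.Mod.FE E N}
    (hf : f ∈ IntermediateField.adjoin E ({x} : Set (_root_.Fermat.Agent.A2.Mod.FE E N))) :
    f ∈ H138.baseField (_root_.Fermat.Agent.A2.Mod.RE P E) x := by
  have hf' : f ∈ Subfield.closure (Set.range (algebraMap E (_root_.Fermat.Agent.A2.Mod.FE E N)) ∪ ({x} : Set (_root_.Fermat.Agent.A2.Mod.FE E N))) := hf
  refine (Subfield.closure_le (t := H138.baseField (_root_.Fermat.Agent.A2.Mod.RE P E) x)).mpr ?_ hf'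
  rintro z (⟨e, rfl⟩ | hz)
  · rcases (_root_.Fermat.Agent.A2.Mod.RE P E).mem_or_inv_mem e with he | he
    · exact Subfield.subset_closure (Or.inl ⟨⟨e, he⟩, rfl⟩)
    · have h1 : algebraMap E (_root_.Fermat.Agent.A2.Mod.FE E N) e⁻¹ ∈ H138.baseField (_root_.Fermat.Agent.A2.Mod.RE P E) x :=
        Subfield.subset_closure (Or.inl ⟨⟨e⁻¹, he⟩, rfl⟩)
      have h2 := (H138.baseField (_root_.Fermat.Agent.A2.Mod.RE P E) x).inv_mem h1
      rwa [map_inv₀, inv_inv] at h2
  · exact Subfield.subset_closure (Or.inr hz)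

/-- finiteness over `E(x)` implies finiteness over `R_E(x)`. -/
theorem finiteDimensional_baseField {N : ℕ} (x : _root_.Fermat.Agent.A2.Mod.FE E N)
    [FiniteDimensional (IntermediateField.adjoin E ({x} : Set (_root_.Fermat.Agent.A2.Mod.FE E N))) (_root_.Fermat.Agent.A2.Mod.FE E N)] :
    FiniteDimensional (H138.baseField (_root_.Fermat.Agent.A2.Mod.RE P E) x) (_root_.Fermat.Agent.A2.Mod.FE E N) := by
  let ι : IntermediateField.adjoin E ({x} : Set (_root_.Fermat.Agent.A2.Mod.FE E N)) →+* H138.baseField (_root_.Fermat.Agent.A2.Mod.RE P E) x :=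
    { toFun := fun a => ⟨a, adjoin_le_baseField x a.2⟩
      map_one' := rfl
      map_mul' := fun _ _ => rfl
      map_zero' := rfl
      map_add' := fun _ _ => rfl }
  letI : Algebra (IntermediateField.adjoin E ({x} : Set (_root_.Fermat.Agent.A2.Mod.FE E N))) (H138.baseField (_root_.Fermat.Agent.A2.Mod.RE P E) x) :=
    ι.toAlgebra
  haveI : IsScalarTower (IntermediateField.adjoin E ({x} : Set (_root_.Fermat.Agent.A2.Mod.FE E N)))
      (H138.baseField (_root_.Fermat.Agent.A2.Mod.RE P E) x) (_root_.Fermat.Agent.A2.Mod.FE E N) := IsScalarTower.of_algebraMap_eq (fun _ => rfl)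
  exact Module.Finite.of_restrictScalars_finite
    (IntermediateField.adjoin E ({x} : Set (_root_.Fermat.Agent.A2.Mod.FE E N))) (H138.baseField (_root_.Fermat.Agent.A2.Mod.RE P E) x) (_root_.Fermat.Agent.A2.Mod.FE E N)

/-- **The charts are noetherian.** -/
theorem isNoetherianRing_chartAlg_of_transcendental {N : ℕ}
    (hdvr : IsDiscreteValuationRing (_root_.Fermat.Agent.A2.Mod.RE P E)) (x : _root_.Fermat.Agent.A2.Mod.FE E N) (hx : Transcendental E x)
    [FiniteDimensional (IntermediateField.adjoin E ({x} : Set (_root_.Fermat.Agent.A2.Mod.FE E N))) (_root_.Fermat.Agent.A2.Mod.FE E N)] :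
    IsNoetherianRing (chartAlg P E N x) ∧ IsNoetherianRing (chartAlg P E N x⁻¹) := by
  haveI := hdvr
  have hinj : Function.Injective (algebraMap (_root_.Fermat.Agent.A2.Mod.RE P E) E) := Subtype.val_injective
  have hxR : Transcendental (_root_.Fermat.Agent.A2.Mod.RE P E) x := hx.restrictScalars hinj
  have hxi : Transcendental E x⁻¹ := fun h => hx (IsAlgebraic.inv_iff.mp h)
  have hxiR : Transcendental (_root_.Fermat.Agent.A2.Mod.RE P E) x⁻¹ := hxi.restrictScalars hinj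
  haveI h1 : FiniteDimensional (H138.baseField (_root_.Fermat.Agent.A2.Mod.RE P E) x) (_root_.Fermat.Agent.A2.Mod.FE E N) :=
    finiteDimensional_baseField x
  haveI h2 : FiniteDimensional (H138.baseField (_root_.Fermat.Agent.A2.Mod.RE P E) x⁻¹) (_root_.Fermat.Agent.A2.Mod.FE E N) := by
    rw [H138.baseField_inv]
    exact h1
  exact ⟨(H394.chart_instances hxR).1, (H394.chart_instances hxiR).1⟩

end Fermat.Agent.A2.Mod.H372

end
end
-- ===== PACK-END A2/Mod/H372/S3Noeth.lean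

-- ===== PACK-BEGIN Ribet/H463/NodeAdapter.lean
section




/-!
# RIBET / WALL-p (I6): the NODE leaf in the frozen shapes of `Ribet/H704/I6Spec.lean`, `I6Core.lean`

* `nodeRelFrac : H704.I6.NodeRelFracStatement`  (fraction form, consumed by the assembly),
* `nodeRel : H704.I6.NodeRelStatement`          (element form),
* `nodeRelExact : H704.I6.NodeRelExactStatement` (no horizontal zero: exact equality),

all from the thick-node relation `IsNode463.dvd_slope_right` of `NodeSlopeFrac.lean`: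
the unit pair `D D' = π ^ N` gives the normal form `x' y' = unit · π ^ n` (`A2/H852`), the node
relation for `u = D` gives `N = n · ord₁ D`, and the node relation for `u` gives the statement.
-/

set_option autoImplicit false

namespace Fermat.Agent.Ribet.H463

open Ideal Fermat.Agent.A2.H609 Fermat.Agent.Ribet.H704

section AssocPow

variable {D : Type*} [CommRing D] [IsDomain D]

/-- A non-unit `ϖ ≠ 0` such that every nonzero element is associated to a power of `ϖ` is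
irreducible. -/
theorem irreducible_of_assoc_pow463 {ϖ : D} (h0 : ϖ ≠ 0) (hnu : ¬ IsUnit ϖ)
    (hall : ∀ a : D, a ≠ 0 → ∃ s : ℕ, Associated a (ϖ ^ s)) : Irreducible ϖ := by
  rw [irreducible_iff]
  refine ⟨hnu, fun a b hab => ?_⟩
  have ha0 : a ≠ 0 := by
    rintro rfl
    rw [zero_mul] at hab
    exact h0 hab
  have hb0 : b ≠ 0 := by
    rintro rfl
    rw [mul_zero] at hab
    exact h0 hab
  obtain ⟨i, hi⟩ := hall a ha0
  obtain ⟨j, hj⟩ := hall b hb0
  rcases Nat.eq_zero_or_pos i with rfl | hi0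
  · left
    rw [pow_zero] at hi
    exact hi.symm.isUnit isUnit_one
  rcases Nat.eq_zero_or_pos j with rfl | hj0
  · right
    rw [pow_zero] at hj
    exact hj.symm.isUnit isUnit_one
  exfalso
  have h1 : Associated ϖ (ϖ ^ (i + j)) := by
    have h5 := hi.mul_mul hj
    rwa [← hab, ← pow_add] at h5
  obtain ⟨w, hw⟩ := h1
  obtain ⟨t, ht⟩ : ∃ t, i + j = t + 1 + 1 := ⟨i + j - 2, by omega⟩
  rw [ht, pow_succ] at hw
  have h2 : ϖ * (w : D) = ϖ * ϖ ^ (t + 1) := by rw [hw]; ring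
  have h3 : (w : D) = ϖ ^ (t + 1) := mul_left_cancel₀ h0 h2
  have h4 : ϖ ∣ (w : D) := by
    rw [h3, pow_succ]
    exact Dvd.intro_left _ rfl
  exact hnu (isUnit_of_dvd_unit h4 w.isUnit)

theorem isDVR_of_assoc_pow463 {ϖ : D} (h0 : ϖ ≠ 0) (hnu : ¬ IsUnit ϖ)
    (hall : ∀ a : D, a ≠ 0 → ∃ s : ℕ, Associated a (ϖ ^ s)) : IsDiscreteValuationRing D :=
  IsDiscreteValuationRing.ofHasUnitMulPowIrreducibleFactorization
    ⟨ϖ, irreducible_of_assoc_pow463 h0 hnu hall, fun {x} hx => by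
      obtain ⟨s, hs⟩ := hall x hx
      exact ⟨s, hs.symm⟩⟩

end AssocPow

section FromIsNode

variable {R : Type*} [CommRing R] [IsLocalRing R] {𝔭₁ 𝔭₂ : Ideal R} {π x y : R}

theorem I6_forall_assoc₁ (h : I6.IsNode 𝔭₁ 𝔭₂ π x y) :
    ∀ a : R ⧸ 𝔭₁, a ≠ 0 → ∃ s : ℕ, Associated a ((Ideal.Quotient.mk 𝔭₁ x) ^ s) := by
  intro a ha
  obtain ⟨a', rfl⟩ := Ideal.Quotient.mk_surjective a
  have ha' : a' ∉ 𝔭₁ := fun hmem => ha (Ideal.Quotient.eq_zero_iff_mem.mpr hmem)
  exact h.unif₁ a' ha'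

theorem I6_forall_assoc₂ (h : I6.IsNode 𝔭₁ 𝔭₂ π x y) :
    ∀ a : R ⧸ 𝔭₂, a ≠ 0 → ∃ s : ℕ, Associated a ((Ideal.Quotient.mk 𝔭₂ y) ^ s) := by
  intro a ha
  obtain ⟨a', rfl⟩ := Ideal.Quotient.mk_surjective a
  have ha' : a' ∉ 𝔭₂ := fun hmem => ha (Ideal.Quotient.eq_zero_iff_mem.mpr hmem)
  exact h.unif₂ a' ha'

theorem I6_mk_x_ne_zero (h : I6.IsNode 𝔭₁ 𝔭₂ π x y) : Ideal.Quotient.mk 𝔭₁ x ≠ 0 := fun h0 =>
  h.hx₁ (Ideal.Quotient.eq_zero_iff_mem.mp h0)

theorem I6_mk_y_ne_zero (h : I6.IsNode 𝔭₁ 𝔭₂ π x y) : Ideal.Quotient.mk 𝔭₂ y ≠ 0 := fun h0 =>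
  h.hy₂ (Ideal.Quotient.eq_zero_iff_mem.mp h0)

theorem I6_irreducible₁ [𝔭₁.IsPrime] (h : I6.IsNode 𝔭₁ 𝔭₂ π x y) :
    Irreducible (Ideal.Quotient.mk 𝔭₁ x) :=
  irreducible_of_assoc_pow463 (I6_mk_x_ne_zero h) h.nonunit₁ (I6_forall_assoc₁ h)

theorem I6_irreducible₂ [𝔭₂.IsPrime] (h : I6.IsNode 𝔭₁ 𝔭₂ π x y) :
    Irreducible (Ideal.Quotient.mk 𝔭₂ y) :=
  irreducible_of_assoc_pow463 (I6_mk_y_ne_zero h) h.nonunit₂ (I6_forall_assoc₂ h)

theorem I6_isDVR₁ [𝔭₁.IsPrime] (h : I6.IsNode 𝔭₁ 𝔭₂ π x y) :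
    IsDiscreteValuationRing (R ⧸ 𝔭₁) :=
  isDVR_of_assoc_pow463 (I6_mk_x_ne_zero h) h.nonunit₁ (I6_forall_assoc₁ h)

theorem I6_isDVR₂ [𝔭₂.IsPrime] (h : I6.IsNode 𝔭₁ 𝔭₂ π x y) :
    IsDiscreteValuationRing (R ⧸ 𝔭₂) :=
  isDVR_of_assoc_pow463 (I6_mk_y_ne_zero h) h.nonunit₂ (I6_forall_assoc₂ h)

omit [IsLocalRing R] in
/-- `OrdOn` as an equation `a ≡ unit · ϖ ^ s`. -/
theorem ordOn_eq463 {𝔭 : Ideal R} {ϖ a : R} {s : ℕ} (h : I6.OrdOn 𝔭 ϖ a s) :
    ∃ ε : (R ⧸ 𝔭)ˣ, Ideal.Quotient.mk 𝔭 a = ε * (Ideal.Quotient.mk 𝔭 ϖ) ^ s := by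
  obtain ⟨w, hw⟩ := h
  refine ⟨w⁻¹, ?_⟩
  rw [← hw, mul_comm, mul_assoc, Units.mul_inv, mul_one]

/-- A unit of `R ⧸ 𝔭` lifts to a unit of the local ring `R`. -/
theorem exists_unit_lift463 {𝔭 : Ideal R} [𝔭.IsPrime] (ε : (R ⧸ 𝔭)ˣ) :
    ∃ e : R, IsUnit e ∧ Ideal.Quotient.mk 𝔭 e = ε := by
  obtain ⟨e, he⟩ := Ideal.Quotient.mk_surjective (ε : R ⧸ 𝔭)
  refine ⟨e, ?_, he⟩
  by_contra hnu
  have hloc : IsLocalHom (Ideal.Quotient.mk 𝔭) :=
    Function.Surjective.isLocalHom _ Ideal.Quotient.mk_surjective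
  exact hnu (IsLocalHom.map_nonunit e (he ▸ ε.isUnit))

/-- **Thick normal form of a node with a unit pair** (`A2/H852`): new branch uniformisers
`x' ≡ x`, `y' ≡ y (mod π)` with `x' y' = unit · π ^ n`. -/
theorem exists_isNode463 [IsDomain R] [𝔭₁.IsPrime] [𝔭₂.IsPrime]
    [IsDiscreteValuationRing (R ⧸ 𝔭₁)] [IsDiscreteValuationRing (R ⧸ 𝔭₂)]
    (h : I6.IsNode 𝔭₁ 𝔭₂ π x y) {D D' : R} {N : ℕ} (hN : 0 < N)
    (hDD : I6.IsUnitPair 𝔭₁ 𝔭₂ π D D' N) {k : ℕ} (hk : I6.OrdOn 𝔭₁ x D k) :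
    ∃ (x' y' : R) (n : ℕ), IsNode463 𝔭₁ 𝔭₂ π x' y' n ∧
      Ideal.Quotient.mk 𝔭₁ x' = Ideal.Quotient.mk 𝔭₁ x ∧
      Ideal.Quotient.mk 𝔭₂ y' = Ideal.Quotient.mk 𝔭₂ y := by
  have hπ₁ : π ∈ 𝔭₁ :=
    (inf_le_left : 𝔭₁ ⊓ 𝔭₂ ≤ 𝔭₁) (h.inf_eq ▸ Ideal.mem_span_singleton_self π)
  have hπ₂ : π ∈ 𝔭₂ :=
    (inf_le_right : 𝔭₁ ⊓ 𝔭₂ ≤ 𝔭₂) (h.inf_eq ▸ Ideal.mem_span_singleton_self π)
  have hcap : ∀ z, z ∈ 𝔭₁ → z ∈ 𝔭₂ → π ∣ z := by
    intro z h1 h2
    have hz : z ∈ 𝔭₁ ⊓ 𝔭₂ := ⟨h1, h2⟩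
    rw [h.inf_eq] at hz
    exact Ideal.mem_span_singleton.mp hz
  have hπ0 : π ≠ 0 := by
    rintro rfl
    have h0 := hDD.mul_eq
    rw [zero_pow hN.ne'] at h0
    rcases mul_eq_zero.mp h0 with h1 | h1
    · exact hDD.hD (h1 ▸ 𝔭₁.zero_mem)
    · exact hDD.hD' (h1 ▸ 𝔭₂.zero_mem)
  have hxirr := I6_irreducible₁ h
  have hyirr := I6_irreducible₂ h
  have h𝔭₁𝔪 : 𝔭₁ ≤ IsLocalRing.maximalIdeal R := h.sup_eq ▸ le_sup_left
  have h𝔭₂𝔪 : 𝔭₂ ≤ IsLocalRing.maximalIdeal R := h.sup_eq ▸ le_sup_right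
  have h2 : 𝔭₂ ≤ Ideal.span {x, y, π} := by
    refine (le_span_sup_inf 𝔭₁ 𝔭₂ h.hx hxirr h𝔭₂𝔪).trans (sup_le ?_ ?_)
    · rw [Ideal.span_singleton_le_iff_mem]
      exact Ideal.subset_span (by simp)
    · rw [h.inf_eq, Ideal.span_singleton_le_iff_mem]
      exact Ideal.subset_span (by simp)
  have h1 : 𝔭₁ ≤ Ideal.span {x, y, π} := by
    refine (le_span_sup_inf 𝔭₂ 𝔭₁ h.hy hyirr h𝔭₁𝔪).trans (sup_le ?_ ?_)
    · rw [Ideal.span_singleton_le_iff_mem]
      exact Ideal.subset_span (by simp)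
    · rw [inf_comm, h.inf_eq, Ideal.span_singleton_le_iff_mem]
      exact Ideal.subset_span (by simp)
  have hm : IsLocalRing.maximalIdeal R = Ideal.span {x, y, π} := by
    apply le_antisymm
    · rw [← h.sup_eq]
      exact sup_le h1 h2
    · rw [Ideal.span_le]
      intro z hz
      simp only [Set.mem_insert_iff, Set.mem_singleton_iff] at hz
      rcases hz with rfl | rfl | rfl
      · exact h𝔭₂𝔪 h.hx
      · exact h𝔭₁𝔪 h.hy
      · exact h𝔭₁𝔪 hπ₁
  obtain ⟨G, hG⟩ := hcap (x * y) (𝔭₁.mul_mem_left _ h.hy) (𝔭₂.mul_mem_right _ h.hx)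
  obtain ⟨ε', hε'⟩ := ordOn_eq463 hk
  obtain ⟨ε, hεu, hεmk⟩ := exists_unit_lift463 ε'
  have hDS : D - ε * x ^ k ∈ 𝔭₁ := by
    rw [← Ideal.Quotient.eq, hε', map_mul, map_pow, hεmk]
  obtain ⟨S', T', G', ⟨β, hβ⟩, ⟨α, hα⟩, -, t, -, hprod, hG'⟩ :=
    Fermat.Agent.A2.H852.node_normal_form_exact 𝔭₁ 𝔭₂ π x y G D D' ε N k hπ0 hπ₁ hπ₂ hcap hm
      h.hx₁ h.hy₂ hG hN hDD.mul_eq hDD.hD hDD.hD' hεu hDS
  have hS₁ : Ideal.Quotient.mk 𝔭₁ S' = Ideal.Quotient.mk 𝔭₁ x := by
    rw [Ideal.Quotient.eq, hβ]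
    have : x - π * β - x = -(π * β) := by ring
    rw [this]
    exact 𝔭₁.neg_mem (𝔭₁.mul_mem_right _ hπ₁)
  have hT₂ : Ideal.Quotient.mk 𝔭₂ T' = Ideal.Quotient.mk 𝔭₂ y := by
    rw [Ideal.Quotient.eq, hα]
    have : y - π * α - y = -(π * α) := by ring
    rw [this]
    exact 𝔭₂.neg_mem (𝔭₂.mul_mem_right _ hπ₂)
  refine ⟨S', T', t + 1, ⟨h.inf_eq, h.sup_eq, ?_, ?_, ?_, ?_, ?_⟩, hS₁, hT₂⟩
  · rw [hβ]
    exact 𝔭₂.sub_mem h.hx (𝔭₂.mul_mem_right _ hπ₂)
  · rw [hS₁]
    exact hxirr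
  · rw [hα]
    exact 𝔭₁.sub_mem h.hy (𝔭₁.mul_mem_right _ hπ₁)
  · rw [hT₂]
    exact hyirr
  · exact ⟨hG'.unit, by rw [hprod, IsUnit.unit_spec, mul_comm]⟩

end FromIsNode

section Frac

variable {R : Type*} [CommRing R] [IsDomain R]
variable {K : Type*} [Field K] [Algebra R K] [IsFractionRing R K]

omit [IsDomain R] in
/-- The valuation along a branch is unique. -/
theorem valAt_unique463 {𝔭 : Ideal R} [𝔭.IsPrime] {π : R} (hπ : π ∈ 𝔭) (hπ0 : π ≠ 0) {u : K}
    {v v' : ℤ} (h : I6.ValAt K 𝔭 π u v) (h' : I6.ValAt K 𝔭 π u v') : v = v' := by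
  have hinj : Function.Injective (algebraMap R K) := IsFractionRing.injective R K
  have hP0 : algebraMap R K π ≠ 0 := fun h0 => hπ0 (hinj (by rw [h0, map_zero]))
  have key : ∀ {v v' : ℤ}, I6.ValAt K 𝔭 π u v → I6.ValAt K 𝔭 π u v' → ¬ v < v' := by
    intro v v' h h' hlt
    obtain ⟨a, b, ha, hb, hab⟩ := h
    obtain ⟨a', b', ha', hb', hab'⟩ := h'
    obtain ⟨d, hd⟩ : ∃ d : ℕ, v' = v + (d + 1 : ℕ) := ⟨(v' - v - 1).toNat, by
      have : 0 ≤ v' - v - 1 := by omega
      push_cast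
      rw [Int.toNat_of_nonneg this]
      ring⟩
    have h1 : algebraMap R K π ^ v * algebraMap R K (a * b') =
        algebraMap R K π ^ v * algebraMap R K (π ^ (d + 1) * a' * b) := by
      calc algebraMap R K π ^ v * algebraMap R K (a * b')
          = (algebraMap R K π ^ v * algebraMap R K a) * algebraMap R K b' := by
            rw [map_mul]; ring
        _ = (u * algebraMap R K b') * algebraMap R K b := by rw [← hab]; ring
        _ = algebraMap R K π ^ v * algebraMap R K (π ^ (d + 1) * a' * b) := by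
            rw [hab', hd, zpow_add₀ hP0, zpow_natCast]
            simp only [map_mul, map_pow]
            ring
    have h2 : a * b' = π ^ (d + 1) * a' * b :=
      hinj (mul_left_cancel₀ (zpow_ne_zero v hP0) h1)
    have h3 : a * b' ∈ 𝔭 := by
      rw [h2, pow_succ]
      exact 𝔭.mul_mem_right _ (𝔭.mul_mem_right _ (𝔭.mul_mem_left _ hπ))
    rcases Ideal.IsPrime.mem_or_mem inferInstance h3 with h4 | h4
    · exact ha h4
    · exact hb' h4
  rcases lt_trichotomy v v' with hlt | heq | hgt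
  · exact absurd hlt (key h h')
  · exact heq
  · exact absurd hgt (key h' h)

omit [IsDomain R] in
/-- `HorDivFrac` (ring form of (H1) for a representative) implies the valuation form of (H1). -/
theorem hdiv_of_horDivFrac463 {π : R} (hπ0 : π ≠ 0) {m : ℕ} (hm : m ≠ 0) {u : K}
    (h : I6.HorDivFrac K π m u) :
    ∀ V : ValuationSubring K, IsDiscreteValuationRing V →
      (∀ r : R, algebraMap R K r ∈ V) → (algebraMap R K π)⁻¹ ∈ V →
      ∃ g u₀ : K, u₀ ∈ V ∧ u₀⁻¹ ∈ V ∧ u = u₀ * g ^ m := by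
  intro V _ hle hπV
  have hinj : Function.Injective (algebraMap R K) := IsFractionRing.injective R K
  have hP0 : algebraMap R K π ≠ 0 := fun h0 => hπ0 (hinj (by rw [h0, map_zero]))
  obtain ⟨a, b, hb0, hab, hHor⟩ := h
  have hbK : algebraMap R K b ≠ 0 := fun h0 => hb0 (hinj (by rw [h0, map_zero]))
  obtain ⟨m', rfl⟩ : ∃ m', m = m' + 1 := ⟨m - 1, by omega⟩
  rw [Nat.add_sub_cancel] at hHor
  -- the centre of `V` on `R`
  obtain ⟨φ, hφ⟩ : ∃ φ : R →+* V, ∀ r, ((φ r : V) : K) = algebraMap R K r :=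
    ⟨(algebraMap R K).codRestrict V hle, fun r => rfl⟩
  obtain ⟨𝔓, h𝔓⟩ : ∃ 𝔓 : Ideal R, 𝔓 = (IsLocalRing.maximalIdeal V).comap φ := ⟨_, rfl⟩
  have h𝔓p : 𝔓.IsPrime := by
    rw [h𝔓]
    exact Ideal.comap_isPrime φ _
  have hunit : ∀ r : R, r ∉ 𝔓 → (algebraMap R K r)⁻¹ ∈ V := by
    intro r hr
    have h1 : IsUnit (φ r) := by
      by_contra hnu
      apply hr
      rw [h𝔓, Ideal.mem_comap]
      exact (IsLocalRing.mem_maximalIdeal _).mpr hnu
    obtain ⟨w, hw⟩ := h1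
    have h2 : algebraMap R K r * (((w⁻¹ : Vˣ) : V) : K) = 1 := by
      rw [← hφ r, ← hw]
      exact_mod_cast congrArg (fun z : V => (z : K)) (w.mul_inv)
    rw [← eq_inv_of_mul_eq_one_right h2]
    exact (((w⁻¹ : Vˣ) : V)).2
  have hπ𝔓 : π ∉ 𝔓 := by
    intro hmem
    rw [h𝔓, Ideal.mem_comap] at hmem
    have h1 : IsUnit (φ π) := by
      refine IsUnit.of_mul_eq_one (⟨(algebraMap R K π)⁻¹, hπV⟩ : V) ?_
      apply Subtype.ext
      show ((φ π : V) : K) * (algebraMap R K π)⁻¹ = 1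
      rw [hφ, mul_inv_cancel₀ hP0]
    exact (IsLocalRing.mem_maximalIdeal _).mp hmem h1
  have huw : u * algebraMap R K b ^ (m' + 1) = algebraMap R K (a * b ^ m') := by
    rw [map_mul, map_pow, ← hab]
    ring
  by_cases hw : a * b ^ m' ∈ 𝔓
  · obtain ⟨f, r, hr, hfr⟩ := hHor 𝔓 h𝔓p hw hπ𝔓
    have hrK : algebraMap R K r ≠ 0 := fun h0 => hr (by
      rw [hinj (by rw [h0, map_zero] : algebraMap R K r = algebraMap R K 0)]
      exact 𝔓.zero_mem)
    refine ⟨algebraMap R K f / algebraMap R K b, (algebraMap R K r)⁻¹, hunit r hr, ?_, ?_⟩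
    · rw [inv_inv]
      exact hle r
    · have h3 : algebraMap R K f ^ (m' + 1) = algebraMap R K (a * b ^ m') * algebraMap R K r := by
        rw [← map_pow, hfr, map_mul]
      rw [div_pow, h3, ← huw]
      field_simp
  · refine ⟨(algebraMap R K b)⁻¹, algebraMap R K (a * b ^ m'), hle _, hunit _ hw, ?_⟩
    rw [← huw, inv_pow]
    field_simp

end Frac

section Thick

variable {R : Type*} [CommRing R] [IsLocalRing R] [IsDomain R] [IsIntegrallyClosed R]
  [IsNoetherianRing R]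
variable {𝔭₁ 𝔭₂ : Ideal R} [𝔭₁.IsPrime] [𝔭₂.IsPrime]
  [IsDiscreteValuationRing (R ⧸ 𝔭₁)] [IsDiscreteValuationRing (R ⧸ 𝔭₂)] {π x y : R} {n : ℕ}

omit [IsLocalRing R] [IsDomain R] [IsIntegrallyClosed R] [IsNoetherianRing R] in
/-- An integer divisible by every positive integer is zero. -/
theorem eq_zero_of_forall_dvd463 {Z : ℤ} (h : ∀ m : ℕ, m ≠ 0 → (m : ℤ) ∣ Z) : Z = 0 := by
  have h1 := h (Z.natAbs + 1) (Nat.succ_ne_zero _)
  refine Int.eq_zero_of_dvd_of_natAbs_lt_natAbs h1 ?_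
  rw [Int.natAbs_natCast]
  exact Nat.lt_succ_self _

/-- **Thickness from a unit pair**: `N = n · ord₁(D)`. -/
theorem IsNode463.thickness_mul_ord (h : IsNode463 𝔭₁ 𝔭₂ π x y n) {D D' : R} {N k : ℕ}
    (hDD : D * D' = π ^ N) (hD : D ∉ 𝔭₁) (hD' : D' ∉ 𝔭₂) {ε : (R ⧸ 𝔭₁)ˣ}
    (hk : Ideal.Quotient.mk 𝔭₁ D = ε * (Ideal.Quotient.mk 𝔭₁ x) ^ k) : N = n * k := by
  obtain ⟨K, _, _, _⟩ : ∃ (K : Type _) (_ : Field K) (_ : Algebra R K), IsFractionRing R K :=
    ⟨FractionRing R, inferInstance, inferInstance, inferInstance⟩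
  have hinj : Function.Injective (algebraMap R K) := IsFractionRing.injective R K
  have hP0 : algebraMap R K π ≠ 0 := fun h0 => h.pi_ne_zero (hinj (by rw [h0, map_zero]))
  have h1₁ : (1 : R) ∉ 𝔭₁ := (Ideal.ne_top_iff_one 𝔭₁).mp (Ideal.IsPrime.ne_top inferInstance)
  have h1₂ : (1 : R) ∉ 𝔭₂ := (Ideal.ne_top_iff_one 𝔭₂).mp (Ideal.IsPrime.ne_top inferInstance)
  have hZ : (n : ℤ) * (n * ((k : ℤ) - (0 : ℕ)) + (0 : ℤ) - (N : ℤ)) = 0 := by
    apply eq_zero_of_forall_dvd463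
    intro m hm
    refine h.dvd_slope_left (K := K) hm (u := algebraMap R K D) ?_ hD h1₁ h1₂ hD' ?_ ?_ hk
      (εb := 1) ?_
    · intro V _ hle hπV
      refine ⟨1, algebraMap R K D, hle D, ?_, by rw [one_pow, mul_one]⟩
      have h2 : algebraMap R K D * (algebraMap R K D' * (algebraMap R K π)⁻¹ ^ N) = 1 := by
        rw [← mul_assoc, ← map_mul, hDD, map_pow, ← mul_pow, mul_inv_cancel₀ hP0, one_pow]
      rw [← eq_inv_of_mul_eq_one_right h2]
      exact V.mul_mem _ _ (hle D') (V.pow_mem hπV N)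
    · rw [map_one, mul_one, zpow_zero, one_mul]
    · rw [← map_mul, hDD, map_pow, map_one, mul_one, zpow_natCast]
    · rw [map_one, pow_zero, Units.val_one, mul_one]
  have hn : (n : ℤ) ≠ 0 := by exact_mod_cast h.thickness_ne_zero
  have h3 := (mul_eq_zero.mp hZ).resolve_left hn
  have h4 : (N : ℤ) = n * k := by
    push_cast at h3
    linarith
  exact_mod_cast h4

end Thick

section Statements

/-- `1` has order `0` on every branch. -/
theorem ordOn_one463 {R : Type*} [CommRing R] (𝔭 : Ideal R) (ϖ : R) : I6.OrdOn 𝔭 ϖ 1 0 := by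
  unfold I6.OrdOn
  rw [map_one, pow_zero]

/-- **NODE, fraction form** (`H704.I6.NodeRelFracStatement`, verbatim). -/
theorem nodeRelFrac : I6.NodeRelFracStatement := by
  intro R K _ _ _ _ _ _ _ _ 𝔭₁ 𝔭₂ π x y hnode m N hm hcop D D' hDD u _ hHor v₁ v₂ s k hv₁ hv₂ hs hk
  have := hnode.prime₁
  have := hnode.prime₂
  have : IsDiscreteValuationRing (R ⧸ 𝔭₁) := I6_isDVR₁ hnode
  have : IsDiscreteValuationRing (R ⧸ 𝔭₂) := I6_isDVR₂ hnode
  rcases Nat.eq_zero_or_pos N with rfl | hN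
  · have hm1 : m = 1 := by simpa using hcop
    subst hm1
    rw [Nat.cast_one]
    exact one_dvd _
  obtain ⟨x', y', n, h463, hx', hy'⟩ := exists_isNode463 hnode hN hDD hk
  obtain ⟨εD, hεD⟩ := ordOn_eq463 hk
  have hNnk : N = n * k :=
    h463.thickness_mul_ord hDD.mul_eq hDD.hD hDD.hD' (ε := εD) (by rw [hx']; exact hεD)
  have hπ0 := h463.pi_ne_zero
  have hdiv := hdiv_of_horDivFrac463 (K := K) hπ0 hm hHor
  obtain ⟨v, a, b, i, j, ha, hb, hab, hi, hj, hsij⟩ := hs
  have hvv : v = v₂ := valAt_unique463 h463.pi_mem_right hπ0 ⟨a, b, ha, hb, hab⟩ hv₂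
  subst hvv
  obtain ⟨a₁, b₁, ha₁, hb₁, hab₁⟩ := hv₁
  obtain ⟨εa, hεa⟩ := ordOn_eq463 hi
  obtain ⟨εb, hεb⟩ := ordOn_eq463 hj
  have key := h463.dvd_slope_right hm hdiv ha₁ hb₁ ha hb hab₁ hab (εa := εa) (εb := εb)
    (by rw [hy']; exact hεa) (by rw [hy']; exact hεb)
  have hcopn : Nat.Coprime m n :=
    (Nat.Coprime.coprime_dvd_left ⟨k, hNnk⟩ hcop).symm
  have hcop' : IsCoprime (m : ℤ) (n : ℤ) := Nat.isCoprime_iff_coprime.mpr hcopn
  have h3 : (m : ℤ) ∣ n * ((i : ℤ) - j) + v - v₁ := hcop'.dvd_of_dvd_mul_left key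
  have e : (N : ℤ) * s - (v₁ - v) * k = k * (n * ((i : ℤ) - j) + v - v₁) := by
    rw [hsij, hNnk]
    push_cast
    ring
  rw [e]
  exact Dvd.dvd.mul_left h3 _

/-- **NODE, element form** (`H704.I6.NodeRelStatement`, verbatim). -/
theorem nodeRel : I6.NodeRelStatement := by
  intro R _ _ _ _ _ 𝔭₁ 𝔭₂ π x y hnode m N hm hcop D D' hDD a c d n₁ ha hc hd had hHor s k hs hk
  have := hnode.prime₁
  have := hnode.prime₂
  have h1₂ : (1 : R) ∉ 𝔭₂ := (Ideal.ne_top_iff_one 𝔭₂).mp (Ideal.IsPrime.ne_top inferInstance)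
  have hinj : Function.Injective (algebraMap R (FractionRing R)) :=
    IsFractionRing.injective R (FractionRing R)
  have ha0 : algebraMap R (FractionRing R) a ≠ 0 := fun h0 => ha (by
    rw [hinj (by rw [h0, map_zero] : algebraMap R (FractionRing R) a = algebraMap R _ 0)]
    exact 𝔭₂.zero_mem)
  have key := nodeRelFrac R (FractionRing R) 𝔭₁ 𝔭₂ π x y hnode m N hm hcop D D' hDD
    (algebraMap R (FractionRing R) a) ha0
    ⟨a, 1, one_ne_zero, by rw [map_one, mul_one], by rw [one_pow, mul_one]; exact hHor⟩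
    (n₁ : ℤ) 0 (s : ℤ) k
    ⟨c, d, hc, hd, by rw [← map_mul, had, map_mul, map_pow, zpow_natCast]⟩
    ⟨a, 1, ha, h1₂, by rw [map_one, mul_one, zpow_zero, one_mul]⟩
    ⟨0, a, 1, s, 0, ha, h1₂, by rw [map_one, mul_one, zpow_zero, one_mul], hs,
      ordOn_one463 𝔭₂ y, by push_cast; ring⟩
    hk
  rwa [sub_zero] at key

/-- **NODE, exact form** (`H704.I6.NodeRelExactStatement`, verbatim). -/
theorem nodeRelExact : I6.NodeRelExactStatement := by
  intro R _ _ _ _ _ 𝔭₁ 𝔭₂ π x y hnode N D D' hN hDD a c d n₁ ha hc hd had hnoh s k hs hk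
  have := hnode.prime₁
  have := hnode.prime₂
  have : IsDiscreteValuationRing (R ⧸ 𝔭₁) := I6_isDVR₁ hnode
  have : IsDiscreteValuationRing (R ⧸ 𝔭₂) := I6_isDVR₂ hnode
  have h1₂ : (1 : R) ∉ 𝔭₂ := (Ideal.ne_top_iff_one 𝔭₂).mp (Ideal.IsPrime.ne_top inferInstance)
  obtain ⟨x', y', n, h463, hx', hy'⟩ := exists_isNode463 hnode hN hDD hk
  obtain ⟨εD, hεD⟩ := ordOn_eq463 hk
  have hNnk : N = n * k :=
    h463.thickness_mul_ord hDD.mul_eq hDD.hD hDD.hD' (ε := εD) (by rw [hx']; exact hεD)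
  have hπ0 := h463.pi_ne_zero
  obtain ⟨εa, hεa⟩ := ordOn_eq463 hs
  have hZ : (n : ℤ) * (n * ((s : ℤ) - (0 : ℕ)) + (0 : ℤ) - (n₁ : ℤ)) = 0 := by
    apply eq_zero_of_forall_dvd463
    intro m hm
    have hHF : I6.HorDivFrac (FractionRing R) π m (algebraMap R (FractionRing R) a) :=
      ⟨a, 1, one_ne_zero, by rw [map_one, mul_one], by
        rw [one_pow, mul_one]
        exact fun 𝔓 h𝔓 ha𝔓 hπ𝔓 => absurd (hnoh 𝔓 h𝔓 ha𝔓) hπ𝔓⟩
    have hdiv := hdiv_of_horDivFrac463 (K := FractionRing R) hπ0 hm hHF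
    refine h463.dvd_slope_right (K := FractionRing R) hm hdiv hc hd ha h1₂ ?_ ?_ (εa := εa)
      (εb := 1) (by rw [hy']; exact hεa) ?_
    · rw [← map_mul, had, map_mul, map_pow, zpow_natCast]
    · rw [map_one, mul_one, zpow_zero, one_mul]
    · rw [map_one, pow_zero, Units.val_one, mul_one]
  have hn : (n : ℤ) ≠ 0 := by exact_mod_cast h463.thickness_ne_zero
  have h3 := (mul_eq_zero.mp hZ).resolve_left hn
  have h4 : (n : ℤ) * s = n₁ := by
    push_cast at h3
    linarith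
  have h5 : n * s = n₁ := by exact_mod_cast h4
  rw [hNnk, ← h5]
  ring

end Statements

end Fermat.Agent.Ribet.H463

end
-- ===== PACK-END Ribet/H463/NodeAdapter.lean

-- ===== PACK-BEGIN A2/H609/ChartSmooth.lean
section



/-!
# Node purity, part 14: purity at a smooth point of a semistable chart

`B` a noetherian integrally closed domain with fraction field `F`, `p p'` the two components of
the special fibre (`p ⊓ p' = (w)`, incomparable), `n` a closed point on `p` and not on `p'`,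
`p ≠ n`, `B ⧸ p` Dedekind.  If `u ∈ Fˣ` is locally `unit × m`-th power at every discrete valuation
ring `V ⊇ B[1/w]` and has constant unit residue on `p`, then there is `d ∈ Fˣ` with
`u d ^ m ∈ (B_n)ˣ` and `d` a unit on BOTH components (`exists_pureAt_smooth`).
-/

set_option autoImplicit false

namespace Fermat.Agent.A2.H609

open Fermat.Agent.A2.H849

section UnitAt

variable {B : Type*} [CommRing B] {F : Type*} [Field F] [Algebra B F]

/-- `z` is a unit of `B_q`: `z = a / b` with `a, b ∈ B ∖ q`. -/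
def UnitAt (q : Ideal B) (z : F) : Prop :=
  ∃ a b : B, a ∉ q ∧ b ∉ q ∧ z * algebraMap B F b = algebraMap B F a

theorem UnitAt.one (q : Ideal B) [q.IsPrime] : UnitAt q (1 : F) :=
  ⟨1, 1, fun h => (Ideal.IsPrime.ne_top inferInstance) ((Ideal.eq_top_iff_one q).2 h),
    fun h => (Ideal.IsPrime.ne_top inferInstance) ((Ideal.eq_top_iff_one q).2 h), by simp⟩

theorem UnitAt.mul {q : Ideal B} [q.IsPrime] {z z' : F} (h : UnitAt q z) (h' : UnitAt q z') :
    UnitAt q (z * z') := by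
  obtain ⟨a, b, ha, hb, e⟩ := h
  obtain ⟨a', b', ha', hb', e'⟩ := h'
  refine ⟨a * a', b * b', fun hm => ?_, fun hm => ?_, ?_⟩
  · rcases Ideal.IsPrime.mem_or_mem inferInstance hm with h1 | h1
    · exact ha h1
    · exact ha' h1
  · rcases Ideal.IsPrime.mem_or_mem inferInstance hm with h1 | h1
    · exact hb h1
    · exact hb' h1
  · rw [map_mul, map_mul, ← e, ← e']
    ring

theorem UnitAt.pow {q : Ideal B} [q.IsPrime] {z : F} (h : UnitAt q z) (k : ℕ) :
    UnitAt q (z ^ k) := by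
  induction k with
  | zero => rw [pow_zero]; exact UnitAt.one q
  | succ k ih => rw [pow_succ]; exact ih.mul h

theorem UnitAt.inv [IsDomain B] [FaithfulSMul B F] {q : Ideal B} {z : F} (h : UnitAt q z) :
    UnitAt q z⁻¹ := by
  obtain ⟨a, b, ha, hb, e⟩ := h
  have hinj : Function.Injective (algebraMap B F) := FaithfulSMul.algebraMap_injective B F
  have haF : algebraMap B F a ≠ 0 := by
    intro h0
    apply ha
    rw [hinj (by rw [h0, map_zero] : algebraMap B F a = algebraMap B F 0)]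
    exact q.zero_mem
  have hz : z ≠ 0 := by
    rintro rfl
    rw [zero_mul] at e
    exact haF e.symm
  refine ⟨b, a, hb, ha, ?_⟩
  rw [← e]
  field_simp

theorem UnitAt.algebraMap {q : Ideal B} {g : B} (hg : g ∉ q) [q.IsPrime] :
    UnitAt q (algebraMap B F g) :=
  ⟨g, 1, hg, fun h => (Ideal.IsPrime.ne_top inferInstance) ((Ideal.eq_top_iff_one q).2 h),
    by simp⟩

end UnitAt

variable {B : Type*} [CommRing B] [IsDomain B] [IsNoetherianRing B] [IsIntegrallyClosed B]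
variable {F : Type*} [Field F] [Algebra B F] [IsFractionRing B F]

omit [IsIntegrallyClosed B] in
/-- Every nonzero element of `F` is `w ^ (k₁ - k₂) × unit` at a component `p'`. -/
theorem exists_unitAt_decomp {w : B} (p p' : Ideal B) [p.IsPrime] [p'.IsPrime]
    (hinf : p ⊓ p' = Ideal.span {w}) (h₁₂ : ¬ p ≤ p') (z : F) (hz : z ≠ 0) :
    ∃ (k₁ k₂ : ℕ) (e : F), UnitAt p' e ∧
      z * algebraMap B F w ^ k₂ = e * algebraMap B F w ^ k₁ := by
  have hinj : Function.Injective (algebraMap B F) := IsFractionRing.injective B F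
  obtain ⟨c₀, hc₀p, hc₀p'⟩ := SetLike.not_le_iff_exists.mp h₁₂
  have hw : w ∈ p' := by
    have : w ∈ p ⊓ p' := by
      rw [hinf]
      exact Ideal.mem_span_singleton_self w
    exact this.2
  have hloc : ∀ a ∈ p', ∃ s, s ∉ p' ∧ ∃ a', a * s = w * a' := by
    intro a ha
    have h1 : a * c₀ ∈ p ⊓ p' := ⟨p.mul_mem_left _ hc₀p, p'.mul_mem_right _ ha⟩
    rw [hinf] at h1
    obtain ⟨a', ha'⟩ := Ideal.mem_span_singleton'.mp h1
    exact ⟨c₀, hc₀p', a', by rw [← ha', mul_comm]⟩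
  obtain ⟨X, Y, hY, rfl⟩ := IsFractionRing.div_surjective (A := B) z
  have hY0 : Y ≠ 0 := nonZeroDivisors.ne_zero hY
  have hX0 : X ≠ 0 := by
    rintro rfl
    rw [map_zero, zero_div] at hz
    exact hz rfl
  have hYF : algebraMap B F Y ≠ 0 := fun h0 => hY0 (hinj (by rw [h0, map_zero]))
  obtain ⟨k₁, a₁, t₁, ha₁, ht₁, e₁⟩ := Alg.H34.exists_pow_mul_eq p' w hw hloc X hX0
  obtain ⟨k₂, a₂, t₂, ha₂, ht₂, e₂⟩ := Alg.H34.exists_pow_mul_eq p' w hw hloc Y hY0
  have ht₁F : algebraMap B F t₁ ≠ 0 := fun h0 => ht₁ (by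
    rw [hinj (by rw [h0, map_zero] : algebraMap B F t₁ = algebraMap B F 0)]
    exact p'.zero_mem)
  have ha₂F : algebraMap B F a₂ ≠ 0 := fun h0 => ha₂ (by
    rw [hinj (by rw [h0, map_zero] : algebraMap B F a₂ = algebraMap B F 0)]
    exact p'.zero_mem)
  have e₁F : algebraMap B F t₁ * algebraMap B F X =
      algebraMap B F w ^ k₁ * algebraMap B F a₁ := by
    rw [← map_mul, e₁, map_mul, map_pow]
  have e₂F : algebraMap B F t₂ * algebraMap B F Y =
      algebraMap B F w ^ k₂ * algebraMap B F a₂ := by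
    rw [← map_mul, e₂, map_mul, map_pow]
  refine ⟨k₁, k₂, algebraMap B F (a₁ * t₂) / algebraMap B F (t₁ * a₂), ?_, ?_⟩
  · refine ⟨a₁ * t₂, t₁ * a₂, fun hm => ?_, fun hm => ?_, ?_⟩
    · rcases Ideal.IsPrime.mem_or_mem inferInstance hm with h1 | h1
      · exact ha₁ h1
      · exact ht₂ h1
    · rcases Ideal.IsPrime.mem_or_mem inferInstance hm with h1 | h1
      · exact ht₁ h1
      · exact ha₂ h1
    · have h0 : algebraMap B F (t₁ * a₂) ≠ 0 := by
        rw [map_mul (algebraMap B F) t₁ a₂]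
        exact mul_ne_zero ht₁F ha₂F
      exact div_mul_cancel₀ _ h0
  · rw [map_mul (algebraMap B F) a₁ t₂, map_mul (algebraMap B F) t₁ a₂,
      div_mul_eq_mul_div, div_mul_eq_mul_div, div_eq_div_iff hYF (mul_ne_zero ht₁F ha₂F)]
    linear_combination (algebraMap B F w ^ k₂ * algebraMap B F a₂) * e₁F -
      (algebraMap B F w ^ k₁ * algebraMap B F a₁) * e₂F

omit [IsNoetherianRing B] [IsIntegrallyClosed B] [Algebra B F] [IsFractionRing B F]
  [IsDomain B] in
/-- A field identity: replacing `W` by `G` in a twist. -/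
theorem mul_pow_inv_eq_of_mul_pow_eq {d₀ e W G : F} (hW : W ≠ 0) (hG : G ≠ 0)
    (k₁ k₂ : ℕ) (h : d₀ * W ^ k₂ = e * W ^ k₁) :
    d₀ * (G ^ k₂ * (G ^ k₁)⁻¹) = e * ((G / W) ^ k₂ * ((G / W) ^ k₁)⁻¹) := by
  have hW1 := pow_ne_zero k₁ hW
  have hW2 := pow_ne_zero k₂ hW
  have hG1 := pow_ne_zero k₁ hG
  have hG2 := pow_ne_zero k₂ hG
  have h1 : e = d₀ * W ^ k₂ / W ^ k₁ := by
    rw [h]
    field_simp
  rw [h1, div_pow, div_pow]
  field_simp

omit [IsNoetherianRing B] [IsIntegrallyClosed B] in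
/-- The generator `w` of `p ⊓ p'` is nonzero when `p`, `p'` are incomparable primes. -/
theorem ne_zero_of_inf_eq_span {w : B} (p p' : Ideal B) [p.IsPrime] [p'.IsPrime]
    (hinf : p ⊓ p' = Ideal.span {w}) (h₁₂ : ¬ p ≤ p') (h₂₁ : ¬ p' ≤ p) : w ≠ 0 := by
  rintro rfl
  obtain ⟨c₀, hc₀p, hc₀p'⟩ := SetLike.not_le_iff_exists.mp h₁₂
  obtain ⟨g₀, hg₀p', hg₀p⟩ := SetLike.not_le_iff_exists.mp h₂₁
  have h1 : c₀ * g₀ ∈ p ⊓ p' := ⟨p.mul_mem_right _ hc₀p, p'.mul_mem_left _ hg₀p'⟩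
  rw [hinf, Ideal.mem_span_singleton', ] at h1
  obtain ⟨a, ha⟩ := h1
  rw [mul_zero] at ha
  rcases mul_eq_zero.mp ha.symm with h | h
  · exact hc₀p' (h ▸ p'.zero_mem)
  · exact hg₀p (h ▸ p.zero_mem)

omit [IsNoetherianRing B] [IsIntegrallyClosed B] [IsDomain B] in
/-- An element `g ∉ n` which is `w × unit` at the other component `p'`. -/
theorem exists_uniformizer_away {w : B} (p p' n : Ideal B) [p.IsPrime] [p'.IsPrime] [n.IsPrime]
    (hinf : p ⊓ p' = Ideal.span {w}) (h₁₂ : ¬ p ≤ p') (h₁ : p ≤ n) (h₂ : ¬ p' ≤ n) :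
    ∃ g : B, g ∉ n ∧ ∃ a b : B, a ∉ p' ∧ b ∉ p' ∧ g * b = w * a := by
  obtain ⟨c₀, hc₀p, hc₀p'⟩ := SetLike.not_le_iff_exists.mp h₁₂
  obtain ⟨g₀, hg₀p', hg₀n⟩ := SetLike.not_le_iff_exists.mp h₂
  have hw : w ∈ p ⊓ p' := by
    rw [hinf]
    exact Ideal.mem_span_singleton_self w
  have h1 : g₀ * c₀ ∈ p ⊓ p' := ⟨p.mul_mem_left _ hc₀p, p'.mul_mem_right _ hg₀p'⟩
  rw [hinf, Ideal.mem_span_singleton'] at h1
  obtain ⟨k, hk⟩ := h1
  refine ⟨g₀ ^ 2 + w, fun h => ?_, c₀ ^ 2 + w * k ^ 2, c₀ ^ 2, fun h => ?_, fun h => ?_, ?_⟩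
  · have h2 : g₀ ^ 2 ∈ n := by
      have : g₀ ^ 2 = (g₀ ^ 2 + w) - w := by ring
      rw [this]
      exact n.sub_mem h (h₁ hw.1)
    exact hg₀n (Ideal.IsPrime.mem_of_pow_mem inferInstance _ h2)
  · have h2 : c₀ ^ 2 ∈ p' := by
      have : c₀ ^ 2 = (c₀ ^ 2 + w * k ^ 2) - w * k ^ 2 := by ring
      rw [this]
      exact p'.sub_mem h (p'.mul_mem_right _ hw.2)
    exact hc₀p' (Ideal.IsPrime.mem_of_pow_mem inferInstance _ h2)
  · exact hc₀p' (Ideal.IsPrime.mem_of_pow_mem inferInstance _ h)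
  · have : (g₀ ^ 2 + w) * c₀ ^ 2 = (g₀ * c₀) ^ 2 + w * c₀ ^ 2 := by ring
    rw [this, ← hk]
    ring

/-- **Purity at a smooth point of a semistable chart** (a closed point `n` on the component `p`
and not on the component `p'`, `p ≠ n`). -/
theorem exists_pureAt_smooth {w : B} {m : ℕ} (hm : m ≠ 0)
    (p p' n : Ideal B) [p.IsPrime] [p'.IsPrime] [n.IsPrime]
    [IsDedekindDomain (B ⧸ p)]
    (hinf : p ⊓ p' = Ideal.span {w}) (h₁₂ : ¬ p ≤ p') (h₂₁ : ¬ p' ≤ p)
    (h₁ : p ≤ n) (hne : p ≠ n) (h₂ : ¬ p' ≤ n)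
    (u : F)
    (hdiv : ∀ V : ValuationSubring F, IsDiscreteValuationRing V →
      (∀ b : B, algebraMap B F b ∈ V) → (algebraMap B F w)⁻¹ ∈ V →
      ∃ h u₀ : F, u₀ ∈ V ∧ u₀⁻¹ ∈ V ∧ u = u₀ * h ^ m)
    (hs : ∃ c a b : B, IsUnit c ∧ b ∉ p ∧ a - c * b ∈ p ∧
      u * algebraMap B F b = algebraMap B F a) :
    ∃ d : F, d ≠ 0 ∧
      (∃ a b : B, a ∉ n ∧ b ∉ n ∧ u * d ^ m * algebraMap B F b = algebraMap B F a) ∧
      (∃ a b : B, a ∉ p ∧ b ∉ p ∧ d * algebraMap B F b = algebraMap B F a) ∧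
      (∃ a b : B, a ∉ p' ∧ b ∉ p' ∧ d * algebraMap B F b = algebraMap B F a) := by
  have hinj : Function.Injective (algebraMap B F) := IsFractionRing.injective B F
  obtain ⟨c, a, b, hc, hb, hab, hub⟩ := hs
  obtain ⟨hu'F, hu', hu'n⟩ := normalised_element (p := p) hm hc hb hab hub
  set u' : B := a * b ^ (m - 1) with hu'def
  have hbF : algebraMap B F b ≠ 0 := by
    intro h0
    apply hb
    rw [hinj (by rw [h0, map_zero] : algebraMap B F b = algebraMap B F 0)]
    exact p.zero_mem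
  have hw0 : w ≠ 0 := ne_zero_of_inf_eq_span p p' hinf h₁₂ h₂₁
  have hwF : algebraMap B F w ≠ 0 := fun h0 => hw0 (hinj (by rw [h0, map_zero]))
  -- the local ring
  obtain ⟨hP, hPw, hdvr⟩ :=
    Fermat.Agent.A2.H372.smooth_local_data (locAt F n) hinf h₁ hne h₂
  set U : locAt F n := algebraMap B (locAt F n) u' with hUdef
  have hUF : (U : F) = u * algebraMap B F b ^ m := hu'F
  have hU : U ∉ p.map (algebraMap B (locAt F n)) := fun h =>
    hu'n ((algebraMap_mem_map_iff h₁ u').1 h)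
  have hU0 : U ≠ 0 := by
    intro h0
    apply hU
    rw [h0]
    exact Ideal.zero_mem _
  have hπ0 : algebraMap B (locAt F n) w ≠ 0 := by
    intro h0
    apply hwF
    have : ((algebraMap B (locAt F n) w : locAt F n) : F) = 0 := by rw [h0]; rfl
    exact this
  -- (H1)
  have H1 : ∀ 𝔓 ∈ (Ideal.span {U}).minimalPrimes, algebraMap B (locAt F n) w ∉ 𝔓 →
      ∃ f r : locAt F n, r ∉ 𝔓 ∧ f ^ m = U * r := by
    intro 𝔓 h𝔓 hw𝔓
    refine exists_pow_eq_mul_of_divisible (K := F) hU0 hm h𝔓 ?_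
    intro V hV hle hinv
    obtain ⟨h, u₀, hu₀, hu₀', huh⟩ := hdiv V hV
      (fun b => hle (algebraMap B (locAt F n) b)) (hinv _ hw𝔓)
    refine ⟨h * algebraMap B F b, u₀, hu₀, hu₀', ?_⟩
    rw [algebraMap_locAt_apply, hUF, huh]
    ring
  -- (H2)
  have H2 := exists_associated_pow_mk (F := F) (p := p) (n := n) (m := m) hc hu'
  -- purity in the local ring
  obtain ⟨f, ε, hfε⟩ := exists_unit_mul_pow_of_smooth_min (R := locAt F n) hm hπ0
    (p.map (algebraMap B (locAt F n))) hPw hU H1 H2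
  have hf0 : f ≠ 0 := by
    rintro rfl
    rw [zero_pow hm, mul_zero] at hfε
    exact hU0 hfε
  have hfF : (f : F) ≠ 0 := fun h => hf0 (Subtype.ext h)
  have hf₁ : f ∉ p.map (algebraMap B (locAt F n)) := by
    intro h
    apply hU
    rw [hfε]
    exact Ideal.mul_mem_left _ _ (Ideal.pow_mem_of_mem _ h m (Nat.pos_of_ne_zero hm))
  have hfεF : u * algebraMap B F b ^ m = ((ε : locAt F n) : F) * (f : F) ^ m := by
    rw [← hUF, hfε]
    rfl
  -- the first approximation `d₀ = b / f`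
  set d₀ : F := algebraMap B F b / (f : F) with hd₀def
  have hd₀0 : d₀ ≠ 0 := div_ne_zero hbF hfF
  have hd₀n : UnitAt n (u * d₀ ^ m) := by
    obtain ⟨a', s', ha', hs', h'⟩ := exists_frac_of_isUnit_locAt (F := F) n ε.isUnit
    refine ⟨a', s', ha', hs', ?_⟩
    rw [← h', hd₀def, div_pow, ← mul_div_assoc, hfεF]
    field_simp
  have hd₀p : UnitAt p d₀ := by
    obtain ⟨φ, s, hφ, hs, h'⟩ := exists_frac_of_notMem_map (F := F) (p := p) (n := n) hf₁
    refine ⟨b * s, φ, ?_, hφ, ?_⟩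
    · intro h
      rcases Ideal.IsPrime.mem_or_mem inferInstance h with h3 | h3
      · exact hb h3
      · exact hs (h₁ h3)
    · rw [← h', map_mul, hd₀def]
      field_simp
  -- correction at the other component
  obtain ⟨g, hgn, ag, bg, hag, hbg, hg⟩ := exists_uniformizer_away p p' n hinf h₁₂ h₁ h₂
  have hgp : g ∉ p := fun h => hgn (h₁ h)
  have hgF : algebraMap B F g ≠ 0 := by
    intro h0
    apply hgn
    rw [hinj (by rw [h0, map_zero] : algebraMap B F g = algebraMap B F 0)]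
    exact n.zero_mem
  have hgw : UnitAt p' (algebraMap B F g / algebraMap B F w) := by
    refine ⟨ag, bg, hag, hbg, ?_⟩
    rw [div_mul_eq_mul_div, ← map_mul, hg, map_mul]
    field_simp
  obtain ⟨k₁, k₂, e, he, hek⟩ := exists_unitAt_decomp (F := F) p p' hinf h₁₂ d₀ hd₀0
  have hgnU : UnitAt n (algebraMap B F g) := UnitAt.algebraMap hgn
  have hgpU : UnitAt p (algebraMap B F g) := UnitAt.algebraMap hgp
  refine ⟨d₀ * (algebraMap B F g ^ k₂ * (algebraMap B F g ^ k₁)⁻¹),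
    mul_ne_zero hd₀0 (mul_ne_zero (pow_ne_zero _ hgF) (inv_ne_zero (pow_ne_zero _ hgF))), ?_, ?_, ?_⟩
  · have h3 : UnitAt n (u * d₀ ^ m *
        (algebraMap B F g ^ k₂ * (algebraMap B F g ^ k₁)⁻¹) ^ m) :=
      hd₀n.mul (((hgnU.pow k₂).mul (hgnU.pow k₁).inv).pow m)
    have h4 : u * (d₀ * (algebraMap B F g ^ k₂ * (algebraMap B F g ^ k₁)⁻¹)) ^ m =
        u * d₀ ^ m * (algebraMap B F g ^ k₂ * (algebraMap B F g ^ k₁)⁻¹) ^ m := by
      rw [mul_pow, mul_assoc]
    rw [← h4] at h3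
    exact h3
  · exact hd₀p.mul ((hgpU.pow k₂).mul (hgpU.pow k₁).inv)
  · have h3 : UnitAt p' (e * ((algebraMap B F g / algebraMap B F w) ^ k₂ *
        ((algebraMap B F g / algebraMap B F w) ^ k₁)⁻¹)) :=
      he.mul ((hgw.pow k₂).mul (hgw.pow k₁).inv)
    have h4 : d₀ * (algebraMap B F g ^ k₂ * (algebraMap B F g ^ k₁)⁻¹) =
        e * ((algebraMap B F g / algebraMap B F w) ^ k₂ *
          ((algebraMap B F g / algebraMap B F w) ^ k₁)⁻¹) :=
      mul_pow_inv_eq_of_mul_pow_eq hwF hgF k₁ k₂ hek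
    rw [← h4] at h3
    exact h3

end Fermat.Agent.A2.H609

end
-- ===== PACK-END A2/H609/ChartSmooth.lean

-- ===== PACK-BEGIN S29/H126/M3.lean
section
/-
S29 row, piece `M3` (helper126): the Galois action on `J₀(N)(ℚ̄)` is smooth — every class is fixed
by an open subgroup `Gal(ℚ̄/L)`, `L/ℚ` finite.

Route: every element of the function field `ℚ̄(X₀(N))` (a subfield of `ℚ̄((q))` generated by `ℚ̄` and
series with rational coefficients) is fixed by an open subgroup; a place `v` is determined, among the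
finitely many zeros of a function `t` with `v(t) > 0`, by finitely many functions separating it from
the other zeros; a divisor has finite support.
-/




set_option autoImplicit false

noncomputable section

namespace Fermat.Agent.S29.H126

open ModularCurve AlgebraicCurve IntermediateField
open Fermat.Agent.S24 Fermat.Agent.Lib.RR.H804

/-- A property of Galois elements which holds on an open subgroup `Gal(ℚ̄/L)`, `L/ℚ` finite. -/
def M3OpenFixed (P : GQ → Prop) : Prop :=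
  ∃ L : IntermediateField ℚ (AlgebraicClosure ℚ), FiniteDimensional ℚ L ∧
    ∀ σ : GQ, (∀ y ∈ L, σ y = y) → P σ

theorem M3OpenFixed.mono {P Q : GQ → Prop} (h : M3OpenFixed P) (hPQ : ∀ σ, P σ → Q σ) :
    M3OpenFixed Q := by
  obtain ⟨L, hL, hP⟩ := h
  exact ⟨L, hL, fun σ hσ => hPQ σ (hP σ hσ)⟩

theorem M3OpenFixed.of_forall {P : GQ → Prop} (h : ∀ σ, P σ) : M3OpenFixed P :=
  ⟨⊥, inferInstance, fun σ _ => h σ⟩

theorem M3OpenFixed.and {P Q : GQ → Prop} (hP : M3OpenFixed P) (hQ : M3OpenFixed Q) :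
    M3OpenFixed (fun σ => P σ ∧ Q σ) := by
  obtain ⟨L₁, hL₁, h₁⟩ := hP
  obtain ⟨L₂, hL₂, h₂⟩ := hQ
  refine ⟨L₁ ⊔ L₂, inferInstance,
    fun σ hσ => ⟨h₁ σ fun y hy => hσ y ?_, h₂ σ fun y hy => hσ y ?_⟩⟩
  · exact (le_sup_left : L₁ ≤ L₁ ⊔ L₂) hy
  · exact (le_sup_right : L₂ ≤ L₁ ⊔ L₂) hy

theorem M3OpenFixed.finset {ι : Type*} (s : Finset ι) {P : ι → GQ → Prop}
    (h : ∀ i ∈ s, M3OpenFixed (P i)) : M3OpenFixed (fun σ => ∀ i ∈ s, P i σ) := by
  classical
  induction s using Finset.induction_on with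
  | empty => exact .of_forall (fun σ i hi => absurd hi (Finset.notMem_empty i))
  | insert a s ha ih =>
    have h1 := h a (Finset.mem_insert_self a s)
    have h2 := ih (fun i hi => h i (Finset.mem_insert_of_mem hi))
    refine (h1.and h2).mono fun σ hσ i hi => ?_
    rcases Finset.mem_insert.mp hi with rfl | hi
    · exact hσ.1
    · exact hσ.2 i hi

/-- Every element of the base-changed field is fixed (coefficientwise) by an open subgroup. -/
theorem M3_coeffMap_openFixed (F₀ : IntermediateField ℚ (LaurentSeries ℚ))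
    {f : LaurentSeries (AlgebraicClosure ℚ)}
    (hf : f ∈ laurentBaseChange (AlgebraicClosure ℚ) F₀) :
    M3OpenFixed (fun σ => coeffMap (σ : AlgebraicClosure ℚ →+* AlgebraicClosure ℚ) f = f) := by
  rw [mem_laurentBaseChange_iff] at hf
  induction hf using Subfield.closure_induction with
  | mem y hy =>
      rcases hy with ⟨a, rfl⟩ | ⟨z, hz, rfl⟩
      · have ha : IsIntegral ℚ a := ((AlgebraicClosure.isAlgebraic ℚ).isAlgebraic a).isIntegral
        refine ⟨ℚ⟮a⟯, adjoin.finiteDimensional ha, fun σ hσ => ?_⟩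
        show coeffMap (σ : AlgebraicClosure ℚ →+* AlgebraicClosure ℚ) (algebraMap _ _ a) = _
        rw [coeffMap_algebraMap]
        exact congrArg _ (hσ a (mem_adjoin_simple_self ℚ a))
      · exact .of_forall fun σ => coeffMap_coeffEmb σ z
  | one => exact .of_forall fun σ => map_one _
  | add x y _ _ hx hy => exact (hx.and hy).mono fun σ h => by rw [map_add, h.1, h.2]
  | neg x _ hx => exact hx.mono fun σ h => by rw [map_neg, h]
  | inv x _ hx => exact hx.mono fun σ h => by rw [map_inv₀, h]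
  | mul x y _ _ hx hy => exact (hx.and hy).mono fun σ h => by rw [map_mul, h.1, h.2]

/-- Two distinct places are separated by a function. -/
theorem M3_exists_mem_not_mem {K F : Type*} [Field K] [Field F] [Algebra K F] {v w : Place K F}
    (h : w ≠ v) : ∃ g : F, g ∈ v.toValuationSubring ∧ g ∉ w.toValuationSubring := by
  by_contra hcon
  have hle : v.toValuationSubring ≤ w.toValuationSubring := fun g hg =>
    by_contra fun hgw => hcon ⟨g, hg, hgw⟩
  exact h (Place.ext (ValuationSubring.eq_of_le_of_ne_top _ hle w.ne_top').symm)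

variable (N : ℕ) [NeZero N]

omit [NeZero N] in
/-- Every function in `ℚ̄(X₀(N))` is fixed by an open subgroup. -/
theorem M3_elt_openFixed (f : FF N) :
    M3OpenFixed (fun σ => arithmeticGalois (modularFunctionFieldFull N) σ • f = f) :=
  (M3_coeffMap_openFixed _ f.2).mono fun σ h =>
    Subtype.ext (by rw [coe_arithmeticGalois_smul]; exact h)

/-- Every place of `ℚ̄(X₀(N))` is fixed by an open subgroup. -/
theorem M3_place_openFixed (v : Place Kbar (FF N)) :
    M3OpenFixed (fun σ => arithmeticGalois (modularFunctionFieldFull N) σ • v = v) := by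
  classical
  obtain ⟨x, hx⟩ : ∃ x : FF N, x ∉ v.toValuationSubring := by
    by_contra h
    exact v.ne_top' (eq_top_iff.mpr fun x _ => by_contra fun hx => h ⟨x, hx⟩)
  have hx0 : x ≠ 0 := fun h0 => hx (h0 ▸ zero_mem _)
  set t : FF N := x⁻¹ with ht
  have htpos : 0 < v.ord t := by
    have h1 : ¬ 0 ≤ v.ord x := mt (FF.mem_of_ord_nonneg v) hx
    rw [ht, v.ord_inv]
    omega
  have htK : t ∉ (algebraMap Kbar (FF N)).range := by
    rintro ⟨a, ha⟩
    rw [← ha, FF.ord_algebraMap] at htpos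
    exact lt_irrefl _ htpos
  have htr : Transcendental Kbar t := FF.transcendental_of_not_mem_range htK
  have := finiteDimensional_jF N
  have : FiniteDimensional Kbar⟮t⟯ (FF N) :=
    FF.finiteDimensional_adjoin_of_transcendental (transcendental_jF N) htr
  have hZ : {w : Place Kbar (FF N) | 0 < w.ord t}.Finite := FF.finite_setOf_ord_pos htr
  have hQ : ∀ w ∈ hZ.toFinset, M3OpenFixed
      (fun σ => arithmeticGalois (modularFunctionFieldFull N) σ • v = w → w = v) := by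
    intro w _
    by_cases hwv : w = v
    · exact .of_forall fun σ _ => hwv
    · obtain ⟨g, hgv, hgw⟩ := M3_exists_mem_not_mem hwv
      refine (M3_elt_openFixed N g).mono fun σ hσ hσv => ?_
      exfalso
      apply hgw
      rw [← hσv, SemilinearAut.smul_toValuationSubring, ← hσ]
      exact ValuationSubring.smul_mem_pointwise_smul _ g _ hgv
  refine ((M3_elt_openFixed N t).and (M3OpenFixed.finset _ hQ)).mono fun σ hσ => ?_
  obtain ⟨hσt, hσQ⟩ := hσ
  have hmem : arithmeticGalois (modularFunctionFieldFull N) σ • v ∈ hZ.toFinset := by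
    rw [Set.Finite.mem_toFinset]
    show 0 < (arithmeticGalois (modularFunctionFieldFull N) σ • v).ord t
    have := SemilinearAut.ord_smul (arithmeticGalois (modularFunctionFieldFull N) σ) v t
    rw [hσt] at this
    rw [this]
    exact htpos
  exact hσQ _ hmem rfl

/-- Every divisor of `ℚ̄(X₀(N))` is fixed by an open subgroup. -/
theorem M3_divisor_openFixed (D : Divisor Kbar (FF N)) :
    M3OpenFixed (fun σ => arithmeticGalois (modularFunctionFieldFull N) σ • D = D) := by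
  refine (M3OpenFixed.finset D.support (fun v _ => M3_place_openFixed N v)).mono fun σ hσ => ?_
  rw [SemilinearAut.divisor_smul_def]
  conv_rhs => rw [← Finsupp.mapDomain_id (v := D)]
  exact Finsupp.mapDomain_congr fun v hv => hσ v hv

/-- PIECE `M3`: the Galois action on `J₀(N)(ℚ̄)` is smooth. -/
theorem M3_jZero_smooth (x : JZero N) :
    ∃ L : IntermediateField ℚ (AlgebraicClosure ℚ), FiniteDimensional ℚ L ∧
      ∀ σ : GQ, (∀ y ∈ L, σ y = y) → σ • x = x := by
  obtain ⟨D, rfl⟩ := Pic0.mk_surjective x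
  refine (M3_divisor_openFixed N (D : Divisor Kbar (FF N))).mono fun σ hσ => ?_
  rw [galois_smul_pic0_def, SemilinearAut.pic0_smul_mk]
  exact congrArg Pic0.mk (Subtype.ext (by rw [SemilinearAut.coe_degZeroSMulHom]; exact hσ))

end Fermat.Agent.S29.H126

end
end
-- ===== PACK-END S29/H126/M3.lean

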