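import Mathlib
import Fermat.Prelude.Thm_CongruenceSubgroup_one_mem_strictPeriods_Gamma0
import Fermat.Agent.Pack.S44.G0E16L2
import Fermat.Agent.Pack.S44.G0E25L0
import Fermat.Agent.Pack.S44.G0E6L3
import Fermat.Agent.Pack.S44.G0E20L1
import Fermat.Agent.Pack.S44.G0E23L1
import Fermat.Agent.Pack.S44.G0E20L0
import Fermat.Agent.Pack.S44.G0E25L2
import Fermat.Agent.Pack.S44.G0E24L1
import Fermat.Agent.Pack.S44.G0E25L3
import Fermat.Agent.Pack.S44.G0E8L0
import Fermat.Agent.Pack.S44.G0E22L2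
import Fermat.Agent.Pack.S44.G0E24L2
import Fermat.Agent.Pack.S44.G0E19L1
import Fermat.Agent.Pack.S44.G0E0L1
import Fermat.Agent.Pack.S44.G0E3L0
import Fermat.Agent.Pack.S44.G0E7L1
import Fermat.Agent.Pack.S44.G0E3L1
import Fermat.Agent.Pack.S44.G0E24L3
import Fermat.Agent.Pack.S44.G0E12L1
import Fermat.Agent.Pack.S44.G0E25L1
import Fermat.Agent.Pack.S44.G0E15L1
import Fermat.Agent.Pack.S44.G0E21L1
import Fermat.Agent.Pack.S44.G0E9L2
import Fermat.Agent.Pack.S44.G0E15L0
import Fermat.Agent.Pack.S44.G0E9L3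
import Fermat.Agent.Pack.S44.G0E17L0
import Fermat.Agent.Pack.S44.G0E23L0
import Fermat.Agent.Pack.S44.G0E20L2
import Fermat.Agent.Pack.S44.G0E19L3
import Fermat.Agent.Pack.S44.G0E21L0
import Fermat.Agent.Pack.S44.G0E23L3

-- ===== PACK-BEGIN Ribet/H801/DegAlpha.lean
section
/-
RIBET / W-DEG (helper801), part 2: the degeneracy push-forwards

    alphaPush M p, betaPush M p : J₀(M p)(ℚ̄) →+ J₀(M)(ℚ̄)

(`α_*`, `β_*` along the Prelude maps `heckeAlphaBar`, `heckeBetaBar : F_M → F_{Mp}`), their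
Galois-equivariance, and the Hecke-equivariance of `α_*`:

    α_* ∘ T_ℓ^{(Mp)} = T_ℓ^{(M)} ∘ α_*     for all primes `ℓ ≠ p`.
-/







set_option autoImplicit false
set_option linter.style.haveILetI false

noncomputable section

namespace Fermat.Agent.Ribet.H801

open AlgebraicCurve ModularCurve Fermat.Agent.S37.H818 Fermat.Agent.S29.H801
open Fermat.Agent.Lib.HI

section Defs

variable (M p : ℕ) [NeZero M] [NeZero p]

/-- `α_* : J₀(Mp) → J₀(M)`, push-forward along the inclusion `F_M ⊆ F_{Mp}`. -/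
def alphaPush : JZero (M * p) →+ JZero M :=
  pushPic0 (heckeAlphaBar (AlgebraicClosure ℚ) M p) (H864.heckeAlphaBarIntegral M p)
    (H864.finiteAlong_alpha M p) (H864.normFormulaAlong_alpha M p _)

/-- `β_* : J₀(Mp) → J₀(M)`, push-forward along `V_p : F_M → F_{Mp}`, `f(q) ↦ f(q^p)`. -/
def betaPush : JZero (M * p) →+ JZero M :=
  pushPic0 (heckeBetaBar (AlgebraicClosure ℚ) M p) (H864.heckeBetaBarIntegral M p)
    (H864.finiteAlong_beta M p) (H864.normFormulaAlong_beta M p _)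

theorem alphaPush_mk (D : Divisor.degZero (K := AlgebraicClosure ℚ)
    (F := laurentBaseChange (AlgebraicClosure ℚ) (modularFunctionFieldFull (M * p)))) :
    alphaPush M p (Pic0.mk D) =
      Pic0.mk (pushDegZero (heckeAlphaBar (AlgebraicClosure ℚ) M p)
        (H864.heckeAlphaBarIntegral M p) D) :=
  rfl

theorem betaPush_mk (D : Divisor.degZero (K := AlgebraicClosure ℚ)
    (F := laurentBaseChange (AlgebraicClosure ℚ) (modularFunctionFieldFull (M * p)))) :
    betaPush M p (Pic0.mk D) =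
      Pic0.mk (pushDegZero (heckeBetaBar (AlgebraicClosure ℚ) M p)
        (H864.heckeBetaBarIntegral M p) D) :=
  rfl

/-- `α_*` is Galois-equivariant. -/
theorem alphaPush_smul (σ : AlgebraicClosure ℚ ≃ₐ[ℚ] AlgebraicClosure ℚ) (x : JZero (M * p)) :
    alphaPush M p (σ • x) = σ • alphaPush M p x := by
  rw [galois_smul_pic0_def, galois_smul_pic0_def]
  exact pushPic0_smul _ _ _ _ (Fermat.Agent.S29.H571.intertwines_heckeAlphaBar M p σ) x

/-- `β_*` is Galois-equivariant. -/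
theorem betaPush_smul (σ : AlgebraicClosure ℚ ≃ₐ[ℚ] AlgebraicClosure ℚ) (x : JZero (M * p)) :
    betaPush M p (σ • x) = σ • betaPush M p x := by
  rw [galois_smul_pic0_def, galois_smul_pic0_def]
  exact pushPic0_smul _ _ _ _ (Fermat.Agent.S29.H571.intertwines_heckeBetaBar M p σ) x

end Defs

section Hecke

variable (M p ℓ : ℕ) [NeZero M] [NeZero p] [NeZero ℓ]

/-- `normCompat_bar` with the top level renamed. -/
theorem normCompat_bar_to (M' : ℕ) [NeZero M'] (hℓ : ℓ.Prime) (hp : p.Prime) (hne : ℓ ≠ p)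
    (h₁ : M * ℓ * p = M') (h₂ : M * p * ℓ = M') :
    NormCompat (heckeAlphaBar (AlgebraicClosure ℚ) M p) (heckeBetaBar (AlgebraicClosure ℚ) M ℓ)
      (alphaTo (AlgebraicClosure ℚ) (M * ℓ) p M' h₁)
      (betaTo (AlgebraicClosure ℚ) (M * p) ℓ M' h₂) := by
  subst h₁
  exact normCompat_bar M ℓ p hℓ hp hne

/-- **`α_*` is Hecke-equivariant** (operator form, any prime `ℓ ≠ p`). -/
theorem alphaPush_heckeOperatorAlong (hℓ : ℓ.Prime) (hp : p.Prime) (hne : ℓ ≠ p)
    (x : JZero (M * p)) :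
    alphaPush M p (heckeOperatorAlong (AlgebraicClosure ℚ) (M * p) ℓ x) =
      heckeOperatorAlong (AlgebraicClosure ℚ) M ℓ (alphaPush M p x) := by
  haveI hP₁ : HasPrincipalDivisors (AlgebraicClosure ℚ)
      (laurentBaseChange (AlgebraicClosure ℚ) (modularFunctionFieldFull (M * p))) :=
    H864.hasPrincipalDivisors_FF (M * p)
  haveI hP₂ : HasPrincipalDivisors (AlgebraicClosure ℚ)
      (laurentBaseChange (AlgebraicClosure ℚ) (modularFunctionFieldFull (M * ℓ))) :=
    H864.hasPrincipalDivisors_FF (M * ℓ)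
  haveI hP₃ : HasPrincipalDivisors (AlgebraicClosure ℚ)
      (laurentBaseChange (AlgebraicClosure ℚ) (modularFunctionFieldFull (M * p * ℓ))) :=
    H864.hasPrincipalDivisors_FF (M * p * ℓ)
  have hc : M * ℓ * p = M * p * ℓ := Nat.mul_right_comm M ℓ p
  rw [heckeOperatorAlong_eq (H864.heckeAlphaBarIntegral (M * p) ℓ)
      (H864.heckeBetaBarIntegral (M * p) ℓ) (H864.fundamentalIdentityAlong_beta (M * p) ℓ _)
      (H864.finiteAlong_alpha (M * p) ℓ) (H864.normFormulaAlong_alpha (M * p) ℓ _),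
    heckeOperatorAlong_eq (H864.heckeAlphaBarIntegral M ℓ)
      (H864.heckeBetaBarIntegral M ℓ) (H864.fundamentalIdentityAlong_beta M ℓ _)
      (H864.finiteAlong_alpha M ℓ) (H864.normFormulaAlong_alpha M ℓ _)]
  exact pushPic0_correspondence
    (heckeAlphaBar (AlgebraicClosure ℚ) M p)
    (heckeBetaBar (AlgebraicClosure ℚ) M ℓ) (heckeAlphaBar (AlgebraicClosure ℚ) M ℓ)
    (heckeBetaBar (AlgebraicClosure ℚ) (M * p) ℓ) (heckeAlphaBar (AlgebraicClosure ℚ) (M * p) ℓ)
    (alphaTo (AlgebraicClosure ℚ) (M * ℓ) p (M * p * ℓ) hc)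
    (H864.heckeAlphaBarIntegral M p) (H864.heckeBetaBarIntegral M ℓ)
    (H864.heckeAlphaBarIntegral M ℓ) (H864.heckeBetaBarIntegral (M * p) ℓ)
    (H864.heckeAlphaBarIntegral (M * p) ℓ)
    (alphaTo_integral (AlgebraicClosure ℚ) hc (H864.heckeAlphaBarIntegral (M * ℓ) p))
    (rel_sq₂ M p ℓ) (rel_AA M p ℓ)
    (H864.fundamentalIdentityAlong_beta M ℓ _) (H864.fundamentalIdentityAlong_beta (M * p) ℓ _)
    (H864.finiteAlong_alpha M ℓ) (H864.normFormulaAlong_alpha M ℓ _)
    (H864.finiteAlong_alpha (M * p) ℓ) (H864.normFormulaAlong_alpha (M * p) ℓ _)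
    (H864.finiteAlong_alpha M p) (H864.normFormulaAlong_alpha M p _)
    (alphaTo_finite (AlgebraicClosure ℚ) hc (H864.finiteAlong_alpha (M * ℓ) p))
    (alphaTo_normFormula (AlgebraicClosure ℚ) hc (H864.finiteAlong_alpha (M * ℓ) p)
      (H864.normFormulaAlong_alpha (M * ℓ) p _))
    (normCompat_bar_to M p ℓ (M * p * ℓ) hℓ hp hne hc rfl)
    (hasLocalGenerators_of_hasPrincipalDivisors _ _) x

end Hecke

section Bar

variable (M p : ℕ) [NeZero M] [NeZero p]

/-- **`α_*` is Hecke-equivariant**: `α_* (T_ℓ x) = T_ℓ (α_* x)` for every prime `ℓ ≠ p`. -/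
theorem alphaPush_heckeOperatorBar (hp : p.Prime) (ℓ : Nat.Primes) (hne : (ℓ : ℕ) ≠ p)
    (x : JZero (M * p)) :
    alphaPush M p (heckeOperatorBar (M * p) ℓ x) = heckeOperatorBar M ℓ (alphaPush M p x) := by
  haveI : NeZero (ℓ : ℕ) := ⟨ℓ.2.ne_zero⟩
  rw [heckeOperatorBar_apply, heckeOperatorBar_apply]
  exact alphaPush_heckeOperatorAlong M p (ℓ : ℕ) ℓ.2 hp hne x

end Bar

end Fermat.Agent.Ribet.H801

end

end
-- ===== PACK-END Ribet/H801/DegAlpha.lean

-- ===== PACK-BEGIN S18/H694/CoreFamilyOfNodes.lean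
section





/-!
# S18 / helper694 — the hub for ALL `m` from the two open nodes (`node_mod`, `node_alg`)

The S18 skeleton (interfaces v4) produces the hub `CoreStatement N A p` only for PRIME `p ≠ ℓ`.
Row S29 (`S29/H222/ESKFamily.lean`, `CoreFamily`; `esStatement_of_core`) needs it for all `m`
prime to `ℓ`.  This file wires the closed nodes on main (`H333.node_coord`, `H965.node_glue`,
`H568.node_d2`) with `H694.coreStatement_of_prime`:

* `coreStatement_of_nodes` : `CoreStatement N A m` for all `m` with `ℓ ∤ m`, from `node_mod` at the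
  level `M = levelM N ℓ` and `node_alg`;
* `coreFamily_of_nodes` : the exact body of `S29.H222.CoreFamily` from the two node statements
  (in the exact shapes of `Integ/Skeleton.lean`).

When `node_mod` and `node_alg` are on main, `CoreFamily` is `coreFamily_of_nodes node_mod node_alg`.
-/

set_option autoImplicit false

noncomputable section

namespace Fermat.Agent.S18.H694

open ModularCurve AlgebraicCurve

/-- The level at which good reduction is proved (same as `Integ.levelM` of the skeleton). -/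
def levelAux (N ℓ : ℕ) : ℕ := if ℓ = 3 then Nat.lcm N 2 else if ℓ = 2 then Nat.lcm N 3 else N

theorem levelAux_ne_zero (N ℓ : ℕ) [NeZero N] : levelAux N ℓ ≠ 0 := by
  unfold levelAux
  split_ifs <;> simp [NeZero.ne N]

theorem not_dvd_levelAux (N : ℕ) {ℓ : ℕ} [Fact ℓ.Prime] (hℓN : ¬ ℓ ∣ N) :
    ¬ ℓ ∣ levelAux N ℓ := by
  unfold levelAux
  split_ifs with h3 h2
  · subst h3
    intro h
    have := (Nat.Prime.dvd_mul (by norm_num : Nat.Prime 3)).mp (h.trans (Nat.lcm_dvd_mul N 2))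
    rcases this with h | h
    · exact hℓN h
    · omega
  · subst h2
    intro h
    have := (Nat.Prime.dvd_mul (by norm_num : Nat.Prime 2)).mp (h.trans (Nat.lcm_dvd_mul N 3))
    rcases this with h | h
    · exact hℓN h
    · omega
  · exact hℓN

/-- The hub at level `N` for all `m` prime to `ℓ`, from `node_mod` at level `levelAux N ℓ` and
`node_alg`. -/
theorem coreStatement_of_nodes (N : ℕ) [NeZero N] {ℓ : ℕ} [Fact ℓ.Prime] (hℓN : ¬ ℓ ∣ N)
    (A : ValuationSubring Qb) (hA : A.LiesOverPrime ℓ)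
    (hmod : Mod.GoodModelStatement (levelAux N ℓ) ℓ A)
    (halg : Mod.AlgStatement (levelAux N ℓ)) :
    ∀ m : ℕ, ¬ ℓ ∣ m → CoreStatement N A m := by
  have : NeZero (levelAux N ℓ) := ⟨levelAux_ne_zero N ℓ⟩
  have hℓM := not_dvd_levelAux N hℓN
  have h3 : ℓ = 3 → 2 ∣ levelAux N ℓ := fun h => by
    unfold levelAux; rw [if_pos h]; exact Nat.dvd_lcm_right N 2
  have h2 : ℓ = 2 → 3 ∣ levelAux N ℓ := fun h => by
    unfold levelAux
    rw [if_neg (by omega), if_pos h]; exact Nat.dvd_lcm_right N 3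
  refine coreStatement_of_prime hℓN hA (fun p hp hℓp => ?_)
  have hcoreM : CoreStatement (levelAux N ℓ) A p :=
    H965.node_glue (levelAux N ℓ) hℓM A hA p hp hℓp
      (H333.node_coord (levelAux N ℓ) hℓM h3 h2) hmod halg
  exact H568.node_d2 N hℓN A hA p hℓp hcoreM

/-- **The S18 hub family needed by row S29** (exact body of `Fermat.Agent.S29.H222.CoreFamily`),
from the two open nodes of the S18 skeleton in their exact shapes. -/
theorem coreFamily_of_nodes
    (node_mod : ∀ (M : ℕ) [NeZero M] {ℓ : ℕ} [Fact ℓ.Prime], ¬ ℓ ∣ M →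
      ∀ A : ValuationSubring Qb, A.LiesOverPrime ℓ → Mod.GoodModelStatement M ℓ A)
    (node_alg : ∀ M : ℕ, Mod.AlgStatement M) :
    ∀ (N : ℕ) [NeZero N] (ℓ : ℕ), ℓ.Prime → ¬ ℓ ∣ N → ∀ m : ℕ, ¬ ℓ ∣ m →
      ∀ A : ValuationSubring Qb, A.LiesOverPrime ℓ → CoreStatement N A m := by
  intro N _ ℓ hℓ hℓN m hm A hA
  have : Fact ℓ.Prime := ⟨hℓ⟩
  have : NeZero (levelAux N ℓ) := ⟨levelAux_ne_zero N ℓ⟩
  exact coreStatement_of_nodes N hℓN A hA
    (node_mod (levelAux N ℓ) (not_dvd_levelAux N hℓN) A hA) (node_alg (levelAux N ℓ)) m hm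

end Fermat.Agent.S18.H694

end
end
-- ===== PACK-END S18/H694/CoreFamilyOfNodes.lean

-- ===== PACK-BEGIN S30/H450/KumCompat.lean
section
/-
S30 (p-adic version), helper450: the Kummer relation of S29 sub-layer M4b (`M4b.IsKum`, frozen
definitions of helper822, general modulus) is compatible with change of modulus.

* `isKum_red`  : REDUCTION.  `IsKum N (m * d) c x → IsKum N m (c mod m) (d • x)`
  (data `(f, t, U) ↦ (f, t ^ d, U ^ d)`).
* `isKum_infl` : INFLATION.  `IsKum N m c x → IsKum N (m * d) (d * c) x`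
  (data `(f, t, U) ↦ (f ^ d, t, U)`).

Everything here is formal: no analysis beyond `ζ_{md} ^ d = ζ_m`.
-/


set_option autoImplicit false

noncomputable section

open ModularCurve AlgebraicCurve CongruenceSubgroup UpperHalfPlane
open scoped MatrixGroups Manifold

namespace Fermat.Agent.S30.H450

open Fermat.Agent.S24 Fermat.Agent.S29 Fermat.Agent.S29.M4b

/-! ### Roots of unity -/

theorem zetaP_pow_self (m : ℕ) (hm : m ≠ 0) : zetaP m ^ m = 1 := by
  unfold zetaP
  rw [← Complex.exp_nat_mul]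
  have hm' : (m : ℂ) ≠ 0 := by exact_mod_cast hm
  have : (m : ℂ) * (2 * Real.pi * Complex.I / m) = 2 * Real.pi * Complex.I := by
    field_simp
  rw [this, Complex.exp_two_pi_mul_I]

theorem zetaP_mul_pow (m d : ℕ) (hd : d ≠ 0) : zetaP (m * d) ^ d = zetaP m := by
  unfold zetaP
  rw [← Complex.exp_nat_mul]
  congr 1
  have hd' : (d : ℂ) ≠ 0 := by exact_mod_cast hd
  by_cases hm : m = 0
  · subst hm
    simp
  have hm' : (m : ℂ) ≠ 0 := by exact_mod_cast hm
  push_cast
  field_simp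

theorem zetaP_pow_mod (m : ℕ) (hm : m ≠ 0) (a : ℕ) : zetaP m ^ (a % m) = zetaP m ^ a := by
  conv_rhs => rw [← Nat.mod_add_div a m]
  rw [pow_add, pow_mul, zetaP_pow_self m hm, one_pow, mul_one]

/-! ### Reduction and inflation of characters -/

/-- Reduction of a character modulo a divisor of the modulus. -/
def redChar {N m m' : ℕ} (h : m ∣ m') (c : G0 N → ZMod m') : G0 N → ZMod m :=
  fun γ => ZMod.castHom h (ZMod m) (c γ)

/-- Inflation of a character: `ZMod m → ZMod (m * d)`, `a ↦ d * a` (on representatives). -/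
def inflChar {N : ℕ} (m d : ℕ) (c : G0 N → ZMod m) : G0 N → ZMod (m * d) :=
  fun γ => ((d * (c γ).val : ℕ) : ZMod (m * d))

theorem isParHom_redChar {N m m' : ℕ} (h : m ∣ m') {c : G0 N → ZMod m'} (hc : IsParHom c) :
    IsParHom (redChar h c) where
  map_mul γ γ' := by
    simp only [redChar, hc.map_mul, map_add]
  parabolic γ hγ := by
    simp only [redChar, hc.parabolic γ hγ, map_zero]
  elliptic γ n hn hγ := by
    simp only [redChar, hc.elliptic γ n hn hγ, map_zero]

theorem redChar_add {N m m' : ℕ} (h : m ∣ m') (c c' : G0 N → ZMod m') :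
    redChar h (c + c') = redChar h c + redChar h c' := by
  funext γ
  simp only [redChar, Pi.add_apply, map_add]

theorem val_redChar {N m m' : ℕ} [NeZero m'] (h : m ∣ m') (c : G0 N → ZMod m') (γ : G0 N) :
    (redChar h c γ).val = (c γ).val % m := by
  unfold redChar
  have h1 : ZMod.castHom h (ZMod m) (c γ) = (((c γ).val : ℕ) : ZMod m) := by
    conv_lhs => rw [← ZMod.natCast_zmod_val (c γ)]
    rw [map_natCast]
  rw [h1, ZMod.val_natCast]

/-! ### Kummer classes under change of modulus (Prelude language) -/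

section Alg

variable {K F : Type*} [Field K] [Field F] [Algebra K F]

theorem isKummerClass_red {m d : ℕ} {f : F} {x : Pic0 K F}
    (h : H455.IsKummerClass ((m * d : ℕ) : ℤ) f x) :
    H455.IsKummerClass (m : ℤ) f (d • x) := by
  obtain ⟨hf, D, rfl, hD⟩ := h
  refine ⟨hf, d • D, rfl, fun v => ?_⟩
  rw [← hD v]
  simp only [AddSubmonoidClass.coe_nsmul, Finsupp.smul_apply, nsmul_eq_mul]
  push_cast
  ring

theorem isKummerClass_infl {m d : ℕ} {f : F} {x : Pic0 K F}
    (h : H455.IsKummerClass (m : ℤ) f x) :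
    H455.IsKummerClass ((m * d : ℕ) : ℤ) (f ^ d) x := by
  obtain ⟨hf, D, rfl, hD⟩ := h
  refine ⟨pow_ne_zero d hf, D, rfl, fun v => ?_⟩
  rw [← zpow_natCast, Place.ord_zpow, ← hD v]
  push_cast
  ring

end Alg

/-! ### The analytic part -/

section An

variable {N : ℕ}

theorem isTwisted_red {m d : ℕ} [NeZero m] [NeZero d] {c : G0 N → ZMod (m * d)} {U : ℍ → ℂ}
    (hU : IsTwisted N (m * d) c U) :
    IsTwisted N m (redChar (Dvd.intro d rfl) c) (fun τ => U τ ^ d) where
  mdiff := hU.mdiff.pow d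
  ne_zero := by
    obtain ⟨τ, hτ⟩ := hU.ne_zero
    exact ⟨τ, pow_ne_zero d hτ⟩
  hasChar := by
    intro γ τ
    have : NeZero (m * d) := ⟨Nat.mul_ne_zero (NeZero.ne m) (NeZero.ne d)⟩
    beta_reduce
    rw [hU.hasChar γ τ, mul_pow, ← pow_mul, mul_comm (c γ).val d, pow_mul,
      zetaP_mul_pow m d (NeZero.ne d), val_redChar, zetaP_pow_mod m (NeZero.ne m)]
  pow_mem := by
    have h := hU.pow_mem
    have e : (fun τ => (U τ ^ d) ^ m) = fun τ => U τ ^ (m * d) := by
      funext τ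
      rw [← pow_mul, mul_comm]
    rw [e]
    exact h

variable [NeZero N]

theorem realises_red {m d : ℕ} {f t : FF N} {U : ℍ → ℂ}
    (h : Realises N (f * t ^ (m * d)) (fun τ => U τ ^ (m * d))) :
    Realises N (f * (t ^ d) ^ m) (fun τ => (U τ ^ d) ^ m) := by
  have e : (fun τ => (U τ ^ d) ^ m) = fun τ => U τ ^ (m * d) := by
    funext τ
    rw [← pow_mul, mul_comm]
  have e' : f * (t ^ d) ^ m = f * t ^ (m * d) := by
    rw [← pow_mul, mul_comm d m]
  rw [e, e']
  exact h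

/-- **REDUCTION.**  If `x` is the Kummer class of `c` for the modulus `m * d`, then `d • x` is the
Kummer class of `c mod m` for the modulus `m`. -/
theorem isKum_red {m d : ℕ} [NeZero m] [NeZero d] {c : G0 N → ZMod (m * d)} {x : JZero N}
    (h : IsKum N (m * d) c x) :
    IsKum N m (redChar (Dvd.intro d rfl) c) (d • x) := by
  obtain ⟨f, t, U, ht, hx, hU, hR⟩ := h
  exact ⟨f, t ^ d, fun τ => U τ ^ d, pow_ne_zero d ht, isKummerClass_red hx, isTwisted_red hU,
    realises_red hR⟩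

/-- Variant of `isKum_red` with a propositional equality of moduli (e.g. `p ^ (n+1) = p ^ n * p`). -/
theorem isKum_red' {m m' d : ℕ} [NeZero m] [NeZero d] (hm : m' = m * d) (hdvd : m ∣ m')
    {c : G0 N → ZMod m'} {x : JZero N} (h : IsKum N m' c x) :
    IsKum N m (redChar hdvd c) (d • x) := by
  subst hm
  exact isKum_red h

theorem realises_pow {u : FF N} {G : ℍ → ℂ} (h : Realises N u G) (d : ℕ) :
    Realises N (u ^ d) (fun τ => G τ ^ d) := by
  obtain ⟨h1, h2⟩ := h
  have hq : H708.HasQExp 1 G (coeffMap Deg457.iotaC ((u : FF N) : LaurentSeries Kbar)) :=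
    h2 ▸ H882.hasQExp_of_mem_goodRing h1
  have hG : (fun τ => G τ ^ d) = G ^ d := rfl
  refine ⟨hG ▸ (H648.goodRing N).pow_mem h1 d, ?_⟩
  rw [hG, (hq.pow d).qexpFun_eq]
  rw [IntermediateField.coe_pow, map_pow]

omit [NeZero N] in
theorem zetaP_pow_val_inflChar {m d : ℕ} [NeZero m] [NeZero d] (c : G0 N → ZMod m) (γ : G0 N) :
    zetaP (m * d) ^ (inflChar m d c γ).val = zetaP m ^ (c γ).val := by
  have hmd : m * d ≠ 0 := Nat.mul_ne_zero (NeZero.ne m) (NeZero.ne d)
  have : NeZero (m * d) := ⟨hmd⟩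
  unfold inflChar
  rw [ZMod.val_natCast, zetaP_pow_mod (m * d) hmd, pow_mul, zetaP_mul_pow m d (NeZero.ne d)]

/-- **INFLATION.**  If `x` is the Kummer class of `c` for the modulus `m`, then `x` is the Kummer
class of `d * c` for the modulus `m * d`. -/
theorem isKum_infl {m d : ℕ} [NeZero m] [NeZero d] {c : G0 N → ZMod m} {x : JZero N}
    (h : IsKum N m c x) : IsKum N (m * d) (inflChar m d c) x := by
  obtain ⟨f, t, U, ht, hx, hU, hR⟩ := h
  have e : (fun τ => U τ ^ (m * d)) = fun τ => (U τ ^ m) ^ d := by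
    funext τ
    rw [pow_mul]
  refine ⟨f ^ d, t, U, ht, isKummerClass_infl hx, ⟨hU.mdiff, hU.ne_zero, fun γ τ => ?_, ?_⟩, ?_⟩
  · rw [zetaP_pow_val_inflChar]
    exact hU.hasChar γ τ
  · rw [e]
    exact (realises_pow hR d).1
  · have e' : f ^ d * t ^ (m * d) = (f * t ^ m) ^ d := by
      rw [mul_pow, pow_mul]
    rw [e, e']
    exact realises_pow hR d

end An

end Fermat.Agent.S30.H450

end
end
-- ===== PACK-END S30/H450/KumCompat.lean

-- ===== PACK-BEGIN Ribet/H584/IncAnQExp.lean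
section
/-
RIBET row 38, WALL-p, I3 leaf INC-AN (analytic half), piece QEXP — helper584.

For a cusp form `f` of weight 2 on `Γ₀(M)` with `q`-expansion `G = ∑ cₙ qⁿ`, `cₙ ∈ ℤ`:
the good functions `H₁ = f E₄ E₆/Δ`, `H₂ = f² E₄²/Δ`, `H₃ = f³ E₆³/Δ²` are realised by elements
`h₁, h₂, h₃` of the function field `FF M = ℚ̄(X₀(M))`, with
  `h₁ · θ(j) = - G · j · (j - 1728)`,  `h₁² = h₂ (j - 1728)`,  `h₁³ = h₃ j`.
Hence `u₀ := G / θ(j) = - h₁ / (j (j - 1728)) ∈ FF M` : `G dq/q = u₀ dj`.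
-/









set_option autoImplicit false
set_option linter.unusedSectionVars false

noncomputable section

open UpperHalfPlane ModularForm EisensteinSeries CongruenceSubgroup Filter ModularCurve
  ModularFormClass Derivative
open scoped MatrixGroups Manifold Real Modular

namespace Fermat.Agent.Ribet.H584

open Fermat.Agent.S24 Fermat.Agent.S24.H648 Fermat.Agent.S24.H708 Fermat.Agent.S24.Deg457
open Fermat.Agent.S29 Fermat.Agent.S29.H882 Fermat.Agent.S29.M4b

local notation "Δ" => ModularForm.discriminant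

variable {M : ℕ} [NeZero M]

/-! ### `q`-expansions over `ℂ` -/

/-- The `q`-expansion of a cusp form, in the `HasQExp` language. -/
theorem hasQExp_cusp (f : CuspForm (Gamma0 M) 2) :
    HasQExp 1 f (HahnSeries.ofPowerSeries ℤ ℂ (qExpansion 1 f)) := by
  have hper : Function.Periodic ((f : ℍ → ℂ) ∘ ofComplex) ((1 : ℕ) : ℝ) := by
    have := SlashInvariantFormClass.periodic_comp_ofComplex f
      (CongruenceSubgroup.one_mem_strictPeriods_Gamma0 M)
    simpa using this
  have : Fact (IsCusp OnePoint.infty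
      (Subgroup.map (Matrix.SpecialLinearGroup.mapGL ℝ) (Gamma0 M))) :=
    ⟨Subgroup.isCusp_of_mem_strictPeriods one_pos
      (CongruenceSubgroup.one_mem_strictPeriods_Gamma0 M)⟩
  have hhol : IsHolInf 1 (f : ℍ → ℂ) :=
    ⟨CuspFormClass.holo f, hper, ModularFormClass.bdd_at_infty f⟩
  refine ⟨IsMerInf.of_isHolInf hhol, ?_⟩
  rw [qexpFun_of_isHolInf hhol]
  simp

theorem jFun_eq_L1 : JFun.jFun = Fermat.Agent.S20.L1.jFun := rfl

/-- `q`-expansion of `D j`. -/
theorem hasQExp_D_jFun : HasQExp 1 (D JFun.jFun) (thetaL (JK ℂ)) :=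
  hasQExp_D hasQExp_jFun

omit [NeZero M] in
theorem H1_mul_D_jFun (f : ℍ → ℂ) (τ : ℍ) :
    H1 f τ * D JFun.jFun τ = -(f τ * JFun.jFun τ * (JFun.jFun τ - 1728)) := by
  rw [jFun_eq_L1, Fermat.Agent.S20.L1.D_jFun, ← jFun_eq_L1, JFun.jFun_sub_1728, JFun.jFun_def, H1]
  have := discriminant_ne_zero τ
  field_simp

omit [NeZero M] in
theorem thetaL_JK_ne_zero (K : Type*) [Field K] [Algebra ℚ K] : thetaL (JK K) ≠ 0 := by
  intro h
  have h1 := congrArg (fun x : LaurentSeries K => x.coeff (-1)) h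
  simp only [thetaL_coeff, HahnSeries.coeff_zero, JK_eq, coeff_jqModC_neg_one] at h1
  simp at h1


/-! ### The `q`-series -/

section Series

variable (K : Type*) [Field K] [Algebra ℚ K]

/-- `G = ∑ cₙ qⁿ` over a field `K`. -/
def Gser (c : ℕ → ℤ) : LaurentSeries K :=
  HahnSeries.ofPowerSeries ℤ K (PowerSeries.mk fun n => (c n : K))

/-- The candidate `h₁ = - G j (j - 1728) / θ j`. -/
def h1ser (c : ℕ → ℤ) : LaurentSeries K :=
  -(Gser K c * JK K * (JK K - 1728)) / thetaL (JK K)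

/-- The candidate `h₂ = h₁² / (j - 1728)`. -/
def h2ser (c : ℕ → ℤ) : LaurentSeries K := h1ser K c ^ 2 / (JK K - 1728)

/-- The candidate `h₃ = h₁³ / j`. -/
def h3ser (c : ℕ → ℤ) : LaurentSeries K := h1ser K c ^ 3 / JK K

/-- The candidate `u₀ = G / θ j`. -/
def u0ser (c : ℕ → ℤ) : LaurentSeries K := Gser K c / thetaL (JK K)

theorem JK_ne_zero : JK K ≠ 0 := by
  intro h
  have h1 := congrArg (fun x : LaurentSeries K => x.coeff (-1)) h
  simp only [HahnSeries.coeff_zero, JK_eq, coeff_jqModC_neg_one] at h1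
  exact one_ne_zero h1

theorem coeff_ofNat_neg_one (n : ℕ) [n.AtLeastTwo] :
    (OfNat.ofNat n : LaurentSeries K).coeff (-1) = 0 := by
  have : (OfNat.ofNat n : LaurentSeries K) = HahnSeries.C (OfNat.ofNat n : K) := by
    rw [map_ofNat]
  rw [this]
  show (HahnSeries.single (0 : ℤ) (OfNat.ofNat n : K)).coeff (-1) = 0
  exact HahnSeries.coeff_single_of_ne (by norm_num)

theorem JK_sub_ne_zero : JK K - 1728 ≠ 0 := by
  intro h
  have h1 := congrArg (fun x : LaurentSeries K => x.coeff (-1)) h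
  simp only [HahnSeries.coeff_zero, HahnSeries.coeff_sub, JK_eq, coeff_jqModC_neg_one] at h1
  rw [coeff_ofNat_neg_one, sub_zero] at h1
  exact one_ne_zero h1

theorem h1ser_mul (c : ℕ → ℤ) :
    h1ser K c * thetaL (JK K) = -(Gser K c * JK K * (JK K - 1728)) := by
  rw [h1ser, div_mul_cancel₀ _ (thetaL_JK_ne_zero K)]

theorem h1ser_sq (c : ℕ → ℤ) : h1ser K c ^ 2 = h2ser K c * (JK K - 1728) := by
  rw [h2ser, div_mul_cancel₀ _ (JK_sub_ne_zero K)]

theorem h1ser_cube (c : ℕ → ℤ) : h1ser K c ^ 3 = h3ser K c * JK K := by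
  rw [h3ser, div_mul_cancel₀ _ (JK_ne_zero K)]

theorem u0ser_mul (c : ℕ → ℤ) : u0ser K c * thetaL (JK K) = Gser K c := by
  rw [u0ser, div_mul_cancel₀ _ (thetaL_JK_ne_zero K)]

theorem u0ser_eq (c : ℕ → ℤ) : u0ser K c = -h1ser K c / (JK K * (JK K - 1728)) := by
  rw [u0ser, h1ser]
  have h1 := thetaL_JK_ne_zero K
  have h2 := JK_ne_zero K
  have h3 := JK_sub_ne_zero K
  field_simp

variable {K} {L : Type*} [Field L] [Algebra ℚ L]

theorem coeffMap_thetaL (ι : K →+* L) (x : LaurentSeries K) :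
    coeffMap ι (thetaL x) = thetaL (coeffMap ι x) := by
  ext n
  rw [coeffMap_coeff, thetaL_coeff, thetaL_coeff, coeffMap_coeff, map_mul, map_intCast]

theorem coeffMap_JK (ι : K →+* L) : coeffMap ι (JK K) = JK L := by
  rw [JK_eq, JK_eq, coeffMap_jqModC]

theorem coeffMap_Gser (ι : K →+* L) (c : ℕ → ℤ) : coeffMap ι (Gser K c) = Gser L c := by
  rw [Gser, Gser, coeffMap_ofPowerSeries]
  congr 1
  ext n
  simp

theorem coeffMap_h1ser (ι : K →+* L) (c : ℕ → ℤ) : coeffMap ι (h1ser K c) = h1ser L c := by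
  rw [h1ser, h1ser, map_div₀, map_neg, map_mul, map_mul, map_sub, coeffMap_thetaL, _root_.Fermat.Agent.Ribet.H584.coeffMap_JK,
    coeffMap_Gser, map_ofNat]

theorem coeffMap_h2ser (ι : K →+* L) (c : ℕ → ℤ) : coeffMap ι (h2ser K c) = h2ser L c := by
  rw [h2ser, h2ser, map_div₀, map_pow, map_sub, coeffMap_h1ser, _root_.Fermat.Agent.Ribet.H584.coeffMap_JK, map_ofNat]

theorem coeffMap_h3ser (ι : K →+* L) (c : ℕ → ℤ) : coeffMap ι (h3ser K c) = h3ser L c := by
  rw [h3ser, h3ser, map_div₀, map_pow, coeffMap_h1ser, _root_.Fermat.Agent.Ribet.H584.coeffMap_JK]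

end Series

/-! ### Identification of the `q`-expansions -/

theorem Gser_eq_qExpansion (f : CuspForm (Gamma0 M) 2) (c : ℕ → ℤ)
    (hc : ∀ n, qCoeff f n = (c n : ℂ)) :
    Gser ℂ c = HahnSeries.ofPowerSeries ℤ ℂ (qExpansion 1 f) := by
  rw [Gser]
  congr 1
  ext n
  rw [PowerSeries.coeff_mk, ← hc n]
  rfl

theorem hasQExp_const_ofNat (n : ℕ) [n.AtLeastTwo] :
    HasQExp 1 (fun _ : ℍ => (OfNat.ofNat n : ℂ)) (OfNat.ofNat n : LaurentSeries ℂ) := by
  have h := HasQExp.const 1 (OfNat.ofNat n : ℂ)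
  rwa [map_ofNat] at h

theorem qexpFun_H1 (f : CuspForm (Gamma0 M) 2) (c : ℕ → ℤ) (hc : ∀ n, qCoeff f n = (c n : ℂ)) :
    qexpFun 1 (H1 f) = h1ser ℂ c := by
  have h1 : HasQExp 1 (H1 f) (qexpFun 1 (H1 f)) := hasQExp_of_mem_goodRing (H1_mem_goodRing f)
  have hf : HasQExp 1 f (Gser ℂ c) := by
    rw [Gser_eq_qExpansion f c hc]
    exact hasQExp_cusp f
  have hj : HasQExp 1 JFun.jFun (JK ℂ) := hasQExp_jFun
  have hL := h1.mul hasQExp_D_jFun
  have hR := ((hf.mul hj).mul (hj.sub (hasQExp_const_ofNat 1728))).neg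
  have hfun : H1 f * D JFun.jFun =
      -((f : ℍ → ℂ) * JFun.jFun * (JFun.jFun - fun _ => (1728 : ℂ))) := by
    funext τ
    exact H1_mul_D_jFun f τ
  rw [hfun] at hL
  have := hL.unique hR
  rw [h1ser, eq_div_iff (thetaL_JK_ne_zero ℂ)]
  exact this

theorem qexpFun_H2 (f : CuspForm (Gamma0 M) 2) (c : ℕ → ℤ) (hc : ∀ n, qCoeff f n = (c n : ℂ)) :
    qexpFun 1 (H2 f) = h2ser ℂ c := by
  have h1 : HasQExp 1 (H1 f) (h1ser ℂ c) :=
    ⟨isMerInf_of_mem_goodRing (H1_mem_goodRing f), qexpFun_H1 f c hc⟩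
  have h2 : HasQExp 1 (H2 f) (qexpFun 1 (H2 f)) := hasQExp_of_mem_goodRing (H2_mem_goodRing f)
  have hj : HasQExp 1 JFun.jFun (JK ℂ) := hasQExp_jFun
  have hL := h1.pow 2
  have hR := h2.mul (hj.sub (hasQExp_const_ofNat 1728))
  have hfun : H1 f ^ 2 = H2 f * (JFun.jFun - fun _ => (1728 : ℂ)) := by
    funext τ
    exact H1_sq f τ
  rw [hfun] at hL
  have := hR.unique hL
  rw [h2ser, eq_div_iff (JK_sub_ne_zero ℂ)]
  exact this

theorem qexpFun_H3 (f : CuspForm (Gamma0 M) 2) (c : ℕ → ℤ) (hc : ∀ n, qCoeff f n = (c n : ℂ)) :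
    qexpFun 1 (H3 f) = h3ser ℂ c := by
  have h1 : HasQExp 1 (H1 f) (h1ser ℂ c) :=
    ⟨isMerInf_of_mem_goodRing (H1_mem_goodRing f), qexpFun_H1 f c hc⟩
  have h3 : HasQExp 1 (H3 f) (qexpFun 1 (H3 f)) := hasQExp_of_mem_goodRing (H3_mem_goodRing f)
  have hj : HasQExp 1 JFun.jFun (JK ℂ) := hasQExp_jFun
  have hL := h1.pow 3
  have hR := h3.mul hj
  have hfun : H1 f ^ 3 = H3 f * JFun.jFun := by
    funext τ
    exact H1_cube f τ
  rw [hfun] at hL
  have := hR.unique hL
  rw [h3ser, eq_div_iff (JK_ne_zero ℂ)]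
  exact this


/-! ### Realisation in the function field over `ℚ̄` -/

theorem h1ser_mem (f : CuspForm (Gamma0 M) 2) (c : ℕ → ℤ) (hc : ∀ n, qCoeff f n = (c n : ℂ)) :
    h1ser Kbar c ∈ modularFunctionFieldBar M := by
  apply mem_laurentBaseChange_of_coeffMap_mem iotaC (modularFunctionFieldFull M)
  rw [coeffMap_h1ser, ← qexpFun_H1 f c hc]
  exact qexpFun_mem_FC (H1_mem_goodRing f)

theorem h2ser_mem (f : CuspForm (Gamma0 M) 2) (c : ℕ → ℤ) (hc : ∀ n, qCoeff f n = (c n : ℂ)) :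
    h2ser Kbar c ∈ modularFunctionFieldBar M := by
  apply mem_laurentBaseChange_of_coeffMap_mem iotaC (modularFunctionFieldFull M)
  rw [coeffMap_h2ser, ← qexpFun_H2 f c hc]
  exact qexpFun_mem_FC (H2_mem_goodRing f)

theorem h3ser_mem (f : CuspForm (Gamma0 M) 2) (c : ℕ → ℤ) (hc : ∀ n, qCoeff f n = (c n : ℂ)) :
    h3ser Kbar c ∈ modularFunctionFieldBar M := by
  apply mem_laurentBaseChange_of_coeffMap_mem iotaC (modularFunctionFieldFull M)
  rw [coeffMap_h3ser, ← qexpFun_H3 f c hc]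
  exact qexpFun_mem_FC (H3_mem_goodRing f)

theorem coe_jF : ((jF M : FF M) : LaurentSeries Kbar) = JK Kbar := rfl

/-- **INC-AN, analytic half (REAL).**  The three weight-0 functions attached to a cusp form with
integral `q`-expansion are realised in `FF M = ℚ̄(X₀(M))`, and `G = u₀ · θ(j)` with `u₀ ∈ FF M`,
`u₀ · j (j - 1728) = - h₁`. -/
theorem incAn_real (f : CuspForm (Gamma0 M) 2) (c : ℕ → ℤ) (hc : ∀ n, qCoeff f n = (c n : ℂ)) :
    ∃ h₁ h₂ h₃ u₀ : FF M,
      Realises M h₁ (H1 f) ∧ Realises M h₂ (H2 f) ∧ Realises M h₃ (H3 f) ∧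
      h₁ ^ 2 = h₂ * (jF M - 1728) ∧ h₁ ^ 3 = h₃ * jF M ∧
      u₀ * (jF M * (jF M - 1728)) = -h₁ ∧
      (u₀ : LaurentSeries Kbar) * thetaL ((jF M : FF M) : LaurentSeries Kbar) = Gser Kbar c := by
  set h₁ : FF M := ⟨h1ser Kbar c, h1ser_mem f c hc⟩ with hh₁
  set h₂ : FF M := ⟨h2ser Kbar c, h2ser_mem f c hc⟩ with hh₂
  set h₃ : FF M := ⟨h3ser Kbar c, h3ser_mem f c hc⟩ with hh₃
  have hjj : jF M * (jF M - 1728) ≠ 0 := by
    intro h
    have h' := congrArg (fun x : FF M => (x : LaurentSeries Kbar)) h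
    simp only [MulMemClass.coe_mul, AddSubgroupClass.coe_sub, _root_.Fermat.Agent.Ribet.H584.coe_jF, ZeroMemClass.coe_zero] at h'
    have e : ((1728 : FF M) : LaurentSeries Kbar) = 1728 := rfl
    rw [e] at h'
    exact mul_ne_zero (JK_ne_zero Kbar) (JK_sub_ne_zero Kbar) h'
  set u₀ : FF M := -h₁ / (jF M * (jF M - 1728)) with hu₀
  have hu₀c : (u₀ : LaurentSeries Kbar) = u0ser Kbar c := by
    rw [u0ser_eq]
    rfl
  refine ⟨h₁, h₂, h₃, u₀, ⟨H1_mem_goodRing f, ?_⟩, ⟨H2_mem_goodRing f, ?_⟩,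
    ⟨H3_mem_goodRing f, ?_⟩, ?_, ?_, ?_, ?_⟩
  · rw [qexpFun_H1 f c hc]
    exact (coeffMap_h1ser iotaC c).symm
  · rw [qexpFun_H2 f c hc]
    exact (coeffMap_h2ser iotaC c).symm
  · rw [qexpFun_H3 f c hc]
    exact (coeffMap_h3ser iotaC c).symm
  · apply Subtype.ext
    exact h1ser_sq Kbar c
  · apply Subtype.ext
    exact h1ser_cube Kbar c
  · rw [hu₀, div_mul_cancel₀ _ hjj]
  · rw [hu₀c, _root_.Fermat.Agent.Ribet.H584.coe_jF]
    exact u0ser_mul Kbar c

end Fermat.Agent.Ribet.H584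

end
end
-- ===== PACK-END Ribet/H584/IncAnQExp.lean

-- ===== PACK-BEGIN S37/H339/LeafH1.lean
section





/-!
# S37 BOARD v3, leaf D4 = `Board3.leaf_H1` (helper339)

The four (H1) fields of `Red.Datum.Good` (finite, finite_k, sep_k, finrank_eq) for ANY reduction
datum on `(F_M, F_{M,k})` whose coordinate is an admissible coordinate `x` (`Mod.IsCoordinate`):
`x = j` (`ℓ ≥ 5`), `x = t₂` (`ℓ = 3`, `j x² = (x + 256)³`), `x = t₃` (`ℓ = 2`,
`j x³ = (x + 27)(x + 243)³`), with integral model `X ∈ ℤ((q))`.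

`leaf_H1` is the statement of `Board3.leaf_H1` (origin/helper37 `Core/Skeleton4.lean`) with the
structure `IsModelOf M x X` replaced by its two fields `coeff_neg_one`, `coe_eq` that are used:
apply it as `H339.leaf_H1 M ℓ hℓ hℓM A hA x S hx X hX.coeff_neg_one hX.coe_eq G hGx hGxk`.

Proof: tower law over `K(j)`; `[K(t₂) : K(j)] = 3`, `[K(t₃) : K(j)] = 4` in characteristic `0`
AND in characteristic `ℓ` (`RatTower.lean`), `[F : K(j)] = ψ(M)` on both sides (`S37.H628`).
-/

set_option autoImplicit false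
set_option synthInstance.maxHeartbeats 400000

noncomputable section

namespace Fermat.Agent.S37.H339

/-! ### the two rational functions -/

section Polys

open Polynomial

variable (K : Type*) [Field K]

/-- numerator of `j` as a function of `t₂` -/
def numTwo : K[X] := (X + C 256) ^ 3
/-- denominator of `j` as a function of `t₂` -/
def denTwo : K[X] := X ^ 2
/-- numerator of `j` as a function of `t₃` -/
def numThree : K[X] := (X + C 27) * (X + C 243) ^ 3
/-- denominator of `j` as a function of `t₃` -/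
def denThree : K[X] := X ^ 3

theorem natDegree_numTwo : (numTwo K).natDegree = 3 := by
  rw [numTwo, natDegree_pow, natDegree_X_add_C]

theorem natDegree_denTwo : (denTwo K).natDegree = 2 := by
  rw [denTwo, natDegree_X_pow]

theorem natDegree_numThree : (numThree K).natDegree = 4 := by
  rw [numThree, natDegree_mul (X_add_C_ne_zero _) (pow_ne_zero _ (X_add_C_ne_zero _)),
    natDegree_pow, natDegree_X_add_C, natDegree_X_add_C]

theorem natDegree_denThree : (denThree K).natDegree = 3 := by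
  rw [denThree, natDegree_X_pow]

theorem denTwo_ne_zero : denTwo K ≠ 0 := pow_ne_zero _ X_ne_zero

theorem denThree_ne_zero : denThree K ≠ 0 := pow_ne_zero _ X_ne_zero

variable {K}

theorem isCoprime_X_add_C_X {a : K} (ha : a ≠ 0) : IsCoprime (X + C a : K[X]) X := by
  refine ⟨C a⁻¹, - C a⁻¹, ?_⟩
  have : C a⁻¹ * C a = (1 : K[X]) := by rw [← C_mul, inv_mul_cancel₀ ha, C_1]
  linear_combination this

theorem isCoprime_two (h : (2 : K) ≠ 0) : IsCoprime (numTwo K) (denTwo K) := by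
  have h256 : (256 : K) ≠ 0 := by
    have : (256 : K) = 2 ^ 8 := by norm_num
    rw [this]
    exact pow_ne_zero _ h
  exact ((isCoprime_X_add_C_X h256).pow_left).pow_right

theorem isCoprime_three (h : (3 : K) ≠ 0) : IsCoprime (numThree K) (denThree K) := by
  have h27 : (27 : K) ≠ 0 := by
    have : (27 : K) = 3 ^ 3 := by norm_num
    rw [this]
    exact pow_ne_zero _ h
  have h243 : (243 : K) ≠ 0 := by
    have : (243 : K) = 3 ^ 5 := by norm_num
    rw [this]
    exact pow_ne_zero _ h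
  exact (IsCoprime.mul_left (isCoprime_X_add_C_X h27)
    (isCoprime_X_add_C_X h243).pow_left).pow_right

variable {F : Type*} [Field F] [Algebra K F]

theorem aeval_numTwo (t : F) : aeval t (numTwo K) = (t + 256) ^ 3 := by
  simp [numTwo, map_ofNat]

theorem aeval_denTwo (t : F) : aeval t (denTwo K) = t ^ 2 := by
  simp [denTwo]

theorem aeval_numThree (t : F) : aeval t (numThree K) = (t + 27) * (t + 243) ^ 3 := by
  simp [numThree, map_ofNat]

theorem aeval_denThree (t : F) : aeval t (denThree K) = t ^ 3 := by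
  simp [denThree]

end Polys

open ModularCurve AlgebraicCurve HahnSeries IsLocalRing IntermediateField
open Fermat.Agent.S18 (Mod.Om Mod.jOm Mod.IsCoordinate)

/-- `ℚ̄` -/
local notation "Qb" => AlgebraicClosure ℚ

/-! ### `q`-expansions -/

theorem coeffMap_intCast_jqModC (R : Type*) [CommRing R] :
    coeffMap (Int.castRingHom R) (jqModC ℤ) = jqModC R :=
  (jqModC_eq_map_intCast R).symm

theorem coeffMap_intCast_injective' (R : Type*) [CommRing R] [CharZero R] :
    Function.Injective (coeffMap (Int.castRingHom R)) := by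
  intro x y h
  ext n
  have := congrArg (fun z => z.coeff n) h
  simp only [coeffMap_coeff, eq_intCast] at this
  exact Int.cast_injective this

/-- an element of `F_M` with `q`-expansion `q⁻¹ + …` is transcendental over `ℚ̄` -/
theorem transcendental_of_coeff_neg_one (M : ℕ) (x : Mod.Om M) (X : LaurentSeries ℤ)
    (hX1 : X.coeff (-1) = 1)
    (hXc : (x : LaurentSeries Qb) = coeffMap (Int.castRingHom Qb) X) :
    Transcendental Qb x := by
  intro halg
  have hint : IsIntegral Qb x := halg.isIntegral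
  have hdeg : (minpoly Qb x).degree = 1 :=
    IsAlgClosed.degree_eq_one_of_irreducible Qb (minpoly.irreducible hint)
  obtain ⟨c, hc⟩ := minpoly.mem_range_of_degree_eq_one Qb x hdeg
  have h1 : (x : LaurentSeries Qb).coeff (-1) = 1 := by
    rw [hXc, coeffMap_coeff, hX1, map_one]
  have h2 : (x : LaurentSeries Qb).coeff (-1) = 0 := by
    rw [← hc]
    show (algebraMap Qb (LaurentSeries Qb) c).coeff (-1) = 0
    rw [algebraMap_laurentSeries_eq_single, HahnSeries.coeff_single_of_ne (by norm_num)]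
  exact one_ne_zero (h1.symm.trans h2)

/-! ### the generic combination -/

section Combine

variable (M : ℕ) [NeZero M] {ℓ : ℕ} (hℓ : ℓ.Prime) (hℓM : ¬ ℓ ∣ M)
  (A : ValuationSubring Qb) (hA : A.LiesOverPrime ℓ)

/-- `j̄ ∈ F_{M,k}` -/
def jkElt : modularFunctionFieldFullC (ResidueField A) M :=
  ⟨jqModC (ResidueField A), jqModC_mem_full (ResidueField A) M⟩

set_option maxHeartbeats 2000000 in
include hℓ hℓM hA in
/-- (H1) for a coordinate `t` with `j · Q(t) = P(t)` in characteristic `0` and `ℓ`, the two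
rational functions having the same degree `d`. -/
theorem good_H1_of_rel
    (G : Fermat.Agent.S37.Red.Datum A (residue A) (modularFunctionFieldBar M)
      (modularFunctionFieldFullC (ResidueField A) M))
    (ht : Transcendental Qb G.x)
    (P Q : Polynomial Qb) (Pk Qk : Polynomial (ResidueField A)) (d : ℕ) (hd : 0 < d)
    (hdeg : max P.natDegree Q.natDegree = d) (hdegk : max Pk.natDegree Qk.natDegree = d)
    (hcop : IsCoprime P Q) (hcopk : IsCoprime Pk Qk) (hQ : Q ≠ 0) (hQk : Qk ≠ 0)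
    (hrel : Mod.jOm M * Polynomial.aeval G.x Q = Polynomial.aeval G.x P)
    (hrelk : jkElt M A * Polynomial.aeval G.xk Qk = Polynomial.aeval G.xk Pk) :
    FiniteDimensional (IntermediateField.adjoin Qb {G.x}) (modularFunctionFieldBar M) ∧
      FiniteDimensional (IntermediateField.adjoin (ResidueField A) {G.xk})
        (modularFunctionFieldFullC (ResidueField A) M) ∧
      Algebra.IsSeparable (IntermediateField.adjoin (ResidueField A) {G.xk})
        (modularFunctionFieldFullC (ResidueField A) M) ∧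
      Module.finrank (IntermediateField.adjoin Qb {G.x}) (modularFunctionFieldBar M) =
        Module.finrank (IntermediateField.adjoin (ResidueField A) {G.xk})
          (modularFunctionFieldFullC (ResidueField A) M) := by
  haveI : Fact ℓ.Prime := ⟨hℓ⟩
  haveI : CharP (ResidueField A) ℓ :=
    Fermat.Agent.S37.H448.charP_residueField_of_liesOverPrime hℓ A hA
  haveI : IsAlgClosed (ResidueField A) := Fermat.Agent.S18.H9.resAlgClosed Qb A
  have hchar := Fermat.Agent.S37.H628.natCast_ne_zero_residueField M hℓ hℓM A hA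
  have hjfin := Fermat.Agent.S37.H628.finiteDimensional_adjoin_bar M (Mod.jOm M)
    (Fermat.Agent.S18.H333.jOm_coe M)
  have hjrank := Fermat.Agent.S37.H628.finrank_adjoin_bar M (Mod.jOm M)
    (Fermat.Agent.S18.H333.jOm_coe M)
  have hkfin := Fermat.Agent.S37.H628.finiteDimensional_adjoin_fullC (ResidueField A) M hchar
    (jkElt M A) rfl
  have hkrank := Fermat.Agent.S37.H628.finrank_adjoin_fullC (ResidueField A) M hchar
    (jkElt M A) rfl
  have hksep := Fermat.Agent.S37.H628.isSeparable_adjoin_fullC (ResidueField A) M ℓ hchar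
    (jkElt M A) rfl
  have htk : Transcendental (ResidueField A) G.xk := G.xk_transc
  obtain ⟨h1, h2, -⟩ := h1_of_tower G.x (Mod.jOm M) ht P Q hcop hQ hrel hjfin
  obtain ⟨h3, h4, h5⟩ := h1_of_tower G.xk (jkElt M A) htk Pk Qk hcopk hQk hrelk hkfin
  refine ⟨h1, h3, h5 hksep, ?_⟩
  rw [hdeg, hjrank] at h2
  rw [hdegk, hkrank] at h4
  exact Nat.eq_of_mul_eq_mul_left hd (h2.trans h4.symm)

end Combine

/-! ### the relations in `ℤ((q))` and in characteristic `ℓ` -/

section Relations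

variable (M : ℕ) (A : ValuationSubring Qb)

theorem coe_ofNat_bar (n : ℕ) [n.AtLeastTwo] :
    (((ofNat(n) : Mod.Om M)) : LaurentSeries Qb) = ofNat(n) :=
  map_ofNat (modularFunctionFieldBar M).val n

theorem coe_ofNat_fullC (k : Type*) [Field k] (n : ℕ) [n.AtLeastTwo] :
    (((ofNat(n) : modularFunctionFieldFullC k M)) : LaurentSeries k) = ofNat(n) :=
  map_ofNat (modularFunctionFieldFullC k M).val n

/-- the `t₂`-identity over `ℤ` -/
theorem int_rel_two (x : Mod.Om M) (X : LaurentSeries ℤ)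
    (hXc : (x : LaurentSeries Qb) = coeffMap (Int.castRingHom Qb) X)
    (hid : Mod.jOm M * x ^ 2 = (x + 256) ^ 3) :
    jqModC ℤ * X ^ 2 = (X + 256) ^ 3 := by
  apply coeffMap_intCast_injective' Qb
  rw [map_mul, map_pow, map_pow, map_add, map_ofNat, coeffMap_intCast_jqModC, ← hXc,
    ← Fermat.Agent.S18.H333.jOm_coe M]
  have := congrArg (fun z : Mod.Om M => (z : LaurentSeries Qb)) hid
  simpa only [IntermediateField.coe_mul, IntermediateField.coe_pow, IntermediateField.coe_add,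
    coe_ofNat_bar] using this

/-- the `t₃`-identity over `ℤ` -/
theorem int_rel_three (x : Mod.Om M) (X : LaurentSeries ℤ)
    (hXc : (x : LaurentSeries Qb) = coeffMap (Int.castRingHom Qb) X)
    (hid : Mod.jOm M * x ^ 3 = (x + 27) * (x + 243) ^ 3) :
    jqModC ℤ * X ^ 3 = (X + 27) * (X + 243) ^ 3 := by
  apply coeffMap_intCast_injective' Qb
  rw [map_mul, map_mul, map_pow, map_pow, map_add, map_add, map_ofNat, map_ofNat,
    coeffMap_intCast_jqModC, ← hXc, ← Fermat.Agent.S18.H333.jOm_coe M]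
  have := congrArg (fun z : Mod.Om M => (z : LaurentSeries Qb)) hid
  simpa only [IntermediateField.coe_mul, IntermediateField.coe_pow, IntermediateField.coe_add,
    coe_ofNat_bar] using this

/-- the `t₂`-identity in `F_{M,k}` -/
theorem rel_two_fullC (k : Type*) [Field k] (X : LaurentSeries ℤ)
    (hZ : jqModC ℤ * X ^ 2 = (X + 256) ^ 3) (j t : modularFunctionFieldFullC k M)
    (hj : (j : LaurentSeries k) = jqModC k)
    (ht : (t : LaurentSeries k) = coeffMap (Int.castRingHom k) X) :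
    j * t ^ 2 = (t + 256) ^ 3 := by
  apply Subtype.ext
  have := congrArg (coeffMap (Int.castRingHom k)) hZ
  rw [map_mul, map_pow, map_pow, map_add, map_ofNat, coeffMap_intCast_jqModC, ← hj, ← ht] at this
  simpa only [IntermediateField.coe_mul, IntermediateField.coe_pow, IntermediateField.coe_add,
    coe_ofNat_fullC] using this

/-- the `t₃`-identity in `F_{M,k}` -/
theorem rel_three_fullC (k : Type*) [Field k] (X : LaurentSeries ℤ)
    (hZ : jqModC ℤ * X ^ 3 = (X + 27) * (X + 243) ^ 3) (j t : modularFunctionFieldFullC k M)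
    (hj : (j : LaurentSeries k) = jqModC k)
    (ht : (t : LaurentSeries k) = coeffMap (Int.castRingHom k) X) :
    j * t ^ 3 = (t + 27) * (t + 243) ^ 3 := by
  apply Subtype.ext
  have := congrArg (coeffMap (Int.castRingHom k)) hZ
  rw [map_mul, map_mul, map_pow, map_pow, map_add, map_add, map_ofNat, map_ofNat,
    coeffMap_intCast_jqModC, ← hj, ← ht] at this
  simpa only [IntermediateField.coe_mul, IntermediateField.coe_pow, IntermediateField.coe_add,
    coe_ofNat_fullC] using this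

end Relations

/-! ### the leaf -/

set_option maxHeartbeats 4000000 in
/-- **LEAF D4** (`Board3.leaf_H1`): the four (H1) fields of `Red.Datum.Good` for a reduction datum
whose coordinate is an admissible coordinate `x` with integral model `X`
(`hX1`, `hXc` = fields `coeff_neg_one`, `coe_eq` of `Board3.IsModelOf M x X`). -/
theorem leaf_H1 (M ℓ : ℕ) [NeZero M] (hℓ : ℓ.Prime) (hℓM : ¬ ℓ ∣ M)
    (A : ValuationSubring (AlgebraicClosure ℚ)) (hA : A.LiesOverPrime ℓ)
    (x : Mod.Om M) (S : Finset (Mod.Om M)) (hx : Mod.IsCoordinate M ℓ x S)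
    (X : LaurentSeries ℤ) (hX1 : X.coeff (-1) = 1)
    (hXc : (x : LaurentSeries (AlgebraicClosure ℚ)) =
      coeffMap (Int.castRingHom (AlgebraicClosure ℚ)) X)
    (G : Fermat.Agent.S37.Red.Datum A (residue A) (modularFunctionFieldBar M)
      (modularFunctionFieldFullC (ResidueField A) M))
    (hGx : G.x = x)
    (hGxk : ((G.xk : modularFunctionFieldFullC (ResidueField A) M) :
      LaurentSeries (ResidueField A)) = coeffMap (Int.castRingHom (ResidueField A)) X) :
    FiniteDimensional (IntermediateField.adjoin (AlgebraicClosure ℚ) {G.x})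
        (modularFunctionFieldBar M) ∧
      FiniteDimensional (IntermediateField.adjoin (ResidueField A) {G.xk})
        (modularFunctionFieldFullC (ResidueField A) M) ∧
      Algebra.IsSeparable (IntermediateField.adjoin (ResidueField A) {G.xk})
        (modularFunctionFieldFullC (ResidueField A) M) ∧
      Module.finrank (IntermediateField.adjoin (AlgebraicClosure ℚ) {G.x})
          (modularFunctionFieldBar M) =
        Module.finrank (IntermediateField.adjoin (ResidueField A) {G.xk})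
          (modularFunctionFieldFullC (ResidueField A) M) := by
  subst hGx
  haveI : CharP (ResidueField A) ℓ :=
    Fermat.Agent.S37.H448.charP_residueField_of_liesOverPrime hℓ A hA
  rcases hx with ⟨-, hxj, -⟩ | ⟨hrel, -⟩
  · -- `x = j`
    have hx' : ((G.x : Mod.Om M) : LaurentSeries Qb) = jqModC Qb := by
      rw [hxj]
      exact Fermat.Agent.S18.H333.jOm_coe M
    have hXj : X = jqModC ℤ :=
      coeffMap_intCast_injective' Qb (by rw [← hXc, hx', coeffMap_intCast_jqModC])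
    have hxk' : ((G.xk : modularFunctionFieldFullC (ResidueField A) M) :
        LaurentSeries (ResidueField A)) = jqModC (ResidueField A) := by
      rw [hGxk, hXj, coeffMap_intCast_jqModC]
    exact Fermat.Agent.S37.H628.good_H1 M hℓ hℓM A hA G hx' hxk'
  · have ht := transcendental_of_coeff_neg_one M G.x X hX1 hXc
    rcases hrel with ⟨h3, hid, -⟩ | ⟨h2, hid, -⟩
    · -- `x = t₂`, `ℓ = 3`
      subst h3
      have h2k : (2 : ResidueField A) ≠ 0 := by
        intro h
        have h' : ((2 : ℕ) : ResidueField A) = 0 := by exact_mod_cast h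
        rw [CharP.cast_eq_zero_iff (ResidueField A) 3] at h'
        omega
      have hZ := int_rel_two M G.x X hXc hid
      have hrelk := rel_two_fullC M (ResidueField A) X hZ (jkElt M A) G.xk rfl hGxk
      refine good_H1_of_rel M hℓ hℓM A hA G ht (numTwo Qb) (denTwo Qb)
        (numTwo (ResidueField A)) (denTwo (ResidueField A)) 3 (by norm_num) ?_ ?_
        (isCoprime_two two_ne_zero) (isCoprime_two h2k) (denTwo_ne_zero _) (denTwo_ne_zero _)
        ?_ ?_
      · rw [natDegree_numTwo, natDegree_denTwo]; rfl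
      · rw [natDegree_numTwo, natDegree_denTwo]; rfl
      · rw [aeval_denTwo, aeval_numTwo]; exact hid
      · rw [aeval_denTwo, aeval_numTwo]; exact hrelk
    · -- `x = t₃`, `ℓ = 2`
      subst h2
      have h3k : (3 : ResidueField A) ≠ 0 := by
        intro h
        have h' : ((3 : ℕ) : ResidueField A) = 0 := by exact_mod_cast h
        rw [CharP.cast_eq_zero_iff (ResidueField A) 2] at h'
        omega
      have hZ := int_rel_three M G.x X hXc hid
      have hrelk := rel_three_fullC M (ResidueField A) X hZ (jkElt M A) G.xk rfl hGxk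
      refine good_H1_of_rel M hℓ hℓM A hA G ht (numThree Qb) (denThree Qb)
        (numThree (ResidueField A)) (denThree (ResidueField A)) 4 (by norm_num) ?_ ?_
        (isCoprime_three three_ne_zero) (isCoprime_three h3k) (denThree_ne_zero _)
        (denThree_ne_zero _) ?_ ?_
      · rw [natDegree_numThree, natDegree_denThree]; rfl
      · rw [natDegree_numThree, natDegree_denThree]; rfl
      · rw [aeval_denThree, aeval_numThree]; exact hid
      · rw [aeval_denThree, aeval_numThree]; exact hrelk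

end Fermat.Agent.S37.H339

end
end
-- ===== PACK-END S37/H339/LeafH1.lean

-- ===== PACK-BEGIN A3/GR/H195/GenusLeaf.lean
section




/-!
# A3 / GOODRED-INST — leaf GENUS from the datum leaf ALONE  (helper195)

* `genus_eq_modular` : for `ℓ ∤ N`, `A` above `ℓ` and ANY reduction datum
  `G : S37.Red.Datum A (residue A) F_N F_{N,k}` with good charts (`G.Good`):
  `genusFF ℚ̄ F_N = genusFF k F_{N,k}`.
* `genusStatement_of_datum` : the same as the leaf `A3.GR.GenusStatement A M`.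
* `genus_eq_of_datumStatement` : the same for all good levels from a hypothesis of the shape of
  `S37.Core.DatumStatement` (existence of a datum with good charts at good levels).

The statement is literally the field `genus_eq` of `A3.H799.GoodRed` in every GOODRED-INST
assembly (`A3.GR.GenusStatement`, `A3.H739.GenusLeaf`, `S19.H979.GrGenusStatement`: the function
fields are the same up to `abbrev`s).
-/

set_option autoImplicit false
set_option synthInstance.maxHeartbeats 400000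
set_option linter.unusedSectionVars false
set_option linter.style.haveILetI false

noncomputable section

namespace Fermat.Agent.A3.GR.H195

open AlgebraicCurve ModularCurve IsLocalRing
open Fermat.Agent.Lib.RR Fermat.Agent.S37.Rim

/-- **Equal genus of `X₀(N)` over `ℚ̄` and over `k = A/𝔪`**, from a reduction datum with good
charts. -/
theorem genus_eq_modular (N : ℕ) [NeZero N] (ℓ : ℕ) (hℓ : ℓ.Prime) (hℓN : ¬ ℓ ∣ N)
    (A : ValuationSubring Qb) (hA : A.LiesOverPrime ℓ)
    (G : Fermat.Agent.S37.Red.Datum A (residue A) (modularFunctionFieldBar N)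
      (modularFunctionFieldFullC (ResidueField A) N)) (hG : G.Good) :
    genusFF Qb (modularFunctionFieldBar N) =
      genusFF (ResidueField A) (modularFunctionFieldFullC (ResidueField A) N) := by
  haveI : IsAlgClosed (ResidueField A) := Fermat.Agent.S18.H9.resAlgClosed Qb A
  haveI : FF1 Qb (modularFunctionFieldBar N) :=
    Fermat.Agent.Lib.RR.H864.ff1_modularFunctionFieldBar N
  haveI : FF1 (ResidueField A) (modularFunctionFieldFullC (ResidueField A) N) :=
    Fermat.Agent.S18.H383.ff1_residue N ℓ hℓ hℓN A hA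
  exact Fermat.Agent.S19.H195.GenusGood.genusFF_eq G hG

/-- **LEAF GENUS** (`A3/GR/Leaves.lean`) from a reduction datum with good charts. -/
theorem genusStatement_of_datum {A : ValuationSubring Qb} {M : ℕ} [NeZero M] (ℓ : ℕ)
    (hℓ : ℓ.Prime) (hℓM : ¬ ℓ ∣ M) (hA : A.LiesOverPrime ℓ)
    (G : Fermat.Agent.S37.Red.Datum A (residue A) (FM M) (FkM A M)) (hG : G.Good) :
    GenusStatement A M :=
  genus_eq_modular M ℓ hℓ hℓM A hA G hG

/-- Equal genus at all good levels from the existence of reduction data with good charts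
(hypothesis of the shape of `S37.Core.DatumStatement`; `P` is any extra property, e.g. the link
to `q`-expansions). -/
theorem genus_eq_of_datumStatement {GoodLevel : ℕ → ℕ → Prop}
    {P : ∀ (M : ℕ) (A : ValuationSubring Qb),
      Fermat.Agent.S37.Red.Datum A (residue A) (modularFunctionFieldBar M)
        (modularFunctionFieldFullC (ResidueField A) M) → Prop}
    (hD : ∀ (M ℓ : ℕ) [NeZero M], ℓ.Prime → ¬ ℓ ∣ M → GoodLevel M ℓ →
      ∀ A : ValuationSubring Qb, A.LiesOverPrime ℓ →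
        ∃ G : Fermat.Agent.S37.Red.Datum A (residue A) (modularFunctionFieldBar M)
            (modularFunctionFieldFullC (ResidueField A) M), G.Good ∧ P M A G)
    (M ℓ : ℕ) [NeZero M] (hℓ : ℓ.Prime) (hℓM : ¬ ℓ ∣ M) (hg : GoodLevel M ℓ)
    (A : ValuationSubring Qb) (hA : A.LiesOverPrime ℓ) :
    genusFF Qb (modularFunctionFieldBar M) =
      genusFF (ResidueField A) (modularFunctionFieldFullC (ResidueField A) M) := by
  obtain ⟨G, hG, -⟩ := hD M ℓ hℓ hℓM hg A hA
  exact genus_eq_modular M ℓ hℓ hℓM A hA G hG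

end Fermat.Agent.A3.GR.H195

end

end
-- ===== PACK-END A3/GR/H195/GenusLeaf.lean

-- ===== PACK-BEGIN Ribet/H224/WPNode.lean
section







/-!
# RIBET row 38, WALL-p, W-ALGP leaf WPN = `H495.AlgP.WPNodeLeaf`, VERBATIM  (helper224)

Wild purity at a crossing point of a semistable chart, chart form (`PureAtP`).

Proof (chart adapter of `H704.I6.WildPurityStatement`):
1. the local ring `O = B_n = locAt F n` at the crossing point is a node ring
   (`H132.exists_isNode_locAt`);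
2. `u = a / b` with `a, b ∈ B ∖ (p₁ ∪ p₂)` (`H609.exists_common_denominator`), `g := a b^(p-1)`;
   `g` is horizontally `p`-divisible (`H132.horDiv_of_divisible`, from `DivisibleDiv`);
3. `DeepOne` (`u ∈ 1 + λ^p w V_i`) gives, by Newton steps inside the local ring `V_i`
   (`wpn_newton`), that `g` is a `p`-th power modulo `w ^ k` in `V_i` for EVERY `k`
   (`wpn_branch_pthPow`);
4. WPUR (`H7.wildPurity`): `g d₂^p = d₁^p s^p (1 + λ^p z)`; `d := b d₂ / (d₁ s)`,
   `u d^p = 1 + λ^p z`, `z ∈ B_n`;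
5. `u ∈ 1 + λ^p w V_i` and `u d^p ∈ 1 + λ^p V_i` give `d ∈ 1 + λ V_i` (`wpn_branch_close`;
   the sheet label is `j = 0`).
-/

set_option autoImplicit false
set_option linter.unusedSectionVars false
set_option linter.style.haveILetI false

namespace Fermat.Agent.Ribet.H224

open Fermat.Agent.A2 Fermat.Agent.A2.Alg Fermat.Agent.A2.H849 Fermat.Agent.A2.H609
open Fermat.Agent.Ribet.H704

section Abstract

variable {B F : Type} [CommRing B] [IsDomain B] [IsNoetherianRing B] [IsIntegrallyClosed B]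
  [Field F] [Algebra B F] [IsFractionRing B F]

/-- The numerator of `u` is outside the component. -/
theorem wpn_num_notMem (q : Ideal B) [hq : q.IsPrime] {lam w : B} {p : ℕ} (hwq : w ∈ q) {u : F}
    (hdeep : ∃ a b : B, b ∉ q ∧ a - b ∈ Ideal.span {lam ^ p * w} ∧
      u * algebraMap B F b = algebraMap B F a)
    {a b : B} (hb : b ∉ q) (hab : u * algebraMap B F b = algebraMap B F a) : a ∉ q := by
  obtain ⟨a₁, b₁, hb₁, hab₁, e₁⟩ := hdeep
  have hsub : a₁ - b₁ ∈ q := by
    obtain ⟨s, hs⟩ := Ideal.mem_span_singleton'.1 hab₁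
    rw [← hs]
    exact q.mul_mem_left _ (q.mul_mem_left _ hwq)
  have ha₁ : a₁ ∉ q := by
    intro h
    apply hb₁
    have : b₁ = a₁ - (a₁ - b₁) := by ring
    rw [this]
    exact q.sub_mem h hsub
  have hmul : a * b₁ = a₁ * b := by
    apply IsFractionRing.injective B F
    rw [map_mul, map_mul, ← hab, ← e₁]
    ring
  intro ha
  have h1 : a₁ * b ∈ q := by
    rw [← hmul]
    exact q.mul_mem_right _ ha
  rcases hq.mem_or_mem h1 with h | h
  · exact ha₁ h
  · exact hb h

/-- **WPN, abstract chart form.** -/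
theorem wpn_abstract {w : B} (hw0 : w ≠ 0) (p₁ p₂ n : Ideal B) [hp₁ : p₁.IsPrime]
    [hp₂ : p₂.IsPrime] [hn : n.IsPrime]
    [IsDedekindDomain (B ⧸ p₁)] [IsDedekindDomain (B ⧸ p₂)]
    (hinf : p₁ ⊓ p₂ = Ideal.span {w}) (h₁₂ : ¬ p₁ ≤ p₂) (h₂₁ : ¬ p₂ ≤ p₁)
    (htr : (p₁ ⊔ p₂).IsRadical) (h₁ : p₁ ≤ n) (h₂ : p₂ ≤ n)
    {p : ℕ} (hp : p.Prime) {lam ε η : B} {e : ℕ} (hε : IsUnit ε)
    (hlam : lam ^ (p - 1) = (p : B) * ε) (hη : IsUnit η) (he : 0 < e) (hlamη : lam = η * w ^ e)
    {u : F} (hu : u ≠ 0)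
    (hdiv : ∀ V : ValuationSubring F, IsDiscreteValuationRing V →
      (∀ b : B, algebraMap B F b ∈ V) → (algebraMap B F w)⁻¹ ∈ V →
      ∃ h u₀ : F, u₀ ∈ V ∧ u₀⁻¹ ∈ V ∧ u = u₀ * h ^ p)
    (hdeep₁ : ∃ a b : B, b ∉ p₁ ∧ a - b ∈ Ideal.span {lam ^ p * w} ∧
      u * algebraMap B F b = algebraMap B F a)
    (hdeep₂ : ∃ a b : B, b ∉ p₂ ∧ a - b ∈ Ideal.span {lam ^ p * w} ∧
      u * algebraMap B F b = algebraMap B F a) :
    ∃ d : F, d ≠ 0 ∧
      (∃ a b : B, b ∉ n ∧ a - b ∈ Ideal.span {lam ^ p} ∧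
        u * d ^ p * algebraMap B F b = algebraMap B F a) ∧
      (∃ a b : B, b ∉ p₁ ∧ a - b ∈ Ideal.span {lam} ∧
        d * algebraMap B F b = algebraMap B F a) ∧
      (∃ a b : B, b ∉ p₂ ∧ a - b ∈ Ideal.span {lam} ∧
        d * algebraMap B F b = algebraMap B F a) := by
  -- the node ring
  obtain ⟨X, Y, -, -, -, -, hnode⟩ :=
    H132.exists_isNode_locAt (F := F) p₁ p₂ n hinf h₁₂ h₂₁ htr h₁ h₂
  -- the inverse unit
  obtain ⟨κ, hκ⟩ := hε.exists_right_inv
  have hκu : IsUnit κ := IsUnit.of_mul_eq_one ε (by rw [mul_comm]; exact hκ)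
  have hpl : (p : B) = lam ^ (p - 1) * κ := by rw [hlam, mul_assoc, hκ, mul_one]
  have hw : w ∈ p₁ ⊓ p₂ := by
    rw [hinf]
    exact Ideal.mem_span_singleton_self w
  have hw₁ : w ∈ p₁ := hw.1
  have hw₂ : w ∈ p₂ := hw.2
  -- the branches are discrete valuation rings
  have hV₁ : H132.VertData w p₁ p₂ := ⟨hp₁, hw0, h₂₁, hinf⟩
  have hV₂ : H132.VertData w p₂ p₁ := ⟨hp₂, hw0, h₁₂, by rw [inf_comm]; exact hinf⟩
  haveI hdvr₁ : IsDiscreteValuationRing (locAt F p₁) := hV₁.isDiscreteValuationRing_locAt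
  haveI hdvr₂ : IsDiscreteValuationRing (locAt F p₂) := hV₂.isDiscreteValuationRing_locAt
  -- common denominator
  obtain ⟨a, b, hb₁, hb₂, hab⟩ := exists_common_denominator (p₁ := p₁) (p₂ := p₂) (u := u)
    (by obtain ⟨a, b, hb, -, e⟩ := hdeep₁; exact ⟨a, b, hb, e⟩)
    (by obtain ⟨a, b, hb, -, e⟩ := hdeep₂; exact ⟨a, b, hb, e⟩)
  have ha₁ : a ∉ p₁ := wpn_num_notMem p₁ hw₁ hdeep₁ hb₁ hab
  have ha₂ : a ∉ p₂ := wpn_num_notMem p₂ hw₂ hdeep₂ hb₂ hab
  have hb0 : algebraMap B F b ≠ 0 := wpn_ne_zero hb₁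
  have hpp : p = (p - 1) + 1 := by have := hp.two_le; omega
  -- `g = a b ^ (p - 1)`
  have hg₁ : a * b ^ (p - 1) ∉ p₁ := by
    intro h
    rcases hp₁.mem_or_mem h with h | h
    · exact ha₁ h
    · exact hb₁ (hp₁.mem_of_pow_mem _ h)
  have hg₂ : a * b ^ (p - 1) ∉ p₂ := by
    intro h
    rcases hp₂.mem_or_mem h with h | h
    · exact ha₂ h
    · exact hb₂ (hp₂.mem_of_pow_mem _ h)
  have hgF : algebraMap B F (a * b ^ (p - 1)) = u * algebraMap B F b ^ p := by
    rw [map_mul, map_pow, ← hab]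
    conv_rhs => rw [hpp, pow_succ]
    ring
  -- horizontal divisibility
  have hHor : I6.HorDiv (algebraMap B (locAt F n) w) p
      (algebraMap B (locAt F n) (a * b ^ (p - 1))) := by
    refine H132.horDiv_of_divisible (K := F) hnode hp.ne_zero hu
      (b := algebraMap B (locAt F n) b) ?_ ?_
    · exact hgF
    · intro V hV hO hwV
      exact hdiv V hV (fun b => hO (algebraMap B (locAt F n) b)) hwV
  -- the branch hypotheses
  have hpow₁ : ∀ k : ℕ, ∃ h r t : locAt F n, r ∉ p₁.map (algebraMap B (locAt F n)) ∧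
      algebraMap B (locAt F n) (a * b ^ (p - 1)) * r ^ p - h ^ p
        = algebraMap B (locAt F n) w ^ k * t := by
    intro k
    obtain ⟨h, r, t, hr, e⟩ := wpn_branch_pthPow (F := F) p₁ hp hκu hpl hw₁ hdeep₁ hab k
    refine ⟨algebraMap B _ h, algebraMap B _ r, algebraMap B _ t,
      fun hmem => hr ((algebraMap_mem_map_iff h₁ r).1 hmem), ?_⟩
    rw [← map_pow, ← map_pow, ← map_pow, ← map_mul, ← map_mul, ← map_sub, e]
  have hpow₂ : ∀ k : ℕ, ∃ h r t : locAt F n, r ∉ p₂.map (algebraMap B (locAt F n)) ∧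
      algebraMap B (locAt F n) (a * b ^ (p - 1)) * r ^ p - h ^ p
        = algebraMap B (locAt F n) w ^ k * t := by
    intro k
    obtain ⟨h, r, t, hr, e⟩ := wpn_branch_pthPow (F := F) p₂ hp hκu hpl hw₂ hdeep₂ hab k
    refine ⟨algebraMap B _ h, algebraMap B _ r, algebraMap B _ t,
      fun hmem => hr ((algebraMap_mem_map_iff h₂ r).1 hmem), ?_⟩
    rw [← map_pow, ← map_pow, ← map_pow, ← map_mul, ← map_mul, ← map_sub, e]
  -- WPUR
  obtain ⟨d₁, d₂, s, z, hd₁, hd₂, hs, hwp⟩ := H7.wildPurity (locAt F n) _ _ _ _ _ hnode p hp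
    (algebraMap B _ lam) (algebraMap B _ ε) (algebraMap B _ η) e (hε.map _)
    (by rw [← map_pow, hlam, map_mul, map_natCast]) (hη.map _) he
    (by rw [hlamη, map_mul, map_pow])
    (algebraMap B _ (a * b ^ (p - 1)))
    (fun hmem => hg₁ ((algebraMap_mem_map_iff h₁ _).1 hmem))
    (fun hmem => hg₂ ((algebraMap_mem_map_iff h₂ _).1 hmem)) hHor hpow₁ hpow₂
  have hd₁F : (d₁ : F) ≠ 0 := fun h => hd₁ (Subtype.ext h)
  have hd₂F : (d₂ : F) ≠ 0 := fun h => hd₂ (Subtype.ext h)
  have hsF : (s : F) ≠ 0 := fun h => hs.ne_zero (Subtype.ext h)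
  have hwpF := congrArg (fun z : locAt F n => (z : F)) hwp
  simp only [Subalgebra.coe_add, Subalgebra.coe_mul, Subalgebra.coe_pow, Subalgebra.coe_one,
    coe_algebraMap_locAt] at hwpF
  rw [hgF] at hwpF
  -- the witness
  have hds : (d₁ : F) * (s : F) ≠ 0 := mul_ne_zero hd₁F hsF
  set d : F := algebraMap B F b * (d₂ : F) * ((d₁ : F) * (s : F))⁻¹ with hd
  have hd0 : d ≠ 0 := mul_ne_zero (mul_ne_zero hb0 hd₂F) (inv_ne_zero hds)
  have hud : u * d ^ p = 1 + algebraMap B F lam ^ p * (z : F) := by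
    have h1 : u * d ^ p * ((d₁ : F) * (s : F)) ^ p
        = (1 + algebraMap B F lam ^ p * (z : F)) * ((d₁ : F) * (s : F)) ^ p := by
      rw [hd, mul_pow, mul_pow (algebraMap B F b), inv_pow]
      rw [mul_assoc, mul_assoc, inv_mul_cancel₀ (pow_ne_zero p hds), mul_one]
      rw [mul_pow]
      linear_combination hwpF
    exact mul_right_cancel₀ (pow_ne_zero p hds) h1
  refine ⟨d, hd0, ?_, ?_, ?_⟩
  · obtain ⟨az, sz, hsz, hz⟩ := (mem_locAt_iff n (z : F)).1 z.2
    have hsz0 : algebraMap B F sz ≠ 0 := wpn_ne_zero hsz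
    refine ⟨sz + lam ^ p * az, sz, hsz, ?_, ?_⟩
    · rw [add_sub_cancel_left]
      exact Ideal.mul_mem_right _ _ (Ideal.mem_span_singleton_self _)
    · rw [hud, hz]
      simp only [map_add, map_mul, map_pow]
      field_simp
  · refine wpn_branch_close (F := F) p₁ hp hpl hw₁ hdeep₁ (z := (z : F)) ?_ hud
    obtain ⟨az, sz, hsz, hz⟩ := (mem_locAt_iff n (z : F)).1 z.2
    exact (mem_locAt_iff p₁ _).2 ⟨az, sz, fun h => hsz (h₁ h), hz⟩
  · refine wpn_branch_close (F := F) p₂ hp hpl hw₂ hdeep₂ (z := (z : F)) ?_ hud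
    obtain ⟨az, sz, hsz, hz⟩ := (mem_locAt_iff n (z : F)).1 z.2
    exact (mem_locAt_iff p₂ _).2 ⟨az, sz, fun h => hsz (h₂ h), hz⟩

end Abstract

/-- **Leaf WPN** (`H495.AlgP.WPNodeLeaf`, VERBATIM): wild purity at a crossing point of a
semistable chart. -/
theorem wpNodeLeaf : H495.AlgP.WPNodeLeaf := by
  intro R E F _ _ _ _ _ _ _ _ _ _ _ _ _ p hp _ hpm ζ hζ w x B hB c _ u hu hdiv hdeep n hn _ h1 h2
  obtain ⟨hnoeth, hic, hfr⟩ := Fermat.Agent.A2.Alg.H34.chart_instances' w x B hB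
  haveI := hnoeth
  haveI := hic
  haveI := hfr
  haveI := c.prime₁
  haveI := c.prime₂
  haveI := hn.isPrime
  haveI : IsDedekindDomain (B ⧸ c.p₁) :=
    Fermat.Agent.A2.Alg.H132.isDedekindDomain_quotient_p₁ w x B hB c
  haveI : IsDedekindDomain (B ⧸ c.p₂) :=
    Fermat.Agent.A2.Alg.H132.isDedekindDomain_quotient_p₂ w x B hB c
  -- `λ = ζ - 1`
  obtain ⟨ε, hε, hlam⟩ := wpn_lam_pow hp hζ
  have hlam0 : ζ - 1 ≠ 0 := sub_ne_zero.2 (hζ.ne_one hp.one_lt)
  obtain ⟨e, η, hη⟩ := IsDiscreteValuationRing.eq_unit_mul_pow_irreducible hlam0 hB.hw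
  have he : 0 < e := by
    rcases Nat.eq_zero_or_pos e with rfl | he
    · exfalso
      rw [pow_zero, mul_one] at hη
      have h1 : IsUnit ((ζ - 1) ^ (p - 1)) := by
        rw [hη]
        exact (Units.isUnit η).pow _
      rw [hlam] at h1
      have h2 : IsUnit (p : R) := isUnit_of_mul_isUnit_left h1
      exact (IsLocalRing.mem_maximalIdeal _).1 hpm h2
    · exact he
  -- `w ≠ 0` in `B`
  have hinj : Function.Injective (algebraMap R F) := by
    rw [IsScalarTower.algebraMap_eq R E F]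
    exact (algebraMap E F).injective.comp (IsFractionRing.injective R E)
  have hw0 : algebraMap R B w ≠ 0 := by
    intro h
    apply hB.hw.ne_zero
    apply hinj
    have := congrArg (fun b : B => (b : F)) h
    simpa using this
  -- the deep hypotheses
  have hdeep₁ : ∃ a b : B, b ∉ c.p₁ ∧
      a - b ∈ Ideal.span {algebraMap R B (ζ - 1) ^ p * algebraMap R B w} ∧
      u * algebraMap B F b = algebraMap B F a := by
    obtain ⟨a, b, hb, hab, e⟩ := hdeep.1
    refine ⟨a, b, hb, ?_, e⟩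
    rw [← map_pow, ← map_mul]
    exact hab
  have hdeep₂ : ∃ a b : B, b ∉ c.p₂ ∧
      a - b ∈ Ideal.span {algebraMap R B (ζ - 1) ^ p * algebraMap R B w} ∧
      u * algebraMap B F b = algebraMap B F a := by
    obtain ⟨a, b, hb, hab, e⟩ := hdeep.2
    refine ⟨a, b, hb, ?_, e⟩
    rw [← map_pow, ← map_mul]
    exact hab
  obtain ⟨d, hd0, ⟨a, b, hb, hab, e₀⟩, ⟨a₁, b₁, hb₁, hab₁, e₁⟩, ⟨a₂, b₂, hb₂, hab₂, e₂⟩⟩ :=
    wpn_abstract (F := F) hw0 c.p₁ c.p₂ n c.inf_eq c.not_le₁₂ c.not_le₂₁ c.transversal h1 h2 hp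
      (lam := algebraMap R B (ζ - 1)) (ε := algebraMap R B ε) (η := algebraMap R B (η : R))
      (e := e) (hε.map _) (by rw [← map_pow, hlam, map_mul, map_natCast])
      ((Units.isUnit η).map _) he (by rw [hη, map_mul, map_pow]) hu
      (Fermat.Agent.A2.Alg.H132.hdiv_of_divisibleDiv w hB.hw B p u hdiv) hdeep₁ hdeep₂
  refine ⟨d, hd0, ⟨a, b, hb, ?_, e₀⟩, ⟨0, a₁, b₁, hb₁, hab₁, ?_⟩, ⟨0, a₂, b₂, hb₂, hab₂, ?_⟩⟩
  · rw [map_pow]
    exact hab
  · rw [pow_zero, map_one, one_mul]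
    exact e₁
  · rw [pow_zero, map_one, one_mul]
    exact e₂

end Fermat.Agent.Ribet.H224


end
-- ===== PACK-END Ribet/H224/WPNode.lean

-- ===== PACK-BEGIN A2/Mod/H553/Fricke.lean
section




/-!
# A2 / MOD leaves L4 `FrickeExists`, L5 `FrickeCompat` (helper553)

* `ringHom_ext_FE` : two ring homomorphisms out of `F_{N,E} = E(j_d : d ∣ N)` which agree on the
  constants `E` and on the generators `j_d` are equal;
* `wE E N : FE E N ≃ₐ[E] FE E N` : the Fricke involution over `E`, the restriction of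
  `H528.wF N` along `ι : F_{N,E} → F̄_N` (`iota_wE`);
* `frickeExists : FrickeExistsStatement E`  (L4);
* `frickeCompat : FrickeCompatStatement E M q`  (L5);
* `IsFricke` determines `W` (`isFricke_unique`).
-/

set_option autoImplicit false
set_option synthInstance.maxHeartbeats 400000
set_option maxHeartbeats 1600000
set_option linter.unusedSectionVars false
set_option linter.style.haveILetI false

noncomputable section

namespace Fermat.Agent.A2.Mod.H553

open ModularCurve HahnSeries Polynomial IntermediateField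
open Fermat.Agent.A2 Fermat.Agent.A2.Mod Fermat.Agent.S18.H602

variable (E : IntermediateField ℚ _root_.Fermat.Agent.A2.Mod.Qb)

/-! ### Extensionality for ring homomorphisms out of `F_{N,E}` -/

theorem coeffEmb_algebraMap_rat (c : ℚ) :
    coeffEmb (↥E) (algebraMap ℚ (LaurentSeries ℚ) c) =
      algebraMap (↥E) (LaurentSeries ↥E) (algebraMap ℚ (↥E) c) := by
  rw [algebraMap_apply_eq_single, algebraMap_laurentSeries_eq_single, coeffEmb,
    coeffMap_single]

/-- Two ring homomorphisms out of `F_{N,E}` agreeing on `E` and on the `j_d`, `d ∣ N`, agree. -/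
theorem ringHom_ext_FE {N : ℕ} {K : Type*} [DivisionRing K] (φ ψ : ↥(_root_.Fermat.Agent.A2.Mod.FE E N) →+* K)
    (hE : ∀ e : ↥E, φ (algebraMap ↥E ↥(_root_.Fermat.Agent.A2.Mod.FE E N) e) = ψ (algebraMap ↥E ↥(_root_.Fermat.Agent.A2.Mod.FE E N) e))
    (hj : ∀ (d : ℕ) [NeZero d] (hd : d ∣ N), φ (jE E N d hd) = ψ (jE E N d hd)) :
    φ = ψ := by
  -- first: the rational functions
  have hrat : ∀ z ∈ modularFunctionFieldFull N, ∀ hz' : coeffEmb (↥E) z ∈ _root_.Fermat.Agent.A2.Mod.FE E N,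
      φ ⟨coeffEmb (↥E) z, hz'⟩ = ψ ⟨coeffEmb (↥E) z, hz'⟩ := by
    intro z₀ hz₀
    have hz0 : z₀ ∈ IntermediateField.adjoin ℚ (divisorExpansions N) := hz₀
    clear hz₀
    induction hz0 using IntermediateField.adjoin_induction with
    | mem y hy =>
        intro hz'
        obtain ⟨d, hne, hd, rfl⟩ := hy
        haveI := hne
        exact hj d hd
    | algebraMap c =>
        intro hz'
        have h1 : (⟨coeffEmb (↥E) (algebraMap ℚ (LaurentSeries ℚ) c), hz'⟩ : ↥(_root_.Fermat.Agent.A2.Mod.FE E N))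
            = algebraMap ↥E ↥(_root_.Fermat.Agent.A2.Mod.FE E N) (algebraMap ℚ ↥E c) :=
          Subtype.ext (coeffEmb_algebraMap_rat E c)
        rw [h1]
        exact hE _
    | add y z hy hz ihy ihz =>
        intro hz'
        have hy' := coeffEmb_mem_laurentBaseChange (↥E) (F₀ := modularFunctionFieldFull N) hy
        have hz'' := coeffEmb_mem_laurentBaseChange (↥E) (F₀ := modularFunctionFieldFull N) hz
        have h1 : (⟨coeffEmb (↥E) (y + z), hz'⟩ : ↥(_root_.Fermat.Agent.A2.Mod.FE E N))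
            = ⟨coeffEmb (↥E) y, hy'⟩ + ⟨coeffEmb (↥E) z, hz''⟩ := Subtype.ext (map_add _ _ _)
        rw [h1, map_add, map_add, ihy hy', ihz hz'']
    | inv y hy ihy =>
        intro hz'
        have hy' := coeffEmb_mem_laurentBaseChange (↥E) (F₀ := modularFunctionFieldFull N) hy
        have h1 : (⟨coeffEmb (↥E) (y⁻¹), hz'⟩ : ↥(_root_.Fermat.Agent.A2.Mod.FE E N))
            = (⟨coeffEmb (↥E) y, hy'⟩ : ↥(_root_.Fermat.Agent.A2.Mod.FE E N))⁻¹ := Subtype.ext (map_inv₀ _ _)
        rw [h1, map_inv₀, map_inv₀, ihy hy']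
    | mul y z hy hz ihy ihz =>
        intro hz'
        have hy' := coeffEmb_mem_laurentBaseChange (↥E) (F₀ := modularFunctionFieldFull N) hy
        have hz'' := coeffEmb_mem_laurentBaseChange (↥E) (F₀ := modularFunctionFieldFull N) hz
        have h1 : (⟨coeffEmb (↥E) (y * z), hz'⟩ : ↥(_root_.Fermat.Agent.A2.Mod.FE E N))
            = ⟨coeffEmb (↥E) y, hy'⟩ * ⟨coeffEmb (↥E) z, hz''⟩ := Subtype.ext (map_mul _ _ _)
        rw [h1, map_mul, map_mul, ihy hy', ihz hz'']
  have key : ∀ (x : LaurentSeries ↥E) (hx : x ∈ _root_.Fermat.Agent.A2.Mod.FE E N), φ ⟨x, hx⟩ = ψ ⟨x, hx⟩ := by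
    intro x hx
    have hx0 : x ∈ IntermediateField.adjoin (↥E)
        (⇑(coeffEmb ↥E) '' (modularFunctionFieldFull N : Set (LaurentSeries ℚ))) := hx
    suffices h : ∀ hx' : x ∈ _root_.Fermat.Agent.A2.Mod.FE E N, φ ⟨x, hx'⟩ = ψ ⟨x, hx'⟩ from h hx
    clear hx
    induction hx0 using IntermediateField.adjoin_induction with
    | mem y hy =>
        intro hx'
        obtain ⟨z, hz, rfl⟩ := hy
        exact hrat z hz hx'
    | algebraMap c =>
        intro hx'
        exact hE c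
    | add y z hy hz ihy ihz =>
        intro hx'
        have h1 : (⟨y + z, hx'⟩ : ↥(_root_.Fermat.Agent.A2.Mod.FE E N)) = ⟨y, hy⟩ + ⟨z, hz⟩ := rfl
        rw [h1, map_add, map_add, ihy hy, ihz hz]
    | inv y hy ihy =>
        intro hx'
        have h1 : (⟨y⁻¹, hx'⟩ : ↥(_root_.Fermat.Agent.A2.Mod.FE E N)) = (⟨y, hy⟩ : ↥(_root_.Fermat.Agent.A2.Mod.FE E N))⁻¹ := rfl
        rw [h1, map_inv₀, map_inv₀, ihy hy]
    | mul y z hy hz ihy ihz =>
        intro hx'
        have h1 : (⟨y * z, hx'⟩ : ↥(_root_.Fermat.Agent.A2.Mod.FE E N)) = ⟨y, hy⟩ * ⟨z, hz⟩ := rfl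
        rw [h1, map_mul, map_mul, ihy hy, ihz hz]
  exact RingHom.ext fun f => key f.1 f.2

/-! ### The Fricke involution over `E` -/

section Fricke

variable (N : ℕ) [NeZero N]

/-- the comparison map `F_{N,E} → F̄_N` -/
abbrev iotaN : ↥(_root_.Fermat.Agent.A2.Mod.FE E N) →+* ↥(modularFunctionFieldBar N) :=
  T1.H849.iota E (modularFunctionFieldFull N)

theorem iotaN_injective : Function.Injective (iotaN E N) := (iotaN E N).injective

theorem iotaN_algebraMap (e : ↥E) :
    iotaN E N (algebraMap ↥E ↥(_root_.Fermat.Agent.A2.Mod.FE E N) e) =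
      algebraMap _root_.Fermat.Agent.A2.Mod.Qb ↥(modularFunctionFieldBar N) (e : _root_.Fermat.Agent.A2.Mod.Qb) :=
  T1.H849.iota_algebraMap E (modularFunctionFieldFull N) e

theorem iotaN_jE (d : ℕ) [NeZero d] (hd : d ∣ N) :
    iotaN E N (jE E N d hd) = H528.jFd N d hd := by
  apply Subtype.ext
  show coeffMap (algebraMap ↥E _root_.Fermat.Agent.A2.Mod.Qb) (coeffEmb (↥E) (qExpand ℚ d jq)) = _
  rw [coeffMap_coeffEmb']
  rfl

/-- `w_N` preserves `F_{N,E}`. -/
theorem exists_iota_eq_wF (f : ↥(_root_.Fermat.Agent.A2.Mod.FE E N)) :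
    ∃ g : ↥(_root_.Fermat.Agent.A2.Mod.FE E N), iotaN E N g = H528.wF N (iotaN E N f) := by
  obtain ⟨x, hx⟩ := f
  have hx0 : x ∈ IntermediateField.adjoin (↥E)
      (⇑(coeffEmb ↥E) '' (modularFunctionFieldFull N : Set (LaurentSeries ℚ))) := hx
  suffices h : ∀ hx' : x ∈ _root_.Fermat.Agent.A2.Mod.FE E N,
      ∃ g : ↥(_root_.Fermat.Agent.A2.Mod.FE E N), iotaN E N g = H528.wF N (iotaN E N ⟨x, hx'⟩) from h hx
  clear hx
  induction hx0 using IntermediateField.adjoin_induction with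
  | mem y hy =>
      intro hx'
      obtain ⟨z, hz, rfl⟩ := hy
      obtain ⟨y', hy', hy''⟩ := H528.wF_rat N hz
      refine ⟨⟨coeffEmb (↥E) y', coeffEmb_mem_laurentBaseChange (↥E) hy'⟩, Subtype.ext ?_⟩
      have h1 : iotaN E N ⟨coeffEmb (↥E) z, hx'⟩ =
          ⟨coeffEmb _root_.Fermat.Agent.A2.Mod.Qb z, coeffEmb_mem_laurentBaseChange _root_.Fermat.Agent.A2.Mod.Qb hz⟩ :=
        Subtype.ext (coeffMap_coeffEmb' _ z)
      rw [h1, hy'']
      exact coeffMap_coeffEmb' _ y'
  | algebraMap c =>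
      intro hx'
      refine ⟨algebraMap ↥E ↥(_root_.Fermat.Agent.A2.Mod.FE E N) c, ?_⟩
      have h1 : (⟨algebraMap (↥E) (LaurentSeries ↥E) c, hx'⟩ : ↥(_root_.Fermat.Agent.A2.Mod.FE E N)) =
          algebraMap ↥E ↥(_root_.Fermat.Agent.A2.Mod.FE E N) c := rfl
      rw [h1, iotaN_algebraMap, AlgEquiv.commutes]
  | add y z hy hz ihy ihz =>
      intro hx'
      obtain ⟨a, ha⟩ := ihy hy
      obtain ⟨b, hb⟩ := ihz hz
      refine ⟨a + b, ?_⟩
      have h1 : (⟨y + z, hx'⟩ : ↥(_root_.Fermat.Agent.A2.Mod.FE E N)) = ⟨y, hy⟩ + ⟨z, hz⟩ := rfl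
      rw [h1, map_add, map_add, map_add, ha, hb]
  | inv y hy ihy =>
      intro hx'
      obtain ⟨a, ha⟩ := ihy hy
      refine ⟨a⁻¹, ?_⟩
      have h1 : (⟨y⁻¹, hx'⟩ : ↥(_root_.Fermat.Agent.A2.Mod.FE E N)) = (⟨y, hy⟩ : ↥(_root_.Fermat.Agent.A2.Mod.FE E N))⁻¹ := rfl
      rw [h1, map_inv₀, map_inv₀, map_inv₀, ha]
  | mul y z hy hz ihy ihz =>
      intro hx'
      obtain ⟨a, ha⟩ := ihy hy
      obtain ⟨b, hb⟩ := ihz hz
      refine ⟨a * b, ?_⟩
      have h1 : (⟨y * z, hx'⟩ : ↥(_root_.Fermat.Agent.A2.Mod.FE E N)) = ⟨y, hy⟩ * ⟨z, hz⟩ := rfl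
      rw [h1, map_mul, map_mul, map_mul, ha, hb]

/-- the Fricke involution over `E`, as a function -/
def wEFun (f : ↥(_root_.Fermat.Agent.A2.Mod.FE E N)) : ↥(_root_.Fermat.Agent.A2.Mod.FE E N) := (exists_iota_eq_wF E N f).choose

theorem iota_wEFun (f : ↥(_root_.Fermat.Agent.A2.Mod.FE E N)) :
    iotaN E N (wEFun E N f) = H528.wF N (iotaN E N f) :=
  (exists_iota_eq_wF E N f).choose_spec

/-- the Fricke involution over `E`, as a ring homomorphism -/
def wEHom : ↥(_root_.Fermat.Agent.A2.Mod.FE E N) →+* ↥(_root_.Fermat.Agent.A2.Mod.FE E N) where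
  toFun := wEFun E N
  map_one' := iotaN_injective E N (by rw [iota_wEFun, map_one, map_one])
  map_mul' a b := iotaN_injective E N (by
    rw [iota_wEFun, map_mul, map_mul, map_mul, iota_wEFun, iota_wEFun])
  map_zero' := iotaN_injective E N (by rw [iota_wEFun, map_zero, map_zero])
  map_add' a b := iotaN_injective E N (by
    rw [iota_wEFun, map_add, map_add, map_add, iota_wEFun, iota_wEFun])

theorem iota_wEHom (f : ↥(_root_.Fermat.Agent.A2.Mod.FE E N)) :
    iotaN E N (wEHom E N f) = H528.wF N (iotaN E N f) := iota_wEFun E N f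

theorem wEHom_wEHom (f : ↥(_root_.Fermat.Agent.A2.Mod.FE E N)) : wEHom E N (wEHom E N f) = f :=
  iotaN_injective E N (by rw [iota_wEHom, iota_wEHom, H528.wF_wF])

theorem wEHom_algebraMap (e : ↥E) :
    wEHom E N (algebraMap ↥E ↥(_root_.Fermat.Agent.A2.Mod.FE E N) e) = algebraMap ↥E ↥(_root_.Fermat.Agent.A2.Mod.FE E N) e :=
  iotaN_injective E N (by rw [iota_wEHom, iotaN_algebraMap, AlgEquiv.commutes])

/-- **The Fricke involution `w_N` of `F_{N,E}` over `E`.** -/
def wE : ↥(_root_.Fermat.Agent.A2.Mod.FE E N) ≃ₐ[↥E] ↥(_root_.Fermat.Agent.A2.Mod.FE E N) :=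
  AlgEquiv.ofAlgHom
    { toRingHom := wEHom E N, commutes' := wEHom_algebraMap E N }
    { toRingHom := wEHom E N, commutes' := wEHom_algebraMap E N }
    (AlgHom.ext fun f => wEHom_wEHom E N f)
    (AlgHom.ext fun f => wEHom_wEHom E N f)

theorem wE_apply (f : ↥(_root_.Fermat.Agent.A2.Mod.FE E N)) : wE E N f = wEHom E N f := rfl

/-- `ι ∘ w_{N,E} = w_N ∘ ι`. -/
theorem iota_wE (f : ↥(_root_.Fermat.Agent.A2.Mod.FE E N)) :
    iotaN E N (wE E N f) = H528.wF N (iotaN E N f) := iota_wEHom E N f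

theorem wE_jE (d d' : ℕ) [NeZero d] [NeZero d'] (hd : d ∣ N) (hd' : d' ∣ N) (h : d * d' = N) :
    wE E N (jE E N d hd) = jE E N d' hd' := by
  apply iotaN_injective E N
  rw [iota_wE, iotaN_jE, iotaN_jE, H528.wF_jFd]
  have hd0 : 0 < d := Nat.pos_of_ne_zero (NeZero.ne d)
  have hdiv : N / d = d' := by
    rw [← h]
    exact Nat.mul_div_cancel_left d' hd0
  haveI := H528.neZero_div N hd
  exact H528.jFd_congr N (Nat.div_dvd_of_dvd hd) hd' hdiv

theorem isFricke_wE : IsFricke E N (wE E N) :=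
  ⟨fun d d' _ _ hd hd' h => wE_jE E N d d' hd hd' h, fun f => wEHom_wEHom E N f⟩

end Fricke

/-- **L4.** -/
theorem frickeExists : FrickeExistsStatement E := by
  intro N hN
  haveI : NeZero N := ⟨hN⟩
  exact ⟨wE E N, isFricke_wE E N⟩

/-- `IsFricke` determines the involution. -/
theorem isFricke_unique {N : ℕ} (hN : N ≠ 0) {W W' : ↥(_root_.Fermat.Agent.A2.Mod.FE E N) ≃ₐ[↥E] ↥(_root_.Fermat.Agent.A2.Mod.FE E N)}
    (hW : IsFricke E N W) (hW' : IsFricke E N W') : W = W' := by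
  have h : (W : ↥(_root_.Fermat.Agent.A2.Mod.FE E N) →+* ↥(_root_.Fermat.Agent.A2.Mod.FE E N)) = (W' : ↥(_root_.Fermat.Agent.A2.Mod.FE E N) →+* ↥(_root_.Fermat.Agent.A2.Mod.FE E N)) := by
    refine ringHom_ext_FE E _ _ (fun e => ?_) (fun d _ hd => ?_)
    · show W (algebraMap ↥E ↥(_root_.Fermat.Agent.A2.Mod.FE E N) e) = W' (algebraMap ↥E ↥(_root_.Fermat.Agent.A2.Mod.FE E N) e)
      rw [AlgEquiv.commutes, AlgEquiv.commutes]
    · show W (jE E N d hd) = W' (jE E N d hd)
      have hd0 : 0 < d := Nat.pos_of_ne_zero (NeZero.ne d)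
      haveI : NeZero (N / d) := ⟨by
        intro h0
        rcases (Nat.div_eq_zero_iff).mp h0 with h1 | h1
        · exact (NeZero.ne d) h1
        · exact absurd (Nat.le_of_dvd (Nat.pos_of_ne_zero hN) hd) (not_le.mpr h1)⟩
      rw [hW.1 d (N / d) hd (Nat.div_dvd_of_dvd hd) (Nat.mul_div_cancel' hd),
        hW'.1 d (N / d) hd (Nat.div_dvd_of_dvd hd) (Nat.mul_div_cancel' hd)]
  exact AlgEquiv.ext fun f => congrArg (fun φ : ↥(_root_.Fermat.Agent.A2.Mod.FE E N) →+* ↥(_root_.Fermat.Agent.A2.Mod.FE E N) => φ f) h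

/-! ### L5: compatibility with the degeneracy maps -/

section Compat

variable (M q : ℕ) [NeZero M] [NeZero q]

theorem αE_jE (d : ℕ) [NeZero d] (hd : d ∣ M) :
    αE E M q (jE E M d hd) = jE E (M * q) d (hd.trans (dvd_mul_right M q)) :=
  Subtype.ext rfl

theorem βE_jE (d : ℕ) [NeZero d] (hd : d ∣ M) :
    haveI : NeZero (d * q) := ⟨mul_ne_zero (NeZero.ne d) (NeZero.ne q)⟩
    βE E M q (jE E M d hd) = jE E (M * q) (d * q) (mul_dvd_mul_right hd q) := by
  haveI : NeZero (d * q) := ⟨mul_ne_zero (NeZero.ne d) (NeZero.ne q)⟩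
  apply Subtype.ext
  show qExpand (↥E) q (coeffEmb (↥E) (qExpand ℚ d jq)) = coeffEmb (↥E) (qExpand ℚ (d * q) jq)
  rw [coeffEmb, ← coeffMap_qExpand, qExpand_qExpand]
  congr 1
  exact qExpand_congr (mul_comm q d) jq

/-- **L5.** -/
theorem frickeCompat : FrickeCompatStatement E M q := by
  intro WM WN hWM hWN
  have hM0 : M ≠ 0 := NeZero.ne M
  have hq0 : q ≠ 0 := NeZero.ne q
  -- the two identities as equalities of ring homomorphisms
  have h1 : ((WN : ↥(_root_.Fermat.Agent.A2.Mod.FE E (M * q)) →+* ↥(_root_.Fermat.Agent.A2.Mod.FE E (M * q))).comp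
      (αE E M q : ↥(_root_.Fermat.Agent.A2.Mod.FE E M) →+* ↥(_root_.Fermat.Agent.A2.Mod.FE E (M * q)))) =
      ((βE E M q : ↥(_root_.Fermat.Agent.A2.Mod.FE E M) →+* ↥(_root_.Fermat.Agent.A2.Mod.FE E (M * q))).comp
        (WM : ↥(_root_.Fermat.Agent.A2.Mod.FE E M) →+* ↥(_root_.Fermat.Agent.A2.Mod.FE E M))) := by
    refine ringHom_ext_FE E _ _ (fun e => ?_) (fun d _ hd => ?_)
    · show WN (αE E M q (algebraMap ↥E ↥(_root_.Fermat.Agent.A2.Mod.FE E M) e)) = βE E M q (WM (algebraMap ↥E ↥(_root_.Fermat.Agent.A2.Mod.FE E M) e))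
      rw [AlgHom.commutes, AlgEquiv.commutes, AlgEquiv.commutes, AlgHom.commutes]
    · show WN (αE E M q (jE E M d hd)) = βE E M q (WM (jE E M d hd))
      have hd0 : d ≠ 0 := NeZero.ne d
      haveI hMd : NeZero (M / d) := ⟨by
        intro h0
        rcases (Nat.div_eq_zero_iff).mp h0 with h1 | h1
        · exact hd0 h1
        · exact absurd (Nat.le_of_dvd (Nat.pos_of_ne_zero hM0) hd) (not_le.mpr h1)⟩
      haveI : NeZero (M / d * q) := ⟨mul_ne_zero (NeZero.ne (M / d)) hq0⟩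
      rw [αE_jE, hWM.1 d (M / d) hd (Nat.div_dvd_of_dvd hd) (Nat.mul_div_cancel' hd), βE_jE]
      refine hWN.1 d (M / d * q) _ _ ?_
      rw [← mul_assoc, Nat.mul_div_cancel' hd]
  have h2 : ((WN : ↥(_root_.Fermat.Agent.A2.Mod.FE E (M * q)) →+* ↥(_root_.Fermat.Agent.A2.Mod.FE E (M * q))).comp
      (βE E M q : ↥(_root_.Fermat.Agent.A2.Mod.FE E M) →+* ↥(_root_.Fermat.Agent.A2.Mod.FE E (M * q)))) =
      ((αE E M q : ↥(_root_.Fermat.Agent.A2.Mod.FE E M) →+* ↥(_root_.Fermat.Agent.A2.Mod.FE E (M * q))).comp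
        (WM : ↥(_root_.Fermat.Agent.A2.Mod.FE E M) →+* ↥(_root_.Fermat.Agent.A2.Mod.FE E M))) := by
    refine ringHom_ext_FE E _ _ (fun e => ?_) (fun d _ hd => ?_)
    · show WN (βE E M q (algebraMap ↥E ↥(_root_.Fermat.Agent.A2.Mod.FE E M) e)) = αE E M q (WM (algebraMap ↥E ↥(_root_.Fermat.Agent.A2.Mod.FE E M) e))
      rw [AlgHom.commutes, AlgEquiv.commutes, AlgEquiv.commutes, AlgHom.commutes]
    · show WN (βE E M q (jE E M d hd)) = αE E M q (WM (jE E M d hd))
      have hd0 : d ≠ 0 := NeZero.ne d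
      haveI hMd : NeZero (M / d) := ⟨by
        intro h0
        rcases (Nat.div_eq_zero_iff).mp h0 with h1 | h1
        · exact hd0 h1
        · exact absurd (Nat.le_of_dvd (Nat.pos_of_ne_zero hM0) hd) (not_le.mpr h1)⟩
      haveI : NeZero (d * q) := ⟨mul_ne_zero hd0 hq0⟩
      rw [βE_jE, hWM.1 d (M / d) hd (Nat.div_dvd_of_dvd hd) (Nat.mul_div_cancel' hd), αE_jE]
      refine hWN.1 (d * q) (M / d) _ _ ?_
      rw [mul_assoc, mul_comm q, ← mul_assoc, Nat.mul_div_cancel' hd]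
  intro f
  exact ⟨congrArg (fun φ : ↥(_root_.Fermat.Agent.A2.Mod.FE E M) →+* ↥(_root_.Fermat.Agent.A2.Mod.FE E (M * q)) => φ f) h1,
    congrArg (fun φ : ↥(_root_.Fermat.Agent.A2.Mod.FE E M) →+* ↥(_root_.Fermat.Agent.A2.Mod.FE E (M * q)) => φ f) h2⟩

end Compat

end Fermat.Agent.A2.Mod.H553

end
end
-- ===== PACK-END A2/Mod/H553/Fricke.lean

-- ===== PACK-BEGIN A2/Mod/H553/VzeroNe.lean
section



/-!
# A2 / MOD leaf L6 `VzeroNe` (helper553)

`V₀ := V∞ ∘ W ≠ V∞` at level `Mq` over `E`: the Frobenius element `u = j_q - j^q` is a non-unit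
of `V∞` (`u = q · g`, `g` integral) while `W u = j_M - j_{Mq}^q` has an integral `t`-expansion
with a coefficient `-1`, hence is a unit of `V∞`.

* `frobE` : the element `u`;
* `inv_frobE_not_mem`, `inv_W_frobE_mem`;
* `vzeroNe : VzeroNeStatement P E M q w`  (L6).
-/

set_option autoImplicit false
set_option synthInstance.maxHeartbeats 400000
set_option maxHeartbeats 1600000
set_option linter.unusedSectionVars false
set_option linter.style.haveILetI false

noncomputable section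

namespace Fermat.Agent.A2.Mod.H553

open ModularCurve HahnSeries Polynomial
open Fermat.Agent.A2 Fermat.Agent.A2.Mod

variable (P : ValuationSubring _root_.Fermat.Agent.A2.Mod.Qb) (E : IntermediateField ℚ _root_.Fermat.Agent.A2.Mod.Qb) (M q : ℕ) [NeZero M] [NeZero q]

/-- The Frobenius element `u = j_q - j^q` of `F_{Mq,E}`. -/
def frobE : ↥(_root_.Fermat.Agent.A2.Mod.FE E (M * q)) :=
  jE E (M * q) q (dvd_mul_left q M) - jE E (M * q) 1 (one_dvd _) ^ q

/-- its integral `t`-expansion -/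
theorem coe_frobE :
    ((frobE E M q : ↥(_root_.Fermat.Agent.A2.Mod.FE E (M * q))) : LaurentSeries ↥E) =
      coeffEmb (↥E) (H708.castQ (H708.jInt q - H708.jInt 1 ^ q)) := by
  rw [map_sub, map_sub, map_pow, map_pow, ← coe_jE (E := E) (M * q) q (dvd_mul_left q M),
    ← coe_jE (E := E) (M * q) 1 (one_dvd _)]
  rfl

theorem jInt_eq_qExpand (d : ℕ) [NeZero d] : H708.jInt d = qExpand ℤ d (H708.jInt 1) := by
  show qExpand ℤ d (jqModC ℤ) = qExpand ℤ d (qExpand ℤ 1 (jqModC ℤ))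
  rw [qExpand_one_apply]

/-- `u = q · g` with `g` integral. -/
theorem exists_frobE_eq [Fact q.Prime] :
    ∃ g : LaurentSeries ℤ,
      ((frobE E M q : ↥(_root_.Fermat.Agent.A2.Mod.FE E (M * q))) : LaurentSeries ↥E) =
        algebraMap (↥E) (LaurentSeries ↥E) (q : ↥E) * coeffEmb (↥E) (H708.castQ g) := by
  obtain ⟨g, hg⟩ := H528.exists_frobCong q (H708.jInt 1)
  refine ⟨g, ?_⟩
  rw [coe_frobE, jInt_eq_qExpand q, hg, map_mul, map_mul]
  congr 1
  ext n
  simp [coeffEmb, H708.castQ, HahnSeries.coeff_single, algebraMap_laurentSeries_eq_single]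

variable {P E M q}

/-- the Frobenius element is not a unit of `V∞` -/
theorem inv_frobE_not_mem [Fact q.Prime] [IsNoetherianRing ↥(_root_.Fermat.Agent.A2.Mod.RE P E)]
    (hP : P.LiesOverPrime q) {V : ValuationSubring ↥(_root_.Fermat.Agent.A2.Mod.FE E (M * q))}
    (hV : IsVinf P E (M * q) V) (hu0 : frobE E M q ≠ 0) : (frobE E M q)⁻¹ ∉ V := by
  intro hmem
  obtain ⟨g, hg⟩ := exists_frobE_eq E M q
  have hq0 : (q : ↥E) ≠ 0 := by exact_mod_cast NeZero.ne q
  have hqF : algebraMap ↥E ↥(_root_.Fermat.Agent.A2.Mod.FE E (M * q)) (q : ↥E) ≠ 0 :=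
    (map_ne_zero_iff _ (algebraMap ↥E ↥(_root_.Fermat.Agent.A2.Mod.FE E (M * q))).injective).mpr hq0
  -- `g' := u / q` has integral expansion `g`
  set g' : ↥(_root_.Fermat.Agent.A2.Mod.FE E (M * q)) := (algebraMap ↥E ↥(_root_.Fermat.Agent.A2.Mod.FE E (M * q)) (q : ↥E))⁻¹ * frobE E M q with hg'
  have hcoe : ((g' : ↥(_root_.Fermat.Agent.A2.Mod.FE E (M * q))) : LaurentSeries ↥E) = coeffEmb (↥E) (H708.castQ g) := by
    have hqS : algebraMap (↥E) (LaurentSeries ↥E) (q : ↥E) ≠ 0 :=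
      (map_ne_zero_iff _ (algebraMap (↥E) (LaurentSeries ↥E)).injective).mpr hq0
    have h1 : ((g' : ↥(_root_.Fermat.Agent.A2.Mod.FE E (M * q))) : LaurentSeries ↥E) =
        (algebraMap (↥E) (LaurentSeries ↥E) (q : ↥E))⁻¹ *
          ((frobE E M q : ↥(_root_.Fermat.Agent.A2.Mod.FE E (M * q))) : LaurentSeries ↥E) := by
      rw [hg', IntermediateField.coe_mul, IntermediateField.coe_inv]
      rfl
    rw [h1, hg, ← mul_assoc, inv_mul_cancel₀ hqS, one_mul]
  have hg'V : g' ∈ V := mem_of_int hV hcoe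
  have hkey : (algebraMap ↥E ↥(_root_.Fermat.Agent.A2.Mod.FE E (M * q)) (q : ↥E))⁻¹ = g' * (frobE E M q)⁻¹ := by
    rw [hg', mul_assoc, mul_inv_cancel₀ hu0, mul_one]
  have h2 : (algebraMap ↥E ↥(_root_.Fermat.Agent.A2.Mod.FE E (M * q)) (q : ↥E))⁻¹ ∈ V := by
    rw [hkey]
    exact V.mul_mem _ _ hg'V hmem
  have h3 : (algebraMap ↥E ↥(_root_.Fermat.Agent.A2.Mod.FE E (M * q)) (q : ↥E))⁻¹ =
      algebraMap ↥E ↥(_root_.Fermat.Agent.A2.Mod.FE E (M * q)) ((q : ↥E)⁻¹) := (map_inv₀ _ _).symm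
  rw [h3] at h2
  have h4 : ((q : ↥E)⁻¹) ∈ _root_.Fermat.Agent.A2.Mod.RE P E := (algebraMap_mem_iff P E hV _).mp h2
  have h5 : ((q : _root_.Fermat.Agent.A2.Mod.Qb)⁻¹) ∈ P := by
    have : (((q : ↥E)⁻¹ : ↥E) : _root_.Fermat.Agent.A2.Mod.Qb) ∈ P := h4
    simpa using this
  have h6 : (q : _root_.Fermat.Agent.A2.Mod.Qb) ∈ P.nonunits := hP
  rw [ValuationSubring.mem_nonunits_iff] at h6
  have h7 : P.valuation ((q : _root_.Fermat.Agent.A2.Mod.Qb)⁻¹) ≤ 1 := (P.valuation_le_one_iff _).mpr h5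
  rw [map_inv₀] at h7
  have hq0' : P.valuation (q : _root_.Fermat.Agent.A2.Mod.Qb) ≠ 0 := by
    rw [Valuation.ne_zero_iff]
    exact_mod_cast NeZero.ne q
  have h8 : 1 ≤ P.valuation (q : _root_.Fermat.Agent.A2.Mod.Qb) := (inv_le_one₀ (zero_lt_iff.mpr hq0')).mp h7
  exact absurd h6 (not_lt.mpr h8)

/-- the expansion of `W u = j_M - j_{Mq}^q` -/
theorem coe_W_frobE {W : ↥(_root_.Fermat.Agent.A2.Mod.FE E (M * q)) ≃ₐ[↥E] ↥(_root_.Fermat.Agent.A2.Mod.FE E (M * q))}
    (hW : IsFricke E (M * q) W) :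
    haveI : NeZero (M * q) := ⟨mul_ne_zero (NeZero.ne M) (NeZero.ne q)⟩
    ((W (frobE E M q) : ↥(_root_.Fermat.Agent.A2.Mod.FE E (M * q))) : LaurentSeries ↥E) =
      coeffEmb (↥E) (H708.castQ (H708.jInt M - H708.jInt (M * q) ^ q)) := by
  haveI : NeZero (M * q) := ⟨mul_ne_zero (NeZero.ne M) (NeZero.ne q)⟩
  have h1 : W (frobE E M q) =
      jE E (M * q) M (dvd_mul_right M q) - jE E (M * q) (M * q) dvd_rfl ^ q := by
    rw [frobE, map_sub, map_pow,
      hW.1 q M (dvd_mul_left q M) (dvd_mul_right M q) (mul_comm q M),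
      hW.1 1 (M * q) (one_dvd _) dvd_rfl (one_mul _)]
  rw [h1, map_sub, map_sub, map_pow, map_pow, ← coe_jE (E := E) (M * q) M (dvd_mul_right M q),
    ← coe_jE (E := E) (M * q) (M * q) dvd_rfl]
  rfl

theorem coeff_W_frob [Fact q.Prime] :
    haveI : NeZero (M * q) := ⟨mul_ne_zero (NeZero.ne M) (NeZero.ne q)⟩
    (H708.jInt M - H708.jInt (M * q) ^ q).coeff (-((M * q * q : ℕ) : ℤ)) = -1 := by
  haveI : NeZero (M * q) := ⟨mul_ne_zero (NeZero.ne M) (NeZero.ne q)⟩
  have hM : 0 < M := Nat.pos_of_ne_zero (NeZero.ne M)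
  have hq1 : 1 < q := (Fact.out : q.Prime).one_lt
  have e1 : H708.jInt M = H528.jZ M := rfl
  have e2 : H708.jInt (M * q) = H528.jZ (M * q) := rfl
  rw [HahnSeries.coeff_sub, e1, e2, H528.coeff_jZ_pow_top, H528.coeff_jZ_of_lt, zero_sub]
  have h2 : M < M * q * q := by
    calc M = M * 1 * 1 := by ring
      _ < M * q * q := by
        have : 1 * 1 < q * q := Nat.mul_lt_mul'' hq1 hq1
        nlinarith
  have h3 : ((M : ℕ) : ℤ) < ((M * q * q : ℕ) : ℤ) := by exact_mod_cast h2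
  linarith

/-- `W u` is a unit of `V∞` -/
theorem inv_W_frobE_mem [Fact q.Prime] {V : ValuationSubring ↥(_root_.Fermat.Agent.A2.Mod.FE E (M * q))}
    (hV : IsVinf P E (M * q) V) {W : ↥(_root_.Fermat.Agent.A2.Mod.FE E (M * q)) ≃ₐ[↥E] ↥(_root_.Fermat.Agent.A2.Mod.FE E (M * q))}
    (hW : IsFricke E (M * q) W) : (W (frobE E M q))⁻¹ ∈ V :=
  inv_mem_of_int hV (coe_W_frobE hW) (Or.inr coeff_W_frob)

theorem coeff_coeffEmb_castQ (x : LaurentSeries ℤ) (k : ℤ) :
    (coeffEmb (↥E) (H708.castQ x)).coeff k = ((x.coeff k : ℤ) : ↥E) := by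
  show algebraMap ℚ (↥E) ((Int.castRingHom ℚ) (x.coeff k)) = _
  simp

theorem W_frobE_ne_zero [Fact q.Prime] {W : ↥(_root_.Fermat.Agent.A2.Mod.FE E (M * q)) ≃ₐ[↥E] ↥(_root_.Fermat.Agent.A2.Mod.FE E (M * q))}
    (hW : IsFricke E (M * q) W) : W (frobE E M q) ≠ 0 := by
  haveI : NeZero (M * q) := ⟨mul_ne_zero (NeZero.ne M) (NeZero.ne q)⟩
  intro h0
  have h1 := coe_W_frobE (E := E) (M := M) (q := q) hW
  rw [h0] at h1
  have h2 := congrArg (fun s : LaurentSeries ↥E => s.coeff (-((M * q * q : ℕ) : ℤ))) h1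
  simp only [ZeroMemClass.coe_zero, HahnSeries.coeff_zero] at h2
  rw [coeff_coeffEmb_castQ, coeff_W_frob] at h2
  have : ((-1 : ℤ) : ↥E) ≠ 0 := by simp
  exact this h2.symm

variable (P E M q)

/-- **L6.** -/
theorem vzeroNe (w : _root_.Fermat.Agent.A2.Mod.RE P E) : VzeroNeStatement P E M q w := by
  intro hS V W hV hW heq
  haveI : Fact q.Prime := ⟨hS.q_prime⟩
  haveI := hS.dvr
  have hWu0 : W (frobE E M q) ≠ 0 := W_frobE_ne_zero hW
  have hu0 : frobE E M q ≠ 0 := fun h0 => hWu0 (by rw [h0, map_zero])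
  have h1 : (frobE E M q)⁻¹ ∈ V.comap (W : ↥(_root_.Fermat.Agent.A2.Mod.FE E (M * q)) →+* ↥(_root_.Fermat.Agent.A2.Mod.FE E (M * q))) := by
    show W ((frobE E M q)⁻¹) ∈ V
    rw [map_inv₀]
    exact inv_W_frobE_mem hV hW
  rw [heq] at h1
  exact inv_frobE_not_mem hS.lies_over hV hu0 h1

end Fermat.Agent.A2.Mod.H553

end
end
-- ===== PACK-END A2/Mod/H553/VzeroNe.lean

-- ===== PACK-BEGIN A2/Mod/H142/S2Final.lean
section




/-!
# A2 / MODASM sub-assembly S2 (components normal), unconditional (helper142)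

`s2 : S2Statement P E M q w` (VERBATIM `A2/Mod/Asm.lean`), from `s2_of_leaves` with the leaves
L7 (`H900.frickeStable`) and L11 (`H378.resInf`) taken from main.
-/

set_option autoImplicit false
set_option synthInstance.maxHeartbeats 400000
set_option maxHeartbeats 1600000

namespace Fermat.Agent.A2.Mod.H142

/-- **MODASM sub-assembly S2** (components of the special fibre are normal). -/
theorem s2 (P : ValuationSubring _root_.Fermat.Agent.A2.Mod.Qb) (E : IntermediateField ℚ _root_.Fermat.Agent.A2.Mod.Qb) (M q : ℕ) [NeZero M]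
    [NeZero q] (w : _root_.Fermat.Agent.A2.Mod.RE P E) : S2Statement P E M q w :=
  s2_of_leaves P E M q w (H900.frickeStable P E M q w) (H378.resInf P E M q w)

end Fermat.Agent.A2.Mod.H142

end
-- ===== PACK-END A2/Mod/H142/S2Final.lean

-- ===== PACK-BEGIN A2/Mod/H732/S4.lean
section









/-!
# WALL A2 / MODASM S4 (helper732): `Mod.S4Statement`, UNCONDITIONAL

`s4 : S4Statement P E M q w` (`Fermat/Agent/A2/Mod/Asm.lean`, VERBATIM): the coordinate
`x = j · j_q` (resp. `x⁻¹`) is a separating coordinate (`Spec.SepCoord`) of the chart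
`chartAlg x` (resp. `chartAlg x⁻¹`) of level `M q`.

Proof: `sepCoord_of_gauss` (`SepCoord.lean`) for `V₁ = V∞`, `V₂ = V₀ = V∞ ∘ W` with the data of
S1 (leaves L1, L2, L4, L6, L8, L9, L10, all on main) + the elementwise separability of the two
residue extensions, from `exists_sep_poly_of_graph` (`SepRed.lean`) applied to the reduction
relation `redRel` of `V∞` (`(f, f̄)` with `f U₂ = U₁`, `f̄ Ū₂ = Ū₁`, `U₂` primitive) resp. its
pull-back along `W`: the reductions of `x` and `W x` are polar of orders `q + 1` and `M (q + 1)`,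
prime to `q`, so `dx̄/dt ≠ 0`, and the residue field of `R_E` is perfect.
-/

set_option autoImplicit false
set_option linter.unusedSectionVars false
set_option linter.style.haveILetI false
set_option synthInstance.maxHeartbeats 400000
set_option maxHeartbeats 1600000

noncomputable section

namespace Fermat.Agent.A2.Mod.H732

open ModularCurve HahnSeries Polynomial IsLocalRing
open Fermat.Agent.A2 Fermat.Agent.A2.Mod

/-! ### generalities -/

section General

theorem dq_inv_ne_zero {k : Type*} [Field k] {x : LaurentSeries k}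
    (h : Fermat.Agent.S18.H602.dq x ≠ 0) : Fermat.Agent.S18.H602.dq x⁻¹ ≠ 0 := by
  have hx0 : x ≠ 0 := by
    rintro rfl
    apply h
    have := Fermat.Agent.S18.H602.dq_C (0 : k)
    rwa [map_zero] at this
  have h1 : Fermat.Agent.S18.H602.dq (x * x⁻¹)
      = x * Fermat.Agent.S18.H602.dq x⁻¹ + x⁻¹ * Fermat.Agent.S18.H602.dq x :=
    Fermat.Agent.S18.H602.dq_mul x x⁻¹
  rw [mul_inv_cancel₀ hx0, Fermat.Agent.S18.H602.dq_one] at h1
  intro h2
  rw [h2, mul_zero, zero_add] at h1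
  rcases mul_eq_zero.mp h1.symm with h3 | h3
  · exact inv_ne_zero hx0 h3
  · exact h h3

theorem val_eq_one_of_mem {F : Type*} [Field F] (V : ValuationSubring F) {g : F} (hg0 : g ≠ 0)
    (hg : g ∈ V) (hgi : g⁻¹ ∈ V) : V.valuation g = 1 := by
  have h2 : V.valuation g ≤ 1 := (V.valuation_le_one_iff g).mpr hg
  have h3 : V.valuation g⁻¹ ≤ 1 := (V.valuation_le_one_iff _).mpr hgi
  rw [map_inv₀] at h3
  have hv : V.valuation g ≠ 0 := (Valuation.ne_zero_iff _).mpr hg0
  exact le_antisymm h2 ((inv_le_one₀ (zero_lt_iff.mpr hv)).mp h3)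

end General

/-! ### the reduction relation of `V∞` -/

section Rel

variable (P : ValuationSubring _root_.Fermat.Agent.A2.Mod.Qb) (E : IntermediateField ℚ _root_.Fermat.Agent.A2.Mod.Qb) (N : ℕ)

/-- `b` is a reduction of `f`: `f U₂ = U₁`, `b Ū₂ = Ū₁` with `U₂ ∈ F_N` primitive. -/
def RedRel (f : _root_.Fermat.Agent.A2.Mod.FE E N) (b : LaurentSeries (ResidueField (_root_.Fermat.Agent.A2.Mod.RE P E))) : Prop :=
  ∃ U₁ U₂ : LaurentSeries (_root_.Fermat.Agent.A2.Mod.RE P E), H708.red (_root_.Fermat.Agent.A2.Mod.RE P E) U₂ ≠ 0 ∧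
    H708.incl (_root_.Fermat.Agent.A2.Mod.RE P E) U₂ ∈ _root_.Fermat.Agent.A2.Mod.FE E N ∧
    (f : LaurentSeries E) * H708.incl (_root_.Fermat.Agent.A2.Mod.RE P E) U₂ = H708.incl (_root_.Fermat.Agent.A2.Mod.RE P E) U₁ ∧
    b * H708.red (_root_.Fermat.Agent.A2.Mod.RE P E) U₂ = H708.red (_root_.Fermat.Agent.A2.Mod.RE P E) U₁

/-- the reduction relation as a subring of `F_N × k((t))` -/
def redRel : Subring (_root_.Fermat.Agent.A2.Mod.FE E N × LaurentSeries (ResidueField (_root_.Fermat.Agent.A2.Mod.RE P E))) where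
  carrier := {p | RedRel P E N p.1 p.2}
  mul_mem' := by
    rintro ⟨f, b⟩ ⟨f', b'⟩ ⟨U₁, U₂, h0, hm, he, hr⟩ ⟨U₁', U₂', h0', hm', he', hr'⟩
    refine ⟨U₁ * U₁', U₂ * U₂', ?_, ?_, ?_, ?_⟩
    · rw [map_mul]; exact mul_ne_zero h0 h0'
    · rw [map_mul]; exact mul_mem hm hm'
    · show ((f * f' : _root_.Fermat.Agent.A2.Mod.FE E N) : LaurentSeries E) * _ = _
      rw [IntermediateField.coe_mul, map_mul, map_mul, ← he, ← he']
      ring
    · show (b * b') * _ = _
      rw [map_mul, map_mul, ← hr, ← hr']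
      ring
  one_mem' := by
    refine ⟨1, 1, ?_, ?_, ?_, ?_⟩
    · rw [map_one]; exact one_ne_zero
    · rw [map_one]; exact one_mem _
    · show ((1 : _root_.Fermat.Agent.A2.Mod.FE E N) : LaurentSeries E) * _ = _
      rw [IntermediateField.coe_one, one_mul]
    · show (1 : LaurentSeries (ResidueField (_root_.Fermat.Agent.A2.Mod.RE P E))) * _ = _
      rw [one_mul]
  add_mem' := by
    rintro ⟨f, b⟩ ⟨f', b'⟩ ⟨U₁, U₂, h0, hm, he, hr⟩ ⟨U₁', U₂', h0', hm', he', hr'⟩
    refine ⟨U₁ * U₂' + U₁' * U₂, U₂ * U₂', ?_, ?_, ?_, ?_⟩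
    · rw [map_mul]; exact mul_ne_zero h0 h0'
    · rw [map_mul]; exact mul_mem hm hm'
    · show ((f + f' : _root_.Fermat.Agent.A2.Mod.FE E N) : LaurentSeries E) * _ = _
      rw [IntermediateField.coe_add, map_add, map_mul, map_mul, map_mul, ← he, ← he']
      ring
    · show (b + b') * _ = _
      rw [map_add, map_mul, map_mul, map_mul, ← hr, ← hr']
      ring
  zero_mem' := by
    refine ⟨0, 1, ?_, ?_, ?_, ?_⟩
    · rw [map_one]; exact one_ne_zero
    · rw [map_one]; exact one_mem _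
    · show ((0 : _root_.Fermat.Agent.A2.Mod.FE E N) : LaurentSeries E) * _ = _
      rw [IntermediateField.coe_zero, zero_mul, map_zero]
    · show (0 : LaurentSeries (ResidueField (_root_.Fermat.Agent.A2.Mod.RE P E))) * _ = _
      rw [zero_mul, map_zero]
  neg_mem' := by
    rintro ⟨f, b⟩ ⟨U₁, U₂, h0, hm, he, hr⟩
    refine ⟨-U₁, U₂, h0, hm, ?_, ?_⟩
    · show ((-f : _root_.Fermat.Agent.A2.Mod.FE E N) : LaurentSeries E) * _ = _
      rw [IntermediateField.coe_neg, map_neg, ← he]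
      ring
    · show (-b) * _ = _
      rw [map_neg, ← hr]
      ring

variable {P E N}

theorem mem_redRel {f : _root_.Fermat.Agent.A2.Mod.FE E N} {b : LaurentSeries (ResidueField (_root_.Fermat.Agent.A2.Mod.RE P E))} :
    (f, b) ∈ redRel P E N ↔ RedRel P E N f b := Iff.rfl

/-- constants -/
theorem redRel_const (r : _root_.Fermat.Agent.A2.Mod.RE P E) :
    (algebraMap (_root_.Fermat.Agent.A2.Mod.RE P E) (_root_.Fermat.Agent.A2.Mod.FE E N) r, cres (_root_.Fermat.Agent.A2.Mod.RE P E) r) ∈ redRel P E N := by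
  refine ⟨H708.cstA (_root_.Fermat.Agent.A2.Mod.RE P E) r, 1, ?_, ?_, ?_, ?_⟩
  · rw [map_one]; exact one_ne_zero
  · rw [map_one]; exact one_mem _
  · rw [map_one, mul_one, H708.incl_cstA]
    rfl
  · rw [map_one, mul_one, H708.red_cstA, cres_apply, Fermat.Agent.S18.H602.algebraMap_eq_C]
    rfl

/-- functions with an integer expansion -/
theorem redRel_int {u : _root_.Fermat.Agent.A2.Mod.FE E N} {g : LaurentSeries ℤ}
    (hu : (u : LaurentSeries E) = coeffEmb E (H708.castQ g)) :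
    (u, H708.red (_root_.Fermat.Agent.A2.Mod.RE P E) (H708.castA (_root_.Fermat.Agent.A2.Mod.RE P E) g)) ∈ redRel P E N := by
  refine ⟨H708.castA (_root_.Fermat.Agent.A2.Mod.RE P E) g, 1, ?_, ?_, ?_, ?_⟩
  · rw [map_one]; exact one_ne_zero
  · rw [map_one]; exact one_mem _
  · rw [map_one, mul_one, hu, H553.coeffEmb_castQ (P := P)]
  · rw [map_one, mul_one]

/-- every element of `V∞` has a reduction -/
theorem exists_redRel {V : ValuationSubring (_root_.Fermat.Agent.A2.Mod.FE E N)} (hV : IsVinf P E N V) {f : _root_.Fermat.Agent.A2.Mod.FE E N}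
    (hf : f ∈ V) : ∃ fb, (f, fb) ∈ redRel P E N := by
  obtain ⟨U₁, U₂, h0, hm, he⟩ := (hV f).mp hf
  exact ⟨H708.red (_root_.Fermat.Agent.A2.Mod.RE P E) U₁ * (H708.red (_root_.Fermat.Agent.A2.Mod.RE P E) U₂)⁻¹, U₁, U₂, h0, hm, he,
    by rw [mul_assoc, inv_mul_cancel₀ h0, mul_one]⟩

/-- elements with nonzero reduction are units of `V∞` -/
theorem redRel_unit {V : ValuationSubring (_root_.Fermat.Agent.A2.Mod.FE E N)} (hV : IsVinf P E N V) {g : _root_.Fermat.Agent.A2.Mod.FE E N}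
    {b : LaurentSeries (ResidueField (_root_.Fermat.Agent.A2.Mod.RE P E))} (h : (g, b) ∈ redRel P E N) (hb : b ≠ 0) :
    g ≠ 0 ∧ g ∈ V ∧ g⁻¹ ∈ V ∧ (g⁻¹, b⁻¹) ∈ redRel P E N := by
  obtain ⟨U₁, U₂, h0, hm, he, hr⟩ := h
  have he' : (g : LaurentSeries E) * H708.incl (_root_.Fermat.Agent.A2.Mod.RE P E) U₂ = H708.incl (_root_.Fermat.Agent.A2.Mod.RE P E) U₁ := he
  have hr' : b * H708.red (_root_.Fermat.Agent.A2.Mod.RE P E) U₂ = H708.red (_root_.Fermat.Agent.A2.Mod.RE P E) U₁ := hr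
  have h1 : H708.red (_root_.Fermat.Agent.A2.Mod.RE P E) U₁ ≠ 0 := by
    rw [← hr']
    exact mul_ne_zero hb h0
  have hU₁0 : H708.incl (_root_.Fermat.Agent.A2.Mod.RE P E) U₁ ≠ 0 :=
    H708.incl_ne_zero _ (H708.ne_zero_of_red_ne_zero _ h1)
  have hg0 : (g : LaurentSeries E) ≠ 0 := by
    intro h
    rw [h, zero_mul] at he'
    exact hU₁0 he'.symm
  have hm₁ : H708.incl (_root_.Fermat.Agent.A2.Mod.RE P E) U₁ ∈ _root_.Fermat.Agent.A2.Mod.FE E N := by
    rw [← he']
    exact mul_mem g.2 hm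
  have hinv : ((g⁻¹ : _root_.Fermat.Agent.A2.Mod.FE E N) : LaurentSeries E) * H708.incl (_root_.Fermat.Agent.A2.Mod.RE P E) U₁
      = H708.incl (_root_.Fermat.Agent.A2.Mod.RE P E) U₂ := by
    rw [IntermediateField.coe_inv, ← he', ← mul_assoc, inv_mul_cancel₀ hg0, one_mul]
  refine ⟨fun h => hg0 (by rw [h]; rfl), (hV g).mpr ⟨U₁, U₂, h0, hm, he'⟩,
    (hV g⁻¹).mpr ⟨U₂, U₁, h1, hm₁, hinv⟩, ⟨U₂, U₁, h1, hm₁, hinv, ?_⟩⟩
  show b⁻¹ * H708.red (_root_.Fermat.Agent.A2.Mod.RE P E) U₁ = H708.red (_root_.Fermat.Agent.A2.Mod.RE P E) U₂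
  rw [← hr', ← mul_assoc, inv_mul_cancel₀ hb, one_mul]

/-- elements with zero reduction lie in the maximal ideal of `V∞` -/
theorem redRel_ker {V : ValuationSubring (_root_.Fermat.Agent.A2.Mod.FE E N)} (hV : IsVinf P E N V)
    (hdvr : IsDiscreteValuationRing (_root_.Fermat.Agent.A2.Mod.RE P E)) {w : _root_.Fermat.Agent.A2.Mod.RE P E} (hw : Irreducible w)
    (hu : H48.IsUnif V (algebraMap (_root_.Fermat.Agent.A2.Mod.RE P E) (_root_.Fermat.Agent.A2.Mod.FE E N) w)) {g : _root_.Fermat.Agent.A2.Mod.FE E N}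
    (h : (g, (0 : LaurentSeries (ResidueField (_root_.Fermat.Agent.A2.Mod.RE P E)))) ∈ redRel P E N) :
    V.valuation g < 1 := by
  obtain ⟨U₁, U₂, h0, hm, he, hr⟩ := h
  have he' : (g : LaurentSeries E) * H708.incl (_root_.Fermat.Agent.A2.Mod.RE P E) U₂ = H708.incl (_root_.Fermat.Agent.A2.Mod.RE P E) U₁ := he
  have hr' : (0 : LaurentSeries (ResidueField (_root_.Fermat.Agent.A2.Mod.RE P E))) * H708.red (_root_.Fermat.Agent.A2.Mod.RE P E) U₂
      = H708.red (_root_.Fermat.Agent.A2.Mod.RE P E) U₁ := hr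
  rw [zero_mul] at hr'
  have hdiv : ∀ n, w ∣ U₁.coeff n := by
    intro n
    have h1 : IsLocalRing.residue (_root_.Fermat.Agent.A2.Mod.RE P E) (U₁.coeff n) = 0 := by
      have := congrArg (fun z => z.coeff n) hr'.symm
      simpa using this
    rw [IsLocalRing.residue_eq_zero_iff, hw.maximalIdeal_eq, Ideal.mem_span_singleton] at h1
    exact h1
  obtain ⟨U', hU'⟩ := H549.exists_cstA_mul_eq w hw.ne_zero U₁ hdiv
  have hwE : ((w : E)) ≠ 0 := fun h0 => hw.ne_zero (Subtype.ext h0)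
  have hc : H708.cst (w : E) ≠ 0 := H708.cst_ne_zero hwE
  have hmem : g * (algebraMap (_root_.Fermat.Agent.A2.Mod.RE P E) (_root_.Fermat.Agent.A2.Mod.FE E N) w)⁻¹ ∈ V := by
    rw [hV]
    refine ⟨U', U₂, h0, hm, ?_⟩
    have hcoe : (((g * (algebraMap (_root_.Fermat.Agent.A2.Mod.RE P E) (_root_.Fermat.Agent.A2.Mod.FE E N) w)⁻¹ : _root_.Fermat.Agent.A2.Mod.FE E N)) : LaurentSeries E)
        = (g : LaurentSeries E) * (H708.cst (w : E))⁻¹ := by
      rw [IntermediateField.coe_mul, IntermediateField.coe_inv]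
      rfl
    have h2 : (g : LaurentSeries E) * H708.incl (_root_.Fermat.Agent.A2.Mod.RE P E) U₂
        = H708.cst (w : E) * H708.incl (_root_.Fermat.Agent.A2.Mod.RE P E) U' := by
      rw [he', ← hU', map_mul, H708.incl_cstA]
    rw [hcoe, mul_assoc, mul_comm (H708.cst (w : E))⁻¹, ← mul_assoc, h2, mul_comm (H708.cst _),
      mul_assoc, mul_inv_cancel₀ hc, mul_one]
  have h3 : V.valuation (g * (algebraMap (_root_.Fermat.Agent.A2.Mod.RE P E) (_root_.Fermat.Agent.A2.Mod.FE E N) w)⁻¹) ≤ 1 :=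
    (V.valuation_le_one_iff _).mpr hmem
  rw [map_mul, map_inv₀] at h3
  have hv0 : V.valuation (algebraMap (_root_.Fermat.Agent.A2.Mod.RE P E) (_root_.Fermat.Agent.A2.Mod.FE E N) w) ≠ 0 := hu.val_ne_zero
  rw [mul_inv_le_iff₀ (zero_lt_iff.mpr hv0), one_mul] at h3
  exact lt_of_le_of_lt h3 hu.val_lt_one

end Rel

/-! ### polar series have separating reduction -/

section Polar

variable (P : ValuationSubring _root_.Fermat.Agent.A2.Mod.Qb) (E : IntermediateField ℚ _root_.Fermat.Agent.A2.Mod.Qb)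

theorem dq_red_polar {q : ℕ} (hq : q.Prime) (hP : P.LiesOverPrime q) {g : LaurentSeries ℤ}
    {a : ℕ} (hg : H13.IsPolarInt g a) (ha : ¬ q ∣ a) :
    Fermat.Agent.S18.H602.dq (H708.red (_root_.Fermat.Agent.A2.Mod.RE P E) (H708.castA (_root_.Fermat.Agent.A2.Mod.RE P E) g)) ≠ 0 := by
  haveI : CharP (ResidueField (_root_.Fermat.Agent.A2.Mod.RE P E)) q := H753.charP_residueField P E hq hP
  refine Fermat.Agent.S18.H602.dq_ne_zero_of_coeff _ (-(a : ℤ)) ?_
  have h1 : (H708.red (_root_.Fermat.Agent.A2.Mod.RE P E) (H708.castA (_root_.Fermat.Agent.A2.Mod.RE P E) g)).coeff (-(a : ℤ)) = 1 := by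
    show IsLocalRing.residue (_root_.Fermat.Agent.A2.Mod.RE P E) (((g.coeff (-(a : ℤ)) : ℤ) : _root_.Fermat.Agent.A2.Mod.RE P E)) = 1
    rw [hg.2, Int.cast_one, map_one]
  rw [h1, mul_one]
  intro h0
  rw [CharP.intCast_eq_zero_iff (ResidueField (_root_.Fermat.Agent.A2.Mod.RE P E)) q, dvd_neg, Int.natCast_dvd_natCast] at h0
  exact ha h0

end Polar

/-! ### the core -/

section Core

variable {P : ValuationSubring _root_.Fermat.Agent.A2.Mod.Qb} {E : IntermediateField ℚ _root_.Fermat.Agent.A2.Mod.Qb} {M q : ℕ} [NeZero M] [NeZero q]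
  {w : _root_.Fermat.Agent.A2.Mod.RE P E}

theorem perfectField_residue (hS : Setting P E M q w) :
    PerfectField (ResidueField (_root_.Fermat.Agent.A2.Mod.RE P E)) := by
  haveI : Fact q.Prime := ⟨hS.q_prime⟩
  haveI : CharP (ResidueField (_root_.Fermat.Agent.A2.Mod.RE P E)) q :=
    H753.charP_residueField P E hS.q_prime hS.lies_over
  haveI : ExpChar (ResidueField (_root_.Fermat.Agent.A2.Mod.RE P E)) q := ExpChar.prime hS.q_prime
  haveI : PerfectRing (ResidueField (_root_.Fermat.Agent.A2.Mod.RE P E)) q :=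
    PerfectRing.ofSurjective (ResidueField (_root_.Fermat.Agent.A2.Mod.RE P E)) q
      (fun c => H96.exists_pow_eq_residue P E hS.q_prime hS.lies_over c)
  exact PerfectRing.toPerfectField (ResidueField (_root_.Fermat.Agent.A2.Mod.RE P E)) q

/-- **`SepCoord` for a coordinate `y`** with the Gauss property, residue-independent families
and separating reductions on both components. -/
theorem sepCoord_core (hS : Setting P E M q w)
    (V : ValuationSubring (_root_.Fermat.Agent.A2.Mod.FE E (M * q))) (W : _root_.Fermat.Agent.A2.Mod.FE E (M * q) ≃ₐ[E] _root_.Fermat.Agent.A2.Mod.FE E (M * q))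
    (hV : IsVinf P E (M * q) V)
    (hu : H48.IsUnif V (algebraMap (_root_.Fermat.Agent.A2.Mod.RE P E) (_root_.Fermat.Agent.A2.Mod.FE E (M * q)) w))
    (hne : V ≠ V.comap (W : _root_.Fermat.Agent.A2.Mod.FE E (M * q) →+* _root_.Fermat.Agent.A2.Mod.FE E (M * q)))
    (y : _root_.Fermat.Agent.A2.Mod.FE E (M * q)) (hy : Transcendental E y)
    (hfin : FiniteDimensional (IntermediateField.adjoin E ({y} : Set (_root_.Fermat.Agent.A2.Mod.FE E (M * q))))
      (_root_.Fermat.Agent.A2.Mod.FE E (M * q)))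
    {n : ℕ}
    (hdeg : Module.finrank (IntermediateField.adjoin E ({y} : Set (_root_.Fermat.Agent.A2.Mod.FE E (M * q))))
      (_root_.Fermat.Agent.A2.Mod.FE E (M * q)) ≤ n + n)
    (hG₁ : Fermat.Agent.A2.H489.IsGaussOver (_root_.Fermat.Agent.A2.Mod.RE P E) V y)
    (hG₂ : Fermat.Agent.A2.H489.IsGaussOver (_root_.Fermat.Agent.A2.Mod.RE P E)
      (V.comap (W : _root_.Fermat.Agent.A2.Mod.FE E (M * q) →+* _root_.Fermat.Agent.A2.Mod.FE E (M * q))) y)
    (b c : Fin n → _root_.Fermat.Agent.A2.Mod.FE E (M * q)) (hb : ∀ i, b i ∈ V)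
    (hc : ∀ i, c i ∈ V.comap (W : _root_.Fermat.Agent.A2.Mod.FE E (M * q) →+* _root_.Fermat.Agent.A2.Mod.FE E (M * q)))
    (hIb : IndepMod P E (M * q) V w y b)
    (hIc : IndepMod P E (M * q) (V.comap (W : _root_.Fermat.Agent.A2.Mod.FE E (M * q) →+* _root_.Fermat.Agent.A2.Mod.FE E (M * q))) w y c)
    (yb yb' : LaurentSeries (ResidueField (_root_.Fermat.Agent.A2.Mod.RE P E)))
    (h1 : (y, yb) ∈ redRel P E (M * q)) (h1' : Fermat.Agent.S18.H602.dq yb ≠ 0)
    (h2 : (W y, yb') ∈ redRel P E (M * q)) (h2' : Fermat.Agent.S18.H602.dq yb' ≠ 0) :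
    SepCoord (_root_.Fermat.Agent.A2.Mod.RE P E) E y (chartAlg P E (M * q) y) := by
  haveI hdvr : IsDiscreteValuationRing (_root_.Fermat.Agent.A2.Mod.RE P E) := hS.dvr
  haveI : PerfectField (ResidueField (_root_.Fermat.Agent.A2.Mod.RE P E)) := perfectField_residue hS
  have hw := hS.unif
  have hu₂ : H48.IsUnif (V.comap (W : _root_.Fermat.Agent.A2.Mod.FE E (M * q) →+* _root_.Fermat.Agent.A2.Mod.FE E (M * q)))
      (algebraMap (_root_.Fermat.Agent.A2.Mod.RE P E) (_root_.Fermat.Agent.A2.Mod.FE E (M * q)) w) := Fermat.Agent.A2.Mod.H489.isUnif_comap hu W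
  haveI := hfin
  have halg : ∀ f : _root_.Fermat.Agent.A2.Mod.FE E (M * q),
      IsAlgebraic (IntermediateField.adjoin E ({y} : Set (_root_.Fermat.Agent.A2.Mod.FE E (M * q)))) f :=
    fun f => Algebra.IsAlgebraic.isAlgebraic f
  refine sepCoord_of_gauss w hw y hy hfin (chartAlg P E (M * q) y) (fun f hf => hf)
    V (V.comap (W : _root_.Fermat.Agent.A2.Mod.FE E (M * q) →+* _root_.Fermat.Agent.A2.Mod.FE E (M * q))) hne hu hu₂
    hG₁.aeval_mem hG₂.aeval_mem
    (fun Q hQ => hG₁.inv_aeval_mem (fun h0 => hQ (C_dvd_of_map_residue_eq_zero hw h0)))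
    (fun Q hQ => hG₂.inv_aeval_mem (fun h0 => hQ (C_dvd_of_map_residue_eq_zero hw h0)))
    b c hb hc (fun a ha i => hIb a ha i) (fun a ha i => hIc a ha i) hdeg ?_ ?_
  · intro f hf₁ _
    obtain ⟨fb, hfb⟩ := exists_redRel hV hf₁
    obtain ⟨Pa, hPa, hPf⟩ := exists_primitive_annihilator (E := E) hw hy (halg f)
    exact exists_sep_poly_of_graph V (redRel P E (M * q)) redRel_const
      (fun g hg => redRel_ker hV hdvr hw hu hg)
      (fun g b hg hb => by
        obtain ⟨hg0, hgV, hgi, -⟩ := redRel_unit hV hg hb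
        exact val_eq_one_of_mem V hg0 hgV hgi)
      h1 h1' hfb Pa hPa hPf
  · intro f _ hf₂
    have hf₂' : W f ∈ V := hf₂
    obtain ⟨fb, hfb⟩ := exists_redRel hV hf₂'
    obtain ⟨Pa, hPa, hPf⟩ := exists_primitive_annihilator (E := E) hw hy (halg f)
    refine exists_sep_poly_of_graph (V.comap (W : _root_.Fermat.Agent.A2.Mod.FE E (M * q) →+* _root_.Fermat.Agent.A2.Mod.FE E (M * q)))
      ((redRel P E (M * q)).comap
        (RingHom.prodMap (W : _root_.Fermat.Agent.A2.Mod.FE E (M * q) →+* _root_.Fermat.Agent.A2.Mod.FE E (M * q))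
          (RingHom.id (LaurentSeries (ResidueField (_root_.Fermat.Agent.A2.Mod.RE P E))))))
      ?_ ?_ ?_ (x := y) (xb := yb') ?_ h2' (f := f) (fb := fb) ?_ Pa hPa hPf
    · intro r
      show (W (algebraMap (_root_.Fermat.Agent.A2.Mod.RE P E) (_root_.Fermat.Agent.A2.Mod.FE E (M * q)) r), cres (_root_.Fermat.Agent.A2.Mod.RE P E) r) ∈ redRel P E (M * q)
      have hWr : W (algebraMap (_root_.Fermat.Agent.A2.Mod.RE P E) (_root_.Fermat.Agent.A2.Mod.FE E (M * q)) r)
          = algebraMap (_root_.Fermat.Agent.A2.Mod.RE P E) (_root_.Fermat.Agent.A2.Mod.FE E (M * q)) r := W.commutes (r : E)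
      rw [hWr]
      exact redRel_const r
    · intro g hg
      have hg' : (W g, (0 : LaurentSeries (ResidueField (_root_.Fermat.Agent.A2.Mod.RE P E)))) ∈ redRel P E (M * q) := hg
      have h3 := redRel_ker hV hdvr hw hu hg'
      rw [← ValuationSubring.mem_nonunits_iff] at h3 ⊢
      exact (H13.mem_nonunits_comap V (W : _root_.Fermat.Agent.A2.Mod.FE E (M * q) →+* _root_.Fermat.Agent.A2.Mod.FE E (M * q)) g).mpr h3
    · intro g b hg hb
      have hg' : (W g, b) ∈ redRel P E (M * q) := hg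
      obtain ⟨hg0, hgV, hgi, -⟩ := redRel_unit hV hg' hb
      have hg00 : g ≠ 0 := fun h => hg0 (by rw [h, map_zero])
      refine val_eq_one_of_mem _ hg00 hgV ?_
      show W g⁻¹ ∈ V
      rw [map_inv₀]
      exact hgi
    · exact h2
    · exact hfb

end Core

/-! ### the two charts of `X₀(M q)` -/

section Final

variable (P : ValuationSubring _root_.Fermat.Agent.A2.Mod.Qb) (E : IntermediateField ℚ _root_.Fermat.Agent.A2.Mod.Qb) (M q : ℕ) [NeZero M] [NeZero q]
  (w : _root_.Fermat.Agent.A2.Mod.RE P E)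

theorem not_dvd_succ {q : ℕ} (hq : q.Prime) : ¬ q ∣ 1 + q := by
  intro h
  have h1 : q ∣ 1 := (Nat.dvd_add_left (dvd_refl q)).mp h
  exact hq.one_lt.ne' (Nat.dvd_one.mp h1)

theorem not_dvd_level {M q : ℕ} (hqM : ¬ q ∣ M) : ¬ q ∣ M * q + M := by
  intro h
  have h1 : q ∣ M := (Nat.dvd_add_right (dvd_mul_left q M)).mp h
  exact hqM h1

/-- **MODASM sub-assembly S4** from the leaves L1, L2, L4, L6, L8, L9, L10 (all VERBATIM). -/
theorem s4_of_leaves (hL1 : VinfExistsStatement P E) (hL2 : VinfBasicStatement P E w)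
    (hL4 : FrickeExistsStatement E) (hL6 : VzeroNeStatement P E M q w)
    (hL8 : DegStatement E M q) (hL9 : IndInfStatement P E M q w)
    (hL10 : IndZeroStatement P E M q w) : S4Statement P E M q w := by
  intro hS _ _ _ _
  haveI hdvr : IsDiscreteValuationRing (_root_.Fermat.Agent.A2.Mod.RE P E) := hS.dvr
  have hw := hS.unif
  have hq := hS.q_prime
  have hN : M * q ≠ 0 := mul_ne_zero hS.M_ne_zero hS.q_prime.ne_zero
  obtain ⟨V, hV⟩ := hL1 (M * q) hN hdvr
  obtain ⟨W, hW⟩ := hL4 (M * q) hN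
  obtain ⟨hu, hconst, hj⟩ := hL2 (M * q) hN hdvr hw V hV
  have hu₂ := Fermat.Agent.A2.Mod.H489.isUnif_comap hu W
  have hmem₁ : ∀ r : _root_.Fermat.Agent.A2.Mod.RE P E, algebraMap (_root_.Fermat.Agent.A2.Mod.RE P E) (_root_.Fermat.Agent.A2.Mod.FE E (M * q)) r ∈ V :=
    fun r => (hconst (r : E)).mpr r.2
  have hmem₂ : ∀ r : _root_.Fermat.Agent.A2.Mod.RE P E, algebraMap (_root_.Fermat.Agent.A2.Mod.RE P E) (_root_.Fermat.Agent.A2.Mod.FE E (M * q)) r ∈
      V.comap (W : _root_.Fermat.Agent.A2.Mod.FE E (M * q) →+* _root_.Fermat.Agent.A2.Mod.FE E (M * q)) := by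
    intro r
    show W (algebraMap E (_root_.Fermat.Agent.A2.Mod.FE E (M * q)) (r : E)) ∈ V
    rw [W.commutes]
    exact hmem₁ r
  have ho₁ := Fermat.Agent.A2.Mod.H489.isOver_of_unif hw hu hmem₁
  have ho₂ := Fermat.Agent.A2.Mod.H489.isOver_of_unif hw hu₂ hmem₂
  obtain ⟨b, hb, hIb⟩ := hL9 hS V hV
  obtain ⟨c, hc, hIc⟩ := hL10 hS V W hV hW
  have hx₁ : xE E M q ∈ V := mul_mem (hj 1 (one_dvd _)).1 (hj q (dvd_mul_left q M)).1
  have hx₂ : xE E M q ∈ V.comap (W : _root_.Fermat.Agent.A2.Mod.FE E (M * q) →+* _root_.Fermat.Agent.A2.Mod.FE E (M * q)) := by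
    show W (xE E M q) ∈ V
    unfold xE
    rw [map_mul, hW.1 1 (M * q) (one_dvd _) (dvd_refl _) (one_mul _),
      hW.1 q M (dvd_mul_left q M) (dvd_mul_right M q) (mul_comm q M)]
    exact mul_mem (hj _ _).1 (hj _ _).1
  have hpos : 0 < (q + 1) * dedekindPsi M :=
    Nat.mul_pos (Nat.succ_pos q) (dedekindPsi_pos_of_ne_zero M hS.M_ne_zero)
  have hP₁ := Fermat.Agent.A2.Mod.H489.polyIndepMod_of_indepMod hw hu hIb
  have hP₂ := Fermat.Agent.A2.Mod.H489.polyIndepMod_of_indepMod hw hu₂ hIc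
  have hG₁ := Fermat.Agent.A2.H489.IsGaussOver.of_polyIndepMod ho₁ hx₁ hpos hb hP₁
  have hG₂ := Fermat.Agent.A2.H489.IsGaussOver.of_polyIndepMod ho₂ hx₂ hpos hc hP₂
  have hne : V ≠ V.comap (W : _root_.Fermat.Agent.A2.Mod.FE E (M * q) →+* _root_.Fermat.Agent.A2.Mod.FE E (M * q)) :=
    fun h => hL6 hS V W hV hW h.symm
  obtain ⟨htr, hdeg, -⟩ := hL8 hS.q_prime hS.q_not_dvd
  have hfin : FiniteDimensional
      (IntermediateField.adjoin E ({xE E M q} : Set (_root_.Fermat.Agent.A2.Mod.FE E (M * q)))) (_root_.Fermat.Agent.A2.Mod.FE E (M * q)) :=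
    Module.finite_of_finrank_pos (by rw [hdeg]; omega)
  have hdeg' : Module.finrank
      (IntermediateField.adjoin E ({xE E M q} : Set (_root_.Fermat.Agent.A2.Mod.FE E (M * q)))) (_root_.Fermat.Agent.A2.Mod.FE E (M * q)) ≤
      (q + 1) * dedekindPsi M + (q + 1) * dedekindPsi M := by
    rw [hdeg]
    omega
  -- the reductions of `x` and `W x`
  obtain ⟨g, hg, e⟩ := H13.isPolar_xE (E := E) M q
  obtain ⟨g', hg', e'⟩ := H13.isPolar_fricke_xE (E := E) M q hW
  have h1 := redRel_int (P := P) e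
  have h1' := dq_red_polar P E hq hS.lies_over hg (not_dvd_succ hq)
  have h2 := redRel_int (P := P) e'
  have h2' := dq_red_polar P E hq hS.lies_over hg' (not_dvd_level hS.q_not_dvd)
  refine ⟨sepCoord_core hS V W hV hu hne (xE E M q) htr hfin hdeg' hG₁ hG₂ b c hb hc hIb hIc
    _ _ h1 h1' h2 h2', ?_⟩
  -- the chart at infinity
  have hy0 : ∀ {z : LaurentSeries (ResidueField (_root_.Fermat.Agent.A2.Mod.RE P E))},
      Fermat.Agent.S18.H602.dq z ≠ 0 → z ≠ 0 := by
    intro z hz h0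
    apply hz
    rw [h0]
    have := Fermat.Agent.S18.H602.dq_C (0 : ResidueField (_root_.Fermat.Agent.A2.Mod.RE P E))
    rwa [map_zero] at this
  have hE := Fermat.Agent.A2.H489.adjoin_inv_eq E (xE E M q)
  have key : ∀ (K : IntermediateField E (_root_.Fermat.Agent.A2.Mod.FE E (M * q))),
      K = IntermediateField.adjoin E ({xE E M q} : Set (_root_.Fermat.Agent.A2.Mod.FE E (M * q))) →
      FiniteDimensional K (_root_.Fermat.Agent.A2.Mod.FE E (M * q)) ∧
        Module.finrank K (_root_.Fermat.Agent.A2.Mod.FE E (M * q)) ≤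
          (q + 1) * dedekindPsi M + (q + 1) * dedekindPsi M := by
    rintro K rfl
    exact ⟨hfin, hdeg'⟩
  obtain ⟨hfin_i, hdeg_i⟩ := key _ hE
  have htr_i : Transcendental E (xE E M q)⁻¹ := by
    intro halg
    exact htr (by simpa using halg.inv)
  have h2i : (W (xE E M q)⁻¹, (H708.red (_root_.Fermat.Agent.A2.Mod.RE P E) (H708.castA (_root_.Fermat.Agent.A2.Mod.RE P E) g'))⁻¹)
      ∈ redRel P E (M * q) := by
    rw [map_inv₀]
    exact (redRel_unit hV h2 (hy0 h2')).2.2.2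
  exact sepCoord_core hS V W hV hu hne (xE E M q)⁻¹ htr_i hfin_i hdeg_i hG₁.inv hG₂.inv
    b c hb hc (H753.indepMod_inv P E V w (xE E M q) hx₁ b hIb)
    (H753.indepMod_inv P E _ w (xE E M q) hx₂ c hIc)
    _ _ (redRel_unit hV h1 (hy0 h1')).2.2.2 (dq_inv_ne_zero h1') h2i (dq_inv_ne_zero h2')

/-- **MODASM sub-assembly S4, unconditional.** -/
theorem s4 : S4Statement P E M q w :=
  s4_of_leaves P E M q w (H553.vinfExists P E) (H553.vinfBasic P E w) (H553.frickeExists E)
    (H553.vzeroNe P E M q w) (H31.deg E M q) (H753.indInf P E M q w) (H753.indZero P E M q w)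

end Final

end Fermat.Agent.A2.Mod.H732

end
end
-- ===== PACK-END A2/Mod/H732/S4.lean

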