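import Mathlib
import Fermat.Prelude.Thm_ModularCurve_coeffMap_qExpand
import Fermat.Prelude.Def_ModularCurve_X0ModL
import Fermat.Prelude.Def_EllipticCurve_FrobeniusTrace
import Fermat.Prelude.Def_ModularCurve_HeckeOperator
import Fermat.Prelude.Def_ModularCurve_ModularUnit
import Fermat.Agent.Pack.S44.G0E25L3
import Fermat.Agent.Pack.S44.G0E25L1
import Fermat.Agent.Pack.S44.G0E11L2
import Fermat.Agent.Pack.S44.G0E17L1
import Fermat.Agent.Pack.S44.G0E5L0
import Fermat.Agent.Pack.S44.G0E20L2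
import Fermat.Agent.Pack.S44.G0E24L2
import Fermat.Agent.Pack.S44.G0E5L3
import Fermat.Agent.Pack.S44.G0E24L0
import Fermat.Agent.Pack.S44.G0E19L1
import Fermat.Agent.Pack.S44.G0E23L1
import Fermat.Agent.Pack.S44.G0E22L2
import Fermat.Agent.Pack.S44.G0E19L3
import Fermat.Agent.Pack.S44.G0E10L2
import Fermat.Agent.Pack.S44.G0E21L1
import Fermat.Agent.Pack.S44.G0E25L0
import Fermat.Agent.Pack.S44.G0E22L0
import Fermat.Agent.Pack.S44.G0E15L0

-- ===== PACK-BEGIN S29/M4b/K3/Defs.lean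
section
/-
S29 row, LAYER M, SUB-LAYER M4b, PIECE K3 (descent `ℂ → ℚ̄`) — interface definitions of the
K3 sub-skeleton (helper42, squad-lead S29/S42).  Namespace `Fermat.Agent.S29.M4b.K3`.

K3 (`exists_realised_isTwisted` of `M4b/Skeleton.lean`) is PROVED in `M4b/K3/Top.lean` from
* `H152.desc_main` (helper152; places-free descent of Kummer classes),
* the landed ROOT lemma `H751.exists_pow_eq_UHP`, MERO `H882`, and
* the two `Prop`s below: `DegStatement` (bounded degree of `F_ℂ` over `ℂ(j)`) and `FinStatement`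
  (finiteness of the `Aut(ℂ/ℚ̄)`-orbit of the Kummer class of a twisted function).
-/


set_option autoImplicit false

noncomputable section

open ModularCurve AlgebraicCurve CongruenceSubgroup UpperHalfPlane
open scoped MatrixGroups Manifold

namespace Fermat.Agent.S29.M4b.K3

open Fermat.Agent.S24 Fermat.Agent.S24.H648 Fermat.Agent.S24.H708 Fermat.Agent.S24.Deg457
open Fermat.Agent.S29 Fermat.Agent.S29.M4b

/-- `ℂ` as an algebra over `ℚ̄` along the fixed embedding `Deg457.iotaC`.  (A `def`, not an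
instance: use `letI := algKC`.) -/
@[reducible] def algKC : Algebra Kbar ℂ := iotaC.toAlgebra

/-- The function field of `X₀(N)` over `ℂ` inside `ℂ((q))` (Prelude object). -/
abbrev FC (N : ℕ) : IntermediateField ℂ (LaurentSeries ℂ) :=
  laurentBaseChange ℂ (modularFunctionFieldFull N)

/-- SUB-PIECE `K3-DEG`: the function field `F_ℂ = ℂ(j(q^d) : d ∣ N)` has bounded degree over
`ℂ(j)` (every element is a root of a polynomial of degree `≤ n` over `ℂ(j)`).
Exactly the hypothesis `hdeg` of `H152.desc_main`. -/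
def DegStatement (N : ℕ) : Prop :=
  ∃ n : ℕ, ∀ u ∈ FC N,
    IsIntegral (IntermediateField.adjoin ℂ {coeffEmb ℂ jq}) u ∧
      (minpoly (IntermediateField.adjoin ℂ {coeffEmb ℂ jq}) u).natDegree ≤ n

/-- SUB-PIECE `K3-FIN` (the arithmetic heart of K3): for a twisted function `U` of a parabolic
character, the `Aut(ℂ/ℚ̄)`-orbit of the class of `f = qexp (U ^ p)` in `F_ℂˣ / (F_ℂˣ) ^ p` is
finite.  Exactly the hypothesis `horb` of `H152.desc_main`.

Why true: `p ∣ ord_w f` at every place `w` of `F_ℂ/ℂ` (K2 over `ℂ`); `σ` permutes the places, so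
the same holds for `σ f`, which is again the `q`-expansion of a good function `G_σ` (`σ f` is
integral over `ℂ[j]`); by the easy half of the dictionary `p ∣ ord_τ G_σ` for all `τ ∈ ℍ`, so
`G_σ = U_σ ^ p` (ROOT) and `U_σ` has a character `χ_σ : Γ₀(N) → μ_p`
(`H751.exists_character_of_pow_eq`); there are finitely many characters (`Γ₀(N)` is finitely
generated), and `χ_σ = χ_σ'` implies `σ f / σ' f = (U_σ U_σ' ^ (p-1) / G_σ') ^ p ∈ (F_ℂˣ) ^ p`
(MERO applied to the good invariant function `U_σ U_σ' ^ (p-1)`). -/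
def FinStatement (N p : ℕ) : Prop :=
  letI := algKC
  ∀ (c : G0 N → ZMod p), IsParHom c → ∀ U : ℍ → ℂ, IsTwisted N p c U →
    ∃ T : Set (LaurentSeries ℂ), T.Finite ∧ ∀ σ : ℂ ≃ₐ[Kbar] ℂ, ∃ t ∈ T,
      ∃ u ∈ FC N, u ≠ 0 ∧
        coeffMap (σ : ℂ →+* ℂ) (qexpFun 1 (fun τ => U τ ^ p)) = t * u ^ p

end Fermat.Agent.S29.M4b.K3

end
end
-- ===== PACK-END S29/M4b/K3/Defs.lean

-- ===== PACK-BEGIN S29/H282/CoreK.lean
section


/-!
# S29 / M4b-K2 (helper282) — the local data of the function field over `K` at every point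

Port of the second half of `Fermat/Agent/S24/Mod/H997Core.lean` from `(ℚ̄, ιK)` to an arbitrary
field `K` with `ι : K →+* ℂ`.
-/

set_option autoImplicit false

noncomputable section

open ModularCurve HahnSeries UpperHalfPlane
open scoped MatrixGroups

namespace Fermat.Agent.S29.H282

open Fermat.Agent.S24 Fermat.Agent.S24.H997 Fermat.Agent.S24.Deg457

variable {K : Type*} [Field K] [Algebra ℚ K] (ι : K →+* ℂ)
variable {N : ℕ} [NeZero N] (A : AnalyticCore N)

/-- the local data at `∞` -/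
def dataInfK : LocalData K (FFK K N) ℂ (XX N) (jFK K N)⁻¹ :=
  mkLocalDataK ι A.toHolBase A.toHolBase.qexpExpansion ModularGroup.T A.infRot (jFK K N)⁻¹
    (A.qexp (A.toHolBase.JH 1 (one_dvd N)))⁻¹
    (fun g => by rw [map_inv₀, sigmaGK_jFK]; rfl)
    (by
      rw [RotRel.order_inv' A.toHolBase.qexp_J_one_ne_zero, A.toHolBase.order_qexp_J_one, neg_neg]
      rfl)

theorem sigmaGK_sub {a : K} {ε : SL(2, ℤ)} (P : PointData A.toHolBase (ι a) ε)
    (g : SL(2, ℤ)) :
    sigmaGK ι A.toHolBase P.X g (jFK K N - algebraMap K (FFK K N) a)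
      = P.X.E (A.toHolBase.JH 1 (one_dvd N) - A.toHolBase.constH (ι a)) := by
  rw [map_sub, sigmaGK_jFK, sigmaGK_algebraMap, map_sub, P.X.const]

/-- the local data attached to point data over `a` -/
def dataOfPointK {a : K} {ε : SL(2, ℤ)} (P : PointData A.toHolBase (ι a) ε) :
    LocalData K (FFK K N) ℂ (XX N) (jFK K N - algebraMap K (FFK K N) a) :=
  mkLocalDataK ι A.toHolBase P.X ε P.R _ _ (fun g => sigmaGK_sub ι A P g) P.order_J

/-- all the embeddings `σ_x` agree on `K(j)` -/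
theorem sigmaXK_eq_on_adjoin (X : Expansion A.toHolBase) (x y : XX N) {f : FFK K N}
    (hf : f ∈ IntermediateField.adjoin K {jFK K N}) :
    sigmaXK ι A.toHolBase X x f = sigmaXK ι A.toHolBase X y f := by
  induction hf using IntermediateField.adjoin_induction with
  | mem z hz =>
      rw [Set.mem_singleton_iff] at hz
      subst hz
      show sigmaGK ι A.toHolBase X _ (jFK K N) = sigmaGK ι A.toHolBase X _ (jFK K N)
      rw [sigmaGK_jFK, sigmaGK_jFK]
  | algebraMap c =>
      show sigmaGK ι A.toHolBase X _ _ = sigmaGK ι A.toHolBase X _ _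
      rw [sigmaGK_algebraMap, sigmaGK_algebraMap]
  | add z w _ _ hz hw => rw [map_add, map_add, hz, hw]
  | inv z _ hz => rw [map_inv₀, map_inv₀, hz]
  | mul z w _ _ hz hw => rw [map_mul, map_mul, hz, hw]

include ι A in
/-- lower bound for the degree: `|SL₂(ℤ)/Γ₀(N)| ≤ [FFK K N : K(j)]`. -/
theorem card_le_finrankK
    [FiniteDimensional ↥(IntermediateField.adjoin K {jFK K N}) (FFK K N)] :
    Nat.card (XX N) ≤ Module.finrank ↥(IntermediateField.adjoin K {jFK K N}) (FFK K N) := by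
  classical
  set E := IntermediateField.adjoin K {jFK K N} with hE
  let X := A.toHolBase.qexpExpansion
  let x0 : XX N := ((1 : SL(2, ℤ)) : XX N)
  let ψ : ↥E →+* LaurentSeries ℂ := (sigmaXK ι A.toHolBase X x0).comp (algebraMap ↥E (FFK K N))
  letI : Algebra ↥E (LaurentSeries ℂ) := ψ.toAlgebra
  let a : XX N → (FFK K N →ₐ[↥E] LaurentSeries ℂ) := fun x =>
    { sigmaXK ι A.toHolBase X x with
      commutes' := fun y => sigmaXK_eq_on_adjoin ι A X x x0 y.2 }
  have ha : Function.Injective a := by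
    intro x y hxy
    apply sigmaXK_injective ι A.toHolBase X
    refine RingHom.ext fun f => ?_
    exact congrArg (fun φ : FFK K N →ₐ[↥E] LaurentSeries ℂ => φ f) hxy
  haveI : Module.Free ↥E (FFK K N) := Module.Free.of_divisionRing ↥E (FFK K N)
  haveI : Module.Finite ↥E (FFK K N) := ‹FiniteDimensional ↥E (FFK K N)›
  haveI : Finite (FFK K N →ₐ[↥E] LaurentSeries ℂ) :=
    Finite.algHom ↥E (FFK K N) (LaurentSeries ℂ)
  calc Nat.card (XX N) ≤ Nat.card (FFK K N →ₐ[↥E] LaurentSeries ℂ) :=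
        Nat.card_le_card_of_injective a ha
    _ ≤ Module.finrank ↥E (FFK K N) := card_algHom_le_finrank ↥E (FFK K N) (LaurentSeries ℂ)

/-- the stabiliser generator used over the point `a` -/
def epsAt (a : K) : SL(2, ℤ) :=
  letI := Classical.propDecidable
  if ι a = 0 then ModularGroup.S * ModularGroup.T
  else if ι a = 1728 then ModularGroup.S else 1

/-- the point data over the point `a` -/
def pointAt (a : K) : PointData A.toHolBase (ι a) (epsAt ι a) :=
  letI := Classical.propDecidable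
  if h0 : ι a = 0 then by
    rw [epsAt, if_pos h0, h0]; exact A.at0
  else if h1 : ι a = 1728 then by
    rw [epsAt, if_neg h0, if_pos h1, h1]; exact A.at1728
  else by
    rw [epsAt, if_neg h0, if_neg h1]; exact A.generic (ι a) h0 h1

/-- the local data over a finite point `a : K` -/
def dataFinK (a : K) : LocalData K (FFK K N) ℂ (XX N) (jFK K N - algebraMap K (FFK K N) a) :=
  dataOfPointK ι A (pointAt ι A a)

theorem dataFinK_perm (a : K) : (dataFinK ι A a).perm = permOf N (epsAt ι a)⁻¹ := rfl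

theorem dataFinK_σ (a : K) :
    (dataFinK ι A a).σ = sigmaXK ι A.toHolBase (pointAt ι A a).X := rfl

theorem dataFinK_m (a : K) : (dataFinK ι A a).m = (pointAt ι A a).R.m := rfl

theorem dataFinK_ζ (a : K) : (dataFinK ι A a).ζ = (pointAt ι A a).R.ζ := rfl

theorem dataInfK_perm : (dataInfK (K := K) ι A).perm = permOf N ModularGroup.T⁻¹ := rfl

theorem dataInfK_σ :
    (dataInfK (K := K) ι A).σ = sigmaXK ι A.toHolBase A.toHolBase.qexpExpansion := rfl

theorem dataInfK_m : (dataInfK (K := K) ι A).m = N := rfl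

end Fermat.Agent.S29.H282

end
end
-- ===== PACK-END S29/H282/CoreK.lean

-- ===== PACK-BEGIN S30/H810/Real.lean
section
/-
S30 / piece FIN-ONTO (helper810), part 1: analytic realisation of `R_N = ℚ̄[j(q^d) : d ∣ N]`
by good functions, and the Taylor embeddings `σ_τ : FF N → ℂ((z))`.

* `realRN N : RN N →+* goodRing N` : the good function with `q`-expansion `ι r`;
* `sigmaTau N τ : FF N →+* LaurentSeries ℂ` : Taylor expansion at `τ` of the realisation;
* `sigmaTau_of_realises` : if `G` realises `u` (M4b `Realises`), then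
  `sigmaTau N τ u = taylorLaurent τ G`.
-/





set_option autoImplicit false
set_option linter.unusedSectionVars false

noncomputable section

open ModularCurve AlgebraicCurve CongruenceSubgroup UpperHalfPlane HahnSeries
open scoped MatrixGroups Manifold

namespace Fermat.Agent.S30.H810

open Fermat.Agent.S24 Fermat.Agent.S24.H648 Fermat.Agent.S24.H708 Fermat.Agent.S24.Deg457
open Fermat.Agent.S24.H624 Fermat.Agent.S24.H997 Fermat.Agent.S29 Fermat.Agent.S29.M4b
open Fermat.Agent.S29.H882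

variable (N : ℕ) [NeZero N]

/-- every element of `R_N` is the `q`-expansion of a good function -/
theorem exists_good_of_RN (r : RN N) :
    ∃ f : ℍ → ℂ, f ∈ goodRing N ∧ HasQExp 1 f (coeffMap iotaC (r : LaurentSeries Kbar)) := by
  have h1 : (r : LaurentSeries Kbar) ∈ AK Kbar N := r.2
  have h2 : coeffMap iotaC (r : LaurentSeries Kbar) ∈ AK ℂ N := coeffMap_mem_AK iotaC h1
  exact AK_le_goodQ N h2

/-- the good function realising `r ∈ R_N` -/
def realFun (r : RN N) : ℍ → ℂ := (exists_good_of_RN N r).choose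

theorem realFun_mem (r : RN N) : realFun N r ∈ goodRing N :=
  (exists_good_of_RN N r).choose_spec.1

theorem realFun_hasQExp (r : RN N) :
    HasQExp 1 (realFun N r) (coeffMap iotaC (r : LaurentSeries Kbar)) :=
  (exists_good_of_RN N r).choose_spec.2

/-- the realisation `R_N → goodRing N` as a ring hom -/
def realRN : RN N →+* goodRing N where
  toFun r := ⟨realFun N r, realFun_mem N r⟩
  map_one' := by
    apply Subtype.ext
    have h := realFun_hasQExp N (1 : RN N)
    have h1 : coeffMap iotaC ((1 : RN N) : LaurentSeries Kbar) = 1 := by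
      rw [OneMemClass.coe_one, map_one]
    rw [h1] at h
    exact h.eq_of_eq (HasQExp.one 1)
  map_mul' a b := by
    apply Subtype.ext
    have h := realFun_hasQExp N (a * b)
    have h1 : coeffMap iotaC ((a * b : RN N) : LaurentSeries Kbar)
        = coeffMap iotaC (a : LaurentSeries Kbar) * coeffMap iotaC (b : LaurentSeries Kbar) := by
      rw [MulMemClass.coe_mul, map_mul]
    rw [h1] at h
    exact h.eq_of_eq ((realFun_hasQExp N a).mul (realFun_hasQExp N b))
  map_zero' := by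
    apply Subtype.ext
    have h := realFun_hasQExp N (0 : RN N)
    have h1 : coeffMap iotaC ((0 : RN N) : LaurentSeries Kbar) = 0 := by
      rw [ZeroMemClass.coe_zero, map_zero]
    rw [h1] at h
    exact h.eq_of_eq (HasQExp.zero 1)
  map_add' a b := by
    apply Subtype.ext
    have h := realFun_hasQExp N (a + b)
    have h1 : coeffMap iotaC ((a + b : RN N) : LaurentSeries Kbar)
        = coeffMap iotaC (a : LaurentSeries Kbar) + coeffMap iotaC (b : LaurentSeries Kbar) := by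
      rw [AddMemClass.coe_add, map_add]
    rw [h1] at h
    exact h.eq_of_eq ((realFun_hasQExp N a).add (realFun_hasQExp N b))

@[simp] theorem coe_realRN (r : RN N) : ((realRN N r : goodRing N) : ℍ → ℂ) = realFun N r := rfl

theorem iotaC_injective : Function.Injective iotaC := iotaC.injective

theorem coeffMap_iotaC_injective :
    Function.Injective (coeffMap iotaC : LaurentSeries Kbar → LaurentSeries ℂ) := by
  intro x y h
  ext k
  apply iotaC_injective
  have := congrArg (fun s : LaurentSeries ℂ => s.coeff k) h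
  simpa using this

theorem realRN_injective : Function.Injective (realRN N) := by
  intro a b h
  apply Subtype.ext
  apply coeffMap_iotaC_injective
  have ha := realFun_hasQExp N a
  have hb := realFun_hasQExp N b
  have h' : realFun N a = realFun N b := congrArg Subtype.val h
  rw [h'] at ha
  exact ha.unique hb

/-- good functions are holomorphic -/
theorem goodRing_le_holoRing : goodRing N ≤ holoRing := fun _ hf => hf.1

/-- the inclusion `goodRing N → holoRing` -/
def goodToHolo : goodRing N →+* holoRing :=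
  (Subalgebra.inclusion (goodRing_le_holoRing N)).toRingHom

@[simp] theorem coe_goodToHolo (f : goodRing N) :
    ((goodToHolo N f : holoRing) : ℍ → ℂ) = (f : ℍ → ℂ) := rfl

theorem goodToHolo_injective : Function.Injective (goodToHolo N) :=
  Subalgebra.inclusion_injective (goodRing_le_holoRing N)

/-- Taylor expansion at `τ` of the realisation of `r ∈ R_N` -/
def sTau (τ : ℍ) : RN N →+* LaurentSeries ℂ :=
  (taylorLaurent τ).comp ((goodToHolo N).comp (realRN N))

theorem sTau_injective (τ : ℍ) : Function.Injective (sTau N τ) :=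
  (taylorLaurent_injective τ).comp ((goodToHolo_injective N).comp (realRN_injective N))

/-- **The Taylor embedding** `σ_τ : FF N → ℂ((z))`. -/
def sigmaTau (τ : ℍ) : FF N →+* LaurentSeries ℂ := liftF (sTau N τ) (sTau_injective N τ)

theorem sigmaTau_inclRN (τ : ℍ) (r : RN N) :
    sigmaTau N τ (inclRN N r) = taylorLaurent τ (goodToHolo N (realRN N r)) :=
  liftF_inclRN _ _ r

theorem algebraMap_laurent_eq_C (c : ℂ) :
    algebraMap ℂ (LaurentSeries ℂ) c = HahnSeries.C c := by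
  rw [algebraMap_laurentSeries_eq_single]; rfl

theorem realFun_algebraMap (c : Kbar) :
    realFun N (algebraMap Kbar (RN N) c) = fun _ => iotaC c := by
  have h := realFun_hasQExp N (algebraMap Kbar (RN N) c)
  have h1 : ((algebraMap Kbar (RN N) c : RN N) : LaurentSeries Kbar)
      = algebraMap Kbar (LaurentSeries Kbar) c := rfl
  rw [h1, coeffMap_algebraMap', algebraMap_laurent_eq_C] at h
  exact h.eq_of_eq (HasQExp.const 1 (iotaC c))

theorem taylorLaurent_const (τ : ℍ) (c : ℂ) (f : holoRing) (hf : (f : ℍ → ℂ) = fun _ => c) :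
    taylorLaurent τ f = HahnSeries.C c := by
  have : f = algebraMap ℂ holoRing c := Subtype.ext hf
  rw [this, taylorLaurent_apply, AlgHom.commutes, PowerSeries.algebraMap_apply,
    Algebra.algebraMap_self, RingHom.id_apply, HahnSeries.ofPowerSeries_C]

theorem sigmaTau_algebraMap (τ : ℍ) (c : Kbar) :
    sigmaTau N τ (algebraMap Kbar (FF N) c) = HahnSeries.C (iotaC c) := by
  rw [sigmaTau, liftF_algebraMap]
  exact taylorLaurent_const τ (iotaC c) _ (realFun_algebraMap N c)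

variable {N}

theorem Realises.hasQExp {u : FF N} {G : ℍ → ℂ} (hG : Realises N u G) :
    HasQExp 1 G (coeffMap iotaC ((u : FF N) : LaurentSeries Kbar)) := by
  have h := hasQExp_of_mem_goodRing hG.1
  rwa [hG.2] at h

/-- **Compatibility**: if `G` realises `u`, then `σ_τ u` is the Taylor expansion of `G` at `τ`. -/
theorem sigmaTau_of_realises {u : FF N} {G : ℍ → ℂ} (hG : Realises N u G)
    (hmd : G ∈ holoRing) (τ : ℍ) :
    sigmaTau N τ u = taylorLaurent τ ⟨G, hmd⟩ := by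
  obtain ⟨r, t, ht, hu⟩ := exists_div_inclRN N u
  have ht' : inclRN N t ≠ 0 := fun h => ht (inclRN_injective N (by rw [h, map_zero]))
  have hmul : u * inclRN N t = inclRN N r := by
    rw [hu, div_mul_cancel₀ _ ht']
  have hcoe : ((u : FF N) : LaurentSeries Kbar) * (t : LaurentSeries Kbar)
      = (r : LaurentSeries Kbar) := by
    have := congrArg (fun x : FF N => (x : LaurentSeries Kbar)) hmul
    simpa using this
  have hq : HasQExp 1 (G * realFun N t) (coeffMap iotaC (r : LaurentSeries Kbar)) := by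
    have := (Realises.hasQExp hG).mul (realFun_hasQExp N t)
    rwa [← map_mul, hcoe] at this
  have hfun : G * realFun N t = realFun N r := hq.eq_of_eq (realFun_hasQExp N r)
  have hholo : (⟨G, hmd⟩ : holoRing) * goodToHolo N (realRN N t)
      = goodToHolo N (realRN N r) := Subtype.ext hfun
  have hT0 : taylorLaurent τ (goodToHolo N (realRN N t)) ≠ 0 := by
    intro h
    exact ht (sTau_injective N τ (by rw [map_zero]; exact h))
  rw [hu, map_div₀, sigmaTau_inclRN, sigmaTau_inclRN, ← hholo, map_mul, mul_div_assoc,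
    div_self hT0, mul_one]

end Fermat.Agent.S30.H810

end
end
-- ===== PACK-END S30/H810/Real.lean

-- ===== PACK-BEGIN S30/H109/Onto.lean
section



/-!
# S30 / adic layer, piece ONTO (helper109): every torsion class is a Kummer class

`exists_isKum_of_torsion` : if `m • x = 0` in `J₀(N)(ℚ̄)` then `x` is the Kummer class
(`M4b.IsKum`) of an additive character `c : Γ₀(N) → ℤ/m`.

Input (hypothesis `DCStatement`, the converse direction of the dictionary DICT): a function
`f ∈ FF N` all of whose orders at the places of `FF N / ℚ̄` are divisible by `m` has, after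
multiplication by an `m`-th power, a holomorphic realisation all of whose analytic orders of
vanishing are divisible by `m`.  Then ROOT (landed `H751`) gives the `m`-th root `U`, which
transforms by a character of `Γ₀(N)`.
-/

set_option autoImplicit false

noncomputable section

open ModularCurve AlgebraicCurve CongruenceSubgroup UpperHalfPlane
open scoped MatrixGroups Manifold

namespace Fermat.Agent.S30.H109

open Fermat.Agent.S24 Fermat.Agent.S29 Fermat.Agent.S29.M4b

/-- The converse dictionary: divisibility of all algebraic orders by `m` gives a holomorphic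
realisation (up to an `m`-th power) with all analytic orders divisible by `m`. -/
def DCStatement (N m : ℕ) [NeZero N] : Prop :=
  ∀ f : FF N, f ≠ 0 → (∀ v : Place Kbar (FF N), (m : ℤ) ∣ v.ord f) →
    ∃ (t : FF N) (G : ℍ → ℂ), t ≠ 0 ∧ Realises N (f * t ^ m) G ∧
      ∀ τ : ℍ, ∃ k : ℕ, analyticOrderAt (G ∘ ofComplex) (τ : ℂ) = ((m * k : ℕ) : ℕ∞)

section roots

variable (m : ℕ) [NeZero m]

lemma zetaP_isPrimitiveRoot : IsPrimitiveRoot (zetaP m) m :=
  Complex.isPrimitiveRoot_exp m (NeZero.ne m)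

lemma zetaP_pow_val_add (a b : ZMod m) :
    zetaP m ^ (a + b).val = zetaP m ^ a.val * zetaP m ^ b.val := by
  rw [← pow_add]
  have h1 : (a + b).val = (a.val + b.val) % m := ZMod.val_add a b
  rw [h1]
  exact (pow_mod_orderOf_aux m).symm
where
  pow_mod_orderOf_aux (m : ℕ) [NeZero m] {n : ℕ} :
      zetaP m ^ n = zetaP m ^ (n % m) := by
    conv_lhs => rw [← Nat.div_add_mod n m, pow_add, pow_mul,
      (zetaP_isPrimitiveRoot m).pow_eq_one, one_pow, one_mul]

lemma zetaP_pow_val_injective {a b : ZMod m}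
    (h : zetaP m ^ a.val = zetaP m ^ b.val) : a = b := by
  apply ZMod.val_injective m
  exact (zetaP_isPrimitiveRoot m).pow_inj (ZMod.val_lt a) (ZMod.val_lt b) h

lemma exists_zmod_of_pow_eq_one {z : ℂ} (hz : z ^ m = 1) :
    ∃ c : ZMod m, zetaP m ^ c.val = z := by
  obtain ⟨i, hi, hiz⟩ := (zetaP_isPrimitiveRoot m).eq_pow_of_pow_eq_one hz
  refine ⟨(i : ZMod m), ?_⟩
  rw [ZMod.val_natCast_of_lt hi, hiz]

end roots

section onto

variable (N : ℕ) [NeZero N] (m : ℕ) [NeZero m]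

/-- The character of an `m`-th root of a `Γ₀(N)`-invariant function. -/
theorem exists_hom_hasChar {U : ℍ → ℂ} (hU : MDifferentiable 𝓘(ℂ) 𝓘(ℂ) U)
    (hne : ∃ τ, U τ ≠ 0)
    (hinv : ∀ γ ∈ Gamma0 N, ∀ τ : ℍ, U (γ • τ) ^ m = U τ ^ m) :
    ∃ c : G0 N → ZMod m, (∀ γ γ' : G0 N, c (γ * γ') = c γ + c γ') ∧ HasChar N m c U := by
  have hm : m ≠ 0 := NeZero.ne m
  obtain ⟨τ₁, hτ₁⟩ := hne
  -- the constant attached to `γ`
  have key : ∀ γ : G0 N, ∃ c : ZMod m, ∀ τ : ℍ,
      U ((γ : SL(2, ℤ)) • τ) = zetaP m ^ c.val * U τ := by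
    intro γ
    have hA1 : U ((γ : SL(2, ℤ)) • τ₁) ≠ 0 := by
      intro h0
      have := hinv γ γ.2 τ₁
      rw [h0, zero_pow hm] at this
      exact pow_ne_zero m hτ₁ this.symm
    set z : ℂ := U ((γ : SL(2, ℤ)) • τ₁) / U τ₁ with hz
    have hzm : z ^ m = 1 := by
      rw [hz, div_pow, hinv γ γ.2 τ₁, div_self (pow_ne_zero m hτ₁)]
    obtain ⟨c, hc⟩ := exists_zmod_of_pow_eq_one m hzm
    refine ⟨c, fun τ => ?_⟩
    have hdet : 0 < ((Matrix.SpecialLinearGroup.mapGL ℝ (γ : SL(2, ℤ))).det : ℝ) := by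
      simp
    have hAd : MDifferentiable 𝓘(ℂ) 𝓘(ℂ) (fun τ : ℍ => U ((γ : SL(2, ℤ)) • τ)) :=
      hU.comp (UpperHalfPlane.mdifferentiable_smul hdet)
    have hBd : MDifferentiable 𝓘(ℂ) 𝓘(ℂ) (fun τ : ℍ => zetaP m ^ c.val * U τ) :=
      (mdifferentiable_const (c := zetaP m ^ c.val)).mul hU
    have := H751.eq_of_pow_eq_UHP hAd hBd hm (fun τ => by
      rw [hinv γ γ.2 τ, mul_pow, hc, hzm, one_mul]) (τ₀ := τ₁)
      (by
        simp only [hc, hz]
        field_simp) hA1
    exact congrFun this τ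
  choose c hc using key
  refine ⟨c, fun γ γ' => ?_, fun γ τ => hc γ τ⟩
  apply zetaP_pow_val_injective m
  rw [zetaP_pow_val_add]
  have h1 := hc (γ * γ') τ₁
  have h2 := hc γ ((γ' : SL(2, ℤ)) • τ₁)
  have h3 := hc γ' τ₁
  have hsm : ((γ * γ' : G0 N) : SL(2, ℤ)) • τ₁ = (γ : SL(2, ℤ)) • ((γ' : SL(2, ℤ)) • τ₁) := by
    rw [Subgroup.coe_mul, mul_smul]
  rw [hsm, h2, h3] at h1
  have h5 : zetaP m ^ (c γ).val * zetaP m ^ (c γ').val * U τ₁ =
      zetaP m ^ (c (γ * γ')).val * U τ₁ := by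
    linear_combination h1
  exact (mul_right_cancel₀ hτ₁ h5).symm

/-- **ONTO.**  Every `m`-torsion class of `J₀(N)(ℚ̄)` is the Kummer class of an additive
character of `Γ₀(N)` with values in `ℤ/m`. -/
theorem exists_isKum_of_torsion (hDC : DCStatement N m) {x : JZero N}
    (hx : (m : ℤ) • x = 0) :
    ∃ c : G0 N → ZMod m, (∀ γ γ' : G0 N, c (γ * γ') = c γ + c γ') ∧ IsKum N m c x := by
  have hm : m ≠ 0 := NeZero.ne m
  obtain ⟨f, hf⟩ := H455.exists_isKummerClass_of_zsmul_eq_zero hx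
  have hdvd : ∀ v : Place Kbar (FF N), (m : ℤ) ∣ v.ord f := by
    obtain ⟨-, D, -, hD⟩ := hf
    exact fun v => ⟨_, (hD v).symm⟩
  obtain ⟨t, G, ht, hG, hord⟩ := hDC f hf.ne_zero hdvd
  have hGgood := hG.1
  obtain ⟨U, hUd, hUG⟩ := H751.exists_pow_eq_UHP hGgood.1 m hm hord
  have hpowfun : (fun τ => U τ ^ m) = G := funext hUG
  -- `G` is not identically zero
  have hGne : G ≠ 0 := by
    intro h0
    have hq := hG.2
    have hmer := (H882.hasQExp_of_mem_goodRing hGgood).isMerInf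
    rw [(H708.qexpFun_eq_zero_iff hmer).2 h0] at hq
    have hne : (f * t ^ m : FF N) ≠ 0 := mul_ne_zero hf.ne_zero (pow_ne_zero m ht)
    have hne' : ((f * t ^ m : FF N) : LaurentSeries Kbar) ≠ 0 := by
      intro h
      exact hne (Subtype.ext h)
    exact hne' ((map_eq_zero_iff _ (coeffMap Deg457.iotaC).injective).1 hq.symm)
  have hUne : ∃ τ, U τ ≠ 0 := by
    by_contra hcon
    simp only [not_exists, not_not] at hcon
    apply hGne
    funext τ
    rw [← hUG τ, hcon τ, zero_pow hm]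
    rfl
  obtain ⟨c, hcmul, hchar⟩ := exists_hom_hasChar N m hUd hUne (fun γ hγ τ => by
    rw [hUG, hUG, hGgood.2.1 γ hγ τ])
  refine ⟨c, hcmul, f, t, U, ht, hf, ⟨hUd, hUne, hchar, ?_⟩, ?_⟩
  · rw [hpowfun]
    exact hGgood
  · rw [hpowfun]
    exact hG

/-- The set of additive characters `Γ₀(N) → ℤ/m` is finite (`Γ₀(N)` is finitely generated). -/
theorem finite_hom_set :
    {c : G0 N → ZMod m | ∀ γ γ' : G0 N, c (γ * γ') = c γ + c γ'}.Finite := by
  haveI : Group.FG SL(2, ℤ) := Group.fg_iff.mpr ⟨{ModularGroup.S, ModularGroup.T},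
    SpecialLinearGroup.SL2Z_generators, by simp⟩
  haveI : Group.FG (G0 N) := inferInstance
  obtain ⟨s, hs⟩ := Group.fg_def.mp (inferInstance : Group.FG (G0 N))
  let T := {c : G0 N → ZMod m | ∀ γ γ' : G0 N, c (γ * γ') = c γ + c γ'}
  let r : T → (s → ZMod m) := fun c x => c.1 x
  have hr : Function.Injective r := by
    intro c d hcd
    have hc := c.2
    have hd := d.2
    have hc1 : c.1 1 = 0 := by
      have := hc 1 1
      rw [mul_one] at this
      exact left_eq_add.mp this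
    have hd1 : d.1 1 = 0 := by
      have := hd 1 1
      rw [mul_one] at this
      exact left_eq_add.mp this
    have hcinv : ∀ γ, c.1 γ⁻¹ = -c.1 γ := fun γ => by
      have := hc γ γ⁻¹
      rw [mul_inv_cancel, hc1] at this
      exact eq_neg_of_add_eq_zero_right this.symm
    have hdinv : ∀ γ, d.1 γ⁻¹ = -d.1 γ := fun γ => by
      have := hd γ γ⁻¹
      rw [mul_inv_cancel, hd1] at this
      exact eq_neg_of_add_eq_zero_right this.symm
    apply Subtype.ext
    funext γ
    have hγ : γ ∈ Subgroup.closure (s : Set (G0 N)) := by rw [hs]; trivial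
    induction hγ using Subgroup.closure_induction with
    | mem x hx => exact congrFun hcd ⟨x, hx⟩
    | one => rw [hc1, hd1]
    | mul x y _ _ hx hy => rw [hc, hd, hx, hy]
    | inv x _ hx => rw [hcinv, hdinv, hx]
  haveI : Finite T := Finite.of_injective r hr
  exact Set.toFinite T

/-- **FIN.**  `J₀(N)(ℚ̄)[m]` is finite, given the converse dictionary and the uniqueness of
Kummer classes (piece `K4-UNIQ` of sub-layer M4b). -/
theorem finite_torsion (hDC : DCStatement N m)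
    (huniq : ∀ (c : G0 N → ZMod m) (x x' : JZero N),
      IsKum N m c x → IsKum N m c x' → x = x') :
    {x : JZero N | m • x = 0}.Finite := by
  have key : ∀ x : {x : JZero N | m • x = 0}, ∃ c : G0 N → ZMod m,
      (∀ γ γ' : G0 N, c (γ * γ') = c γ + c γ') ∧ IsKum N m c x.1 := fun x =>
    exists_isKum_of_torsion N m hDC (by rw [natCast_zsmul]; exact x.2)
  choose c hc1 hc2 using key
  let T := {c : G0 N → ZMod m | ∀ γ γ' : G0 N, c (γ * γ') = c γ + c γ'}
  haveI : Finite T := (finite_hom_set N m).to_subtype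
  let φ : {x : JZero N | m • x = 0} → T := fun x => ⟨c x, hc1 x⟩
  have hinj : Function.Injective φ := by
    intro x y h
    have hxy : c x = c y := congrArg Subtype.val h
    apply Subtype.ext
    exact huniq (c x) x.1 y.1 (hc2 x) (hxy ▸ hc2 y)
  haveI : Finite {x : JZero N | m • x = 0} := Finite.of_injective φ hinj
  exact Set.toFinite _

end onto

end Fermat.Agent.S30.H109

end
end
-- ===== PACK-END S30/H109/Onto.lean

-- ===== PACK-BEGIN A2/H553/K2Both.lean
section





/-!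
# A2 / K2 concrete (helper553): the two Gauss valuations `V∞`, `V₀` of `Q̄(X₀(N))`

`A` a valuation subring of `Q̄` over a prime `ℓ`, `σ` in the inertia group of `A`,
`τ = arithmeticRingAut σ` (action on the coefficients of `q`-expansions).

* abstract part (`comapAut`): transport of helper129's K2 hypotheses along an automorphism `φ`
  of `F` which fixes the constants and commutes with `τ`;
* `VzeroModular A hℓ hA N := H528.comapW N (VinfModular A hℓ hA N)`  (`V₀ = V∞ ∘ w_N`);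
* `k2_Vzero_modular` : `HasConstValues`, `PreservesConstValues`, `InInertia` for `V₀`;
* `k2_both'`, `k2_both` : for every `f ≠ 0`, `(τ' - 1)(τ - 1) f ∈ 1 + 𝔪` at `V∞` AND at `V₀`
  (no constant needed);
* `isUnitOf_once_both` : `(τ - 1) f` is a unit at `V∞` and `V₀`;
* `VzeroModular_ne` : `V₀ ≠ V∞` when `ℓ ∣ N`;
* `algebraMap_mem_Vzero_iff` : `V₀ ∩ Q̄ = A`.
-/

set_option autoImplicit false
set_option linter.unusedSectionVars false
set_option linter.style.haveILetI false

noncomputable section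

namespace Fermat.Agent.A2.H553

open ModularCurve HahnSeries IntermediateField AlgebraicCurve
open Fermat.Agent.S28.H86 Fermat.Agent.S18.H602 Fermat.Agent.A2.H129

local notation "Q̄" => AlgebraicClosure ℚ

/-! ### Abstract transport along an automorphism -/

section Abstract

variable {F : Type*} [Field F]

/-- pull back of a valuation subring along a ring automorphism -/
def comapAut (V : ValuationSubring F) (φ : F ≃+* F) : ValuationSubring F :=
  V.comap φ.toRingHom

theorem mem_comapAut {V : ValuationSubring F} {φ : F ≃+* F} {x : F} :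
    x ∈ comapAut V φ ↔ φ x ∈ V := Iff.rfl

theorem valuation_comapAut_le_one_iff (V : ValuationSubring F) (φ : F ≃+* F) {x : F} :
    (comapAut V φ).valuation x ≤ 1 ↔ V.valuation (φ x) ≤ 1 := by
  rw [ValuationSubring.valuation_le_one_iff, ValuationSubring.valuation_le_one_iff, mem_comapAut]

theorem valuation_comapAut_eq_one_iff (V : ValuationSubring F) (φ : F ≃+* F) {x : F} :
    (comapAut V φ).valuation x = 1 ↔ V.valuation (φ x) = 1 := by
  rcases eq_or_ne x 0 with rfl | hx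
  · simp
  · have hφx : φ x ≠ 0 := (map_ne_zero_iff φ φ.injective).mpr hx
    rw [valuation_eq_one_iff_mem _ hx, valuation_eq_one_iff_mem _ hφx, mem_comapAut,
      mem_comapAut, map_inv₀]

theorem valuation_comapAut_lt_one_iff (V : ValuationSubring F) (φ : F ≃+* F) {x : F} :
    (comapAut V φ).valuation x < 1 ↔ V.valuation (φ x) < 1 := by
  rw [lt_iff_le_and_ne, lt_iff_le_and_ne, valuation_comapAut_le_one_iff, Ne, Ne,
    valuation_comapAut_eq_one_iff]

theorem hasConstValues_comapAut {Kc : Subfield F} {V : ValuationSubring F} (φ : F ≃+* F)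
    (hφK : ∀ c ∈ Kc, φ c = c) (h : HasConstValues Kc V) :
    HasConstValues Kc (comapAut V φ) := by
  intro f hf
  have hφf : φ f ≠ 0 := (map_ne_zero_iff φ φ.injective).mpr hf
  obtain ⟨c, hc, hc0, hu⟩ := h (φ f) hφf
  refine ⟨c, hc, hc0, ?_⟩
  show (comapAut V φ).valuation (f * c⁻¹) = 1
  rw [valuation_comapAut_eq_one_iff, map_mul, map_inv₀, hφK c hc]
  exact hu

theorem preservesConstValues_comapAut {Kc : Subfield F} {V : ValuationSubring F} (φ : F ≃+* F)
    {τ : F ≃+* F} (hφK : ∀ c ∈ Kc, φ c = c) (hτK : ∀ c ∈ Kc, τ c ∈ Kc)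
    (h : PreservesConstValues Kc V τ) :
    PreservesConstValues Kc (comapAut V φ) τ := by
  intro c hc hc0
  show (comapAut V φ).valuation (τ c * c⁻¹) = 1
  rw [valuation_comapAut_eq_one_iff, map_mul, map_inv₀, hφK c hc, hφK (τ c) (hτK c hc)]
  exact h c hc hc0

theorem inInertia_comapAut {V : ValuationSubring F} (φ : F ≃+* F) {τ : F ≃+* F}
    (hcomm : ∀ x, φ (τ x) = τ (φ x)) (h : InInertia V τ) :
    InInertia (comapAut V φ) τ := by
  intro u hu
  rw [valuation_comapAut_le_one_iff] at hu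
  rw [valuation_comapAut_lt_one_iff, map_sub, hcomm]
  exact h (φ u) hu

end Abstract

/-! ### The valuation `V₀ = V∞ ∘ w_N` -/

section Concrete

open Fermat.Agent.A2.H528 Fermat.Agent.S24

variable (A : ValuationSubring Q̄) {ℓ : ℕ} (hℓ : ℓ ≠ 0) (hA : A.LiesOverPrime ℓ)
  (N : ℕ) [NeZero N]

/-- The Gauss valuation at the cusp `0` of `Q̄(X₀(N))` over `A`: `V₀ = V∞ ∘ w_N`. -/
def VzeroModular : ValuationSubring ↥(modularFunctionFieldBar N) :=
  comapW N (VinfModular A hℓ hA N)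

theorem VzeroModular_eq_comapAut :
    VzeroModular A hℓ hA N = comapAut (VinfModular A hℓ hA N) (wF N).toRingEquiv := rfl

theorem mem_VzeroModular {f : ↥(modularFunctionFieldBar N)} :
    f ∈ VzeroModular A hℓ hA N ↔ wF N f ∈ VinfModular A hℓ hA N := Iff.rfl

theorem wF_const {c : ↥(modularFunctionFieldBar N)}
    (hc : c ∈ constField (modularFunctionFieldFull N)) : wF N c = c := by
  obtain ⟨c₀, rfl⟩ := hc
  exact wFHom_algebraMap N c₀

/-- `V₀ ∩ Q̄ = A`. -/
theorem algebraMap_mem_Vzero_iff {c : Q̄} :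
    algebraMap Q̄ ↥(modularFunctionFieldBar N) c ∈ VzeroModular A hℓ hA N ↔ c ∈ A := by
  rw [VzeroModular, algebraMap_mem_comapW]
  exact algebraMap_mem_Vinf_iff _

/-- **K2 hypotheses for `V₀`.** -/
theorem k2_Vzero_modular {σ : Q̄ ≃ₐ[ℚ] Q̄} (hσ : σ ∈ A.inertiaSubgroupIn ℚ) :
    HasConstValues (constField (modularFunctionFieldFull N)) (VzeroModular A hℓ hA N) ∧
    PreservesConstValues (constField (modularFunctionFieldFull N)) (VzeroModular A hℓ hA N)
      (arithmeticRingAut (modularFunctionFieldFull N) σ) ∧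
    InInertia (VzeroModular A hℓ hA N) (arithmeticRingAut (modularFunctionFieldFull N) σ) := by
  obtain ⟨h1, h2, h3, h4⟩ := k2_Vinf_modular A hℓ hA N hσ
  rw [VzeroModular_eq_comapAut]
  refine ⟨hasConstValues_comapAut _ (fun c hc => wF_const N hc) h1,
    preservesConstValues_comapAut _ (fun c hc => wF_const N hc) h4 h2,
    inInertia_comapAut _ (fun x => ?_) h3⟩
  exact wF_gal N σ x

/-- **K2, concrete, two automorphisms.**  For `σ, σ'` in the inertia group of `A` and every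
`f ≠ 0` of `Q̄(X₀(N))`: `(τ' - 1)(τ - 1) f ∈ 1 + 𝔪` at `V∞` and at `V₀`. -/
theorem k2_both' {σ σ' : Q̄ ≃ₐ[ℚ] Q̄} (hσ : σ ∈ A.inertiaSubgroupIn ℚ)
    (hσ' : σ' ∈ A.inertiaSubgroupIn ℚ) {f : ↥(modularFunctionFieldBar N)} (hf : f ≠ 0) :
    OneAddNonunits (VinfModular A hℓ hA N)
      (tauSubOne (arithmeticRingAut (modularFunctionFieldFull N) σ')
        (tauSubOne (arithmeticRingAut (modularFunctionFieldFull N) σ) f)) ∧
    OneAddNonunits (VzeroModular A hℓ hA N)
      (tauSubOne (arithmeticRingAut (modularFunctionFieldFull N) σ')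
        (tauSubOne (arithmeticRingAut (modularFunctionFieldFull N) σ) f)) := by
  obtain ⟨h1, h2, h3, -⟩ := k2_Vinf_modular A hℓ hA N hσ
  obtain ⟨-, -, h3', -⟩ := k2_Vinf_modular A hℓ hA N hσ'
  obtain ⟨g1, g2, g3⟩ := k2_Vzero_modular A hℓ hA N hσ
  obtain ⟨-, -, g3'⟩ := k2_Vzero_modular A hℓ hA N hσ'
  exact ⟨oneAddNonunits_twice' h1 h3 h2 h3' hf, oneAddNonunits_twice' g1 g3 g2 g3' hf⟩

/-- **K2, concrete.**  `(τ - 1)² f ∈ 1 + 𝔪` at `V∞` and at `V₀`, for every `f ≠ 0`. -/
theorem k2_both {σ : Q̄ ≃ₐ[ℚ] Q̄} (hσ : σ ∈ A.inertiaSubgroupIn ℚ)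
    {f : ↥(modularFunctionFieldBar N)} (hf : f ≠ 0) :
    OneAddNonunits (VinfModular A hℓ hA N)
      (tauSubOne (arithmeticRingAut (modularFunctionFieldFull N) σ)
        (tauSubOne (arithmeticRingAut (modularFunctionFieldFull N) σ) f)) ∧
    OneAddNonunits (VzeroModular A hℓ hA N)
      (tauSubOne (arithmeticRingAut (modularFunctionFieldFull N) σ)
        (tauSubOne (arithmeticRingAut (modularFunctionFieldFull N) σ) f)) :=
  k2_both' A hℓ hA N hσ hσ hf

/-- `(τ - 1) f` is a unit at `V∞` and at `V₀`, for every `f ≠ 0`. -/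
theorem isUnitOf_once_both {σ : Q̄ ≃ₐ[ℚ] Q̄} (hσ : σ ∈ A.inertiaSubgroupIn ℚ)
    {f : ↥(modularFunctionFieldBar N)} (hf : f ≠ 0) :
    IsUnitOf (VinfModular A hℓ hA N)
      (tauSubOne (arithmeticRingAut (modularFunctionFieldFull N) σ) f) ∧
    IsUnitOf (VzeroModular A hℓ hA N)
      (tauSubOne (arithmeticRingAut (modularFunctionFieldFull N) σ) f) := by
  obtain ⟨h1, h2, h3, -⟩ := k2_Vinf_modular A hℓ hA N hσ
  obtain ⟨g1, g2, g3⟩ := k2_Vzero_modular A hℓ hA N hσ
  exact ⟨isUnitOf_once h1 h3 h2 hf, isUnitOf_once g1 g3 g2 hf⟩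

/-! ### Integral `q`-expansions and `V₀ ≠ V∞` -/

/-- an integral series, as a series over `A` -/
theorem intEmb_eq_inclL (g : LaurentSeries ℤ) :
    intEmb g = inclL A.toSubring (coeffMap (Int.castRingHom ↥A.toSubring) g) := by
  ext n
  rw [inclL_coeff, coeffMap_coeff, intEmb_coeff]
  simp

/-- functions with integral `q`-expansion lie in `V∞` -/
theorem mem_Vinf_of_intEmb {f : ↥(modularFunctionFieldBar N)} {g : LaurentSeries ℤ}
    (hfg : ((f : ↥(modularFunctionFieldBar N)) : LaurentSeries Q̄) = intEmb g) :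
    f ∈ VinfModular A hℓ hA N := by
  show ((f : ↥(modularFunctionFieldBar N)) : LaurentSeries Q̄) ∈ gaussA A
  rw [hfg, intEmb_eq_inclL A]
  exact inclL_mem_gaussRing (resA A) _

/-- functions with integral `q`-expansion having a coefficient `-1` are units of `V∞` -/
theorem inv_mem_Vinf_of_intEmb {f : ↥(modularFunctionFieldBar N)} {g : LaurentSeries ℤ} {k : ℤ}
    (hfg : ((f : ↥(modularFunctionFieldBar N)) : LaurentSeries Q̄) = intEmb g)
    (hk : g.coeff k = -1) :
    f⁻¹ ∈ VinfModular A hℓ hA N := by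
  show ((f⁻¹ : ↥(modularFunctionFieldBar N)) : LaurentSeries Q̄) ∈ gaussA A
  have hcoe : ((f⁻¹ : ↥(modularFunctionFieldBar N)) : LaurentSeries Q̄) =
      ((f : ↥(modularFunctionFieldBar N)) : LaurentSeries Q̄)⁻¹ := rfl
  rw [hcoe, hfg, intEmb_eq_inclL A]
  refine inv_mem_gaussA_of_redA_ne_zero
    ⟨inclL A.toSubring (coeffMap (Int.castRingHom ↥A.toSubring) g),
      inclL_mem_gaussRing (resA A) _⟩ ?_
  rw [redA_inclL, redL_ne_zero_iff]
  refine ⟨k, ?_⟩
  rw [coeffMap_coeff, hk]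
  simp

/-- **`V₀ ≠ V∞`** when `ℓ ∣ N`. -/
theorem VzeroModular_ne [Fact ℓ.Prime] (hℓN : ℓ ∣ N) :
    VzeroModular A hℓ hA N ≠ VinfModular A hℓ hA N := by
  refine comapW_ne N ℓ hℓN (VinfModular A hℓ hA N)
    (fun f g hfg => mem_Vinf_of_intEmb A hℓ hA N hfg)
    (fun f g k hfg hk => inv_mem_Vinf_of_intEmb A hℓ hA N hfg hk) ?_
  intro hmem
  have h1 : (algebraMap Q̄ ↥(modularFunctionFieldBar N) (ℓ : Q̄))⁻¹ =
      algebraMap Q̄ ↥(modularFunctionFieldBar N) ((ℓ : Q̄)⁻¹) := (map_inv₀ _ _).symm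
  rw [h1] at hmem
  have h2 : ((ℓ : Q̄)⁻¹) ∈ A := (algebraMap_mem_Vinf_iff _).mp hmem
  have h3 : (ℓ : Q̄) ∈ A.nonunits := hA
  rw [ValuationSubring.mem_nonunits_iff] at h3
  have h4 : A.valuation ((ℓ : Q̄)⁻¹) ≤ 1 := (A.valuation_le_one_iff _).mpr h2
  rw [map_inv₀] at h4
  have hℓ0 : A.valuation (ℓ : Q̄) ≠ 0 := by
    rw [Valuation.ne_zero_iff]
    exact_mod_cast hℓ
  have h5 : 1 ≤ A.valuation (ℓ : Q̄) := (inv_le_one₀ (zero_lt_iff.mpr hℓ0)).mp h4
  exact absurd h3 (not_lt.mpr h5)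

end Concrete

end Fermat.Agent.A2.H553

end
end
-- ===== PACK-END A2/H553/K2Both.lean

-- ===== PACK-BEGIN A2/H612/Kron.lean
section
/-
Cell A2, piece KRON-concrete (helper612): the SEMILINEAR Kronecker congruences via a Frobenius
element, at the two Gauss valuations of the function field of `X₀(Mℓ)` over `Q̄`.

PART 1 (series level).  `A` a valuation subring of a field `K`, residue field of characteristic
`ℓ`, `ψ : K →+* K` with `ψ A ⊆ A` and `(ψ c)^ℓ ≡ c mod 𝔪_A` (`ψ = φ⁻¹`, `φ` a Frobenius element).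
For `x` in the Gauss ring `gaussA A ⊆ K((q))` (helper553):
* `pow_eq_qExpand_frobenius` : in characteristic `ℓ`, `y^ℓ = (Frob y)(q^ℓ)`;
* `qExpand_mem_gaussA`, `redA_qExpand`, `coeffMap_mem_gaussA_of_frob`;
* `redA_qExpand_eq_pow` : `red (x(q^ℓ)) = (red (ψ x))^ℓ`;   `redA_kron_eq_zero`.

PART 2 (level `M → Mℓ`).  `A ⊆ Q̄` over `ℓ`, `A.IsFrobeniusAt φ ℓ` (Prelude),
`α = heckeAlphaBar`, `β = heckeBetaBar : FF M → FF (M ℓ)`, `g = gal M φ⁻¹`,
`V∞ = H553.VinfModular`, `V₀ = H553.VzeroModular = V∞ ∘ w`: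
* `kron_inf`  : `a ∈ V∞(M)  ⟹  β a - (α (g a))^ℓ ∈ 𝔪_{V∞(Mℓ)}`;
* `kron_zero` : `a ∈ V₀(M)  ⟹  α a - (β (g a))^ℓ ∈ 𝔪_{V₀(Mℓ)}`;
* `wF_heckeAlphaBar`, `wF_heckeBetaBar` : `w_{Mℓ} ∘ α = β ∘ w_M`, `w_{Mℓ} ∘ β = α ∘ w_M`;
* `heckeAlphaBar_gal`, `heckeBetaBar_gal`, membership lemmas for `V∞`, `V₀`;
* `kron_of_isIntegral` : CHART FORM — `a` integral over any subring `S ⊆ V∞(M) ∩ V₀(M)`
  (e.g. `(A ∩ E)[j]`; `jFd_mem_Vinf`, `jFd_mem_Vzero`): both congruences with `a' = φ⁻¹ a`;
  `isIntegral_gal_symm` : `a'` is again integral over `S` if `S` is `φ⁻¹`-stable.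

So in `H372.KronCong ℓ α β P₁ P₂` (`P₁ = 𝔪_{V∞} ∩ B`, `P₂ = 𝔪_{V₀} ∩ B`) the witness `a' := φ⁻¹ a`
works for EVERY `a` of the level-`M` chart over any `φ`-stable `E`: no base change
`B_M = R · B_{M,0}`, no discreteness, any `M` (also `ℓ ∣ M`).
-/







set_option autoImplicit false
set_option linter.unusedSectionVars false
set_option synthInstance.maxHeartbeats 400000
set_option maxHeartbeats 1000000

noncomputable section

namespace Fermat.Agent.A2.H612

section SeriesLevel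

open ModularCurve HahnSeries Fermat.Agent.S28.H86 Fermat.Agent.A2.H553

/-! ### Frobenius on Laurent series in characteristic `ℓ` -/

section Frobenius

variable {k : Type*} [Field k] (ℓ : ℕ) [hℓ : Fact ℓ.Prime] [CharP k ℓ]

/-- In characteristic `ℓ`: `(∑ cₙ qⁿ)^ℓ = ∑ cₙ^ℓ q^{ℓ n}`. -/
theorem pow_eq_qExpand_frobenius [NeZero ℓ] (y : LaurentSeries k) :
    y ^ ℓ = qExpand k ℓ (coeffMap (frobenius k ℓ) y) := by
  have hps : ∀ u : PowerSeries k, u ^ ℓ = (u.map (frobenius k ℓ)).expand ℓ hℓ.out.ne_zero := by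
    intro u
    have h := MvPowerSeries.map_frobenius_expand (σ := Unit) (R := k) ℓ hℓ.out.ne_zero (f := u)
    rw [← h]
    exact PowerSeries.map_expand ℓ hℓ.out.ne_zero (frobenius k ℓ) u
  conv_lhs => rw [← LaurentSeries.single_order_mul_powerSeriesPart y]
  conv_rhs => rw [← LaurentSeries.single_order_mul_powerSeriesPart y]
  rw [mul_pow, map_mul (coeffMap (frobenius k ℓ)), map_mul (qExpand k ℓ), coeffMap_single,
    RingHom.map_one, qExpand_single, HahnSeries.single_pow, one_pow, coeffMap_ofPowerSeries,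
    Fermat.Agent.A2.H528.qExpand_ofPowerSeries, ← map_pow, hps, nsmul_eq_mul]

end Frobenius

/-! ### The Gauss ring: `q ↦ q^n` -/

section QExpand

variable {K : Type*} [Field K] (A : ValuationSubring K) (n : ℕ) [NeZero n]

theorem qExpand_inclL (a : LaurentSeries ↥A.toSubring) :
    qExpand K n (inclL A.toSubring a) = inclL A.toSubring (qExpand ↥A.toSubring n a) :=
  (coeffMap_qExpand A.toSubring.subtype n a).symm

theorem redL_qExpand (a : LaurentSeries ↥A.toSubring) :
    redL (resA A) (qExpand ↥A.toSubring n a) =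
      qExpand (IsLocalRing.ResidueField ↥A) n (redL (resA A) a) :=
  coeffMap_qExpand (resA A) n a

theorem qExpand_ne_zero {R : Type*} [CommRing R] {y : LaurentSeries R} (hy : y ≠ 0) :
    qExpand R n y ≠ 0 := fun h =>
  hy (qExpand_injective n (h.trans (map_zero _).symm))

/-- `x(q) ↦ x(q^n)` preserves the Gauss ring. -/
theorem qExpand_mem_gaussA {x : LaurentSeries K} (hx : x ∈ gaussA A) :
    qExpand K n x ∈ gaussA A := by
  obtain ⟨a, b, hb, hab⟩ := hx
  refine ⟨qExpand _ n a, qExpand _ n b, ?_, ?_⟩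
  · rw [redL_qExpand]
    exact qExpand_ne_zero n hb
  · rw [← qExpand_inclL, ← qExpand_inclL, ← map_mul, hab]

/-- reduction commutes with `q ↦ q^n`. -/
theorem redA_qExpand (x : gaussA A) :
    redA A ⟨qExpand K n (x : LaurentSeries K), qExpand_mem_gaussA A n x.2⟩ =
      qExpand (IsLocalRing.ResidueField ↥A) n (redA A x) := by
  obtain ⟨a, b, hb, hab⟩ := x.2
  have hb' : redL (resA A) (qExpand ↥A.toSubring n b) ≠ 0 := by
    rw [redL_qExpand]
    exact qExpand_ne_zero n hb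
  have hab' : qExpand K n (x : LaurentSeries K) * inclL A.toSubring (qExpand _ n b) =
      inclL A.toSubring (qExpand _ n a) := by
    rw [← qExpand_inclL, ← qExpand_inclL, ← map_mul, hab]
  rw [redA_eq ⟨_, qExpand_mem_gaussA A n x.2⟩ _ _ hb' hab', redA_eq x a b hb hab,
    redL_qExpand, redL_qExpand, map_div₀]

end QExpand

/-! ### The semilinear Kronecker congruence -/

section Kron

variable {K : Type*} [Field K] (A : ValuationSubring K) (ℓ : ℕ) [hℓ : Fact ℓ.Prime]

/-- The residue field has characteristic `ℓ` when `ℓ` is a nonunit of `A`. -/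
theorem charP_residueField (hA : (ℓ : K) ∈ A.nonunits) :
    CharP (IsLocalRing.ResidueField ↥A) ℓ := by
  rw [CharP.charP_iff_prime_eq_zero hℓ.out]
  have h1 : resA A ((ℓ : ℕ) : ↥A.toSubring) = 0 := by
    rw [resA_eq_zero_iff]
    have : (((ℓ : ℕ) : ↥A.toSubring) : K) = (ℓ : K) := by simp
    rw [this]
    exact A.mem_nonunits_iff.mp hA
  rw [map_natCast] at h1
  exact h1

variable (ψ : K →+* K)

/-- restriction of `ψ` to `A`. -/
def restrictPsi (hψA : ∀ c : K, c ∈ A → ψ c ∈ A) : ↥A.toSubring →+* ↥A.toSubring :=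
  (ψ.comp A.toSubring.subtype).codRestrict A.toSubring (fun x => hψA _ x.2)

theorem coe_restrictPsi (hψA : ∀ c : K, c ∈ A → ψ c ∈ A) (x : ↥A.toSubring) :
    ((restrictPsi A ψ hψA x : ↥A.toSubring) : K) = ψ (x : K) := rfl

theorem coeffMap_psi_inclL (hψA : ∀ c : K, c ∈ A → ψ c ∈ A) (a : LaurentSeries ↥A.toSubring) :
    coeffMap ψ (inclL A.toSubring a) = inclL A.toSubring (coeffMap (restrictPsi A ψ hψA) a) := by
  ext n
  rfl


/-- **Frobenius twist, integral series.**  `(red (ψ a))^ℓ = (red a)(q^ℓ)`. -/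
theorem redL_psi_pow [NeZero ℓ] (hψA : ∀ c : K, c ∈ A → ψ c ∈ A)
    (hA : (ℓ : K) ∈ A.nonunits)
    (hfrob : ∀ c : K, c ∈ A → A.valuation ((ψ c) ^ ℓ - c) < 1) (a : LaurentSeries ↥A.toSubring) :
    (redL (resA A) (coeffMap (restrictPsi A ψ hψA) a)) ^ ℓ =
      qExpand (IsLocalRing.ResidueField ↥A) ℓ (redL (resA A) a) := by
  have := charP_residueField A ℓ hA
  rw [pow_eq_qExpand_frobenius ℓ]
  congr 1
  ext n
  rw [coeffMap_coeff, redL_coeff, redL_coeff, coeffMap_coeff, frobenius_def, ← map_pow,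
    ← sub_eq_zero, ← map_sub, resA_eq_zero_iff]
  exact hfrob _ (a.coeff n).2

/-- `ψ` preserves primitivity. -/
theorem redL_psi_ne_zero [NeZero ℓ] (hψA : ∀ c : K, c ∈ A → ψ c ∈ A)
    (hA : (ℓ : K) ∈ A.nonunits)
    (hfrob : ∀ c : K, c ∈ A → A.valuation ((ψ c) ^ ℓ - c) < 1)
    {b : LaurentSeries ↥A.toSubring} (hb : redL (resA A) b ≠ 0) :
    redL (resA A) (coeffMap (restrictPsi A ψ hψA) b) ≠ 0 := by
  intro h0
  have h1 := redL_psi_pow A ℓ ψ hψA hA hfrob b
  rw [h0, zero_pow hℓ.out.ne_zero] at h1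
  exact qExpand_ne_zero ℓ hb h1.symm

/-- `ψ` (coefficientwise) preserves the Gauss ring. -/
theorem coeffMap_mem_gaussA_of_frob [NeZero ℓ] (hψA : ∀ c : K, c ∈ A → ψ c ∈ A)
    (hA : (ℓ : K) ∈ A.nonunits)
    (hfrob : ∀ c : K, c ∈ A → A.valuation ((ψ c) ^ ℓ - c) < 1)
    {x : LaurentSeries K} (hx : x ∈ gaussA A) :
    coeffMap ψ x ∈ gaussA A := by
  obtain ⟨a, b, hb, hab⟩ := hx
  refine ⟨coeffMap (restrictPsi A ψ hψA) a, coeffMap (restrictPsi A ψ hψA) b,
    redL_psi_ne_zero A ℓ ψ hψA hA hfrob hb, ?_⟩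
  rw [← coeffMap_psi_inclL A ψ hψA, ← coeffMap_psi_inclL A ψ hψA, ← map_mul, hab]

/-- **Semilinear Kronecker congruence, reduction form**:
`red (x(q^ℓ)) = (red (ψ x))^ℓ` for `x` in the Gauss ring. -/
theorem redA_qExpand_eq_pow [NeZero ℓ] (hψA : ∀ c : K, c ∈ A → ψ c ∈ A)
    (hA : (ℓ : K) ∈ A.nonunits)
    (hfrob : ∀ c : K, c ∈ A → A.valuation ((ψ c) ^ ℓ - c) < 1) (x : gaussA A) :
    redA A ⟨qExpand K ℓ (x : LaurentSeries K), qExpand_mem_gaussA A ℓ x.2⟩ =
      (redA A ⟨coeffMap ψ (x : LaurentSeries K),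
        coeffMap_mem_gaussA_of_frob A ℓ ψ hψA hA hfrob x.2⟩) ^ ℓ := by
  obtain ⟨a, b, hb, hab⟩ := x.2
  have hb' := redL_psi_ne_zero A ℓ ψ hψA hA hfrob hb
  have hab' : coeffMap ψ (x : LaurentSeries K) *
      inclL A.toSubring (coeffMap (restrictPsi A ψ hψA) b) =
      inclL A.toSubring (coeffMap (restrictPsi A ψ hψA) a) := by
    rw [← coeffMap_psi_inclL A ψ hψA, ← coeffMap_psi_inclL A ψ hψA, ← map_mul, hab]
  rw [redA_qExpand, redA_eq x a b hb hab,
    redA_eq ⟨_, coeffMap_mem_gaussA_of_frob A ℓ ψ hψA hA hfrob x.2⟩ _ _ hb' hab', div_pow,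
    redL_psi_pow A ℓ ψ hψA hA hfrob, redL_psi_pow A ℓ ψ hψA hA hfrob, map_div₀]

/-- **Semilinear Kronecker congruence**: `x(q^ℓ) - (ψ x)^ℓ` lies in the Gauss ring and reduces
to `0`. -/
theorem redA_kron_eq_zero [NeZero ℓ] (hψA : ∀ c : K, c ∈ A → ψ c ∈ A)
    (hA : (ℓ : K) ∈ A.nonunits)
    (hfrob : ∀ c : K, c ∈ A → A.valuation ((ψ c) ^ ℓ - c) < 1) (x : gaussA A) :
    ∃ h : qExpand K ℓ (x : LaurentSeries K) - (coeffMap ψ (x : LaurentSeries K)) ^ ℓ ∈ gaussA A,
      redA A ⟨_, h⟩ = 0 := by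
  have h1 := qExpand_mem_gaussA A ℓ x.2
  have h2 := coeffMap_mem_gaussA_of_frob A ℓ ψ hψA hA hfrob x.2
  refine ⟨sub_mem h1 (pow_mem h2 ℓ), ?_⟩
  have e : (⟨_, sub_mem h1 (pow_mem h2 ℓ)⟩ : gaussA A) =
      ⟨_, h1⟩ - (⟨_, h2⟩ : gaussA A) ^ ℓ := rfl
  rw [e, map_sub, map_pow, redA_qExpand_eq_pow A ℓ ψ hψA hA hfrob x, sub_self]

end Kron

end SeriesLevel

open ModularCurve HahnSeries IntermediateField AlgebraicCurve
open Fermat.Agent.S24 Fermat.Agent.S24.H997 Fermat.Agent.A2.H528 Fermat.Agent.A2.H553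
open Fermat.Agent.S28.H86

local notation "Q̄" => AlgebraicClosure ℚ

/-! ### Frobenius elements, elementary form -/

section FrobElt

variable (A : ValuationSubring Q̄) {ℓ : ℕ} {φ : Q̄ ≃ₐ[ℚ] Q̄}

theorem symm_mem_decomposition (hφ : A.IsFrobeniusAt φ ℓ) :
    φ.symm ∈ A.decompositionSubgroup ℚ := by
  have h := inv_mem hφ.mem_decompositionSubgroup
  exact h

theorem symm_apply_mem (hφ : A.IsFrobeniusAt φ ℓ) {c : Q̄} (hc : c ∈ A) : φ.symm c ∈ A :=
  Fermat.Agent.A2.H708.apply_mem_of_mem_decomposition A (symm_mem_decomposition A hφ) hc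

/-- A Frobenius element is congruent to the `ℓ`-th power map on `A`. -/
theorem valuation_frob_sub_pow_lt_one (hφ : A.IsFrobeniusAt φ ℓ) {z : Q̄} (hz : z ∈ A) :
    A.valuation (φ z - z ^ ℓ) < 1 := by
  obtain ⟨hσD, hF⟩ := hφ
  have h2 := hF (IsLocalRing.residue A ⟨z, hz⟩)
  rw [← IsLocalRing.ResidueField.residue_smul, ← map_pow] at h2
  have h3 : ((⟨φ, hσD⟩ : A.decompositionSubgroup ℚ) • (⟨z, hz⟩ : A)) - (⟨z, hz⟩ : A) ^ ℓ
      ∈ IsLocalRing.maximalIdeal A := by
    rw [← Ideal.Quotient.eq]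
    exact h2
  rw [ValuationSubring.valuation_lt_one_iff] at h3
  exact h3

/-- `(φ⁻¹ c)^ℓ ≡ c` modulo the maximal ideal of `A`. -/
theorem valuation_symm_pow_sub_lt_one (hφ : A.IsFrobeniusAt φ ℓ) {c : Q̄} (hc : c ∈ A) :
    A.valuation ((φ.symm c) ^ ℓ - c) < 1 := by
  have h := valuation_frob_sub_pow_lt_one A hφ (symm_apply_mem A hφ hc)
  rw [AlgEquiv.apply_symm_apply] at h
  rw [← Valuation.map_neg, neg_sub]
  exact h

end FrobElt

/-! ### The congruence at `V∞` -/

section Inf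

variable (A : ValuationSubring Q̄) {ℓ : ℕ} [hℓp : Fact ℓ.Prime] (hℓ : ℓ ≠ 0)
  (hA : A.LiesOverPrime ℓ) (M : ℕ) [NeZero M] [NeZero ℓ] {φ : Q̄ ≃ₐ[ℚ] Q̄}

theorem mem_VinfModular_iff {N : ℕ} {f : FF N} :
    f ∈ VinfModular A hℓ hA N ↔ (f : LaurentSeries Q̄) ∈ gaussA A := Iff.rfl

/-- `α` maps `V∞(M)` into `V∞(Mℓ)`. -/
theorem heckeAlphaBar_mem_Vinf {a : FF M} (ha : a ∈ VinfModular A hℓ hA M) :
    heckeAlphaBar Q̄ M ℓ a ∈ VinfModular A hℓ hA (M * ℓ) := by
  rw [mem_VinfModular_iff] at ha ⊢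
  rw [coe_heckeAlphaBar]
  exact ha

/-- `β` maps `V∞(M)` into `V∞(Mℓ)`. -/
theorem heckeBetaBar_mem_Vinf {a : FF M} (ha : a ∈ VinfModular A hℓ hA M) :
    heckeBetaBar Q̄ M ℓ a ∈ VinfModular A hℓ hA (M * ℓ) := by
  rw [mem_VinfModular_iff] at ha ⊢
  rw [coe_heckeBetaBar]
  exact qExpand_mem_gaussA A ℓ ha

/-- `φ⁻¹` preserves `V∞`. -/
theorem gal_symm_mem_Vinf (hφ : A.IsFrobeniusAt φ ℓ) {N : ℕ} {a : FF N}
    (ha : a ∈ VinfModular A hℓ hA N) : gal N φ.symm a ∈ VinfModular A hℓ hA N :=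
  arithmeticRingAut_mem_Vinf _ (symm_mem_decomposition A hφ) ha

/-- **Semilinear Kronecker congruence at `V∞`.** -/
theorem kron_inf (hφ : A.IsFrobeniusAt φ ℓ) {a : FF M} (ha : a ∈ VinfModular A hℓ hA M) :
    (VinfModular A hℓ hA (M * ℓ)).valuation
      (heckeBetaBar Q̄ M ℓ a - (heckeAlphaBar Q̄ M ℓ (gal M φ.symm a)) ^ ℓ) < 1 := by
  set y : FF (M * ℓ) := heckeBetaBar Q̄ M ℓ a - (heckeAlphaBar Q̄ M ℓ (gal M φ.symm a)) ^ ℓ
    with hy
  have hyV : y ∈ VinfModular A hℓ hA (M * ℓ) :=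
    sub_mem (heckeBetaBar_mem_Vinf A hℓ hA M ha)
      (pow_mem (heckeAlphaBar_mem_Vinf A hℓ hA M (gal_symm_mem_Vinf A hℓ hA hφ ha)) ℓ)
  have key := redA_kron_eq_zero A ℓ (φ.symm : Q̄ →+* Q̄)
    (fun c hc => symm_apply_mem A hφ hc) hA
    (fun c hc => valuation_symm_pow_sub_lt_one A hφ hc) ⟨(a : LaurentSeries Q̄), ha⟩
  obtain ⟨h1, h2⟩ := key
  have h3 := (redInf_eq_zero_iff (gaussInput_modular A hℓ hA (M * ℓ)) ⟨y, hyV⟩).mp (by
    rw [redInf_apply]
    exact h2)
  exact h3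

end Inf

/-! ### Fricke and the degeneracy maps -/

section Fricke

variable (M : ℕ) [NeZero M] (ℓ : ℕ) [NeZero ℓ]

theorem heckeBetaBar_jFd (d : ℕ) [NeZero d] (hd : d ∣ M) :
    heckeBetaBar Q̄ M ℓ (jFd M d hd) = jFd (M * ℓ) (d * ℓ) (Nat.mul_dvd_mul_right hd ℓ) := by
  apply Subtype.ext
  rw [coe_heckeBetaBar, coe_jFd, coe_jFd]
  show qExpand Q̄ ℓ (coeffMap (algebraMap ℚ Q̄) _) = coeffMap (algebraMap ℚ Q̄) _
  rw [← coeffMap_qExpand (algebraMap ℚ Q̄) ℓ, qExpand_qExpand]
  congr 1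
  exact qExpand_congr (mul_comm ℓ d) jq

theorem heckeAlphaBar_jFd (d : ℕ) [NeZero d] (hd : d ∣ M) :
    heckeAlphaBar Q̄ M ℓ (jFd M d hd) = jFd (M * ℓ) d (hd.mul_right ℓ) := by
  apply Subtype.ext
  rw [coe_heckeAlphaBar, coe_jFd, coe_jFd]

/-- Two ring homomorphisms out of `FF M` which agree on the constants and on the generators
`j(q^d)`, `d ∣ M`, are equal. -/
theorem ringHom_ext_FF {L : Type*} [Field L] (f g : FF M →+* L)
    (hc : ∀ c : Q̄, f (algebraMap Q̄ (FF M) c) = g (algebraMap Q̄ (FF M) c))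
    (hj : ∀ (d : ℕ) [NeZero d] (hd : d ∣ M), f (jFd M d hd) = g (jFd M d hd)) : f = g := by
  have hR : ∀ r : RN M, f (inclRN M r) = g (inclRN M r) := by
    rintro ⟨r, hr⟩
    induction hr using Algebra.adjoin_induction with
    | mem x hx =>
        obtain ⟨y, ⟨d, hne, hd, rfl⟩, rfl⟩ := hx
        have := hne
        exact hj d hd
    | algebraMap c =>
        have h1 : (⟨algebraMap Q̄ (LaurentSeries Q̄) c, Subalgebra.algebraMap_mem _ c⟩ : RN M)
            = algebraMap Q̄ (RN M) c := rfl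
        have h2 : inclRN M (algebraMap Q̄ (RN M) c) = algebraMap Q̄ (FF M) c :=
          (inclRN M).commutes c
        rw [h1, h2]
        exact hc c
    | add x y hx hy ihx ihy =>
        have h1 : (⟨x + y, add_mem hx hy⟩ : RN M) = ⟨x, hx⟩ + ⟨y, hy⟩ := rfl
        rw [h1, map_add, map_add, map_add, ihx, ihy]
    | mul x y hx hy ihx ihy =>
        have h1 : (⟨x * y, mul_mem hx hy⟩ : RN M) = ⟨x, hx⟩ * ⟨y, hy⟩ := rfl
        rw [h1, map_mul, map_mul, map_mul, ihx, ihy]
  refine RingHom.ext fun a => ?_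
  obtain ⟨r, t, -, rfl⟩ := exists_div_inclRN M a
  rw [map_div₀, map_div₀, hR, hR]

/-- `w_{Mℓ} ∘ α = β ∘ w_M`. -/
theorem wF_heckeAlphaBar (a : FF M) :
    wF (M * ℓ) (heckeAlphaBar Q̄ M ℓ a) = heckeBetaBar Q̄ M ℓ (wF M a) := by
  have h := ringHom_ext_FF M
    (((wF (M * ℓ) : FF (M * ℓ) ≃ₐ[Q̄] FF (M * ℓ)) : FF (M * ℓ) →+* FF (M * ℓ)).comp
      (heckeAlphaBar Q̄ M ℓ : FF M →+* FF (M * ℓ)))
    ((heckeBetaBar Q̄ M ℓ : FF M →+* FF (M * ℓ)).comp
      ((wF M : FF M ≃ₐ[Q̄] FF M) : FF M →+* FF M)) ?_ ?_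
  · exact RingHom.congr_fun h a
  · intro c
    simp only [RingHom.comp_apply, RingHom.coe_coe, AlgHom.commutes, AlgEquiv.commutes]
  · intro d _ hd
    have := neZero_div M hd
    simp only [RingHom.comp_apply, RingHom.coe_coe]
    rw [heckeAlphaBar_jFd, wF_jFd, wF_jFd, heckeBetaBar_jFd]
    have := neZero_div (M * ℓ) (hd.mul_right ℓ)
    exact jFd_congr (M * ℓ) _ _ (Nat.mul_div_right_comm hd ℓ)

/-- `w_{Mℓ} ∘ β = α ∘ w_M`. -/
theorem wF_heckeBetaBar (a : FF M) :
    wF (M * ℓ) (heckeBetaBar Q̄ M ℓ a) = heckeAlphaBar Q̄ M ℓ (wF M a) := by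
  have h := ringHom_ext_FF M
    (((wF (M * ℓ) : FF (M * ℓ) ≃ₐ[Q̄] FF (M * ℓ)) : FF (M * ℓ) →+* FF (M * ℓ)).comp
      (heckeBetaBar Q̄ M ℓ : FF M →+* FF (M * ℓ)))
    ((heckeAlphaBar Q̄ M ℓ : FF M →+* FF (M * ℓ)).comp
      ((wF M : FF M ≃ₐ[Q̄] FF M) : FF M →+* FF M)) ?_ ?_
  · exact RingHom.congr_fun h a
  · intro c
    simp only [RingHom.comp_apply, RingHom.coe_coe, AlgHom.commutes, AlgEquiv.commutes]
  · intro d _ hd
    have := neZero_div M hd
    simp only [RingHom.comp_apply, RingHom.coe_coe]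
    rw [heckeBetaBar_jFd, wF_jFd, wF_jFd, heckeAlphaBar_jFd]
    have := neZero_div (M * ℓ) (Nat.mul_dvd_mul_right hd ℓ)
    exact jFd_congr (M * ℓ) _ _
      (Nat.mul_div_mul_right M d (Nat.pos_of_ne_zero (NeZero.ne ℓ)))

/-- `α` commutes with the Galois action on the coefficients. -/
theorem heckeAlphaBar_gal (σ : Q̄ ≃ₐ[ℚ] Q̄) (a : FF M) :
    heckeAlphaBar Q̄ M ℓ (gal M σ a) = gal (M * ℓ) σ (heckeAlphaBar Q̄ M ℓ a) := by
  apply Subtype.ext
  rw [coe_heckeAlphaBar, coe_arithmeticRingAut_apply, coe_arithmeticRingAut_apply,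
    coe_heckeAlphaBar]

/-- `β` commutes with the Galois action on the coefficients. -/
theorem heckeBetaBar_gal (σ : Q̄ ≃ₐ[ℚ] Q̄) (a : FF M) :
    heckeBetaBar Q̄ M ℓ (gal M σ a) = gal (M * ℓ) σ (heckeBetaBar Q̄ M ℓ a) := by
  apply Subtype.ext
  rw [coe_heckeBetaBar, coe_arithmeticRingAut_apply, coe_arithmeticRingAut_apply,
    coe_heckeBetaBar, coeffMap_qExpand]

end Fricke

/-! ### The congruence at `V₀` -/

section Zero

variable (A : ValuationSubring Q̄) {ℓ : ℕ} [hℓp : Fact ℓ.Prime] (hℓ : ℓ ≠ 0)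
  (hA : A.LiesOverPrime ℓ) (M : ℕ) [NeZero M] [NeZero ℓ] {φ : Q̄ ≃ₐ[ℚ] Q̄}

theorem valuation_Vzero_lt_one_iff {N : ℕ} [NeZero N] {f : FF N} :
    (VzeroModular A hℓ hA N).valuation f < 1 ↔
      (VinfModular A hℓ hA N).valuation (wF N f) < 1 :=
  valuation_comapAut_lt_one_iff (VinfModular A hℓ hA N) (wF N).toRingEquiv

/-- `α` maps `V₀(M)` into `V₀(Mℓ)`. -/
theorem heckeAlphaBar_mem_Vzero {a : FF M} (ha : a ∈ VzeroModular A hℓ hA M) :
    heckeAlphaBar Q̄ M ℓ a ∈ VzeroModular A hℓ hA (M * ℓ) := by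
  rw [mem_VzeroModular] at ha ⊢
  rw [wF_heckeAlphaBar]
  exact heckeBetaBar_mem_Vinf A hℓ hA M ha

/-- `β` maps `V₀(M)` into `V₀(Mℓ)`. -/
theorem heckeBetaBar_mem_Vzero {a : FF M} (ha : a ∈ VzeroModular A hℓ hA M) :
    heckeBetaBar Q̄ M ℓ a ∈ VzeroModular A hℓ hA (M * ℓ) := by
  rw [mem_VzeroModular] at ha ⊢
  rw [wF_heckeBetaBar]
  exact heckeAlphaBar_mem_Vinf A hℓ hA M ha

/-- `φ⁻¹` preserves `V₀`. -/
theorem gal_symm_mem_Vzero (hφ : A.IsFrobeniusAt φ ℓ) {N : ℕ} [NeZero N] {a : FF N}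
    (ha : a ∈ VzeroModular A hℓ hA N) : gal N φ.symm a ∈ VzeroModular A hℓ hA N := by
  rw [mem_VzeroModular] at ha ⊢
  rw [wF_gal]
  exact gal_symm_mem_Vinf A hℓ hA hφ ha

/-- **Semilinear Kronecker congruence at `V₀`.** -/
theorem kron_zero (hφ : A.IsFrobeniusAt φ ℓ) {a : FF M} (ha : a ∈ VzeroModular A hℓ hA M) :
    (VzeroModular A hℓ hA (M * ℓ)).valuation
      (heckeAlphaBar Q̄ M ℓ a - (heckeBetaBar Q̄ M ℓ (gal M φ.symm a)) ^ ℓ) < 1 := by
  rw [valuation_Vzero_lt_one_iff, map_sub, map_pow, wF_heckeAlphaBar, wF_heckeBetaBar, wF_gal]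
  exact kron_inf A hℓ hA M hφ ha

/-- Both congruences with the SAME witness `a' = φ⁻¹ a`, when `a` is integral at both Gauss
valuations of level `M` (for `ℓ ∤ M` these coincide). -/
theorem kron_both (hφ : A.IsFrobeniusAt φ ℓ) {a : FF M} (ha : a ∈ VinfModular A hℓ hA M)
    (ha' : a ∈ VzeroModular A hℓ hA M) :
    (VinfModular A hℓ hA (M * ℓ)).valuation
        (heckeBetaBar Q̄ M ℓ a - (heckeAlphaBar Q̄ M ℓ (gal M φ.symm a)) ^ ℓ) < 1 ∧
      (VzeroModular A hℓ hA (M * ℓ)).valuation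
        (heckeAlphaBar Q̄ M ℓ a - (heckeBetaBar Q̄ M ℓ (gal M φ.symm a)) ^ ℓ) < 1 :=
  ⟨kron_inf A hℓ hA M hφ ha, kron_zero A hℓ hA M hφ ha'⟩

end Zero

/-! ### Chart form: elements integral over `A[j]` -/

section Chart

/-- A valuation subring contains every element integral over a subring it contains. -/
theorem mem_of_isIntegral_of_le {F : Type*} [Field F] (V : ValuationSubring F) (S : Subring F)
    (hS : ∀ s ∈ S, s ∈ V) {y : F} (hy : IsIntegral S y) : y ∈ V := by
  obtain ⟨p, hp, hpy⟩ := hy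
  let ι : S →+* V := (S.subtype).codRestrict V.toSubring (fun s => hS s s.2)
  have h1 : IsIntegral V y := by
    refine ⟨p.map ι, hp.map ι, ?_⟩
    rw [Polynomial.eval₂_map]
    exact hpy
  obtain ⟨z, hz⟩ := IsIntegrallyClosedIn.algebraMap_eq_of_integral h1
  rw [← hz]
  exact z.2

variable (A : ValuationSubring Q̄) {ℓ : ℕ} [hℓp : Fact ℓ.Prime] (hℓ : ℓ ≠ 0)
  (hA : A.LiesOverPrime ℓ) (M : ℕ) [NeZero M] [NeZero ℓ] {φ : Q̄ ≃ₐ[ℚ] Q̄}

/-- `j(q^d)` is integral at `V∞`. -/
theorem jFd_mem_Vinf (d : ℕ) [NeZero d] (hd : d ∣ M) : jFd M d hd ∈ VinfModular A hℓ hA M :=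
  mem_Vinf_of_intEmb A hℓ hA M (coe_jFd_int M d hd)

/-- `j(q^d)` is integral at `V₀`. -/
theorem jFd_mem_Vzero (d : ℕ) [NeZero d] (hd : d ∣ M) : jFd M d hd ∈ VzeroModular A hℓ hA M := by
  have := neZero_div M hd
  rw [mem_VzeroModular, wF_jFd]
  exact jFd_mem_Vinf A hℓ hA M _ _

/-- **Semilinear Kronecker congruences, chart form.**  `S` any subring of `FF M` contained in
`V∞(M) ∩ V₀(M)` (e.g. `(A ∩ E)[j]`), `a` integral over `S`.  Then `a' := φ⁻¹ a` satisfies
`β a ≡ (α a')^ℓ mod 𝔪_{V∞(Mℓ)}` and `α a ≡ (β a')^ℓ mod 𝔪_{V₀(Mℓ)}`. -/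
theorem kron_of_isIntegral (hφ : A.IsFrobeniusAt φ ℓ) (S : Subring (FF M))
    (hS : ∀ s ∈ S, s ∈ VinfModular A hℓ hA M) (hS' : ∀ s ∈ S, s ∈ VzeroModular A hℓ hA M)
    {a : FF M} (ha : IsIntegral S a) :
    (VinfModular A hℓ hA (M * ℓ)).valuation
        (heckeBetaBar Q̄ M ℓ a - (heckeAlphaBar Q̄ M ℓ (gal M φ.symm a)) ^ ℓ) < 1 ∧
      (VzeroModular A hℓ hA (M * ℓ)).valuation
        (heckeAlphaBar Q̄ M ℓ a - (heckeBetaBar Q̄ M ℓ (gal M φ.symm a)) ^ ℓ) < 1 :=
  kron_both A hℓ hA M hφ (mem_of_isIntegral_of_le _ S hS ha) (mem_of_isIntegral_of_le _ S hS' ha)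

/-- The witness `φ⁻¹ a` is again integral over `S` when `S` is `φ⁻¹`-stable. -/
theorem isIntegral_gal_symm (S : Subring (FF M)) (σ : Q̄ ≃ₐ[ℚ] Q̄)
    (hσS : ∀ s ∈ S, gal M σ s ∈ S) {a : FF M} (ha : IsIntegral S a) :
    IsIntegral S (gal M σ a) := by
  obtain ⟨p, hp, hpa⟩ := ha
  let τ : S →+* S := ((gal M σ : FF M →+* FF M).comp S.subtype).codRestrict S
    (fun s => hσS s s.2)
  refine ⟨p.map τ, hp.map τ, ?_⟩
  rw [Polynomial.eval₂_map]
  have h1 : (algebraMap S (FF M)).comp τ = (gal M σ : FF M →+* FF M).comp (algebraMap S (FF M)) :=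
    RingHom.ext fun s => rfl
  rw [h1]
  have h2 := Polynomial.hom_eval₂ p (algebraMap S (FF M)) (gal M σ : FF M →+* FF M) a
  rw [hpa, map_zero] at h2
  exact h2.symm

end Chart

end Fermat.Agent.A2.H612

end
end
-- ===== PACK-END A2/H612/Kron.lean

-- ===== PACK-BEGIN Ribet/H399/CuspNoNode.lean
section




/-!
(author helper153, `origin/helper153:S36/H153/CuspNode.lean`; copy in the namespace
`Fermat.Agent.Ribet.H399.NoNode` so that the CUSP chain of helper399 is self-contained)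

# S36 engine, cell INCIDENCE at infinity (helper153) — concrete part, A2 / MOD language

Level `N = M q`, `q ∤ M`, chart at infinity `Bi = chartAlg P E (M q) x⁻¹`, `x = j · j_q`,
components `p₁ = Bi ∩ w V∞`, `p₂ = Bi ∩ w V₀` (`IsCut`).

* `modPoly_natDegree_coeff_le`, `modPoly_natDegree_coeff_top_le` : SHAPE of the modular polynomial
  (`X`-degree `≤ q + 1`, coefficient of `Y^q` of `X`-degree `≤ q`), from the symmetry
  `A2.Mod.H31.exists_swap_eq`;
* `zE_mem_chartAlg`, `yE_mem_chartAlg` : `z = j_q / j^q` and `y = j / j_q^q` lie in `Bi`;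
* `zE_sub_one_inW`, `yE_sub_one_inW` : `z ≡ 1 mod w V∞`, `y ≡ 1 mod w V₀`;
* **`no_node_at_infinity`** : no proper ideal of `Bi` containing `p₁` and `p₂` contains `x⁻¹`
  (cusps are not nodes; equivalently every node of level `M q` lies in the finite chart).
-/

set_option autoImplicit false
set_option synthInstance.maxHeartbeats 400000
set_option maxHeartbeats 1600000
set_option linter.unusedSectionVars false
set_option linter.style.haveILetI false

noncomputable section

namespace Fermat.Agent.Ribet.H399.NoNode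

open ModularCurve HahnSeries Polynomial
open Fermat.Agent.A2.Mod
open scoped Polynomial.Bivariate

/-! ## Shape of the modular polynomial -/

section Shape

variable (q : ℕ) [NeZero q]

theorem exists_swap_modPolyK (hq : q.Prime) (D : S28.ModPolyData q) :
    ∃ c : ℚ, c ≠ 0 ∧ Bivariate.swap (H31.modPolyK ℚ q D) = C (C c) * H31.modPolyK ℚ q D :=
  H31.exists_swap_eq (H31.transcendental_jqModC ℚ) (H31.modPolyK_monic ℚ q D)
    (H31.aevalAeval_modPolyK ℚ q D) (H31.aevalAeval_modPolyK' ℚ q D)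
    (by rw [H31.natDegree_modPolyK]
        exact H31.finrank_adjoin_jq ℚ hq (by exact_mod_cast hq.ne_zero))

theorem coeff_coeff_modPolyK (D : S28.ModPolyData q) (k i : ℕ) :
    ((H31.modPolyK ℚ q D).coeff k).coeff i = (((D.Φ.coeff k).coeff i : ℤ) : ℚ) := by
  rw [H31.modPolyK, Polynomial.coeff_map, Polynomial.coe_mapRingHom, Polynomial.coeff_map]
  rfl

theorem modPoly_coeff_coeff_eq_zero (hq : q.Prime) (D : S28.ModPolyData q) (k i : ℕ)
    (hi : q + 1 < i) : (D.Φ.coeff k).coeff i = 0 := by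
  obtain ⟨c, -, hsw⟩ := exists_swap_modPolyK q hq D
  have h := H31.coeff_coeff_eq_zero_of_swap hsw k i (by rw [H31.natDegree_modPolyK]; exact hi)
  rw [coeff_coeff_modPolyK] at h
  exact_mod_cast h

theorem modPoly_coeff_top (hq : q.Prime) (D : S28.ModPolyData q) :
    (D.Φ.coeff q).coeff (q + 1) = 0 := by
  obtain ⟨c, -, hsw⟩ := exists_swap_modPolyK q hq D
  have h1 : ((Bivariate.swap (H31.modPolyK ℚ q D)).coeff (q + 1)).coeff q
      = ((H31.modPolyK ℚ q D).coeff q).coeff (q + 1) := H31.coeff_coeff_swap _ (q + 1) q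
  have h2 : (H31.modPolyK ℚ q D).coeff (q + 1) = 1 := by
    have := (H31.modPolyK_monic ℚ q D).coeff_natDegree
    rwa [H31.natDegree_modPolyK] at this
  rw [hsw, coeff_C_mul, coeff_C_mul, h2, Polynomial.coeff_one,
    if_neg hq.ne_zero.symm.symm, mul_zero] at h1
  have h3 := h1.symm
  rw [coeff_coeff_modPolyK] at h3
  exact_mod_cast h3

/-- every coefficient of `Φ_q ∈ ℤ[X][Y]` has `X`-degree `≤ q + 1`. -/
theorem modPoly_natDegree_coeff_le (hq : q.Prime) (D : S28.ModPolyData q) (k : ℕ) :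
    (D.Φ.coeff k).natDegree ≤ q + 1 :=
  Polynomial.natDegree_le_iff_coeff_eq_zero.mpr fun i hi =>
    modPoly_coeff_coeff_eq_zero q hq D k i hi

/-- the coefficient of `Y^q` of `Φ_q` has `X`-degree `≤ q`. -/
theorem modPoly_natDegree_coeff_top_le (hq : q.Prime) (D : S28.ModPolyData q) :
    (D.Φ.coeff q).natDegree ≤ q := by
  rw [Polynomial.natDegree_le_iff_coeff_eq_zero]
  intro i hi
  rcases Nat.lt_or_ge (q + 1) i with h | h
  · exact modPoly_coeff_coeff_eq_zero q hq D q i h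
  · have : i = q + 1 := by omega
    subst this
    exact modPoly_coeff_top q hq D

end Shape

/-! ## The functions `z`, `y` lie in every valuation ring containing `1 / (j j_q)` -/

section Val

variable {K : Type*} [Field K]

theorem div_pow_sub_one_mul (a b c : K) (q : ℕ) (hb : b ≠ 0) :
    (a / b ^ q - 1) * c⁻¹ = ((a - b ^ q) * c⁻¹) * (b⁻¹) ^ q := by
  have hbq : b ^ q ≠ 0 := pow_ne_zero _ hb
  rw [inv_pow, sub_mul, sub_mul, sub_mul, div_eq_mul_inv, one_mul]
  have : b ^ q * c⁻¹ * (b ^ q)⁻¹ = c⁻¹ := by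
    rw [mul_comm (b ^ q), mul_assoc, mul_inv_cancel₀ hbq, mul_one]
  rw [this]
  ring

theorem inv_mem_of_inv_mul_mem {j jq : K} (hjq0 : jq ≠ 0) (Φ : Polynomial (Polynomial ℤ))
    (hΦ : Φ.Monic) (h1 : Φ.eval₂ (Polynomial.aeval (R := ℤ) j).toRingHom jq = 0)
    (V : ValuationSubring K) (hx : (j * jq)⁻¹ ∈ V) : j⁻¹ ∈ V := by
  by_contra ha
  have haV : j ∈ V := by
    have := (V.mem_or_inv_mem j⁻¹).resolve_left ha
    rwa [inv_inv] at this
  have hb : jq ∈ V := H873.mem_valuationSubring_of_monic_eval Φ hΦ h1 V haV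
  have : j⁻¹ = jq * (j * jq)⁻¹ := by
    have hj0 : j ≠ 0 := fun h0 => ha (by rw [h0, inv_zero]; exact V.zero_mem)
    field_simp
  exact ha (this ▸ V.mul_mem _ _ hb hx)

theorem div_pow_mem_of_inv_mul_mem {j jq : K} (hj0 : j ≠ 0) (hjq0 : jq ≠ 0)
    (Φ : Polynomial (Polynomial ℤ)) {n : ℕ} (hn : 2 ≤ n) (hΦ : Φ.Monic)
    (hdeg : Φ.natDegree = n) (hin : ∀ k, (Φ.coeff k).natDegree ≤ n)
    (htop : (Φ.coeff (n - 1)).natDegree ≤ n - 1)
    (h1 : Φ.eval₂ (Polynomial.aeval (R := ℤ) j).toRingHom jq = 0)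
    (h2 : Φ.eval₂ (Polynomial.aeval (R := ℤ) jq).toRingHom j = 0)
    (V : ValuationSubring K) (hx : (j * jq)⁻¹ ∈ V) :
    jq / j ^ (n - 1) ∈ V ∧ j / jq ^ (n - 1) ∈ V := by
  have hu : j⁻¹ ∈ V := inv_mem_of_inv_mul_mem hjq0 Φ hΦ h1 V hx
  have huq : jq⁻¹ ∈ V :=
    inv_mem_of_inv_mul_mem hj0 Φ hΦ h2 V (by rwa [mul_comm] at hx)
  constructor
  · have h := pow_div_mem_of_shape V hu huq (inv_ne_zero hj0) (inv_ne_zero hjq0) Φ hn hΦ hdeg
      hin htop (by rw [inv_inv, inv_inv]; exact h1)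
    have e : j⁻¹ ^ (n - 1) / jq⁻¹ = jq / j ^ (n - 1) := by
      rw [inv_pow, div_eq_mul_inv, inv_inv, div_eq_mul_inv, mul_comm]
    rwa [e] at h
  · have h := pow_div_mem_of_shape V huq hu (inv_ne_zero hjq0) (inv_ne_zero hj0) Φ hn hΦ hdeg
      hin htop (by rw [inv_inv, inv_inv]; exact h2)
    have e : jq⁻¹ ^ (n - 1) / j⁻¹ = j / jq ^ (n - 1) := by
      rw [inv_pow, div_eq_mul_inv, inv_inv, div_eq_mul_inv, mul_comm]
    rwa [e] at h

end Val

/-! ## Concrete part -/

section Concrete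

variable (P : ValuationSubring Qb) (E : IntermediateField ℚ Qb) (M q : ℕ) [NeZero M] [NeZero q]

/-- `j` at level `M q`. -/
abbrev j1 : FE E (M * q) := jE E (M * q) 1 (one_dvd _)

/-- `j_q` at level `M q`. -/
abbrev jq1 : FE E (M * q) := jE E (M * q) q (dvd_mul_left q M)

/-- `z = j_q / j ^ q`. -/
def zE : FE E (M * q) := jq1 E M q / j1 E M q ^ q

/-- `y = j / j_q ^ q`. -/
def yE : FE E (M * q) := j1 E M q / jq1 E M q ^ q

theorem xE_eq : xE E M q = j1 E M q * jq1 E M q := rfl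

theorem yE_mul_zE : yE E M q * zE E M q = ((xE E M q)⁻¹) ^ (q - 1) := by
  have h1 : j1 E M q ≠ 0 := H873.jE_ne_zero E (M * q) 1 (one_dvd _)
  have h2 : jq1 E M q ≠ 0 := H873.jE_ne_zero E (M * q) q (dvd_mul_left q M)
  have hq : 1 ≤ q := Nat.one_le_iff_ne_zero.mpr (NeZero.ne q)
  rw [xE_eq, yE, zE, inv_pow, mul_pow]
  have e1 : j1 E M q ^ q = j1 E M q ^ (q - 1) * j1 E M q := by
    rw [← pow_succ, Nat.sub_add_cancel hq]
  have e2 : jq1 E M q ^ q = jq1 E M q ^ (q - 1) * jq1 E M q := by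
    rw [← pow_succ, Nat.sub_add_cancel hq]
  rw [e1, e2]
  field_simp

theorem zy_mem_chartAlg (hq : q.Prime) :
    zE E M q ∈ chartAlg P E (M * q) (xE E M q)⁻¹ ∧
      yE E M q ∈ chartAlg P E (M * q) (xE E M q)⁻¹ := by
  obtain ⟨D⟩ := S28.H807.nonempty_modPolyData q hq
  have hj : D.Φ.eval₂ (Polynomial.aeval (R := ℤ) (jq1 E M q)).toRingHom (j1 E M q) = 0 :=
    H873.eval₂_eq_zero_of_int E (M * q) D.Φ _ _ _ _ (H873.coe_jE_one E (M * q))
      (H873.coe_jE_int E (M * q) q (dvd_mul_left q M)) D.eval_j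
  have hjq : D.Φ.eval₂ (Polynomial.aeval (R := ℤ) (j1 E M q)).toRingHom (jq1 E M q) = 0 :=
    H873.eval₂_eq_zero_of_int E (M * q) D.Φ _ _ _ _
      (H873.coe_jE_int E (M * q) q (dvd_mul_left q M)) (H873.coe_jE_one E (M * q)) D.eval_jp
  have h1 : j1 E M q ≠ 0 := H873.jE_ne_zero E (M * q) 1 (one_dvd _)
  have h2 : jq1 E M q ≠ 0 := H873.jE_ne_zero E (M * q) q (dvd_mul_left q M)
  have key : ∀ V : ValuationSubring (FE E (M * q)), (xE E M q)⁻¹ ∈ V →
      zE E M q ∈ V ∧ yE E M q ∈ V := fun V hx =>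
    div_pow_mem_of_inv_mul_mem (n := q + 1) h1 h2 D.Φ (by have := hq.two_le; omega) D.monic
      D.natDegree_eq (modPoly_natDegree_coeff_le q hq D)
      (modPoly_natDegree_coeff_top_le q hq D) hjq hj V hx
  constructor
  · rw [← H372.mem_chart_iff]
    exact H873.isIntegralElem_of_isIntegral_closure _
      (H873.isIntegral_closure_of_forall_valuationSubring fun V hx => (key V hx).1)
  · rw [← H372.mem_chart_iff]
    exact H873.isIntegralElem_of_isIntegral_closure _
      (H873.isIntegral_closure_of_forall_valuationSubring fun V hx => (key V hx).2)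

variable {P E M q}
variable (w : RE P E)

/-- `z ≡ 1 mod w V∞`. -/
theorem zE_sub_one_inW (hS : Setting P E M q w) {V : ValuationSubring (FE E (M * q))}
    (hV : IsVinf P E (M * q) V) : InW P E (M * q) V w (zE E M q - 1) := by
  have hN := H372.level_ne_zero w hS
  have hk := H372.inW_jE_sub_pow w hS hV 1 (one_dvd M)
  have hcongr : jE E (M * q) (1 * q) (mul_dvd_mul_right (one_dvd M) q) = jq1 E M q :=
    H372.jE_congr (one_mul q) _ _
  rw [hcongr] at hk
  have hinv : (j1 E M q)⁻¹ ∈ V := H372.jE_inv_mem w hS hN hV 1 (one_dvd _)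
  have h1 : j1 E M q ≠ 0 := H873.jE_ne_zero E (M * q) 1 (one_dvd _)
  have e : (zE E M q - 1) * (cE P E (M * q) w)⁻¹
      = ((jq1 E M q - j1 E M q ^ q) * (cE P E (M * q) w)⁻¹) * ((j1 E M q)⁻¹) ^ q := by
    rw [zE]
    exact div_pow_sub_one_mul _ _ _ q h1
  show (zE E M q - 1) * (cE P E (M * q) w)⁻¹ ∈ V
  rw [e]
  exact V.mul_mem _ _ hk (V.pow_mem hinv q)

/-- `y ≡ 1 mod w V₀`, `V₀ = V∞ ∘ W`. -/
theorem yE_sub_one_inW (hS : Setting P E M q w) {V : ValuationSubring (FE E (M * q))}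
    (hV : IsVinf P E (M * q) V) {W : FE E (M * q) ≃ₐ[E] FE E (M * q)}
    (hW : IsFricke E (M * q) W) :
    InW P E (M * q) (V.comap (W : FE E (M * q) →+* FE E (M * q))) w (yE E M q - 1) := by
  rw [H372.inW_comap_iff]
  have hN := H372.level_ne_zero w hS
  have hk := H372.inW_jE_sub_pow w hS hV M (dvd_refl M)
  have hinv : (jE E (M * q) M (dvd_mul_right M q))⁻¹ ∈ V :=
    H372.jE_inv_mem w hS hN hV M (dvd_mul_right M q)
  have h0 : jE E (M * q) M (dvd_mul_right M q) ≠ 0 := H873.jE_ne_zero E (M * q) M _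
  have hWy : W (yE E M q - 1) = jE E (M * q) (M * q) (dvd_refl _) /
      (jE E (M * q) M (dvd_mul_right M q)) ^ q - 1 := by
    rw [yE, map_sub, map_one, map_div₀, map_pow, H372.fricke_jE_one hW, H372.fricke_jE_q hW]
  have e : (W (yE E M q - 1)) * (cE P E (M * q) w)⁻¹
      = ((jE E (M * q) (M * q) (dvd_refl _) - (jE E (M * q) M (dvd_mul_right M q)) ^ q) *
          (cE P E (M * q) w)⁻¹) * ((jE E (M * q) M (dvd_mul_right M q))⁻¹) ^ q := by
    rw [hWy]
    exact div_pow_sub_one_mul _ _ _ q h0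
  show (W (yE E M q - 1)) * (cE P E (M * q) w)⁻¹ ∈ V
  rw [e]
  exact V.mul_mem _ _ hk (V.pow_mem hinv q)

/-- **Cusps are not nodes** (level `M q`, chart at infinity): a proper ideal of the chart at
infinity containing both components does not contain `x⁻¹ = (j j_q)⁻¹`. -/
theorem no_node_at_infinity (hS : Setting P E M q w) (V : ValuationSubring (FE E (M * q)))
    (W : FE E (M * q) ≃ₐ[E] FE E (M * q)) (hV : IsVinf P E (M * q) V)
    (hW : IsFricke E (M * q) W)
    (p₁ p₂ : Ideal (chartAlg P E (M * q) (xE E M q)⁻¹))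
    (h₁ : IsCut P E (M * q) w V (chartAlg P E (M * q) (xE E M q)⁻¹) p₁)
    (h₂ : IsCut P E (M * q) w (V.comap (W : FE E (M * q) →+* FE E (M * q)))
      (chartAlg P E (M * q) (xE E M q)⁻¹) p₂)
    (n : Ideal (chartAlg P E (M * q) (xE E M q)⁻¹)) (hn : n ≠ ⊤) (h1 : p₁ ≤ n) (h2 : p₂ ≤ n)
    (v : chartAlg P E (M * q) (xE E M q)⁻¹) (hv : (v : FE E (M * q)) = (xE E M q)⁻¹) :
    v ∉ n := by
  obtain ⟨hz, hy⟩ := zy_mem_chartAlg P E M q hS.q_prime
  set zB : chartAlg P E (M * q) (xE E M q)⁻¹ := ⟨zE E M q, hz⟩ with hzB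
  set yB : chartAlg P E (M * q) (xE E M q)⁻¹ := ⟨yE E M q, hy⟩ with hyB
  have hq1 : 0 < q - 1 := by have := hS.q_prime.two_le; omega
  refine not_mem_of_yz (pinf := p₁) (pzero := p₂) (y := yB) (z := zB) (k := q - 1) hn h1 h2 hq1
    ?_ ?_ ?_
  · rw [h₁]
    exact zE_sub_one_inW w hS hV
  · rw [h₂]
    exact yE_sub_one_inW w hS hV hW
  · apply Subtype.ext
    show yE E M q * zE E M q = (v : FE E (M * q)) ^ (q - 1)
    rw [hv, yE_mul_zE]

end Concrete

end Fermat.Agent.Ribet.H399.NoNode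

end
end
-- ===== PACK-END Ribet/H399/CuspNoNode.lean

-- ===== PACK-BEGIN S15/H422/UnitMem.lean
section






/-!
# S15 / P-C1 (helper422), part 1: the modular unit lies in the function field of `X₀(N)`

`gSer N = Δ(q)/Δ(q^N)` (the Prelude's `modularUnitSeries N`, base changed to `ℚ̄`) and
`uSer N = N¹² Δ(q^N)/Δ(q)` are elements of `modularFunctionFieldBar N`.

Inputs (all on main): helper589's analytic unit (`unitFun ∈ goodRing`, its `q`-expansion),
helper882's MERO theorem (`q`-expansions of good functions lie in the function field over `ℂ`)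
and his descent `F_ℂ ∩ ℚ̄((q)) = F_ℚ̄`.
-/

set_option autoImplicit false

noncomputable section

open ModularCurve HahnSeries UpperHalfPlane
open scoped MatrixGroups

namespace Fermat.Agent.S15.H422

open Fermat.Agent.S24 Fermat.Agent.S28

/-- `N¹² Δ(q^N)/Δ(q)` over `ℚ`. -/
def uSerQ (N : ℕ) [NeZero N] : LaurentSeries ℚ :=
  HahnSeries.C ((N : ℚ) ^ 12) * deltaSeriesN N * deltaSeries⁻¹

theorem uSerQ_mul_modularUnitSeries (N : ℕ) [NeZero N] :
    uSerQ N * modularUnitSeries N = HahnSeries.C ((N : ℚ) ^ 12) := by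
  have h1 := deltaSeries_ne_zero
  have h2 := deltaSeriesN_ne_zero N
  rw [uSerQ, modularUnitSeries]
  field_simp

theorem deltaSeries_eq_deltaq : deltaSeries = deltaq := rfl

theorem coeffMap_deltaSeries :
    coeffMap (algebraMap ℚ ℂ) deltaSeries = H565.deltaSeriesC := by
  rw [deltaSeries_eq_deltaq]
  exact H748.coeffMap_deltaq

theorem coeffMap_C {R S : Type*} [CommRing R] [CommRing S] (f : R →+* S) (c : R) :
    coeffMap f (HahnSeries.C c : LaurentSeries R) = HahnSeries.C (f c) := by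
  rw [HahnSeries.C_apply, coeffMap_single, HahnSeries.C_apply]

/-- the base change of `uSerQ` to `ℂ` is helper589's series. -/
theorem coeffMap_uSerQ (N : ℕ) [NeZero N] :
    coeffMap (algebraMap ℚ ℂ) (uSerQ N) = H589.unitSeriesC N := by
  have hinv : (H565.deltaSeriesC)⁻¹ = H565.deltaInvSeriesC :=
    inv_eq_of_mul_eq_one_right H565.deltaSeriesC_mul_inv
  rw [uSerQ, H589.unitSeriesC, map_mul, map_mul, coeffMap_C, map_inv₀, deltaSeriesN,
    coeffMap_qExpand, coeffMap_deltaSeries, hinv]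
  simp

/-- the unit function has the expected `q`-expansion, in helper708's sense. -/
theorem hasQExp_unitFun (N : ℕ) [NeZero N] (hN : 0 < N) :
    H708.HasQExp 1 (H589.unitFun N hN) (H589.unitSeriesC N) := by
  refine H708.HasQExp.of_hasSum (H589.mdifferentiable_unitFun N hN) ?_
  intro τ
  have h := H589.hasTExp_unitFun N hN τ
  simpa [H708.qh] using h

/-- the unit series over `ℂ` lies in the function field over `ℂ`. -/
theorem unitSeriesC_mem_FC (N : ℕ) [NeZero N] :
    H589.unitSeriesC N ∈ laurentBaseChange ℂ (modularFunctionFieldFull N) := by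
  have hN : 0 < N := Nat.pos_of_ne_zero (NeZero.ne N)
  exact Fermat.Agent.S29.H882.mem_FC_of_hasQExp (H589.unitFun_mem_goodRing N hN)
    (hasQExp_unitFun N hN)

/-- `N¹² Δ(q^N)/Δ(q)` over `ℚ̄`. -/
def uSer (N : ℕ) [NeZero N] : LaurentSeries Kbar := coeffEmb Kbar (uSerQ N)

/-- `Δ(q)/Δ(q^N)` over `ℚ̄`. -/
def gSer (N : ℕ) [NeZero N] : LaurentSeries Kbar := coeffEmb Kbar (modularUnitSeries N)

theorem uSer_mem (N : ℕ) [NeZero N] : uSer N ∈ modularFunctionFieldBar N := by
  refine Fermat.Agent.S29.H882.mem_laurentBaseChange_of_coeffMap_mem H997.ιK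
    (modularFunctionFieldFull N) ?_
  rw [uSer, Deg457.coeffMap_coeffEmb']
  show coeffMap (algebraMap ℚ ℂ) (uSerQ N) ∈ _
  rw [coeffMap_uSerQ]
  exact unitSeriesC_mem_FC N

theorem uSer_mul_gSer (N : ℕ) [NeZero N] :
    uSer N * gSer N = HahnSeries.C ((N : Kbar) ^ 12) := by
  rw [uSer, gSer, ← map_mul, uSerQ_mul_modularUnitSeries, coeffEmb, coeffMap_C]
  simp

theorem natCast_pow_ne_zero (N : ℕ) [NeZero N] : ((N : Kbar) ^ 12) ≠ 0 :=
  pow_ne_zero _ (Nat.cast_ne_zero.mpr (NeZero.ne N))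

theorem uSer_ne_zero (N : ℕ) [NeZero N] : uSer N ≠ 0 := by
  intro h
  have := uSer_mul_gSer N
  rw [h, zero_mul] at this
  have h2 := congrArg (fun s : LaurentSeries Kbar => s.coeff 0) this
  simp only [HahnSeries.coeff_zero, HahnSeries.C_apply, HahnSeries.coeff_single_same] at h2
  exact natCast_pow_ne_zero N h2.symm

theorem gSer_eq (N : ℕ) [NeZero N] :
    gSer N = HahnSeries.C ((N : Kbar) ^ 12) * (uSer N)⁻¹ := by
  rw [← uSer_mul_gSer N]
  field_simp [uSer_ne_zero N]

theorem C_mem (N : ℕ) (c : Kbar) :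
    (HahnSeries.C c : LaurentSeries Kbar) ∈ modularFunctionFieldBar N := by
  have : (HahnSeries.C c : LaurentSeries Kbar) = algebraMap Kbar (LaurentSeries Kbar) c := by
    rw [algebraMap_laurentSeries_eq_single]; rfl
  rw [this]
  exact (modularFunctionFieldBar N).algebraMap_mem c

theorem gSer_mem (N : ℕ) [NeZero N] : gSer N ∈ modularFunctionFieldBar N := by
  rw [gSer_eq]
  exact mul_mem (C_mem N _) (inv_mem (uSer_mem N))

/-- The modular unit `u = N¹² Δ(q^N)/Δ(q)` as an element of the function field of `X₀(N)`. -/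
def uF (N : ℕ) [NeZero N] : FF N := ⟨uSer N, uSer_mem N⟩

/-- The modular unit `g = Δ(q)/Δ(q^N)` as an element of the function field of `X₀(N)`. -/
def gF (N : ℕ) [NeZero N] : FF N := ⟨gSer N, gSer_mem N⟩

@[simp] theorem coe_uF (N : ℕ) [NeZero N] : ((uF N : FF N) : LaurentSeries Kbar) = uSer N := rfl

@[simp] theorem coe_gF (N : ℕ) [NeZero N] : ((gF N : FF N) : LaurentSeries Kbar) = gSer N := rfl

theorem uF_mul_gF (N : ℕ) [NeZero N] :
    uF N * gF N = algebraMap Kbar (FF N) ((N : Kbar) ^ 12) := by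
  apply Subtype.ext
  show uSer N * gSer N = algebraMap Kbar (LaurentSeries Kbar) ((N : Kbar) ^ 12)
  rw [uSer_mul_gSer, algebraMap_laurentSeries_eq_single]; rfl

theorem uF_ne_zero (N : ℕ) [NeZero N] : uF N ≠ 0 := fun h =>
  uSer_ne_zero N (congrArg Subtype.val h)

theorem gF_ne_zero (N : ℕ) [NeZero N] : gF N ≠ 0 := by
  intro h
  have := uF_mul_gF N
  rw [h, mul_zero] at this
  exact natCast_pow_ne_zero N ((algebraMap Kbar (FF N)).injective (by rw [← this, map_zero]))

end Fermat.Agent.S15.H422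

end
end
-- ===== PACK-END S15/H422/UnitMem.lean

-- ===== PACK-BEGIN S15/H422/UnitFricke.lean
section




/-!
# S15 / P-C1 (helper422), part 3: the Fricke involution on the modular unit

`w_N(u) · u = N¹²` for `u = N¹² Δ(q^N)/Δ(q)`, i.e. `w_N(u) = g = Δ(q)/Δ(q^N)`.

The involution `wF` (helper528, cell A2) is defined through the analytic bridge
`toFun : R_N → (ℍ → ℂ)`; we compare with the analytic unit `τ ↦ N¹² Δ(Nτ)/Δ(τ)` of helper589,
which lies in helper997's ring `holN N` by helper748's expansions of all its conjugates.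
-/

set_option autoImplicit false

noncomputable section

open ModularCurve HahnSeries UpperHalfPlane
open scoped MatrixGroups

namespace Fermat.Agent.S15.H422

open Fermat.Agent.S24 Fermat.Agent.S28 Fermat.Agent.S24.H997 Fermat.Agent.A2.H528

local notation "Δ" => ModularForm.discriminant

variable (N : ℕ) [NeZero N]

theorem pos_N : 0 < N := Nat.pos_of_ne_zero (NeZero.ne N)

/-- the analytic unit `τ ↦ N¹² Δ(Nτ)/Δ(τ)`. -/
def uAn : ℍ → ℂ := H589.unitFun N (pos_N N)

theorem scaleH_eq_infAff (τ : ℍ) : H589.scaleH N (pos_N N) τ = infAff N 0 1 τ := by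
  apply UpperHalfPlane.ext
  rw [H589.scaleH_coe, infAff_coe (pos_N N) one_pos]
  simp

theorem uAn_eq (τ : ℍ) : uAn N τ = (N : ℂ) ^ 12 * H748.conjU N 0 1 τ := by
  simp only [uAn, H589.unitFun, H748.conjU, scaleH_eq_infAff]
  simp
  ring

/-- every `SL(2,ℤ)`-translate of the analytic unit has an expansion in `q^{1/N}`. -/
theorem compSL_uAn_mem_expRing (γ : SL(2, ℤ)) : compSL γ (uAn N) ∈ expRing N := by
  have hmem : (fun τ => H748.conjU N 0 1 (γ • τ)) ∈ H748.famSet N :=
    H748.famSet_smul (H748.conjU_mem_famSet (pos_N N) dvd_rfl) γ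
  obtain ⟨φ, hφ, -⟩ := H748.famSet_infExp hmem
  have h := (InfExp.const (N := N) ((N : ℂ) ^ 12)).mul hφ
  refine InfExp.mem_expRing (h.congr fun τ => ?_)
  rw [compSL_apply, uAn_eq]

theorem uAn_mem_holN : uAn N ∈ holN N :=
  ⟨H589.mdifferentiable_unitFun N (pos_N N), compSL_uAn_mem_expRing N⟩

/-- the analytic unit as an element of `Hol`. -/
def uHol : (holBase N).Hol := ⟨uAn N, uAn_mem_holN N⟩

theorem infExp_uAn : InfExp N (uAn N) (qExpand ℂ N (H589.unitSeriesC N)) :=
  H748.infExp_level (H748.infExp_of_hasTExp_one (H589.hasTExp_unitFun N (pos_N N)))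

theorem Φ_uSer : HolBase.Φ N (uSer N) = qExpand ℂ N (H589.unitSeriesC N) := by
  show qExpand ℂ N (coeffMap ιK (uSer N)) = _
  congr 1
  rw [uSer, Deg457.coeffMap_coeffEmb']
  exact coeffMap_uSerQ N

theorem qexp_uHol : (holBase N).qexp (uHol N) = HolBase.Φ N (uSer N) := by
  rw [Φ_uSer]
  exact (infExp_uAn N).expInf_eq

/-- the analytic functional equation `u(-1/(Nτ)) · u(τ) = N¹²`. -/
theorem uAn_fricke (τ : ℍ) : uAn N (fricke N τ) * uAn N τ = (N : ℂ) ^ 12 := by
  have h1 : fricke N τ = ModularGroup.S • H589.scaleH N (pos_N N) τ := by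
    rw [fricke, scaleH_eq_infAff]
  have h2 := H589.unitFun_S_scaleH N (pos_N N) τ
  rw [uAn, h1, h2, H589.unitFun', H589.unitFun]
  have hΔ1 : Δ τ ≠ 0 := ModularForm.discriminant_ne_zero τ
  have hΔ2 : Δ (H589.scaleH N (pos_N N) τ) ≠ 0 := ModularForm.discriminant_ne_zero _
  field_simp

/-- formal relation ⇒ analytic relation for the unit. -/
theorem toFun_eq_of_uF_mul {a b : RN N} (h : uF N * inclRN N b = inclRN N a) :
    toFun N a = uAn N * toFun N b := by
  have h1 : (holBase N).bridge a = uHol N * (holBase N).bridge b := by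
    apply (holBase N).qexp_injective
    rw [map_mul, HolBase.qexp_bridge, HolBase.qexp_bridge, qexp_uHol, ← map_mul]
    congr 1
    have := congrArg (fun x : FF N => (x : LaurentSeries Kbar)) h
    exact this.symm
  have h2 := congrArg (fun x : (holBase N).Hol => (x : ℍ → ℂ)) h1
  exact h2

/-- **`w_N(u) · u = N¹²`.** -/
theorem wF_uF_mul_uF : wF N (uF N) * uF N = algebraMap Kbar (FF N) ((N : Kbar) ^ 12) := by
  obtain ⟨a, b, hb, hab⟩ := exists_div_inclRN N (uF N)
  have hb' : inclRN N b ≠ 0 := fun h => hb (inclRN_injective N (by rw [h, map_zero]))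
  have hmul : uF N * inclRN N b = inclRN N a := by
    rw [hab, div_mul_cancel₀ _ hb']
  have hfun := toFun_eq_of_uF_mul N hmul
  -- apply the Fricke map
  have hfunW : toFun N (wR N a) = compW N (uAn N) * toFun N (wR N b) := by
    rw [toFun_wR, toFun_wR, hfun, map_mul]
  -- the relation in `R_N`
  have hR : wR N a * a = algebraMap Kbar (RN N) ((N : Kbar) ^ 12) * (wR N b * b) := by
    apply toFun_injective N
    rw [map_mul, map_mul, map_mul, toFun_algebraMap, hfunW, hfun]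
    funext τ
    simp only [Pi.mul_apply, compW_apply]
    have h := uAn_fricke N τ
    have hι : ιK ((N : Kbar) ^ 12) = (N : ℂ) ^ 12 := by
      rw [map_pow, map_natCast]
    rw [hι, ← h]
    ring
  have hwb : wR N b ≠ 0 := fun h => hb (wR_injective N (by rw [h, map_zero]))
  have hwb' : inclRN N (wR N b) ≠ 0 := fun h => hwb (inclRN_injective N (by rw [h, map_zero]))
  have hF := congrArg (inclRN N) hR
  rw [map_mul, map_mul, map_mul, AlgHom.commutes] at hF
  have hwa : wF N (inclRN N a) = inclRN N (wR N a) := wFHom_inclRN N a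
  have hwb2 : wF N (inclRN N b) = inclRN N (wR N b) := wFHom_inclRN N b
  rw [hab, map_div₀, hwa, hwb2]
  field_simp
  linear_combination hF

/-- `w_N(u) = g`. -/
theorem wF_uF : wF N (uF N) = gF N := by
  have h1 := wF_uF_mul_uF N
  have h2 := uF_mul_gF N
  have hu := uF_ne_zero N
  apply mul_right_cancel₀ hu
  rw [h1, mul_comm, h2]

/-- `w_N(g) = u`. -/
theorem wF_gF : wF N (gF N) = uF N := by
  rw [← wF_uF, wF_wF]

end Fermat.Agent.S15.H422

end
end
-- ===== PACK-END S15/H422/UnitFricke.lean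

-- ===== PACK-BEGIN S15/H422/UnitInt.lean
section




/-!
# S15 / P-C1 (helper422), part 2: the modular unit is integral over `ℤ[j]`

For `N` prime, `uF N = N¹² Δ(q^N)/Δ(q)` is a root of a monic polynomial with coefficients in
`ℤ[j]` (helper589/helper807: `UnitPolyData`), hence lies in every valuation ring of `FF N`
containing `j`: it has no poles outside the cusps.
-/

set_option autoImplicit false

noncomputable section

open ModularCurve HahnSeries AlgebraicCurve Polynomial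

namespace Fermat.Agent.S15.H422

open Fermat.Agent.S24 Fermat.Agent.S28

theorem coeffEmb_deltaSeries : coeffEmb Kbar deltaSeries = deltaL Kbar := by
  have h : deltaSeries = deltaL ℚ := rfl
  rw [h, coeffEmb, h88_coeffMap_deltaL]

theorem deltaL_inv (k : Type*) [Field k] : (deltaL k)⁻¹ = deltaInvL k :=
  inv_eq_of_mul_eq_one_right (h88_deltaL_mul_deltaInvL k)

theorem uSer_eq_unitL (N : ℕ) [NeZero N] :
    uSer N = (N : LaurentSeries Kbar) ^ 12 * unitL Kbar N := by
  rw [uSer, uSerQ, map_mul, map_mul, map_inv₀, coeffEmb_deltaSeries, deltaL_inv, deltaSeriesN,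
    unitL]
  have h1 : coeffEmb Kbar (qExpand ℚ N deltaSeries) = qExpand Kbar N (deltaL Kbar) := by
    rw [coeffEmb, coeffMap_qExpand]
    congr 1
    exact coeffEmb_deltaSeries
  have h2 : coeffEmb Kbar (HahnSeries.C ((N : ℚ) ^ 12)) = (N : LaurentSeries Kbar) ^ 12 := by
    rw [coeffEmb, coeffMap_C, map_pow, map_natCast, map_pow, map_natCast]
  rw [h1, h2, mul_assoc]

/-- the unit polynomial relation for `uSer`, in `ℚ̄((q))`. -/
theorem unitPoly_relation (N : ℕ) [NeZero N] (W : UnitPolyData N) :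
    W.W.eval₂ (evalAt (jqModC Kbar)) (uSer N) = 0 := by
  rw [uSer_eq_unitL]
  exact h88_unitPoly_field Kbar N W

theorem coe_jF_eq (N : ℕ) [NeZero N] : ((jF N : FF N) : LaurentSeries Kbar) = jqModC Kbar :=
  Deg457.JK_eq Kbar

/-- **No poles outside the cusps.** -/
theorem uF_mem_of_jF_mem (N : ℕ) [NeZero N] (hN : N.Prime) (A : ValuationSubring (FF N))
    (hj : jF N ∈ A) : uF N ∈ A := by
  obtain ⟨W⟩ := H807.nonempty_unitPolyData (p := N) hN
  -- the coefficient homomorphism `ℤ[Y] → A`, `Y ↦ j`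
  let ψ : Polynomial ℤ →+* A := (Polynomial.aeval (R := ℤ) (⟨jF N, hj⟩ : A)).toRingHom
  have hint : IsIntegral A (uF N) := by
    refine ⟨W.W.map ψ, W.monic.map ψ, ?_⟩
    rw [Polynomial.eval₂_map]
    -- compare inside `ℚ̄((q))`
    apply Subtype.ext
    have hcomp : ((modularFunctionFieldBar N).val.toRingHom.comp
        ((algebraMap A (FF N)).comp ψ)) = evalAt (jqModC Kbar) := by
      apply Polynomial.ringHom_ext
      · intro a
        simp [ψ, evalAt]
      · simp only [RingHom.coe_comp, Function.comp_apply, ψ, evalAt, AlgHom.toRingHom_eq_coe,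
          RingHom.coe_coe, Polynomial.aeval_X]
        exact coe_jF_eq N
    have h := unitPoly_relation N W
    rw [← hcomp] at h
    have h2 := Polynomial.hom_eval₂ W.W ((algebraMap A (FF N)).comp ψ)
      (modularFunctionFieldBar N).val.toRingHom (uF N)
    show (modularFunctionFieldBar N).val.toRingHom _ = _
    rw [h2]
    exact h
  obtain ⟨y, hy⟩ := (IsIntegrallyClosed.isIntegral_iff (R := A) (K := FF N)).mp hint
  rw [← hy]
  exact y.2

end Fermat.Agent.S15.H422

end
end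
-- ===== PACK-END S15/H422/UnitInt.lean

-- ===== PACK-BEGIN Ribet/H944/TameLevel.lean
section




/-!
# Row 38, WALL-p, (S4) CORE-OUT: the TAME LEVEL `E₁ = ℚ̄^{I}(ζ_p) = ℚ̄^{I₁}`  (helper944)

`A` a valuation subring of `ℚ̄` over `p`, `I = A.inertiaSubgroupIn ℚ`, `ζ` a primitive `p`-th root
of unity, `I₁ = {τ ∈ I | τ|μ_p = 1}` (`H785.inertiaOne`), `K₁ = ℚ̄^{I₁}` (`H785.InK1`).

* `tameLevel A ζ`            : the good level `A2.IF.H429.level A {ζ} = ℚ̄^I(ζ)`;
* `goodField_tameLevel`      : it is a good level (`A2.GoodField`);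
* `mem_tameLevel_iff`        : `x ∈ tameLevel A ζ ↔ H785.InK1 A p x` (`E₁ = K₁`: everything which is
                               fixed by `I₁` lives at the tame level);
* `zetaR`, `isPrimitiveRoot_zetaR` : `ζ` as an element of `R = RE A E₁`;
* `exists_unit_lam_pow`      : `(ζ - 1) ^ (p - 1) = p · ε`, `ε ∈ Rˣ` (any domain);
* `associated_natCast_pow`   : `p ~ w ^ (p - 1)` for EVERY uniformiser `w` of `R`
                               (ramification index `e = p - 1`, prime to `p`);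
* `irreducible_lam`          : `λ = ζ - 1` is a uniformiser of `R`;
* `coprime_unitExp`          : `12 (p - 1)` is prime to `p` for `p ≥ 5` (exponent of the unit pair
                               `D · D' = p ^ 12` at the tame level).
-/

set_option autoImplicit false
set_option linter.unusedSectionVars false
set_option linter.style.haveILetI false

noncomputable section

namespace Fermat.Agent.Ribet.H944.Tame

open Fermat.Agent.A2 Fermat.Agent.A2.IF.H429 Fermat.Agent.Ribet.H785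
open Fermat.Agent.S55.Bridge

attribute [local instance] isAlgebraic_Qbar isGalois_Qbar

variable (A : ValuationSubring Qb) {p : ℕ}

/-- The tame level `E₁ = ℚ̄^{I}(ζ)`. -/
def tameLevel (ζ : Qb) : IntermediateField ℚ Qb := level A {ζ}

theorem goodField_tameLevel (hp : p.Prime) (hA : A.LiesOverPrime p) (ζ : Qb) :
    GoodField A (tameLevel A ζ) :=
  goodField_level p hp A hA {ζ}

theorem zeta_mem_tameLevel (ζ : Qb) : ζ ∈ tameLevel A ζ :=
  mem_level_of_mem A {ζ} (Finset.mem_singleton_self ζ)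

theorem inertiaField_le_tameLevel (ζ : Qb) : inertiaField A ≤ tameLevel A ζ :=
  inertiaField_le_level A {ζ}

/-- Everything fixed by `I₁` lies at the tame level. -/
theorem mem_tameLevel_of_inK1 {ζ : Qb} (hζ : IsPrimitiveRoot ζ p) (hp0 : p ≠ 0) {x : Qb}
    (hx : InK1 A p x) : x ∈ tameLevel A ζ := by
  haveI : NeZero p := ⟨hp0⟩
  apply mem_of_fixed
  intro σ hσ
  have hσI : σ ∈ A.inertiaSubgroupIn ℚ := by
    apply Fermat.Agent.A2.IF.H9.mem_inertiaSubgroupIn_of_fixes_fixedField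
    intro y hy
    exact hσ y (inertiaField_le_tameLevel A ζ hy)
  refine hx σ hσI (fun ζ' hζ' => ?_)
  obtain ⟨k, -, rfl⟩ := hζ.eq_pow_of_pow_eq_one hζ'
  rw [pow_one, map_pow, hσ ζ (zeta_mem_tameLevel A ζ)]

/-- The tame level is fixed by `I₁`. -/
theorem inK1_of_mem_tameLevel {ζ : Qb} (hζp : ζ ^ p = 1) {x : Qb}
    (hx : x ∈ tameLevel A ζ) : InK1 A p x := by
  intro τ hτ hτ1
  refine level_fixed A {ζ} τ (fun e he => (mem_inertiaField_iff A).mp he τ hτ) ?_ hx
  intro z hz
  have hz1 : z ^ p = 1 := by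
    rw [mem_conjSet_iff, Finset.prod_singleton] at hz
    have hdvd : minpoly ℚ ζ ∣ (Polynomial.X ^ p - 1 : Polynomial ℚ) :=
      minpoly.dvd ℚ ζ (by simp [hζp])
    obtain ⟨q, hq⟩ := hdvd
    have h1 := congrArg (Polynomial.aeval z) hq
    rw [map_mul, hz, zero_mul] at h1
    simpa [sub_eq_zero] using h1
  have h2 := hτ1 z hz1
  rwa [pow_one] at h2

/-- **`E₁ = K₁`.** -/
theorem mem_tameLevel_iff {ζ : Qb} (hζ : IsPrimitiveRoot ζ p) (hp0 : p ≠ 0) (x : Qb) :
    x ∈ tameLevel A ζ ↔ InK1 A p x :=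
  ⟨inK1_of_mem_tameLevel A hζ.pow_eq_one, mem_tameLevel_of_inK1 A hζ hp0⟩

/-! ## The cyclotomic uniformiser -/

/-- Roots of unity lie in every valuation subring. -/
theorem mem_of_pow_eq_one {ζ : Qb} (hp0 : p ≠ 0) (hζp : ζ ^ p = 1) : ζ ∈ A := by
  rcases A.mem_or_inv_mem ζ with h | h
  · exact h
  · have h1 : ζ = ζ⁻¹ ^ (p - 1) := by
      have hζ0 : ζ ≠ 0 := by
        rintro rfl
        rw [zero_pow hp0] at hζp
        exact zero_ne_one hζp
      have h2 : ζ * ζ ^ (p - 1) = 1 := by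
        rw [← pow_succ', Nat.sub_add_cancel (Nat.pos_of_ne_zero hp0), hζp]
      rw [inv_pow]
      exact eq_inv_of_mul_eq_one_left h2
    rw [h1]
    exact pow_mem h _

/-- `ζ` as an element of `R = RE A E₁`. -/
def zetaR {ζ : Qb} (hp0 : p ≠ 0) (hζp : ζ ^ p = 1) : RE A (tameLevel A ζ) :=
  ⟨⟨ζ, zeta_mem_tameLevel A ζ⟩, mem_of_pow_eq_one A hp0 hζp⟩

theorem coe_zetaR {ζ : Qb} (hp0 : p ≠ 0) (hζp : ζ ^ p = 1) :
    (((zetaR A hp0 hζp : RE A (tameLevel A ζ)) : tameLevel A ζ) : Qb) = ζ := rfl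

theorem coe_injective (E : IntermediateField ℚ Qb) :
    Function.Injective (fun x : RE A E => (((x : E)) : Qb)) := by
  intro x y h
  exact Subtype.ext (Subtype.ext h)

theorem isPrimitiveRoot_zetaR {ζ : Qb} (hζ : IsPrimitiveRoot ζ p) (hp0 : p ≠ 0) :
    IsPrimitiveRoot (zetaR A hp0 hζ.pow_eq_one) p := by
  let φ : RE A (tameLevel A ζ) →+* Qb :=
    (algebraMap (tameLevel A ζ) Qb).comp (RE A (tameLevel A ζ)).subtype
  have hφ : Function.Injective φ := fun x y h => coe_injective A _ h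
  have h1 : IsPrimitiveRoot (φ (zetaR A hp0 hζ.pow_eq_one)) p := hζ
  exact IsPrimitiveRoot.of_map_of_injective h1 hφ

section Domain

variable {R : Type*} [CommRing R] [IsDomain R]

theorem associated_prod_range_pow (f : ℕ → R) (a : R) (n : ℕ)
    (h : ∀ k < n, Associated (f k) a) : Associated (∏ k ∈ Finset.range n, f k) (a ^ n) := by
  induction n with
  | zero => simp
  | succ n ih =>
    rw [Finset.prod_range_succ, pow_succ]
    exact (ih fun k hk => h k (Nat.lt_succ_of_lt hk)).mul_mul (h n (Nat.lt_succ_self n))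

/-- `p ~ (ζ - 1) ^ (p - 1)` in every domain containing a primitive `p`-th root of unity. -/
theorem associated_natCast_lam_pow (hp : p.Prime) {ζ : R} (hζ : IsPrimitiveRoot ζ p) :
    Associated (p : R) ((ζ - 1) ^ (p - 1)) := by
  have hp1 : p - 1 + 1 = p := Nat.sub_add_cancel hp.pos
  have hζ' : IsPrimitiveRoot ζ (p - 1 + 1) := by rw [hp1]; exact hζ
  have h1 := IsPrimitiveRoot.prod_one_sub_pow_eq_order hζ'
  have h2 : ((p - 1 : ℕ) : R) + 1 = (p : R) := by
    have := congrArg (Nat.cast : ℕ → R) hp1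
    push_cast at this
    exact this
  rw [h2] at h1
  rw [← h1]
  refine associated_prod_range_pow _ _ _ fun k hk => ?_
  have hcop : (k + 1).Coprime p :=
    (Nat.coprime_of_lt_prime (Nat.succ_ne_zero k) (by omega) hp).symm
  have h3 := (hζ.associated_sub_one_pow_sub_one_of_coprime hcop).symm
  have h4 : (1 : R) - ζ ^ (k + 1) = -(ζ ^ (k + 1) - 1) := by ring
  rw [h4]
  exact (Associated.neg_left (Associated.refl _)).trans h3

/-- `(ζ - 1) ^ (p - 1) = p · ε` with `ε` a unit. -/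
theorem exists_unit_lam_pow (hp : p.Prime) {ζ : R} (hζ : IsPrimitiveRoot ζ p) :
    ∃ ε : R, IsUnit ε ∧ (ζ - 1) ^ (p - 1) = (p : R) * ε := by
  obtain ⟨u, hu⟩ := associated_natCast_lam_pow hp hζ
  exact ⟨u, u.isUnit, hu.symm⟩

end Domain

/-! ## The ramification index of the tame level is `p - 1` -/

section Ram

variable {A}

theorem valuation_coe_unit (E : IntermediateField ℚ Qb) (u : (RE A E)ˣ) :
    A.valuation ((((u : RE A E) : E)) : Qb) = 1 := by
  have h1 : ((((u : RE A E) : E)) : Qb) ∈ A := (u : RE A E).2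
  have h2 : (((((u⁻¹ : (RE A E)ˣ) : RE A E) : E)) : Qb) ∈ A := ((u⁻¹ : (RE A E)ˣ) : RE A E).2
  have h3 : ((((u : RE A E) : E)) : Qb) * (((((u⁻¹ : (RE A E)ˣ) : RE A E) : E)) : Qb) = 1 := by
    have h0 : (u : RE A E) * ((u⁻¹ : (RE A E)ˣ) : RE A E) = 1 := u.mul_inv
    exact congrArg (fun x : RE A E => (((x : E)) : Qb)) h0
  have h4 := (A.valuation_le_one_iff _).mpr h1
  have h5 := (A.valuation_le_one_iff _).mpr h2
  have h6 : A.valuation ((((u : RE A E) : E)) : Qb) *
      A.valuation (((((u⁻¹ : (RE A E)ˣ) : RE A E) : E)) : Qb) = 1 := by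
    rw [← map_mul, h3, map_one]
  refine le_antisymm h4 ?_
  by_contra hlt
  push Not at hlt
  have h7 : A.valuation ((((u : RE A E) : E)) : Qb) *
      A.valuation (((((u⁻¹ : (RE A E)ˣ) : RE A E) : E)) : Qb) < 1 :=
    mul_lt_one_of_lt_of_le hlt h5
  exact absurd h6 (ne_of_lt h7)

/-- **Ramification index `p - 1`.**  At the tame level `p ~ w ^ (p - 1)` for every uniformiser
`w`, and `ζ - 1` is a uniformiser. -/
theorem ram_tameLevel (hp : p.Prime) (hA : A.LiesOverPrime p) {ζ : Qb}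
    (hζ : IsPrimitiveRoot ζ p) (w : RE A (tameLevel A ζ)) (hw : Irreducible w) :
    Associated ((p : ℕ) : RE A (tameLevel A ζ)) (w ^ (p - 1)) ∧
      Associated (zetaR A hp.ne_zero hζ.pow_eq_one - 1) w := by
  haveI : IsDiscreteValuationRing (RE A (tameLevel A ζ)) :=
    (goodField_tameLevel A hp hA ζ).dvr
  have hw0 : w ≠ 0 := hw.ne_zero
  have hwu : ¬ IsUnit w := hw.not_isUnit
  set z : RE A (tameLevel A ζ) := zetaR A hp.ne_zero hζ.pow_eq_one with hz
  have hzp : IsPrimitiveRoot z p := isPrimitiveRoot_zetaR A hζ hp.ne_zero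
  have hp0R : ((p : ℕ) : RE A (tameLevel A ζ)) ≠ 0 := by
    intro h
    have := congrArg (fun x : RE A (tameLevel A ζ) => (((x : tameLevel A ζ)) : Qb)) h
    simp only [ZeroMemClass.coe_zero] at this
    have h2 : ((p : ℕ) : Qb) = 0 := by simpa using this
    exact hp.ne_zero (by exact_mod_cast h2)
  have hl0 : z - 1 ≠ 0 := sub_ne_zero.mpr (hzp.ne_one hp.one_lt)
  obtain ⟨e, he⟩ := IsDiscreteValuationRing.associated_pow_irreducible hp0R hw
  obtain ⟨a, ha⟩ := IsDiscreteValuationRing.associated_pow_irreducible hl0 hw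
  -- `a (p - 1) = e`
  have h1 : Associated (w ^ e) (w ^ (a * (p - 1))) := by
    rw [pow_mul]
    exact he.symm.trans ((associated_natCast_lam_pow hp hzp).trans (ha.pow_pow))
  have hea : e = a * (p - 1) := pow_associated_inj hw0 hwu h1
  -- `a ≠ 0`
  have hpmax : ((p : ℕ) : RE A (tameLevel A ζ)) ∈
      IsLocalRing.maximalIdeal (RE A (tameLevel A ζ)) := by
    rw [IsLocalRing.mem_maximalIdeal, mem_nonunits_iff]
    intro hu
    obtain ⟨u, hu⟩ := hu
    have h2 := valuation_coe_unit (A := A) (tameLevel A ζ) u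
    rw [hu] at h2
    have h3 : A.valuation ((p : ℕ) : Qb) < 1 := val_prime_lt_one A hA
    have h4 : (((((p : ℕ) : RE A (tameLevel A ζ)) : tameLevel A ζ)) : Qb) = ((p : ℕ) : Qb) := by
      simp
    rw [h4] at h2
    exact absurd h2 (ne_of_lt h3)
  have hpu : ¬ IsUnit ((p : ℕ) : RE A (tameLevel A ζ)) := by
    rwa [IsLocalRing.mem_maximalIdeal, mem_nonunits_iff] at hpmax
  have he0 : e ≠ 0 := by
    rintro rfl
    rw [pow_zero] at he
    exact hpu (he.symm.isUnit isUnit_one)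
  have ha0 : a ≠ 0 := by
    rintro rfl
    rw [zero_mul] at hea
    exact he0 hea
  -- the valuation bound `e < p`
  have hwK : InK1 A p (((w : tameLevel A ζ)) : Qb) :=
    inK1_of_mem_tameLevel A hζ.pow_eq_one (w : tameLevel A ζ).2
  have hwQ0 : (((w : tameLevel A ζ)) : Qb) ≠ 0 := by
    intro h
    apply hw0
    exact coe_injective A _ (by simpa using h)
  obtain ⟨d, k, hd, hdp, hdk⟩ := exists_val_pow_eq A hp hA hwK hwQ0
  have hvp : A.valuation ((p : ℕ) : Qb) = A.valuation ((((w : tameLevel A ζ)) : Qb)) ^ e := by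
    obtain ⟨u, hu⟩ := he
    have h2 := congrArg
      (fun x : RE A (tameLevel A ζ) => A.valuation ((((x : tameLevel A ζ)) : Qb))) hu
    simp only [MulMemClass.coe_mul, map_mul, SubmonoidClass.coe_pow, map_pow] at h2
    rw [valuation_coe_unit (A := A) (tameLevel A ζ) u, mul_one] at h2
    have h4 : (((((p : ℕ) : RE A (tameLevel A ζ)) : tameLevel A ζ)) : Qb) = ((p : ℕ) : Qb) := by
      simp
    rw [h4] at h2
    exact h2
  have hkey : A.valuation ((p : ℕ) : Qb) ^ ((d : ℕ) : ℤ) = A.valuation ((p : ℕ) : Qb) ^ (k * e) := by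
    rw [zpow_natCast, zpow_mul, ← hdk, zpow_natCast, hvp, ← pow_mul, ← pow_mul, mul_comm]
  have hde : ((d : ℕ) : ℤ) = k * e := zpow_val_prime_injective A hp hA hkey
  have hed : e ∣ d := by
    have : (e : ℤ) ∣ (d : ℤ) := ⟨k, by rw [hde]; ring⟩
    exact Int.natCast_dvd_natCast.mp this
  have hele : e ≤ d := Nat.le_of_dvd hd hed
  have ha1 : a = 1 := by
    have hp2 := hp.two_le
    have h5 : a * (p - 1) < p := by rw [← hea]; omega
    by_contra hne
    have h6 : 2 ≤ a := by omega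
    have h7 : 2 * (p - 1) ≤ a * (p - 1) := Nat.mul_le_mul_right _ h6
    omega
  subst ha1
  rw [one_mul] at hea
  rw [pow_one] at ha
  subst hea
  exact ⟨he, ha⟩

/-- `p ~ w ^ (p - 1)` for every uniformiser `w` of the tame level. -/
theorem associated_natCast_pow (hp : p.Prime) (hA : A.LiesOverPrime p) {ζ : Qb}
    (hζ : IsPrimitiveRoot ζ p) (w : RE A (tameLevel A ζ)) (hw : Irreducible w) :
    Associated ((p : ℕ) : RE A (tameLevel A ζ)) (w ^ (p - 1)) :=
  (ram_tameLevel hp hA hζ w hw).1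

/-- `λ = ζ - 1` is a uniformiser of the tame level. -/
theorem irreducible_lam (hp : p.Prime) (hA : A.LiesOverPrime p) {ζ : Qb}
    (hζ : IsPrimitiveRoot ζ p) :
    Irreducible (zetaR A hp.ne_zero hζ.pow_eq_one - 1) := by
  haveI : IsDiscreteValuationRing (RE A (tameLevel A ζ)) := (goodField_tameLevel A hp hA ζ).dvr
  obtain ⟨w, hw⟩ := IsDiscreteValuationRing.exists_irreducible (RE A (tameLevel A ζ))
  exact (ram_tameLevel hp hA hζ w hw).2.symm.irreducible hw

/-- The exponent `12 (p - 1)` of the unit pair `D · D' = p ^ 12 ~ w ^ (12 (p - 1))` at the tame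
level is prime to `p` for `p ≥ 5`. -/
theorem coprime_unitExp (hp : p.Prime) (hp5 : 5 ≤ p) : Nat.Coprime (12 * (p - 1)) p := by
  rw [Nat.coprime_comm, Nat.Prime.coprime_iff_not_dvd hp]
  intro h
  rcases (Nat.Prime.dvd_mul hp).mp h with h1 | h1
  · have h43 : p ∣ 4 * 3 := h1
    rcases (Nat.Prime.dvd_mul hp).mp h43 with h4 | h3
    · have := Nat.le_of_dvd (by norm_num) h4
      omega
    · have := Nat.le_of_dvd (by norm_num) h3
      omega
  · have := Nat.le_of_dvd (by omega) h1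
    omega

end Ram

end Fermat.Agent.Ribet.H944.Tame

end

end
-- ===== PACK-END Ribet/H944/TameLevel.lean

-- ===== PACK-BEGIN A2/Mod/H398/L8.lean
section



/-!
# A2 / MOD leaf **L8 Deg** (helper398)

`theorem deg : DegStatement E M q` — for `q` prime, `q ∤ M`, `x = j · j_q`:
`x` is transcendental over `E`, `[F_{Mq} : E(x)] = 2 (q+1) ψ(M)`, and `E` is algebraically closed
in `F_{Mq}`.

Proof: tower `E(x) ⊆ E(j, j_q) ⊆ F_{Mq}`; `[F_{Mq} : E(j,j_q)] = ψ(M)` (S28 H988);
`[E(j,j_q) : E(x)] = [ℚ̄(j,j_q) : ℚ̄(x)]` (linear disjointness inside Laurent series, `LinDisj`)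
`= [ℚ̄(j,j_q) : ℚ̄(j)] + [ℚ̄(j,j_q) : ℚ̄(j_q)] = 2 (q+1)` (degree of the pole divisor of `x`,
`PoleSum`; `j`, `j_q` are mutually integral by the modular equation, so they have the same poles).
-/

set_option autoImplicit false
set_option linter.style.haveILetI false
set_option linter.unusedSectionVars false
set_option synthInstance.maxHeartbeats 400000
set_option maxHeartbeats 1600000

noncomputable section

namespace Fermat.Agent.A2.Mod.H398

open ModularCurve HahnSeries Polynomial IntermediateField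
open Fermat.Agent.S28 Fermat.Agent.S28.H988 Fermat.Agent.S37.H988

section Final

variable (E : IntermediateField ℚ _root_.Fermat.Agent.A2.Mod.Qb) (M q : ℕ) [NeZero M] [NeZero q]

theorem coeffEmb_qExpand_jq (d : ℕ) [NeZero d] : coeffEmb E (qExpand ℚ d jq) = jd E d := by
  rw [coeffEmb, ← jqModC_rat, coeffMap_qExpand, coeffMap_jqModC, ← jd_eq]

theorem coe_xE : ((xE E M q : _root_.Fermat.Agent.A2.Mod.FE E (M * q)) : LaurentSeries E) = xL E q := by
  show coeffEmb E (qExpand ℚ 1 jq) * coeffEmb E (qExpand ℚ q jq) = xL E q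
  rw [coeffEmb_qExpand_jq, coeffEmb_qExpand_jq, jd_one]
  rfl

theorem relfinrank_x_full (hq : q.Prime) (hqM : ¬ q ∣ M) :
    (E⟮xL E q⟯).relfinrank (modularFunctionFieldFullC E (M * q)) =
      2 * ((q + 1) * dedekindPsi M) := by
  have hM : M ≠ 0 := NeZero.ne M
  have hMq : M * q ≠ 0 := Nat.mul_ne_zero hM hq.ne_zero
  have h1 : (E⟮xL E q⟯).relfinrank (modularFunctionFieldFullC E q) = 2 * (q + 1) :=
    relfinrank_x_full_prime_descent (E := E) (K := _root_.Fermat.Agent.A2.Mod.Qb) hq (by omega)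
      (relfinrank_x_full_prime_algClosed _root_.Fermat.Agent.A2.Mod.Qb hq)
  have h2 := relfinrank_full_prime_full E hq hM hqM
  have i1 : E⟮xL E q⟯ ≤ modularFunctionFieldFullC E q := by
    rw [← adjoin_x_sup_adjoin_j E hq]
    exact le_sup_left
  have i2 : modularFunctionFieldFullC E q ≤ modularFunctionFieldFullC E (M * q) :=
    full_mono E hMq (Dvd.intro_left M rfl)
  rw [← relfinrank_mul_relfinrank i1 i2, h1, h2]
  ring

/-- **Leaf L8.** -/
theorem deg : DegStatement E M q := by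
  intro hq hqM
  refine ⟨?_, ?_, ?_⟩
  · intro halg
    have h1 : IsAlgebraic E ((xE E M q : _root_.Fermat.Agent.A2.Mod.FE E (M * q)) : LaurentSeries E) :=
      (isAlgebraic_algHom_iff (_root_.Fermat.Agent.A2.Mod.FE E (M * q)).val (_root_.Fermat.Agent.A2.Mod.FE E (M * q)).val.injective).mpr halg
    rw [coe_xE] at h1
    exact transcendental_xL E hq.ne_zero h1
  · rw [finrank_adjoin_simple_eq_relfinrank, coe_xE]
    have := relfinrank_x_full E M q hq hqM
    rw [← laurentBaseChange_full_eq_fullC] at this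
    exact this
  · intro f hf
    have h1 : IsAlgebraic E ((f : _root_.Fermat.Agent.A2.Mod.FE E (M * q)) : LaurentSeries E) :=
      (isAlgebraic_algHom_iff (_root_.Fermat.Agent.A2.Mod.FE E (M * q)).val (_root_.Fermat.Agent.A2.Mod.FE E (M * q)).val.injective).mpr hf
    obtain ⟨c, hc⟩ := laurent_mem_range_of_isAlgebraic h1
    exact ⟨c, Subtype.ext hc⟩

end Final

end Fermat.Agent.A2.Mod.H398

end

end
-- ===== PACK-END A2/Mod/H398/L8.lean

-- ===== PACK-BEGIN S17/H126/StabilizerOpen.lean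
section
/-
S17 row, piece `BASE-1` (helper126): every class of `J₀(N)(ℚ̄)` is fixed by an open subgroup of
`G_ℚ` (is defined over a number field).  Exact skeleton statement (`Skel.stabilizer_open`), with the
abbreviations `Qb`, `GQ` unfolded.  Proof: S29 piece `M3` (`Fermat/Agent/S29/H126/M3.lean`).
-/


set_option autoImplicit false

noncomputable section

namespace Fermat.Agent.S17.H126

open ModularCurve AlgebraicCurve

/-- BASE-1. Every class is fixed by an open subgroup (is defined over a number field). -/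
theorem stabilizer_open (N : ℕ) [NeZero N] (x : JZero N) :
    ∃ K : IntermediateField ℚ (AlgebraicClosure ℚ), FiniteDimensional ℚ K ∧
      ∀ σ : (AlgebraicClosure ℚ ≃ₐ[ℚ] AlgebraicClosure ℚ), (∀ a ∈ K, σ a = a) → σ • x = x :=
  Fermat.Agent.S29.H126.M3_jZero_smooth N x

/-- Every place of `ℚ̄(X₀(N))` is fixed by an open subgroup of `G_ℚ`. -/
theorem place_stabilizer_open (N : ℕ) [NeZero N]
    (v : Place (AlgebraicClosure ℚ) (modularFunctionFieldBar N)) :
    ∃ K : IntermediateField ℚ (AlgebraicClosure ℚ), FiniteDimensional ℚ K ∧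
      ∀ σ : (AlgebraicClosure ℚ ≃ₐ[ℚ] AlgebraicClosure ℚ), (∀ a ∈ K, σ a = a) →
        arithmeticGalois (modularFunctionFieldFull N) σ • v = v :=
  Fermat.Agent.S29.H126.M3_place_openFixed N v

/-- Every function in `ℚ̄(X₀(N))` is fixed by an open subgroup of `G_ℚ`. -/
theorem function_stabilizer_open (N : ℕ) (f : modularFunctionFieldBar N) :
    ∃ K : IntermediateField ℚ (AlgebraicClosure ℚ), FiniteDimensional ℚ K ∧
      ∀ σ : (AlgebraicClosure ℚ ≃ₐ[ℚ] AlgebraicClosure ℚ), (∀ a ∈ K, σ a = a) →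
        arithmeticGalois (modularFunctionFieldFull N) σ • f = f :=
  Fermat.Agent.S29.H126.M3_elt_openFixed N f

end Fermat.Agent.S17.H126

end
end
-- ===== PACK-END S17/H126/StabilizerOpen.lean

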