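import Mathlib
import Fermat.Prelude.Def_FreyPackage_DetCyclotomic
import Mathlib.FieldTheory.KummerExtension
import Fermat.Agent.Pack.S44.G0E26L0
import Fermat.Agent.Pack.S44.G0E24L1
import Fermat.Agent.Pack.S44.G0E13L2
import Fermat.Agent.Pack.S44.G0E16L0
import Fermat.Agent.Pack.S44.G0E0L2
import Fermat.Agent.Pack.S44.G0E26L3
import Fermat.Agent.Pack.S44.G0E10L3
import Fermat.Agent.Pack.S44.G0E19L0
import Fermat.Agent.Pack.S44.G0E20L1
import Fermat.Agent.Pack.S44.G0E18L3
import Fermat.Agent.Pack.S44.G0E13L3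
import Fermat.Agent.Pack.S44.G0E22L2
import Fermat.Agent.Pack.S44.G0E0L1
import Fermat.Agent.Pack.S44.G0E0L0
import Fermat.Agent.Pack.S44.G0E0L3
import Fermat.Agent.Pack.S44.G0E16L2
import Fermat.Agent.Pack.S44.G0E21L3
import Fermat.Agent.Pack.S44.G0E6L3
import Fermat.Agent.Pack.S44.G0E1L3
import Fermat.Agent.Pack.S44.G0E6L2
import Fermat.Agent.Pack.S44.G0E19L3
import Fermat.Agent.Pack.S44.G0E24L3
import Fermat.Agent.Pack.S44.G0E6L0
import Fermat.Agent.Pack.S44.G0E26L2
import Fermat.Agent.Pack.S44.G0E12L2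
import Fermat.Agent.Pack.S44.G0E21L0
import Fermat.Agent.Pack.S44.G0E20L2
import Fermat.Agent.Pack.S44.G0E18L1
import Fermat.Agent.Pack.S44.G0E22L1

-- ===== PACK-BEGIN Ribet/H801/DegBeta.lean
section
/-
RIBET / W-DEG (helper801), part 4: Hecke-equivariance of `β_* : J₀(Mp) → J₀(M)`:

    β_* ∘ T_ℓ^{(Mp)} = T_ℓ^{(M)} ∘ β_*     for all primes `ℓ ≠ p`,

from the norm compatibility of the `ββ`-square

      F_M    --β_p-->  F_{Mp}
       |β_ℓ             |β_ℓ
       v                v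
      F_{Mℓ} --β_p-->  F_{Mpℓ}

(`F_{Mpℓ} = V_p(F_{Mℓ}) ⊔ V_ℓ(F_{Mp})` and equal degrees).
-/




set_option autoImplicit false
set_option linter.style.haveILetI false

noncomputable section

namespace Fermat.Agent.Ribet.H801

open AlgebraicCurve ModularCurve Fermat.Agent.S37.H818 Fermat.Agent.S29.H801
open Fermat.Agent.Lib.HI Fermat.Agent.S37

section Retarget

variable (L : Type*) [Field L] [Algebra ℚ L]
variable {M ℓ M' : ℕ} [NeZero M] [NeZero ℓ] [NeZero M']

theorem betaTo_finite (h : M * ℓ = M') (hfin : FiniteAlong L (heckeBetaBar L M ℓ)) :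
    FiniteAlong L (betaTo L M ℓ M' h) := by
  subst h
  exact hfin

theorem betaTo_normFormula (h : M * ℓ = M') (hfin : FiniteAlong L (heckeBetaBar L M ℓ))
    (hN : NormFormulaAlong L (heckeBetaBar L M ℓ) hfin) :
    NormFormulaAlong L (betaTo L M ℓ M' h) (betaTo_finite L h hfin) := by
  subst h
  exact hN

theorem betaTo_finrankAlong (h : M * ℓ = M') :
    finrankAlong L (betaTo L M ℓ M' h) = finrankAlong L (heckeBetaBar L M ℓ) := by
  subst h
  rfl

end Retarget

section Span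

variable (L : Type*) [Field L] [Algebra ℚ L]

theorem intermediateField_smul_eq {K E : Type*} [Field K] [Field E] [Algebra K E]
    (A : IntermediateField K E) (a : A) (x : E) : a • x = (a : E) * x := by
  rw [Algebra.smul_def]
  rfl

theorem smul_betaTo_coe {M ℓ M' : ℕ} [NeZero M] [NeZero ℓ] [NeZero M'] (h : M * ℓ = M')
    (a : _root_.Fermat.Agent.S29.H801.FB L M) (x : _root_.Fermat.Agent.S29.H801.FB L M') :
    letI := algebraAlong (betaTo L M ℓ M' h)
    ((a • x : _root_.Fermat.Agent.S29.H801.FB L M') : LaurentSeries L) = qExpand L ℓ (a : LaurentSeries L) * (x : LaurentSeries L) := by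
  letI := algebraAlong (betaTo L M ℓ M' h)
  have h1 : a • x = betaTo L M ℓ M' h a * x := rfl
  rw [h1, MulMemClass.coe_mul, coe_betaTo]

/-- The image of `β_ℓ : F_{Mp} → F_{Mpℓ}` spans `F_{Mpℓ}` over `β_p(F_{Mℓ})`. -/
theorem span_range_beta_of_sup (M p ℓ : ℕ) [NeZero M] [NeZero p] [NeZero ℓ]
    (hsup : laurentBaseChange L (modularFunctionFieldFull (M * p * ℓ))
      = (laurentBaseChange L (modularFunctionFieldFull (M * ℓ))).map (qExpandAlgHomC L p)
        ⊔ (laurentBaseChange L (modularFunctionFieldFull (M * p))).map (qExpandAlgHomC L ℓ))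
    (halg : ∀ x ∈ (laurentBaseChange L (modularFunctionFieldFull (M * p))).map
        (qExpandAlgHomC L ℓ),
      IsAlgebraic ((laurentBaseChange L (modularFunctionFieldFull (M * ℓ))).map
        (qExpandAlgHomC L p)) x) :
    letI := algebraAlong (betaTo L (M * ℓ) p (M * p * ℓ) (Nat.mul_right_comm M ℓ p))
    Submodule.span (_root_.Fermat.Agent.S29.H801.FB L (M * ℓ)) (Set.range (heckeBetaBar L (M * p) ℓ)) = ⊤ := by
  letI := algebraAlong (betaTo L (M * ℓ) p (M * p * ℓ) (Nat.mul_right_comm M ℓ p))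
  rw [eq_top_iff]
  rintro t -
  have ht : (t : LaurentSeries L) ∈
      (laurentBaseChange L (modularFunctionFieldFull (M * ℓ))).map (qExpandAlgHomC L p)
        ⊔ (laurentBaseChange L (modularFunctionFieldFull (M * p))).map (qExpandAlgHomC L ℓ) := by
    rw [← hsup]
    exact t.2
  have hs := mem_span_of_mem_sup _ _ halg ht
  have key : ∀ x : LaurentSeries L,
      x ∈ Submodule.span
        ((laurentBaseChange L (modularFunctionFieldFull (M * ℓ))).map (qExpandAlgHomC L p))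
        (((laurentBaseChange L (modularFunctionFieldFull (M * p))).map (qExpandAlgHomC L ℓ) :
          IntermediateField L (LaurentSeries L)) : Set (LaurentSeries L)) →
      ∃ y : _root_.Fermat.Agent.S29.H801.FB L (M * p * ℓ),
        y ∈ Submodule.span (_root_.Fermat.Agent.S29.H801.FB L (M * ℓ)) (Set.range (heckeBetaBar L (M * p) ℓ)) ∧
        (y : LaurentSeries L) = x := by
    intro x hx
    induction hx using Submodule.span_induction with
    | mem x hx =>
      obtain ⟨z, hz, rfl⟩ := hx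
      refine ⟨heckeBetaBar L (M * p) ℓ ⟨z, hz⟩, Submodule.subset_span ⟨_, rfl⟩, ?_⟩
      rw [coe_heckeBetaBar]
      rfl
    | zero => exact ⟨0, Submodule.zero_mem _, rfl⟩
    | add x y _ _ hx hy =>
      obtain ⟨x', hx', rfl⟩ := hx
      obtain ⟨y', hy', rfl⟩ := hy
      exact ⟨x' + y', Submodule.add_mem _ hx' hy', rfl⟩
    | smul a x _ hx =>
      obtain ⟨x', hx', rfl⟩ := hx
      obtain ⟨g, hg, hga⟩ := a.2
      refine ⟨(⟨g, hg⟩ : _root_.Fermat.Agent.S29.H801.FB L (M * ℓ)) • x', Submodule.smul_mem _ _ hx', ?_⟩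
      rw [smul_betaTo_coe, intermediateField_smul_eq, ← hga]
      rfl
  obtain ⟨y, hy, hyt⟩ := key _ hs
  have : y = t := Subtype.ext hyt
  rw [← this]
  exact hy

/-- Norm compatibility of the `ββ`-square from generation and degrees. -/
theorem normCompat_beta_of_sup (M p ℓ : ℕ) [NeZero M] [NeZero p] [NeZero ℓ]
    (hfin : FiniteAlong L (heckeBetaBar L M p))
    (hfin' : FiniteAlong L (heckeBetaBar L (M * ℓ) p))
    (hrk : finrankAlong L (heckeBetaBar L M p) ≤ finrankAlong L (heckeBetaBar L (M * ℓ) p))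
    (hsup : laurentBaseChange L (modularFunctionFieldFull (M * p * ℓ))
      = (laurentBaseChange L (modularFunctionFieldFull (M * ℓ))).map (qExpandAlgHomC L p)
        ⊔ (laurentBaseChange L (modularFunctionFieldFull (M * p))).map (qExpandAlgHomC L ℓ))
    (halg : ∀ x ∈ (laurentBaseChange L (modularFunctionFieldFull (M * p))).map
        (qExpandAlgHomC L ℓ),
      IsAlgebraic ((laurentBaseChange L (modularFunctionFieldFull (M * ℓ))).map
        (qExpandAlgHomC L p)) x) :
    NormCompat (heckeBetaBar L M p) (heckeBetaBar L M ℓ)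
      (betaTo L (M * ℓ) p (M * p * ℓ) (Nat.mul_right_comm M ℓ p)) (heckeBetaBar L (M * p) ℓ) :=
  normCompat_of_span _ _ _ _ (rel_BB M p ℓ) hfin
    (betaTo_finite L _ hfin')
    (by rw [betaTo_finrankAlong]; exact hrk)
    (span_range_beta_of_sup L M p ℓ hsup halg)

end Span

section Bar

variable (M p ℓ : ℕ) [NeZero M] [NeZero p] [NeZero ℓ]

/-- **Norm compatibility of the `ββ`-square over `ℚ̄`.** -/
theorem normCompat_beta_bar (hp : p.Prime) (hℓ : ℓ.Prime) (hne : ℓ ≠ p) :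
    NormCompat (heckeBetaBar (AlgebraicClosure ℚ) M p) (heckeBetaBar (AlgebraicClosure ℚ) M ℓ)
      (betaTo (AlgebraicClosure ℚ) (M * ℓ) p (M * p * ℓ) (Nat.mul_right_comm M ℓ p))
      (heckeBetaBar (AlgebraicClosure ℚ) (M * p) ℓ) := by
  have hsup0 := bar_eq_sup_map_map M p ℓ hp hℓ hne
  have hsup : modularFunctionFieldBar (M * p * ℓ) =
      (modularFunctionFieldBar (M * ℓ)).map (qExpandAlgHomC (AlgebraicClosure ℚ) p) ⊔
        (modularFunctionFieldBar (M * p)).map (qExpandAlgHomC (AlgebraicClosure ℚ) ℓ) := by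
    rw [← hsup0]
    exact modularFunctionFieldBar_congr (Nat.mul_right_comm M p ℓ)
  have hAT : (modularFunctionFieldBar (M * ℓ)).map (qExpandAlgHomC (AlgebraicClosure ℚ) p)
      ≤ modularFunctionFieldBar (M * ℓ * p) := H218.map_qExpand_bar_le (M * ℓ) p
  have hd : ((modularFunctionFieldBar (M * ℓ)).map
      (qExpandAlgHomC (AlgebraicClosure ℚ) p)).relfinrank (modularFunctionFieldBar (M * ℓ * p))
        ≠ 0 := by
    rw [H218.relfinrank_map_qExpand_bar_mul_prime (M * ℓ) p (NeZero.ne _) hp]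
    split_ifs
    · exact hp.ne_zero
    · omega
  have hpdvd : p ∣ M * ℓ ↔ p ∣ M := by
    constructor
    · intro h
      rcases (Nat.Prime.dvd_mul hp).mp h with h1 | h1
      · exact h1
      · exact absurd ((Nat.prime_dvd_prime_iff_eq hp hℓ).mp h1).symm hne
    · intro h
      exact h.mul_right ℓ
  refine normCompat_beta_of_sup (AlgebraicClosure ℚ) M p ℓ (H864.finiteAlong_beta M p)
    (H864.finiteAlong_beta (M * ℓ) p) ?_ hsup ?_
  · by_cases h : p ∣ M
    · rw [H218.finrankAlong_heckeBetaBar_of_dvd M p hp h,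
        H218.finrankAlong_heckeBetaBar_of_dvd (M * ℓ) p hp (hpdvd.mpr h)]
    · rw [H218.finrankAlong_heckeBetaBar_of_not_dvd M p hp h,
        H218.finrankAlong_heckeBetaBar_of_not_dvd (M * ℓ) p hp (fun h' => h (hpdvd.mp h'))]
  · intro x hx
    refine isAlgebraic_of_relfinrank_ne_zero hAT hd ?_
    rw [hsup0]
    exact (le_sup_right : (modularFunctionFieldBar (M * p)).map
      (qExpandAlgHomC (AlgebraicClosure ℚ) ℓ) ≤ _) hx

/-- **`β_*` is Hecke-equivariant** (operator form, any prime `ℓ ≠ p`). -/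
theorem betaPush_heckeOperatorAlong (hℓ : ℓ.Prime) (hp : p.Prime) (hne : ℓ ≠ p)
    (x : JZero (M * p)) :
    betaPush M p (heckeOperatorAlong (AlgebraicClosure ℚ) (M * p) ℓ x) =
      heckeOperatorAlong (AlgebraicClosure ℚ) M ℓ (betaPush M p x) := by
  haveI hP₁ : HasPrincipalDivisors (AlgebraicClosure ℚ)
      (laurentBaseChange (AlgebraicClosure ℚ) (modularFunctionFieldFull (M * p))) :=
    H864.hasPrincipalDivisors_FF (M * p)
  haveI hP₂ : HasPrincipalDivisors (AlgebraicClosure ℚ)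
      (laurentBaseChange (AlgebraicClosure ℚ) (modularFunctionFieldFull (M * ℓ))) :=
    H864.hasPrincipalDivisors_FF (M * ℓ)
  haveI hP₃ : HasPrincipalDivisors (AlgebraicClosure ℚ)
      (laurentBaseChange (AlgebraicClosure ℚ) (modularFunctionFieldFull (M * p * ℓ))) :=
    H864.hasPrincipalDivisors_FF (M * p * ℓ)
  have hc : M * ℓ * p = M * p * ℓ := Nat.mul_right_comm M ℓ p
  rw [heckeOperatorAlong_eq (H864.heckeAlphaBarIntegral (M * p) ℓ)
      (H864.heckeBetaBarIntegral (M * p) ℓ) (H864.fundamentalIdentityAlong_beta (M * p) ℓ _)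
      (H864.finiteAlong_alpha (M * p) ℓ) (H864.normFormulaAlong_alpha (M * p) ℓ _),
    heckeOperatorAlong_eq (H864.heckeAlphaBarIntegral M ℓ)
      (H864.heckeBetaBarIntegral M ℓ) (H864.fundamentalIdentityAlong_beta M ℓ _)
      (H864.finiteAlong_alpha M ℓ) (H864.normFormulaAlong_alpha M ℓ _)]
  exact pushPic0_correspondence
    (heckeBetaBar (AlgebraicClosure ℚ) M p)
    (heckeBetaBar (AlgebraicClosure ℚ) M ℓ) (heckeAlphaBar (AlgebraicClosure ℚ) M ℓ)
    (heckeBetaBar (AlgebraicClosure ℚ) (M * p) ℓ) (heckeAlphaBar (AlgebraicClosure ℚ) (M * p) ℓ)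
    (betaTo (AlgebraicClosure ℚ) (M * ℓ) p (M * p * ℓ) hc)
    (H864.heckeBetaBarIntegral M p) (H864.heckeBetaBarIntegral M ℓ)
    (H864.heckeAlphaBarIntegral M ℓ) (H864.heckeBetaBarIntegral (M * p) ℓ)
    (H864.heckeAlphaBarIntegral (M * p) ℓ)
    (betaTo_integral (AlgebraicClosure ℚ) hc (H864.heckeBetaBarIntegral (M * ℓ) p))
    (rel_BB M p ℓ) (rel_sq₁ M p ℓ).symm
    (H864.fundamentalIdentityAlong_beta M ℓ _) (H864.fundamentalIdentityAlong_beta (M * p) ℓ _)
    (H864.finiteAlong_alpha M ℓ) (H864.normFormulaAlong_alpha M ℓ _)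
    (H864.finiteAlong_alpha (M * p) ℓ) (H864.normFormulaAlong_alpha (M * p) ℓ _)
    (H864.finiteAlong_beta M p) (H864.normFormulaAlong_beta M p _)
    (betaTo_finite (AlgebraicClosure ℚ) hc (H864.finiteAlong_beta (M * ℓ) p))
    (betaTo_normFormula (AlgebraicClosure ℚ) hc (H864.finiteAlong_beta (M * ℓ) p)
      (H864.normFormulaAlong_beta (M * ℓ) p _))
    (normCompat_beta_bar M p ℓ hp hℓ hne)
    (hasLocalGenerators_of_hasPrincipalDivisors _ _) x

end Bar

section BarPrimes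

variable (M p : ℕ) [NeZero M] [NeZero p]

/-- **`β_*` is Hecke-equivariant**: `β_* (T_ℓ x) = T_ℓ (β_* x)` for every prime `ℓ ≠ p`. -/
theorem betaPush_heckeOperatorBar (hp : p.Prime) (ℓ : Nat.Primes) (hne : (ℓ : ℕ) ≠ p)
    (x : JZero (M * p)) :
    betaPush M p (heckeOperatorBar (M * p) ℓ x) = heckeOperatorBar M ℓ (betaPush M p x) := by
  haveI : NeZero (ℓ : ℕ) := ⟨ℓ.2.ne_zero⟩
  rw [heckeOperatorBar_apply, heckeOperatorBar_apply]
  exact betaPush_heckeOperatorAlong M p (ℓ : ℕ) ℓ.2 hp hne x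

end BarPrimes

end Fermat.Agent.Ribet.H801

end

end
-- ===== PACK-END Ribet/H801/DegBeta.lean

-- ===== PACK-BEGIN Ribet/H801/Deg.lean
section
/-
RIBET / W-DEG (helper801), final file: the degeneracy pair in the exact shape of the wall spec

    Wall.IsDegPair p M' {p} (alphaL p M') (betaL p M')

(`Fermat/Agent/Ribet/H944/WallSpec.lean`): `alphaL`, `betaL : J₀(p M')(ℚ̄) →+ J₀(M')(ℚ̄)` are the
push-forwards `α_*`, `β_*` along `F_{M'} ⊆ F_{M'p}` and `V_p : F_{M'} → F_{M'p}`; they are additive,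
`G_ℚ`-equivariant and commute with `T_ℓ` for every prime `ℓ ≠ p` (also for `ℓ ∣ M'`).

No hypothesis on `p`, `M'` other than `p` prime: `p ∣ M'` is allowed.
-/




set_option autoImplicit false
set_option linter.style.haveILetI false

noncomputable section

namespace Fermat.Agent.Ribet.H801

open AlgebraicCurve ModularCurve
open Fermat.Agent.Ribet.Spec Fermat.Agent.Ribet.H944

section Cast

/-- Transport of `J₀(N)(ℚ̄)` along an equality of levels. -/
def jzeroCast {N N' : ℕ} [NeZero N] [NeZero N'] (h : N = N') : JZero N ≃+ JZero N' := by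
  subst h
  exact AddEquiv.refl _

theorem jzeroCast_smul {N N' : ℕ} [NeZero N] [NeZero N'] (h : N = N')
    (σ : AlgebraicClosure ℚ ≃ₐ[ℚ] AlgebraicClosure ℚ) (x : JZero N) :
    jzeroCast h (σ • x) = σ • jzeroCast h x := by
  subst h
  rfl

theorem jzeroCast_heckeOperatorBar {N N' : ℕ} [NeZero N] [NeZero N'] (h : N = N')
    (ℓ : Nat.Primes) (x : JZero N) :
    jzeroCast h (heckeOperatorBar N ℓ x) = heckeOperatorBar N' ℓ (jzeroCast h x) := by
  subst h
  rfl

theorem jzeroCast_rfl {N : ℕ} [NeZero N] (x : JZero N) : jzeroCast (rfl : N = N) x = x :=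
  rfl

end Cast

section Pair

variable (p M' : ℕ) [NeZero M'] [NeZero p] [NeZero (p * M')]

/-- `α_* : J₀(p M') → J₀(M')`, in the level convention of the wall spec. -/
def alphaL : JZero (p * M') →+ JZero M' :=
  (alphaPush M' p).comp (jzeroCast (Nat.mul_comm p M')).toAddMonoidHom

/-- `β_* : J₀(p M') → J₀(M')`, in the level convention of the wall spec. -/
def betaL : JZero (p * M') →+ JZero M' :=
  (betaPush M' p).comp (jzeroCast (Nat.mul_comm p M')).toAddMonoidHom

theorem alphaL_apply (x : JZero (p * M')) :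
    alphaL p M' x = alphaPush M' p (jzeroCast (Nat.mul_comm p M') x) :=
  rfl

theorem betaL_apply (x : JZero (p * M')) :
    betaL p M' x = betaPush M' p (jzeroCast (Nat.mul_comm p M') x) :=
  rfl

theorem alphaL_smul (σ : AlgebraicClosure ℚ ≃ₐ[ℚ] AlgebraicClosure ℚ) (x : JZero (p * M')) :
    alphaL p M' (σ • x) = σ • alphaL p M' x := by
  rw [alphaL_apply, alphaL_apply, jzeroCast_smul, alphaPush_smul]

theorem betaL_smul (σ : AlgebraicClosure ℚ ≃ₐ[ℚ] AlgebraicClosure ℚ) (x : JZero (p * M')) :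
    betaL p M' (σ • x) = σ • betaL p M' x := by
  rw [betaL_apply, betaL_apply, jzeroCast_smul, betaPush_smul]

theorem alphaL_heckeOperatorBar (hp : p.Prime) (ℓ : Nat.Primes) (hne : (ℓ : ℕ) ≠ p)
    (x : JZero (p * M')) :
    alphaL p M' (heckeOperatorBar (p * M') ℓ x) = heckeOperatorBar M' ℓ (alphaL p M' x) := by
  rw [alphaL_apply, alphaL_apply, jzeroCast_heckeOperatorBar,
    alphaPush_heckeOperatorBar M' p hp ℓ hne]

theorem betaL_heckeOperatorBar (hp : p.Prime) (ℓ : Nat.Primes) (hne : (ℓ : ℕ) ≠ p)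
    (x : JZero (p * M')) :
    betaL p M' (heckeOperatorBar (p * M') ℓ x) = heckeOperatorBar M' ℓ (betaL p M' x) := by
  rw [betaL_apply, betaL_apply, jzeroCast_heckeOperatorBar,
    betaPush_heckeOperatorBar M' p hp ℓ hne]

/-- **W-DEG**: `(α_*, β_*)` is a degeneracy pair in the sense of the wall spec, with exceptional
set `S₀ = {p}`. -/
theorem isDegPair_alphaL_betaL (hp : p.Prime) :
    Wall.IsDegPair p M' {p} (alphaL p M') (betaL p M') where
  galois_left := alphaL_smul p M'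
  galois_right := betaL_smul p M'
  hecke_left := fun ℓ hℓ x =>
    alphaL_heckeOperatorBar p M' hp ℓ (fun h => hℓ (Finset.mem_singleton.2 h)) x
  hecke_right := fun ℓ hℓ x =>
    betaL_heckeOperatorBar p M' hp ℓ (fun h => hℓ (Finset.mem_singleton.2 h)) x

end Pair

section Statements

/-- W-DEG as an existence statement (no `NeZero p` instance needed). -/
theorem exists_isDegPair (p M' : ℕ) [NeZero M'] [NeZero (p * M')] (hp : p.Prime) :
    ∃ α β : JZero (p * M') →+ JZero M', Wall.IsDegPair p M' {p} α β := by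
  haveI : NeZero p := ⟨hp.ne_zero⟩
  exact ⟨alphaL p M', betaL p M', isDegPair_alphaL_betaL p M' hp⟩

/-- **(W0)** in the shape used by the wall: an embedded `E[p] ⊂ J₀(pM')` which is not killed by
both degeneracy maps makes the eigensystem occur at level `M'`. -/
theorem occursIn_of_not_killed {E : WeierstrassCurve ℚ} (p M' : ℕ) [NeZero M'] [NeZero p]
    [NeZero (p * M')] (hp : p.Prime) {S : Finset ℕ} {a : ℕ → ℤ}
    (ι : Wall.ETorsion E p →+ JZero (p * M'))
    (hT : ∀ ℓ : Nat.Primes, (ℓ : ℕ) ∉ S → ∀ x : Wall.ETorsion E p,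
      heckeOperatorBar (p * M') ℓ (ι x) = a ℓ • ι x)
    (h : ∃ x, alphaL p M' (ι x) ≠ 0 ∨ betaL p M' (ι x) ≠ 0) :
    OccursIn M' p (S ∪ {p}) a :=
  Wall.occursIn_of_not_new (isDegPair_alphaL_betaL p M' hp) ι hT h

/-- The wall's `NewKernelStatement` is reduced to **(WP)** for the concrete pair
`(alphaL, betaL)`. -/
theorem newKernel_of_WP
    (hWP : ∀ (p M' : ℕ) [NeZero M'] [NeZero p] [NeZero (p * M')], p.Prime → p ≠ 2 → ¬ p ∣ M' →
      Wall.WPFor p M' (alphaL p M') (betaL p M')) :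
    Wall.NewKernelStatement := by
  intro p M' _ _ hp hp2 hpM'
  haveI : NeZero p := ⟨hp.ne_zero⟩
  exact ⟨{p}, alphaL p M', betaL p M', isDegPair_alphaL_betaL p M' hp, hWP p M' hp hp2 hpM'⟩

end Statements

end Fermat.Agent.Ribet.H801

end

end
-- ===== PACK-END Ribet/H801/Deg.lean

-- ===== PACK-BEGIN Ribet/H944/WallTargets.lean
section



/-!
# Row 38, WALL-p: the four targets of the sub-architects and the assembly (W-ASM, helper944)

With the concrete degeneracy pair `(α, β) = (H801.alphaL p M', H801.betaL p M')` (W-DEG, on main)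
the package `Wall.AtPFiltrationFor p M'` is the conjunction, for every place `A` over `p`, of four
statements about two subgroups `𝓕` ("finite part": slopes `0`) and `𝒮` ("split part": slopes
`0` and trivial reductions on both components) of `J₀(pM')(ℚ̄)`:

* `S1For p M' A 𝒮`   — SLOPE+DLOG (helper884): `σ x - x ∈ 𝒮` for `x ∈ J[p]`, `σ ∈ I`;
* `S2For p M' A 𝒮`   — I4 + I5 (helper103): `I` acts through `χ` on the new part of `𝒮`;
* `S3For p M' 𝓕 𝒮`   — I3 (helper764): a new eigenclass in `𝓕 ∖ 𝒮` is lowered;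
* `S4For p M' A 𝓕`   — I6 (helper704): new + non-Eisenstein + ordinary shape + peu ⇒ in `𝓕`.

`atPFiltrationFor_of` assembles them.  The owner of SLOPE+DLOG DEFINES `𝓕` and `𝒮` (as
`AddSubgroup (JZero (p * M'))`, depending on `A`); the other three prove their statement for
these two subgroups.
-/

set_option autoImplicit false
set_option linter.style.haveILetI false

open WeierstrassCurve WeierstrassCurve.Affine WeierstrassCurve.Affine.Point
open CuspForm ModularFormClass UpperHalfPlane ModularCurve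

namespace Fermat.Agent.Ribet.H944.Wall

open Fermat.Agent.Ribet.Spec Fermat.Agent.Ribet.H801

section Targets

variable (p M' : ℕ) [NeZero M'] [NeZero p] [NeZero (p * M')]

/-- `x` is a new `p`-torsion class: `p x = 0`, `α_* x = 0`, `β_* x = 0`. -/
def IsNewTors (x : JZero (p * M')) : Prop :=
  p • x = 0 ∧ alphaL p M' x = 0 ∧ betaL p M' x = 0

/-- **(S1)**  inertia acts trivially on `J[p] / 𝒮`. -/
def S1For (A : ValuationSubring (AlgebraicClosure ℚ)) (𝒮 : AddSubgroup (JZero (p * M'))) :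
    Prop :=
  ∀ x : JZero (p * M'), p • x = 0 → ∀ σ ∈ A.inertiaSubgroupIn ℚ, σ • x - x ∈ 𝒮

/-- **(S2)**  inertia acts through `χ` on the new part of `𝒮`. -/
def S2For (A : ValuationSubring (AlgebraicClosure ℚ)) (𝒮 : AddSubgroup (JZero (p * M'))) :
    Prop :=
  ∀ x ∈ 𝒮, IsNewTors p M' x →
    ∀ σ ∈ A.inertiaSubgroupIn ℚ, ∀ c : ℕ, CycloAt p σ c → σ • x = c • x

/-- **(S3)**  a new Hecke-eigenclass in `𝓕 ∖ 𝒮` has its eigensystem at level `M'`. -/
def S3For (𝓕 𝒮 : AddSubgroup (JZero (p * M'))) : Prop :=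
  ∀ (S : Finset ℕ) (a : ℕ → ℤ), ∀ x ∈ 𝓕, x ∉ 𝒮 → IsNewTors p M' x →
    EigenAt (p * M') S a x → Lowered M' p S a

/-- **(S4) = I6**  new + non-Eisenstein + ordinary shape + peu ramifiée ⇒ in `𝓕`. -/
def S4For (A : ValuationSubring (AlgebraicClosure ℚ)) (𝓕 : AddSubgroup (JZero (p * M'))) :
    Prop :=
  ∀ (S : Finset ℕ) (a : ℕ → ℤ), NonEisAway p a → ∀ x t : JZero (p * M'),
    IsNewTors p M' x → EigenAt (p * M') S a x →
    IsNewTors p M' t → EigenAt (p * M') S a t →
    (∀ σ ∈ A.inertiaSubgroupIn ℚ, ∀ c : ℕ, CycloAt p σ c → σ • t = c • t) →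
    (∀ σ ∈ A.inertiaSubgroupIn ℚ, ∃ n : ℕ, σ • x = x + n • t) →
    (∀ σ : GQ, PeuFixes A p σ → σ • x = x) → x ∈ 𝓕

/-- **W-ASM**: the package at `(p, M')` from the four targets. -/
theorem atPFiltrationFor_of (hp : p.Prime)
    (h : ∀ A : ValuationSubring (AlgebraicClosure ℚ), A.LiesOverPrime p →
      ∃ 𝓕 𝒮 : AddSubgroup (JZero (p * M')),
        S1For p M' A 𝒮 ∧ S2For p M' A 𝒮 ∧ S3For p M' 𝓕 𝒮 ∧ S4For p M' A 𝓕) :
    AtPFiltrationFor p M' := by
  refine ⟨{p}, alphaL p M', betaL p M', isDegPair_alphaL_betaL p M' hp, fun A hA => ?_⟩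
  obtain ⟨𝓕, 𝒮, h1, h2, h3, h4⟩ := h A hA
  refine ⟨𝓕, 𝒮, h1, ?_, ?_, ?_⟩
  · intro x hx hpx hαx hβx
    exact h2 x hx ⟨hpx, hαx, hβx⟩
  · intro S a x hx hxS hpx hαx hβx heig
    exact h3 S a x hx hxS ⟨hpx, hαx, hβx⟩ heig
  · intro S a hNE x t hpx hαx hβx hex hpt hαt hβt het hχ hsh hpeu
    exact h4 S a hNE x t ⟨hpx, hαx, hβx⟩ hex ⟨hpt, hαt, hβt⟩ het hχ hsh hpeu

end Targets

/-- The four targets for all primes `p ≥ 5` (enough for S44). -/
def WallTargets5Statement : Prop :=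
  ∀ (p M' : ℕ) [NeZero M'] [NeZero p] [NeZero (p * M')], p.Prime → 5 ≤ p → ¬ p ∣ M' →
    ∀ A : ValuationSubring (AlgebraicClosure ℚ), A.LiesOverPrime p →
      ∃ 𝓕 𝒮 : AddSubgroup (JZero (p * M')),
        S1For p M' A 𝒮 ∧ S2For p M' A 𝒮 ∧ S3For p M' 𝓕 𝒮 ∧ S4For p M' A 𝓕

/-- The four targets for all odd primes (needed for S40). -/
def WallTargetsStatement : Prop :=
  ∀ (p M' : ℕ) [NeZero M'] [NeZero p] [NeZero (p * M')], p.Prime → p ≠ 2 → ¬ p ∣ M' →
    ∀ A : ValuationSubring (AlgebraicClosure ℚ), A.LiesOverPrime p →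
      ∃ 𝓕 𝒮 : AddSubgroup (JZero (p * M')),
        S1For p M' A 𝒮 ∧ S2For p M' A 𝒮 ∧ S3For p M' 𝓕 𝒮 ∧ S4For p M' A 𝓕

theorem atPFiltration5_of_targets (h : WallTargets5Statement) : AtPFiltration5Statement := by
  intro p M' _ _ hp h5 hpM'
  haveI : NeZero p := ⟨hp.ne_zero⟩
  exact atPFiltrationFor_of p M' hp (h p M' hp h5 hpM')

theorem atPFiltration_of_targets (h : WallTargetsStatement) : AtPFiltrationStatement := by
  intro p M' _ _ hp hp2 hpM'
  haveI : NeZero p := ⟨hp.ne_zero⟩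
  exact atPFiltrationFor_of p M' hp (h p M' hp hp2 hpM')

/-- **S44 from the four targets (`p ≥ 5`), ELOC-ord for the Frey curve and the row inputs.** -/
theorem S44_of_targets5 (hE : EmbedStatement) (hPl : PlacesStatement)
    (hT : WallTargets5Statement) (hEL : ELOCOrdFreyStatement)
    (hNMT : NotMultiplicativeTypeStatement) (hNE : NonEisensteinStatement)
    (hR3 : EigenformOfOccursAwayStatement) (hR3' : AlmostAllToWitnessStatement) :
    S44Statement :=
  S44_of_filtration5 hE hPl (atPFiltration5_of_targets hT) hEL hNMT hNE hR3 hR3'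

/-- **S40 from the four targets (all odd `p`), ELOC-ord (good reduction) and the row inputs.** -/
theorem S40_of_targets (hE : EmbedWStatement) (hPl : PlacesStatement)
    (hT : WallTargetsStatement) (hEL : ELOCOrdGoodStatement)
    (hNMT : NotMultTypeWStatement) (hNE : NonEisWStatement)
    (hR3 : EigenformOfOccursAwayStatement) (hR3' : AlmostAllToWitnessWStatement) :
    S40Statement :=
  S40_of_wall hE (wallGood_of_filtration hPl (atPFiltration_of_targets hT) hEL hNMT hNE)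
    hR3 hR3'

end Fermat.Agent.Ribet.H944.Wall

end
-- ===== PACK-END Ribet/H944/WallTargets.lean

-- ===== PACK-BEGIN Ribet/H403/DetCyc.lean
section








/-!
# RIBET / DETF (helper403): `det ρ̄_{E,p} = ` mod-`p` cyclotomic character, without Weil pairing

`W` an integral Weierstrass curve with `Δ ≠ 0`, `E = W_ℚ`, `p` a prime, `V = E[p](ℚ̄)` with the
Prelude Galois action.  If SOME element of `Gal(ℚ̄/ℚ)` does not act on `V` as a scalar, then
`det (σ | V) = χ_p(σ)` for every `σ`, where `χ_p = cycloPow p` is the mod-`p` cyclotomic character.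

Route: every `σ` agrees on `ℚ(E[p], ζ_p)` with a Frobenius element `τ` at a good prime `ℓ ≥ 5`,
`ℓ ≠ p` (landed `Lib.Cheb.chebotarev`); `τ² - a_ℓ τ + ℓ = 0` on `E[p]` (landed `Lib.Frob`) and
`χ_p(τ) = ℓ`; `dim V = 2` (landed `S59/H127`); conclude with `det_eq_of_forall_quadratic`.
-/

set_option autoImplicit false

open WeierstrassCurve WeierstrassCurve.Affine WeierstrassCurve.Affine.Point

namespace Fermat.Agent.Ribet.H403

/-- `ℚ̄`. -/
abbrev Qb : Type := AlgebraicClosure ℚ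

/-- `Gal(ℚ̄/ℚ)`. -/
abbrev GQ : Type := Qb ≃ₐ[ℚ] Qb

/-- `E[n](ℚ̄)` in the exact Prelude shape. -/
abbrev Tors (E : WeierstrassCurve ℚ) (n : ℕ) : Type :=
  Submodule.torsionBy ℤ (E⁄Qb).Point n

section general

variable (E : WeierstrassCurve ℚ)

theorem isElliptic_baseChange (hΔ : E.Δ ≠ 0) : (E⁄Qb).IsElliptic := by
  constructor
  rw [isUnit_iff_ne_zero]
  show (E.map (algebraMap ℚ Qb)).Δ ≠ 0
  rw [WeierstrassCurve.map_Δ]
  exact (_root_.map_ne_zero _).mpr hΔ

theorem finite_tors (hΔ : E.Δ ≠ 0) (n : ℕ) (hn : 1 ≤ n) : Finite (Tors E n) := by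
  have := isElliptic_baseChange E hΔ
  exact Fermat.Agent.S59.H127.finite_torsion (E⁄Qb) n hn

theorem card_tors (hΔ : E.Δ ≠ 0) (n : ℕ) : Nat.card (Tors E n) = n ^ 2 := by
  have := isElliptic_baseChange E hΔ
  exact Fermat.Agent.S59.H127.card_torsion_eq (E⁄Qb) n

theorem finrank_tors (hΔ : E.Δ ≠ 0) (p : ℕ) [Fact p.Prime] :
    Module.finrank (ZMod p) (Tors E p) = 2 := by
  have hp : p.Prime := Fact.out
  have := finite_tors E hΔ p hp.one_lt.le
  have : Module.Finite (ZMod p) (Tors E p) := Module.Finite.of_finite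
  have h := Module.natCard_eq_pow_finrank (K := ZMod p) (V := Tors E p)
  rw [Nat.card_zmod, card_tors E hΔ] at h
  exact (Nat.pow_right_injective hp.two_le h).symm

/-- A finite set of coordinates controlling the Galois action on `E[n]`. -/
theorem exists_finset_coords (n : ℕ) (hfin : Finite (Tors E n)) :
    ∃ s : Finset Qb, ∀ σ τ : GQ, (∀ x ∈ s, τ x = σ x) → ∀ v : Tors E n, τ • v = σ • v := by
  classical
  have := Fintype.ofFinite (Tors E n)
  let coords : (E⁄Qb).Point → Finset Qb :=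
    fun Q => match Q with
      | .zero => ∅
      | .some x y _ => {x, y}
  refine ⟨Finset.univ.biUnion fun v : Tors E n => coords v.1, fun σ τ hσ v => ?_⟩
  have hv : ∀ x ∈ coords v.1, τ x = σ x := fun x hx =>
    hσ x (Finset.mem_biUnion.2 ⟨v, Finset.mem_univ _, hx⟩)
  apply Subtype.ext
  change Point.map τ.toAlgHom v.1 = Point.map σ.toAlgHom v.1
  rcases hQ : v.1 with _ | ⟨x, y, h⟩
  · rfl
  · rw [hQ] at hv
    have hx : τ x = σ x := hv x (by simp [coords])
    have hy : τ y = σ y := hv y (by simp [coords])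
    rw [Point.map_some, Point.map_some]
    simp only [Point.some.injEq]
    exact ⟨hx, hy⟩

end general

section integral

variable (W : WeierstrassCurve ℤ) (p : ℕ) [Fact p.Prime]

/-- **Quadratic relation.**  Every `σ ∈ Gal(ℚ̄/ℚ)` satisfies `σ² - a σ + χ_p(σ) = 0` on `E[p]`
for some `a ∈ 𝔽_p`. -/
theorem exists_quadratic_rel (hΔ : W.Δ ≠ 0) (σ : GQ) :
    ∃ a : ZMod p, ∀ x : Tors (W.map (Int.castRingHom ℚ)) p,
      σ • (σ • x) - a • (σ • x)
        + ((Fermat.Agent.S55.H414.cycloPow p σ : (ZMod p)ˣ) : ZMod p) • x = 0 := by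
  classical
  have hp : p.Prime := Fact.out
  have hΔQ : (W.map (Int.castRingHom ℚ)).Δ ≠ 0 := by
    rw [WeierstrassCurve.map_Δ]
    simpa using hΔ
  have hfin := finite_tors (W.map (Int.castRingHom ℚ)) hΔQ p hp.one_lt.le
  obtain ⟨s, hs⟩ := exists_finset_coords (W.map (Int.castRingHom ℚ)) p hfin
  -- the finite level
  set ζ := Fermat.Agent.S55.H414.zetaBar p with hζ
  let T : Set Qb := (↑(insert ζ s) : Set Qb)
  have hfd : FiniteDimensional ℚ (IntermediateField.adjoin ℚ T) :=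
    IntermediateField.finiteDimensional_adjoin
      (fun x _ => (AlgebraicClosure.isAlgebraic ℚ).isIntegral.isIntegral x)
  -- Chebotarev
  obtain ⟨ℓ, A, τ, hℓ, hℓS, hA, hτ, -, hτσ⟩ :=
    Fermat.Agent.Lib.Cheb.chebotarev (IntermediateField.adjoin ℚ T) hfd σ
      (insert 2 (insert 3 (insert p W.Δ.natAbs.primeFactors)))
  have hℓ2 : ℓ ≠ 2 := fun h => hℓS (by rw [h]; simp)
  have hℓ3 : ℓ ≠ 3 := fun h => hℓS (by rw [h]; simp)
  have hℓp : ℓ ≠ p := fun h => hℓS (by rw [h]; simp)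
  have hℓΔ : ℓ ∉ W.Δ.natAbs.primeFactors := fun h => hℓS (by simp [h])
  have h5 : 5 ≤ ℓ := by
    have h2 := hℓ.two_le
    by_contra hlt
    have h4 : ℓ = 4 := by omega
    rw [h4] at hℓ
    exact absurd hℓ (by decide)
  have hgood : W.IsGoodPrimeFor ℓ := by
    intro hdvd
    apply hℓΔ
    rw [Nat.mem_primeFactors]
    refine ⟨hℓ, ?_, ?_⟩
    · exact Int.natCast_dvd.mp hdvd
    · simpa using hΔ
  have hℓnp : ¬ ℓ ∣ p := by
    intro h
    rcases (Nat.dvd_prime hp).1 h with h1 | h1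
    · exact hℓ.one_lt.ne' h1
    · exact hℓp h1
  -- agreement of `τ` and `σ`
  have hagree : ∀ x ∈ s, τ x = σ x := fun x hx =>
    hτσ x (IntermediateField.subset_adjoin ℚ T (by simp [T, hx]))
  have hact : ∀ v : Tors (W.map (Int.castRingHom ℚ)) p, τ • v = σ • v := hs σ τ hagree
  have hζT : ζ ∈ IntermediateField.adjoin ℚ T :=
    IntermediateField.subset_adjoin ℚ T (by simp [T])
  -- the cyclotomic character
  have hpv : A.valuation ((p : ℕ) : Qb) = 1 :=
    Fermat.Agent.S55.Bridge.val_prime_eq_one (A := A) hA hℓ hp hℓp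
  have hζp : ζ ^ p = 1 := (Fermat.Agent.S55.H414.zetaBar_spec p).pow_eq_one
  have hτζ : τ ζ = ζ ^ ℓ :=
    Fermat.Agent.S55.H414.IsFrobeniusAt_apply_root hτ hp.ne_zero hpv hζp
  have hσζ : σ ζ = ζ ^ ℓ := by rw [← hτσ ζ hζT, hτζ]
  have hχ : ((Fermat.Agent.S55.H414.cycloPow p σ : (ZMod p)ˣ) : ZMod p) = (ℓ : ZMod p) :=
    Fermat.Agent.S55.H414.coe_cycloPow_of_apply_eq_pow p σ ℓ hσζ
  -- the Frobenius relation
  have hrel := Fermat.Agent.Lib.Frob.frobRelation_of_parts Fermat.Agent.Lib.Frob.frobRelationFin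
    Fermat.Agent.Lib.Frob.reductionData W ℓ hℓ h5 hgood A τ hA hτ p hp.pos hℓnp
  refine ⟨((W.apOfModel ℓ : ℤ) : ZMod p), fun x => ?_⟩
  have hx : (p : ℕ) • (x : ((W.map (Int.castRingHom ℚ))⁄Qb).Point) = 0 := by
    have := x.2
    rw [Submodule.mem_torsionBy_iff] at this
    rw [← natCast_zsmul]
    exact this
  have h1 := hrel x.1 hx
  rw [hχ, ← hact x, ← hact (τ • x)]
  apply Subtype.ext
  rw [Int.cast_smul_eq_zsmul, Nat.cast_smul_eq_nsmul]
  rw [← natCast_zsmul]
  exact h1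


/-- **`det = cyclotomic`** for an integral Weierstrass curve whose mod-`p` image contains a
non-scalar element. -/
theorem det_eq_cycloPow (hΔ : W.Δ ≠ 0)
    (hns : ∃ h : GQ, ¬ ∃ s : ZMod p, ∀ x : Tors (W.map (Int.castRingHom ℚ)) p, h • x = s • x)
    (σ : GQ) :
    LinearMap.det (galoisRepModuleEnd (S := ℚ) (K := Qb) (W.map (Int.castRingHom ℚ)) p σ)
      = ((Fermat.Agent.S55.H414.cycloPow p σ : (ZMod p)ˣ) : ZMod p) := by
  have hp : p.Prime := Fact.out
  have hΔQ : (W.map (Int.castRingHom ℚ)).Δ ≠ 0 := by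
    rw [WeierstrassCurve.map_Δ]
    simpa using hΔ
  have hfin := finite_tors (W.map (Int.castRingHom ℚ)) hΔQ p hp.one_lt.le
  have : Module.Finite (ZMod p) (Tors (W.map (Int.castRingHom ℚ)) p) := Module.Finite.of_finite
  exact det_eq_of_forall_quadratic (finrank_tors (W.map (Int.castRingHom ℚ)) hΔQ p)
    (galoisRepModuleEnd (S := ℚ) (K := Qb) (W.map (Int.castRingHom ℚ)) p)
    (Fermat.Agent.S55.H414.cycloPow p)
    (fun g => exists_quadratic_rel W p hΔ g) hns σ

/-- The same in elementary form: if `σ` raises the `p`-th roots of unity to the `c`-th power then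
`det (σ | E[p]) = c`. -/
theorem det_eq_of_apply_root (hΔ : W.Δ ≠ 0)
    (hns : ∃ h : GQ, ¬ ∃ s : ZMod p, ∀ x : Tors (W.map (Int.castRingHom ℚ)) p, h • x = s • x)
    (σ : GQ) (c : ℕ) (hc : ∀ ζ : Qb, ζ ^ p = 1 → σ ζ = ζ ^ c) :
    LinearMap.det (galoisRepModuleEnd (S := ℚ) (K := Qb) (W.map (Int.castRingHom ℚ)) p σ)
      = (c : ZMod p) := by
  rw [det_eq_cycloPow W p hΔ hns σ]
  exact Fermat.Agent.S55.H414.coe_cycloPow_of_apply_eq_pow p σ c
    (hc _ (Fermat.Agent.S55.H414.zetaBar_spec p).pow_eq_one)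

end integral

end Fermat.Agent.Ribet.H403

end
-- ===== PACK-END Ribet/H403/DetCyc.lean

-- ===== PACK-BEGIN Ribet/H403/DetFrey.lean
section




/-!
# RIBET pieces DETF and NMT (helper403)

* `frey_nonscalar` : for the Frey curve, some element of `Gal(ℚ̄/ℚ)` does not act on `E[p]` as a
  scalar (landed S13 + T7: a scalar image would be reducible, hence have a cofixed line, hence be
  trivial, hence `E[p]` would consist of rational points).
* `frey_det_eq_cycloPow`, `frey_det_eq_of_apply_root` : `det (σ | E[p]) = χ_p(σ)` for ALL `σ`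
  (no irreducibility hypothesis, no Weil pairing).
* `detFrob : Spec.DetFrobStatement` (DETF).
* `notMultiplicativeType : Spec.NotMultiplicativeTypeStatement` (NMT), via landed Minkowski.
-/

set_option autoImplicit false

open WeierstrassCurve WeierstrassCurve.Affine WeierstrassCurve.Affine.Point

namespace Fermat.Agent.Ribet.H403

open Fermat.Agent.S55.H414

variable (P : FreyPackage)

/-! ### The integral Frey curve -/

lemma frey_four_dvd : (4 : ℤ) ∣ P.b ^ P.p - 1 - P.a ^ P.p := by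
  have hp := P.hp5
  have hb : (2 : ℤ) ∣ P.b := (ZMod.intCast_zmod_eq_zero_iff_dvd P.b 2).1 P.hb2
  have hb4 : (4 : ℤ) ∣ P.b ^ P.p := by
    obtain ⟨k, hk⟩ := hb
    obtain ⟨j, hj⟩ : ∃ j, P.p = j + 2 := ⟨P.p - 2, by omega⟩
    have : P.b ^ P.p = 4 * (2 ^ j * k ^ P.p) := by
      rw [hk, hj]
      ring
    exact ⟨_, this⟩
  have ha : ((P.a ^ P.p : ℤ) : ZMod 4) = 3 := by
    push_cast
    rw [P.ha4]
    obtain ⟨m, hm⟩ := P.hp_odd
    rw [hm, pow_succ, pow_mul]
    have : (3 : ZMod 4) ^ 2 = 1 := by decide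
    rw [this, one_pow, one_mul]
  have hb' : ((P.b ^ P.p : ℤ) : ZMod 4) = 0 :=
    (ZMod.intCast_zmod_eq_zero_iff_dvd _ 4).2 hb4
  apply (ZMod.intCast_zmod_eq_zero_iff_dvd _ 4).1
  push_cast at ha hb' ⊢
  rw [ha, hb']
  decide

lemma frey_sixteen_dvd : (16 : ℤ) ∣ -(P.a ^ P.p) * P.b ^ P.p := by
  have hp := P.hp5
  have hb : (2 : ℤ) ∣ P.b := (ZMod.intCast_zmod_eq_zero_iff_dvd P.b 2).1 P.hb2
  obtain ⟨k, hk⟩ := hb
  obtain ⟨j, hj⟩ : ∃ j, P.p = j + 4 := ⟨P.p - 4, by omega⟩
  have : -(P.a ^ P.p) * P.b ^ P.p = 16 * (-(P.a ^ P.p) * (2 ^ j * k ^ P.p)) := by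
    rw [hk, hj]
    ring
  exact ⟨_, this⟩

/-- The Frey curve over `ℚ` is the base change of the integral Frey curve. -/
theorem freyCurve_eq_map_int : P.freyCurve = P.freyCurveInt.map (Int.castRingHom ℚ) := by
  have h4 := frey_four_dvd P
  have h16 := frey_sixteen_dvd P
  ext
  · simp [FreyPackage.freyCurve, FreyPackage.freyCurveInt, WeierstrassCurve.map]
  · simp only [FreyPackage.freyCurve, FreyPackage.freyCurveInt, WeierstrassCurve.map,
      eq_intCast]
    rw [Int.cast_div h4 (by norm_num)]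
    push_cast
    ring
  · simp [FreyPackage.freyCurve, FreyPackage.freyCurveInt, WeierstrassCurve.map]
  · simp only [FreyPackage.freyCurve, FreyPackage.freyCurveInt, WeierstrassCurve.map,
      eq_intCast]
    rw [Int.cast_div h16 (by norm_num)]
    push_cast
    ring
  · simp [FreyPackage.freyCurve, FreyPackage.freyCurveInt, WeierstrassCurve.map]

theorem freyCurveInt_Δ_ne_zero : P.freyCurveInt.Δ ≠ 0 := by
  intro h
  apply Fermat.Agent.S13.H891.freyCurve_Δ_ne_zero P
  rw [freyCurve_eq_map_int, WeierstrassCurve.map_Δ, h, _root_.map_zero]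

/-! ### A non-scalar element -/

/-- For the Frey curve, the image of Galois on `E[p]` is not contained in the scalars. -/
theorem frey_nonscalar :
    ∃ h : GQ, ¬ ∃ s : ZMod P.p, ∀ x : Tors P.freyCurve P.p, h • x = s • x := by
  have : Fact P.p.Prime := ⟨P.pp⟩
  by_contra hcon
  push Not at hcon
  obtain ⟨hnt, hfin, -⟩ := Fermat.Agent.S13.H891.T1_frey P
  have hdim : Module.finrank (ZMod P.p) (Tors P.freyCurve P.p) = 2 :=
    finrank_tors P.freyCurve (Fermat.Agent.S13.H891.freyCurve_Δ_ne_zero P) P.p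
  have : Module.Finite (ZMod P.p) (Tors P.freyCurve P.p) := Module.Finite.of_finite
  -- reducible
  have hred : ¬ GaloisRepIsIrreducible (K := AlgebraicClosure ℚ) ℚ P.freyCurve P.p := by
    rintro ⟨-, hirr⟩
    obtain ⟨x, hx⟩ := exists_ne (0 : Tors P.freyCurve P.p)
    have hst : IsGaloisStable (K := AlgebraicClosure ℚ) ℚ
        (Submodule.span (ZMod P.p) {x}) := by
      intro σ y hy
      obtain ⟨s, hs⟩ := hcon σ
      rw [hs y]
      exact Submodule.smul_mem _ _ hy
    rcases hirr _ hst with h | h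
    · rw [Submodule.span_singleton_eq_bot] at h
      exact hx h
    · have h1 := finrank_span_singleton (K := ZMod P.p) hx
      rw [h, finrank_top, hdim] at h1
      omega
  obtain ⟨N, -, -, htop, hco⟩ := Fermat.Agent.S13.result P hred
  -- the action is trivial
  have htriv : ∀ (σ : GQ) (x : Tors P.freyCurve P.p), σ • x = x := by
    intro σ x
    obtain ⟨s, hs⟩ := hcon σ
    by_cases h1 : s = 1
    · rw [hs, h1, one_smul]
    · exfalso
      apply htop
      rw [eq_top_iff]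
      intro y _
      have hy := hco σ y
      rw [hs y] at hy
      have h2 : s • y - y = (s - 1) • y := by rw [sub_smul, one_smul]
      rw [h2] at hy
      have h3 : y = (s - 1)⁻¹ • ((s - 1) • y) := by
        rw [smul_smul, inv_mul_cancel₀ (sub_ne_zero.2 h1), one_smul]
      rw [h3]
      exact Submodule.smul_mem _ _ hy
  obtain ⟨x, hx⟩ := exists_ne (0 : Tors P.freyCurve P.p)
  exact hx (Fermat.Agent.S13.H13.frey_T7 P x fun σ => htriv σ x)

/-! ### `det = cyclotomic` for the Frey curve -/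

/-- Transport along `E = W_ℚ`. -/
theorem det_eq_cycloPow_of_eq_map (E : WeierstrassCurve ℚ) (W : WeierstrassCurve ℤ)
    (hE : E = W.map (Int.castRingHom ℚ)) (p : ℕ) [Fact p.Prime] (hΔ : W.Δ ≠ 0)
    (hns : ∃ h : GQ, ¬ ∃ s : ZMod p, ∀ x : Tors E p, h • x = s • x) (σ : GQ) :
    LinearMap.det (galoisRepModuleEnd (S := ℚ) (K := Qb) E p σ)
      = ((cycloPow p σ : (ZMod p)ˣ) : ZMod p) := by
  subst hE
  exact det_eq_cycloPow W p hΔ hns σ

/-- **`det ρ̄ = χ_p`** for the Frey curve. -/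
theorem frey_det_eq_cycloPow (σ : GQ) :
    haveI : Fact P.p.Prime := ⟨P.pp⟩
    LinearMap.det (galoisRepModuleEnd (S := ℚ) (K := Qb) P.freyCurve P.p σ)
      = ((cycloPow P.p σ : (ZMod P.p)ˣ) : ZMod P.p) :=
  haveI : Fact P.p.Prime := ⟨P.pp⟩
  det_eq_cycloPow_of_eq_map P.freyCurve P.freyCurveInt (freyCurve_eq_map_int P) P.p
    (freyCurveInt_Δ_ne_zero P) (frey_nonscalar P) σ

/-- Elementary form: if `σ ζ = ζ ^ c` for all `p`-th roots of unity then `det (σ | E[p]) = c`. -/
theorem frey_det_eq_of_apply_root (σ : GQ) (c : ℕ)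
    (hc : ∀ ζ : Qb, ζ ^ P.p = 1 → σ ζ = ζ ^ c) :
    LinearMap.det (galoisRepModuleEnd (S := ℚ) (K := Qb) P.freyCurve P.p σ) = (c : ZMod P.p) := by
  have : Fact P.p.Prime := ⟨P.pp⟩
  rw [frey_det_eq_cycloPow P σ]
  exact coe_cycloPow_of_apply_eq_pow P.p σ c (hc _ (zetaBar_spec P.p).pow_eq_one)

/-! ### DETF -/

/-- **(DETF)** The determinant of a Frobenius at `q ≠ p` on `E[p]` is `q`. -/
theorem detFrob : Fermat.Agent.Ribet.Spec.DetFrobStatement := by
  intro P q hq hqp A hA φ hφ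
  apply frey_det_eq_of_apply_root P φ q
  intro ζ hζ
  exact IsFrobeniusAt_apply_root hφ P.hp0
    (Fermat.Agent.S55.Bridge.val_prime_eq_one (A := A) hA hq P.pp hqp) hζ

/-! ### NMT -/

/-- Every `p`-th root of unity is moved by `σ` as `ζ ↦ ζ ^ χ_p(σ)`. -/
theorem apply_root_eq_pow_cycloPow (p : ℕ) [Fact p.Prime] (σ : GQ) (ζ : Qb) (hζ : ζ ^ p = 1) :
    σ ζ = ζ ^ ((cycloPow p σ : (ZMod p)ˣ) : ZMod p).val := by
  have hp : p.Prime := Fact.out
  obtain ⟨i, -, rfl⟩ := (zetaBar_spec p).eq_pow_of_pow_eq_one hζ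
  rw [map_pow, cycloPow_spec, ← pow_mul, ← pow_mul, mul_comm]

/-- The mod-`p` cyclotomic character is ramified at `p` (`p ≥ 3`): no inertia group at `p` acts
trivially on the `p`-th roots of unity. -/
theorem exists_inertia_cycloPow_ne_one (p : ℕ) [Fact p.Prime] (hp2 : p ≠ 2)
    (A : ValuationSubring Qb) (hA : A.LiesOverPrime p) :
    ∃ σ ∈ A.inertiaSubgroupIn ℚ, cycloPow p σ ≠ 1 := by
  have hp : p.Prime := Fact.out
  by_contra hcon
  push Not at hcon
  have hall : ∀ σ : GQ, cycloPow p σ = 1 := by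
    refine Fermat.Agent.S13.H175.minkowski_character (cycloPow p) ⟨{zetaBar p}, ?_⟩ ?_
    · intro σ hσ
      have h1 : σ (zetaBar p) = zetaBar p ^ 1 := by
        rw [pow_one]
        exact hσ _ (Finset.mem_singleton_self _)
      have h2 := coe_cycloPow_of_apply_eq_pow p σ 1 h1
      apply Units.ext
      rw [h2, Nat.cast_one, Units.val_one]
    · intro q hq
      by_cases hqp : q = p
      · subst hqp
        exact ⟨A, hA, hcon⟩
      · obtain ⟨B, hB⟩ := Fermat.Agent.S54.exists_valuationSubring_liesOver q hq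
        refine ⟨B, hB, fun σ hσ => ?_⟩
        have hv := Fermat.Agent.S55.Bridge.val_prime_eq_one (A := B) hB hq hp hqp
        have h1 := inertia_le_fixingSubgroup_cycloLevel p B hv hσ
        rw [mem_fixingSubgroup_cycloLevel_iff] at h1
        have h2 : σ (zetaBar p) = zetaBar p ^ 1 := by rw [pow_one]; exact h1
        have h3 := coe_cycloPow_of_apply_eq_pow p σ 1 h2
        apply Units.ext
        rw [h3, Nat.cast_one, Units.val_one]
  -- a Frobenius at `2` squares the roots of unity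
  obtain ⟨B, hB⟩ := Fermat.Agent.S54.exists_valuationSubring_liesOver 2 Nat.prime_two
  obtain ⟨φ, hφ⟩ := exists_isFrobeniusAt B 2 Nat.prime_two hB
  have hv := Fermat.Agent.S55.Bridge.val_prime_eq_one (A := B) hB Nat.prime_two hp
    (fun h => hp2 h.symm)
  have h1 : φ (zetaBar p) = zetaBar p ^ 2 :=
    IsFrobeniusAt_apply_root hφ hp.ne_zero hv (zetaBar_spec p).pow_eq_one
  have h2 := coe_cycloPow_of_apply_eq_pow p φ 2 h1
  rw [hall φ, Units.val_one] at h2
  have h3 : ((1 : ℕ) : ZMod p) = ((2 : ℕ) : ZMod p) := by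
    rw [Nat.cast_one]; exact h2
  rw [ZMod.natCast_eq_natCast_iff] at h3
  have h4 : p ∣ 2 - 1 := (Nat.modEq_iff_dvd' (by norm_num)).1 h3
  have h5 : p ∣ 1 := by simpa using h4
  exact hp.one_lt.ne' (Nat.dvd_one.1 h5)

/-- **(NMT)** `E[p]` of the Frey curve is not of multiplicative type at `p`. -/
theorem notMultiplicativeType : Fermat.Agent.Ribet.Spec.NotMultiplicativeTypeStatement := by
  intro P A hA H
  have : Fact P.p.Prime := ⟨P.pp⟩
  have hp2 : P.p ≠ 2 := by have := P.hp5; omega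
  obtain ⟨σ, hσ, hne⟩ := exists_inertia_cycloPow_ne_one P.p hp2 A hA
  apply hne
  set c : ℕ := ((cycloPow P.p σ : (ZMod P.p)ˣ) : ZMod P.p).val with hc
  have hroot : ∀ ζ : Qb, ζ ^ P.p = 1 → σ ζ = ζ ^ c :=
    fun ζ hζ => apply_root_eq_pow_cycloPow P.p σ ζ hζ
  have hsc : ∀ x : Tors P.freyCurve P.p, σ • x = c • x := H σ hσ c hroot
  have hdet := frey_det_eq_of_apply_root P σ c hroot
  have hdim : Module.finrank (ZMod P.p) (Tors P.freyCurve P.p) = 2 :=
    finrank_tors P.freyCurve (Fermat.Agent.S13.H891.freyCurve_Δ_ne_zero P) P.p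
  have hend : galoisRepModuleEnd (S := ℚ) (K := Qb) P.freyCurve P.p σ
      = (c : ZMod P.p) • (LinearMap.id : Tors P.freyCurve P.p →ₗ[ZMod P.p] _) := by
    apply LinearMap.ext
    intro x
    rw [galoisRepModuleEnd_apply, hsc x, LinearMap.smul_apply, LinearMap.id_apply,
      Nat.cast_smul_eq_nsmul]
  rw [hend, LinearMap.det_smul, LinearMap.det_id, mul_one, hdim] at hdet
  have hcu : (c : ZMod P.p) = ((cycloPow P.p σ : (ZMod P.p)ˣ) : ZMod P.p) := by
    rw [hc, ZMod.natCast_zmod_val]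
  have hc0 : (c : ZMod P.p) ≠ 0 := by
    rw [hcu]
    exact Units.ne_zero _
  have hc1 : (c : ZMod P.p) = 1 := by
    have h : (c : ZMod P.p) * (c : ZMod P.p) = (c : ZMod P.p) * 1 := by
      rw [mul_one, ← pow_two]
      exact hdet
    exact mul_left_cancel₀ hc0 h
  apply Units.ext
  rw [← hcu, hc1, Units.val_one]

end Fermat.Agent.Ribet.H403

end
-- ===== PACK-END Ribet/H403/DetFrey.lean

-- ===== PACK-BEGIN Ribet/H52/ElocCore.lean
section







/-!
# Row RIBET, wall at `p`, piece ELOC: the local structure of `E[p]` at `p`, core  (helper52)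

`E` a Weierstrass curve over `ℚ` with `Δ ≠ 0`, `p` an odd prime, `A` a valuation subring of `ℚ̄`
over `p` at which the coefficients of `E` are integral, `E₁ = InKer` the kernel of reduction.

`elocOrdAt_core_h52`: assume
* (det) `det (σ | E[p]) = χ(σ)` for `σ` in the inertia group `I` of `A`;
* (b)   `σ x - x ∈ E₁` for `σ ∈ I` and `x ∈ E[p] ∖ E₁`;
* (η)   for `x ∈ E[p] ∖ E₁`, `η(x) = 2y + a₁x + a₃` has the valuation of a nonzero rational number;
* (ord) `E[p] ⊄ E₁`.
Then `H944.Wall.ELOCOrdAt E p A`: there is a line `⟨t⟩ = E[p] ∩ E₁` on which `I` acts by `χ`, `I`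
acts trivially on `E[p] / ⟨t⟩`, and the peu ramifiée subgroup of `I` acts trivially on `E[p]`.

The last part uses the resolvent criterion `kummer_criterion_h52` and the symmetric difference
formula `val_xC_add_sub_h52`; no formal groups, no division polynomials.
-/

set_option autoImplicit false
set_option linter.unusedSectionVars false
set_option linter.unusedVariables false
set_option linter.style.haveILetI false

open WeierstrassCurve WeierstrassCurve.Affine WeierstrassCurve.Affine.Point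

namespace Fermat.Agent.Ribet.H52

open Fermat.Agent.S05.SameRed
open Fermat.Agent.Ribet.H944.Wall (CycloAt ETorsion PeuFixes ELOCOrdAt)
open Fermat.Agent.Ribet.H403 (Qb GQ)

section basic

variable {E : WeierstrassCurve ℚ} {p : ℕ} {A : ValuationSubring Qb}

theorem xC_smul_h52 (σ : GQ) (P : (E⁄Qb).Point) : xC_h52 (σ • P) = σ (xC_h52 P) := by
  rcases P with _ | ⟨x, y, h⟩
  · exact (map_zero σ).symm
  · rfl

theorem etaC_smul_h52 (σ : GQ) (P : (E⁄Qb).Point) : etaC_h52 (σ • P) = σ (etaC_h52 P) := by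
  rcases P with _ | ⟨x, y, h⟩
  · exact (map_zero σ).symm
  · have h1 : σ ((E⁄Qb).a₁) = (E⁄Qb).a₁ := by
      show σ (algebraMap ℚ Qb E.a₁) = algebraMap ℚ Qb E.a₁
      exact σ.commutes _
    have h3 : σ ((E⁄Qb).a₃) = (E⁄Qb).a₃ := by
      show σ (algebraMap ℚ Qb E.a₃) = algebraMap ℚ Qb E.a₃
      exact σ.commutes _
    show 2 * σ y + (E⁄Qb).a₁ * σ x + (E⁄Qb).a₃ = σ (2 * y + (E⁄Qb).a₁ * x + (E⁄Qb).a₃)
    rw [map_add, map_add, map_mul, map_mul, h1, h3, map_ofNat]

/-- The decomposition group preserves the kernel of reduction. -/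
theorem inKer_smul_h52 {σ : GQ} (hσ : σ ∈ A.decompositionSubgroup ℚ) {P : (E⁄Qb).Point}
    (hP : InKer (E⁄Qb) A.valuation P) : InKer (E⁄Qb) A.valuation (σ • P) := by
  rcases P with _ | ⟨x, y, h⟩
  · exact trivial
  · have : Algebra.IsAlgebraic ℚ Qb := AlgebraicClosure.isAlgebraic ℚ
    show 1 < A.valuation (σ x)
    rw [Fermat.Agent.A2.H708.valuation_apply_of_mem_decomposition A hσ]
    exact hP

theorem coe_smul_h52 (σ : GQ) (x : ETorsion E p) :
    ((σ • x : ETorsion E p) : (E⁄Qb).Point) = σ • (x : (E⁄Qb).Point) := rfl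

/-- `E[p] ∩ E₁` as a `ZMod p`-submodule of `E[p]`. -/
noncomputable def kerTors_h52 (E : WeierstrassCurve ℚ) (p : ℕ) (A : ValuationSubring Qb)
    (hW : IntegralCoeffs (E⁄Qb) A.valuation) : Submodule (ZMod p) (ETorsion E p) :=
  AddSubgroup.toZModSubmodule p
    { carrier := {x | InKer (E⁄Qb) A.valuation (x : (E⁄Qb).Point)}
      zero_mem' := (trivial : InKer (E⁄Qb) A.valuation (0 : (E⁄Qb).Point))
      add_mem' := fun {a b} ha hb =>
        (Fermat.Agent.Lib.Red.H382.inKer_add hW ha hb :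
          InKer (E⁄Qb) A.valuation ((a : (E⁄Qb).Point) + (b : (E⁄Qb).Point)))
      neg_mem' := fun {a} ha =>
        (Fermat.Agent.Lib.Red.H382.inKer_neg ha :
          InKer (E⁄Qb) A.valuation (-(a : (E⁄Qb).Point))) }

theorem mem_kerTors_h52 (hW : IntegralCoeffs (E⁄Qb) A.valuation) (x : ETorsion E p) :
    x ∈ kerTors_h52 E p A hW ↔ InKer (E⁄Qb) A.valuation (x : (E⁄Qb).Point) := Iff.rfl

/-- An element of the peu ramifiée subgroup fixes the `p`-th roots of unity. -/
theorem cycloAt_one_of_peuFixes_h52 (hp : p ≠ 0) {σ : GQ} (hσ : PeuFixes A p σ) :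
    CycloAt p σ 1 := by
  intro ζ hζ
  rw [pow_one]
  have hv : A.valuation ζ = 1 := by
    have h1 : A.valuation ζ ^ p = 1 ^ p := by rw [← map_pow, hζ, map_one, one_pow]
    exact Fermat.Agent.S05.Assemble.pow_eq_pow_imp_eq hp h1
  refine hσ.2 ζ ((A.valuation_le_one_iff ζ).mp hv.le) ?_ ?_
  · apply (A.valuation_le_one_iff _).mp
    rw [map_inv₀, hv, inv_one]
  · intro τ _ _
    rw [hζ, map_one]

end basic

section peu

variable {E : WeierstrassCurve ℚ} {p : ℕ} {A : ValuationSubring Qb}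

/-- The ring endomorphisms of `ℚ̄` given by the inertia elements fixing `μ_p`. -/
def inertiaOne_h52 (A : ValuationSubring Qb) (p : ℕ) : Set (Qb →+* Qb) :=
  {f | ∃ τ : GQ, τ ∈ A.inertiaSubgroupIn ℚ ∧ CycloAt p τ 1 ∧ f = (τ : Qb →+* Qb)}

theorem two_ne_zero_zmod_h52 (hp : p.Prime) (hp2 : p ≠ 2) : (2 : ZMod p) ≠ 0 := by
  intro h
  have h' : ((2 : ℕ) : ZMod p) = 0 := by exact_mod_cast h
  rw [ZMod.natCast_eq_zero_iff] at h'
  have := Nat.le_of_dvd (by norm_num) h'
  have := hp.two_le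
  omega

/-- **PEU.**  The peu ramifiée subgroup acts trivially on `E[p]`, given the line `⟨t⟩ = E[p] ∩ E₁`
fixed by `I₁`, the triviality of `I` on `E[p] / ⟨t⟩` and the rationality of the valuations of
`η` on `E[p] ∖ E₁`. -/
theorem peu_fixes_h52 (hp : p.Prime) (hp2 : p ≠ 2)
    (hW : IntegralCoeffs (E⁄Qb) A.valuation)
    {t : ETorsion E p} (ht0 : t ≠ 0) (htK : t ∈ kerTors_h52 E p A hW)
    (hline : ∀ y ∈ kerTors_h52 E p A hW, ∃ c : ZMod p, y = c • t)
    (ht1 : ∀ τ ∈ A.inertiaSubgroupIn ℚ, CycloAt p τ 1 → τ • t = t)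
    (hb : ∀ τ ∈ A.inertiaSubgroupIn ℚ, ∀ x : ETorsion E p, τ • x - x ∈ kerTors_h52 E p A hW)
    (hη : ∀ x : ETorsion E p, x ∉ kerTors_h52 E p A hW →
      ∃ c : ℚ, c ≠ 0 ∧
        A.valuation (etaC_h52 (x : (E⁄Qb).Point)) = A.valuation (algebraMap ℚ Qb c))
    (x : ETorsion E p) (σ : GQ) (hσ : PeuFixes A p σ) : σ • x = x := by
  classical
  haveI : Fact p.Prime := ⟨hp⟩
  haveI : NeZero p := ⟨hp.ne_zero⟩
  set N := kerTors_h52 E p A hW with hN
  have hσI : σ ∈ A.inertiaSubgroupIn ℚ := hσ.1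
  have hσ1 : CycloAt p σ 1 := cycloAt_one_of_peuFixes_h52 hp.ne_zero hσ
  by_cases hx : x ∈ N
  · obtain ⟨c, rfl⟩ := hline x hx
    rw [smul_comm, ht1 σ hσI hσ1]
  by_contra hne
  -- the action of `I` on `x`
  have hact : ∀ τ ∈ A.inertiaSubgroupIn ℚ, ∃ c : ZMod p, τ • x = x + c • t := by
    intro τ hτ
    obtain ⟨c, hc⟩ := hline _ (hb τ hτ x)
    exact ⟨c, by rw [← hc]; abel⟩
  obtain ⟨c₀, hc₀⟩ := hact σ hσI
  have hc₀0 : c₀ ≠ 0 := by
    rintro rfl
    apply hne
    rw [hc₀, zero_smul, add_zero]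
  -- the family `g`
  set g : ZMod p → Qb := fun k => xC_h52 ((x + k • t : ETorsion E p) : (E⁄Qb).Point) with hg
  have hτg : ∀ τ ∈ A.inertiaSubgroupIn ℚ, CycloAt p τ 1 →
      ∃ c : ZMod p, τ • x = x + c • t ∧ ∀ k, τ (g k) = g (k + c) := by
    intro τ hτ hτ1
    obtain ⟨c, hc⟩ := hact τ hτ
    refine ⟨c, hc, fun k => ?_⟩
    simp only [hg]
    rw [← xC_smul_h52, ← coe_smul_h52, smul_add, smul_comm τ k t, ht1 τ hτ hτ1, hc, add_smul]
    congr 2
    abel
  set H : Set (Qb →+* Qb) := inertiaOne_h52 A p with hH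
  set n : (Qb →+* Qb) → ZMod p := fun f =>
    if h : ∃ c : ZMod p, ∀ k, f (g k) = g (k + c) then h.choose else 0 with hn
  have hgH : ∀ f ∈ H, ∀ k, f (g k) = g (k + n f) := by
    rintro f ⟨τ, hτ, hτ1, rfl⟩ k
    have hex : ∃ c : ZMod p, ∀ k, (τ : Qb →+* Qb) (g k) = g (k + c) := by
      obtain ⟨c, -, hc⟩ := hτg τ hτ hτ1
      exact ⟨c, hc⟩
    simp only [hn, dif_pos hex]
    exact hex.choose_spec k
  obtain ⟨ζ, hζ⟩ := HasEnoughRootsOfUnity.exists_primitiveRoot Qb p
  have hζH : ∀ f ∈ H, f ζ = ζ := by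
    rintro f ⟨τ, -, hτ1, rfl⟩
    have := hτ1 ζ hζ.pow_eq_one
    rwa [pow_one] at this
  have hσH : (σ : Qb →+* Qb) ∈ H := ⟨σ, hσI, hσ1, rfl⟩
  -- `g (n σ) = x (σ x) = x (x + c₀ t)`
  have hgσ : g (n (σ : Qb →+* Qb)) = g c₀ := by
    have h1 := hgH _ hσH 0
    rw [zero_add] at h1
    rw [← h1]
    obtain ⟨c, hc, hcg⟩ := hτg σ hσI hσ1
    have h2 := hcg 0
    rw [zero_add] at h2
    have hcc : c = c₀ := by
      have h3 : c • t = c₀ • t := add_left_cancel (hc.symm.trans hc₀)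
      by_contra hcc
      have h4 : (c - c₀) • t = 0 := by rw [sub_smul, h3, sub_self]
      rcases smul_eq_zero.mp h4 with h | h
      · exact hcc (sub_eq_zero.mp h)
      · exact ht0 h
    rw [← hcc]
    exact h2
  -- the points `Q = x + S`, `S = (c₀ / 2) t`
  have h2 : (2 : ZMod p) ≠ 0 := two_ne_zero_zmod_h52 hp hp2
  set S : ETorsion E p := (c₀ / 2) • t with hS
  set Q : ETorsion E p := x + S with hQ
  have hSN : S ∈ N := N.smul_mem _ htK
  have hS0 : S ≠ 0 := smul_ne_zero (div_ne_zero hc₀0 h2) ht0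
  have hQN : Q ∉ N := by
    intro h
    apply hx
    have := N.sub_mem h hSN
    rwa [hQ, add_sub_cancel_right] at this
  have hSS : S + S = c₀ • t := by
    rw [hS, ← add_smul]
    congr 1
    field_simp
    ring
  have hQS : Q + S = x + c₀ • t := by rw [hQ, add_assoc, hSS]
  have hQS' : Q - S = x := by rw [hQ, add_sub_cancel_right]
  have key : g c₀ - g 0 =
      xC_h52 ((Q : (E⁄Qb).Point) + (S : (E⁄Qb).Point)) -
        xC_h52 ((Q : (E⁄Qb).Point) - (S : (E⁄Qb).Point)) := by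
    simp only [hg]
    rw [zero_smul, add_zero, ← hQS, Submodule.coe_add]
    conv_lhs => rw [← hQS', Submodule.coe_sub]
  have hSpt0 : (S : (E⁄Qb).Point) ≠ 0 := fun h => hS0 (Subtype.ext h)
  have hval := val_xC_add_sub_h52 (v := A.valuation) (Q := (Q : (E⁄Qb).Point))
    (S := (S : (E⁄Qb).Point)) hQN hSN hSpt0
  -- rationality of the three factors
  obtain ⟨c, hc0, hcv⟩ := hη Q hQN
  have hrQ : RatVal_h52 A.valuation H (etaC_h52 (Q : (E⁄Qb).Point)) :=
    ⟨algebraMap ℚ Qb c, (_root_.map_ne_zero _).mpr hc0, by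
      rintro f ⟨τ, -, -, rfl⟩
      exact τ.commutes c, hcv⟩
  have hSfix : ∀ τ ∈ A.inertiaSubgroupIn ℚ, CycloAt p τ 1 →
      τ • (S : (E⁄Qb).Point) = (S : (E⁄Qb).Point) := by
    intro τ hτ hτ1
    rw [← coe_smul_h52, hS, smul_comm, ht1 τ hτ hτ1]
  have hηS0 : etaC_h52 (S : (E⁄Qb).Point) ≠ 0 := by
    rw [Ne, etaC_eq_zero_iff_h52]
    intro h
    have h' : S + S = 0 := Subtype.ext (by rw [Submodule.coe_add, h]; rfl)
    rw [hSS] at h'
    rcases smul_eq_zero.mp h' with h'' | h''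
    · exact hc₀0 h''
    · exact ht0 h''
  have hrS : RatVal_h52 A.valuation H (etaC_h52 (S : (E⁄Qb).Point)) := by
    refine ratVal_of_fixed_h52 hηS0 ?_
    rintro f ⟨τ, hτ, hτ1, rfl⟩
    show τ (etaC_h52 (S : (E⁄Qb).Point)) = _
    rw [← etaC_smul_h52, hSfix τ hτ hτ1]
  have hxS0 : xC_h52 (S : (E⁄Qb).Point) ≠ 0 := by
    intro h
    have hin : InKer (E⁄Qb) A.valuation (S : (E⁄Qb).Point) := hSN
    rcases hSc : (S : (E⁄Qb).Point) with _ | ⟨xs, ys, hs⟩
    · exact hSpt0 hSc
    · rw [hSc] at hin h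
      have h1 : (1 : A.ValueGroup) < A.valuation xs := hin
      rw [xC_some_h52] at h
      rw [h, _root_.map_zero] at h1
      exact not_lt_zero h1
  have hrX : RatVal_h52 A.valuation H (xC_h52 (S : (E⁄Qb).Point)) := by
    refine ratVal_of_fixed_h52 hxS0 ?_
    rintro f ⟨τ, hτ, hτ1, rfl⟩
    show τ (xC_h52 (S : (E⁄Qb).Point)) = _
    rw [← xC_smul_h52, hSfix τ hτ hτ1]
  have hrat : RatVal_h52 A.valuation H (g (n (σ : Qb →+* Qb)) - g 0) := by
    refine ratVal_congr_h52 ?_ ((hrQ.mul hrS).div (hrX.pow 2))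
    rw [hgσ, key, hval, map_div₀, map_mul, map_pow]
  have hne' : g (n (σ : Qb →+* Qb)) ≠ g 0 := fun h => hrat.ne_zero (sub_eq_zero.mpr h)
  obtain ⟨y, hy1, hyp, hyσ⟩ :=
    kummer_criterion_h52 A.valuation hp H hζ hζH g n hgH (σ : Qb →+* Qb) hσH hne' hrat
  apply hyσ
  refine hσ.2 y ((A.valuation_le_one_iff y).mp hy1.le) ?_ ?_
  · apply (A.valuation_le_one_iff _).mp
    rw [map_inv₀, hy1, inv_one]
  · intro τ hτ hτ1
    exact hyp (τ : Qb →+* Qb) ⟨τ, hτ, hτ1, rfl⟩

end peu

section core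

variable {E : WeierstrassCurve ℚ} {p : ℕ} {A : ValuationSubring Qb}

/-- **ELOC, core.**  The local structure of `E[p]` at `A` (line, trivial quotient, peu ramifiée)
from the determinant, the same-reduction property (b), the rationality of `v η` and the existence
of an integral `p`-torsion point. -/
theorem elocOrdAt_core_h52 (hΔ : E.Δ ≠ 0) (hp : p.Prime) (hp2 : p ≠ 2) (hA : A.LiesOverPrime p)
    (hW : IntegralCoeffs (E⁄Qb) A.valuation)
    (hdet : ∀ σ ∈ A.inertiaSubgroupIn ℚ, ∀ c : ℕ, CycloAt p σ c →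
      LinearMap.det (galoisRepModuleEnd (S := ℚ) (K := Qb) E p σ) = (c : ZMod p))
    (hb : ∀ σ ∈ A.inertiaSubgroupIn ℚ, ∀ x : ETorsion E p, x ∉ kerTors_h52 E p A hW →
      σ • x - x ∈ kerTors_h52 E p A hW)
    (hη : ∀ x : ETorsion E p, x ∉ kerTors_h52 E p A hW →
      ∃ c : ℚ, c ≠ 0 ∧
        A.valuation (etaC_h52 (x : (E⁄Qb).Point)) = A.valuation (algebraMap ℚ Qb c))
    (hord : ∃ x : ETorsion E p, x ∉ kerTors_h52 E p A hW) :
    ELOCOrdAt E p A := by
  classical
  haveI : Fact p.Prime := ⟨hp⟩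
  set N := kerTors_h52 E p A hW with hN
  have h2 : Module.finrank (ZMod p) (ETorsion E p) = 2 :=
    Fermat.Agent.Ribet.H403.finrank_tors E hΔ p
  -- `I` preserves `N` and acts trivially on `E[p] / N`
  have hstab : ∀ σ ∈ A.inertiaSubgroupIn ℚ, ∀ x ∈ N, σ • x ∈ N := fun σ hσ x hx =>
    inKer_smul_h52 (Fermat.Agent.A2.H708.mem_decomposition_of_mem_inertiaIn A hσ) hx
  have hb' : ∀ σ ∈ A.inertiaSubgroupIn ℚ, ∀ x : ETorsion E p, σ • x - x ∈ N := by
    intro σ hσ x
    by_cases hx : x ∈ N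
    · exact N.sub_mem (hstab σ hσ x hx) hx
    · exact hb σ hσ x hx
  obtain ⟨x₀, hx₀⟩ := hord
  have hNtop : N ≠ ⊤ := fun h => hx₀ (h ▸ Submodule.mem_top)
  -- `N ≠ ⊥` since the cyclotomic character is ramified at `p`
  have hNbot : N ≠ ⊥ := by
    intro hbot
    obtain ⟨σ, hσ, hχ⟩ := Fermat.Agent.Ribet.H403.exists_inertia_cycloPow_ne_one p hp2 A hA
    apply hχ
    have htriv : ∀ x : ETorsion E p, σ • x = x := by
      intro x
      have := hb' σ hσ x
      rw [hbot, Submodule.mem_bot, sub_eq_zero] at this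
      exact this
    have hd := hdet σ hσ _
      (fun ζ hζ => Fermat.Agent.Ribet.H403.apply_root_eq_pow_cycloPow p σ ζ hζ)
    have hid : galoisRepModuleEnd (S := ℚ) (K := Qb) E p σ = LinearMap.id := by
      apply LinearMap.ext
      intro x
      rw [galoisRepModuleEnd_apply, htriv x, LinearMap.id_apply]
    rw [hid, LinearMap.det_id, ZMod.natCast_zmod_val] at hd
    exact Units.ext hd.symm
  obtain ⟨t, htN, ht0⟩ := (Submodule.ne_bot_iff N).mp hNbot
  have hline : ∀ y ∈ N, ∃ c : ZMod p, y = c • t := fun y hy =>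
    exists_smul_eq_of_mem_line_h52 h2 N hNtop htN ht0 hy
  have hx₀t : ∀ c : ZMod p, x₀ ≠ c • t := fun c h => hx₀ (h ▸ N.smul_mem c htN)
  -- (a) `I` acts on `t` through `χ`
  have ha : ∀ σ ∈ A.inertiaSubgroupIn ℚ, ∀ c : ℕ, CycloAt p σ c → σ • t = c • t := by
    intro σ hσ c hc
    obtain ⟨a, ha⟩ := hline _ (hstab σ hσ t htN)
    obtain ⟨m, hm⟩ := hline _ (hb' σ hσ x₀)
    have hfx : galoisRepModuleEnd (S := ℚ) (K := Qb) E p σ x₀ = x₀ + m • t := by
      rw [galoisRepModuleEnd_apply, ← hm]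
      abel
    have hft : galoisRepModuleEnd (S := ℚ) (K := Qb) E p σ t = a • t := by
      rw [galoisRepModuleEnd_apply, ha]
    have hd := det_eq_of_triangular_h52 h2 _ ht0 hx₀t hft hfx
    rw [hdet σ hσ c hc] at hd
    rw [ha, ← hd, Nat.cast_smul_eq_nsmul]
  refine ⟨t, ha, ?_, ?_⟩
  · intro x σ hσ
    obtain ⟨c, hc⟩ := hline _ (hb' σ hσ x)
    refine ⟨c.val, ?_⟩
    rw [← Nat.cast_smul_eq_nsmul (ZMod p), ZMod.natCast_zmod_val, ← hc]
    abel
  · intro x σ hσ
    exact peu_fixes_h52 hp hp2 hW ht0 htN hline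
      (fun τ hτ hτ1 => by rw [ha τ hτ 1 hτ1, one_smul]) hb' hη x σ hσ

end core

end Fermat.Agent.Ribet.H52

end
-- ===== PACK-END Ribet/H52/ElocCore.lean

-- ===== PACK-BEGIN Ribet/H109/Line.lean
section





/-!
# Row 38, WALL-p, leaf ELOC-ord / LINE (helper109)

`elocLine : Fermat.Agent.Ribet.H375.ELOCLineStatement`.

`W` an integral Weierstrass curve with good reduction at the odd prime `p`, `E[p]` irreducible,
`A` a valuation ring of `ℚ̄` over `p`, `I` its inertia group.  The points of `E[p]` in the kernel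
of reduction form a subspace `L` (`Lib/Red`), proper by hypothesis, hence `L = ⟨t⟩`
(`dim E[p] = 2`).  Inertia moves points only inside `L` (`S12.H411`), so `σ t = det(σ) t`
(linear algebra, `LineLin.lean`) and `det = χ` (`H403`).
-/

set_option autoImplicit false
set_option linter.unusedSectionVars false
set_option linter.style.haveILetI false

open WeierstrassCurve WeierstrassCurve.Affine WeierstrassCurve.Affine.Point

namespace Fermat.Agent.Ribet.H109

open Fermat.Agent.Ribet.Spec Fermat.Agent.Ribet.H944.Wall Fermat.Agent.Ribet.H375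
open Fermat.Agent.S05.SameRed (InKer IntegralCoeffs)
open Fermat.Agent.Lib.Red.H290 Fermat.Agent.S15.H242

/-- An irreducible `E[p]` of rank two has a non-scalar element in its Galois image. -/
theorem nonscalar_of_irreducible_h109 (E : WeierstrassCurve ℚ) (hΔ : E.Δ ≠ 0) (p : ℕ)
    [Fact p.Prime]
    (hirr : GaloisRepIsIrreducible (K := AlgebraicClosure ℚ) ℚ E p) :
    ∃ h : Fermat.Agent.Ribet.H403.GQ,
      ¬ ∃ s : ZMod p, ∀ x : Fermat.Agent.Ribet.H403.Tors E p, h • x = s • x := by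
  by_contra hcon
  push Not at hcon
  have hdim : Module.finrank (ZMod p) (Fermat.Agent.Ribet.H403.Tors E p) = 2 :=
    Fermat.Agent.Ribet.H403.finrank_tors E hΔ p
  obtain ⟨hnt, hirr'⟩ := hirr
  obtain ⟨x, hx⟩ := exists_ne (0 : Fermat.Agent.Ribet.H403.Tors E p)
  have hst : IsGaloisStable (K := AlgebraicClosure ℚ) ℚ
      (Submodule.span (ZMod p) {x}) := by
    intro σ y hy
    obtain ⟨s, hs⟩ := hcon σ
    rw [hs y]
    exact Submodule.smul_mem _ _ hy
  rcases hirr' _ hst with h | h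
  · rw [Submodule.span_singleton_eq_bot] at h
    exact hx h
  · have h1 := finrank_span_singleton (K := ZMod p) hx
    rw [h, finrank_top, hdim] at h1
    omega

section Ker

variable (W : WeierstrassCurve ℤ) (p : ℕ) [Fact p.Prime]
  (A : ValuationSubring (AlgebraicClosure ℚ))

theorem integralCoeffs_h109 :
    IntegralCoeffs ((W.map (Int.castRingHom ℚ))⁄(AlgebraicClosure ℚ)) A.valuation :=
  (isRedOf_int A W (IsLocalRing.residue A)).integralCoeffs

theorem inE1_nsmul (n : ℕ) {x : ETorsion (W.map (Int.castRingHom ℚ)) p}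
    (hx : InE1 (W.map (Int.castRingHom ℚ)) p A x) :
    InE1 (W.map (Int.castRingHom ℚ)) p A (n • x) := by
  induction n with
  | zero =>
    rw [zero_smul]
    exact Fermat.Agent.S05.SameRed.inKer_zero
  | succ n ih =>
    rw [succ_nsmul]
    exact inKer_add (integralCoeffs_h109 W A) ih hx

/-- The points of `E[p]` in the kernel of reduction, as a subspace. -/
def redKer : Submodule (ZMod p) (ETorsion (W.map (Int.castRingHom ℚ)) p) where
  carrier := {x | InE1 (W.map (Int.castRingHom ℚ)) p A x}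
  add_mem' := fun {a b} ha hb => by
    show InE1 (W.map (Int.castRingHom ℚ)) p A (a + b)
    exact inKer_add (integralCoeffs_h109 W A) ha hb
  zero_mem' := by
    show InE1 (W.map (Int.castRingHom ℚ)) p A 0
    exact Fermat.Agent.S05.SameRed.inKer_zero
  smul_mem' := fun c x hx => by
    have h1 : c • x = c.val • x := by
      rw [← Nat.cast_smul_eq_nsmul (ZMod p), ZMod.natCast_zmod_val]
    show InE1 (W.map (Int.castRingHom ℚ)) p A (c • x)
    rw [h1]
    exact inE1_nsmul W p A c.val hx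

theorem mem_redKer {x : ETorsion (W.map (Int.castRingHom ℚ)) p} :
    x ∈ redKer W p A ↔ InE1 (W.map (Int.castRingHom ℚ)) p A x := Iff.rfl

end Ker

/-- **Leaf LINE of ELOC-ord.** -/
theorem elocLine : Fermat.Agent.Ribet.H375.ELOCLineStatement := by
  classical
  intro W p hΔ hp hp2 hgood hirr A hA hex
  haveI : Fact p.Prime := ⟨hp⟩
  obtain ⟨x₀, hx₀⟩ := hex
  have hΔQ : (W.map (Int.castRingHom ℚ)).Δ ≠ 0 := by
    rw [WeierstrassCurve.map_Δ]
    simpa using hΔ
  have h2 : Module.finrank (ZMod p) (ETorsion (W.map (Int.castRingHom ℚ)) p) = 2 :=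
    Fermat.Agent.Ribet.H403.finrank_tors (W.map (Int.castRingHom ℚ)) hΔQ p
  haveI := Fermat.Agent.Ribet.H403.finite_tors (W.map (Int.castRingHom ℚ)) hΔQ p hp.one_lt.le
  haveI : Module.Finite (ZMod p) (ETorsion (W.map (Int.castRingHom ℚ)) p) :=
    Module.Finite.of_finite
  have hL : redKer W p A ≠ ⊤ := by
    intro htop
    apply hx₀
    rw [← mem_redKer, htop]
    exact Submodule.mem_top
  obtain ⟨t, ht, hgen⟩ := exists_generator_of_ne_top h2 (redKer W p A) hL
  -- inertia moves points inside the kernel of reduction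
  have hred := isRedOf_int A W (IsLocalRing.residue A)
  have hφ : KerMax A (IsLocalRing.residue A) := kerMax_residue A
  have hΔκ := Fermat.Agent.S12.H411.Δ_residue_ne_zero W hp A hA hgood
  have hI : ∀ σ ∈ A.inertiaSubgroupIn ℚ, ∀ x : ETorsion (W.map (Int.castRingHom ℚ)) p,
      σ • x - x ∈ redKer W p A := by
    intro σ hσ x
    rw [mem_redKer]
    exact Fermat.Agent.S12.H411.inKer_smul_sub_of_mem_inertia hred hφ hΔκ hσ
      (x : ((W.map (Int.castRingHom ℚ))⁄(AlgebraicClosure ℚ)).Point)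
  have hnat : ∀ (c : ZMod p) (y : ETorsion (W.map (Int.castRingHom ℚ)) p),
      c • y = c.val • y := by
    intro c y
    rw [← Nat.cast_smul_eq_nsmul (ZMod p), ZMod.natCast_zmod_val]
  refine ⟨t, ht, ?_, ?_, ?_⟩
  · -- `σ t = χ(σ) t`
    intro σ hσ c hc
    have hns := nonscalar_of_irreducible_h109 (W.map (Int.castRingHom ℚ)) hΔQ p hirr
    have hdet := Fermat.Agent.Ribet.H403.det_eq_of_apply_root W p hΔ hns σ c hc
    have h := apply_eq_det_smul_of_sub_mem h2
      (galoisRepModuleEnd (S := ℚ) (K := AlgebraicClosure ℚ) (W.map (Int.castRingHom ℚ)) p σ)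
      (redKer W p A) hL t hgen (fun x => hI σ hσ x)
    rw [hdet, galoisRepModuleEnd_apply, Nat.cast_smul_eq_nsmul] at h
    exact h
  · -- `σ x = x + n t`
    intro x σ hσ
    obtain ⟨c, hc⟩ := hgen _ (hI σ hσ x)
    refine ⟨c.val, ?_⟩
    rw [← hnat, ← hc]
    abel
  · -- the kernel of reduction is `⟨t⟩`
    intro x hx
    obtain ⟨c, hc⟩ := hgen x hx
    exact ⟨c.val, by rw [← hnat]; exact hc⟩

end Fermat.Agent.Ribet.H109

end
-- ===== PACK-END Ribet/H109/Line.lean

-- ===== PACK-BEGIN Ribet/H523/NonEisenstein.lean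
section










/-!
# RIBET, piece NE (helper523): `NonEisensteinStatement`, UNCONDITIONAL

`nonEisenstein : Spec.NonEisensteinStatement`: for a Frey package `P` with irreducible `E[p]`, an
integral model `W` of the Frey curve and a finite set `S`, there is a prime `ℓ ∉ S` of good
reduction of `W` with `a_ℓ(W) ≢ ℓ + 1 mod p`.

More generally (`exists_prime_not_eisenstein`): the same for every elliptic curve `E` over `ℚ`
with an integral model `W` and every prime `p` with `E[p]` irreducible.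

Proof.  Otherwise every Frobenius `τ` at a good prime `ℓ ≥ 5`, `ℓ ∉ S`, `ℓ ≠ p` satisfies
`(τ - 1)(τ - ℓ) = 0` on `E[p]` (Frobenius relation `τ² - a_ℓ τ + ℓ = 0`, `Lib/Frob`), and
`ℓ = χ(τ)` for the mod `p` cyclotomic character `χ` (`S55/H414`).  By Chebotarev (`Lib/Cheb`,
Tier 2) every `σ ∈ G_ℚ` satisfies `(σ - 1)(σ - χ(σ)) = 0` on `E[p]`, and
`exists_stable_line_of_character` gives a stable line.  Neither the Weil pairing (`det = χ`) nor
the trace formula is needed.
-/

set_option autoImplicit false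

open WeierstrassCurve WeierstrassCurve.Affine WeierstrassCurve.Affine.Point

namespace Fermat.Agent.Ribet.H523

/-- `ℚ̄`. -/
abbrev Qb : Type := AlgebraicClosure ℚ

/-- `Gal(ℚ̄/ℚ)`. -/
abbrev GQ : Type := Qb ≃ₐ[ℚ] Qb

/-- **Frobenius relation on `E(ℚ̄)`** for an elliptic curve `E` over `ℚ` with integral model `W`:
transport of `Lib/Frob`'s `FrobRelation` (which lives on the points of `W`) along the change of
variables. -/
theorem frobRelation_of_isIntegralModelOf (E : WeierstrassCurve ℚ) (W : WeierstrassCurve ℤ)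
    (hW : W.IsIntegralModelOf E) (ℓ : ℕ) (hℓ : ℓ.Prime) (h5 : 5 ≤ ℓ) (hgood : W.IsGoodPrimeFor ℓ)
    (A : ValuationSubring Qb) (τ : GQ) (hA : A.LiesOverPrime ℓ) (hτ : A.IsFrobeniusAt τ ℓ)
    (n : ℕ) (hn : 0 < n) (hℓn : ¬ ℓ ∣ n) (Q : (E⁄Qb).Point) (hQ : n • Q = 0) :
    τ • τ • Q - W.apOfModel ℓ • τ • Q + (ℓ : ℤ) • Q = 0 := by
  obtain ⟨C, hC⟩ := hW
  have hrel := Fermat.Agent.Lib.Frob.frobRelation_of_parts Fermat.Agent.Lib.Frob.frobRelationFin
    Fermat.Agent.Lib.Frob.reductionData W ℓ hℓ h5 hgood A τ hA hτ n hn hℓn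
  have key : ∀ (W' : WeierstrassCurve ℚ), C • E = W' →
      (∀ P : (W'⁄Qb).Point, n • P = 0 →
        τ • τ • P - W.apOfModel ℓ • τ • P + (ℓ : ℤ) • P = 0) →
      τ • τ • Q - W.apOfModel ℓ • τ • Q + (ℓ : ℤ) • Q = 0 := by
    intro W' hW' hP
    subst hW'
    have h1 := hP ((Fermat.Agent.Lib.VC.vcPointBC E C Qb).symm Q) (by
      rw [← map_nsmul, hQ, _root_.map_zero])
    have h2 := congrArg (Fermat.Agent.Lib.VC.vcPointBC E C Qb) h1
    simp only [map_add, map_sub, map_zsmul, _root_.map_zero, algEquiv_smul_def] at h2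
    rw [← Fermat.Agent.Lib.VC.map_vcPointBC, ← Fermat.Agent.Lib.VC.map_vcPointBC,
      AddEquiv.apply_symm_apply] at h2
    exact h2
  exact key _ hC hrel

section relation

open Fermat.Agent.S55.H414 Fermat.Agent.S55.Bridge

variable (E : WeierstrassCurve ℚ) (p : ℕ) [Fact p.Prime]

/-- The mod `p` cyclotomic character of `G_ℚ`, with values in the multiplicative monoid of
`𝔽_p`. -/
noncomputable def chiBar : GQ →* ZMod p :=
  (Units.coeHom (ZMod p)).comp (cycloPow p)

theorem chiBar_apply (σ : GQ) : chiBar p σ = ((cycloPow p σ : (ZMod p)ˣ) : ZMod p) := rfl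

/-- The integral model of an elliptic curve has nonzero discriminant. -/
theorem Δ_ne_zero_of_isIntegralModelOf {E : WeierstrassCurve ℚ} (hE : E.Δ ≠ 0)
    {W : WeierstrassCurve ℤ} (hW : W.IsIntegralModelOf E) : W.Δ ≠ 0 := by
  obtain ⟨C, hC⟩ := hW
  intro h0
  have h1 : (W.map (Int.castRingHom ℚ)).Δ = 0 := by
    rw [WeierstrassCurve.map_Δ, h0, _root_.map_zero]
  rw [← hC, WeierstrassCurve.variableChange_Δ] at h1
  rcases mul_eq_zero.mp h1 with h | h
  · exact (pow_ne_zero 12 (Units.ne_zero C.u⁻¹)) h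
  · exact hE h

/-- **Eisenstein relation.**  If `a_ℓ(W) ≡ ℓ + 1 mod p` for all good primes `ℓ ∉ S`, then every
`σ ∈ G_ℚ` satisfies `(σ - 1)(σ - χ(σ)) = 0` on `E[p]`. -/
theorem sub_one_mul_sub_chiBar_eq_zero [(E⁄Qb).IsElliptic] (W : WeierstrassCurve ℤ)
    (hW : W.IsIntegralModelOf E) (hWΔ : W.Δ ≠ 0) (S : Finset ℕ)
    (hEis : ∀ ℓ : ℕ, ℓ.Prime → ℓ ∉ S → W.IsGoodPrimeFor ℓ →
      (p : ℤ) ∣ W.apOfModel ℓ - (ℓ + 1)) (σ : GQ) :
    (galoisRepModuleEnd (K := Qb) ℚ E p σ - 1) *
      (galoisRepModuleEnd (K := Qb) ℚ E p σ -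
        chiBar p σ • (1 : Module.End (ZMod p) (Submodule.torsionBy ℤ (E⁄Qb).Point p))) = 0 := by
  have hp : p.Prime := Fact.out
  obtain ⟨L, hLfin, hL⟩ := Fermat.Agent.S59.H127.exists_finite_level E p hp.one_le
  have := hLfin
  have hEfin : FiniteDimensional ℚ ↥(L ⊔ cycloLevel p) :=
    IntermediateField.finiteDimensional_sup L (cycloLevel p)
  obtain ⟨ℓ, A, τ, hℓ, hℓS, hA, hτ, -, hτσ⟩ :=
    Fermat.Agent.Lib.Cheb.chebotarev (L ⊔ cycloLevel p) hEfin σ
      (S ∪ {2, 3, p} ∪ W.Δ.natAbs.primeFactors)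
  simp only [Finset.mem_union, Finset.mem_insert, Finset.mem_singleton, not_or] at hℓS
  obtain ⟨⟨hℓS, hℓ2, hℓ3, hℓp⟩, hℓΔ⟩ := hℓS
  have h5 : 5 ≤ ℓ := by
    have h2 := hℓ.two_le
    by_contra hlt
    have h4 : ℓ = 4 := by omega
    rw [h4] at hℓ
    exact absurd hℓ (by decide)
  have hgood : W.IsGoodPrimeFor ℓ := by
    intro hdvd
    apply hℓΔ
    rw [Nat.mem_primeFactors]
    exact ⟨hℓ, Int.natCast_dvd.mp hdvd, Int.natAbs_ne_zero.mpr hWΔ⟩
  -- `τ` and `σ` agree on the `p`-torsion points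
  have hpt : ∀ P : (E⁄Qb).Point, p • P = 0 → τ • P = σ • P := by
    intro P hP
    have h1 : (σ⁻¹ * τ) • P = P := by
      refine hL (σ⁻¹ * τ) (fun x hx => ?_) P hP
      rw [AlgEquiv.mul_apply, hτσ x (le_sup_left (a := L) hx)]
      exact σ.symm_apply_apply x
    calc τ • P = σ • (σ⁻¹ * τ) • P := by rw [smul_smul, mul_inv_cancel_left]
      _ = σ • P := by rw [h1]
  have hmem : ∀ x : Submodule.torsionBy ℤ (E⁄Qb).Point p, p • (x : (E⁄Qb).Point) = 0 := by
    intro x
    have := x.2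
    rw [Submodule.mem_torsionBy_iff] at this
    rw [← natCast_zsmul]
    exact this
  have hρ : galoisRepModuleEnd (K := Qb) ℚ E p σ = galoisRepModuleEnd (K := Qb) ℚ E p τ := by
    refine LinearMap.ext fun x => Subtype.ext ?_
    exact (hpt x (hmem x)).symm
  -- the cyclotomic character
  have hζ : τ (zetaBar p) = σ (zetaBar p) :=
    hτσ _ (le_sup_right (a := L) (zetaBar_mem_cycloLevel p))
  have hχτ : chiBar p τ = (ℓ : ZMod p) :=
    coe_cycloPow_of_apply_eq_pow p τ ℓ
      (IsFrobeniusAt_apply_root hτ hp.ne_zero (val_prime_eq_one hA hℓ hp hℓp)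
        (zetaBar_spec p).pow_eq_one)
  have hχσ : chiBar p σ = chiBar p τ := by
    have : cycloPow p σ = cycloPow p τ :=
      (cycloPow_eq_iff p σ (cycloPow p τ)).mpr (by rw [← hζ]; exact cycloPow_spec p τ)
    rw [chiBar_apply, chiBar_apply, this]
  rw [hρ, hχσ, hχτ]
  -- the Frobenius relation
  obtain ⟨m, hm⟩ := hEis ℓ hℓ hℓS hgood
  refine LinearMap.ext fun x => Subtype.ext ?_
  have hrel := frobRelation_of_isIntegralModelOf E W hW ℓ hℓ h5 hgood A τ hA hτ p hp.pos
    (fun h => hℓp ((Nat.prime_dvd_prime_iff_eq hℓ hp).mp h)) (x : (E⁄Qb).Point) (hmem x)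
  have ha : W.apOfModel ℓ = (ℓ : ℤ) + 1 + m * (p : ℤ) := by linear_combination hm
  have hτx : (p : ℤ) • (τ • (x : (E⁄Qb).Point)) = 0 := by
    rw [← algEquiv_smul_zsmul, natCast_zsmul, hmem x, smul_zero]
  rw [ha, add_zsmul, add_zsmul, one_zsmul, mul_zsmul, hτx, zsmul_zero, add_zero] at hrel
  simp only [Module.End.mul_apply, LinearMap.sub_apply, LinearMap.smul_apply,
    Module.End.one_apply, galoisRepModuleEnd_apply, LinearMap.zero_apply, map_sub,
    Nat.cast_smul_eq_nsmul]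
  show τ • τ • (x : (E⁄Qb).Point) - τ • (x : (E⁄Qb).Point)
    - (τ • (ℓ • (x : (E⁄Qb).Point)) - ℓ • (x : (E⁄Qb).Point)) = 0
  rw [← natCast_zsmul, algEquiv_smul_zsmul, ← hrel]
  abel

end relation

/-- **Non-Eisenstein, general form.**  Let `E` be an elliptic curve over `ℚ` with integral model
`W` and `p` a prime such that `E[p]` is irreducible.  Outside every finite set `S` there is a
prime `ℓ` of good reduction of `W` with `a_ℓ(W) ≢ ℓ + 1 mod p`. -/
theorem exists_prime_not_eisenstein (E : WeierstrassCurve ℚ) (hE : E.Δ ≠ 0)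
    (W : WeierstrassCurve ℤ) (hW : W.IsIntegralModelOf E) (p : ℕ) (hp : p.Prime)
    (hirr : GaloisRepIsIrreducible (K := AlgebraicClosure ℚ) ℚ E p) (S : Finset ℕ) :
    ∃ ℓ : ℕ, ℓ.Prime ∧ ℓ ∉ S ∧ W.IsGoodPrimeFor ℓ ∧ ¬ (p : ℤ) ∣ W.apOfModel ℓ - (ℓ + 1) := by
  by_contra hcon0
  have hcon : ∀ ℓ : ℕ, ℓ.Prime → ℓ ∉ S → W.IsGoodPrimeFor ℓ →
      (p : ℤ) ∣ W.apOfModel ℓ - (ℓ + 1) := by
    intro ℓ h1 h2 h3
    by_contra h4
    exact hcon0 ⟨ℓ, h1, h2, h3, h4⟩
  have : Fact p.Prime := ⟨hp⟩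
  have hEll : (E⁄Qb).IsElliptic := by
    constructor
    rw [isUnit_iff_ne_zero]
    show (E.map (algebraMap ℚ Qb)).Δ ≠ 0
    rw [WeierstrassCurve.map_Δ]
    exact (_root_.map_ne_zero _).mpr hE
  have hWΔ : W.Δ ≠ 0 := Δ_ne_zero_of_isIntegralModelOf hE hW
  -- `E[p]` is two-dimensional
  have hcard : Nat.card (Submodule.torsionBy ℤ (E⁄Qb).Point p) = p ^ 2 :=
    Fermat.Agent.S59.H127.card_torsion_eq (E⁄Qb) p
  have hfinite : Finite (Submodule.torsionBy ℤ (E⁄Qb).Point p) :=
    Nat.finite_of_card_ne_zero (by rw [hcard]; exact pow_ne_zero 2 hp.ne_zero)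
  have hfinrank : Module.finrank (ZMod p) (Submodule.torsionBy ℤ (E⁄Qb).Point p) = 2 := by
    have h2 : Nat.card (Submodule.torsionBy ℤ (E⁄Qb).Point p)
        = Nat.card (ZMod p) ^ Module.finrank (ZMod p) (Submodule.torsionBy ℤ (E⁄Qb).Point p) :=
      Module.natCard_eq_pow_finrank
    rw [Nat.card_zmod, hcard] at h2
    exact (Nat.pow_right_injective hp.two_le h2).symm
  obtain ⟨N, hN0, hN1, hstab⟩ := exists_stable_line_of_character hfinrank
    (galoisRepModuleEnd (K := Qb) ℚ E p) (chiBar p)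
    (sub_one_mul_sub_chiBar_eq_zero E p W hW hWΔ S hcon)
  rcases hirr.2 N (fun σ x hx => hstab σ x hx) with h | h
  · exact hN0 h
  · exact hN1 h

/-- The discriminant of the Frey curve is nonzero. -/
theorem freyCurve_Δ_ne_zero_h523 (P : FreyPackage) : P.freyCurve.Δ ≠ 0 := by
  have h : ((P.c : ℚ)) ^ P.p = (P.a : ℚ) ^ P.p + (P.b : ℚ) ^ P.p := by
    exact_mod_cast P.hFLT.symm
  have hΔ : P.freyCurve.Δ = ((P.a : ℚ) * P.b * P.c) ^ (2 * P.p) / 2 ^ 8 := by
    simp only [WeierstrassCurve.Δ, WeierstrassCurve.b₂, WeierstrassCurve.b₄, WeierstrassCurve.b₆,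
      WeierstrassCurve.b₈, FreyPackage.freyCurve]
    rw [mul_pow, mul_pow, pow_mul', pow_mul', pow_mul', h]
    ring
  rw [hΔ]
  have : ((P.a : ℚ) * P.b * P.c) ≠ 0 := by exact_mod_cast P.habc0
  exact div_ne_zero (pow_ne_zero _ this) (by norm_num)

/-- **Piece NE of row RIBET** (unconditional). -/
theorem nonEisenstein : Spec.NonEisensteinStatement := by
  intro P W hW hirr S
  exact exists_prime_not_eisenstein P.freyCurve (freyCurve_Δ_ne_zero_h523 P) W hW P.p P.pp hirr S

end Fermat.Agent.Ribet.H523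

end
-- ===== PACK-END Ribet/H523/NonEisenstein.lean

-- ===== PACK-BEGIN Ribet/H104/WForms.lean
section




/-!
# Row 38 (RIBET), wall leaves NMT-W and NE-W  (helper104)

The two `W`-forms of the landed Frey statements, in the exact shape of
`Fermat/Agent/Ribet/H944/WallSpec.lean`:

* `nonEisW : Wall.NonEisWStatement` — the eigensystem `ℓ ↦ a_ℓ(W)` of an integral Weierstrass
  curve with irreducible `W[p]` is not Eisenstein (from `H523.exists_prime_not_eisenstein`).
* `notMultTypeW : Wall.NotMultTypeWStatement` — an irreducible `W[p]` (`p` odd) is not of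
  multiplicative type at `p`: inertia at `p` does not act on all of `W[p]` through the cyclotomic
  character (from `H403.det_eq_cycloPow` and `H403.exists_inertia_cycloPow_ne_one`).
* `nonscalar_of_irreducible_h104` — an irreducible two-dimensional `E[p]` has a non-scalar element
  in its image.
-/

set_option autoImplicit false

open WeierstrassCurve WeierstrassCurve.Affine WeierstrassCurve.Affine.Point

namespace Fermat.Agent.Ribet.H104

open Fermat.Agent.Ribet.H944.Wall

/-- `W` is an integral model of its own base change to `ℚ`. -/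
theorem isIntegralModelOf_map_h104 (W : WeierstrassCurve ℤ) :
    W.IsIntegralModelOf (W.map (Int.castRingHom ℚ)) :=
  ⟨1, one_smul _ _⟩

/-- **(NE-W)** the eigensystem of an irreducible `W[p]` is not Eisenstein. -/
theorem nonEisW : NonEisWStatement := by
  intro W p hΔ hp _ hirr S
  have hΔQ : (W.map (Int.castRingHom ℚ)).Δ ≠ 0 := by
    rw [WeierstrassCurve.map_Δ]
    simpa using hΔ
  obtain ⟨ℓ, hℓ, hℓS, -, hne⟩ :=
    Fermat.Agent.Ribet.H523.exists_prime_not_eisenstein (W.map (Int.castRingHom ℚ)) hΔQ W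
      (isIntegralModelOf_map_h104 W) p hp hirr S
  exact ⟨ℓ, hℓ, hℓS, hne⟩

/-- An irreducible `E[p]` of rank two has a non-scalar element in its Galois image. -/
theorem nonscalar_of_irreducible_h104 (E : WeierstrassCurve ℚ) (hΔ : E.Δ ≠ 0) (p : ℕ)
    [Fact p.Prime]
    (hirr : GaloisRepIsIrreducible (K := AlgebraicClosure ℚ) ℚ E p) :
    ∃ h : Fermat.Agent.Ribet.H403.GQ,
      ¬ ∃ s : ZMod p, ∀ x : Fermat.Agent.Ribet.H403.Tors E p, h • x = s • x := by
  by_contra hcon
  push Not at hcon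
  have hdim : Module.finrank (ZMod p) (Fermat.Agent.Ribet.H403.Tors E p) = 2 :=
    Fermat.Agent.Ribet.H403.finrank_tors E hΔ p
  obtain ⟨hnt, hirr'⟩ := hirr
  obtain ⟨x, hx⟩ := exists_ne (0 : Fermat.Agent.Ribet.H403.Tors E p)
  have hst : IsGaloisStable (K := AlgebraicClosure ℚ) ℚ
      (Submodule.span (ZMod p) {x}) := by
    intro σ y hy
    obtain ⟨s, hs⟩ := hcon σ
    rw [hs y]
    exact Submodule.smul_mem _ _ hy
  rcases hirr' _ hst with h | h
  · rw [Submodule.span_singleton_eq_bot] at h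
    exact hx h
  · have h1 := finrank_span_singleton (K := ZMod p) hx
    rw [h, finrank_top, hdim] at h1
    omega

/-- **(NMT-W)** an irreducible `W[p]`, `p` odd, is not of multiplicative type at `p`. -/
theorem notMultTypeW : NotMultTypeWStatement := by
  intro W p hΔ hp hp2 hirr A hA H
  have : Fact p.Prime := ⟨hp⟩
  have hΔQ : (W.map (Int.castRingHom ℚ)).Δ ≠ 0 := by
    rw [WeierstrassCurve.map_Δ]
    simpa using hΔ
  have hns := nonscalar_of_irreducible_h104 (W.map (Int.castRingHom ℚ)) hΔQ p hirr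
  obtain ⟨σ, hσ, hne⟩ := Fermat.Agent.Ribet.H403.exists_inertia_cycloPow_ne_one p hp2 A hA
  apply hne
  set c : ℕ := ((Fermat.Agent.S55.H414.cycloPow p σ : (ZMod p)ˣ) : ZMod p).val with hc
  have hroot : ∀ ζ : AlgebraicClosure ℚ, ζ ^ p = 1 → σ ζ = ζ ^ c :=
    fun ζ hζ => Fermat.Agent.Ribet.H403.apply_root_eq_pow_cycloPow p σ ζ hζ
  have hsc : ∀ x : ETorsion (W.map (Int.castRingHom ℚ)) p, σ • x = c • x :=
    H σ hσ c hroot
  have hdet := Fermat.Agent.Ribet.H403.det_eq_of_apply_root W p hΔ hns σ c hroot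
  have hdim : Module.finrank (ZMod p)
      (Fermat.Agent.Ribet.H403.Tors (W.map (Int.castRingHom ℚ)) p) = 2 :=
    Fermat.Agent.Ribet.H403.finrank_tors (W.map (Int.castRingHom ℚ)) hΔQ p
  have hend : galoisRepModuleEnd (S := ℚ) (K := AlgebraicClosure ℚ)
        (W.map (Int.castRingHom ℚ)) p σ
      = (c : ZMod p) • (LinearMap.id :
          Fermat.Agent.Ribet.H403.Tors (W.map (Int.castRingHom ℚ)) p →ₗ[ZMod p] _) := by
    apply LinearMap.ext
    intro x
    rw [galoisRepModuleEnd_apply, hsc x, LinearMap.smul_apply, LinearMap.id_apply,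
      Nat.cast_smul_eq_nsmul]
  rw [hend, LinearMap.det_smul, LinearMap.det_id, mul_one, hdim] at hdet
  have hcu : (c : ZMod p) = ((Fermat.Agent.S55.H414.cycloPow p σ : (ZMod p)ˣ) : ZMod p) := by
    rw [hc, ZMod.natCast_zmod_val]
  have hc0 : (c : ZMod p) ≠ 0 := by
    rw [hcu]
    exact Units.ne_zero _
  have hc1 : (c : ZMod p) = 1 := by
    have h : (c : ZMod p) * (c : ZMod p) = (c : ZMod p) * 1 := by
      rw [mul_one, ← pow_two]
      exact hdet
    exact mul_left_cancel₀ hc0 h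
  apply Units.ext
  rw [← hcu, hc1, Units.val_one]

end Fermat.Agent.Ribet.H104

end
-- ===== PACK-END Ribet/H104/WForms.lean

-- ===== PACK-BEGIN Ribet/H704/DetCyc.lean
section





/-!
# RIBET / DETF + NMT (helper704), part 4: `det ρ̄_{E,p} = cyclotomic character`

For EVERY Frey package `P` (no irreducibility hypothesis) and every `σ ∈ G_ℚ`:

  `det (σ | E[p]) = χ_p(σ)`        (`frey_det_eq_cycloChar`),

without the Weil pairing: Chebotarev (`Lib.Cheb.chebotarev`) + the Frobenius relation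
(`Lib.Frob`) + Cayley-Hamilton for the non-scalar elements, and the non-scalar elements generate
(`exists_not_scalar`).
-/

set_option autoImplicit false

open WeierstrassCurve WeierstrassCurve.Affine WeierstrassCurve.Affine.Point

namespace Fermat.Agent.Ribet.H704

open Fermat.Agent.Ribet.Spec (GQ FreyTorsion)
open ExtCitation

/-- If `σ` raises every `p`-th root of unity to the power `c`, then `χ_p(σ) = c`. -/
theorem cycloChar_eq_natCast (p : ℕ) [Fact p.Prime] (σ : GQ) (c : ℕ)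
    (h : ∀ ζ : AlgebraicClosure ℚ, ζ ^ p = 1 → σ ζ = ζ ^ c) :
    ((cycloChar p σ : (ZMod p)ˣ) : ZMod p) = (c : ZMod p) := by
  have : NeZero p := ⟨(Fact.out : p.Prime).ne_zero⟩
  refine (modularCyclotomicCharacter.unique (AlgebraicClosure ℚ) (card_rootsOfUnity_eq_self p)
    (σ : AlgebraicClosure ℚ ≃+* AlgebraicClosure ℚ) (c := (c : ZMod p)) fun t ht => ?_).symm
  have htp : (t : AlgebraicClosure ℚ) ^ p = 1 := by
    have := (mem_rootsOfUnity p t).1 ht
    rw [← Units.val_pow_eq_pow_val, this, Units.val_one]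
  have h1 : σ (t : AlgebraicClosure ℚ) = (t : AlgebraicClosure ℚ) ^ c := h _ htp
  rw [ZMod.val_natCast, ← pow_eq_pow_mod c htp]
  exact h1

/-- `σ` raises every `p`-th root of unity to the power `χ_p(σ)`. -/
theorem apply_root_eq_pow_cycloChar (p : ℕ) [Fact p.Prime] (σ : GQ) (ζ : AlgebraicClosure ℚ)
    (hζ : ζ ^ p = 1) :
    σ ζ = ζ ^ ((cycloChar p σ : (ZMod p)ˣ) : ZMod p).val := by
  have hp : p.Prime := Fact.out
  have hζ0 : ζ ≠ 0 := by
    rintro rfl
    rw [zero_pow hp.ne_zero] at hζ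
    exact zero_ne_one hζ
  have ht : Units.mk0 ζ hζ0 ∈ rootsOfUnity p (AlgebraicClosure ℚ) := by
    rw [mem_rootsOfUnity]
    apply Units.ext
    rw [Units.val_pow_eq_pow_val, Units.val_mk0, hζ, Units.val_one]
  exact Fermat.Agent.S55.Bridge.cycloChar_spec p σ ht

/-- An element of `G_ℚ` fixing `ℚ(ζ_p)` pointwise has trivial cyclotomic character. -/
theorem cycloChar_eq_one_of_fixes_cycloLevel (p : ℕ) [Fact p.Prime] (σ : GQ)
    (h : haveI : NeZero p := ⟨(Fact.out : p.Prime).ne_zero⟩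
      ∀ x ∈ Fermat.Agent.S55.H414.cycloLevel p, σ x = x) :
    cycloChar p σ = 1 := by
  have : NeZero p := ⟨(Fact.out : p.Prime).ne_zero⟩
  apply Fermat.Agent.S55.Bridge.cycloChar_eq_one_of_fixes
  intro t ht
  have htp : (t : AlgebraicClosure ℚ) ^ p = 1 := by
    have := (mem_rootsOfUnity p t).1 ht
    rw [← Units.val_pow_eq_pow_val, this, Units.val_one]
  obtain ⟨i, -, hi⟩ := (Fermat.Agent.S55.H414.zetaBar_spec p).eq_pow_of_pow_eq_one htp
  rw [← hi, map_pow, h _ (Fermat.Agent.S55.H414.zetaBar_mem_cycloLevel p)]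

/-- A Frobenius element at `A | ℓ`, `ℓ ≠ p`, has cyclotomic character `ℓ`. -/
theorem cycloChar_frob (p : ℕ) [Fact p.Prime] {ℓ : ℕ} (hℓ : ℓ.Prime) (hℓp : ℓ ≠ p)
    (A : ValuationSubring (AlgebraicClosure ℚ)) (hA : A.LiesOverPrime ℓ) (τ : GQ)
    (hτ : A.IsFrobeniusAt τ ℓ) :
    ((cycloChar p τ : (ZMod p)ˣ) : ZMod p) = (ℓ : ZMod p) := by
  have hp : p.Prime := Fact.out
  apply cycloChar_eq_natCast
  intro ζ hζ
  exact Fermat.Agent.S55.H414.IsFrobeniusAt_apply_root hτ hp.ne_zero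
    (Fermat.Agent.S55.Bridge.val_prime_eq_one (A := A) hA hℓ hp hℓp) hζ

/-! ## Good primes of the integral Frey model -/

/-- The discriminant of the integral Frey model is nonzero. -/
theorem freyCurveInt_Δ_ne_zero (P : FreyPackage) : P.freyCurveInt.Δ ≠ 0 := by
  intro h
  apply Fermat.Agent.S13.H164.freyCurve_Δ_ne_zero P
  rw [Fermat.Agent.S13.H164.freyCurve_eq_map, WeierstrassCurve.map_Δ, h, _root_.map_zero]

/-- The finite set of primes avoided in the Chebotarev argument. -/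
noncomputable def badSet (P : FreyPackage) : Finset ℕ :=
  insert 2 (insert 3 (insert P.p P.freyCurveInt.Δ.natAbs.primeFactors))

theorem good_of_notMem_badSet (P : FreyPackage) {ℓ : ℕ} (hℓ : ℓ.Prime) (h : ℓ ∉ badSet P) :
    5 ≤ ℓ ∧ ℓ ≠ P.p ∧ P.freyCurveInt.IsGoodPrimeFor ℓ := by
  simp only [badSet, Finset.mem_insert, not_or] at h
  obtain ⟨h2, h3, hp, hΔ⟩ := h
  refine ⟨hℓ.five_le_of_ne_two_of_ne_three h2 h3, hp, ?_⟩
  intro hdvd
  apply hΔ
  rw [Nat.mem_primeFactors]
  refine ⟨hℓ, Int.natCast_dvd.mp hdvd, ?_⟩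
  exact Int.natAbs_ne_zero.mpr (freyCurveInt_Δ_ne_zero P)

/-! ## The determinant is cyclotomic -/

/-- `det = χ_p` at the elements which are not scalars on `E[p]`. -/
theorem det_eq_cycloChar_of_not_scalar (P : FreyPackage) [Fact P.p.Prime] (σ : GQ)
    (hns : ¬ ∃ s : ZMod P.p, ∀ x : FreyTorsion P, σ • x = s • x) :
    LinearMap.det (galoisRepModuleEnd (S := ℚ) (K := AlgebraicClosure ℚ) P.freyCurve P.p σ)
      = ((cycloChar P.p σ : (ZMod P.p)ˣ) : ZMod P.p) := by
  have : NeZero P.p := ⟨P.pp.ne_zero⟩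
  obtain ⟨L, hLfd, hL⟩ := exists_finite_level_frey P
  have hE : FiniteDimensional ℚ ↥(L ⊔ Fermat.Agent.S55.H414.cycloLevel P.p) :=
    IntermediateField.finiteDimensional_sup L (Fermat.Agent.S55.H414.cycloLevel P.p)
  obtain ⟨ℓ, A, τ, hℓ, hℓS, hA, hτ, -, hτσ⟩ :=
    Fermat.Agent.Lib.Cheb.chebotarev (L ⊔ Fermat.Agent.S55.H414.cycloLevel P.p) hE σ (badSet P)
  obtain ⟨h5, hℓp, hgood⟩ := good_of_notMem_badSet P hℓ hℓS
  -- `g = τ⁻¹ σ` is trivial on the compositum
  have hg : ∀ x ∈ L ⊔ Fermat.Agent.S55.H414.cycloLevel P.p, (τ⁻¹ * σ) x = x := by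
    intro x hx
    rw [AlgEquiv.mul_apply, ← hτσ x hx]
    exact τ.symm_apply_apply x
  have hgV : ∀ x : FreyTorsion P, (τ⁻¹ * σ) • x = x :=
    hL _ fun x hx => hg x ((le_sup_left : L ≤ _) hx)
  have hστ : ∀ x : FreyTorsion P, σ • x = τ • x := by
    intro x
    have h1 : σ = τ * (τ⁻¹ * σ) := by rw [mul_inv_cancel_left]
    conv_lhs => rw [h1, mul_smul, hgV x]
  have hρ : galoisRepModuleEnd (S := ℚ) (K := AlgebraicClosure ℚ) P.freyCurve P.p σ
      = galoisRepModuleEnd (S := ℚ) (K := AlgebraicClosure ℚ) P.freyCurve P.p τ := by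
    ext x
    simp only [galoisRepModuleEnd_apply]
    rw [hστ x]
  have hnsτ : ¬ ∃ s : ZMod P.p, ∀ x : FreyTorsion P, τ • x = s • x := by
    rintro ⟨s, hs⟩
    exact hns ⟨s, fun x => by rw [hστ x, hs x]⟩
  have hχg : cycloChar P.p (τ⁻¹ * σ) = 1 :=
    cycloChar_eq_one_of_fixes_cycloLevel P.p _ fun x hx =>
      hg x ((le_sup_right : Fermat.Agent.S55.H414.cycloLevel P.p ≤ _) hx)
  have hχ : cycloChar P.p σ = cycloChar P.p τ := by
    have h1 : σ = τ * (τ⁻¹ * σ) := by rw [mul_inv_cancel_left]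
    conv_lhs => rw [h1, map_mul, hχg, mul_one]
  rw [hρ, hχ, det_frob_of_not_scalar P hℓ h5 hℓp hgood A hA τ hτ hnsτ,
    cycloChar_frob P.p hℓ hℓp A hA τ hτ]

/-- **`det ρ̄_{E,p} = χ_p`** on all of `G_ℚ`, for every Frey package. -/
theorem frey_det_eq_cycloChar (P : FreyPackage) [Fact P.p.Prime] (σ : GQ) :
    LinearMap.det (galoisRepModuleEnd (S := ℚ) (K := AlgebraicClosure ℚ) P.freyCurve P.p σ)
      = ((cycloChar P.p σ : (ZMod P.p)ˣ) : ZMod P.p) := by
  by_cases hs : ∃ s : ZMod P.p, ∀ x : FreyTorsion P, σ • x = s • x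
  · obtain ⟨s, hs⟩ := hs
    obtain ⟨h, hh⟩ := exists_not_scalar P
    obtain ⟨b⟩ := nonempty_basis_freyTorsion P
    have hs0 : s ≠ 0 := by
      rintro rfl
      have h1 : σ • b 0 = 0 := by rw [hs (b 0), zero_smul]
      have h2 : b 0 = 0 := by
        have := congrArg (fun y => σ⁻¹ • y) h1
        simpa using this
      exact b.ne_zero 0 h2
    have hσh : ¬ ∃ s' : ZMod P.p, ∀ x : FreyTorsion P, (σ * h) • x = s' • x := by
      rintro ⟨s', hs'⟩
      apply hh
      refine ⟨s⁻¹ * s', fun x => ?_⟩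
      have h1 := hs' x
      rw [mul_smul, hs (h • x)] at h1
      rw [mul_smul, ← h1, smul_smul, inv_mul_cancel₀ hs0, one_smul]
    have h1 := det_eq_cycloChar_of_not_scalar P (σ * h) hσh
    have h2 := det_eq_cycloChar_of_not_scalar P h hh
    rw [map_mul, map_mul, map_mul, Units.val_mul, h2] at h1
    exact mul_right_cancel₀ (Units.ne_zero _) h1
  · exact det_eq_cycloChar_of_not_scalar P σ hs

end Fermat.Agent.Ribet.H704

end
-- ===== PACK-END Ribet/H704/DetCyc.lean

-- ===== PACK-BEGIN Ribet/H704/Final.lean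
section




/-!
# RIBET pieces DETF and NMT (helper704)

* `detFrob : Spec.DetFrobStatement` — the determinant of a Frobenius at `q ≠ p` on the
  `p`-torsion of the Frey curve is `q`;
* `notMultiplicativeType : Spec.NotMultiplicativeTypeStatement` — inertia at `p` does not act
  on all of `E[p]` through the cyclotomic scalar;
* `frey_galoisRepDetEqCyclotomic` — the Prelude predicate `GaloisRepDetEqCyclotomic` for the
  Frey curve;
* `exists_inertia_cycloChar_ne_one` — for `p ≥ 3` the inertia subgroup of EVERY valuation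
  subring of `ℚ̄` over `p` acts nontrivially on the `p`-th roots of unity.

No Weil pairing and no irreducibility hypothesis: see `DetCyc.lean`.
-/

set_option autoImplicit false

open WeierstrassCurve WeierstrassCurve.Affine WeierstrassCurve.Affine.Point

namespace Fermat.Agent.Ribet.H704

open Fermat.Agent.Ribet.Spec (GQ FreyTorsion)
open ExtCitation

/-- A primitive `p`-th root of unity, `p` odd, `p > 1`, is moved by some element of `G_ℚ`. -/
theorem exists_cycloChar_ne_one (p : ℕ) [Fact p.Prime] (hodd : Odd p) :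
    ∃ σ : GQ, cycloChar p σ ≠ 1 := by
  have hp : p.Prime := Fact.out
  have : NeZero p := ⟨hp.ne_zero⟩
  have hgal := Fermat.Agent.S54.isGalois_algebraicClosure_rat
  by_contra H
  push Not at H
  have hfix : ∀ f : GQ, f (Fermat.Agent.S55.H414.zetaBar p) = Fermat.Agent.S55.H414.zetaBar p := by
    intro f
    have h1 := apply_root_eq_pow_cycloChar p f (Fermat.Agent.S55.H414.zetaBar p)
      (Fermat.Agent.S55.H414.zetaBar_spec p).pow_eq_one
    rw [H f, Units.val_one, ZMod.val_one'' (by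
      have := hp.two_le
      omega), pow_one] at h1
    exact h1
  obtain ⟨r, hr⟩ := (InfiniteGalois.mem_range_algebraMap_iff_fixed
    (k := ℚ) (K := AlgebraicClosure ℚ) _).mpr hfix
  have hrp : r ^ p = 1 := by
    apply (algebraMap ℚ (AlgebraicClosure ℚ)).injective
    rw [map_pow, hr, map_one]
    exact (Fermat.Agent.S55.H414.zetaBar_spec p).pow_eq_one
  have hr1 : r = 1 := by
    have hmono := hodd.strictMono_pow (R := ℚ)
    apply hmono.injective
    show r ^ p = 1 ^ p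
    rw [hrp, one_pow]
  have hz1 : Fermat.Agent.S55.H414.zetaBar p = 1 := by rw [← hr, hr1, map_one]
  exact (Fermat.Agent.S55.H414.zetaBar_spec p).ne_one hp.one_lt hz1

/-- **Inertia at `p` acts nontrivially on `μ_p`** (`p` odd): for every valuation subring `A` of
`ℚ̄` over `p` some element of the inertia subgroup of `A` has nontrivial mod `p` cyclotomic
character.  (Minkowski + the cyclotomic character is unramified outside `p`.) -/
theorem exists_inertia_cycloChar_ne_one (p : ℕ) [Fact p.Prime] (hodd : Odd p)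
    (A : ValuationSubring (AlgebraicClosure ℚ)) (hA : A.LiesOverPrime p) :
    ∃ σ ∈ A.inertiaSubgroupIn ℚ, cycloChar p σ ≠ 1 := by
  have hp : p.Prime := Fact.out
  have : NeZero p := ⟨hp.ne_zero⟩
  have hNopen : IsOpen ((cycloChar p).ker : Set GQ) := by
    have h1 := IntermediateField.fixingSubgroup_isOpen (Fermat.Agent.S55.H414.cycloLevel p)
    refine Subgroup.isOpen_mono ?_ h1
    intro σ hσ
    rw [MonoidHom.mem_ker]
    exact cycloChar_eq_one_of_fixes_cycloLevel p σ fun x hx =>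
      (IntermediateField.mem_fixingSubgroup_iff _ σ).mp hσ x hx
  have hNtop : (cycloChar p).ker ≠ ⊤ := by
    intro h
    obtain ⟨σ, hσ⟩ := exists_cycloChar_ne_one p hodd
    apply hσ
    have : σ ∈ (cycloChar p).ker := by rw [h]; trivial
    exact MonoidHom.mem_ker.mp this
  obtain ⟨q, hq, hqA⟩ :=
    Fermat.Agent.S13.H175.exists_inertia_not_fixing (cycloChar p).ker hNopen hNtop
  have hqp : q = p := by
    by_contra hne
    obtain ⟨A', hA'⟩ := Fermat.Agent.S54.exists_valuationSubring_liesOver q hq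
    obtain ⟨σ, hσI, hσN⟩ := hqA A' hA'
    exact hσN (MonoidHom.mem_ker.mpr
      (Fermat.Agent.S55.Bridge.cycloChar_eq_one_of_mem_inertia p hq hne A' hA' σ hσI))
  subst hqp
  obtain ⟨σ, hσI, hσN⟩ := hqA A hA
  exact ⟨σ, hσI, fun h => hσN (MonoidHom.mem_ker.mpr h)⟩

/-- **(DETF)** The determinant of a Frobenius at `q ≠ p` on `E[p]` is `q`. -/
theorem detFrob : Fermat.Agent.Ribet.Spec.DetFrobStatement := by
  intro P q hq hqp A hA φ hφ
  have : Fact P.p.Prime := ⟨P.pp⟩
  rw [frey_det_eq_cycloChar P φ, cycloChar_frob P.p hq hqp A hA φ hφ]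

/-- **(NMT)** `E[p]` is not of multiplicative type at `p`. -/
theorem notMultiplicativeType : Fermat.Agent.Ribet.Spec.NotMultiplicativeTypeStatement := by
  intro P A hA H
  have : Fact P.p.Prime := ⟨P.pp⟩
  have : NeZero P.p := ⟨P.pp.ne_zero⟩
  obtain ⟨σ, hσI, hσ⟩ := exists_inertia_cycloChar_ne_one P.p P.hp_odd A hA
  have hx := H σ hσI ((cycloChar P.p σ : (ZMod P.p)ˣ) : ZMod P.p).val
    (fun ζ hζ => apply_root_eq_pow_cycloChar P.p σ ζ hζ)
  obtain ⟨b⟩ := nonempty_basis_freyTorsion P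
  have hdet := det_of_forall_smul b
    (galoisRepModuleEnd (S := ℚ) (K := AlgebraicClosure ℚ) P.freyCurve P.p σ)
    ((cycloChar P.p σ : (ZMod P.p)ˣ) : ZMod P.p)
    (fun x => by
      rw [galoisRepModuleEnd_apply, hx x]
      conv_rhs => rw [← ZMod.natCast_zmod_val ((cycloChar P.p σ : (ZMod P.p)ˣ) : ZMod P.p)]
      exact (Nat.cast_smul_eq_nsmul (ZMod P.p) _ x).symm)
  rw [frey_det_eq_cycloChar P σ] at hdet
  -- `χ = χ²` with `χ` a unit
  apply hσ
  apply Units.ext
  rw [Units.val_one]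
  have h1 : ((cycloChar P.p σ : (ZMod P.p)ˣ) : ZMod P.p) * 1
      = ((cycloChar P.p σ : (ZMod P.p)ˣ) : ZMod P.p) * ((cycloChar P.p σ : (ZMod P.p)ˣ) : ZMod P.p) := by
    rw [mul_one, ← pow_two]
    exact hdet
  exact (mul_left_cancel₀ (Units.ne_zero _) h1).symm

/-- The Prelude predicate `GaloisRepDetEqCyclotomic` holds for the Frey curve. -/
theorem frey_galoisRepDetEqCyclotomic (P : FreyPackage) :
    haveI : NeZero P.p := ⟨P.pp.ne_zero⟩
    GaloisRepDetEqCyclotomic ℚ (K := AlgebraicClosure ℚ) P.freyCurve P.p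
      P.card_rootsOfUnity_algebraicClosure := by
  have : Fact P.p.Prime := ⟨P.pp⟩
  intro σ
  apply Units.ext
  rw [galoisRepDet_apply]
  rw [LinearEquiv.coe_det]
  exact frey_det_eq_cycloChar P σ

end Fermat.Agent.Ribet.H704

end
-- ===== PACK-END Ribet/H704/Final.lean

-- ===== PACK-BEGIN Ribet/H552/GlueP.lean
section






/-!
# RIBET wall-p, piece W-ALGP (I5), leaf **GLUE-p** (helper552)

`glueP : H495.AlgP.GluePLeaf` — statement VERBATIM that of `Ribet/H495/AlgPSpec.lean`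
(sub-architect helper495): a Kummer class `v` of prime order `p` (`p` = residue characteristic,
`ζ ∈ R` a primitive `p`-th root of unity, `λ = ζ - 1`) which is locally factored at depth `λ^p w`
at every closed point of the special fibre of both charts is a `p`-th power.

Proof (route B-p).  Suppose `v` is not a `p`-th power: `L = F[X]/(X^p - v)` is a field, cyclic
Galois over `F`.
* `hRL` : `R` is integrally closed in `L` (`as_isIntegral_mem_range`: the valuation ring
  `compVal = (Bf)_{p₁}` is unramified in `L` because `v ∈ 1 + λ^p w (Bf)_{p₁}`, `R` henselian with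
  algebraically closed residue field).
* `as_ss` (field form, on `A2.H729.generic_idempotent_trivial` for the canonical Gauss ring of
  `L`): the Artin–Schreier coordinate `Y = (y - 1)/λ` of the root `y` is `≡ g_k mod w O_L` for
  one `k` globally, so `ζ^{-k} y` is fixed by `Gal(L/F)`, i.e. `v` is a `p`-th power in `F`.
Neither `p ≠ 2`, nor `p ∈ 𝔪_R`, nor `DivisibleDiv` is used.
-/

set_option autoImplicit false
set_option linter.unusedSectionVars false
set_option linter.unusedVariables false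

namespace Fermat.Agent.Ribet.H552

open Polynomial Fermat.Agent.S18.H138 Fermat.Agent.A2.H729
open Fermat.Agent.A2 Fermat.Agent.A2.Alg Fermat.Agent.Ribet.H495.AlgP

section Adapter

variable {R : Type*} [CommRing R] [IsDomain R] {F : Type*} [Field F] [Algebra R F]

theorem span_le_of_mem {B : Subalgebra R F} {n : Ideal B} {w : R}
    (hwn : algebraMap R B w ∈ n) (r : R) : Ideal.span {algebraMap R B (r * w)} ≤ n := by
  rw [Ideal.span_singleton_le_iff_mem, map_mul]
  exact n.mul_mem_left _ hwn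

theorem ssChart_mem₁ {w : R} {B : Subalgebra R F} (c : SSChart w B) :
    algebraMap R B w ∈ c.p₁ := by
  have : algebraMap R B w ∈ c.p₁ ⊓ c.p₂ := by
    rw [c.inf_eq]; exact Ideal.mem_span_singleton_self _
  exact this.1

theorem ssChart_mem₂ {w : R} {B : Subalgebra R F} (c : SSChart w B) :
    algebraMap R B w ∈ c.p₂ := by
  have : algebraMap R B w ∈ c.p₁ ⊓ c.p₂ := by
    rw [c.inf_eq]; exact Ideal.mem_span_singleton_self _
  exact this.2

/-- `v ∈ 1 + λ^p w B_q` for a prime `q ∋ w` on which the local correction factors are `≡ 1`. -/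
theorem locOneR_of_locallyFactoredP (hinj : Function.Injective (algebraMap R F)) {w : R}
    {B : Subalgebra R F} (c : SSChart w B) {p : ℕ} (hp : p.Prime) {ζ : R}
    (hζ : IsPrimitiveRoot ζ p) {v : F} (hf : LocallyFactoredP B c p (ζ - 1) v)
    (q : Ideal B) (hq : q.IsPrime) (hwq : algebraMap R B w ∈ q)
    (hsel : ∀ h : F, LocOneR B c.p₁ ((ζ - 1) * w) h → LocOneR B c.p₂ ((ζ - 1) * w) h →
      LocOneR B q ((ζ - 1) * w) h) :
    LocOneR B q ((ζ - 1) ^ p * w) v := by
  obtain ⟨𝔪, h𝔪, hq𝔪⟩ := Ideal.exists_le_maximal q hq.ne_top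
  obtain ⟨h, hh0, hloc, h1, h2⟩ := hf 𝔪 h𝔪 (hq𝔪 hwq)
  have hA : LocOneR B q ((ζ - 1) ^ p * w) (v * h ^ p) := locOne_of_le hq𝔪 hloc
  have hB : LocOneR B q ((ζ - 1) ^ p * w) (h ^ p) :=
    locOneR_pow_prime hinj hq hp hζ w (hsel h h1 h2)
  have hB' : LocOneR B q ((ζ - 1) ^ p * w) (h ^ p)⁻¹ := locOne_inv (span_le_of_mem hwq _) hB
  have hC : LocOneR B q ((ζ - 1) ^ p * w) (v * h ^ p * (h ^ p)⁻¹) := locOne_mul hq hA hB'
  rwa [mul_assoc, mul_inv_cancel₀ (pow_ne_zero _ hh0), mul_one] at hC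

/-- The wild local factorisations in Gauss-ring form (input of `as_ss`). -/
theorem wildLF_of_locallyFactoredP {w : R} (hw : Prime w) {x : F} (hx : Transcendental R x)
    (c : SSChart w (chart R ({x} : Set F))) (hc : Incomparable c) {p : ℕ} {ζ : R} {v : F}
    (hf : LocallyFactoredP (chart R ({x} : Set F)) c p (ζ - 1) v) :
    ∀ 𝔫₀ : Ideal (chart R ({x} : Set F)), 𝔫₀.IsMaximal →
      algebraMap R (chart R ({x} : Set F)) w ∈ 𝔫₀ →
      ∃ s : chart R ({x} : Set F), s ∉ 𝔫₀ ∧ ∃ h ε : F,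
        (∃ t ∈ gaussO hw x, h - 1 = algebraMap R F ((ζ - 1) * w) * t) ∧ v = ε * h ^ p ∧
        ∃ c' ∈ chart R ({x} : Set F),
          (s : F) * (ε - 1) = algebraMap R F ((ζ - 1) ^ p * w) * c' := by
  intro 𝔫₀ h𝔫 hw𝔫
  obtain ⟨h, hh0, ⟨a, b, hb, hab, e⟩, h1, h2⟩ := hf 𝔫₀ h𝔫 hw𝔫
  have h1' : LocOneR (chart R ({x} : Set F)) c.p₁ ((ζ - 1) * w) h⁻¹ :=
    locOne_inv (span_le_of_mem (ssChart_mem₁ c) (ζ - 1)) h1
  have h2' : LocOneR (chart R ({x} : Set F)) c.p₂ ((ζ - 1) * w) h⁻¹ :=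
    locOne_inv (span_le_of_mem (ssChart_mem₂ c) (ζ - 1)) h2
  obtain ⟨t, ht, htt⟩ := exists_gaussO_of_locOneR hw hx c.prime₁ c.prime₂ c.inf_eq hc.1 hc.2
    ((ζ - 1) * w) h1' h2'
  obtain ⟨c', hc'⟩ := Ideal.mem_span_singleton'.1 hab
  refine ⟨b, hb, h⁻¹, v * h ^ p, ⟨t, ht, htt⟩, ?_, c', c'.2, ?_⟩
  · rw [inv_pow, mul_assoc, mul_inv_cancel₀ (pow_ne_zero _ hh0), mul_one]
  · have hc'F : (c' : F) * algebraMap R F ((ζ - 1) ^ p * w) = (a : F) - (b : F) :=
      congrArg (fun t : chart R ({x} : Set F) => (t : F)) hc'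
    linear_combination e - hc'F

/-- `v ∈ 1 + λ^p w · gaussO`. -/
theorem exists_gaussO_of_locallyFactoredP (hinj : Function.Injective (algebraMap R F)) {w : R}
    (hw : Prime w) {x : F} (hx : Transcendental R x)
    (c : SSChart w (chart R ({x} : Set F))) (hc : Incomparable c) {p : ℕ} (hp : p.Prime)
    {ζ : R} (hζ : IsPrimitiveRoot ζ p) {v : F}
    (hf : LocallyFactoredP (chart R ({x} : Set F)) c p (ζ - 1) v) :
    ∃ t ∈ gaussO hw x, v - 1 = algebraMap R F ((ζ - 1) ^ p * w) * t :=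
  exists_gaussO_of_locOneR hw hx c.prime₁ c.prime₂ c.inf_eq hc.1 hc.2 _
    (locOneR_of_locallyFactoredP hinj c hp hζ hf c.p₁ c.prime₁ (ssChart_mem₁ c)
      (fun _ h1 _ => h1))
    (locOneR_of_locallyFactoredP hinj c hp hζ hf c.p₂ c.prime₂ (ssChart_mem₂ c)
      (fun _ _ h2 => h2))

end Adapter

section Final

variable {R E F : Type*} [CommRing R] [IsDomain R] [IsDiscreteValuationRing R]
  [HenselianLocalRing R] [IsAlgClosed (IsLocalRing.ResidueField R)]
  [Field E] [CharZero E] [Algebra R E] [IsFractionRing R E]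
  [Field F] [Algebra E F] [Algebra R F] [IsScalarTower R E F]

/-- **GLUE-p**, universe-polymorphic form, without the unused hypotheses. -/
theorem glueP_core (p : ℕ) (hp : p.Prime) (ζ : R) (hζ : IsPrimitiveRoot ζ p)
    (w : R) (x : F) (Bf Bi : Subalgebra R F)
    (hBf : ChartCtx E w x Bf) (hBi : ChartCtx E w x⁻¹ Bi)
    (cf : SSChart w Bf) (ci : SSChart w Bi) (hcf : Incomparable cf) (hci : Incomparable ci)
    (v : F) (hv : v ≠ 0)
    (hf : LocallyFactoredP Bf cf p (ζ - 1) v) (hi : LocallyFactoredP Bi ci p (ζ - 1) v) :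
    ∃ y : F, y ≠ 0 ∧ v = y ^ p := by
  classical
  obtain rfl := H34.chart_eq x Bf hBf.hB
  obtain rfl := H34.chart_eq x⁻¹ Bi hBi.hB
  have : CharZero F := H34.charZero_of_field (E := E)
  have := H34.finiteDimensional_baseField (R := R) x hBf.hfin
  have hinjR : Function.Injective (algebraMap R F) := H34.algebraMap_RF_injective E
  have hx : Transcendental R x := H34.transcendental_of_field hBf.hx
  have hx0 : x ≠ 0 := ne_zero_of_transcendental hx
  have hxi : Transcendental R x⁻¹ := transcendental_inv hx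
  have hw : Prime w := hBf.hw.prime
  have hw0 : algebraMap R F w ≠ 0 := fun h => hw.ne_zero (hinjR (by rw [h, map_zero]))
  by_contra hcon
  have hnp : ∀ b : F, b ^ p ≠ v := by
    intro b hb
    apply hcon
    refine ⟨b, ?_, hb.symm⟩
    rintro rfl
    rw [zero_pow hp.ne_zero] at hb
    exact hv hb.symm
  have hirr : Irreducible (X ^ p - C v) := X_pow_sub_C_irreducible_of_prime hp hnp
  have hfact := Fact.mk hirr
  -- the cover `L = F[X]/(X^p - v)`
  have hζF : IsPrimitiveRoot (algebraMap R F ζ) p := hζ.map_of_injective hinjR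
  have hprim : (primitiveRoots p F).Nonempty := ⟨_, (mem_primitiveRoots hp.pos).2 hζF⟩
  have hsplit := isSplittingField_AdjoinRoot_X_pow_sub_C hprim hirr
  have hgal : IsGalois F (AdjoinRoot (X ^ p - C v)) :=
    isGalois_of_isSplittingField_X_pow_sub_C hprim hirr _
  have hfd : FiniteDimensional F (AdjoinRoot (X ^ p - C v)) :=
    IsSplittingField.finiteDimensional _ (X ^ p - C v)
  have hι : Function.Injective (algebraMap F (AdjoinRoot (X ^ p - C v))) :=
    (algebraMap F _).injective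
  have hinjL : Function.Injective (algebraMap R (AdjoinRoot (X ^ p - C v))) := by
    rw [IsScalarTower.algebraMap_eq R F]
    exact hι.comp hinjR
  have : CharZero (AdjoinRoot (X ^ p - C v)) := charZero_of_injective_algebraMap hι
  have hxL : Transcendental R (algebraMap F (AdjoinRoot (X ^ p - C v)) x) :=
    (transcendental_algebraMap_iff hι).2 hx
  have hfdL := Fermat.Agent.A2.H552.finiteDimensional_baseField_cover (R := R) (E := E)
    (L := AdjoinRoot (X ^ p - C v)) x hBf.hfin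
  -- the root
  have hyu : (AdjoinRoot.root (X ^ p - C v)) ^ p = algebraMap F (AdjoinRoot (X ^ p - C v)) v := by
    have h := AdjoinRoot.eval₂_root (X ^ p - C v : F[X])
    rw [eval₂_sub, eval₂_pow, eval₂_X, eval₂_C, sub_eq_zero] at h
    exact h
  -- Gauss-ring data on the base
  have hgen := exists_gaussO_of_locallyFactoredP hinjR hw hx cf hcf hp hζ hf
  have hLF_fin := wildLF_of_locallyFactoredP hw hx cf hcf hf
  have hLF_inf := wildLF_of_locallyFactoredP hw hxi ci hci hi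
  rw [gaussO_inv hw hx0] at hLF_inf
  -- no new constants
  have hRL : ∀ y : AdjoinRoot (X ^ p - C v), IsIntegral R y →
      y ∈ Set.range (algebraMap R (AdjoinRoot (X ^ p - C v))) := by
    obtain ⟨hN, -, hFr⟩ := H34.chart_instances' w x (chart R ({x} : Set F)) hBf
    have := hN
    have := hFr
    obtain ⟨a, b, hb, hab, e⟩ := locOneR_of_locallyFactoredP hinjR cf hp hζ hf cf.p₁ cf.prime₁
      (ssChart_mem₁ cf) (fun _ h1 _ => h1)
    obtain ⟨c', hc'⟩ := Ideal.mem_span_singleton'.1 hab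
    have hb0 : (b : F) ≠ 0 := Alg.H729.coe_ne_zero_of_not_mem hb
    have hc'F : (c' : F) * algebraMap R F ((ζ - 1) ^ p * w) = (a : F) - (b : F) :=
      congrArg (fun t : chart R ({x} : Set F) => (t : F)) hc'
    have ht : (c' : F) * (b : F)⁻¹ ∈ Alg.H729.compVal w (chart R ({x} : Set F)) cf.p₁ cf.p₂
        cf.prime₁ cf.inf_eq hcf.2 hw0 := by
      refine ⟨c', b, hb, ?_⟩
      rw [mul_assoc, inv_mul_cancel₀ hb0, mul_one]
    have hvt : v = 1 + algebraMap R F ((ζ - 1) ^ p * w) * ((c' : F) * (b : F)⁻¹) := by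
      have e1 : (b : F) * (b : F)⁻¹ = 1 := mul_inv_cancel₀ hb0
      linear_combination (b : F)⁻¹ * e - (b : F)⁻¹ * hc'F - (v - 1) * e1
    intro y hy
    exact as_isIntegral_mem_range E w hBf.hw
      (Alg.H729.compVal w (chart R ({x} : Set F)) cf.p₁ cf.p₂ cf.prime₁ cf.inf_eq hcf.2 hw0)
      (Alg.H729.algebraMap_mem_compVal w _ cf.p₁ cf.p₂ cf.prime₁ cf.inf_eq hcf.2 hw0)
      (Alg.H729.inv_not_mem_compVal w _ cf.p₁ cf.p₂ cf.prime₁ cf.inf_eq hcf.2 hw0)
      (Alg.H729.mul_inv_mem_compVal w _ cf.p₁ cf.p₂ cf.prime₁ cf.inf_eq hcf.2 hw0)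
      (Alg.H729.exists_pow_mul_mem_compVal w _ cf.p₁ cf.p₂ cf.prime₁ cf.inf_eq hcf.2 hw0)
      p hp ζ hζ _ ht (AdjoinRoot.root (X ^ p - C v)) (by rw [hyu, ← hvt])
      (fun b => by rw [AdjoinRoot.adjoinRoot_eq_top]; exact Algebra.mem_top) y hy
  obtain ⟨y₀, hy₀⟩ := as_ss (F₀ := F) (F := AdjoinRoot (X ^ p - C v)) hinjL hRL hxL hw hp hζ
    hyu hgen hLF_fin hLF_inf
  exact hnp y₀ hy₀

end Final

/-- **GLUE-p** : the leaf `GluePLeaf` of `Ribet/H495/AlgPSpec.lean`, VERBATIM. -/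
theorem glueP : GluePLeaf := by
  intro R E F _ _ _ _ _ _ _ _ _ _ _ _ _ p hp _ _ ζ hζ w x Bf Bi hBf hBi cf ci hcf hci v hv _ hf hi
  exact glueP_core p hp ζ hζ w x Bf Bi hBf hBi cf ci hcf hci v hv hf hi

end Fermat.Agent.Ribet.H552

end
-- ===== PACK-END Ribet/H552/GlueP.lean

-- ===== PACK-BEGIN Ribet/H224/AlgPFinal.lean
section





/-!
# RIBET row 38, WALL-p, W-ALGP (I5): `AlgPStatement`, UNCONDITIONAL  (assembly, helper224)

`H495.AlgP.algP_of_leaves` on the three landed leaves: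
WPS (`H913.wpSmoothLeaf`), WPN (`H224.wpNodeLeaf`), GLUE-p (`H552.glueP`).
-/

set_option autoImplicit false

namespace Fermat.Agent.Ribet.H224

/-- **ALG-p**, unconditional (route S-p of helper495). -/
theorem algP_unconditional : H495.AlgP.AlgPStatement :=
  H495.AlgP.algP_of_leaves H913.wpSmoothLeaf wpNodeLeaf H552.glueP

end Fermat.Agent.Ribet.H224

end
-- ===== PACK-END Ribet/H224/AlgPFinal.lean

-- ===== PACK-BEGIN Ribet/H552/AlgPFinal.lean
section





/-!
# RIBET wall-p, piece W-ALGP (I5): `AlgPStatement`, UNCONDITIONAL (helper552)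

`algP : H495.AlgP.AlgPStatement` — the frozen interface of `Ribet/H495/AlgPSpec.lean`
(sub-architect helper495), from the assembly `H495.AlgP.algP_of_leaves` and the three leaves
* WPS   `H913.wpSmoothLeaf` (helper913),
* WPN   `H224.wpNodeLeaf`   (helper224),
* GLUE-p `H552.glueP`       (helper552).
-/

set_option autoImplicit false

namespace Fermat.Agent.Ribet.H552

/-- **ALG-p** (wild ALG): inertia acts on the deeply split Kummer classes of order `p` through the
cyclotomic exponent. -/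
theorem algP : Fermat.Agent.Ribet.H495.AlgP.AlgPStatement :=
  Fermat.Agent.Ribet.H495.AlgP.algP_of_leaves Fermat.Agent.Ribet.H913.wpSmoothLeaf
    Fermat.Agent.Ribet.H224.wpNodeLeaf glueP

end Fermat.Agent.Ribet.H552

end
-- ===== PACK-END Ribet/H552/AlgPFinal.lean

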