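import Fermat.Agent.Pack.S44.G0E25L3
import Fermat.Agent.Pack.S44.G0E26L2
import Fermat.Agent.Pack.S44.G0E19L0
import Fermat.Agent.Pack.S44.G0E26L1
import Fermat.Agent.Pack.S44.G0E12L3
import Fermat.Agent.Pack.S44.G0E15L2
import Fermat.Agent.Pack.S44.G0E25L2
import Fermat.Agent.Pack.S44.G0E7L1
import Fermat.Agent.Pack.S44.G0E23L2
import Fermat.Agent.Pack.S44.G0E8L2
import Fermat.Agent.Pack.S44.G0E13L0
import Fermat.Agent.Pack.S44.G0E26L0
import Fermat.Agent.Pack.S44.G0E20L2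
import Fermat.Agent.Pack.S44.G0E25L0
import Fermat.Agent.Pack.S44.G0E23L1
import Fermat.Agent.Pack.S44.G0E9L1
import Fermat.Agent.Pack.S44.G0E24L1
import Fermat.Agent.Pack.S44.G0E20L0
import Fermat.Agent.Pack.S44.G0E5L0
import Fermat.Agent.Pack.S44.G0E4L3
import Fermat.Agent.Pack.S44.G0E23L0
import Fermat.Agent.Pack.S44.G0E18L2

-- ===== PACK-BEGIN S29/H282/K2Ana.lean
section




/-!
# S29 / M4b-K2 (helper282) — analytic adapter: twisted functions lie in `holN N`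

* `expGrowth_of_pow` : `f ^ p` of exponential growth (`p ≥ 1`) ⟹ `f` of exponential growth;
* `mem_holN_of_isTwisted` : a twisted function (M4b `IsTwisted`) of a parabolic character lies in
  the S24 ring `holN N`;
* `infExp_level_of_hasQExp` : a `q`-expansion (`H708.HasQExp 1`) gives the `q^{1/N}`-expansion.
-/

set_option autoImplicit false

noncomputable section

open ModularCurve AlgebraicCurve CongruenceSubgroup UpperHalfPlane
open scoped MatrixGroups Manifold Real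

namespace Fermat.Agent.S29.H282

open Fermat.Agent.S24 Fermat.Agent.S24.H997 Fermat.Agent.S24.H648 Fermat.Agent.S24.H708
open Fermat.Agent.S24.H624
open Fermat.Agent.S29 Fermat.Agent.S29.M4b Fermat.Agent.S29.H332

/-- root extraction for growth bounds -/
theorem expGrowth_of_pow {f : ℍ → ℂ} {p : ℕ} (hp : p ≠ 0)
    (h : ExpGrowth (fun τ => f τ ^ p)) : ExpGrowth f := by
  obtain ⟨C, m, hb⟩ := h
  refine ⟨1 + |C|, m, fun τ hτ => ?_⟩
  have h1 := hb τ hτ
  rw [norm_pow] at h1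
  have hexp : (1 : ℝ) ≤ Real.exp (2 * π * m * τ.im) := by
    apply Real.one_le_exp
    have := Real.pi_pos
    have := τ.im_pos
    positivity
  have hC : C * Real.exp (2 * π * m * τ.im) ≤ |C| * Real.exp (2 * π * m * τ.im) :=
    mul_le_mul_of_nonneg_right (le_abs_self C) (Real.exp_pos _).le
  rcases le_or_gt ‖f τ‖ 1 with h0 | h0
  · calc ‖f τ‖ ≤ 1 := h0
      _ ≤ Real.exp (2 * π * m * τ.im) := hexp
      _ ≤ (1 + |C|) * Real.exp (2 * π * m * τ.im) := by
        have : 0 ≤ |C| * Real.exp (2 * π * m * τ.im) :=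
          mul_nonneg (abs_nonneg C) (Real.exp_pos _).le
        linarith
  · have h2 : ‖f τ‖ ≤ ‖f τ‖ ^ p := le_self_pow₀ h0.le hp
    calc ‖f τ‖ ≤ ‖f τ‖ ^ p := h2
      _ ≤ C * Real.exp (2 * π * m * τ.im) := h1
      _ ≤ |C| * Real.exp (2 * π * m * τ.im) := hC
      _ ≤ (1 + |C|) * Real.exp (2 * π * m * τ.im) := by
        have : 0 ≤ Real.exp (2 * π * m * τ.im) := (Real.exp_pos _).le
        linarith

theorem qh_one_eq_qh_pow (N : ℕ) [NeZero N] (τ : ℍ) : qh 1 τ = qh N τ ^ N := by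
  have hN : (N : ℂ) ≠ 0 := by exact_mod_cast NeZero.ne N
  rw [qh_apply, qh_apply, Function.Periodic.qParam, Function.Periodic.qParam,
    ← Complex.exp_nat_mul]
  congr 1
  push_cast
  field_simp

/-- exponential growth gives a pole of finite order in the variable `q^{1/N}` -/
theorem isBounded_mul_qh_pow_level (N : ℕ) [NeZero N] {f : ℍ → ℂ} (hf : ExpGrowth f) :
    ∃ M : ℕ, IsBoundedAtImInfty (f * qh N ^ M) := by
  obtain ⟨M, hM⟩ := Fermat.Agent.S29.H882.isBounded_mul_qh_pow_of_expGrowth hf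
  refine ⟨N * M, ?_⟩
  have : f * qh N ^ (N * M) = f * qh 1 ^ M := by
    funext τ
    simp only [Pi.mul_apply, Pi.pow_apply]
    rw [qh_one_eq_qh_pow N τ, ← pow_mul]
  rw [this]
  exact hM

variable {N : ℕ} [NeZero N] {p : ℕ} [NeZero p]

/-- the multiplicative character of a twisted function -/
theorem hasCharacter_of_hasChar {c : G0 N → ZMod p} (hc : IsParHom c) {U : ℍ → ℂ}
    (hU : HasChar N p c U) : HasCharacter (isParAdd_of_isParHom hc).char U := by
  intro γ τ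
  rw [hU γ τ, IsParAdd.char_apply, zetaP_pow_val]

/-- **A twisted function of a parabolic character lies in `holN N`.** -/
theorem mem_holN_of_isTwisted {c : G0 N → ZMod p} (hc : IsParHom c) {U : ℍ → ℂ}
    (hU : IsTwisted N p c U) : U ∈ holN N := by
  have hc' : IsParAdd c := isParAdd_of_isParHom hc
  have hh : HasCharacter hc'.char U := hasCharacter_of_hasChar hc hU.hasChar
  have hχ : ParTrivial hc'.char := hc'.parTrivial
  refine ⟨hU.mdiff, fun g => ?_⟩
  have hhol : MDiff (compSL g U) := (precompSL g ⟨U, hU.mdiff⟩).2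
  have hper : Function.Periodic (compSL g U ∘ ofComplex) (N : ℝ) :=
    hh.periodic hχ g N (by simpa using conj_T_zpow_mem_Gamma0 N g 1)
  have hgr : ExpGrowth (compSL g U) :=
    expGrowth_of_pow (NeZero.ne p) (hU.pow_mem.2.2 g)
  have hmer : IsMerInf N (compSL g U) := ⟨hhol, hper, isBounded_mul_qh_pow_level N hgr⟩
  have hq := HasQExp.of_isMerInf hmer
  have hinf : InfExp N (compSL g U) (qexpFun N (compSL g U)) := fun τ => hq.hasSum τ
  exact hinf.mem_expRing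

/-- from the `q`-expansion to the `q^{1/N}`-expansion -/
theorem infExp_level_of_hasQExp {G : ℍ → ℂ} {φ : LaurentSeries ℂ} (h : HasQExp 1 G φ) :
    InfExp N G (qExpand ℂ N φ) := by
  have hN : (N : ℂ) ≠ 0 := by exact_mod_cast NeZero.ne N
  have h1 : InfExp 1 G φ := fun τ => h.hasSum τ
  have h2 := h1.subst (N := N) (fun τ => τ) 1 N (fun τ => by
    rw [infZ_def, infZ_def, Units.val_one, one_mul, ← Complex.exp_nat_mul]
    congr 1
    push_cast
    field_simp)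
  rwa [infTwist_one] at h2

end Fermat.Agent.S29.H282

end
end
-- ===== PACK-END S29/H282/K2Ana.lean

-- ===== PACK-BEGIN S30/H810/RevDict.lean
section
/-
S30 / piece FIN-ONTO (helper810), part 2: the REVERSE DICTIONARY.

If `u ∈ FF N` is realised by the good function `G` and `p ∣ ord_v u` at every place `v` of
`FF N / ℚ̄`, then `p ∣ ord_τ G` at EVERY point `τ ∈ ℍ`.

Proof: the Taylor embedding `σ_τ : FF N → ℂ((z))` either is trivial (all orders `0`; this is the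
case of transcendental `j(τ)`) or defines a place `v_τ` with `ord ∘ σ_τ = k * ord_{v_τ}`
(`S24.H117.exists_mult`).
-/


set_option autoImplicit false
set_option linter.unusedSectionVars false

noncomputable section

open ModularCurve AlgebraicCurve CongruenceSubgroup UpperHalfPlane HahnSeries
open scoped MatrixGroups Manifold

namespace Fermat.Agent.S30.H810

open Fermat.Agent.S24 Fermat.Agent.S24.H648 Fermat.Agent.S24.H708 Fermat.Agent.S24.Deg457
open Fermat.Agent.S24.H624 Fermat.Agent.S24.H997 Fermat.Agent.S29 Fermat.Agent.S29.M4b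
open Fermat.Agent.S29.H882

variable {N : ℕ} [NeZero N]

theorem eord_sigmaTau_algebraMap (τ : ℍ) (c : Kbar) :
    H117.eord (sigmaTau N τ) (algebraMap Kbar (FF N) c) = 0 := by
  rw [H117.eord, sigmaTau_algebraMap, HahnSeries.order_C]

/-- the order of the Taylor embedding of a realised element is the analytic order -/
theorem eord_sigmaTau_of_realises {u : FF N} {G : ℍ → ℂ} (hG : Realises N u G)
    (τ : ℍ) {n : ℕ} (hn : ordAt τ G = (n : ℕ∞)) :
    H117.eord (sigmaTau N τ) u = (n : ℤ) := by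
  have hmd : G ∈ holoRing := hG.1.1
  rw [H117.eord, sigmaTau_of_realises hG hmd τ, taylorLaurent_apply]
  apply order_ofPowerSeries
  rw [order_taylorAt]
  exact hn

theorem realises_ne_zero {u : FF N} {G : ℍ → ℂ} (hG : Realises N u G) (hu : u ≠ 0) : G ≠ 0 := by
  intro h0
  have h := Realises.hasQExp hG
  have h1 : coeffMap iotaC ((u : FF N) : LaurentSeries Kbar) = 0 := (h.eq_zero_iff).mpr h0
  apply hu
  apply Subtype.ext
  apply coeffMap_iotaC_injective
  rw [h1]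
  simp

/-- **REVERSE DICTIONARY.** -/
theorem exists_analyticOrderAt_eq_mul {u : FF N} {G : ℍ → ℂ} (hG : Realises N u G) (hu : u ≠ 0)
    (p : ℕ) (hp : p ≠ 0) (hdiv : ∀ v : Place Kbar (FF N), (p : ℤ) ∣ v.ord u) (τ : ℍ) :
    ∃ m : ℕ, analyticOrderAt (G ∘ ofComplex) (τ : ℂ) = ((p * m : ℕ) : ℕ∞) := by
  have hmd : MDiff G := hG.1.1
  have hG0 : G ≠ 0 := realises_ne_zero hG hu
  have htop : ordAt τ G ≠ ⊤ := ordAt_ne_top hmd hG0 τ
  obtain ⟨n, hn⟩ := ENat.ne_top_iff_exists.mp htop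
  have hord : H117.eord (sigmaTau N τ) u = (n : ℤ) := eord_sigmaTau_of_realises hG τ hn.symm
  rw [← ordAt_def, ← hn]
  by_cases hnt : ∃ t : FF N, H117.eord (sigmaTau N τ) t ≠ 0
  · obtain ⟨k, hk, h⟩ := H117.exists_mult (K := Kbar) (sigmaTau N τ)
      (fun c => (eord_sigmaTau_algebraMap τ c).ge) hnt
    obtain ⟨j, hj⟩ := hdiv (H117.placeOfEmb (sigmaTau N τ)
      (fun c => (eord_sigmaTau_algebraMap τ c).ge) hnt)
    have h1 := h u
    rw [hord, hj] at h1
    have hk' : (0 : ℤ) < k := by exact_mod_cast hk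
    have hp' : (0 : ℤ) < p := by exact_mod_cast Nat.pos_of_ne_zero hp
    have hj0 : 0 ≤ j := by
      by_contra hneg
      push Not at hneg
      have : (k : ℤ) * (p * j) < 0 :=
        mul_neg_of_pos_of_neg hk' (mul_neg_of_pos_of_neg hp' hneg)
      omega
    refine ⟨k * j.toNat, ?_⟩
    have h2 : (n : ℤ) = ((p * (k * j.toNat) : ℕ) : ℤ) := by
      push_cast
      rw [Int.toNat_of_nonneg hj0, h1]
      ring
    have h3 : n = p * (k * j.toNat) := by exact_mod_cast h2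
    rw [h3]
  · push Not at hnt
    have h1 := hnt u
    rw [hord] at h1
    have h3 : n = 0 := by exact_mod_cast h1
    exact ⟨0, by rw [h3]; simp⟩

end Fermat.Agent.S30.H810

end
end
-- ===== PACK-END S30/H810/RevDict.lean

-- ===== PACK-BEGIN S29/H102/KUniq.lean
section
/-
S29 / M4b / PIECE `K4-UNIQ` (helper102): the Kummer class of a character is unique.

EXACT statement of `origin/helper822:Fermat/Agent/S29/M4b/Skeleton.lean` (`isKum_unique`):

    theorem isKum_unique (N : ℕ) [NeZero N] (p : ℕ) [NeZero p] {c : G0 N → ZMod p}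
        {x x' : JZero N} (h : IsKum N p c x) (h' : IsKum N p c x') : x = x'

Proof.  Data `(f, t, U)`, `(f', t', U')`.  `V := U * U' ^ (p-1)` has trivial character and
`V ^ p = U ^ p * (U' ^ p) ^ (p-1)` is good, so `V` is good and realises a `p`-th root `v ∈ FF N`
of `w := (f t^p) (f' t'^p)^(p-1)` (`KBasic_exists_root`: MERO + root descent + coefficient
descent).  Hence `f * f' ^ (p-1) = (v / (t * t' ^ (p-1))) ^ p`, so `x + (p-1) • x' = 0`; as
`p • x' = 0` we get `x = x'`.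
-/


set_option autoImplicit false

noncomputable section

open ModularCurve AlgebraicCurve CongruenceSubgroup UpperHalfPlane
open scoped MatrixGroups Manifold

namespace Fermat.Agent.S29.H102

open Fermat.Agent.S24 Fermat.Agent.S29 Fermat.Agent.S29.M4b
open Fermat.Agent.S24.H648 Fermat.Agent.S24.H708

section Algebra

variable {K F : Type*} [Field K] [Field F] [Algebra K F]

/-- Kummer classes of powers. -/
theorem KUniq_isKummerClass_pow {n : ℤ} {g : F} {y : Pic0 K F}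
    (h : H455.IsKummerClass n g y) (k : ℕ) : H455.IsKummerClass n (g ^ k) (k • y) := by
  induction k with
  | zero =>
    rw [pow_zero, zero_nsmul]
    exact H455.IsKummerClass.zero
  | succ k ih =>
    rw [pow_succ, succ_nsmul]
    exact ih.add h

/-- The Kummer class of an `n`-th power is trivial. -/
theorem KUniq_eq_zero_of_pow {p : ℕ} (hp : p ≠ 0) {g : F} (hg : g ≠ 0) {y : Pic0 K F}
    (h : H455.IsKummerClass (p : ℤ) (g ^ p) y) : y = 0 := by
  have hn : (p : ℤ) ≠ 0 := Int.natCast_ne_zero.mpr hp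
  rw [h.eq_zero_iff hn]
  refine ⟨g, hg, fun v => ?_⟩
  rw [← zpow_natCast, Place.ord_zpow]

end Algebra

variable (N : ℕ) [NeZero N] (p : ℕ) [NeZero p]

omit [NeZero N] in
/-- The product `U * U' ^ (p-1)` of two twisted functions of the same character is
`Γ₀(N)`-invariant. -/
theorem KUniq_invariant {c : G0 N → ZMod p} {U U' : ℍ → ℂ} (hU : HasChar N p c U)
    (hU' : HasChar N p c U') (γ : SL(2, ℤ)) (hγ : γ ∈ Gamma0 N) (τ : ℍ) :
    U (γ • τ) * U' (γ • τ) ^ (p - 1) = U τ * U' τ ^ (p - 1) := by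
  have h1 := hU ⟨γ, hγ⟩ τ
  have h2 := hU' ⟨γ, hγ⟩ τ
  simp only at h1 h2
  rw [h1, h2, mul_pow]
  have hp : p - 1 + 1 = p := Nat.sub_add_cancel (Nat.one_le_iff_ne_zero.mpr (NeZero.ne p))
  have h3 : zetaP p ^ (c ⟨γ, hγ⟩).val * (zetaP p ^ (c ⟨γ, hγ⟩).val) ^ (p - 1) = 1 := by
    rw [← pow_succ', hp, ← pow_mul, mul_comm, pow_mul, KBasic_zetaP_pow, one_pow]
  calc zetaP p ^ (c ⟨γ, hγ⟩).val * U τ * ((zetaP p ^ (c ⟨γ, hγ⟩).val) ^ (p - 1) * U' τ ^ (p - 1))
      = (zetaP p ^ (c ⟨γ, hγ⟩).val * (zetaP p ^ (c ⟨γ, hγ⟩).val) ^ (p - 1))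
          * (U τ * U' τ ^ (p - 1)) := by ring
    _ = U τ * U' τ ^ (p - 1) := by rw [h3, one_mul]

/-- **PIECE `K4-UNIQ`.** -/
theorem isKum_unique {c : G0 N → ZMod p} {x x' : JZero N}
    (h : IsKum N p c x) (h' : IsKum N p c x') : x = x' := by
  obtain ⟨f, t, U, ht, hx, hU, hR⟩ := h
  obtain ⟨f', t', U', ht', hx', hU', hR'⟩ := h'
  have hp : p ≠ 0 := NeZero.ne p
  have hp1 : p - 1 + 1 = p := Nat.sub_add_cancel (Nat.one_le_iff_ne_zero.mpr hp)
  -- the invariant function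
  set V : ℍ → ℂ := fun τ => U τ * U' τ ^ (p - 1) with hVdef
  have hVmd : MDifferentiable 𝓘(ℂ) 𝓘(ℂ) V := hU.mdiff.mul (hU'.mdiff.pow (p - 1))
  have hVinv : ∀ γ ∈ Gamma0 N, ∀ τ : ℍ, V (γ • τ) = V τ := fun γ hγ τ =>
    KUniq_invariant N p hU.hasChar hU'.hasChar γ hγ τ
  have hVfun : (fun τ => V τ ^ p)
      = (fun τ => U τ ^ p) * (fun τ => U' τ ^ p) ^ (p - 1) := by
    funext τ
    simp only [hVdef, Pi.mul_apply, Pi.pow_apply]
    rw [mul_pow, ← pow_mul, ← pow_mul, mul_comm (p - 1) p]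
  have hVpow : (fun τ => V τ ^ p) ∈ goodRing N := by
    rw [hVfun]
    exact (goodRing N).mul_mem hR.1 ((goodRing N).pow_mem hR'.1 _)
  have hVgood : V ∈ goodRing N := KBasic_mem_goodRing_of_pow hp hVmd hVinv hVpow
  -- the algebraic function realised by `V ^ p`
  set w : FF N := (f * t ^ p) * (f' * t' ^ p) ^ (p - 1) with hwdef
  have hw : Realises N w (fun τ => V τ ^ p) := by
    refine ⟨hVpow, ?_⟩
    have h1 := (KBasic_realises_hasQExp hR).mul ((KBasic_realises_hasQExp hR').pow (p - 1))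
    rw [← hVfun] at h1
    rw [h1.qexpFun_eq, hwdef]
    simp only [MulMemClass.coe_mul, SubmonoidClass.coe_pow, map_mul, map_pow]
  obtain ⟨v, hvp, -⟩ := KBasic_exists_root hp hVgood hw
  -- `f * f' ^ (p-1)` is a `p`-th power
  have hf0 : f ≠ 0 := hx.ne_zero
  have hf0' : f' ≠ 0 := hx'.ne_zero
  have hd0 : t * t' ^ (p - 1) ≠ 0 := mul_ne_zero ht (pow_ne_zero _ ht')
  have hv0 : v ≠ 0 := by
    intro h0
    have : w = 0 := by rw [← hvp, h0, zero_pow hp]
    rw [hwdef] at this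
    exact (mul_ne_zero (mul_ne_zero hf0 (pow_ne_zero _ ht))
      (pow_ne_zero _ (mul_ne_zero hf0' (pow_ne_zero _ ht')))) this
  have hg0 : v / (t * t' ^ (p - 1)) ≠ 0 := div_ne_zero hv0 hd0
  have hpow : f * f' ^ (p - 1) = (v / (t * t' ^ (p - 1))) ^ p := by
    rw [div_pow, hvp, hwdef, eq_div_iff (pow_ne_zero _ hd0)]
    ring
  have hcl : H455.IsKummerClass (p : ℤ) (f * f' ^ (p - 1)) (x + (p - 1) • x') :=
    hx.add (KUniq_isKummerClass_pow hx' (p - 1))
  rw [hpow] at hcl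
  have hzero : x + (p - 1) • x' = 0 := KUniq_eq_zero_of_pow hp hg0 hcl
  have hpx' : p • x' = 0 := by
    have := hx'.zsmul_eq_zero
    rwa [natCast_zsmul] at this
  have h2 : (p - 1) • x' + x' = 0 := by
    rw [← succ_nsmul, hp1]
    exact hpx'
  have h3 : (p - 1) • x' = -x' := eq_neg_of_add_eq_zero_left h2
  rw [h3] at hzero
  exact eq_of_sub_eq_zero (by rw [sub_eq_add_neg]; exact hzero)

end Fermat.Agent.S29.H102

end
end
-- ===== PACK-END S29/H102/KUniq.lean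

-- ===== PACK-BEGIN S30/H810/Fin.lean
section
/-
S30 / piece FIN (helper810): `J₀(N)(ℚ̄)[m]` is FINITE, unconditionally, for every `m ≥ 1`.

* `dcStatement N m : H109.DCStatement N m` — the converse dictionary in helper109's shape,
  from the reverse dictionary `exists_analyticOrderAt_eq_mul` (`RevDict.lean`);
* `torsion_finite N m : {x : JZero N | m • x = 0}.Finite` — via helper109's `finite_torsion`
  and the landed M4b piece K4-UNIQ (`H102.isKum_unique`);
* `exists_hom_isKum_of_torsion` — ONTO with an additive character.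
-/




set_option autoImplicit false
set_option linter.unusedSectionVars false

noncomputable section

open ModularCurve AlgebraicCurve CongruenceSubgroup UpperHalfPlane HahnSeries
open scoped MatrixGroups Manifold

namespace Fermat.Agent.S30.H810

open Fermat.Agent.S24 Fermat.Agent.S24.H648 Fermat.Agent.S24.H708 Fermat.Agent.S24.Deg457
open Fermat.Agent.S24.H624 Fermat.Agent.S24.H997 Fermat.Agent.S29 Fermat.Agent.S29.M4b
open Fermat.Agent.S29.H882

variable (N : ℕ) [NeZero N]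

/-- Clearing poles: every `f ∈ FF N` times a suitable `m`-th power is realised by a good
function. -/
theorem exists_realises_mul_pow (m : ℕ) (hm : m ≠ 0) (f : FF N) :
    ∃ (t : FF N) (G : ℍ → ℂ), t ≠ 0 ∧ Realises N (f * t ^ m) G := by
  obtain ⟨r, t, ht, hft⟩ := exists_div_inclRN N f
  have ht' : inclRN N t ≠ 0 := fun h => ht (inclRN_injective N (by rw [h, map_zero]))
  obtain ⟨q, hq⟩ : ∃ q : ℕ, m = q + 1 := ⟨m - 1, by have := Nat.pos_of_ne_zero hm; omega⟩
  have hur : f * inclRN N t ^ m = inclRN N (r * t ^ q) := by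
    rw [hft, hq, map_mul, map_pow, pow_succ]
    field_simp
  refine ⟨inclRN N t, realFun N (r * t ^ q), ht', realFun_mem N _, ?_⟩
  rw [(realFun_hasQExp N (r * t ^ q)).qexpFun_eq, hur]
  rfl

/-- **The converse dictionary** in helper109's shape. -/
theorem dcStatement (m : ℕ) [NeZero m] : H109.DCStatement N m := by
  intro f hf hdiv
  have hm : m ≠ 0 := NeZero.ne m
  obtain ⟨t, G, ht, hG⟩ := exists_realises_mul_pow N m hm f
  refine ⟨t, G, ht, hG, fun τ => ?_⟩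
  refine exists_analyticOrderAt_eq_mul hG (mul_ne_zero hf (pow_ne_zero _ ht)) m hm ?_ τ
  intro v
  rw [Place.ord_mul v hf (pow_ne_zero _ ht), H117.ord_pow]
  exact dvd_add (hdiv v) (dvd_mul_right _ _)

/-- **FIN**: the `m`-torsion of `J₀(N)(ℚ̄)` is finite. -/
theorem torsion_finite (m : ℕ) [NeZero m] : {x : JZero N | m • x = 0}.Finite :=
  H109.finite_torsion N m (dcStatement N m)
    (fun _ _ _ h h' => H102.isKum_unique N m h h')

/-- **ONTO** with an additive character. -/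
theorem exists_hom_isKum_of_torsion (m : ℕ) [NeZero m] {x : JZero N} (hx : (m : ℤ) • x = 0) :
    ∃ c : G0 N → ZMod m, (∀ γ γ' : G0 N, c (γ * γ') = c γ + c γ') ∧ IsKum N m c x :=
  H109.exists_isKum_of_torsion N m (dcStatement N m) hx

end Fermat.Agent.S30.H810

end
end
-- ===== PACK-END S30/H810/Fin.lean

-- ===== PACK-BEGIN S37/H697/Kronecker.lean
section




/-!
# S37 (helper697): the Kronecker congruence for norms, `KroneckerNorm`

Assembly of
* NORM (helper819, `H819.norm_heckeBeta`): `Nm_α (β y)(u^ℓ) = y(u^{ℓ²}) ∏_{b<ℓ} y(ζ^b u)`,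
* the formal product formula and Kronecker congruence (helper340, `H340.kron_*`),

into the hypothesis `KroneckerNorm A π N ℓ φ` of `Relation.lean`: for `ℓ` prime, `ℓ ∤ N`, `A` a
valuation subring of `ℚ̄`, `π : A → k` a homomorphism to a field of characteristic `ℓ` and `φ` an
automorphism of `k` with `φ x = x ^ ℓ`, the norm of `β y` (`y ∈ A((q)) ∩ F̄_N`) is the series
`knorm ℓ y ∈ A((q))`, with reduction `(Φ⁻¹ ȳ) ^ ℓ · Φ ȳ`.
-/

set_option autoImplicit false
set_option linter.style.haveILetI false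

noncomputable section

namespace Fermat.Agent.S37.H697

open ModularCurve HahnSeries AlgebraicCurve Fermat.Agent.S24

section TwistCompare

variable {R : Type*} [CommRing R] (ℓ : ℕ) [NeZero ℓ]

theorem zpw_eq_zpow (u : Rˣ) (hu : (u : R) ^ ℓ = 1) (n : ℤ) :
    H340.zpw ℓ (u : R) n = ((u ^ n : Rˣ) : R) := by
  have hℓ : (ℓ : ℤ) ≠ 0 := by exact_mod_cast NeZero.ne ℓ
  have hu' : u ^ ℓ = 1 := Units.ext (by rw [Units.val_pow_eq_pow_val, hu, Units.val_one])
  have h1 : 0 ≤ n % (ℓ : ℤ) := Int.emod_nonneg n hℓ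
  have h2 : n = (ℓ : ℤ) * (n / (ℓ : ℤ)) + ((n % (ℓ : ℤ)).toNat : ℤ) := by
    rw [Int.toNat_of_nonneg h1]
    exact (Int.mul_ediv_add_emod n ℓ).symm
  unfold H340.zpw
  conv_rhs => rw [h2, zpow_add, zpow_mul, zpow_natCast, hu', one_zpow, one_mul, zpow_natCast]
  rw [Units.val_pow_eq_pow_val]

theorem tw_eq_infTwist (u : Rˣ) (hu : (u : R) ^ ℓ = 1) (f : LaurentSeries R) :
    H340.tw ℓ (u : R) f = infTwist u f := by
  ext n
  rw [H340.tw_coeff, infTwist_coeff, zpw_eq_zpow ℓ u hu, mul_comm]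

end TwistCompare

section NormId

variable (N ℓ : ℕ) [NeZero N] [NeZero ℓ]

/-- **NORM-ID**: the `q`-expansion of `Nm_α (β Y)` is the formal Kronecker norm of `Y`. -/
theorem coe_normAlong_heckeBeta (hℓ : ℓ.Prime) (hℓN : ¬ ℓ ∣ N) (Y : FF N) :
    ((normAlong (heckeAlphaBar Kbar N ℓ) (heckeBetaBar Kbar N ℓ Y) : FF N) : LaurentSeries Kbar)
      = knorm ℓ (Y : LaurentSeries Kbar) := by
  haveI : NeZero ((ℓ : ℕ) : ℚ) := ⟨by exact_mod_cast hℓ.ne_zero⟩
  obtain ⟨ζ0, hζ0⟩ := HasEnoughRootsOfUnity.exists_primitiveRoot Kbar ℓ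
  obtain ⟨ζ, rfl⟩ := hζ0.isUnit hℓ.ne_zero
  apply qExpand_injective (R := Kbar) ℓ
  have h := H819.norm_heckeBeta N ℓ hℓ hℓN ζ hζ0 Y
  have e : (qExpand Kbar ℓ) ((normAlong (heckeAlphaBar Kbar N ℓ) (heckeBetaBar Kbar N ℓ Y) : FF N)
      : LaurentSeries Kbar)
      = qExpand Kbar (ℓ * ℓ) (Y : LaurentSeries Kbar)
        * ∏ b ∈ Finset.range ℓ, infTwist (ζ ^ b) (Y : LaurentSeries Kbar) := h
  rw [e, knorm, map_mul, qExpand_qExpand, qExpand_kdet_eq_prod ℓ hζ0,
    Fin.prod_univ_eq_prod_range (fun b : ℕ => H340.tw ℓ ((ζ : Kbar) ^ b) (Y : LaurentSeries Kbar)) ℓ]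
  congr 1
  refine Finset.prod_congr rfl fun b _ => ?_
  have hb : (((ζ ^ b : Kbarˣ) : Kbar)) ^ ℓ = 1 := by
    rw [Units.val_pow_eq_pow_val, ← pow_mul, mul_comm, pow_mul, hζ0.pow_eq_one, one_pow]
  rw [← tw_eq_infTwist ℓ (ζ ^ b) hb, Units.val_pow_eq_pow_val]

end NormId

section Main

variable (N ℓ : ℕ) [NeZero N] [NeZero ℓ]

/-- **The Kronecker congruence for norms.** -/
theorem kroneckerNorm (hℓ : ℓ.Prime) (hℓN : ¬ ℓ ∣ N) (A : ValuationSubring Kbar)
    {k : Type*} [Field k] [CharP k ℓ] (π : A →+* k) (φ : k ≃+* k) (hφ : ∀ x, φ x = x ^ ℓ) :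
    KroneckerNorm A π N ℓ φ := by
  intro y hy _ _
  haveI : Fact ℓ.Prime := ⟨hℓ⟩
  have hnorm := coe_normAlong_heckeBeta N ℓ hℓ hℓN ⟨coeffMap A.subtype y, hy⟩
  have hz : coeffMap A.subtype (knorm ℓ y) = knorm ℓ (coeffMap A.subtype y) :=
    (knorm_coeffMap ℓ A.subtype y).symm
  have e : ((normAlong (heckeAlphaBar Kbar N ℓ)
      (heckeBetaBar Kbar N ℓ ⟨coeffMap A.subtype y, hy⟩) : FF N) : LaurentSeries Kbar)
      = coeffMap A.subtype (knorm ℓ y) := hnorm.trans hz.symm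
  have hmem : coeffMap A.subtype (knorm ℓ y)
      ∈ laurentBaseChange Kbar (modularFunctionFieldFull N) :=
    e ▸ (normAlong (heckeAlphaBar Kbar N ℓ)
      (heckeBetaBar Kbar N ℓ ⟨coeffMap A.subtype y, hy⟩)).2
  refine ⟨knorm ℓ y, hmem, Subtype.ext e, ?_⟩
  rw [← knorm_coeffMap, knorm_char_equiv ℓ φ hφ]

end Main

end Fermat.Agent.S37.H697

end
end
-- ===== PACK-END S37/H697/Kronecker.lean

-- ===== PACK-BEGIN S37/H697/Final2.lean
section



/-!
# S37 (helper697): the frozen statement S37 from TWO inputs (route B, final form)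

`KroneckerNorm` is now proved (`Kronecker.lean`: NORM of helper819 + formal Kronecker congruence
of helper340), so the bounded-homomorphism route reduces S37 to

* `hRed : ReductionInputsModL A N`   — existence of a place reduction `r` with Prelude (i), (ii)
  (`IsPlaceReductionAlong`) and `PrincipalGeneratedByIntegral` (the latter is on `main`:
  `S37.H448.principalGeneratedByIntegral`);
* `hS18 : Core.InjTorsionModL N ℓ A` — the conclusion of the frozen statement S18.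

`weakRedData_of_red` produces the row's final interface `Core.WeakRedData N A ℓ σ₀`
(so that `Core.result_of_weakRedData` / `H99.rawES_of_weakRedData` apply with `M = N`).
-/

set_option autoImplicit false
set_option synthInstance.maxHeartbeats 400000
set_option maxHeartbeats 1600000

noncomputable section

open HahnSeries IntermediateField AlgebraicCurve ModularCurve ValuationSubring

namespace Fermat.Agent.S37.H697

/-- The residue field of a valuation subring of `ℚ̄` over `ℓ` has characteristic `ℓ`. -/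
theorem charP_residueField {ℓ : ℕ} (hℓ : ℓ.Prime)
    (A : ValuationSubring (AlgebraicClosure ℚ)) (hA : A.LiesOverPrime ℓ) :
    CharP (IsLocalRing.ResidueField A) ℓ := by
  refine (CharP.charP_iff_prime_eq_zero hℓ).mpr ?_
  have h1 : ((ℓ : A) : AlgebraicClosure ℚ) ∈ A.nonunits := by
    have : ((ℓ : A) : AlgebraicClosure ℚ) = (ℓ : AlgebraicClosure ℚ) := by push_cast; rfl
    rw [this]; exact hA
  have h2 : (ℓ : A) ∈ IsLocalRing.maximalIdeal A := ValuationSubring.coe_mem_nonunits_iff.mp h1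
  have h3 := (IsLocalRing.residue_eq_zero_iff (ℓ : A)).mpr h2
  rwa [map_natCast] at h3

/-- The Kronecker congruence for norms at a valuation subring of `ℚ̄` over `ℓ ∤ N`. -/
theorem kroneckerNorm_residue (N : ℕ) [NeZero N] {ℓ : ℕ} [NeZero ℓ] (hℓ : ℓ.Prime)
    (hℓN : ¬ ℓ ∣ N) (A : ValuationSubring (AlgebraicClosure ℚ)) (hA : A.LiesOverPrime ℓ)
    (φ : IsLocalRing.ResidueField A ≃+* IsLocalRing.ResidueField A) (hφ : ∀ x, φ x = x ^ ℓ) :
    KroneckerNorm A (IsLocalRing.residue A) N ℓ φ := by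
  have := charP_residueField hℓ A hA
  exact kroneckerNorm N ℓ hℓ hℓN A (IsLocalRing.residue A) φ hφ

/-- **`Core.WeakRedData` from a place reduction and S18.** -/
def weakRedData_of_red (N : ℕ) [NeZero N] (A : ValuationSubring (AlgebraicClosure ℚ))
    (ℓ : ℕ) [NeZero ℓ] (hℓ : ℓ.Prime) (hℓN : ¬ ℓ ∣ N) (hA : A.LiesOverPrime ℓ)
    (h : ReductionInputsModL A N)
    (hinj : Core.InjTorsionModL N ℓ A)
    (σ₀ : AlgebraicClosure ℚ ≃ₐ[ℚ] AlgebraicClosure ℚ) (hσ₀ : A.IsFrobeniusAt σ₀ ℓ) :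
    Core.WeakRedData N A ℓ σ₀ :=
  weakRedData_of_kronecker N A ℓ h hinj (kroneckerNorm_residue N hℓ hℓN A hA) σ₀ hσ₀

/-- **The frozen statement S37 from place reductions and S18.** -/
theorem result_of_red (N p : ℕ) [NeZero N]
    (hRed : ∀ ℓ : ℕ, ℓ.Prime → ¬ ℓ ∣ N →
      ∀ A : ValuationSubring (AlgebraicClosure ℚ), A.LiesOverPrime ℓ → ReductionInputsModL A N)
    (hS18 : ∀ ℓ : ℕ, ℓ.Prime → ¬ ℓ ∣ N →
      ∀ A : ValuationSubring (AlgebraicClosure ℚ), A.LiesOverPrime ℓ → Core.InjTorsionModL N ℓ A)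
    (hcomm : ModularCurve.HeckeOperatorsCommuteBar N) :
    letI := ModularCurve.heckeModuleBar N
    ∀ (_ : SMulCommClass (AlgebraicClosure ℚ ≃ₐ[ℚ] AlgebraicClosure ℚ) ModularCurve.HeckeAlg
      (ModularCurve.JZero N)),
      ModularCurve.SpecializationExists (K := ℚ) (L := AlgebraicClosure ℚ) N p
        (ModularCurve.JZero N) :=
  result_of_kronecker N p hRed hS18
    (fun ℓ hℓ hℓN A hA =>
      haveI : NeZero ℓ := ⟨hℓ.ne_zero⟩
      kroneckerNorm_residue N hℓ hℓN A hA)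
    hcomm

end Fermat.Agent.S37.H697

end
end
-- ===== PACK-END S37/H697/Final2.lean

-- ===== PACK-BEGIN Ribet/H573/SplitRoot.lean
section





/-!
# Row 38, WALL-p, bridge SPLIT-LIFT, part 1: `p`-th roots in `k(X₀(M))` (helper573)

`k` a perfect field of characteristic `p`, `p ∤ M`, `F_k = modularFunctionFieldFullC k M ⊆ k((t))`.

* `exists_pow_eq_of_split` : a series `r ∈ k((t^p))` is a `p`-th power in `k((t))`;
* `root_mem_full`          : if `s ^ p ∈ F_k` then `s ∈ F_k`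
  (`s` is algebraic over `k(j̄)`, hence separable over it by `S18/H264`, so
  `k(j̄)(s) = k(j̄)(s^p) ⊆ F_k`);
* `exists_root_in_full`    : `r ∈ F_k ∩ k((t^p))  ⟹  r = s ^ p` with `s ∈ F_k`;
* `theta_eq_zero_iff_split`: `θ r = 0 ⟺ r ∈ k((t^p))` (coefficientwise).
-/

set_option autoImplicit false
set_option linter.unusedSectionVars false
set_option linter.style.haveILetI false

noncomputable section

namespace Fermat.Agent.Ribet.H573

open ModularCurve HahnSeries IntermediateField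

section Root

variable {k : Type} [Field k] [PerfectField k] (p : ℕ) [hp : Fact p.Prime] [CharP k p]

/-- A series in `k((t^p))` is a `p`-th power (`k` perfect of characteristic `p`). -/
theorem exists_pow_eq_of_split (r : LaurentSeries k)
    (hr : ∀ n : ℤ, ¬ (p : ℤ) ∣ n → r.coeff n = 0) : ∃ s : LaurentSeries k, s ^ p = r := by
  haveI : NeZero p := ⟨hp.out.ne_zero⟩
  set r' : LaurentSeries k := Fermat.Agent.S37.H340.sect p 0 r with hr'
  have h1 : qExpand k p r' = r := by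
    ext n
    rw [Fermat.Agent.S37.H340.qExpand_coeff]
    split_ifs with h
    · rw [hr', Fermat.Agent.S37.H340.sect_coeff, add_zero, Int.mul_ediv_cancel' h]
    · exact (hr n h).symm
  refine ⟨coeffMap ((frobeniusEquiv k p).symm : k →+* k) r', ?_⟩
  rw [Fermat.Agent.A2.H612.pow_eq_qExpand_frobenius, coeffMap_coeffMap]
  have h2 : (frobenius k p).comp ((frobeniusEquiv k p).symm : k →+* k) = RingHom.id k := by
    ext x
    exact frobenius_apply_frobeniusEquiv_symm k p x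
  rw [h2, coeffMap_id, h1]

/-- **`p`-th roots stay in `F_k`.** -/
theorem root_mem_full (M : ℕ) (hM : M ≠ 0) (hpM : ¬ p ∣ M) (s : LaurentSeries k)
    (hs : s ^ p ∈ modularFunctionFieldFullC k M) : s ∈ modularFunctionFieldFullC k M := by
  have hchar : ∀ q : ℕ, q.Prime → q ∣ M → (q : k) ≠ 0 := by
    intro q hq hqM h0
    have hpq : p ∣ q := (CharP.cast_eq_zero_iff k p q).mp h0
    have : p = q := (Nat.prime_dvd_prime_iff_eq hp.out hq).mp hpq
    exact hpM (this ▸ hqM)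
  have halg : IsAlgebraic k⟮jqModC k⟯ (s ^ p) :=
    Fermat.Agent.S18.MOD.H396.isAlgebraic_of_mem_full k M hM hchar _ hs
  have halg' : IsAlgebraic k⟮jqModC k⟯ s := halg.of_pow hp.out.pos
  have hsep : IsSeparable k⟮jqModC k⟯ s :=
    Fermat.Agent.S18.H264.isSeparable_laurent_jqModC k p s halg'
  haveI : CharP k⟮jqModC k⟯ p := charP_of_injective_algebraMap
    (algebraMap k k⟮jqModC k⟯).injective p
  haveI : ExpChar k⟮jqModC k⟯ p := ExpChar.prime hp.out
  have heq := adjoin_simple_eq_adjoin_pow_expChar_of_isSeparable k⟮jqModC k⟯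
    (LaurentSeries k) hsep p
  have hle : k⟮jqModC k⟯ ≤ modularFunctionFieldFullC k M := by
    rw [adjoin_simple_le_iff]
    exact jqModC_mem_full k M
  have h1 : (k⟮jqModC k⟯)⟮s ^ p⟯ ≤ extendScalars hle := by
    rw [adjoin_simple_le_iff, mem_extendScalars]
    exact hs
  have h2 : s ∈ (k⟮jqModC k⟯)⟮s⟯ := mem_adjoin_simple_self _ s
  rw [heq] at h2
  exact (mem_extendScalars hle).mp (h1 h2)

/-- `r ∈ F_k ∩ k((t^p))` is the `p`-th power of an element of `F_k`. -/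
theorem exists_root_in_full (M : ℕ) (hM : M ≠ 0) (hpM : ¬ p ∣ M) (r : LaurentSeries k)
    (hr : r ∈ modularFunctionFieldFullC k M)
    (hsplit : ∀ n : ℤ, ¬ (p : ℤ) ∣ n → r.coeff n = 0) :
    ∃ s ∈ modularFunctionFieldFullC k M, s ^ p = r := by
  obtain ⟨s, hs⟩ := exists_pow_eq_of_split p r hsplit
  exact ⟨s, root_mem_full p M hM hpM s (hs ▸ hr), hs⟩

omit [PerfectField k] in
/-- `θ r = 0 ⟺ r ∈ k((t^p))`. -/
theorem theta_eq_zero_iff_split (r : LaurentSeries k) :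
    (∀ n : ℤ, (n : k) * r.coeff n = 0) ↔ ∀ n : ℤ, ¬ (p : ℤ) ∣ n → r.coeff n = 0 := by
  constructor
  · intro h n hn
    rcases mul_eq_zero.mp (h n) with h0 | h0
    · exact absurd ((CharP.intCast_eq_zero_iff k p n).mp h0) hn
    · exact h0
  · intro h n
    by_cases hn : (p : ℤ) ∣ n
    · rw [(CharP.intCast_eq_zero_iff k p n).mpr hn, zero_mul]
    · rw [h n hn, mul_zero]

end Root

end Fermat.Agent.Ribet.H573

end
end
-- ===== PACK-END Ribet/H573/SplitRoot.lean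

-- ===== PACK-BEGIN Ribet/H232/NCInst.lean
section










/-!
# RIBET / WALL-p, leaf W-NC — the CONCRETE instance (helper232)

The abstract norm contraction of `NormContraction.lean` (`NLSetting`, `Side`, `pingpong_inf`,
`pingpong_zero`) instantiated in the vocabulary of `A2/Mod/Spec.lean` with `q := p`:
`K = F_M = FE E M`, `L = F_N = FE E (M * p)`, `O = V∞` of level `M`, `V∞` of level `N`,
`V₀ = V∞.comap W` (`W` the Fricke involution of level `N`), `ϖ = w` (uniformiser of `R_E`).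

* `nlSetting_beta` : `NLSetting` for `β` (`t ↦ t^p`): degree-one place `V₀`, inseparable place `V∞`,
  `θ = j`, `θ^p ≡ β j` (Kronecker), `1, j, …, j^(p-1)` independent modulo `w` over `β(V∞_M)`;
* `nlSetting_alpha` : `NLSetting` for `α` (inclusion): the Fricke transform of the former;
* `side_alpha`, `side_beta` : the two `Side`s;
* `wnc_inf`, `wnc_zero` : **concrete W-NC**: if the norms of `u ∈ F_N` along `α` and along `β` are
  constants times `p`-th powers and `u` is a constant times a `p`-th power times an element of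
  `1 + w V` at ONE of the two places `V∞`, `V₀`, then for every `s` it is a constant times a
  `p`-th power times an element of `1 + w^s V` at BOTH places.
-/

set_option autoImplicit false
set_option synthInstance.maxHeartbeats 400000
set_option maxHeartbeats 1600000
set_option linter.unusedSectionVars false
set_option linter.style.haveILetI false

noncomputable section

namespace Fermat.Agent.Ribet.H232

open ModularCurve HahnSeries Polynomial
open Fermat.Agent.A2 Fermat.Agent.A2.Mod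

/-! ## 0. generic lemmas -/

section Generic

variable {F : Type*} [Field F]

/-- `Dv` for a pulled-back valuation ring. -/
theorem dv_comap_iff (V : ValuationSubring F) (σ : F →+* F) (hσ : Function.Surjective σ)
    (c x : F) : Dv (V.comap σ) c x ↔ Dv V (σ c) (σ x) := by
  constructor
  · rintro ⟨y, hy, rfl⟩
    exact ⟨σ y, hy, map_mul σ c y⟩
  · rintro ⟨y, hy, hxy⟩
    obtain ⟨y', rfl⟩ := hσ y
    refine ⟨y', hy, ?_⟩
    apply σ.injective
    rw [map_mul, hxy]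

/-- transport of a uniformiser along an endomorphism fixing it. -/
theorem isUnif_comap {V : ValuationSubring F} {π : F} (h : H48.IsUnif V π) (σ : F →+* F)
    (hσ : σ π = π) : H48.IsUnif (V.comap σ) π where
  mem := by
    show σ π ∈ V
    rw [hσ]
    exact h.mem
  inv_not_mem := by
    intro hmem
    have h1 : σ π⁻¹ ∈ V := hmem
    rw [map_inv₀, hσ] at h1
    exact h.inv_not_mem h1
  gen := by
    intro f hf hfinv
    have h1 : σ f ∈ V := hf
    have h2 : (σ f)⁻¹ ∉ V := by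
      intro hmem
      apply hfinv
      show σ f⁻¹ ∈ V
      rw [map_inv₀]
      exact hmem
    have h3 := h.gen (σ f) h1 h2
    show σ (f * π⁻¹) ∈ V
    rw [map_mul, map_inv₀, hσ]
    exact h3

/-- in a discrete valuation ring every element of the fraction field has bounded denominator. -/
theorem exists_pow_mul_mem_of_dvr (A : ValuationSubring F) [IsDiscreteValuationRing A] {w : A}
    (hw : Irreducible w) (c : F) : ∃ k : ℕ, (w : F) ^ k * c ∈ A := by
  rcases A.mem_or_inv_mem c with h | h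
  · exact ⟨0, by simpa using h⟩
  · by_cases hc : c = 0
    · exact ⟨0, by rw [hc, mul_zero]; exact A.zero_mem⟩
    have hy : (⟨c⁻¹, h⟩ : A) ≠ 0 := by
      intro h0
      exact inv_ne_zero hc (congrArg Subtype.val h0)
    obtain ⟨n, u, hu⟩ := IsDiscreteValuationRing.eq_unit_mul_pow_irreducible hy hw
    refine ⟨n, ?_⟩
    have h1 : c⁻¹ = ((u : A) : F) * (w : F) ^ n := by
      have := congrArg Subtype.val hu
      simpa using this
    have hu0 : ((u : A) : F) ≠ 0 := by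
      intro h0
      exact u.ne_zero (Subtype.ext h0)
    have h2 : (w : F) ^ n * c = (((u⁻¹ : Aˣ) : A) : F) := by
      have h3 : ((u : A) : F) * (((u⁻¹ : Aˣ) : A) : F) = 1 := by
        have h4 : ((u : A) * ((u⁻¹ : Aˣ) : A) : A) = 1 := u.mul_inv
        have h5 := congrArg (fun z : A => (z : F)) h4
        exact h5
      have hc' : c = (((u : A) : F) * (w : F) ^ n)⁻¹ := by rw [← h1, inv_inv]
      have hw0 : (w : F) ^ n ≠ 0 := by
        intro h0
        rw [h0, mul_zero] at h1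
        exact inv_ne_zero hc h1
      rw [hc']
      field_simp
      rw [h3]
    rw [h2]
    exact ((u⁻¹ : Aˣ) : A).2

/-- coefficient of a polynomial given by its list of coefficients. -/
theorem coeff_sum_fin {R : Type*} [CommRing R] (n : ℕ) (f : Fin n → R) (j : Fin n) :
    (∑ i : Fin n, C (f i) * X ^ (i : ℕ)).coeff (j : ℕ) = f j := by
  classical
  rw [Polynomial.finsetSum_coeff, Finset.sum_eq_single j]
  · rw [coeff_C_mul_X_pow, if_pos rfl]
  · intro b _ hb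
    rw [coeff_C_mul_X_pow, if_neg]
    intro h
    exact hb (Fin.ext h.symm)
  · intro h
    exact absurd (Finset.mem_univ j) h

end Generic

/-! ## 1. digits in `k((t))` -/

section Digits

variable {k : Type*} [Field k]

/-- **Digits.**  `∑_{i<p} n_i(t^p) j^i = 0 ⟹ n_i = 0`. -/
theorem digits_jqModC (p : ℕ) [NeZero p] (n : Fin p → LaurentSeries k)
    (h : ∑ i : Fin p, qExpand k p (n i) * jqModC k ^ (i : ℕ) = 0) (i : Fin p) : n i = 0 := by
  classical
  set Pol : (LaurentSeries k)[X] := ∑ i : Fin p, C (qExpand k p (n i)) * X ^ (i : ℕ) with hPol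
  have heval : Pol.eval (jqModC k) = 0 := by
    rw [hPol, Polynomial.eval_finsetSum, ← h]
    refine Finset.sum_congr rfl fun i _ => ?_
    rw [eval_mul, eval_C, eval_pow, eval_X]
  have hzero : Pol = 0 := by
    by_contra hne
    refine Fermat.Agent.S28.H386.eval_jqModC_ne_zero_of_natDegree_lt p Pol hne ?_ ?_ heval
    · rw [Polynomial.natDegree_lt_iff_degree_lt hne]
      exact Polynomial.degree_sum_fin_lt _
    · intro j
      rw [hPol, Polynomial.finsetSum_coeff]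
      have hmem : ∀ i ∈ (Finset.univ : Finset (Fin p)),
          (C (qExpand k p (n i)) * X ^ (i : ℕ)).coeff j ∈ (qExpand k p).range := by
        intro i _
        rw [coeff_C_mul_X_pow]
        split_ifs
        · exact ⟨n i, rfl⟩
        · exact Subring.zero_mem _
      exact Subring.sum_mem _ hmem
  have h1 : qExpand k p (n i) = 0 := by
    rw [← coeff_sum_fin p (fun i => qExpand k p (n i)) i, ← hPol, hzero, Polynomial.coeff_zero]
  exact qExpand_injective p (by rw [h1, map_zero])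

end Digits

/-! ## 2. the two Gauss valuations -/

section Concrete

variable {P : ValuationSubring _root_.Fermat.Agent.A2.Mod.Qb} {E : IntermediateField ℚ _root_.Fermat.Agent.A2.Mod.Qb} {M p : ℕ} [NeZero M] [NeZero p]
  {w : _root_.Fermat.Agent.A2.Mod.RE P E}

theorem inW_iff_dv (hS : Setting P E M p w) (N : ℕ) (V : ValuationSubring (_root_.Fermat.Agent.A2.Mod.FE E N))
    (f : _root_.Fermat.Agent.A2.Mod.FE E N) : InW P E N V w f ↔ Dv V (cE P E N w) f :=
  (Dv.iff_mul_inv (H378.cE_ne_zero hS N)).symm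

theorem beta_cE (r : _root_.Fermat.Agent.A2.Mod.RE P E) : βE E M p (cE P E M r) = cE P E (M * p) r :=
  (βE E M p).commutes (r : E)

theorem w_mem_maximalIdeal (hS : Setting P E M p w) : w ∈ IsLocalRing.maximalIdeal (_root_.Fermat.Agent.A2.Mod.RE P E) :=
  (IsLocalRing.mem_maximalIdeal _).mpr hS.unif.not_isUnit

theorem isUnif_vinf (hS : Setting P E M p w) {N : ℕ} (hN : N ≠ 0)
    {V : ValuationSubring (_root_.Fermat.Agent.A2.Mod.FE E N)} (hV : IsVinf P E N V) : H48.IsUnif V (cE P E N w) :=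
  (H553.vinfBasic P E w N hN hS.dvr hS.unif V hV).1

theorem jE_mem (hS : Setting P E M p w) {N : ℕ} (hN : N ≠ 0)
    {V : ValuationSubring (_root_.Fermat.Agent.A2.Mod.FE E N)} (hV : IsVinf P E N V) (d : ℕ) [NeZero d] (hd : d ∣ N) :
    jE E N d hd ∈ V :=
  ((H553.vinfBasic P E w N hN hS.dvr hS.unif V hV).2.2 d hd).1

theorem level_ne_zero : M * p ≠ 0 := mul_ne_zero (NeZero.ne M) (NeZero.ne p)

/-- `β` maps `V∞` of level `M` into `V∞` of level `M p`. -/
theorem beta_mem {VM : ValuationSubring (_root_.Fermat.Agent.A2.Mod.FE E M)} {V : ValuationSubring (_root_.Fermat.Agent.A2.Mod.FE E (M * p))}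
    (hVM : IsVinf P E M VM) (hV : IsVinf P E (M * p) V) {a : _root_.Fermat.Agent.A2.Mod.FE E M} (ha : a ∈ VM) :
    βE E M p a ∈ V := by
  obtain ⟨U₁, U₂, hU₂, hU₂F, hU⟩ := (hVM a).mp ha
  rw [hV]
  refine ⟨qExpand _ p U₁, qExpand _ p U₂, ?_, ?_, ?_⟩
  · show coeffMap _ (qExpand _ p U₂) ≠ 0
    rw [coeffMap_qExpand]
    intro h
    exact hU₂ (qExpand_injective p (by rw [h, map_zero]))
  · show coeffMap _ (qExpand _ p U₂) ∈ _
    rw [coeffMap_qExpand]
    exact (βE E M p ⟨H708.incl (_root_.Fermat.Agent.A2.Mod.RE P E) U₂, hU₂F⟩).2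
  · show qExpand E p (a : LaurentSeries E) * coeffMap _ (qExpand _ p U₂)
      = coeffMap _ (qExpand _ p U₁)
    rw [coeffMap_qExpand, coeffMap_qExpand, ← map_mul]
    exact congrArg _ hU

/-- the `t`-expansion of `j` as an integral series. -/
theorem coe_jE_one (N : ℕ) :
    ((jE E N 1 (one_dvd _) : _root_.Fermat.Agent.A2.Mod.FE E N) : LaurentSeries E)
      = H708.incl (_root_.Fermat.Agent.A2.Mod.RE P E) (H708.castA (_root_.Fermat.Agent.A2.Mod.RE P E) (jqModC ℤ)) := by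
  rw [H753.coe_jE_incl (P := P) N 1 (one_dvd _), qExpand_one_apply]

/-- **Kronecker congruence** `j^p ≡ β j` modulo `w V∞`. -/
theorem frob_dv (hS : Setting P E M p w) {V : ValuationSubring (_root_.Fermat.Agent.A2.Mod.FE E (M * p))}
    (hV : IsVinf P E (M * p) V) :
    Dv V (cE P E (M * p) w)
      (jE E (M * p) 1 (one_dvd _) ^ p - βE E M p (jE E M 1 (one_dvd _))) := by
  rw [← inW_iff_dv hS]
  haveI : CharP (IsLocalRing.ResidueField (_root_.Fermat.Agent.A2.Mod.RE P E)) p :=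
    H753.charP_residueField P E hS.q_prime hS.lies_over
  refine H753.inW_of_red_eq_zero P E hV hS.dvr hS.unif
    (S := H708.castA (_root_.Fermat.Agent.A2.Mod.RE P E) (jqModC ℤ ^ p - qExpand ℤ p (jqModC ℤ))) ?_ ?_
  · have h1 : ((jE E (M * p) 1 (one_dvd _) ^ p - βE E M p (jE E M 1 (one_dvd _)) :
        _root_.Fermat.Agent.A2.Mod.FE E (M * p)) : LaurentSeries E)
        = ((jE E (M * p) 1 (one_dvd _) : _root_.Fermat.Agent.A2.Mod.FE E (M * p)) : LaurentSeries E) ^ p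
          - qExpand E p ((jE E M 1 (one_dvd _) : _root_.Fermat.Agent.A2.Mod.FE E M) : LaurentSeries E) := rfl
    rw [h1, coe_jE_one (P := P), coe_jE_one (P := P), map_sub, map_sub, map_pow, map_pow]
    congr 1
    show _ = coeffMap _ (coeffMap _ (qExpand ℤ p (jqModC ℤ)))
    rw [coeffMap_qExpand, coeffMap_qExpand]
  · rw [H753.red_castA, map_sub, map_pow, H753.castL_qExpand_jqModC p hS.q_prime,
      Fermat.Agent.S28.H325.castL_jqModC, sub_self]

/-- a primitive integral series of `F_N` is a unit of `V∞`. -/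
theorem inv_mem_of_prim {N : ℕ} {V : ValuationSubring (_root_.Fermat.Agent.A2.Mod.FE E N)} (hV : IsVinf P E N V)
    {U : LaurentSeries (_root_.Fermat.Agent.A2.Mod.RE P E)} (hU : H708.red (_root_.Fermat.Agent.A2.Mod.RE P E) U ≠ 0)
    (hm : H708.incl (_root_.Fermat.Agent.A2.Mod.RE P E) U ∈ _root_.Fermat.Agent.A2.Mod.FE E N) :
    (⟨H708.incl (_root_.Fermat.Agent.A2.Mod.RE P E) U, hm⟩ : _root_.Fermat.Agent.A2.Mod.FE E N)⁻¹ ∈ V := by
  rw [hV, IntermediateField.coe_inv]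
  exact H378.isGaussInt_inv_of_prim (_root_.Fermat.Agent.A2.Mod.RE P E) hU hm

/-- **Independence**: `1, j, …, j^(p-1)` are independent modulo `w` over `β(V∞_M)`. -/
theorem beta_indep (hS : Setting P E M p w) {VM : ValuationSubring (_root_.Fermat.Agent.A2.Mod.FE E M)}
    {V : ValuationSubring (_root_.Fermat.Agent.A2.Mod.FE E (M * p))} (hVM : IsVinf P E M VM) (hV : IsVinf P E (M * p) V)
    (a : Fin p → _root_.Fermat.Agent.A2.Mod.FE E M) (ha : ∀ i, a i ∈ VM)
    (hz : InW P E (M * p) V w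
      (∑ i : Fin p, βE E M p (a i) * jE E (M * p) 1 (one_dvd _) ^ (i : ℕ))) (i : Fin p) :
    InW P E M VM w (a i) := by
  classical
  haveI := hS.dvr
  have key : ∀ i, ∃ U₁ U₂ : LaurentSeries (_root_.Fermat.Agent.A2.Mod.RE P E), H708.red (_root_.Fermat.Agent.A2.Mod.RE P E) U₂ ≠ 0 ∧
      H708.incl (_root_.Fermat.Agent.A2.Mod.RE P E) U₂ ∈ _root_.Fermat.Agent.A2.Mod.FE E M ∧
      (a i : LaurentSeries E) * H708.incl (_root_.Fermat.Agent.A2.Mod.RE P E) U₂ = H708.incl (_root_.Fermat.Agent.A2.Mod.RE P E) U₁ :=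
    fun i => (hVM (a i)).mp (ha i)
  choose U₁ U₂ hU₂ hU₂F hU using key
  obtain ⟨D, hD⟩ : ∃ D : LaurentSeries (_root_.Fermat.Agent.A2.Mod.RE P E), D = ∏ i, U₂ i := ⟨_, rfl⟩
  obtain ⟨Nm, hNm⟩ : ∃ Nm : Fin p → LaurentSeries (_root_.Fermat.Agent.A2.Mod.RE P E),
      ∀ i, Nm i = U₁ i * ∏ l ∈ Finset.univ.erase i, U₂ l := ⟨_, fun _ => rfl⟩
  have hND : ∀ i, (a i : LaurentSeries E) * H708.incl (_root_.Fermat.Agent.A2.Mod.RE P E) D
      = H708.incl (_root_.Fermat.Agent.A2.Mod.RE P E) (Nm i) := by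
    intro i
    rw [hD, ← Finset.mul_prod_erase Finset.univ U₂ (Finset.mem_univ i), map_mul, ← mul_assoc,
      hU i, hNm, map_mul]
  have hDF : H708.incl (_root_.Fermat.Agent.A2.Mod.RE P E) D ∈ _root_.Fermat.Agent.A2.Mod.FE E M := by
    rw [hD, map_prod]
    exact prod_mem (fun i _ => hU₂F i)
  have hDred : ∀ i, H708.red (_root_.Fermat.Agent.A2.Mod.RE P E) (∏ l ∈ Finset.univ.erase i, U₂ l) ≠ 0 := by
    intro i
    rw [map_prod]
    exact Finset.prod_ne_zero_iff.mpr (fun l _ => hU₂ l)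
  -- the integral series
  obtain ⟨J, hJ⟩ : ∃ J : LaurentSeries (_root_.Fermat.Agent.A2.Mod.RE P E), J = H708.castA (_root_.Fermat.Agent.A2.Mod.RE P E) (jqModC ℤ) :=
    ⟨_, rfl⟩
  obtain ⟨S, hSdef⟩ : ∃ S : LaurentSeries (_root_.Fermat.Agent.A2.Mod.RE P E),
      S = ∑ i : Fin p, qExpand _ p (Nm i) * J ^ (i : ℕ) := ⟨_, rfl⟩
  obtain ⟨dM, hdM⟩ : ∃ dM : _root_.Fermat.Agent.A2.Mod.FE E M, (dM : LaurentSeries E) = H708.incl (_root_.Fermat.Agent.A2.Mod.RE P E) D :=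
    ⟨⟨H708.incl (_root_.Fermat.Agent.A2.Mod.RE P E) D, hDF⟩, rfl⟩
  have hdMV : dM ∈ VM := by
    rw [hVM, hdM]
    exact H708.IsGaussInt.of_incl _
  have hdNV : βE E M p dM ∈ V := beta_mem hVM hV hdMV
  obtain ⟨z, hzdef⟩ : ∃ z : _root_.Fermat.Agent.A2.Mod.FE E (M * p),
      z = ∑ i : Fin p, βE E M p (a i) * jE E (M * p) 1 (one_dvd _) ^ (i : ℕ) := ⟨_, rfl⟩
  rw [← hzdef] at hz
  have hinclq : ∀ U : LaurentSeries (_root_.Fermat.Agent.A2.Mod.RE P E),
      H708.incl (_root_.Fermat.Agent.A2.Mod.RE P E) (qExpand _ p U) = qExpand E p (H708.incl (_root_.Fermat.Agent.A2.Mod.RE P E) U) :=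
    fun U => coeffMap_qExpand _ p U
  have hredq : ∀ U : LaurentSeries (_root_.Fermat.Agent.A2.Mod.RE P E),
      H708.red (_root_.Fermat.Agent.A2.Mod.RE P E) (qExpand _ p U) = qExpand _ p (H708.red (_root_.Fermat.Agent.A2.Mod.RE P E) U) :=
    fun U => coeffMap_qExpand _ p U
  have hcoe : ((z * βE E M p dM : _root_.Fermat.Agent.A2.Mod.FE E (M * p)) : LaurentSeries E)
      = H708.incl (_root_.Fermat.Agent.A2.Mod.RE P E) S := by
    have h1 : ((z * βE E M p dM : _root_.Fermat.Agent.A2.Mod.FE E (M * p)) : LaurentSeries E)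
        = (∑ i : Fin p, qExpand E p (a i : LaurentSeries E)
            * ((jE E (M * p) 1 (one_dvd _) : _root_.Fermat.Agent.A2.Mod.FE E (M * p)) : LaurentSeries E) ^ (i : ℕ))
          * qExpand E p (dM : LaurentSeries E) := by
      rw [IntermediateField.coe_mul, hzdef, IntermediateField.coe_sum]
      rfl
    rw [h1, Finset.sum_mul, hSdef, map_sum]
    refine Finset.sum_congr rfl fun i _ => ?_
    have e1 : H708.incl (_root_.Fermat.Agent.A2.Mod.RE P E) (qExpand _ p (Nm i) * J ^ (i : ℕ))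
        = qExpand E p (H708.incl (_root_.Fermat.Agent.A2.Mod.RE P E) (Nm i)) * (H708.incl (_root_.Fermat.Agent.A2.Mod.RE P E) J) ^ (i : ℕ) := by
      rw [map_mul, map_pow, hinclq]
    rw [e1, ← hND i, map_mul, coe_jE_one (P := P), hdM, hJ]
    ring
  have hInW : InW P E (M * p) V w (z * βE E M p dM) := by
    show z * βE E M p dM * (cE P E (M * p) w)⁻¹ ∈ V
    have h1 : z * βE E M p dM * (cE P E (M * p) w)⁻¹
        = z * (cE P E (M * p) w)⁻¹ * βE E M p dM := by ring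
    rw [h1]
    exact V.mul_mem _ _ hz hdNV
  have hred : H708.red (_root_.Fermat.Agent.A2.Mod.RE P E) S = 0 :=
    H753.red_eq_zero_of_inW hV hS.unif.ne_zero (w_mem_maximalIdeal hS) hcoe hInW
  have hredJ : H708.red (_root_.Fermat.Agent.A2.Mod.RE P E) J = jqModC (IsLocalRing.ResidueField (_root_.Fermat.Agent.A2.Mod.RE P E)) := by
    rw [hJ, H753.red_castA, Fermat.Agent.S28.H325.castL_jqModC]
  have hsum : ∑ i : Fin p, qExpand _ p (H708.red (_root_.Fermat.Agent.A2.Mod.RE P E) (Nm i))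
      * jqModC (IsLocalRing.ResidueField (_root_.Fermat.Agent.A2.Mod.RE P E)) ^ (i : ℕ) = 0 := by
    rw [← hred, hSdef, map_sum]
    refine Finset.sum_congr rfl fun i _ => ?_
    have e1 : H708.red (_root_.Fermat.Agent.A2.Mod.RE P E) (qExpand _ p (Nm i) * J ^ (i : ℕ))
        = qExpand _ p (H708.red (_root_.Fermat.Agent.A2.Mod.RE P E) (Nm i)) * (H708.red (_root_.Fermat.Agent.A2.Mod.RE P E) J) ^ (i : ℕ) := by
      rw [map_mul, map_pow, hredq]
    rw [e1, hredJ]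
  have hNi : H708.red (_root_.Fermat.Agent.A2.Mod.RE P E) (Nm i) = 0 := digits_jqModC p _ hsum i
  have hU₁i : H708.red (_root_.Fermat.Agent.A2.Mod.RE P E) (U₁ i) = 0 := by
    rw [hNm i, map_mul] at hNi
    rcases mul_eq_zero.mp hNi with h | h
    · exact h
    · exact absurd h (hDred i)
  -- conclusion
  set u₂ : _root_.Fermat.Agent.A2.Mod.FE E M := ⟨H708.incl (_root_.Fermat.Agent.A2.Mod.RE P E) (U₂ i), hU₂F i⟩ with hu₂
  have hu₂inv : u₂⁻¹ ∈ VM := inv_mem_of_prim hVM (hU₂ i) (hU₂F i)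
  have hu₂0 : u₂ ≠ 0 := by
    intro h0
    have h1 : H708.incl (_root_.Fermat.Agent.A2.Mod.RE P E) (U₂ i) = 0 := congrArg Subtype.val h0
    exact H708.incl_ne_zero _ (H708.ne_zero_of_red_ne_zero _ (hU₂ i)) h1
  have h2 : InW P E M VM w (a i * u₂) :=
    H753.inW_of_red_eq_zero P E hVM hS.dvr hS.unif (S := U₁ i)
      (by rw [IntermediateField.coe_mul]; exact hU i) hU₁i
  show a i * (cE P E M w)⁻¹ ∈ VM
  have h3 : a i * (cE P E M w)⁻¹ = a i * u₂ * (cE P E M w)⁻¹ * u₂⁻¹ := by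
    field_simp
  rw [h3]
  exact VM.mul_mem _ _ h2 hu₂inv

/-- `V∞` has rank one: bounded denominators. -/
theorem arch_vinf (hS : Setting P E M p w) {N : ℕ} {V : ValuationSubring (_root_.Fermat.Agent.A2.Mod.FE E N)}
    (hV : IsVinf P E N V) (a : _root_.Fermat.Agent.A2.Mod.FE E N) : ∃ k : ℕ, cE P E N w ^ k * a ∈ V := by
  haveI := hS.dvr
  by_cases ha : a = 0
  · exact ⟨0, by rw [ha, mul_zero]; exact V.zero_mem⟩
  obtain ⟨c, hc0, hu⟩ := H553.exists_const_mul_unit P E hV ha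
  obtain ⟨k, hk⟩ := exists_pow_mul_mem_of_dvr (_root_.Fermat.Agent.A2.Mod.RE P E) hS.unif c
  refine ⟨k, ?_⟩
  have huV : a * (algebraMap E (_root_.Fermat.Agent.A2.Mod.FE E N) c)⁻¹ ∈ V := (V.valuation_le_one_iff _).mp hu.le
  have hcF : algebraMap E (_root_.Fermat.Agent.A2.Mod.FE E N) c ≠ 0 :=
    (map_ne_zero_iff _ (algebraMap E (_root_.Fermat.Agent.A2.Mod.FE E N)).injective).mpr hc0
  have h1 : cE P E N w ^ k * a
      = (a * (algebraMap E (_root_.Fermat.Agent.A2.Mod.FE E N) c)⁻¹) * algebraMap E (_root_.Fermat.Agent.A2.Mod.FE E N) ((w : E) ^ k * c) := by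
    rw [map_mul, map_pow]
    show algebraMap E (_root_.Fermat.Agent.A2.Mod.FE E N) (w : E) ^ k * a = _
    field_simp
  rw [h1]
  exact V.mul_mem _ _ huV ((H553.algebraMap_mem_iff P E hV _).mpr hk)

/-- `p ∈ w V∞`. -/
theorem natCast_dv (hS : Setting P E M p w) {N : ℕ} {V : ValuationSubring (_root_.Fermat.Agent.A2.Mod.FE E N)}
    (hV : IsVinf P E N V) : Dv V (cE P E N w) ((p : ℕ) : _root_.Fermat.Agent.A2.Mod.FE E N) := by
  obtain ⟨c, hc⟩ := H378.exists_q_eq hS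
  refine ⟨cE P E N c, H378.cE_mem hV c, ?_⟩
  have h1 : ((p : ℕ) : _root_.Fermat.Agent.A2.Mod.FE E N) = algebraMap E (_root_.Fermat.Agent.A2.Mod.FE E N) ((p : ℕ) : E) := (map_natCast _ _).symm
  rw [h1, hc, map_mul]
  rfl

/-- **The setting of the local norm congruence for `β`** (`t ↦ t^p`): the degree-one place is
`V₀ = V∞ ∘ W`, the inseparable place is `V∞`, `θ = j`. -/
theorem nlSetting_beta (hS : Setting P E M p w) {VM : ValuationSubring (_root_.Fermat.Agent.A2.Mod.FE E M)}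
    {V : ValuationSubring (_root_.Fermat.Agent.A2.Mod.FE E (M * p))} (hVM : IsVinf P E M VM) (hV : IsVinf P E (M * p) V)
    {W : _root_.Fermat.Agent.A2.Mod.FE E (M * p) ≃ₐ[E] _root_.Fermat.Agent.A2.Mod.FE E (M * p)} (hW : IsFricke E (M * p) W) :
    letI := AlgebraicCurve.algebraAlong (βE E M p)
    NLSetting VM (V.comap (W : _root_.Fermat.Agent.A2.Mod.FE E (M * p) →+* _root_.Fermat.Agent.A2.Mod.FE E (M * p))) V (cE P E M w) p
      (jE E (M * p) 1 (one_dvd _)) (jE E M 1 (one_dvd _)) := by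
  letI := AlgebraicCurve.algebraAlong (βE E M p)
  haveI : NeZero (M * p) := ⟨level_ne_zero⟩
  have hmap : ∀ a : _root_.Fermat.Agent.A2.Mod.FE E M, algebraMap (_root_.Fermat.Agent.A2.Mod.FE E M) (_root_.Fermat.Agent.A2.Mod.FE E (M * p)) a = βE E M p a := fun _ => rfl
  have hϖ : algebraMap (_root_.Fermat.Agent.A2.Mod.FE E M) (_root_.Fermat.Agent.A2.Mod.FE E (M * p)) (cE P E M w) = cE P E (M * p) w := by
    rw [hmap, beta_cE]
  have hWM := H553.isFricke_wE E M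
  have hWc : (W : _root_.Fermat.Agent.A2.Mod.FE E (M * p) →+* _root_.Fermat.Agent.A2.Mod.FE E (M * p)) (cE P E (M * p) w) = cE P E (M * p) w :=
    W.commutes _
  refine
    { unifO := isUnif_vinf hS (NeZero.ne M) hVM
      unif₁ := ?_
      unif₂ := ?_
      le₁ := ?_
      le₂ := ?_
      ne := H553.vzeroNe P E M p w hS V W hV hW
      arch := arch_vinf hS hVM
      char_p := natCast_dv hS hVM
      θ_mem₁ := ?_
      θ_mem₂ := jE_mem hS level_ne_zero hV 1 (one_dvd _)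
      g_mem := jE_mem hS (NeZero.ne M) hVM 1 (one_dvd _)
      θ_pow := ?_
      θ_indep := ?_
      card := ?_ }
  · rw [hϖ]
    exact isUnif_comap (isUnif_vinf hS level_ne_zero hV) _ hWc
  · rw [hϖ]
    exact isUnif_vinf hS level_ne_zero hV
  · intro a ha
    rw [hmap]
    show W (βE E M p a) ∈ V
    rw [(H553.frickeCompat E M p (H553.wE E M) W hWM hW a).2]
    exact (H378.alpha_mem_iff hS hVM hV _).mpr
      (H872.frickeStable P E M p w hS VM (H553.wE E M) hVM hWM a ha)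
  · intro a ha
    rw [hmap]
    exact beta_mem hVM hV ha
  · show W (jE E (M * p) 1 (one_dvd _)) ∈ V
    rw [hW.1 1 (M * p) (one_dvd _) dvd_rfl (one_mul _)]
    exact jE_mem hS level_ne_zero hV (M * p) dvd_rfl
  · rw [hϖ, hmap]
    exact frob_dv hS hV
  · intro a ha hz i
    rw [hϖ] at hz
    rw [← inW_iff_dv hS]
    rw [← inW_iff_dv hS] at hz
    exact beta_indep hS hVM hV a ha hz i
  · exact Fermat.Agent.S37.H88.finrankAlong_heckeBetaBar hS.q_prime hS.q_not_dvd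

/-- **The setting of the local norm congruence for `α`** (the inclusion): the degree-one place
is `V∞`, the inseparable place is `V₀ = V∞ ∘ W`, `θ = W j`. -/
theorem nlSetting_alpha (hS : Setting P E M p w) {VM : ValuationSubring (_root_.Fermat.Agent.A2.Mod.FE E M)}
    {V : ValuationSubring (_root_.Fermat.Agent.A2.Mod.FE E (M * p))} (hVM : IsVinf P E M VM) (hV : IsVinf P E (M * p) V)
    {W : _root_.Fermat.Agent.A2.Mod.FE E (M * p) ≃ₐ[E] _root_.Fermat.Agent.A2.Mod.FE E (M * p)} (hW : IsFricke E (M * p) W) :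
    letI := AlgebraicCurve.algebraAlong (αE E M p)
    NLSetting VM V (V.comap (W : _root_.Fermat.Agent.A2.Mod.FE E (M * p) →+* _root_.Fermat.Agent.A2.Mod.FE E (M * p))) (cE P E M w) p
      (W (jE E (M * p) 1 (one_dvd _))) (H553.wE E M (jE E M 1 (one_dvd _))) := by
  letI := AlgebraicCurve.algebraAlong (αE E M p)
  haveI : NeZero (M * p) := ⟨level_ne_zero⟩
  have hmap : ∀ a : _root_.Fermat.Agent.A2.Mod.FE E M, algebraMap (_root_.Fermat.Agent.A2.Mod.FE E M) (_root_.Fermat.Agent.A2.Mod.FE E (M * p)) a = αE E M p a := fun _ => rfl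
  have hϖ : algebraMap (_root_.Fermat.Agent.A2.Mod.FE E M) (_root_.Fermat.Agent.A2.Mod.FE E (M * p)) (cE P E M w) = cE P E (M * p) w := by
    rw [hmap, H378.alpha_cE]
  have hWM := H553.isFricke_wE E M
  have hWc : (W : _root_.Fermat.Agent.A2.Mod.FE E (M * p) →+* _root_.Fermat.Agent.A2.Mod.FE E (M * p)) (cE P E (M * p) w) = cE P E (M * p) w :=
    W.commutes _
  have hWMc : H553.wE E M (cE P E M w) = cE P E M w := (H553.wE E M).commutes _
  have hstab : ∀ f ∈ VM, H553.wE E M f ∈ VM :=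
    H872.frickeStable P E M p w hS VM (H553.wE E M) hVM hWM
  have hWα : ∀ a : _root_.Fermat.Agent.A2.Mod.FE E M, W (αE E M p a) = βE E M p (H553.wE E M a) :=
    fun a => (H553.frickeCompat E M p (H553.wE E M) W hWM hW a).1
  have hsurj : Function.Surjective (W : _root_.Fermat.Agent.A2.Mod.FE E (M * p) →+* _root_.Fermat.Agent.A2.Mod.FE E (M * p)) := W.surjective
  refine
    { unifO := isUnif_vinf hS (NeZero.ne M) hVM
      unif₁ := ?_
      unif₂ := ?_
      le₁ := ?_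
      le₂ := ?_
      ne := (H553.vzeroNe P E M p w hS V W hV hW).symm
      arch := arch_vinf hS hVM
      char_p := natCast_dv hS hVM
      θ_mem₁ := ?_
      θ_mem₂ := ?_
      g_mem := hstab _ (jE_mem hS (NeZero.ne M) hVM 1 (one_dvd _))
      θ_pow := ?_
      θ_indep := ?_
      card := ?_ }
  · rw [hϖ]
    exact isUnif_vinf hS level_ne_zero hV
  · rw [hϖ]
    exact isUnif_comap (isUnif_vinf hS level_ne_zero hV) _ hWc
  · intro a ha
    rw [hmap]
    exact (H378.alpha_mem_iff hS hVM hV _).mpr ha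
  · intro a ha
    rw [hmap]
    show W (αE E M p a) ∈ V
    rw [hWα]
    exact beta_mem hVM hV (hstab a ha)
  · rw [hW.1 1 (M * p) (one_dvd _) dvd_rfl (one_mul _)]
    exact jE_mem hS level_ne_zero hV (M * p) dvd_rfl
  · show W (W (jE E (M * p) 1 (one_dvd _))) ∈ V
    rw [hW.2]
    exact jE_mem hS level_ne_zero hV 1 (one_dvd _)
  · rw [hϖ, hmap, dv_comap_iff V _ hsurj, hWc]
    have h1 : (W : _root_.Fermat.Agent.A2.Mod.FE E (M * p) →+* _root_.Fermat.Agent.A2.Mod.FE E (M * p))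
        (W (jE E (M * p) 1 (one_dvd _)) ^ p - αE E M p (H553.wE E M (jE E M 1 (one_dvd _))))
        = jE E (M * p) 1 (one_dvd _) ^ p - βE E M p (jE E M 1 (one_dvd _)) := by
      show W (W (jE E (M * p) 1 (one_dvd _)) ^ p
        - αE E M p (H553.wE E M (jE E M 1 (one_dvd _)))) = _
      rw [map_sub, map_pow, hW.2, hWα, hWM.2]
    rw [h1]
    exact frob_dv hS hV
  · intro a ha hz i
    rw [hϖ, dv_comap_iff V _ hsurj, hWc] at hz
    have h1 : (W : _root_.Fermat.Agent.A2.Mod.FE E (M * p) →+* _root_.Fermat.Agent.A2.Mod.FE E (M * p))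
        (∑ i : Fin p, algebraMap (_root_.Fermat.Agent.A2.Mod.FE E M) (_root_.Fermat.Agent.A2.Mod.FE E (M * p)) (a i)
          * W (jE E (M * p) 1 (one_dvd _)) ^ (i : ℕ))
        = ∑ i : Fin p, βE E M p (H553.wE E M (a i)) * jE E (M * p) 1 (one_dvd _) ^ (i : ℕ) := by
      rw [map_sum]
      refine Finset.sum_congr rfl fun i _ => ?_
      rw [map_mul, map_pow, hmap]
      show W (αE E M p (a i)) * W (W (jE E (M * p) 1 (one_dvd _))) ^ (i : ℕ) = _
      rw [hW.2, hWα]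
    rw [h1, ← inW_iff_dv hS] at hz
    have h2 := beta_indep hS hVM hV (fun i => H553.wE E M (a i)) (fun i => hstab _ (ha i)) hz i
    rw [inW_iff_dv hS] at h2
    obtain ⟨y, hy, hay⟩ := h2
    refine ⟨H553.wE E M y, hstab y hy, ?_⟩
    have h3 : a i = H553.wE E M (H553.wE E M (a i)) := (hWM.2 _).symm
    rw [h3, hay, map_mul, hWMc]
  · exact Fermat.Agent.S37.H88.finrankAlong_heckeAlphaBar' hS.q_prime hS.q_not_dvd

end Concrete

/-! ## 3. the two sides and the concrete norm contraction -/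

section WNC

variable (P : ValuationSubring _root_.Fermat.Agent.A2.Mod.Qb) (E : IntermediateField ℚ _root_.Fermat.Agent.A2.Mod.Qb) (M p : ℕ) [NeZero M] [NeZero p]

/-- The norm of `F_N / α(F_M)`, as a monoid homomorphism
(`= Algebra.norm` for the algebra structure `algebraAlong (αE E M p)`). -/
def normAlpha : _root_.Fermat.Agent.A2.Mod.FE E (M * p) →* _root_.Fermat.Agent.A2.Mod.FE E M :=
  letI := AlgebraicCurve.algebraAlong (αE E M p)
  Algebra.norm (_root_.Fermat.Agent.A2.Mod.FE E M)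

/-- The norm of `F_N / β(F_M)`, as a monoid homomorphism
(`= Algebra.norm` for the algebra structure `algebraAlong (βE E M p)`). -/
def normBeta : _root_.Fermat.Agent.A2.Mod.FE E (M * p) →* _root_.Fermat.Agent.A2.Mod.FE E M :=
  letI := AlgebraicCurve.algebraAlong (βE E M p)
  Algebra.norm (_root_.Fermat.Agent.A2.Mod.FE E M)

/-- The nonzero constants of `F_M`. -/
def constSet : Set (_root_.Fermat.Agent.A2.Mod.FE E M) := {c | ∃ e : E, e ≠ 0 ∧ c = algebraMap E (_root_.Fermat.Agent.A2.Mod.FE E M) e}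

theorem isConstSet_constSet : IsConstSet (constSet E M) where
  ne_zero := by
    rintro c ⟨e, he, rfl⟩
    exact (map_ne_zero_iff _ (algebraMap E (_root_.Fermat.Agent.A2.Mod.FE E M)).injective).mpr he
  mul_mem := by
    rintro c ⟨e, he, rfl⟩ d ⟨e', he', rfl⟩
    exact ⟨e * e', mul_ne_zero he he', (map_mul _ _ _).symm⟩
  inv_mem := by
    rintro c ⟨e, he, rfl⟩
    exact ⟨e⁻¹, inv_ne_zero he, (map_inv₀ _ _).symm⟩

variable {P E M p} {w : _root_.Fermat.Agent.A2.Mod.RE P E}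

/-- `u ∈ E^× · (F_N^×)^p · (1 + w^s V)`. -/
def DepthE (w : _root_.Fermat.Agent.A2.Mod.RE P E) (p : ℕ) {N : ℕ} (V : ValuationSubring (_root_.Fermat.Agent.A2.Mod.FE E N)) (s : ℕ)
    (u : _root_.Fermat.Agent.A2.Mod.FE E N) : Prop :=
  ∃ e : E, e ≠ 0 ∧ ∃ g : _root_.Fermat.Agent.A2.Mod.FE E N, g ≠ 0 ∧
    (u * (algebraMap E (_root_.Fermat.Agent.A2.Mod.FE E N) e * g ^ p)⁻¹ - 1) * (cE P E N w ^ s)⁻¹ ∈ V

/-- `Nm u ∈ E · F_M^p`. -/
def IsPthNormE (Nm : _root_.Fermat.Agent.A2.Mod.FE E (M * p) →* _root_.Fermat.Agent.A2.Mod.FE E M) (u : _root_.Fermat.Agent.A2.Mod.FE E (M * p)) : Prop :=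
  ∃ (e : E) (h : _root_.Fermat.Agent.A2.Mod.FE E M), Nm u = algebraMap E (_root_.Fermat.Agent.A2.Mod.FE E M) e * h ^ p

theorem depthE_one_iff {N : ℕ} (V : ValuationSubring (_root_.Fermat.Agent.A2.Mod.FE E N)) (u : _root_.Fermat.Agent.A2.Mod.FE E N) :
    DepthE w p V 1 u ↔ ∃ e : E, e ≠ 0 ∧ ∃ g : _root_.Fermat.Agent.A2.Mod.FE E N, g ≠ 0 ∧
      InW P E N V w (u * (algebraMap E (_root_.Fermat.Agent.A2.Mod.FE E N) e * g ^ p)⁻¹ - 1) := by
  unfold DepthE InW
  rw [pow_one]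

theorem side_alpha (hS : Setting P E M p w) {VM : ValuationSubring (_root_.Fermat.Agent.A2.Mod.FE E M)}
    {V : ValuationSubring (_root_.Fermat.Agent.A2.Mod.FE E (M * p))} (hVM : IsVinf P E M VM) (hV : IsVinf P E (M * p) V)
    {W : _root_.Fermat.Agent.A2.Mod.FE E (M * p) ≃ₐ[E] _root_.Fermat.Agent.A2.Mod.FE E (M * p)} (hW : IsFricke E (M * p) W) :
    Side VM V (V.comap (W : _root_.Fermat.Agent.A2.Mod.FE E (M * p) →+* _root_.Fermat.Agent.A2.Mod.FE E (M * p))) (cE P E M w) p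
      (αE E M p).toRingHom (normAlpha E M p) :=
  letI := AlgebraicCurve.algebraAlong (αE E M p)
  (nlSetting_alpha hS hVM hV hW).side

theorem side_beta (hS : Setting P E M p w) {VM : ValuationSubring (_root_.Fermat.Agent.A2.Mod.FE E M)}
    {V : ValuationSubring (_root_.Fermat.Agent.A2.Mod.FE E (M * p))} (hVM : IsVinf P E M VM) (hV : IsVinf P E (M * p) V)
    {W : _root_.Fermat.Agent.A2.Mod.FE E (M * p) ≃ₐ[E] _root_.Fermat.Agent.A2.Mod.FE E (M * p)} (hW : IsFricke E (M * p) W) :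
    Side VM (V.comap (W : _root_.Fermat.Agent.A2.Mod.FE E (M * p) →+* _root_.Fermat.Agent.A2.Mod.FE E (M * p))) V (cE P E M w) p
      (βE E M p).toRingHom (normBeta E M p) :=
  letI := AlgebraicCurve.algebraAlong (βE E M p)
  (nlSetting_beta hS hVM hV hW).side

theorem depth_iff_depthE (hS : Setting P E M p w) (V : ValuationSubring (_root_.Fermat.Agent.A2.Mod.FE E (M * p)))
    (s : ℕ) (u : _root_.Fermat.Agent.A2.Mod.FE E (M * p)) :
    Depth V ((αE E M p).toRingHom (cE P E M w)) p (αE E M p).toRingHom (constSet E M) s u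
      ↔ DepthE w p V s u := by
  have hϖ : (αE E M p).toRingHom (cE P E M w) = cE P E (M * p) w := H378.alpha_cE w
  have hc0 : cE P E (M * p) w ^ s ≠ 0 := pow_ne_zero _ (H378.cE_ne_zero hS _)
  rw [hϖ]
  constructor
  · rintro ⟨c, ⟨e, he, rfl⟩, g, hg, hdv⟩
    refine ⟨e, he, g, hg, ?_⟩
    have h1 : (αE E M p).toRingHom (algebraMap E (_root_.Fermat.Agent.A2.Mod.FE E M) e) = algebraMap E (_root_.Fermat.Agent.A2.Mod.FE E (M * p)) e :=
      (αE E M p).commutes e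
    rw [h1] at hdv
    exact (Dv.iff_mul_inv hc0).mp hdv
  · rintro ⟨e, he, g, hg, hmem⟩
    refine ⟨algebraMap E (_root_.Fermat.Agent.A2.Mod.FE E M) e, ⟨e, he, rfl⟩, g, hg, ?_⟩
    have h1 : (αE E M p).toRingHom (algebraMap E (_root_.Fermat.Agent.A2.Mod.FE E M) e) = algebraMap E (_root_.Fermat.Agent.A2.Mod.FE E (M * p)) e :=
      (αE E M p).commutes e
    rw [h1]
    exact (Dv.iff_mul_inv hc0).mpr hmem

theorem isPthNorm_of (Nm : _root_.Fermat.Agent.A2.Mod.FE E (M * p) →* _root_.Fermat.Agent.A2.Mod.FE E M) {u : _root_.Fermat.Agent.A2.Mod.FE E (M * p)} (hu : u ≠ 0)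
    (h : IsPthNormE Nm u) : IsPthNorm Nm p (constSet E M) u := by
  obtain ⟨e, h', he⟩ := h
  have hN0 : Nm u ≠ 0 := norm_ne_zero_of_ne_zero Nm hu
  have he0 : e ≠ 0 := by
    rintro rfl
    rw [map_zero, zero_mul] at he
    exact hN0 he
  have hh0 : h' ≠ 0 := by
    rintro rfl
    rw [zero_pow (NeZero.ne p), mul_zero] at he
    exact hN0 he
  exact ⟨algebraMap E (_root_.Fermat.Agent.A2.Mod.FE E M) e, ⟨e, he0, rfl⟩, h', hh0, he⟩

/-- **W-NC, concrete form (start at `V∞`).**  Level `N = M p`, `p ∤ M`, `R_E` a discrete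
valuation ring over `p` with uniformiser `w`.  If the norms of `u ∈ F_N^×` along `α` and along
`β` are constants times `p`-th powers and `u ∈ E^× (F_N^×)^p (1 + w V∞)`, then for every `s`
`u ∈ E^× (F_N^×)^p (1 + w^s V∞)` and `u ∈ E^× (F_N^×)^p (1 + w^s V₀)`. -/
theorem wnc_inf (hS : Setting P E M p w) {VM : ValuationSubring (_root_.Fermat.Agent.A2.Mod.FE E M)}
    {V : ValuationSubring (_root_.Fermat.Agent.A2.Mod.FE E (M * p))} (hVM : IsVinf P E M VM) (hV : IsVinf P E (M * p) V)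
    {W : _root_.Fermat.Agent.A2.Mod.FE E (M * p) ≃ₐ[E] _root_.Fermat.Agent.A2.Mod.FE E (M * p)} (hW : IsFricke E (M * p) W)
    {u : _root_.Fermat.Agent.A2.Mod.FE E (M * p)} (hu : u ≠ 0)
    (hNα : IsPthNormE (normAlpha E M p) u) (hNβ : IsPthNormE (normBeta E M p) u)
    (h1 : DepthE w p V 1 u) (s : ℕ) :
    DepthE w p V s u ∧ DepthE w p (V.comap (W : _root_.Fermat.Agent.A2.Mod.FE E (M * p) →+* _root_.Fermat.Agent.A2.Mod.FE E (M * p))) s u := by
  have hαβ : ∀ c ∈ constSet E M, (βE E M p).toRingHom c = (αE E M p).toRingHom c := by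
    rintro c ⟨e, -, rfl⟩
    exact ((βE E M p).commutes e).trans ((αE E M p).commutes e).symm
  have hϖ : (βE E M p).toRingHom (cE P E M w) = (αE E M p).toRingHom (cE P E M w) :=
    ((βE E M p).commutes _).trans ((αE E M p).commutes _).symm
  have key := pingpong_inf (side_alpha hS hVM hV hW) (side_beta hS hVM hV hW)
    (isConstSet_constSet E M) hαβ hϖ (isPthNorm_of _ hu hNα) (isPthNorm_of _ hu hNβ)
    ((depth_iff_depthE hS V 1 u).mpr h1) s
  exact ⟨(depth_iff_depthE hS V s u).mp key.1, (depth_iff_depthE hS _ s u).mp key.2⟩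

/-- **W-NC, concrete form (start at `V₀`).** -/
theorem wnc_zero (hS : Setting P E M p w) {VM : ValuationSubring (_root_.Fermat.Agent.A2.Mod.FE E M)}
    {V : ValuationSubring (_root_.Fermat.Agent.A2.Mod.FE E (M * p))} (hVM : IsVinf P E M VM) (hV : IsVinf P E (M * p) V)
    {W : _root_.Fermat.Agent.A2.Mod.FE E (M * p) ≃ₐ[E] _root_.Fermat.Agent.A2.Mod.FE E (M * p)} (hW : IsFricke E (M * p) W)
    {u : _root_.Fermat.Agent.A2.Mod.FE E (M * p)} (hu : u ≠ 0)
    (hNα : IsPthNormE (normAlpha E M p) u) (hNβ : IsPthNormE (normBeta E M p) u)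
    (h1 : DepthE w p (V.comap (W : _root_.Fermat.Agent.A2.Mod.FE E (M * p) →+* _root_.Fermat.Agent.A2.Mod.FE E (M * p))) 1 u) (s : ℕ) :
    DepthE w p V s u ∧ DepthE w p (V.comap (W : _root_.Fermat.Agent.A2.Mod.FE E (M * p) →+* _root_.Fermat.Agent.A2.Mod.FE E (M * p))) s u := by
  have hαβ : ∀ c ∈ constSet E M, (βE E M p).toRingHom c = (αE E M p).toRingHom c := by
    rintro c ⟨e, -, rfl⟩
    exact ((βE E M p).commutes e).trans ((αE E M p).commutes e).symm
  have hϖ : (βE E M p).toRingHom (cE P E M w) = (αE E M p).toRingHom (cE P E M w) :=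
    ((βE E M p).commutes _).trans ((αE E M p).commutes _).symm
  have key := pingpong_zero (side_alpha hS hVM hV hW) (side_beta hS hVM hV hW)
    (isConstSet_constSet E M) hαβ hϖ (isPthNorm_of _ hu hNα) (isPthNorm_of _ hu hNβ)
    ((depth_iff_depthE hS _ 1 u).mpr h1) s
  exact ⟨(depth_iff_depthE hS V s u).mp key.1, (depth_iff_depthE hS _ s u).mp key.2⟩

end WNC

end Fermat.Agent.Ribet.H232

end
end
-- ===== PACK-END Ribet/H232/NCInst.lean

-- ===== PACK-BEGIN Ribet/H232/NCBoth.lean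
section


/-!
# RIBET / WALL-p, leaf W-NC — constants and simultaneous roots (helper232)

Refinements of `NormContraction.lean` / `NCInst.lean`:

* `Side.step_const`, `pingpong_const` : the ping-pong with EXPLICIT constants: if
  `N_α u = c_α h^p` and `N_β u = c_β h'^p`, then at every depth `u ∈ c_α (Lˣ)^p (1 + π^s V∞)` and
  `u ∈ c_β (Lˣ)^p (1 + π^s V₀)` (the constants are those of the norms);
* `exists_common_root` : weak approximation: if `u ∈ c g₁^p (1 + π^s V₁)` and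
  `u ∈ c g₂^p (1 + π^s V₂)` (same constant), there is ONE `g` with
  `u ∈ c g^p (1 + π^s V₁) ∩ c g^p (1 + π^s V₂)`;
* `wnc_const`, `wnc_both`, `wnc_both_one` : the concrete forms at level `E`
  (vocabulary of `A2/Mod/Spec.lean`, `q := p`).  In particular (`wnc_both_one`): if the norms of
  `u ∈ F_N^×` along `α` and `β` are `p`-th powers and `u` has depth `≥ 1` at one of `V∞`, `V₀`,
  then for every `s` there is `g ≠ 0` with `u / g^p ∈ 1 + w^s V∞` and `u / g^p ∈ 1 + w^s V₀`.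
-/

set_option autoImplicit false
set_option synthInstance.maxHeartbeats 400000
set_option maxHeartbeats 1600000
set_option linter.unusedSectionVars false
set_option linter.style.haveILetI false

noncomputable section

namespace Fermat.Agent.Ribet.H232

open Fermat.Agent.A2 Fermat.Agent.A2.Mod Fermat.Agent.A2.H48

/-! ## 1. abstract part -/

section Abstract

variable {K L : Type*} [Field K] [Field L]

/-- `u ∈ c · (Lˣ)^p · (1 + π^s V)` for the given constant `c`. -/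
def DepthC (V : ValuationSubring L) (π : L) (p : ℕ) (c : L) (s : ℕ) (u : L) : Prop :=
  ∃ g : L, g ≠ 0 ∧ Dv V (π ^ s) (u * (c * g ^ p)⁻¹ - 1)

theorem DepthC.mono {V : ValuationSubring L} {π : L} {p : ℕ} {c : L} (hπ : π ∈ V) {s t : ℕ}
    (hst : s ≤ t) {u : L} (h : DepthC V π p c t u) : DepthC V π p c s u := by
  obtain ⟨g, hg, hdv⟩ := h
  exact ⟨g, hg, Dv.pow_mono hπ hst hdv⟩

theorem DepthC.depth {V : ValuationSubring L} {π : L} {p : ℕ} {ι : K →+* L} {C : Set K}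
    {c : K} (hc : c ∈ C) {s : ℕ} {u : L} (h : DepthC V π p (ι c) s u) :
    Depth V π p ι C s u := by
  obtain ⟨g, hg, hdv⟩ := h
  exact ⟨c, hc, g, hg, hdv⟩

/-- `(1 + π^n V)` is closed under powers. -/
theorem dv_pow_sub_one {V : ValuationSubring L} {π : L} (h : IsUnif V π) {n : ℕ} {u : L}
    (hu : Dv V (π ^ n) (u - 1)) (m : ℕ) : Dv V (π ^ n) (u ^ m - 1) := by
  induction m with
  | zero =>
    rw [pow_zero, sub_self]
    exact Dv.zero
  | succ m ih =>
    rw [pow_succ]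
    exact dv_mul_sub_one h ih hu

/-- **One step of the ping-pong, with the constant of the norm.** -/
theorem Side.step_const {O : ValuationSubring K} {Vd Vi : ValuationSubring L} {ϖ : K} {p : ℕ}
    {φ : K →+* L} {N : L →* K} (hS : Side O Vd Vi ϖ p φ N)
    {ι : K →+* L} {C : Set K} (hC : IsConstSet C) (hφι : ∀ c ∈ C, φ c = ι c)
    {s : ℕ} (hs : 1 ≤ s) {u : L} {c₁ h₁ : K} (hc₁ : c₁ ∈ C) (hh₁ : h₁ ≠ 0)
    (hNu : N u = c₁ * h₁ ^ p)
    (hd : Depth Vi (φ ϖ) p ι C s u) : DepthC Vd (φ ϖ) p (ι c₁) (s + 1) u := by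
  obtain ⟨c, hc, g, hg, hdv⟩ := hd
  have hc0 := hC.ne_zero c hc
  have hc₁0 := hC.ne_zero c₁ hc₁
  have hιc : ι c ≠ 0 := by rw [← hφι c hc, Ne, map_eq_zero]; exact hc0
  have hιc₁ : ι c₁ ≠ 0 := by rw [← hφι c₁ hc₁, Ne, map_eq_zero]; exact hc₁0
  have hx0 : ι c * g ^ p ≠ 0 := mul_ne_zero hιc (pow_ne_zero _ hg)
  set u' : L := u * (ι c * g ^ p)⁻¹ with hu'
  have hu'0 : u' ≠ 0 :=
    ne_zero_of_dv_sub_one hS.unif_i (Dv.of_pow hS.unif_i.mem hs hdv)
  -- the norm of u'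
  have hNg : N g ≠ 0 := norm_ne_zero_of_ne_zero N hg
  have hNu' : N u' = (c₁ * c⁻¹) * (h₁ * (c * N g)⁻¹) ^ p := by
    rw [hu', map_mul, norm_inv_of_ne_zero N hx0, map_mul, map_pow, ← hφι c hc, hS.norm_base,
      hNu, pow_succ, mul_pow, inv_pow, mul_pow]
    field_simp
  set c₂ : K := c₁ * c⁻¹ with hc₂
  set h₂ : K := h₁ * (c * N g)⁻¹ with hh₂
  have hc₂C : c₂ ∈ C := hC.mul_mem _ hc₁ _ (hC.inv_mem _ hc)
  have hc₂0 : c₂ ≠ 0 := hC.ne_zero _ hc₂C
  have hh₂0 : h₂ ≠ 0 := mul_ne_zero hh₁ (inv_ne_zero (mul_ne_zero hc0 hNg))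
  -- approximation at the degree-one place
  obtain ⟨v, hv0, hv⟩ := hS.approx (s + 1) u' hu'0
  have hloc := hS.loc s hs u' 1 v one_ne_zero hv0 hv (by simpa using hdv)
  rw [one_pow, mul_one, hNu'] at hloc
  have hmap := ringHom_dv φ hS.le_d hloc
  rw [map_sub, map_one, map_mul, map_mul, map_pow, map_inv₀, map_pow] at hmap
  have hφv : φ v ≠ 0 := by rw [Ne, map_eq_zero]; exact hv0
  have hφc₂ : φ c₂ ≠ 0 := by rw [Ne, map_eq_zero]; exact hc₂0
  have hφh₂ : φ h₂ ≠ 0 := by rw [Ne, map_eq_zero]; exact hh₂0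
  have hinv := dv_inv_sub_one hS.unif_d (n := s + 1) (by omega) hmap
  have hprod := dv_mul_sub_one hS.unif_d hv hinv
  have e1 : u' * (φ v)⁻¹ * (φ c₂ * φ h₂ ^ p * (φ v)⁻¹)⁻¹ = u' * (φ c₂ * φ h₂ ^ p)⁻¹ := by
    field_simp
  rw [e1] at hprod
  refine ⟨g * φ h₂, mul_ne_zero hg hφh₂, ?_⟩
  have e3 : φ c₂ = ι c₁ * (ι c)⁻¹ := by
    rw [hc₂, map_mul, map_inv₀, hφι c₁ hc₁, hφι c hc]
  have e2 : u * (ι c₁ * (g * φ h₂) ^ p)⁻¹ = u' * (φ c₂ * φ h₂ ^ p)⁻¹ := by
    rw [hu', e3, mul_pow]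
    field_simp
  rw [e2]
  exact hprod

/-- **Ping-pong with the constants of the norms.** -/
theorem pingpong_const {O : ValuationSubring K} {Vinf V0 : ValuationSubring L} {ϖ : K} {p : ℕ}
    {α β : K →+* L} {Nα Nβ : L →* K}
    (hα : Side O Vinf V0 ϖ p α Nα) (hβ : Side O V0 Vinf ϖ p β Nβ)
    {C : Set K} (hC : IsConstSet C) (hαβ : ∀ c ∈ C, β c = α c) (hϖ : β ϖ = α ϖ)
    {u : L} {cα cβ hA hB : K} (hcα : cα ∈ C) (hcβ : cβ ∈ C) (hhA : hA ≠ 0) (hhB : hB ≠ 0)
    (hNα : Nα u = cα * hA ^ p) (hNβ : Nβ u = cβ * hB ^ p)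
    (h1 : Depth Vinf (α ϖ) p α C 1 u ∨ Depth V0 (α ϖ) p α C 1 u) (s : ℕ) :
    DepthC Vinf (α ϖ) p (α cα) s u ∧ DepthC V0 (α ϖ) p (α cβ) s u := by
  have hPα : IsPthNorm Nα p C u := ⟨cα, hcα, hA, hhA, hNα⟩
  have hPβ : IsPthNorm Nβ p C u := ⟨cβ, hcβ, hB, hhB, hNβ⟩
  have hall : ∀ t : ℕ, Depth Vinf (α ϖ) p α C t u ∧ Depth V0 (α ϖ) p α C t u := by
    rcases h1 with h1 | h1
    · exact pingpong_inf hα hβ hC hαβ hϖ hPα hPβ h1
    · exact pingpong_zero hα hβ hC hαβ hϖ hPα hPβ h1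
  have h0 := (hall (s + 1)).2
  have hi := (hall (s + 1)).1
  constructor
  · have := hα.step_const hC (fun _ _ => rfl) (Nat.le_add_left 1 s) hcα hhA hNα h0
    exact DepthC.mono hα.unif_d.mem (by omega) this
  · have := hβ.step_const hC hαβ (Nat.le_add_left 1 s) hcβ hhB hNβ (by rw [hϖ]; exact hi)
    rw [hϖ] at this
    exact DepthC.mono hα.unif_i.mem (by omega) this

/-- **Weak approximation of the roots.**  If `u ∈ c g₁^p (1 + π^s V₁)` and
`u ∈ c g₂^p (1 + π^s V₂)`, there is one `g` with `u ∈ c g^p (1 + π^s V₁) ∩ c g^p (1 + π^s V₂)`. -/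
theorem exists_common_root {V₁ V₂ : ValuationSubring L} {π : L} (h₁ : IsUnif V₁ π)
    (h₂ : IsUnif V₂ π) (hne : V₁ ≠ V₂) (arch₁ : ∀ a : L, ∃ k : ℕ, π ^ k * a ∈ V₁)
    (arch₂ : ∀ a : L, ∃ k : ℕ, π ^ k * a ∈ V₂) {p s : ℕ} {c u : L}
    (d₁ : DepthC V₁ π p c s u) (d₂ : DepthC V₂ π p c s u) :
    ∃ g : L, g ≠ 0 ∧ Dv V₁ (π ^ s) (u * (c * g ^ p)⁻¹ - 1)
      ∧ Dv V₂ (π ^ s) (u * (c * g ^ p)⁻¹ - 1) := by
  obtain ⟨g₁, hg₁, hd₁⟩ := d₁
  obtain ⟨g₂, hg₂, hd₂⟩ := d₂
  have hπ := h₁.ne_zero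
  obtain ⟨k₁, hk₁⟩ := arch₁ (g₂ * g₁⁻¹ - 1)
  obtain ⟨k₂, hk₂⟩ := arch₂ (g₁ * g₂⁻¹ - 1)
  obtain ⟨e, -, -, he₁, he₂⟩ := exists_idem h₁ h₂ hne (s + 1 + k₁ + k₂)
  set g : L := e * g₁ + (1 - e) * g₂ with hg
  -- `g / g₁ ∈ 1 + π^(s+1) V₁`
  have c1 : Dv V₁ (π ^ (s + 1)) (g * g₁⁻¹ - 1) := by
    obtain ⟨y, hy, hey⟩ := he₁
    refine ⟨-(π ^ k₂ * y * (π ^ k₁ * (g₂ * g₁⁻¹ - 1))), ?_, ?_⟩
    · exact neg_mem (mul_mem (mul_mem (pow_mem h₁.mem _) hy) hk₁)
    · have h3 : g * g₁⁻¹ - 1 = -((e - 1) * (g₂ * g₁⁻¹ - 1)) := by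
        rw [hg]
        field_simp
        ring
      rw [h3, hey]
      ring
  have c2 : Dv V₂ (π ^ (s + 1)) (g * g₂⁻¹ - 1) := by
    obtain ⟨y, hy, hey⟩ := he₂
    refine ⟨π ^ k₁ * y * (π ^ k₂ * (g₁ * g₂⁻¹ - 1)), ?_, ?_⟩
    · exact mul_mem (mul_mem (pow_mem h₂.mem _) hy) hk₂
    · have h3 : g * g₂⁻¹ - 1 = e * (g₁ * g₂⁻¹ - 1) := by
        rw [hg]
        field_simp
        ring
      rw [h3, hey]
      ring
  have hgg₁ : g * g₁⁻¹ ≠ 0 :=
    ne_zero_of_dv_sub_one h₁ (Dv.of_pow h₁.mem (Nat.le_add_left 1 s) c1)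
  have hg0 : g ≠ 0 := fun h0 => hgg₁ (by rw [h0, zero_mul])
  refine ⟨g, hg0, ?_, ?_⟩
  · have i1 := dv_inv_sub_one h₁ (Nat.le_add_left 1 s) c1
    have i2 := dv_pow_sub_one h₁ i1 p
    have i3 := Dv.pow_mono h₁.mem (Nat.le_succ s) i2
    have i4 := dv_mul_sub_one h₁ hd₁ i3
    have e1 : u * (c * g ^ p)⁻¹ = u * (c * g₁ ^ p)⁻¹ * ((g * g₁⁻¹)⁻¹) ^ p := by
      have hp0 : g₁ ^ p ≠ 0 := pow_ne_zero _ hg₁
      have e0 : ((g * g₁⁻¹)⁻¹) ^ p = g₁ ^ p * (g ^ p)⁻¹ := by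
        rw [mul_inv, inv_inv, mul_pow, inv_pow, mul_comm]
      rw [e0, mul_inv, mul_inv]
      calc u * (c⁻¹ * (g ^ p)⁻¹) = u * c⁻¹ * ((g₁ ^ p)⁻¹ * g₁ ^ p) * (g ^ p)⁻¹ := by
            rw [inv_mul_cancel₀ hp0]; ring
        _ = u * (c⁻¹ * (g₁ ^ p)⁻¹) * (g₁ ^ p * (g ^ p)⁻¹) := by ring
    rw [e1]
    exact i4
  · have i1 := dv_inv_sub_one h₂ (Nat.le_add_left 1 s) c2
    have i2 := dv_pow_sub_one h₂ i1 p
    have i3 := Dv.pow_mono h₂.mem (Nat.le_succ s) i2
    have i4 := dv_mul_sub_one h₂ hd₂ i3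
    have e1 : u * (c * g ^ p)⁻¹ = u * (c * g₂ ^ p)⁻¹ * ((g * g₂⁻¹)⁻¹) ^ p := by
      have hp0 : g₂ ^ p ≠ 0 := pow_ne_zero _ hg₂
      have e0 : ((g * g₂⁻¹)⁻¹) ^ p = g₂ ^ p * (g ^ p)⁻¹ := by
        rw [mul_inv, inv_inv, mul_pow, inv_pow, mul_comm]
      rw [e0, mul_inv, mul_inv]
      calc u * (c⁻¹ * (g ^ p)⁻¹) = u * c⁻¹ * ((g₂ ^ p)⁻¹ * g₂ ^ p) * (g ^ p)⁻¹ := by
            rw [inv_mul_cancel₀ hp0]; ring
        _ = u * (c⁻¹ * (g₂ ^ p)⁻¹) * (g₂ ^ p * (g ^ p)⁻¹) := by ring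
    rw [e1]
    exact i4

end Abstract

/-! ## 2. concrete part -/

section ConcreteBoth

variable {P : ValuationSubring _root_.Fermat.Agent.A2.Mod.Qb} {E : IntermediateField ℚ _root_.Fermat.Agent.A2.Mod.Qb} {M p : ℕ} [NeZero M] [NeZero p]
  {w : _root_.Fermat.Agent.A2.Mod.RE P E}

/-- `V₀` has rank one: bounded denominators. -/
theorem arch_comap (hS : Setting P E M p w) {V : ValuationSubring (_root_.Fermat.Agent.A2.Mod.FE E (M * p))}
    (hV : IsVinf P E (M * p) V) (W : _root_.Fermat.Agent.A2.Mod.FE E (M * p) ≃ₐ[E] _root_.Fermat.Agent.A2.Mod.FE E (M * p)) (a : _root_.Fermat.Agent.A2.Mod.FE E (M * p)) :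
    ∃ k : ℕ, cE P E (M * p) w ^ k * a ∈ V.comap (W : _root_.Fermat.Agent.A2.Mod.FE E (M * p) →+* _root_.Fermat.Agent.A2.Mod.FE E (M * p)) := by
  obtain ⟨k, hk⟩ := arch_vinf hS hV (W a)
  refine ⟨k, ?_⟩
  show W (cE P E (M * p) w ^ k * a) ∈ V
  have hWc : W (cE P E (M * p) w) = cE P E (M * p) w := W.commutes _
  rw [map_mul, map_pow, hWc]
  exact hk

/-- **W-NC, concrete form with the constants of the norms.**  If `N_α u = e_α h^p` and
`N_β u = e_β h'^p` (`e_α, e_β ∈ E`) and `u` has depth `≥ 1` at `V∞` or at `V₀`, then for every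
`s`: `u ∈ e_α (F_N^×)^p (1 + w^s V∞)` and `u ∈ e_β (F_N^×)^p (1 + w^s V₀)`. -/
theorem wnc_const (hS : Setting P E M p w) {VM : ValuationSubring (_root_.Fermat.Agent.A2.Mod.FE E M)}
    {V : ValuationSubring (_root_.Fermat.Agent.A2.Mod.FE E (M * p))} (hVM : IsVinf P E M VM) (hV : IsVinf P E (M * p) V)
    {W : _root_.Fermat.Agent.A2.Mod.FE E (M * p) ≃ₐ[E] _root_.Fermat.Agent.A2.Mod.FE E (M * p)} (hW : IsFricke E (M * p) W)
    {u : _root_.Fermat.Agent.A2.Mod.FE E (M * p)} (hu : u ≠ 0) {eα eβ : E} {hA hB : _root_.Fermat.Agent.A2.Mod.FE E M}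
    (hNα : normAlpha E M p u = algebraMap E (_root_.Fermat.Agent.A2.Mod.FE E M) eα * hA ^ p)
    (hNβ : normBeta E M p u = algebraMap E (_root_.Fermat.Agent.A2.Mod.FE E M) eβ * hB ^ p)
    (h1 : DepthE w p V 1 u ∨
      DepthE w p (V.comap (W : _root_.Fermat.Agent.A2.Mod.FE E (M * p) →+* _root_.Fermat.Agent.A2.Mod.FE E (M * p))) 1 u) (s : ℕ) :
    DepthC V (cE P E (M * p) w) p (algebraMap E (_root_.Fermat.Agent.A2.Mod.FE E (M * p)) eα) s u ∧
      DepthC (V.comap (W : _root_.Fermat.Agent.A2.Mod.FE E (M * p) →+* _root_.Fermat.Agent.A2.Mod.FE E (M * p))) (cE P E (M * p) w) p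
        (algebraMap E (_root_.Fermat.Agent.A2.Mod.FE E (M * p)) eβ) s u := by
  have hαβ : ∀ c ∈ constSet E M, (βE E M p).toRingHom c = (αE E M p).toRingHom c := by
    rintro c ⟨e, -, rfl⟩
    exact ((βE E M p).commutes e).trans ((αE E M p).commutes e).symm
  have hϖ : (βE E M p).toRingHom (cE P E M w) = (αE E M p).toRingHom (cE P E M w) :=
    ((βE E M p).commutes _).trans ((αE E M p).commutes _).symm
  have hNα0 : normAlpha E M p u ≠ 0 := norm_ne_zero_of_ne_zero _ hu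
  have hNβ0 : normBeta E M p u ≠ 0 := norm_ne_zero_of_ne_zero _ hu
  have heα : eα ≠ 0 := by
    rintro rfl
    rw [map_zero, zero_mul] at hNα
    exact hNα0 hNα
  have heβ : eβ ≠ 0 := by
    rintro rfl
    rw [map_zero, zero_mul] at hNβ
    exact hNβ0 hNβ
  have hhA : hA ≠ 0 := by
    rintro rfl
    rw [zero_pow (NeZero.ne p), mul_zero] at hNα
    exact hNα0 hNα
  have hhB : hB ≠ 0 := by
    rintro rfl
    rw [zero_pow (NeZero.ne p), mul_zero] at hNβ
    exact hNβ0 hNβ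
  have h1' : Depth V ((αE E M p).toRingHom (cE P E M w)) p (αE E M p).toRingHom
        (constSet E M) 1 u ∨
      Depth (V.comap (W : _root_.Fermat.Agent.A2.Mod.FE E (M * p) →+* _root_.Fermat.Agent.A2.Mod.FE E (M * p))) ((αE E M p).toRingHom (cE P E M w)) p
        (αE E M p).toRingHom (constSet E M) 1 u := by
    rcases h1 with h | h
    · exact Or.inl ((depth_iff_depthE hS V 1 u).mpr h)
    · exact Or.inr ((depth_iff_depthE hS _ 1 u).mpr h)
  have key := pingpong_const (side_alpha hS hVM hV hW) (side_beta hS hVM hV hW)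
    (isConstSet_constSet E M) hαβ hϖ (cα := algebraMap E (_root_.Fermat.Agent.A2.Mod.FE E M) eα)
    (cβ := algebraMap E (_root_.Fermat.Agent.A2.Mod.FE E M) eβ) ⟨eα, heα, rfl⟩ ⟨eβ, heβ, rfl⟩ hhA hhB hNα hNβ h1' s
  have hϖ' : (αE E M p).toRingHom (cE P E M w) = cE P E (M * p) w := H378.alpha_cE w
  have hcα : (αE E M p).toRingHom (algebraMap E (_root_.Fermat.Agent.A2.Mod.FE E M) eα) = algebraMap E (_root_.Fermat.Agent.A2.Mod.FE E (M * p)) eα :=
    (αE E M p).commutes eα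
  have hcβ : (αE E M p).toRingHom (algebraMap E (_root_.Fermat.Agent.A2.Mod.FE E M) eβ) = algebraMap E (_root_.Fermat.Agent.A2.Mod.FE E (M * p)) eβ :=
    (αE E M p).commutes eβ
  rw [hϖ', hcα, hcβ] at key
  exact key

/-- **W-NC, concrete form with ONE root.**  If `N_α u = e h^p` and `N_β u = e h'^p` with the same
constant `e ∈ E` and `u` has depth `≥ 1` at `V∞` or at `V₀`, then for every `s` there is
`g ≠ 0` with `u / (e g^p) ∈ 1 + w^s V∞` and `u / (e g^p) ∈ 1 + w^s V₀`. -/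
theorem wnc_both (hS : Setting P E M p w) {VM : ValuationSubring (_root_.Fermat.Agent.A2.Mod.FE E M)}
    {V : ValuationSubring (_root_.Fermat.Agent.A2.Mod.FE E (M * p))} (hVM : IsVinf P E M VM) (hV : IsVinf P E (M * p) V)
    {W : _root_.Fermat.Agent.A2.Mod.FE E (M * p) ≃ₐ[E] _root_.Fermat.Agent.A2.Mod.FE E (M * p)} (hW : IsFricke E (M * p) W)
    {u : _root_.Fermat.Agent.A2.Mod.FE E (M * p)} (hu : u ≠ 0) {e : E} {hA hB : _root_.Fermat.Agent.A2.Mod.FE E M}
    (hNα : normAlpha E M p u = algebraMap E (_root_.Fermat.Agent.A2.Mod.FE E M) e * hA ^ p)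
    (hNβ : normBeta E M p u = algebraMap E (_root_.Fermat.Agent.A2.Mod.FE E M) e * hB ^ p)
    (h1 : DepthE w p V 1 u ∨
      DepthE w p (V.comap (W : _root_.Fermat.Agent.A2.Mod.FE E (M * p) →+* _root_.Fermat.Agent.A2.Mod.FE E (M * p))) 1 u) (s : ℕ) :
    ∃ g : _root_.Fermat.Agent.A2.Mod.FE E (M * p), g ≠ 0 ∧
      (u * (algebraMap E (_root_.Fermat.Agent.A2.Mod.FE E (M * p)) e * g ^ p)⁻¹ - 1) * (cE P E (M * p) w ^ s)⁻¹ ∈ V ∧
      (u * (algebraMap E (_root_.Fermat.Agent.A2.Mod.FE E (M * p)) e * g ^ p)⁻¹ - 1) * (cE P E (M * p) w ^ s)⁻¹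
        ∈ V.comap (W : _root_.Fermat.Agent.A2.Mod.FE E (M * p) →+* _root_.Fermat.Agent.A2.Mod.FE E (M * p)) := by
  obtain ⟨d₁, d₂⟩ := wnc_const hS hVM hV hW hu hNα hNβ h1 s
  have hu₁ : IsUnif V (cE P E (M * p) w) := isUnif_vinf hS level_ne_zero hV
  have hWc : (W : _root_.Fermat.Agent.A2.Mod.FE E (M * p) →+* _root_.Fermat.Agent.A2.Mod.FE E (M * p)) (cE P E (M * p) w) = cE P E (M * p) w :=
    W.commutes _
  have hu₂ : IsUnif (V.comap (W : _root_.Fermat.Agent.A2.Mod.FE E (M * p) →+* _root_.Fermat.Agent.A2.Mod.FE E (M * p))) (cE P E (M * p) w) :=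
    isUnif_comap hu₁ _ hWc
  obtain ⟨g, hg, hg₁, hg₂⟩ := exists_common_root hu₁ hu₂
    (H553.vzeroNe P E M p w hS V W hV hW).symm (arch_vinf hS hV) (arch_comap hS hV W) d₁ d₂
  have hc0 : cE P E (M * p) w ^ s ≠ 0 := pow_ne_zero _ (H378.cE_ne_zero hS _)
  exact ⟨g, hg, (Dv.iff_mul_inv hc0).mp hg₁, (Dv.iff_mul_inv hc0).mp hg₂⟩

/-- **W-NC, concrete form, norms `p`-th powers.**  If `N_α u` and `N_β u` are `p`-th powers in
`F_M` and `u` has depth `≥ 1` at `V∞` or at `V₀`, then for every `s` there is `g ≠ 0` with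
`u / g^p ∈ 1 + w^s V∞` and `u / g^p ∈ 1 + w^s V₀`. -/
theorem wnc_both_one (hS : Setting P E M p w) {VM : ValuationSubring (_root_.Fermat.Agent.A2.Mod.FE E M)}
    {V : ValuationSubring (_root_.Fermat.Agent.A2.Mod.FE E (M * p))} (hVM : IsVinf P E M VM) (hV : IsVinf P E (M * p) V)
    {W : _root_.Fermat.Agent.A2.Mod.FE E (M * p) ≃ₐ[E] _root_.Fermat.Agent.A2.Mod.FE E (M * p)} (hW : IsFricke E (M * p) W)
    {u : _root_.Fermat.Agent.A2.Mod.FE E (M * p)} (hu : u ≠ 0) {hA hB : _root_.Fermat.Agent.A2.Mod.FE E M}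
    (hNα : normAlpha E M p u = hA ^ p) (hNβ : normBeta E M p u = hB ^ p)
    (h1 : DepthE w p V 1 u ∨
      DepthE w p (V.comap (W : _root_.Fermat.Agent.A2.Mod.FE E (M * p) →+* _root_.Fermat.Agent.A2.Mod.FE E (M * p))) 1 u) (s : ℕ) :
    ∃ g : _root_.Fermat.Agent.A2.Mod.FE E (M * p), g ≠ 0 ∧
      (u * (g ^ p)⁻¹ - 1) * (cE P E (M * p) w ^ s)⁻¹ ∈ V ∧
      (u * (g ^ p)⁻¹ - 1) * (cE P E (M * p) w ^ s)⁻¹
        ∈ V.comap (W : _root_.Fermat.Agent.A2.Mod.FE E (M * p) →+* _root_.Fermat.Agent.A2.Mod.FE E (M * p)) := by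
  have hNα' : normAlpha E M p u = algebraMap E (_root_.Fermat.Agent.A2.Mod.FE E M) 1 * hA ^ p := by
    rw [map_one, one_mul, hNα]
  have hNβ' : normBeta E M p u = algebraMap E (_root_.Fermat.Agent.A2.Mod.FE E M) 1 * hB ^ p := by
    rw [map_one, one_mul, hNβ]
  obtain ⟨g, hg, h₁, h₂⟩ := wnc_both hS hVM hV hW hu hNα' hNβ' h1 s
  rw [map_one, one_mul] at h₁ h₂
  exact ⟨g, hg, h₁, h₂⟩

end ConcreteBoth

end Fermat.Agent.Ribet.H232

end
end
-- ===== PACK-END Ribet/H232/NCBoth.lean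

-- ===== PACK-BEGIN Ribet/H944/WildLevel.lean
section



/-!
# Row 38, WALL-p, (S4) CORE-OUT: the WILD LEVEL `E₂ = E₁(u)`  (helper944)

`A ∣ p`, `I` its inertia group, `I₁ = {τ ∈ I | τ|μ_p = 1}`, `ζ` a primitive `p`-th root of unity,
`E₁ = tameLevel A ζ = ℚ̄^{I₁}`, `u ∈ ℚ̄` with `u ^ p ∈ E₁` (the Kummer generator of the field of
definition of the class `x`, `H785.exists_kummer_gen`).

* `wildLevel A ζ u`       : `E₂ = ℚ̄^I(ζ, u) = E₁(u)`;
* `mem_wildLevel_iff_fixed` : `y ∈ E₂ ↔ y` is fixed by `{ρ ∈ I₁ | ρ u = u}` (Galois correspondence);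
* `goodField_wildLevel`   : `E₂` is a good level (`A2.GoodField`) as soon as `E₂ / ℚ̄^I` is normal
                            (`hnorm : ρ ∈ I₁, ρ u = u ⟹ ρ (τ u) = τ u` for `τ ∈ I`);
* `hnorm_of_kummer`       : `hnorm` in the setting of the crux (S4);
* `pow_apply_eq_of_mem_wildLevel` : `σ₁ ^ p = 1` on `E₂` (`σ₁ ∈ I₁`, `σ₁ u = ζ u`);
* `mem_tameLevel_of_fixed` : the fixed field of `σ₁` in `E₂` is `E₁`;
* `exists_wildLevel`      : the whole package in the setting of `H704.CoreOut.WildStatement`.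
-/

set_option autoImplicit false
set_option linter.unusedSectionVars false
set_option linter.style.haveILetI false

noncomputable section

namespace Fermat.Agent.Ribet.H944.Tame

open Fermat.Agent.A2 Fermat.Agent.A2.IF.H429 Fermat.Agent.Ribet.H785
open Fermat.Agent.S55.Bridge Fermat.Agent.Ribet.Spec Fermat.Agent.Ribet.H944.Wall

attribute [local instance] isAlgebraic_Qbar isGalois_Qbar

variable (A : ValuationSubring Qb) {p : ℕ}

/-- The wild level over the inertia field: `ℚ̄^I(ζ, u)`. -/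
def wildLevel₁ (ζ u : Qb) : IntermediateField (inertiaField A) Qb :=
  IntermediateField.adjoin (inertiaField A) (conjSet {ζ} ∪ {u})

instance wildLevel₁_finiteDimensional (ζ u : Qb) :
    FiniteDimensional (inertiaField A) (wildLevel₁ A ζ u) := by
  haveI : Finite (conjSet {ζ} ∪ {u} : Set Qb) :=
    ((conjSet_finite {ζ}).union (Set.finite_singleton u)).to_subtype
  exact IntermediateField.finiteDimensional_adjoin
    (fun x _ => Algebra.IsIntegral.isIntegral x)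

/-- The wild level `E₂ = E₁(u)`. -/
def wildLevel (ζ u : Qb) : IntermediateField ℚ Qb :=
  (wildLevel₁ A ζ u).restrictScalars ℚ

theorem mem_wildLevel_iff (ζ u x : Qb) : x ∈ wildLevel A ζ u ↔ x ∈ wildLevel₁ A ζ u := Iff.rfl

theorem inertiaField_le_wildLevel (ζ u : Qb) : inertiaField A ≤ wildLevel A ζ u := by
  intro x hx
  rw [mem_wildLevel_iff]
  exact (wildLevel₁ A ζ u).algebraMap_mem ⟨x, hx⟩

theorem u_mem_wildLevel (ζ u : Qb) : u ∈ wildLevel A ζ u := by
  rw [mem_wildLevel_iff]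
  exact IntermediateField.subset_adjoin _ _ (Set.mem_union_right _ rfl)

theorem tameLevel_le_wildLevel (ζ u : Qb) : tameLevel A ζ ≤ wildLevel A ζ u := by
  intro x hx
  rw [mem_wildLevel_iff]
  have hx' : x ∈ level₁ A {ζ} := hx
  exact IntermediateField.adjoin.mono _ _ _ Set.subset_union_left hx'

/-- An automorphism fixing the inertia field, the conjugates of `ζ` and `u` fixes `E₂`. -/
theorem wildLevel_fixed (ζ u : Qb) (ρ : Qb ≃ₐ[ℚ] Qb)
    (hρ : ∀ e ∈ inertiaField A, ρ e = e) (hS : ∀ x ∈ conjSet {ζ}, ρ x = x) (hu : ρ u = u)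
    {x : Qb} (hx : x ∈ wildLevel A ζ u) : ρ x = x := by
  rw [mem_wildLevel_iff] at hx
  unfold wildLevel₁ at hx
  induction hx using IntermediateField.adjoin_induction with
  | mem x hx =>
    rcases hx with hx | hx
    · exact hS x hx
    · rw [Set.mem_singleton_iff.mp hx]; exact hu
  | algebraMap x => exact hρ _ x.2
  | add x y _ _ hx hy => rw [map_add, hx, hy]
  | inv x _ hx => rw [map_inv₀, hx]
  | mul x y _ _ hx hy => rw [map_mul, hx, hy]

/-- The conjugates of `ζ` are `p`-th roots of unity. -/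
theorem pow_eq_one_of_mem_conjSet {ζ : Qb} (hζp : ζ ^ p = 1) {z : Qb}
    (hz : z ∈ conjSet {ζ}) : z ^ p = 1 := by
  rw [mem_conjSet_iff, Finset.prod_singleton] at hz
  have hdvd : minpoly ℚ ζ ∣ (Polynomial.X ^ p - 1 : Polynomial ℚ) :=
    minpoly.dvd ℚ ζ (by simp [hζp])
  obtain ⟨q, hq⟩ := hdvd
  have h1 := congrArg (Polynomial.aeval z) hq
  rw [map_mul, hz, zero_mul] at h1
  simpa [sub_eq_zero] using h1

/-- `E₂` is fixed by the elements of `I₁` fixing `u`. -/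
theorem fixed_of_mem_wildLevel {ζ : Qb} (hζp : ζ ^ p = 1) {u x : Qb}
    (hx : x ∈ wildLevel A ζ u) :
    ∀ ρ ∈ A.inertiaSubgroupIn ℚ, CycloAt p ρ 1 → ρ u = u → ρ x = x := by
  intro ρ hρ hρ1 hρu
  refine wildLevel_fixed A ζ u ρ (fun e he => (mem_inertiaField_iff A).mp he ρ hρ) ?_ hρu hx
  intro z hz
  have h2 := hρ1 z (pow_eq_one_of_mem_conjSet hζp hz)
  rwa [pow_one] at h2

/-- Everything fixed by the elements of `I₁` fixing `u` lies in `E₂`. -/
theorem mem_wildLevel_of_fixed {ζ : Qb} (hζ : IsPrimitiveRoot ζ p) (hp0 : p ≠ 0) {u x : Qb}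
    (hx : ∀ ρ ∈ A.inertiaSubgroupIn ℚ, CycloAt p ρ 1 → ρ u = u → ρ x = x) :
    x ∈ wildLevel A ζ u := by
  haveI : NeZero p := ⟨hp0⟩
  apply mem_of_fixed
  intro σ hσ
  have hσI : σ ∈ A.inertiaSubgroupIn ℚ := by
    apply Fermat.Agent.A2.IF.H9.mem_inertiaSubgroupIn_of_fixes_fixedField
    intro y hy
    exact hσ y (inertiaField_le_wildLevel A ζ u hy)
  refine hx σ hσI (fun ζ' hζ' => ?_) (hσ u (u_mem_wildLevel A ζ u))
  obtain ⟨k, -, rfl⟩ := hζ.eq_pow_of_pow_eq_one hζ'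
  rw [pow_one, map_pow,
    hσ ζ (tameLevel_le_wildLevel A ζ u (zeta_mem_tameLevel A ζ))]

/-- **Galois correspondence for `E₂`.** -/
theorem mem_wildLevel_iff_fixed {ζ : Qb} (hζ : IsPrimitiveRoot ζ p) (hp0 : p ≠ 0) (u x : Qb) :
    x ∈ wildLevel A ζ u ↔
      ∀ ρ ∈ A.inertiaSubgroupIn ℚ, CycloAt p ρ 1 → ρ u = u → ρ x = x :=
  ⟨fixed_of_mem_wildLevel A hζ.pow_eq_one, mem_wildLevel_of_fixed A hζ hp0⟩

/-- Conjugation by `τ ∈ I` preserves `I₁`. -/
theorem cycloAt_conj {τ ρ : Qb ≃ₐ[ℚ] Qb} (hρ1 : CycloAt p ρ 1) :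
    CycloAt p (τ⁻¹ * ρ * τ) 1 := by
  intro z hz
  rw [pow_one]
  have h1 : (τ z) ^ p = 1 := by rw [← map_pow, hz, map_one]
  have h2 := hρ1 (τ z) h1
  rw [pow_one] at h2
  show τ⁻¹ (ρ (τ z)) = z
  rw [h2]
  show (τ⁻¹ * τ) z = z
  rw [inv_mul_cancel, AlgEquiv.one_apply]

/-- `E₂` is stable under inertia when `E₂ / ℚ̄^I` is normal. -/
theorem wildLevel_stable {ζ : Qb} (hζ : IsPrimitiveRoot ζ p) (hp0 : p ≠ 0) {u : Qb}
    (hnorm : ∀ τ ∈ A.inertiaSubgroupIn ℚ, ∀ ρ ∈ A.inertiaSubgroupIn ℚ, CycloAt p ρ 1 →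
      ρ u = u → ρ (τ u) = τ u)
    {τ : Qb ≃ₐ[ℚ] Qb} (hτ : τ ∈ A.inertiaSubgroupIn ℚ) {e : Qb}
    (he : e ∈ wildLevel A ζ u) : τ e ∈ wildLevel A ζ u := by
  apply mem_wildLevel_of_fixed A hζ hp0
  intro ρ hρ hρ1 hρu
  have h1 : (τ⁻¹ * ρ * τ) ∈ A.inertiaSubgroupIn ℚ :=
    mul_mem (mul_mem (inv_mem hτ) hρ) hτ
  have h2 : (τ⁻¹ * ρ * τ) u = u := by
    show τ⁻¹ (ρ (τ u)) = u
    rw [hnorm τ hτ ρ hρ hρ1 hρu]
    show (τ⁻¹ * τ) u = u
    rw [inv_mul_cancel, AlgEquiv.one_apply]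
  have h3 := fixed_of_mem_wildLevel A hζ.pow_eq_one he _ h1 (cycloAt_conj hρ1) h2
  have h4 : τ ((τ⁻¹ * ρ * τ) e) = ρ (τ e) := by
    show τ (τ⁻¹ (ρ (τ e))) = ρ (τ e)
    show (τ * τ⁻¹) (ρ (τ e)) = ρ (τ e)
    rw [mul_inv_cancel, AlgEquiv.one_apply]
  rw [← h4, h3]

/-- `E₂` is discretely valued. -/
theorem isDiscreteValuationRing_wildLevel (hp : p.Prime) (hA : A.LiesOverPrime p) (ζ u : Qb) :
    IsDiscreteValuationRing (A.comap (algebraMap (wildLevel A ζ u) Qb)) :=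
  isDiscreteValuationRing_RE_of_pow A p hp hA (wildLevel A ζ u)
    (Module.finrank (inertiaField A) (wildLevel₁ A ζ u)).factorial (Nat.factorial_pos _)
    (fun x hx hx0 => exists_pow_valuation_eq A p hp hA (wildLevel₁ A ζ u) x hx hx0)

/-- Every element of the inertia group has finite order on `E₂`. -/
theorem wildLevel_finite_order (ζ u : Qb) {τ : Qb ≃ₐ[ℚ] Qb}
    (hτ : τ ∈ A.inertiaSubgroupIn ℚ) :
    ∃ r : ℕ, 0 < r ∧ ∀ e : Qb, e ∈ wildLevel A ζ u → (⇑τ)^[r] e = e := by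
  classical
  obtain ⟨r, hr, hT⟩ := exists_pow_fixes_finset τ (insert u (conjSet_finite {ζ}).toFinset)
  refine ⟨r, hr, fun e he => ?_⟩
  rw [iterate_eq_pow_apply]
  refine wildLevel_fixed A ζ u (τ ^ r) ?_ ?_ ?_ he
  · intro e he
    exact (mem_inertiaField_iff A).mp he (τ ^ r) (Subgroup.pow_mem _ hτ r)
  · intro x hx
    exact hT x (Finset.mem_insert_of_mem ((conjSet_finite {ζ}).mem_toFinset.mpr hx))
  · exact hT u (Finset.mem_insert_self _ _)

/-- **The wild level is a good level.** -/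
theorem goodField_wildLevel (hp : p.Prime) (hA : A.LiesOverPrime p) {ζ : Qb}
    (hζ : IsPrimitiveRoot ζ p) {u : Qb}
    (hnorm : ∀ τ ∈ A.inertiaSubgroupIn ℚ, ∀ ρ ∈ A.inertiaSubgroupIn ℚ, CycloAt p ρ 1 →
      ρ u = u → ρ (τ u) = τ u) :
    GoodField A (wildLevel A ζ u) where
  stable := fun _ hτ _ he => wildLevel_stable A hζ hp.ne_zero hnorm hτ he
  dvr := isDiscreteValuationRing_wildLevel A hp hA ζ u
  henselian := henselian_RE A (wildLevel A ζ u) (inertiaField_le_wildLevel A ζ u)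
  algClosed := isAlgClosed_residueField_RE A (wildLevel A ζ u) p hp hA
    (inertiaField_le_wildLevel A ζ u)
  trivial_mod := fun _ hτ _ _ heP => sub_mem_nonunits_of_inertia A hτ heP
  finite_order := fun _ hτ => wildLevel_finite_order A ζ u hτ

/-! ## The generator `σ₁` of `Gal(E₂ / E₁)` -/

section Gen

variable {A}

theorem pow_apply_u {ζ u : Qb} {σ : Qb ≃ₐ[ℚ] Qb} (hσζ : σ ζ = ζ) (hσu : σ u = ζ * u) (k : ℕ) :
    (σ ^ k) u = ζ ^ k * u := by
  induction k with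
  | zero => simp
  | succ k ih =>
    rw [pow_succ', AlgEquiv.mul_apply, ih, map_mul, map_pow, hσζ, hσu]
    ring

theorem cycloAt_pow {σ : Qb ≃ₐ[ℚ] Qb} (hσ1 : CycloAt p σ 1) (k : ℕ) : CycloAt p (σ ^ k) 1 := by
  intro z hz
  rw [pow_one]
  induction k with
  | zero => simp
  | succ k ih =>
    rw [pow_succ', AlgEquiv.mul_apply, ih]
    have := hσ1 z hz
    rwa [pow_one] at this

/-- `σ₁ ^ p = 1` on `E₂`. -/
theorem pow_apply_eq_of_mem_wildLevel {ζ u : Qb} (hζp : ζ ^ p = 1) {σ : Qb ≃ₐ[ℚ] Qb}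
    (hσ : σ ∈ A.inertiaSubgroupIn ℚ) (hσ1 : CycloAt p σ 1) (hσu : σ u = ζ * u) {e : Qb}
    (he : e ∈ wildLevel A ζ u) : (σ ^ p) e = e := by
  have hσζ : σ ζ = ζ := by
    have := hσ1 ζ hζp
    rwa [pow_one] at this
  refine fixed_of_mem_wildLevel A hζp he (σ ^ p) (Subgroup.pow_mem _ hσ p) (cycloAt_pow hσ1 p) ?_
  rw [pow_apply_u hσζ hσu, hζp, one_mul]

theorem pow_apply_eq_self {σ : Qb ≃ₐ[ℚ] Qb} {e : Qb} (h : σ e = e) (k : ℕ) :
    (σ ^ k) e = e := by
  induction k with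
  | zero => simp
  | succ k ih => rw [pow_succ', AlgEquiv.mul_apply, ih, h]

/-- **The fixed field of `σ₁` in `E₂` is `E₁`.** -/
theorem mem_tameLevel_of_fixed {ζ u : Qb} (hζ : IsPrimitiveRoot ζ p) (hp0 : p ≠ 0)
    (hu0 : u ≠ 0) (hup : InK1 A p (u ^ p)) {σ : Qb ≃ₐ[ℚ] Qb}
    (hσ : σ ∈ A.inertiaSubgroupIn ℚ) (hσ1 : CycloAt p σ 1) (hσu : σ u = ζ * u) {e : Qb}
    (he : e ∈ wildLevel A ζ u) (hσe : σ e = e) : e ∈ tameLevel A ζ := by
  haveI : NeZero p := ⟨hp0⟩
  have hσζ : σ ζ = ζ := by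
    have := hσ1 ζ hζ.pow_eq_one
    rwa [pow_one] at this
  apply mem_tameLevel_of_inK1 A hζ hp0
  intro ρ hρ hρ1
  -- `ρ u = ζ ^ j u`
  have h1 : (ρ u / u) ^ p = 1 := by
    rw [div_pow, ← map_pow, hup ρ hρ hρ1, div_self (pow_ne_zero p hu0)]
  obtain ⟨j, -, hj⟩ := hζ.eq_pow_of_pow_eq_one h1
  have hρu : ρ u = ζ ^ j * u := by
    rw [hj, div_mul_cancel₀ _ hu0]
  -- `(σ ^ j)⁻¹ ρ` fixes `u`
  have h2 : ((σ ^ j)⁻¹ * ρ) u = u := by
    show (σ ^ j)⁻¹ (ρ u) = u
    rw [hρu, ← pow_apply_u hσζ hσu j]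
    show ((σ ^ j)⁻¹ * (σ ^ j)) u = u
    rw [inv_mul_cancel, AlgEquiv.one_apply]
  have h3 : ((σ ^ j)⁻¹ * ρ) ∈ A.inertiaSubgroupIn ℚ :=
    mul_mem (inv_mem (Subgroup.pow_mem _ hσ j)) hρ
  have h4 : CycloAt p ((σ ^ j)⁻¹ * ρ) 1 := by
    intro z hz
    rw [pow_one]
    have ha : ρ z = z := by
      have := hρ1 z hz
      rwa [pow_one] at this
    have hb : (σ ^ j) z = z := by
      have := cycloAt_pow hσ1 j z hz
      rwa [pow_one] at this
    show (σ ^ j)⁻¹ (ρ z) = z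
    rw [ha]
    have hc : (σ ^ j)⁻¹ ((σ ^ j) z) = z := by
      show ((σ ^ j)⁻¹ * (σ ^ j)) z = z
      rw [inv_mul_cancel, AlgEquiv.one_apply]
    rw [hb] at hc
    exact hc
  have h5 : ((σ ^ j)⁻¹ * ρ) e = e := fixed_of_mem_wildLevel A hζ.pow_eq_one he _ h3 h4 h2
  have h6 : (σ ^ j) e = e := pow_apply_eq_self hσe j
  have h7 : (σ ^ j) (((σ ^ j)⁻¹ * ρ) e) = ρ e := by
    show (σ ^ j) ((σ ^ j)⁻¹ (ρ e)) = ρ e
    show ((σ ^ j) * (σ ^ j)⁻¹) (ρ e) = ρ e
    rw [mul_inv_cancel, AlgEquiv.one_apply]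
  rw [← h7, h5, h6]

end Gen

/-! ## The setting of the crux (S4) -/

section Action

variable {A} {X : Type*} [AddCommGroup X] [DistribMulAction GQ X]

/-- `E₂ / ℚ̄^I` is normal in the setting of the crux (S4). -/
theorem hnorm_of_kummer {x t : X} {u : Qb}
    (ht : ∀ σ ∈ A.inertiaSubgroupIn ℚ, ∀ c : ℕ, CycloAt p σ c → σ • t = c • t)
    (hxt : ∀ σ ∈ A.inertiaSubgroupIn ℚ, ∃ n : ℕ, σ • x = x + n • t)
    (h6 : ∀ σ ∈ A.inertiaSubgroupIn ℚ, CycloAt p σ 1 → (σ • x = x ↔ σ u = u)) :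
    ∀ τ ∈ A.inertiaSubgroupIn ℚ, ∀ ρ ∈ A.inertiaSubgroupIn ℚ, CycloAt p ρ 1 →
      ρ u = u → ρ (τ u) = τ u := by
  intro τ hτ ρ hρ hρ1 hρu
  have hρx : ρ • x = x := (h6 ρ hρ hρ1).mpr hρu
  have hρt : ρ • t = t := by rw [ht ρ hρ 1 hρ1, one_nsmul]
  obtain ⟨n, hn⟩ := hxt τ hτ
  have h1 : (τ⁻¹ * ρ * τ) • x = x := by
    rw [mul_smul, mul_smul, hn, smul_add, hρx, smul_comm ρ n t, hρt, ← hn, inv_smul_smul]
  have h2 : (τ⁻¹ * ρ * τ) ∈ A.inertiaSubgroupIn ℚ :=
    mul_mem (mul_mem (inv_mem hτ) hρ) hτ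
  have h3 : (τ⁻¹ * ρ * τ) u = u := (h6 _ h2 (cycloAt_conj hρ1)).mp h1
  have h4 : τ ((τ⁻¹ * ρ * τ) u) = ρ (τ u) := by
    show τ (τ⁻¹ (ρ (τ u))) = ρ (τ u)
    show (τ * τ⁻¹) (ρ (τ u)) = ρ (τ u)
    rw [mul_inv_cancel, AlgEquiv.one_apply]
  rw [← h4, h3]

/-- **LEVEL, wild part: the whole package** in the setting of `H704.CoreOut.WildStatement`:
the generator `σ₁`, the Kummer unit `u`, the good level `E₂ = E₁(u)` = the field of definition of
`x` over `E₁`, on which `σ₁` has order `p` with fixed field `E₁`. -/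
theorem exists_wildLevel (hp : p.Prime) (hA : A.LiesOverPrime p) (x t : X)
    (hopen : ∃ K : IntermediateField ℚ Qb, FiniteDimensional ℚ K ∧
      ∀ σ : GQ, (∀ a ∈ K, σ a = a) → σ • x = x)
    (ht : ∀ σ ∈ A.inertiaSubgroupIn ℚ, ∀ c : ℕ, CycloAt p σ c → σ • t = c • t)
    (hxt : ∀ σ ∈ A.inertiaSubgroupIn ℚ, ∃ n : ℕ, σ • x = x + n • t)
    (hpeu : ∀ σ : GQ, PeuFixes A p σ → σ • x = x) (hpt : p • t = 0)
    {σ₀ : GQ} (hσ₀ : σ₀ ∈ A.inertiaSubgroupIn ℚ) (hσ₀1 : CycloAt p σ₀ 1) (hσ₀x : σ₀ • x ≠ x)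
    {ζ : Qb} (hζ : IsPrimitiveRoot ζ p) :
    ∃ (σ₁ : GQ) (u : Qb), σ₁ ∈ A.inertiaSubgroupIn ℚ ∧ CycloAt p σ₁ 1 ∧ σ₁ • x = x + t ∧
      σ₁ u = ζ * u ∧ u ∈ A ∧ u⁻¹ ∈ A ∧ u ≠ 0 ∧ u ^ p ∈ tameLevel A ζ ∧
      GoodField A (wildLevel A ζ u) ∧
      (∀ e ∈ wildLevel A ζ u, (σ₁ ^ p) e = e) ∧
      (∀ e ∈ wildLevel A ζ u, σ₁ e = e → e ∈ tameLevel A ζ) ∧
      (∀ σ ∈ A.inertiaSubgroupIn ℚ, CycloAt p σ 1 →
        ∀ n : ℕ, σ • x = x + n • t → σ u = ζ ^ n * u) ∧
      (∀ y : Qb, y ∈ wildLevel A ζ u ↔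
        ∀ ρ ∈ A.inertiaSubgroupIn ℚ, CycloAt p ρ 1 → ρ • x = x → ρ y = y) ∧
      (∀ σ : GQ, PeuFixes A p σ → σ u = u) := by
  obtain ⟨σ₁, u, h1, h2, h3, h4, hu1, hu2, hu0, hup, h5, h6, h7⟩ :=
    exists_kummer_gen_of_not_fixed hp x t hopen ht hxt hpeu hpt hσ₀ hσ₀1 hσ₀x hζ
  have hnorm := hnorm_of_kummer (A := A) (p := p) (x := x) (t := t) (u := u) ht hxt h6
  refine ⟨σ₁, u, h1, h2, h3, h4, hu1, hu2, hu0, mem_tameLevel_of_inK1 A hζ hp.ne_zero hup,
    goodField_wildLevel A hp hA hζ hnorm,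
    fun e he => pow_apply_eq_of_mem_wildLevel hζ.pow_eq_one h1 h2 h4 he,
    fun e he hσe => mem_tameLevel_of_fixed hζ hp.ne_zero hu0 hup h1 h2 h4 he hσe,
    h5, fun y => ?_, h7⟩
  rw [mem_wildLevel_iff_fixed A hζ hp.ne_zero]
  constructor
  · intro h ρ hρ hρ1 hρx
    exact h ρ hρ hρ1 ((h6 ρ hρ hρ1).mp hρx)
  · intro h ρ hρ hρ1 hρu
    exact h ρ hρ hρ1 ((h6 ρ hρ hρ1).mpr hρu)

end Action

end Fermat.Agent.Ribet.H944.Tame

end

end
-- ===== PACK-END Ribet/H944/WildLevel.lean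

-- ===== PACK-BEGIN Ribet/H819/PerLevel.lean
section



/-!
# Row 38, WALL-p, (S4) WILD: `E₂ = E₁(u)` for the levels of `H944` (helper819)

`wildLevel_toSubfield` : `(H944.Tame.wildLevel A ζ u).toSubfield = closure (tameLevel A ζ ∪ {u})`,
the hypothesis `hE` of `PerCtx.F₂_eq_imBC`, `PerCtx.e₂BC` (`PerFE.lean`).
-/

set_option autoImplicit false
set_option linter.unusedSectionVars false
set_option linter.style.haveILetI false

noncomputable section

namespace Fermat.Agent.Ribet.H819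

open Fermat.Agent.A2 Fermat.Agent.A2.IF.H429 Fermat.Agent.Ribet.H944.Tame

theorem closure_closure_union_h819 {Ω : Type*} [Field Ω] (S T : Set Ω) :
    Subfield.closure ((Subfield.closure S : Set Ω) ∪ T) = Subfield.closure (S ∪ T) := by
  rw [Subfield.closure_union, Subfield.closure_union, Subfield.closure_eq]

theorem tameLevel_toSubfield (A : ValuationSubring Qb) (ζ : Qb) :
    (tameLevel A ζ).toSubfield =
      Subfield.closure (Set.range (algebraMap (inertiaField A) Qb) ∪ conjSet {ζ}) := by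
  show ((level₁ A {ζ}).restrictScalars ℚ).toSubfield = _
  rw [IntermediateField.restrictScalars_toSubfield, level₁, IntermediateField.adjoin_toSubfield]

theorem wildLevel_toSubfield' (A : ValuationSubring Qb) (ζ u : Qb) :
    (wildLevel A ζ u).toSubfield =
      Subfield.closure (Set.range (algebraMap (inertiaField A) Qb) ∪ (conjSet {ζ} ∪ {u})) := by
  show ((wildLevel₁ A ζ u).restrictScalars ℚ).toSubfield = _
  rw [IntermediateField.restrictScalars_toSubfield, wildLevel₁,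
    IntermediateField.adjoin_toSubfield]

/-- **`E₂ = E₁(u)`.** -/
theorem wildLevel_toSubfield (A : ValuationSubring Qb) (ζ u : Qb) :
    (wildLevel A ζ u).toSubfield =
      Subfield.closure (((tameLevel A ζ : IntermediateField ℚ Qb) : Set Qb) ∪ {u}) := by
  have h1 : ((tameLevel A ζ : IntermediateField ℚ Qb) : Set Qb) =
      ((tameLevel A ζ).toSubfield : Set Qb) := rfl
  rw [h1, tameLevel_toSubfield, closure_closure_union_h819, wildLevel_toSubfield',
    Set.union_assoc]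

end Fermat.Agent.Ribet.H819

end

end
-- ===== PACK-END Ribet/H819/PerLevel.lean

-- ===== PACK-BEGIN Ribet/H703/SplitConst.lean
section
/-
# RIBET row 38, WALL-p, (S4)/EIS: leaf SPLIT-CONST   (helper703)

Memo: `coord/RIBET-NODE-helper703.md` §B.  Frame: `FF N = ℚ̄(X₀(N)) ⊆ ℚ̄((t))`, Galois acting on
the coefficients (`H528.gal`), Fricke involution `H528.wF`, Hecke norm `S29.H395.heckeNorm`
(`t`-expansion `S37.H697.knorm`), `lcF` = leading coefficient of the `t`-expansion.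

**Statement.**  `f` a Kummer generator of a class `x ∈ J₀(N)[p]` (`div f = p·D`), `p` odd,
`T_ℓ x = a·x` with `p ∤ a - (ℓ+1)` (non-Eisenstein at ONE prime `ℓ ∤ N`), `f` fixed by a set `H` of
Galois automorphisms.  Then the ratio of the leading coefficients of `f` at the cusps `0` and `∞`
is a `p`-th power of an `H`-fixed constant:
    `lcF (w_N f) = lcF f · v ^ p`,  `σ v = v` for `σ ∈ H`.
(The Kummer pairing of a non-Eisenstein eigenclass with the cuspidal class `(0) - (∞)` is trivial.)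

**Use.**  For `t` in the toric line (fixed by `I₁ = {σ ∈ I, χ(σ) = 1}`): a Kummer generator `f_t`
over the tame field `K₁ = ℚ̄^{I₁}` which is a `p`-th power up to constants in the completions at
`V∞` and `V₀ = V∞ ∘ w_N` has constants `c∞ ≡ lcF f_t`, `c₀ ≡ lcF (w_N f_t)` modulo `K₁ˣᵖ`; by the
theorem `c₀ / c∞ ∈ K₁ˣᵖ`, so after scaling by ONE constant `f_t` is a `p`-th power in BOTH
completions ("strongly split"), i.e. both components split completely in `K₁(X)(f_t^{1/p})`.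

Proof.  `heckeNorm f = c · f ^ a · g ^ p` with `lcF g = 1` (Kummer dictionary, `T_ℓ x = a x`);
`c, g` are `H`-fixed by the normalisation; `lcF (heckeNorm f)² = (lcF f)^{2(ℓ+1)}` (product formula
for `knorm`); the same at the cusp `0` by FRICKE–HECKE (`heckeNorm ∘ w_N = w_N ∘ heckeNorm`);
divide and apply Bezout with `gcd(2(ℓ+1-a), p) = 1`.
-/







set_option autoImplicit false
set_option linter.style.haveILetI false
set_option linter.unusedSectionVars false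
set_option synthInstance.maxHeartbeats 400000
set_option maxHeartbeats 1000000

noncomputable section

namespace Fermat.Agent.Ribet.H703

open AlgebraicCurve ModularCurve HahnSeries
open Fermat.Agent.S24 Fermat.Agent.A2.H528 Fermat.Agent.S29.H395 Fermat.Agent.S37
  Fermat.Agent.S37.H697

/-! ## Formal part: leading coefficients of `qExpand`, `tw`, `kdet`, `knorm` -/

section Formal

variable {K : Type*} [Field K]

theorem order_leadingCoeff_of_coeff {x : LaurentSeries K} {n : ℤ} (hn : x.coeff n ≠ 0)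
    (hlt : ∀ m < n, x.coeff m = 0) : x.order = n ∧ x.leadingCoeff = x.coeff n := by
  have hx : x ≠ 0 := fun h => hn (by rw [h, coeff_zero])
  have h1 : x.order ≤ n := order_le_of_coeff_ne_zero hn
  have h2 : n ≤ x.order := by
    by_contra hcon
    rw [not_le] at hcon
    exact coeff_order_eq_zero.not.mpr hx (hlt _ hcon)
  have h3 : x.order = n := le_antisymm h1 h2
  exact ⟨h3, by rw [leadingCoeff_eq, h3]⟩

theorem leadingCoeff_qExpand (n : ℕ) [NeZero n] (f : LaurentSeries K) :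
    (qExpand K n f).leadingCoeff = f.leadingCoeff := by
  rcases eq_or_ne f 0 with rfl | hf
  · rw [map_zero]
  · have hn0 : (0 : ℤ) < n := by exact_mod_cast Nat.pos_of_ne_zero (NeZero.ne n)
    have h := order_leadingCoeff_of_coeff (x := qExpand K n f) (n := (n : ℤ) * f.order)
      (by rw [qExpand_coeff_mul]; exact coeff_order_eq_zero.not.mpr hf)
      (by
        intro m hm
        by_cases hd : (n : ℤ) ∣ m
        · obtain ⟨k, rfl⟩ := hd
          rw [qExpand_coeff_mul]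
          exact coeff_eq_zero_of_lt_order (lt_of_mul_lt_mul_left hm hn0.le)
        · exact qExpand_coeff_of_not_dvd n f hd)
    rw [h.2, qExpand_coeff_mul, leadingCoeff_eq]

theorem zpw_ne_zero (ℓ : ℕ) {ζ : K} (hζ : ζ ≠ 0) (n : ℤ) : H340.zpw ℓ ζ n ≠ 0 := by
  unfold H340.zpw
  exact pow_ne_zero _ hζ

theorem leadingCoeff_tw (ℓ : ℕ) {ζ : K} (hζ : ζ ≠ 0) (f : LaurentSeries K) :
    (H340.tw ℓ ζ f).leadingCoeff = H340.zpw ℓ ζ f.order * f.leadingCoeff := by
  rcases eq_or_ne f 0 with rfl | hf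
  · have h0 : H340.tw ℓ ζ (0 : LaurentSeries K) = 0 := by
      ext n
      rw [H340.tw_coeff, coeff_zero, mul_zero]
    rw [h0, leadingCoeff_zero, mul_zero]
  · have h := order_leadingCoeff_of_coeff (x := H340.tw ℓ ζ f) (n := f.order)
      (by rw [H340.tw_coeff]; exact mul_ne_zero (zpw_ne_zero ℓ hζ _) (coeff_order_eq_zero.not.mpr hf))
      (by
        intro m hm
        rw [H340.tw_coeff, coeff_eq_zero_of_lt_order hm, mul_zero])
    rw [h.2, H340.tw_coeff, leadingCoeff_eq]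

/-- The product of the twisting constants squares to `1`. -/
theorem prod_zpw_sq (ℓ : ℕ) [NeZero ℓ] {ζ : K} (hζ : ζ ^ ℓ = 1) (n : ℤ) :
    (∏ b : Fin ℓ, H340.zpw ℓ (ζ ^ (b : ℕ)) n) ^ 2 = 1 := by
  set r : ℕ := (n % (ℓ : ℤ)).toNat with hr
  have h1 : ∀ b : Fin ℓ, H340.zpw ℓ (ζ ^ (b : ℕ)) n = ζ ^ ((b : ℕ) * r) := by
    intro b
    unfold H340.zpw
    rw [← pow_mul]
  rw [Finset.prod_congr rfl (fun b _ => h1 b),
    Fin.prod_univ_eq_prod_range (fun b : ℕ => ζ ^ (b * r)) ℓ, Finset.prod_pow_eq_pow_sum,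
    ← pow_mul, ← Finset.sum_mul, mul_assoc, mul_comm r 2, ← mul_assoc,
    Finset.sum_range_id_mul_two, mul_assoc, pow_mul, hζ, one_pow]

theorem leadingCoeff_kdet_sq (ℓ : ℕ) [NeZero ℓ] {ζ : K} (hζ : IsPrimitiveRoot ζ ℓ)
    (f : LaurentSeries K) :
    (kdet ℓ f).leadingCoeff ^ 2 = f.leadingCoeff ^ (2 * ℓ) := by
  have hζ0 : ζ ≠ 0 := hζ.ne_zero (NeZero.ne ℓ)
  have h : (qExpand K ℓ (kdet ℓ f)).leadingCoeff
      = (∏ b : Fin ℓ, H340.tw ℓ (ζ ^ (b : ℕ)) f).leadingCoeff :=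
    congrArg (fun y : LaurentSeries K => y.leadingCoeff) (qExpand_kdet_eq_prod ℓ hζ f)
  rw [leadingCoeff_qExpand] at h
  have h2 : (∏ b : Fin ℓ, H340.tw ℓ (ζ ^ (b : ℕ)) f).leadingCoeff
      = ∏ b : Fin ℓ, (H340.tw ℓ (ζ ^ (b : ℕ)) f).leadingCoeff :=
    map_prod (lcHom (K := K)) _ _
  rw [h2, Finset.prod_congr rfl
    (fun (b : Fin ℓ) _ => leadingCoeff_tw ℓ (pow_ne_zero (b : ℕ) hζ0) f),
    Finset.prod_mul_distrib,
    Finset.prod_const, Finset.card_univ, Fintype.card_fin] at h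
  rw [h, mul_pow, prod_zpw_sq ℓ hζ.pow_eq_one, one_mul, ← pow_mul, mul_comm]

/-- **Leading coefficient of the Kronecker norm**, up to sign. -/
theorem leadingCoeff_knorm_sq (ℓ : ℕ) [NeZero ℓ] {ζ : K} (hζ : IsPrimitiveRoot ζ ℓ)
    (f : LaurentSeries K) :
    (knorm ℓ f).leadingCoeff ^ 2 = f.leadingCoeff ^ (2 * (ℓ + 1)) := by
  rw [knorm, leadingCoeff_mul, mul_pow, leadingCoeff_qExpand, leadingCoeff_kdet_sq ℓ hζ,
    ← _root_.pow_add]
  congr 1
  ring

end Formal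

/-! ## The frame `FF N ⊆ ℚ̄((t))` -/

section Frame

variable (N : ℕ) [NeZero N]

/-- The leading coefficient of the `t`-expansion of a modular function. -/
def lcF : FF N →*₀ Kbar where
  toFun f := (f : LaurentSeries Kbar).leadingCoeff
  map_zero' := leadingCoeff_zero
  map_one' := leadingCoeff_one
  map_mul' f g := leadingCoeff_mul (f : LaurentSeries Kbar) (g : LaurentSeries Kbar)

theorem lcF_apply (f : FF N) : lcF N f = (f : LaurentSeries Kbar).leadingCoeff := rfl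

theorem lcF_ne_zero {f : FF N} (hf : f ≠ 0) : lcF N f ≠ 0 := by
  rw [lcF_apply]
  exact leadingCoeff_ne_zero.mpr (fun h => hf (Subtype.ext h))

theorem lcF_algebraMap (c : Kbar) : lcF N (algebraMap Kbar (FF N) c) = c := by
  rw [lcF_apply]
  show (algebraMap Kbar (LaurentSeries Kbar) c).leadingCoeff = c
  rw [algebraMap_laurentSeries_eq_single]
  exact leadingCoeff_of_single

theorem lcF_gal (σ : Kbar ≃ₐ[ℚ] Kbar) (f : FF N) : lcF N (gal N σ f) = σ (lcF N f) := by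
  rw [lcF_apply, lcF_apply]
  exact leadingCoeff_map_of_injective (σ : Kbar →+* Kbar) (f : LaurentSeries Kbar)

variable (ℓ : ℕ) [NeZero ℓ]

theorem coe_heckeNorm (hℓ : ℓ.Prime) (hℓN : ¬ ℓ ∣ N) (f : FF N) :
    ((heckeNorm N ℓ f : FF N) : LaurentSeries Kbar) = knorm ℓ (f : LaurentSeries Kbar) :=
  coe_normAlong_heckeBeta N ℓ hℓ hℓN f

/-- The Hecke norm commutes with the Galois action on the coefficients. -/
theorem gal_heckeNorm (hℓ : ℓ.Prime) (hℓN : ¬ ℓ ∣ N) (σ : Kbar ≃ₐ[ℚ] Kbar) (f : FF N) :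
    gal N σ (heckeNorm N ℓ f) = heckeNorm N ℓ (gal N σ f) := by
  apply Subtype.ext
  rw [coe_heckeNorm N ℓ hℓ hℓN]
  show coeffMap (σ : Kbar →+* Kbar) ((heckeNorm N ℓ f : FF N) : LaurentSeries Kbar)
    = knorm ℓ (coeffMap (σ : Kbar →+* Kbar) (f : LaurentSeries Kbar))
  rw [coe_heckeNorm N ℓ hℓ hℓN, knorm_coeffMap]

/-- Leading coefficient of the Hecke norm, up to sign. -/
theorem lcF_heckeNorm_sq (hℓ : ℓ.Prime) (hℓN : ¬ ℓ ∣ N) (f : FF N) :
    lcF N (heckeNorm N ℓ f) ^ 2 = lcF N f ^ (2 * (ℓ + 1)) := by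
  haveI : NeZero ((ℓ : ℕ) : ℚ) := ⟨by exact_mod_cast hℓ.ne_zero⟩
  obtain ⟨ζ, hζ⟩ := HasEnoughRootsOfUnity.exists_primitiveRoot Kbar ℓ
  rw [lcF_apply, lcF_apply, coe_heckeNorm N ℓ hℓ hℓN]
  exact leadingCoeff_knorm_sq ℓ hζ _

end Frame

/-! ## The Kummer relation of an eigenclass and SPLIT-CONST -/

section Main

variable (N : ℕ) [NeZero N]

/-- A root of unity of `FF N` with leading coefficient `1` is `1`. -/
theorem eq_one_of_pow_eq_one {ρ : FF N} {p : ℕ} (hp : p ≠ 0) (h : ρ ^ p = 1)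
    (hlc : lcF N ρ = 1) : ρ = 1 := by
  have halg : IsAlgebraic Kbar ρ := by
    refine ⟨Polynomial.X ^ p - Polynomial.C (1 : Kbar),
      Polynomial.X_pow_sub_C_ne_zero (Nat.pos_of_ne_zero hp) 1, ?_⟩
    rw [map_sub, map_pow, Polynomial.aeval_X, Polynomial.aeval_C, map_one, h, sub_self]
  obtain ⟨c, hc⟩ := exists_algebraMap_eq_of_isAlgebraic halg
  rw [← hc, lcF_algebraMap] at hlc
  rw [← hc, hlc, map_one]

variable (p ℓ : ℕ) [NeZero ℓ]

/-- **Kummer relation of an eigenclass**: `div f = p·D`, `T_ℓ [D] = a·[D]` ⟹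
`heckeNorm f = c · f ^ a · g ^ p` with `lcF g = 1`. -/
theorem exists_kummer_rel (hℓ : ℓ.Prime) (f : FF N) (hf0 : f ≠ 0)
    (D : Divisor.degZero (K := Kbar) (F := FF N))
    (hD : ∀ v : Place Kbar (FF N), v.ord f = (p : ℤ) * (D : Divisor Kbar (FF N)) v)
    (a : ℤ) (hT : heckeOperatorBar N ⟨ℓ, hℓ⟩ (Pic0.mk D) = a • Pic0.mk D) :
    ∃ (c : Kbar) (g : FF N), c ≠ 0 ∧ g ≠ 0 ∧ lcF N g = 1 ∧
      heckeNorm N ℓ f = algebraMap Kbar (FF N) c * f ^ a * g ^ p := by
  have hHI : HeckeInputsAlong Kbar N ℓ := Fermat.Agent.Lib.FF460.heckeInputsAlong_bar N ℓ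
  obtain ⟨D', hD'1, hD'2⟩ := heckeOperatorBar_mk N ⟨ℓ, hℓ⟩ hHI D
  have hN : ∀ v : Place Kbar (FF N),
      (p : ℤ) * (D' : Divisor Kbar (FF N)) v = v.ord (heckeNorm N ℓ f) :=
    hD'2 p f hf0 (fun v => (hD v).symm)
  have hmk : Pic0.mk D' = Pic0.mk (a • D) := by
    rw [← hD'1, hT]
    rfl
  obtain ⟨g₀, hg₀, hg₀D⟩ := mk_eq_mk_iff.mp hmk
  have hHN0 : heckeNorm N ℓ f ≠ 0 := heckeNorm_ne_zero N ℓ hHI hf0
  have hfa : f ^ a ≠ 0 := zpow_ne_zero a hf0
  have hgp : g₀ ^ p ≠ 0 := pow_ne_zero p hg₀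
  set Φ : FF N := heckeNorm N ℓ f * (f ^ a)⁻¹ * (g₀ ^ p)⁻¹ with hΦ
  have hΦ0 : Φ ≠ 0 := mul_ne_zero (mul_ne_zero hHN0 (inv_ne_zero hfa)) (inv_ne_zero hgp)
  have hord : ∀ v : Place Kbar (FF N), v.ord Φ = 0 := by
    intro v
    have h1 := hg₀D v
    rw [AddSubgroup.coe_zsmul, Finsupp.smul_apply, smul_eq_mul] at h1
    rw [hΦ, Place.ord_mul _ (mul_ne_zero hHN0 (inv_ne_zero hfa)) (inv_ne_zero hgp),
      Place.ord_mul _ hHN0 (inv_ne_zero hfa), Place.ord_inv, Place.ord_inv, Place.ord_zpow,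
      ← zpow_natCast, Place.ord_zpow, ← hN v, hD v, ← h1]
    ring
  haveI := Fermat.Agent.Lib.RR.H804.finiteDimensional_jF N
  obtain ⟨c₀, hc₀⟩ := Fermat.Agent.Lib.RR.H383.eq_algebraMap_of_forall_ord_eq_zero
    (Fermat.Agent.Lib.RR.H804.transcendental_jF N) hord
  have hc₀0 : c₀ ≠ 0 := by
    rintro rfl
    rw [map_zero] at hc₀
    exact hΦ0 hc₀.symm
  have hrel₀ : heckeNorm N ℓ f = algebraMap Kbar (FF N) c₀ * f ^ a * g₀ ^ p := by
    rw [hc₀, hΦ]
    field_simp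
  have hlam : lcF N g₀ ≠ 0 := lcF_ne_zero N hg₀
  refine ⟨c₀ * lcF N g₀ ^ p, algebraMap Kbar (FF N) (lcF N g₀)⁻¹ * g₀,
    mul_ne_zero hc₀0 (pow_ne_zero _ hlam), ?_, ?_, ?_⟩
  · refine mul_ne_zero ?_ hg₀
    rw [Ne, map_eq_zero]
    exact inv_ne_zero hlam
  · rw [map_mul, lcF_algebraMap, inv_mul_cancel₀ hlam]
  · have hA : algebraMap Kbar (FF N) (lcF N g₀) ≠ 0 := by
      rw [Ne, map_eq_zero]
      exact hlam
    rw [hrel₀, map_mul (algebraMap Kbar (FF N)), map_pow (algebraMap Kbar (FF N)), mul_pow,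
      map_inv₀ (algebraMap Kbar (FF N)), inv_pow]
    field_simp

/-- **SPLIT-CONST** (conditional on FRICKE–HECKE at `ℓ`).  See the header. -/
theorem splitConst_of_frickeHecke (hp : p.Prime) (hp2 : p ≠ 2) (hℓ : ℓ.Prime) (hℓN : ¬ ℓ ∣ N)
    (hFH : ∀ f : FF N, heckeNorm N ℓ (wF N f) = wF N (heckeNorm N ℓ f))
    (f : FF N) (hf0 : f ≠ 0)
    (D : Divisor.degZero (K := Kbar) (F := FF N))
    (hD : ∀ v : Place Kbar (FF N), v.ord f = (p : ℤ) * (D : Divisor Kbar (FF N)) v)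
    (a : ℤ) (hT : heckeOperatorBar N ⟨ℓ, hℓ⟩ (Pic0.mk D) = a • Pic0.mk D)
    (hNE : ¬ (p : ℤ) ∣ a - (ℓ + 1))
    (H : Set (Kbar ≃ₐ[ℚ] Kbar)) (hH : ∀ σ ∈ H, gal N σ f = f) :
    ∃ v : Kbar, v ≠ 0 ∧ (∀ σ ∈ H, σ v = v) ∧ lcF N (wF N f) = lcF N f * v ^ p := by
  obtain ⟨c, g, hc, hg, hlg, hrel⟩ := exists_kummer_rel N p ℓ hℓ f hf0 D hD a hT
  have hWf0 : wF N f ≠ 0 := by
    rw [Ne, map_eq_zero]
    exact hf0
  have hWg0 : wF N g ≠ 0 := by
    rw [Ne, map_eq_zero]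
    exact hg
  set A : Kbar := lcF N f with hA
  set B : Kbar := lcF N (wF N f) with hB
  set G : Kbar := lcF N (wF N g) with hG
  have hA0 : A ≠ 0 := lcF_ne_zero N hf0
  have hB0 : B ≠ 0 := lcF_ne_zero N hWf0
  have hG0 : G ≠ 0 := lcF_ne_zero N hWg0
  -- leading coefficients at the cusp `∞`
  have e1 : lcF N (heckeNorm N ℓ f) = c * A ^ a := by
    rw [hrel, map_mul, map_mul, lcF_algebraMap, map_zpow₀, map_pow, hlg, one_pow, mul_one]
  have e1sq : A ^ (2 * (ℓ + 1)) = c ^ 2 * (A ^ a) ^ 2 := by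
    rw [← lcF_heckeNorm_sq N ℓ hℓ hℓN f, e1, mul_pow]
  -- leading coefficients at the cusp `0`
  have hrelW : heckeNorm N ℓ (wF N f)
      = algebraMap Kbar (FF N) c * wF N f ^ a * wF N g ^ p := by
    rw [hFH, hrel, map_mul, map_mul, AlgEquiv.commutes, map_zpow₀, map_pow]
  have e2 : lcF N (heckeNorm N ℓ (wF N f)) = c * B ^ a * G ^ p := by
    rw [hrelW, map_mul, map_mul, lcF_algebraMap, map_zpow₀, map_pow]
  have e2sq : B ^ (2 * (ℓ + 1)) = c ^ 2 * (B ^ a) ^ 2 * (G ^ 2) ^ p := by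
    rw [← lcF_heckeNorm_sq N ℓ hℓ hℓN (wF N f), e2, mul_pow, mul_pow, ← pow_mul, ← pow_mul,
      mul_comm p 2]
  -- the ratio
  have hAa : A ^ a ≠ 0 := zpow_ne_zero a hA0
  have hBa : B ^ a ≠ 0 := zpow_ne_zero a hB0
  have hu0 : B / A ≠ 0 := div_ne_zero hB0 hA0
  have key : (B / A) ^ (2 * (((ℓ : ℤ) + 1) - a)) = (G ^ 2) ^ (p : ℤ) := by
    have h1 : (B / A) ^ (2 * (((ℓ : ℤ) + 1) - a))
        = (B / A) ^ ((2 * (ℓ + 1) : ℕ) : ℤ) * (((B / A) ^ a) ^ 2)⁻¹ := by
      rw [← zpow_natCast ((B / A) ^ a) 2, ← zpow_mul, ← zpow_neg, ← zpow_add₀ hu0]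
      congr 1
      push_cast
      ring
    rw [h1, zpow_natCast, zpow_natCast, div_pow, div_zpow, div_pow, e1sq, e2sq]
    have hc2 : c ^ 2 ≠ 0 := pow_ne_zero 2 hc
    have hAa2 : (A ^ a) ^ 2 ≠ 0 := pow_ne_zero 2 hAa
    have hBa2 : (B ^ a) ^ 2 ≠ 0 := pow_ne_zero 2 hBa
    field_simp
  have hn : ¬ (p : ℤ) ∣ ((ℓ : ℤ) + 1) - a := by
    intro hd
    apply hNE
    have : a - ((ℓ : ℤ) + 1) = -(((ℓ : ℤ) + 1) - a) := by ring
    rw [this]
    exact (dvd_neg).mpr hd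
  obtain ⟨α, β, hαβ⟩ := exists_zpow_eq_of_two_mul hu0 hp hp2 hn key
  refine ⟨(G ^ 2) ^ α * (B / A) ^ β,
    mul_ne_zero (zpow_ne_zero α (pow_ne_zero 2 hG0)) (zpow_ne_zero β hu0), ?_, ?_⟩
  · -- rationality
    intro σ hσ
    have hσf : gal N σ f = f := hH σ hσ
    have hσA : σ A = A := by rw [hA, ← lcF_gal, hσf]
    have hσB : σ B = B := by rw [hB, ← lcF_gal, ← wF_gal, hσf]
    -- `c` and `g` are fixed
    have hrelσ : heckeNorm N ℓ f
        = algebraMap Kbar (FF N) (σ c) * f ^ a * gal N σ g ^ p := by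
      have h1 := congrArg (gal N σ) hrel
      rw [gal_heckeNorm N ℓ hℓ hℓN, hσf, map_mul, map_mul, gal_algebraMap, map_zpow₀, map_pow,
        hσf] at h1
      exact h1
    have hlgσ : lcF N (gal N σ g) = 1 := by rw [lcF_gal, hlg, map_one]
    have hσc : σ c = c := by
      have h1 : lcF N (heckeNorm N ℓ f) = σ c * A ^ a := by
        rw [hrelσ, map_mul, map_mul, lcF_algebraMap, map_zpow₀, map_pow, hlgσ, one_pow, mul_one]
      rw [e1] at h1
      exact (mul_right_cancel₀ hAa h1).symm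
    have hgp : gal N σ g ^ p = g ^ p := by
      have h1 : algebraMap Kbar (FF N) c * f ^ a * gal N σ g ^ p
          = algebraMap Kbar (FF N) c * f ^ a * g ^ p := by
        rw [← hrel, hrelσ, hσc]
      have h2 : algebraMap Kbar (FF N) c * f ^ a ≠ 0 := by
        refine mul_ne_zero ?_ (zpow_ne_zero a hf0)
        rw [Ne, map_eq_zero]
        exact hc
      exact mul_left_cancel₀ h2 h1
    have hσg : gal N σ g = g := by
      have hρ : (gal N σ g * g⁻¹) ^ p = 1 := by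
        rw [mul_pow, hgp, inv_pow, mul_inv_cancel₀ (pow_ne_zero p hg)]
      have hρlc : lcF N (gal N σ g * g⁻¹) = 1 := by
        rw [map_mul, map_inv₀, hlgσ, hlg, inv_one, mul_one]
      have := eq_one_of_pow_eq_one N hp.ne_zero hρ hρlc
      rw [mul_inv_eq_one₀ hg] at this
      exact this
    have hσG : σ G = G := by rw [hG, ← lcF_gal, ← wF_gal, hσg]
    rw [map_mul, map_zpow₀, map_zpow₀, map_pow, map_div₀, hσA, hσB, hσG]
  · -- the identity
    have h1 : B = A * (B / A) := by field_simp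
    rw [← hαβ]
    exact h1

end Main

end Fermat.Agent.Ribet.H703

end
end
-- ===== PACK-END Ribet/H703/SplitConst.lean

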