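import Mathlib
import Fermat.Agent.Pack.S44.G0E25L0
import Fermat.Agent.Pack.S44.G0E27L0
import Fermat.Agent.Pack.S44.G0E16L3
import Fermat.Agent.Pack.S44.G0E6L2
import Fermat.Agent.Pack.S44.G0E25L3
import Fermat.Agent.Pack.S44.G0E3L1
import Fermat.Agent.Pack.S44.G0E27L1
import Fermat.Agent.Pack.S44.G0E4L3
import Fermat.Agent.Pack.S44.G0E25L2
import Fermat.Agent.Pack.S44.G0E14L0
import Fermat.Agent.Pack.S44.G0E17L2
import Fermat.Agent.Pack.S44.G0E26L2
import Fermat.Agent.Pack.S44.G0E24L1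
import Fermat.Agent.Pack.S44.G0E18L0
import Fermat.Agent.Pack.S44.G0E15L1
import Fermat.Agent.Pack.S44.G0E12L3

-- ===== PACK-BEGIN Ribet/H884/SlopeSpec.lean
section




/-!
# Row 38, WALL-p: the two subgroups `𝓕 = finPart`, `𝒮 = splitPart` of `J₀(pM')(ℚ̄)` and the
# SLOPE + DLOG leaves (I1, I2)   (sub-architect helper884; FROZEN, definitions + Props + glue)

`N = p·M'`, `p ∤ M'`, `A` a valuation subring of `ℚ̄` over `p`, `k = kA A` its residue field,
`FF N = ℚ̄(X₀(N)) ⊆ ℚ̄((t))`.  Everything is stated on `t`-expansions (as in `H764.I3Spec` and in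
the Prelude module `Def_ModularCurve_ReductionModL`), no model is mentioned.

## Definitions
* `IsKummerGen N p f x` : `f ∈ FF N` is a Kummer generator of `x ∈ J₀(N)`: `x = [D]`, `div f = p·D`.
* `IsRedInf N A f r`    : `r ∈ k((t))` is a reduction of `f` on the `∞`-component:
                          `f · U₂ = c · U₁` with `c ∈ ℚ̄ˣ`, `U₁, U₂ ∈ A((t))` primitive, `r · Ū₂ = Ū₁`
                          (the normal form of `A2/H708/GaussInf`; `r` is unique up to `kˣ`).
* `IsRedZero N A f r`   : the same for `w_N f` (`w_N` = Fricke involution `H528.wF`), i.e. the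
                          reduction on the `0`-component (`V₀ = V∞ ∘ w_N`, `H708.Vzero`).
* `PDivSeries p M' r`   : `r` lies in `F_k = modularFunctionFieldFullC k M'` (function field of
                          `X₀(M')_k`), `r ≠ 0`, and `p ∣ ord_Q r` at EVERY place `Q` of `F_k`
                          ("all slopes are `0`": at the smooth points this is automatic for a
                          Kummer generator, at the supersingular points `ord_Q r` IS the slope).
* `SplitSeries p r`     : `r ∈ k((t^p))` (`⇔ θ r = 0 ⇔ r` is a `p`-th power in `k((t))`).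
* `finSet`, `splitSet`  : the classes having a Kummer generator whose two reductions are
                          `PDivSeries` (resp. `PDivSeries` and `SplitSeries`);
* **`finPart p M' A`, `splitPart p M' A`** : the subgroups generated by them.
  (`FinClosedStatement`, `SplitClosedStatement`: nothing is added by taking the closure.)

## Targets / leaves
| leaf | Prop | content |
|---|---|---|
| (S1)   | `S1Statement`          | `Wall.S1For p M' A (splitPart p M' A)` : `σ f / f` has reductions `1` |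
| (S2)   | `S2Statement`          | `Wall.S2For p M' A (splitPart p M' A)` (I4 + I5, helper103) |
| RED    | `RedExistsStatement`, `RedUniqueStatement`, `RedFieldStatement` | reductions exist, are unique up to `kˣ`, lie in `k(X₀(M'))` |
| GEN    | `GenIndepStatement`    | membership in `finSet`/`splitSet` can be tested on ANY Kummer generator |
| CLOSED | `FinClosedStatement`, `SplitClosedStatement` | `finSet`, `splitSet` are subgroups |
| SYM    | `NodeSymStatement`     | node symmetry: slopes on `C∞` vanish iff slopes on `C₀` vanish |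
| HECKE  | `HeckeStableStatement` | `T_ℓ` preserves `finPart` and `splitPart` (`ℓ ∤ pM'`) |
| RES    | `ResFieldStatement`    | `k` is algebraically closed of characteristic `p` |
| DLOG   | `DlogOutStatement`     | I2: `x ∈ 𝓕 ∖ 𝒮` new eigen ⇒ nonzero eigen-`dlog` of a reduction, EXACTLY the input of `H764.I3.R3PStatement` |
| EIS    | `EisSlopeStatement`    | output of I6-core + NODE + Brandt: under the hypotheses of (S4), `T_ℓ x - (ℓ+1) x ∈ 𝓕` off a finite set |

## Proved here (glue)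
* `splitPart_le_finPart`;
* `s3For_of : ResField → DlogOut → R3P → S3For (finPart) (splitPart)`;
* `mem_finPart_of_eis`, `s4For_of : EisSlope → S4For (finPart)` (pure group theory: NE + Bezout);
* `wallTargets5_of : S1 → S2 → ResField → DlogOut → R3P → EisSlope → H944.Wall.WallTargets5Statement`.
-/

set_option autoImplicit false
set_option synthInstance.maxHeartbeats 400000
set_option maxHeartbeats 1000000

noncomputable section

namespace Fermat.Agent.Ribet.H884

open AlgebraicCurve ModularCurve HahnSeries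
open Fermat.Agent.S24 Fermat.Agent.A2.H708 Fermat.Agent.A2.H528
open Fermat.Agent.Ribet.Spec Fermat.Agent.Ribet.H944.Wall

/-- The residue field of `A`. -/
abbrev kA (A : ValuationSubring Kbar) : Type := IsLocalRing.ResidueField A

/-! ## Kummer generators and reductions -/

section Defs

variable (N : ℕ) [NeZero N]

/-- `f` is a Kummer generator of the class `x`: `x = [D]` and `div f = p · D`. -/
def IsKummerGen (p : ℕ) (f : FF N) (x : JZero N) : Prop :=
  f ≠ 0 ∧ ∃ D : Divisor.degZero (K := Kbar) (F := FF N), Pic0.mk D = x ∧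
    ∀ v : Place Kbar (FF N), v.ord f = (p : ℤ) * (D : Divisor Kbar (FF N)) v

variable (A : ValuationSubring Kbar)

/-- `r ∈ k((t))` is a reduction of `f` on the `∞`-component: `f = c · U₁ / U₂` with `c` a nonzero
constant and `U₁, U₂` primitive `A`-integral series, and `r = Ū₁ / Ū₂`. -/
def IsRedInf (f : FF N) (r : LaurentSeries (kA A)) : Prop :=
  ∃ (c : Kbar) (U₁ U₂ : LaurentSeries A), c ≠ 0 ∧ red A U₁ ≠ 0 ∧ red A U₂ ≠ 0 ∧
    (f : LaurentSeries Kbar) * incl A U₂ = cst c * incl A U₁ ∧ r * red A U₂ = red A U₁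

/-- `r ∈ k((t))` is a reduction of `f` on the `0`-component (`V₀ = V∞ ∘ w_N`). -/
def IsRedZero (f : FF N) (r : LaurentSeries (kA A)) : Prop :=
  IsRedInf N A (wF N f) r

end Defs

/-- `r` is a nonzero element of `F_k = k(X₀(M'))` all of whose orders are divisible by `p`. -/
def PDivSeries (p M' : ℕ) {k : Type} [Field k] (r : LaurentSeries k) : Prop :=
  ∃ h : modularFunctionFieldFullC k M', (h : LaurentSeries k) = r ∧ h ≠ 0 ∧
    ∀ Q : Place k (modularFunctionFieldFullC k M'), (p : ℤ) ∣ Q.ord h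

/-- `r ∈ k((t^p))`. -/
def SplitSeries (p : ℕ) {k : Type} [Field k] (r : LaurentSeries k) : Prop :=
  ∀ n : ℤ, ¬ (p : ℤ) ∣ n → r.coeff n = 0

/-! ## The two subgroups -/

section Parts

variable (p M' : ℕ) [NeZero (p * M')] (A : ValuationSubring Kbar)

/-- `f` has slopes `0` on both components. -/
def FinGen (f : FF (p * M')) : Prop :=
  ∃ r₁ r₂ : LaurentSeries (kA A), IsRedInf (p * M') A f r₁ ∧ IsRedZero (p * M') A f r₂ ∧
    PDivSeries p M' r₁ ∧ PDivSeries p M' r₂

/-- `f` has slopes `0` and `p`-th power reductions on both components. -/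
def SplitGen (f : FF (p * M')) : Prop :=
  ∃ r₁ r₂ : LaurentSeries (kA A), IsRedInf (p * M') A f r₁ ∧ IsRedZero (p * M') A f r₂ ∧
    PDivSeries p M' r₁ ∧ PDivSeries p M' r₂ ∧ SplitSeries p r₁ ∧ SplitSeries p r₂

/-- Classes with a Kummer generator of slopes `0`. -/
def finSet : Set (JZero (p * M')) :=
  {x | ∃ f : FF (p * M'), IsKummerGen (p * M') p f x ∧ FinGen p M' A f}

/-- Classes with a Kummer generator of slopes `0` and `p`-th power reductions. -/
def splitSet : Set (JZero (p * M')) :=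
  {x | ∃ f : FF (p * M'), IsKummerGen (p * M') p f x ∧ SplitGen p M' A f}

/-- **The finite part `𝓕`** of `J₀(pM')[p]` at `A`. -/
def finPart : AddSubgroup (JZero (p * M')) := AddSubgroup.closure (finSet p M' A)

/-- **The split part `𝒮`** of `J₀(pM')[p]` at `A`. -/
def splitPart : AddSubgroup (JZero (p * M')) := AddSubgroup.closure (splitSet p M' A)

theorem SplitGen.finGen {f : FF (p * M')} (h : SplitGen p M' A f) : FinGen p M' A f := by
  obtain ⟨r₁, r₂, h1, h2, h3, h4, -, -⟩ := h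
  exact ⟨r₁, r₂, h1, h2, h3, h4⟩

theorem splitSet_subset_finSet : splitSet p M' A ⊆ finSet p M' A := by
  rintro x ⟨f, hf, hs⟩
  exact ⟨f, hf, hs.finGen p M' A⟩

theorem splitPart_le_finPart : splitPart p M' A ≤ finPart p M' A :=
  AddSubgroup.closure_mono (splitSet_subset_finSet p M' A)

end Parts

/-! ## Leaves -/

/-- **(S1)** = the target `Wall.S1For` for `𝒮 = splitPart`. -/
def S1Statement : Prop :=
  ∀ (p M' : ℕ) [NeZero M'] [NeZero p] [NeZero (p * M')], p.Prime → ¬ p ∣ M' →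
    ∀ A : ValuationSubring Kbar, A.LiesOverPrime p → S1For p M' A (splitPart p M' A)

/-- **(S2)** = the target `Wall.S2For` for `𝒮 = splitPart` (I4 + I5, sub-architect helper103). -/
def S2Statement : Prop :=
  ∀ (p M' : ℕ) [NeZero M'] [NeZero p] [NeZero (p * M')], p.Prime → p ≠ 2 → ¬ p ∣ M' →
    ∀ A : ValuationSubring Kbar, A.LiesOverPrime p → S2For p M' A (splitPart p M' A)

/-- **REDEX**: every nonzero function has a reduction on each component
(`H708.exists_normal_form`). -/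
def RedExistsStatement : Prop :=
  ∀ (p N : ℕ) [NeZero N], p.Prime → ∀ A : ValuationSubring Kbar, A.LiesOverPrime p →
    ∀ f : FF N, f ≠ 0 →
      (∃ r : LaurentSeries (kA A), IsRedInf N A f r) ∧
      (∃ r : LaurentSeries (kA A), IsRedZero N A f r)

/-- **REDUNIQ**: a reduction is nonzero and unique up to a nonzero constant of `k`. -/
def RedUniqueStatement : Prop :=
  ∀ (p N : ℕ) [NeZero N], p.Prime → ∀ A : ValuationSubring Kbar, A.LiesOverPrime p →
    ∀ (f : FF N) (r r' : LaurentSeries (kA A)), IsRedInf N A f r → IsRedInf N A f r' →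
      r ≠ 0 ∧ ∃ c : kA A, c ≠ 0 ∧ r' = HahnSeries.C c * r

/-- **REDFIELD** (part of MOD at `p`: the residue fields of `V∞`, `V₀` at level `pM'` are
`k(X₀(M'))`): every reduction of a function of level `pM'` lies in
`modularFunctionFieldFullC k M'`. -/
def RedFieldStatement : Prop :=
  ∀ (p M' : ℕ) [NeZero M'] [NeZero p] [NeZero (p * M')], p.Prime → ¬ p ∣ M' →
    ∀ A : ValuationSubring Kbar, A.LiesOverPrime p →
    ∀ (f : FF (p * M')) (r : LaurentSeries (kA A)),
      (IsRedInf (p * M') A f r ∨ IsRedZero (p * M') A f r) →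
      ∃ h : modularFunctionFieldFullC (kA A) M', (h : LaurentSeries (kA A)) = r

/-- **GEN**: membership can be tested on any Kummer generator. -/
def GenIndepStatement : Prop :=
  ∀ (p M' : ℕ) [NeZero M'] [NeZero p] [NeZero (p * M')], p.Prime → ¬ p ∣ M' →
    ∀ A : ValuationSubring Kbar, A.LiesOverPrime p →
    ∀ (x : JZero (p * M')) (f : FF (p * M')), IsKummerGen (p * M') p f x →
      (x ∈ finSet p M' A → FinGen p M' A f) ∧ (x ∈ splitSet p M' A → SplitGen p M' A f)

/-- **CLOSED (𝓕)**: `finSet` is already a subgroup. -/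
def FinClosedStatement : Prop :=
  ∀ (p M' : ℕ) [NeZero M'] [NeZero p] [NeZero (p * M')], p.Prime → ¬ p ∣ M' →
    ∀ A : ValuationSubring Kbar, A.LiesOverPrime p →
    ∀ x ∈ finPart p M' A, x ∈ finSet p M' A

/-- **CLOSED (𝒮)**: `splitSet` is already a subgroup. -/
def SplitClosedStatement : Prop :=
  ∀ (p M' : ℕ) [NeZero M'] [NeZero p] [NeZero (p * M')], p.Prime → ¬ p ∣ M' →
    ∀ A : ValuationSubring Kbar, A.LiesOverPrime p →
    ∀ x ∈ splitPart p M' A, x ∈ splitSet p M' A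

/-- **SYM** (node symmetry, `res₁ = - res₂`): for a Kummer generator the slopes on `C∞` vanish
iff the slopes on `C₀` vanish. -/
def NodeSymStatement : Prop :=
  ∀ (p M' : ℕ) [NeZero M'] [NeZero p] [NeZero (p * M')], p.Prime → ¬ p ∣ M' →
    ∀ A : ValuationSubring Kbar, A.LiesOverPrime p →
    ∀ (x : JZero (p * M')) (f : FF (p * M')), IsKummerGen (p * M') p f x →
    ∀ r₁ r₂ : LaurentSeries (kA A), IsRedInf (p * M') A f r₁ → IsRedZero (p * M') A f r₂ →
      (PDivSeries p M' r₁ ↔ PDivSeries p M' r₂)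

/-- **HECKE**: `T_ℓ` (`ℓ ∤ pM'`) preserves `𝓕` and `𝒮`. -/
def HeckeStableStatement : Prop :=
  ∀ (p M' : ℕ) [NeZero M'] [NeZero p] [NeZero (p * M')], p.Prime → ¬ p ∣ M' →
    ∀ A : ValuationSubring Kbar, A.LiesOverPrime p →
    ∀ ℓ : Nat.Primes, ¬ (ℓ : ℕ) ∣ p * M' →
      (∀ x ∈ finPart p M' A, heckeOperatorBar (p * M') ℓ x ∈ finPart p M' A) ∧
      (∀ x ∈ splitPart p M' A, heckeOperatorBar (p * M') ℓ x ∈ splitPart p M' A)

/-- **RES**: the residue field of `A` is algebraically closed of characteristic `p`. -/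
def ResFieldStatement : Prop :=
  ∀ (p : ℕ), p.Prime → ∀ A : ValuationSubring Kbar, A.LiesOverPrime p →
    IsAlgClosed (kA A) ∧ CharP (kA A) p

/-- **DLOG (I2)**: a new eigenclass in `𝓕 ∖ 𝒮` produces, on one of the two components, a
reduction `h ∈ k(X₀(M'))` with `p ∣ div h` whose logarithmic derivative `g = θh / h` is a nonzero
`T_ℓ`-eigenseries with eigenvalues `a_ℓ`: exactly the input of `H764.I3.R3PStatement`. -/
def DlogOutStatement : Prop :=
  ∀ (p M' : ℕ) [NeZero M'] [NeZero p] [NeZero (p * M')], p.Prime → p ≠ 2 → ¬ p ∣ M' →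
    ∀ A : ValuationSubring Kbar, A.LiesOverPrime p →
    ∀ (S : Finset ℕ) (a : ℕ → ℤ), ∀ x ∈ finPart p M' A, x ∉ splitPart p M' A →
      IsNewTors p M' x → EigenAt (p * M') S a x →
      ∃ (S' : Finset ℕ) (h : modularFunctionFieldFullC (kA A) M') (g : PowerSeries (kA A)),
        S ⊆ S' ∧ h ≠ 0 ∧
        (∀ Q : Place (kA A) (modularFunctionFieldFullC (kA A) M'), (p : ℤ) ∣ Q.ord h) ∧
        H764.I3.IsDlog (h : LaurentSeries (kA A)) g ∧ g ≠ 0 ∧ H764.I3.IsEigenSeries M' S' a g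

/-- `x` has Eisenstein slopes off `S'`: `T_ℓ x - (ℓ + 1) x ∈ 𝓕`. -/
def IsEisMod (p M' : ℕ) [NeZero (p * M')] (A : ValuationSubring Kbar) (S' : Finset ℕ)
    (x : JZero (p * M')) : Prop :=
  ∀ ℓ : Nat.Primes, (ℓ : ℕ) ∉ S' →
    heckeOperatorBar (p * M') ℓ x - ((ℓ : ℕ) + 1) • x ∈ finPart p M' A

/-- **EIS** (output of I6-core + NODE + Hecke/Brandt equivariance of the slopes): under the
hypotheses of (S4) — WITHOUT the non-Eisenstein hypothesis — the slope vector of `x` is a multiple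
of the slope vector of the modular unit `Δ(z)/Δ(pz)`, which is Eisenstein; hence
`T_ℓ x - (ℓ+1) x ∈ 𝓕` off a finite set. -/
def EisSlopeStatement : Prop :=
  ∀ (p M' : ℕ) [NeZero M'] [NeZero p] [NeZero (p * M')], p.Prime → 5 ≤ p → ¬ p ∣ M' →
    ∀ A : ValuationSubring Kbar, A.LiesOverPrime p →
    ∀ (S : Finset ℕ) (a : ℕ → ℤ) (x t : JZero (p * M')),
      IsNewTors p M' x → EigenAt (p * M') S a x →
      IsNewTors p M' t → EigenAt (p * M') S a t →
      (∀ σ ∈ A.inertiaSubgroupIn ℚ, ∀ c : ℕ, CycloAt p σ c → σ • t = c • t) →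
      (∀ σ ∈ A.inertiaSubgroupIn ℚ, ∃ n : ℕ, σ • x = x + n • t) →
      (∀ σ : GQ, PeuFixes A p σ → σ • x = x) →
      ∃ S' : Finset ℕ, IsEisMod p M' A S' x

/-! ## Glue -/

/-- **(S3)** from DLOG (I2) and `R3P` (I3). -/
theorem s3For_of (hR : ResFieldStatement) (hD : DlogOutStatement)
    (h3 : H764.I3.R3PStatement)
    (p M' : ℕ) [NeZero M'] [NeZero p] [NeZero (p * M')] (hp : p.Prime) (hp2 : p ≠ 2)
    (hpM : ¬ p ∣ M') (A : ValuationSubring Kbar) (hA : A.LiesOverPrime p) :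
    S3For p M' (finPart p M' A) (splitPart p M' A) := by
  intro S a x hx hxS hnew heig
  obtain ⟨S', h, g, hSS', h0, hdiv, hdlog, hg0, heigs⟩ :=
    hD p M' hp hp2 hpM A hA S a x hx hxS hnew heig
  obtain ⟨hac, hch⟩ := hR p hp A hA
  obtain ⟨S'', hS'', hlow⟩ := h3 p M' hp hpM (kA A) S' a h h0 hdiv g hdlog hg0 heigs
  exact ⟨S'', hSS'.trans hS'', hlow⟩

/-- Pure group theory: an eigenclass with non-Eisenstein eigenvalues and Eisenstein slopes has
slopes `0`. -/
theorem mem_finPart_of_eis (p M' : ℕ) [NeZero (p * M')] (hp : p.Prime)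
    (A : ValuationSubring Kbar) (S S' : Finset ℕ) (a : ℕ → ℤ) (hNE : NonEisAway p a)
    (x : JZero (p * M')) (hpx : p • x = 0) (heig : EigenAt (p * M') S a x)
    (hE : IsEisMod p M' A S' x) : x ∈ finPart p M' A := by
  obtain ⟨ℓ, hℓ, hℓS, hndvd⟩ := hNE (S ∪ S')
  have hℓ1 : ℓ ∉ S := fun h => hℓS (Finset.mem_union_left _ h)
  have hℓ2 : ℓ ∉ S' := fun h => hℓS (Finset.mem_union_right _ h)
  have h1 := hE ⟨ℓ, hℓ⟩ hℓ2
  rw [heig ⟨ℓ, hℓ⟩ hℓ1] at h1
  -- `(a ℓ - (ℓ + 1)) • x ∈ 𝓕`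
  have h2 : (a ℓ - ((ℓ : ℤ) + 1)) • x ∈ finPart p M' A := by
    have e : (a ℓ - ((ℓ : ℤ) + 1)) • x = a ℓ • x - ((ℓ : ℕ) + 1) • x := by
      have h3 : ((ℓ : ℤ) + 1) = (((ℓ : ℕ) + 1 : ℕ) : ℤ) := by push_cast; ring
      rw [sub_smul, h3, natCast_zsmul]
    rw [e]
    exact h1
  -- Bezout
  have hcop : IsCoprime (a ℓ - ((ℓ : ℤ) + 1)) (p : ℤ) := by
    have hpp : Prime (p : ℤ) := Nat.prime_iff_prime_int.mp hp
    exact (IsCoprime.symm ((Prime.coprime_iff_not_dvd hpp).mpr hndvd))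
  obtain ⟨u, v, huv⟩ := hcop
  have hx : x = u • ((a ℓ - ((ℓ : ℤ) + 1)) • x) + v • ((p : ℤ) • x) := by
    rw [smul_smul, smul_smul, ← add_zsmul, huv, one_zsmul]
  rw [hx]
  refine (finPart p M' A).add_mem ((finPart p M' A).zsmul_mem h2 u) ?_
  have : ((p : ℤ) • x) = 0 := by rw [natCast_zsmul]; exact hpx
  rw [this, smul_zero]
  exact (finPart p M' A).zero_mem

/-- **(S4)** from EIS, for `p ≥ 5`. -/
theorem s4For_of (hE : EisSlopeStatement)
    (p M' : ℕ) [NeZero M'] [NeZero p] [NeZero (p * M')] (hp : p.Prime) (hp5 : 5 ≤ p)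
    (hpM : ¬ p ∣ M') (A : ValuationSubring Kbar) (hA : A.LiesOverPrime p) :
    S4For p M' A (finPart p M' A) := by
  intro S a hNE x t hx hex ht het hχ hsh hpeu
  obtain ⟨S', hS'⟩ := hE p M' hp hp5 hpM A hA S a x t hx hex ht het hχ hsh hpeu
  exact mem_finPart_of_eis p M' hp A S S' a hNE x hx.1 hex hS'

/-- **The four targets for `p ≥ 5`** (`H944.Wall.WallTargets5Statement`, hence S44 by
`H944.Wall.S44_of_targets5`) from the leaves of the four sub-architects. -/
theorem wallTargets5_of (h1 : S1Statement) (h2 : S2Statement) (hR : ResFieldStatement)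
    (hD : DlogOutStatement) (h3 : H764.I3.R3PStatement) (hE : EisSlopeStatement) :
    WallTargets5Statement := by
  intro p M' _ _ _ hp hp5 hpM A hA
  have hp2 : p ≠ 2 := by omega
  exact ⟨finPart p M' A, splitPart p M' A, h1 p M' hp hpM A hA, h2 p M' hp hp2 hpM A hA,
    s3For_of hR hD h3 p M' hp hp2 hpM A hA, s4For_of hE p M' hp hp5 hpM A hA⟩

end Fermat.Agent.Ribet.H884

end

end
-- ===== PACK-END Ribet/H884/SlopeSpec.lean

-- ===== PACK-BEGIN Ribet/H884/SlopeS1.lean
section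



/-!
# Row 38, WALL-p: **(S1)** for `𝒮 = splitPart`  (helper884)

`s1 : S1Statement`: for `x ∈ J₀(pM')[p]` and `σ` in the inertia group of `A`, the class
`σ x - x` lies in `splitPart p M' A`.

Proof: `x ↔ f` (Kummer generator), `σ x - x ↔ σ f / f`.  In normal form `f · U₂ = c · U₁`
(`H708.exists_normal_form`); `σ` acts on the coefficients and trivially on the residue field, so
`(σ f / f) · (σU₂ · U₁) = (σc / c) · (σU₁ · U₂)` is a normal form whose reduction is `1`.
The same for `w_N f` (`w_N` commutes with `σ`).  The series `1` has divisor `0` and lies in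
`k((t^p))`.
-/

set_option autoImplicit false
set_option synthInstance.maxHeartbeats 400000
set_option maxHeartbeats 1000000
set_option linter.unusedSectionVars false

noncomputable section

namespace Fermat.Agent.Ribet.H884

open AlgebraicCurve ModularCurve HahnSeries
open Fermat.Agent.S24 Fermat.Agent.A2.H708 Fermat.Agent.A2.H528 Fermat.Agent.A2.H129
open Fermat.Agent.Ribet.Spec Fermat.Agent.Ribet.H944.Wall

section

variable {N : ℕ} [NeZero N]

/-- Every `p`-torsion class has a Kummer generator. -/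
theorem exists_isKummerGen (p : ℕ) (x : JZero N) (hx : p • x = 0) :
    ∃ f : FF N, IsKummerGen N p f x := by
  obtain ⟨D, rfl⟩ := Pic0.mk_surjective x
  have hprin : ((p • D : Divisor.degZero (K := Kbar) (F := FF N)) : Divisor Kbar (FF N)) ∈
      Divisor.principal (K := Kbar) (F := FF N) := by
    have h0 : Pic0.mk (p • D) = 0 := hx
    have := (QuotientAddGroup.eq_zero_iff (p • D)).1 h0
    simpa [AddSubgroup.mem_addSubgroupOf] using this
  obtain ⟨f, hf, hfD⟩ := hprin
  refine ⟨f, hf, D, rfl, fun v => ?_⟩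
  rw [← hfD v]
  simp [Finsupp.smul_apply]

/-- `σ f / f` is a Kummer generator of `σ x - x`. -/
theorem isKummerGen_galSubOne (p : ℕ) (σ : Kbar ≃ₐ[ℚ] Kbar) {f : FF N} {x : JZero N}
    (h : IsKummerGen N p f x) : IsKummerGen N p (gal N σ f * f⁻¹) (σ • x - x) := by
  obtain ⟨hf, D, rfl, hD⟩ := h
  set g : SemilinearAut Kbar (FF N) := arithmeticGalois (modularFunctionFieldFull N) σ with hg
  have hτf : gal N σ f ≠ 0 := by simpa using hf
  refine ⟨mul_ne_zero hτf (inv_ne_zero hf), SemilinearAut.degZeroSMulHom g D - D, ?_, ?_⟩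
  · show _ = g • Pic0.mk D - Pic0.mk D
    rw [SemilinearAut.pic0_smul_mk]
    rfl
  · intro v
    have h1 : v.ord (gal N σ f) = (g⁻¹ • v).ord f := ord_smul_eq g v f
    rw [ord_div v hτf hf, h1, hD, hD]
    simp only [AddSubgroupClass.coe_sub, SemilinearAut.coe_degZeroSMulHom, Finsupp.sub_apply,
      SemilinearAut.divisor_smul_apply]
    ring

variable {A : ValuationSubring Kbar} {p : ℕ}

/-- **Key computation**: `σ f / f` has reduction `1` on the `∞`-component. -/
theorem isRedInf_galSubOne (hp0 : p ≠ 0) (hA : (p : Kbar) ∈ A.nonunits)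
    {σ : Kbar ≃ₐ[ℚ] Kbar} (hσ : σ ∈ A.inertiaSubgroupIn ℚ) {f : FF N} (hf : f ≠ 0) :
    IsRedInf N A (gal N σ f * f⁻¹) 1 := by
  have hf' : (f : LaurentSeries Kbar) ≠ 0 := fun h => hf (Subtype.ext h)
  obtain ⟨c, U₁, U₂, hc, h₁, h₂, -, -, he⟩ :=
    exists_normal_form (A := A) (intGen_full N)
      (attainsMax_Qbar hp0 hA (modularFunctionFieldFull N)) f.2 hf'
  set U₁' := coeffMap (resA hσ) U₁ with hU₁'
  set U₂' := coeffMap (resA hσ) U₂ with hU₂'
  have hτ : ((gal N σ f : FF N) : LaurentSeries Kbar) * incl A U₂' = cst (σ c) * incl A U₁' := by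
    rw [hU₁', hU₂', incl_coeffMap_resA, incl_coeffMap_resA]
    show coeffMap (σ : Kbar →+* Kbar) (f : LaurentSeries Kbar) *
      coeffMap (σ : Kbar →+* Kbar) (incl A U₂) = _
    rw [← map_mul, he, map_mul]
    congr 1
    exact coeffMap_algebraMap (σ : Kbar →+* Kbar) c
  have hσc : σ c ≠ 0 := by simpa using hc
  refine ⟨σ c / c, U₁' * U₂, U₂' * U₁, div_ne_zero hσc hc, ?_, ?_, ?_, ?_⟩
  · rw [map_mul, hU₁', red_coeffMap_resA]
    exact mul_ne_zero h₁ h₂
  · rw [map_mul, hU₂', red_coeffMap_resA]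
    exact mul_ne_zero h₂ h₁
  · have hF : incl A U₁ = (f : LaurentSeries Kbar) * incl A U₂ * (cst c)⁻¹ := by
      rw [he, mul_comm (cst c), mul_assoc, mul_inv_cancel₀ (cst_ne_zero hc), mul_one]
    have hcoe : ((gal N σ f * f⁻¹ : FF N) : LaurentSeries Kbar) =
        ((gal N σ f : FF N) : LaurentSeries Kbar) * (f : LaurentSeries Kbar)⁻¹ := by
      rw [IntermediateField.coe_mul, IntermediateField.coe_inv]
    have e1 : ((gal N σ f : FF N) : LaurentSeries Kbar) * (f : LaurentSeries Kbar)⁻¹ *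
        (incl A U₂' * incl A U₁) =
        (((gal N σ f : FF N) : LaurentSeries Kbar) * incl A U₂') *
          ((f : LaurentSeries Kbar)⁻¹ * incl A U₁) := by ring
    have e2 : (f : LaurentSeries Kbar)⁻¹ * incl A U₁ = incl A U₂ * (cst c)⁻¹ := by
      rw [hF, ← mul_assoc, ← mul_assoc, inv_mul_cancel₀ hf', one_mul]
    have e3 : cst (σ c / c) = cst (σ c) * (cst c)⁻¹ := by
      rw [cst, cst, cst, map_div₀, div_eq_mul_inv]
    rw [hcoe, map_mul (incl A), map_mul (incl A), e1, hτ, e2, e3]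
    ring
  · rw [one_mul, map_mul, map_mul, hU₁', hU₂', red_coeffMap_resA, red_coeffMap_resA, mul_comm]

/-- The same on the `0`-component. -/
theorem isRedZero_galSubOne (hp0 : p ≠ 0) (hA : (p : Kbar) ∈ A.nonunits)
    {σ : Kbar ≃ₐ[ℚ] Kbar} (hσ : σ ∈ A.inertiaSubgroupIn ℚ) {f : FF N} (hf : f ≠ 0) :
    IsRedZero N A (gal N σ f * f⁻¹) 1 := by
  have hw : wF N f ≠ 0 := fun h => hf ((map_eq_zero_iff _ (wF N).injective).mp h)
  have e : wF N (gal N σ f * f⁻¹) = gal N σ (wF N f) * (wF N f)⁻¹ := by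
    rw [map_mul, map_inv₀, wF_gal]
  unfold IsRedZero
  rw [e]
  exact isRedInf_galSubOne hp0 hA hσ hw

end

/-- The series `1` has all orders divisible by `p`. -/
theorem pDivSeries_one (p M' : ℕ) {k : Type} [Field k] :
    PDivSeries p M' (1 : LaurentSeries k) := by
  refine ⟨1, rfl, one_ne_zero, fun Q => ?_⟩
  have h := ord_algebraMap_eq_zero Q (1 : k)
  rw [map_one] at h
  rw [h]
  exact dvd_zero _

/-- The series `1` lies in `k((t^p))`. -/
theorem splitSeries_one (p : ℕ) {k : Type} [Field k] :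
    SplitSeries p (1 : LaurentSeries k) := by
  intro n hn
  rw [HahnSeries.coeff_one]
  have : n ≠ 0 := by
    rintro rfl
    exact hn (dvd_zero _)
  simp [this]

/-- **(S1)**: inertia acts trivially on `J₀(pM')[p] / 𝒮`. -/
theorem s1 : S1Statement := by
  intro p M' _ _ _ hp hpM A hA x hpx σ hσ
  obtain ⟨f, hf⟩ := exists_isKummerGen (N := p * M') p x hpx
  apply AddSubgroup.subset_closure
  exact ⟨gal (p * M') σ f * f⁻¹, isKummerGen_galSubOne p σ hf, 1, 1,
    isRedInf_galSubOne hp.ne_zero hA hσ hf.1, isRedZero_galSubOne hp.ne_zero hA hσ hf.1,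
    pDivSeries_one p M', pDivSeries_one p M', splitSeries_one p, splitSeries_one p⟩

end Fermat.Agent.Ribet.H884

end

end
-- ===== PACK-END Ribet/H884/SlopeS1.lean

-- ===== PACK-BEGIN Ribet/H764/I3Target.lean
section



/-!
# I3 ⇒ target (S3) of the wall (helper764)

`H944.Wall.S3For p M' 𝓕 𝒮` (target of I3 in `WallTargets.lean`) from

* `I2OutFor p M' k 𝓕 𝒮` — the OUTPUT CONTRACT of SLOPE + DLOG (I1/I2): a new eigenclass
  `x ∈ 𝓕 ∖ 𝒮` produces `h ∈ F_k = modularFunctionFieldFullC k M'` (the reduction of `f_x` on a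
  component on which it is not a `p`-th power), `p ∣ div h`, and the nonzero `q`-series
  `g = θh / h`, which is a `T_ℓ`-eigen-series with eigenvalue `a_ℓ` off `S ∪ S₁`
  (`S₁` finite, chosen by the producer: e.g. the primes dividing `p·M'`);
* `R3PAt p M' k` — I3 at `k` (`I3At.lean`).
-/

set_option autoImplicit false
set_option linter.style.haveILetI false

open CuspForm ModularFormClass ModularCurve AlgebraicCurve

namespace Fermat.Agent.Ribet.H764.I3

open Fermat.Agent.Ribet.H944.Wall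

/-- `Lowered` is monotone in the excluded set. -/
theorem lowered_mono {M' p : ℕ} [NeZero M'] {S T : Finset ℕ} {a : ℕ → ℤ} (hST : S ⊆ T)
    (h : Lowered M' p T a) : Lowered M' p S a := by
  obtain ⟨S', hS', h'⟩ := h
  exact ⟨S', hST.trans hS', h'⟩

/-- **Output contract of SLOPE + DLOG (I1/I2) for (S3).** -/
def I2OutFor (p M' : ℕ) [NeZero M'] [NeZero p] [NeZero (p * M')] (k : Type) [Field k]
    (𝓕 𝒮 : AddSubgroup (JZero (p * M'))) : Prop :=
  ∀ (S : Finset ℕ) (a : ℕ → ℤ), ∀ x ∈ 𝓕, x ∉ 𝒮 → IsNewTors p M' x →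
    EigenAt (p * M') S a x →
      ∃ (S₁ : Finset ℕ) (h : modularFunctionFieldFullC k M') (g : PowerSeries k),
        h ≠ 0 ∧ (∀ Q : Place k (modularFunctionFieldFullC k M'), (p : ℤ) ∣ Q.ord h) ∧
        IsDlog (h : LaurentSeries k) g ∧ g ≠ 0 ∧ IsEigenSeries M' (S ∪ S₁) a g

/-- **(S3) from the contract and I3 at `k`.** -/
theorem s3For_of {p M' : ℕ} [NeZero M'] [NeZero p] [NeZero (p * M')] {k : Type} [Field k]
    {𝓕 𝒮 : AddSubgroup (JZero (p * M'))} (hI2 : I2OutFor p M' k 𝓕 𝒮) (hR : R3PAt p M' k) :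
    S3For p M' 𝓕 𝒮 := by
  intro S a x hx hxS hnew heig
  obtain ⟨S₁, h, g, h0, hdiv, hg, hg0, hge⟩ := hI2 S a x hx hxS hnew heig
  exact lowered_mono Finset.subset_union_left (hR (S ∪ S₁) a h h0 hdiv g hg hg0 hge)

/-- **(S3) from the contract and the three geometric leaves at `k`.** -/
theorem s3For_of_geo {p M' : ℕ} [NeZero M'] [NeZero p] [NeZero (p * M')] {k : Type} [Field k]
    [CharP k p] (hp : p.Prime) {𝓕 𝒮 : AddSubgroup (JZero (p * M'))}
    (hI2 : I2OutFor p M' k 𝓕 𝒮) (hI : IncAt M' k) (hD : DimAt M' k) (hH : LogHolAt p M' k) :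
    S3For p M' 𝓕 𝒮 :=
  s3For_of hI2 (r3pAt_of_geo hp hI hD hH)

end Fermat.Agent.Ribet.H764.I3

end
-- ===== PACK-END Ribet/H764/I3Target.lean

-- ===== PACK-BEGIN Ribet/H764/I3Res.lean
section




/-!
# I3 = W-R3P at the residue fields `k = A/𝔪`, `p ≥ 5` (helper764)

The geometric leaves DIMK and INC use the good reduction of `X₀(M)` at `p` (Tower A), which is
available at `k = IsLocalRing.ResidueField A` (`A ⊆ ℚ̄` a valuation subring over `p`) and at good
levels (`p ≥ 5`).  This file restates I3 and its leaves there — enough for S44 — and plugs into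
`H884.wallTargets5_of`.

* `IncAnStatement`   (INC-AN, characteristic 0): an integral cusp form is a holomorphic
  differential of `F_ℚ̄ = modularFunctionFieldFullC ℚ̄ M` (`= modularFunctionFieldBar M`,
  `S18.H602.BaseChange`); it is `I3.IncAt M ℚ̄` verbatim.
* `IncRed5Statement` (INC-RED): the reduction of an `A`-integral holomorphic `q`-series is
  holomorphic.
* `Dim5Statement`, `LogHol5Statement`, `R3P5Statement` : `DimAt`, `LogHolAt`, `R3PAt` at `kRes A`.
* PROVED: `inc5_of`, `r3p5_of`, `dim5_of_all`, `logHol5_of_all`, `s3For_h884`,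
  `wallTargets5_of_r3p5`.
-/

set_option autoImplicit false
set_option linter.style.haveILetI false

open CuspForm ModularFormClass ModularCurve AlgebraicCurve

namespace Fermat.Agent.Ribet.H764.I3

open Fermat.Agent.Ribet.H944.Wall

/-- The residue field of `A`. -/
abbrev kRes (A : ValuationSubring (AlgebraicClosure ℚ)) : Type := IsLocalRing.ResidueField A

/-- The residue field of a valuation subring over `p` has characteristic `p`. -/
theorem charP_kRes (A : ValuationSubring (AlgebraicClosure ℚ)) {p : ℕ} (hp : p.Prime)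
    (hA : A.LiesOverPrime p) : CharP (kRes A) p := by
  have hpm : ((p : ℕ) : A) ∈ IsLocalRing.maximalIdeal A := by
    obtain ⟨ha, hm⟩ := (ValuationSubring.mem_nonunits_iff_exists_mem_maximalIdeal).mp hA
    have : (⟨(p : AlgebraicClosure ℚ), ha⟩ : A) = ((p : ℕ) : A) := by
      apply Subtype.ext; simp
    rwa [this] at hm
  have h0 : ((p : ℕ) : IsLocalRing.ResidueField A) = 0 := by
    have := (IsLocalRing.residue_eq_zero_iff ((p : ℕ) : A)).mpr hpm
    rwa [map_natCast] at this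
  exact (CharP.charP_iff_prime_eq_zero hp).mpr h0

theorem isAlgClosed_kRes (A : ValuationSubring (AlgebraicClosure ℚ)) : IsAlgClosed (kRes A) :=
  Fermat.Agent.S18.H9.resAlgClosed (AlgebraicClosure ℚ) A

/-! ## The statements -/

/-- **(INC-AN)**: an integral cusp form of weight 2 and level `M` is a holomorphic differential of
the function field of `X₀(M)` over `ℚ̄`. -/
def IncAnStatement : Prop :=
  ∀ (M : ℕ) [NeZero M], IncAt M (AlgebraicClosure ℚ)

/-- **(INC-RED)**, `p ≥ 5`: the reduction of a holomorphic `q`-series with integer coefficients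
is holomorphic. -/
def IncRed5Statement : Prop :=
  ∀ (p M : ℕ) [NeZero M], p.Prime → 5 ≤ p → ¬ p ∣ M →
    ∀ A : ValuationSubring (AlgebraicClosure ℚ), A.LiesOverPrime p →
    ∀ c : ℕ → ℤ,
      IsHoloSeries (AlgebraicClosure ℚ) M (PowerSeries.mk fun n => ((c n : ℤ) : AlgebraicClosure ℚ)) →
      IsHoloSeries (kRes A) M (PowerSeries.mk fun n => ((c n : ℤ) : kRes A))

/-- (INC) at the residue fields, `p ≥ 5`. -/
def Inc5Statement : Prop :=
  ∀ (p M : ℕ) [NeZero M], p.Prime → 5 ≤ p → ¬ p ∣ M →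
    ∀ A : ValuationSubring (AlgebraicClosure ℚ), A.LiesOverPrime p → IncAt M (kRes A)

/-- (DIMK) at the residue fields, `p ≥ 5`. -/
def Dim5Statement : Prop :=
  ∀ (p M : ℕ) [NeZero M], p.Prime → 5 ≤ p → ¬ p ∣ M →
    ∀ A : ValuationSubring (AlgebraicClosure ℚ), A.LiesOverPrime p → DimAt M (kRes A)

/-- (LOGHOL) at the residue fields, `p ≥ 5`. -/
def LogHol5Statement : Prop :=
  ∀ (p M : ℕ) [NeZero M], p.Prime → 5 ≤ p → ¬ p ∣ M →
    ∀ A : ValuationSubring (AlgebraicClosure ℚ), A.LiesOverPrime p → LogHolAt p M (kRes A)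

/-- **I3 at the residue fields, `p ≥ 5`.** -/
def R3P5Statement : Prop :=
  ∀ (p M : ℕ) [NeZero M], p.Prime → 5 ≤ p → ¬ p ∣ M →
    ∀ A : ValuationSubring (AlgebraicClosure ℚ), A.LiesOverPrime p → R3PAt p M (kRes A)

/-! ## Glue -/

/-- INC = INC-AN + INC-RED. -/
theorem inc5_of (hAn : IncAnStatement) (hRed : IncRed5Statement) : Inc5Statement := by
  intro p M _ hp h5 hpM A hA g hg
  obtain ⟨f, c, hfc, hgc⟩ := hg
  have hG : IsHoloSeries (AlgebraicClosure ℚ) M
      (PowerSeries.mk fun n => ((c n : ℤ) : AlgebraicClosure ℚ)) :=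
    hAn M _ ⟨f, c, hfc, fun n => PowerSeries.coeff_mk _ _⟩
  have hg' : g = PowerSeries.mk fun n => ((c n : ℤ) : kRes A) := by
    ext n
    rw [hgc n, PowerSeries.coeff_mk]
  rw [hg']
  exact hRed p M hp h5 hpM A hA c hG

/-- The `∀ k` form of DIMK gives the form at the residue fields. -/
theorem dim5_of_all (h : DimStatement) : Dim5Statement := by
  intro p M _ hp _ hpM A hA
  haveI := charP_kRes A hp hA
  haveI := isAlgClosed_kRes A
  exact h p M hp hpM (kRes A)

/-- The `∀ k` form of LOGHOL gives the form at the residue fields. -/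
theorem logHol5_of_all (h : LogHolStatement) : LogHol5Statement := by
  intro p M _ hp _ hpM A hA
  haveI := charP_kRes A hp hA
  haveI := isAlgClosed_kRes A
  exact h p M hp hpM (kRes A)

/-- **I3 at the residue fields from the geometric leaves.** -/
theorem r3p5_of (hI : Inc5Statement) (hD : Dim5Statement) (hH : LogHol5Statement) :
    R3P5Statement := by
  intro p M _ hp h5 hpM A hA
  haveI := charP_kRes A hp hA
  exact r3pAt_of_geo hp (hI p M hp h5 hpM A hA) (hD p M hp h5 hpM A hA) (hH p M hp h5 hpM A hA)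

/-- **I3 at the residue fields from INC-AN, INC-RED, DIMK, LOGHOL.** -/
theorem r3p5_of_leaves (hAn : IncAnStatement) (hRed : IncRed5Statement) (hD : Dim5Statement)
    (hH : LogHol5Statement) : R3P5Statement :=
  r3p5_of (inc5_of hAn hRed) hD hH

/-! ## Plug into the SLOPE + DLOG spec of helper884 -/

open Fermat.Agent.Ribet.H884 in
/-- **(S3)** for the subgroups of `H884/SlopeSpec.lean`, from DLOG (I2) and I3 at the residue
field. -/
theorem s3For_h884 (hD : DlogOutStatement) (h3 : R3P5Statement)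
    (p M' : ℕ) [NeZero M'] [NeZero p] [NeZero (p * M')] (hp : p.Prime) (h5 : 5 ≤ p)
    (hpM : ¬ p ∣ M') (A : ValuationSubring (AlgebraicClosure ℚ)) (hA : A.LiesOverPrime p) :
    S3For p M' (finPart p M' A) (splitPart p M' A) := by
  intro S a x hx hxS hnew heig
  have hp2 : p ≠ 2 := by omega
  obtain ⟨S', h, g, hSS', h0, hdiv, hdlog, hg0, heigs⟩ :=
    hD p M' hp hp2 hpM A hA S a x hx hxS hnew heig
  exact lowered_mono hSS' (h3 p M' hp h5 hpM A hA S' a h h0 hdiv g hdlog hg0 heigs)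

open Fermat.Agent.Ribet.H884 in
/-- **The four targets for `p ≥ 5`** with I3 at the residue fields only. -/
theorem wallTargets5_of_r3p5 (h1 : S1Statement) (h2 : S2Statement) (hD : DlogOutStatement)
    (h3 : R3P5Statement) (hE : EisSlopeStatement) : WallTargets5Statement := by
  intro p M' _ _ _ hp hp5 hpM A hA
  have hp2 : p ≠ 2 := by omega
  exact ⟨finPart p M' A, splitPart p M' A, h1 p M' hp hpM A hA, h2 p M' hp hp2 hpM A hA,
    s3For_h884 hD h3 p M' hp hp5 hpM A hA, s4For_of hE p M' hp hp5 hpM A hA⟩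

end Fermat.Agent.Ribet.H764.I3

end
-- ===== PACK-END Ribet/H764/I3Res.lean

-- ===== PACK-BEGIN Ribet/H764/I3Final.lean
section



/-!
# I3 = W-R3P: integration of the landed leaves (integrator helper764)

Status of the leaves of I3 (`I3Spec.lean`, `I3Res.lean`):

| leaf | statement | status |
|---|---|---|
| LIFT   | `LiftStatement`    | PROVED `lift_proved` (helper764) |
| DESC   | `DescStatement`    | PROVED `desc_proved` (helper764) |
| RANK   | `RankStatement`    | PROVED `rank_proved` (helper764) |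
| LOGHOL | `LogHolStatement`  | PROVED `H751.logHol` (helper751) |
| INC-AN | `IncAnStatement`   | open |
| INC-RED| `IncRed5Statement` | open |
| DIMK   | `Dim5Statement`    | open |

Hence `r3p5_of_open : IncAn → IncRed5 → Dim5 → R3P5Statement` and
`wallTargets5_of_open`.
-/

set_option autoImplicit false

namespace Fermat.Agent.Ribet.H764.I3

open Fermat.Agent.Ribet.H944.Wall

/-- LOGHOL at the residue fields (helper751). -/
theorem logHol5_proved : LogHol5Statement :=
  logHol5_of_all Fermat.Agent.Ribet.H751.logHol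

/-- **I3 at the residue fields (`p ≥ 5`) from the three leaves still open.** -/
theorem r3p5_of_open (hAn : IncAnStatement) (hRed : IncRed5Statement) (hD : Dim5Statement) :
    R3P5Statement :=
  r3p5_of_leaves hAn hRed hD logHol5_proved

open Fermat.Agent.Ribet.H884 in
/-- **The four targets for `p ≥ 5`** from the leaves still open of I3 and the statements of the
other sub-architects. -/
theorem wallTargets5_of_open (h1 : S1Statement) (h2 : S2Statement) (hDl : DlogOutStatement)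
    (hAn : IncAnStatement) (hRed : IncRed5Statement) (hD : Dim5Statement)
    (hE : EisSlopeStatement) : WallTargets5Statement :=
  wallTargets5_of_r3p5 h1 h2 hDl (r3p5_of_open hAn hRed hD) hE

end Fermat.Agent.Ribet.H764.I3

end
-- ===== PACK-END Ribet/H764/I3Final.lean

-- ===== PACK-BEGIN Ribet/H944/I2Spec.lean
section




/-!
# Row 38, WALL-p, leaf I2 = DLOG (`H884.DlogOutStatement`): frozen leaves + PROVED assembly
  (wall architect helper944)

`x ∈ 𝓕 ∖ 𝒮` a new Hecke eigenclass of `J₀(pM')[p]`, `N = pM'`.  By CLOSED `x` has a Kummer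
generator `f` with reductions `r₁` (on `C∞`) and `r₂` (on `C₀`, i.e. a reduction of `w_N f`), both
`PDivSeries`, not both in `k((t^p))`.  Put `(F, r) = (f, r₁)` or `(w_N f, r₂)` with
`r ∉ k((t^p))`.  Then `h = r`, `g = θh / h` is the output, and the eigen-relations come from

  `T_ℓ x = a_ℓ x`  ⟹  `Nm_α(β f) = c · f ^ a_ℓ · G ^ p`                       (KUMEIG)
                   ⟹  `Nm_α(β (w_N f)) = c · (w_N f) ^ a_ℓ · (w_N G) ^ p`     (FRICKE-HECKE)
  reduction:       `knorm ℓ r = c̄ · r ^ a_ℓ · Ḡ ^ p`    (HECKE-RED, REDEX, REDUNIQ; `knorm` = the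
                   formal Kronecker norm `S37.H697.knorm`, `Nm_α(β Y) = knorm ℓ Y` on series)
  `dlog`:          `g_{nℓ} + ℓ g_{n/ℓ} = a_ℓ g_n`         (DLOG-KNORM, pure series, `ℓ ≠ p`).

## Leaves (each ONE Prop; prove `theorem foo : FooStatement` in `Ribet/H<seat>/…`)
| leaf | Prop | content |
|---|---|---|
| CLOSED       | `H884.FinClosedStatement`   | `finSet` is a subgroup |
| RES          | `H884.ResFieldStatement`    | `k` algebraically closed of characteristic `p` |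
| REDEX/UNIQ   | `H884.RedExistsStatement`, `H884.RedUniqueStatement` | reductions exist, unique up to `kˣ` |
| KUMEIG       | `KumEigStatement`           | Kummer form of `T_ℓ x = a x` |
| FRICKE-HECKE | `FrickeHeckeStatement`      | `Nm_α ∘ β` commutes with `w_N` (`ℓ ∤ N`) |
| HECKE-RED    | `HeckeRedStatement`         | reduction of `Nm_α(β f)` is `knorm ℓ` of the reduction |
| DLOG-KNORM   | `DlogKnormStatement`        | `dlog (knorm ℓ h) = T_ℓ (dlog h)` on series, char `p ≠ ℓ` |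
| DLOG-EX      | `DlogExStatement`           | `θh / h ∈ k⟦t⟧` |

## Proved here
* algebra of reductions: `isRedInf_one/const/mul/inv/pow/zpow`;
* `dlog_ne_zero` : `g ≠ 0` unless `h ∈ k((t^p))`;
* **`dlogOut_of`** : all leaves ⟹ `H884.DlogOutStatement`.
-/

set_option autoImplicit false
set_option linter.style.haveILetI false
set_option synthInstance.maxHeartbeats 400000
set_option maxHeartbeats 1000000

noncomputable section

namespace Fermat.Agent.Ribet.H944.I2

open AlgebraicCurve ModularCurve HahnSeries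
open Fermat.Agent.S24 Fermat.Agent.A2.H708 Fermat.Agent.A2.H528
open Fermat.Agent.Ribet.Spec Fermat.Agent.Ribet.H944.Wall Fermat.Agent.Ribet.H884
open Fermat.Agent.S37.H697

/-! ## Vocabulary -/

/-- The function-level Hecke operator `Nm_α ∘ β : F_N → F_N`. -/
abbrev hNorm (N ℓ : ℕ) [NeZero N] [NeZero ℓ] (f : FF N) : FF N :=
  Fermat.Agent.S29.H395.heckeNorm N ℓ f

/-- Kummer form of the eigen-relation `T_ℓ x = a x` on a Kummer generator `f`:
`Nm_α(β f) = c · f ^ a · G ^ p`. -/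
def KummerEigen (N p ℓ : ℕ) [NeZero N] [NeZero ℓ] (a : ℤ) (f : FF N) : Prop :=
  ∃ (c : Kbar) (G : FF N), c ≠ 0 ∧ G ≠ 0 ∧
    hNorm N ℓ f = algebraMap Kbar (FF N) c * f ^ a * G ^ p

/-! ## Leaves -/

/-- **KUMEIG.**  `T_ℓ x = a_ℓ x` on Kummer generators (any level `N`, any `p ≠ 0`). -/
def KumEigStatement : Prop :=
  ∀ (N p : ℕ) [NeZero N], p ≠ 0 → ∀ (S : Finset ℕ) (a : ℕ → ℤ) (x : JZero N) (f : FF N),
    IsKummerGen N p f x → EigenAt N S a x →
    ∀ (ℓ : ℕ) [NeZero ℓ], ℓ.Prime → ℓ ∉ S → ¬ ℓ ∣ N → KummerEigen N p ℓ (a ℓ) f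

/-- **FRICKE-HECKE.**  `Nm_α ∘ β` commutes with the Fricke involution `w_N` (`ℓ ∤ N`). -/
def FrickeHeckeStatement : Prop :=
  ∀ (N ℓ : ℕ) [NeZero N] [NeZero ℓ], ℓ.Prime → ¬ ℓ ∣ N → ∀ f : FF N,
    hNorm N ℓ (wF N f) = wF N (hNorm N ℓ f)

/-- **HECKE-RED.**  If `r` is a reduction of `f` on `C∞`, then the formal Kronecker norm
`knorm ℓ r` is a reduction of `Nm_α(β f)` (`ℓ ∤ N`). -/
def HeckeRedStatement : Prop :=
  ∀ (N ℓ : ℕ) [NeZero N] [NeZero ℓ], ℓ.Prime → ¬ ℓ ∣ N →
    ∀ (A : ValuationSubring Kbar) (f : FF N) (r : LaurentSeries (kA A)),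
      IsRedInf N A f r → IsRedInf N A (hNorm N ℓ f) (knorm ℓ r)

/-- **DLOG-KNORM** (pure series).  In characteristic `p ≠ ℓ`: if `g = θh / h` and
`knorm ℓ h = c · h ^ a · G ^ p`, then `g_{nℓ} + ℓ g_{n/ℓ} = a g_n`. -/
def DlogKnormStatement : Prop :=
  ∀ (k : Type) [Field k] [IsAlgClosed k] (p : ℕ) [CharP k p], p.Prime →
    ∀ (ℓ : ℕ) [NeZero ℓ], ℓ.Prime → ℓ ≠ p →
    ∀ (h G : LaurentSeries k) (g : PowerSeries k) (a : ℤ) (c : k),
      h ≠ 0 → G ≠ 0 → c ≠ 0 → H764.I3.IsDlog h g →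
      knorm ℓ h = HahnSeries.C c * h ^ a * G ^ p →
      ∀ n : ℕ, PowerSeries.coeff (n * ℓ) g +
          (if ℓ ∣ n then (ℓ : k) * PowerSeries.coeff (n / ℓ) g else 0) =
        (a : k) * PowerSeries.coeff n g

/-- **DLOG-EX** (pure series).  `θh / h` is a power series. -/
def DlogExStatement : Prop :=
  ∀ (k : Type) [Field k] (h : LaurentSeries k), h ≠ 0 → ∃ g : PowerSeries k, H764.I3.IsDlog h g

/-! ## Algebra of reductions -/

section RedAlg

variable (N : ℕ) [NeZero N] (A : ValuationSubring Kbar)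

theorem isRedInf_ne_zero {f : FF N} {r : LaurentSeries (kA A)} (h : IsRedInf N A f r) :
    f ≠ 0 ∧ r ≠ 0 := by
  obtain ⟨c, U₁, U₂, hc, h1, h2, hf, hr⟩ := h
  refine ⟨?_, ?_⟩
  · rintro rfl
    have h0 : cst c * incl A U₁ = 0 := by
      rw [← hf]
      simp
    rcases mul_eq_zero.mp h0 with h0 | h0
    · exact cst_ne_zero hc h0
    · exact incl_ne_zero A (ne_zero_of_red_ne_zero A h1) h0
  · rintro rfl
    rw [zero_mul] at hr
    exact h1 hr.symm

theorem isRedInf_const {c : Kbar} (hc : c ≠ 0) :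
    IsRedInf N A (algebraMap Kbar (FF N) c) 1 := by
  refine ⟨c, 1, 1, hc, ?_, ?_, ?_, ?_⟩
  · rw [map_one]; exact one_ne_zero
  · rw [map_one]; exact one_ne_zero
  · rw [map_one, mul_one, mul_one]
    rfl
  · rw [map_one, mul_one]

theorem isRedInf_one : IsRedInf N A (1 : FF N) 1 := by
  have h := isRedInf_const N A (one_ne_zero : (1 : Kbar) ≠ 0)
  rwa [map_one] at h

theorem isRedInf_mul {f g : FF N} {r s : LaurentSeries (kA A)} (hf : IsRedInf N A f r)
    (hg : IsRedInf N A g s) : IsRedInf N A (f * g) (r * s) := by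
  obtain ⟨c, U₁, U₂, hc, h1, h2, hfU, hr⟩ := hf
  obtain ⟨d, V₁, V₂, hd, k1, k2, hgV, hs⟩ := hg
  refine ⟨c * d, U₁ * V₁, U₂ * V₂, mul_ne_zero hc hd, ?_, ?_, ?_, ?_⟩
  · rw [map_mul]; exact mul_ne_zero h1 k1
  · rw [map_mul]; exact mul_ne_zero h2 k2
  · have e : ((f * g : FF N) : LaurentSeries Kbar) =
        (f : LaurentSeries Kbar) * (g : LaurentSeries Kbar) := rfl
    rw [e, map_mul, map_mul, cst_mul]
    calc (f : LaurentSeries Kbar) * (g : LaurentSeries Kbar) * (incl A U₂ * incl A V₂)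
        = ((f : LaurentSeries Kbar) * incl A U₂) * ((g : LaurentSeries Kbar) * incl A V₂) := by
          ring
      _ = (cst c * incl A U₁) * (cst d * incl A V₁) := by rw [hfU, hgV]
      _ = cst c * cst d * (incl A U₁ * incl A V₁) := by ring
  · rw [map_mul, map_mul, ← hr, ← hs]
    ring

theorem isRedInf_inv {f : FF N} {r : LaurentSeries (kA A)} (hf : IsRedInf N A f r) :
    IsRedInf N A f⁻¹ r⁻¹ := by
  obtain ⟨hf0, hr0⟩ := isRedInf_ne_zero N A hf
  obtain ⟨c, U₁, U₂, hc, h1, h2, hfU, hr⟩ := hf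
  refine ⟨c⁻¹, U₂, U₁, inv_ne_zero hc, h2, h1, ?_, ?_⟩
  · have hf0' : (f : LaurentSeries Kbar) ≠ 0 := fun h => hf0 (Subtype.ext h)
    have e : ((f⁻¹ : FF N) : LaurentSeries Kbar) = (f : LaurentSeries Kbar)⁻¹ := rfl
    rw [e]
    have hcc : cst c ≠ 0 := cst_ne_zero hc
    have e2 : cst (c⁻¹ : Kbar) = (cst c)⁻¹ := by
      apply eq_inv_of_mul_eq_one_left
      exact cst_inv_mul_cst hc
    rw [e2]
    field_simp
    rw [hfU, mul_comm]
  · rw [← hr]
    field_simp

theorem isRedInf_pow {f : FF N} {r : LaurentSeries (kA A)} (hf : IsRedInf N A f r) (n : ℕ) :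
    IsRedInf N A (f ^ n) (r ^ n) := by
  induction n with
  | zero => simpa using _root_.Fermat.Agent.Ribet.H944.I2.isRedInf_one N A
  | succ n ih =>
    rw [pow_succ, pow_succ]
    exact isRedInf_mul N A ih hf

theorem isRedInf_zpow {f : FF N} {r : LaurentSeries (kA A)} (hf : IsRedInf N A f r) (a : ℤ) :
    IsRedInf N A (f ^ a) (r ^ a) := by
  rcases a with n | n
  · simpa using isRedInf_pow N A hf n
  · rw [zpow_negSucc, zpow_negSucc]
    exact isRedInf_inv N A (isRedInf_pow N A hf (n + 1))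

end RedAlg

/-! ## Assembly -/

/-- `g = θh / h` is nonzero unless `h ∈ k((t^p))`. -/
theorem dlog_ne_zero {k : Type} [Field k] (p : ℕ) [CharP k p] {h : LaurentSeries k}
    {g : PowerSeries k} (hg : H764.I3.IsDlog h g) (hs : ¬ SplitSeries p h) : g ≠ 0 := by
  rintro rfl
  apply hs
  intro n hn
  have h1 := hg n
  rw [map_zero, zero_mul, HahnSeries.coeff_zero] at h1
  have h2 : (n : k) ≠ 0 := by
    intro h0
    exact hn ((CharP.intCast_eq_zero_iff k p n).mp h0)
  rcases mul_eq_zero.mp h1.symm with h3 | h3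
  · exact absurd h3 h2
  · exact h3

/-- The Kummer eigen-relation is transported by the Fricke involution. -/
theorem KummerEigen.fricke (hFH : FrickeHeckeStatement) {N p ℓ : ℕ} [NeZero N] [NeZero ℓ]
    (hℓ : ℓ.Prime) (hℓN : ¬ ℓ ∣ N) {a : ℤ} {f : FF N} (h : KummerEigen N p ℓ a f) :
    KummerEigen N p ℓ a (wF N f) := by
  obtain ⟨c, G, hc, hG, hN⟩ := h
  refine ⟨c, wF N G, hc, ?_, ?_⟩
  · intro h0
    apply hG
    have := congrArg (wF N) h0
    rwa [wF_wF, map_zero] at this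
  · rw [hFH N ℓ hℓ hℓN f, hN, map_mul, map_mul, map_pow, map_zpow₀, AlgEquiv.commutes]

/-- **I2 from its leaves.** -/
theorem dlogOut_of (hC : FinClosedStatement) (hR : ResFieldStatement)
    (hEx : RedExistsStatement) (hU : RedUniqueStatement)
    (hK : KumEigStatement) (hFH : FrickeHeckeStatement) (hHR : HeckeRedStatement)
    (hDK : DlogKnormStatement) (hDE : DlogExStatement) : DlogOutStatement := by
  intro p M' _ _ _ hp hp2 hpM A hA S a x hx hxS hnew heig
  obtain ⟨hac, hch⟩ := hR p hp A hA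
  haveI := hac
  haveI := hch
  obtain ⟨f, hfK, r₁, r₂, hr1, hr2, hP1, hP2⟩ := hC p M' hp hpM A hA x hx
  have hns : ¬ (SplitSeries p r₁ ∧ SplitSeries p r₂) := by
    rintro ⟨h1, h2⟩
    exact hxS (AddSubgroup.subset_closure ⟨f, hfK, r₁, r₂, hr1, hr2, hP1, hP2, h1, h2⟩)
  have hKf : ∀ (ℓ : ℕ) [NeZero ℓ], ℓ.Prime → ℓ ∉ S → ¬ ℓ ∣ p * M' →
      KummerEigen (p * M') p ℓ (a ℓ) f :=
    fun ℓ _ hℓ hℓS hℓN => hK (p * M') p hp.ne_zero S a x f hfK heig ℓ hℓ hℓS hℓN
  -- the main step, for a pair `(F, r)`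
  have key : ∀ (F : FF (p * M')) (r : LaurentSeries (kA A)), IsRedInf (p * M') A F r →
      PDivSeries p M' r → ¬ SplitSeries p r →
      (∀ (ℓ : ℕ) [NeZero ℓ], ℓ.Prime → ℓ ∉ S → ¬ ℓ ∣ p * M' →
        KummerEigen (p * M') p ℓ (a ℓ) F) →
      ∃ (S' : Finset ℕ) (h : modularFunctionFieldFullC (kA A) M') (g : PowerSeries (kA A)),
        S ⊆ S' ∧ h ≠ 0 ∧
        (∀ Q : Place (kA A) (modularFunctionFieldFullC (kA A) M'), (p : ℤ) ∣ Q.ord h) ∧
        H764.I3.IsDlog (h : LaurentSeries (kA A)) g ∧ g ≠ 0 ∧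
        H764.I3.IsEigenSeries M' S' a g := by
    intro F r hFr hPr hsr hKF
    obtain ⟨h, hh, h0, hdiv⟩ := hPr
    have h0' : (h : LaurentSeries (kA A)) ≠ 0 := fun e => h0 (Subtype.ext e)
    obtain ⟨g, hg⟩ := hDE (kA A) (h : LaurentSeries (kA A)) h0'
    refine ⟨insert p S, h, g, Finset.subset_insert p S, h0, hdiv, hg,
      dlog_ne_zero p hg (by rw [hh]; exact hsr), ?_⟩
    intro ℓ hℓ hℓM hℓS' n
    have hℓp : ℓ ≠ p := fun e => hℓS' (e ▸ Finset.mem_insert_self _ _)
    have hℓS : ℓ ∉ S := fun e => hℓS' (Finset.mem_insert_of_mem e)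
    have hℓN : ¬ ℓ ∣ p * M' := by
      intro hd
      rcases (Nat.Prime.dvd_mul hℓ).mp hd with h1 | h1
      · exact hℓp ((Nat.prime_dvd_prime_iff_eq hℓ hp).mp h1)
      · exact hℓM h1
    haveI : NeZero ℓ := ⟨hℓ.ne_zero⟩
    obtain ⟨c, G, hc, hG, hN⟩ := hKF ℓ hℓ hℓS hℓN
    have h1 : IsRedInf (p * M') A (hNorm (p * M') ℓ F) (knorm ℓ r) :=
      hHR (p * M') ℓ hℓ hℓN A F r hFr
    obtain ⟨rG, hrG⟩ := (hEx p (p * M') hp A hA G hG).1
    have h2 : IsRedInf (p * M') A (hNorm (p * M') ℓ F) (1 * r ^ (a ℓ) * rG ^ p) := by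
      rw [hN]
      exact isRedInf_mul _ A (isRedInf_mul _ A (isRedInf_const _ A hc)
        (isRedInf_zpow _ A hFr (a ℓ))) (isRedInf_pow _ A hrG p)
    obtain ⟨-, cb, hcb, hEq⟩ := hU p (p * M') hp A hA _ _ _ h2 h1
    have hrG0 : rG ≠ 0 := (isRedInf_ne_zero _ A hrG).2
    refine hDK (kA A) p hp ℓ hℓ hℓp (h : LaurentSeries (kA A)) rG g (a ℓ) cb h0' hrG0 hcb hg ?_ n
    rw [hh, hEq, one_mul, mul_assoc]
  by_cases hs1 : SplitSeries p r₁
  · have hs2 : ¬ SplitSeries p r₂ := fun h2 => hns ⟨hs1, h2⟩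
    exact key (wF (p * M') f) r₂ hr2 hP2 hs2
      (fun ℓ _ hℓ hℓS hℓN => (hKf ℓ hℓ hℓS hℓN).fricke hFH hℓ hℓN)
  · exact key f r₁ hr1 hP1 hs1 hKf

end Fermat.Agent.Ribet.H944.I2

end

end
-- ===== PACK-END Ribet/H944/I2Spec.lean

-- ===== PACK-BEGIN Ribet/H376/HeckeRedInf.lean
section
/-
Row 38 (RIBET), WALL-p, MOD_p leaf M6a (helper376): `T_ℓ`-compatibility of the reductions on the
`∞`-component, in the vocabulary of `Ribet/H884/SlopeSpec.lean`.

For `ℓ ∤ N` prime and `f ∈ FF N = ℚ̄(X₀(N))`: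

    IsRedInf N A f r  ⟹  IsRedInf N A (heckeNorm N ℓ f) (kronNorm ℓ r),

`heckeNorm N ℓ f = Nm_α (β f)` (the Kummer generator of `T_ℓ x` if `f` is one of `x`).
Proof: NORM-ID (`S37.H157.node_normid`) + multiplicativity and base change of `kronNorm`.
-/





set_option autoImplicit false
set_option maxHeartbeats 400000

noncomputable section

namespace Fermat.Agent.Ribet.H376

open HahnSeries ModularCurve
open Fermat.Agent.S24 Fermat.Agent.S37 Fermat.Agent.A2.H708 Fermat.Agent.Ribet.H884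

section Kron

variable {R : Type*} [CommRing R]

/-- The Kronecker norm of a constant. -/
theorem kronNorm_C (ℓ : ℕ) [NeZero ℓ] (c : R) :
    H400.kronNorm ℓ (C c : LaurentSeries R) = C (c ^ (ℓ + 1)) := by
  have h2 : H400.secMat ℓ (C c : LaurentSeries R) = Matrix.scalar (Fin ℓ) (C c) := by
    have := H400.secMat_qExpand ℓ (C c : LaurentSeries R)
    rwa [qExpand_C] at this
  rw [H400.kronNorm, qExpand_C, h2, Matrix.scalar_apply, Matrix.det_diagonal,
    Finset.prod_const, Finset.card_univ, Fintype.card_fin, ← pow_succ', map_pow]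

/-- The Kronecker norm of a nonzero series over a domain with a primitive `ℓ`-th root of unity
is nonzero. -/
theorem kronNorm_ne_zero [IsDomain R] (ℓ : ℕ) [NeZero ℓ] {ζ : R} (hζ : IsPrimitiveRoot ζ ℓ)
    {h : LaurentSeries R} (h0 : h ≠ 0) : H400.kronNorm ℓ h ≠ 0 := by
  intro hz
  have hE := H400.qExpand_kronNorm_eq_prod ℓ hζ h
  rw [hz, map_zero] at hE
  have hV : qExpand R ℓ (qExpand R ℓ h) ≠ 0 := fun hh =>
    h0 (qExpand_injective (R := R) (N := ℓ)
      (qExpand_injective (R := R) (N := ℓ) (by rw [hh, map_zero, map_zero])))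
  have hP : ∏ b : Fin ℓ, H340.tw ℓ (ζ ^ (b : ℕ)) h ≠ 0 := by
    refine Finset.prod_ne_zero_iff.mpr fun b _ htw => h0 ?_
    ext n
    have := congrArg (fun x : LaurentSeries R => x.coeff n) htw
    simp only [H340.tw_coeff, coeff_zero] at this
    rcases mul_eq_zero.mp this with hzz | hzz
    · exfalso
      unfold H340.zpw at hzz
      exact pow_ne_zero _ (pow_ne_zero _ (hζ.ne_zero (NeZero.ne ℓ))) hzz
    · simpa using hzz
  exact (mul_ne_zero hV hP) hE.symm

end Kron

/-- **M6a, `∞`-component.**  The reduction of `Nm_α (β f)` is the Kronecker norm of the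
reduction of `f`. -/
theorem isRedInf_heckeNorm (N ℓ : ℕ) [NeZero N] [NeZero ℓ] (hℓ : ℓ.Prime) (hℓN : ¬ ℓ ∣ N)
    (A : ValuationSubring Kbar) {ζ : kA A} (hζ : IsPrimitiveRoot ζ ℓ)
    {f : FF N} {r : LaurentSeries (kA A)} (h : IsRedInf N A f r) :
    IsRedInf N A (S29.H222.heckeNorm N ℓ f) (H400.kronNorm ℓ r) := by
  obtain ⟨c, U₁, U₂, hc, h1, h2, hf, hr⟩ := h
  have hred : ∀ U : LaurentSeries A, red A (H400.kronNorm ℓ U) = H400.kronNorm ℓ (red A U) :=
    fun U => H400.coeffMap_kronNorm _ ℓ U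
  have hincl : ∀ U : LaurentSeries A,
      incl A (H400.kronNorm ℓ U) = H400.kronNorm ℓ (incl A U) :=
    fun U => H400.coeffMap_kronNorm _ ℓ U
  refine ⟨c ^ (ℓ + 1), H400.kronNorm ℓ U₁, H400.kronNorm ℓ U₂, pow_ne_zero _ hc, ?_, ?_, ?_, ?_⟩
  · rw [hred]
    exact kronNorm_ne_zero ℓ hζ h1
  · rw [hred]
    exact kronNorm_ne_zero ℓ hζ h2
  · have hN : ((S29.H222.heckeNorm N ℓ f : FF N) : LaurentSeries Kbar) =
        H400.kronNorm ℓ (f : LaurentSeries Kbar) := S37.H157.node_normid N ℓ hℓ hℓN f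
    have hcst : ∀ d : Kbar, (cst d : LaurentSeries Kbar) = C d :=
      fun d => Fermat.Agent.S18.H602.algebraMap_eq_C d
    rw [hN, hincl, hincl, ← H400.kronNorm_mul, hf, H400.kronNorm_mul, hcst, hcst, kronNorm_C]
  · rw [hred, hred, ← H400.kronNorm_mul, hr]

end Fermat.Agent.Ribet.H376

end
end
-- ===== PACK-END Ribet/H376/HeckeRedInf.lean

-- ===== PACK-BEGIN Ribet/H376/HeckeFricke.lean
section
/-
Row 38 (RIBET), WALL-p, MOD_p leaf M6a (helper376): the Fricke involution commutes with the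
Hecke norm, and the `T_ℓ`-compatibility of the reductions on the `0`-component.

* `wF_alphaBar`, `wF_betaBar` : `w_{Nℓ} ∘ α = β ∘ w_N`, `w_{Nℓ} ∘ β = α ∘ w_N` over `ℚ̄`;
* `wF_heckeNorm`   : `w_N (Nm_α (β f)) = Nm_α (β (w_N f))`  (`ℓ ∤ N` prime);
* `isRedZero_heckeNorm` : `IsRedZero N A f r ⟹ IsRedZero N A (heckeNorm N ℓ f) (kronNorm ℓ r)`.
-/




set_option autoImplicit false
set_option maxHeartbeats 400000
set_option linter.style.haveILetI false

noncomputable section

namespace Fermat.Agent.Ribet.H376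

open HahnSeries ModularCurve AlgebraicCurve
open Fermat.Agent.S24 Fermat.Agent.S37 Fermat.Agent.A2.H708 Fermat.Agent.A2.H528
open Fermat.Agent.Ribet.H884

section Compat

variable (N ℓ : ℕ) [NeZero N] [NeZero ℓ]

theorem jK_eq_jFd (d : ℕ) [NeZero d] (hd : d ∣ N) :
    Fermat.Agent.A2.Mod.H751.jK Kbar N d hd = jFd N d hd := by
  apply Subtype.ext
  rw [coe_jFd]
  rfl

theorem jFd_congr {d d' : ℕ} [NeZero d] [NeZero d'] (h : d = d') (hd : d ∣ N) (hd' : d' ∣ N) :
    jFd N d hd = jFd N d' hd' := by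
  apply Subtype.ext
  rw [coe_jFd, coe_jFd]
  subst h
  rfl

theorem alphaBar_jFd (d : ℕ) [NeZero d] (hd : d ∣ N) :
    heckeAlphaBar Kbar N ℓ (jFd N d hd) = jFd (N * ℓ) d (hd.trans (dvd_mul_right N ℓ)) := by
  apply Subtype.ext
  rw [coe_heckeAlphaBar, coe_jFd, coe_jFd]

theorem betaBar_jFd (d : ℕ) [NeZero d] (hd : d ∣ N) :
    heckeBetaBar Kbar N ℓ (jFd N d hd) =
      jFd (N * ℓ) (ℓ * d) (by rw [mul_comm N ℓ]; exact mul_dvd_mul_left ℓ hd) := by
  apply Subtype.ext
  rw [coe_heckeBetaBar, coe_jFd, coe_jFd, coeffEmb, ← ModularCurve.coeffMap_qExpand,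
    qExpand_qExpand]

/-- `w_{Nℓ} ∘ α = β ∘ w_N`. -/
theorem wF_alphaBar (f : FF N) :
    wF (N * ℓ) (heckeAlphaBar Kbar N ℓ f) = heckeBetaBar Kbar N ℓ (wF N f) := by
  have hN0 : 0 < N := Nat.pos_of_ne_zero (NeZero.ne N)
  refine Fermat.Agent.A2.Mod.H751.ringHom_ext_FE (K := Kbar) N
    (((wF (N * ℓ) : FF (N * ℓ) ≃ₐ[Kbar] FF (N * ℓ)) : FF (N * ℓ) →+* FF (N * ℓ)).comp
      (heckeAlphaBar Kbar N ℓ : FF N →+* FF (N * ℓ)))
    ((heckeBetaBar Kbar N ℓ : FF N →+* FF (N * ℓ)).comp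
      ((wF N : FF N ≃ₐ[Kbar] FF N) : FF N →+* FF N)) ?_ ?_ f
  · intro e
    show wF (N * ℓ) (heckeAlphaBar Kbar N ℓ (algebraMap Kbar _ e)) =
      heckeBetaBar Kbar N ℓ (wF N (algebraMap Kbar _ e))
    rw [AlgHom.commutes, AlgEquiv.commutes, AlgEquiv.commutes, AlgHom.commutes]
  · intro d _ hd
    rw [jK_eq_jFd]
    show wF (N * ℓ) (heckeAlphaBar Kbar N ℓ (jFd N d hd)) =
      heckeBetaBar Kbar N ℓ (wF N (jFd N d hd))
    have hd0 : 0 < d := Nat.pos_of_dvd_of_pos hd hN0
    haveI : NeZero (N / d) := neZero_div N hd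
    haveI : NeZero (N * ℓ / d) := neZero_div (N * ℓ) (hd.trans (dvd_mul_right N ℓ))
    rw [alphaBar_jFd, wF_jFd, wF_jFd, betaBar_jFd]
    refine _root_.Fermat.Agent.Ribet.H376.jFd_congr (N * ℓ) ?_ _ _
    rw [mul_comm N ℓ, Nat.mul_div_assoc ℓ hd]

/-- `w_{Nℓ} ∘ β = α ∘ w_N`. -/
theorem wF_betaBar (f : FF N) :
    wF (N * ℓ) (heckeBetaBar Kbar N ℓ f) = heckeAlphaBar Kbar N ℓ (wF N f) := by
  have h := wF_alphaBar N ℓ (wF N f)
  rw [wF_wF] at h
  rw [← h, wF_wF]

end Compat

section Norm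

variable (N ℓ : ℕ) [NeZero N] [NeZero ℓ]

/-- The transposed Hecke norm `Nm_β (α y)`. -/
def heckeNormT (y : FF N) : FF N :=
  letI := algebraAlong (heckeBetaBar Kbar N ℓ)
  Algebra.norm (FF N) (heckeAlphaBar Kbar N ℓ y)

/-- `w_N (Nm_α (β f)) = Nm_β (α (w_N f))`. -/
theorem wF_heckeNorm_eq_heckeNormT (f : FF N) :
    wF N (S29.H222.heckeNorm N ℓ f) = heckeNormT N ℓ (wF N f) := by
  have he : RingHom.comp
      (@algebraMap (FF N) (FF (N * ℓ)) _ _ (algebraAlong (heckeBetaBar Kbar N ℓ)))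
      ((wF N).toRingEquiv : FF N →+* FF N) =
      RingHom.comp ((wF (N * ℓ)).toRingEquiv : FF (N * ℓ) →+* FF (N * ℓ))
        (@algebraMap (FF N) (FF (N * ℓ)) _ _ (algebraAlong (heckeAlphaBar Kbar N ℓ))) := by
    ext x : 1
    exact (wF_alphaBar N ℓ x).symm
  have h := @Algebra.norm_eq_of_equiv_equiv (FF N) (FF (N * ℓ)) (FF N) (FF (N * ℓ)) _ _ _ _
    (algebraAlong (heckeAlphaBar Kbar N ℓ)) (algebraAlong (heckeBetaBar Kbar N ℓ))
    (wF N).toRingEquiv (wF (N * ℓ)).toRingEquiv he (heckeBetaBar Kbar N ℓ f)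
  have h2 : (wF N).toRingEquiv (S29.H222.heckeNorm N ℓ f) =
      @Algebra.norm (FF N) (FF (N * ℓ)) _ _ (algebraAlong (heckeBetaBar Kbar N ℓ))
        ((wF (N * ℓ)).toRingEquiv (heckeBetaBar Kbar N ℓ f)) := by
    have h3 : S29.H222.heckeNorm N ℓ f =
        @Algebra.norm (FF N) (FF (N * ℓ)) _ _ (algebraAlong (heckeAlphaBar Kbar N ℓ))
          (heckeBetaBar Kbar N ℓ f) := rfl
    rw [h3, h, RingEquiv.apply_symm_apply]
  have h4 : (wF (N * ℓ)).toRingEquiv (heckeBetaBar Kbar N ℓ f) =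
      heckeAlphaBar Kbar N ℓ (wF N f) := wF_betaBar N ℓ f
  rw [h4] at h2
  exact h2

variable {N ℓ}

/-- The Atkin–Lehner swap at `ℓ` is an involution. -/
theorem swap_swap (hℓ : ℓ.Prime) (hℓN : ¬ ℓ ∣ N) (w : FF (N * ℓ) →+* FF (N * ℓ))
    (hwα : ∀ a : FF N, w (heckeAlphaBar Kbar N ℓ a) = heckeBetaBar Kbar N ℓ a)
    (hwβ : ∀ a : FF N, w (heckeBetaBar Kbar N ℓ a) = heckeAlphaBar Kbar N ℓ a) :
    ∀ x : FF (N * ℓ), w (w x) = x := by
  refine Fermat.Agent.A2.Mod.H751.ringHom_ext_FE (K := Kbar) (N * ℓ) (w.comp w)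
    (RingHom.id _) ?_ ?_
  · intro e
    show w (w (algebraMap Kbar _ e)) = algebraMap Kbar _ e
    have h1 : algebraMap Kbar (FF (N * ℓ)) e = heckeAlphaBar Kbar N ℓ (algebraMap Kbar _ e) :=
      (AlgHom.commutes _ e).symm
    have h2 : algebraMap Kbar (FF (N * ℓ)) e = heckeBetaBar Kbar N ℓ (algebraMap Kbar _ e) :=
      (AlgHom.commutes _ e).symm
    rw [h1, hwα, hwβ]
  · intro d _ hd
    rw [jK_eq_jFd]
    show w (w (jFd (N * ℓ) d hd)) = jFd (N * ℓ) d hd
    by_cases hℓd : ℓ ∣ d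
    · obtain ⟨d', rfl⟩ := hℓd
      have hd' : d' ∣ N := by
        rw [mul_comm N ℓ] at hd
        exact Nat.dvd_of_mul_dvd_mul_left hℓ.pos hd
      haveI : NeZero d' := ⟨fun h => by subst h; exact (NeZero.ne (ℓ * 0)) (mul_zero ℓ)⟩
      have h1 : jFd (N * ℓ) (ℓ * d') hd = heckeBetaBar Kbar N ℓ (jFd N d' hd') :=
        (betaBar_jFd N ℓ d' hd').symm
      rw [h1, hwβ, hwα]
    · have hd' : d ∣ N :=
        (Nat.Coprime.dvd_of_dvd_mul_right
          ((Nat.coprime_comm.mp ((Nat.Prime.coprime_iff_not_dvd hℓ).mpr hℓd))) hd)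
      have h1 : jFd (N * ℓ) d hd = heckeAlphaBar Kbar N ℓ (jFd N d hd') :=
        (alphaBar_jFd N ℓ d hd').symm
      rw [h1, hwα, hwβ]

/-- `Nm_β (α g) = Nm_α (β g)`: the Hecke correspondence `T_ℓ` is symmetric (`ℓ ∤ N` prime). -/
theorem heckeNormT_eq_heckeNorm (hℓ : ℓ.Prime) (hℓN : ¬ ℓ ∣ N) (g : FF N) :
    heckeNormT N ℓ g = S29.H222.heckeNorm N ℓ g := by
  obtain ⟨w, hwα, hwβ⟩ := Fermat.Agent.S37.H88.exists_swap_bar (N := N) (ℓ := ℓ) hℓ hℓN
  have hww := swap_swap hℓ hℓN w hwα hwβ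
  let e : FF (N * ℓ) ≃+* FF (N * ℓ) :=
    RingEquiv.ofRingHom w w (RingHom.ext hww) (RingHom.ext hww)
  have he : RingHom.comp
      (@algebraMap (FF N) (FF (N * ℓ)) _ _ (algebraAlong (heckeAlphaBar Kbar N ℓ)))
      ((RingEquiv.refl (FF N)) : FF N →+* FF N) =
      RingHom.comp (e : FF (N * ℓ) →+* FF (N * ℓ))
        (@algebraMap (FF N) (FF (N * ℓ)) _ _ (algebraAlong (heckeBetaBar Kbar N ℓ))) := by
    ext x : 1
    exact (hwβ x).symm
  have h := @Algebra.norm_eq_of_equiv_equiv (FF N) (FF (N * ℓ)) (FF N) (FF (N * ℓ)) _ _ _ _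
    (algebraAlong (heckeBetaBar Kbar N ℓ)) (algebraAlong (heckeAlphaBar Kbar N ℓ))
    (RingEquiv.refl (FF N)) e he (heckeAlphaBar Kbar N ℓ g)
  have h3 : heckeNormT N ℓ g =
      @Algebra.norm (FF N) (FF (N * ℓ)) _ _ (algebraAlong (heckeBetaBar Kbar N ℓ))
        (heckeAlphaBar Kbar N ℓ g) := rfl
  have h4 : e (heckeAlphaBar Kbar N ℓ g) = heckeBetaBar Kbar N ℓ g := hwα g
  rw [h3, h, h4]
  rfl

/-- **The Fricke involution commutes with the Hecke norm.** -/
theorem wF_heckeNorm (hℓ : ℓ.Prime) (hℓN : ¬ ℓ ∣ N) (f : FF N) :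
    wF N (S29.H222.heckeNorm N ℓ f) = S29.H222.heckeNorm N ℓ (wF N f) := by
  rw [wF_heckeNorm_eq_heckeNormT, heckeNormT_eq_heckeNorm hℓ hℓN]

/-- **M6a, `0`-component.** -/
theorem isRedZero_heckeNorm (hℓ : ℓ.Prime) (hℓN : ¬ ℓ ∣ N)
    (A : ValuationSubring Kbar) {ζ : kA A} (hζ : IsPrimitiveRoot ζ ℓ)
    {f : FF N} {r : LaurentSeries (kA A)} (h : IsRedZero N A f r) :
    IsRedZero N A (S29.H222.heckeNorm N ℓ f) (H400.kronNorm ℓ r) := by
  unfold IsRedZero at h ⊢
  rw [wF_heckeNorm hℓ hℓN]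
  exact isRedInf_heckeNorm N ℓ hℓ hℓN A hζ h

end Norm

end Fermat.Agent.Ribet.H376

end
end
-- ===== PACK-END Ribet/H376/HeckeFricke.lean

-- ===== PACK-BEGIN Ribet/H944/Closed.lean
section


/-!
# Row 38, WALL-p, leaf CLOSED: `finSet` and `splitSet` are subgroups (helper944)

`finClosed : H884.FinClosedStatement`, `splitClosed : H884.SplitClosedStatement`
(`Ribet/H884/SlopeSpec.lean`), unconditional.  Kummer generators, reductions (`I2.isRedInf_mul`,
`I2.isRedInf_inv`), `PDivSeries` and `SplitSeries` (`= range of t ↦ t^p`) are multiplicative.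
-/

set_option autoImplicit false
set_option linter.style.haveILetI false
set_option linter.unusedSectionVars false
set_option synthInstance.maxHeartbeats 400000
set_option maxHeartbeats 1000000

noncomputable section

namespace Fermat.Agent.Ribet.H944.I2

open AlgebraicCurve ModularCurve HahnSeries
open Fermat.Agent.S24 Fermat.Agent.A2.H708 Fermat.Agent.A2.H528
open Fermat.Agent.Ribet.Spec Fermat.Agent.Ribet.H944.Wall Fermat.Agent.Ribet.H884
open Fermat.Agent.S37.H697

/-! ## Kummer generators -/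

section Kummer

variable (N : ℕ) [NeZero N] (p : ℕ)

theorem isKummerGen_one : IsKummerGen N p (1 : FF N) 0 := by
  refine ⟨one_ne_zero, 0, rfl, fun v => ?_⟩
  rw [Place.ord_one]
  simp

theorem isKummerGen_mul {f g : FF N} {x y : JZero N} (hf : IsKummerGen N p f x)
    (hg : IsKummerGen N p g y) : IsKummerGen N p (f * g) (x + y) := by
  obtain ⟨hf0, D, rfl, hD⟩ := hf
  obtain ⟨hg0, E, rfl, hE⟩ := hg
  refine ⟨mul_ne_zero hf0 hg0, D + E, rfl, fun v => ?_⟩
  rw [Place.ord_mul v hf0 hg0, hD, hE]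
  simp [mul_add]

theorem isKummerGen_inv {f : FF N} {x : JZero N} (hf : IsKummerGen N p f x) :
    IsKummerGen N p f⁻¹ (-x) := by
  obtain ⟨hf0, D, rfl, hD⟩ := hf
  refine ⟨inv_ne_zero hf0, -D, rfl, fun v => ?_⟩
  rw [Place.ord_inv, hD]
  simp

end Kummer

/-! ## `PDivSeries` and `SplitSeries` -/

section Series

variable (p M' : ℕ) {k : Type} [Field k]

theorem pDivSeries_one : PDivSeries p M' (1 : LaurentSeries k) := by
  refine ⟨1, rfl, one_ne_zero, fun Q => ?_⟩
  rw [Place.ord_one]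
  exact dvd_zero _

theorem pDivSeries_mul {r s : LaurentSeries k} (hr : PDivSeries p M' r)
    (hs : PDivSeries p M' s) : PDivSeries p M' (r * s) := by
  obtain ⟨h, rfl, h0, hd⟩ := hr
  obtain ⟨h', rfl, h0', hd'⟩ := hs
  refine ⟨h * h', rfl, mul_ne_zero h0 h0', fun Q => ?_⟩
  rw [Place.ord_mul Q h0 h0']
  exact dvd_add (hd Q) (hd' Q)

theorem pDivSeries_inv {r : LaurentSeries k} (hr : PDivSeries p M' r) :
    PDivSeries p M' r⁻¹ := by
  obtain ⟨h, rfl, h0, hd⟩ := hr
  refine ⟨h⁻¹, rfl, inv_ne_zero h0, fun Q => ?_⟩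
  rw [Place.ord_inv]
  exact (dvd_neg).mpr (hd Q)

variable [NeZero p]

theorem splitSeries_iff (r : LaurentSeries k) :
    SplitSeries p r ↔ ∃ r' : LaurentSeries k, r = qExpand k p r' := by
  constructor
  · intro h
    refine ⟨Fermat.Agent.S37.H340.sect p 0 r, ?_⟩
    ext n
    rw [Fermat.Agent.S37.H340.qExpand_coeff]
    split_ifs with hn
    · rw [Fermat.Agent.S37.H340.sect_coeff, add_zero, Int.mul_ediv_cancel' hn]
    · exact h n hn
  · rintro ⟨r', rfl⟩ n hn
    rw [Fermat.Agent.S37.H340.qExpand_coeff, if_neg hn]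

theorem splitSeries_one : SplitSeries p (1 : LaurentSeries k) :=
  (_root_.Fermat.Agent.Ribet.H944.I2.splitSeries_iff p 1).mpr ⟨1, (map_one _).symm⟩

theorem splitSeries_mul {r s : LaurentSeries k} (hr : SplitSeries p r) (hs : SplitSeries p s) :
    SplitSeries p (r * s) := by
  obtain ⟨r', rfl⟩ := (_root_.Fermat.Agent.Ribet.H944.I2.splitSeries_iff p r).mp hr
  obtain ⟨s', rfl⟩ := (_root_.Fermat.Agent.Ribet.H944.I2.splitSeries_iff p s).mp hs
  exact (_root_.Fermat.Agent.Ribet.H944.I2.splitSeries_iff p _).mpr ⟨r' * s', (map_mul _ _ _).symm⟩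

theorem splitSeries_inv {r : LaurentSeries k} (hr : SplitSeries p r) : SplitSeries p r⁻¹ := by
  obtain ⟨r', rfl⟩ := (_root_.Fermat.Agent.Ribet.H944.I2.splitSeries_iff p r).mp hr
  exact (_root_.Fermat.Agent.Ribet.H944.I2.splitSeries_iff p _).mpr ⟨r'⁻¹, (map_inv₀ _ _).symm⟩

end Series

/-! ## The two sets are subgroups -/

section Closed

variable (p M' : ℕ) [NeZero p] [NeZero (p * M')] (A : ValuationSubring Kbar)

theorem finGen_one : FinGen p M' A (1 : FF (p * M')) :=
  ⟨1, 1, _root_.Fermat.Agent.Ribet.H944.I2.isRedInf_one _ A, by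
    show IsRedInf (p * M') A (wF (p * M') 1) 1
    rw [map_one]; exact _root_.Fermat.Agent.Ribet.H944.I2.isRedInf_one _ A, _root_.Fermat.Agent.Ribet.H944.I2.pDivSeries_one p M', _root_.Fermat.Agent.Ribet.H944.I2.pDivSeries_one p M'⟩

theorem finGen_mul {f g : FF (p * M')} (hf : FinGen p M' A f) (hg : FinGen p M' A g) :
    FinGen p M' A (f * g) := by
  obtain ⟨r₁, r₂, h1, h2, h3, h4⟩ := hf
  obtain ⟨s₁, s₂, k1, k2, k3, k4⟩ := hg
  refine ⟨r₁ * s₁, r₂ * s₂, isRedInf_mul _ A h1 k1, ?_, pDivSeries_mul p M' h3 k3,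
    pDivSeries_mul p M' h4 k4⟩
  show IsRedInf (p * M') A (wF (p * M') (f * g)) (r₂ * s₂)
  rw [map_mul]
  exact isRedInf_mul _ A h2 k2

theorem finGen_inv {f : FF (p * M')} (hf : FinGen p M' A f) : FinGen p M' A f⁻¹ := by
  obtain ⟨r₁, r₂, h1, h2, h3, h4⟩ := hf
  refine ⟨r₁⁻¹, r₂⁻¹, isRedInf_inv _ A h1, ?_, pDivSeries_inv p M' h3, pDivSeries_inv p M' h4⟩
  show IsRedInf (p * M') A (wF (p * M') f⁻¹) r₂⁻¹
  rw [map_inv₀]
  exact isRedInf_inv _ A h2

theorem splitGen_one : SplitGen p M' A (1 : FF (p * M')) :=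
  ⟨1, 1, _root_.Fermat.Agent.Ribet.H944.I2.isRedInf_one _ A, by
    show IsRedInf (p * M') A (wF (p * M') 1) 1
    rw [map_one]; exact _root_.Fermat.Agent.Ribet.H944.I2.isRedInf_one _ A, _root_.Fermat.Agent.Ribet.H944.I2.pDivSeries_one p M', _root_.Fermat.Agent.Ribet.H944.I2.pDivSeries_one p M',
    _root_.Fermat.Agent.Ribet.H944.I2.splitSeries_one p, _root_.Fermat.Agent.Ribet.H944.I2.splitSeries_one p⟩

theorem splitGen_mul {f g : FF (p * M')} (hf : SplitGen p M' A f) (hg : SplitGen p M' A g) :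
    SplitGen p M' A (f * g) := by
  obtain ⟨r₁, r₂, h1, h2, h3, h4, h5, h6⟩ := hf
  obtain ⟨s₁, s₂, k1, k2, k3, k4, k5, k6⟩ := hg
  refine ⟨r₁ * s₁, r₂ * s₂, isRedInf_mul _ A h1 k1, ?_, pDivSeries_mul p M' h3 k3,
    pDivSeries_mul p M' h4 k4, splitSeries_mul p h5 k5, splitSeries_mul p h6 k6⟩
  show IsRedInf (p * M') A (wF (p * M') (f * g)) (r₂ * s₂)
  rw [map_mul]
  exact isRedInf_mul _ A h2 k2

theorem splitGen_inv {f : FF (p * M')} (hf : SplitGen p M' A f) : SplitGen p M' A f⁻¹ := by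
  obtain ⟨r₁, r₂, h1, h2, h3, h4, h5, h6⟩ := hf
  refine ⟨r₁⁻¹, r₂⁻¹, isRedInf_inv _ A h1, ?_, pDivSeries_inv p M' h3, pDivSeries_inv p M' h4,
    splitSeries_inv p h5, splitSeries_inv p h6⟩
  show IsRedInf (p * M') A (wF (p * M') f⁻¹) r₂⁻¹
  rw [map_inv₀]
  exact isRedInf_inv _ A h2

theorem mem_finSet_of_mem_finPart {x : JZero (p * M')} (hx : x ∈ finPart p M' A) :
    x ∈ finSet p M' A := by
  unfold finPart at hx
  induction hx using AddSubgroup.closure_induction with
  | mem x hx => exact hx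
  | zero => exact ⟨1, _root_.Fermat.Agent.Ribet.H944.I2.isKummerGen_one _ p, _root_.Fermat.Agent.Ribet.H944.I2.finGen_one p M' A⟩
  | add x y _ _ hx hy =>
    obtain ⟨f, hf, hf'⟩ := hx
    obtain ⟨g, hg, hg'⟩ := hy
    exact ⟨f * g, isKummerGen_mul _ p hf hg, finGen_mul p M' A hf' hg'⟩
  | neg x _ hx =>
    obtain ⟨f, hf, hf'⟩ := hx
    exact ⟨f⁻¹, isKummerGen_inv _ p hf, finGen_inv p M' A hf'⟩

theorem mem_splitSet_of_mem_splitPart {x : JZero (p * M')} (hx : x ∈ splitPart p M' A) :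
    x ∈ splitSet p M' A := by
  unfold splitPart at hx
  induction hx using AddSubgroup.closure_induction with
  | mem x hx => exact hx
  | zero => exact ⟨1, _root_.Fermat.Agent.Ribet.H944.I2.isKummerGen_one _ p, _root_.Fermat.Agent.Ribet.H944.I2.splitGen_one p M' A⟩
  | add x y _ _ hx hy =>
    obtain ⟨f, hf, hf'⟩ := hx
    obtain ⟨g, hg, hg'⟩ := hy
    exact ⟨f * g, isKummerGen_mul _ p hf hg, splitGen_mul p M' A hf' hg'⟩
  | neg x _ hx =>
    obtain ⟨f, hf, hf'⟩ := hx
    exact ⟨f⁻¹, isKummerGen_inv _ p hf, splitGen_inv p M' A hf'⟩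

end Closed

/-- **CLOSED (𝓕).** -/
theorem finClosed : FinClosedStatement :=
  fun p M' _ _ _ _ _ A _ _ hx => _root_.Fermat.Agent.Ribet.H944.I2.mem_finSet_of_mem_finPart p M' A hx

/-- **CLOSED (𝒮).** -/
theorem splitClosed : SplitClosedStatement :=
  fun p M' _ _ _ _ _ A _ _ hx => _root_.Fermat.Agent.Ribet.H944.I2.mem_splitSet_of_mem_splitPart p M' A hx

end Fermat.Agent.Ribet.H944.I2

end

end
-- ===== PACK-END Ribet/H944/Closed.lean

-- ===== PACK-BEGIN Ribet/H801/DegKummer.lean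
section
/-
RIBET / W-DEG (helper801), part 6: the KUMMER FORM of the degeneracy maps (input of W-NC / I4).

For a class `x = [D]` with `m • D = div f` (Kummer generator `f`):

    a_* x = 0   ↔   Nm_a f = g ^ m  for some `g ≠ 0` of the lower field

(`K` algebraically closed, functions without zeros and poles constant).  Instances:
`alphaL`, `betaL : J₀(p M') → J₀(M')` with the norms along
`alphaTo`, `betaTo : F_{M'} → F_{p M'}` (`S29.H801`; inclusion, resp. `t ↦ t ^ p`).
-/





set_option autoImplicit false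
set_option linter.style.haveILetI false

noncomputable section

namespace Fermat.Agent.Ribet.H801

open AlgebraicCurve ModularCurve Fermat.Agent.S37.H818 Fermat.Agent.S29.H801
open Fermat.Agent.Lib.HI Fermat.Agent.S29.H395

section Generic

variable {K F F₁ : Type*} [Field K] [Field F] [Field F₁] [Algebra K F] [Algebra K F₁]
variable (a : F →ₐ[K] F₁) (ha : a.toRingHom.IsIntegral)
  (hfin : FiniteAlong K a) (hN : NormFormulaAlong K a hfin)

theorem ord_pow_nat (v : Place K F) (y : F) (m : ℕ) : v.ord (y ^ m) = m * v.ord y := by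
  have := v.ord_zpow y (m : ℤ)
  simpa using this

theorem ord_algebraMap_zero (v : Place K F) {c : K} (hc : c ≠ 0) :
    v.ord (algebraMap K F c) = 0 := by
  have h1 : algebraMap K F c ∈ v.toValuationSubring := v.algebraMap_mem' c
  have h2 : algebraMap K F c⁻¹ ∈ v.toValuationSubring := v.algebraMap_mem' c⁻¹
  have hu : IsUnit (⟨algebraMap K F c, h1⟩ : v.toValuationSubring) := by
    refine IsUnit.of_mul_eq_one (⟨algebraMap K F c⁻¹, h2⟩ : v.toValuationSubring) ?_
    ext
    show algebraMap K F c * algebraMap K F c⁻¹ = 1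
    rw [← map_mul, mul_inv_cancel₀ hc, map_one]
  exact v.ord_coe_unit hu.unit

include hfin hN in
/-- `m • a_* D = div (Nm_a f)` if `m • D = div f`. -/
theorem pushforwardAlong_kummer {m : ℤ} (D : Divisor K F₁) {f : F₁} (hf : f ≠ 0)
    (hD : ∀ w : Place K F₁, m * D w = w.ord f) (v : Place K F) :
    m * Divisor.pushforwardAlong a ha D v = v.ord (normAlong a f) := by
  have h1 : ∀ w, (m • D) w = w.ord f := fun w => by
    rw [Finsupp.smul_apply, smul_eq_mul]; exact hD w
  have h2 := pushforwardAlong_apply_eq_ord a ha hfin hN hf h1 v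
  rw [map_zsmul, Finsupp.smul_apply, smul_eq_mul] at h2
  exact h2

/-- **Kummer form of the kernel of a push-forward.** -/
theorem pushPic0_mk_eq_zero_iff [IsAlgClosed K]
    (hconst : ∀ u : F, u ≠ 0 → (∀ v : Place K F, v.ord u = 0) → ∃ c : K, u = algebraMap K F c)
    {m : ℕ} (hm : m ≠ 0) (D : Divisor.degZero (K := K) (F := F₁)) {f : F₁} (hf : f ≠ 0)
    (hD : ∀ w : Place K F₁, (m : ℤ) * (D : Divisor K F₁) w = w.ord f) :
    pushPic0 a ha hfin hN (Pic0.mk D) = 0 ↔ ∃ g : F, g ≠ 0 ∧ normAlong a f = g ^ m := by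
  have hm' : (m : ℤ) ≠ 0 := by exact_mod_cast hm
  have hNf : normAlong a f ≠ 0 := normAlong_ne_zero a hfin hf
  have key : ∀ v : Place K F,
      (m : ℤ) * (pushDegZero a ha D : Divisor K F) v = v.ord (normAlong a f) := fun v =>
    pushforwardAlong_kummer a ha hfin hN (D : Divisor K F₁) hf hD v
  rw [pushPic0_mk, mk_eq_zero_iff]
  constructor
  · rintro ⟨g₀, hg₀, hg₀D⟩
    have hu0 : normAlong a f * (g₀ ^ m)⁻¹ ≠ 0 :=
      mul_ne_zero hNf (inv_ne_zero (pow_ne_zero m hg₀))
    obtain ⟨c, hc⟩ := hconst (normAlong a f * (g₀ ^ m)⁻¹) hu0 (fun v => by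
      rw [v.ord_mul hNf (inv_ne_zero (pow_ne_zero m hg₀)), v.ord_inv, ord_pow_nat, ← key v,
        hg₀D v]
      ring)
    have hc0 : c ≠ 0 := by
      rintro rfl
      rw [map_zero] at hc
      exact hu0 hc
    obtain ⟨d, hd⟩ := IsAlgClosed.exists_pow_nat_eq c (Nat.pos_of_ne_zero hm)
    have hd0 : d ≠ 0 := by
      rintro rfl
      rw [zero_pow hm] at hd
      exact hc0 hd.symm
    refine ⟨algebraMap K F d * g₀, mul_ne_zero (by simpa using hd0) hg₀, ?_⟩
    rw [mul_pow, ← map_pow, hd, ← hc, mul_assoc, inv_mul_cancel₀ (pow_ne_zero m hg₀), mul_one]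
  · rintro ⟨g, hg, hgf⟩
    refine ⟨g, hg, fun v => ?_⟩
    have h1 := key v
    rw [hgf, ord_pow_nat] at h1
    exact mul_left_cancel₀ hm' h1

/-- Every `m`-torsion class has a Kummer generator. -/
theorem exists_kummer_of_nsmul_eq_zero {m : ℕ} (x : Pic0 K F₁) (hx : m • x = 0) :
    ∃ (D : Divisor.degZero (K := K) (F := F₁)) (f : F₁), x = Pic0.mk D ∧ f ≠ 0 ∧
      ∀ w : Place K F₁, (m : ℤ) * (D : Divisor K F₁) w = w.ord f := by
  obtain ⟨D, rfl⟩ := Pic0.mk_surjective x
  have h0 : Pic0.mk (m • D) = 0 := hx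
  obtain ⟨f, hf, hfD⟩ := mk_eq_zero_iff.1 h0
  refine ⟨D, f, rfl, hf, fun w => ?_⟩
  rw [← hfD w]
  simp [Finsupp.smul_apply]

end Generic

section Modular

local notation "Qb" => AlgebraicClosure ℚ

variable (M p : ℕ) [NeZero M] [NeZero p]

/-- `α_*` with the top level renamed. -/
def alphaPushTo (N : ℕ) [NeZero N] (h : M * p = N) : JZero N →+ JZero M :=
  pushPic0 (alphaTo Qb M p N h) (alphaTo_integral Qb h (H864.heckeAlphaBarIntegral M p))
    (alphaTo_finite Qb h (H864.finiteAlong_alpha M p))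
    (alphaTo_normFormula Qb h (H864.finiteAlong_alpha M p) (H864.normFormulaAlong_alpha M p _))

/-- `β_*` with the top level renamed. -/
def betaPushTo (N : ℕ) [NeZero N] (h : M * p = N) : JZero N →+ JZero M :=
  pushPic0 (betaTo Qb M p N h) (betaTo_integral Qb h (H864.heckeBetaBarIntegral M p))
    (betaTo_finite Qb h (H864.finiteAlong_beta M p))
    (betaTo_normFormula Qb h (H864.finiteAlong_beta M p) (H864.normFormulaAlong_beta M p _))

theorem alphaPushTo_eq (N : ℕ) [NeZero N] (h : M * p = N) (x : JZero N) :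
    alphaPushTo M p N h x = alphaPush M p (jzeroCast h.symm x) := by
  subst h
  rfl

theorem betaPushTo_eq (N : ℕ) [NeZero N] (h : M * p = N) (x : JZero N) :
    betaPushTo M p N h x = betaPush M p (jzeroCast h.symm x) := by
  subst h
  rfl

theorem constOfOrdZero_bar (u : modularFunctionFieldBar M) (hu0 : u ≠ 0)
    (hu : ∀ v : Place Qb (modularFunctionFieldBar M), v.ord u = 0) :
    ∃ c : Qb, u = algebraMap Qb (modularFunctionFieldBar M) c :=
  Fermat.Agent.S18.H144.constOfOrdZero_modularFunctionFieldBar M u hu0 hu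

/-- **Kummer form of `ker α_*`** (any renamed top level). -/
theorem alphaPushTo_mk_eq_zero_iff (N : ℕ) [NeZero N] (h : M * p = N) {m : ℕ} (hm : m ≠ 0)
    (D : Divisor.degZero (K := Qb) (F := modularFunctionFieldBar N))
    {f : modularFunctionFieldBar N} (hf : f ≠ 0)
    (hD : ∀ w : Place Qb (modularFunctionFieldBar N),
      (m : ℤ) * (D : Divisor Qb (modularFunctionFieldBar N)) w = w.ord f) :
    alphaPushTo M p N h (Pic0.mk D) = 0 ↔
      ∃ g : modularFunctionFieldBar M, g ≠ 0 ∧ normAlong (alphaTo Qb M p N h) f = g ^ m :=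
  pushPic0_mk_eq_zero_iff _ _ _ _ (constOfOrdZero_bar M) hm D hf hD

/-- **Kummer form of `ker β_*`** (any renamed top level). -/
theorem betaPushTo_mk_eq_zero_iff (N : ℕ) [NeZero N] (h : M * p = N) {m : ℕ} (hm : m ≠ 0)
    (D : Divisor.degZero (K := Qb) (F := modularFunctionFieldBar N))
    {f : modularFunctionFieldBar N} (hf : f ≠ 0)
    (hD : ∀ w : Place Qb (modularFunctionFieldBar N),
      (m : ℤ) * (D : Divisor Qb (modularFunctionFieldBar N)) w = w.ord f) :
    betaPushTo M p N h (Pic0.mk D) = 0 ↔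
      ∃ g : modularFunctionFieldBar M, g ≠ 0 ∧ normAlong (betaTo Qb M p N h) f = g ^ m :=
  pushPic0_mk_eq_zero_iff _ _ _ _ (constOfOrdZero_bar M) hm D hf hD

end Modular

section Wall

local notation "Qb" => AlgebraicClosure ℚ

variable (p M' : ℕ) [NeZero M'] [NeZero p] [NeZero (p * M')]

theorem alphaL_eq_alphaPushTo (x : JZero (p * M')) :
    alphaL p M' x = alphaPushTo M' p (p * M') (Nat.mul_comm M' p) x := by
  rw [alphaPushTo_eq]
  rfl

theorem betaL_eq_betaPushTo (x : JZero (p * M')) :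
    betaL p M' x = betaPushTo M' p (p * M') (Nat.mul_comm M' p) x := by
  rw [betaPushTo_eq]
  rfl

/-- **Kummer form of `ker α_*`, wall convention**: for `x = [D]`, `m D = div f`:
`α_* x = 0 ↔ Nm_α f` is an `m`-th power in `F_{M'}`. -/
theorem alphaL_mk_eq_zero_iff {m : ℕ} (hm : m ≠ 0)
    (D : Divisor.degZero (K := Qb) (F := modularFunctionFieldBar (p * M')))
    {f : modularFunctionFieldBar (p * M')} (hf : f ≠ 0)
    (hD : ∀ w : Place Qb (modularFunctionFieldBar (p * M')),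
      (m : ℤ) * (D : Divisor Qb (modularFunctionFieldBar (p * M'))) w = w.ord f) :
    alphaL p M' (Pic0.mk D) = 0 ↔
      ∃ g : modularFunctionFieldBar M', g ≠ 0 ∧
        normAlong (alphaTo Qb M' p (p * M') (Nat.mul_comm M' p)) f = g ^ m := by
  rw [alphaL_eq_alphaPushTo]
  exact alphaPushTo_mk_eq_zero_iff M' p (p * M') _ hm D hf hD

/-- **Kummer form of `ker β_*`, wall convention.** -/
theorem betaL_mk_eq_zero_iff {m : ℕ} (hm : m ≠ 0)
    (D : Divisor.degZero (K := Qb) (F := modularFunctionFieldBar (p * M')))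
    {f : modularFunctionFieldBar (p * M')} (hf : f ≠ 0)
    (hD : ∀ w : Place Qb (modularFunctionFieldBar (p * M')),
      (m : ℤ) * (D : Divisor Qb (modularFunctionFieldBar (p * M'))) w = w.ord f) :
    betaL p M' (Pic0.mk D) = 0 ↔
      ∃ g : modularFunctionFieldBar M', g ≠ 0 ∧
        normAlong (betaTo Qb M' p (p * M') (Nat.mul_comm M' p)) f = g ^ m := by
  rw [betaL_eq_betaPushTo]
  exact betaPushTo_mk_eq_zero_iff M' p (p * M') _ hm D hf hD

/-- **The new part of `J₀(pM')[m]` in Kummer form**: every `x` with `m x = 0`,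
`α_* x = β_* x = 0` is the class of a divisor `D` with `m D = div f`, where both norms of `f` to
level `M'` are `m`-th powers. -/
theorem exists_kummer_of_new {m : ℕ} (hm : m ≠ 0) (x : JZero (p * M')) (hx : m • x = 0)
    (hα : alphaL p M' x = 0) (hβ : betaL p M' x = 0) :
    ∃ (D : Divisor.degZero (K := Qb) (F := modularFunctionFieldBar (p * M')))
      (f : modularFunctionFieldBar (p * M')) (g₁ g₂ : modularFunctionFieldBar M'),
      x = Pic0.mk D ∧ f ≠ 0 ∧ g₁ ≠ 0 ∧ g₂ ≠ 0 ∧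
      (∀ w : Place Qb (modularFunctionFieldBar (p * M')),
        (m : ℤ) * (D : Divisor Qb (modularFunctionFieldBar (p * M'))) w = w.ord f) ∧
      normAlong (alphaTo Qb M' p (p * M') (Nat.mul_comm M' p)) f = g₁ ^ m ∧
      normAlong (betaTo Qb M' p (p * M') (Nat.mul_comm M' p)) f = g₂ ^ m := by
  obtain ⟨D, f, rfl, hf, hD⟩ := exists_kummer_of_nsmul_eq_zero x hx
  obtain ⟨g₁, hg₁, h₁⟩ := (alphaL_mk_eq_zero_iff p M' hm D hf hD).1 hα
  obtain ⟨g₂, hg₂, h₂⟩ := (betaL_mk_eq_zero_iff p M' hm D hf hD).1 hβ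
  exact ⟨D, f, g₁, g₂, rfl, hf, hg₁, hg₂, hD, h₁, h₂⟩

end Wall

end Fermat.Agent.Ribet.H801

end

end
-- ===== PACK-END Ribet/H801/DegKummer.lean

-- ===== PACK-BEGIN Ribet/H944/KumEig.lean
section




/-!
# Row 38, WALL-p, I2 leaf KUMEIG (helper944)

`kumEig : I2.KumEigStatement`: if `f` is a Kummer generator of `x` (`div f = p·D`, `x = [D]`) and
`T_ℓ x = a x`, then `Nm_α(β f) = c · f ^ a · G ^ p` with `c ∈ ℚ̄ˣ`, `G ≠ 0`.
(`S29.H395.heckeOperatorBar_mk`: `p · T_ℓ D = div (Nm_α(β f))`; functions without zeros and poles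
are constant.)
-/

set_option autoImplicit false
set_option linter.style.haveILetI false
set_option linter.unusedSectionVars false
set_option synthInstance.maxHeartbeats 400000
set_option maxHeartbeats 1000000

noncomputable section

namespace Fermat.Agent.Ribet.H944.I2

open AlgebraicCurve ModularCurve HahnSeries
open Fermat.Agent.S24
open Fermat.Agent.Ribet.Spec Fermat.Agent.Ribet.H944.Wall Fermat.Agent.Ribet.H884

/-- **KUMEIG.** -/
theorem kumEig : KumEigStatement := by
  intro N p _ hp S a x f hfK heig ℓ _ hℓ hℓS _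
  obtain ⟨hf0, D, rfl, hD⟩ := hfK
  have hHI : HeckeInputsAlong (AlgebraicClosure ℚ) N ℓ :=
    Fermat.Agent.Lib.FF460.heckeInputsAlong_bar N ℓ
  obtain ⟨D', hD', hD'ord⟩ := Fermat.Agent.S29.H395.heckeOperatorBar_mk N ⟨ℓ, hℓ⟩ hHI D
  have hord : ∀ v : Place Kbar (FF N), (p : ℤ) * (D' : Divisor Kbar (FF N)) v =
      v.ord (hNorm N ℓ f) :=
    hD'ord (p : ℤ) f hf0 (fun v => (hD v).symm)
  have he : Pic0.mk D' = Pic0.mk (a ℓ • D) := by
    rw [← hD']
    exact heig ⟨ℓ, hℓ⟩ hℓS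
  obtain ⟨G, hG0, hG⟩ := Fermat.Agent.S29.H395.mk_eq_mk_iff.mp he
  have hN0 : hNorm N ℓ f ≠ 0 := Fermat.Agent.S29.H395.heckeNorm_ne_zero N ℓ hHI hf0
  have hfa0 : f ^ (a ℓ) ≠ 0 := zpow_ne_zero _ hf0
  have hGp0 : G ^ p ≠ 0 := pow_ne_zero _ hG0
  set u : FF N := hNorm N ℓ f * (f ^ (a ℓ))⁻¹ * (G ^ p)⁻¹ with hu
  have hu0 : u ≠ 0 := mul_ne_zero (mul_ne_zero hN0 (inv_ne_zero hfa0)) (inv_ne_zero hGp0)
  have hou : ∀ v : Place Kbar (FF N), v.ord u = 0 := by
    intro v
    rw [hu, v.ord_mul (mul_ne_zero hN0 (inv_ne_zero hfa0)) (inv_ne_zero hGp0),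
      v.ord_mul hN0 (inv_ne_zero hfa0), v.ord_inv, v.ord_inv, v.ord_zpow,
      Fermat.Agent.Ribet.H801.ord_pow_nat, ← hord v, hD v, ← hG v]
    simp only [AddSubgroup.coe_zsmul, Finsupp.coe_smul, Pi.smul_apply, smul_eq_mul]
    ring
  obtain ⟨c, hc⟩ := Fermat.Agent.Ribet.H801.constOfOrdZero_bar N u hu0 hou
  have hc0 : c ≠ 0 := by
    rintro rfl
    rw [map_zero] at hc
    exact hu0 hc
  refine ⟨c, G, hc0, hG0, ?_⟩
  rw [← hc, hu]
  field_simp

end Fermat.Agent.Ribet.H944.I2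

end

end
-- ===== PACK-END Ribet/H944/KumEig.lean

-- ===== PACK-BEGIN Ribet/H944/DlogKnorm.lean
section




/-!
# Row 38, WALL-p, I2 leaf DLOG-KNORM (helper944; core = helper376 `H376.coeff_eigen_of_kronNorm_eq`)

`dlogKnorm : I2.DlogKnormStatement` — adapter from the formal core of helper376
(`Ribet/H376/DlogKron.lean`, stated for `H400.kronNorm`) to `S37.H697.knorm`.
-/

set_option autoImplicit false
set_option linter.style.haveILetI false
set_option synthInstance.maxHeartbeats 400000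
set_option maxHeartbeats 1000000

noncomputable section

namespace Fermat.Agent.Ribet.H944.I2

open HahnSeries ModularCurve
open Fermat.Agent.S37 Fermat.Agent.S37.H697

theorem knorm_eq_kronNorm {R : Type*} [CommRing R] (ℓ : ℕ) [NeZero ℓ] (f : LaurentSeries R) :
    knorm ℓ f = H400.kronNorm ℓ f := by
  rw [H340.kronNorm_eq, knorm, kdet]

/-- **DLOG-KNORM.** -/
theorem dlogKnorm : DlogKnormStatement := by
  intro k _ _ p _ hp ℓ _ hℓ hℓp h G g a c h0 _ _ hg hK n
  have hℓk : (ℓ : k) ≠ 0 := by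
    intro h0
    have h1 : p ∣ ℓ := (CharP.cast_eq_zero_iff k p ℓ).mp h0
    exact hℓp ((Nat.prime_dvd_prime_iff_eq hp hℓ).mp h1).symm
  haveI : NeZero (ℓ : k) := ⟨hℓk⟩
  obtain ⟨ζ, hζ⟩ := HasEnoughRootsOfUnity.exists_primitiveRoot k ℓ
  rw [knorm_eq_kronNorm] at hK
  exact Fermat.Agent.Ribet.H376.coeff_eigen_of_kronNorm_eq p hp.ne_zero hζ hℓk h0 hg a c G hK n

end Fermat.Agent.Ribet.H944.I2

end

end
-- ===== PACK-END Ribet/H944/DlogKnorm.lean

-- ===== PACK-BEGIN Ribet/H939/ResField.lean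
section
/-
Row 38, WALL-p, leaf **RES** of `Ribet/H884/SlopeSpec.lean` (helper939):
the residue field of a valuation subring of `ℚ̄` over `p` is algebraically closed of
characteristic `p`.

`resField : H884.ResFieldStatement`.
-/



set_option autoImplicit false

namespace Fermat.Agent.Ribet.H939

open Fermat.Agent.Ribet.H884

/-- Leaf **RES**. -/
theorem resField : ResFieldStatement := by
  intro p hp A hA
  refine ⟨Fermat.Agent.S18.H905.isAlgClosed_residueField A, ?_⟩
  rw [CharP.charP_iff_prime_eq_zero hp]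
  exact Fermat.Agent.S18.H905.natCast_residue_eq_zero A hA

end Fermat.Agent.Ribet.H939

end
-- ===== PACK-END Ribet/H939/ResField.lean

-- ===== PACK-BEGIN Ribet/H997/RedBasic.lean
section


/-!
# Row 38, WALL-p, MOD-p leaves REDEX + REDUNIQ of `Ribet/H884/SlopeSpec.lean` (helper997)

* `redExists : H884.RedExistsStatement` — reductions exist on both components;
* `redUnique : H884.RedUniqueStatement` — a reduction is nonzero and unique up to `kˣ`.

Reusable: `isRedInf_ne_zero`, `isRedInf_unique` (the elementwise forms), `isRedInf_of_normal_form`,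
`exists_isRedInf`.
-/

set_option autoImplicit false
set_option linter.unusedSectionVars false
set_option synthInstance.maxHeartbeats 400000
set_option maxHeartbeats 1000000

noncomputable section

namespace Fermat.Agent.Ribet.H997

open AlgebraicCurve ModularCurve HahnSeries
open Fermat.Agent.S24 Fermat.Agent.A2.H708 Fermat.Agent.A2.H528
open Fermat.Agent.Ribet.H884

section

variable {N : ℕ} [NeZero N] {A : ValuationSubring Kbar}

/-- A reduction is nonzero. -/
theorem isRedInf_ne_zero {f : FF N} {r : LaurentSeries (kA A)} (h : IsRedInf N A f r) :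
    r ≠ 0 := by
  obtain ⟨c, U₁, U₂, -, h₁, -, -, hr⟩ := h
  rintro rfl
  rw [zero_mul] at hr
  exact h₁ hr.symm

/-- The function of a reduction is nonzero. -/
theorem ne_zero_of_isRedInf {f : FF N} {r : LaurentSeries (kA A)} (h : IsRedInf N A f r) :
    f ≠ 0 := by
  obtain ⟨c, U₁, U₂, hc, h₁, -, he, -⟩ := h
  rintro rfl
  have h0 : ((0 : FF N) : LaurentSeries Kbar) = 0 := rfl
  rw [h0, zero_mul] at he
  rcases mul_eq_zero.mp he.symm with h | h
  · exact cst_ne_zero hc h
  · exact incl_ne_zero A (ne_zero_of_red_ne_zero A h₁) h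

/-- Two normal forms of the same series: the constants differ by a unit of `A` and the
reductions by its residue. -/
theorem normal_form_unique {x : LaurentSeries Kbar} {c c' : Kbar}
    {U₁ U₂ U₁' U₂' : LaurentSeries A} (_hc : c ≠ 0) (hc' : c' ≠ 0)
    (h₁ : red A U₁ ≠ 0) (h₂ : red A U₂ ≠ 0) (h₁' : red A U₁' ≠ 0) (h₂' : red A U₂' ≠ 0)
    (he : x * incl A U₂ = cst c * incl A U₁) (he' : x * incl A U₂' = cst c' * incl A U₁')
    {r r' : LaurentSeries (kA A)} (hr : r * red A U₂ = red A U₁)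
    (hr' : r' * red A U₂' = red A U₁') :
    ∃ u : kA A, u ≠ 0 ∧ r' = HahnSeries.C u * r := by
  -- cross-multiplication
  have hx : cst c * incl A (U₁ * U₂') = cst c' * incl A (U₁' * U₂) := by
    rw [map_mul, map_mul, ← mul_assoc, ← he, ← mul_assoc, ← he']
    ring
  have hd : cst (c'⁻¹ * c) * incl A (U₁ * U₂') = incl A (U₁' * U₂) := by
    rw [cst_mul, mul_assoc, hx, ← mul_assoc, cst_inv_mul_cst hc', one_mul]
  have hprim : red A (U₁ * U₂') ≠ 0 := by rw [map_mul]; exact mul_ne_zero h₁ h₂'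
  have hprim' : red A (U₁' * U₂) ≠ 0 := by rw [map_mul]; exact mul_ne_zero h₁' h₂
  have hdA : c'⁻¹ * c ∈ A := mem_of_cst_mul_prim A hprim hd
  -- the constant as an element of `A`
  set d : A := ⟨c'⁻¹ * c, hdA⟩ with hd_def
  have hdU : incl A (cstA A d * (U₁ * U₂')) = incl A (U₁' * U₂) := by
    rw [map_mul (incl A), incl_cstA]
    exact hd
  have hdU' : cstA A d * (U₁ * U₂') = U₁' * U₂ := incl_injective A hdU
  have hred := congrArg (red A) hdU'
  rw [map_mul, red_cstA, map_mul, map_mul, ← HahnSeries.C_apply] at hred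
  refine ⟨IsLocalRing.residue A d, ?_, ?_⟩
  · intro h0
    rw [h0] at hred
    apply hprim'
    rw [map_mul, ← hred]
    simp
  · -- `r' Ū₂' Ū₂ = Ū₁' Ū₂ = ū Ū₁ Ū₂' = ū r Ū₂ Ū₂'`
    have hne : red A U₂ * red A U₂' ≠ 0 := mul_ne_zero h₂ h₂'
    apply mul_right_cancel₀ hne
    calc r' * (red A U₂ * red A U₂') = (r' * red A U₂') * red A U₂ := by ring
      _ = red A U₁' * red A U₂ := by rw [hr']
      _ = _ := hred.symm
      _ = HahnSeries.C (IsLocalRing.residue A d) * ((r * red A U₂) * red A U₂') := by rw [hr]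
      _ = HahnSeries.C (IsLocalRing.residue A d) * r * (red A U₂ * red A U₂') := by ring

/-- **REDUNIQ**, elementwise. -/
theorem isRedInf_unique {f : FF N} {r r' : LaurentSeries (kA A)} (h : IsRedInf N A f r)
    (h' : IsRedInf N A f r') : ∃ u : kA A, u ≠ 0 ∧ r' = HahnSeries.C u * r := by
  obtain ⟨c, U₁, U₂, hc, h₁, h₂, he, hr⟩ := h
  obtain ⟨c', U₁', U₂', hc', h₁', h₂', he', hr'⟩ := h'
  exact normal_form_unique hc hc' h₁ h₂ h₁' h₂' he he' hr hr'

/-- A normal form gives a reduction. -/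
theorem isRedInf_of_normal_form {f : FF N} {c : Kbar} {U₁ U₂ : LaurentSeries A} (hc : c ≠ 0)
    (h₁ : red A U₁ ≠ 0) (h₂ : red A U₂ ≠ 0)
    (he : (f : LaurentSeries Kbar) * incl A U₂ = cst c * incl A U₁) :
    IsRedInf N A f (red A U₁ * (red A U₂)⁻¹) :=
  ⟨c, U₁, U₂, hc, h₁, h₂, he, by rw [mul_assoc, inv_mul_cancel₀ h₂, mul_one]⟩

/-- **REDEX**, elementwise, with the normal form inside the function field. -/
theorem exists_isRedInf {p : ℕ} (hp : p.Prime) (hA : A.LiesOverPrime p) {f : FF N}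
    (hf : f ≠ 0) : ∃ r : LaurentSeries (kA A), IsRedInf N A f r := by
  have hf0 : (f : LaurentSeries Kbar) ≠ 0 := fun h => hf (Subtype.ext h)
  obtain ⟨c, U₁, U₂, hc, h₁, h₂, -, -, he⟩ :=
    exists_normal_form (A := A) (intGen_full N)
      (attainsMax_Qbar hp.ne_zero hA (modularFunctionFieldFull N)) f.2 hf0
  exact ⟨_, isRedInf_of_normal_form hc h₁ h₂ he⟩

end

/-- **REDEX**: every nonzero function has a reduction on each component. -/
theorem redExists : RedExistsStatement := by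
  intro p N _ hp A hA f hf
  refine ⟨exists_isRedInf hp hA hf, ?_⟩
  have hw : wF N f ≠ 0 := by
    intro h
    apply hf
    have := congrArg (wF N).symm h
    simpa using this
  exact exists_isRedInf hp hA hw

/-- **REDUNIQ**: a reduction is nonzero and unique up to a nonzero constant of `k`. -/
theorem redUnique : RedUniqueStatement := by
  intro p N _ hp A hA f r r' h h'
  exact ⟨isRedInf_ne_zero h, isRedInf_unique h h'⟩

end Fermat.Agent.Ribet.H997

end

end
-- ===== PACK-END Ribet/H997/RedBasic.lean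

-- ===== PACK-BEGIN Ribet/H884/SlopeClosed.lean
section


/-!
# Row 38, WALL-p: **CLOSED** — `finSet` and `splitSet` are subgroups  (helper884)

* calculus of Kummer generators: `isKummerGen_one`, `IsKummerGen.mul`, `IsKummerGen.inv`;
* calculus of reductions: `isRedInf_one`, `IsRedInf.mul`, `IsRedInf.inv` (same for `IsRedZero`);
* `PDivSeries.mul`, `PDivSeries.inv`;
* `splitSeries_iff` : `SplitSeries p r ↔ r ∈ range (t ↦ t^p)`; `SplitSeries.mul`, `SplitSeries.inv`;
* `finClosed : FinClosedStatement`, `splitClosed : SplitClosedStatement`.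
-/

set_option autoImplicit false
set_option synthInstance.maxHeartbeats 400000
set_option maxHeartbeats 1000000
set_option linter.unusedSectionVars false

noncomputable section

namespace Fermat.Agent.Ribet.H884

open AlgebraicCurve ModularCurve HahnSeries
open Fermat.Agent.S24 Fermat.Agent.A2.H708 Fermat.Agent.A2.H528 Fermat.Agent.A2.H129
open Fermat.Agent.Ribet.Spec Fermat.Agent.Ribet.H944.Wall

/-! ## Kummer generators -/

section Kummer

variable {N : ℕ} [NeZero N] {p : ℕ}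

theorem isKummerGen_one : IsKummerGen N p (1 : FF N) 0 := by
  refine ⟨one_ne_zero, 0, rfl, fun v => ?_⟩
  rw [Place.ord_one]
  simp

theorem IsKummerGen.mul {f f' : FF N} {x x' : JZero N} (h : IsKummerGen N p f x)
    (h' : IsKummerGen N p f' x') : IsKummerGen N p (f * f') (x + x') := by
  obtain ⟨hf, D, rfl, hD⟩ := h
  obtain ⟨hf', D', rfl, hD'⟩ := h'
  refine ⟨mul_ne_zero hf hf', D + D', rfl, fun v => ?_⟩
  rw [Place.ord_mul v hf hf', hD, hD']
  simp only [AddSubgroup.coe_add, Finsupp.add_apply]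
  ring

theorem IsKummerGen.inv {f : FF N} {x : JZero N} (h : IsKummerGen N p f x) :
    IsKummerGen N p f⁻¹ (-x) := by
  obtain ⟨hf, D, rfl, hD⟩ := h
  refine ⟨inv_ne_zero hf, -D, rfl, fun v => ?_⟩
  rw [Place.ord_inv, hD]
  simp only [AddSubgroup.coe_neg, Finsupp.neg_apply]
  ring

end Kummer

/-! ## Reductions -/

section Red

variable {N : ℕ} [NeZero N] {A : ValuationSubring Kbar}

theorem isRedInf_one : IsRedInf N A (1 : FF N) 1 := by
  refine ⟨1, 1, 1, one_ne_zero, ?_, ?_, ?_, ?_⟩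
  · rw [map_one]; exact one_ne_zero
  · rw [map_one]; exact one_ne_zero
  · rw [map_one, cst_one, mul_one, mul_one]
    rfl
  · rw [map_one, mul_one]

theorem IsRedInf.ne_zero {f : FF N} {r : LaurentSeries (kA A)} (h : IsRedInf N A f r) :
    r ≠ 0 := by
  obtain ⟨c, U₁, U₂, hc, h₁, h₂, he, hr⟩ := h
  rintro rfl
  rw [zero_mul] at hr
  exact h₁ hr.symm

theorem IsRedInf.fun_ne_zero {f : FF N} {r : LaurentSeries (kA A)} (h : IsRedInf N A f r) :
    (f : LaurentSeries Kbar) ≠ 0 := by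
  obtain ⟨c, U₁, U₂, hc, h₁, h₂, he, hr⟩ := h
  intro h0
  rw [h0, zero_mul] at he
  rcases mul_eq_zero.mp he.symm with h' | h'
  · exact cst_ne_zero hc h'
  · exact incl_ne_zero A (ne_zero_of_red_ne_zero A h₁) h'

theorem IsRedInf.mul {f f' : FF N} {r r' : LaurentSeries (kA A)} (h : IsRedInf N A f r)
    (h' : IsRedInf N A f' r') : IsRedInf N A (f * f') (r * r') := by
  obtain ⟨c, U₁, U₂, hc, h₁, h₂, he, hr⟩ := h
  obtain ⟨c', U₁', U₂', hc', h₁', h₂', he', hr'⟩ := h'
  refine ⟨c * c', U₁ * U₁', U₂ * U₂', mul_ne_zero hc hc', ?_, ?_, ?_, ?_⟩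
  · rw [map_mul]; exact mul_ne_zero h₁ h₁'
  · rw [map_mul]; exact mul_ne_zero h₂ h₂'
  · have hcoe : ((f * f' : FF N) : LaurentSeries Kbar) =
        (f : LaurentSeries Kbar) * (f' : LaurentSeries Kbar) := rfl
    rw [hcoe, map_mul (incl A), map_mul (incl A), cst_mul]
    calc (f : LaurentSeries Kbar) * (f' : LaurentSeries Kbar) * (incl A U₂ * incl A U₂')
        = ((f : LaurentSeries Kbar) * incl A U₂) * ((f' : LaurentSeries Kbar) * incl A U₂') := by
          ring
      _ = (cst c * incl A U₁) * (cst c' * incl A U₁') := by rw [he, he']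
      _ = cst c * cst c' * (incl A U₁ * incl A U₁') := by ring
  · rw [map_mul, map_mul, ← hr, ← hr']
    ring

theorem IsRedInf.inv {f : FF N} {r : LaurentSeries (kA A)} (h : IsRedInf N A f r) :
    IsRedInf N A f⁻¹ r⁻¹ := by
  have hr0 := h.ne_zero
  have hf0 := h.fun_ne_zero
  obtain ⟨c, U₁, U₂, hc, h₁, h₂, he, hr⟩ := h
  refine ⟨c⁻¹, U₂, U₁, inv_ne_zero hc, h₂, h₁, ?_, ?_⟩
  · have hcoe : ((f⁻¹ : FF N) : LaurentSeries Kbar) = (f : LaurentSeries Kbar)⁻¹ := by
      rw [IntermediateField.coe_inv]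
    rw [hcoe]
    exact normal_form_inv hf0 hc he
  · rw [← hr, ← mul_assoc, inv_mul_cancel₀ hr0, one_mul]

theorem isRedZero_one : IsRedZero N A (1 : FF N) 1 := by
  unfold IsRedZero
  rw [map_one]
  exact isRedInf_one

theorem IsRedZero.mul {f f' : FF N} {r r' : LaurentSeries (kA A)} (h : IsRedZero N A f r)
    (h' : IsRedZero N A f' r') : IsRedZero N A (f * f') (r * r') := by
  unfold IsRedZero at h h' ⊢
  rw [map_mul]
  exact h.mul h'

theorem IsRedZero.inv {f : FF N} {r : LaurentSeries (kA A)} (h : IsRedZero N A f r) :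
    IsRedZero N A f⁻¹ r⁻¹ := by
  unfold IsRedZero at h ⊢
  rw [map_inv₀]
  exact h.inv

end Red

/-! ## `PDivSeries` -/

section PDiv

variable {p M' : ℕ} {k : Type} [Field k]

theorem PDivSeries.mul {r r' : LaurentSeries k} (h : PDivSeries p M' r)
    (h' : PDivSeries p M' r') : PDivSeries p M' (r * r') := by
  obtain ⟨a, rfl, ha, hdiv⟩ := h
  obtain ⟨a', rfl, ha', hdiv'⟩ := h'
  refine ⟨a * a', rfl, mul_ne_zero ha ha', fun Q => ?_⟩
  rw [Place.ord_mul Q ha ha']
  exact dvd_add (hdiv Q) (hdiv' Q)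

theorem PDivSeries.inv {r : LaurentSeries k} (h : PDivSeries p M' r) :
    PDivSeries p M' r⁻¹ := by
  obtain ⟨a, rfl, ha, hdiv⟩ := h
  refine ⟨a⁻¹, by rw [IntermediateField.coe_inv], inv_ne_zero ha, fun Q => ?_⟩
  rw [Place.ord_inv]
  exact (dvd_neg).mpr (hdiv Q)

end PDiv

/-! ## `SplitSeries` -/

section Split

variable {p : ℕ} [NeZero p] {k : Type} [Field k]

/-- `r ∈ k((t^p))` iff `r` is in the image of `t ↦ t^p`. -/
theorem splitSeries_iff (r : LaurentSeries k) :
    SplitSeries p r ↔ ∃ s : LaurentSeries k, qExpand k p s = r := by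
  constructor
  · intro h
    have hp0 : (0 : ℤ) < (p : ℤ) := by exact_mod_cast Nat.pos_of_ne_zero (NeZero.ne p)
    -- the coefficient function of `s`
    have hbdd : BddBelow (Function.support fun n : ℤ => r.coeff ((p : ℤ) * n)) := by
      set b : ℤ := r.order with hb
      refine ⟨min b 0, fun n hn => ?_⟩
      have hn' : r.coeff ((p : ℤ) * n) ≠ 0 := hn
      have h1 : b ≤ (p : ℤ) * n := HahnSeries.order_le_of_coeff_ne_zero hn'
      by_contra hlt
      rw [not_le] at hlt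
      have hn0 : n < 0 := lt_of_lt_of_le hlt (min_le_right _ _)
      have hnb : n < b := lt_of_lt_of_le hlt (min_le_left _ _)
      have h2 : (p : ℤ) * n ≤ n := by nlinarith
      omega
    refine ⟨HahnSeries.ofSuppBddBelow _ hbdd, ?_⟩
    ext n
    by_cases hn : (p : ℤ) ∣ n
    · obtain ⟨m, rfl⟩ := hn
      rw [qExpand_coeff_mul]
      rfl
    · rw [h n hn]
      apply HahnSeries.embDomain_of_notMem_range
      rintro ⟨m, hm⟩
      exact hn ⟨m, hm.symm⟩
  · rintro ⟨s, rfl⟩ n hn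
    apply HahnSeries.embDomain_of_notMem_range
    rintro ⟨m, hm⟩
    exact hn ⟨m, hm.symm⟩

theorem SplitSeries.mul {r r' : LaurentSeries k} (h : SplitSeries p r)
    (h' : SplitSeries p r') : SplitSeries p (r * r') := by
  obtain ⟨s, rfl⟩ := (splitSeries_iff r).mp h
  obtain ⟨s', rfl⟩ := (splitSeries_iff r').mp h'
  exact (splitSeries_iff _).mpr ⟨s * s', map_mul _ _ _⟩

theorem SplitSeries.inv {r : LaurentSeries k} (h : SplitSeries p r) :
    SplitSeries p r⁻¹ := by
  obtain ⟨s, rfl⟩ := (splitSeries_iff r).mp h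
  exact (splitSeries_iff _).mpr ⟨s⁻¹, map_inv₀ _ _⟩

end Split

/-! ## The two sets are subgroups -/

section Closed

variable {p M' : ℕ} [NeZero p] [NeZero (p * M')] {A : ValuationSubring Kbar}

theorem finGen_one : FinGen p M' A (1 : FF (p * M')) :=
  ⟨1, 1, isRedInf_one, isRedZero_one, pDivSeries_one p M', pDivSeries_one p M'⟩

theorem FinGen.mul {f f' : FF (p * M')} (h : FinGen p M' A f) (h' : FinGen p M' A f') :
    FinGen p M' A (f * f') := by
  obtain ⟨r₁, r₂, h1, h2, h3, h4⟩ := h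
  obtain ⟨r₁', r₂', h1', h2', h3', h4'⟩ := h'
  exact ⟨r₁ * r₁', r₂ * r₂', h1.mul h1', h2.mul h2', h3.mul h3', h4.mul h4'⟩

theorem FinGen.inv {f : FF (p * M')} (h : FinGen p M' A f) : FinGen p M' A f⁻¹ := by
  obtain ⟨r₁, r₂, h1, h2, h3, h4⟩ := h
  exact ⟨r₁⁻¹, r₂⁻¹, h1.inv, h2.inv, h3.inv, h4.inv⟩

theorem splitGen_one : SplitGen p M' A (1 : FF (p * M')) :=
  ⟨1, 1, isRedInf_one, isRedZero_one, pDivSeries_one p M', pDivSeries_one p M',
    splitSeries_one p, splitSeries_one p⟩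

theorem SplitGen.mul {f f' : FF (p * M')} (h : SplitGen p M' A f) (h' : SplitGen p M' A f') :
    SplitGen p M' A (f * f') := by
  obtain ⟨r₁, r₂, h1, h2, h3, h4, h5, h6⟩ := h
  obtain ⟨r₁', r₂', h1', h2', h3', h4', h5', h6'⟩ := h'
  exact ⟨r₁ * r₁', r₂ * r₂', h1.mul h1', h2.mul h2', h3.mul h3', h4.mul h4', h5.mul h5',
    h6.mul h6'⟩

theorem SplitGen.inv {f : FF (p * M')} (h : SplitGen p M' A f) : SplitGen p M' A f⁻¹ := by
  obtain ⟨r₁, r₂, h1, h2, h3, h4, h5, h6⟩ := h
  exact ⟨r₁⁻¹, r₂⁻¹, h1.inv, h2.inv, h3.inv, h4.inv, h5.inv, h6.inv⟩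

/-- `finSet` is closed under the group operations. -/
theorem mem_finSet_of_mem_finPart {x : JZero (p * M')} (hx : x ∈ finPart p M' A) :
    x ∈ finSet p M' A := by
  unfold finPart at hx
  induction hx using AddSubgroup.closure_induction with
  | mem x hx => exact hx
  | zero => exact ⟨1, isKummerGen_one, finGen_one⟩
  | add x y _ _ hx hy =>
    obtain ⟨f, hf, hF⟩ := hx
    obtain ⟨f', hf', hF'⟩ := hy
    exact ⟨f * f', hf.mul hf', hF.mul hF'⟩
  | neg x _ hx =>
    obtain ⟨f, hf, hF⟩ := hx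
    exact ⟨f⁻¹, hf.inv, hF.inv⟩

/-- `splitSet` is closed under the group operations. -/
theorem mem_splitSet_of_mem_splitPart {x : JZero (p * M')} (hx : x ∈ splitPart p M' A) :
    x ∈ splitSet p M' A := by
  unfold splitPart at hx
  induction hx using AddSubgroup.closure_induction with
  | mem x hx => exact hx
  | zero => exact ⟨1, isKummerGen_one, splitGen_one⟩
  | add x y _ _ hx hy =>
    obtain ⟨f, hf, hF⟩ := hx
    obtain ⟨f', hf', hF'⟩ := hy
    exact ⟨f * f', hf.mul hf', hF.mul hF'⟩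
  | neg x _ hx =>
    obtain ⟨f, hf, hF⟩ := hx
    exact ⟨f⁻¹, hf.inv, hF.inv⟩

end Closed

/-- **CLOSED (𝓕)**. -/
theorem finClosed : FinClosedStatement := by
  intro p M' _ _ _ _ _ A _ x hx
  exact mem_finSet_of_mem_finPart hx

/-- **CLOSED (𝒮)**. -/
theorem splitClosed : SplitClosedStatement := by
  intro p M' _ _ _ _ _ A _ x hx
  exact mem_splitSet_of_mem_splitPart hx

end Fermat.Agent.Ribet.H884

end

end
-- ===== PACK-END Ribet/H884/SlopeClosed.lean

-- ===== PACK-BEGIN Ribet/H912/KummerChi.lean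
section



/-!
# Row 38, WALL-p, (S2): the Kummer dictionary for "`σ` acts through `χ`" (T0 of (S2))
(helper912; the analogue of `A2/H129/Kummer.lean` + `A2/T0/H669/T0.lean` for the wall at `p`)

`x = [D]`, `div f = m · D` (`f` a Kummer generator of `x`).  If `σ f = a · y ^ m · f ^ c`
(`a` a nonzero constant), then `σ x = c · x`.

* `smul_eq_nsmul_of_kummer`     : abstract form (`SemilinearAut K F`, `Pic0 K F`);
* `jzero_smul_eq_nsmul_of_gen`  : for `JZero N`, `H884.IsKummerGen`, `σ ∈ G_ℚ`;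
* `KummerChiFor`, `s2For_of_kummerChi` : the Kummer form of `H944.Wall.S2For` for an arbitrary
  subgroup `𝒮` and the implication `KummerChiFor → S2For`;
* `s2Statement_of_kummerChi`    : `H884.S2Statement` from the Kummer form for `𝒮 = splitPart`.
-/

set_option autoImplicit false

noncomputable section

namespace Fermat.Agent.Ribet.H912

open AlgebraicCurve ModularCurve
open Fermat.Agent.A2.H129
open Fermat.Agent.S24
open Fermat.Agent.Ribet.Spec Fermat.Agent.Ribet.H944.Wall Fermat.Agent.Ribet.H884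

section Abstract

variable {K F : Type*} [Field K] [Field F] [Algebra K F]

/-- **K1 for `χ`.**  If `g f = a · y ^ m · f ^ c` for a Kummer generator `f` of `x = [D]`
(`div f = m · D`), then `g • x = c • x`. -/
theorem smul_eq_nsmul_of_kummer (g : SemilinearAut K F) (m : ℕ) (hm : m ≠ 0) (c : ℕ)
    (D : Divisor.degZero (K := K) (F := F)) (f : F) (hf : f ≠ 0)
    (hfD : ∀ v : Place K F, v.ord f = (m : ℤ) * (D : Divisor K F) v)
    (a : K) (ha : a ≠ 0) (y : F) (hy : y ≠ 0)
    (h : SemilinearAut.toRingAut g f = algebraMap K F a * y ^ m * f ^ c) :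
    g • (Pic0.mk D) = c • (Pic0.mk D : Pic0 K F) := by
  set E : Divisor.degZero (K := K) (F := F) := SemilinearAut.degZeroSMulHom g D - c • D with hE
  have hgoal : g • (Pic0.mk D) - c • (Pic0.mk D : Pic0 K F) = Pic0.mk E := by
    rw [SemilinearAut.pic0_smul_mk]
    rfl
  rw [← sub_eq_zero, hgoal]
  refine (QuotientAddGroup.eq_zero_iff E).2 ?_
  rw [AddSubgroup.mem_addSubgroupOf]
  refine ⟨y, hy, fun w => ?_⟩
  have hEw : (E : Divisor K F) w =
      (D : Divisor K F) (g⁻¹ • w) - (c : ℤ) * (D : Divisor K F) w := by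
    simp only [hE, AddSubgroupClass.coe_sub, SemilinearAut.coe_degZeroSMulHom,
      Finsupp.sub_apply, SemilinearAut.divisor_smul_apply, AddSubmonoidClass.coe_nsmul,
      Finsupp.smul_apply, nsmul_eq_mul]
  have haF : algebraMap K F a ≠ 0 := by simpa using ha
  have hord : w.ord (SemilinearAut.toRingAut g f) =
      (m : ℤ) * w.ord y + (c : ℤ) * w.ord f := by
    rw [h, w.ord_mul (mul_ne_zero haF (pow_ne_zero m hy)) (pow_ne_zero c hf),
      w.ord_mul haF (pow_ne_zero m hy), ord_algebraMap_eq_zero, zero_add, ord_pow, ord_pow]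
  have hmE : (m : ℤ) * (E : Divisor K F) w = (m : ℤ) * w.ord y := by
    have h1 := ord_smul_eq g w f
    rw [hord, hfD, hfD] at h1
    rw [hEw]
    linear_combination -h1
  have hm' : (m : ℤ) ≠ 0 := by exact_mod_cast hm
  exact (mul_left_cancel₀ hm' hmE).symm ▸ rfl

end Abstract

section JZero

variable (N : ℕ) [NeZero N]

/-- **T0 for `χ`**, one class: a Kummer generator `f` of `x ∈ J₀(N)` with
`σ f = a · y ^ p · f ^ c` gives `σ • x = c • x`. -/
theorem jzero_smul_eq_nsmul_of_gen (p : ℕ) (hp : p ≠ 0) (c : ℕ)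
    (σ : AlgebraicClosure ℚ ≃ₐ[ℚ] AlgebraicClosure ℚ) (x : JZero N) (f : FF N)
    (hf : IsKummerGen N p f x) (a : Kbar) (ha : a ≠ 0) (y : FF N) (hy : y ≠ 0)
    (h : arithmeticRingAut (modularFunctionFieldFull N) σ f =
      algebraMap Kbar (FF N) a * y ^ p * f ^ c) :
    σ • x = c • x := by
  obtain ⟨hf0, D, rfl, hfD⟩ := hf
  have h' : SemilinearAut.toRingAut (arithmeticGalois (modularFunctionFieldFull N) σ) f =
      algebraMap Kbar (FF N) a * y ^ p * f ^ c := by
    rw [toRingAut_arithmeticGalois]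
    exact h
  exact smul_eq_nsmul_of_kummer (arithmeticGalois (modularFunctionFieldFull N) σ) p hp c D f hf0
    hfD a ha y hy h'

end JZero

section S2

variable (p M' : ℕ) [NeZero M'] [NeZero p] [NeZero (p * M')]

/-- **Kummer form of (S2)** for a subgroup `𝒮`: every new class of `𝒮` has, for every `σ ∈ I_A`
with `σ ζ = ζ ^ c`, a Kummer generator `f` with `σ f = a · y ^ p · f ^ c`. -/
def KummerChiFor (A : ValuationSubring (AlgebraicClosure ℚ))
    (𝒮 : AddSubgroup (JZero (p * M'))) : Prop :=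
  ∀ x ∈ 𝒮, IsNewTors p M' x →
    ∀ σ ∈ A.inertiaSubgroupIn ℚ, ∀ c : ℕ, CycloAt p σ c →
      ∃ (f y : FF (p * M')) (a : Kbar), IsKummerGen (p * M') p f x ∧ a ≠ 0 ∧ y ≠ 0 ∧
        arithmeticRingAut (modularFunctionFieldFull (p * M')) σ f =
          algebraMap Kbar (FF (p * M')) a * y ^ p * f ^ c

/-- **T0 of (S2).** -/
theorem s2For_of_kummerChi (A : ValuationSubring (AlgebraicClosure ℚ))
    (𝒮 : AddSubgroup (JZero (p * M'))) (h : KummerChiFor p M' A 𝒮) : S2For p M' A 𝒮 := by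
  intro x hx hnew σ hσ c hc
  obtain ⟨f, y, a, hf, ha, hy, hrel⟩ := h x hx hnew σ hσ c hc
  exact jzero_smul_eq_nsmul_of_gen (p * M') p (NeZero.ne p) c σ x f hf a ha y hy hrel

end S2

/-- `H884.S2Statement` from the Kummer form of (S2) for `𝒮 = splitPart`. -/
theorem s2Statement_of_kummerChi
    (h : ∀ (p M' : ℕ) [NeZero M'] [NeZero p] [NeZero (p * M')], p.Prime → p ≠ 2 → ¬ p ∣ M' →
      ∀ A : ValuationSubring Kbar, A.LiesOverPrime p →
        KummerChiFor p M' A (splitPart p M' A)) :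
    S2Statement := by
  intro p M' _ _ _ hp hp2 hpM A hA
  exact s2For_of_kummerChi p M' A _ (h p M' hp hp2 hpM A hA)

end Fermat.Agent.Ribet.H912

end

end
-- ===== PACK-END Ribet/H912/KummerChi.lean

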