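import Fermat.Agent.Pack.S44.G0E27L0
import Fermat.Agent.Pack.S44.G0E20L1
import Fermat.Agent.Pack.S44.G0E21L1
import Fermat.Agent.Pack.S44.G0E16L0
import Fermat.Agent.Pack.S44.G0E23L3
import Fermat.Agent.Pack.S44.G0E10L2
import Fermat.Agent.Pack.S44.G0E27L2
import Fermat.Agent.Pack.S44.G0E2L1
import Fermat.Agent.Pack.S44.G0E18L2
import Fermat.Agent.Pack.S44.G0E22L2
import Fermat.Agent.Pack.S44.G0E27L1
import Fermat.Agent.Pack.S44.G0E24L2
import Fermat.Agent.Pack.S44.G0E26L1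
import Fermat.Agent.Pack.S44.G0E26L3
import Fermat.Agent.Pack.S44.G0E19L3
import Fermat.Agent.Pack.S44.G0E11L2
import Fermat.Agent.Pack.S44.G0E26L0
import Fermat.Agent.Pack.S44.G0E19L2
import Fermat.Agent.Pack.S44.G0E8L3
import Fermat.Agent.Pack.S44.G0E4L3

-- ===== PACK-BEGIN Ribet/H52/ElocFrey.lean
section





/-!
# Row RIBET, wall at `p`, piece ELOC-Frey: the local structure of the Frey `E[p]` at `p`
(helper52)

* `frey_elocOrdAt_h52` : for a Frey package `P` and a valuation subring `A` of `ℚ̄` over `p`, if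
  the inertia group at `A` acts ordinarily on `E[p]` (`OrdinaryInertiaAt`, which the wall glue
  supplies from (S1) + (S2)), then `ELOCOrdAt P.freyCurve P.p A`: the line `⟨t⟩ = E[p] ∩ E₁` with
  inertia acting by `χ`, trivial action on the quotient, and `E[p]` peu ramifiée.
  Valid in all cases (`p ∣ abc` or not).
* `wallFrey_of_filtration5_h52`, `S44_of_filtration5_h52` : the glue of `H944/WallSpec5.lean`
  WITHOUT the hypothesis `ELOCOrdFreyStatement`.

Inputs: the same-reduction analysis of the Frey curve at `p` (`S13.H64.frey_inKer_smul_sub`), the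
node analysis `S05.Comp.c3c`, `det = χ` (`H403.frey_det_eq_of_apply_root`), the supersingular
dichotomy (`H187.exists_ordinary_point_of_eigen`), and `elocOrdAt_core_h52`.
-/

set_option autoImplicit false
set_option linter.unusedSectionVars false
set_option linter.unusedVariables false
set_option linter.style.haveILetI false

open WeierstrassCurve WeierstrassCurve.Affine WeierstrassCurve.Affine.Point

namespace Fermat.Agent.Ribet.H52

open Fermat.Agent.S05 Fermat.Agent.S05.SameRed Fermat.Agent.S05.Assemble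
open Fermat.Agent.S13.H64 (val_eta_eq_one_of_integral_torsion nodeTorsion_of_c3c
  frey_inKer_smul_sub_torsion)
open Fermat.Agent.Ribet.H944.Wall
open Fermat.Agent.Ribet.Spec

section abstract

variable {K : Type*} [Field K] [DecidableEq K]
  {Γ₀ : Type*} [LinearOrderedCommGroupWithZero Γ₀]
variable {W : Affine K} {v : Valuation K Γ₀}

/-- Good case: `η` is a unit at an integral odd torsion point. -/
theorem val_eta_of_good_h52 (hW : IntegralCoeffs W v) (h2 : v (2 : K) = 1)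
    {n : ℕ} (hn : Odd n)
    {r₁ r₂ r₃ : K} (hr : Roots W r₁ r₂ r₃) (hr₁ : v r₁ ≤ 1) (hr₂ : v r₂ ≤ 1) (hr₃ : v r₃ ≤ 1)
    (h12 : v (r₁ - r₂) = 1) (h13 : v (r₁ - r₃) = 1) (h23 : v (r₂ - r₃) = 1)
    {x y : K} (h : W.Nonsingular x y)
    (hP : n • Point.some x y h = 0) (hx : v x ≤ 1) :
    v (2 * y + W.a₁ * x + W.a₃) = 1 := by
  have h4 := val_four (v := v) h2
  have h21 : v (r₂ - r₁) = 1 := by rw [← Valuation.map_neg, neg_sub]; exact h12
  have h31 : v (r₃ - r₁) = 1 := by rw [← Valuation.map_neg, neg_sub]; exact h13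
  have h32 : v (r₃ - r₂) = 1 := by rw [← Valuation.map_neg, neg_sub]; exact h23
  apply val_eta_eq_one_of_integral_torsion hW h2 hn h hP hx
  intro hη
  have hsq := val_eta_sq_lt_one hη
  rw [hr.eta_sq h.1, map_mul, h4, one_mul] at hsq
  rcases exists_lt_one_of_mul (val_sub_le_one hx hr₁) (val_sub_le_one hx hr₂)
    (val_sub_le_one hx hr₃) hsq with h1 | h1 | h1
  · exact hr.val_WX_eq_one hW h2 hx hr₁ hr₂ hr₃ hη h1 h12 h13
  · exact hr.swap₁₂.val_WX_eq_one hW h2 hx hr₂ hr₁ hr₃ hη h1 h21 h23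
  · exact hr.swap₁₃.val_WX_eq_one hW h2 hx hr₃ hr₂ hr₁ hη h1 h32 h31

/-- Node case: `v η` is a power of `v π` at an integral odd torsion point. -/
theorem val_eta_of_node_h52 (hW : IntegralCoeffs W v) (h2 : v (2 : K) = 1)
    {n : ℕ} (hn : Odd n)
    {e₁ α β : K} (hr : Roots W e₁ (e₁ + α) (e₁ + β)) (he₁ : v e₁ ≤ 1) (hα : v α < 1)
    (hβ : v β = 1) {π : K} (hπ : v π ^ n = v α ^ 2)
    (hC3 : NodeTorsion W v e₁ α n)
    {x y : K} (h : W.Nonsingular x y)
    (hP : n • Point.some x y h = 0) (hx : v x ≤ 1) :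
    ∃ j : ℕ, v (2 * y + W.a₁ * x + W.a₃) = v (π ^ j) := by
  have h4 := val_four (v := v) h2
  have hn0 : n ≠ 0 := hn.pos.ne'
  have hxe : v (x - e₁) ≤ 1 := val_sub_le_one hx he₁
  have hr₂ : v (e₁ + α) ≤ 1 := val_add_le_one he₁ hα.le
  have hr₃ : v (e₁ + β) ≤ 1 := val_add_le_one he₁ hβ.le
  have hβα : v (β - α) = 1 := by
    rw [val_sub_eq_of_lt (by rw [hβ]; exact hα), hβ]
  rcases hxe.lt_or_eq with hlt | heq
  · -- off `E₀`
    obtain ⟨hαx, j, hj⟩ := hC3 x y h hP hlt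
    have hvc : v (π ^ j) = v (x - e₁) := by
      apply pow_eq_pow_imp_eq hn0
      rw [hj, map_pow, ← pow_mul, mul_comm, pow_mul, hπ, ← pow_mul]
    have hxα : v (x - (e₁ + α)) = v (x - e₁) := by
      have : x - (e₁ + α) = (x - e₁) - α := by ring
      rw [this, val_sub_eq_of_lt hαx]
    have hxβ : v (x - (e₁ + β)) = 1 := by
      have : x - (e₁ + β) = (x - e₁) - β := by ring
      rw [this, val_sub_eq_of_lt' (by rw [hβ]; exact hlt), hβ]
    refine ⟨j, ?_⟩
    apply pow_eq_pow_imp_eq (n := 2) (by norm_num)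
    rw [← map_pow, hr.eta_sq h.1, map_mul, map_mul, map_mul, h4, hxα, hxβ, hvc]
    simp [pow_two]
  · -- on `E₀`
    refine ⟨0, ?_⟩
    rw [pow_zero, map_one]
    apply val_eta_eq_one_of_integral_torsion hW h2 hn h hP hx
    intro hη
    have hsq := val_eta_sq_lt_one hη
    rw [hr.eta_sq h.1, map_mul, h4, one_mul] at hsq
    have hxα : v (x - (e₁ + α)) = 1 := by
      have : x - (e₁ + α) = (x - e₁) - α := by ring
      rw [this, val_sub_eq_of_lt (by rw [heq]; exact hα), heq]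
    have h3 : v (x - (e₁ + β)) < 1 := by
      rw [map_mul, map_mul, heq, hxα, one_mul, one_mul] at hsq
      exact hsq
    have h31 : v (e₁ + β - e₁) = 1 := by
      have : e₁ + β - e₁ = β := by ring
      rw [this, hβ]
    have h32 : v (e₁ + β - (e₁ + α)) = 1 := by
      have : e₁ + β - (e₁ + α) = β - α := by ring
      rw [this, hβα]
    exact hr.swap₁₃.val_WX_eq_one hW h2 hx hr₃ hr₂ he₁ hη h3 h32 h31

end abstract

section frey

/-- At an integral `p`-torsion point of the Frey curve, `η = 2y + a₁x + a₃` has the valuation of a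
nonzero integer (at any valuation subring of `ℚ̄` over an odd prime). -/
theorem frey_val_eta_h52 (P : FreyPackage) {q : ℕ} (hq : q.Prime) (hq2 : q ≠ 2)
    (A : ValuationSubring Qb) (hA : A.LiesOverPrime q)
    {x y : Qb} (h : (P.freyCurve⁄Qb).Nonsingular x y)
    (hP : P.p • Point.some x y h = 0) (hx : A.valuation x ≤ 1) :
    ∃ c : ℤ, c ≠ 0 ∧
      A.valuation (2 * y + (P.freyCurve⁄Qb).a₁ * x + (P.freyCurve⁄Qb).a₃) =
        A.valuation ((c : ℤ) : Qb) := by
  have hW := frey_integral (P := P) hA hq hq2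
  have h2 := val_two_eq_one hA hq hq2
  have h4 := val_four_eq_one hA hq hq2
  have hodd : Odd P.p := P.hp_odd
  have hroots := frey_roots P
  have hpow : ∀ (t : ℤ) (j : ℕ), ((t : ℤ) : Qb) ^ j = (((t ^ j : ℤ)) : Qb) := by
    intro t j
    push_cast
    rfl
  by_cases ha : (q : ℤ) ∣ P.a
  · have hb : ¬ (q : ℤ) ∣ P.b := not_dvd_of_gcd_eq_one hq P.hgcdab ha
    have hr : Roots (P.freyCurve⁄Qb) 0 (0 + fA P / 4) (0 + -(fB P) / 4) := by
      simpa using hroots
    have hα : A.valuation (fA P / 4) < 1 := by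
      rw [val_div_four h4]; exact val_fA_lt_one hA ha
    have hβ : A.valuation (-(fB P) / 4) = 1 := by
      rw [val_neg_div_four h4]; exact val_fB_eq_one hA hq hb
    have hα0 : fA P / 4 ≠ 0 := div_ne_zero (fA_ne_zero P) four_ne_zero_Qb
    have hπ : A.valuation (((P.a ^ 2 : ℤ) : Qb)) ^ P.p = A.valuation (fA P / 4) ^ 2 := by
      rw [val_div_four h4]; exact val_sq_pow _ _
    obtain ⟨j, hj⟩ := val_eta_of_node_h52 hW h2 hodd hr
      (by rw [_root_.map_zero]; exact zero_le_one) hα hβ hπ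
      (nodeTorsion_of_c3c h2 hr hα0 hα hβ hodd) h hP hx
    exact ⟨(P.a ^ 2) ^ j, pow_ne_zero _ (pow_ne_zero _ P.ha0), by rw [hj, hpow]⟩
  by_cases hb : (q : ℤ) ∣ P.b
  · have hr : Roots (P.freyCurve⁄Qb) 0 (0 + -(fB P) / 4) (0 + fA P / 4) := by
      have := hroots.swap₁₂.swap₁₃.swap₁₂
      simpa using this
    have hα : A.valuation (-(fB P) / 4) < 1 := by
      rw [val_neg_div_four h4]; exact val_fB_lt_one hA hb
    have hβ : A.valuation (fA P / 4) = 1 := by
      rw [val_div_four h4]; exact val_fA_eq_one hA hq ha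
    have hα0 : -(fB P) / 4 ≠ 0 := div_ne_zero (neg_ne_zero.mpr (fB_ne_zero P)) four_ne_zero_Qb
    have hπ : A.valuation (((P.b ^ 2 : ℤ) : Qb)) ^ P.p = A.valuation (-(fB P) / 4) ^ 2 := by
      rw [val_neg_div_four h4]; exact val_sq_pow _ _
    obtain ⟨j, hj⟩ := val_eta_of_node_h52 hW h2 hodd hr
      (by rw [_root_.map_zero]; exact zero_le_one) hα hβ hπ
      (nodeTorsion_of_c3c h2 hr hα0 hα hβ hodd) h hP hx
    exact ⟨(P.b ^ 2) ^ j, pow_ne_zero _ (pow_ne_zero _ P.hb0), by rw [hj, hpow]⟩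
  by_cases hc : (q : ℤ) ∣ P.c
  · have hABC := fA_add_fB P
    have hr : Roots (P.freyCurve⁄Qb) (fA P / 4) (fA P / 4 + -(fC P) / 4)
        (fA P / 4 + -(fA P) / 4) := by
      have e1 : fA P / 4 + -(fC P) / 4 = -(fB P) / 4 := by rw [← hABC]; ring
      have e2 : fA P / 4 + -(fA P) / 4 = 0 := by ring
      rw [e1, e2]
      exact hroots.swap₁₃.swap₁₂
    have he : A.valuation (fA P / 4) ≤ 1 := by
      rw [val_div_four h4]; exact val_fA_le_one
    have hα : A.valuation (-(fC P) / 4) < 1 := by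
      rw [val_neg_div_four h4]; exact val_fC_lt_one hA hc
    have hβ : A.valuation (-(fA P) / 4) = 1 := by
      rw [val_neg_div_four h4]; exact val_fA_eq_one hA hq ha
    have hα0 : -(fC P) / 4 ≠ 0 := div_ne_zero (neg_ne_zero.mpr (fC_ne_zero P)) four_ne_zero_Qb
    have hπ : A.valuation (((P.c ^ 2 : ℤ) : Qb)) ^ P.p = A.valuation (-(fC P) / 4) ^ 2 := by
      rw [val_neg_div_four h4]; exact val_sq_pow _ _
    obtain ⟨j, hj⟩ := val_eta_of_node_h52 hW h2 hodd hr he hα hβ hπ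
      (nodeTorsion_of_c3c h2 hr hα0 hα hβ hodd) h hP hx
    exact ⟨(P.c ^ 2) ^ j, pow_ne_zero _ (pow_ne_zero _ P.hc0), by rw [hj, hpow]⟩
  · have hA1 := val_fA_eq_one hA hq ha
    have hB1 := val_fB_eq_one hA hq hb
    have hC1' := val_fC_eq_one hA hq hc
    have hABC := fA_add_fB P
    refine ⟨1, one_ne_zero, ?_⟩
    rw [Int.cast_one, map_one]
    refine val_eta_of_good_h52 hW h2 hodd hroots
      (by rw [_root_.map_zero]; exact zero_le_one)
      (by rw [val_div_four h4]; exact val_fA_le_one)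
      (by rw [val_neg_div_four h4]; exact val_fB_le_one) ?_ ?_ ?_ h hP hx
    · have : (0 : Qb) - fA P / 4 = -(fA P) / 4 := by ring
      rw [this, val_neg_div_four h4]; exact hA1
    · have : (0 : Qb) - -(fB P) / 4 = fB P / 4 := by ring
      rw [this, val_div_four h4]; exact hB1
    · have : fA P / 4 - -(fB P) / 4 = fC P / 4 := by rw [← hABC]; ring
      rw [this, val_div_four h4]; exact hC1'

end frey

section ordinary

/-- Under `OrdinaryInertiaAt` some `p`-torsion point is integral at `A` (supersingular dichotomy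
of helper187). -/
theorem exists_integral_of_ordinary_h52 (W : WeierstrassCurve ℤ) (hΔ : W.Δ ≠ 0) {p : ℕ}
    (hp : p.Prime) (hp2 : p ≠ 2) (A : ValuationSubring Qb) (hA : A.LiesOverPrime p)
    (hW : IntegralCoeffs ((W.map (Int.castRingHom ℚ))⁄Qb) A.valuation)
    (hO : OrdinaryInertiaAt (W.map (Int.castRingHom ℚ)) p A) :
    ∃ x : ETorsion (W.map (Int.castRingHom ℚ)) p,
      x ∉ kerTors_h52 (W.map (Int.castRingHom ℚ)) p A hW := by
  classical
  haveI : Fact p.Prime := ⟨hp⟩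
  have hΔQ : (W.map (Int.castRingHom ℚ)).Δ ≠ 0 := by
    rw [WeierstrassCurve.map_Δ]
    simpa using hΔ
  have h2 : Module.finrank (ZMod p) (ETorsion (W.map (Int.castRingHom ℚ)) p) = 2 :=
    Fermat.Agent.Ribet.H403.finrank_tors _ hΔQ p
  have hnt : Nontrivial (ETorsion (W.map (Int.castRingHom ℚ)) p) :=
    Module.nontrivial_of_finrank_pos (R := ZMod p) (by rw [h2]; norm_num)
  obtain ⟨x₁, hx₁⟩ := exists_ne (0 : ETorsion (W.map (Int.castRingHom ℚ)) p)
  have htor : ∀ x : ETorsion (W.map (Int.castRingHom ℚ)) p,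
      p • (x : ((W.map (Int.castRingHom ℚ))⁄Qb).Point) = 0 := by
    intro x
    have := (Submodule.mem_torsionBy_iff _ _).mp x.2
    rwa [natCast_zsmul] at this
  have heig : ∀ τ ∈ A.inertiaSubgroupIn ℚ,
      ∃ P : ((W.map (Int.castRingHom ℚ))⁄Qb).Point, P ≠ 0 ∧ p • P = 0 ∧
        ∃ a : ℤ, τ • P = a • P := by
    intro τ hτ
    set c : ℕ := ((Fermat.Agent.S55.H414.cycloPow p τ : (ZMod p)ˣ) : ZMod p).val with hc
    have hcyc : CycloAt p τ c :=
      fun ζ hζ => Fermat.Agent.Ribet.H403.apply_root_eq_pow_cycloPow p τ ζ hζ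
    have h := hO τ hτ c hcyc x₁
    by_cases hy : τ • x₁ - c • x₁ = 0
    · refine ⟨x₁, fun h0 => hx₁ (Subtype.ext h0), htor x₁, c, ?_⟩
      have := congrArg Subtype.val (sub_eq_zero.mp hy)
      rw [natCast_zsmul]
      exact this
    · refine ⟨((τ • x₁ - c • x₁ : ETorsion (W.map (Int.castRingHom ℚ)) p) :
          ((W.map (Int.castRingHom ℚ))⁄Qb).Point), fun h0 => hy (Subtype.ext h0), htor _, 1, ?_⟩
      rw [one_smul]
      have h3 : τ • (τ • x₁ - c • x₁) = τ • x₁ - c • x₁ := by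
        have h4 : τ • (c • x₁) = c • τ • x₁ :=
          map_nsmul (DistribSMul.toAddMonoidHom
            (ETorsion (W.map (Int.castRingHom ℚ)) p) τ) c x₁
        have h5 : τ • τ • x₁ = (c + 1) • τ • x₁ - c • x₁ := eq_sub_of_add_eq h
        rw [smul_sub, h4, h5, add_smul, one_smul]
        abel
      exact congrArg Subtype.val h3
  obtain ⟨P, hP0, hPp, hPx⟩ :=
    Fermat.Agent.Ribet.H187.exists_ordinary_point_of_eigen hΔ hp hp2 A hA heig
  refine ⟨⟨P, ?_⟩, ?_⟩
  · rw [Submodule.mem_torsionBy_iff, natCast_zsmul]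
    exact hPp
  · intro hin
    have hin' : InKer ((W.map (Int.castRingHom ℚ))⁄Qb) A.valuation P := hin
    rcases P with _ | ⟨x, y, h⟩
    · exact hP0 rfl
    · have h1 : (1 : A.ValueGroup) < A.valuation x := hin'
      have h2' : A.valuation x ≤ 1 := (A.valuation_le_one_iff x).mpr hPx
      exact absurd h1 (not_lt.mpr h2')

end ordinary

section final

/-- **ELOC for the Frey curve, transported form.** -/
theorem elocOrdAt_of_eq_map_h52 (P : FreyPackage) (E : WeierstrassCurve ℚ)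
    (hE : P.freyCurve = E) (W : WeierstrassCurve ℤ) (hEW : E = W.map (Int.castRingHom ℚ))
    (hΔ : W.Δ ≠ 0) (A : ValuationSubring Qb) (hA : A.LiesOverPrime P.p)
    (hO : OrdinaryInertiaAt E P.p A) : ELOCOrdAt E P.p A := by
  have hp2 : P.p ≠ 2 := by have := P.hp5; omega
  have hW : IntegralCoeffs (E⁄Qb) A.valuation := by
    rw [← hE]
    exact frey_integral (P := P) hA P.pp hp2
  have hΔQ : E.Δ ≠ 0 := by
    rw [hEW, WeierstrassCurve.map_Δ]
    simpa using hΔ
  refine elocOrdAt_core_h52 hΔQ P.pp hp2 hA hW ?_ ?_ ?_ ?_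
  · intro σ hσ c hc
    subst hE
    exact Fermat.Agent.Ribet.H403.frey_det_eq_of_apply_root P σ c hc
  · intro σ hσ x hx
    subst hE
    exact frey_inKer_smul_sub_torsion P A hA σ hσ x hx
  · intro x hx
    subst hE
    have hp : P.p • (x : (P.freyCurve⁄Qb).Point) = 0 := by
      have := (Submodule.mem_torsionBy_iff _ _).mp x.2
      rwa [natCast_zsmul] at this
    have hx' : ¬ InKer (P.freyCurve⁄Qb) A.valuation (x : (P.freyCurve⁄Qb).Point) := hx
    rcases hxc : (x : (P.freyCurve⁄Qb).Point) with _ | ⟨x₀, y₀, h₀⟩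
    · rw [hxc] at hx'
      exact absurd trivial hx'
    · rw [hxc] at hx' hp
      obtain ⟨c, hc0, hc⟩ := frey_val_eta_h52 P P.pp hp2 A hA h₀ hp (not_lt.mp hx')
      refine ⟨(c : ℚ), by exact_mod_cast hc0, ?_⟩
      rw [etaC_some_h52, hc]
      congr 1
  · subst hEW
    exact exists_integral_of_ordinary_h52 W hΔ P.pp hp2 A hA hW hO

/-- **ELOC-Frey.**  For a Frey package and a place over `p` with ordinary inertia action, `E[p]`
has the line `⟨t⟩` (inertia acts by `χ`), trivial quotient, and is peu ramifiée. -/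
theorem frey_elocOrdAt_h52 (P : FreyPackage) (A : ValuationSubring Qb)
    (hA : A.LiesOverPrime P.p) (hO : OrdinaryInertiaAt P.freyCurve P.p A) :
    ELOCOrdAt P.freyCurve P.p A :=
  elocOrdAt_of_eq_map_h52 P P.freyCurve rfl P.freyCurveInt
    (Fermat.Agent.Ribet.H403.freyCurve_eq_map_int P)
    (Fermat.Agent.Ribet.H403.freyCurveInt_Δ_ne_zero P) A hA hO

/-- **Total glue, S44 form, `p ≥ 5`, without the ELOC hypothesis.** -/
theorem wallFrey_of_filtration5_h52 (hPl : PlacesStatement) (hF : AtPFiltration5Statement)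
    (hNMT : NotMultiplicativeTypeStatement) : WallFreyStatement := by
  intro P M' _ _ hpM' hpabc hirr S a hNE hemb
  obtain ⟨A, hA, -⟩ := hPl P.p P.pp
  exact lowered_of_filtrationFor (hF P.p M' P.pp P.hp5 hpM') hA
    (fun hO => frey_elocOrdAt_h52 P A hA hO) (hNMT P A hA) hNE hemb

/-- **The frozen S44 from the filtration package (`p ≥ 5`) and the row inputs**, ELOC-Frey
discharged. -/
theorem S44_of_filtration5_h52 (hE : EmbedStatement) (hPl : PlacesStatement)
    (hF : AtPFiltration5Statement) (hNMT : NotMultiplicativeTypeStatement)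
    (hNE : NonEisensteinStatement) (hR3 : EigenformOfOccursAwayStatement)
    (hR3' : AlmostAllToWitnessStatement) : S44Statement :=
  S44_of_wall hE (wallFrey_of_filtration5_h52 hPl hF hNMT) hNE hR3 hR3'

end final

end Fermat.Agent.Ribet.H52

end
-- ===== PACK-END Ribet/H52/ElocFrey.lean

-- ===== PACK-BEGIN Ribet/H375/ELOCOrdFinal.lean
section





/-!
# RIBET / WALL-p: ELOC-ord (good reduction) is CLOSED; the S40 wall from the filtration package

* `elocOrdGoodIrr : ELOCOrdGoodIrrStatement` — unconditional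
  (ss: helper187; LINE: helper109; PEU: helper375 with (F), (U) of helper215).
* `ordCaseGood_of_filtration : AtPFiltrationStatement → OrdCaseGoodStatement`
* `wallGood_of_atPFiltration : AtPFiltrationStatement → WallGoodStatement`
  (NMT-W, NE-W: helper104; Places: helper584).

So the wall of S40 is exactly `H944.Wall.AtPFiltrationStatement`.
-/

set_option autoImplicit false

namespace Fermat.Agent.Ribet.H375

open Fermat.Agent.Ribet.Spec Fermat.Agent.Ribet.H944.Wall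

/-- **ELOC-ord, good reduction**: unconditional. -/
theorem elocOrdGoodIrr : ELOCOrdGoodIrrStatement :=
  elocOrdGoodIrr_of_line Fermat.Agent.Ribet.H109.elocLine

/-- The ordinary case of the S40 wall from the filtration package alone. -/
theorem ordCaseGood_of_filtration (hF : AtPFiltrationStatement) : OrdCaseGoodStatement :=
  ordCaseGood_of_line hF Fermat.Agent.Ribet.H109.elocLine
    Fermat.Agent.Ribet.H104.notMultTypeW Fermat.Agent.Ribet.H104.nonEisW

/-- **The S40 wall from the filtration package alone.** -/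
theorem wallGood_of_atPFiltration (hF : AtPFiltrationStatement) : WallGoodStatement :=
  wallGood_of Fermat.Agent.Ribet.H584.places (newKernel_of_filtration hF)
    (ordCaseGood_of_filtration hF)

end Fermat.Agent.Ribet.H375

end
-- ===== PACK-END Ribet/H375/ELOCOrdFinal.lean

-- ===== PACK-BEGIN S29/H282/Dict.lean
section





/-!
# S29 / M4b-K2 (helper282) — the places dictionary (DICT-hard)

`K` algebraically closed with an embedding `ι : K →+* ℂ` (main cases: `K = ℂ`, `K = ℚ̄`).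

* `exists_placeOf_eqK` : every place of `FFK K N / K` is induced by one of the embeddings
  `σ_x` of the local data `dataInfK` (cusps) or `dataFinK a` (points over `j = a`);
* `IsAvatar`           : `h : Hol` is an analytic avatar of `f : FFK K N`
  (`qexp h = ΦK ι N f`, i.e. the expansion of `h` at `i∞` is the Laurent series `f`);
* `IsAvatar.sigmaGK_eq`: then `σ_g f = E (h ∘ g⁻¹)` for every expansion;
* `dvd_ord_of_isAvatar_pow` (**DICT-hard**): if `f` has the avatar `h ^ M` and `h` is invariant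
  under the special elements (finite order or trace `2`) of `Γ₀(N)`, then `M ∣ w.ord f` for every
  place `w` of `FFK K N / K`.
-/

set_option autoImplicit false

noncomputable section

open ModularCurve HahnSeries UpperHalfPlane AlgebraicCurve IntermediateField
open scoped MatrixGroups

namespace Fermat.Agent.S29.H282

open Fermat.Agent.S24 Fermat.Agent.S24.H997 Fermat.Agent.S24.Deg457

/-! ### Generic: the orbit of `x` under `perm` has `ord_v t` elements -/

section Generic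

variable {K F : Type*} [Field K] [Field F] [Algebra K F] [IsAlgClosed K] [CharZero K]
variable {C : Type*} [Field C] [CharZero C] {X : Type*} [Finite X]
variable {t : F} (L : LocalData K F C X t)
variable (E : IntermediateField K F) (hE : E ≤ K⟮t⟯) [FiniteDimensional E F]
  (hrank : Module.finrank E F = Nat.card X)

include hE hrank in
/-- the cardinality of the `perm`-orbit of `x` is the ramification index `ord_v t` -/
theorem card_orbit_eq_ord_t (x : X) :
    (Nat.card (MulAction.orbit (Subgroup.zpowers L.perm) x) : ℤ) = (H117.placeOf L x).ord t := by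
  classical
  haveI := H504.isAlgebraic_adjoin_of_le (t := t) E hE
  have hfin : {v : Place K F | 0 < v.ord t}.Finite := H117.finite_places_over L E hE hrank
  have hs : ∀ v : Place K F, v ∈ hfin.toFinset ↔ 0 < v.ord t := fun v => by simp
  exact (H117.localThm L E hE hrank hfin.toFinset hs
    (H504.LocalData.card_le_sum_ord L hfin.toFinset hs)).2.1 x

include hE hrank in
/-- `perm ^ e` fixes `x`, where `e = ord_v t` is the ramification index of the place of `x` -/
theorem perm_pow_ord_t_apply (x : X) :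
    (L.perm ^ ((H117.placeOf L x).ord t).toNat) x = x := by
  classical
  have h := card_orbit_eq_ord_t L E hE hrank x
  haveI : Fintype (MulAction.orbit (Subgroup.zpowers L.perm) x) := Fintype.ofFinite _
  have h1 : Function.minimalPeriod (L.perm • ·) x
      = Nat.card (MulAction.orbit (Subgroup.zpowers L.perm) x) := by
    rw [MulAction.minimalPeriod_eq_card, Nat.card_eq_fintype_card]
  have h2 : ((H117.placeOf L x).ord t).toNat
      = Nat.card (MulAction.orbit (Subgroup.zpowers L.perm) x) := by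
    rw [← h]; simp
  have h3 : (L.perm ^ ((H117.placeOf L x).ord t).toNat) • x = x := by
    rw [MulAction.pow_smul_eq_iff_minimalPeriod_dvd, h1, h2]
  exact h3

end Generic

/-! ### Avatars -/

section Avatar

variable {K : Type*} [Field K] [Algebra ℚ K] (ι : K →+* ℂ)
variable {N : ℕ} [NeZero N] (B : HolBase N)

/-- `h : Hol` is an analytic avatar of `f : FFK K N`: the expansion of `h` at `i∞` (in the
variable `q^{1/N}`) is the Laurent series `f` (coefficients mapped by `ι`). -/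
def IsAvatar (f : FFK K N) (h : B.Hol) : Prop := B.qexp h = ΦK ι N (f : LaurentSeries K)

variable {ι B}

theorem isAvatar_inclRNK (r : RNK K N) : IsAvatar ι B (inclRNK K N r) (bridgeK ι B r) :=
  qexp_bridgeK ι B r

theorem IsAvatar.unique {f : FFK K N} {h h' : B.Hol} (hav : IsAvatar ι B f h)
    (hav' : IsAvatar ι B f h') : h = h' :=
  B.qexp_injective (hav.trans hav'.symm)

theorem IsAvatar.injective {f f' : FFK K N} {h : B.Hol} (hav : IsAvatar ι B f h)
    (hav' : IsAvatar ι B f' h) : f = f' :=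
  Subtype.ext (ΦK_injective ι (hav.symm.trans hav'))

theorem isAvatar_zero : IsAvatar ι B (0 : FFK K N) 0 := by
  show B.qexp 0 = ΦK ι N ((0 : FFK K N) : LaurentSeries K)
  simp

theorem isAvatar_one : IsAvatar ι B (1 : FFK K N) 1 := by
  show B.qexp 1 = ΦK ι N ((1 : FFK K N) : LaurentSeries K)
  simp

theorem IsAvatar.mul {f f' : FFK K N} {h h' : B.Hol} (hav : IsAvatar ι B f h)
    (hav' : IsAvatar ι B f' h') : IsAvatar ι B (f * f') (h * h') := by
  show B.qexp (h * h') = ΦK ι N ((f * f' : FFK K N) : LaurentSeries K)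
  rw [map_mul, hav, hav', ← map_mul]
  rfl

theorem IsAvatar.add {f f' : FFK K N} {h h' : B.Hol} (hav : IsAvatar ι B f h)
    (hav' : IsAvatar ι B f' h') : IsAvatar ι B (f + f') (h + h') := by
  show B.qexp (h + h') = ΦK ι N ((f + f' : FFK K N) : LaurentSeries K)
  rw [map_add, hav, hav', ← map_add]
  rfl

theorem IsAvatar.pow {f : FFK K N} {h : B.Hol} (hav : IsAvatar ι B f h) (n : ℕ) :
    IsAvatar ι B (f ^ n) (h ^ n) := by
  induction n with
  | zero => simpa using isAvatar_one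
  | succ n ih => rw [pow_succ, pow_succ]; exact ih.mul hav

theorem IsAvatar.eq_zero_iff {f : FFK K N} {h : B.Hol} (hav : IsAvatar ι B f h) :
    h = 0 ↔ f = 0 :=
  ⟨fun h0 => hav.injective (h0 ▸ isAvatar_zero), fun f0 => hav.unique (f0 ▸ isAvatar_zero)⟩

/-- clearing denominators: `h * e(t) = e(r)` when `f = r / t` -/
theorem IsAvatar.mul_bridgeK {f : FFK K N} {h : B.Hol} (hav : IsAvatar ι B f h)
    {r t : RNK K N} (ht : t ≠ 0) (hf : f = inclRNK K N r / inclRNK K N t) :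
    h * bridgeK ι B t = bridgeK ι B r := by
  have ht' : inclRNK K N t ≠ 0 := fun h0 =>
    ht (inclRNK_injective K N (h0.trans (map_zero _).symm))
  have h1 : f * inclRNK K N t = inclRNK K N r := by
    rw [hf, div_mul_cancel₀ _ ht']
  exact (hav.mul (isAvatar_inclRNK t)).unique (h1 ▸ isAvatar_inclRNK r)

/-- **The embeddings in terms of the avatar**: `σ_g f = E (h ∘ g⁻¹)`. -/
theorem IsAvatar.sigmaGK_eq {f : FFK K N} {h : B.Hol} (hav : IsAvatar ι B f h)
    (X : Expansion B) (g : SL(2, ℤ)) : sigmaGK ι B X g f = X.E (B.compH g⁻¹ h) := by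
  obtain ⟨r, t, ht, hf⟩ := exists_div_inclRNK K N f
  have hmul := hav.mul_bridgeK ht hf
  have ht' : X.E (B.compH g⁻¹ (bridgeK ι B t)) ≠ 0 := by
    intro h0
    apply ht
    apply sGK_injective ι B X g
    rw [sGK_apply, h0, map_zero]
  rw [hf, map_div₀, sigmaGK_inclRNK, sigmaGK_inclRNK, ← hmul, map_mul, map_mul,
    mul_div_assoc, div_self ht', mul_one]

theorem IsAvatar.sigmaXK_mk_eq {f : FFK K N} {h : B.Hol} (hav : IsAvatar ι B f h)
    (X : Expansion B) (g : SL(2, ℤ)) :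
    sigmaXK ι B X (g : XX N) f = X.E (B.compH g⁻¹ h) := by
  rw [sigmaXK_mk]
  exact hav.sigmaGK_eq X g

end Avatar

/-! ### The dictionary -/

section Dict

variable {K : Type*} [Field K] [Algebra ℚ K] (ι : K →+* ℂ)
variable {N : ℕ} [NeZero N]

omit [NeZero N] in
theorem permOf_pow_apply (γ : SL(2, ℤ)) (e : ℕ) (g : SL(2, ℤ)) :
    (permOf N γ ^ e) (g : XX N) = ((γ ^ e * g : SL(2, ℤ)) : XX N) := by
  induction e with
  | zero => simp
  | succ n ih =>
    rw [pow_succ', Equiv.Perm.mul_apply, ih, pow_succ', mul_assoc]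
    rfl

omit [NeZero N] in
/-- if `perm_{ε⁻¹} ^ e` fixes the coset of `g` then `g⁻¹ ε ^ e g ∈ Γ₀(N)` -/
theorem conj_mem_of_permOf_pow_apply_eq {ε g : SL(2, ℤ)} {e : ℕ}
    (h : (permOf N ε⁻¹ ^ e) (g : XX N) = (g : XX N)) :
    g⁻¹ * ε ^ e * g ∈ CongruenceSubgroup.Gamma0 N := by
  rw [permOf_pow_apply] at h
  have h1 := QuotientGroup.eq.mp h
  have h2 : ((ε⁻¹) ^ e * g)⁻¹ * g = g⁻¹ * ε ^ e * g := by
    rw [mul_inv_rev, inv_pow, inv_inv]
  rwa [h2] at h1

variable (B : HolBase N)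

/-- `h` is invariant under the special elements of `Γ₀(N)` -/
def IsUnramified (h : B.Hol) : Prop :=
  ∀ γ : SL(2, ℤ), γ ∈ CongruenceSubgroup.Gamma0 N → IsSpecialElt γ → B.compH γ h = h

variable {B}

theorem IsUnramified.compH_pow_eq {h : B.Hol} (hinv : IsUnramified B h) {ε g : SL(2, ℤ)} {e : ℕ}
    (hε : IsSpecialElt (ε ^ e)) (hmem : g⁻¹ * ε ^ e * g ∈ CongruenceSubgroup.Gamma0 N) :
    B.compH (ε ^ e) (B.compH g⁻¹ h) = B.compH g⁻¹ h := by
  have h1 := hinv _ hmem (hε.conj g)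
  rw [← HolBase.compH_mul]
  have h2 : g⁻¹ * ε ^ e = (g⁻¹ * ε ^ e * g) * g⁻¹ := by group
  rw [h2, HolBase.compH_mul, h1]

variable [IsAlgClosed K]

/-- **DICT-hard, local form**: for local data constructed from an expansion with rotation data for
`ε` (all of whose powers are special), the order at every place `placeOf x` of a function with
avatar `h ^ M`, `h` unramified, is divisible by `M`. -/
theorem dvd_ord_placeOf_mkLocalDataK (X : Expansion B) (ε : SL(2, ℤ)) (R : RotData B X ε)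
    (t : FFK K N) (u : LaurentSeries ℂ) (ht : ∀ g : SL(2, ℤ), sigmaGK ι B X g t = u)
    (hu : u.order = (R.m : ℤ))
    (E : IntermediateField K (FFK K N)) (hE : E ≤ K⟮t⟯) [FiniteDimensional E (FFK K N)]
    (hrank : Module.finrank E (FFK K N) = Nat.card (XX N))
    (hε : ∀ e : ℕ, IsSpecialElt (ε ^ e))
    {h : B.Hol} (hinv : IsUnramified B h) {f : FFK K N} {M : ℕ}
    (hav : IsAvatar ι B f (h ^ M)) (x : XX N) :
    (M : ℤ) ∣ (H117.placeOf (mkLocalDataK ι B X ε R t u ht hu) x).ord f := by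
  haveI : CharZero K := algebraRat.charZero K
  set L := mkLocalDataK ι B X ε R t u ht hu with hL
  obtain ⟨g, rfl⟩ := QuotientGroup.mk_surjective x
  set w := H117.placeOf L (g : XX N) with hw
  set e : ℕ := (w.ord t).toNat with he
  have hpos : 0 < w.ord t := H117.ord_t_pos L _
  have hecast : (e : ℤ) = w.ord t := Int.toNat_of_nonneg hpos.le
  have he0 : (e : ℤ) ≠ 0 := by rw [hecast]; exact hpos.ne'
  -- the orbit
  have hfix : (permOf N ε⁻¹ ^ e) (g : XX N) = (g : XX N) :=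
    perm_pow_ord_t_apply L E hE hrank (g : XX N)
  have hmem := conj_mem_of_permOf_pow_apply_eq hfix
  -- the rotation
  set H : B.Hol := B.compH g⁻¹ h with hH
  have hHinv : B.compH (ε ^ e) H = H := hinv.compH_pow_eq (hε e) hmem
  have hdvd : (R.m : ℤ) ∣ (e : ℤ) * (X.E H).order := rot_dvd_of_compH_pow_eq B X ε R H e hHinv
  -- the multiplicity
  have hmult : (H117.mult L (g : XX N) : ℤ) * w.ord t = (R.m : ℤ) := H117.mult_mul_ord_t L _
  have hk0 : (H117.mult L (g : XX N) : ℤ) ≠ 0 := by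
    exact_mod_cast (H117.mult_pos L (g : XX N)).ne'
  have hdvd2 : (H117.mult L (g : XX N) : ℤ) ∣ (X.E H).order := by
    rw [← hmult, ← hecast, mul_comm] at hdvd
    exact (mul_dvd_mul_iff_left he0).mp hdvd
  obtain ⟨k, hk⟩ := hdvd2
  -- the order of `f`
  have hσ : L.σ (g : XX N) f = X.E H ^ M := by
    show sigmaXK ι B X (g : XX N) f = _
    rw [hav.sigmaXK_mk_eq X g, map_pow, map_pow]
  have hord : (L.σ (g : XX N) f).order = (M : ℤ) * (X.E H).order := by
    rw [hσ, HahnSeries.order_pow, nsmul_eq_mul]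
  have h1 := H117.order_eq L (g : XX N) f
  rw [hord, hk] at h1
  refine ⟨k, ?_⟩
  have h2 : (H117.mult L (g : XX N) : ℤ) * w.ord f = (H117.mult L (g : XX N) : ℤ) * (M * k) := by
    rw [← h1]; ring
  exact mul_left_cancel₀ hk0 h2

omit [IsAlgClosed K] in
theorem adjoin_jFK_le_sub (a : K) :
    K⟮jFK K N⟯ ≤ K⟮jFK K N - algebraMap K (FFK K N) a⟯ := by
  rw [IntermediateField.adjoin_le_iff, Set.singleton_subset_iff]
  have h := add_mem
    (IntermediateField.mem_adjoin_simple_self K (jFK K N - algebraMap K (FFK K N) a))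
    (IntermediateField.algebraMap_mem K⟮jFK K N - algebraMap K (FFK K N) a⟯ a)
  rwa [sub_add_cancel] at h

omit [IsAlgClosed K] in
theorem adjoin_jFK_le_inv : K⟮jFK K N⟯ ≤ K⟮(jFK K N)⁻¹⟯ := by
  rw [IntermediateField.adjoin_le_iff, Set.singleton_subset_iff]
  have h := inv_mem (IntermediateField.mem_adjoin_simple_self K (jFK K N)⁻¹)
  rwa [inv_inv] at h

variable (A : AnalyticCore N)

/-- **Every place of `FFK K N / K` is analytic**: it is induced by an embedding `σ_x` of the local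
data at `∞` or over a finite point `a`. -/
theorem exists_placeOf_eqK (w : Place K (FFK K N)) :
    (∃ x : XX N, H117.placeOf (dataInfK ι A) x = w) ∨
      ∃ (a : K) (x : XX N), H117.placeOf (dataFinK ι A a) x = w := by
  haveI : CharZero K := algebraRat.charZero K
  haveI := finiteDimensional_adjoin_jFK ι N
  have hrank := finrank_adjoin_jFK ι N
  rcases sub_exists_point (jFK K N) w with h | ⟨a, ha⟩
  · left
    have h' : 0 < w.ord (jFK K N)⁻¹ := by
      rw [Place.ord_inv]; omega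
    exact H117.exists_placeOf_eq (dataInfK ι A) K⟮jFK K N⟯ adjoin_jFK_le_inv hrank w h'
  · right
    exact ⟨a, H117.exists_placeOf_eq (dataFinK ι A a) K⟮jFK K N⟯ (adjoin_jFK_le_sub a) hrank w ha⟩

omit [Algebra ℚ K] [IsAlgClosed K] in
theorem isSpecialElt_epsAt_pow (a : K) (e : ℕ) : IsSpecialElt (epsAt ι a ^ e) := by
  classical
  unfold epsAt
  split_ifs
  · exact isSpecialElt_ST_pow e
  · exact isSpecialElt_S_pow e
  · exact isSpecialElt_one_pow e

variable {ι A}

/-- **DICT-hard.**  Let `f` be an element of the function field of `X₀(N)` over `K` whose analytic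
avatar is `h ^ M`, where `h : Hol` is invariant under all special elements (finite order or
trace `2`) of `Γ₀(N)`.  Then `M ∣ ord_w f` for every place `w` of the function field. -/
theorem dvd_ord_of_isAvatar_pow {h : A.Hol} (hinv : IsUnramified A.toHolBase h)
    {f : FFK K N} {M : ℕ} (hav : IsAvatar ι A.toHolBase f (h ^ M))
    (w : Place K (FFK K N)) : (M : ℤ) ∣ w.ord f := by
  haveI := finiteDimensional_adjoin_jFK ι N
  have hrank := finrank_adjoin_jFK ι N
  rcases exists_placeOf_eqK ι A w with ⟨x, rfl⟩ | ⟨a, x, rfl⟩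
  · exact dvd_ord_placeOf_mkLocalDataK ι A.toHolBase.qexpExpansion ModularGroup.T A.infRot
      (jFK K N)⁻¹ (A.qexp (A.toHolBase.JH 1 (one_dvd N)))⁻¹
      (fun g => by rw [map_inv₀, sigmaGK_jFK]; rfl)
      (by
        rw [RotRel.order_inv' A.toHolBase.qexp_J_one_ne_zero, A.toHolBase.order_qexp_J_one,
          neg_neg]
        rfl)
      K⟮jFK K N⟯ adjoin_jFK_le_inv hrank isSpecialElt_T_pow hinv hav x
  · exact dvd_ord_placeOf_mkLocalDataK ι (pointAt ι A a).X (epsAt ι a) (pointAt ι A a).R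
      (jFK K N - algebraMap K (FFK K N) a) _
      (fun g => sigmaGK_sub ι A (pointAt ι A a) g) (pointAt ι A a).order_J
      K⟮jFK K N⟯ (adjoin_jFK_le_sub a) hrank (isSpecialElt_epsAt_pow ι a) hinv hav x

end Dict

end Fermat.Agent.S29.H282

end
end
-- ===== PACK-END S29/H282/Dict.lean

-- ===== PACK-BEGIN S29/H282/K2.lean
section




/-!
# S29 / M4b — PIECE `K2` (DICT), exact skeleton type (helper282)

`exists_isKummerClass_of_realised` : if `u ∈ FF N` is realised by `U ^ p`, `U` twisted of a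
character `c` killing parabolic and elliptic elements, then `u` has a `p`-Kummer class in
`J₀(N)(ℚ̄)`: `p ∣ ord_v u` at every place (`dvd_ord_of_isAvatar_pow`) and `(1/p) div u` has
degree `0`.

Also `dvd_ord_of_realised` (the divisibility alone) and the same over `ℂ`.
-/

set_option autoImplicit false

noncomputable section

open ModularCurve AlgebraicCurve CongruenceSubgroup UpperHalfPlane
open scoped MatrixGroups Manifold Real

namespace Fermat.Agent.S29.H282

open Fermat.Agent.S24 Fermat.Agent.S24.H997 Fermat.Agent.S24.H648 Fermat.Agent.S24.H708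
open Fermat.Agent.S24.H624
open Fermat.Agent.S29 Fermat.Agent.S29.M4b Fermat.Agent.S29.H332

variable {N : ℕ} [NeZero N] {p : ℕ} [NeZero p]

/-- a twisted function as an element of `Hol` of the concrete analytic core -/
def twistedHol {c : G0 N → ZMod p} (hc : IsParHom c) {U : ℍ → ℂ} (hU : IsTwisted N p c U) :
    (analyticCore N).Hol := ⟨U, mem_holN_of_isTwisted hc hU⟩

theorem coe_twistedHol {c : G0 N → ZMod p} (hc : IsParHom c) {U : ℍ → ℂ}
    (hU : IsTwisted N p c U) : ((twistedHol hc hU : (analyticCore N).Hol) : ℍ → ℂ) = U := rfl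

/-- a character killing parabolic and elliptic elements is trivial on special elements -/
theorem isParHom_apply_of_isSpecialElt {c : G0 N → ZMod p} (hc : IsParHom c) (γ : G0 N)
    (hγ : IsSpecialElt (γ : SL(2, ℤ))) : c γ = 0 := by
  rcases hγ with ⟨n, hn, h⟩ | h
  · exact hc.elliptic γ n hn (Subtype.ext (by simpa using h))
  · exact hc.parabolic γ (Or.inl h)

theorem isUnramified_twistedHol {c : G0 N → ZMod p} (hc : IsParHom c) {U : ℍ → ℂ}
    (hU : IsTwisted N p c U) :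
    IsUnramified (analyticCore N).toHolBase (twistedHol hc hU) := by
  intro γ hγ hsp
  apply Subtype.ext
  funext τ
  show U (γ • τ) = U τ
  have h := hU.hasChar ⟨γ, hγ⟩ τ
  rw [isParHom_apply_of_isSpecialElt hc ⟨γ, hγ⟩ hsp] at h
  simpa using h

/-- the avatar relation over `ℚ̄` -/
theorem isAvatar_of_realises {c : G0 N → ZMod p} (hc : IsParHom c) {U : ℍ → ℂ}
    {u : FF N} (hU : IsTwisted N p c U) (hu : Realises N u (fun τ => U τ ^ p)) :
    IsAvatar (K := Kbar) Deg457.iotaC (analyticCore N).toHolBase u (twistedHol hc hU ^ p) := by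
  have hq : HasQExp 1 (fun τ => U τ ^ p) (qexpFun 1 (fun τ => U τ ^ p)) :=
    Fermat.Agent.S29.H882.hasQExp_of_mem_goodRing hu.1
  have hinf : InfExp N (fun τ => U τ ^ p)
      (qExpand ℂ N (coeffMap Deg457.iotaC ((u : FF N) : LaurentSeries Kbar))) := by
    rw [← hu.2]
    exact infExp_level_of_hasQExp hq
  exact (expInf_spec (holToExp N (twistedHol hc hU ^ p))).unique hinf

/-- **DICT-hard over `ℚ̄`, M4b language**: `p ∣ ord_v u` at every place of `FF N`. -/
theorem dvd_ord_of_realised {c : G0 N → ZMod p} (hc : IsParHom c) {U : ℍ → ℂ}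
    {u : FF N} (hU : IsTwisted N p c U) (hu : Realises N u (fun τ => U τ ^ p))
    (v : Place Kbar (FF N)) : (p : ℤ) ∣ v.ord u :=
  dvd_ord_of_isAvatar_pow (K := Kbar) (ι := Deg457.iotaC) (A := analyticCore N)
    (isUnramified_twistedHol hc hU) (isAvatar_of_realises hc hU hu) v

theorem ne_zero_of_realised {c : G0 N → ZMod p} (hc : IsParHom c) {U : ℍ → ℂ}
    {u : FF N} (hU : IsTwisted N p c U) (hu : Realises N u (fun τ => U τ ^ p)) : u ≠ 0 := by
  intro h0
  have hav := isAvatar_of_realises hc hU hu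
  have h1 : twistedHol hc hU ^ p = 0 := hav.eq_zero_iff.mpr h0
  have h2 : twistedHol hc hU = 0 := by
    apply (analyticCore N).toHolBase.qexp_injective
    have h3 := congrArg (analyticCore N).toHolBase.qexp h1
    rw [map_pow, map_zero] at h3
    rw [map_zero]
    exact pow_eq_zero_iff (NeZero.ne p) |>.mp h3
  obtain ⟨τ, hτ⟩ := hU.ne_zero
  apply hτ
  have := congrArg (fun f : (analyticCore N).Hol => (f : ℍ → ℂ) τ) h2
  simpa [coe_twistedHol] using this

variable (N p)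

/-- **PIECE `K2`** of the M4b skeleton (exact type). -/
theorem exists_isKummerClass_of_realised {c : G0 N → ZMod p} (hc : IsParHom c) {U : ℍ → ℂ}
    {u : FF N} (hU : IsTwisted N p c U) (hu : Realises N u (fun τ => U τ ^ p)) :
    ∃ x : JZero N, H455.IsKummerClass (p : ℤ) u x := by
  have hf : u ≠ 0 := ne_zero_of_realised hc hU hu
  haveI := Fermat.Agent.Lib.RR.H864.hasPrincipalDivisors_modularFunctionFieldBar N
  obtain ⟨D₀, hD₀, hdeg₀⟩ :=
    HasPrincipalDivisors.exists_divisor (K := AlgebraicClosure ℚ) u hf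
  obtain ⟨D, hdeg, hD⟩ := Fermat.Agent.S29.H389.exists_divisor_div p (NeZero.ne p) D₀
    (fun v => by
      rw [hD₀ v]
      exact dvd_ord_of_realised hc hU hu v)
    hdeg₀
  refine ⟨Pic0.mk ⟨D, hdeg⟩, hf, ⟨D, hdeg⟩, rfl, fun v => ?_⟩
  rw [hD v, hD₀ v]

end Fermat.Agent.S29.H282

end
end
-- ===== PACK-END S29/H282/K2.lean

-- ===== PACK-BEGIN S29/M4b/K3/DTo.lean
section
/-
S29 row, LAYER M, SUB-LAYER M4b, PIECE K3, sub-piece `K3-DTO` (helper42).
Namespace `Fermat.Agent.S29.M4b.K3`.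

`dto` : for a twisted function `U` of a parabolic character, the `q`-expansion `f = qexp (U ^ p)`
(an element of `F_ℂ = laurentBaseChange ℂ (modularFunctionFieldFull N)`) satisfies
`p ∣ ord_w f` at EVERY place `w` of `F_ℂ / ℂ`.

This is the landed generic-`K` dictionary `H282.dvd_ord_of_isAvatar_pow` at `K = ℂ`, `ι = id`.
-/



set_option autoImplicit false

noncomputable section

open ModularCurve AlgebraicCurve CongruenceSubgroup UpperHalfPlane
open scoped MatrixGroups Manifold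

namespace Fermat.Agent.S29.M4b.K3

open Fermat.Agent.S24 Fermat.Agent.S24.H997 Fermat.Agent.S24.H648 Fermat.Agent.S24.H708
open Fermat.Agent.S24.H624
open Fermat.Agent.S29 Fermat.Agent.S29.M4b Fermat.Agent.S29.H282

variable {N : ℕ} [NeZero N] {p : ℕ} [NeZero p]

/-- the avatar relation over `ℂ` -/
theorem isAvatar_of_qexp {c : G0 N → ZMod p} (hc : IsParHom c) {U : ℍ → ℂ}
    (hU : IsTwisted N p c U) {f : FFK ℂ N}
    (hf : (f : LaurentSeries ℂ) = qexpFun 1 (fun τ => U τ ^ p)) :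
    IsAvatar (K := ℂ) (RingHom.id ℂ) (analyticCore N).toHolBase f (twistedHol hc hU ^ p) := by
  have hq : HasQExp 1 (fun τ => U τ ^ p) (qexpFun 1 (fun τ => U τ ^ p)) :=
    Fermat.Agent.S29.H882.hasQExp_of_mem_goodRing hU.pow_mem
  have hinf : InfExp N (fun τ => U τ ^ p)
      (qExpand ℂ N (coeffMap (RingHom.id ℂ) ((f : FFK ℂ N) : LaurentSeries ℂ))) := by
    rw [coeffMap_id, hf]
    exact infExp_level_of_hasQExp hq
  exact (expInf_spec (holToExp N (twistedHol hc hU ^ p))).unique hinf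

/-- **K3-DTO.**  `p ∣ ord_w (qexp (U ^ p))` at every place `w` of `F_ℂ`. -/
theorem dto {c : G0 N → ZMod p} (hc : IsParHom c) {U : ℍ → ℂ}
    (hU : IsTwisted N p c U) {f : FC N}
    (hf : (f : LaurentSeries ℂ) = qexpFun 1 (fun τ => U τ ^ p))
    (w : Place ℂ (FC N)) : (p : ℤ) ∣ w.ord f :=
  dvd_ord_of_isAvatar_pow (K := ℂ) (ι := RingHom.id ℂ) (A := analyticCore N)
    (isUnramified_twistedHol hc hU) (isAvatar_of_qexp hc hU hf) w

end Fermat.Agent.S29.M4b.K3

end
end
-- ===== PACK-END S29/M4b/K3/DTo.lean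

-- ===== PACK-BEGIN S29/M4b/K3/Fin.lean
section
/-
S29 row, LAYER M, SUB-LAYER M4b, PIECE K3, sub-piece `K3-FIN` (helper42).
Namespace `Fermat.Agent.S29.M4b.K3`.

`finStatement_of_dfrom : DFromStatement N p → FinStatement N p`.

`FinStatement` (= hypothesis `horb` of `H152.desc_main` for `f = qexp (U ^ p)`) is proved from
the single remaining analytic input `DFromStatement N p` ("DICT-easy + ROOT over `ℂ`"):
every `x ∈ F_ℂˣ` whose divisor is divisible by `p` is, up to a `p`-th power of `F_ℂˣ`, the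
`q`-expansion of the `p`-th power of a holomorphic function `V` on `ℍ` with `V ^ p` good.

Steps (`f = qexp (U ^ p)`):
* `dto` (file `DTo.lean`): `p ∣ ord_w f` at every place `w` of `F_ℂ`;
* transport: `σ ∈ Aut(ℂ/ℚ̄)` acts semilinearly on `F_ℂ` (Prelude `arithmeticGalois`) and permutes
  the places (`SemilinearAut.ord_smul`), so `p ∣ ord_w (σ f)` for all `w`;
* `DFromStatement` gives `V_σ` with `qexp (V_σ ^ p) = σ f * s_σ ^ p`;
* `V_σ` has a character `κ_σ : Γ₀(N) →* ℂˣ`, `κ_σ ^ p = 1` (`H942.exists_kummerChar`);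
* there are finitely many such characters (`Γ₀(N)` is finitely generated): `finite_pChar`;
* equal characters give equal classes modulo `p`-th powers: `exists_pow_mul_eq_of_sameChar`.
-/




set_option autoImplicit false
set_option linter.style.haveILetI false

noncomputable section

open ModularCurve AlgebraicCurve CongruenceSubgroup UpperHalfPlane
open scoped MatrixGroups Manifold

namespace Fermat.Agent.S29.M4b.K3

open Fermat.Agent.S24 Fermat.Agent.S24.H648 Fermat.Agent.S24.H708 Fermat.Agent.S24.Deg457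
open Fermat.Agent.S29 Fermat.Agent.S29.M4b

/-- SUB-PIECE `K3-DFROM` ("DICT-easy + ROOT over `ℂ`"): an element `f ≠ 0` of `F_ℂ` all of whose
orders are divisible by `p` is, up to the `p`-th power of a nonzero element `s` of `F_ℂ`, the
`q`-expansion of `V ^ p` for a holomorphic `V : ℍ → ℂ` with `V ^ p` good. -/
def DFromStatement (N p : ℕ) : Prop :=
  ∀ f : FC N, f ≠ 0 → (∀ w : Place ℂ (FC N), (p : ℤ) ∣ w.ord f) →
    ∃ s : LaurentSeries ℂ, s ∈ FC N ∧ s ≠ 0 ∧ ∃ V : ℍ → ℂ, MDifferentiable 𝓘(ℂ) 𝓘(ℂ) V ∧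
      (fun τ => V τ ^ p) ∈ goodRing N ∧
      qexpFun 1 (fun τ => V τ ^ p) = (f : LaurentSeries ℂ) * s ^ p

variable {N : ℕ} [NeZero N] {p : ℕ} [NeZero p]

/-- There are finitely many characters `Γ₀(N) →* ℂˣ` of exponent `p`. -/
theorem finite_pChar (N : ℕ) [NeZero N] (p : ℕ) [NeZero p] :
    Finite {κ : Gamma0 N →* ℂˣ // ∀ γ, κ γ ^ p = 1} := by
  classical
  haveI : Group.FG SL(2, ℤ) := Group.fg_iff.mpr ⟨{ModularGroup.S, ModularGroup.T},
    SpecialLinearGroup.SL2Z_generators, by simp⟩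
  haveI : Group.FG (Gamma0 N) := inferInstance
  obtain ⟨S, hS, hSfin⟩ := Group.fg_iff.mp (inferInstance : Group.FG (Gamma0 N))
  haveI : Finite S := hSfin
  let Φ : {κ : Gamma0 N →* ℂˣ // ∀ γ, κ γ ^ p = 1} → (S → rootsOfUnity p ℂ) :=
    fun κ s => ⟨κ.1 s, (mem_rootsOfUnity p _).mpr (κ.2 s)⟩
  refine Finite.of_injective Φ ?_
  intro κ₁ κ₂ h
  apply Subtype.ext
  apply MonoidHom.eq_of_eqOn_dense hS
  intro x hx
  have := congrFun h ⟨x, hx⟩
  exact congrArg Subtype.val this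

/-- Two holomorphic functions with good `p`-th powers and the SAME character have `p`-th powers
whose `q`-expansions differ by a `p`-th power of `F_ℂ`. -/
theorem exists_pow_mul_eq_of_sameChar {V₁ V₂ : ℍ → ℂ} (κ : Gamma0 N →* ℂˣ)
    (hκ : ∀ γ, κ γ ^ p = 1)
    (h1m : MDifferentiable 𝓘(ℂ) 𝓘(ℂ) V₁) (h2m : MDifferentiable 𝓘(ℂ) 𝓘(ℂ) V₂)
    (h1 : ∀ (γ : Gamma0 N) (τ : ℍ), V₁ ((γ : SL(2, ℤ)) • τ) = ((κ γ : ℂˣ) : ℂ) * V₁ τ)
    (h2 : ∀ (γ : Gamma0 N) (τ : ℍ), V₂ ((γ : SL(2, ℤ)) • τ) = ((κ γ : ℂˣ) : ℂ) * V₂ τ)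
    (h1g : (fun τ => V₁ τ ^ p) ∈ goodRing N) (h2g : (fun τ => V₂ τ ^ p) ∈ goodRing N)
    (h1ne : qexpFun 1 (fun τ => V₁ τ ^ p) ≠ 0) (h2ne : qexpFun 1 (fun τ => V₂ τ ^ p) ≠ 0) :
    ∃ g : LaurentSeries ℂ, g ∈ FC N ∧ g ≠ 0 ∧
      qexpFun 1 (fun τ => V₁ τ ^ p) = g ^ p * qexpFun 1 (fun τ => V₂ τ ^ p) := by
  have hp : p ≠ 0 := NeZero.ne p
  have hp1 : p - 1 + 1 = p := Nat.sub_add_cancel (Nat.one_le_iff_ne_zero.mpr hp)
  set W : ℍ → ℂ := fun τ => V₁ τ * V₂ τ ^ (p - 1) with hWdef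
  have hfun : (fun τ => W τ ^ p) = (fun τ => V₁ τ ^ p) * (fun τ => V₂ τ ^ p) ^ (p - 1) := by
    funext τ
    simp only [hWdef, Pi.mul_apply, Pi.pow_apply]
    rw [mul_pow, ← pow_mul, ← pow_mul, mul_comm (p - 1) p]
  have hWinv : ∀ γ ∈ Gamma0 N, ∀ τ : ℍ, W (γ • τ) = W τ := by
    intro γ hγ τ
    have e1 := h1 ⟨γ, hγ⟩ τ
    have e2 := h2 ⟨γ, hγ⟩ τ
    simp only at e1 e2
    simp only [hWdef]
    rw [e1, e2, mul_pow]
    have hk : ((κ ⟨γ, hγ⟩ : ℂˣ) : ℂ) * ((κ ⟨γ, hγ⟩ : ℂˣ) : ℂ) ^ (p - 1) = 1 := by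
      rw [← pow_succ', hp1]
      have h3 := congrArg (fun u : ℂˣ => (u : ℂ)) (hκ ⟨γ, hγ⟩)
      simpa using h3
    calc ((κ ⟨γ, hγ⟩ : ℂˣ) : ℂ) * V₁ τ * (((κ ⟨γ, hγ⟩ : ℂˣ) : ℂ) ^ (p - 1) * V₂ τ ^ (p - 1))
        = (((κ ⟨γ, hγ⟩ : ℂˣ) : ℂ) * ((κ ⟨γ, hγ⟩ : ℂˣ) : ℂ) ^ (p - 1)) *
            (V₁ τ * V₂ τ ^ (p - 1)) := by ring
      _ = V₁ τ * V₂ τ ^ (p - 1) := by rw [hk, one_mul]
  have hW : W ∈ goodRing N := by
    refine H942.mem_goodRing_of_pow_mem N hp (h1m.mul (h2m.pow (p - 1))) hWinv ?_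
    rw [hfun]
    exact (goodRing N).mul_mem h1g ((goodRing N).pow_mem h2g _)
  have hWm := H882.isMerInf_of_mem_goodRing hW
  have h1M := H882.isMerInf_of_mem_goodRing h1g
  have h2M := H882.isMerInf_of_mem_goodRing h2g
  set w := qexpFun 1 W with hw
  set a := qexpFun 1 (fun τ => V₁ τ ^ p) with ha
  set b := qexpFun 1 (fun τ => V₂ τ ^ p) with hb
  have hwFC : w ∈ FC N := H882.qexpFun_mem_FC hW
  have hbFC : b ∈ FC N := H882.qexpFun_mem_FC h2g
  have hwp : w ^ p = a * b ^ (p - 1) := by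
    have hfun' : W ^ p = (fun τ => V₁ τ ^ p) * (fun τ => V₂ τ ^ p) ^ (p - 1) := hfun
    rw [hw, ← H942.qexpFun_pow' hWm p, hfun', qexpFun_mul h1M (h2M.pow (p - 1)),
      H942.qexpFun_pow' h2M (p - 1)]
  refine ⟨w * b⁻¹, mul_mem hwFC (inv_mem hbFC), ?_, ?_⟩
  · refine mul_ne_zero ?_ (inv_ne_zero h2ne)
    intro h0
    rw [h0, zero_pow hp] at hwp
    exact mul_ne_zero h1ne (pow_ne_zero _ h2ne) hwp.symm
  · rw [mul_pow, hwp, inv_pow]
    have hbp : b ^ p = b ^ (p - 1) * b := by rw [← pow_succ, hp1]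
    rw [hbp, mul_inv]
    field_simp

/-- Representatives of the fibres of a map to a finite type. -/
theorem exists_finset_fibre_rep {G X : Type*} [Finite X] (χ : G → X) :
    ∃ s : Finset G, ∀ g : G, ∃ h ∈ s, χ g = χ h := by
  classical
  haveI : Fintype (Set.range χ) := Fintype.ofFinite _
  let r : Set.range χ → G := fun x => x.2.choose
  have hr : ∀ x : Set.range χ, χ (r x) = x := fun x => x.2.choose_spec
  refine ⟨Finset.univ.image r, fun g => ⟨r ⟨χ g, g, rfl⟩, ?_, ?_⟩⟩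
  · exact Finset.mem_image_of_mem _ (Finset.mem_univ _)
  · exact (hr ⟨χ g, g, rfl⟩).symm

/-- **K3-FIN from K3-DFROM.** -/
theorem finStatement_of_dfrom (N : ℕ) [NeZero N] (p : ℕ) [NeZero p]
    (hd : DFromStatement N p) : FinStatement N p := by
  letI := algKC
  intro c hc U hU
  classical
  have hp : p ≠ 0 := NeZero.ne p
  set a : LaurentSeries ℂ := qexpFun 1 (fun τ => U τ ^ p) with ha
  have haFC : a ∈ FC N := H882.qexpFun_mem_FC hU.pow_mem
  have ha0 : a ≠ 0 := H942.qexpFun_pow_ne_zero_of_isTwisted N p hU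
  set f₀ : FC N := ⟨a, haFC⟩ with hf₀def
  have hf₀ : f₀ ≠ 0 := fun h => ha0 (congrArg Subtype.val h)
  have hdvd : ∀ w : Place ℂ (FC N), (p : ℤ) ∣ w.ord f₀ := fun w => dto hc hU rfl w
  -- the data attached to each `σ`
  have key : ∀ σ : ℂ ≃ₐ[Kbar] ℂ, ∃ (s : LaurentSeries ℂ) (V : ℍ → ℂ)
      (κ : {κ : Gamma0 N →* ℂˣ // ∀ γ, κ γ ^ p = 1}), s ∈ FC N ∧ s ≠ 0 ∧
      MDifferentiable 𝓘(ℂ) 𝓘(ℂ) V ∧ (fun τ => V τ ^ p) ∈ goodRing N ∧
      (∀ (γ : Gamma0 N) (τ : ℍ), V ((γ : SL(2, ℤ)) • τ) = ((κ.1 γ : ℂˣ) : ℂ) * V τ) ∧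
      qexpFun 1 (fun τ => V τ ^ p) ≠ 0 ∧
      qexpFun 1 (fun τ => V τ ^ p) = coeffMap (σ : ℂ →+* ℂ) a * s ^ p := by
    intro σ
    set g : SemilinearAut ℂ (FC N) :=
      arithmeticGalois (modularFunctionFieldFull N) (σ.toRingEquiv.toRatAlgEquiv) with hg
    have hcoe : ((g • f₀ : FC N) : LaurentSeries ℂ) = coeffMap (σ : ℂ →+* ℂ) a := rfl
    have hne : g • f₀ ≠ 0 := (smul_ne_zero_iff_ne g).mpr hf₀
    have hdvd' : ∀ w : Place ℂ (FC N), (p : ℤ) ∣ w.ord (g • f₀) := by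
      intro w
      have h := SemilinearAut.ord_smul g (g⁻¹ • w) f₀
      rw [smul_inv_smul] at h
      rw [h]
      exact hdvd _
    obtain ⟨s, hs, hs0, V, hVm, hVg, hq⟩ := hd (g • f₀) hne hdvd'
    rw [hcoe] at hq
    have hqne : qexpFun 1 (fun τ => V τ ^ p) ≠ 0 := by
      rw [hq]
      refine mul_ne_zero ?_ (pow_ne_zero _ hs0)
      rw [← hcoe]
      exact fun h => hne (Subtype.ext h)
    have hV0 : V ≠ 0 := by
      intro h0
      apply hqne
      have : (fun τ => V τ ^ p) = 0 := by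
        funext τ
        rw [h0]
        simp [hp]
      rw [this]
      exact (qexpFun_eq_zero_iff (H882.isMerInf_of_mem_goodRing
        (by rw [← this]; exact hVg))).mpr rfl
    obtain ⟨κ, hκ, hVκ⟩ := H942.exists_kummerChar (Gamma0 N) hVm hV0 hp
      (fun γ hγ z => hVg.2.1 γ hγ z)
    exact ⟨s, V, ⟨κ, hκ⟩, hs, hs0, hVm, hVg, hVκ, hqne, hq⟩
  choose s V κ hs hs0 hVm hVg hVκ hqne hq using key
  haveI := finite_pChar N p
  obtain ⟨R, hR⟩ := exists_finset_fibre_rep κ
  refine ⟨(fun σ : ℂ ≃ₐ[Kbar] ℂ => coeffMap (σ : ℂ →+* ℂ) a) '' (R : Set (ℂ ≃ₐ[Kbar] ℂ)),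
    R.finite_toSet.image _, fun σ => ?_⟩
  obtain ⟨h, hhR, hκeq⟩ := hR σ
  refine ⟨coeffMap (h : ℂ →+* ℂ) a, ⟨h, hhR, rfl⟩, ?_⟩
  have h2 := hVκ h
  rw [← hκeq] at h2
  obtain ⟨g, hg, hg0, hgeq⟩ := exists_pow_mul_eq_of_sameChar (κ σ).1 (κ σ).2 (hVm σ) (hVm h)
    (hVκ σ) h2 (hVg σ) (hVg h) (hqne σ) (hqne h)
  rw [hq σ, hq h] at hgeq
  refine ⟨g * s h * (s σ)⁻¹, mul_mem (mul_mem hg (hs h)) (inv_mem (hs σ)),
    mul_ne_zero (mul_ne_zero hg0 (hs0 h)) (inv_ne_zero (hs0 σ)), ?_⟩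
  have hsp : s σ ^ p ≠ 0 := pow_ne_zero _ (hs0 σ)
  rw [mul_pow, mul_pow, inv_pow]
  field_simp
  rw [hgeq]
  ring

end Fermat.Agent.S29.M4b.K3

end
end
-- ===== PACK-END S29/M4b/K3/Fin.lean

-- ===== PACK-BEGIN S29/H282/DictEasy.lean
section


/-!
# S29 / M4b-K2 (helper282) — the places dictionary, easy direction (DICT-easy)

For every `τ ∈ ℍ` with `j(τ) ∈ ι(K)` the Taylor expansion at `τ` of the avatar defines a place
`placeAtTau` of `FFK K N / K`, and `ord_τ (avatar of f) = k · ord_w f` with `k > 0`.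
Hence: if `m ∣ ord_w f` for every place `w`, then `m ∣ ord_τ h` for the avatar `h` of `f`, at
every such `τ` (for `K = ℂ`: at every `τ ∈ ℍ`).
-/

set_option autoImplicit false

noncomputable section

open ModularCurve HahnSeries UpperHalfPlane AlgebraicCurve IntermediateField
open scoped MatrixGroups Manifold

namespace Fermat.Agent.S29.H282

open Fermat.Agent.S24 Fermat.Agent.S24.H997 Fermat.Agent.S24.Deg457 Fermat.Agent.S24.H624

variable {K : Type*} [Field K] [Algebra ℚ K] (ι : K →+* ℂ)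
variable {N : ℕ} [NeZero N] (B : HolBase N) (hB : B.IsHolo)

/-- the embedding "Taylor expansion at `τ` of the avatar" -/
def sigmaTau (τ : ℍ) : FFK K N →+* LaurentSeries ℂ :=
  sigmaGK ι B (B.taylorExpansion hB τ) 1

variable {ι B}

theorem IsAvatar.sigmaTau_eq {f : FFK K N} {h : B.Hol} (hav : IsAvatar ι B f h) (τ : ℍ) :
    sigmaTau ι B hB τ f = (B.taylorExpansion hB τ).E h := by
  rw [sigmaTau, hav.sigmaGK_eq, inv_one, B.compH_one]

theorem order_taylorExpansion {h : B.Hol} (hh : h ≠ 0) (τ : ℍ) :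
    ((B.taylorExpansion hB τ).E h).order = ((ordAt τ (h : ℍ → ℂ)).toNat : ℤ) := by
  have h0 : B.toHolo hB h ≠ 0 := fun h1 =>
    hh (B.toHolo_injective hB (h1.trans (map_zero _).symm))
  rw [HolBase.taylorExpansion_E, order_laurentAt_algebraMap τ h0]
  rfl

theorem IsAvatar.order_sigmaTau {f : FFK K N} {h : B.Hol} (hav : IsAvatar ι B f h)
    (hh : h ≠ 0) (τ : ℍ) :
    (sigmaTau ι B hB τ f).order = ((ordAt τ (h : ℍ → ℂ)).toNat : ℤ) := by
  rw [hav.sigmaTau_eq hB τ, order_taylorExpansion hB hh τ]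

variable (ι B)

theorem eord_sigmaTau_const (τ : ℍ) (c : K) :
    0 ≤ H117.eord (sigmaTau ι B hB τ) (algebraMap K (FFK K N) c) := by
  show 0 ≤ (sigmaGK ι B (B.taylorExpansion hB τ) 1 (algebraMap K (FFK K N) c)).order
  rw [sigmaGK_algebraMap, HahnSeries.order_C]

theorem JH_one_sub_constH_ne_zero (c : ℂ) : B.JH 1 (one_dvd N) - B.constH c ≠ 0 := by
  intro h0
  have h1 : B.JH 1 (one_dvd N) = B.constH c := sub_eq_zero.mp h0
  have h2 := B.order_qexp_J_one
  rw [h1] at h2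
  have h3 : (B.qexp (B.constH c)).order = 0 := by
    show (B.qexp ⟨_, B.const_mem c⟩).order = 0
    rw [B.qexp_const, HahnSeries.order_C]
  rw [h3] at h2
  have hN : (0 : ℤ) < N := by exact_mod_cast Nat.pos_of_ne_zero (NeZero.ne N)
  omega

theorem sigmaTau_jFK_sub (τ : ℍ) (a : K) :
    sigmaTau ι B hB τ (jFK K N - algebraMap K (FFK K N) a)
      = (B.taylorExpansion hB τ).E (B.JH 1 (one_dvd N) - B.constH (ι a)) := by
  rw [sigmaTau, map_sub, sigmaGK_jFK, sigmaGK_algebraMap, map_sub, (B.taylorExpansion hB τ).const]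

theorem exists_eord_sigmaTau_ne_zero (τ : ℍ) (a : K) (ha : ι a = B.J 1 τ) :
    ∃ t : FFK K N, H117.eord (sigmaTau ι B hB τ) t ≠ 0 := by
  refine ⟨jFK K N - algebraMap K (FFK K N) a, ?_⟩
  show (sigmaTau ι B hB τ (jFK K N - algebraMap K (FFK K N) a)).order ≠ 0
  rw [sigmaTau_jFK_sub, order_taylorExpansion hB (JH_one_sub_constH_ne_zero B (ι a)) τ]
  have hne := JH_one_sub_constH_ne_zero B (ι a)
  set g : B.Hol := B.JH 1 (one_dvd N) - B.constH (ι a) with hg
  have hmd : MDiff (g : ℍ → ℂ) := hB.mdiff _ g.2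
  have hg0 : (g : ℍ → ℂ) ≠ 0 := fun h => hne (Subtype.ext h)
  have htop : ordAt τ (g : ℍ → ℂ) ≠ ⊤ := ordAt_ne_top hmd hg0 τ
  have hval : (g : ℍ → ℂ) τ = 0 := by
    show B.J 1 τ - ι a = 0
    rw [ha, sub_self]
  have hz : ordAt τ (g : ℍ → ℂ) ≠ 0 := fun h => (ordAt_eq_zero_iff hmd τ).mp h hval
  intro h0
  have h1 : (ordAt τ (g : ℍ → ℂ)).toNat = 0 := by exact_mod_cast h0
  rcases (ENat.toNat_eq_zero).mp h1 with h | h
  · exact hz h
  · exact htop h

/-- **The place of `FFK K N / K` at a point `τ ∈ ℍ`** with `j(τ) = ι a`. -/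
def placeAtTau (τ : ℍ) (a : K) (ha : ι a = B.J 1 τ) : Place K (FFK K N) :=
  H117.placeOfEmb (sigmaTau ι B hB τ) (eord_sigmaTau_const ι B hB τ)
    (exists_eord_sigmaTau_ne_zero ι B hB τ a ha)

theorem exists_mult_placeAtTau (τ : ℍ) (a : K) (ha : ι a = B.J 1 τ) :
    ∃ k : ℕ, 0 < k ∧ ∀ f : FFK K N,
      (sigmaTau ι B hB τ f).order = k * (placeAtTau ι B hB τ a ha).ord f :=
  H117.exists_mult (sigmaTau ι B hB τ) _ _

variable {ι B}

/-- `ord_τ h = k · ord_w f` for the avatar `h` of `f`. -/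
theorem IsAvatar.exists_ordAt_eq {f : FFK K N} {h : B.Hol} (hav : IsAvatar ι B f h)
    (hh : h ≠ 0) (τ : ℍ) (a : K) (ha : ι a = B.J 1 τ) :
    ∃ k : ℕ, 0 < k ∧
      ((ordAt τ (h : ℍ → ℂ)).toNat : ℤ) = k * (placeAtTau ι B hB τ a ha).ord f := by
  obtain ⟨k, hk, hkf⟩ := exists_mult_placeAtTau ι B hB τ a ha
  exact ⟨k, hk, by rw [← hkf f, hav.order_sigmaTau hB hh τ]⟩

include hB in
/-- **DICT-easy.**  If `m ∣ ord_w f` at every place `w` of `FFK K N / K`, then `m` divides the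
order of vanishing of the avatar `h` of `f` at every `τ ∈ ℍ` with `j(τ) ∈ ι(K)`. -/
theorem IsAvatar.exists_ordAt_eq_mul {f : FFK K N} {h : B.Hol} (hav : IsAvatar ι B f h)
    (hh : h ≠ 0) {m : ℕ} (hdvd : ∀ w : Place K (FFK K N), (m : ℤ) ∣ w.ord f)
    (τ : ℍ) (a : K) (ha : ι a = B.J 1 τ) :
    ∃ k : ℕ, ordAt τ (h : ℍ → ℂ) = ((m * k : ℕ) : ℕ∞) := by
  obtain ⟨k, -, hk⟩ := hav.exists_ordAt_eq hB hh τ a ha
  have hmd : MDiff (h : ℍ → ℂ) := hB.mdiff _ h.2
  have hh0 : (h : ℍ → ℂ) ≠ 0 := fun h0 => hh (Subtype.ext h0)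
  have htop : ordAt τ (h : ℍ → ℂ) ≠ ⊤ := ordAt_ne_top hmd hh0 τ
  have h1 : (m : ℤ) ∣ ((ordAt τ (h : ℍ → ℂ)).toNat : ℤ) := by
    rw [hk]
    exact Dvd.dvd.mul_left (hdvd _) _
  obtain ⟨l, hl⟩ := Int.natCast_dvd_natCast.mp h1
  refine ⟨l, ?_⟩
  rw [← hl, ENat.natCast_toNat htop]

end Fermat.Agent.S29.H282

end
end
-- ===== PACK-END S29/H282/DictEasy.lean

-- ===== PACK-BEGIN S29/H282/DictC.lean
section




/-!
# S29 / M4b / K3 (helper282) — the dictionary over `ℂ` (and any alg. closed `K ⊆ ℂ`), K3 language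

Sub-pieces (F1) and (F4) of helper42's K3 sub-skeleton (`coord/S29-K3.md`):

* `mem_holN_of_mem_goodRing`       : a good function lies in the S24 ring `holN N`;
* `isAvatar_of_hasQExp`            : `G ∈ holN N` with `q`-expansion `coeffMap ι f` is an avatar of `f`;
* `dvd_ord_of_isTwisted` (**F1**, generic `K`) and `dvd_ord_of_isTwisted_complex` (**F1**, `K = ℂ`):
  `U` twisted of a parabolic+elliptic-trivial character, `f = qexp (U ^ p) ∈ F_K`
  ⟹ `p ∣ ord_w f` at EVERY place `w` of `F_K / K`;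
* `exists_ordAt_eq_mul_of_forall_dvd_ord` (**DICT-easy**, `K = ℂ`) and
  `exists_pow_eq_of_forall_dvd_ord` (**F4** = DICT-easy + ROOT): `G` good, `G ≢ 0`,
  `m ∣ ord_w (qexp G)` at every place `w` of `F_ℂ / ℂ` ⟹ `G = V ^ m`, `V` holomorphic on `ℍ`.
-/

set_option autoImplicit false

noncomputable section

open ModularCurve AlgebraicCurve CongruenceSubgroup UpperHalfPlane
open scoped MatrixGroups Manifold Real

namespace Fermat.Agent.S29.H282

open Fermat.Agent.S24 Fermat.Agent.S24.H997 Fermat.Agent.S24.H648 Fermat.Agent.S24.H708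
open Fermat.Agent.S24.H624
open Fermat.Agent.S29 Fermat.Agent.S29.M4b Fermat.Agent.S29.H332

variable {N : ℕ} [NeZero N]

/-- the translates of a `Γ₀(N)`-invariant function are `N`-periodic -/
theorem periodic_compSL_of_invariant {G : ℍ → ℂ}
    (hinv : ∀ γ ∈ Gamma0 N, ∀ τ : ℍ, G (γ • τ) = G τ) (g : SL(2, ℤ)) :
    Function.Periodic (compSL g G ∘ ofComplex) (N : ℝ) := by
  have hh : HasCharacter (1 : CongruenceSubgroup.Gamma0 N →* ℂˣ) G := by
    intro γ τ
    rw [hinv γ γ.2 τ]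
    simp
  have hχ : ParTrivial (1 : CongruenceSubgroup.Gamma0 N →* ℂˣ) := fun _ _ => rfl
  exact hh.periodic hχ g N (by simpa using conj_T_zpow_mem_Gamma0 N g 1)

/-- **A good function lies in `holN N`.** -/
theorem mem_holN_of_mem_goodRing {G : ℍ → ℂ} (hG : G ∈ goodRing N) : G ∈ holN N := by
  obtain ⟨hmd, hinv, hgr⟩ := hG
  refine ⟨hmd, fun g => ?_⟩
  have hhol : MDiff (compSL g G) := (precompSL g ⟨G, hmd⟩).2
  have hmer : IsMerInf N (compSL g G) :=
    ⟨hhol, periodic_compSL_of_invariant hinv g, isBounded_mul_qh_pow_level N (hgr g)⟩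
  have hq := HasQExp.of_isMerInf hmer
  have hinf : InfExp N (compSL g G) (qexpFun N (compSL g G)) := fun τ => hq.hasSum τ
  exact hinf.mem_expRing

section Generic

variable {K : Type*} [Field K] [Algebra ℚ K] (ι : K →+* ℂ)

/-- a function of `holN N` whose `q`-expansion is `coeffMap ι f` is an avatar of `f` -/
theorem isAvatar_of_hasQExp {G : ℍ → ℂ} (hG : G ∈ holN N) {f : FFK K N}
    (hq : HasQExp 1 G (coeffMap ι (f : LaurentSeries K))) :
    IsAvatar ι (analyticCore N).toHolBase f (⟨G, hG⟩ : (analyticCore N).Hol) := by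
  have hinf : InfExp N G (qExpand ℂ N (coeffMap ι (f : LaurentSeries K))) :=
    infExp_level_of_hasQExp hq
  exact (expInf_spec (holToExp N (⟨G, hG⟩ : holN N))).unique hinf

theorem isAvatar_of_mem_goodRing {G : ℍ → ℂ} (hG : G ∈ goodRing N) {f : FFK K N}
    (hq : qexpFun 1 G = coeffMap ι (f : LaurentSeries K)) :
    IsAvatar ι (analyticCore N).toHolBase f
      (⟨G, mem_holN_of_mem_goodRing hG⟩ : (analyticCore N).Hol) :=
  isAvatar_of_hasQExp ι _ (hq ▸ Fermat.Agent.S29.H882.hasQExp_of_mem_goodRing hG)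

variable {p : ℕ} [NeZero p]

/-- **(F1), generic `K`**: DICT-hard for twisted functions. -/
theorem dvd_ord_of_isTwisted [IsAlgClosed K] {c : G0 N → ZMod p} (hc : IsParHom c)
    {U : ℍ → ℂ} (hU : IsTwisted N p c U) {f : FFK K N}
    (hq : qexpFun 1 (fun τ => U τ ^ p) = coeffMap ι (f : LaurentSeries K))
    (w : Place K (FFK K N)) : (p : ℤ) ∣ w.ord f := by
  have hav : IsAvatar ι (analyticCore N).toHolBase f
      ((⟨U, mem_holN_of_isTwisted hc hU⟩ : (analyticCore N).Hol) ^ p) :=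
    isAvatar_of_hasQExp ι (G := fun τ => U τ ^ p)
      (pow_mem (mem_holN_of_isTwisted hc hU) p)
      (hq ▸ Fermat.Agent.S29.H882.hasQExp_of_mem_goodRing hU.pow_mem)
  have hinv : IsUnramified (analyticCore N).toHolBase
      (⟨U, mem_holN_of_isTwisted hc hU⟩ : (analyticCore N).Hol) := by
    intro γ hγ hsp
    apply Subtype.ext
    funext τ
    show U (γ • τ) = U τ
    have h := hU.hasChar ⟨γ, hγ⟩ τ
    have h0 : c ⟨γ, hγ⟩ = 0 := by
      rcases hsp with ⟨n, hn, h⟩ | h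
      · exact hc.elliptic ⟨γ, hγ⟩ n hn (Subtype.ext (by simpa using h))
      · exact hc.parabolic ⟨γ, hγ⟩ (Or.inl h)
    rw [h0] at h
    simpa using h
  exact dvd_ord_of_isAvatar_pow hinv hav w

/-- **DICT-easy, generic `K`**, for good functions: at every `τ` with `j(τ) ∈ ι(K)`. -/
theorem exists_ordAt_eq_mul_of_forall_dvd_ord_at {G : ℍ → ℂ} (hG : G ∈ goodRing N)
    (hG0 : G ≠ 0) {f : FFK K N} (hq : qexpFun 1 G = coeffMap ι (f : LaurentSeries K))
    {m : ℕ} (hdvd : ∀ w : Place K (FFK K N), (m : ℤ) ∣ w.ord f)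
    (τ : ℍ) (a : K) (ha : ι a = JFun.jFun τ) :
    ∃ k : ℕ, analyticOrderAt (G ∘ ofComplex) (τ : ℂ) = ((m * k : ℕ) : ℕ∞) := by
  have hav := isAvatar_of_mem_goodRing ι hG hq
  have hh : (⟨G, mem_holN_of_mem_goodRing hG⟩ : (analyticCore N).Hol) ≠ 0 := fun h0 =>
    hG0 (congrArg Subtype.val h0)
  have ha' : ι a = (analyticCore N).toHolBase.J 1 τ := by
    rw [ha]
    show JFun.jFun τ = Jd 1 τ
    rw [Jd_one]
    rfl
  exact hav.exists_ordAt_eq_mul (holBase_isHolo N) hh hdvd τ a ha'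

end Generic

/-! ### `K = ℂ` -/

section Complex

variable {p : ℕ} [NeZero p]

/-- **(F1)**: DICT-hard over `ℂ`.  `f = qexp (U ^ p)` as an element of `F_ℂ`. -/
theorem dvd_ord_of_isTwisted_complex {c : G0 N → ZMod p} (hc : IsParHom c)
    {U : ℍ → ℂ} (hU : IsTwisted N p c U)
    (hf : qexpFun 1 (fun τ => U τ ^ p) ∈ laurentBaseChange ℂ (modularFunctionFieldFull N))
    (w : Place ℂ ↥(laurentBaseChange ℂ (modularFunctionFieldFull N))) :
    (p : ℤ) ∣ w.ord ⟨qexpFun 1 (fun τ => U τ ^ p), hf⟩ :=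
  dvd_ord_of_isTwisted (K := ℂ) (RingHom.id ℂ) hc hU
    (f := ⟨qexpFun 1 (fun τ => U τ ^ p), hf⟩) (coeffMap_id _).symm w

/-- **DICT-easy over `ℂ`**: `G` good, `m ∣ ord_w (qexp G)` at every place of `F_ℂ/ℂ` ⟹
`m ∣ ord_τ G` at every `τ ∈ ℍ` (the exact hypothesis of `H751.exists_pow_eq_UHP`). -/
theorem exists_ordAt_eq_mul_of_forall_dvd_ord {G : ℍ → ℂ} (hG : G ∈ goodRing N) (hG0 : G ≠ 0)
    (hf : qexpFun 1 G ∈ laurentBaseChange ℂ (modularFunctionFieldFull N)) {m : ℕ}
    (hdvd : ∀ w : Place ℂ ↥(laurentBaseChange ℂ (modularFunctionFieldFull N)),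
      (m : ℤ) ∣ w.ord ⟨qexpFun 1 G, hf⟩) (τ : ℍ) :
    ∃ k : ℕ, analyticOrderAt (G ∘ ofComplex) (τ : ℂ) = ((m * k : ℕ) : ℕ∞) :=
  exists_ordAt_eq_mul_of_forall_dvd_ord_at (K := ℂ) (RingHom.id ℂ) hG hG0
    (f := ⟨qexpFun 1 G, hf⟩) (coeffMap_id _).symm hdvd τ (JFun.jFun τ) rfl

/-- **(F4)** = DICT-easy + ROOT: a good function all of whose orders at the places of `F_ℂ/ℂ`
are divisible by `m` is the `m`-th power of a holomorphic function on `ℍ`. -/
theorem exists_pow_eq_of_forall_dvd_ord {G : ℍ → ℂ} (hG : G ∈ goodRing N) (hG0 : G ≠ 0)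
    (hf : qexpFun 1 G ∈ laurentBaseChange ℂ (modularFunctionFieldFull N)) {m : ℕ} (hm : m ≠ 0)
    (hdvd : ∀ w : Place ℂ ↥(laurentBaseChange ℂ (modularFunctionFieldFull N)),
      (m : ℤ) ∣ w.ord ⟨qexpFun 1 G, hf⟩) :
    ∃ V : ℍ → ℂ, MDifferentiable 𝓘(ℂ) 𝓘(ℂ) V ∧ ∀ τ : ℍ, V τ ^ m = G τ :=
  Fermat.Agent.S29.H751.exists_pow_eq_UHP hG.1 m hm
    (fun τ => exists_ordAt_eq_mul_of_forall_dvd_ord hG hG0 hf hdvd τ)

end Complex

end Fermat.Agent.S29.H282

end
end
-- ===== PACK-END S29/H282/DictC.lean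

-- ===== PACK-BEGIN S29/H282/DFrom.lean
section



/-!
# S29 / M4b / K3-DFROM (helper282)

`exists_root_of_forall_dvd_ord` : let `f ≠ 0` be an element of the function field `F_ℂ` of `X₀(N)`
over `ℂ` such that `p ∣ ord_w f` at EVERY place `w` of `F_ℂ/ℂ`.  Then there are `s ∈ F_ℂ`, `s ≠ 0`,
and a holomorphic `V : ℍ → ℂ`, `V ≢ 0`, with `V ^ p` good and `qexp (V ^ p) = f * s ^ p`; moreover
`V` transforms under `Γ₀(N)` by a character `χ` with `χ ^ p = 1`, i.e. `V` is twisted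
(`M4b.IsTwisted`) of an additive character `c : Γ₀(N) → ℤ/p`.
-/

set_option autoImplicit false

noncomputable section

open ModularCurve AlgebraicCurve CongruenceSubgroup UpperHalfPlane
open scoped MatrixGroups Manifold Real

namespace Fermat.Agent.S29.H282

open Fermat.Agent.S24 Fermat.Agent.S24.H997 Fermat.Agent.S24.H648 Fermat.Agent.S24.H708
open Fermat.Agent.S24.H624 Fermat.Agent.S24.Deg457
open Fermat.Agent.S29 Fermat.Agent.S29.M4b Fermat.Agent.S29.H332

variable {N : ℕ} [NeZero N]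

/-! ### The character of a `p`-th root of an invariant function -/

/-- If `V` is holomorphic, `V ≢ 0` and `V ^ p` is `Γ₀(N)`-invariant, then for every `γ ∈ Γ₀(N)`
there is a `p`-th root of unity `z` with `V (γ τ) = z V(τ)`. -/
theorem exists_root_of_unity_of_pow_invariant {p : ℕ} (hp : p ≠ 0) {V : ℍ → ℂ}
    (hV : MDifferentiable 𝓘(ℂ) 𝓘(ℂ) V) {τ₁ : ℍ} (hτ₁ : V τ₁ ≠ 0)
    (hinv : ∀ γ ∈ Gamma0 N, ∀ τ : ℍ, V (γ • τ) ^ p = V τ ^ p) (γ : SL(2, ℤ))
    (hγ : γ ∈ Gamma0 N) :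
    ∃ z : ℂ, z ^ p = 1 ∧ ∀ τ : ℍ, V (γ • τ) = z * V τ := by
  have hA1 : V (γ • τ₁) ≠ 0 := by
    intro h0
    have := hinv γ hγ τ₁
    rw [h0, zero_pow hp] at this
    exact pow_ne_zero p hτ₁ this.symm
  set z : ℂ := V (γ • τ₁) / V τ₁ with hz
  have hzp : z ^ p = 1 := by
    rw [hz, div_pow, hinv γ hγ τ₁, div_self (pow_ne_zero p hτ₁)]
  refine ⟨z, hzp, fun τ => ?_⟩
  have hAd : MDifferentiable 𝓘(ℂ) 𝓘(ℂ) (fun τ : ℍ => V (γ • τ)) :=
    H648.mdifferentiable_comp_smul hV γ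
  have hBd : MDifferentiable 𝓘(ℂ) 𝓘(ℂ) (fun τ : ℍ => z * V τ) :=
    (mdifferentiable_const (c := z)).mul hV
  have := Fermat.Agent.S29.H751.eq_of_pow_eq_UHP hAd hBd hp (fun τ => by
    show V (γ • τ) ^ p = (z * V τ) ^ p
    rw [hinv γ hγ τ, mul_pow, hzp, one_mul]) (τ₀ := τ₁)
    (by
      show V (γ • τ₁) = z * V τ₁
      rw [hz, div_mul_cancel₀ _ hτ₁]) hA1
  exact congrFun this τ

theorem isPrimitiveRoot_zetaP (p : ℕ) [NeZero p] : IsPrimitiveRoot (zetaP p) p := by
  unfold zetaP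
  exact Complex.isPrimitiveRoot_exp p (NeZero.ne p)

/-- the additive character of a `p`-th root of an invariant function -/
theorem exists_hasChar_of_pow_invariant {p : ℕ} [NeZero p] {V : ℍ → ℂ}
    (hV : MDifferentiable 𝓘(ℂ) 𝓘(ℂ) V) (hV0 : ∃ τ, V τ ≠ 0)
    (hinv : ∀ γ ∈ Gamma0 N, ∀ τ : ℍ, V (γ • τ) ^ p = V τ ^ p) :
    ∃ c : G0 N → ZMod p, (∀ γ γ' : G0 N, c (γ * γ') = c γ + c γ') ∧ HasChar N p c V := by
  classical
  obtain ⟨τ₁, hτ₁⟩ := hV0
  have hprim := isPrimitiveRoot_zetaP p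
  have key : ∀ γ : G0 N, ∃ k : ZMod p, ∀ τ : ℍ,
      V ((γ : SL(2, ℤ)) • τ) = zetaP p ^ k.val * V τ := by
    intro γ
    obtain ⟨z, hzp, hz⟩ := exists_root_of_unity_of_pow_invariant (NeZero.ne p) hV hτ₁ hinv γ γ.2
    obtain ⟨i, hi, rfl⟩ := hprim.eq_pow_of_pow_eq_one hzp
    refine ⟨(i : ZMod p), fun τ => ?_⟩
    rw [hz τ, ZMod.val_natCast, Nat.mod_eq_of_lt hi]
  choose c hc using key
  refine ⟨c, fun γ γ' => ?_, hc⟩
  -- additivity
  have h1 := hc (γ * γ') τ₁
  have h2 := hc γ ((γ' : SL(2, ℤ)) • τ₁)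
  have h3 := hc γ' τ₁
  have hsm : ((γ * γ' : G0 N) : SL(2, ℤ)) • τ₁
      = (γ : SL(2, ℤ)) • ((γ' : SL(2, ℤ)) • τ₁) := by
    rw [Subgroup.coe_mul, mul_smul]
  rw [hsm, h2, h3, ← mul_assoc, ← pow_add] at h1
  have h4 : zetaP p ^ ((c γ).val + (c γ').val) = zetaP p ^ (c (γ * γ')).val :=
    mul_right_cancel₀ hτ₁ h1
  have hfin : IsOfFinOrder (zetaP p) :=
    isOfFinOrder_iff_pow_eq_one.mpr ⟨p, Nat.pos_of_ne_zero (NeZero.ne p), hprim.pow_eq_one⟩
  have h5 : ((c γ).val + (c γ').val) ≡ (c (γ * γ')).val [MOD p] := by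
    have := hfin.pow_eq_pow_iff_modEq.mp h4
    rwa [← hprim.eq_orderOf] at this
  have h6 : (((c γ).val + (c γ').val : ℕ) : ZMod p) = ((c (γ * γ')).val : ZMod p) :=
    (ZMod.natCast_eq_natCast_iff _ _ _).mpr h5
  rw [Nat.cast_add, ZMod.natCast_zmod_val, ZMod.natCast_zmod_val, ZMod.natCast_zmod_val] at h6
  exact h6.symm

/-! ### DFROM -/

/-- **K3-DFROM.** -/
theorem exists_root_of_forall_dvd_ord (N : ℕ) [NeZero N] (p : ℕ) [NeZero p]
    {f : LaurentSeries ℂ} (hf : f ∈ laurentBaseChange ℂ (modularFunctionFieldFull N))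
    (hf0 : f ≠ 0)
    (hdvd : ∀ w : Place ℂ ↥(laurentBaseChange ℂ (modularFunctionFieldFull N)),
      (p : ℤ) ∣ w.ord ⟨f, hf⟩) :
    ∃ s : LaurentSeries ℂ, s ∈ laurentBaseChange ℂ (modularFunctionFieldFull N) ∧ s ≠ 0 ∧
      ∃ V : ℍ → ℂ, MDifferentiable 𝓘(ℂ) 𝓘(ℂ) V ∧ (∃ τ, V τ ≠ 0) ∧
        (fun τ => V τ ^ p) ∈ goodRing N ∧ qexpFun 1 (fun τ => V τ ^ p) = f * s ^ p ∧
        ∃ c : G0 N → ZMod p, (∀ γ γ' : G0 N, c (γ * γ') = c γ + c γ') ∧
          IsTwisted N p c V := by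
  have hp : p ≠ 0 := NeZero.ne p
  -- write `f = r / t` with `r, t` polynomials in the `j(q^d)`
  obtain ⟨r, t, ht, hfrt⟩ := exists_div_inclRNK ℂ N ⟨f, hf⟩
  have ht' : inclRNK ℂ N t ≠ 0 := fun h0 =>
    ht (inclRNK_injective ℂ N (h0.trans (map_zero _).symm))
  have hts : ((t : RNK ℂ N) : LaurentSeries ℂ) ≠ 0 := fun h0 => ht (Subtype.ext h0)
  have hfF : (⟨f, hf⟩ : FFK ℂ N) ≠ 0 := fun h0 => hf0 (congrArg Subtype.val h0)
  -- the good function with `q`-expansion `r * t ^ (p - 1) = f * t ^ p`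
  have hmem : ((r * t ^ (p - 1) : RNK ℂ N) : LaurentSeries ℂ) ∈ AK ℂ N := (r * t ^ (p - 1)).2
  obtain ⟨G, hG, hGq⟩ := Fermat.Agent.S29.H882.AK_le_goodQ N hmem
  have hgF : (⟨f, hf⟩ : FFK ℂ N) * inclRNK ℂ N t ^ p = inclRNK ℂ N (r * t ^ (p - 1)) := by
    rw [hfrt, map_mul, map_pow]
    have : p = (p - 1) + 1 := (Nat.succ_pred_eq_of_ne_zero hp).symm
    conv_lhs => rw [this, pow_succ]
    field_simp
  have hgL : f * ((t : RNK ℂ N) : LaurentSeries ℂ) ^ p
      = ((r * t ^ (p - 1) : RNK ℂ N) : LaurentSeries ℂ) := by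
    have := congrArg (fun x : FFK ℂ N => (x : LaurentSeries ℂ)) hgF
    simpa using this
  have hqG : qexpFun 1 G = f * ((t : RNK ℂ N) : LaurentSeries ℂ) ^ p := by
    rw [hGq.qexpFun_eq, hgL]
  have hfs : qexpFun 1 G ∈ laurentBaseChange ℂ (modularFunctionFieldFull N) :=
    Fermat.Agent.S29.H882.qexpFun_mem_FC hG
  have hGF : (⟨qexpFun 1 G, hfs⟩ : FFK ℂ N) = ⟨f, hf⟩ * inclRNK ℂ N t ^ p := by
    apply Subtype.ext
    show qexpFun 1 G = ((⟨f, hf⟩ * inclRNK ℂ N t ^ p : FFK ℂ N) : LaurentSeries ℂ)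
    rw [hqG]
    simp
  have hG0 : G ≠ 0 := by
    intro h0
    have h1 : qexpFun 1 G = 0 := (qexpFun_eq_zero_iff hGq.isMerInf).mpr h0
    rw [hqG] at h1
    rcases mul_eq_zero.mp h1 with h | h
    · exact hf0 h
    · exact hts (pow_eq_zero_iff hp |>.mp h)
  -- divisibility of the orders of `f * t ^ p`
  have hdvd' : ∀ w : Place ℂ ↥(laurentBaseChange ℂ (modularFunctionFieldFull N)),
      (p : ℤ) ∣ w.ord ⟨qexpFun 1 G, hfs⟩ := by
    intro w
    rw [hGF, w.ord_mul hfF (pow_ne_zero p ht'), H117.ord_pow]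
    exact dvd_add (hdvd w) (dvd_mul_right _ _)
  -- the root
  obtain ⟨V, hVmd, hVp⟩ := exists_pow_eq_of_forall_dvd_ord hG hG0 hfs hp hdvd'
  have hVG : (fun τ => V τ ^ p) = G := funext hVp
  have hV0 : ∃ τ, V τ ≠ 0 := by
    by_contra hcon
    push Not at hcon
    apply hG0
    funext τ
    rw [← hVp τ, hcon τ, zero_pow hp]
    rfl
  have hVinv : ∀ γ ∈ Gamma0 N, ∀ τ : ℍ, V (γ • τ) ^ p = V τ ^ p := by
    intro γ hγ τ
    rw [hVp, hVp]
    exact hG.2.1 γ hγ τ
  obtain ⟨c, hcadd, hchar⟩ := exists_hasChar_of_pow_invariant hVmd hV0 hVinv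
  refine ⟨((t : RNK ℂ N) : LaurentSeries ℂ), (inclRNK ℂ N t).2, hts, V, hVmd, hV0,
    hVG ▸ hG, ?_, c, hcadd, ⟨hVmd, hV0, hchar, hVG ▸ hG⟩⟩
  rw [hVG, hqG]

end Fermat.Agent.S29.H282

end
end
-- ===== PACK-END S29/H282/DFrom.lean

-- ===== PACK-BEGIN Ribet/H584/IncAnLocal.lean
section
/-
RIBET row 38, WALL-p, I3 leaf INC-AN, piece LOCAL + final assembly — helper584.

`incAn` : the `q`-expansion `G = ∑ cₙ qⁿ` (`cₙ ∈ ℤ`) of a cusp form of weight 2 on `Γ₀(M)` is a
holomorphic series on `X₀(M)` over `ℚ̄` (`I3.IsHoloSeries (AlgebraicClosure ℚ) M`), i.e.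
`G dq/q` is a holomorphic differential of the function field `ℚ̄(X₀(M))`.

Inputs: the analytic half (`IncAnQExp.incAn_real`, `IncAnGood`), the S29/H282 places dictionary
(every place of `FF M` is induced by a Taylor expansion or by the expansion at a cusp),
helper763's algebraic criterion (`H763.IncAn.holo_at_place`), and the formal local computation
`IncAnOrd`.
-/






set_option autoImplicit false

noncomputable section

open UpperHalfPlane ModularCurve AlgebraicCurve CongruenceSubgroup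
open scoped MatrixGroups Manifold

namespace Fermat.Agent.Ribet.H584

open Fermat.Agent.S24 Fermat.Agent.S24.H997 Fermat.Agent.S24.H648 Fermat.Agent.S24.H708
  Fermat.Agent.S24.Deg457 Fermat.Agent.S24.H624
open Fermat.Agent.S29 Fermat.Agent.S29.M4b Fermat.Agent.S29.H282

variable {M : ℕ} [NeZero M]

theorem isAvatar_of_realises {h : FF M} {H : ℍ → ℂ} (hr : Realises M h H) :
    IsAvatar iotaC (analyticCore M).toHolBase (h : FFK Kbar M)
      (⟨H, mem_holN_of_mem_goodRing hr.1⟩ : (analyticCore M).Hol) :=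
  isAvatar_of_mem_goodRing iotaC hr.1 hr.2

theorem pointData_cast {B : HolBase M} (Q : Expansion B → Prop) {a a' : ℂ} {ε ε' : SL(2, ℤ)}
    (e : PointData B a ε = PointData B a' ε') (ha : a = a') (hε : ε = ε')
    (P : PointData B a' ε') (hP : Q P.X) : Q (Eq.mpr e P).X := by
  subst ha
  subst hε
  exact hP

theorem taylor_order_nonneg (τ₀ : ℍ) (h' : (holBase M).Hol) :
    0 ≤ (((holBase M).taylorExpansion (holBase_isHolo M) τ₀).E h').order := by
  by_cases hh : h' = 0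
  · rw [hh, map_zero, HahnSeries.order_zero]
  · rw [order_taylorExpansion (holBase_isHolo M) hh τ₀]
    exact Int.natCast_nonneg _

theorem pointAt_X_order_nonneg (a : Kbar) (h' : (analyticCore M).Hol) :
    0 ≤ ((pointAt iotaC (analyticCore M) a).X.E h').order := by
  unfold pointAt
  split_ifs with h0 h1
  · refine pointData_cast (fun X => 0 ≤ (X.E h').order) _ ?_ ?_ _ ?_
    · rfl
    · rfl
    refine pointData_cast (fun X => 0 ≤ (X.E h').order) _ ?_ ?_ _ ?_
    · rfl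
    · rw [if_pos h0]
    refine pointData_cast (fun X => 0 ≤ (X.E h').order) _ ?_ ?_ _ ?_
    · exact h0
    · rfl
    exact taylor_order_nonneg _ h'
  · refine pointData_cast (fun X => 0 ≤ (X.E h').order) _ ?_ ?_ _ ?_
    · rfl
    · rfl
    refine pointData_cast (fun X => 0 ≤ (X.E h').order) _ ?_ ?_ _ ?_
    · rfl
    · rw [if_neg h0]
    refine pointData_cast (fun X => 0 ≤ (X.E h').order) _ ?_ ?_ _ ?_
    · rfl
    · rw [if_pos h1]
    refine pointData_cast (fun X => 0 ≤ (X.E h').order) _ ?_ ?_ _ ?_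
    · exact h1
    · rfl
    exact taylor_order_nonneg _ h'
  · refine pointData_cast (fun X => 0 ≤ (X.E h').order) _ ?_ ?_ _ ?_
    · rfl
    · rfl
    refine pointData_cast (fun X => 0 ≤ (X.E h').order) _ ?_ ?_ _ ?_
    · rfl
    · rw [if_neg h0]
    refine pointData_cast (fun X => 0 ≤ (X.E h').order) _ ?_ ?_ _ ?_
    · rfl
    · rw [if_neg h1]
    exact taylor_order_nonneg _ h'

/-- realised functions are regular at the finite places -/
theorem order_sigma_fin_nonneg {h : FF M} {H : ℍ → ℂ} (hr : Realises M h H) (a : Kbar)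
    (x : XX M) : 0 ≤ ((dataFinK iotaC (analyticCore M) a).σ x h).order := by
  have hav := _root_.Fermat.Agent.Ribet.H584.isAvatar_of_realises hr
  obtain ⟨g, rfl⟩ := QuotientGroup.mk_surjective x
  rw [dataFinK_σ, hav.sigmaXK_mk_eq]
  exact pointAt_X_order_nonneg a _

/-- the expansion at `∞` of a translate, in the `HasQExp` language -/
theorem hasQExp_qexp (h : (holBase M).Hol) : HasQExp M (h : ℍ → ℂ) ((holBase M).qexp h) := by
  have hinf : InfExp M (h : ℍ → ℂ) ((holBase M).qexp h) := expInf_spec (holToExp M h)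
  exact HasQExp.of_hasSum ((holBase_isHolo M).mdiff _ h.2) fun τ => hinf τ

/-- the cusp bound for `h₁` -/
theorem order_sigma_inf_H1 (f : CuspForm (Gamma0 M) 2) {h₁ : FF M}
    (hr : Realises M h₁ (H1 f)) (x : XX M) :
    (dataInfK iotaC (analyticCore M)).σ x h₁ = 0 ∨
      1 - (M : ℤ) ≤ ((dataInfK iotaC (analyticCore M)).σ x h₁).order := by
  have hav := _root_.Fermat.Agent.Ribet.H584.isAvatar_of_realises hr
  obtain ⟨g, rfl⟩ := QuotientGroup.mk_surjective x
  rw [dataInfK_σ, hav.sigmaXK_mk_eq]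
  set h' : (holBase M).Hol := (holBase M).compH g⁻¹ ⟨H1 f, mem_holN_of_mem_goodRing hr.1⟩
    with hh'
  have hq : HasQExp M (h' : ℍ → ℂ) ((holBase M).qexp h') := hasQExp_qexp h'
  by_cases h0 : (holBase M).qexp h' = 0
  · left
    exact h0
  · right
    refine order_ge_of_isZeroAtImInfty_mul_q hq ?_ h0
    exact isZeroAtImInfty_H1_smul_mul_q f g⁻¹


/-! ### The local condition at every place -/

theorem thetaL_eq_S28 {k : Type*} [Field k] (x : LaurentSeries k) :
    thetaL x = Fermat.Agent.S28.thetaL k x := by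
  ext n
  rfl

theorem C_ofNat (n : ℕ) [n.AtLeastTwo] :
    (HahnSeries.C (OfNat.ofNat n : ℂ) : LaurentSeries ℂ) = OfNat.ofNat n :=
  map_ofNat _ n

/-- transport of the relation `u₀ · j (j - 1728) = - h₁` along an embedding -/
theorem sigma_rel (σ : FF M →+* LaurentSeries ℂ) {u₀ h₁ : FF M}
    (hU : u₀ * (jF M * (jF M - 1728)) = -h₁) :
    σ u₀ * (σ (jF M) * (σ (jF M) - HahnSeries.C 1728)) = -σ h₁ := by
  have := congrArg σ hU
  rw [map_mul, map_mul, map_sub, map_neg, map_ofNat] at this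
  rw [C_ofNat]
  exact this

theorem sigma_rel2 (σ : FF M →+* LaurentSeries ℂ) {h₁ h₂ : FF M}
    (h12 : h₁ ^ 2 = h₂ * (jF M - 1728)) :
    σ h₁ ^ 2 = σ h₂ * (σ (jF M) - HahnSeries.C 1728) := by
  have := congrArg σ h12
  rw [map_pow, map_mul, map_sub, map_ofNat] at this
  rw [C_ofNat]
  exact this

theorem sigma_rel3 (σ : FF M →+* LaurentSeries ℂ) {h₁ h₃ : FF M}
    (h13 : h₁ ^ 3 = h₃ * jF M) : σ h₁ ^ 3 = σ h₃ * σ (jF M) := by
  have := congrArg σ h13
  rwa [map_pow, map_mul] at this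

/-- **LOCAL.**  For every place of `FF M` there is an embedding into `ℂ((z))` defining it, in which
`u₀ dj` is regular. -/
theorem exists_sigma_local (f : CuspForm (Gamma0 M) 2) {h₁ h₂ h₃ u₀ : FF M}
    (r1 : Realises M h₁ (H1 f)) (r2 : Realises M h₂ (H2 f)) (r3 : Realises M h₃ (H3 f))
    (h12 : h₁ ^ 2 = h₂ * (jF M - 1728)) (h13 : h₁ ^ 3 = h₃ * jF M)
    (hU : u₀ * (jF M * (jF M - 1728)) = -h₁) (w : Place Kbar (FF M)) :
    ∃ σ : FF M →+* LaurentSeries ℂ,
      (∀ c : Kbar, Fermat.Agent.S28.thetaL ℂ (σ (algebraMap Kbar (FF M) c)) = 0) ∧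
      (∀ x : FF M, x ∈ w.toValuationSubring ↔ 0 ≤ (σ x).order) ∧
      (σ u₀ * Fermat.Agent.S28.thetaL ℂ (σ (jF M)) = 0 ∨
        1 ≤ (σ u₀ * Fermat.Agent.S28.thetaL ℂ (σ (jF M))).order) := by
  rcases exists_placeOf_eqK iotaC (analyticCore M) w with ⟨x, rfl⟩ | ⟨a, x, rfl⟩
  · -- a cusp
    set L := dataInfK (K := Kbar) iotaC (analyticCore M) with hL
    refine ⟨L.σ x, fun c => ?_, fun y => H117.mem_placeOf_iff L x y, ?_⟩
    · rw [L.σ_const, Fermat.Agent.S28.h88_thetaL_C]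
    · have hM : 0 < M := Nat.pos_of_ne_zero (NeZero.ne M)
      have ht := L.σ_t_order x
      have hm : L.m = M := dataInfK_m iotaC (analyticCore M)
      have hj : (L.σ x (jF M)).order = -(M : ℤ) := by
        have e : L.σ x (jFK Kbar M)⁻¹ = (L.σ x (jF M))⁻¹ := map_inv₀ _ _
        rw [e, H117.order_inv', hm] at ht
        omega
      exact holo_cusp _ _ _ M hM hj (sigma_rel _ hU) (order_sigma_inf_H1 f r1 x)
  · -- a finite point
    set L := dataFinK iotaC (analyticCore M) a with hL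
    refine ⟨L.σ x, fun c => ?_, fun y => H117.mem_placeOf_iff L x y, ?_⟩
    · rw [L.σ_const, Fermat.Agent.S28.h88_thetaL_C]
    · have ht := L.σ_t_order x
      have e : L.σ x (jFK Kbar M - algebraMap Kbar (FFK Kbar M) a)
          = L.σ x (jF M) - HahnSeries.C (iotaC a) := by
        rw [map_sub, L.σ_const]
        rfl
      rw [e] at ht
      exact holo_fin _ _ _ _ _ (iotaC a) L.m L.m_pos ht (sigma_rel _ hU) (sigma_rel2 _ h12)
        (sigma_rel3 _ h13) (order_sigma_fin_nonneg r1 a x) (order_sigma_fin_nonneg r2 a x)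
        (order_sigma_fin_nonneg r3 a x)


/-! ### Assembly -/

open Fermat.Agent.Ribet.H764 in
/-- `I3.IsHoloSeries` for an arbitrary subfield of `k((q))`. -/
def IsHoloOn (k : Type) [Field k] (F : IntermediateField k (LaurentSeries k))
    (g : PowerSeries k) : Prop :=
  ∀ (Q : Place k F) (t : F), Q.ord t = 1 →
    ∃ (u : F) (t' : LaurentSeries k),
      I3.IsTheta (t : LaurentSeries k) t' ∧ u ∈ Q.toValuationSubring ∧
        HahnSeries.ofPowerSeries ℤ k g = (u : LaurentSeries k) * t'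

open Fermat.Agent.Ribet.H764 in
theorem isHoloSeries_iff_isHoloOn (k : Type) [Field k] (N : ℕ) [NeZero N] (g : PowerSeries k) :
    I3.IsHoloSeries k N g ↔ IsHoloOn k (modularFunctionFieldFullC k N) g := Iff.rfl

/-- holomorphy on the function field `FF M = ℚ̄(X₀(M))` -/
theorem isHoloOn_bar (f : CuspForm (Gamma0 M) 2) (c : ℕ → ℤ)
    (hc : ∀ n, ModularFormClass.qCoeff f n = (c n : ℂ)) (g : PowerSeries Kbar)
    (hg : ∀ n, PowerSeries.coeff n g = (c n : Kbar)) :
    IsHoloOn Kbar (modularFunctionFieldBar M) g := by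
  obtain ⟨h₁, h₂, h₃, u₀, r1, r2, r3, h12, h13, hU, hG⟩ := incAn_real f c hc
  have : CharZero Kbar := algebraRat.charZero Kbar
  have hfd : FiniteDimensional ↥(IntermediateField.adjoin Kbar {jFK Kbar M}) (FFK Kbar M) :=
    finiteDimensional_adjoin_jFK iotaC M
  have hAlg : Algebra.IsAlgebraic ↥(IntermediateField.adjoin Kbar {jFK Kbar M}) (FFK Kbar M) :=
    Algebra.IsAlgebraic.of_finite _ _
  have halg : ∀ x : FF M, IsAlgebraic (IntermediateField.adjoin Kbar {jF M}) x := fun x =>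
    hAlg.isAlgebraic x
  have hgG : HahnSeries.ofPowerSeries ℤ Kbar g = Gser Kbar c := by
    rw [Gser]
    congr 1
    ext n
    rw [hg n, PowerSeries.coeff_mk]
  have hg' : HahnSeries.ofPowerSeries ℤ Kbar g
      = (u₀ : LaurentSeries Kbar) * Fermat.Agent.S28.thetaL Kbar ((jF M : FF M) : LaurentSeries Kbar) := by
    rw [hgG, ← hG, thetaL_eq_S28]
  intro Q t ht
  obtain ⟨σ, h1, h2, h3⟩ := exists_sigma_local f r1 r2 r3 h12 h13 hU Q
  exact Fermat.Agent.Ribet.H763.IncAn.holo_at_place (modularFunctionFieldBar M) (jF M) u₀ halg g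
    hg' Q σ h1 h2 h3 t ht

open Fermat.Agent.Ribet.H764 in
/-- **INC-AN.**  The `q`-expansion of a cusp form of weight 2 on `Γ₀(M)` with integral
coefficients is a holomorphic series on `X₀(M)` over `ℚ̄`. -/
theorem incAn (M : ℕ) [NeZero M] (g : PowerSeries (AlgebraicClosure ℚ))
    (hg : I3.IsRedOfForm (AlgebraicClosure ℚ) M g) :
    I3.IsHoloSeries (AlgebraicClosure ℚ) M g := by
  obtain ⟨f, c, hc, hgc⟩ := hg
  rw [isHoloSeries_iff_isHoloOn, ← Fermat.Agent.S18.H602.modularFunctionFieldBar_eq]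
  exact isHoloOn_bar f c hc g hgc

end Fermat.Agent.Ribet.H584

end
end
-- ===== PACK-END Ribet/H584/IncAnLocal.lean

-- ===== PACK-BEGIN Ribet/H232/NCTo.lean
section




/-!
# RIBET / WALL-p, leaf W-NC — consumer forms (helper232)

The concrete norm contraction of `NCBoth.lean` with the top level RENAMED along `M * p = N`
(e.g. `N = p * M'`, `h = Nat.mul_comm M' p`, the convention of `Ribet/H944/WallTargets.lean`) and
the norms written as `S29.H395.normAlong (S29.H801.alphaTo E M p N h)` /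
`normAlong (betaTo E M p N h)` (the shape produced by `Ribet/H801/DegKummer.lean` over `ℚ̄`;
descent of norms `ℚ̄ → E`: `S35.H858.iota_normAlong_alpha/beta`).

* `normAlpha_eq_normAlong`, `normBeta_eq_normAlong` (`rfl`);
* `wnc_const_to`, `wnc_both_to`, `wnc_both_one_to`.
-/

set_option autoImplicit false
set_option synthInstance.maxHeartbeats 400000
set_option maxHeartbeats 1600000
set_option linter.unusedSectionVars false
set_option linter.style.haveILetI false

noncomputable section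

namespace Fermat.Agent.Ribet.H232

open Fermat.Agent.A2 Fermat.Agent.A2.Mod Fermat.Agent.A2.H48
open Fermat.Agent.S29.H395 Fermat.Agent.S29.H801

section To

variable {P : ValuationSubring _root_.Fermat.Agent.A2.Mod.Qb} {E : IntermediateField ℚ _root_.Fermat.Agent.A2.Mod.Qb} {M p : ℕ} [NeZero M] [NeZero p]
  {w : _root_.Fermat.Agent.A2.Mod.RE P E}

theorem normAlpha_eq_normAlong (u : _root_.Fermat.Agent.A2.Mod.FE E (M * p)) :
    normAlpha E M p u = normAlong (αE E M p) u := rfl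

theorem normBeta_eq_normAlong (u : _root_.Fermat.Agent.A2.Mod.FE E (M * p)) :
    normBeta E M p u = normAlong (βE E M p) u := rfl

/-- `wnc_const` with the top level renamed. -/
theorem wnc_const_to {N : ℕ} [NeZero N] (h : M * p = N) (hS : Setting P E M p w)
    {VM : ValuationSubring (_root_.Fermat.Agent.A2.Mod.FE E M)} {V : ValuationSubring (_root_.Fermat.Agent.A2.Mod.FE E N)}
    (hVM : IsVinf P E M VM) (hV : IsVinf P E N V)
    {W : _root_.Fermat.Agent.A2.Mod.FE E N ≃ₐ[E] _root_.Fermat.Agent.A2.Mod.FE E N} (hW : IsFricke E N W)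
    {u : _root_.Fermat.Agent.A2.Mod.FE E N} (hu : u ≠ 0) {eα eβ : E} {hA hB : _root_.Fermat.Agent.A2.Mod.FE E M}
    (hNα : normAlong (alphaTo E M p N h) u = algebraMap E (_root_.Fermat.Agent.A2.Mod.FE E M) eα * hA ^ p)
    (hNβ : normAlong (betaTo E M p N h) u = algebraMap E (_root_.Fermat.Agent.A2.Mod.FE E M) eβ * hB ^ p)
    (h1 : DepthE w p V 1 u ∨ DepthE w p (V.comap (W : _root_.Fermat.Agent.A2.Mod.FE E N →+* _root_.Fermat.Agent.A2.Mod.FE E N)) 1 u) (s : ℕ) :
    DepthC V (cE P E N w) p (algebraMap E (_root_.Fermat.Agent.A2.Mod.FE E N) eα) s u ∧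
      DepthC (V.comap (W : _root_.Fermat.Agent.A2.Mod.FE E N →+* _root_.Fermat.Agent.A2.Mod.FE E N)) (cE P E N w) p
        (algebraMap E (_root_.Fermat.Agent.A2.Mod.FE E N) eβ) s u := by
  subst h
  exact wnc_const hS hVM hV hW hu hNα hNβ h1 s

/-- `wnc_both` with the top level renamed. -/
theorem wnc_both_to {N : ℕ} [NeZero N] (h : M * p = N) (hS : Setting P E M p w)
    {VM : ValuationSubring (_root_.Fermat.Agent.A2.Mod.FE E M)} {V : ValuationSubring (_root_.Fermat.Agent.A2.Mod.FE E N)}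
    (hVM : IsVinf P E M VM) (hV : IsVinf P E N V)
    {W : _root_.Fermat.Agent.A2.Mod.FE E N ≃ₐ[E] _root_.Fermat.Agent.A2.Mod.FE E N} (hW : IsFricke E N W)
    {u : _root_.Fermat.Agent.A2.Mod.FE E N} (hu : u ≠ 0) {e : E} {hA hB : _root_.Fermat.Agent.A2.Mod.FE E M}
    (hNα : normAlong (alphaTo E M p N h) u = algebraMap E (_root_.Fermat.Agent.A2.Mod.FE E M) e * hA ^ p)
    (hNβ : normAlong (betaTo E M p N h) u = algebraMap E (_root_.Fermat.Agent.A2.Mod.FE E M) e * hB ^ p)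
    (h1 : DepthE w p V 1 u ∨ DepthE w p (V.comap (W : _root_.Fermat.Agent.A2.Mod.FE E N →+* _root_.Fermat.Agent.A2.Mod.FE E N)) 1 u) (s : ℕ) :
    ∃ g : _root_.Fermat.Agent.A2.Mod.FE E N, g ≠ 0 ∧
      (u * (algebraMap E (_root_.Fermat.Agent.A2.Mod.FE E N) e * g ^ p)⁻¹ - 1) * (cE P E N w ^ s)⁻¹ ∈ V ∧
      (u * (algebraMap E (_root_.Fermat.Agent.A2.Mod.FE E N) e * g ^ p)⁻¹ - 1) * (cE P E N w ^ s)⁻¹
        ∈ V.comap (W : _root_.Fermat.Agent.A2.Mod.FE E N →+* _root_.Fermat.Agent.A2.Mod.FE E N) := by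
  subst h
  exact wnc_both hS hVM hV hW hu hNα hNβ h1 s

/-- **W-NC, consumer form.**  `N = M p` (renamed), `p ∤ M`, `R_E` a discrete valuation ring over
`p` with uniformiser `w`, `V∞` the Gauss valuation ring of `F_{N,E}`, `V₀ = V∞ ∘ W`.  If both
norms of `u ∈ F_{N,E}^×` to level `M` are `p`-th powers and `u ∈ E^× (F^×)^p (1 + w V)` at
`V = V∞` or at `V = V₀`, then for every `s` there is `g ≠ 0` with
`u / g^p ∈ (1 + w^s V∞) ∩ (1 + w^s V₀)`. -/
theorem wnc_both_one_to {N : ℕ} [NeZero N] (h : M * p = N) (hS : Setting P E M p w)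
    {VM : ValuationSubring (_root_.Fermat.Agent.A2.Mod.FE E M)} {V : ValuationSubring (_root_.Fermat.Agent.A2.Mod.FE E N)}
    (hVM : IsVinf P E M VM) (hV : IsVinf P E N V)
    {W : _root_.Fermat.Agent.A2.Mod.FE E N ≃ₐ[E] _root_.Fermat.Agent.A2.Mod.FE E N} (hW : IsFricke E N W)
    {u : _root_.Fermat.Agent.A2.Mod.FE E N} (hu : u ≠ 0) {hA hB : _root_.Fermat.Agent.A2.Mod.FE E M}
    (hNα : normAlong (alphaTo E M p N h) u = hA ^ p)
    (hNβ : normAlong (betaTo E M p N h) u = hB ^ p)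
    (h1 : DepthE w p V 1 u ∨ DepthE w p (V.comap (W : _root_.Fermat.Agent.A2.Mod.FE E N →+* _root_.Fermat.Agent.A2.Mod.FE E N)) 1 u) (s : ℕ) :
    ∃ g : _root_.Fermat.Agent.A2.Mod.FE E N, g ≠ 0 ∧
      (u * (g ^ p)⁻¹ - 1) * (cE P E N w ^ s)⁻¹ ∈ V ∧
      (u * (g ^ p)⁻¹ - 1) * (cE P E N w ^ s)⁻¹ ∈ V.comap (W : _root_.Fermat.Agent.A2.Mod.FE E N →+* _root_.Fermat.Agent.A2.Mod.FE E N) := by
  subst h
  exact wnc_both_one hS hVM hV hW hu hNα hNβ h1 s

end To

end Fermat.Agent.Ribet.H232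

end
end
-- ===== PACK-END Ribet/H232/NCTo.lean

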