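import Fermat.Agent.Pack.S44.G0E27L2
import Fermat.Agent.Pack.S44.G0E10L2
import Fermat.Agent.Pack.S44.G0E27L0
import Fermat.Agent.Pack.S44.G0E25L1
import Fermat.Agent.Pack.S44.G0E6L0
import Fermat.Agent.Pack.S44.G0E11L1
import Fermat.Agent.Pack.S44.G0E27L1
import Fermat.Agent.Pack.S44.G0E19L2
import Fermat.Agent.Pack.S44.G0E8L0
import Fermat.Agent.Pack.S44.G0E2L1
import Fermat.Agent.Pack.S44.G0E23L3
import Fermat.Agent.Pack.S44.G0E25L0
import Fermat.Agent.Pack.S44.G0E25L3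
import Fermat.Agent.Pack.S44.G0E7L1
import Fermat.Agent.Pack.S44.G0E20L0
import Fermat.Agent.Pack.S44.G0E16L1
import Fermat.Agent.Pack.S44.G0E18L0
import Fermat.Agent.Pack.S44.G1E0L0
import Fermat.Agent.Pack.S44.G0E25L2
import Fermat.Agent.Pack.S44.G0E26L0
import Fermat.Agent.Pack.S44.G0E10L3
import Fermat.Agent.Pack.S44.G0E13L3
import Fermat.Agent.Pack.S44.G0E6L2

-- ===== PACK-BEGIN Ribet/H823/EmbedW.lean
section







/-!
# Row RIBET, piece BLR-W (helper823): `Spec.EmbedWStatement` from the S29 pieces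

`embedW_of : RawESStatement → M4aStatement → M4bStatement → Spec.EmbedWStatement`.

For an arbitrary integral Weierstrass curve `W` with `Δ ≠ 0`, `p` an odd prime, `W[p]` irreducible:
a congruence witness `(f, 𝔪)` of level `N` gives a Galois- and Hecke-equivariant embedding
`W[p] ↪ J₀(N)`, with `T_ℓ` acting through `a_ℓ(W)` for all primes `ℓ ∤ N · p · Δ(W)`.

Only the three S29 pieces `RawES`, `M4a`, `M4b` remain as hypotheses: the trace formula and
`det ρ(Frob_ℓ) = ℓ` are unconditional for irreducible `W[p]`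
(`H403.det_eq_of_apply_root`, `H52.trace_of_det_uncond_h52`), as are the auxiliary prime
(`H463.exists_aux_prime`), BLR (`H223`), Orb (`S29/H449`), GEQ + SMOOTH (`S29/H42`).
-/

set_option autoImplicit false
set_option linter.style.haveILetI false

open WeierstrassCurve WeierstrassCurve.Affine WeierstrassCurve.Affine.Point
open CuspForm ModularFormClass ModularCurve

namespace Fermat.Agent.Ribet.H823

open Fermat.Agent.Ribet.Spec Fermat.Agent.S29

/-- The mod-`p` representation of `W ⊗ ℚ`. -/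
noncomputable abbrev h823_rhoW (W : WeierstrassCurve ℤ) (p : ℕ) :
    Fermat.Agent.Ribet.Spec.GQ →* Module.End (ZMod p) (WTorsion W p) :=
  galoisRepModuleEnd (S := ℚ) (K := AlgebraicClosure ℚ) (W.map (Int.castRingHom ℚ)) p

theorem h823_mapQ_Δ_ne_zero {W : WeierstrassCurve ℤ} (hΔ : W.Δ ≠ 0) :
    (W.map (Int.castRingHom ℚ)).Δ ≠ 0 := by
  rw [WeierstrassCurve.map_Δ]
  exact (_root_.map_ne_zero_iff _ (RingHom.injective_int (Int.castRingHom ℚ))).mpr hΔ

theorem h823_isEllipticW {W : WeierstrassCurve ℤ} (hΔ : W.Δ ≠ 0) :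
    (W.map (Int.castRingHom ℚ)).IsElliptic :=
  ⟨isUnit_iff_ne_zero.mpr (h823_mapQ_Δ_ne_zero hΔ)⟩

theorem h823_isEllipticW_bar {W : WeierstrassCurve ℤ} (hΔ : W.Δ ≠ 0) :
    ((W.map (Int.castRingHom ℚ))⁄(AlgebraicClosure ℚ)).IsElliptic :=
  H403.isElliptic_baseChange _ (h823_mapQ_Δ_ne_zero hΔ)

theorem h823_finrankW {W : WeierstrassCurve ℤ} (hΔ : W.Δ ≠ 0) (p : ℕ) [Fact p.Prime] :
    Module.finrank (ZMod p) (WTorsion W p) = 2 :=
  H403.finrank_tors _ (h823_mapQ_Δ_ne_zero hΔ) p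

theorem h823_two_ne_zeroW {p : ℕ} (hp : p.Prime) (hp2 : p ≠ 2) : (2 : ZMod p) ≠ 0 := by
  haveI : Fact p.Prime := ⟨hp⟩
  intro h
  have h2 : ((2 : ℕ) : ZMod p) = 0 := by exact_mod_cast h
  rw [ZMod.natCast_eq_zero_iff] at h2
  exact hp2 ((Nat.prime_dvd_prime_iff_eq hp Nat.prime_two).mp h2)

/-- An irreducible `W[p]` has a non-scalar Galois element. -/
theorem h823_nonscalar_of_irr (W : WeierstrassCurve ℤ) (p : ℕ) [Fact p.Prime] (hΔ : W.Δ ≠ 0)
    (hirr : W.ModRepIsIrreducible p) :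
    ∃ h : Fermat.Agent.Ribet.Spec.GQ, ¬ ∃ s : ZMod p, ∀ x : WTorsion W p, h • x = s • x := by
  by_contra hcon
  push Not at hcon
  have h2 := h823_finrankW hΔ p
  obtain ⟨hnt, hI⟩ := hirr
  obtain ⟨x, hx⟩ := exists_ne (0 : WTorsion W p)
  have hst : IsGaloisStable ℚ (Submodule.span (ZMod p) {x}) := by
    intro σ y hy
    obtain ⟨s, hs⟩ := hcon σ
    rw [hs y]
    exact Submodule.smul_mem _ _ hy
  rcases hI _ hst with h | h
  · exact hx ((Submodule.span_singleton_eq_bot).mp h)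
  · have h1 : Module.finrank (ZMod p) (Submodule.span (ZMod p) {x}) = 1 :=
      finrank_span_singleton hx
    rw [h, finrank_top, h2] at h1
    omega

/-- (DETF-W) `det ρ(Frob_q) = q` on an irreducible `W[p]`, `q ≠ p`. -/
theorem h823_detFrobW (W : WeierstrassCurve ℤ) (p : ℕ) (hΔ : W.Δ ≠ 0) (hp : p.Prime)
    (hirr : W.ModRepIsIrreducible p) (q : ℕ) (hq : q.Prime) (hqp : q ≠ p)
    (A : ValuationSubring (AlgebraicClosure ℚ)) (hA : A.LiesOverPrime q)
    (φ : Fermat.Agent.Ribet.Spec.GQ) (hφ : A.IsFrobeniusAt φ q) :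
    LinearMap.det (h823_rhoW W p φ) = (q : ZMod p) := by
  haveI : Fact p.Prime := ⟨hp⟩
  have hNv : A.valuation ((p : ℕ) : AlgebraicClosure ℚ) = 1 :=
    Fermat.Agent.S55.Bridge.val_prime_eq_one (A := A) hA hq hp hqp
  exact H403.det_eq_of_apply_root W p hΔ (h823_nonscalar_of_irr W p hΔ hirr) φ q
    (fun ζ hζ => Fermat.Agent.S55.H414.IsFrobeniusAt_apply_root hφ hp.ne_zero hNv hζ)

/-- (TF-W) `tr ρ(Frob_ℓ) = a_ℓ(W)` on an irreducible `W[p]`, `ℓ ≠ p` a good prime. -/
theorem h823_traceW (W : WeierstrassCurve ℤ) (p : ℕ) (hΔ : W.Δ ≠ 0) (hp : p.Prime)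
    (hirr : W.ModRepIsIrreducible p) (ℓ : ℕ) (hℓ : ℓ.Prime) (hℓp : ℓ ≠ p)
    (hgood : W.IsGoodPrimeFor ℓ)
    (A : ValuationSubring (AlgebraicClosure ℚ)) (hA : A.LiesOverPrime ℓ)
    (τ : Fermat.Agent.Ribet.Spec.GQ) (hτ : A.IsFrobeniusAt τ ℓ) :
    LinearMap.trace (ZMod p) (WTorsion W p) (h823_rhoW W p τ)
      = ((W.apOfModel ℓ : ℤ) : ZMod p) := by
  haveI := h823_isEllipticW hΔ
  have hW : W.IsIntegralModelOf (W.map (Int.castRingHom ℚ)) := ⟨1, one_smul _ _⟩
  have h := H52.trace_of_det_uncond_h52 (W.map (Int.castRingHom ℚ)) W hW p ℓ hp hℓ hℓp hgood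
    A hA τ hτ (h823_detFrobW W p hΔ hp hirr ℓ hℓ hℓp A hA τ hτ)
  rw [galoisTrace_def] at h
  exact h

/-- The trace formula in `W`-form, unconditional. -/
theorem traceFormulaW : TraceFormulaWStatement := by
  intro W p hΔ hp _ hirr ℓ hℓ hℓp hgood A hA τ hτ
  rw [galoisTrace_def]
  exact h823_traceW W p hΔ hp hirr ℓ hℓ hℓp hgood A hA τ hτ

/-- `W[p]` has finite level. -/
theorem h823_rhoW_finiteLevel {W : WeierstrassCurve ℤ} (hΔ : W.Δ ≠ 0) {p : ℕ} (hp : p.Prime) :
    GaloisFactorsThroughFiniteLevel (h823_rhoW W p) := by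
  haveI := h823_isEllipticW_bar hΔ
  obtain ⟨L, hL, hfix⟩ :=
    Fermat.Agent.S59.H127.exists_finite_level (W.map (Int.castRingHom ℚ)) p hp.one_le
  refine ⟨L, hL, fun σ hσ => ?_⟩
  ext x
  have hx : p • (x : ((W.map (Int.castRingHom ℚ))⁄(AlgebraicClosure ℚ)).Point) = 0 := by
    have := x.2
    rw [Submodule.mem_torsionBy_iff] at this
    rw [← natCast_zsmul]
    exact this
  exact hfix σ hσ _ hx

/-- **The involution, `W`-form.** -/
theorem h823_exists_involutionW (W : WeierstrassCurve ℤ) (p : ℕ) (hΔ : W.Δ ≠ 0) (hp : p.Prime)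
    (hp2 : p ≠ 2) (hirr : W.ModRepIsIrreducible p) :
    ∃ c : Fermat.Agent.Ribet.Spec.GQ,
      h823_rhoW W p c * h823_rhoW W p c = 1 ∧ h823_rhoW W p c ≠ 1 ∧ h823_rhoW W p c ≠ -1 := by
  haveI : Fact p.Prime := ⟨hp⟩
  have h2 : Module.finrank (ZMod p) (WTorsion W p) = 2 := h823_finrankW hΔ p
  haveI : Module.Finite (ZMod p) (WTorsion W p) := Module.finite_of_finrank_eq_succ h2
  have hk2 := h823_two_ne_zeroW hp hp2
  haveI := hirr.1
  obtain ⟨x, hx⟩ := exists_ne (0 : WTorsion W p)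
  have hx0 : (x : ((W.map (Int.castRingHom ℚ))⁄(AlgebraicClosure ℚ)).Point) ≠ 0 :=
    fun h => hx (Subtype.ext h)
  have hxp : p • (x : ((W.map (Int.castRingHom ℚ))⁄(AlgebraicClosure ℚ)).Point) = 0 := by
    have := x.2
    rw [Submodule.mem_torsionBy_iff] at this
    rw [← natCast_zsmul]
    exact this
  obtain ⟨q', hq', -, -, hq'p, hgood, hdvd, ha⟩ :=
    H463.exists_aux_prime W hΔ hp hp2 (x : ((W.map (Int.castRingHom ℚ))⁄(AlgebraicClosure ℚ)).Point)
      hx0 hxp ∅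
  obtain ⟨A, τ, hA, hτ⟩ := Fermat.Agent.S54.exists_frobenius q' hq'
  have htr : LinearMap.trace (ZMod p) (WTorsion W p) (h823_rhoW W p τ) = 0 := by
    rw [h823_traceW W p hΔ hp hirr q' hq' hq'p hgood A hA τ hτ]
    exact (ZMod.intCast_zmod_eq_zero_iff_dvd _ _).mpr ha
  have hdet : LinearMap.det (h823_rhoW W p τ) = -1 := by
    rw [h823_detFrobW W p hΔ hp hirr q' hq' hq'p A hA τ hτ]
    have h1 : ((q' + 1 : ℕ) : ZMod p) = 0 := (ZMod.natCast_eq_zero_iff _ _).mpr hdvd
    push_cast at h1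
    exact eq_neg_of_add_eq_zero_left h1
  have hCH := Fermat.Agent.Lib.Ribet.H223.cayley_hamilton_two h2 (h823_rhoW W p τ)
  rw [htr, hdet, zero_smul, sub_zero, neg_smul, one_smul, add_neg_eq_zero] at hCH
  refine ⟨τ, hCH, ?_, ?_⟩
  · intro h1
    have h3 := congrArg (LinearMap.trace (ZMod p) (WTorsion W p)) h1
    rw [htr, LinearMap.trace_one, h2] at h3
    exact hk2 (by exact_mod_cast h3.symm)
  · intro h1
    have h3 := congrArg (LinearMap.trace (ZMod p) (WTorsion W p)) h1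
    rw [htr, map_neg, LinearMap.trace_one, h2] at h3
    have h4 : ((2 : ℕ) : ZMod p) = 0 := by
      rw [eq_comm, neg_eq_zero] at h3
      exact h3
    exact hk2 (by exact_mod_cast h4)

/-- **Occurrence, `W`-form.**  The eigensystem `ℓ ↦ a_ℓ(W)` of a congruence witness of level `N`
occurs in `J₀(N)[p]`, away from the primes dividing `N · p · Δ(W)`. -/
theorem occursIn_of_witnessW (hA : M4aStatement) (hB : M4bStatement)
    (W : WeierstrassCurve ℤ) (p N : ℕ) [NeZero N] (hWΔ : W.Δ ≠ 0) (hp : p.Prime)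
    (f : CuspForm (CongruenceSubgroup.Gamma0 N) 2)
    (𝔪 : Ideal (integralClosure ℤ ℂ)) (h : IsWitnessW W p N f 𝔪) :
    OccursIn N p (N * p * W.Δ.natAbs).primeFactors (fun ℓ => W.apOfModel ℓ) := by
  classical
  obtain ⟨hf, hmax, hp𝔪, hcong⟩ := h
  have hpF : Fact p.Prime := ⟨hp⟩
  have := hmax
  letI : Field (integralClosure ℤ ℂ ⧸ 𝔪) := Ideal.Quotient.field 𝔪
  have : CharP (integralClosure ℤ ℂ ⧸ 𝔪) p := by
    rw [CharP.charP_iff_prime_eq_zero hp]
    have : ((p : integralClosure ℤ ℂ ⧸ 𝔪)) = Ideal.Quotient.mk 𝔪 (p : integralClosure ℤ ℂ) := by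
      simp
    rw [this]
    exact Ideal.Quotient.eq_zero_iff_mem.mpr hp𝔪
  let F : Type := AlgebraicClosure (integralClosure ℤ ℂ ⧸ 𝔪)
  letI : Algebra (ZMod p) F := ZMod.algebra F p
  let ψ : integralClosure ℤ ℂ →+* F :=
    (algebraMap (integralClosure ℤ ℂ ⧸ 𝔪) F).comp (Ideal.Quotient.mk 𝔪)
  have hψ𝔪 : ∀ x ∈ 𝔪, ψ x = 0 := by
    intro x hx
    show algebraMap (integralClosure ℤ ℂ ⧸ 𝔪) F (Ideal.Quotient.mk 𝔪 x) = 0
    rw [Ideal.Quotient.eq_zero_iff_mem.mpr hx, _root_.map_zero]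
  let a : ℕ → integralClosure ℤ ℂ := fun ℓ =>
    if h : ℓ.Prime ∧ ¬ ℓ ∣ N then ⟨ModularFormClass.qCoeff f ℓ, H642.isIntegral_qCoeff hf h.1 h.2⟩
    else 0
  have ha : ∀ ℓ : ℕ, ℓ.Prime → ¬ ℓ ∣ N →
      ((a ℓ : integralClosure ℤ ℂ) : ℂ) = ModularFormClass.qCoeff f ℓ := by
    intro ℓ hℓ hℓN
    simp only [a, dif_pos (And.intro hℓ hℓN)]
  obtain ⟨n, w, c, hw, hc, ⟨j₀, hj₀⟩, hid⟩ := hA N f hf p F ψ a ha
  obtain ⟨κ, hκadd, hκinj, hκT⟩ := hB N p
  -- the `𝔽_p`-module structure on `J₀(N)[p]`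
  letI : Module (ZMod p) (Jp N p) := AddCommGroup.zmodModule (n := p) (fun x => by
    have hx := x.2
    rw [Submodule.mem_torsionBy_iff] at hx
    apply Subtype.ext
    have h2 : ((p • x : Jp N p) : JZero N) = (p : ℤ) • (x : JZero N) := by
      rw [natCast_zsmul]
      exact Submodule.coe_smul_of_tower p x
    rw [h2, hx]
    rfl)
  have hN0 : N ≠ 0 := NeZero.ne N
  have hne : N * p * W.Δ.natAbs ≠ 0 :=
    mul_ne_zero (mul_ne_zero hN0 hp.ne_zero) (Int.natAbs_ne_zero.mpr hWΔ)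
  -- the eigen-identity for `c j₀`
  have heig : ∀ ℓ : ℕ, ℓ.Prime → ℓ ∉ (N * p * W.Δ.natAbs).primeFactors →
      heckeCoh N ℓ (c j₀) = ((W.apOfModel ℓ : ℤ) : ZMod p) • c j₀ := by
    intro ℓ hℓ hℓS
    have hnd : ¬ ℓ ∣ N * p * W.Δ.natAbs := fun hd =>
      hℓS (Nat.mem_primeFactors.mpr ⟨hℓ, hd, hne⟩)
    have hℓNp : ¬ ℓ ∣ N * p := fun hd => hnd (Dvd.dvd.mul_right hd _)
    have hℓN : ¬ ℓ ∣ N := fun hd => hℓNp (Dvd.dvd.mul_right hd _)
    have hℓp : ℓ ≠ p := fun he => hℓNp (he ▸ Dvd.intro_left N rfl)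
    have hgood : W.IsGoodPrimeFor ℓ := fun hd =>
      hnd (Dvd.dvd.mul_left (Int.natCast_dvd.mp hd) _)
    obtain ⟨b, hbC, hb𝔪⟩ := hcong ℓ hℓ hgood hℓN hℓp
    have hab : a ℓ = b := Subtype.ext ((ha ℓ hℓ hℓN).trans hbC.symm)
    have hψa : ψ (a ℓ) = algebraMap (ZMod p) F ((W.apOfModel ℓ : ℤ) : ZMod p) := by
      have h1 := hψ𝔪 _ hb𝔪
      rw [map_sub, sub_eq_zero, map_intCast] at h1
      rw [hab, h1, map_intCast]
    funext γ
    have h2 := hid ℓ hℓ hℓNp γ
    rw [hψa] at h2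
    have h3 := h823_coord_eq w hw (fun j => heckeCoh N ℓ (c j) γ) (fun j => c j γ) _ h2 j₀
    simpa [Pi.smul_apply, smul_eq_mul] using h3
  -- the class
  have hκsmul : ∀ t : ZMod p, κ (t • c j₀) = t • κ (c j₀) := by
    intro t
    have h1 := (M4c_kappa_sum (fun c : G0 N → ZMod p => IsParHom c) κ (M4c_isParHom_zero N)
      (fun c c' h h' => M4c_isParHom_add h h') hκadd (fun _ : Fin 1 => c j₀) (fun _ => hc j₀)
      (fun _ => t)).2
    simpa using h1
  refine ⟨((κ (c j₀) : Jp N p) : JZero N), ?_, ?_, ?_⟩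
  · intro h0
    exact hj₀ (hκinj _ (hc j₀) (Subtype.ext h0))
  · have hx := (κ (c j₀)).2
    rw [Submodule.mem_torsionBy_iff] at hx
    rw [← natCast_zsmul]
    exact hx
  · intro ℓ hℓS
    have hnd : ¬ (ℓ : ℕ) ∣ N * p * W.Δ.natAbs := fun hd =>
      hℓS (Nat.mem_primeFactors.mpr ⟨ℓ.2, hd, hne⟩)
    have hℓNp : ¬ (ℓ : ℕ) ∣ N * p := fun hd => hnd (Dvd.dvd.mul_right hd _)
    have h1 := hκT ℓ hℓNp (c j₀) (hc j₀)
    rw [heig ℓ ℓ.2 hℓS, hκsmul, Int.cast_smul_eq_zsmul] at h1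
    have h2 := congrArg (fun y : Jp N p => (y : JZero N)) h1
    simp only [coe_heckeJp] at h2
    rw [← h2]
    rfl

/-- **BLR, `W`-form**: an eigensystem `a_ℓ(W)` occurring in `J₀(N)[p]` away from a finite set
`S ⊇ {ℓ ∣ N p Δ(W)}` gives an equivariant embedding `W[p] ↪ J₀(N)`. -/
theorem wEmbedsIn_of_occursIn (hES : RawESStatement)
    (W : WeierstrassCurve ℤ) (p N : ℕ) [NeZero N] (hΔ : W.Δ ≠ 0) (hp : p.Prime) (hp2 : p ≠ 2)
    (hirr : W.ModRepIsIrreducible p) (S : Finset ℕ)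
    (hS : (N * p * W.Δ.natAbs).primeFactors ⊆ S)
    (hocc : OccursIn N p S (fun ℓ => W.apOfModel ℓ)) :
    WEmbedsIn W p N S := by
  haveI : Fact p.Prime := ⟨hp⟩
  have hne : N * p * W.Δ.natAbs ≠ 0 :=
    mul_ne_zero (mul_ne_zero (NeZero.ne N) hp.ne_zero) (Int.natAbs_ne_zero.mpr hΔ)
  obtain ⟨c, hc, hc1, hc2⟩ := h823_exists_involutionW W p hΔ hp hp2 hirr
  obtain ⟨x, hx0, hxp, hxT⟩ := hocc
  obtain ⟨ι, hinj, heq, hmem⟩ := h823_embed_abstract (h823_two_ne_zeroW hp hp2)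
    (h823_finrankW hΔ p)
    (h823_rhoW W p) (h823_rhoW_finiteLevel hΔ hp) (fun U hU => hirr.2 U (fun σ x hx => hU σ hx))
    c hc hc1 hc2
    (h823_eigenSub N p S (fun ℓ => W.apOfModel ℓ))
    (fun z hz => hz.1)
    (h823_eigenSub_galois N p S _)
    (fun z hz => Fermat.Agent.S29.H42.jZero_exists_finite_level_fix_torsion N hp.ne_zero z
      (by rw [natCast_zsmul]; exact hz.1))
    ⟨x, ⟨hxp, hxT⟩, hx0⟩ S
    (by
      intro ℓ A τ hℓ hℓS hA hτ
      have hℓS' : ℓ ∉ (N * p * W.Δ.natAbs).primeFactors := fun h => hℓS (hS h)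
      have hnd : ¬ ℓ ∣ N * p * W.Δ.natAbs := fun hd =>
        hℓS' (Nat.mem_primeFactors.mpr ⟨hℓ, hd, hne⟩)
      have hℓNp : ¬ ℓ ∣ N * p := fun hd => hnd (Dvd.dvd.mul_right hd _)
      have hℓp : ℓ ≠ p := fun he => hℓNp (he ▸ Dvd.intro_left N rfl)
      have hgood : W.IsGoodPrimeFor ℓ := fun hd =>
        hnd (Dvd.dvd.mul_left (Int.natCast_dvd.mp hd) _)
      refine ⟨W.apOfModel ℓ, (ℓ : ℤ), ?_, ?_, ?_⟩
      · exact h823_traceW W p hΔ hp hirr ℓ hℓ hℓp hgood A hA τ hτ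
      · rw [Int.cast_natCast]
        exact h823_detFrobW W p hΔ hp hirr ℓ hℓ hℓp A hA τ hτ
      · intro z hz
        have h1 := (hES N p hp ℓ hℓ hℓNp A hA).2 τ hτ z
          (by rw [natCast_zsmul]; exact hz.1)
        have h2 := (h823_eigenSub_galois N p S _ τ z hz).2 ⟨ℓ, hℓ⟩ hℓS
        rw [h2] at h1
        exact h1)
  refine ⟨ι, hinj, fun σ w => heq σ w, fun ℓ hℓ w => (hmem w).2 ℓ hℓ⟩

/-- **BLR-W**: `Spec.EmbedWStatement` from the S29 pieces `RawES`, `M4a`, `M4b`. -/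
theorem embedW_of (hES : RawESStatement) (hA : M4aStatement) (hB : M4bStatement) :
    EmbedWStatement := by
  intro W p N _ hΔ hp hp2 hirr f 𝔪 hw
  exact ⟨_, wEmbedsIn_of_occursIn hES W p N hΔ hp hp2 hirr _ (Finset.Subset.refl _)
    (occursIn_of_witnessW hA hB W p N hΔ hp f 𝔪 hw)⟩

/-- The Frey form `Spec.EmbedStatement` from the S29 pieces alone (the trace formula and the
determinant formula for the Frey curve are on main). -/
theorem embedStatement_of_S29 (hES : RawESStatement) (hA : M4aStatement) (hB : M4bStatement) :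
    EmbedStatement := by
  intro P N _ hirr f W 𝔪 hw
  have hΔ : W.Δ ≠ 0 := (H764.disc_ne_zero_iff_of_isIntegralModelOf hw.2.1).mpr
    (Fermat.Agent.S13.H891.freyCurve_Δ_ne_zero P)
  have hp2 : P.p ≠ 2 := by have := P.hp5; omega
  have hirrW : W.ModRepIsIrreducible P.p := H224.irrTransport P.freyCurve W P.p hw.2.1 hirr
  obtain ⟨ι, hinj, heq, hT⟩ := wEmbedsIn_of_occursIn hES W P.p N hΔ P.pp hp2 hirrW _
    (Finset.Subset.refl _)
    (occursIn_of_witnessW hA hB W P.p N hΔ P.pp f 𝔪 ⟨hw.1, hw.2.2.1, hw.2.2.2.1, hw.2.2.2.2⟩)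
  obtain ⟨C, hC⟩ := hw.2.1
  -- transport along the change of variables `C • E = W_ℚ`
  have key : ∀ (E' : WeierstrassCurve ℚ) (hE' : C • P.freyCurve = E')
      (ι' : Submodule.torsionBy ℤ (E'⁄(AlgebraicClosure ℚ)).Point P.p →+ JZero N),
      Function.Injective ι' →
      (∀ (σ : Fermat.Agent.Ribet.Spec.GQ)
        (x : Submodule.torsionBy ℤ (E'⁄(AlgebraicClosure ℚ)).Point P.p), ι' (σ • x) = σ • ι' x) →
      (∀ ℓ : Nat.Primes, (ℓ : ℕ) ∉ (N * P.p * W.Δ.natAbs).primeFactors →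
        ∀ x : Submodule.torsionBy ℤ (E'⁄(AlgebraicClosure ℚ)).Point P.p,
          heckeOperatorBar N ℓ (ι' x) = W.apOfModel ℓ • ι' x) →
      FreyEmbedsIn P N (N * P.p * W.Δ.natAbs).primeFactors (fun ℓ => W.apOfModel ℓ) := by
    rintro _ rfl ι' hinj' heq' hT'
    refine ⟨ι'.comp (H224.torsEquiv P.freyCurve C P.p).symm.toAddMonoidHom, ?_, ?_, ?_⟩
    · exact hinj'.comp (H224.torsEquiv P.freyCurve C P.p).symm.injective
    · intro σ x
      show ι' ((H224.torsEquiv P.freyCurve C P.p).symm (σ • x)) = _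
      rw [H224.torsEquiv_symm_smul, heq']
      rfl
    · intro ℓ hℓ x
      exact hT' ℓ hℓ _
  exact ⟨_, key _ hC ι hinj heq hT⟩

end Fermat.Agent.Ribet.H823

end
-- ===== PACK-END Ribet/H823/EmbedW.lean

-- ===== PACK-BEGIN S30/H810/ParEll.lean
section
/-
S30 / piece ONTO (helper810), part 4: the character of a Kummer pair is ADDITIVE and vanishes on
elements acting trivially on `ℍ` and on elements with a FIXED POINT in `ℍ` (elliptic elements).

Setting: `U` twisted of character `c` (M4b `IsTwisted`), `U ^ m` realises `u ∈ FF N`, `u ≠ 0`, and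
`m ∣ ord_v u` at every place `v` of `FF N / ℚ̄` (this is what `IsKum N m c x` provides).
-/



set_option autoImplicit false
set_option linter.unusedSectionVars false

noncomputable section

open ModularCurve AlgebraicCurve CongruenceSubgroup UpperHalfPlane HahnSeries
open scoped MatrixGroups Manifold

namespace Fermat.Agent.S30.H810

open Fermat.Agent.S24 Fermat.Agent.S24.H648 Fermat.Agent.S24.H708 Fermat.Agent.S24.Deg457
open Fermat.Agent.S24.H624 Fermat.Agent.S24.H997 Fermat.Agent.S29 Fermat.Agent.S29.M4b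
open Fermat.Agent.S29.H882

variable {N : ℕ} [NeZero N] {m : ℕ} [NeZero m]

/-- The character of a twisted function is additive. -/
theorem IsTwisted.map_mul {c : G0 N → ZMod m} {U : ℍ → ℂ} (hU : IsTwisted N m c U)
    (γ γ' : G0 N) : c (γ * γ') = c γ + c γ' := by
  obtain ⟨τ, hτ⟩ := hU.ne_zero
  apply H109.zetaP_pow_val_injective m
  rw [H109.zetaP_pow_val_add]
  have h1 := hU.hasChar (γ * γ') τ
  have h2 := hU.hasChar γ (((γ' : G0 N) : SL(2, ℤ)) • τ)
  have h3 := hU.hasChar γ' τ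
  have hmul : (((γ * γ' : G0 N) : SL(2, ℤ))) • τ
      = ((γ : G0 N) : SL(2, ℤ)) • (((γ' : G0 N) : SL(2, ℤ)) • τ) := by
    rw [Subgroup.coe_mul, mul_smul]
  rw [hmul, h2, h3, ← mul_assoc] at h1
  exact (mul_right_cancel₀ hτ h1).symm

/-- The character of a twisted function vanishes on elements acting trivially on `ℍ`. -/
theorem IsTwisted.eq_zero_of_trivial {c : G0 N → ZMod m} {U : ℍ → ℂ} (hU : IsTwisted N m c U)
    (γ : G0 N) (hγ : ∀ τ : ℍ, ((γ : G0 N) : SL(2, ℤ)) • τ = τ) : c γ = 0 := by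
  obtain ⟨τ, hτ⟩ := hU.ne_zero
  apply H109.zetaP_pow_val_injective m
  have h1 := hU.hasChar γ τ
  rw [hγ τ] at h1
  have h2 : zetaP m ^ (c γ).val = 1 := by
    have : (1 : ℂ) * U τ = zetaP m ^ (c γ).val * U τ := by rw [one_mul]; exact h1
    exact (mul_right_cancel₀ hτ this).symm
  rw [h2, ZMod.val_zero, pow_zero]

theorem zetaP_pow_val_eq_one_iff (a : ZMod m) : zetaP m ^ a.val = 1 ↔ a = 0 := by
  constructor
  · intro h
    apply H109.zetaP_pow_val_injective m
    rw [h, ZMod.val_zero, pow_zero]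
  · rintro rfl
    rw [ZMod.val_zero, pow_zero]

/-- a good function is fixed by `γ ∈ Γ₀(N)` in `holoRing` -/
theorem smul_good_eq {A : holoRing} (hA : (A : ℍ → ℂ) ∈ goodRing N) {γ : SL(2, ℤ)}
    (hγ : γ ∈ Gamma0 N) : γ • A = A := by
  apply Subtype.ext
  funext τ
  rw [smul_holoRing_apply]
  exact hA.2.1 γ⁻¹ (inv_mem hγ) τ

/-- rotation relation for holomorphic functions at a fixed point -/
theorem leadingCoeff_taylorLaurent_smul {γ : SL(2, ℤ)} {τ : ℍ} (hτ : γ • τ = τ) (F : holoRing) :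
    (taylorLaurent τ (γ • F)).leadingCoeff
      = rotFactor γ τ ^ (taylorLaurent τ F).order * (taylorLaurent τ F).leadingCoeff := by
  have h := (laurentAt_smul_fixed_rotFactor hτ (algebraMap holoRing MerH F)).2
  rw [smul_algebraMap_MerH, laurentAt_algebraMap, laurentAt_algebraMap] at h
  exact h

/-- an invariant nonzero holomorphic function has order killed by the rotation factor -/
theorem rotFactor_zpow_order_eq_one {γ : SL(2, ℤ)} {τ : ℍ} (hτ : γ • τ = τ) {F : holoRing}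
    (hF : F ≠ 0) (hinv : γ • F = F) : rotFactor γ τ ^ (taylorLaurent τ F).order = 1 := by
  have h := leadingCoeff_taylorLaurent_smul hτ F
  rw [hinv] at h
  have hlc : (taylorLaurent τ F).leadingCoeff ≠ 0 :=
    HahnSeries.leadingCoeff_ne_zero.mpr (fun h0 => hF (taylorLaurent_injective τ (by
      rw [h0, map_zero])))
  have h2 : (1 : ℂ) * (taylorLaurent τ F).leadingCoeff
      = rotFactor γ τ ^ (taylorLaurent τ F).order * (taylorLaurent τ F).leadingCoeff := by
    rw [one_mul]; exact h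
  exact (mul_right_cancel₀ hlc h2).symm

/-- the rotation factor kills the orders of the Taylor embedding `σ_τ` at a fixed point of
`γ ∈ Γ₀(N)` -/
theorem rotFactor_zpow_eord_eq_one {γ : SL(2, ℤ)} (hγ : γ ∈ Gamma0 N) {τ : ℍ} (hτ : γ • τ = τ)
    {f : FF N} (hf : f ≠ 0) : rotFactor γ τ ^ H117.eord (sigmaTau N τ) f = 1 := by
  have key : ∀ r : RN N, r ≠ 0 → rotFactor γ τ ^ H117.eord (sigmaTau N τ) (inclRN N r) = 1 := by
    intro r hr
    rw [H117.eord, sigmaTau_inclRN]
    refine rotFactor_zpow_order_eq_one hτ ?_ (smul_good_eq (realRN N r).2 hγ)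
    intro h0
    have h1 : realRN N r = 0 := goodToHolo_injective N (by rw [h0, map_zero])
    exact hr (realRN_injective N (by rw [h1, map_zero]))
  obtain ⟨r, t, ht, hft⟩ := exists_div_inclRN N f
  have ht' : inclRN N t ≠ 0 := fun h => ht (inclRN_injective N (by rw [h, map_zero]))
  have hr : r ≠ 0 := by
    rintro rfl
    apply hf
    rw [hft, map_zero, zero_div]
  have hr' : inclRN N r ≠ 0 := fun h => hr (inclRN_injective N (by rw [h, map_zero]))
  rw [hft, div_eq_mul_inv, H117.eord_mul _ hr' (inv_ne_zero ht'), H117.eord_inv,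
    zpow_add₀ (rotFactor_ne_zero γ τ), zpow_neg, key r hr, key t ht, inv_one, mul_one]

theorem leadingCoeff_C_mul (a : ℂ) (x : LaurentSeries ℂ) :
    (HahnSeries.C a * x).leadingCoeff = a * x.leadingCoeff := by
  rw [HahnSeries.leadingCoeff_mul]
  congr 1
  rcases eq_or_ne a 0 with rfl | ha
  · simp
  · rw [HahnSeries.C_apply, HahnSeries.leadingCoeff_of_single]

/-- **ELLIPTIC CASE.** The character of a Kummer pair vanishes on every element of `Γ₀(N)` with a
fixed point in `ℍ`. -/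
theorem IsTwisted.eq_zero_of_fixed {c : G0 N → ZMod m} {U : ℍ → ℂ} (hU : IsTwisted N m c U)
    {u : FF N} (hG : Realises N u (fun τ => U τ ^ m))
    (hdiv : ∀ v : Place Kbar (FF N), (m : ℤ) ∣ v.ord u)
    (γ : G0 N) {τ₀ : ℍ} (hτ₀ : ((γ : G0 N) : SL(2, ℤ)) • τ₀ = τ₀) : c γ = 0 := by
  have hm : m ≠ 0 := NeZero.ne m
  have hgmem : ((γ : G0 N) : SL(2, ℤ))⁻¹ ∈ Gamma0 N := inv_mem γ.2
  have hgτ : ((γ : G0 N) : SL(2, ℤ))⁻¹ • τ₀ = τ₀ := inv_smul_of_fixed hτ₀
  set g : SL(2, ℤ) := ((γ : G0 N) : SL(2, ℤ))⁻¹ with hg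
  set Uh : holoRing := ⟨U, hU.mdiff⟩ with hUh
  have hUh0 : Uh ≠ 0 := by
    intro h0
    obtain ⟨τ, hτ⟩ := hU.ne_zero
    exact hτ (congrFun (congrArg Subtype.val h0) τ)
  have hTL0 : taylorLaurent τ₀ Uh ≠ 0 := fun h0 =>
    hUh0 (taylorLaurent_injective τ₀ (by rw [h0, map_zero]))
  -- (1) the twisted transformation rule in `holoRing`
  have h1 : g • Uh = algebraMap ℂ holoRing (zetaP m ^ (c γ).val) * Uh := by
    apply Subtype.ext
    funext τ
    rw [smul_holoRing_apply, hg, inv_inv]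
    exact hU.hasChar γ τ
  have h2 := leadingCoeff_taylorLaurent_smul hgτ Uh
  have hTLc : taylorLaurent τ₀ (algebraMap ℂ holoRing (zetaP m ^ (c γ).val))
      = HahnSeries.C (zetaP m ^ (c γ).val) := taylorLaurent_const τ₀ _ _ rfl
  rw [h1, _root_.map_mul, hTLc, leadingCoeff_C_mul] at h2
  have hlc : (taylorLaurent τ₀ Uh).leadingCoeff ≠ 0 := HahnSeries.leadingCoeff_ne_zero.mpr hTL0
  have h3 : zetaP m ^ (c γ).val = rotFactor g τ₀ ^ (taylorLaurent τ₀ Uh).order :=
    mul_right_cancel₀ hlc h2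
  -- (2) the order of `u` under the Taylor embedding
  have hmd : (fun τ => U τ ^ m) ∈ holoRing := hG.1.1
  have h4 : sigmaTau N τ₀ u = taylorLaurent τ₀ Uh ^ m := by
    rw [sigmaTau_of_realises hG hmd τ₀, ← map_pow]
    rfl
  have h5 : H117.eord (sigmaTau N τ₀) u = m * (taylorLaurent τ₀ Uh).order := by
    rw [H117.eord, h4, HahnSeries.order_pow, nsmul_eq_mul]
  have hm' : (m : ℤ) ≠ 0 := by exact_mod_cast hm
  -- (3) the rotation factor kills the order of `U`
  have h6 : rotFactor g τ₀ ^ (taylorLaurent τ₀ Uh).order = 1 := by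
    by_cases hnt : ∃ t : FF N, H117.eord (sigmaTau N τ₀) t ≠ 0
    · obtain ⟨k, hk, h⟩ := H117.exists_mult (K := Kbar) (sigmaTau N τ₀)
        (fun c => (eord_sigmaTau_algebraMap τ₀ c).ge) hnt
      obtain ⟨π, hπ0, hπ⟩ := H117.exists_ord_eq_one (H117.placeOfEmb (sigmaTau N τ₀)
        (fun c => (eord_sigmaTau_algebraMap τ₀ c).ge) hnt)
      have hk1 : rotFactor g τ₀ ^ (k : ℤ) = 1 := by
        have := rotFactor_zpow_eord_eq_one hgmem hgτ hπ0
        rwa [h π, hπ, mul_one] at this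
      obtain ⟨j, hj⟩ := hdiv (H117.placeOfEmb (sigmaTau N τ₀)
        (fun c => (eord_sigmaTau_algebraMap τ₀ c).ge) hnt)
      have h7 := h u
      rw [h5, hj] at h7
      have h8 : (taylorLaurent τ₀ Uh).order = k * j := by
        have : (m : ℤ) * (taylorLaurent τ₀ Uh).order = m * (k * j) := by rw [h7]; ring
        exact mul_left_cancel₀ hm' this
      rw [h8, zpow_mul, hk1, one_zpow]
    · push Not at hnt
      have h7 := hnt u
      rw [h5] at h7
      have h8 : (taylorLaurent τ₀ Uh).order = 0 := by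
        rcases mul_eq_zero.mp h7 with h | h
        · exact absurd h hm'
        · exact h
      rw [h8, zpow_zero]
  rw [h6] at h3
  exact (zetaP_pow_val_eq_one_iff _).mp h3

end Fermat.Agent.S30.H810

end
end
-- ===== PACK-END S30/H810/ParEll.lean

-- ===== PACK-BEGIN S30/H810/SigmaGen.lean
section
/-
S30 / piece ONTO (helper810), part 6: the embedding `σ_E : FF N → ℂ((z))` attached to an arbitrary
injective expansion `E : goodRing N →+* ℂ((z))`, and the dictionary for it.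
-/


set_option autoImplicit false
set_option linter.unusedSectionVars false

noncomputable section

open ModularCurve AlgebraicCurve CongruenceSubgroup UpperHalfPlane HahnSeries
open scoped MatrixGroups Manifold

namespace Fermat.Agent.S30.H810

open Fermat.Agent.S24 Fermat.Agent.S24.H648 Fermat.Agent.S24.H708 Fermat.Agent.S24.Deg457
open Fermat.Agent.S24.H624 Fermat.Agent.S24.H997 Fermat.Agent.S29 Fermat.Agent.S29.M4b
open Fermat.Agent.S29.H882

variable (N : ℕ) [NeZero N]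

section

variable (E : goodRing N →+* LaurentSeries ℂ) (hE : Function.Injective E)

/-- the embedding of `FF N` attached to an injective expansion of good functions -/
def sigmaOf : FF N →+* LaurentSeries ℂ :=
  liftF (E.comp (realRN N)) (hE.comp (realRN_injective N))

theorem sigmaOf_inclRN (r : RN N) : sigmaOf N E hE (inclRN N r) = E (realRN N r) :=
  liftF_inclRN _ _ r

theorem sigmaOf_algebraMap (hEc : ∀ c : ℂ, E (algebraMap ℂ (goodRing N) c) = HahnSeries.C c)
    (c : Kbar) : sigmaOf N E hE (algebraMap Kbar (FF N) c) = HahnSeries.C (iotaC c) := by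
  rw [sigmaOf, liftF_algebraMap, RingHom.comp_apply]
  have : realRN N (algebraMap Kbar (RN N) c) = algebraMap ℂ (goodRing N) (iotaC c) :=
    Subtype.ext (realFun_algebraMap N c)
  rw [this, hEc]

theorem eord_sigmaOf_algebraMap
    (hEc : ∀ c : ℂ, E (algebraMap ℂ (goodRing N) c) = HahnSeries.C c) (c : Kbar) :
    H117.eord (sigmaOf N E hE) (algebraMap Kbar (FF N) c) = 0 := by
  rw [H117.eord, sigmaOf_algebraMap N E hE hEc, HahnSeries.order_C]

variable {N}

theorem sigmaOf_of_realises {u : FF N} {G : ℍ → ℂ} (hG : Realises N u G)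
    (hGm : G ∈ goodRing N) : sigmaOf N E hE u = E ⟨G, hGm⟩ := by
  obtain ⟨r, t, ht, hu⟩ := exists_div_inclRN N u
  have ht' : inclRN N t ≠ 0 := fun h => ht (inclRN_injective N (by rw [h, map_zero]))
  have hmul : u * inclRN N t = inclRN N r := by
    rw [hu, div_mul_cancel₀ _ ht']
  have hcoe : ((u : FF N) : LaurentSeries Kbar) * (t : LaurentSeries Kbar)
      = (r : LaurentSeries Kbar) := by
    have := congrArg (fun x : FF N => (x : LaurentSeries Kbar)) hmul
    simpa using this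
  have hq : HasQExp 1 (G * realFun N t) (coeffMap iotaC (r : LaurentSeries Kbar)) := by
    have := (Realises.hasQExp hG).mul (realFun_hasQExp N t)
    rwa [← _root_.map_mul, hcoe] at this
  have hfun : G * realFun N t = realFun N r := hq.eq_of_eq (realFun_hasQExp N r)
  have hgood : (⟨G, hGm⟩ : goodRing N) * realRN N t = realRN N r := Subtype.ext hfun
  have hT0 : E (realRN N t) ≠ 0 := by
    intro h
    exact ht (realRN_injective N (hE (by rw [h, map_zero, map_zero])))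
  rw [hu, map_div₀, sigmaOf_inclRN, sigmaOf_inclRN, ← hgood, _root_.map_mul, mul_div_assoc,
    div_self hT0, mul_one]

/-- **Dictionary for `σ_E`**: if `d` divides the order of the expansion of every (nonzero) good
function realising an element of `R_N`, and `m ∣ ord_v u` at all places, then `d * m ∣ ord σ_E u`. -/
theorem mul_dvd_eord_sigmaOf
    (hEc : ∀ c : ℂ, E (algebraMap ℂ (goodRing N) c) = HahnSeries.C c)
    (d : ℤ) (hd : ∀ r : RN N, d ∣ (E (realRN N r)).order)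
    {u : FF N} (m : ℤ) (hdiv : ∀ v : Place Kbar (FF N), m ∣ v.ord u) :
    d * m ∣ H117.eord (sigmaOf N E hE) u := by
  have hdF : ∀ f : FF N, d ∣ H117.eord (sigmaOf N E hE) f := by
    intro f
    obtain ⟨r, t, ht, hft⟩ := exists_div_inclRN N f
    rcases eq_or_ne f 0 with rfl | hf
    · simp
    have ht' : inclRN N t ≠ 0 := fun h => ht (inclRN_injective N (by rw [h, map_zero]))
    have hr' : inclRN N r ≠ 0 := by
      intro h
      apply hf
      rw [hft, h, zero_div]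
    rw [hft, div_eq_mul_inv, H117.eord_mul _ hr' (inv_ne_zero ht'), H117.eord_inv]
    refine dvd_add ?_ (Dvd.dvd.neg_right ?_)
    · rw [H117.eord, sigmaOf_inclRN]; exact hd r
    · rw [H117.eord, sigmaOf_inclRN]; exact hd t
  by_cases hnt : ∃ t : FF N, H117.eord (sigmaOf N E hE) t ≠ 0
  · obtain ⟨k, hk, h⟩ := H117.exists_mult (K := Kbar) (sigmaOf N E hE)
      (fun c => (eord_sigmaOf_algebraMap N E hE hEc c).ge) hnt
    obtain ⟨π, hπ0, hπ⟩ := H117.exists_ord_eq_one (H117.placeOfEmb (sigmaOf N E hE)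
      (fun c => (eord_sigmaOf_algebraMap N E hE hEc c).ge) hnt)
    have hdk : d ∣ (k : ℤ) := by
      have := hdF π
      rwa [h π, hπ, mul_one] at this
    obtain ⟨j, hj⟩ := hdiv (H117.placeOfEmb (sigmaOf N E hE)
      (fun c => (eord_sigmaOf_algebraMap N E hE hEc c).ge) hnt)
    rw [h u, hj, ← mul_assoc]
    exact Dvd.dvd.mul_right (mul_dvd_mul_right hdk m) j
  · push Not at hnt
    rw [hnt u]
    exact dvd_zero _

end

end Fermat.Agent.S30.H810

end
end
-- ===== PACK-END S30/H810/SigmaGen.lean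

-- ===== PACK-BEGIN S30/H810/ParCusp.lean
section
/-
S30 / piece ONTO (helper810), part 8: the PARABOLIC case.

If `γ ∈ Γ₀(N)` satisfies `γ ∘ h = h ∘ (τ ↦ τ + n)` on `ℍ` (`h ∈ SL(2, ℤ)`, `n ≥ 1`), then the
character of a Kummer pair vanishes on `γ`.  Proof with `q_L`-expansions at the cusp `h ∞`,
`L = n m`: the shift by `n` twists the `j`-th coefficient by `ζ_m^j`.
-/



set_option autoImplicit false
set_option linter.unusedSectionVars false

noncomputable section

open ModularCurve AlgebraicCurve CongruenceSubgroup UpperHalfPlane HahnSeries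
open scoped MatrixGroups Manifold Real

namespace Fermat.Agent.S30.H810

open Fermat.Agent.S24 Fermat.Agent.S24.H648 Fermat.Agent.S24.H708 Fermat.Agent.S24.Deg457
open Fermat.Agent.S24.H624 Fermat.Agent.S24.H997 Fermat.Agent.S29 Fermat.Agent.S29.M4b
open Fermat.Agent.S29.H882

/-- iterating a quasi-periodicity -/
theorem vadd_iterate {f : ℍ → ℂ} {a : ℝ} {z : ℂ} (hf : ∀ τ : ℍ, f (a +ᵥ τ) = z * f τ) (j : ℕ)
    (τ : ℍ) : f (((j : ℝ) * a) +ᵥ τ) = z ^ j * f τ := by
  induction j generalizing τ with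
  | zero => simp
  | succ j ih =>
    have h1 : (((j + 1 : ℕ) : ℝ) * a) +ᵥ τ = a +ᵥ (((j : ℝ) * a) +ᵥ τ) := by
      rw [vadd_vadd]
      congr 1
      push_cast
      ring
    rw [h1, hf, ih, pow_succ]
    ring

theorem shiftUnit_eq_zetaP (n m : ℕ) [NeZero n] [NeZero m] :
    ((shiftUnit (n * m) (n : ℝ) : ℂˣ) : ℂ) = zetaP m := by
  rw [shiftUnit, Units.val_mk0, zetaP]
  congr 1
  have hn : (n : ℂ) ≠ 0 := Nat.cast_ne_zero.mpr (NeZero.ne n)
  have hm : (m : ℂ) ≠ 0 := Nat.cast_ne_zero.mpr (NeZero.ne m)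
  push_cast
  field_simp

theorem zetaP_zpow_eq_one_iff (m : ℕ) [NeZero m] (k : ℤ) : zetaP m ^ k = 1 ↔ (m : ℤ) ∣ k :=
  (H109.zetaP_isPrimitiveRoot m).zpow_eq_one_iff_dvd k

theorem mdiff_compSL {U : ℍ → ℂ} (hU : MDiff U) (γ : SL(2, ℤ)) :
    MDiff (fun τ => U (γ • τ)) :=
  (precompSL γ ⟨U, hU⟩).2

variable {N : ℕ} [NeZero N]

section Cusp

variable (h : SL(2, ℤ)) (L : ℕ) [NeZero L]
  (hper : ∀ A : ℍ → ℂ, A ∈ goodRing N → ∀ τ : ℍ, A (h • ((L : ℝ) +ᵥ τ)) = A (h • τ))

/-- composition with `h` maps good functions to `q_L`-meromorphic functions -/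
theorem isMerInf_comp {A : ℍ → ℂ} (hA : A ∈ goodRing N)
    (hperA : ∀ τ : ℍ, A (h • ((L : ℝ) +ᵥ τ)) = A (h • τ)) :
    IsMerInf L (fun τ => A (h • τ)) :=
  isMerInf_of_periodic (mdiff_compSL hA.1 h) hperA (hA.2.2 h)

/-- the ring hom `A ↦ A ∘ h` into `merInf L` -/
def compMer : goodRing N →+* merInf L where
  toFun A := ⟨fun τ => (A : ℍ → ℂ) (h • τ), isMerInf_comp h L A.2 (hper A A.2)⟩
  map_one' := rfl
  map_mul' _ _ := rfl
  map_zero' := rfl
  map_add' _ _ := rfl

theorem compMer_injective : Function.Injective (compMer h L hper) := by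
  intro A B hAB
  apply Subtype.ext
  funext τ
  have := congrFun (congrArg Subtype.val hAB) (h⁻¹ • τ)
  simpa [compMer] using this

/-- the expansion at the cusp `h ∞` -/
def cuspE : goodRing N →+* LaurentSeries ℂ :=
  ((qexpInf L : merInf L →ₐ[ℂ] LaurentSeries ℂ) : merInf L →+* LaurentSeries ℂ).comp
    (compMer h L hper)

theorem cuspE_apply (A : goodRing N) :
    cuspE h L hper A = qexpFun L (fun τ => (A : ℍ → ℂ) (h • τ)) := rfl

theorem cuspE_injective : Function.Injective (cuspE h L hper) :=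
  (qexpInf_injective L).comp (compMer_injective h L hper)

theorem cuspE_const (c : ℂ) : cuspE h L hper (algebraMap ℂ (goodRing N) c) = HahnSeries.C c := by
  rw [cuspE_apply]
  exact qexpFun_const L c

end Cusp

section CuspMain

variable {m : ℕ} [NeZero m]

/-- **Parabolic case.**  If `γ h = h (τ ↦ τ + n)` on `ℍ` with `n ≥ 1`, then `c γ = 0`. -/
theorem IsTwisted.eq_zero_of_cusp {c : G0 N → ZMod m} {U : ℍ → ℂ} (hU : IsTwisted N m c U)
    {u : FF N} (hG : Realises N u (fun τ => U τ ^ m))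
    (hdiv : ∀ v : Place Kbar (FF N), (m : ℤ) ∣ v.ord u)
    (γ : G0 N) (h : SL(2, ℤ)) (n : ℕ) [NeZero n]
    (hconj : ∀ τ : ℍ, ((γ : G0 N) : SL(2, ℤ)) • (h • τ) = h • ((n : ℝ) +ᵥ τ)) : c γ = 0 := by
  have hm0 : m ≠ 0 := NeZero.ne m
  haveI hL : NeZero (n * m) := ⟨Nat.mul_ne_zero (NeZero.ne n) (NeZero.ne m)⟩
  have hcast : ((m : ℝ) * (n : ℝ)) = (((n * m : ℕ) : ℝ)) := by push_cast; ring
  -- step 1: periodicity of good functions
  have hper1 : ∀ A : ℍ → ℂ, A ∈ goodRing N → ∀ τ : ℍ, A (h • ((n : ℝ) +ᵥ τ)) = A (h • τ) := by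
    intro A hA τ
    rw [← hconj τ]
    exact hA.2.1 γ γ.2 (h • τ)
  have hper : ∀ A : ℍ → ℂ, A ∈ goodRing N →
      ∀ τ : ℍ, A (h • (((n * m : ℕ) : ℝ) +ᵥ τ)) = A (h • τ) := by
    intro A hA τ
    have key := vadd_iterate (f := fun τ => A (h • τ)) (a := (n : ℝ)) (z := 1)
      (by intro τ; rw [one_mul]; exact hper1 A hA τ) m τ
    simp only [one_pow, one_mul] at key
    rw [← key, hcast]
  -- step 2: orders of expansions of good functions are divisible by `m`
  have hd : ∀ r : RN N, (m : ℤ) ∣ (cuspE h (n * m) hper (realRN N r)).order := by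
    intro r
    rw [cuspE_apply]
    set A : ℍ → ℂ := ((realRN N r : goodRing N) : ℍ → ℂ) with hA
    have hAm : A ∈ goodRing N := (realRN N r).2
    have hmer : IsMerInf (n * m) (fun τ => A (h • τ)) := isMerInf_comp h (n * m) hAm (hper A hAm)
    by_cases h0 : (fun τ => A (h • τ)) = 0
    · rw [h0]
      have : qexpFun (n * m) (0 : ℍ → ℂ) = 0 := (qexpFun_eq_zero_iff (IsMerInf.zero _)).mpr rfl
      rw [this, HahnSeries.order_zero]
      exact dvd_zero _
    · have h1 := shiftUnit_zpow_order_eq (HasQExp.of_isMerInf hmer) h0 (n : ℝ) 1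
        (by intro τ; rw [one_mul]; exact hper1 A hAm τ)
      rw [shiftUnit_eq_zetaP] at h1
      exact (zetaP_zpow_eq_one_iff m _).mp h1
  -- step 3: the twisted function at the cusp
  set V : ℍ → ℂ := fun τ => U (h • τ) with hV
  have hVmd : MDiff V := mdiff_compSL hU.mdiff h
  have hVq : ∀ τ : ℍ, V ((n : ℝ) +ᵥ τ) = zetaP m ^ (c γ).val * V τ := by
    intro τ
    show U (h • ((n : ℝ) +ᵥ τ)) = _
    rw [← hconj τ]
    exact hU.hasChar γ (h • τ)
  have hVper : ∀ τ : ℍ, V (((n * m : ℕ) : ℝ) +ᵥ τ) = V τ := by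
    intro τ
    have key := vadd_iterate hVq m τ
    have hz : (zetaP m ^ (c γ).val) ^ m = 1 := by
      rw [← pow_mul, mul_comm, pow_mul, H102.KBasic_zetaP_pow, one_pow]
    rw [hz, one_mul, hcast] at key
    exact key
  have hVg : ExpGrowth V := H102.KBasic_expGrowth_of_pow hm0 (hG.1.2.2 h)
  have hVmer : IsMerInf (n * m) V := isMerInf_of_periodic hVmd hVper hVg
  have hV0 : V ≠ 0 := by
    obtain ⟨τ, hτ⟩ := hU.ne_zero
    intro h0
    apply hτ
    have := congrFun h0 (h⁻¹ • τ)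
    simpa [hV] using this
  have hVQ : HasQExp (n * m) V (qexpFun (n * m) V) := HasQExp.of_isMerInf hVmer
  have h3 := shiftUnit_zpow_order_eq hVQ hV0 (n : ℝ) (zetaP m ^ (c γ).val) hVq
  rw [shiftUnit_eq_zetaP] at h3
  -- step 4: the embedding at the cusp
  have hσ : sigmaOf N (cuspE h (n * m) hper) (cuspE_injective h (n * m) hper) u
      = qexpFun (n * m) V ^ m := by
    rw [sigmaOf_of_realises _ _ hG hG.1, cuspE_apply]
    have hpow := hVQ.pow m
    have : (fun τ => ((⟨fun τ => U τ ^ m, hG.1⟩ : goodRing N) : ℍ → ℂ) (h • τ)) = V ^ m := by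
      funext τ
      rfl
    rw [this]
    exact hpow.2
  have hφ0 : qexpFun (n * m) V ≠ 0 := fun h0 => hV0 ((qexpFun_eq_zero_iff hVmer).mp h0)
  have he : H117.eord (sigmaOf N (cuspE h (n * m) hper) (cuspE_injective h (n * m) hper)) u
      = (m : ℤ) * (qexpFun (n * m) V).order := by
    rw [H117.eord, hσ, HahnSeries.order_pow, nsmul_eq_mul]
  have hdvd := mul_dvd_eord_sigmaOf (cuspE h (n * m) hper) (cuspE_injective h (n * m) hper)
    (cuspE_const h (n * m) hper) (m : ℤ) hd (m : ℤ) hdiv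
  rw [he] at hdvd
  have hmz : (m : ℤ) ≠ 0 := Int.natCast_ne_zero.mpr hm0
  have hdvd' : (m : ℤ) ∣ (qexpFun (n * m) V).order := (mul_dvd_mul_iff_left hmz).mp hdvd
  have h4 := (zetaP_zpow_eq_one_iff m _).mpr hdvd'
  rw [h3] at h4
  exact (zetaP_pow_val_eq_one_iff _).mp h4

end CuspMain

end Fermat.Agent.S30.H810

end
end
-- ===== PACK-END S30/H810/ParCusp.lean

-- ===== PACK-BEGIN S30/H810/ParHom.lean
section
/-
S30 / piece ONTO (helper810), part 9 (final): the character of a Kummer pair is PARABOLIC.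

* `isParHom_of_isKum : IsKum N m c x → IsParHom c` — the character of any Kummer pair is additive
  and vanishes on elliptic (finite order) and on parabolic (trace `±2`) elements of `Γ₀(N)`;
* `exists_isParHom_isKum_of_torsion : (m : ℤ) • x = 0 → ∃ c, IsParHom c ∧ IsKum N m c x` —
  **ONTO** in the final shape, for every modulus `m ≥ 1`, unconditionally.
-/



set_option autoImplicit false
set_option linter.unusedSectionVars false

noncomputable section

open ModularCurve AlgebraicCurve CongruenceSubgroup UpperHalfPlane HahnSeries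
open scoped MatrixGroups Manifold Real

namespace Fermat.Agent.S30.H810

open Fermat.Agent.S24 Fermat.Agent.S24.H648 Fermat.Agent.S24.H708 Fermat.Agent.S24.Deg457
open Fermat.Agent.S24.H624 Fermat.Agent.S24.H997 Fermat.Agent.S29 Fermat.Agent.S29.M4b
open Fermat.Agent.S29.H882

variable {N : ℕ} [NeZero N] {m : ℕ} [NeZero m]

theorem IsTwisted.map_one_eq_zero {c : G0 N → ZMod m} {U : ℍ → ℂ} (hU : IsTwisted N m c U) :
    c 1 = 0 := by
  have h := IsTwisted.map_mul hU 1 1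
  rw [mul_one] at h
  exact left_eq_add.mp h

theorem IsTwisted.map_inv_add {c : G0 N → ZMod m} {U : ℍ → ℂ} (hU : IsTwisted N m c U)
    (γ : G0 N) : c γ⁻¹ + c γ = 0 := by
  rw [← IsTwisted.map_mul hU, inv_mul_cancel, IsTwisted.map_one_eq_zero hU]

/-- parabolic case with a positive translation length -/
theorem IsTwisted.eq_zero_of_conj_pos {c : G0 N → ZMod m} {U : ℍ → ℂ} (hU : IsTwisted N m c U)
    {u : FF N} (hG : Realises N u (fun τ => U τ ^ m))
    (hdiv : ∀ v : Place Kbar (FF N), (m : ℤ) ∣ v.ord u)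
    (γ : G0 N) (h : SL(2, ℤ)) (n : ℤ) (hn : 0 < n)
    (hconj : ∀ τ : ℍ, ((γ : G0 N) : SL(2, ℤ)) • (h • τ) = h • (ModularGroup.T ^ n • τ)) :
    c γ = 0 := by
  haveI : NeZero n.toNat := ⟨by omega⟩
  refine IsTwisted.eq_zero_of_cusp hU hG hdiv γ h n.toNat fun τ => ?_
  rw [hconj τ, UpperHalfPlane.modular_T_zpow_smul]
  congr 2
  have : ((n.toNat : ℕ) : ℤ) = n := Int.toNat_of_nonneg hn.le
  exact_mod_cast this.symm

/-- **The character of a twisted function with `m`-divisible realised divisor is parabolic.** -/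
theorem isParHom_of_isTwisted {c : G0 N → ZMod m} {U : ℍ → ℂ} (hU : IsTwisted N m c U)
    {u : FF N} (hG : Realises N u (fun τ => U τ ^ m))
    (hdiv : ∀ v : Place Kbar (FF N), (m : ℤ) ∣ v.ord u) : IsParHom c := by
  refine ⟨IsTwisted.map_mul hU, ?_, ?_⟩
  · intro γ htr
    have ht : ((γ : G0 N) : SL(2, ℤ)) 0 0 + ((γ : G0 N) : SL(2, ℤ)) 1 1 = 2 ∨
        ((γ : G0 N) : SL(2, ℤ)) 0 0 + ((γ : G0 N) : SL(2, ℤ)) 1 1 = -2 := by
      simpa [G0.mat, Matrix.trace_fin_two] using htr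
    obtain ⟨h, n, hconj⟩ := parabolic_conj ((γ : G0 N) : SL(2, ℤ)) ht
    rcases lt_trichotomy n 0 with hn | rfl | hn
    · -- negative translation: pass to the inverse
      have hinv : c γ⁻¹ = 0 := by
        refine IsTwisted.eq_zero_of_conj_pos hU hG hdiv γ⁻¹ h (-n) (by omega) fun τ => ?_
        have h1 := hconj (ModularGroup.T ^ (-n) • τ)
        rw [← mul_smul (ModularGroup.T ^ n), ← zpow_add, add_neg_cancel, zpow_zero, one_smul] at h1
        rw [← h1]
        show ((γ⁻¹ : G0 N) : SL(2, ℤ)) • ((γ : G0 N) : SL(2, ℤ)) • _ = _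
        rw [← mul_smul]
        have : ((γ⁻¹ : G0 N) : SL(2, ℤ)) * ((γ : G0 N) : SL(2, ℤ)) = 1 := by
          rw [← Subgroup.coe_mul, inv_mul_cancel, Subgroup.coe_one]
        rw [this, one_smul]
      have := IsTwisted.map_inv_add hU γ
      rwa [hinv, zero_add] at this
    · -- trivial action
      refine IsTwisted.eq_zero_of_trivial hU γ fun τ => ?_
      have h1 := hconj (h⁻¹ • τ)
      rwa [zpow_zero, one_smul, ← mul_smul h, mul_inv_cancel, one_smul] at h1
    · exact IsTwisted.eq_zero_of_conj_pos hU hG hdiv γ h n hn hconj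
  · intro γ n hn hγ
    have hγ' : ((γ : G0 N) : SL(2, ℤ)) ^ n = 1 := by
      rw [← Subgroup.coe_pow, hγ, Subgroup.coe_one]
    rcases fixed_or_trivial_of_pow_eq_one _ n hn hγ' with h | ⟨τ₀, hτ₀⟩
    · exact IsTwisted.eq_zero_of_trivial hU γ h
    · exact IsTwisted.eq_zero_of_fixed hU hG hdiv γ hτ₀

/-- **The character of a Kummer pair is parabolic.** -/
theorem isParHom_of_isKum {c : G0 N → ZMod m} {x : JZero N} (hk : IsKum N m c x) :
    IsParHom c := by
  obtain ⟨f, t, U, ht, hx, hU, hR⟩ := hk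
  refine isParHom_of_isTwisted hU hR fun v => ?_
  have hf : f ≠ 0 := hx.ne_zero
  have hdvd : (m : ℤ) ∣ v.ord f := by
    obtain ⟨-, D, -, hD⟩ := hx
    exact ⟨_, (hD v).symm⟩
  rw [Place.ord_mul v hf (pow_ne_zero _ ht), H117.ord_pow]
  exact dvd_add hdvd (dvd_mul_right _ _)

variable (N m)

/-- **ONTO** (final shape): every `m`-torsion class of `J₀(N)(ℚ̄)` is the Kummer class of a
parabolic character `Γ₀(N) → ℤ/m`. -/
theorem exists_isParHom_isKum_of_torsion {x : JZero N} (hx : (m : ℤ) • x = 0) :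
    ∃ c : G0 N → ZMod m, IsParHom c ∧ IsKum N m c x := by
  obtain ⟨c, -, hc⟩ := exists_hom_isKum_of_torsion N m hx
  exact ⟨c, isParHom_of_isKum hc, hc⟩

end Fermat.Agent.S30.H810

end
end
-- ===== PACK-END S30/H810/ParHom.lean

-- ===== PACK-BEGIN Ribet/H764/TransportS29.lean
section



/-!
# Row RIBET, R3'-W / R3' / G2 from frozen S29 alone  (helper764)

`congruence_transport_S29`: let `E/ℚ` be an elliptic curve, `W₀`, `W` integral models of `E`,
`g` a normalised eigenform of level `M`, `𝔪` a maximal ideal of `ℤ̄` over a prime `p`, and assume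
`a_ℓ(g) ≡ a_ℓ(W₀) mod 𝔪` for all primes `ℓ` outside a finite set at which `W₀` is good.
Then `a_{ℓ₀}(g) ≡ a_{ℓ₀}(W) mod 𝔪` for EVERY prime `ℓ₀ ∤ M p` at which `W` is good.

The only hypothesis is frozen S29 (`Spec.S29Statement`); no trace formula, no determinant, no
irreducibility.  Landed inputs: `Lib.Cheb.chebotarev`, `Lib.Frob.Small.frobRelationAll`,
`S41.H701` (`#E[p] = p²`), `S55.H414` (Frobenius on roots of unity), `S54.exists_frobenius`.

Deliverables:
* `almostAllToWitnessW_of_S29 : S29Statement → AlmostAllToWitnessWStatement`     (R3'-W, row 38)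
* `almostAllToWitnessW_of` : the same with the (unused) hypothesis `TraceFormulaWStatement`
* `almostAllToWitness_of_S29 : S29Statement → AlmostAllToWitnessStatement`        (R3', Frey form)
* `modelTransport_of_S29 : S29Statement → ModelTransportStatement`                (G2, Frey form)
-/

set_option autoImplicit false

open WeierstrassCurve WeierstrassCurve.Affine WeierstrassCurve.Affine.Point
open CuspForm ModularFormClass Polynomial

namespace Fermat.Agent.Ribet.H764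

open Fermat.Agent.Ribet.Spec

local notation "Qbar" => AlgebraicClosure ℚ

/-- The affine coordinates of a point (empty for the origin). -/
def coordSet (E : WeierstrassCurve ℚ) : (E⁄Qbar).Point → Set Qbar
  | .zero => ∅
  | .some x y _ => {x, y}

theorem finite_coordSet (E : WeierstrassCurve ℚ) (P : (E⁄Qbar).Point) :
    (coordSet E P).Finite := by
  cases P with
  | zero => exact Set.finite_empty
  | some x y h =>
    show ({x, y} : Set Qbar).Finite
    exact Set.toFinite _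

/-- Two automorphisms agreeing on the coordinates of a point agree on the point. -/
theorem smul_eq_of_agree_on_coordSet (E : WeierstrassCurve ℚ) (σ τ : GQ) (P : (E⁄Qbar).Point)
    (h : ∀ z ∈ coordSet E P, σ z = τ z) : σ • P = τ • P := by
  cases P with
  | zero => rfl
  | some x y hxy =>
    rw [algEquiv_smul_def, algEquiv_smul_def, Point.map_some, Point.map_some]
    simp only [Point.some.injEq]
    exact ⟨h x (by simp [coordSet]), h y (by simp [coordSet])⟩

/-- The linear coefficient of `X² - uX + v`. -/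
theorem coeff_one_quadratic {R : Type*} [CommRing R] (u v : R) :
    (X ^ 2 - C u * X + C v : R[X]).coeff 1 = -u := by
  simp [coeff_C, coeff_X_pow]

/-- **Core of R3'-W / R3' / G2, from frozen S29 alone.** -/
theorem congruence_transport_S29 (h29 : S29Statement)
    (E : WeierstrassCurve ℚ) (hEΔ : E.Δ ≠ 0) (p : ℕ) (hpp : p.Prime) (M : ℕ)
    (g : CuspForm (CongruenceSubgroup.Gamma0 M) 2) (hg : g.IsNormalizedEigenform)
    (𝔪 : Ideal (integralClosure ℤ ℂ)) (h𝔪 : 𝔪.IsMaximal)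
    (hp : (p : integralClosure ℤ ℂ) ∈ 𝔪)
    (W₀ : WeierstrassCurve ℤ) (hW₀ : W₀.IsIntegralModelOf E) (S : Finset ℕ)
    (hcong : ∀ ℓ : ℕ, ℓ.Prime → ℓ ∉ S → W₀.IsGoodPrimeFor ℓ →
      ∃ b : integralClosure ℤ ℂ, (b : ℂ) = qCoeff g ℓ ∧
        b - ((W₀.apOfModel ℓ : ℤ) : integralClosure ℤ ℂ) ∈ 𝔪)
    (W : WeierstrassCurve ℤ) (hW : W.IsIntegralModelOf E)
    (ℓ₀ : ℕ) (hℓ₀ : ℓ₀.Prime) (hgood : W.IsGoodPrimeFor ℓ₀) (hℓ₀M : ¬ ℓ₀ ∣ M)
    (hℓ₀p : ℓ₀ ≠ p) :
    ∃ a : integralClosure ℤ ℂ, (a : ℂ) = qCoeff g ℓ₀ ∧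
      a - ((W.apOfModel ℓ₀ : ℤ) : integralClosure ℤ ℂ) ∈ 𝔪 := by
  have hM : M ≠ 0 := by
    rintro rfl
    exact hℓ₀M (dvd_zero _)
  have hell : E.IsElliptic := ⟨isUnit_iff_ne_zero.mpr hEΔ⟩
  have hW₀Δ : W₀.Δ ≠ 0 := (disc_ne_zero_iff_of_isIntegralModelOf hW₀).mpr hEΔ
  -- a nonzero `p`-torsion point
  have hcard : Nat.card (Submodule.torsionBy ℤ (E⁄Qbar).Point p) = p ^ 2 :=
    Fermat.Agent.S41.H701.card_torsion_eq_sq_prelude_h701 (K := Qbar) E p hpp.one_le
  obtain ⟨x₀, hx₀⟩ : ∃ x : Submodule.torsionBy ℤ (E⁄Qbar).Point p, x ≠ 0 := by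
    by_contra hall
    simp only [ne_eq, not_exists, not_not] at hall
    have hsub : Subsingleton (Submodule.torsionBy ℤ (E⁄Qbar).Point p) :=
      ⟨fun a b => by rw [hall a, hall b]⟩
    have h1 : Nat.card (Submodule.torsionBy ℤ (E⁄Qbar).Point p) = 1 :=
      Nat.card_of_subsingleton 0
    rw [hcard] at h1
    have := hpp.one_lt
    nlinarith
  set x : (E⁄Qbar).Point := (x₀ : (E⁄Qbar).Point) with hx
  have hx0 : x ≠ 0 := fun h => hx₀ (Subtype.ext h)
  have hpx : (p : ℤ) • x = 0 := (Submodule.mem_torsionBy_iff _ _).mp x₀.2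
  have hpx' : p • x = 0 := by
    rw [← natCast_zsmul]; exact hpx
  -- the residual representation attached to `g` over `k = ℤ̄ / 𝔪`
  haveI := h𝔪
  letI : Field (integralClosure ℤ ℂ ⧸ 𝔪) := Ideal.Quotient.field 𝔪
  have hpk : ((p : ℕ) : integralClosure ℤ ℂ ⧸ 𝔪) = 0 := by
    have h1 := Ideal.Quotient.eq_zero_iff_mem.mpr hp
    rw [map_natCast] at h1
    exact h1
  haveI : CharP (integralClosure ℤ ℂ ⧸ 𝔪) p := (CharP.charP_iff_prime_eq_zero hpp).mpr hpk
  obtain ⟨ρ, hatt, -⟩ := h29 hg hpp (Ideal.Quotient.mk 𝔪)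
  obtain ⟨Lρ, hLρfin, hLρ⟩ := ρ.factorsThroughFiniteLevel
  obtain ⟨A₀, σ₀, hA₀, hσ₀⟩ := Fermat.Agent.S54.exists_frobenius ℓ₀ hℓ₀
  -- a primitive `p`-th root of unity
  have : NeZero (p : ℚ) := ⟨by exact_mod_cast hpp.ne_zero⟩
  obtain ⟨ζ, hζ⟩ := HasEnoughRootsOfUnity.exists_primitiveRoot Qbar p
  have hζp : ζ ^ p = 1 := hζ.pow_eq_one
  -- the auxiliary field
  set T : Set Qbar := coordSet E x ∪ coordSet E (σ₀ • x) ∪ {ζ} with hT
  have hTfin : T.Finite :=
    ((finite_coordSet E x).union (finite_coordSet E (σ₀ • x))).union (Set.finite_singleton ζ)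
  have hfin2 : FiniteDimensional ℚ (IntermediateField.adjoin ℚ T) := by
    have : Finite T := hTfin.to_subtype
    exact IntermediateField.finiteDimensional_adjoin
      (fun z _ => (AlgebraicClosure.isAlgebraic ℚ).isIntegral.isIntegral z)
  have hle1 : Lρ ≤ Lρ ⊔ IntermediateField.adjoin ℚ T := le_sup_left
  have hle2 : IntermediateField.adjoin ℚ T ≤ Lρ ⊔ IntermediateField.adjoin ℚ T := le_sup_right
  obtain ⟨ℓ, A, τ, hℓ, hℓS, hA, hτ, -, hτσ⟩ := Fermat.Agent.Lib.Cheb.chebotarev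
    (Lρ ⊔ IntermediateField.adjoin ℚ T) inferInstance σ₀
    (S ∪ M.primeFactors ∪ {p} ∪ W₀.Δ.natAbs.primeFactors)
  simp only [Finset.mem_union, Finset.mem_singleton, not_or] at hℓS
  obtain ⟨⟨⟨hℓS, hℓM⟩, hℓp⟩, hℓbad⟩ := hℓS
  have hℓM' : ¬ ℓ ∣ M := fun h => hℓM (Nat.mem_primeFactors.mpr ⟨hℓ, h, hM⟩)
  have hℓgood : W₀.IsGoodPrimeFor ℓ := isGoodPrimeFor_of_not_mem hW₀Δ hℓ hℓbad
  have hτT : ∀ z ∈ T, τ z = σ₀ z :=
    fun z hz => hτσ z (hle2 (IntermediateField.subset_adjoin ℚ T hz))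
  have hτσζ : τ ζ = σ₀ ζ := hτT ζ (by rw [hT]; simp)
  -- `ℓ ≡ ℓ₀ mod p`
  have hcongr : (p : ℤ) ∣ (ℓ : ℤ) - ℓ₀ := by
    apply int_dvd_sub_of_pow_eq hζ hpp.ne_zero
    rw [← frob_apply_root_h764 p hpp ℓ hℓ hℓp A τ hA hτ ζ hζp,
      ← frob_apply_root_h764 p hpp ℓ₀ hℓ₀ hℓ₀p A₀ σ₀ hA₀ hσ₀ ζ hζp, hτσζ]
  -- `ρ τ = ρ σ₀`
  have hρ : ρ.ρ τ = ρ.ρ σ₀ := by
    have h1 : ρ.ρ (σ₀⁻¹ * τ) = 1 := by
      apply hLρ
      intro z hz
      rw [AlgEquiv.mul_apply, hτσ z (hle1 hz)]
      exact σ₀.symm_apply_apply z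
    have h2 : ρ.ρ τ = ρ.ρ (σ₀ * (σ₀⁻¹ * τ)) := by rw [mul_inv_cancel_left]
    rw [h2, map_mul, h1, mul_one]
  -- the two Frobenius relations at the point `x`
  have hτx : τ • x = σ₀ • x :=
    smul_eq_of_agree_on_coordSet E τ σ₀ x (fun z hz => hτT z (by rw [hT]; simp [hz]))
  have hττx : τ • σ₀ • x = σ₀ • σ₀ • x :=
    smul_eq_of_agree_on_coordSet E τ σ₀ (σ₀ • x) (fun z hz => hτT z (by rw [hT]; simp [hz]))
  have hℓ₀ndvd : ¬ ℓ₀ ∣ p := fun h => hℓ₀p ((Nat.prime_dvd_prime_iff_eq hℓ₀ hpp).mp h)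
  have hℓndvd : ¬ ℓ ∣ p := fun h => hℓp ((Nat.prime_dvd_prime_iff_eq hℓ hpp).mp h)
  have r1 := frob_relation_of_model E W hW ℓ₀ hℓ₀ hgood A₀ σ₀ hA₀ hσ₀ p hpp.pos hℓ₀ndvd x hpx'
  have r2 := frob_relation_of_model E W₀ hW₀ ℓ hℓ hℓgood A τ hA hτ p hpp.pos hℓndvd x hpx'
  rw [hτx, hττx] at r2
  have hy0 : σ₀ • x ≠ 0 := by
    intro h0
    apply hx0
    have h2 : σ₀⁻¹ • σ₀ • x = σ₀⁻¹ • (0 : (E⁄Qbar).Point) := congrArg (fun z => σ₀⁻¹ • z) h0
    rw [inv_smul_smul] at h2
    exact h2.trans (smul_zero (A := (E⁄Qbar).Point) (σ₀⁻¹ : GQ))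
  have hpy : (p : ℤ) • (σ₀ • x) = 0 := by
    have h1 := map_zsmul (DistribSMul.toAddMonoidHom (E⁄Qbar).Point σ₀) (p : ℤ) x
    simp only [DistribSMul.toAddMonoidHom_apply] at h1
    rw [← h1, hpx]
    exact smul_zero (A := (E⁄Qbar).Point) (σ₀ : GQ)
  have hℓx : ((ℓ : ℤ) - ℓ₀) • x = 0 := by
    obtain ⟨d, hd⟩ := hcongr
    rw [hd, mul_comm, mul_smul, hpx]
    exact zsmul_zero d
  have hdiff : (W.apOfModel ℓ₀ - W₀.apOfModel ℓ) • (σ₀ • x) = 0 := by
    have e1 : W.apOfModel ℓ₀ • σ₀ • x = σ₀ • σ₀ • x + (ℓ₀ : ℤ) • x := by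
      have h3 : σ₀ • σ₀ • x + (ℓ₀ : ℤ) • x - W.apOfModel ℓ₀ • σ₀ • x = 0 := by
        rw [← r1]; abel
      exact (sub_eq_zero.mp h3).symm
    have e2 : W₀.apOfModel ℓ • σ₀ • x = σ₀ • σ₀ • x + (ℓ : ℤ) • x := by
      have h3 : σ₀ • σ₀ • x + (ℓ : ℤ) • x - W₀.apOfModel ℓ • σ₀ • x = 0 := by
        rw [← r2]; abel
      exact (sub_eq_zero.mp h3).symm
    have e3 : (ℓ : ℤ) • x = (ℓ₀ : ℤ) • x := by
      rw [sub_smul] at hℓx
      exact sub_eq_zero.mp hℓx
    rw [sub_smul, e1, e2, e3, sub_self]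
  have hdvd : (p : ℤ) ∣ W.apOfModel ℓ₀ - W₀.apOfModel ℓ :=
    int_dvd_of_zsmul_eq_zero hpp hy0 hpy hdiff
  -- conclusion: compare the characteristic polynomials
  have hℓk : ((ℓ : ℕ) : integralClosure ℤ ℂ ⧸ 𝔪) ≠ 0 := by
    intro h0
    have := (CharP.cast_eq_zero_iff (integralClosure ℤ ℂ ⧸ 𝔪) p ℓ).mp h0
    exact hℓp ((Nat.prime_dvd_prime_iff_eq hpp hℓ).mp this).symm
  have hℓ₀k : ((ℓ₀ : ℕ) : integralClosure ℤ ℂ ⧸ 𝔪) ≠ 0 := by
    intro h0
    have := (CharP.cast_eq_zero_iff (integralClosure ℤ ℂ ⧸ 𝔪) p ℓ₀).mp h0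
    exact hℓ₀p ((Nat.prime_dvd_prime_iff_eq hpp hℓ₀).mp this).symm
  obtain ⟨a, haC, hachar⟩ := hatt ℓ hℓ hℓM' hℓk A hA τ hτ
  obtain ⟨a₀, ha₀C, ha₀char⟩ := hatt ℓ₀ hℓ₀ hℓ₀M hℓ₀k A₀ hA₀ σ₀ hσ₀
  obtain ⟨b, hbC, hb𝔪⟩ := hcong ℓ hℓ hℓS hℓgood
  have hab : a = b := Subtype.ext (haC.trans hbC.symm)
  have hφa : Ideal.Quotient.mk 𝔪 a₀ = Ideal.Quotient.mk 𝔪 a := by
    have h1 := congrArg (fun q => Polynomial.coeff q 1) ha₀char
    have h2 := congrArg (fun q => Polynomial.coeff q 1) hachar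
    simp only [coeff_one_quadratic] at h1 h2
    rw [hρ] at h2
    exact neg_injective (h1.symm.trans h2)
  refine ⟨a₀, ha₀C, ?_⟩
  have hsplit : a₀ - ((W.apOfModel ℓ₀ : ℤ) : integralClosure ℤ ℂ) =
      (a₀ - a) + (b - ((W₀.apOfModel ℓ : ℤ) : integralClosure ℤ ℂ)) -
        (((W.apOfModel ℓ₀ - W₀.apOfModel ℓ : ℤ) : ℤ) : integralClosure ℤ ℂ) := by
    rw [hab]; push_cast; ring
  rw [hsplit]
  refine 𝔪.sub_mem (𝔪.add_mem ?_ hb𝔪) ?_
  · rw [← Ideal.Quotient.eq_zero_iff_mem, map_sub, hφa, sub_self]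
  · obtain ⟨d, hd⟩ := hdvd
    rw [hd]
    push_cast
    exact 𝔪.mul_mem_right _ hp

/-- An integral curve is an integral model of its own generic fibre. -/
theorem isIntegralModelOf_map_self (W : WeierstrassCurve ℤ) :
    W.IsIntegralModelOf (W.map (Int.castRingHom ℚ)) :=
  ⟨1, one_smul _ _⟩

/-- **(R3'-W)** from frozen S29 alone (irreducibility and `p ≠ 2` are not used). -/
theorem almostAllToWitnessW_of_S29 (h29 : S29Statement) : AlmostAllToWitnessWStatement := by
  intro W p M hΔ hp _ _ _ g 𝔪 S hg h𝔪 hp𝔪 hcong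
  refine ⟨hg, h𝔪, hp𝔪, ?_⟩
  intro ℓ₀ hℓ₀ hgood hℓ₀M hℓ₀p
  have hEΔ : (W.map (Int.castRingHom ℚ)).Δ ≠ 0 := by
    rw [WeierstrassCurve.map_Δ]
    simpa using hΔ
  exact congruence_transport_S29 h29 (W.map (Int.castRingHom ℚ)) hEΔ p hp M g hg 𝔪 h𝔪 hp𝔪
    W (isIntegralModelOf_map_self W) S (fun ℓ hℓ hℓS _ => hcong ℓ hℓ hℓS)
    W (isIntegralModelOf_map_self W) ℓ₀ hℓ₀ hgood hℓ₀M hℓ₀p

/-- (R3'-W) in the shape of board v3 (the trace formula is not needed). -/
theorem almostAllToWitnessW_of (h29 : S29Statement) (_hTF : TraceFormulaWStatement) :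
    AlmostAllToWitnessWStatement :=
  almostAllToWitnessW_of_S29 h29

/-- **(R3')**, Frey form, from frozen S29 alone. -/
theorem almostAllToWitness_of_S29 (h29 : S29Statement) : AlmostAllToWitnessStatement := by
  intro P M _ g W 𝔪 S hg hW h𝔪 hp hcong
  refine ⟨hg, hW, h𝔪, hp, ?_⟩
  intro ℓ₀ hℓ₀ hgood hℓ₀M hℓ₀p
  have hEΔ : P.freyCurve.Δ ≠ 0 :=
    (disc_ne_zero_iff_of_isIntegralModelOf hW).mp (disc_ne_zero_of_isGoodPrimeFor hgood)
  exact congruence_transport_S29 h29 P.freyCurve hEΔ P.p P.pp M g hg 𝔪 h𝔪 hp W hW S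
    (fun ℓ hℓ hℓS _ => hcong ℓ hℓ hℓS) W hW ℓ₀ hℓ₀ hgood hℓ₀M hℓ₀p

/-- **(G2)**, Frey form, from frozen S29 alone. -/
theorem modelTransport_of_S29 (h29 : S29Statement) : ModelTransportStatement := by
  intro P N hN hmod W hW
  obtain ⟨f, W₀, 𝔪, hf, hW₀, h𝔪, hp, hcong⟩ := hmod
  refine ⟨f, 𝔪, hf, h𝔪, hp, ?_⟩
  intro ℓ₀ hℓ₀ hgood hℓ₀N hℓ₀p
  have hEΔ : P.freyCurve.Δ ≠ 0 :=
    (disc_ne_zero_iff_of_isIntegralModelOf hW).mp (disc_ne_zero_of_isGoodPrimeFor hgood)
  refine congruence_transport_S29 h29 P.freyCurve hEΔ P.p P.pp N f hf 𝔪 h𝔪 hp W₀ hW₀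
    (N.primeFactors ∪ {P.p}) ?_ W hW ℓ₀ hℓ₀ hgood hℓ₀N hℓ₀p
  intro ℓ hℓ hℓS hℓgood
  simp only [Finset.mem_union, Finset.mem_singleton, not_or] at hℓS
  exact hcong ℓ hℓ hℓgood (fun h => hℓS.1 (Nat.mem_primeFactors.mpr ⟨hℓ, h, hN.ne'⟩)) hℓS.2

/-- Change of integral model for `IsResiduallyModularOfLevel`, from frozen S29 alone: two
integral models of the same elliptic curve over `ℚ` are residually modular of the same levels. -/
theorem isResiduallyModularOfLevel_transport (h29 : S29Statement)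
    (E : WeierstrassCurve ℚ) (W₀ W : WeierstrassCurve ℤ) (hW₀ : W₀.IsIntegralModelOf E)
    (hW : W.IsIntegralModelOf E) (p : ℕ) (hpp : p.Prime) (N : ℕ)
    (h : W₀.IsResiduallyModularOfLevel p N) : W.IsResiduallyModularOfLevel p N := by
  obtain ⟨f, 𝔪, hf, h𝔪, hp, hcong⟩ := h
  refine ⟨f, 𝔪, hf, h𝔪, hp, ?_⟩
  intro ℓ₀ hℓ₀ hgood hℓ₀N hℓ₀p
  have hN : N ≠ 0 := by
    rintro rfl
    exact hℓ₀N (dvd_zero _)
  have hEΔ : E.Δ ≠ 0 :=
    (disc_ne_zero_iff_of_isIntegralModelOf hW).mp (disc_ne_zero_of_isGoodPrimeFor hgood)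
  refine congruence_transport_S29 h29 E hEΔ p hpp N f hf 𝔪 h𝔪 hp W₀ hW₀
    (N.primeFactors ∪ {p}) ?_ W hW ℓ₀ hℓ₀ hgood hℓ₀N hℓ₀p
  intro ℓ hℓ hℓS hℓgood
  simp only [Finset.mem_union, Finset.mem_singleton, not_or] at hℓS
  exact hcong ℓ hℓ hℓgood (fun h => hℓS.1 (Nat.mem_primeFactors.mpr ⟨hℓ, h, hN⟩)) hℓS.2

end Fermat.Agent.Ribet.H764

end
-- ===== PACK-END Ribet/H764/TransportS29.lean

-- ===== PACK-BEGIN S37/Core/Board.lean
section





/-!
# S37 row-lead (helper37): BOARD v3 — the frozen S37 from TWO inputs, all levels handled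

Landed nodes used here: `H697.weakRedData_of_red` (node_wrd; contains NORMID and the Kronecker
congruence), `H818.node_pull` (level raising `N → 2N, 3N` for `ℓ = 3, 2`), `Core.result_of_weakRedData`.

* `GoodLevel M ℓ` : `5 ≤ ℓ`, or `ℓ = 3 ∧ 2 ∣ M`, or `ℓ = 2 ∧ 3 ∣ M` (a good coordinate exists).
* `RimStatement`  : `ReductionInputsModL A M` for all good levels (node_rim).
* `S18Statement`  : the conclusion of the frozen S18 at all levels (row S18).
* `result_of_rim_s18 : RimStatement → S18Statement → (frozen S37)`.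
* `rawES_of_rim_s18` : the same for the raw Eichler-Shimura export (rows S29 / S30 / S42).
* `DatumStatement`   : existence of a linked reduction datum with good charts at good levels;
  `rimStatement_of_datum : DatumStatement → RimStatement` (by `Core.node_rim_of_datum`).
-/

set_option autoImplicit false
set_option synthInstance.maxHeartbeats 400000

noncomputable section

namespace Fermat.Agent.S37.Core

open ModularCurve ValuationSubring AlgebraicCurve HahnSeries

/-- the levels at which the smooth model is constructed directly -/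
def GoodLevel (M ℓ : ℕ) : Prop := 5 ≤ ℓ ∨ (ℓ = 3 ∧ 2 ∣ M) ∨ (ℓ = 2 ∧ 3 ∣ M)

/-- **node_rim**: the place reduction map exists at all good levels. -/
def RimStatement : Prop :=
  ∀ (M ℓ : ℕ) [NeZero M], ℓ.Prime → ¬ ℓ ∣ M → GoodLevel M ℓ →
    ∀ A : ValuationSubring (AlgebraicClosure ℚ), A.LiesOverPrime ℓ → ReductionInputsModL A M

/-- **node_s18**: the conclusion of the frozen S18, at all levels. -/
def S18Statement : Prop :=
  ∀ (M ℓ : ℕ) [NeZero M], ℓ.Prime → ¬ ℓ ∣ M →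
    ∀ A : ValuationSubring (AlgebraicClosure ℚ), A.LiesOverPrime ℓ → InjTorsionModL M ℓ A

/-- **node_datum**: a linked reduction datum with good charts exists at all good levels. -/
def DatumStatement : Prop :=
  ∀ (M ℓ : ℕ) [NeZero M], ℓ.Prime → ¬ ℓ ∣ M → GoodLevel M ℓ →
    ∀ A : ValuationSubring (AlgebraicClosure ℚ), A.LiesOverPrime ℓ →
      ∃ G : Red.Datum A (IsLocalRing.residue A) (modularFunctionFieldBar M)
          (modularFunctionFieldFullC (IsLocalRing.ResidueField A) M),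
        G.Good ∧ Red.H759.Link G

theorem rimStatement_of_datum (h : DatumStatement) : RimStatement := by
  intro M ℓ _ hℓ hℓM hg A hA
  obtain ⟨G, hgood, hlink⟩ := h M ℓ hℓ hℓM hg A hA
  exact node_rim_of_datum M ℓ hℓ hℓM A hA G hgood hlink

theorem prime_cases {ℓ : ℕ} (hℓ : ℓ.Prime) : ℓ = 2 ∨ ℓ = 3 ∨ 5 ≤ ℓ := by
  rcases Nat.lt_or_ge ℓ 5 with h | h
  · have h2 := hℓ.two_le
    interval_cases ℓ
    · exact Or.inl rfl
    · exact Or.inr (Or.inl rfl)
    · exact absurd hℓ (by decide)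
  · exact Or.inr (Or.inr h)

/-- The hypothesis `H` of `Core.result_of_weakRedData` / `Core.rawES_of_weakRedData` from
node_rim and node_s18. -/
theorem weakRedData_of_rim_s18 (hRim : RimStatement) (hS18 : S18Statement) (N : ℕ) [NeZero N]
    (ℓ : ℕ) (hℓ : ℓ.Prime) (hℓN : ¬ ℓ ∣ N)
    (A : ValuationSubring (AlgebraicClosure ℚ)) (hA : A.LiesOverPrime ℓ)
    (σ₀ : AlgebraicClosure ℚ ≃ₐ[ℚ] AlgebraicClosure ℚ) (hσ₀ : A.IsFrobeniusAt σ₀ ℓ) :
    haveI : NeZero ℓ := ⟨hℓ.ne_zero⟩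
    ∃ (M : ℕ) (_ : NeZero M), Nonempty (WeakRedData M A ℓ σ₀) ∧ Nonempty (PullData N M ℓ) := by
  haveI : NeZero ℓ := ⟨hℓ.ne_zero⟩
  have key : ∀ (M : ℕ) [NeZero M], ¬ ℓ ∣ M → GoodLevel M ℓ → Nonempty (PullData N M ℓ) →
      ∃ (M : ℕ) (_ : NeZero M), Nonempty (WeakRedData M A ℓ σ₀) ∧ Nonempty (PullData N M ℓ) :=
    fun M _ hℓM hg hP =>
      ⟨M, inferInstance,
        ⟨H697.weakRedData_of_red M A ℓ hℓ hℓM hA (hRim M ℓ hℓ hℓM hg A hA)
          (hS18 M ℓ hℓ hℓM A hA) σ₀ hσ₀⟩, hP⟩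
  rcases prime_cases hℓ with h2 | h3 | h5
  · subst h2
    by_cases h3N : 3 ∣ N
    · exact key N hℓN (Or.inr (Or.inr ⟨rfl, h3N⟩)) ⟨PullData.refl N 2⟩
    · haveI : NeZero (N * 3) := ⟨Nat.mul_ne_zero (NeZero.ne N) (by norm_num)⟩
      have hℓM : ¬ 2 ∣ N * 3 := fun h =>
        hℓN ((Nat.Coprime.dvd_mul_right (by norm_num : Nat.Coprime 2 3)).mp h)
      exact key (N * 3) hℓM (Or.inr (Or.inr ⟨rfl, Dvd.intro_left N rfl⟩))
        (H818.node_pull N 3 2 hℓ (Or.inr ⟨rfl, rfl⟩) h3N hℓN)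
  · subst h3
    by_cases h2N : 2 ∣ N
    · exact key N hℓN (Or.inr (Or.inl ⟨rfl, h2N⟩)) ⟨PullData.refl N 3⟩
    · haveI : NeZero (N * 2) := ⟨Nat.mul_ne_zero (NeZero.ne N) (by norm_num)⟩
      have hℓM : ¬ 3 ∣ N * 2 := fun h =>
        hℓN ((Nat.Coprime.dvd_mul_right (by norm_num : Nat.Coprime 3 2)).mp h)
      exact key (N * 2) hℓM (Or.inr (Or.inl ⟨rfl, Dvd.intro_left N rfl⟩))
        (H818.node_pull N 2 3 hℓ (Or.inl ⟨rfl, rfl⟩) h2N hℓN)
  · exact key N hℓN (Or.inl h5) ⟨PullData.refl N ℓ⟩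

/-- **The frozen statement S37 from node_rim and node_s18.** -/
theorem result_of_rim_s18 (hRim : RimStatement) (hS18 : S18Statement) (N p : ℕ) [NeZero N]
    (hcomm : ModularCurve.HeckeOperatorsCommuteBar N) :
    letI := ModularCurve.heckeModuleBar N
    ∀ (_ : SMulCommClass (AlgebraicClosure ℚ ≃ₐ[ℚ] AlgebraicClosure ℚ) ModularCurve.HeckeAlg
      (ModularCurve.JZero N)),
      ModularCurve.SpecializationExists (K := ℚ) (L := AlgebraicClosure ℚ) N p
        (ModularCurve.JZero N) :=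
  result_of_weakRedData N p (fun ℓ hℓ hℓN A hA σ₀ hσ₀ =>
    weakRedData_of_rim_s18 hRim hS18 N ℓ hℓ hℓN A hA σ₀ hσ₀) hcomm

/-- **Raw Eichler-Shimura on `p`-torsion of `J₀(N)` from node_rim and node_s18**
(body of `Fermat.Agent.S29.RawESStatement`). -/
theorem rawES_of_rim_s18 (hRim : RimStatement) (hS18 : S18Statement) (N : ℕ) [NeZero N]
    (p : ℕ) (ℓ : ℕ) (hℓ : ℓ.Prime) (hdvd : ¬ ℓ ∣ N * p)
    (A : ValuationSubring (AlgebraicClosure ℚ)) (hA : A.LiesOverPrime ℓ) :
    (∀ σ ∈ A.inertiaSubgroupIn ℚ, ∀ x : JZero N, (p : ℤ) • x = 0 → σ • x = x) ∧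
      (∀ σ : AlgebraicClosure ℚ ≃ₐ[ℚ] AlgebraicClosure ℚ, A.IsFrobeniusAt σ ℓ →
        ∀ x : JZero N, (p : ℤ) • x = 0 →
          σ • σ • x - heckeOperatorBar N ⟨ℓ, hℓ⟩ (σ • x) + (ℓ : ℤ) • x = 0) :=
  rawES_of_weakRedData N (fun ℓ hℓ hℓN A hA σ₀ hσ₀ =>
    weakRedData_of_rim_s18 hRim hS18 N ℓ hℓ hℓN A hA σ₀ hσ₀) p ℓ hℓ hdvd A hA

end Fermat.Agent.S37.Core

end
end
-- ===== PACK-END S37/Core/Board.lean

-- ===== PACK-BEGIN S37/Core/Leaves.lean
section





/-!
# S37 row-lead (helper37): BOARD v3 — the OPEN LEAVES of `node_rim`, frozen statements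

`Core.result_of_rim_s18 : RimStatement → S18Statement → frozen S37` and
`Core.rimStatement_of_datum : DatumStatement → RimStatement` are on main (`Core/Board.lean`).
This file freezes the leaves of `DatumStatement` as `def … : Prop` and PROVES

  `datumStatement_of_leaves :
     DatumLeaf → NormalAbsStatement → LiftLeaf → H1Leaf → ModStatement → DatumStatement`
  `result_of_leaves : … → S18Statement → frozen S37`.

HAND-IN of a leaf = a theorem of type `Fermat.Agent.S37.Core.<Leaf>` (sorry-free, on main).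

* `DatumLeaf` (D1): the Gauss datum `(O, ρ)` on `(F_M, F_{M,k})` whose coordinate is a given
  `x ∈ F_M` with integral model `X ∈ ℤ((q))`, linked to the Prelude (`Red.H759.Link`).
* `NormalAbsStatement` (D2; Mathlib + `S18/Alg/Spec.lean` only): for an `Alg.GoodModel`, an
  element of `V` which is a root mod `w` of a monic polynomial over `R[x]` is congruent mod `w`
  to an element of the chart (normality of the special fibre; from `b2Normal` of row S18).
* `LiftLeaf` (D3): `Red.H759.LiftAtLevel` on both charts at every number field, from the good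
  models of row S18 (`Mod.GoodModelStatement`) and (D2).
* `H1Leaf` (D4): degrees and separability, fields (H1) of `Red.Datum.Good`, for an admissible
  coordinate (`x = j`: `S37.H208.good_H1`, `S37.H628.good_H1`; `t₂`, `t₃`: tower law).
* `ModStatement`: node_mod of row S18 for all `(M, ℓ, A)`.
-/

set_option autoImplicit false
set_option synthInstance.maxHeartbeats 400000

noncomputable section

namespace Fermat.Agent.S37.Core

open ModularCurve ValuationSubring AlgebraicCurve HahnSeries IsLocalRing Polynomial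
open Fermat.Agent.S37.Red Fermat.Agent.S18

/-- `X ∈ ℤ((q))`, `X = q⁻¹ + …`, is an integral model of the coordinate `x ∈ F_M`. -/
structure IsModelOf (M : ℕ) (x : Mod.Om M) (X : LaurentSeries ℤ) : Prop where
  coeff_neg_one : X.coeff (-1) = 1
  coeff_lt : ∀ k : ℤ, k < -1 → X.coeff k = 0
  coe_eq : (x : LaurentSeries (AlgebraicClosure ℚ)) =
    coeffMap (Int.castRingHom (AlgebraicClosure ℚ)) X
  mem_full : coeffMap (Int.castRingHom ℚ) X ∈ modularFunctionFieldFull M

/-- the reduction `x̄ ∈ k((q))` of the coordinate with integral model `X` -/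
abbrev redX (A : ValuationSubring (AlgebraicClosure ℚ)) (X : LaurentSeries ℤ) :
    LaurentSeries (ResidueField A) :=
  coeffMap (Int.castRingHom (ResidueField A)) X

/-- (D0) an admissible coordinate has an integral model. -/
theorem exists_isModelOf (M ℓ : ℕ) [NeZero M] (x : Mod.Om M) (S : Finset (Mod.Om M))
    (hx : Mod.IsCoordinate M ℓ x S) : ∃ X : LaurentSeries ℤ, IsModelOf M x X := by
  obtain ⟨X, h1, h2, h3, h4⟩ := H456.hasIntExp_of_isCoordinate M hx
  exact ⟨X, h1, h2, h3, h4⟩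

/-- **LEAF D1**: the Gauss datum with coordinate `x`, linked to the Prelude. -/
def DatumLeaf : Prop :=
  ∀ (M ℓ : ℕ) [NeZero M], ℓ.Prime → ¬ ℓ ∣ M →
    ∀ A : ValuationSubring (AlgebraicClosure ℚ), A.LiesOverPrime ℓ →
    ∀ (x : Mod.Om M) (X : LaurentSeries ℤ), IsModelOf M x X →
      ∃ G : Datum A (residue A) (modularFunctionFieldBar M)
          (modularFunctionFieldFullC (ResidueField A) M),
        G.x = x ∧ ((G.xk : modularFunctionFieldFullC (ResidueField A) M) :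
          LaurentSeries (ResidueField A)) = redX A X ∧ H759.Link G

/-- **LEAF D2** (Mathlib + `S18/Alg/Spec.lean` only).  For a good model: if `f ∈ V` is a root
mod `w` of a monic polynomial over `R[x]`, then `f` is congruent mod `w` to an element of the
chart `B = {b ∈ Fc integral over R[x]}`.
(Proof: `f = b/g`, `b ∈ B`, `g ∈ R[x]` primitive [`finite`, `gauss`, `qep_fin`]; the equation
gives `b^d + Σ aᵢ bⁱ g^(d-i) ∈ wV ∩ B = wB`; `b2Normal` [`S18.B12.H204/H273/H858/H633`] with the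
adapters of row S18 [hNC: `S18.H213.HNC`; hsep: `S18.H425.Hsep`] gives `b₀ ∈ B` with
`b - g b₀ ∈ wB`.) -/
def NormalAbsStatement : Prop :=
  ∀ (Ω : Type) [Field Ω] (Lc Ec Fc : Subfield Ω) (R V : Subring Ω) (w x : Ω) (S : Finset Ω),
    Alg.GoodModel Lc Ec Fc R V w x S →
    ∀ f ∈ V, ∀ P : Polynomial Ω, P.Monic → (∀ i, P.coeff i ∈ Alg.polyRing R x) →
      P.eval f * w⁻¹ ∈ V →
      ∃ b ∈ Alg.chart Fc R x, (f - b) * w⁻¹ ∈ V

/-- **LEAF D3**: (H3) at every number-field level, on both charts, from the good models of row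
S18 and (D2).  (Chart at infinity: `S18.H425.goodModel_inv`.) -/
def LiftLeaf : Prop :=
  ∀ (M ℓ : ℕ) [NeZero M], ℓ.Prime → ¬ ℓ ∣ M →
    ∀ A : ValuationSubring (AlgebraicClosure ℚ), A.LiesOverPrime ℓ →
    ∀ (x : Mod.Om M) (S : Finset (Mod.Om M)), Mod.IsCoordinate M ℓ x S →
    ∀ X : LaurentSeries ℤ, IsModelOf M x X →
    Mod.GoodModelStatement M ℓ A → NormalAbsStatement →
    ∀ E : H759.NumberFieldIn,
      H759.LiftAtLevel A M E.1 (x : LaurentSeries (AlgebraicClosure ℚ)) (redX A X) ∧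
        H759.LiftAtLevel A M E.1 ((x : LaurentSeries (AlgebraicClosure ℚ)))⁻¹ (redX A X)⁻¹

/-- **LEAF D4**: (H1) for an admissible coordinate. -/
def H1Leaf : Prop :=
  ∀ (M ℓ : ℕ) [NeZero M], ℓ.Prime → ¬ ℓ ∣ M →
    ∀ A : ValuationSubring (AlgebraicClosure ℚ), A.LiesOverPrime ℓ →
    ∀ (x : Mod.Om M) (S : Finset (Mod.Om M)), Mod.IsCoordinate M ℓ x S →
    ∀ X : LaurentSeries ℤ, IsModelOf M x X →
    ∀ G : Datum A (residue A) (modularFunctionFieldBar M)
      (modularFunctionFieldFullC (ResidueField A) M),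
    G.x = x →
    ((G.xk : modularFunctionFieldFullC (ResidueField A) M) :
      LaurentSeries (ResidueField A)) = redX A X →
    FiniteDimensional (IntermediateField.adjoin (AlgebraicClosure ℚ) {G.x})
        (modularFunctionFieldBar M) ∧
      FiniteDimensional (IntermediateField.adjoin (ResidueField A) {G.xk})
        (modularFunctionFieldFullC (ResidueField A) M) ∧
      Algebra.IsSeparable (IntermediateField.adjoin (ResidueField A) {G.xk})
        (modularFunctionFieldFullC (ResidueField A) M) ∧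
      Module.finrank (IntermediateField.adjoin (AlgebraicClosure ℚ) {G.x})
          (modularFunctionFieldBar M) =
        Module.finrank (IntermediateField.adjoin (ResidueField A) {G.xk})
          (modularFunctionFieldFullC (ResidueField A) M)

/-- **node_mod of row S18**, for all `(M, ℓ, A)`. -/
def ModStatement : Prop :=
  ∀ (M ℓ : ℕ) [NeZero M], ℓ.Prime → ¬ ℓ ∣ M →
    ∀ A : ValuationSubring (AlgebraicClosure ℚ), A.LiesOverPrime ℓ →
      Mod.GoodModelStatement M ℓ A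

/-- **node_datum from the leaves.** -/
theorem datumStatement_of_leaves (hD1 : DatumLeaf) (hD2 : NormalAbsStatement) (hD3 : LiftLeaf)
    (hD4 : H1Leaf) (hMod : ModStatement) : DatumStatement := by
  intro M ℓ _ hℓ hℓM hg A hA
  haveI : Fact ℓ.Prime := ⟨hℓ⟩
  have h3 : ℓ = 3 → 2 ∣ M := fun h => by
    rcases hg with h5 | ⟨-, h⟩ | ⟨h2, -⟩
    · omega
    · exact h
    · omega
  have h2 : ℓ = 2 → 3 ∣ M := fun h => by
    rcases hg with h5 | ⟨h3, -⟩ | ⟨-, h⟩
    · omega
    · omega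
    · exact h
  obtain ⟨x, S, hx⟩ := H333.node_coord M hℓM h3 h2
  obtain ⟨X, hX⟩ := exists_isModelOf M ℓ x S hx
  obtain ⟨G, hGx, hGxk, hlink⟩ := hD1 M ℓ hℓ hℓM A hA x X hX
  obtain ⟨hf, hfk, hsep, hrk⟩ := hD4 M ℓ hℓ hℓM A hA x S hx X hX G hGx hGxk
  have hlev := fun E : H759.NumberFieldIn =>
    hD3 M ℓ hℓ hℓM A hA x S hx X hX (hMod M ℓ hℓ hℓM A hA) hD2 E
  obtain ⟨E₀⟩ : Nonempty H759.NumberFieldIn := inferInstance
  refine ⟨G, H217.good_of G hf hfk hsep hrk ?_ ?_, hlink⟩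
  · refine H759.lift_fin_of_levels G hlink E₀ (fun E _ => ?_)
    rw [hGx, hGxk]
    exact (hlev E).1
  · refine H759.lift_inf_of_levels G hlink E₀ (fun E _ => ?_)
    rw [hGx, hGxk]
    exact (hlev E).2

/-- **The frozen statement S37 from the leaves and S18.** -/
theorem result_of_leaves (hD1 : DatumLeaf) (hD2 : NormalAbsStatement) (hD3 : LiftLeaf)
    (hD4 : H1Leaf) (hMod : ModStatement) (hS18 : S18Statement) (N p : ℕ) [NeZero N]
    (hcomm : ModularCurve.HeckeOperatorsCommuteBar N) :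
    letI := ModularCurve.heckeModuleBar N
    ∀ (_ : SMulCommClass (AlgebraicClosure ℚ ≃ₐ[ℚ] AlgebraicClosure ℚ) ModularCurve.HeckeAlg
      (ModularCurve.JZero N)),
      ModularCurve.SpecializationExists (K := ℚ) (L := AlgebraicClosure ℚ) N p
        (ModularCurve.JZero N) :=
  result_of_rim_s18 (rimStatement_of_datum (datumStatement_of_leaves hD1 hD2 hD3 hD4 hMod))
    hS18 N p hcomm

end Fermat.Agent.S37.Core

end
end
-- ===== PACK-END S37/Core/Leaves.lean

-- ===== PACK-BEGIN S37/Core/DatumLeaf.lean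
section





/-!
# S37 row-lead (helper37): LEAF D1 `DatumLeaf` — the Gauss datum with an arbitrary coordinate

`datumLeaf : Core.DatumLeaf`: for `ℓ ∤ M`, `A` over `ℓ` and a coordinate `x ∈ F_M` with integral
model `X ∈ ℤ((q))`, `X = q⁻¹ + …`, helper40's modular datum `Red.modG` (valuation ring of
fractions of integral `q`-series, coefficientwise reduction) with coordinate `x` is linked to the
Prelude, and its reduced coordinate is the reduction of `X`.
Inputs from main: `Red.modG`, `Red.modG_link` (helper40), `H568.valueGroupHyp_modular`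
(helper568), `H98.coreData_residueField`, `H98.reduction_mem` (helper98/700).
-/

set_option autoImplicit false
set_option synthInstance.maxHeartbeats 400000

noncomputable section

namespace Fermat.Agent.S37.Core

open ModularCurve ValuationSubring AlgebraicCurve HahnSeries IsLocalRing
open Fermat.Agent.S37.Red Fermat.Agent.S18

/-- the integral model over `A` -/
abbrev modelA (A : ValuationSubring (AlgebraicClosure ℚ)) (X : LaurentSeries ℤ) :
    LaurentSeries A :=
  coeffMap (Int.castRingHom A) X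

theorem coeffMap_subtype_modelA (A : ValuationSubring (AlgebraicClosure ℚ))
    (X : LaurentSeries ℤ) :
    coeffMap A.subtype (modelA A X) = coeffMap (Int.castRingHom (AlgebraicClosure ℚ)) X := by
  rw [modelA, coeffMap_coeffMap]
  exact coeffMap_congr (RingHom.ext_int _ _) X

theorem coeffMap_residue_modelA (A : ValuationSubring (AlgebraicClosure ℚ))
    (X : LaurentSeries ℤ) :
    coeffMap (residue A) (modelA A X) = redX A X := by
  rw [modelA, redX, coeffMap_coeffMap]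
  exact coeffMap_congr (RingHom.ext_int _ _) X

/-- a series `q⁻¹ + …` in a function field over an algebraically closed field is
transcendental -/
theorem transcendental_of_coeff_neg_one {k : Type*} [Field k] [IsAlgClosed k]
    (F : IntermediateField k (LaurentSeries k)) (f : F)
    (h : ((f : LaurentSeries k)).coeff (-1) = 1) : Transcendental k f := by
  intro halg
  obtain ⟨c, hc⟩ := Fermat.Agent.S24.FF.mem_range_of_isAlgebraic halg
  have h2 : ((f : F) : LaurentSeries k) = algebraMap k (LaurentSeries k) c := by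
    rw [← hc]; rfl
  rw [h2, ModularCurve.algebraMap_laurentSeries_eq_single,
    HahnSeries.coeff_single_of_ne (by decide)] at h
  exact zero_ne_one h

/-- **LEAF D1.** -/
theorem datumLeaf : DatumLeaf := by
  intro M ℓ _ hℓ hℓM A hA x X hX
  haveI : IsAlgClosed (ResidueField A) := Fermat.Agent.S18.H9.resAlgClosed _ A
  have hcore := H98.coreData_residueField M ℓ hℓ hℓM A hA
  have hVG : ModVG M A := H568.valueGroupHyp_modular hcore
  have hx : coeffMap A.subtype (modelA A X) ∈ modularFunctionFieldBar M := by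
    rw [coeffMap_subtype_modelA, ← hX.coe_eq]
    exact x.2
  have hxk : coeffMap (residue A) (modelA A X) ∈
      modularFunctionFieldFullC (ResidueField A) M :=
    H98.reduction_mem M ℓ hℓ hℓM A hA (modelA A X) hx
  have htr : Transcendental (ResidueField A)
      (⟨coeffMap (residue A) (modelA A X), hxk⟩ :
        modularFunctionFieldFullC (ResidueField A) M) := by
    refine transcendental_of_coeff_neg_one _ _ ?_
    show (coeffMap (residue A) (modelA A X)).coeff (-1) = 1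
    rw [coeffMap_residue_modelA, redX, coeffMap_coeff, hX.coeff_neg_one, map_one]
  refine ⟨modG hVG (modelA A X) hx hxk htr, ?_, ?_, ?_⟩
  · apply Subtype.ext
    show coeffMap A.subtype (modelA A X) = _
    rw [coeffMap_subtype_modelA, hX.coe_eq]
  · have h := modρ_ofSeries hVG (modelA A X) hx hxk
    have h' : (modG hVG (modelA A X) hx hxk htr).xk =
        ⟨coeffMap (residue A) (modelA A X), hxk⟩ := h
    rw [h']
    exact coeffMap_residue_modelA A X
  · intro y hy hyk _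
    exact modG_link hVG y hy hyk

end Fermat.Agent.S37.Core

end
end
-- ===== PACK-END S37/Core/DatumLeaf.lean

-- ===== PACK-BEGIN S37/H28/DatumM.lean
section




/-!
# S37 / node_rim (helper28): `DatumStatement` and `RimStatement`, UNCONDITIONAL, via Theorem M

`good_of_isCoordinate` : every reduction datum on `(F_M, F_{M,k})` whose coordinate is an
admissible coordinate (`Mod.IsCoordinate M ℓ x S`: `j` for `ℓ ≥ 5`, `t₂` for `ℓ = 3`, `t₃` for
`ℓ = 2`) with integral model `X` has good charts (`Red.Datum.Good`).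

* (H1) = `H339.leaf_H1` (leaf D4, helper339);
* (H3) = Theorem M (`Red.H159.good_of_NC`, helper159: normality of the special fibre directly
  over the valuation ring `A`, no model over a DVR, no `S18` node_mod) with
  (NC) = `noRamOutside_of_unramified` + `unramified_of_isCoordinate` (this directory; branch data
  of `X₀(M) → X(1)`: `S18.H107`, `S18.H24`) and `hS` = `injOn_branchA`.

Consequences: `datumStatement : Core.DatumStatement` (with leaf D1 `Core.datumLeaf`),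
`rimStatement : Core.RimStatement` (= node_rim of the S37 board at all good levels), and
`result_of_s18 : Core.S18Statement → frozen S37`.
-/

set_option autoImplicit false
set_option synthInstance.maxHeartbeats 400000
set_option linter.style.haveILetI false

noncomputable section

namespace Fermat.Agent.S37.H28

open ModularCurve ValuationSubring AlgebraicCurve HahnSeries IsLocalRing Polynomial
open Fermat.Agent.S37.Red Fermat.Agent.S37.Core Fermat.Agent.S18

/-- **Good charts** for a reduction datum with an admissible coordinate. -/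
theorem good_of_isCoordinate (M ℓ : ℕ) [NeZero M] (hℓ : ℓ.Prime) (hℓM : ¬ ℓ ∣ M)
    (A : ValuationSubring (AlgebraicClosure ℚ)) (hA : A.LiesOverPrime ℓ)
    (x : Mod.Om M) (S : Finset (Mod.Om M)) (hx : Mod.IsCoordinate M ℓ x S)
    (X : LaurentSeries ℤ) (hX : IsModelOf M x X)
    (G : Datum A (residue A) (modularFunctionFieldBar M)
      (modularFunctionFieldFullC (ResidueField A) M))
    (hGx : G.x = x)
    (hGxk : ((G.xk : modularFunctionFieldFullC (ResidueField A) M) :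
      LaurentSeries (ResidueField A)) = redX A X) : G.Good := by
  classical
  haveI : IsAlgClosed (ResidueField A) := Fermat.Agent.S18.H9.resAlgClosed _ A
  obtain ⟨hf, hfk, hsep, hrk⟩ :=
    H339.leaf_H1 M ℓ hℓ hℓM A hA x S hx X hX.coeff_neg_one hX.coe_eq G hGx hGxk
  refine H159.good_of_NC G hf hfk hsep hrk (branchA (F := Mod.Om M) A S)
    (branchA (F := Mod.Om M) A (H278.invBranch S))
    (injOn_branchA A (residue A) hℓ hx hA) (injOn_branchA_inv A (residue A) hℓ hx hA) ?_ ?_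
  · rw [hGx]
    exact noRamOutside_of_unramified G x S (unramified_of_isCoordinate hx)
  · rw [hGx]
    exact noRamOutside_of_unramified G x⁻¹ _ (unramified_of_isCoordinate hx).inv

/-- **node_datum** (BOARD v3), unconditional. -/
theorem datumStatement : DatumStatement := by
  intro M ℓ _ hℓ hℓM hg A hA
  haveI : Fact ℓ.Prime := ⟨hℓ⟩
  have h3 : ℓ = 3 → 2 ∣ M := fun h => by
    rcases hg with h5 | ⟨-, h⟩ | ⟨h2, -⟩
    · omega
    · exact h
    · omega
  have h2 : ℓ = 2 → 3 ∣ M := fun h => by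
    rcases hg with h5 | ⟨h3, -⟩ | ⟨-, h⟩
    · omega
    · omega
    · exact h
  obtain ⟨x, S, hx⟩ := H333.node_coord M hℓM h3 h2
  obtain ⟨X, hX⟩ := exists_isModelOf M ℓ x S hx
  obtain ⟨G, hGx, hGxk, hlink⟩ := datumLeaf M ℓ hℓ hℓM A hA x X hX
  exact ⟨G, good_of_isCoordinate M ℓ hℓ hℓM A hA x S hx X hX G hGx hGxk, hlink⟩

/-- **node_rim** (BOARD v3) at all good levels, unconditional. -/
theorem rimStatement : RimStatement :=
  rimStatement_of_datum datumStatement

/-- **The frozen statement S37 from S18 alone.** -/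
theorem result_of_s18 (hS18 : S18Statement) (N p : ℕ) [NeZero N]
    (hcomm : ModularCurve.HeckeOperatorsCommuteBar N) :
    letI := ModularCurve.heckeModuleBar N
    ∀ (_ : SMulCommClass (AlgebraicClosure ℚ ≃ₐ[ℚ] AlgebraicClosure ℚ) ModularCurve.HeckeAlg
      (ModularCurve.JZero N)),
      ModularCurve.SpecializationExists (K := ℚ) (L := AlgebraicClosure ℚ) N p
        (ModularCurve.JZero N) :=
  result_of_rim_s18 rimStatement hS18 N p hcomm

end Fermat.Agent.S37.H28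

end
end
-- ===== PACK-END S37/H28/DatumM.lean

-- ===== PACK-BEGIN Ribet/H39/InertiaCyclo.lean
section






/-!
# Row 38, WALL-p: inertia at `p` acts non-trivially on `μ_p`, and (S4-TAME) is FREE  (helper39)

* `exists_inertia_cycloPow_ne_one` : for an odd prime `p` and a place `A` over `p` there is
  `σ ∈ I_A` with `χ_p(σ) ≠ 1` (Minkowski: `χ_p` is unramified outside `p` and non-trivial).
* `exists_inertia_cycloAt` : the same in `CycloAt` form: `σ ∈ I_A`, `CycloAt p σ c`, `p ∤ c - 1`.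
* `mem_of_cyclo_of_s1For` : **for ANY subgroup `𝒮` with `Wall.S1For p M' A 𝒮`**, every `p`-torsion
  class `t` on which the inertia group `I_A` acts through the cyclotomic character
  (`σ t = χ(σ) t`) lies in `𝒮`.
  Reason: `(χ(σ) - 1) t = σ t - t ∈ 𝒮` by (S1), and `χ(σ) - 1` is invertible modulo `p` for a
  suitable `σ ∈ I_A`.

Consequence for the (S4) board: the hypothesis `σ t = χ(σ) t` of `S4For` already gives
`t ∈ splitPart ⊆ finPart`.  So "S4-TAME" needs no proof and the extra hypothesis `t ∈ splitPart`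
of "S4-WILD" is automatic (see `TameSplit.lean`).
-/

set_option autoImplicit false

namespace Fermat.Agent.Ribet.H39

open Fermat.Agent.Ribet.Spec Fermat.Agent.Ribet.H944.Wall ModularCurve
open Fermat.Agent.S55.H414

/-- The mod-`p` cyclotomic character is non-trivial on `G_ℚ` for an odd prime `p`. -/
theorem exists_cycloPow_ne_one (p : ℕ) [NeZero p] (hp : p.Prime) (hp2 : p ≠ 2) :
    ∃ σ : GQ, cycloPow p σ ≠ 1 := by
  by_contra hcon
  push Not at hcon
  haveI := Fermat.Agent.S54.isGalois_algebraicClosure_rat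
  have hζ := zetaBar_spec p
  have hfix : ∀ σ : GQ, σ (zetaBar p) = zetaBar p := by
    intro σ
    have h1 := cycloPow_spec p σ
    rw [hcon σ, Units.val_one] at h1
    haveI : Fact (1 < p) := ⟨hp.one_lt⟩
    rw [ZMod.val_one, pow_one] at h1
    exact h1
  obtain ⟨r, hr⟩ := (InfiniteGalois.mem_range_algebraMap_iff_fixed
    (k := ℚ) (K := AlgebraicClosure ℚ) (zetaBar p)).2 hfix
  have hrp : r ^ p = 1 := by
    apply (algebraMap ℚ (AlgebraicClosure ℚ)).injective
    rw [map_pow, hr, hζ.pow_eq_one, map_one]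
  have hr1 : r = 1 := by
    have hodd : Odd p := hp.odd_of_ne_two hp2
    have := hodd.strictMono_pow (R := ℚ)
    apply this.injective
    simp only
    rw [hrp, one_pow]
  rw [hr1, map_one] at hr
  have h1 : IsPrimitiveRoot (1 : AlgebraicClosure ℚ) p := hr ▸ hζ
  have := IsPrimitiveRoot.unique h1 IsPrimitiveRoot.one
  exact hp.one_lt.ne' this

/-- Inertia at `p` acts non-trivially on `μ_p` (`p` odd). -/
theorem exists_inertia_cycloPow_ne_one (p : ℕ) [NeZero p] (hp : p.Prime) (hp2 : p ≠ 2)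
    (A : ValuationSubring (AlgebraicClosure ℚ)) (hA : A.LiesOverPrime p) :
    ∃ σ ∈ A.inertiaSubgroupIn ℚ, cycloPow p σ ≠ 1 := by
  by_contra hcon
  push Not at hcon
  have hall : ∀ σ : GQ, cycloPow p σ = 1 := by
    refine Fermat.Agent.S13.H175.minkowski_character (cycloPow p) ?_ ?_
    · refine ⟨{zetaBar p}, fun σ hσ => ?_⟩
      rw [cycloPow_eq_iff, hσ _ (Finset.mem_singleton_self _), Units.val_one]
      haveI : Fact (1 < p) := ⟨hp.one_lt⟩
      rw [ZMod.val_one, pow_one]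
    · intro q hq
      by_cases hqp : q = p
      · subst hqp
        exact ⟨A, hA, hcon⟩
      · obtain ⟨A', hA'⟩ := Fermat.Agent.S54.exists_valuationSubring_liesOver q hq
        refine ⟨A', hA', fun σ hσ => ?_⟩
        have hNv : A'.valuation ((p : ℕ) : AlgebraicClosure ℚ) = 1 :=
          Fermat.Agent.S55.Bridge.val_prime_eq_one (A := A') hA' hq hp hqp
        have hmem := inertia_le_fixingSubgroup_cycloLevel p A' hNv hσ
        rw [← ker_cycloPow] at hmem
        exact hmem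
  obtain ⟨σ, hσ⟩ := exists_cycloPow_ne_one p hp hp2
  exact hσ (hall σ)

/-- `σ` raises every `p`-th root of unity to the power `χ_p(σ)`. -/
theorem cycloAt_cycloPow (p : ℕ) [NeZero p] (σ : GQ) :
    CycloAt p σ ((cycloPow p σ : (ZMod p)ˣ) : ZMod p).val := by
  intro ζ hζ
  obtain ⟨i, -, hi⟩ := (zetaBar_spec p).eq_pow_of_pow_eq_one hζ
  rw [← hi, map_pow, cycloPow_spec p σ, ← pow_mul, ← pow_mul, mul_comm]

/-- Inertia at `p` acts non-trivially on `μ_p`, `CycloAt` form. -/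
theorem exists_inertia_cycloAt (p : ℕ) [NeZero p] (hp : p.Prime) (hp2 : p ≠ 2)
    (A : ValuationSubring (AlgebraicClosure ℚ)) (hA : A.LiesOverPrime p) :
    ∃ σ ∈ A.inertiaSubgroupIn ℚ, ∃ c : ℕ, CycloAt p σ c ∧ ¬ (p : ℤ) ∣ (c : ℤ) - 1 := by
  obtain ⟨σ, hσ, hne⟩ := exists_inertia_cycloPow_ne_one p hp hp2 A hA
  refine ⟨σ, hσ, _, cycloAt_cycloPow p σ, fun hdvd => hne ?_⟩
  apply Units.ext
  rw [Units.val_one]
  have h1 : (((((cycloPow p σ : (ZMod p)ˣ) : ZMod p).val : ℕ) : ℤ) : ZMod p) = ((1 : ℤ) : ZMod p) := by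
    rw [ZMod.intCast_eq_intCast_iff_dvd_sub]
    have h2 := dvd_neg.mpr hdvd
    rwa [neg_sub] at h2
  rw [Int.cast_natCast, ZMod.natCast_zmod_val, Int.cast_one] at h1
  exact h1

/-- **(S4-TAME) is free.**  For any subgroup `𝒮` satisfying (S1), a `p`-torsion class on which
inertia acts through the cyclotomic character lies in `𝒮`. -/
theorem mem_of_cyclo_of_s1For (p M' : ℕ) [NeZero p] [NeZero (p * M')] (hp : p.Prime)
    (hp2 : p ≠ 2) (A : ValuationSubring (AlgebraicClosure ℚ)) (hA : A.LiesOverPrime p)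
    (𝒮 : AddSubgroup (JZero (p * M'))) (h1 : S1For p M' A 𝒮)
    (t : JZero (p * M')) (hpt : p • t = 0)
    (hχ : ∀ σ ∈ A.inertiaSubgroupIn ℚ, ∀ c : ℕ, CycloAt p σ c → σ • t = c • t) :
    t ∈ 𝒮 := by
  obtain ⟨σ, hσ, c, hc, hndvd⟩ := exists_inertia_cycloAt p hp hp2 A hA
  have h2 : σ • t - t ∈ 𝒮 := h1 t hpt σ hσ
  rw [hχ σ hσ c hc] at h2
  -- `(c - 1) • t ∈ 𝒮`
  have h3 : ((c : ℤ) - 1) • t ∈ 𝒮 := by
    have e : ((c : ℤ) - 1) • t = c • t - t := by
      rw [sub_smul, one_smul, natCast_zsmul]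
    rw [e]
    exact h2
  have hcop : IsCoprime ((c : ℤ) - 1) (p : ℤ) := by
    have hpp : Prime (p : ℤ) := Nat.prime_iff_prime_int.mp hp
    exact (IsCoprime.symm ((Prime.coprime_iff_not_dvd hpp).mpr hndvd))
  obtain ⟨u, v, huv⟩ := hcop
  have hx : t = u • (((c : ℤ) - 1) • t) + v • ((p : ℤ) • t) := by
    rw [smul_smul, smul_smul, ← add_zsmul, huv, one_zsmul]
  rw [hx]
  refine 𝒮.add_mem (𝒮.zsmul_mem h3 u) ?_
  have : ((p : ℤ) • t) = 0 := by rw [natCast_zsmul]; exact hpt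
  rw [this, smul_zero]
  exact 𝒮.zero_mem

end Fermat.Agent.Ribet.H39

end
-- ===== PACK-END Ribet/H39/InertiaCyclo.lean

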