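import Fermat.Agent.Pack.S44.G0E28L0
import Fermat.Agent.Pack.S44.G0E18L0
import Fermat.Agent.Pack.S44.G0E11L1
import Fermat.Agent.Pack.S44.G0E0L1
import Fermat.Agent.Pack.S44.G0E27L3
import Fermat.Agent.Pack.S44.G0E4L3
import Fermat.Agent.Pack.S44.G0E22L1
import Fermat.Agent.Pack.S44.G0E26L3
import Fermat.Agent.Pack.S44.G0E3L1
import Fermat.Agent.Pack.S44.G0E17L2
import Fermat.Agent.Pack.S44.G0E20L2
import Fermat.Agent.Pack.S44.G0E17L0
import Fermat.Agent.Pack.S44.G0E25L0
import Fermat.Agent.Pack.S44.G0E15L0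
import Fermat.Agent.Pack.S44.G0E24L0
import Fermat.Agent.Pack.S44.G0E15L1
import Fermat.Agent.Pack.S44.G0E17L1
import Fermat.Agent.Pack.S44.G0E9L2
import Fermat.Agent.Pack.S44.G0E12L2
import Fermat.Agent.Pack.S44.G0E21L0
import Fermat.Agent.Pack.S44.G0E20L0
import Fermat.Agent.Pack.S44.G0E5L2
import Fermat.Agent.Pack.S44.G0E13L3
import Fermat.Agent.Pack.S44.G0E26L1
import Fermat.Agent.Pack.S44.G0E21L2
import Fermat.Agent.Pack.S44.G0E26L0
import Fermat.Agent.Pack.S44.G0E25L1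
import Fermat.Agent.Pack.S44.G0E23L3
import Fermat.Agent.Pack.S44.G0E28L2
import Fermat.Agent.Pack.S44.G0E24L1
import Fermat.Agent.Pack.S44.G0E12L3
import Fermat.Agent.Pack.S44.G0E8L2
import Fermat.Agent.Pack.S44.G0E13L2

-- ===== PACK-BEGIN Ribet/H376/I2Leaves.lean
section
/-
Row 38 (RIBET), WALL-p, leaf I2 (`H944/I2Spec.lean`, wall architect helper944): the leaves
FRICKE-HECKE, HECKE-RED and DLOG-KNORM, VERBATIM  (helper376).

* `frickeHecke : H944.I2.FrickeHeckeStatement`   (from `H376.wF_heckeNorm`);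
* `heckeRed    : H944.I2.HeckeRedStatement`      (from `H376.isRedInf_heckeNorm`, any `A`);
* `dlogKnorm   : H944.I2.DlogKnormStatement`     (from `H376.coeff_eigen_of_kronNorm_eq`).
-/




set_option autoImplicit false
set_option maxHeartbeats 400000
set_option linter.style.haveILetI false

noncomputable section

namespace Fermat.Agent.Ribet.H376

open HahnSeries ModularCurve AlgebraicCurve
open Fermat.Agent.S24 Fermat.Agent.S37 Fermat.Agent.A2.H708 Fermat.Agent.A2.H528
open Fermat.Agent.Ribet.H884 Fermat.Agent.Ribet.H944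

/-- The two formal Kronecker norms on main agree. -/
theorem knorm_eq_kronNorm {R : Type*} [CommRing R] (ℓ : ℕ) [NeZero ℓ] (f : LaurentSeries R) :
    H697.knorm ℓ f = H400.kronNorm ℓ f := by
  rw [H400.kronNorm, H400.secMat_eq_kronMat]
  rfl

/-- The two Hecke norms on main agree. -/
theorem hNorm_eq_heckeNorm (N ℓ : ℕ) [NeZero N] [NeZero ℓ] (f : FF N) :
    I2.hNorm N ℓ f = S29.H222.heckeNorm N ℓ f := rfl

/-- The Kronecker norm of a nonzero series over a field is nonzero (`ℓ` prime). -/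
theorem kronNorm_ne_zero_of_field {k : Type*} [Field k] {ℓ : ℕ} [NeZero ℓ] (hℓ : ℓ.Prime)
    {h : LaurentSeries k} (h0 : h ≠ 0) : H400.kronNorm ℓ h ≠ 0 := by
  by_cases hc : (ℓ : k) = 0
  · haveI : Fact ℓ.Prime := ⟨hℓ⟩
    haveI : CharP k ℓ := (CharP.charP_iff_prime_eq_zero hℓ).mpr hc
    have h1 := H400.coeffMap_kronNorm_ne_zero (R := k) (S := k) ℓ (RingHom.id k) h
      (by rw [coeffMap_id]; exact h0)
    rwa [coeffMap_id] at h1
  · let ι : k →+* AlgebraicClosure k := algebraMap k (AlgebraicClosure k)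
    have hι : Function.Injective ι := (algebraMap k (AlgebraicClosure k)).injective
    have hℓK : ((ℓ : ℕ) : AlgebraicClosure k) ≠ 0 := by
      intro h1
      apply hc
      apply hι
      rw [map_natCast, map_zero]
      exact h1
    haveI : NeZero ((ℓ : ℕ) : AlgebraicClosure k) := ⟨hℓK⟩
    obtain ⟨ζ, hζ⟩ := HasEnoughRootsOfUnity.exists_primitiveRoot (AlgebraicClosure k) ℓ
    have h1 : coeffMap ι h ≠ 0 := fun hz =>
      h0 (Fermat.Agent.S18.H602.coeffMap_injective ι hι (by rw [hz, map_zero]))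
    have h2 := kronNorm_ne_zero ℓ hζ h1
    rw [← H400.coeffMap_kronNorm] at h2
    intro hz
    apply h2
    rw [hz, map_zero]

/-- **M6a, `∞`-component, any valuation ring `A`.** -/
theorem isRedInf_heckeNorm' (N ℓ : ℕ) [NeZero N] [NeZero ℓ] (hℓ : ℓ.Prime) (hℓN : ¬ ℓ ∣ N)
    (A : ValuationSubring Kbar) {f : FF N} {r : LaurentSeries (kA A)} (h : IsRedInf N A f r) :
    IsRedInf N A (S29.H222.heckeNorm N ℓ f) (H400.kronNorm ℓ r) := by
  obtain ⟨c, U₁, U₂, hc, h1, h2, hf, hr⟩ := h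
  have hred : ∀ U : LaurentSeries A, red A (H400.kronNorm ℓ U) = H400.kronNorm ℓ (red A U) :=
    fun U => H400.coeffMap_kronNorm _ ℓ U
  have hincl : ∀ U : LaurentSeries A,
      incl A (H400.kronNorm ℓ U) = H400.kronNorm ℓ (incl A U) :=
    fun U => H400.coeffMap_kronNorm _ ℓ U
  refine ⟨c ^ (ℓ + 1), H400.kronNorm ℓ U₁, H400.kronNorm ℓ U₂, pow_ne_zero _ hc, ?_, ?_, ?_, ?_⟩
  · rw [hred]
    exact kronNorm_ne_zero_of_field hℓ h1
  · rw [hred]
    exact kronNorm_ne_zero_of_field hℓ h2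
  · have hN : ((S29.H222.heckeNorm N ℓ f : FF N) : LaurentSeries Kbar) =
        H400.kronNorm ℓ (f : LaurentSeries Kbar) := S37.H157.node_normid N ℓ hℓ hℓN f
    have hcst : ∀ d : Kbar, (cst d : LaurentSeries Kbar) = C d :=
      fun d => Fermat.Agent.S18.H602.algebraMap_eq_C d
    rw [hN, hincl, hincl, ← H400.kronNorm_mul, hf, H400.kronNorm_mul, hcst, hcst, kronNorm_C]
  · rw [hred, hred, ← H400.kronNorm_mul, hr]

/-- **FRICKE-HECKE**, verbatim. -/
theorem frickeHecke : I2.FrickeHeckeStatement := by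
  intro N ℓ _ _ hℓ hℓN f
  rw [hNorm_eq_heckeNorm, hNorm_eq_heckeNorm]
  exact (wF_heckeNorm hℓ hℓN f).symm

/-- **HECKE-RED**, verbatim. -/
theorem heckeRed : I2.HeckeRedStatement := by
  intro N ℓ _ _ hℓ hℓN A f r h
  rw [hNorm_eq_heckeNorm, knorm_eq_kronNorm]
  exact isRedInf_heckeNorm' N ℓ hℓ hℓN A h

/-- **DLOG-KNORM**, verbatim. -/
theorem dlogKnorm : I2.DlogKnormStatement := by
  intro k _ _ p _ hp ℓ _ hℓ hℓp h G g a c h0 _ _ hg hK n
  have hℓk : (ℓ : k) ≠ 0 := by
    intro h1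
    have h2 : p ∣ ℓ := (CharP.cast_eq_zero_iff k p ℓ).mp h1
    exact hℓp ((Nat.prime_dvd_prime_iff_eq hp hℓ).mp h2).symm
  haveI : NeZero (ℓ : k) := ⟨hℓk⟩
  obtain ⟨ζ, hζ⟩ := HasEnoughRootsOfUnity.exists_primitiveRoot k ℓ
  rw [knorm_eq_kronNorm] at hK
  exact coeff_eigen_of_kronNorm_eq p hp.ne_zero hζ hℓk h0 hg a c G hK n

end Fermat.Agent.Ribet.H376

end
end
-- ===== PACK-END Ribet/H376/I2Leaves.lean

-- ===== PACK-BEGIN Ribet/H944/DlogEx.lean
section


/-!
# Row 38, WALL-p, I2 leaf DLOG-EX (helper944)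

`dlogEx : I2.DlogExStatement` — for `h ≠ 0` in `k((t))` the logarithmic derivative `θh / h` is a
power series: `h = t^n · u`, `u ∈ k⟦t⟧ˣ`, `θh / h = n + θu · u⁻¹`.
-/

set_option autoImplicit false
set_option linter.style.haveILetI false
set_option synthInstance.maxHeartbeats 400000
set_option maxHeartbeats 1000000

noncomputable section

namespace Fermat.Agent.Ribet.H944.I2

open HahnSeries ModularCurve
open Fermat.Agent.Ribet.H376

section

variable {k : Type} [Field k]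

/-- `θ` of a power series, as a power series. -/
def thetaPS (u : PowerSeries k) : PowerSeries k :=
  PowerSeries.mk fun j => (j : k) * PowerSeries.coeff j u

theorem thetaL_ofPowerSeries (u : PowerSeries k) :
    thetaL (ofPowerSeries ℤ k u) = ofPowerSeries ℤ k (thetaPS u) := by
  ext n
  rw [thetaL_coeff, PowerSeries.coeff_coe, PowerSeries.coeff_coe]
  split_ifs with hn
  · rw [mul_zero]
  · rw [thetaPS, PowerSeries.coeff_mk]
    congr 1
    have h0 : 0 ≤ n := not_lt.mp hn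
    obtain ⟨m, rfl⟩ := Int.eq_ofNat_of_zero_le h0
    simp

theorem thetaL_single_one (n : ℤ) :
    thetaL (single n (1 : k)) = C (n : k) * single n (1 : k) := by
  ext m
  rw [thetaL_coeff, C_mul_eq_smul, coeff_smul, smul_eq_mul]
  by_cases h : m = n
  · subst h
    rfl
  · rw [coeff_single_of_ne h, mul_zero, mul_zero]

end

/-- **DLOG-EX.** -/
theorem dlogEx : DlogExStatement := by
  intro k _ h h0
  set u : PowerSeries k := LaurentSeries.powerSeriesPart h with hu
  set n : ℤ := h.order with hn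
  have hdec : single n (1 : k) * ofPowerSeries ℤ k u = h :=
    LaurentSeries.single_order_mul_powerSeriesPart h
  have hu0 : PowerSeries.constantCoeff u ≠ 0 := by
    rw [← PowerSeries.coeff_zero_eq_constantCoeff_apply, hu,
      LaurentSeries.powerSeriesPart_coeff]
    simp only [Nat.cast_zero, add_zero]
    exact fun e => h0 (HahnSeries.coeff_order_eq_zero.mp e)
  have hinv : u * u⁻¹ = 1 := PowerSeries.mul_inv_cancel u hu0
  refine ⟨PowerSeries.C (n : k) + thetaPS u * u⁻¹, ?_⟩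
  apply isDlog_of_isDlogL
  unfold IsDlogL
  have hinv' : ofPowerSeries ℤ k u * ofPowerSeries ℤ k u⁻¹ = 1 := by
    rw [← map_mul, hinv, map_one]
  have hC : ofPowerSeries ℤ k (PowerSeries.C (n : k)) = C (n : k) := by
    simp
  calc thetaL h = thetaL (single n (1 : k) * ofPowerSeries ℤ k u) := by rw [hdec]
    _ = C (n : k) * single n (1 : k) * ofPowerSeries ℤ k u +
          single n (1 : k) * ofPowerSeries ℤ k (thetaPS u) := by
        rw [thetaL_mul, thetaL_single_one, thetaL_ofPowerSeries]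
    _ = (C (n : k) + ofPowerSeries ℤ k (thetaPS u) * ofPowerSeries ℤ k u⁻¹) *
          (single n (1 : k) * ofPowerSeries ℤ k u) := by
        have e : ofPowerSeries ℤ k (thetaPS u) * ofPowerSeries ℤ k u⁻¹ *
            (single n (1 : k) * ofPowerSeries ℤ k u) =
            single n (1 : k) * ofPowerSeries ℤ k (thetaPS u) *
              (ofPowerSeries ℤ k u * ofPowerSeries ℤ k u⁻¹) := by ring
        rw [add_mul, e, hinv', mul_one]
        ring
    _ = ofPowerSeries ℤ k (PowerSeries.C (n : k) + thetaPS u * u⁻¹) * h := by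
        rw [hdec, map_add, map_mul, hC]

end Fermat.Agent.Ribet.H944.I2

end

end
-- ===== PACK-END Ribet/H944/DlogEx.lean

-- ===== PACK-BEGIN Ribet/H376/DlogOut.lean
section
/-
Row 38 (RIBET), WALL-p, leaf I2 = DLOG: `H884.DlogOutStatement` CLOSED (assembly, helper376).

`dlogOut := H944.I2.dlogOut_of` applied to the landed leaves:
CLOSED (`H944.I2.finClosed`), RES (`H939.resField`), REDEX/REDUNIQ (`H997`), KUMEIG
(`H944.I2.kumEig`), FRICKE-HECKE, HECKE-RED, DLOG-KNORM (`H376`), DLOG-EX (`H944.I2.dlogEx`).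
-/







set_option autoImplicit false

namespace Fermat.Agent.Ribet.H376

open Fermat.Agent.Ribet

/-- **I2 (DLOG) closed**: `H884.DlogOutStatement`. -/
theorem dlogOut : H884.DlogOutStatement :=
  H944.I2.dlogOut_of H944.I2.finClosed H939.resField H997.redExists H997.redUnique
    H944.I2.kumEig frickeHecke heckeRed dlogKnorm H944.I2.dlogEx

end Fermat.Agent.Ribet.H376

end
-- ===== PACK-END Ribet/H376/DlogOut.lean

-- ===== PACK-BEGIN Ribet/H884/EisSpec.lean
section




/-!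
# Row 38, WALL-p: **W-EIS** (= INST-G of the (S4) board) — frozen leaves + PROVED glue
  (sub-architect helper884)

Target: `H884.EisSlopeStatement` (`SlopeSpec.lean`), the last step of (S4):
the slopes of `x` are proportional to the slopes of the modular unit `u_p = Δ(t^p)/Δ(t)`,
which is an Eisenstein eigenfunction, hence `T_ℓ x - (ℓ+1) x` has slopes `0`.

Everything is on `t`-expansions.  The function-level Hecke operator is the FORMAL Kronecker norm
`S37.H400.kronNorm ℓ f = f(t^ℓ) · ∏ᵢ f(ζⁱ t^{1/ℓ})` (`= Norm_α (β f)`, i.e. `T_ℓ = α_* β^*`).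

## Vocabulary
* `jC k M'`          : `j` as an element of `F_k = modularFunctionFieldFullC k M'`;
* `PDivFin p M' r`   : `r ∈ F_kˣ` and `p ∣ ord_Q r` at every NON-CUSPIDAL place `Q` (`ord_Q j ≥ 0`);
* `NodeGen p M' A f` : both reductions of `f` are `PDivFin`
                       (`f` need not be a Kummer generator: modular units are allowed);
* `IsModUnit p M' D` : `D ∈ FF (p M')` has `t`-expansion `S28.unitL ℚ̄ p = Δ(t^p)/Δ(t)`;
* `SlopeProp p M' A x` : `x` has a Kummer generator `f` with `NodeGen (f^n · D^a / D^b)`, `p ∤ n`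
                       ("the slope vector of `x` is a multiple of the slope vector of `D`").

## Leaves
| leaf | Prop | content | source |
|---|---|---|---|
| CORE-OUT | `CoreOutStatement` | hypotheses of (S4) without NE ⇒ `SlopeProp x` | I6 (helper704 ASM + INST-E) + purity at the ordinary points |
| HECKE-FUN | `HeckeFunStatement` | `kronNorm ℓ` preserves `FF N` (`ℓ ∤ N`) and maps Kummer generators of `x` to Kummer generators of `T_ℓ x` | S37 NormId + Prelude `heckePic0Bar` |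
| HECKE-NODE | `HeckeNodeGenStatement` | `NodeGen f ⇒ NodeGen (kronNorm ℓ f)` | reduction commutes with `kronNorm` (`coeffMap_kronNorm`), `T_ℓ w_N = w_N T_ℓ`, norm formula over `k` at level `M'` |
| UNIT-EIS | `UnitEisStatement` | `kronNorm ℓ u_p = c · u_p^(ℓ+1)` (formal identity of `t`-series, `ℓ ≠ p`) | η-product calculus |
| CUSP | `CuspPurityStatement` | Kummer generator + `NodeGen` ⇒ `FinGen` (purity at the cusps: smooth points) | A2 purity (H609) + charts |
| RED | `RedExistsStatement`, `RedUniqueStatement`, `RedFieldStatement` | (`SlopeSpec.lean`; helper997) | |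

## Proved here
* calculus of `PDivFin`, `NodeGen` (`mul`, `inv`, `pow`, constants, extraction of `n`-th roots);
* `isEisMod_of_slopeProp` and **`eisSlope_of`** :
  `CoreOut → HeckeFun → HeckeNodeGen → UnitEis → CuspPurity → RedExists → RedUnique → RedField
     → EisSlopeStatement`.
-/

set_option autoImplicit false
set_option synthInstance.maxHeartbeats 400000
set_option maxHeartbeats 1000000
set_option linter.unusedSectionVars false

noncomputable section

namespace Fermat.Agent.Ribet.H884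

open AlgebraicCurve ModularCurve HahnSeries
open Fermat.Agent.S24 Fermat.Agent.A2.H708 Fermat.Agent.A2.H528 Fermat.Agent.A2.H129
open Fermat.Agent.Ribet.Spec Fermat.Agent.Ribet.H944.Wall
open Fermat.Agent.S37.H400

/-! ## Vocabulary -/

/-- `j` as an element of `F_k = k(X₀(M'))`. -/
def jC (k : Type) [Field k] (M' : ℕ) : modularFunctionFieldFullC k M' :=
  ⟨jqModC k, jqModC_mem_full k M'⟩

/-- `r` is a nonzero element of `F_k` whose orders at the non-cuspidal places are divisible by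
`p`. -/
def PDivFin (p M' : ℕ) {k : Type} [Field k] (r : LaurentSeries k) : Prop :=
  ∃ h : modularFunctionFieldFullC k M', (h : LaurentSeries k) = r ∧ h ≠ 0 ∧
    ∀ Q : Place k (modularFunctionFieldFullC k M'), 0 ≤ Q.ord (jC k M') → (p : ℤ) ∣ Q.ord h

/-- Both reductions of `f` have `p`-divisible orders away from the cusps. -/
def NodeGen (p M' : ℕ) [NeZero (p * M')] (A : ValuationSubring Kbar) (f : FF (p * M')) : Prop :=
  ∃ r₁ r₂ : LaurentSeries (kA A), IsRedInf (p * M') A f r₁ ∧ IsRedZero (p * M') A f r₂ ∧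
    PDivFin p M' r₁ ∧ PDivFin p M' r₂

/-- `D` is the modular unit `Δ(t^p)/Δ(t)`. -/
def IsModUnit (p M' : ℕ) [NeZero p] [NeZero (p * M')] (D : FF (p * M')) : Prop :=
  (D : LaurentSeries Kbar) = Fermat.Agent.S28.unitL Kbar p

/-- The slope vector of `x` is a multiple of the slope vector of the modular unit. -/
def SlopeProp (p M' : ℕ) [NeZero p] [NeZero (p * M')] (A : ValuationSubring Kbar)
    (x : JZero (p * M')) : Prop :=
  ∃ (f D G : FF (p * M')) (n a b : ℕ), IsKummerGen (p * M') p f x ∧ IsModUnit p M' D ∧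
    D ≠ 0 ∧ ¬ p ∣ n ∧ G * D ^ b = f ^ n * D ^ a ∧ NodeGen p M' A G

/-! ## Leaves -/

/-- **CORE-OUT** (output of I6: cover trick + node relation + slope dictionary, and purity at the
ordinary points): under the hypotheses of (S4), without the non-Eisenstein hypothesis, the slopes
of `x` are proportional to the slopes of the modular unit. -/
def CoreOutStatement : Prop :=
  ∀ (p M' : ℕ) [NeZero M'] [NeZero p] [NeZero (p * M')], p.Prime → 5 ≤ p → ¬ p ∣ M' →
    ∀ A : ValuationSubring Kbar, A.LiesOverPrime p →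
    ∀ (S : Finset ℕ) (a : ℕ → ℤ) (x t : JZero (p * M')),
      IsNewTors p M' x → EigenAt (p * M') S a x →
      IsNewTors p M' t → EigenAt (p * M') S a t →
      (∀ σ ∈ A.inertiaSubgroupIn ℚ, ∀ c : ℕ, CycloAt p σ c → σ • t = c • t) →
      (∀ σ ∈ A.inertiaSubgroupIn ℚ, ∃ n : ℕ, σ • x = x + n • t) →
      (∀ σ : GQ, PeuFixes A p σ → σ • x = x) →
      SlopeProp p M' A x

/-- **HECKE-FUN**: the formal Kronecker norm preserves `FF N` (`ℓ ∤ N`) and is the
function-level Hecke operator: it maps a Kummer generator of `x` to a Kummer generator of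
`T_ℓ x`. -/
def HeckeFunStatement : Prop :=
  ∀ (N : ℕ) [NeZero N] (ℓ : Nat.Primes) [NeZero (ℓ : ℕ)], ¬ (ℓ : ℕ) ∣ N →
    ∀ f : FF N, ∃ g : FF N,
      (g : LaurentSeries Kbar) = kronNorm (ℓ : ℕ) (f : LaurentSeries Kbar) ∧
      ∀ (p : ℕ) (x : JZero N), IsKummerGen N p f x →
        IsKummerGen N p g (heckeOperatorBar N ℓ x)

/-- **HECKE-NODE**: `NodeGen` is stable under the function-level Hecke operator. -/
def HeckeNodeGenStatement : Prop :=
  ∀ (p M' : ℕ) [NeZero M'] [NeZero p] [NeZero (p * M')], p.Prime → ¬ p ∣ M' →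
    ∀ A : ValuationSubring Kbar, A.LiesOverPrime p →
    ∀ (ℓ : Nat.Primes) [NeZero (ℓ : ℕ)], ¬ (ℓ : ℕ) ∣ p * M' →
    ∀ f g : FF (p * M'),
      (g : LaurentSeries Kbar) = kronNorm (ℓ : ℕ) (f : LaurentSeries Kbar) →
      NodeGen p M' A f → NodeGen p M' A g

/-- **UNIT-EIS**: the modular unit is an Eisenstein eigenfunction (formal identity). -/
def UnitEisStatement : Prop :=
  ∀ (p : ℕ) [NeZero p] (ℓ : Nat.Primes) [NeZero (ℓ : ℕ)], p.Prime → (ℓ : ℕ) ≠ p →
    ∃ c : Kbar, c ≠ 0 ∧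
      kronNorm (ℓ : ℕ) (Fermat.Agent.S28.unitL Kbar p) =
        cst c * Fermat.Agent.S28.unitL Kbar p ^ ((ℓ : ℕ) + 1)

/-- **CUSP** (purity at the cusps): a Kummer generator whose reductions have `p`-divisible orders
away from the cusps has slopes `0`. -/
def CuspPurityStatement : Prop :=
  ∀ (p M' : ℕ) [NeZero M'] [NeZero p] [NeZero (p * M')], p.Prime → ¬ p ∣ M' →
    ∀ A : ValuationSubring Kbar, A.LiesOverPrime p →
    ∀ (g : FF (p * M')) (y : JZero (p * M')), IsKummerGen (p * M') p g y →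
      NodeGen p M' A g → FinGen p M' A g

/-! ## Calculus -/

section Calculus

variable {N : ℕ} [NeZero N] {A : ValuationSubring Kbar}

theorem IsKummerGen.pow {p : ℕ} {f : FF N} {x : JZero N} (h : IsKummerGen N p f x) (m : ℕ) :
    IsKummerGen N p (f ^ m) (m • x) := by
  induction m with
  | zero =>
    rw [pow_zero, zero_nsmul]
    exact isKummerGen_one
  | succ m ih =>
    rw [pow_succ, succ_nsmul]
    exact ih.mul h

theorem IsRedInf.pow {f : FF N} {r : LaurentSeries (kA A)} (h : IsRedInf N A f r) (m : ℕ) :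
    IsRedInf N A (f ^ m) (r ^ m) := by
  induction m with
  | zero =>
    rw [pow_zero, pow_zero]
    exact isRedInf_one
  | succ m ih =>
    rw [pow_succ, pow_succ]
    exact ih.mul h

theorem IsRedZero.pow {f : FF N} {r : LaurentSeries (kA A)} (h : IsRedZero N A f r) (m : ℕ) :
    IsRedZero N A (f ^ m) (r ^ m) := by
  unfold IsRedZero at h ⊢
  rw [map_pow]
  exact IsRedInf.pow h m

theorem IsRedInf.const_mul {f : FF N} {r : LaurentSeries (kA A)} (h : IsRedInf N A f r)
    {c : Kbar} (hc : c ≠ 0) : IsRedInf N A (algebraMap Kbar (FF N) c * f) r := by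
  obtain ⟨c₀, U₁, U₂, hc₀, h₁, h₂, he, hr⟩ := h
  refine ⟨c * c₀, U₁, U₂, mul_ne_zero hc hc₀, h₁, h₂, ?_, hr⟩
  have hcoe : ((algebraMap Kbar (FF N) c * f : FF N) : LaurentSeries Kbar) =
      cst c * (f : LaurentSeries Kbar) := rfl
  rw [hcoe, mul_assoc, he, cst_mul, mul_assoc]

theorem IsRedZero.const_mul {f : FF N} {r : LaurentSeries (kA A)} (h : IsRedZero N A f r)
    {c : Kbar} (hc : c ≠ 0) : IsRedZero N A (algebraMap Kbar (FF N) c * f) r := by
  unfold IsRedZero at h ⊢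
  rw [map_mul, AlgEquiv.commutes]
  exact IsRedInf.const_mul h hc

end Calculus

section PDivFinCalc

variable {p M' : ℕ} {k : Type} [Field k]

theorem PDivFin.mul {r r' : LaurentSeries k} (h : PDivFin p M' r) (h' : PDivFin p M' r') :
    PDivFin p M' (r * r') := by
  obtain ⟨a, rfl, ha, hdiv⟩ := h
  obtain ⟨a', rfl, ha', hdiv'⟩ := h'
  refine ⟨a * a', rfl, mul_ne_zero ha ha', fun Q hQ => ?_⟩
  rw [Place.ord_mul Q ha ha']
  exact dvd_add (hdiv Q hQ) (hdiv' Q hQ)

theorem PDivFin.inv {r : LaurentSeries k} (h : PDivFin p M' r) : PDivFin p M' r⁻¹ := by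
  obtain ⟨a, rfl, ha, hdiv⟩ := h
  refine ⟨a⁻¹, by rw [IntermediateField.coe_inv], inv_ne_zero ha, fun Q hQ => ?_⟩
  rw [Place.ord_inv]
  exact (dvd_neg).mpr (hdiv Q hQ)

theorem pDivFin_one : PDivFin p M' (1 : LaurentSeries k) := by
  refine ⟨1, rfl, one_ne_zero, fun Q _ => ?_⟩
  rw [Place.ord_one]
  exact dvd_zero _

theorem PDivFin.pow {r : LaurentSeries k} (h : PDivFin p M' r) (m : ℕ) :
    PDivFin p M' (r ^ m) := by
  induction m with
  | zero => rw [pow_zero]; exact pDivFin_one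
  | succ m ih => rw [pow_succ]; exact ih.mul h

/-- Extraction of `n`-th roots, `p ∤ n`. -/
theorem PDivFin.of_pow (hp : p.Prime) {n : ℕ} (hn : ¬ p ∣ n) {r s : LaurentSeries k}
    (hr : ∃ h : modularFunctionFieldFullC k M', (h : LaurentSeries k) = r)
    (c : k) (hs : s = HahnSeries.C c * r ^ n) (h : PDivFin p M' s) : PDivFin p M' r := by
  obtain ⟨a, rfl⟩ := hr
  obtain ⟨b, hb, hb0, hdiv⟩ := h
  have hbe : b = algebraMap k (modularFunctionFieldFullC k M') c * a ^ n := by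
    apply Subtype.ext
    have hc' : ((algebraMap k (modularFunctionFieldFullC k M') c :
        modularFunctionFieldFullC k M') : LaurentSeries k) = HahnSeries.C c := by
      have h0 : ((algebraMap k (modularFunctionFieldFullC k M') c :
          modularFunctionFieldFullC k M') : LaurentSeries k) =
          algebraMap k (LaurentSeries k) c := rfl
      have h1 : algebraMap k (PowerSeries k) c = PowerSeries.C c := by simp
      rw [h0, HahnSeries.algebraMap_apply', h1, HahnSeries.ofPowerSeries_C]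
    rw [hb, hs, IntermediateField.coe_mul, IntermediateField.coe_pow, hc']
  have hc : c ≠ 0 := by
    rintro rfl
    rw [hbe, map_zero, zero_mul] at hb0
    exact hb0 rfl
  have ha : a ≠ 0 := by
    rintro rfl
    have hn0 : n ≠ 0 := by
      rintro rfl
      exact hn (dvd_zero p)
    rw [hbe, zero_pow hn0, mul_zero] at hb0
    exact hb0 rfl
  refine ⟨a, rfl, ha, fun Q hQ => ?_⟩
  have h1 := hdiv Q hQ
  have hcF : algebraMap k (modularFunctionFieldFullC k M') c ≠ 0 := by simpa using hc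
  rw [hbe, Place.ord_mul Q hcF (pow_ne_zero n ha), ord_algebraMap_eq_zero, zero_add,
    ord_pow] at h1
  have hpp : Prime (p : ℤ) := Nat.prime_iff_prime_int.mp hp
  rcases hpp.dvd_or_dvd h1 with h2 | h2
  · exact absurd (Int.natCast_dvd_natCast.mp h2) hn
  · exact h2

end PDivFinCalc

section NodeGenCalc

variable {p M' : ℕ} [NeZero p] [NeZero (p * M')] {A : ValuationSubring Kbar}

theorem NodeGen.ne_zero {f : FF (p * M')} (h : NodeGen p M' A f) : f ≠ 0 := by
  obtain ⟨r₁, r₂, h1, -, -, -⟩ := h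
  intro h0
  exact h1.fun_ne_zero (by rw [h0]; rfl)

theorem NodeGen.mul {f f' : FF (p * M')} (h : NodeGen p M' A f) (h' : NodeGen p M' A f') :
    NodeGen p M' A (f * f') := by
  obtain ⟨r₁, r₂, h1, h2, h3, h4⟩ := h
  obtain ⟨r₁', r₂', h1', h2', h3', h4'⟩ := h'
  exact ⟨r₁ * r₁', r₂ * r₂', h1.mul h1', h2.mul h2', h3.mul h3', h4.mul h4'⟩

theorem NodeGen.inv {f : FF (p * M')} (h : NodeGen p M' A f) : NodeGen p M' A f⁻¹ := by
  obtain ⟨r₁, r₂, h1, h2, h3, h4⟩ := h
  exact ⟨r₁⁻¹, r₂⁻¹, h1.inv, h2.inv, h3.inv, h4.inv⟩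

theorem NodeGen.pow {f : FF (p * M')} (h : NodeGen p M' A f) (m : ℕ) :
    NodeGen p M' A (f ^ m) := by
  obtain ⟨r₁, r₂, h1, h2, h3, h4⟩ := h
  exact ⟨r₁ ^ m, r₂ ^ m, h1.pow m, h2.pow m, h3.pow m, h4.pow m⟩

theorem NodeGen.const_mul {f : FF (p * M')} (h : NodeGen p M' A f) {c : Kbar} (hc : c ≠ 0) :
    NodeGen p M' A (algebraMap Kbar (FF (p * M')) c * f) := by
  obtain ⟨r₁, r₂, h1, h2, h3, h4⟩ := h
  exact ⟨r₁, r₂, h1.const_mul hc, h2.const_mul hc, h3, h4⟩

/-- Extraction of `n`-th roots, `p ∤ n` (needs the RED leaves). -/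
theorem NodeGen.of_pow (hRE : RedExistsStatement) (hRU : RedUniqueStatement)
    (hRF : RedFieldStatement) [NeZero M'] (hp : p.Prime) (hpM : ¬ p ∣ M')
    (hA : A.LiesOverPrime p) {n : ℕ} (hn : ¬ p ∣ n) {g : FF (p * M')} (hg : g ≠ 0)
    (h : NodeGen p M' A (g ^ n)) : NodeGen p M' A g := by
  obtain ⟨s₁, s₂, h1, h2, h3, h4⟩ := h
  obtain ⟨⟨r₁, hr₁⟩, ⟨r₂, hr₂⟩⟩ := hRE p (p * M') hp A hA g hg
  obtain ⟨-, c₁, -, hc₁⟩ := hRU p (p * M') hp A hA (g ^ n) (r₁ ^ n) s₁ (hr₁.pow n) h1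
  have hr₂' : IsRedInf (p * M') A (wF (p * M') (g ^ n)) (r₂ ^ n) := IsRedZero.pow hr₂ n
  obtain ⟨-, c₂, -, hc₂⟩ := hRU p (p * M') hp A hA (wF (p * M') (g ^ n)) (r₂ ^ n) s₂ hr₂' h2
  exact ⟨r₁, r₂, hr₁, hr₂,
    PDivFin.of_pow hp hn (hRF p M' hp hpM A hA g r₁ (Or.inl hr₁)) c₁ hc₁ h3,
    PDivFin.of_pow hp hn (hRF p M' hp hpM A hA g r₂ (Or.inr hr₂)) c₂ hc₂ h4⟩

end NodeGenCalc

/-! ## Glue -/

/-- **W-EIS**: proportional slopes ⇒ Eisenstein slopes. -/
theorem isEisMod_of_slopeProp (hHF : HeckeFunStatement) (hHN : HeckeNodeGenStatement)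
    (hU : UnitEisStatement) (hCP : CuspPurityStatement) (hRE : RedExistsStatement)
    (hRU : RedUniqueStatement) (hRF : RedFieldStatement)
    (p M' : ℕ) [NeZero M'] [NeZero p] [NeZero (p * M')] (hp : p.Prime) (hpM : ¬ p ∣ M')
    (A : ValuationSubring Kbar) (hA : A.LiesOverPrime p) (x : JZero (p * M'))
    (hx : SlopeProp p M' A x) : IsEisMod p M' A (p * M').primeFactors x := by
  intro ℓ hℓ
  have : NeZero (ℓ : ℕ) := ⟨ℓ.2.ne_zero⟩
  have hℓN : ¬ (ℓ : ℕ) ∣ p * M' := fun h =>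
    hℓ (Nat.mem_primeFactors.mpr ⟨ℓ.2, h, NeZero.ne _⟩)
  have hℓp : (ℓ : ℕ) ≠ p := fun h => hℓN (h ▸ dvd_mul_right _ _)
  obtain ⟨f, D, G, n, a, b, hf, hD, hD0, hn, hG, hNG⟩ := hx
  obtain ⟨Tf, hTf, hTfK⟩ := hHF (p * M') ℓ hℓN f
  obtain ⟨TG, hTG, -⟩ := hHF (p * M') ℓ hℓN G
  obtain ⟨c, hc, hUD⟩ := hU p ℓ hp hℓp
  have hf0 : f ≠ 0 := hf.1
  have hG0 : G ≠ 0 := hNG.ne_zero
  -- notation
  set C : FF (p * M') := algebraMap Kbar (FF (p * M')) c with hC
  have hC0 : C ≠ 0 := by simpa [hC] using hc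
  set E : FF (p * M') := D ^ ((ℓ : ℕ) + 1) with hE
  have hE0 : E ≠ 0 := pow_ne_zero _ hD0
  -- the Hecke transform of the relation `G * D ^ b = f ^ n * D ^ a`
  have h2 : TG * (C * E) ^ b = Tf ^ n * (C * E) ^ a := by
    apply Subtype.ext
    have e1 : ((C * E : FF (p * M')) : LaurentSeries Kbar) =
        kronNorm (ℓ : ℕ) (D : LaurentSeries Kbar) := by
      have hD' : (D : LaurentSeries Kbar) = Fermat.Agent.S28.unitL Kbar p := hD
      have hCE : ((C * E : FF (p * M')) : LaurentSeries Kbar) =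
          cst c * (D : LaurentSeries Kbar) ^ ((ℓ : ℕ) + 1) := rfl
      rw [hCE, hD', hUD]
    have e2 : ((TG * (C * E) ^ b : FF (p * M')) : LaurentSeries Kbar) =
        kronNorm (ℓ : ℕ) ((G * D ^ b : FF (p * M')) : LaurentSeries Kbar) := by
      have : ((G * D ^ b : FF (p * M')) : LaurentSeries Kbar) =
          (G : LaurentSeries Kbar) * (D : LaurentSeries Kbar) ^ b := rfl
      rw [this, kronNorm_mul, kronNorm_pow, ← hTG, ← e1]
      rfl
    have e3 : ((Tf ^ n * (C * E) ^ a : FF (p * M')) : LaurentSeries Kbar) =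
        kronNorm (ℓ : ℕ) ((f ^ n * D ^ a : FF (p * M')) : LaurentSeries Kbar) := by
      have : ((f ^ n * D ^ a : FF (p * M')) : LaurentSeries Kbar) =
          (f : LaurentSeries Kbar) ^ n * (D : LaurentSeries Kbar) ^ a := rfl
      rw [this, kronNorm_mul, kronNorm_pow, kronNorm_pow, ← hTf, ← e1]
      rfl
    rw [e2, e3, hG]
  -- the `(ℓ+1)`-st power of the relation
  have h3 : G ^ ((ℓ : ℕ) + 1) * E ^ b = f ^ (n * ((ℓ : ℕ) + 1)) * E ^ a := by
    have h3' : (G * D ^ b) ^ ((ℓ : ℕ) + 1) = (f ^ n * D ^ a) ^ ((ℓ : ℕ) + 1) := by rw [hG]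
    calc G ^ ((ℓ : ℕ) + 1) * E ^ b = (G * D ^ b) ^ ((ℓ : ℕ) + 1) := by rw [hE]; ring
      _ = (f ^ n * D ^ a) ^ ((ℓ : ℕ) + 1) := h3'
      _ = f ^ (n * ((ℓ : ℕ) + 1)) * E ^ a := by rw [hE]; ring
  -- the Kummer generator of `T_ℓ x - (ℓ + 1) x`
  set g : FF (p * M') := Tf * (f ^ ((ℓ : ℕ) + 1))⁻¹ with hg
  have hgK : IsKummerGen (p * M') p g
      (heckeOperatorBar (p * M') ℓ x - ((ℓ : ℕ) + 1) • x) := by
    have := (hTfK p x hf).mul ((hf.pow ((ℓ : ℕ) + 1)).inv)
    rwa [← sub_eq_add_neg] at this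
  have hg0 : g ≠ 0 := hgK.1
  -- `g ^ n` is a constant times `TG / G ^ (ℓ + 1)`
  have h4 : Tf ^ n * C ^ a * G ^ ((ℓ : ℕ) + 1) = C ^ b * TG * f ^ (n * ((ℓ : ℕ) + 1)) := by
    have hEE : E ^ a * E ^ b ≠ 0 := mul_ne_zero (pow_ne_zero _ hE0) (pow_ne_zero _ hE0)
    apply mul_right_cancel₀ hEE
    rw [mul_pow, mul_pow] at h2
    linear_combination (-(f ^ (n * ((ℓ : ℕ) + 1)) * E ^ a)) * h2 + (Tf ^ n * C ^ a * E ^ a) * h3
  have h5 : g ^ n = algebraMap Kbar (FF (p * M')) (c ^ b * (c ^ a)⁻¹) *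
      (TG * (G ^ ((ℓ : ℕ) + 1))⁻¹) := by
    have hCa : C ^ a ≠ 0 := pow_ne_zero _ hC0
    have hGl : G ^ ((ℓ : ℕ) + 1) ≠ 0 := pow_ne_zero _ hG0
    have hfl : f ^ ((ℓ : ℕ) + 1) ≠ 0 := pow_ne_zero _ hf0
    have hcc : algebraMap Kbar (FF (p * M')) (c ^ b * (c ^ a)⁻¹) = C ^ b * (C ^ a)⁻¹ := by
      rw [map_mul, map_inv₀, map_pow, map_pow]
    rw [hcc, hg, mul_pow, inv_pow, ← pow_mul, mul_comm ((ℓ : ℕ) + 1) n]
    have hfn : f ^ (n * ((ℓ : ℕ) + 1)) ≠ 0 := pow_ne_zero _ hf0
    field_simp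
    linear_combination h4
  have hcb : c ^ b * (c ^ a)⁻¹ ≠ 0 := mul_ne_zero (pow_ne_zero _ hc) (inv_ne_zero (pow_ne_zero _ hc))
  have hNGn : NodeGen p M' A (g ^ n) := by
    rw [h5]
    exact ((hHN p M' hp hpM A hA ℓ hℓN G TG hTG hNG).mul (hNG.pow _).inv).const_mul hcb
  have hNGg : NodeGen p M' A g := NodeGen.of_pow hRE hRU hRF hp hpM hA hn hg0 hNGn
  exact AddSubgroup.subset_closure ⟨g, hgK, hCP p M' hp hpM A hA g _ hgK hNGg⟩

/-- **EIS from the W-EIS leaves.** -/
theorem eisSlope_of (hCO : CoreOutStatement) (hHF : HeckeFunStatement)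
    (hHN : HeckeNodeGenStatement) (hU : UnitEisStatement) (hCP : CuspPurityStatement)
    (hRE : RedExistsStatement) (hRU : RedUniqueStatement) (hRF : RedFieldStatement) :
    EisSlopeStatement := by
  intro p M' _ _ _ hp hp5 hpM A hA S a x t hx hex ht het hχ hsh hpeu
  exact ⟨(p * M').primeFactors,
    isEisMod_of_slopeProp hHF hHN hU hCP hRE hRU hRF p M' hp hpM A hA x
      (hCO p M' hp hp5 hpM A hA S a x t hx hex ht het hχ hsh hpeu)⟩

end Fermat.Agent.Ribet.H884

end

end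
-- ===== PACK-END Ribet/H884/EisSpec.lean

-- ===== PACK-BEGIN Ribet/H398/HeckeFun.lean
section





/-!
# Row 38, WALL-p, W-EIS leaf HECKE-FUN (`H884.HeckeFunStatement`)   (helper398)

For a prime `ℓ ∤ N` the formal Kronecker norm `S37.H400.kronNorm ℓ` preserves
`FF N = ℚ̄(X₀(N))` and is the function-level Hecke operator: `g := Nm_α(β f)`
(`S29.H395.heckeNorm`) has `t`-expansion `kronNorm ℓ f` (`S37.H819.normId`) and is a Kummer
generator of `T_ℓ x` whenever `f` is one of `x` (`S29.H395.heckeOperatorBar_mk`, inputs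
`Lib.FF398.heckeInputsAlong`).

* `heckeFun` : `H884.HeckeFunStatement` (verbatim).
-/

set_option autoImplicit false
set_option linter.style.haveILetI false
set_option linter.unusedSectionVars false
set_option synthInstance.maxHeartbeats 400000
set_option maxHeartbeats 1000000

noncomputable section

namespace Fermat.Agent.Ribet.H398

open ModularCurve AlgebraicCurve
open Fermat.Agent.S24 Fermat.Agent.Ribet.H884

local notation "Q̄" => AlgebraicClosure ℚ

/-- The `t`-expansion of `Nm_α(β f)` is the formal Kronecker norm (`ℓ ∤ N` prime). -/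
theorem coe_heckeNorm_eq_kronNorm (N ℓ : ℕ) [NeZero N] [NeZero ℓ] (hℓ : ℓ.Prime)
    (hℓN : ¬ ℓ ∣ N) (f : FF N) :
    ((Fermat.Agent.S29.H395.heckeNorm N ℓ f : FF N) : LaurentSeries Q̄)
      = Fermat.Agent.S37.H400.kronNorm ℓ (f : LaurentSeries Q̄) :=
  Fermat.Agent.S37.H819.normId N ℓ hℓ hℓN f

/-- `Nm_α(β f)` is a Kummer generator of `T_ℓ x` if `f` is a Kummer generator of `x`. -/
theorem isKummerGen_heckeNorm (N : ℕ) [NeZero N] (ℓ : Nat.Primes) [NeZero (ℓ : ℕ)]
    (p : ℕ) (f : FF N) (x : JZero N) (hK : IsKummerGen N p f x) :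
    IsKummerGen N p (Fermat.Agent.S29.H395.heckeNorm N ℓ f) (heckeOperatorBar N ℓ x) := by
  obtain ⟨hf0, D, rfl, hD⟩ := hK
  have hHI : HeckeInputsAlong Q̄ N ℓ := Fermat.Agent.Lib.FF398.heckeInputsAlong N ℓ
  obtain ⟨D', hD', hord⟩ := Fermat.Agent.S29.H395.heckeOperatorBar_mk N ℓ hHI D
  refine ⟨Fermat.Agent.S29.H395.heckeNorm_ne_zero N ℓ hHI hf0, D', hD'.symm, fun v => ?_⟩
  exact (hord (p : ℤ) f hf0 (fun v => (hD v).symm) v).symm

/-- **Leaf HECKE-FUN of W-EIS** (`H884.HeckeFunStatement`, verbatim). -/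
theorem heckeFun : HeckeFunStatement := by
  intro N _ ℓ _ hℓN f
  exact ⟨Fermat.Agent.S29.H395.heckeNorm N ℓ f,
    coe_heckeNorm_eq_kronNorm N ℓ ℓ.2 hℓN f,
    fun p x hK => isKummerGen_heckeNorm N ℓ p f x hK⟩

end Fermat.Agent.Ribet.H398

end

end
-- ===== PACK-END Ribet/H398/HeckeFun.lean

-- ===== PACK-BEGIN Ribet/H699/HeckeNodeGen.lean
section





/-!
# Row 38, WALL-p, W-EIS leaf HECKE-NODE (`H884.HeckeNodeGenStatement`, VERBATIM)  (helper699)

`NodeGen f ⇒ NodeGen g` for `g = kronNorm ℓ f` (`ℓ ∤ pM'`).  Pure assembly of results on main: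

* `g = Nm_α (β f)` (`S37.H157.node_normid`);
* the reduction of `Nm_α (β f)` on `C∞` is `kronNorm ℓ r₁` (`H376.isRedInf_heckeNorm'`), the one on
  `C₀` is `kronNorm ℓ r₂` (`H376.wF_heckeNorm`: `w_N` commutes with `Nm_α ∘ β`);
* `kronNorm ℓ` preserves `PDivFin` over `k = A/𝔪` (helper223's characteristic-`p` Hecke
  correspondence `H223.HF.exists_kronNorm_dvd_ord_of_nonneg`).

Main statements: `pDivFin_kronNorm`, `nodeGen_heckeNorm`, **`heckeNodeGen`**.
-/

set_option autoImplicit false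
set_option linter.style.haveILetI false
set_option synthInstance.maxHeartbeats 400000
set_option maxHeartbeats 1000000

noncomputable section

open AlgebraicCurve ModularCurve

namespace Fermat.Agent.Ribet.H699

open Fermat.Agent.S24 Fermat.Agent.A2.H708 Fermat.Agent.A2.H528
open Fermat.Agent.Ribet.Spec Fermat.Agent.Ribet.H884
open Fermat.Agent.S37.H400

/-- `kronNorm ℓ` preserves `PDivFin` (`k` algebraically closed of characteristic `p`, `p ∤ M'`,
`ℓ ≠ p`, `ℓ ∤ M'`). -/
theorem pDivFin_kronNorm {k : Type} [Field k] [IsAlgClosed k] (p M' ℓ : ℕ) [NeZero M']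
    [NeZero ℓ] [CharP k p] (hp : p.Prime) (hpM : ¬ p ∣ M') (hℓ : ℓ.Prime) (hℓp : ℓ ≠ p)
    (hℓM : ¬ ℓ ∣ M') {r : LaurentSeries k} (hr : PDivFin p M' r) :
    PDivFin p M' (kronNorm ℓ r) := by
  obtain ⟨h, rfl, h0, hdiv⟩ := hr
  have hchar : ∀ q : ℕ, q.Prime → q ∣ M' * ℓ → (q : k) ≠ 0 := by
    intro q hq hqd hq0
    have h1 : p ∣ q := (CharP.cast_eq_zero_iff k p q).mp hq0
    have h2 : p = q := (Nat.prime_dvd_prime_iff_eq hp hq).mp h1
    subst h2
    rcases (Nat.Prime.dvd_mul hp).mp hqd with h3 | h3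
    · exact hpM h3
    · exact hℓp ((Nat.prime_dvd_prime_iff_eq hp hℓ).mp h3).symm
  obtain ⟨h', hh', hh'0, hdiv'⟩ :=
    Fermat.Agent.Ribet.H223.HF.exists_kronNorm_dvd_ord_of_nonneg (k := k) (N := M') (ℓ := ℓ)
      hℓ hℓM hchar (p : ℤ) h h0 (fun Q hQ => hdiv Q hQ)
  exact ⟨h', hh', hh'0, fun Q hQ => hdiv' Q hQ⟩

/-- The residue field of a valuation subring of `ℚ̄` over `p` has characteristic `p`. -/
theorem charP_kA (A : ValuationSubring Kbar) {p : ℕ} (hp : p.Prime) (hA : A.LiesOverPrime p) :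
    CharP (kA A) p := by
  have hpm : ((p : ℕ) : A) ∈ IsLocalRing.maximalIdeal A := by
    obtain ⟨ha, hm⟩ := (ValuationSubring.mem_nonunits_iff_exists_mem_maximalIdeal).mp hA
    have : (⟨(p : AlgebraicClosure ℚ), ha⟩ : A) = ((p : ℕ) : A) := by
      apply Subtype.ext; simp
    rwa [this] at hm
  have h0 : ((p : ℕ) : IsLocalRing.ResidueField A) = 0 := by
    have := (IsLocalRing.residue_eq_zero_iff ((p : ℕ) : A)).mpr hpm
    rwa [map_natCast] at this
  exact (CharP.charP_iff_prime_eq_zero hp).mpr h0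

/-- `NodeGen` is stable under `Nm_α ∘ β`. -/
theorem nodeGen_heckeNorm (p M' : ℕ) [NeZero M'] [NeZero p] [NeZero (p * M')] (hp : p.Prime)
    (hpM : ¬ p ∣ M') (A : ValuationSubring Kbar) (hA : A.LiesOverPrime p)
    (ℓ : ℕ) [NeZero ℓ] (hℓ : ℓ.Prime) (hℓN : ¬ ℓ ∣ p * M') {f : FF (p * M')}
    (h : NodeGen p M' A f) :
    NodeGen p M' A (Fermat.Agent.S29.H222.heckeNorm (p * M') ℓ f) := by
  obtain ⟨r₁, r₂, h1, h2, h3, h4⟩ := h
  haveI : CharP (kA A) p := charP_kA A hp hA
  haveI : IsAlgClosed (kA A) := Fermat.Agent.S18.H9.resAlgClosed (AlgebraicClosure ℚ) A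
  have hℓp : ℓ ≠ p := fun e => hℓN (e ▸ dvd_mul_right p M')
  have hℓM : ¬ ℓ ∣ M' := fun e => hℓN (dvd_mul_of_dvd_right e p)
  refine ⟨kronNorm ℓ r₁, kronNorm ℓ r₂,
    Fermat.Agent.Ribet.H376.isRedInf_heckeNorm' (p * M') ℓ hℓ hℓN A h1, ?_,
    pDivFin_kronNorm p M' ℓ hp hpM hℓ hℓp hℓM h3, pDivFin_kronNorm p M' ℓ hp hpM hℓ hℓp hℓM h4⟩
  unfold IsRedZero at h2 ⊢
  rw [Fermat.Agent.Ribet.H376.wF_heckeNorm hℓ hℓN]
  exact Fermat.Agent.Ribet.H376.isRedInf_heckeNorm' (p * M') ℓ hℓ hℓN A h2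

/-- **HECKE-NODE** (`H884.HeckeNodeGenStatement`, verbatim). -/
theorem heckeNodeGen : HeckeNodeGenStatement := by
  intro p M' _ _ _ hp hpM A hA ℓ _ hℓN f g hg hf
  have hgf : g = Fermat.Agent.S29.H222.heckeNorm (p * M') ℓ f :=
    Subtype.ext (hg.trans (Fermat.Agent.S37.H157.node_normid (p * M') ℓ ℓ.2 hℓN f).symm)
  rw [hgf]
  exact nodeGen_heckeNorm p M' hp hpM A hA ℓ ℓ.2 hℓN hf

end Fermat.Agent.Ribet.H699

end

end
-- ===== PACK-END Ribet/H699/HeckeNodeGen.lean

-- ===== PACK-BEGIN Ribet/H67/UnitEis.lean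
section
/-
RIBET / W-EIS leaf UNIT-EIS (helper67): `H884.UnitEisStatement`.

`kronNorm ℓ u_p = c · u_p^(ℓ+1)` for the modular unit `u_p = Δ(t^p)/Δ(t)` and primes `ℓ ≠ p`.
Proof: `UnitEisCore` (power-series Euler-product identity, by truncation) and
`UnitEisLaurent` (transfer to Laurent series through the twist-product form of `kronNorm`).
-/



set_option autoImplicit false

noncomputable section

namespace Fermat.Agent.Ribet.H67

open Fermat.Agent.S37.H400 Fermat.Agent.A2.H708 Fermat.Agent.S24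

theorem cst_eq_C {L : Type*} [Field L] (c : L) :
    (cst c : LaurentSeries L) = HahnSeries.C c := by
  have h1 : algebraMap L (PowerSeries L) c = PowerSeries.C c := by simp
  rw [cst, HahnSeries.algebraMap_apply', h1, HahnSeries.ofPowerSeries_C]

/-- **UNIT-EIS**: the modular unit `u_p` is an eigenfunction of the formal Hecke norm. -/
theorem unitEis : Fermat.Agent.Ribet.H884.UnitEisStatement := by
  intro p _ ℓ _ hp hℓp
  have : NeZero (((ℓ : ℕ) : ℕ) : ℚ) := ⟨by exact_mod_cast ℓ.2.ne_zero⟩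
  obtain ⟨ζ, hζ⟩ := HasEnoughRootsOfUnity.exists_primitiveRoot Kbar (ℓ : ℕ)
  have hdvd : ¬ (ℓ : ℕ) ∣ p := fun h =>
    hℓp ((Nat.prime_dvd_prime_iff_eq ℓ.2 hp).1 h)
  obtain ⟨c, hc, h⟩ := kronNorm_unitL_eq (L := Kbar) p (ℓ : ℕ) ℓ.2 hdvd hζ
  exact ⟨c, hc, by rw [h, cst_eq_C]⟩

end Fermat.Agent.Ribet.H67

end

end
-- ===== PACK-END Ribet/H67/UnitEis.lean

-- ===== PACK-BEGIN Ribet/H997/RedField.lean
section








/-!
# Row 38, WALL-p, MOD-p leaf REDFIELD of `Ribet/H884/SlopeSpec.lean` (helper997)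

`redField : H884.RedFieldStatement` — every reduction (on `C∞` or on `C₀`) of a function of level
`p·M'` lies in `k(X₀(M')) = modularFunctionFieldFullC k M'`.

Route: descend `f` to a good level `E` (`A2.T1.H669.exists_finset_descent`,
`A2.IF.H429.exists_goodField`), where `R_E = A ∩ E` is a discrete valuation ring; there
`f = c · u`, `u` a unit of `V∞`, and A2's leaf L11 (`A2.Mod.H378.resInf`) gives `g ∈ V∞_{M'}` with
`u ≡ α g mod w`; so `f` and `g` have THE SAME reduction (`exists_common_red`).  At level `M'`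
(`p ∤ M'`) every reduction lies in `k(X₀(M'))` by S37's value-group theorem
(`S37.H568.valueGroupHyp_modular`, from Igusa `S28.CoreData`).  Uniqueness of reductions
(`RedBasic.normal_form_unique`) concludes.
-/

set_option autoImplicit false
set_option linter.unusedSectionVars false
set_option linter.style.haveILetI false
set_option synthInstance.maxHeartbeats 400000
set_option maxHeartbeats 1600000

noncomputable section

namespace Fermat.Agent.Ribet.H997

open AlgebraicCurve ModularCurve HahnSeries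
open Fermat.Agent.S24 Fermat.Agent.A2.H708 Fermat.Agent.A2.H528
open Fermat.Agent.Ribet.H884

/-- `r` is a reduction of the series `x` (normal form over `A`). -/
def IsRedSer (A : ValuationSubring Kbar) (x : LaurentSeries Kbar)
    (r : LaurentSeries (kA A)) : Prop :=
  ∃ (c : Kbar) (U₁ U₂ : LaurentSeries A), c ≠ 0 ∧ red A U₁ ≠ 0 ∧ red A U₂ ≠ 0 ∧
    x * incl A U₂ = cst c * incl A U₁ ∧ r * red A U₂ = red A U₁

theorem isRedInf_iff_isRedSer {N : ℕ} [NeZero N] {A : ValuationSubring Kbar} {f : FF N}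
    {r : LaurentSeries (kA A)} : IsRedInf N A f r ↔ IsRedSer A (f : LaurentSeries Kbar) r :=
  Iff.rfl

theorem IsRedSer.unique {A : ValuationSubring Kbar} {x : LaurentSeries Kbar}
    {r r' : LaurentSeries (kA A)} (h : IsRedSer A x r) (h' : IsRedSer A x r') :
    ∃ u : kA A, u ≠ 0 ∧ r' = HahnSeries.C u * r := by
  obtain ⟨c, U₁, U₂, hc, h₁, h₂, he, hr⟩ := h
  obtain ⟨c', U₁', U₂', hc', h₁', h₂', he', hr'⟩ := h'
  exact normal_form_unique hc hc' h₁ h₂ h₁' h₂' he he' hr hr'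

theorem IsRedSer.ne_zero {A : ValuationSubring Kbar} {x : LaurentSeries Kbar}
    {r : LaurentSeries (kA A)} (h : IsRedSer A x r) : x ≠ 0 := by
  obtain ⟨c, U₁, U₂, hc, h₁, -, he, -⟩ := h
  rintro rfl
  rw [zero_mul] at he
  rcases mul_eq_zero.mp he.symm with h | h
  · exact cst_ne_zero hc h
  · exact incl_ne_zero A (ne_zero_of_red_ne_zero A h₁) h

/-- constants of `k` lie in `k(X₀(M))`. -/
theorem C_mem_fullC (k : Type) [Field k] (M : ℕ) (u : k) :
    HahnSeries.C u ∈ modularFunctionFieldFullC k M := by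
  have h := (modularFunctionFieldFullC k M).algebraMap_mem u
  rwa [algebraMap_laurentSeries_eq_single] at h

/-! ## Level `M`, `p ∤ M` (good reduction) -/

/-- **Good level**: every reduction of a function of level `M`, `p ∤ M`, lies in `k(X₀(M))`. -/
theorem isRedSer_mem_of_good {M p : ℕ} [NeZero M] (hp : p.Prime) (hpM : ¬ p ∣ M)
    {A : ValuationSubring Kbar} (hA : A.LiesOverPrime p) {x : LaurentSeries Kbar}
    (hx : x ∈ modularFunctionFieldBar M) {r : LaurentSeries (kA A)} (h : IsRedSer A x r) :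
    r ∈ modularFunctionFieldFullC (kA A) M := by
  have hx0 : x ≠ 0 := h.ne_zero
  have hVG := Fermat.Agent.S37.H568.valueGroupHyp_modular (N := M) (A := A)
    (Fermat.Agent.S37.H98.coreData_residueField M p hp hpM A hA)
  obtain ⟨c', hc', y₁, y₂, hy₁, hy₂, hfy⟩ :=
    hVG ⟨x, hx⟩ (fun h0 => hx0 (congrArg Subtype.val h0))
  have e₁ := Fermat.Agent.S37.H940.coeffMap_series A (IsLocalRing.residue A)
    (modularFunctionFieldBar M) (modularFunctionFieldFullC (IsLocalRing.ResidueField A) M) y₁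
  have e₂ := Fermat.Agent.S37.H940.coeffMap_series A (IsLocalRing.residue A)
    (modularFunctionFieldBar M) (modularFunctionFieldFullC (IsLocalRing.ResidueField A) M) y₂
  have hm₁ := Fermat.Agent.S37.H940.coeffMap_series_mem A (IsLocalRing.residue A)
    (modularFunctionFieldBar M) (modularFunctionFieldFullC (IsLocalRing.ResidueField A) M) y₁
  have hm₂ := Fermat.Agent.S37.H940.coeffMap_series_mem A (IsLocalRing.residue A)
    (modularFunctionFieldBar M) (modularFunctionFieldFullC (IsLocalRing.ResidueField A) M) y₂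
  generalize Fermat.Agent.S37.H940.series A (IsLocalRing.residue A)
    (modularFunctionFieldBar M) (modularFunctionFieldFullC (IsLocalRing.ResidueField A) M) y₁
    = Y₁ at e₁ hm₁
  generalize Fermat.Agent.S37.H940.series A (IsLocalRing.residue A)
    (modularFunctionFieldBar M) (modularFunctionFieldFullC (IsLocalRing.ResidueField A) M) y₂
    = Y₂ at e₂ hm₂
  have hr₁ : red A Y₁ ≠ 0 := by
    intro h0
    apply hy₁
    apply Subtype.ext
    rw [Fermat.Agent.S37.H940.coe_redQ A (IsLocalRing.residue A) _ _ y₁ e₁]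
    exact h0
  have hr₂ : red A Y₂ ≠ 0 := by
    intro h0
    apply hy₂
    apply Subtype.ext
    rw [Fermat.Agent.S37.H940.coe_redQ A (IsLocalRing.residue A) _ _ y₂ e₂]
    exact h0
  have he' : x * incl A Y₂ = cst c' * incl A Y₁ := by
    have h1 := congrArg Subtype.val hfy
    show x * coeffMap A.subtype Y₂ = cst c' * coeffMap A.subtype Y₁
    rw [e₁, e₂]
    exact h1
  have h0 : IsRedSer A x (red A Y₁ * (red A Y₂)⁻¹) :=
    ⟨c', Y₁, Y₂, hc', hr₁, hr₂, he', by rw [mul_assoc, inv_mul_cancel₀ hr₂, mul_one]⟩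
  obtain ⟨u, -, hu⟩ := h0.unique h
  rw [hu]
  exact mul_mem (C_mem_fullC _ M u) (mul_mem hm₁ (inv_mem hm₂))

/-! ## Level `M·p`: a function of level `M` with the same reduction -/

section Descent

open Fermat.Agent.A2 Fermat.Agent.A2.Mod Fermat.Agent.S18.H602

variable {M p : ℕ} [NeZero M] [NeZero p] {A : ValuationSubring Kbar}

/-- the inclusion `R_E = A ∩ E → A`. -/
def toA' (A : ValuationSubring Kbar) (E : IntermediateField ℚ Kbar) : ↥(Mod.RE A E) →+* ↥A where
  toFun x := ⟨algebraMap E Kbar (x : E), x.2⟩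
  map_one' := Subtype.ext (map_one _)
  map_mul' _ _ := Subtype.ext (map_mul _ _ _)
  map_zero' := Subtype.ext (map_zero _)
  map_add' _ _ := Subtype.ext (map_add _ _ _)

theorem coe_toA' (E : IntermediateField ℚ Kbar) (x : Mod.RE A E) :
    ((toA' A E x : A) : Kbar) = algebraMap E Kbar (x : E) := rfl

theorem isUnit_toA'_iff (E : IntermediateField ℚ Kbar) (a : Mod.RE A E) :
    IsUnit (toA' A E a) ↔ IsUnit a := by
  constructor
  · intro ha
    obtain ⟨b, hb⟩ := isUnit_iff_exists_inv.mp ha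
    have hb' : algebraMap E Kbar (a : E) * (b : Kbar) = 1 := congrArg (fun z : A => (z : Kbar)) hb
    have ha0 : (a : E) ≠ 0 := by
      rintro h0
      rw [h0, map_zero, zero_mul] at hb'
      exact zero_ne_one hb'
    have hinv : ((a : E)⁻¹ : E) ∈ Mod.RE A E := by
      show algebraMap E Kbar ((a : E)⁻¹) ∈ A
      have : algebraMap E Kbar ((a : E)⁻¹) = (b : Kbar) := by
        rw [map_inv₀]
        exact inv_eq_of_mul_eq_one_right hb'
      rw [this]
      exact b.2
    exact isUnit_iff_exists_inv.mpr ⟨⟨(a : E)⁻¹, hinv⟩, Subtype.ext (mul_inv_cancel₀ ha0)⟩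
  · intro ha
    exact ha.map (toA' A E)

/-- transport of integral series from `R_E = A ∩ E` to `A`. -/
abbrev upA (A : ValuationSubring Kbar) (E : IntermediateField ℚ Kbar) :
    LaurentSeries (Mod.RE A E) →+* LaurentSeries A :=
  coeffMap (toA' A E)

theorem incl_upA (E : IntermediateField ℚ Kbar) (U : LaurentSeries (Mod.RE A E)) :
    incl A (upA A E U) = coeffMap (algebraMap E Kbar) (incl (Mod.RE A E) U) := by
  ext n
  simp only [coeffMap_coeff]
  rfl

theorem upA_cstA (E : IntermediateField ℚ Kbar) (a : Mod.RE A E) :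
    upA A E (cstA (Mod.RE A E) a) = cstA A (toA' A E a) := by
  rw [cstA, cstA, coeffMap_single]

theorem residue_eq_zero_iff_not_isUnit' {R : Type*} [CommRing R] [IsLocalRing R] (a : R) :
    IsLocalRing.residue R a = 0 ↔ ¬ IsUnit a := by
  rw [IsLocalRing.residue_eq_zero_iff, IsLocalRing.mem_maximalIdeal, mem_nonunits_iff]

theorem red_upA_eq_zero_iff (E : IntermediateField ℚ Kbar) (U : LaurentSeries (Mod.RE A E)) :
    red A (upA A E U) = 0 ↔ red (Mod.RE A E) U = 0 := by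
  constructor
  · intro h
    ext n
    have h1 := congrArg (fun z => z.coeff n) h
    simp only [coeffMap_coeff, HahnSeries.coeff_zero] at h1 ⊢
    rw [residue_eq_zero_iff_not_isUnit'] at h1 ⊢
    rwa [isUnit_toA'_iff] at h1
  · intro h
    ext n
    have h1 := congrArg (fun z => z.coeff n) h
    simp only [coeffMap_coeff, HahnSeries.coeff_zero] at h1 ⊢
    rw [residue_eq_zero_iff_not_isUnit'] at h1 ⊢
    rwa [isUnit_toA'_iff]

theorem red_upA_ne_zero (E : IntermediateField ℚ Kbar) {U : LaurentSeries (Mod.RE A E)}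
    (h : red (Mod.RE A E) U ≠ 0) : red A (upA A E U) ≠ 0 :=
  fun h0 => h ((red_upA_eq_zero_iff E U).mp h0)

/-- **Residue degree one, `ℚ̄`-form.**  A nonzero function of level `M·p` has the same reduction
on `C∞` as some function of level `M`. -/
theorem exists_common_red (hp : p.Prime) (hpM : ¬ p ∣ M) (hA : A.LiesOverPrime p)
    {x : LaurentSeries Kbar} (hx : x ∈ modularFunctionFieldBar (M * p)) (hx0 : x ≠ 0) :
    ∃ (r : LaurentSeries (kA A)) (g : LaurentSeries Kbar),
      g ∈ modularFunctionFieldBar M ∧ IsRedSer A x r ∧ IsRedSer A g r := by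
  classical
  obtain ⟨S, hS⟩ := Fermat.Agent.A2.T1.H669.exists_finset_descent
    (modularFunctionFieldFull (M * p)) ⟨x, hx⟩
  obtain ⟨E, hSE, hgood⟩ := Fermat.Agent.A2.IF.H429.exists_goodField p hp A hA S
  obtain ⟨y, hy⟩ := hS E hSE
  have hyx : coeffMap (algebraMap E Kbar) (y : LaurentSeries E) = x := congrArg Subtype.val hy
  haveI hdvr : IsDiscreteValuationRing (Mod.RE A E) := hgood.dvr
  obtain ⟨w, hw⟩ := IsDiscreteValuationRing.exists_irreducible (Mod.RE A E)
  have hMp : M * p ≠ 0 := Nat.mul_ne_zero (NeZero.ne M) hp.ne_zero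
  have hSet : Mod.Setting A E M p w := ⟨hp, hpM, NeZero.ne M, hA, hdvr, hw⟩
  obtain ⟨VM, hVM⟩ := Mod.H553.vinfExists (P := A) (E := E) M (NeZero.ne M) hdvr
  obtain ⟨V, hV⟩ := Mod.H553.vinfExists (P := A) (E := E) (M * p) hMp hdvr
  have hy0 : (y : LaurentSeries E) ≠ 0 := by
    intro h0
    apply hx0
    rw [← hyx, h0, map_zero]
  obtain ⟨c, U₁, U₂, hc, h₁, h₂, hm₁, hm₂, he⟩ :=
    exists_normal_form (A := Mod.RE A E) (intGen_full (M * p))
      (attainsMax_of_isNoetherianRing (Mod.RE A E) (modularFunctionFieldFull (M * p))) y.2 hy0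
  -- the unit `u = y / c`
  set u : Mod.FE E (M * p) := y * (algebraMap E (Mod.FE E (M * p)) c)⁻¹ with hu
  have hu_coe : (u : LaurentSeries E) = (y : LaurentSeries E) * (cst c)⁻¹ := by
    rw [hu, IntermediateField.coe_mul, IntermediateField.coe_inv]
    rfl
  have hu_ser : (u : LaurentSeries E) * incl (Mod.RE A E) U₂ = incl (Mod.RE A E) U₁ := by
    rw [hu_coe, mul_right_comm, he, mul_right_comm, mul_inv_cancel₀ (cst_ne_zero hc), one_mul]
  have huV : u ∈ V := (hV u).mpr ⟨U₁, U₂, h₂, hm₂, hu_ser⟩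
  obtain ⟨g, hgVM, hcong⟩ := Mod.H378.resInf A E M p w hSet VM V hVM hV u huV
  obtain ⟨G₁, G₂, hG₂, hmG₂, heG⟩ := (hVM g).mp hgVM
  obtain ⟨W₁, W₂, hW₂, hmW₂, heW⟩ := (hV _).mp hcong
  have hw0 : (w : E) ≠ 0 := fun h => hw.ne_zero (Subtype.ext h)
  -- the congruence on series
  have hcoe : (((u - Mod.αE E M p g) * (Mod.cE A E (M * p) w)⁻¹ : Mod.FE E (M * p)) :
      LaurentSeries E) = ((u : LaurentSeries E) - (g : LaurentSeries E)) * (cst (w : E))⁻¹ := by
    rfl
  rw [hcoe] at heW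
  have h1 : ((u : LaurentSeries E) - (g : LaurentSeries E)) * incl (Mod.RE A E) W₂ =
      cst (w : E) * incl (Mod.RE A E) W₁ := by
    rw [← heW]
    have hne : cst (w : E) ≠ 0 := cst_ne_zero hw0
    field_simp
  have key : incl (Mod.RE A E) ((U₁ * G₂ - G₁ * U₂) * W₂) =
      incl (Mod.RE A E) (cstA (Mod.RE A E) w * (W₁ * U₂ * G₂)) := by
    simp only [map_mul, map_sub, incl_cstA]
    rw [← hu_ser, ← heG]
    linear_combination (incl (Mod.RE A E) U₂ * incl (Mod.RE A E) G₂) * h1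
  have hRE := incl_injective (Mod.RE A E) key
  have hAA := congrArg (fun z => red A (upA A E z)) hRE
  simp only [map_mul, map_sub] at hAA
  have hrw : red A (upA A E (cstA (Mod.RE A E) w)) = 0 := by
    rw [upA_cstA, red_cstA]
    have : IsLocalRing.residue A (toA' A E w) = 0 := by
      rw [residue_eq_zero_iff_not_isUnit', isUnit_toA'_iff]
      exact hw.not_isUnit
    rw [this, map_zero]
  rw [hrw, zero_mul] at hAA
  have hW₂A := red_upA_ne_zero E hW₂
  have hstarA : red A (upA A E U₁) * red A (upA A E G₂) =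
      red A (upA A E G₁) * red A (upA A E U₂) := by
    rcases mul_eq_zero.mp hAA with h | h
    · exact sub_eq_zero.mp h
    · exact absurd h hW₂A
  have h₁A := red_upA_ne_zero E h₁
  have h₂A := red_upA_ne_zero E h₂
  have hG₂A := red_upA_ne_zero E hG₂
  have hG₁A : red A (upA A E G₁) ≠ 0 := by
    intro h0
    rw [h0, zero_mul] at hstarA
    exact mul_ne_zero h₁A hG₂A hstarA
  have hcK : (algebraMap E Kbar c) ≠ 0 := by
    rwa [Ne, map_eq_zero_iff _ (algebraMap E Kbar).injective]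
  refine ⟨red A (upA A E U₁) * (red A (upA A E U₂))⁻¹,
    coeffMap (algebraMap E Kbar) (g : LaurentSeries E),
    coeffMap_mem_laurentBaseChange (modularFunctionFieldFull M) _ g.2, ?_, ?_⟩
  · refine ⟨algebraMap E Kbar c, upA A E U₁, upA A E U₂, hcK, h₁A, h₂A, ?_,
      by rw [mul_assoc, inv_mul_cancel₀ h₂A, mul_one]⟩
    have := congrArg (coeffMap (algebraMap E Kbar)) he
    rw [map_mul, map_mul, hyx, coeffMap_algebraMap', ← incl_upA, ← incl_upA] at this
    exact this
  · refine ⟨1, upA A E G₁, upA A E G₂, one_ne_zero, hG₁A, hG₂A, ?_, ?_⟩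
    · have := congrArg (coeffMap (algebraMap E Kbar)) heG
      rw [map_mul, ← incl_upA, ← incl_upA] at this
      rw [this, cst_one, one_mul]
    · rw [mul_right_comm, hstarA, mul_assoc, mul_inv_cancel₀ h₂A, mul_one]

/-- every reduction of a function of level `M·p` lies in `k(X₀(M))`. -/
theorem isRedSer_mem_of_level_mul (hp : p.Prime) (hpM : ¬ p ∣ M) (hA : A.LiesOverPrime p)
    {x : LaurentSeries Kbar} (hx : x ∈ modularFunctionFieldBar (M * p))
    {r : LaurentSeries (kA A)} (h : IsRedSer A x r) :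
    r ∈ modularFunctionFieldFullC (kA A) M := by
  obtain ⟨r₀, g, hg, hxr, hgr⟩ := exists_common_red hp hpM hA hx h.ne_zero
  have h0 := isRedSer_mem_of_good hp hpM hA hg hgr
  obtain ⟨u, -, hu⟩ := hxr.unique h
  rw [hu]
  exact mul_mem (C_mem_fullC _ M u) h0

end Descent

/-- **REDFIELD**: every reduction of a function of level `p·M'` lies in `k(X₀(M'))`. -/
theorem redField : RedFieldStatement := by
  intro p M' _ _ _ hp hpM A hA f r h
  have hlev : ∀ (N N' : ℕ), N = N' → ∀ z : LaurentSeries Kbar,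
      z ∈ modularFunctionFieldBar N → z ∈ modularFunctionFieldBar N' := by
    intro N N' hNN' z hz
    subst hNN'
    exact hz
  have hmem : ∀ g : FF (p * M'),
      (g : LaurentSeries Kbar) ∈ modularFunctionFieldBar (M' * p) :=
    fun g => hlev _ _ (Nat.mul_comm p M') _ g.2
  rcases h with h | h
  · exact ⟨⟨r, isRedSer_mem_of_level_mul hp hpM hA (hmem f) h⟩, rfl⟩
  · exact ⟨⟨r, isRedSer_mem_of_level_mul hp hpM hA (hmem (wF (p * M') f)) h⟩, rfl⟩

end Fermat.Agent.Ribet.H997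

end

end
-- ===== PACK-END Ribet/H997/RedField.lean

-- ===== PACK-BEGIN Ribet/H704/CoreOutSpec.lean
section
/-
# RIBET row 38, WALL-p, (S4): CORE-OUT = `H884.CoreOutStatement` — TOP decomposition
# (sub-architect helper704; FROZEN Props + PROVED glue)

Official W-EIS spec: `Ribet/H884/EisSpec.lean` (`SlopeProp`, `NodeGen`, `eisSlope_of`).
This file
* adds the hypothesis `NonEisAway p a` to CORE-OUT (`CoreOutNEStatement`; it is FREE for EIS:
  if the eigenvalues are Eisenstein off a finite set, `IsEisMod` is trivial because `p x = 0`),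
  PROVED `eisSlope_of_coreOutNE`;
* splits CORE-OUT into TAME (`x` fixed by `I₁ = {σ ∈ I : σ = 1 on μ_p}`) and WILD (`x` moved by
  some `σ₀ ∈ I₁`), PROVED `coreOutNE_of_tame_wild`;
* freezes the slope dictionary in PURE form (`DictPureStatement`): purity at every closed point
  of the special fibre of the FINITE chart `Bf = chartAlg (x)`, `x = j · j_p`, at ANY good level
  `E` ⟹ `H884.NodeGen` (the cusps are not in `Bf`; `NodeGen` ignores the cusps);
* freezes the Mathlib-only leaves of the WILD node argument: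
  `NodePureTameStatement` (A3), `PureDescentStatement` (A2), `CoverNode2Statement` (A5).

## WILD in one paragraph (levels `E₁ ⊆ E₂` good fields, `E₁` tame: `ζ_p ∈ E₁`, `e = p - 1`;
## `E₂ = E₁(u)`, `u` a unit, `u ^ p ∈ E₁`)
`f₂ ∈ F_{E₂}` Kummer generator of `x`, `f_t ∈ F_{E₁}` of `t`, strongly split; `L₁ = F_{E₁}(h)`,
`h ^ p = f_t`, `L₂ = F_{E₂}(h)`.  PER: `f₂ = lc · f' · b ^ p`, `f' ∈ L₁`, `τ f' = f' u^p G^p`.
Sheets + shift + peu ramifié: `W(f') mod p` depends only on the component ⟹ there is `i` with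
`v₁ ≡ v₂ (mod p)` for `u₁ := f' · D ^ i` at EVERY cover node ring `R' ⊆ L₁`.
At a crossing point `n₂` of the level-`E₂` chart, `n₁ = n₂ ∩ B₁`, `R₁ ⊆ R₂` the chart node rings,
`R' ⊆ R''` cover node rings over them (A5).  (A3): `u₁` is pure in `R'` (thickness prime to `p`).
Purity goes up along `R' → R''` (trivial), `f₂ D^i = lc · u₁ · b^p` is pure in `R''`, and purity
descends along `R₂ ⊆ R''` (A2).  Smooth points: UFD.  Then `DictPure` gives `NodeGen (f D^i)`.
-/





set_option autoImplicit false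
set_option synthInstance.maxHeartbeats 400000
set_option maxHeartbeats 1000000
set_option linter.unusedSectionVars false

noncomputable section

namespace Fermat.Agent.Ribet.H704.CoreOut

open AlgebraicCurve ModularCurve HahnSeries
open Fermat.Agent.S24 Fermat.Agent.A2.H708 Fermat.Agent.A2.H528
open Fermat.Agent.Ribet.Spec Fermat.Agent.Ribet.H944.Wall Fermat.Agent.Ribet.H884
open Fermat.Agent.Ribet.H704

/-! ## TOP: CORE-OUT with the non-Eisenstein hypothesis, TAME / WILD -/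

/-- **CORE-OUT with NE**: `H884.CoreOutStatement` with the additional hypothesis
`NonEisAway p a`. -/
def CoreOutNEStatement : Prop :=
  ∀ (p M' : ℕ) [NeZero M'] [NeZero p] [NeZero (p * M')], p.Prime → 5 ≤ p → ¬ p ∣ M' →
    ∀ A : ValuationSubring Kbar, A.LiesOverPrime p →
    ∀ (S : Finset ℕ) (a : ℕ → ℤ), NonEisAway p a → ∀ x t : JZero (p * M'),
      IsNewTors p M' x → EigenAt (p * M') S a x →
      IsNewTors p M' t → EigenAt (p * M') S a t →
      (∀ σ ∈ A.inertiaSubgroupIn ℚ, ∀ c : ℕ, CycloAt p σ c → σ • t = c • t) →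
      (∀ σ ∈ A.inertiaSubgroupIn ℚ, ∃ n : ℕ, σ • x = x + n • t) →
      (∀ σ : GQ, PeuFixes A p σ → σ • x = x) →
      SlopeProp p M' A x

/-- **TAME**: CORE-OUT for classes fixed by `I₁` (the inertia elements acting trivially on
`μ_p`): `x` is defined over the tame level `K₁ = ℚ̄^{I₁}` (`e = p - 1`), no cover is needed. -/
def TameStatement : Prop :=
  ∀ (p M' : ℕ) [NeZero M'] [NeZero p] [NeZero (p * M')], p.Prime → 5 ≤ p → ¬ p ∣ M' →
    ∀ A : ValuationSubring Kbar, A.LiesOverPrime p →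
    ∀ (S : Finset ℕ) (a : ℕ → ℤ), NonEisAway p a → ∀ x t : JZero (p * M'),
      IsNewTors p M' x → EigenAt (p * M') S a x →
      IsNewTors p M' t → EigenAt (p * M') S a t →
      (∀ σ ∈ A.inertiaSubgroupIn ℚ, ∀ c : ℕ, CycloAt p σ c → σ • t = c • t) →
      (∀ σ ∈ A.inertiaSubgroupIn ℚ, ∃ n : ℕ, σ • x = x + n • t) →
      (∀ σ : GQ, PeuFixes A p σ → σ • x = x) →
      (∀ σ ∈ A.inertiaSubgroupIn ℚ, CycloAt p σ 1 → σ • x = x) →
      SlopeProp p M' A x

/-- **WILD**: CORE-OUT for classes moved by some `σ₀ ∈ I₁`. -/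
def WildStatement : Prop :=
  ∀ (p M' : ℕ) [NeZero M'] [NeZero p] [NeZero (p * M')], p.Prime → 5 ≤ p → ¬ p ∣ M' →
    ∀ A : ValuationSubring Kbar, A.LiesOverPrime p →
    ∀ (S : Finset ℕ) (a : ℕ → ℤ), NonEisAway p a → ∀ x t : JZero (p * M'),
      IsNewTors p M' x → EigenAt (p * M') S a x →
      IsNewTors p M' t → EigenAt (p * M') S a t →
      (∀ σ ∈ A.inertiaSubgroupIn ℚ, ∀ c : ℕ, CycloAt p σ c → σ • t = c • t) →
      (∀ σ ∈ A.inertiaSubgroupIn ℚ, ∃ n : ℕ, σ • x = x + n • t) →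
      (∀ σ : GQ, PeuFixes A p σ → σ • x = x) →
      ∀ σ₀ ∈ A.inertiaSubgroupIn ℚ, CycloAt p σ₀ 1 → σ₀ • x ≠ x →
      SlopeProp p M' A x

/-- CORE-OUT (with NE) from TAME and WILD. -/
theorem coreOutNE_of_tame_wild (hT : TameStatement) (hW : WildStatement) :
    CoreOutNEStatement := by
  intro p M' _ _ _ hp hp5 hpM A hA S a hNE x t hx hex ht het hχ hsh hpeu
  by_cases h : ∀ σ ∈ A.inertiaSubgroupIn ℚ, CycloAt p σ 1 → σ • x = x
  · exact hT p M' hp hp5 hpM A hA S a hNE x t hx hex ht het hχ hsh hpeu h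
  · push Not at h
    obtain ⟨σ₀, hσ₀, hσ₀1, hσ₀x⟩ := h
    exact hW p M' hp hp5 hpM A hA S a hNE x t hx hex ht het hχ hsh hpeu σ₀ hσ₀ hσ₀1 hσ₀x

/-- If the eigenvalues are Eisenstein off a finite set, every `p`-torsion eigenclass has
Eisenstein slopes (trivially: `T_ℓ x - (ℓ + 1) x = 0`). -/
theorem isEisMod_of_not_nonEis (p M' : ℕ) [NeZero (p * M')] (A : ValuationSubring Kbar)
    (S : Finset ℕ) (a : ℕ → ℤ) (hNE : ¬ NonEisAway p a) (x : JZero (p * M'))
    (hpx : p • x = 0) (heig : EigenAt (p * M') S a x) :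
    ∃ S' : Finset ℕ, IsEisMod p M' A S' x := by
  unfold NonEisAway at hNE
  push Not at hNE
  obtain ⟨S₀, hS₀⟩ := hNE
  refine ⟨S ∪ S₀, fun ℓ hℓ => ?_⟩
  have hℓ1 : (ℓ : ℕ) ∉ S := fun h => hℓ (Finset.mem_union_left _ h)
  have hℓ2 : (ℓ : ℕ) ∉ S₀ := fun h => hℓ (Finset.mem_union_right _ h)
  obtain ⟨k, hk⟩ := hS₀ ℓ ℓ.2 hℓ2
  rw [heig ℓ hℓ1]
  have e : a ℓ • x - ((ℓ : ℕ) + 1) • x = (a ℓ - ((ℓ : ℤ) + 1)) • x := by
    have h3 : ((ℓ : ℤ) + 1) = (((ℓ : ℕ) + 1 : ℕ) : ℤ) := by push_cast; ring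
    rw [sub_smul, h3, natCast_zsmul]
  rw [e, hk, mul_smul, natCast_zsmul, smul_comm, hpx, smul_zero]
  exact (finPart p M' A).zero_mem

/-- **EIS from CORE-OUT with NE** and the other W-EIS leaves. -/
theorem eisSlope_of_coreOutNE (hCO : CoreOutNEStatement) (hHF : HeckeFunStatement)
    (hHN : HeckeNodeGenStatement) (hU : UnitEisStatement) (hCP : CuspPurityStatement)
    (hRE : RedExistsStatement) (hRU : RedUniqueStatement) (hRF : RedFieldStatement) :
    EisSlopeStatement := by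
  intro p M' _ _ _ hp hp5 hpM A hA S a x t hx hex ht het hχ hsh hpeu
  by_cases hNE : NonEisAway p a
  · exact ⟨(p * M').primeFactors,
      isEisMod_of_slopeProp hHF hHN hU hCP hRE hRU hRF p M' hp hpM A hA x
        (hCO p M' hp hp5 hpM A hA S a hNE x t hx hex ht het hχ hsh hpeu)⟩
  · exact isEisMod_of_not_nonEis p M' A S a hNE x hx.1 hex

/-! ## DICT in PURE form (chart level, any good level `E`) -/

section Dict

open Fermat.Agent.A2.Mod

/-- `G ∈ F_{E}` (level `M' * p`) is **pure at the closed point `n`** of the finite chart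
`Bf = chartAlg (x)`, `x = j · j_p`: `G = w ^ (-a) · ε · d ^ (-p)` with `ε` a unit of `(Bf)_n`
(`d` need not be a unit on the components). -/
def PureAtPt (A : ValuationSubring Kbar) (E : IntermediateField ℚ Kbar) (M' p : ℕ) [NeZero M']
    [NeZero p] (w : RE A E) (G : FE E (M' * p))
    (n : Ideal (chartAlg A E (M' * p) (xE E M' p))) : Prop :=
  ∃ (d : FE E (M' * p)) (a : ℤ), d ≠ 0 ∧
    Fermat.Agent.A2.Alg.LocUnit (chartAlg A E (M' * p) (xE E M' p)) n
      (G * (cE A E (M' * p) w) ^ a * d ^ p)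

/-- `G` is pure at every closed point of the special fibre of the finite chart. -/
def ChartPure (A : ValuationSubring Kbar) (E : IntermediateField ℚ Kbar) (M' p : ℕ) [NeZero M']
    [NeZero p] (w : RE A E) (G : FE E (M' * p)) : Prop :=
  ∀ n : Ideal (chartAlg A E (M' * p) (xE E M' p)), n.IsMaximal →
    algebraMap (RE A E) (chartAlg A E (M' * p) (xE E M' p)) w ∈ n → PureAtPt A E M' p w G n

/-- **DICT (pure form).**  `E` a good level, `G ∈ F_E` of level `M' p` pure at every closed point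
of the special fibre of the finite chart; then `G`, as an element of `FF (p * M')`
(same `t`-expansion), satisfies `H884.NodeGen`: both reductions lie in `k(X₀(M'))` and have
`p`-divisible orders at the non-cuspidal places.
(Non-cuspidal places of `C∞`, `C₀` ↔ closed points of `Bf` on `p₁`, `p₂`: `x̄ = j̄^(p+1)` on `C∞`
and `x̄ = (w_{M'} j̄)^(p+1)` on `C₀`; `G w^a d^p = ε` gives `ρ(G₀) = ρ(ε) ρ(d₀)^(-p)` for the
reduction `ρ` on either component.  Core: `H280.PureFinCore`.) -/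
def DictPureStatement : Prop :=
  ∀ (p M' : ℕ) [NeZero M'] [NeZero p] [NeZero (p * M')], p.Prime → ¬ p ∣ M' →
    ∀ (A : ValuationSubring Kbar), A.LiesOverPrime p →
    ∀ (E : IntermediateField ℚ Kbar) (w : RE A E), Setting A E M' p w →
      Fermat.Agent.A2.GoodField A E →
    ∀ (G : FE E (M' * p)) (G' : FF (p * M')), G ≠ 0 →
      (G' : LaurentSeries Kbar) = coeffMap (algebraMap E Kbar) (G : LaurentSeries E) →
      ChartPure A E M' p w G → NodeGen p M' A G'

end Dict

/-! ## Mathlib-only leaves of the WILD node argument -/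

section Abstract

open I6

/-- **(A3) NODE-PURE, tame thickness.**  Node ring with a unit pair of exponent `N` prime to `m`,
`u ∈ Kˣ` horizontally `m`-divisible with `v₁(u) ≡ v₂(u) (mod m)`.  Then `u = π ^ a · ε · d ^ m`,
`ε ∈ Rˣ`.
(Normalise by `π ^ v₁` and a power of `z = π + x ^ 2` (`v₁ z = 0`, `v₂ z = 1`); then
`H403.nodeRelVal_403` gives `m ∣ slope`, and `H868.nodePure` concludes.) -/
def NodePureTameStatement : Prop :=
  ∀ (R K : Type) [CommRing R] [IsDomain R] [IsIntegrallyClosed R] [IsNoetherianRing R]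
    [IsLocalRing R] [Field K] [Algebra R K] [IsFractionRing R K]
    (𝔭₁ 𝔭₂ : Ideal R) (π x y : R), IsNode 𝔭₁ 𝔭₂ π x y →
    ∀ (m N : ℕ), m ≠ 0 → Nat.Coprime N m → ∀ D D' : R, IsUnitPair 𝔭₁ 𝔭₂ π D D' N →
    ∀ (u : K), u ≠ 0 → HorDivVal K π m u →
    ∀ (v₁ v₂ : ℤ), ValAt K 𝔭₁ π u v₁ → ValAt K 𝔭₂ π u v₂ → (m : ℤ) ∣ v₁ - v₂ →
      ∃ (d : K) (a : ℤ) (ε : R), d ≠ 0 ∧ IsUnit ε ∧
        u = algebraMap R K π ^ a * algebraMap R K ε * d ^ m

/-- **(A2) PURE-DESCENT.**  `R ⊆ R'` node rings as in the conclusion of `CoverNodeStatement`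
(`R' ⊆ L`, same `π, x, y`, branches `𝔭ᵢ R'` lying over `𝔭ᵢ`; ANY thickness).  A horizontally
`m`-divisible `u ∈ K = Frac R` which is pure in `R'` is pure in `R`.
(Purity in `R'` ⟹ valuations and slopes of `u` in `R'` are `≡ 0 (mod m)`; they are the
valuations and slopes in `R` (`H132.NodeVal`); normalise and apply `H868.nodePure_both`.) -/
def PureDescentStatement : Prop :=
  ∀ (R K L : Type) [CommRing R] [IsDomain R] [IsIntegrallyClosed R] [IsNoetherianRing R]
    [IsLocalRing R] [Field K] [Algebra R K] [IsFractionRing R K] [Field L] [Algebra K L]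
    [Algebra R L] [IsScalarTower R K L]
    (𝔭₁ 𝔭₂ : Ideal R) (π x y : R), IsNode 𝔭₁ 𝔭₂ π x y →
    ∀ (R' : Subalgebra R L) (_ : IsLocalRing R'),
      IsIntegrallyClosed R' → IsNoetherianRing R' → IsFractionRing R' L →
      IsNode (𝔭₁.map (algebraMap R R')) (𝔭₂.map (algebraMap R R')) (algebraMap R R' π)
        (algebraMap R R' x) (algebraMap R R' y) →
      (∀ a : R, algebraMap R R' a ∈ 𝔭₁.map (algebraMap R R') → a ∈ 𝔭₁) →
      (∀ a : R, algebraMap R R' a ∈ 𝔭₂.map (algebraMap R R') → a ∈ 𝔭₂) →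
    ∀ (m : ℕ), m ≠ 0 → ∀ u : K, u ≠ 0 → HorDivVal K π m u →
      (∃ (d : L) (a : ℤ) (ε : R'), d ≠ 0 ∧ IsUnit ε ∧
        algebraMap K L u = algebraMap R L π ^ a * (ε : L) * d ^ m) →
      ∃ (d : K) (a : ℤ) (ε : R), d ≠ 0 ∧ IsUnit ε ∧
        u = algebraMap R K π ^ a * algebraMap R K ε * d ^ m

/-- **(A5) COVER-NODE, two levels.**  `R₁ ⊆ R₂` node rings (the local rings of the charts of
levels `E₁ ⊆ E₂` at a crossing point `n₂` and at `n₁ = n₂ ∩ B₁`), branches of `R₂` lying over the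
branches of `R₁`; `g ∈ R₁` as in `CoverNodeStatement` at level `1`; `L₁ = K₁(h)`, `L₂ = K₂(h)`,
`h ^ p = g`.  Then there are node rings `R' ⊆ L₁` over `R₁` and `R'' ⊆ L₂` over `R₂`, both as in
the conclusion of `CoverNodeStatement`, with `R' ⊆ R''`.
(Same Artin–Schreier generator `Y` of `H524.wildPurity524` on both levels; `R'' = R₂[Y]_{𝔫₂}`,
`R' = R₁[Y]_{𝔫₁}`, `𝔫₁ = 𝔫₂ ∩ R₁[Y]`, which is maximal because it lies over the maximal ideal of
`R₁` and `R₁[Y]` is integral over `R₁`; `H132.exists_nodeRing_of_etale` for a GIVEN maximal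
ideal.) -/
def CoverNode2Statement : Prop :=
  ∀ (R₁ R₂ K₁ K₂ L₁ L₂ : Type)
    [CommRing R₁] [IsDomain R₁] [IsIntegrallyClosed R₁] [IsNoetherianRing R₁] [IsLocalRing R₁]
    [CommRing R₂] [IsDomain R₂] [IsIntegrallyClosed R₂] [IsNoetherianRing R₂] [IsLocalRing R₂]
    [Field K₁] [Algebra R₁ K₁] [IsFractionRing R₁ K₁]
    [Field K₂] [Algebra R₂ K₂] [IsFractionRing R₂ K₂]
    [Field L₁] [Algebra K₁ L₁] [Algebra R₁ L₁] [IsScalarTower R₁ K₁ L₁]
    [Field L₂] [Algebra K₂ L₂] [Algebra R₂ L₂] [IsScalarTower R₂ K₂ L₂]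
    [Algebra R₁ R₂] [Algebra L₁ L₂] [Algebra R₁ L₂] [IsScalarTower R₁ R₂ L₂]
    [IsScalarTower R₁ L₁ L₂]
    (𝔭₁ 𝔭₂ : Ideal R₁) (π₁ x₁ y₁ : R₁), IsNode 𝔭₁ 𝔭₂ π₁ x₁ y₁ →
    ∀ (𝔮₁ 𝔮₂ : Ideal R₂) (π₂ x₂ y₂ : R₂), IsNode 𝔮₁ 𝔮₂ π₂ x₂ y₂ →
    IsAlgClosed (IsLocalRing.ResidueField R₁) → IsAlgClosed (IsLocalRing.ResidueField R₂) →
    Function.Injective (algebraMap R₁ R₂) →
    (∀ a : R₁, algebraMap R₁ R₂ a ∈ 𝔮₁ ↔ a ∈ 𝔭₁) →
    (∀ a : R₁, algebraMap R₁ R₂ a ∈ 𝔮₂ ↔ a ∈ 𝔭₂) →
    ∀ (p : ℕ), p.Prime → ∀ ζ : R₁, IsPrimitiveRoot ζ p →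
    ∀ (lam ε η : R₁) (e : ℕ), lam = ζ - 1 → IsUnit ε → lam ^ (p - 1) = (p : R₁) * ε →
      IsUnit η → 0 < e → lam = η * π₁ ^ e →
    ∀ g : R₁, g ∉ 𝔭₁ → g ∉ 𝔭₂ → HorDiv π₁ p g →
      (∀ k : ℕ, ∃ h r t : R₁, r ∉ 𝔭₁ ∧ g * r ^ p - h ^ p = π₁ ^ k * t) →
      (∀ k : ℕ, ∃ h r t : R₁, r ∉ 𝔭₂ ∧ g * r ^ p - h ^ p = π₁ ^ k * t) →
    ∀ h : L₁, h ^ p = algebraMap R₁ L₁ g → IntermediateField.adjoin K₁ ({h} : Set L₁) = ⊤ →
      IntermediateField.adjoin K₂ ({algebraMap L₁ L₂ h} : Set L₂) = ⊤ →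
    ∃ (R' : Subalgebra R₁ L₁) (R'' : Subalgebra R₂ L₂) (_ : IsLocalRing R')
      (_ : IsLocalRing R''),
      (IsIntegrallyClosed R' ∧ IsNoetherianRing R' ∧ IsFractionRing R' L₁ ∧
        IsNode (𝔭₁.map (algebraMap R₁ R')) (𝔭₂.map (algebraMap R₁ R')) (algebraMap R₁ R' π₁)
          (algebraMap R₁ R' x₁) (algebraMap R₁ R' y₁) ∧
        (∀ a : R₁, algebraMap R₁ R' a ∈ 𝔭₁.map (algebraMap R₁ R') → a ∈ 𝔭₁) ∧
        (∀ a : R₁, algebraMap R₁ R' a ∈ 𝔭₂.map (algebraMap R₁ R') → a ∈ 𝔭₂)) ∧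
      (IsIntegrallyClosed R'' ∧ IsNoetherianRing R'' ∧ IsFractionRing R'' L₂ ∧
        IsNode (𝔮₁.map (algebraMap R₂ R'')) (𝔮₂.map (algebraMap R₂ R'')) (algebraMap R₂ R'' π₂)
          (algebraMap R₂ R'' x₂) (algebraMap R₂ R'' y₂) ∧
        (∀ a : R₂, algebraMap R₂ R'' a ∈ 𝔮₁.map (algebraMap R₂ R'') → a ∈ 𝔮₁) ∧
        (∀ a : R₂, algebraMap R₂ R'' a ∈ 𝔮₂.map (algebraMap R₂ R'') → a ∈ 𝔮₂)) ∧
      ∀ z : L₁, z ∈ R' → algebraMap L₁ L₂ z ∈ R''

end Abstract

end Fermat.Agent.Ribet.H704.CoreOut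

end
end
-- ===== PACK-END Ribet/H704/CoreOutSpec.lean

-- ===== PACK-BEGIN Ribet/H399/CuspTheta.lean
section






/-!
# Row 38, W-EIS leaf CUSP, piece (II) (helper399): the reduction map `θ : V∞ → k((t))`

`A` a valuation subring of `ℚ̄` over `p`, `k = kA A`; `E ⊆ ℚ̄` a level with `R_E = A ∩ E`,
`V = V∞` the Gauss valuation ring of `F_{N,E}` (`Mod.IsVinf`).

* `thetaHom hV : ↥V →+* LaurentSeries (kA A)` : `f ↦` reduction of the `t`-expansion of `f`
  (`H553.redA` of the coefficientwise inclusion into `ℚ̄((t))`);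
* `thetaHom_eq_zero_iff` : the kernel is `w V` (`Mod.InW`);
* `isRedSer_thetaHom` : if `θ f ≠ 0` then `θ f` is a reduction (`H997.IsRedSer`) of `f`;
* `thetaHom_const`, `thetaHom_jE` : values on constants and on the generators `j_d`.
-/

set_option autoImplicit false
set_option linter.unusedSectionVars false
set_option linter.style.haveILetI false
set_option synthInstance.maxHeartbeats 400000
set_option maxHeartbeats 1600000

noncomputable section

namespace Fermat.Agent.Ribet.H399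

open AlgebraicCurve ModularCurve HahnSeries
open Fermat.Agent.S24 Fermat.Agent.A2.H708
open Fermat.Agent.Ribet.H884 Fermat.Agent.Ribet.H997
open Fermat.Agent.A2 Fermat.Agent.S28.H86

variable {A : ValuationSubring Kbar} {E : IntermediateField ℚ Kbar} {N : ℕ}

/-! ## Series level -/

/-- the `H708` normal-form data give membership in the Gauss ring of `H553`. -/
theorem mem_gaussA_of_incl {z : LaurentSeries Kbar} {U₁ U₂ : LaurentSeries A}
    (h₂ : red A U₂ ≠ 0) (he : z * incl A U₂ = incl A U₁) : z ∈ H553.gaussA A :=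
  ⟨U₁, U₂, h₂, he⟩

theorem redA_eq_of_incl {z : LaurentSeries Kbar} {U₁ U₂ : LaurentSeries A}
    (h₂ : red A U₂ ≠ 0) (he : z * incl A U₂ = incl A U₁) (hz : z ∈ H553.gaussA A) :
    H553.redA A ⟨z, hz⟩ = red A U₁ / red A U₂ :=
  H553.redA_eq ⟨z, hz⟩ U₁ U₂ h₂ he

theorem exists_incl_of_mem_gaussA {z : LaurentSeries Kbar} (hz : z ∈ H553.gaussA A) :
    ∃ U₁ U₂ : LaurentSeries A, red A U₂ ≠ 0 ∧ z * incl A U₂ = incl A U₁ := hz

/-- an element of the Gauss ring with nonzero reduction: the reduction is a reduction in the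
sense of `H997.IsRedSer`. -/
theorem isRedSer_redA {z : LaurentSeries Kbar} (hz : z ∈ H553.gaussA A)
    (h0 : H553.redA A ⟨z, hz⟩ ≠ 0) : IsRedSer A z (H553.redA A ⟨z, hz⟩) := by
  obtain ⟨U₁, U₂, h₂, he⟩ := exists_incl_of_mem_gaussA hz
  have hr := redA_eq_of_incl h₂ he hz
  have h₁ : red A U₁ ≠ 0 := by
    intro h
    rw [hr, h, zero_div] at h0
    exact h0 rfl
  refine ⟨1, U₁, U₂, one_ne_zero, h₁, h₂, ?_, ?_⟩
  · rw [he, cst_one, one_mul]
  · rw [hr, div_mul_cancel₀ _ h₂]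

/-- the coefficientwise inclusion of a Gauss-integral series over `R_E` lies in the Gauss ring
of `A`. -/
theorem coeffMap_mem_gaussA {f : LaurentSeries E}
    (hf : IsGaussInt (Mod.RE A E) (modularFunctionFieldFull N) f) :
    coeffMap (algebraMap E Kbar) f ∈ H553.gaussA A := by
  obtain ⟨U₁, U₂, h0, -, he⟩ := hf
  refine mem_gaussA_of_incl (U₁ := upA A E U₁) (U₂ := upA A E U₂) (red_upA_ne_zero E h0) ?_
  have := congrArg (coeffMap (algebraMap E Kbar)) he
  rw [map_mul, ← incl_upA, ← incl_upA] at this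
  exact this

/-! ## The reduction map on `V∞` -/

section Theta

variable {V : ValuationSubring (Mod.FE E N)}

/-- the coefficientwise inclusion `V∞ → gaussA A`. -/
def thetaPre (hV : Mod.IsVinf A E N V) : ↥V →+* ↥(H553.gaussA A) where
  toFun f := ⟨coeffMap (algebraMap E Kbar) ((f : Mod.FE E N) : LaurentSeries E),
    coeffMap_mem_gaussA ((hV f).mp f.2)⟩
  map_one' := Subtype.ext (map_one _)
  map_mul' _ _ := Subtype.ext (map_mul _ _ _)
  map_zero' := Subtype.ext (map_zero _)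
  map_add' _ _ := Subtype.ext (map_add _ _ _)

/-- **The reduction map** `θ : V∞ → k((t))`. -/
def thetaHom (hV : Mod.IsVinf A E N V) : ↥V →+* LaurentSeries (kA A) :=
  (H553.redA A).comp (thetaPre hV)

theorem thetaHom_apply (hV : Mod.IsVinf A E N V) (f : V) :
    thetaHom hV f = H553.redA A ⟨coeffMap (algebraMap E Kbar)
      ((f : Mod.FE E N) : LaurentSeries E), coeffMap_mem_gaussA ((hV f).mp f.2)⟩ := rfl

/-- if `θ f ≠ 0`, then `θ f` is a reduction of (the `t`-expansion over `ℚ̄` of) `f`. -/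
theorem isRedSer_thetaHom (hV : Mod.IsVinf A E N V) (f : V) (h0 : thetaHom hV f ≠ 0) :
    IsRedSer A (coeffMap (algebraMap E Kbar) ((f : Mod.FE E N) : LaurentSeries E))
      (thetaHom hV f) :=
  isRedSer_redA _ h0

/-- value on an `R_E`-integral series. -/
theorem thetaHom_of_incl (hV : Mod.IsVinf A E N V) (f : V) (U : LaurentSeries (Mod.RE A E))
    (hU : ((f : Mod.FE E N) : LaurentSeries E) = incl (Mod.RE A E) U) :
    thetaHom hV f = red A (upA A E U) := by
  rw [thetaHom_apply]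
  have he : coeffMap (algebraMap E Kbar) ((f : Mod.FE E N) : LaurentSeries E) *
      incl A (1 : LaurentSeries A) = incl A (upA A E U) := by
    rw [map_one, mul_one, hU, incl_upA]
  have h1 : red A (1 : LaurentSeries A) ≠ 0 := by
    rw [map_one]
    exact one_ne_zero
  rw [redA_eq_of_incl h1 he, map_one, div_one]

/-- value on a constant of `R_E`. -/
theorem thetaHom_const (hV : Mod.IsVinf A E N V) (r : Mod.RE A E)
    (hr : Mod.cE A E N r ∈ V) :
    thetaHom hV ⟨Mod.cE A E N r, hr⟩ = HahnSeries.C (IsLocalRing.residue A (toA' A E r)) := by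
  have hU : (((⟨Mod.cE A E N r, hr⟩ : V) : Mod.FE E N) : LaurentSeries E) =
      incl (Mod.RE A E) (cstA (Mod.RE A E) r) := by
    rw [incl_cstA]
    rfl
  rw [thetaHom_of_incl hV _ _ hU, upA_cstA, red_cstA]
  rfl

/-- the uniformiser reduces to `0`. -/
theorem thetaHom_unif (hV : Mod.IsVinf A E N V) {w : Mod.RE A E} (hw : Irreducible w)
    (hwV : Mod.cE A E N w ∈ V) : thetaHom hV ⟨Mod.cE A E N w, hwV⟩ = 0 := by
  rw [thetaHom_const]
  have : IsLocalRing.residue A (toA' A E w) = 0 := by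
    rw [residue_eq_zero_iff_not_isUnit', isUnit_toA'_iff]
    exact hw.not_isUnit
  rw [this, map_zero]

/-- value on the generator `j_d`. -/
theorem thetaHom_jE (hV : Mod.IsVinf A E N V) (d : ℕ) [NeZero d] (hd : d ∣ N)
    (hj : Mod.jE E N d hd ∈ V) :
    thetaHom hV ⟨Mod.jE E N d hd, hj⟩ = qExpand (kA A) d (jqModC (kA A)) := by
  have hU : (((⟨Mod.jE E N d hd, hj⟩ : V) : Mod.FE E N) : LaurentSeries E) =
      incl (Mod.RE A E) (castA (Mod.RE A E) (jInt d)) :=
    Mod.H708.coe_jE_eq (P := A) (E := E) N d hd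
  rw [thetaHom_of_incl hV _ _ hU]
  have h1 : upA A E (castA (Mod.RE A E) (jInt d)) = coeffMap (Int.castRingHom A) (jqNModC ℤ d) := by
    show coeffMap (toA' A E) (coeffMap (Int.castRingHom (Mod.RE A E)) (jInt d)) = _
    rw [coeffMap_coeffMap]
    have : (toA' A E).comp (Int.castRingHom (Mod.RE A E)) = Int.castRingHom A :=
      RingHom.ext_int _ _
    rw [this]
    rfl
  rw [h1]
  exact Mod.H96.red_castA_jqNModC A d

/-- **The kernel of `θ` is the maximal ideal of `V∞`.** -/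
theorem thetaHom_eq_zero_iff (hV : Mod.IsVinf A E N V) {w : Mod.RE A E} (hw : Irreducible w)
    (hu : H48.IsUnif V (Mod.cE A E N w)) (f : V) :
    thetaHom hV f = 0 ↔ (f : Mod.FE E N)⁻¹ ∉ V ∨ (f : Mod.FE E N) = 0 := by
  constructor
  · intro h0
    by_contra hcon
    push Not at hcon
    obtain ⟨hinv, hf0⟩ := hcon
    have h1 : f * ⟨(f : Mod.FE E N)⁻¹, hinv⟩ = (1 : V) := Subtype.ext (mul_inv_cancel₀ hf0)
    have h2 := congrArg (thetaHom hV) h1
    rw [map_mul, h0, zero_mul, map_one] at h2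
    exact zero_ne_one h2
  · rintro (h | h)
    · have hg : (f : Mod.FE E N) * (Mod.cE A E N w)⁻¹ ∈ V := hu.gen _ f.2 h
      have h1 : f = ⟨Mod.cE A E N w, hu.mem⟩ * ⟨(f : Mod.FE E N) * (Mod.cE A E N w)⁻¹, hg⟩ := by
        apply Subtype.ext
        show (f : Mod.FE E N) = Mod.cE A E N w * ((f : Mod.FE E N) * (Mod.cE A E N w)⁻¹)
        rw [mul_comm (f : Mod.FE E N), ← mul_assoc, mul_inv_cancel₀ hu.ne_zero, one_mul]
      rw [h1, map_mul, thetaHom_unif hV hw, zero_mul]
    · have : f = 0 := Subtype.ext h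
      rw [this, map_zero]

theorem thetaHom_ne_zero_of_inv_mem (hV : Mod.IsVinf A E N V) (f : V)
    (hinv : (f : Mod.FE E N)⁻¹ ∈ V) (hf0 : (f : Mod.FE E N) ≠ 0) : thetaHom hV f ≠ 0 := by
  intro h0
  have h1 : f * ⟨(f : Mod.FE E N)⁻¹, hinv⟩ = (1 : V) := Subtype.ext (mul_inv_cancel₀ hf0)
  have h2 := congrArg (thetaHom hV) h1
  rw [map_mul, h0, zero_mul, map_one] at h2
  exact zero_ne_one h2

end Theta

/-! ## Level `M * p`: `θ` has values in `k(X₀(M))` -/

section Level

variable {M p : ℕ} [NeZero M] [NeZero p] {V : ValuationSubring (Mod.FE E (M * p))}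

theorem thetaHom_mem_fullC (hp : p.Prime) (hpM : ¬ p ∣ M) (hA : A.LiesOverPrime p)
    (hV : Mod.IsVinf A E (M * p) V) (f : V) :
    thetaHom hV f ∈ modularFunctionFieldFullC (kA A) M := by
  by_cases h0 : thetaHom hV f = 0
  · rw [h0]
    exact zero_mem _
  · have h1 := isRedSer_thetaHom hV f h0
    refine isRedSer_mem_of_level_mul hp hpM hA ?_ h1
    exact Fermat.Agent.S18.H602.coeffMap_mem_laurentBaseChange
      (modularFunctionFieldFull (M * p)) _ (f : Mod.FE E (M * p)).2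

/-- **The reduction map with values in `k(X₀(M))`.** -/
def thetaK (hp : p.Prime) (hpM : ¬ p ∣ M) (hA : A.LiesOverPrime p)
    (hV : Mod.IsVinf A E (M * p) V) : ↥V →+* ↥(modularFunctionFieldFullC (kA A) M) :=
  (thetaHom hV).codRestrict (modularFunctionFieldFullC (kA A) M).toSubring
    (fun f => thetaHom_mem_fullC hp hpM hA hV f)

theorem coe_thetaK (hp : p.Prime) (hpM : ¬ p ∣ M) (hA : A.LiesOverPrime p)
    (hV : Mod.IsVinf A E (M * p) V) (f : V) :
    ((thetaK hp hpM hA hV f : modularFunctionFieldFullC (kA A) M) : LaurentSeries (kA A)) =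
      thetaHom hV f := rfl

end Level

end Fermat.Agent.Ribet.H399

end

end
-- ===== PACK-END Ribet/H399/CuspTheta.lean

-- ===== PACK-BEGIN Ribet/H399/CuspCore.lean
section


















/-!
# Row 38, W-EIS leaf CUSP (helper399): the one-sided core at a good level `E`

`p ≥ 5` prime, `p ∤ M`, `A` over `p`, `E` a good level (`A2.GoodField A E`), `y ∈ F_{Mp,E}` with
`A2.DivisibleDiv E m y` (`m` arbitrary).  Then `y` has a reduction `r ∈ k(X₀(M))` on `C∞` with
`m ∣ ord_Q r` at every CUSPIDAL place `Q` (`ord_Q j < 0`).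

Proof: the chart at infinity `Bi` of the level-`Mp` model (coordinate `1/x`, `x = j j_p`);
`θ : V∞ → k(X₀(M))` (`CuspTheta`); the point `n_Q = θ⁻¹(𝔪_Q) ∩ Bi` (`Dict.pointOfPlace`, helper280) is a
closed point (`isMaximal_of_coord_mem`) on `p₁ = Bi ∩ w V∞`, not on `p₂` (`NoNode.no_node_at_infinity`, helper153: cusps
are not nodes); one-sided purity at the smooth point `n_Q` (`pure_smooth_one_chart`); and
`Dict.dvd_ord_of_locUnit`.
-/

set_option autoImplicit false
set_option linter.unusedSectionVars false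
set_option linter.style.haveILetI false
set_option linter.unusedVariables false
set_option synthInstance.maxHeartbeats 400000
set_option maxHeartbeats 3200000

noncomputable section

namespace Fermat.Agent.Ribet.H399

open AlgebraicCurve ModularCurve HahnSeries
open Fermat.Agent.S24 Fermat.Agent.A2.H708
open Fermat.Agent.Ribet.H884 Fermat.Agent.Ribet.H997
open Fermat.Agent.A2 Fermat.Agent.S28.H86

/-- `IsRedSer` is insensitive to nonzero constant factors. -/
theorem isRedSer_cst_mul {A : ValuationSubring Kbar} {z : LaurentSeries Kbar}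
    {r : LaurentSeries (kA A)} (h : IsRedSer A z r) {c : Kbar} (hc : c ≠ 0) :
    IsRedSer A (cst c * z) r := by
  obtain ⟨c₀, U₁, U₂, hc₀, h₁, h₂, he, hr⟩ := h
  refine ⟨c * c₀, U₁, U₂, mul_ne_zero hc hc₀, h₁, h₂, ?_, hr⟩
  rw [mul_assoc, he, H708.cst_mul, mul_assoc]

theorem coe_algebraMap_fullC (k : Type) [Field k] (M : ℕ) (c : k) :
    ((algebraMap k (modularFunctionFieldFullC k M) c : modularFunctionFieldFullC k M) :
      LaurentSeries k) = HahnSeries.C c := by
  have h0 : ((algebraMap k (modularFunctionFieldFullC k M) c :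
      modularFunctionFieldFullC k M) : LaurentSeries k) = algebraMap k (LaurentSeries k) c := rfl
  have h1 : algebraMap k (PowerSeries k) c = PowerSeries.C c := by simp
  rw [h0, HahnSeries.algebraMap_apply', h1, HahnSeries.ofPowerSeries_C]

section Core

variable {M p : ℕ} [NeZero M] [NeZero p] {A : ValuationSubring Kbar}
  {E : IntermediateField ℚ Kbar}

/-- elements of the chart outside `p₁ = Bi ∩ w V∞` are units of `V∞`. -/
theorem inv_mem_of_not_mem_cut {N : ℕ} {w : Mod.RE A E} {V : ValuationSubring (Mod.FE E N)}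
    (hu : H48.IsUnif V (Mod.cE A E N w)) {B : Subalgebra (Mod.RE A E) (Mod.FE E N)}
    {p₁ : Ideal B} (hc : Mod.IsCut A E N w V B p₁) (hBV : ∀ b : B, (b : Mod.FE E N) ∈ V)
    {b : B} (hb : b ∉ p₁) : ((b : Mod.FE E N))⁻¹ ∈ V := by
  by_contra hinv
  apply hb
  rw [hc b]
  exact hu.gen _ (hBV b) hinv

/-- **The one-sided core at a good level.** -/
theorem cusp_core_E (hp : p.Prime) (hp5 : 5 ≤ p) (hpM : ¬ p ∣ M)
    (hA : A.LiesOverPrime p) (hE : GoodField A E) (m : ℕ) (hm : 0 < m)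
    (y : Mod.FE E (M * p)) (hy0 : y ≠ 0) (hdiv : DivisibleDiv E m y)
    (Q : Place (kA A) (modularFunctionFieldFullC (kA A) M))
    (hQ : Q.ord (jC (kA A) M) < 0) :
    ∃ r : modularFunctionFieldFullC (kA A) M,
      IsRedSer A (coeffMap (algebraMap E Kbar) ((y : Mod.FE E (M * p)) : LaurentSeries E))
        (r : LaurentSeries (kA A)) ∧ (m : ℤ) ∣ Q.ord r := by
  classical
  haveI hdvr : IsDiscreteValuationRing (Mod.RE A E) := hE.dvr
  obtain ⟨w, hw⟩ := IsDiscreteValuationRing.exists_irreducible (Mod.RE A E)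
  have hM0 : M ≠ 0 := NeZero.ne M
  have hN : M * p ≠ 0 := Nat.mul_ne_zero hM0 hp.ne_zero
  have hSet : Mod.Setting A E M p w := ⟨hp, hpM, hM0, hA, hdvr, hw⟩
  obtain ⟨VM, hVM⟩ := Mod.H553.vinfExists A E M hM0 hdvr
  obtain ⟨V, hV⟩ := Mod.H553.vinfExists A E (M * p) hN hdvr
  obtain ⟨W, hW⟩ := Mod.H751.frickeExists E (M * p) hN
  obtain ⟨hu, hconstV, hjV⟩ := Mod.H708.vinfBasic A E w (M * p) hN hdvr hw V hV
  -- the chart at infinity
  set Bi := Mod.chartAlg A E (M * p) (Mod.xE E M p)⁻¹ with hBi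
  have hS1 : Mod.S1Statement A E M p w :=
    Mod.H13.s1 (Mod.H553.vzeroNe A E M p w) (Mod.H31.deg E M p) (Mod.H753.indInf A E M p w)
      (Mod.H753.indZero A E M p w)
  obtain ⟨p₁, p₂, hc₁, hc₂, hp₁, hp₂, h₁₂, h₂₁, hinf⟩ :=
    hS1 hSet V W hV hW (Mod.xE E M p)⁻¹ (Or.inr rfl)
  have hgood : Mod.GoodRedHyp A E M :=
    Top.H216.goodRedStatement A E M p hp hpM (fun h => by omega) (fun h => by omega) hA hE
  obtain ⟨-, hg2⟩ := hgood w VM hw hVM
  obtain ⟨hn₁, -⟩ := Mod.H142.s2 A E M p w hSet VM V W hVM hV hW _ _ (Or.inr ⟨rfl, rfl⟩) hg2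
    p₁ p₂ hc₁ hc₂
  obtain ⟨htr, hfr, hconst⟩ := Mod.H31.deg E M p hp hpM
  have hpos : 0 < Module.finrank
      (IntermediateField.adjoin E ({Mod.xE E M p} : Set (Mod.FE E (M * p))))
      (Mod.FE E (M * p)) := by
    rw [hfr]
    have h1 := Mod.dedekindPsi_pos_of_ne_zero M hM0
    positivity
  have hfin : FiniteDimensional
      (IntermediateField.adjoin E ({Mod.xE E M p} : Set (Mod.FE E (M * p))))
      (Mod.FE E (M * p)) := Module.finite_of_finrank_pos hpos
  have hCtx : Alg.ChartCtx E w (Mod.xE E M p)⁻¹ (Mod.chartAlg A E (M * p) (Mod.xE E M p)⁻¹) :=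
    Alg.H34.chartCtx_inv w hw (Mod.xE E M p) htr hfin hconst _ (fun _ => Iff.rfl)
  -- `Bi ⊆ V`
  have hRV : ∀ r : Mod.RE A E, algebraMap (Mod.RE A E) (Mod.FE E (M * p)) r ∈ V := fun r =>
    (hconstV (r : E)).mpr r.2
  have hj1 := hjV 1 (one_dvd _)
  have hjp := hjV p (dvd_mul_left p M)
  have hxV : Mod.xE E M p ∈ V := V.mul_mem _ _ hj1.1 hjp.1
  have hxinvV : (Mod.xE E M p)⁻¹ ∈ V := by
    have e : (Mod.xE E M p)⁻¹ = (Mod.jE E (M * p) 1 (one_dvd _))⁻¹ *
        (Mod.jE E (M * p) p (dvd_mul_left p M))⁻¹ := by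
      rw [Mod.xE, mul_inv]
    rw [e]
    exact V.mul_mem _ _ hj1.2 hjp.2
  have hBV : ∀ b : Bi, (b : Mod.FE E (M * p)) ∈ V := fun b =>
    Mod.H142.mem_valuationSubring_of_isIntegral_adjoin V hRV hxinvV b.2
  -- the reduction map
  set θ := thetaK hp hpM hA hV with hθ
  haveI hchar : CharP (kA A) p := (Fermat.Agent.Ribet.H939.resField p hp A hA).2
  have hθj : θ ⟨_, hj1.1⟩ = jC (kA A) M := by
    apply Subtype.ext
    rw [coe_thetaK, thetaHom_jE]
    exact qExpand_one_apply _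
  have hθjp : θ ⟨_, hjp.1⟩ = jC (kA A) M ^ p := by
    apply Subtype.ext
    rw [coe_thetaK, thetaHom_jE]
    have h1 := Mod.H96.jqd_pow_char (kA A) p hp 1
    rw [qExpand_one_apply] at h1
    rw [← h1]
    rfl
  have hj0 : jC (kA A) M ≠ 0 := by
    intro h
    rw [h, Place.ord_zero] at hQ
    exact lt_irrefl _ hQ
  have hθx : θ ⟨_, hxV⟩ = jC (kA A) M ^ (p + 1) := by
    have e : (⟨Mod.xE E M p, hxV⟩ : V) = ⟨_, hj1.1⟩ * ⟨_, hjp.1⟩ := rfl
    rw [e, map_mul, hθj, hθjp, pow_succ, mul_comm]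
  have hθxinv : θ ⟨_, hxinvV⟩ = (jC (kA A) M ^ (p + 1))⁻¹ := by
    have hx0 : Mod.xE E M p ≠ 0 := by
      intro h0
      rw [h0] at htr
      exact htr (isAlgebraic_zero)
    have e : (⟨Mod.xE E M p, hxV⟩ : V) * ⟨_, hxinvV⟩ = 1 := Subtype.ext (mul_inv_cancel₀ hx0)
    have h1 := congrArg θ e
    rw [map_mul, map_one, hθx] at h1
    exact eq_inv_of_mul_eq_one_right h1
  have hordxinv : 0 < Q.ord (θ ⟨_, hxinvV⟩) := by
    rw [hθxinv, Place.ord_inv, ← zpow_natCast, Place.ord_zpow]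
    have : (0 : ℤ) < ((p + 1 : ℕ) : ℤ) := by positivity
    nlinarith
  -- the chart reduction
  set yB : Bi := ⟨(Mod.xE E M p)⁻¹, Mod.H142.self_mem_chartAlg A E (M * p) _⟩ with hyB
  have hint : ∀ b : Bi, IsIntegral (Algebra.adjoin (Mod.RE A E) ({yB} : Set Bi)) b :=
    fun b => isIntegral_adjoin_sub Bi yB b b.2
  have hφconst : ∀ r : Mod.RE A E,
      Dict.chartRed Bi V hBV θ (algebraMap (Mod.RE A E) Bi r) =
        algebraMap (kA A) (modularFunctionFieldFullC (kA A) M)
          (IsLocalRing.residue A (toA' A E r)) := by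
    intro r
    apply Subtype.ext
    rw [Dict.chartRed_apply, coe_thetaK]
    exact (thetaHom_const hV r (hRV r)).trans (coe_algebraMap_fullC (kA A) M _).symm
  have hRQ : ∀ r : Mod.RE A E,
      Dict.chartRed Bi V hBV θ (algebraMap (Mod.RE A E) Bi r) ∈ Q.toValuationSubring := by
    intro r
    rw [hφconst]
    exact Q.algebraMap_mem' _
  have hφy : Dict.chartRed Bi V hBV θ yB = θ ⟨_, hxinvV⟩ := rfl
  have hyQ : Dict.chartRed Bi V hBV θ yB ∈ Q.toValuationSubring := by
    rw [hφy]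
    exact (Fermat.Agent.S24.FF.mem_iff_ord_nonneg Q).mpr hordxinv.le
  have hmem := Dict.chartRed_mem Bi V θ Q yB hint hRQ hyQ
  set n := Dict.pointOfPlace Bi V θ Q hmem with hn
  haveI hnprime : n.IsPrime := Dict.pointOfPlace_isPrime Bi V θ Q hmem
  have hmem_n : ∀ b : Bi, b ∈ n ↔ Fermat.Agent.S37.H940.InMax Q (Dict.chartRed Bi V hBV θ b) := by
    intro b
    rw [Dict.mem_pointOfPlace, Fermat.Agent.S37.H940.inMax_iff_exists_mem_maximalIdeal]
    exact ⟨fun h => ⟨hmem b, h⟩, fun ⟨_, h⟩ => h⟩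
  have hyn : yB ∈ n := (hmem_n yB).mpr (Or.inr (by rw [hφy]; exact hordxinv))
  have hwn : ∀ r ∈ IsLocalRing.maximalIdeal (Mod.RE A E),
      algebraMap (Mod.RE A E) Bi r ∈ n := by
    intro r hr
    apply Dict.mem_pointOfPlace_of_eq_zero
    rw [hφconst]
    have : IsLocalRing.residue A (toA' A E r) = 0 := by
      rw [residue_eq_zero_iff_not_isUnit', isUnit_toA'_iff]
      exact (IsLocalRing.mem_maximalIdeal r).mp hr
    rw [this, map_zero]
  have hnmax : n.IsMaximal := isMaximal_of_coord_mem yB hint n hyn hwn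
  have hp₁n : p₁ ≤ n := by
    intro b hb
    apply Dict.mem_pointOfPlace_of_eq_zero
    have hInW := (hc₁ b).mp hb
    apply Subtype.ext
    rw [Dict.chartRed_apply, coe_thetaK]
    show thetaHom hV ⟨(b : Mod.FE E (M * p)), hBV b⟩ = 0
    rw [thetaHom_eq_zero_iff hV hw hu]
    by_cases hb0 : (b : Mod.FE E (M * p)) = 0
    · right; exact hb0
    · left
      intro hinv
      have h1 : (Mod.cE A E (M * p) w)⁻¹ ∈ V := by
        have h2 := V.mul_mem _ _ hInW hinv
        have e : (b : Mod.FE E (M * p)) * (Mod.cE A E (M * p) w)⁻¹ * (b : Mod.FE E (M * p))⁻¹ =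
            (Mod.cE A E (M * p) w)⁻¹ := by
          field_simp
        rwa [e] at h2
      exact hu.inv_not_mem h1
  have hp₂n : ¬ p₂ ≤ n := fun h =>
    NoNode.no_node_at_infinity w hSet V W hV hW p₁ p₂ hc₁ hc₂ n hnmax.ne_top
      hp₁n h yB rfl hyn
  -- purity at the smooth point `n`
  obtain ⟨k, d, hd0, hU, hdp⟩ := pure_smooth_one_chart (E := E) m hm w (Mod.xE E M p)⁻¹ Bi hCtx
    y hy0 hdiv p₁ p₂ hp₁ hp₂ hinf h₂₁ hn₁ n hnmax hp₁n hp₂n
  have hunitV : ∀ b : Bi, b ∉ p₁ → ((b : Mod.FE E (M * p)))⁻¹ ∈ V := fun b hb =>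
    inv_mem_of_not_mem_cut hu hc₁ hBV hb
  have hne0 : ∀ b : Bi, b ∉ p₁ → (b : Mod.FE E (M * p)) ≠ 0 := by
    intro b hb h0
    apply hb
    have : b = 0 := Subtype.ext h0
    rw [this]
    exact Ideal.zero_mem _
  -- `d` is a unit of `V`
  obtain ⟨a', b', ha', hb', hab'⟩ := hdp
  have hd_eq : d = (a' : Mod.FE E (M * p)) * (b' : Mod.FE E (M * p))⁻¹ := by
    rw [← hab', mul_assoc, mul_inv_cancel₀ (hne0 b' hb'), mul_one]
  have hdV : d ∈ V := by
    rw [hd_eq]
    exact V.mul_mem _ _ (hBV a') (hunitV b' hb')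
  have hdV' : d⁻¹ ∈ V := by
    rw [hd_eq, mul_inv, inv_inv]
    exact V.mul_mem _ _ (hunitV a' ha') (hBV b')
  -- `u = y w^k` is a unit of `V`
  set e : E := ((w : E)) ^ k with he
  have hw0 : (w : E) ≠ 0 := fun h => hw.ne_zero (Subtype.ext h)
  have he0 : e ≠ 0 := zpow_ne_zero _ hw0
  have hwk : (algebraMap (Mod.RE A E) (Mod.FE E (M * p)) w) ^ k =
      algebraMap E (Mod.FE E (M * p)) e := by
    rw [he, map_zpow₀]
    rfl
  rw [hwk] at hU
  set u : Mod.FE E (M * p) := y * algebraMap E (Mod.FE E (M * p)) e with hudef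
  have hU' := hU
  obtain ⟨a, b, ha, hb, hab⟩ := hU
  have han : a ∉ p₁ := fun h => ha (hp₁n h)
  have hbn : b ∉ p₁ := fun h => hb (hp₁n h)
  have hdm0 : d ^ m ≠ 0 := pow_ne_zero _ hd0
  have hu_eq : u = (a : Mod.FE E (M * p)) * (b : Mod.FE E (M * p))⁻¹ * (d⁻¹) ^ m := by
    have hb0 := hne0 b hbn
    rw [← hab, inv_pow]
    field_simp
  have hu0 : u ≠ 0 :=
    mul_ne_zero hy0 (by rwa [Ne, map_eq_zero_iff _ (algebraMap E (Mod.FE E (M * p))).injective])
  have huV : u ∈ V := by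
    rw [hu_eq]
    exact V.mul_mem _ _ (V.mul_mem _ _ (hBV a) (hunitV b hbn)) (V.pow_mem hdV' m)
  have huV' : u⁻¹ ∈ V := by
    rw [hu_eq, mul_inv, mul_inv, inv_inv, ← inv_pow, inv_inv]
    exact V.mul_mem _ _ (V.mul_mem _ _ (hunitV a han) (hBV b)) (V.pow_mem hdV m)
  have hord := Dict.dvd_ord_of_locUnit Bi V θ Q hmem m huV hdV hdV' hd0 hU'
  refine ⟨θ ⟨u, huV⟩, ?_, hord⟩
  -- the reduction
  have hθu0 : thetaHom hV ⟨u, huV⟩ ≠ 0 := thetaHom_ne_zero_of_inv_mem hV _ huV' hu0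
  have h1 := isRedSer_thetaHom hV ⟨u, huV⟩ hθu0
  have hcoe : ((u : Mod.FE E (M * p)) : LaurentSeries E) =
      ((y : Mod.FE E (M * p)) : LaurentSeries E) * cst e := rfl
  have h2 : coeffMap (algebraMap E Kbar) ((y : Mod.FE E (M * p)) : LaurentSeries E) =
      cst ((algebraMap E Kbar e)⁻¹) *
        coeffMap (algebraMap E Kbar) ((u : Mod.FE E (M * p)) : LaurentSeries E) := by
    have heK : algebraMap E Kbar e ≠ 0 := by
      rwa [Ne, map_eq_zero_iff _ (algebraMap E Kbar).injective]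
    rw [hcoe, map_mul, Fermat.Agent.S18.H602.coeffMap_algebraMap', ← mul_assoc,
      mul_comm (cst ((algebraMap E Kbar e)⁻¹)) (coeffMap (algebraMap E Kbar) _), mul_assoc,
      cst_inv_mul_cst heK, mul_one]
  rw [coe_thetaK, h2]
  exact isRedSer_cst_mul h1 (inv_ne_zero (by
    rwa [Ne, map_eq_zero_iff _ (algebraMap E Kbar).injective]))

end Core

end Fermat.Agent.Ribet.H399

end

end
-- ===== PACK-END Ribet/H399/CuspCore.lean

-- ===== PACK-BEGIN Ribet/H464/UnitPairExp.lean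
section



/-!
# RIBET row 38, (S4) CORE-OUT, TAME + WILD: INST-B with the `t`-expansion REMEMBERED (helper464)

`H873.exists_unitPair_cut873` (INST-B, on main) is purely existential in `D, D'`.  The assemblies
of TAME and of WILD (`H704.CoreOut.WildFrame`, fields `D`, `hD₂`; `WildFrameStatement`:
`IsModUnit p M' D ∧ (D : LaurentSeries Kbar) * coeffMap _ D₂ = 1`; `H884.SlopeProp`) need the
unit of the pair to BE the inverse `Δ(t)/Δ(t^q)` of the modular unit `H884.IsModUnit`.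
This file keeps the expansion (same proof as `H873`, from `S36.H438.mu_package`):

* `exists_unitPair_exp464`     : `D · D' = w ^ (12 e)`, `D ∉ w V∞`, `D' ∉ w V₀`,
                                 `(D : E((t))) = castE E (unitL' q)`  (`= Δ(t)/Δ(t^q)`);
* `exists_unitPair_cut_exp464` : the same with `D ∉ p₁`, `D' ∉ p₂` (`A2.Mod.IsCut`);
* `exists_unitPair_tame464`    : exponent `N = 12 (q - 1)`, `Nat.Coprime N q` (`q ≥ 5`), at a level
                                 with `q ~ w ^ (q - 1)` (`H944.Tame.ram_tameLevel`);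
* `exists_isModUnit464`        : `H884.IsModUnit p M' D` has a (nonzero) witness in `FF (p * M')`;
* `isModUnit_mul_coeffMap464`  : `IsModUnit p M' D → (X : E((t))) = castE E (unitL' p) →
                                 (D : Q̄((t))) * coeffMap (algebraMap E Q̄) X = 1`
                                 (the conjunct of `WildFrameStatement`, any level `E`);
* `isModUnit_inv_coe464`       : `((D⁻¹ : FF) : Q̄((t))) = coeffMap (algebraMap E Q̄) X`.
-/

set_option autoImplicit false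
set_option synthInstance.maxHeartbeats 400000
set_option maxHeartbeats 1600000
set_option linter.unusedSectionVars false

noncomputable section

namespace Fermat.Agent.Ribet.H464

open ModularCurve HahnSeries
open Fermat.Agent.A2.Mod Fermat.Agent.S28

variable {P : ValuationSubring Qb} {E : IntermediateField ℚ Qb}

section Pair

variable {M q : ℕ} [NeZero M] [NeZero q]

/-- `H873.unitPair873` with the expansion of `D` remembered. -/
theorem unitPair_exp464 {w : RE P E} (hS : Setting P E M q w)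
    {V : ValuationSubring (FE E (M * q))} {W : FE E (M * q) ≃ₐ[E] FE E (M * q)}
    (hV : IsVinf P E (M * q) V) (hW : IsFricke E (M * q) W) :
    ∃ D D' : FE E (M * q),
      D ∈ chartAlg P E (M * q) (xE E M q) ∧ D' ∈ chartAlg P E (M * q) (xE E M q) ∧
      D * D' = cE P E (M * q) ((q : RE P E) ^ 12) ∧
      ¬ InW P E (M * q) V w D ∧
      ¬ InW P E (M * q) (V.comap (W : FE E (M * q) →+* FE E (M * q))) w D' ∧
      (D : LaurentSeries E) = Fermat.Agent.S36.H438.castE E (H589.unitL' q) := by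
  obtain ⟨D', D, -, hexp, hmul, hD', hD, hVu, hV0u, -⟩ :=
    Fermat.Agent.S36.H438.mu_package P E M q hS.q_prime
  have hc0 : algebraMap E (FE E (M * q)) ((q : E) ^ 12) ≠ 0 := by
    rw [Ne, map_eq_zero]
    exact pow_ne_zero 12 (Nat.cast_ne_zero.mpr (NeZero.ne q))
  have hD0 : D ≠ 0 := by
    rintro rfl
    rw [mul_zero] at hmul
    exact hc0 hmul.symm
  have hD'0 : D' ≠ 0 := by
    rintro rfl
    rw [zero_mul] at hmul
    exact hc0 hmul.symm
  refine ⟨D, D', hD, hD', ?_, ?_, ?_, hexp⟩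
  · rw [mul_comm D D', hmul, cE]
    congr 1
  · exact Fermat.Agent.Ribet.H873.not_inW_of_inv_mem873
      (Fermat.Agent.Ribet.H873.cE_inv_not_mem873 hS.dvr hS.unif hV) hD0 (hVu V hV).2
  · exact Fermat.Agent.Ribet.H873.not_inW_of_inv_mem873
      (Fermat.Agent.Ribet.H873.cE_inv_not_mem_comap873 hS.dvr hS.unif hV W) hD'0
      (hV0u V W hV hW).2

/-- **INST-B, normalised, with expansion.**  `q ε = w ^ e` in `R_E`: elements `D, D'` of the chart
`B = chartAlg x` with `D · D' = w ^ (12 e)`, `D ∉ w V∞`, `D' ∉ w V₀`, and `D = Δ(t)/Δ(t^q)`. -/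
theorem exists_unitPair_exp464 {w : RE P E} (hS : Setting P E M q w)
    {V : ValuationSubring (FE E (M * q))} {W : FE E (M * q) ≃ₐ[E] FE E (M * q)}
    (hV : IsVinf P E (M * q) V) (hW : IsFricke E (M * q) W) :
    ∃ (e : ℕ) (D D' : chartAlg P E (M * q) (xE E M q)), 0 < e ∧
      Associated ((q : ℕ) : RE P E) (w ^ e) ∧
      D * D' = algebraMap (RE P E) (chartAlg P E (M * q) (xE E M q)) w ^ (12 * e) ∧
      ¬ InW P E (M * q) V w (D : FE E (M * q)) ∧
      ¬ InW P E (M * q) (V.comap (W : FE E (M * q) →+* FE E (M * q))) w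
        (D' : FE E (M * q)) ∧
      (((D : FE E (M * q)) : FE E (M * q)) : LaurentSeries E) =
        Fermat.Agent.S36.H438.castE E (H589.unitL' q) := by
  haveI := hS.dvr
  obtain ⟨D₀, D₀', hD, hD', hmul, hDV, hD'V, hexp⟩ := unitPair_exp464 hS hV hW
  have hq0 : ((q : ℕ) : RE P E) ≠ 0 := Nat.cast_ne_zero.mpr (NeZero.ne q)
  obtain ⟨e, he⟩ := IsDiscreteValuationRing.associated_pow_irreducible hq0 hS.unif
  have he0 : 0 < e := by
    rcases Nat.eq_zero_or_pos e with h0 | h0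
    · exfalso
      rw [h0, pow_zero] at he
      exact Fermat.Agent.Ribet.H873.not_isUnit_natCast873 hS.lies_over
        (he.symm.isUnit_iff.mp isUnit_one)
    · exact h0
  obtain ⟨ε, hε⟩ := he
  set B := chartAlg P E (M * q) (xE E M q) with hB
  refine ⟨e, ⟨D₀, hD⟩, algebraMap (RE P E) B ((ε : RE P E) ^ 12) * ⟨D₀', hD'⟩,
    he0, ⟨ε, hε⟩, ?_, hDV, ?_, hexp⟩
  · apply Subtype.ext
    show D₀ * (algebraMap (RE P E) (FE E (M * q)) ((ε : RE P E) ^ 12) * D₀') =
      (algebraMap (RE P E) (FE E (M * q)) w) ^ (12 * e)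
    have hcE : cE P E (M * q) ((q : RE P E) ^ 12) =
        algebraMap (RE P E) (FE E (M * q)) ((q : RE P E) ^ 12) := rfl
    rw [mul_left_comm, hmul, hcE, ← map_mul, ← map_pow]
    congr 1
    rw [pow_mul', ← hε]
    ring
  · intro h
    apply hD'V
    have hεV : algebraMap (RE P E) (FE E (M * q)) (((ε⁻¹ : (RE P E)ˣ) : RE P E) ^ 12) ∈
        V.comap (W : FE E (M * q) →+* FE E (M * q)) := by
      rw [ValuationSubring.mem_comap]
      have h1 : (W : FE E (M * q) →+* FE E (M * q))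
          (algebraMap (RE P E) (FE E (M * q)) (((ε⁻¹ : (RE P E)ˣ) : RE P E) ^ 12)) =
          algebraMap E (FE E (M * q)) ((((ε⁻¹ : (RE P E)ˣ) : RE P E) ^ 12 : RE P E) : E) :=
        W.commutes _
      rw [h1]
      exact (Fermat.Agent.A2.Mod.H708.algebraMap_mem_iff_of_isVinf hV _).mpr (Subtype.mem _)
    have h2 := (V.comap (W : FE E (M * q) →+* FE E (M * q))).mul_mem _ _ hεV h
    have h3 : algebraMap (RE P E) (FE E (M * q)) (((ε⁻¹ : (RE P E)ˣ) : RE P E) ^ 12) *
        (((algebraMap (RE P E) B ((ε : RE P E) ^ 12) * ⟨D₀', hD'⟩ : B) : FE E (M * q)) *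
          (cE P E (M * q) w)⁻¹) = D₀' * (cE P E (M * q) w)⁻¹ := by
      have h4 : algebraMap (RE P E) (FE E (M * q)) (((ε⁻¹ : (RE P E)ˣ) : RE P E) ^ 12) *
          algebraMap (RE P E) (FE E (M * q)) ((ε : RE P E) ^ 12) = 1 := by
        rw [← map_mul, ← mul_pow, Units.inv_mul, one_pow, map_one]
      show algebraMap (RE P E) (FE E (M * q)) (((ε⁻¹ : (RE P E)ˣ) : RE P E) ^ 12) *
        ((algebraMap (RE P E) (FE E (M * q)) ((ε : RE P E) ^ 12) * D₀') *
          (cE P E (M * q) w)⁻¹) = _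
      rw [← mul_assoc, ← mul_assoc, h4, one_mul]
    rw [h3] at h2
    exact h2

/-- **INST-B, cut form, with expansion**: `D ∉ p₁`, `D' ∉ p₂` for the components
`p₁ = B ∩ w V∞`, `p₂ = B ∩ w V₀` (`A2.Mod.IsCut`), and `D = Δ(t)/Δ(t^q)`. -/
theorem exists_unitPair_cut_exp464 {w : RE P E} (hS : Setting P E M q w)
    {V : ValuationSubring (FE E (M * q))} {W : FE E (M * q) ≃ₐ[E] FE E (M * q)}
    (hV : IsVinf P E (M * q) V) (hW : IsFricke E (M * q) W)
    (p₁ p₂ : Ideal (chartAlg P E (M * q) (xE E M q)))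
    (hc₁ : IsCut P E (M * q) w V (chartAlg P E (M * q) (xE E M q)) p₁)
    (hc₂ : IsCut P E (M * q) w (V.comap (W : FE E (M * q) →+* FE E (M * q)))
      (chartAlg P E (M * q) (xE E M q)) p₂) :
    ∃ (e : ℕ) (D D' : chartAlg P E (M * q) (xE E M q)), 0 < e ∧
      Associated ((q : ℕ) : RE P E) (w ^ e) ∧
      D * D' = algebraMap (RE P E) (chartAlg P E (M * q) (xE E M q)) w ^ (12 * e) ∧
      D ∉ p₁ ∧ D' ∉ p₂ ∧
      (((D : FE E (M * q)) : FE E (M * q)) : LaurentSeries E) =
        Fermat.Agent.S36.H438.castE E (H589.unitL' q) := by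
  obtain ⟨e, D, D', he, hass, hmul, hD, hD', hexp⟩ := exists_unitPair_exp464 hS hV hW
  exact ⟨e, D, D', he, hass, hmul, fun h => hD ((hc₁ D).mp h), fun h => hD' ((hc₂ D').mp h),
    hexp⟩

/-- Exponents of an irreducible are determined up to association. -/
theorem pow_eq_of_associated464 {R : Type*} [CommRing R] [IsDomain R]
    [IsDiscreteValuationRing R] {w a : R} (hw : Irreducible w) {e e' : ℕ}
    (h : Associated a (w ^ e)) (h' : Associated a (w ^ e')) : e = e' := by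
  obtain ⟨u, hu⟩ := h.symm.trans h'
  have h1 : (u : R) * w ^ e = ((1 : Rˣ) : R) * w ^ e' := by
    rw [Units.val_one, one_mul, mul_comm]
    exact hu
  exact IsDiscreteValuationRing.unit_mul_pow_congr_pow hw hw u 1 e e' h1

/-- `12 (q - 1)` is prime to a prime `q ≥ 5`. -/
theorem coprime_unitExp464 {q : ℕ} (hq : q.Prime) (hq5 : 5 ≤ q) :
    Nat.Coprime (12 * (q - 1)) q := by
  rw [Nat.coprime_comm, Nat.Prime.coprime_iff_not_dvd hq]
  intro h
  rcases (Nat.Prime.dvd_mul hq).mp h with h1 | h1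
  · have h43 : q ∣ 4 * 3 := h1
    rcases (Nat.Prime.dvd_mul hq).mp h43 with h4 | h3
    · have := Nat.le_of_dvd (by norm_num) h4
      omega
    · have := Nat.le_of_dvd (by norm_num) h3
      omega
  · have := Nat.le_of_dvd (by omega) h1
    omega

/-- **INST-B at a TAME level** (`q ~ w ^ (q - 1)`, e.g. `H944.Tame.ram_tameLevel`), `q ≥ 5`:
the unit pair of exponent `N = 12 (q - 1)`, prime to `q`, with `D = Δ(t)/Δ(t^q)`.
These are exactly the fields `N, D, D', hN, hDD, hD, hD'` of `H704.CoreOut.WildFrame`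
(with `O₁ = R_E`, `K₁ = FE E (M * q)`, `B₁ = chartAlg x`, `c₁.pᵢ` the cuts). -/
theorem exists_unitPair_tame464 {w : RE P E} (hS : Setting P E M q w) (hq5 : 5 ≤ q)
    (hram : Associated ((q : ℕ) : RE P E) (w ^ (q - 1)))
    {V : ValuationSubring (FE E (M * q))} {W : FE E (M * q) ≃ₐ[E] FE E (M * q)}
    (hV : IsVinf P E (M * q) V) (hW : IsFricke E (M * q) W)
    (p₁ p₂ : Ideal (chartAlg P E (M * q) (xE E M q)))
    (hc₁ : IsCut P E (M * q) w V (chartAlg P E (M * q) (xE E M q)) p₁)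
    (hc₂ : IsCut P E (M * q) w (V.comap (W : FE E (M * q) →+* FE E (M * q)))
      (chartAlg P E (M * q) (xE E M q)) p₂) :
    ∃ (D D' : chartAlg P E (M * q) (xE E M q)),
      Nat.Coprime (12 * (q - 1)) q ∧
      D * D' = algebraMap (RE P E) (chartAlg P E (M * q) (xE E M q)) w ^ (12 * (q - 1)) ∧
      D ∉ p₁ ∧ D' ∉ p₂ ∧
      (((D : FE E (M * q)) : FE E (M * q)) : LaurentSeries E) =
        Fermat.Agent.S36.H438.castE E (H589.unitL' q) := by
  haveI := hS.dvr
  obtain ⟨e, D, D', -, hass, hmul, hD, hD', hexp⟩ :=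
    exists_unitPair_cut_exp464 hS hV hW p₁ p₂ hc₁ hc₂
  have he : e = q - 1 := pow_eq_of_associated464 hS.unif hass hram
  subst he
  exact ⟨D, D', coprime_unitExp464 hS.q_prime hq5, hmul, hD, hD', hexp⟩

end Pair

/-! ## The link with `H884.IsModUnit` -/

section ModUnit

open Fermat.Agent.S24 Fermat.Agent.Ribet.H884

variable (p M' : ℕ) [NeZero p] [NeZero (p * M')]

/-- The modular unit `Δ(t^p)/Δ(t)` is an element of `FF (p * M')`. -/
theorem unitL_mem_FF464 : unitL Kbar p ∈ modularFunctionFieldBar (p * M') :=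
  Fermat.Agent.S36.H438.laurentBaseChange_mono_h438 Kbar
    (full_degeneracy_le (Dvd.intro M' rfl)) (Fermat.Agent.S36.H438.unitL_bar_mem p)

/-- `H884.IsModUnit` has a nonzero witness. -/
theorem exists_isModUnit464 : ∃ D : FF (p * M'), IsModUnit p M' D ∧ D ≠ 0 := by
  refine ⟨⟨unitL Kbar p, unitL_mem_FF464 p M'⟩, rfl, ?_⟩
  intro h
  have h1 : unitL Kbar p = 0 := congrArg Subtype.val h
  have h2 : coeffMap (Int.castRingHom Kbar) (unitL ℤ p) * coeffMap (Int.castRingHom Kbar)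
      (H589.unitL' p) = 1 := by
    rw [← map_mul, Fermat.Agent.S36.H438.unitL_mul_unitL', map_one]
  rw [h88_coeffMap_unitL, h1, zero_mul] at h2
  exact zero_ne_one h2

variable {p M'}

/-- **UNIT-ID.**  For THE modular unit `D` (`IsModUnit`) and any element `X` of `E((t))` with the
expansion `Δ(t)/Δ(t^p)` (e.g. the `D` of `exists_unitPair_tame464`, at ANY level `E`):
`D · ι X = 1` in `Q̄((t))`.  This is the conjunct
`(D : LaurentSeries Kbar) * coeffMap (algebraMap E₂ Kbar) (D₂ : LaurentSeries E₂) = 1`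
of `H704.CoreOut.WildFrameStatement`. -/
theorem isModUnit_mul_coeffMap464 {D : FF (p * M')} (hD : IsModUnit p M' D)
    {X : LaurentSeries E} (hX : X = Fermat.Agent.S36.H438.castE E (H589.unitL' p)) :
    (D : LaurentSeries Kbar) * coeffMap (algebraMap E Kbar) X = 1 := by
  have hD' : (D : LaurentSeries Kbar) = unitL Kbar p := hD
  rw [hD', hX, Fermat.Agent.S36.H438.coeffMap_castE, ← h88_coeffMap_unitL (Int.castRingHom Kbar) p,
    ← map_mul, Fermat.Agent.S36.H438.unitL_mul_unitL', map_one]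

/-- The inverse of THE modular unit has expansion `ι X`. -/
theorem isModUnit_inv_coe464 {D : FF (p * M')} (hD : IsModUnit p M' D)
    {X : LaurentSeries E} (hX : X = Fermat.Agent.S36.H438.castE E (H589.unitL' p)) :
    ((D⁻¹ : FF (p * M')) : LaurentSeries Kbar) = coeffMap (algebraMap E Kbar) X := by
  have h1 : ((D⁻¹ : FF (p * M')) : LaurentSeries Kbar) = (D : LaurentSeries Kbar)⁻¹ := rfl
  rw [h1]
  exact (eq_inv_of_mul_eq_one_right (isModUnit_mul_coeffMap464 hD hX)).symm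

end ModUnit

end Fermat.Agent.Ribet.H464

end

end
-- ===== PACK-END Ribet/H464/UnitPairExp.lean

-- ===== PACK-BEGIN Ribet/H472/ChartRed.lean
section





/-!
# RIBET row 38, WALL-p, CoreOut leaf INST-E — the reduction of `V∞` at a good level (helper472)

`E` a level with `R_E = A ∩ E` a discrete valuation ring, `V = V∞` the Gauss valuation ring of
`F_{N,E} = FE E N`.  We define the reduction with values in `k((t))`, `k = kA A` the residue field
of `A ⊆ ℚ̄` (NOT of `R_E`), so that it can be compared with `H884.IsRedInf`: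

* `iotaS E N : FE E N →+* ℚ̄((t))`                       the `t`-expansion;
* `rho hV : V →+* k((t))`                                  the reduction (`= H553.redA A ∘ ι`);
* `rho_eq`, `rho_cE`, `rho_jE`                             computation on normal forms, constants, `j_d`;
* `inv_mem_of_rho_ne_zero`                                 `ρ` detects the units of `V`;
* `isRedSer_rho`, `isRedSer_of_scaled`                     `ρ s` is a reduction of `ι s` in the sense of
                                                           `H997.IsRedSer` (= `H884.IsRedInf`);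
* `rho_mem_fullC`, `rhoF`                                  at level `M·p`: values in `k(X₀(M))`.
-/

set_option autoImplicit false
set_option linter.unusedSectionVars false
set_option linter.style.haveILetI false
set_option synthInstance.maxHeartbeats 400000
set_option maxHeartbeats 1600000

noncomputable section

namespace Fermat.Agent.Ribet.H472

open AlgebraicCurve ModularCurve HahnSeries
open Fermat.Agent.S24 Fermat.Agent.A2.H708 Fermat.Agent.A2.H528
open Fermat.Agent.Ribet.H884 Fermat.Agent.Ribet.H997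
open Fermat.Agent.A2 Fermat.Agent.A2.Mod Fermat.Agent.S18.H602

variable {A : ValuationSubring Kbar} {E : IntermediateField ℚ Kbar} {N : ℕ}

/-- The `t`-expansion with coefficients in `ℚ̄`. -/
def iotaS (E : IntermediateField ℚ Kbar) (N : ℕ) : Mod.FE E N →+* LaurentSeries Kbar :=
  (coeffMap (algebraMap E Kbar)).comp (Mod.FE E N).val.toRingHom

theorem iotaS_apply (f : Mod.FE E N) :
    iotaS E N f = coeffMap (algebraMap E Kbar) (f : LaurentSeries E) := rfl

theorem iotaS_algebraMap (c : E) :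
    iotaS E N (algebraMap E (Mod.FE E N) c) = cst (algebraMap E Kbar c) := by
  rw [iotaS_apply]
  exact coeffMap_algebraMap' (algebraMap E Kbar) c

theorem iotaS_injective : Function.Injective (iotaS E N) := (iotaS E N).injective

theorem iotaS_mem_bar (f : Mod.FE E N) : iotaS E N f ∈ modularFunctionFieldBar N :=
  coeffMap_mem_laurentBaseChange _ (algebraMap E Kbar) f.2

/-- elements of `V∞` have `A`-integral Gauss form. -/
theorem iotaS_mem_gaussA {V : ValuationSubring (Mod.FE E N)} (hV : Mod.IsVinf A E N V)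
    {f : Mod.FE E N} (hf : f ∈ V) : iotaS E N f ∈ Fermat.Agent.A2.H553.gaussA A := by
  obtain ⟨U₁, U₂, h₂, -, he⟩ := (hV f).mp hf
  refine ⟨upA A E U₁, upA A E U₂, red_upA_ne_zero E h₂, ?_⟩
  have h := congrArg (coeffMap (algebraMap E Kbar)) he
  rw [map_mul, ← incl_upA, ← incl_upA] at h
  exact h

/-- **The reduction** `V∞ → k((t))`, `k` the residue field of `A`. -/
def rho {V : ValuationSubring (Mod.FE E N)} (hV : Mod.IsVinf A E N V) :
    V →+* LaurentSeries (kA A) :=
  (Fermat.Agent.A2.H553.redA A).comp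
    (((iotaS E N).comp V.subtype).codRestrict (Fermat.Agent.A2.H553.gaussA A)
      (fun s => iotaS_mem_gaussA hV s.2))

theorem rho_eq {V : ValuationSubring (Mod.FE E N)} (hV : Mod.IsVinf A E N V) (s : V)
    (U₁ U₂ : LaurentSeries (Mod.RE A E)) (h₂ : red (Mod.RE A E) U₂ ≠ 0)
    (he : ((s : Mod.FE E N) : LaurentSeries E) * incl (Mod.RE A E) U₂ =
      incl (Mod.RE A E) U₁) :
    rho hV s = red A (upA A E U₁) / red A (upA A E U₂) := by
  have h := congrArg (coeffMap (algebraMap E Kbar)) he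
  rw [map_mul, ← incl_upA, ← incl_upA] at h
  exact Fermat.Agent.A2.H553.redA_eq (A := A) ⟨iotaS E N s, iotaS_mem_gaussA hV s.2⟩
    (upA A E U₁) (upA A E U₂) (red_upA_ne_zero E h₂) h

/-- reduction of an integral series -/
theorem rho_of_incl {V : ValuationSubring (Mod.FE E N)} (hV : Mod.IsVinf A E N V) (s : V)
    (U : LaurentSeries (Mod.RE A E))
    (he : ((s : Mod.FE E N) : LaurentSeries E) = incl (Mod.RE A E) U) :
    rho hV s = red A (upA A E U) := by
  rw [rho_eq hV s U 1 (by rw [map_one]; exact one_ne_zero) (by rw [map_one, mul_one, he]),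
    map_one, map_one, div_one]

/-- reduction of the constants -/
theorem rho_cE {V : ValuationSubring (Mod.FE E N)} (hV : Mod.IsVinf A E N V) (r : Mod.RE A E)
    (hr : Mod.cE A E N r ∈ V) :
    rho hV ⟨Mod.cE A E N r, hr⟩ =
      HahnSeries.single 0 (IsLocalRing.residue A (toA' A E r)) := by
  rw [rho_of_incl hV _ (cstA (Mod.RE A E) r) ?_, upA_cstA, red_cstA]
  rw [incl_cstA]
  rfl

/-- reduction of the generators `j_d` -/
theorem rho_jE {V : ValuationSubring (Mod.FE E N)} (hV : Mod.IsVinf A E N V) (d : ℕ) [NeZero d]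
    (hd : d ∣ N) (hj : Mod.jE E N d hd ∈ V) :
    rho hV ⟨Mod.jE E N d hd, hj⟩ = jqNModC (kA A) d := by
  rw [rho_of_incl hV _ (castA (Mod.RE A E) (jInt d)) ?_]
  · show coeffMap (IsLocalRing.residue A) (coeffMap (toA' A E)
      (coeffMap (Int.castRingHom (Mod.RE A E)) (jqNModC ℤ d))) = _
    rw [coeffMap_coeffMap, coeffMap_coeffMap, coeffMap_jqNModC]
  · show ((Mod.jE E N d hd : Mod.FE E N) : LaurentSeries E) = _
    rw [Mod.H553.coe_jE, Mod.H553.coeffEmb_castQ (P := A)]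

end Fermat.Agent.Ribet.H472

end

end
-- ===== PACK-END Ribet/H472/ChartRed.lean

-- ===== PACK-BEGIN Ribet/H472/ChartRed2.lean
section


/-!
# RIBET row 38, WALL-p, CoreOut leaf INST-E — units, reductions, values in `k(X₀(M))` (helper472)

* `inv_mem_of_rho_ne_zero`   : `ρ` detects the units of `V∞`;
* `isRedSer_rho`, `isRedSer_of_scaled` : `ρ s` is a reduction of `ι s` (`H997.IsRedSer`);
* `exists_scale`             : every nonzero function is a constant times a unit of `V∞`;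
* `rho_mem_fullC`, `rhoF`    : at level `M·p` the reduction has values in `k(X₀(M))`.
-/

set_option autoImplicit false
set_option linter.unusedSectionVars false
set_option linter.style.haveILetI false
set_option synthInstance.maxHeartbeats 400000
set_option maxHeartbeats 1600000

noncomputable section

namespace Fermat.Agent.Ribet.H472

open AlgebraicCurve ModularCurve HahnSeries
open Fermat.Agent.S24 Fermat.Agent.A2.H708 Fermat.Agent.A2.H528
open Fermat.Agent.Ribet.H884 Fermat.Agent.Ribet.H997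
open Fermat.Agent.A2 Fermat.Agent.A2.Mod Fermat.Agent.S18.H602

variable {A : ValuationSubring Kbar} {E : IntermediateField ℚ Kbar} {N : ℕ}
variable {M p : ℕ} [NeZero M] [NeZero p] {w : Mod.RE A E}

theorem residue_toA'_unif (hw : Irreducible w) : IsLocalRing.residue A (toA' A E w) = 0 := by
  rw [residue_eq_zero_iff_not_isUnit', isUnit_toA'_iff]
  exact hw.not_isUnit

/-- `ρ` kills the uniformiser. -/
theorem rho_unif (hS : Mod.Setting A E M p w) {V : ValuationSubring (Mod.FE E N)}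
    (hV : Mod.IsVinf A E N V) (hw : Mod.cE A E N w ∈ V) :
    rho hV ⟨Mod.cE A E N w, hw⟩ = 0 := by
  rw [rho_cE hV w hw, residue_toA'_unif hS.unif]
  exact map_zero _

/-- **`ρ` detects the units of `V∞`.** -/
theorem inv_mem_of_rho_ne_zero (hS : Mod.Setting A E M p w) (hN : N ≠ 0)
    {V : ValuationSubring (Mod.FE E N)} (hV : Mod.IsVinf A E N V) (s : V)
    (h : rho hV s ≠ 0) : ((s : Mod.FE E N))⁻¹ ∈ V := by
  by_contra hinv
  have hu := Mod.H372.unifE w hS hN hV
  have h1 : (s : Mod.FE E N) * (Mod.cE A E N w)⁻¹ ∈ V := hu.gen _ s.2 hinv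
  have hw0 : Mod.cE A E N w ≠ 0 := Mod.H372.cE_ne_zero w hS N
  have h2 : s = ⟨_, h1⟩ * ⟨Mod.cE A E N w, hu.mem⟩ := by
    apply Subtype.ext
    show (s : Mod.FE E N) = (s : Mod.FE E N) * (Mod.cE A E N w)⁻¹ * Mod.cE A E N w
    rw [inv_mul_cancel_right₀ hw0]
  apply h
  rw [h2, map_mul, rho_unif hS hV hu.mem, mul_zero]

/-- `ρ s` is a reduction of the `t`-expansion of `s`. -/
theorem isRedSer_rho {V : ValuationSubring (Mod.FE E N)} (hV : Mod.IsVinf A E N V) (s : V)
    (h : rho hV s ≠ 0) : IsRedSer A (iotaS E N s) (rho hV s) := by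
  obtain ⟨U₁, U₂, h₂, -, he⟩ := (hV s).mp s.2
  have hr := rho_eq hV s U₁ U₂ h₂ he
  have h₂A := red_upA_ne_zero E h₂
  have h₁A : red A (upA A E U₁) ≠ 0 := by
    intro h0
    rw [hr, h0, zero_div] at h
    exact h rfl
  refine ⟨1, upA A E U₁, upA A E U₂, one_ne_zero, h₁A, h₂A, ?_, ?_⟩
  · have h' := congrArg (coeffMap (algebraMap E Kbar)) he
    rw [map_mul, ← incl_upA, ← incl_upA] at h'
    rw [cst_one, one_mul]
    exact h'
  · rw [hr, div_mul_cancel₀ _ h₂A]

/-- `ρ (G / c)` is a reduction of the `t`-expansion of `G`, for a nonzero constant `c`. -/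
theorem isRedSer_of_scaled {V : ValuationSubring (Mod.FE E N)} (hV : Mod.IsVinf A E N V)
    (G : Mod.FE E N) (c : E) (hc : c ≠ 0)
    (hGc : G * (algebraMap E (Mod.FE E N) c)⁻¹ ∈ V) (h : rho hV ⟨_, hGc⟩ ≠ 0) :
    IsRedSer A (iotaS E N G) (rho hV ⟨_, hGc⟩) := by
  obtain ⟨c', U₁, U₂, hc', h₁, h₂, he, hr⟩ := isRedSer_rho hV ⟨_, hGc⟩ h
  have hcK : algebraMap E Kbar c ≠ 0 := by
    rwa [Ne, map_eq_zero_iff _ (algebraMap E Kbar).injective]
  refine ⟨c' * algebraMap E Kbar c, U₁, U₂, mul_ne_zero hc' hcK, h₁, h₂, ?_, hr⟩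
  have e1 : iotaS E N (G * (algebraMap E (Mod.FE E N) c)⁻¹) =
      iotaS E N G * (cst (algebraMap E Kbar c))⁻¹ := by
    rw [map_mul, map_inv₀, iotaS_algebraMap]
  have he' : iotaS E N G * (cst (algebraMap E Kbar c))⁻¹ * incl A U₂ = cst c' * incl A U₁ := by
    rw [← e1]
    exact he
  have hne : cst (algebraMap E Kbar c) ≠ 0 := cst_ne_zero hcK
  rw [cst_mul]
  calc iotaS E N G * incl A U₂
      = cst (algebraMap E Kbar c) *
          (iotaS E N G * (cst (algebraMap E Kbar c))⁻¹ * incl A U₂) := by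
        field_simp
    _ = cst c' * cst (algebraMap E Kbar c) * incl A U₁ := by rw [he']; ring

/-- Every nonzero function is a nonzero constant times a unit of `V∞`. -/
theorem exists_scale (hS : Mod.Setting A E M p w)
    {V : ValuationSubring (Mod.FE E N)} (hV : Mod.IsVinf A E N V) {G : Mod.FE E N}
    (hG : G ≠ 0) :
    ∃ c : E, c ≠ 0 ∧ G * (algebraMap E (Mod.FE E N) c)⁻¹ ∈ V ∧
      (G * (algebraMap E (Mod.FE E N) c)⁻¹)⁻¹ ∈ V := by
  haveI := hS.dvr
  obtain ⟨c, hc, hval⟩ := Mod.H553.exists_const_mul_unit A E hV hG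
  refine ⟨c, hc, (V.valuation_le_one_iff _).mp hval.le, ?_⟩
  rw [← V.valuation_le_one_iff, map_inv₀, hval, inv_one]

/-- a unit of `V∞` has nonzero reduction -/
theorem rho_ne_zero_of_inv_mem {V : ValuationSubring (Mod.FE E N)} (hV : Mod.IsVinf A E N V)
    (s : V) (hs0 : (s : Mod.FE E N) ≠ 0) (hs : ((s : Mod.FE E N))⁻¹ ∈ V) : rho hV s ≠ 0 := by
  intro h0
  have h1 : s * ⟨_, hs⟩ = (1 : V) := Subtype.ext (mul_inv_cancel₀ hs0)
  have h2 := congrArg (rho hV) h1
  rw [map_mul, h0, zero_mul, map_one] at h2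
  exact zero_ne_one h2

/-- At level `M·p` the reduction has values in `k(X₀(M))` (REDFIELD, `H997`). -/
theorem rho_mem_fullC (hp : p.Prime) (hpM : ¬ p ∣ M) (hA : A.LiesOverPrime p)
    {V : ValuationSubring (Mod.FE E (M * p))} (hV : Mod.IsVinf A E (M * p) V) (s : V) :
    rho hV s ∈ modularFunctionFieldFullC (kA A) M := by
  by_cases h : rho hV s = 0
  · rw [h]
    exact zero_mem _
  · exact isRedSer_mem_of_level_mul hp hpM hA (iotaS_mem_bar (s : Mod.FE E (M * p)))
      (isRedSer_rho hV s h)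

/-- The reduction `V∞ → k(X₀(M))` at level `M·p`. -/
def rhoF (hp : p.Prime) (hpM : ¬ p ∣ M) (hA : A.LiesOverPrime p)
    {V : ValuationSubring (Mod.FE E (M * p))} (hV : Mod.IsVinf A E (M * p) V) :
    V →+* modularFunctionFieldFullC (kA A) M :=
  (rho hV).codRestrict (modularFunctionFieldFullC (kA A) M)
    (fun s => rho_mem_fullC hp hpM hA hV s)

theorem coe_rhoF (hp : p.Prime) (hpM : ¬ p ∣ M) (hA : A.LiesOverPrime p)
    {V : ValuationSubring (Mod.FE E (M * p))} (hV : Mod.IsVinf A E (M * p) V) (s : V) :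
    ((rhoF hp hpM hA hV s : modularFunctionFieldFullC (kA A) M) : LaurentSeries (kA A)) =
      rho hV s := rfl

end Fermat.Agent.Ribet.H472

end

end
-- ===== PACK-END Ribet/H472/ChartRed2.lean

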