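import Fermat.Agent.Pack.S44.G0E28L2
import Fermat.Agent.Pack.S44.G0E25L1
import Fermat.Agent.Pack.S44.G0E28L3
import Fermat.Agent.Pack.S44.G0E28L0
import Fermat.Agent.Pack.S44.G0E13L2

-- ===== PACK-BEGIN Ribet/H862/StdModel.lean
section




/-!
# RIBET, wall at `p` — the STANDARD semistable model with its cut data (helper862)

Shared input of the leaves DICT, NC, DK of the (S2) chain (`Ribet/H103/S2Spec.lean`):
`SplitRedClass` / `DeepPureClass` speak about a semistable model `D : A2.ModSSData A E N` with the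
standard coordinate `D.x = stdCoord = j · j_q` and ARBITRARY semistable charts `cf`, `ci`.

* `swapChart`, `components_unique` (abstract, `A2.SSChart` only): the two components of a
  semistable chart are determined by `(w, B)` up to order;
* `cutBy_congr`, `cutBy_swap` : transport of `S35.G.CutBy` along equal components;
* `cutBy_of_isCoordPair` : for EVERY subalgebra `B` which is the integral closure of `R_E[y]`,
  `y ∈ {x, x⁻¹}`, and EVERY semistable chart `c` of `B`: the components of `c` are cut out by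
  `V∞`, `V₀ = V∞ ∘ W` in one of the two orders (`B ⊆ V∞, V₀`; `p = B ∩ w V`);
* `stdCoord_eq_xE` : `stdCoord E (M * q) q _ = A2.Mod.xE E M q`;
* `stdModel` : UNCONDITIONAL existence of `D : A2.ModSSData A E N` with `D.x = stdCoord E N q _`
  at every level `N` with `q ‖ N` carrying the auxiliary prime (`q = 3 → 2 ∣ N`, `q = 2 → 3 ∣ N`),
  over every good level `E`, TOGETHER with `V∞`, the Fricke involution `W`, and charts `cf`, `ci`
  with cut data, for every uniformiser `w`;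
* `cutBy_of_std` : for ANY `D : A2.ModSSData A E N` with `D.x = stdCoord E N q _`, any `V∞`, `W`
  and ANY charts `c` of `D.Bf`, `D.Bi`: cut data in one of the two orders.
-/

set_option autoImplicit false
set_option linter.style.haveILetI false
set_option linter.unusedSectionVars false
set_option synthInstance.maxHeartbeats 400000
set_option maxHeartbeats 1600000

noncomputable section

namespace Fermat.Agent.Ribet.H862

open ModularCurve Fermat.Agent.A2.Mod
open Fermat.Agent.S35.G (CutBy)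

/-! ## Abstract: the components of a semistable chart -/

section Abstract

variable {R F : Type*} [CommRing R] [Field F] [Algebra R F] {w : R} {B : Subalgebra R F}

/-- The semistable chart with its two components exchanged. -/
def swapChart (c : A2.SSChart w B) : A2.SSChart w B where
  p₁ := c.p₂
  p₂ := c.p₁
  prime₁ := c.prime₂
  prime₂ := c.prime₁
  ne := fun h => c.ne h.symm
  not_le₁₂ := c.not_le₂₁
  not_le₂₁ := c.not_le₁₂
  inf_eq := by rw [inf_comm]; exact c.inf_eq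
  normal₁ := c.normal₂
  normal₂ := c.normal₁
  transversal := by rw [sup_comm]; exact c.transversal

@[simp] theorem swapChart_p₁ (c : A2.SSChart w B) : (swapChart c).p₁ = c.p₂ := rfl

@[simp] theorem swapChart_p₂ (c : A2.SSChart w B) : (swapChart c).p₂ = c.p₁ := rfl

/-- **The components of a semistable chart are unique up to order.** -/
theorem components_unique (c c' : A2.SSChart w B) :
    (c.p₁ = c'.p₁ ∧ c.p₂ = c'.p₂) ∨ (c.p₁ = c'.p₂ ∧ c.p₂ = c'.p₁) := by
  have hinf : c.p₁ ⊓ c.p₂ = c'.p₁ ⊓ c'.p₂ := c.inf_eq.trans c'.inf_eq.symm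
  have h1 : c.p₁ ≤ c'.p₁ ∨ c.p₂ ≤ c'.p₁ :=
    (Ideal.IsPrime.inf_le c'.prime₁).1 (hinf ▸ inf_le_left)
  have h2 : c.p₁ ≤ c'.p₂ ∨ c.p₂ ≤ c'.p₂ :=
    (Ideal.IsPrime.inf_le c'.prime₂).1 (hinf ▸ inf_le_right)
  have h3 : c'.p₁ ≤ c.p₁ ∨ c'.p₂ ≤ c.p₁ :=
    (Ideal.IsPrime.inf_le c.prime₁).1 (hinf.symm ▸ inf_le_left)
  have h4 : c'.p₁ ≤ c.p₂ ∨ c'.p₂ ≤ c.p₂ :=
    (Ideal.IsPrime.inf_le c.prime₂).1 (hinf.symm ▸ inf_le_right)
  rcases h1 with h1 | h1
  · -- `p₁ ≤ p₁'`
    have e1 : c.p₁ = c'.p₁ := by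
      rcases h3 with h3 | h3
      · exact le_antisymm h1 h3
      · exact absurd (h3.trans h1) c'.not_le₂₁
    have e2 : c.p₂ = c'.p₂ := by
      rcases h2 with h2 | h2
      · exact absurd (e1 ▸ h2) c'.not_le₁₂
      · rcases h4 with h4 | h4
        · exact absurd (e1 ▸ h4) c.not_le₁₂
        · exact le_antisymm h2 h4
    exact Or.inl ⟨e1, e2⟩
  · -- `p₂ ≤ p₁'`
    have e2 : c.p₂ = c'.p₁ := by
      rcases h4 with h4 | h4
      · exact le_antisymm h1 h4
      · exact absurd (h4.trans h1) c'.not_le₂₁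
    have e1 : c.p₁ = c'.p₂ := by
      rcases h2 with h2 | h2
      · rcases h3 with h3 | h3
        · exact absurd (e2 ▸ h3) c.not_le₂₁
        · exact le_antisymm h2 h3
      · exact absurd (e2 ▸ h2) c'.not_le₁₂
    exact Or.inr ⟨e1, e2⟩

/-- `CutBy` depends only on the two components. -/
theorem cutBy_congr {c c' : A2.SSChart w B} {V₁ V₂ : ValuationSubring F}
    (h : CutBy w B c V₁ V₂) (h₁ : c'.p₁ = c.p₁) (h₂ : c'.p₂ = c.p₂) : CutBy w B c' V₁ V₂ where
  le₁ := h.le₁
  le₂ := h.le₂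
  cut₁ := fun b => by rw [h₁]; exact h.cut₁ b
  cut₂ := fun b => by rw [h₂]; exact h.cut₂ b

/-- `CutBy` with the components exchanged. -/
theorem cutBy_swap {c c' : A2.SSChart w B} {V₁ V₂ : ValuationSubring F}
    (h : CutBy w B c V₁ V₂) (h₁ : c'.p₁ = c.p₂) (h₂ : c'.p₂ = c.p₁) : CutBy w B c' V₂ V₁ where
  le₁ := h.le₂
  le₂ := h.le₁
  cut₁ := fun b => by rw [h₁]; exact h.cut₂ b
  cut₂ := fun b => by rw [h₂]; exact h.cut₁ b

/-- Cut data for one semistable chart gives cut data, in one of the two orders, for every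
semistable chart of the same `(w, B)`. -/
theorem cutBy_or_of_cutBy {c : A2.SSChart w B} {V₁ V₂ : ValuationSubring F}
    (h : CutBy w B c V₁ V₂) (c' : A2.SSChart w B) :
    CutBy w B c' V₁ V₂ ∨ CutBy w B c' V₂ V₁ := by
  rcases components_unique c' c with ⟨h₁, h₂⟩ | ⟨h₁, h₂⟩
  · exact Or.inl (cutBy_congr h h₁ h₂)
  · exact Or.inr (cutBy_swap h h₁ h₂)

end Abstract

/-! ## The charts of the standard coordinate -/

section Charts

variable {A : ValuationSubring _root_.Fermat.Agent.A2.Mod.Qb} {E : IntermediateField ℚ _root_.Fermat.Agent.A2.Mod.Qb} {M q : ℕ} [NeZero M] [NeZero q]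
  {w : RE A E}

/-- The chart (integral closure of `R_E[y]`, `y ∈ {x, x⁻¹}`) with ANY semistable structure has
its components cut out by `V∞` and `V₀ = V∞ ∘ W`, in one of the two orders. -/
theorem cutBy_of_isCoordPair (hS : Setting A E M q w) (h3 : q = 3 → 2 ∣ M) (h2 : q = 2 → 3 ∣ M)
    (V : ValuationSubring (FE E (M * q))) (W : FE E (M * q) ≃ₐ[E] FE E (M * q))
    (hV : IsVinf A E (M * q) V) (hW : IsFricke E (M * q) W)
    (yM : FE E M) (y : FE E (M * q)) (hy : IsCoordPair E M q yM y)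
    (B : Subalgebra (RE A E) (FE E (M * q)))
    (hB : ∀ f : FE E (M * q), f ∈ B ↔
      IsIntegral (Algebra.adjoin (RE A E) ({y} : Set (FE E (M * q)))) f)
    (c : A2.SSChart w B) :
    CutBy w B c V (V.comap (W : FE E (M * q) →+* FE E (M * q))) ∨
      CutBy w B c (V.comap (W : FE E (M * q) →+* FE E (M * q))) V := by
  have hBe : B = chartAlg A E (M * q) y := by
    ext f
    rw [hB f]
    exact Iff.rfl
  subst hBe
  obtain ⟨VM, hVM⟩ := H553.vinfExists A E M hS.M_ne_zero hS.dvr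
  obtain ⟨hg₁, hg₂⟩ := H216.goodRedHyp_of_dvr A E M hS.q_prime hS.q_not_dvd h3 h2
    hS.lies_over hS.dvr w VM hS.unif hVM
  have hg : GoodRedAt A E M w VM yM := by
    rcases hy with ⟨h, -⟩ | ⟨h, -⟩
    · rw [h]; exact hg₁
    · rw [h]; exact hg₂
  obtain ⟨c₀, hc₀⟩ := Fermat.Agent.S35.G.H862.exists_chart_cutBy hS
    (Fermat.Agent.S35.G.H862.s1 A E M q w) (H142.s2 A E M q w)
    (Fermat.Agent.S35.G.H862.s3 A E M q w) VM V W hVM hV hW yM y hy hg
  exact cutBy_or_of_cutBy hc₀ c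

end Charts

/-! ## The standard model -/

section Std

open Fermat.Agent.Ribet.H103.S2 (stdCoord)

/-- The standard coordinate of `H103.S2Spec` is the coordinate `x = j · j_q` of `A2/Mod`. -/
theorem stdCoord_eq_xE (E : IntermediateField ℚ _root_.Fermat.Agent.A2.Mod.Qb) (M q : ℕ) [NeZero M] [NeZero q]
    (h : q ∣ M * q) : stdCoord E (M * q) q h = xE E M q := rfl

/-- The `Setting` of `A2/Mod` at a good level. -/
theorem setting_of_goodField {A : ValuationSubring _root_.Fermat.Agent.A2.Mod.Qb} {E : IntermediateField ℚ _root_.Fermat.Agent.A2.Mod.Qb} {M q : ℕ}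
    (hq : q.Prime) (hqM : ¬ q ∣ M) (hM : M ≠ 0) (hA : A.LiesOverPrime q)
    (hE : A2.GoodField A E) {w : RE A E} (hw : Irreducible w) : Setting A E M q w :=
  { q_prime := hq
    q_not_dvd := hqM
    M_ne_zero := hM
    lies_over := hA
    dvr := hE.dvr
    unif := hw }

/-- **Cut data for ANY standard model** at level `M * q`. -/
theorem cutBy_of_std_mul (A : ValuationSubring _root_.Fermat.Agent.A2.Mod.Qb) (E : IntermediateField ℚ _root_.Fermat.Agent.A2.Mod.Qb) (M q : ℕ)
    [NeZero M] [NeZero q] (hq : q.Prime) (hqM : ¬ q ∣ M) (h3 : q = 3 → 2 ∣ M)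
    (h2 : q = 2 → 3 ∣ M) (hA : A.LiesOverPrime q) (hE : A2.GoodField A E)
    (D : A2.ModSSData A E (M * q)) (hD : D.x = xE E M q)
    (V : ValuationSubring (FE E (M * q))) (W : FE E (M * q) ≃ₐ[E] FE E (M * q))
    (hV : IsVinf A E (M * q) V) (hW : IsFricke E (M * q) W)
    (w : RE A E) (hw : Irreducible w) :
    (∀ c : A2.SSChart w D.Bf,
      CutBy w D.Bf c V (V.comap (W : FE E (M * q) →+* FE E (M * q))) ∨
        CutBy w D.Bf c (V.comap (W : FE E (M * q) →+* FE E (M * q))) V) ∧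
    (∀ c : A2.SSChart w D.Bi,
      CutBy w D.Bi c V (V.comap (W : FE E (M * q) →+* FE E (M * q))) ∨
        CutBy w D.Bi c (V.comap (W : FE E (M * q) →+* FE E (M * q))) V) := by
  have hS := setting_of_goodField hq hqM (NeZero.ne M) hA hE hw
  refine ⟨fun c => ?_, fun c => ?_⟩
  · exact cutBy_of_isCoordPair hS h3 h2 V W hV hW _ _ (Or.inl ⟨rfl, rfl⟩) D.Bf
      (fun f => by rw [D.hBf f, hD]) c
  · exact cutBy_of_isCoordPair hS h3 h2 V W hV hW _ _ (Or.inr ⟨rfl, rfl⟩) D.Bi
      (fun f => by rw [D.hBi f, hD]) c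

/-- **The standard model** at level `M * q`, with its cut data. -/
theorem stdModel_mul (A : ValuationSubring _root_.Fermat.Agent.A2.Mod.Qb) (E : IntermediateField ℚ _root_.Fermat.Agent.A2.Mod.Qb) (M q : ℕ)
    [NeZero M] [NeZero q] (hq : q.Prime) (hqM : ¬ q ∣ M) (h3 : q = 3 → 2 ∣ M)
    (h2 : q = 2 → 3 ∣ M) (hA : A.LiesOverPrime q) (hE : A2.GoodField A E) :
    ∃ (D : A2.ModSSData A E (M * q)) (V : ValuationSubring (FE E (M * q)))
      (W : FE E (M * q) ≃ₐ[E] FE E (M * q)),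
      D.x = xE E M q ∧ IsVinf A E (M * q) V ∧ IsFricke E (M * q) W ∧
      ∀ w : RE A E, Irreducible w →
        ∃ (cf : A2.SSChart w D.Bf) (ci : A2.SSChart w D.Bi),
          CutBy w D.Bf cf V (V.comap (W : FE E (M * q) →+* FE E (M * q))) ∧
          CutBy w D.Bi ci V (V.comap (W : FE E (M * q) →+* FE E (M * q))) := by
  have hN : M * q ≠ 0 := mul_ne_zero (NeZero.ne M) hq.ne_zero
  obtain ⟨V, hV⟩ := H553.vinfExists A E (M * q) hN hE.dvr
  obtain ⟨VM, hVM⟩ := H553.vinfExists A E M (NeZero.ne M) hE.dvr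
  obtain ⟨W, hW⟩ := H751.frickeExists E (M * q) hN
  have hgood : GoodRedHyp A E M := H216.goodRedHyp_of_dvr A E M hq hqM h3 h2 hA hE.dvr
  have hS : ∀ w : RE A E, Irreducible w → Setting A E M q w := fun w hw =>
    setting_of_goodField hq hqM (NeZero.ne M) hA hE hw
  have hs1 : ∀ w : RE A E, S1Statement A E M q w := fun w =>
    Fermat.Agent.S35.G.H862.s1 A E M q w
  have hs3 : ∀ w : RE A E, S3Statement A E M q w := fun w =>
    Fermat.Agent.S35.G.H862.s3 A E M q w
  obtain ⟨hx, hfr, hconst⟩ := H31.deg E M q hq hqM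
  haveI : IsDiscreteValuationRing ↥(RE A E) := hE.dvr
  obtain ⟨w₀, hw₀⟩ := IsDiscreteValuationRing.exists_irreducible (RE A E)
  have hpos : 0 < Module.finrank (IntermediateField.adjoin E ({xE E M q} : Set (FE E (M * q))))
      (FE E (M * q)) := by
    rw [hfr]
    have h1 := dedekindPsi_pos_of_ne_zero M (NeZero.ne M)
    positivity
  have hfin : FiniteDimensional (IntermediateField.adjoin E ({xE E M q} : Set (FE E (M * q))))
      (FE E (M * q)) := Module.finite_of_finrank_pos hpos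
  have hg₀ := hgood w₀ VM hw₀ hVM
  have hsep := H732.s4 A E M q w₀ (hS w₀ hw₀) VM hVM hg₀.1 hg₀.2
  have hSτ : ∀ w : RE A E, StauStatement A E M q w := fun w =>
    H751.stau_of_s1 A E M q w (hs1 w)
  have hchart : ∀ (w : RE A E) (hw : Irreducible w) (yM : FE E M) (y : FE E (M * q)),
      IsCoordPair E M q yM y → GoodRedAt A E M w VM yM →
      ∃ c : A2.SSChart w (chartAlg A E (M * q) y),
        CutBy w (chartAlg A E (M * q) y) c V (V.comap (W : FE E (M * q) →+* FE E (M * q))) :=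
    fun w hw yM y hy hg =>
      Fermat.Agent.S35.G.H862.exists_chart_cutBy (hS w hw) (hs1 w) (H142.s2 A E M q w) (hs3 w)
        VM V W hVM hV hW yM y hy hg
  refine ⟨{ x := xE E M q
            hx := hx
            hfin := hfin
            hconst := hconst
            Bf := chartAlg A E (M * q) (xE E M q)
            Bi := chartAlg A E (M * q) (xE E M q)⁻¹
            hBf := fun _ => Iff.rfl
            hBi := fun _ => Iff.rfl
            cf := fun w hw =>
              (hchart w hw _ _ (Or.inl ⟨rfl, rfl⟩) (hgood w VM hw hVM).1).elim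
                fun c _ => ⟨c⟩
            ci := fun w hw =>
              (hchart w hw _ _ (Or.inr ⟨rfl, rfl⟩) (hgood w VM hw hVM).2).elim
                fun c _ => ⟨c⟩
            sf := hsep.1
            si := hsep.2
            hτx := fun hE' τ hτ => ((hSτ w₀) (hS w₀ hw₀) τ (hE'.res τ hτ) hτ (fun _ => rfl)).1
            hτf := fun hE' τ hτ w hw b hb =>
              ((hSτ w) (hS w hw) τ (hE'.res τ hτ) hτ (fun _ => rfl)).2 _ (Or.inl rfl) b hb
            hτi := fun hE' τ hτ w hw b hb =>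
              ((hSτ w) (hS w hw) τ (hE'.res τ hτ) hτ (fun _ => rfl)).2 _ (Or.inr rfl) b hb },
    V, W, rfl, hV, hW, fun w hw => ?_⟩
  obtain ⟨cf, hcf⟩ := hchart w hw _ _ (Or.inl ⟨rfl, rfl⟩) (hgood w VM hw hVM).1
  obtain ⟨ci, hci⟩ := hchart w hw _ _ (Or.inr ⟨rfl, rfl⟩) (hgood w VM hw hVM).2
  exact ⟨cf, ci, hcf, hci⟩

/-- **STD-MODEL.**  At every level `N` with `q ‖ N` carrying the auxiliary prime, over every good
level `E`: a semistable model with the standard coordinate `j · j_q`, the Gauss valuation ring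
`V∞`, the Fricke involution `W`, and for every uniformiser `w` charts `cf`, `ci` whose components
are cut out by `V∞` (first) and `V₀ = V∞ ∘ W` (second). -/
theorem stdModel (A : ValuationSubring _root_.Fermat.Agent.A2.Mod.Qb) (E : IntermediateField ℚ _root_.Fermat.Agent.A2.Mod.Qb) (N q : ℕ) [NeZero q]
    (hq : q.Prime) (hqN : q ∣ N) (hq2 : ¬ q ^ 2 ∣ N) (hN : N ≠ 0)
    (h3 : q = 3 → 2 ∣ N) (h2 : q = 2 → 3 ∣ N) (hA : A.LiesOverPrime q)
    (hE : A2.GoodField A E) :
    ∃ (D : A2.ModSSData A E N) (V : ValuationSubring (FE E N)) (W : FE E N ≃ₐ[E] FE E N),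
      D.x = stdCoord E N q hqN ∧ IsVinf A E N V ∧ IsFricke E N W ∧
      ∀ w : RE A E, Irreducible w →
        ∃ (cf : A2.SSChart w D.Bf) (ci : A2.SSChart w D.Bi),
          CutBy w D.Bf cf V (V.comap (W : FE E N →+* FE E N)) ∧
          CutBy w D.Bi ci V (V.comap (W : FE E N →+* FE E N)) := by
  obtain ⟨M, hM⟩ := id hqN
  have hNM : N = M * q := by rw [hM, mul_comm]
  subst hNM
  have hM0 : M ≠ 0 := fun h => hN (by rw [h, zero_mul])
  haveI : NeZero M := ⟨hM0⟩
  have hqM : ¬ q ∣ M := by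
    rintro ⟨c, hc⟩
    exact hq2 ⟨c, by rw [hc]; ring⟩
  have h3' : q = 3 → 2 ∣ M := by
    intro h
    have h2N := h3 h
    subst h
    exact (Nat.Coprime.dvd_mul_right (by norm_num : Nat.Coprime 2 3)).1 h2N
  have h2' : q = 2 → 3 ∣ M := by
    intro h
    have h3N := h2 h
    subst h
    exact (Nat.Coprime.dvd_mul_right (by norm_num : Nat.Coprime 3 2)).1 h3N
  exact stdModel_mul A E M q hq hqM h3' h2' hA hE

/-- **Cut data for ANY standard model.**  For any `D : A2.ModSSData A E N` with the standard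
coordinate, any Gauss valuation ring `V∞`, Fricke involution `W`, uniformiser `w` and ANY
semistable charts of `D.Bf`, `D.Bi`: the two components are cut out by `V∞`, `V₀ = V∞ ∘ W` in one
of the two orders. -/
theorem cutBy_of_std (A : ValuationSubring _root_.Fermat.Agent.A2.Mod.Qb) (E : IntermediateField ℚ _root_.Fermat.Agent.A2.Mod.Qb) (N q : ℕ) [NeZero q]
    (hq : q.Prime) (hqN : q ∣ N) (hq2 : ¬ q ^ 2 ∣ N) (hN : N ≠ 0)
    (h3 : q = 3 → 2 ∣ N) (h2 : q = 2 → 3 ∣ N) (hA : A.LiesOverPrime q)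
    (hE : A2.GoodField A E)
    (D : A2.ModSSData A E N) (hD : D.x = stdCoord E N q hqN)
    (V : ValuationSubring (FE E N)) (W : FE E N ≃ₐ[E] FE E N)
    (hV : IsVinf A E N V) (hW : IsFricke E N W) (w : RE A E) (hw : Irreducible w) :
    (∀ c : A2.SSChart w D.Bf,
      CutBy w D.Bf c V (V.comap (W : FE E N →+* FE E N)) ∨
        CutBy w D.Bf c (V.comap (W : FE E N →+* FE E N)) V) ∧
    (∀ c : A2.SSChart w D.Bi,
      CutBy w D.Bi c V (V.comap (W : FE E N →+* FE E N)) ∨
        CutBy w D.Bi c (V.comap (W : FE E N →+* FE E N)) V) := by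
  obtain ⟨M, hM⟩ := id hqN
  have hNM : N = M * q := by rw [hM, mul_comm]
  subst hNM
  have hM0 : M ≠ 0 := fun h => hN (by rw [h, zero_mul])
  haveI : NeZero M := ⟨hM0⟩
  have hqM : ¬ q ∣ M := by
    rintro ⟨c, hc⟩
    exact hq2 ⟨c, by rw [hc]; ring⟩
  have h3' : q = 3 → 2 ∣ M := by
    intro h
    have h2N := h3 h
    subst h
    exact (Nat.Coprime.dvd_mul_right (by norm_num : Nat.Coprime 2 3)).1 h2N
  have h2' : q = 2 → 3 ∣ M := by
    intro h
    have h3N := h2 h
    subst h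
    exact (Nat.Coprime.dvd_mul_right (by norm_num : Nat.Coprime 3 2)).1 h3N
  exact cutBy_of_std_mul A E M q hq hqM h3' h2' hA hE D hD V W hV hW w hw

end Std

end Fermat.Agent.Ribet.H862

end

end
-- ===== PACK-END Ribet/H862/StdModel.lean

-- ===== PACK-BEGIN Ribet/H39/TameSplit.lean
section



/-!
# Row 38, WALL-p: (S4-TAME) is FREE, `splitPart` form  (helper39)

`mem_splitPart_of_cyclo` : a `p`-torsion class `t ∈ J₀(pM')` on which the inertia group at a place
`A` over `p` acts through the mod-`p` cyclotomic character lies in `H884.splitPart p M' A`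
(hence in `H884.finPart p M' A`).  No Hecke, no newness, no non-Eisenstein hypothesis.
-/

set_option autoImplicit false

namespace Fermat.Agent.Ribet.H39

open Fermat.Agent.Ribet.Spec Fermat.Agent.Ribet.H944.Wall Fermat.Agent.Ribet.H884 ModularCurve

/-- A class of multiplicative type at `p` lies in the split part `𝒮`. -/
theorem mem_splitPart_of_cyclo (p M' : ℕ) [NeZero M'] [NeZero p] [NeZero (p * M')]
    (hp : p.Prime) (hp2 : p ≠ 2) (hpM : ¬ p ∣ M')
    (A : ValuationSubring (AlgebraicClosure ℚ)) (hA : A.LiesOverPrime p)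
    (t : JZero (p * M')) (hpt : p • t = 0)
    (hχ : ∀ σ ∈ A.inertiaSubgroupIn ℚ, ∀ c : ℕ, CycloAt p σ c → σ • t = c • t) :
    t ∈ splitPart p M' A :=
  mem_of_cyclo_of_s1For p M' hp hp2 A hA (splitPart p M' A) (s1 p M' hp hpM A hA) t hpt hχ

/-- A class of multiplicative type at `p` lies in the finite part `𝓕`. -/
theorem mem_finPart_of_cyclo (p M' : ℕ) [NeZero M'] [NeZero p] [NeZero (p * M')]
    (hp : p.Prime) (hp2 : p ≠ 2) (hpM : ¬ p ∣ M')
    (A : ValuationSubring (AlgebraicClosure ℚ)) (hA : A.LiesOverPrime p)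
    (t : JZero (p * M')) (hpt : p • t = 0)
    (hχ : ∀ σ ∈ A.inertiaSubgroupIn ℚ, ∀ c : ℕ, CycloAt p σ c → σ • t = c • t) :
    t ∈ finPart p M' A :=
  splitPart_le_finPart p M' A (mem_splitPart_of_cyclo p M' hp hp2 hpM A hA t hpt hχ)

end Fermat.Agent.Ribet.H39

end
-- ===== PACK-END Ribet/H39/TameSplit.lean

-- ===== PACK-BEGIN Ribet/H339/DeepSplitCore.lean
section
/-
# RIBET row 38, WALL-p, (S4) CORE-OUT WILD, piece DEEP-SPLIT: the core  (helper339)

Second, independent assembly of "the `lc`-`1` Kummer generator `f_t` of a new, non-Eisenstein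
eigenclass is DEEP SPLIT at a GIVEN good level `E`" from the leaves on main:

* `H801.alphaPushTo_mk_eq_zero_iff` / `betaPushTo_mk_eq_zero_iff` (new ⟹ norms are `p`-th powers
  over `ℚ̄`), `S35.H858.iota_normAlong_alpha/beta` (norms commute with `E ⊆ ℚ̄`),
* `H339.exists_const_mul_pow339` (descent of `p`-th roots: the norms are constants times `p`-th
  powers AT THE LEVEL `E`),
* `H944.LcConst.deepSplit_lc` (norm contraction `H232.wnc_both` + NORM-CONST `H703` + LC-CONST).

Output (`deepSplit_to339`): for every `s` ONE `g ≠ 0` with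
`u / g ^ p ∈ (1 + w ^ s V∞) ∩ (1 + w ^ s V₀)`; the `J`-side lives at a level `N₁`, the function
field side at a level `N₂`, both presentations of `M * p` (e.g. `N₁ = p * M'`, `N₂ = M' * p`).
-/





set_option autoImplicit false
set_option linter.style.haveILetI false
set_option linter.unusedSectionVars false
set_option synthInstance.maxHeartbeats 400000
set_option maxHeartbeats 1600000

noncomputable section

namespace Fermat.Agent.Ribet.H339

open AlgebraicCurve ModularCurve HahnSeries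
open Fermat.Agent.S24 Fermat.Agent.A2.H528 Fermat.Agent.S29.H395
open Fermat.Agent.A2 Fermat.Agent.A2.Mod Fermat.Agent.Ribet.H232

section Norms

variable (E : IntermediateField ℚ _root_.Fermat.Agent.A2.Mod.Qb) (M p : ℕ) [NeZero M] [NeZero p]

/-- **Norm along `α` at the level `E`**: if `α_* [D] = 0`, `div (ι u) = p D`, then
`N_α u = e · h ^ p` with `e ∈ E`, `h ∈ F_{M,E}`. -/
theorem normAlpha_of_new339 (hp0 : p ≠ 0) (u : _root_.Fermat.Agent.A2.Mod.FE E (M * p)) (hu : u ≠ 0)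
    (D : Divisor.degZero (K := Kbar) (F := FF (M * p)))
    (hD : ∀ v : Place Kbar (FF (M * p)),
      v.ord (T1.H669.iota E (modularFunctionFieldFull (M * p)) u)
        = (p : ℤ) * (D : Divisor Kbar (FF (M * p))) v)
    (hα : Fermat.Agent.Ribet.H801.alphaPushTo M p (M * p) rfl (Pic0.mk D) = 0) :
    ∃ (e : E) (h : _root_.Fermat.Agent.A2.Mod.FE E M), normAlpha E M p u = algebraMap E (_root_.Fermat.Agent.A2.Mod.FE E M) e * h ^ p := by
  have hu' : T1.H669.iota E (modularFunctionFieldFull (M * p)) u ≠ 0 :=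
    T1.H669.iota_ne_zero E _ hu
  obtain ⟨g, -, hg⟩ := (Fermat.Agent.Ribet.H801.alphaPushTo_mk_eq_zero_iff M p (M * p) rfl hp0 D
    hu' (fun v => (hD v).symm)).1 hα
  rw [Fermat.Agent.S29.H801.alphaTo_rfl] at hg
  have h1 : T1.H669.iota E (modularFunctionFieldFull M) (normAlong (heckeAlphaBar E M p) u)
      = g ^ p := by
    rw [Fermat.Agent.S35.H858.iota_normAlong_alpha E M p
      (Fermat.Agent.Lib.HI.H864.finiteAlong_alpha M p) u]
    exact hg
  have hN0 : normAlong (heckeAlphaBar E M p) u ≠ 0 := by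
    intro h0
    rw [h0, map_zero] at h1
    have hNQ : normAlong (heckeAlphaBar Kbar M p)
        (T1.H669.iota E (modularFunctionFieldFull (M * p)) u) ≠ 0 :=
      Fermat.Agent.Ribet.H703.normAlong_ne_zero703 _ hu'
    rw [hg] at hNQ
    exact hNQ h1.symm
  obtain ⟨e, h, -, -, heq⟩ := exists_const_mul_pow339 E (modularFunctionFieldFull M) p hp0
    (normAlong (heckeAlphaBar E M p) u) hN0 g h1
  exact ⟨e, h, heq⟩

/-- **Norm along `β` at the level `E`.** -/
theorem normBeta_of_new339 (hp0 : p ≠ 0) (u : _root_.Fermat.Agent.A2.Mod.FE E (M * p)) (hu : u ≠ 0)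
    (D : Divisor.degZero (K := Kbar) (F := FF (M * p)))
    (hD : ∀ v : Place Kbar (FF (M * p)),
      v.ord (T1.H669.iota E (modularFunctionFieldFull (M * p)) u)
        = (p : ℤ) * (D : Divisor Kbar (FF (M * p))) v)
    (hβ : Fermat.Agent.Ribet.H801.betaPushTo M p (M * p) rfl (Pic0.mk D) = 0) :
    ∃ (e : E) (h : _root_.Fermat.Agent.A2.Mod.FE E M), normBeta E M p u = algebraMap E (_root_.Fermat.Agent.A2.Mod.FE E M) e * h ^ p := by
  have hu' : T1.H669.iota E (modularFunctionFieldFull (M * p)) u ≠ 0 :=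
    T1.H669.iota_ne_zero E _ hu
  obtain ⟨g, -, hg⟩ := (Fermat.Agent.Ribet.H801.betaPushTo_mk_eq_zero_iff M p (M * p) rfl hp0 D
    hu' (fun v => (hD v).symm)).1 hβ
  rw [Fermat.Agent.S29.H801.betaTo_rfl] at hg
  have h1 : T1.H669.iota E (modularFunctionFieldFull M) (normAlong (heckeBetaBar E M p) u)
      = g ^ p := by
    rw [Fermat.Agent.S35.H858.iota_normAlong_beta E M p
      (Fermat.Agent.Lib.HI.H864.finiteAlong_beta M p) u]
    exact hg
  have hN0 : normAlong (heckeBetaBar E M p) u ≠ 0 := by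
    intro h0
    rw [h0, map_zero] at h1
    have hNQ : normAlong (heckeBetaBar Kbar M p)
        (T1.H669.iota E (modularFunctionFieldFull (M * p)) u) ≠ 0 :=
      Fermat.Agent.Ribet.H703.normAlong_ne_zero703 _ hu'
    rw [hg] at hNQ
    exact hNQ h1.symm
  obtain ⟨e, h, -, -, heq⟩ := exists_const_mul_pow339 E (modularFunctionFieldFull M) p hp0
    (normAlong (heckeBetaBar E M p) u) hN0 g h1
  exact ⟨e, h, heq⟩

end Norms

section Core

variable {P : ValuationSubring _root_.Fermat.Agent.A2.Mod.Qb} {E : IntermediateField ℚ _root_.Fermat.Agent.A2.Mod.Qb} {M p : ℕ} [NeZero M] [NeZero p]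
  {w : _root_.Fermat.Agent.A2.Mod.RE P E}

/-- **DEEP-SPLIT, core** (everything at the level `M * p`). -/
theorem deepSplit_core339 (ℓ : ℕ) [NeZero ℓ] (hS : Setting P E M p w)
    {VM : ValuationSubring (_root_.Fermat.Agent.A2.Mod.FE E M)}
    {V : ValuationSubring (_root_.Fermat.Agent.A2.Mod.FE E (M * p))} (hVM : IsVinf P E M VM) (hV : IsVinf P E (M * p) V)
    {W : _root_.Fermat.Agent.A2.Mod.FE E (M * p) ≃ₐ[E] _root_.Fermat.Agent.A2.Mod.FE E (M * p)} (hW : IsFricke E (M * p) W)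
    (hp : p.Prime) (hp2 : p ≠ 2) (hpM : ¬ p ∣ M) (hℓ : ℓ.Prime)
    (hℓN : ¬ ℓ ∣ M * p) {u : _root_.Fermat.Agent.A2.Mod.FE E (M * p)} (hu : u ≠ 0)
    (D : Divisor.degZero (K := Kbar) (F := FF (M * p)))
    (hD : ∀ v : Place Kbar (FF (M * p)),
      v.ord (T1.H669.iota E (modularFunctionFieldFull (M * p)) u)
        = (p : ℤ) * (D : Divisor Kbar (FF (M * p))) v)
    (a : ℤ) (hT : heckeOperatorBar (M * p) ⟨ℓ, hℓ⟩ (Pic0.mk D) = a • Pic0.mk D)
    (hNE : ¬ (p : ℤ) ∣ a - (ℓ + 1))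
    (hα : Fermat.Agent.Ribet.H801.alphaPushTo M p (M * p) rfl (Pic0.mk D) = 0)
    (hβ : Fermat.Agent.Ribet.H801.betaPushTo M p (M * p) rfl (Pic0.mk D) = 0)
    (h1 : DepthE w p V 1 u ∨
      DepthE w p (V.comap (W : _root_.Fermat.Agent.A2.Mod.FE E (M * p) →+* _root_.Fermat.Agent.A2.Mod.FE E (M * p))) 1 u)
    (c : E) (hlc : (u : LaurentSeries E).leadingCoeff = c ^ p) (s : ℕ) :
    ∃ g : _root_.Fermat.Agent.A2.Mod.FE E (M * p), g ≠ 0 ∧
      (u * (g ^ p)⁻¹ - 1) * (cE P E (M * p) w ^ s)⁻¹ ∈ V ∧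
      (u * (g ^ p)⁻¹ - 1) * (cE P E (M * p) w ^ s)⁻¹
        ∈ V.comap (W : _root_.Fermat.Agent.A2.Mod.FE E (M * p) →+* _root_.Fermat.Agent.A2.Mod.FE E (M * p)) := by
  obtain ⟨eα, hA, hNα⟩ := normAlpha_of_new339 E M p hp.ne_zero u hu D hD hα
  obtain ⟨eβ, hB, hNβ⟩ := normBeta_of_new339 E M p hp.ne_zero u hu D hD hβ
  exact Fermat.Agent.Ribet.H944.LcConst.deepSplit_lc ℓ hS hVM hV hW hp hp2 hpM hℓ hℓN hu D hD a
    hT hNE hNα hNβ h1 c hlc s

end Core

section To

variable {P : ValuationSubring _root_.Fermat.Agent.A2.Mod.Qb} {E : IntermediateField ℚ _root_.Fermat.Agent.A2.Mod.Qb} {M p : ℕ} [NeZero M] [NeZero p]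
  {w : _root_.Fermat.Agent.A2.Mod.RE P E}

/-- **DEEP-SPLIT, consumer form.**  The class `t ∈ J₀(N₁)`, its Kummer generator `f` (level
`N₁`), and the rational model `u ∈ F_{N₂,E}` of `f` (same `t`-expansion), `N₁`, `N₂` two
presentations of the level `M * p`. -/
theorem deepSplit_to339 {N₁ N₂ : ℕ} [NeZero N₁] [NeZero N₂] (h₁ : M * p = N₁) (h₂ : M * p = N₂)
    (ℓ : ℕ) [NeZero ℓ] (hS : Setting P E M p w)
    {VM : ValuationSubring (_root_.Fermat.Agent.A2.Mod.FE E M)}
    {V : ValuationSubring (_root_.Fermat.Agent.A2.Mod.FE E N₂)} (hVM : IsVinf P E M VM) (hV : IsVinf P E N₂ V)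
    {W : _root_.Fermat.Agent.A2.Mod.FE E N₂ ≃ₐ[E] _root_.Fermat.Agent.A2.Mod.FE E N₂} (hW : IsFricke E N₂ W)
    (hp : p.Prime) (hp2 : p ≠ 2) (hpM : ¬ p ∣ M) (hℓ : ℓ.Prime) (hℓN : ¬ ℓ ∣ M * p)
    (t : JZero N₁) (f : FF N₁) (hK : Fermat.Agent.Ribet.H884.IsKummerGen N₁ p f t)
    (a : ℤ) (hT : heckeOperatorBar N₁ ⟨ℓ, hℓ⟩ t = a • t)
    (hNE : ¬ (p : ℤ) ∣ a - (ℓ + 1))
    (hα : Fermat.Agent.Ribet.H801.alphaPushTo M p N₁ h₁ t = 0)
    (hβ : Fermat.Agent.Ribet.H801.betaPushTo M p N₁ h₁ t = 0)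
    {u : _root_.Fermat.Agent.A2.Mod.FE E N₂}
    (hfu : (f : LaurentSeries Kbar) = coeffMap (algebraMap E Kbar) (u : LaurentSeries E))
    (h1 : DepthE w p V 1 u ∨ DepthE w p (V.comap (W : _root_.Fermat.Agent.A2.Mod.FE E N₂ →+* _root_.Fermat.Agent.A2.Mod.FE E N₂)) 1 u)
    (c : E) (hlc : (u : LaurentSeries E).leadingCoeff = c ^ p) (s : ℕ) :
    ∃ g : _root_.Fermat.Agent.A2.Mod.FE E N₂, g ≠ 0 ∧
      (u * (g ^ p)⁻¹ - 1) * (cE P E N₂ w ^ s)⁻¹ ∈ V ∧
      (u * (g ^ p)⁻¹ - 1) * (cE P E N₂ w ^ s)⁻¹ ∈ V.comap (W : _root_.Fermat.Agent.A2.Mod.FE E N₂ →+* _root_.Fermat.Agent.A2.Mod.FE E N₂) := by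
  subst h₁
  subst h₂
  obtain ⟨hf0, D, rfl, hD⟩ := hK
  have hfu' : f = T1.H669.iota E (modularFunctionFieldFull (M * p)) u := Subtype.ext hfu
  have hu : u ≠ 0 := by
    rintro rfl
    rw [map_zero] at hfu'
    exact hf0 hfu'
  exact deepSplit_core339 ℓ hS hVM hV hW hp hp2 hpM hℓ hℓN hu D (fun v => by rw [← hfu']; exact hD v)
    a hT hNE hα hβ h1 c hlc s

end To

end Fermat.Agent.Ribet.H339

end

end
-- ===== PACK-END Ribet/H339/DeepSplitCore.lean

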