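import Fermat.Agent.Pack.S44.G0E27L2
import Fermat.Agent.Pack.S44.G0E28L1
import Fermat.Agent.Pack.S44.G0E27L3
import Fermat.Agent.Pack.S44.G0E26L3
import Fermat.Agent.Pack.S44.G0E26L2
import Fermat.Agent.Pack.S44.G0E25L2
import Fermat.Agent.Pack.S44.G0E12L0
import Fermat.Agent.Pack.S44.G0E16L3
import Fermat.Agent.Pack.S44.G0E28L3
import Fermat.Agent.Pack.S44.G0E24L1
import Fermat.Agent.Pack.S44.G0E8L3
import Fermat.Agent.Pack.S44.G0E23L2
import Fermat.Agent.Pack.S44.G0E28L0
import Fermat.Agent.Pack.S44.G0E25L3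
import Fermat.Agent.Pack.S44.G0E26L0
import Fermat.Agent.Pack.S44.G0E21L0
import Fermat.Agent.Pack.S44.G0E8L2
import Fermat.Agent.Pack.S44.G0E24L0

-- ===== PACK-BEGIN S29/M4b/K3/Final.lean
section
/-
S29 row, M4b, piece K3 — `PieceK3 N p` from the single remaining sub-piece `K3-DFROM` (helper42).
-/



set_option autoImplicit false

noncomputable section

open ModularCurve AlgebraicCurve CongruenceSubgroup UpperHalfPlane
open scoped MatrixGroups Manifold

namespace Fermat.Agent.S29.M4b.K3

open Fermat.Agent.S24 Fermat.Agent.S29 Fermat.Agent.S29.M4b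

/-- **PIECE K3** in the `Prop` form of `M4b/Top.lean`, from `K3-DFROM`. -/
theorem pieceK3_of_dfrom (N : ℕ) [NeZero N] (p : ℕ) [NeZero p] (hd : DFromStatement N p) :
    PieceK3 N p :=
  pieceK3_of_fin N p (finStatement_of_dfrom N p hd)

end Fermat.Agent.S29.M4b.K3

end
end
-- ===== PACK-END S29/M4b/K3/Final.lean

-- ===== PACK-BEGIN S29/M4b/K3/Piece.lean
section
/-
S29 row, M4b, **PIECE K3 — unconditional** (helper42).

`pieceK3 N p : M4b.PieceK3 N p`, from the K3 sub-skeleton (`pieceK3_of_dfrom`, this directory) and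
the landed sub-piece K3-DFROM (`H282.exists_root_of_forall_dvd_ord`, helper282).
-/



set_option autoImplicit false

noncomputable section

open ModularCurve AlgebraicCurve CongruenceSubgroup UpperHalfPlane
open scoped MatrixGroups Manifold

namespace Fermat.Agent.S29.M4b.K3

open Fermat.Agent.S24 Fermat.Agent.S29 Fermat.Agent.S29.M4b

/-- **K3-DFROM** (helper282's theorem in the shape of `Fin.lean`). -/
theorem dFromStatement (N : ℕ) [NeZero N] (p : ℕ) [NeZero p] : DFromStatement N p := by
  intro f hf hdvd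
  obtain ⟨s, hs, hs0, V, hVm, -, hVg, hq, -⟩ :=
    H282.exists_root_of_forall_dvd_ord N p f.2 (fun h => hf (Subtype.ext h)) hdvd
  exact ⟨s, hs, hs0, V, hVm, hVg, hq⟩

/-- **K3-FIN**, unconditional. -/
theorem finStatement (N : ℕ) [NeZero N] (p : ℕ) [NeZero p] : FinStatement N p :=
  finStatement_of_dfrom N p (dFromStatement N p)

/-- **PIECE K3** of sub-layer M4b (exact `Prop` of `M4b/Top.lean`), unconditional. -/
theorem pieceK3 (N : ℕ) [NeZero N] (p : ℕ) [NeZero p] : PieceK3 N p :=
  pieceK3_of_dfrom N p (dFromStatement N p)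

end Fermat.Agent.S29.M4b.K3

end
end
-- ===== PACK-END S29/M4b/K3/Piece.lean

-- ===== PACK-BEGIN S30/Chain/Package.lean
section
/-
S30 — squad-lead chain (helper49): the Kummer packages `H450.KumPackage N m` at EVERY modulus
`m ≠ 0`, UNCONDITIONALLY, from the landed pieces of S29 sub-layer M4b:

* `ex`    : K1 (`H509.exists_isTwisted`) + K3 (`M4b.K3.pieceK3_of_dfrom` on `H282` DFROM)
            + K2 (`H389.exists_isKummerClass_of_realised`);
* `uniq`, `inj`, `add` : `M4b.H822.pieceUniq / pieceInj / pieceAdd`;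
* `hecke` : `M4b.H395.isKum_hecke`.

Together with ONTO (`H810.exists_isKum_of_torsion`) this discharges inputs (K') and (F) of the adic
module layer, so that the frozen S30 follows from input (T) alone (`Chain/FromT.lean`).
-/








set_option autoImplicit false

noncomputable section

open ModularCurve AlgebraicCurve CongruenceSubgroup UpperHalfPlane
open scoped MatrixGroups Manifold

namespace Fermat.Agent.S30.Chain

open Fermat.Agent.S24 Fermat.Agent.S29 Fermat.Agent.S29.M4b

/-- K3-DFROM in the `Prop` form of `M4b/K3/Fin.lean` (from helper282's `DFrom`). -/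
theorem dfromStatement (N : ℕ) [NeZero N] (p : ℕ) [NeZero p] : K3.DFromStatement N p := by
  intro f hf0 hdvd
  have hf0' : (f : LaurentSeries ℂ) ≠ 0 := fun h => hf0 (Subtype.ext h)
  obtain ⟨s, hs, hs0, V, hV, -, hVg, hq, -⟩ :=
    Fermat.Agent.S29.H282.exists_root_of_forall_dvd_ord N p f.2 hf0' hdvd
  exact ⟨s, hs, hs0, V, hV, hVg, hq⟩

/-- PIECE K3 at every modulus `p ≠ 0`, unconditionally. -/
theorem pieceK3 (N : ℕ) [NeZero N] (p : ℕ) [NeZero p] : PieceK3 N p :=
  K3.pieceK3_of_dfrom N p (dfromStatement N p)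

/-- Existence of the Kummer class of a parabolic character, at every modulus `p ≠ 0`. -/
theorem isKum_exists (N : ℕ) [NeZero N] (p : ℕ) [NeZero p] {c : G0 N → ZMod p}
    (hc : IsParHom c) : ∃ x : JZero N, IsKum N p c x := by
  obtain ⟨U, hU⟩ := Fermat.Agent.S29.H509.exists_isTwisted N p hc
  obtain ⟨U', u, hU', hu⟩ := pieceK3 N p hc hU
  obtain ⟨x, hx⟩ := Fermat.Agent.S29.H389.exists_isKummerClass_of_realised N p hc hU' hu
  refine ⟨x, u, 1, U', one_ne_zero, hx, hU', ?_⟩
  simpa using hu

/-- **The Kummer package at every modulus `m ≠ 0`**, unconditionally. -/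
theorem kumPackage (N : ℕ) [NeZero N] (m : ℕ) [NeZero m] : Fermat.Agent.S30.H450.KumPackage N m :=
  Fermat.Agent.S30.H450.KumPackage.of_skeleton
    (fun hc => isKum_exists N m hc)
    (fun h h' => Fermat.Agent.S29.M4b.H822.pieceUniq N m (NeZero.ne m) h h')
    (fun h => Fermat.Agent.S29.M4b.H822.pieceInj N m (NeZero.ne m) h)
    (fun h h' => Fermat.Agent.S29.M4b.H822.pieceAdd N m (NeZero.ne m) h h')
    (fun ℓ hℓ hfac _ _ hc htr _ hx =>
      Fermat.Agent.S29.M4b.H395.isKum_hecke N m ℓ hℓ hfac hc htr hx)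

end Fermat.Agent.S30.Chain

end
end
-- ===== PACK-END S30/Chain/Package.lean

-- ===== PACK-BEGIN Ribet/H940/Inst.lean
section








/-!
# RIBET wall-p, leaf I3 / INC-RED (helper940): the modular instance

`incRed` : for a prime `p ∤ M` at a good level (`p ≥ 5`, or `p = 3`, `2 ∣ M`, or `p = 2`, `3 ∣ M`)
and a valuation subring `A ⊆ ℚ̄` over `p`: if `c : ℕ → ℤ` and `(∑ c_n qⁿ) dq/q` is a holomorphic
differential of `X₀(M)` over `ℚ̄` (`I3.IsHoloSeries ℚ̄ M`), then its reduction is a holomorphic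
differential of `X₀(M)` over `k = A/𝔪` (`I3.IsHoloSeries k M`).

Inputs (all on main): the reduction datum with good charts and link (`S37.H28.datumStatement`),
the place reduction map (`S37.Red.H940.exists_isRed`), the value-group hypothesis
(`S37.H568.valueGroupHyp_modular`), principal divisors of `F_M` (`Lib.RR.H864`).
-/

set_option autoImplicit false
set_option synthInstance.maxHeartbeats 400000
set_option linter.unusedSectionVars false
set_option linter.style.haveILetI false

noncomputable section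

namespace Fermat.Agent.Ribet.H940

open AlgebraicCurve ModularCurve HahnSeries IsLocalRing IntermediateField
open Fermat.Agent.S37.H940 Fermat.Agent.S37.Red
open Fermat.Agent.Ribet.H764.I3

/-- holomorphy of `g dq/q` on a field of `q`-series -/
def IsHoloOn {k : Type} [Field k] (F : IntermediateField k (LaurentSeries k))
    (g : LaurentSeries k) : Prop :=
  ∀ (Q : Place k F) (t : F), Q.ord t = 1 →
    ∃ u : F, u ∈ Q.toValuationSubring ∧
      g = (u : LaurentSeries k) * thetaL (t : LaurentSeries k)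

theorem isTheta_iff {k : Type} [Field k] (h h' : LaurentSeries k) :
    IsTheta h h' ↔ h' = thetaL h := by
  constructor
  · intro H
    ext n
    rw [thetaL_coeff]
    exact H n
  · rintro rfl n
    exact thetaL_coeff _ _

theorem isHoloSeries_iff {k : Type} [Field k] (M : ℕ) [NeZero M] (g : PowerSeries k) :
    IsHoloSeries k M g ↔
      IsHoloOn (modularFunctionFieldFullC k M) (HahnSeries.ofPowerSeries ℤ k g) := by
  constructor
  · intro H Q t ht
    obtain ⟨u, t', ht', hu, hg⟩ := H Q t ht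
    rw [(isTheta_iff _ _).mp ht'] at hg
    exact ⟨u, hu, hg⟩
  · intro H Q t ht
    obtain ⟨u, hu, hg⟩ := H Q t ht
    exact ⟨u, thetaL (t : LaurentSeries k), (isTheta_iff _ _).mpr rfl, hu, hg⟩

theorem isHoloOn_congr {k : Type} [Field k] {F F' : IntermediateField k (LaurentSeries k)}
    (h : F = F') (g : LaurentSeries k) : IsHoloOn F g ↔ IsHoloOn F' g := by
  subst h
  rfl

/-- the residue field of a valuation subring over `p` has characteristic `p` -/
theorem charP_residue (A : ValuationSubring (AlgebraicClosure ℚ)) {p : ℕ} (hp : p.Prime)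
    (hA : A.LiesOverPrime p) : CharP (ResidueField A) p := by
  have hpm : ((p : ℕ) : A) ∈ IsLocalRing.maximalIdeal A := by
    obtain ⟨ha, hm⟩ := (ValuationSubring.mem_nonunits_iff_exists_mem_maximalIdeal).mp hA
    have : (⟨(p : AlgebraicClosure ℚ), ha⟩ : A) = ((p : ℕ) : A) := by
      apply Subtype.ext; simp
    rwa [this] at hm
  have h0 : ((p : ℕ) : IsLocalRing.ResidueField A) = 0 := by
    have := (IsLocalRing.residue_eq_zero_iff ((p : ℕ) : A)).mpr hpm
    rwa [map_natCast] at this
  exact (CharP.charP_iff_prime_eq_zero hp).mpr h0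

/-- `θ j ≠ 0` -/
theorem thetaL_jqModC_ne_zero (k : Type) [Field k] : thetaL (jqModC k) ≠ 0 := by
  intro h
  have h1 := congrArg (fun f : LaurentSeries k => f.coeff (-1)) h
  simp only [thetaL_coeff, coeff_jqModC_neg_one, HahnSeries.coeff_zero] at h1
  simp at h1

/-- `θ t ≠ 0` for the uniformisers of the function field of `X₀(M)` in characteristic `p` -/
theorem thetaL_unif_ne_zero (k : Type) [Field k] (p M : ℕ) [NeZero M] [Fact p.Prime] [CharP k p]
    [PerfectField k] (x : modularFunctionFieldFullC k M)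
    [Algebra.IsSeparable k⟮x⟯ (modularFunctionFieldFullC k M)]
    (Q : Place k (modularFunctionFieldFullC k M))
    (tb : modularFunctionFieldFullC k M) (h1 : Q.ord tb = 1) :
    thetaL (tb : LaurentSeries k) ≠ 0 :=
  thetaL_ne_zero_of_ord_eq_one (modularFunctionFieldFullC k M) p x
      (j := ⟨jqModC k, jqModC_mem_full k M⟩)
      (thetaL_jqModC_ne_zero k) Q h1

set_option maxHeartbeats 1000000 in
/-- **INC-RED**: the reduction of an integral holomorphic differential is holomorphic. -/
theorem incRed (p M : ℕ) [NeZero M] (hp : p.Prime) (hpM : ¬ p ∣ M)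
    (hg : Fermat.Agent.S37.Core.GoodLevel M p)
    (A : ValuationSubring (AlgebraicClosure ℚ)) (hA : A.LiesOverPrime p) (c : ℕ → ℤ)
    (h : IsHoloSeries (AlgebraicClosure ℚ) M
      (PowerSeries.mk fun n => ((c n : ℤ) : AlgebraicClosure ℚ))) :
    IsHoloSeries (ResidueField A) M (PowerSeries.mk fun n => ((c n : ℤ) : ResidueField A)) := by
  classical
  haveI : Fact p.Prime := ⟨hp⟩
  haveI : IsAlgClosed (ResidueField A) := Fermat.Agent.S18.H9.resAlgClosed _ A
  haveI : CharP (ResidueField A) p := charP_residue A hp hA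
  obtain ⟨G, hgood, hlink⟩ := Fermat.Agent.S37.H28.datumStatement M p hp hpM hg A hA
  obtain ⟨r, hred, hEC⟩ := Fermat.Agent.S37.Red.H940.exists_isRed G hgood
  have hVG : ValueGroupHyp A (residue A) (modularFunctionFieldBar M)
      (modularFunctionFieldFullC (ResidueField A) M) :=
    Fermat.Agent.S37.H568.valueGroupHyp_modular
      (Fermat.Agent.S37.H98.coreData_residueField M p hp hpM A hA)
  haveI := Fermat.Agent.Lib.RR.H864.hasPrincipalDivisors_modularFunctionFieldBar M
  have hdiv : ∀ y : modularFunctionFieldBar M, y ≠ 0 →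
      ∃ D : Divisor (AlgebraicClosure ℚ) (modularFunctionFieldBar M), ∀ P, D P = P.ord y := by
    intro y hy
    obtain ⟨D, hD, -⟩ := HasPrincipalDivisors.exists_divisor (K := AlgebraicClosure ℚ) y hy
    exact ⟨D, hD⟩
  have hlift : LiftProp G r := liftProp_of_good G r hgood hred hEC hdiv
  have hlinkQ : LinkQ G := fun y hy hyk hne => hlink y hy hyk hne
  -- `θ t̄ ≠ 0` for uniformisers
  haveI : Algebra.IsSeparable
      (ResidueField A)⟮G.xk⟯ (modularFunctionFieldFullC (ResidueField A) M) := hgood.sep_k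
  have hθ : ∀ (Q : Place (ResidueField A) (modularFunctionFieldFullC (ResidueField A) M))
      (tb : modularFunctionFieldFullC (ResidueField A) M), Q.ord tb = 1 →
      thetaL (tb : LaurentSeries (ResidueField A)) ≠ 0 := by
    intro Q tb h1
    exact thetaL_unif_ne_zero (ResidueField A) p M G.xk Q tb h1
  -- the integral series
  set G₀ : LaurentSeries A :=
    HahnSeries.ofPowerSeries ℤ A (PowerSeries.mk fun n => ((c n : ℤ) : A)) with hG₀
  have e1 : coeffMap A.subtype G₀ = HahnSeries.ofPowerSeries ℤ (AlgebraicClosure ℚ)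
      (PowerSeries.mk fun n => ((c n : ℤ) : AlgebraicClosure ℚ)) := by
    have hmap : PowerSeries.map A.subtype (PowerSeries.mk fun n => ((c n : ℤ) : A)) =
        PowerSeries.mk fun n => ((c n : ℤ) : AlgebraicClosure ℚ) := by
      ext n
      simp
    rw [hG₀, coeffMap_ofPowerSeries, hmap]
  have e2 : coeffMap (residue A) G₀ = HahnSeries.ofPowerSeries ℤ (ResidueField A)
      (PowerSeries.mk fun n => ((c n : ℤ) : ResidueField A)) := by
    have hmap : PowerSeries.map (residue A) (PowerSeries.mk fun n => ((c n : ℤ) : A)) =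
        PowerSeries.mk fun n => ((c n : ℤ) : ResidueField A) := by
      ext n
      simp
    rw [hG₀, coeffMap_ofPowerSeries, hmap]
  rw [isHoloSeries_iff] at h ⊢
  rw [← isHoloOn_congr (Fermat.Agent.S18.H602.modularFunctionFieldBar_eq M)] at h
  intro Q tb hQ
  obtain ⟨ub, hub, hgk⟩ := holo_red (F := modularFunctionFieldBar M)
    (Fk := modularFunctionFieldFullC (ResidueField A) M) residue_surjective
    (Fermat.Agent.S37.Red.residue_eq_zero_iff_not_isUnit A) G r hVG hlinkQ hred hlift hdiv hθ G₀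
    (fun P t ht => by rw [e1]; exact h P t ht) Q tb hQ
  exact ⟨ub, hub, by rw [← e2]; exact hgk⟩

end Fermat.Agent.Ribet.H940

end
end
-- ===== PACK-END Ribet/H940/Inst.lean

-- ===== PACK-BEGIN Ribet/H940/IncRed5.lean
section



/-!
# RIBET wall-p, leaf I3 / INC-RED (helper940): the frozen shape

`incRed5 : Fermat.Agent.Ribet.H764.I3.IncRed5Statement` (frozen in `Ribet/H764/I3Res.lean`):
for `p ≥ 5`, `p ∤ M`, `A ⊆ ℚ̄` over `p` and `c : ℕ → ℤ`, if `(∑ c_n qⁿ) dq/q` is holomorphic on
`X₀(M)` over `ℚ̄` then its reduction is holomorphic on `X₀(M)` over `A/𝔪`.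

`incRedGood` : the same at all good levels (`p = 3, 2 ∣ M` and `p = 2, 3 ∣ M` included).
-/

set_option autoImplicit false

namespace Fermat.Agent.Ribet.H940

open Fermat.Agent.Ribet.H764.I3

/-- **INC-RED**, frozen shape (`p ≥ 5`). -/
theorem incRed5 : IncRed5Statement := by
  intro p M _ hp h5 hpM A hA c h
  exact incRed p M hp hpM (Or.inl h5) A hA c h

/-- **INC** at the residue fields from INC-AN. -/
theorem inc5_of_incAn (hAn : IncAnStatement) : Inc5Statement :=
  inc5_of hAn incRed5

end Fermat.Agent.Ribet.H940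

end
-- ===== PACK-END Ribet/H940/IncRed5.lean

-- ===== PACK-BEGIN Ribet/H537/Dim5.lean
section







/-!
# Row 38 / WALL-p / leaf I3-DIMK at the residue fields (helper537)

* `genusFF_kRes_eq` : at a good level (`p ≥ 5`, or `p = 3`, `2 ∣ M`, or `p = 2`, `3 ∣ M`) the
  adelic genus of `F_k = modularFunctionFieldFullC k M`, `k = A/𝔪`, is `dim S₂(Γ₀(M))`
  (`A3.GR.H195.genus_eq_modular` + `S37.H28.datumStatement` + `H80` + S24 + S20);
* `dimAt_kRes` : `I3.DimAt M (kRes A)` at good levels;
* **`dim5 : I3.Dim5Statement`** (VERBATIM, `I3Res.lean`).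
-/

set_option autoImplicit false
set_option synthInstance.maxHeartbeats 400000
set_option linter.style.haveILetI false

noncomputable section

open AlgebraicCurve ModularCurve

namespace Fermat.Agent.Ribet.H537

open Fermat.Agent.Ribet.H764.I3

/-- The genus of `X₀(M)` over the residue field `k = A/𝔪` (good level) is `dim S₂(Γ₀(M))`. -/
theorem genusFF_kRes_eq (p M : ℕ) [NeZero M] (hp : p.Prime) (hpM : ¬ p ∣ M)
    (hg : Fermat.Agent.S37.Core.GoodLevel M p)
    (A : ValuationSubring (AlgebraicClosure ℚ)) (hA : A.LiesOverPrime p) :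
    genusFF (kRes A) (modularFunctionFieldFullC (kRes A) M) =
      Module.finrank ℂ (CuspForm (CongruenceSubgroup.Gamma0 M) 2) := by
  obtain ⟨G, hG, -⟩ := Fermat.Agent.S37.H28.datumStatement M p hp hpM hg A hA
  have h1 := Fermat.Agent.A3.GR.H195.genus_eq_modular M p hp hpM A hA G hG
  have h2 := Fermat.Agent.Lib.RR.H80.genusFF_modular_eq_genusFormula M
  have h3 := Fermat.Agent.S20.result M
  have h4 : ((genusFF (kRes A) (modularFunctionFieldFullC (kRes A) M) : ℕ) : ℚ) =
      ((Module.finrank ℂ (CuspForm (CongruenceSubgroup.Gamma0 M) 2) : ℕ) : ℚ) := by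
    rw [h3, ← h2, h1]
  exact_mod_cast h4

/-- **DIMK at the residue field**, good levels. -/
theorem dimAt_kRes (p M : ℕ) [NeZero M] (hp : p.Prime) (hpM : ¬ p ∣ M)
    (hg : Fermat.Agent.S37.Core.GoodLevel M p)
    (A : ValuationSubring (AlgebraicClosure ℚ)) (hA : A.LiesOverPrime p) :
    DimAt M (kRes A) := by
  intro W _ hW
  haveI := charP_kRes A hp hA
  haveI := isAlgClosed_kRes A
  exact (finrank_le_genusFF (kRes A) M p hp hpM W hW).trans
    (genusFF_kRes_eq p M hp hpM hg A hA).le

/-- **I3-DIMK**, `p ≥ 5`, at the residue fields. -/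
theorem dim5 : Dim5Statement := by
  intro p M _ hp h5 hpM A hA
  exact dimAt_kRes p M hp hpM (Or.inl h5) A hA

end Fermat.Agent.Ribet.H537

end
end
-- ===== PACK-END Ribet/H537/Dim5.lean

-- ===== PACK-BEGIN Ribet/H669/Gen.lean
section






/-!
# Row 38, WALL-p, leaf **GEN** of `Ribet/H884/SlopeSpec.lean`  (helper669)

Membership in `finSet` / `splitSet` can be tested on ANY Kummer generator.

* `exists_eq_const_mul_pow` : two Kummer generators `f`, `f₀` of the same class satisfy
  `f = c · f₀ · g ^ p` with `c ∈ ℚ̄ˣ`, `g ∈ FF Nˣ` (the difference of the two divisors is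
  principal, and a function without zeros and poles is constant: `S18.H504`);
* calculus of reductions: `isRedInf_const_mul`, `isRedInf_pow` (same for `IsRedZero`);
* `pDivSeries_pow` : the `p`-th power of a nonzero element of `F_k` is `PDivSeries`;
* `splitSeries_pow_char` : in characteristic `p` a `p`-th power is `SplitSeries`;
* `finGen_const_mul_pow`, `splitGen_const_mul_pow` : `FinGen` / `SplitGen` are insensitive to
  the factor `c · g ^ p` (given `RedFieldStatement`);
* **`genIndep_of : RedFieldStatement → GenIndepStatement`** (uses `H997.redExists`,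
  `H939.resField`, both on main).
-/

set_option autoImplicit false
set_option synthInstance.maxHeartbeats 400000
set_option maxHeartbeats 1000000
set_option linter.unusedSectionVars false

noncomputable section

namespace Fermat.Agent.Ribet.H669

open AlgebraicCurve ModularCurve HahnSeries
open Fermat.Agent.S24 Fermat.Agent.A2.H708 Fermat.Agent.A2.H528
open Fermat.Agent.Ribet.Spec Fermat.Agent.Ribet.H944.Wall Fermat.Agent.Ribet.H884

/-! ## Two Kummer generators of the same class -/

section Kummer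

variable {N : ℕ} [NeZero N] {p : ℕ}

/-- Two Kummer generators of the same class differ by a constant and a `p`-th power. -/
theorem exists_eq_const_mul_pow {f f₀ : FF N} {x : JZero N} (h : IsKummerGen N p f x)
    (h₀ : IsKummerGen N p f₀ x) :
    ∃ (c : Kbar) (g : FF N), c ≠ 0 ∧ g ≠ 0 ∧ f = algebraMap Kbar (FF N) c * (f₀ * g ^ p) := by
  obtain ⟨hf, D, hD, hord⟩ := h
  obtain ⟨hf₀, D₀, hD₀, hord₀⟩ := h₀
  have hmk : (QuotientAddGroup.mk D₀ : Pic0 Kbar (FF N)) = QuotientAddGroup.mk D :=
    hD₀.trans hD.symm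
  rw [QuotientAddGroup.eq] at hmk
  obtain ⟨g, hg, hgD⟩ := AddSubgroup.mem_addSubgroupOf.mp hmk
  have hden : f₀ * g ^ p ≠ 0 := mul_ne_zero hf₀ (pow_ne_zero _ hg)
  have hu0 : f * (f₀ * g ^ p)⁻¹ ≠ 0 := mul_ne_zero hf (inv_ne_zero hden)
  have hordu : ∀ v : Place Kbar (FF N), v.ord (f * (f₀ * g ^ p)⁻¹) = 0 := by
    intro v
    have h1 := hgD v
    simp only [AddSubgroup.coe_add, AddSubgroup.coe_neg, Finsupp.add_apply,
      Finsupp.neg_apply] at h1
    rw [Place.ord_mul v hf (inv_ne_zero hden), Place.ord_inv,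
      Place.ord_mul v hf₀ (pow_ne_zero _ hg), ← zpow_natCast, Place.ord_zpow, hord, hord₀, ← h1]
    ring
  obtain ⟨c, hc⟩ :=
    Fermat.Agent.S18.H504.constOfOrdZero_modularFunctionFieldBar N _ hu0 hordu
  refine ⟨c, g, ?_, hg, ?_⟩
  · rintro rfl
    rw [map_zero] at hc
    exact hu0 hc
  · rw [← hc, mul_assoc, inv_mul_cancel₀ hden, mul_one]

end Kummer

/-! ## Reductions: constants and powers -/

section Red

variable {N : ℕ} [NeZero N] {A : ValuationSubring Kbar}

theorem isRedInf_const_mul {f : FF N} {r : LaurentSeries (kA A)} (h : IsRedInf N A f r)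
    {c : Kbar} (hc : c ≠ 0) : IsRedInf N A (algebraMap Kbar (FF N) c * f) r := by
  obtain ⟨c', U₁, U₂, hc', h₁, h₂, he, hr⟩ := h
  refine ⟨c * c', U₁, U₂, mul_ne_zero hc hc', h₁, h₂, ?_, hr⟩
  have hcoe : ((algebraMap Kbar (FF N) c * f : FF N) : LaurentSeries Kbar) =
      cst c * (f : LaurentSeries Kbar) := rfl
  rw [hcoe, cst_mul, mul_assoc, he, mul_assoc]

theorem isRedZero_const_mul {f : FF N} {r : LaurentSeries (kA A)} (h : IsRedZero N A f r)
    {c : Kbar} (hc : c ≠ 0) : IsRedZero N A (algebraMap Kbar (FF N) c * f) r := by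
  unfold IsRedZero at h ⊢
  rw [map_mul, AlgEquiv.commutes]
  exact isRedInf_const_mul h hc

theorem isRedInf_pow {f : FF N} {r : LaurentSeries (kA A)} (h : IsRedInf N A f r) (n : ℕ) :
    IsRedInf N A (f ^ n) (r ^ n) := by
  induction n with
  | zero =>
    rw [pow_zero, pow_zero]
    exact isRedInf_one
  | succ n ih =>
    rw [pow_succ, pow_succ]
    exact ih.mul h

theorem isRedZero_pow {f : FF N} {r : LaurentSeries (kA A)} (h : IsRedZero N A f r) (n : ℕ) :
    IsRedZero N A (f ^ n) (r ^ n) := by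
  unfold IsRedZero at h ⊢
  rw [map_pow]
  exact isRedInf_pow h n

end Red

/-! ## `p`-th powers -/

section Pow

variable {p M' : ℕ} {k : Type} [Field k]

/-- The `p`-th power of a nonzero element of `F_k` has all orders divisible by `p`. -/
theorem pDivSeries_pow {r : LaurentSeries k} (hr : r ≠ 0)
    (h : ∃ a : modularFunctionFieldFullC k M', (a : LaurentSeries k) = r) :
    PDivSeries p M' (r ^ p) := by
  obtain ⟨a, rfl⟩ := h
  have ha : a ≠ 0 := by
    rintro rfl
    exact hr rfl
  refine ⟨a ^ p, rfl, pow_ne_zero _ ha, fun Q => ?_⟩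
  rw [← zpow_natCast, Place.ord_zpow]
  exact dvd_mul_right _ _

/-- In characteristic `p` a `p`-th power lies in `k((t^p))`. -/
theorem splitSeries_pow_char [NeZero p] (hp : p.Prime) [CharP k p] (r : LaurentSeries k) :
    SplitSeries p (r ^ p) := by
  have : Fact p.Prime := ⟨hp⟩
  rw [Fermat.Agent.S37.H340.pow_char_eq_qExpand p r]
  exact (splitSeries_iff _).mpr ⟨_, rfl⟩

end Pow

/-! ## GEN -/

section Gen

variable {p M' : ℕ} [NeZero M'] [NeZero p] [NeZero (p * M')] {A : ValuationSubring Kbar}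

/-- The factor `c · g ^ p` has `PDivSeries` + `SplitSeries` reductions on both components. -/
theorem exists_red_pow (hRF : RedFieldStatement) (hp : p.Prime) (hpM : ¬ p ∣ M')
    (hA : A.LiesOverPrime p) {g : FF (p * M')} (hg : g ≠ 0) :
    ∃ s₁ s₂ : LaurentSeries (kA A), IsRedInf (p * M') A (g ^ p) (s₁ ^ p) ∧
      IsRedZero (p * M') A (g ^ p) (s₂ ^ p) ∧ PDivSeries p M' (s₁ ^ p) ∧
      PDivSeries p M' (s₂ ^ p) ∧ SplitSeries p (s₁ ^ p) ∧ SplitSeries p (s₂ ^ p) := by
  obtain ⟨-, hchar⟩ := Fermat.Agent.Ribet.H939.resField p hp A hA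
  have := hchar
  obtain ⟨⟨s₁, hs₁⟩, ⟨s₂, hs₂⟩⟩ := Fermat.Agent.Ribet.H997.redExists p (p * M') hp A hA g hg
  have h₁ := hRF p M' hp hpM A hA g s₁ (Or.inl hs₁)
  have h₂ := hRF p M' hp hpM A hA g s₂ (Or.inr hs₂)
  exact ⟨s₁, s₂, isRedInf_pow hs₁ p, isRedZero_pow hs₂ p,
    pDivSeries_pow hs₁.ne_zero h₁, pDivSeries_pow (IsRedInf.ne_zero hs₂) h₂,
    splitSeries_pow_char hp s₁, splitSeries_pow_char hp s₂⟩

/-- `FinGen` is insensitive to a factor `c · g ^ p`. -/
theorem finGen_const_mul_pow (hRF : RedFieldStatement) (hp : p.Prime) (hpM : ¬ p ∣ M')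
    (hA : A.LiesOverPrime p) {f₀ g : FF (p * M')} {c : Kbar} (hc : c ≠ 0) (hg : g ≠ 0)
    (h : FinGen p M' A f₀) :
    FinGen p M' A (algebraMap Kbar (FF (p * M')) c * (f₀ * g ^ p)) := by
  obtain ⟨r₁, r₂, h1, h2, h3, h4⟩ := h
  obtain ⟨s₁, s₂, hs1, hs2, hp1, hp2, -, -⟩ := exists_red_pow hRF hp hpM hA hg
  exact ⟨r₁ * s₁ ^ p, r₂ * s₂ ^ p, isRedInf_const_mul (h1.mul hs1) hc,
    isRedZero_const_mul (h2.mul hs2) hc, h3.mul hp1, h4.mul hp2⟩

/-- `SplitGen` is insensitive to a factor `c · g ^ p`. -/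
theorem splitGen_const_mul_pow (hRF : RedFieldStatement) (hp : p.Prime) (hpM : ¬ p ∣ M')
    (hA : A.LiesOverPrime p) {f₀ g : FF (p * M')} {c : Kbar} (hc : c ≠ 0) (hg : g ≠ 0)
    (h : SplitGen p M' A f₀) :
    SplitGen p M' A (algebraMap Kbar (FF (p * M')) c * (f₀ * g ^ p)) := by
  obtain ⟨r₁, r₂, h1, h2, h3, h4, h5, h6⟩ := h
  obtain ⟨s₁, s₂, hs1, hs2, hp1, hp2, hq1, hq2⟩ := exists_red_pow hRF hp hpM hA hg
  exact ⟨r₁ * s₁ ^ p, r₂ * s₂ ^ p, isRedInf_const_mul (h1.mul hs1) hc,
    isRedZero_const_mul (h2.mul hs2) hc, h3.mul hp1, h4.mul hp2, h5.mul hq1, h6.mul hq2⟩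

end Gen

/-- **GEN** from REDFIELD: membership in `finSet` / `splitSet` can be tested on any Kummer
generator. -/
theorem genIndep_of (hRF : RedFieldStatement) : GenIndepStatement := by
  intro p M' _ _ _ hp hpM A hA x f hf
  constructor
  · rintro ⟨f₀, hf₀, hF⟩
    obtain ⟨c, g, hc, hg, rfl⟩ := exists_eq_const_mul_pow hf hf₀
    exact finGen_const_mul_pow hRF hp hpM hA hc hg hF
  · rintro ⟨f₀, hf₀, hF⟩
    obtain ⟨c, g, hc, hg, rfl⟩ := exists_eq_const_mul_pow hf hf₀
    exact splitGen_const_mul_pow hRF hp hpM hA hc hg hF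

end Fermat.Agent.Ribet.H669

end

end
-- ===== PACK-END Ribet/H669/Gen.lean

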