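import Fermat.Agent.Pack.S44.G0E29L1
import Fermat.Agent.Pack.S44.G0E28L1
import Fermat.Agent.Pack.S44.G0E25L0
import Fermat.Agent.Pack.S44.G0E15L0
import Fermat.Agent.Pack.S44.G0E15L3
import Fermat.Agent.Pack.S44.G0E26L0
import Fermat.Agent.Pack.S44.G0E17L0
import Fermat.Agent.Pack.S44.G0E26L2
import Fermat.Agent.Pack.S44.G0E22L1
import Fermat.Agent.Pack.S44.G0E29L2
import Fermat.Agent.Pack.S44.G0E27L0
import Fermat.Agent.Pack.S44.G0E12L3
import Fermat.Agent.Pack.S44.G0E17L1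
import Fermat.Agent.Pack.S44.G0E20L0
import Fermat.Agent.Pack.S44.G0E9L2
import Fermat.Agent.Pack.S44.G0E28L3
import Fermat.Agent.Pack.S44.G0E29L3
import Fermat.Agent.Pack.S44.G0E29L0
import Fermat.Agent.Pack.S44.G0E15L1
import Fermat.Agent.Pack.S44.G0E12L1

-- ===== PACK-BEGIN Ribet/H279/NormContr.lean
section










/-!
# Row 38, WALL-p, (S2), leaf **NC** (`H220.NormContrStatement`) — helper279

`normContr : H220.NormContrStatement` (VERBATIM): norm contraction at the level `ℚ̄`.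
If both norms of `f ∈ ℚ̄(X₀(pM'))` to level `M'` are `p`-th powers and `f` has depth `ϖ`
(constants allowed) at `V∞` (and at `V₀`), then `f` has depth `ϖⁿ` WITHOUT constants at `V∞` and
at `V₀`, for every `n`.

Proof: descent to a good level `E ⊆ ℚ̄` (`A2.IF.H429.ifStatement`) containing `ϖ`, the constant
and the coefficients of the data (`T1.H669.exists_finset_descent`); norms commute with `E ⊆ ℚ̄`
(`S35.H858.iota_normAlong_alpha/beta`); Gauss descent (`H216.gaussDescent`) turns the depth at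
`H708.Vinf` into depth `1` at `V∞(E)`; the level-`E` norm contraction `H232.wnc_both_one_to`
gives ONE root `g` with `f / g^p ∈ (1 + w^s V∞(E)) ∩ (1 + w^s V₀(E))` for all `s`; finally
`V∞(E) ⊆ V∞(ℚ̄)` (`iota_mem_Vinf`) and `ι ∘ w_{N,E} = w_N ∘ ι` (`H553.iota_wE`).

Only the depth at `V∞` is used; the hypotheses `p ≠ 2`, `ϖ ∣ p` and the depth at `V₀` are not
needed.
-/

set_option autoImplicit false
set_option linter.unusedSectionVars false
set_option linter.unusedVariables false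
set_option linter.style.haveILetI false
set_option synthInstance.maxHeartbeats 400000
set_option maxHeartbeats 1600000

noncomputable section

namespace Fermat.Agent.Ribet.H279.NC

open AlgebraicCurve ModularCurve HahnSeries
open Fermat.Agent.A2

/-! ### `V∞(E) ⊆ V∞(ℚ̄)` -/

/-- The Gauss ring of level `E` maps into the Gauss ring `H708.Vinf` over `P ⊆ ℚ̄`
(converse of `H216.gaussDescent`). -/
theorem iota_mem_Vinf {P : ValuationSubring Qb} {E : IntermediateField ℚ Qb} {N : ℕ} [NeZero N]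
    {ℓ : ℕ} (hℓ : ℓ ≠ 0) (hP : (ℓ : Qb) ∈ P.nonunits)
    {V : ValuationSubring (FE E N)} (hV : Mod.IsVinf P E N V) {y : FE E N} (hy : y ∈ V) :
    T1.H669.iota E (modularFunctionFieldFull N) y ∈ H708.Vinf N P hℓ hP := by
  obtain ⟨U₁, U₂, hred, hmem, heq⟩ := (hV y).mp hy
  show H708.IsGaussInt P (modularFunctionFieldFull N) _
  refine ⟨coeffMap (H216.reToP P E) U₁, coeffMap (H216.reToP P E) U₂,
    H216.red_coeffMap_reToP_ne_zero P E hred, ?_, ?_⟩
  · rw [H216.incl_coeffMap_reToP]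
    exact Fermat.Agent.S18.H602.coeffMap_mem_laurentBaseChange _ _ hmem
  · rw [H216.incl_coeffMap_reToP, H216.incl_coeffMap_reToP, T1.H669.coe_iota, ← map_mul, heq]

/-- `ι ∘ w_{N,E} = w_N ∘ ι` for the comparison map `T1.H669.iota`. -/
theorem iota_wE' (E : IntermediateField ℚ Qb) (N : ℕ) [NeZero N] (y : FE E N) :
    T1.H669.iota E (modularFunctionFieldFull N) (Mod.H553.wE E N y) =
      H528.wF N (T1.H669.iota E (modularFunctionFieldFull N) y) :=
  Mod.H553.iota_wE E N y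

/-- `V₀(E) ⊆ V₀(ℚ̄)`. -/
theorem iota_mem_Vzero {P : ValuationSubring Qb} {E : IntermediateField ℚ Qb} {N : ℕ} [NeZero N]
    {ℓ : ℕ} (hℓ : ℓ ≠ 0) (hP : (ℓ : Qb) ∈ P.nonunits)
    {V : ValuationSubring (FE E N)} (hV : Mod.IsVinf P E N V) {y : FE E N}
    (hy : y ∈ V.comap (Mod.H553.wE E N : FE E N →+* FE E N)) :
    T1.H669.iota E (modularFunctionFieldFull N) y ∈ H708.Vzero N P hℓ hP := by
  show H528.wF N (T1.H669.iota E (modularFunctionFieldFull N) y) ∈ H708.Vinf N P hℓ hP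
  rw [← iota_wE']
  exact iota_mem_Vinf hℓ hP hV hy

/-! ### Norms and levels -/

/-- The norm along `α` (top level renamed) commutes with `E ⊆ ℚ̄`. -/
theorem iota_normAlong_alphaTo (E : IntermediateField ℚ Qb) {M p N : ℕ} [NeZero M] [NeZero p]
    [NeZero N] (h : M * p = N) (hp : p.Prime) (hpM : ¬ p ∣ M) (y : FE E N) :
    T1.H669.iota E (modularFunctionFieldFull M)
        (S29.H395.normAlong (S29.H801.alphaTo E M p N h) y) =
      S29.H395.normAlong (S29.H801.alphaTo Qb M p N h)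
        (T1.H669.iota E (modularFunctionFieldFull N) y) := by
  subst h
  exact S35.H858.iota_normAlong_alpha E M p (S37.H88.finiteAlong_heckeAlphaBar' hp hpM) y

/-- The norm along `β` (top level renamed) commutes with `E ⊆ ℚ̄`. -/
theorem iota_normAlong_betaTo (E : IntermediateField ℚ Qb) {M p N : ℕ} [NeZero M] [NeZero p]
    [NeZero N] (h : M * p = N) (hp : p.Prime) (hpM : ¬ p ∣ M) (y : FE E N) :
    T1.H669.iota E (modularFunctionFieldFull M)
        (S29.H395.normAlong (S29.H801.betaTo E M p N h) y) =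
      S29.H395.normAlong (S29.H801.betaTo Qb M p N h)
        (T1.H669.iota E (modularFunctionFieldFull N) y) := by
  subst h
  exact S35.H858.iota_normAlong_beta E M p (S37.H88.finiteAlong_heckeBetaBar hp hpM) y

/-! ### The level-`E` statement pushed to `ℚ̄` -/

/-- **Norm contraction at a level, pushed to `ℚ̄`.**  `E` a level with `R_E` a discrete
valuation ring, `N = M p` (renamed).  Data of level `E`: `f`, norms `g₁ ^ p`, `g₂ ^ p`,
`f = c · g ^ p · (1 + ϖ y)` with `y ∈ V∞(E)`, `ϖ` a nonzero nonunit of `R_E`.  Then the image of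
`f` in `ℚ̄(X₀(N))` has depth `ϖⁿ` without constants at `H708.Vinf` and at `H708.Vzero`. -/
theorem deep_of_level {P : ValuationSubring Qb} {E : IntermediateField ℚ Qb} {M p N : ℕ}
    [NeZero M] [NeZero p] [NeZero N] (h : M * p = N) {w : RE P E} (hS : Mod.Setting P E M p w)
    (f g y : FE E N) (g₁ g₂ : FE E M) (c ϖ : E) (hf : f ≠ 0) (hc : c ≠ 0) (hg : g ≠ 0)
    (hϖ0 : ϖ ≠ 0) (hϖ : (ϖ : Qb) ∈ P.nonunits)
    (hNα : S29.H395.normAlong (S29.H801.alphaTo E M p N h) f = g₁ ^ p)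
    (hNβ : S29.H395.normAlong (S29.H801.betaTo E M p N h) f = g₂ ^ p)
    (hfc : f = algebraMap E (FE E N) c * g ^ p * (1 + algebraMap E (FE E N) ϖ * y))
    (hy : T1.H669.iota E (modularFunctionFieldFull N) y ∈
      H708.Vinf N P hS.q_prime.ne_zero hS.lies_over) (n : ℕ) :
    H220.Deep (H708.Vinf N P hS.q_prime.ne_zero hS.lies_over) p
        (H220.cF N (ϖ : Qb) ^ n) (T1.H669.iota E (modularFunctionFieldFull N) f) ∧
      H220.Deep (H708.Vzero N P hS.q_prime.ne_zero hS.lies_over) p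
        (H220.cF N (ϖ : Qb) ^ n) (T1.H669.iota E (modularFunctionFieldFull N) f) := by
  haveI hdvr : IsDiscreteValuationRing (RE P E) := hS.dvr
  have hℓ := hS.q_prime.ne_zero
  have hP := hS.lies_over
  -- the Gauss rings and the Fricke involution of level `E`
  set V : ValuationSubring (FE E N) := Mod.H553.VinfE P E N with hVdef
  have hV : Mod.IsVinf P E N V := Mod.H553.isVinf_VinfE P E N
  have hVM : Mod.IsVinf P E M (Mod.H553.VinfE P E M) := Mod.H553.isVinf_VinfE P E M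
  have hW : Mod.IsFricke E N (Mod.H553.wE E N) := Mod.H553.isFricke_wE E N
  have hconst : ∀ r : RE P E, algebraMap E (FE E N) (r : E) ∈ V := fun r =>
    (Mod.H553.algebraMap_mem_iff P E hV (r : E)).mpr r.2
  have hconst₀ : ∀ r : RE P E, algebraMap E (FE E N) (r : E) ∈
      V.comap (Mod.H553.wE E N : FE E N →+* FE E N) := fun r => by
    show (Mod.H553.wE E N) (algebraMap E (FE E N) (r : E)) ∈ V
    rw [AlgEquiv.commutes]
    exact hconst r
  -- `ϖ` as an element of `R_E`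
  have hϖlt : P.valuation (ϖ : Qb) < 1 := by
    have h := hϖ
    rw [ValuationSubring.mem_nonunits_iff] at h
    exact h
  have hϖmem : ϖ ∈ RE P E := by
    show (algebraMap E Qb ϖ) ∈ P
    exact (P.valuation_le_one_iff _).mp (le_of_lt hϖlt)
  set ϖR : RE P E := ⟨ϖ, hϖmem⟩ with hϖR
  have hϖR0 : ϖR ≠ 0 := fun h0 => hϖ0 (congrArg Subtype.val h0)
  have hϖRnu : ¬ IsUnit ϖR := by
    intro hu
    obtain ⟨v, hv⟩ := hu.exists_right_inv
    have h1 : (ϖ : Qb) * ((v : E) : Qb) = 1 := by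
      have := congrArg (fun z : RE P E => ((z : E) : Qb)) hv
      simpa using this
    have h2 : P.valuation (ϖ : Qb) < 1 := hϖlt
    have h3 : P.valuation ((v : E) : Qb) ≤ 1 := (P.valuation_le_one_iff _).mpr v.2
    have h4 : P.valuation ((ϖ : Qb) * ((v : E) : Qb)) < 1 := by
      rw [map_mul]
      exact mul_lt_one_of_lt_of_le h2 h3
    rw [h1, map_one] at h4
    exact lt_irrefl _ h4
  -- `ϖ = w * r`
  obtain ⟨r, hr⟩ : ∃ r : RE P E, ϖR = w * r := by
    have hmem : ϖR ∈ IsLocalRing.maximalIdeal (RE P E) :=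
      (IsLocalRing.mem_maximalIdeal _).mpr hϖRnu
    rw [hS.unif.maximalIdeal_eq, Ideal.mem_span_singleton'] at hmem
    obtain ⟨r, hr⟩ := hmem
    exact ⟨r, by rw [← hr, mul_comm]⟩
  -- `ϖ * u = w ^ k`
  obtain ⟨k, u, hu⟩ : ∃ (k : ℕ) (u : (RE P E)ˣ), ϖR * (u : RE P E) = w ^ k := by
    obtain ⟨k, hk⟩ := IsDiscreteValuationRing.associated_pow_irreducible hϖR0 hS.unif
    obtain ⟨u, hu⟩ := hk
    exact ⟨k, u, hu⟩
  -- the constants in `F_E`
  have hcw0 : Mod.cE P E N w ≠ 0 :=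
    (map_ne_zero_iff _ (algebraMap E (FE E N)).injective).mpr
      (fun h0 => hS.unif.ne_zero (Subtype.ext h0))
  have hcϖ0 : algebraMap E (FE E N) ϖ ≠ 0 :=
    (map_ne_zero_iff _ (algebraMap E (FE E N)).injective).mpr hϖ0
  have hcc0 : algebraMap E (FE E N) c ≠ 0 :=
    (map_ne_zero_iff _ (algebraMap E (FE E N)).injective).mpr hc
  have hcϖ : algebraMap E (FE E N) ϖ = Mod.cE P E N w * algebraMap E (FE E N) (r : E) := by
    have := congrArg (fun z : RE P E => algebraMap E (FE E N) (z : E)) hr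
    simpa [Mod.cE, map_mul] using this
  have hcu : ∀ m : ℕ, algebraMap E (FE E N) ϖ ^ m *
      algebraMap E (FE E N) (((u ^ m : (RE P E)ˣ) : RE P E) : E) = Mod.cE P E N w ^ (k * m) := by
    intro m
    have h1 : (ϖR * (u : RE P E)) ^ m = w ^ (k * m) := by rw [hu, pow_mul]
    have := congrArg (fun z : RE P E => algebraMap E (FE E N) (z : E)) h1
    simpa [Mod.cE, map_mul, map_pow, mul_pow] using this
  -- depth one at `V∞(E)`
  have hyV : y ∈ V := H216.gaussDescent P E N hℓ hP hdvr V hV y hy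
  have h1 : H232.DepthE w p V 1 f := by
    refine ⟨c, hc, g, hg, ?_⟩
    have e1 : (f * (algebraMap E (FE E N) c * g ^ p)⁻¹ - 1) * (Mod.cE P E N w ^ 1)⁻¹ =
        algebraMap E (FE E N) (r : E) * y := by
      rw [hfc, hcϖ, pow_one]
      field_simp
      ring
    rw [e1]
    exact V.mul_mem _ _ (hconst r) hyV
  -- norm contraction at level `E`
  obtain ⟨g', hg', hzI, hzZ⟩ :=
    H232.wnc_both_one_to h hS hVM hV hW hf hNα hNβ (Or.inl h1) (k * n)
  -- the element `z = (f / g'^p - 1) / ϖ^n`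
  set z : FE E N := (f * (g' ^ p)⁻¹ - 1) * (algebraMap E (FE E N) ϖ ^ n)⁻¹ with hz
  have hzeq : z = (f * (g' ^ p)⁻¹ - 1) * (Mod.cE P E N w ^ (k * n))⁻¹ *
      algebraMap E (FE E N) (((u ^ n : (RE P E)ˣ) : RE P E) : E) := by
    rw [hz, ← hcu n]
    have hun0 : algebraMap E (FE E N) (((u ^ n : (RE P E)ˣ) : RE P E) : E) ≠ 0 := by
      refine (map_ne_zero_iff _ (algebraMap E (FE E N)).injective).mpr ?_
      intro h0
      exact (u ^ n).ne_zero (Subtype.ext h0)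
    have hϖn0 : algebraMap E (FE E N) ϖ ^ n ≠ 0 := pow_ne_zero _ hcϖ0
    field_simp
  have hzV : z ∈ V := by
    rw [hzeq]
    exact V.mul_mem _ _ hzI (hconst _)
  have hzV₀ : z ∈ V.comap (Mod.H553.wE E N : FE E N →+* FE E N) := by
    rw [hzeq]
    exact (V.comap (Mod.H553.wE E N : FE E N →+* FE E N)).mul_mem _ _ hzZ (hconst₀ _)
  -- `f = g'^p * (1 + ϖ^n z)`
  have hfz : f = g' ^ p * (1 + algebraMap E (FE E N) ϖ ^ n * z) := by
    have hgp : g' ^ p ≠ 0 := pow_ne_zero _ hg'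
    have hϖn0 : algebraMap E (FE E N) ϖ ^ n ≠ 0 := pow_ne_zero _ hcϖ0
    rw [hz]
    field_simp
    ring
  -- push to `ℚ̄`
  have hιϖ : T1.H669.iota E (modularFunctionFieldFull N) (algebraMap E (FE E N) ϖ) =
      H220.cF N (ϖ : Qb) := T1.H669.iota_algebraMap E (modularFunctionFieldFull N) ϖ
  have hιf : T1.H669.iota E (modularFunctionFieldFull N) f =
      (T1.H669.iota E (modularFunctionFieldFull N) g') ^ p *
        (1 + H220.cF N (ϖ : Qb) ^ n * T1.H669.iota E (modularFunctionFieldFull N) z) := by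
    conv_lhs => rw [hfz]
    rw [map_mul, map_pow, map_add, map_one, map_mul, map_pow, hιϖ]
  have hιg' : T1.H669.iota E (modularFunctionFieldFull N) g' ≠ 0 :=
    T1.H669.iota_ne_zero E _ hg'
  exact ⟨⟨_, _, hιg', hιf, _, iota_mem_Vinf hℓ hP hV hzV, rfl⟩,
    ⟨_, _, hιg', hιf, _, iota_mem_Vzero hℓ hP hV hzV₀, rfl⟩⟩

/-! ### The leaf -/

/-- **NC** — `H220.NormContrStatement`, verbatim. -/
theorem normContr : H220.NormContrStatement := by
  intro p M' _ _ _ hp hp2 hpM A hA f g₁ g₂ hf hNα hNβ ϖ hϖ0 hϖA hϖp hInf hZero n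
  classical
  obtain ⟨c, g, u, hc, hg, hfc, y, hy, hu⟩ := hInf
  -- finite sets of constants
  obtain ⟨S₁, hS₁⟩ := T1.H669.exists_finset_descent (modularFunctionFieldFull (p * M')) f
  obtain ⟨S₂, hS₂⟩ := T1.H669.exists_finset_descent (modularFunctionFieldFull (p * M')) g
  obtain ⟨S₃, hS₃⟩ := T1.H669.exists_finset_descent (modularFunctionFieldFull (p * M')) y
  obtain ⟨S₄, hS₄⟩ := T1.H669.exists_finset_descent (modularFunctionFieldFull M') g₁
  obtain ⟨S₅, hS₅⟩ := T1.H669.exists_finset_descent (modularFunctionFieldFull M') g₂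
  obtain ⟨E, hSE, hE⟩ := A2.IF.H429.ifStatement p hp A hA
    (S₁ ∪ S₂ ∪ S₃ ∪ S₄ ∪ S₅ ∪ {ϖ, c})
  have hsub : ∀ T : Finset Qb, T ⊆ S₁ ∪ S₂ ∪ S₃ ∪ S₄ ∪ S₅ ∪ {ϖ, c} → ∀ s ∈ T, s ∈ E :=
    fun T hT s hs => hSE s (hT hs)
  obtain ⟨fE, hfE⟩ := hS₁ E (hsub S₁ (by intro s hs; simp [hs]))
  obtain ⟨gE, hgE⟩ := hS₂ E (hsub S₂ (by intro s hs; simp [hs]))
  obtain ⟨yE, hyE⟩ := hS₃ E (hsub S₃ (by intro s hs; simp [hs]))
  obtain ⟨g₁E, hg₁E⟩ := hS₄ E (hsub S₄ (by intro s hs; simp [hs]))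
  obtain ⟨g₂E, hg₂E⟩ := hS₅ E (hsub S₅ (by intro s hs; simp [hs]))
  have hϖE : ϖ ∈ E := hSE ϖ (by simp)
  have hcE : c ∈ E := hSE c (by simp)
  haveI := hE.dvr
  obtain ⟨w, hw⟩ := IsDiscreteValuationRing.exists_irreducible (RE A E)
  have hS : Mod.Setting A E M' p w := ⟨hp, hpM, NeZero.ne M', hA, hE.dvr, hw⟩
  have hinj := T1.H669.iota_injective E (modularFunctionFieldFull (p * M'))
  have hinjM := T1.H669.iota_injective E (modularFunctionFieldFull M')
  have key := deep_of_level (Nat.mul_comm M' p) hS fE gE yE g₁E g₂E ⟨c, hcE⟩ ⟨ϖ, hϖE⟩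
    (fun h0 => hf (by rw [← hfE, h0, map_zero]))
    (fun h0 => hc (congrArg Subtype.val h0))
    (fun h0 => hg (by rw [← hgE, h0, map_zero]))
    (fun h0 => hϖ0 (congrArg Subtype.val h0))
    hϖA
    (hinjM (by
      rw [iota_normAlong_alphaTo E (Nat.mul_comm M' p) hp hpM, hfE, map_pow, hg₁E]
      exact hNα))
    (hinjM (by
      rw [iota_normAlong_betaTo E (Nat.mul_comm M' p) hp hpM, hfE, map_pow, hg₂E]
      exact hNβ))
    (hinj (by
      rw [map_mul, map_mul, map_pow, map_add, map_one, map_mul, hfE, hgE, hyE,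
        T1.H669.iota_algebraMap, T1.H669.iota_algebraMap, hfc, hu]
      rfl))
    (by rw [hyE]; exact hy) n
  rw [hfE] at key
  exact key

end Fermat.Agent.Ribet.H279.NC

end

end
-- ===== PACK-END Ribet/H279/NormContr.lean

-- ===== PACK-BEGIN Ribet/H558/DKLevel.lean
section










/-!
# Row 38 / S33, WALL-p, (S2), leaf **DK** at READY levels (helper558)

`deepKummerReady_h558` : the leaf DK of `Ribet/H220/S2Spec.lean` with `5 ≤ p` replaced by `p ≠ 2`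
and `p = 3 → 2 ∣ M'` (the statement `S33.H849.DeepKummerReadyStatement`, spelled out), and
`deepKummer_h558 : H220.DeepKummerStatement`.

Proof = level glue + descent:

* `dkLevel_h558` (a good level `E ∋ ζ_p`): the standard semistable model with its cut data
  (`H862.stdModel`), ALG-p (`H552.algP`) and the abstract core `H883.DK.dkCore_sq`;
* descent: the data `f, g₁, y₁, g₂, y₂` and `ζ_p` live over a good level (`IF.H429.ifStatement`,
  `T1.H669.exists_finset_descent`), Gauss descent `H216.gaussDescent` for `V∞`, and for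
  `V₀ = V∞ ∘ w_N` through `H553.iota_wE`.
-/

set_option autoImplicit false
set_option linter.unusedSectionVars false
set_option linter.unusedVariables false
set_option linter.style.haveILetI false
set_option synthInstance.maxHeartbeats 400000
set_option maxHeartbeats 1600000

noncomputable section

namespace Fermat.Agent.Ribet.H558

open AlgebraicCurve ModularCurve
open Fermat.Agent.A2 Fermat.Agent.A2.Alg

/-- **DK at a good level.**  `E` a good level for `A` (over `p` odd, `p ∤ M'`, `p = 3 → 2 ∣ M'`)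
containing a primitive `p`-th root of unity `ζ`, `σ` in the inertia group of `A` with
`σ ζ = ζ ^ c`.  There are `V = V∞` and the Fricke involution `W` of `F_{p M', E}` such that every
`f` with `p ∣ div f` which is a `p`-th power times an element of `1 + p² V` at `V∞` and at
`V₀ = V∞ ∘ W` satisfies `σ f = h ^ p · f ^ c`. -/
theorem dkLevel_h558 (A : ValuationSubring (AlgebraicClosure ℚ))
    (E : IntermediateField ℚ (AlgebraicClosure ℚ)) (p M' : ℕ) [NeZero M'] [NeZero p]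
    [NeZero (p * M')] (hp : p.Prime) (hp2 : p ≠ 2) (h3 : p = 3 → 2 ∣ M') (hpM : ¬ p ∣ M')
    (hA : A.LiesOverPrime p) (hE : GoodField A E) (ζ : RE A E) (hζ : IsPrimitiveRoot ζ p)
    (σ : AlgebraicClosure ℚ ≃ₐ[ℚ] AlgebraicClosure ℚ) (hσ : σ ∈ A.inertiaSubgroupIn ℚ) (c : ℕ)
    (hk : T1.H669.resR hE σ hσ ζ = ζ ^ c) :
    ∃ (V : ValuationSubring (FE E (p * M'))) (W : FE E (p * M') ≃ₐ[E] FE E (p * M')),
      Mod.IsVinf A E (p * M') V ∧ Mod.IsFricke E (p * M') W ∧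
      ∀ f : FE E (p * M'), f ≠ 0 → DivisibleDiv E p f →
        (∃ g y : FE E (p * M'), g ≠ 0 ∧ y ∈ V ∧
          f = g ^ p * (1 + (p : FE E (p * M')) ^ 2 * y)) →
        (∃ g y : FE E (p * M'), g ≠ 0 ∧
          y ∈ V.comap (W : FE E (p * M') →+* FE E (p * M')) ∧
          f = g ^ p * (1 + (p : FE E (p * M')) ^ 2 * y)) →
        ∃ h : FE E (p * M'), h ≠ 0 ∧
          arithmeticRingAut (modularFunctionFieldFull (p * M')) (hE.res σ hσ) f =
            h ^ p * f ^ c := by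
  haveI : IsDiscreteValuationRing ↥(RE A E) := hE.dvr
  haveI : HenselianLocalRing ↥(RE A E) := hE.henselian
  haveI : IsAlgClosed (IsLocalRing.ResidueField ↥(RE A E)) := hE.algClosed
  have hq2 : ¬ p ^ 2 ∣ p * M' := by
    intro h
    rw [pow_two] at h
    exact hpM ((Nat.mul_dvd_mul_iff_left hp.pos).1 h)
  have h3N : p = 3 → 2 ∣ p * M' := fun h => Dvd.dvd.mul_left (h3 h) p
  have h2N : p = 2 → 3 ∣ p * M' := fun h => absurd h hp2
  obtain ⟨D, V, W, hDx, hV, hW, hcut⟩ :=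
    Fermat.Agent.Ribet.H862.stdModel A E (p * M') p hp (Dvd.intro M' rfl) hq2
      (NeZero.ne (p * M')) h3N h2N hA hE
  obtain ⟨w, hw⟩ := IsDiscreteValuationRing.exists_irreducible ↥(RE A E)
  obtain ⟨cf, ci, hcf, hci⟩ := hcut w hw
  refine ⟨V, W, hV, hW, fun f hf hdiv h₁ h₂ => ?_⟩
  set F₀ := modularFunctionFieldFull (p * M') with hF₀
  have hconcl : Fermat.Agent.Ribet.H495.AlgP.AlgPConclusion E D.Bf D.Bi cf ci p (ζ - 1) c
      (arithmeticRingAut F₀ (hE.res σ hσ)) :=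
    Fermat.Agent.Ribet.H552.algP (R := ↥(RE A E)) (E := E) (F := ↥(FE E (p * M'))) w hw p hp hp2
      (T1.H669.natCast_mem_maximalIdeal_RE E hA) ζ hζ D.x D.hx D.hfin D.hconst D.Bf D.Bi
      D.hBf D.hBi cf ci
      (arithmeticRingAut F₀ (hE.res σ hσ))
      (hE.res σ hσ).toRingEquiv (T1.H669.resR hE σ hσ)
      (fun e => arithmeticRingAut_algebraMap F₀ (hE.res σ hσ) e)
      (fun r => rfl)
      (D.hτf hE σ hσ w hw) (D.hτi hE σ hσ w hw)
      c hk
  exact Fermat.Agent.Ribet.H883.DK.dkCore_sq (E := E) w hw p hp hp2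
    (T1.H669.natCast_mem_maximalIdeal_RE E hA) ζ hζ D.x D.Bf D.Bi
    ⟨hw, D.hx, D.hfin, D.hconst, D.hBf⟩
    (Fermat.Agent.A2.Alg.H34.chartCtx_inv w hw D.x D.hx D.hfin D.hconst D.Bi D.hBi)
    cf ci V (V.comap (W : FE E (p * M') →+* FE E (p * M')))
    hcf.le₁ hcf.le₂ hcf.cut₁ hcf.cut₂ hci.le₁ hci.le₂ hci.cut₁ hci.cut₂
    c (arithmeticRingAut F₀ (hE.res σ hσ)) hconcl f hf hdiv h₁ h₂

end Fermat.Agent.Ribet.H558

end

end
-- ===== PACK-END Ribet/H558/DKLevel.lean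

-- ===== PACK-BEGIN Ribet/H558/DK.lean
section


/-!
# Row 38 / S33, WALL-p, (S2), leaf **DK** at READY levels: descent (helper558)

* `deepKummerReady_h558` : DK with `5 ≤ p` replaced by `p ≠ 2`, `p = 3 → 2 ∣ M'`
  (= `S33.H849.DeepKummerReadyStatement`, spelled out);
* `deepKummer_h558 : H220.DeepKummerStatement`.

The data `f, g₁, y₁, g₂, y₂` and a primitive `p`-th root of unity live over a good level `E`
(`IF.H429.ifStatement`, `T1.H669.exists_finset_descent`); Gauss descent `H216.gaussDescent`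
brings `y₁ ∈ V∞`, `y₂ ∈ V₀ = V∞ ∘ w_N` (through `H553.iota_wE`) down to `E`; then
`dkLevel_h558`.
-/

set_option autoImplicit false
set_option linter.unusedSectionVars false
set_option linter.unusedVariables false
set_option linter.style.haveILetI false
set_option synthInstance.maxHeartbeats 400000
set_option maxHeartbeats 1600000

noncomputable section

namespace Fermat.Agent.Ribet.H558

open AlgebraicCurve ModularCurve
open Fermat.Agent.S24 Fermat.Agent.A2.H708 Fermat.Agent.A2.H528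
open Fermat.Agent.Ribet.H944.Wall Fermat.Agent.Ribet.H220

/-- The two copies of the comparison map `F_E → F̄` agree. -/
theorem iota849_eq_h558 (E : IntermediateField ℚ (AlgebraicClosure ℚ))
    (F₀ : IntermediateField ℚ (LaurentSeries ℚ)) (x : ↥(laurentBaseChange E F₀)) :
    Fermat.Agent.A2.T1.H849.iota E F₀ x = Fermat.Agent.A2.T1.H669.iota E F₀ x :=
  Subtype.ext rfl

/-- A root of unity lies in every valuation subring. -/
theorem mem_of_pow_eq_one_h558 {K : Type*} [Field K] (A : ValuationSubring K) {ζ : K} {n : ℕ}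
    (hn : 0 < n) (h : ζ ^ n = 1) : ζ ∈ A := by
  rcases A.mem_or_inv_mem ζ with h1 | h1
  · exact h1
  · have h2 : ζ * ζ ^ (n - 1) = 1 := by
      rw [← pow_succ', Nat.sub_add_cancel hn]
      exact h
    have h3 : ζ = (ζ⁻¹) ^ (n - 1) := by
      rw [inv_pow]
      exact eq_inv_of_mul_eq_one_left h2
    rw [h3]
    exact pow_mem h1 _

/-- **DK at READY levels** (`S33.H849.DeepKummerReadyStatement`, spelled out). -/
theorem deepKummerReady_h558 :
    ∀ (p M' : ℕ) [NeZero M'] [NeZero p] [NeZero (p * M')] (hp : p.Prime), p ≠ 2 →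
      (p = 3 → 2 ∣ M') → ¬ p ∣ M' →
      ∀ (A : ValuationSubring Kbar) (hA : A.LiesOverPrime p),
      ∀ σ ∈ A.inertiaSubgroupIn ℚ, ∀ c : ℕ, CycloAt p σ c →
      ∀ f : FF (p * M'), f ≠ 0 → (∀ v : Place Kbar (FF (p * M')), (p : ℤ) ∣ v.ord f) →
        Deep (Vinf (p * M') A hp.ne_zero hA) p (cF (p * M') ((p : Kbar) ^ 2)) f →
        Deep (Vzero (p * M') A hp.ne_zero hA) p (cF (p * M') ((p : Kbar) ^ 2)) f →
        ∃ (y : FF (p * M')) (a : Kbar), a ≠ 0 ∧ y ≠ 0 ∧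
          arithmeticRingAut (modularFunctionFieldFull (p * M')) σ f =
            algebraMap Kbar (FF (p * M')) a * y ^ p * f ^ c := by
  intro p M' _ _ _ hp hp2 h3 hpM A hA σ hσ c hc f hf0 hord hI hZ
  classical
  obtain ⟨g₁, u₁, hg₁, hfu₁, y₁, hy₁, hu₁⟩ := hI
  obtain ⟨g₂, u₂, hg₂, hfu₂, y₂, hy₂, hu₂⟩ := hZ
  subst hu₁ hu₂
  set F₀ := modularFunctionFieldFull (p * M') with hF₀
  -- the finite sets of constants
  obtain ⟨Sf, hSf⟩ := Fermat.Agent.A2.T1.H669.exists_finset_descent F₀ f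
  obtain ⟨Sg₁, hSg₁⟩ := Fermat.Agent.A2.T1.H669.exists_finset_descent F₀ g₁
  obtain ⟨Sy₁, hSy₁⟩ := Fermat.Agent.A2.T1.H669.exists_finset_descent F₀ y₁
  obtain ⟨Sg₂, hSg₂⟩ := Fermat.Agent.A2.T1.H669.exists_finset_descent F₀ g₂
  obtain ⟨Sy₂, hSy₂⟩ := Fermat.Agent.A2.T1.H669.exists_finset_descent F₀ y₂
  haveI : NeZero ((p : ℕ) : AlgebraicClosure ℚ) := ⟨Nat.cast_ne_zero.2 hp.ne_zero⟩
  obtain ⟨ζ, hζ⟩ := HasEnoughRootsOfUnity.exists_primitiveRoot (AlgebraicClosure ℚ) p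
  -- the good level
  obtain ⟨E, hSE, hE⟩ := Fermat.Agent.A2.IF.H429.ifStatement p hp A hA
    (Sf ∪ Sg₁ ∪ Sy₁ ∪ Sg₂ ∪ Sy₂ ∪ {ζ})
  obtain ⟨f', hf'⟩ := hSf E (fun s hs => hSE s (by simp [hs]))
  obtain ⟨g₁', hg₁'⟩ := hSg₁ E (fun s hs => hSE s (by simp [hs]))
  obtain ⟨y₁', hy₁'⟩ := hSy₁ E (fun s hs => hSE s (by simp [hs]))
  obtain ⟨g₂', hg₂'⟩ := hSg₂ E (fun s hs => hSE s (by simp [hs]))
  obtain ⟨y₂', hy₂'⟩ := hSy₂ E (fun s hs => hSE s (by simp [hs]))
  have hζE : ζ ∈ E := hSE ζ (by simp)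
  have hζA : ζ ∈ A := mem_of_pow_eq_one_h558 A hp.pos hζ.pow_eq_one
  -- the root of unity in `R_E`
  set ζR : ↥(Fermat.Agent.A2.RE A E) := ⟨⟨ζ, hζE⟩, hζA⟩ with hζR
  have hinj : Function.Injective
      ((algebraMap E (AlgebraicClosure ℚ)).comp (Fermat.Agent.A2.RE A E).subtype) :=
    (algebraMap E (AlgebraicClosure ℚ)).injective.comp Subtype.val_injective
  have hζR' : IsPrimitiveRoot ζR p :=
    IsPrimitiveRoot.of_map_of_injective
      (f := (algebraMap E (AlgebraicClosure ℚ)).comp (Fermat.Agent.A2.RE A E).subtype)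
      (by exact hζ) hinj
  have hk : Fermat.Agent.A2.T1.H669.resR hE σ hσ ζR = ζR ^ c := by
    apply Subtype.ext
    apply Subtype.ext
    show σ ζ = (((ζR ^ c : ↥(Fermat.Agent.A2.RE A E)) : E) : AlgebraicClosure ℚ)
    rw [hc ζ hζ.pow_eq_one]
    simp [hζR]
  obtain ⟨V, W, hV, hW, hlevel⟩ := dkLevel_h558 A E p M' hp hp2 h3 hpM hA hE ζR hζR' σ hσ c hk
  -- descent of the hypotheses
  have hf'0 : f' ≠ 0 := by
    rintro rfl
    exact hf0 (by rw [← hf', map_zero])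
  have hg₁'0 : g₁' ≠ 0 := by
    rintro rfl
    exact hg₁ (by rw [← hg₁', map_zero])
  have hg₂'0 : g₂' ≠ 0 := by
    rintro rfl
    exact hg₂ (by rw [← hg₂', map_zero])
  have hdiv : Fermat.Agent.A2.DivisibleDiv E p f' :=
    Fermat.Agent.A2.T1.H669.divisibleDiv_of_ord E F₀ p f' hf'0
      (fun v => by rw [hf']; exact hord v)
  have hcast : cF (p * M') ((p : Kbar) ^ 2) = ((p : ℕ) : FF (p * M')) ^ 2 := by
    rw [cF, map_pow, map_natCast]
  have hrel : ∀ (g y : FF (p * M')) (g' y' : ↥(Fermat.Agent.A2.FE E (p * M'))),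
      Fermat.Agent.A2.T1.H669.iota E F₀ g' = g → Fermat.Agent.A2.T1.H669.iota E F₀ y' = y →
      f = g ^ p * (1 + cF (p * M') ((p : Kbar) ^ 2) * y) →
      f' = g' ^ p * (1 + ((p : ℕ) : ↥(Fermat.Agent.A2.FE E (p * M'))) ^ 2 * y') := by
    intro g y g' y' hg hy h
    apply Fermat.Agent.A2.T1.H669.iota_injective E F₀
    rw [hf', h, hcast, map_mul, map_pow, map_add, map_one, map_mul, map_pow, map_natCast, hg, hy]
  have hy₁V : y₁' ∈ V :=
    Fermat.Agent.Ribet.H216.gaussDescent A E (p * M') hp.ne_zero hA hE.dvr V hV y₁'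
      (by rw [hy₁']; exact hy₁)
  have hWeq : W = Fermat.Agent.A2.Mod.H553.wE E (p * M') :=
    Fermat.Agent.A2.Mod.H553.isFricke_unique E (NeZero.ne (p * M')) hW
      (Fermat.Agent.A2.Mod.H553.isFricke_wE E (p * M'))
  have hy₂V : y₂' ∈ V.comap (W : ↥(Fermat.Agent.A2.FE E (p * M')) →+*
      ↥(Fermat.Agent.A2.FE E (p * M'))) := by
    show W y₂' ∈ V
    refine Fermat.Agent.Ribet.H216.gaussDescent A E (p * M') hp.ne_zero hA hE.dvr V hV (W y₂') ?_
    rw [hWeq, ← iota849_eq_h558]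
    have h1 := Fermat.Agent.A2.Mod.H553.iota_wE E (p * M') y₂'
    rw [h1]
    have h2 : Fermat.Agent.A2.Mod.H553.iotaN E (p * M') y₂' = y₂ := by
      rw [← hy₂']
      exact iota849_eq_h558 E F₀ y₂'
    rw [h2]
    exact hy₂
  obtain ⟨h, hh0, hh⟩ := hlevel f' hf'0 hdiv
    ⟨g₁', y₁', hg₁'0, hy₁V, hrel g₁ y₁ g₁' y₁' hg₁' hy₁' hfu₁⟩
    ⟨g₂', y₂', hg₂'0, hy₂V, hrel g₂ y₂ g₂' y₂' hg₂' hy₂' hfu₂⟩
  -- push to `F̄`
  have h1 := congrArg (Fermat.Agent.A2.T1.H669.iota E F₀) hh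
  rw [map_mul, map_pow, map_pow,
    Fermat.Agent.A2.T1.H669.iota_arithmeticRingAut E F₀ σ (hE.res σ hσ) (fun e => rfl), hf']
    at h1
  refine ⟨Fermat.Agent.A2.T1.H669.iota E F₀ h, 1, one_ne_zero,
    Fermat.Agent.A2.T1.H669.iota_ne_zero E F₀ hh0, ?_⟩
  rw [map_one, one_mul]
  exact h1

/-- **DK** (`H220.DeepKummerStatement`), from the READY form. -/
theorem deepKummer_h558 : Fermat.Agent.Ribet.H220.DeepKummerStatement := by
  intro p M' _ _ _ hp hp5 hpM A hA σ hσ c hc f hf0 hord hI hZ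
  exact deepKummerReady_h558 p M' hp (by omega) (by omega) hpM A hA σ hσ c hc f hf0 hord hI hZ

end Fermat.Agent.Ribet.H558

end

end
-- ===== PACK-END Ribet/H558/DK.lean

-- ===== PACK-BEGIN Ribet/H558/S2Five.lean
section





/-!
# Row 38, WALL-p: **(S2) for `p ≥ 5`, UNCONDITIONAL** (helper558)

`s2Five : H220.S2FiveStatement` (= `H943.Final2.S2Statement5`) from the three leaves of the chain
of `Ribet/H220/S2Spec.lean`, all on main:
SL `H573.splitLift`, NC `H279.NC.normContr`, DK `H558.deepKummer_h558`.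
-/

set_option autoImplicit false

namespace Fermat.Agent.Ribet.H558

/-- **(S2) for `p ≥ 5`**, unconditional. -/
theorem s2Five : Fermat.Agent.Ribet.H220.S2FiveStatement :=
  Fermat.Agent.Ribet.H220.s2Five_of_chain Fermat.Agent.Ribet.H573.splitLift
    Fermat.Agent.Ribet.H279.NC.normContr deepKummer_h558

end Fermat.Agent.Ribet.H558

end
-- ===== PACK-END Ribet/H558/S2Five.lean

-- ===== PACK-BEGIN Ribet/H279/LevelMap.lean
section



/-!
# Row 38, WALL-p, (S4) CORE-OUT WILD, WildFrame piece **2-LEVEL MODEL**, part 1 (helper279):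
# the level map `F_{E₁}(N) → F_{E₂}(N)` for levels `E₁ ≤ E₂ ⊆ ℚ̄`

* `reMap hle : R_{E₁} →+* R_{E₂}` (inclusion `P ∩ E₁ ⊆ P ∩ E₂`), injective, local
  (`isUnit_of_reMap`), `exists_unif` (`w₁ = η · w₂ ^ e`, `0 < e`);
* `levelMap hle N : F_{E₁}(N) →+* F_{E₂}(N)` (coefficientwise inclusion), injective, with
  `iota_levelMap` (`ι₂ ∘ levelMap = ι₁`), `levelMap_algebraMap`, `levelMap_cE`, `levelMap_jE`,
  `levelMap_xE`, `levelMap_wE` (Fricke), `levelMap_fricke` (ANY pair of Fricke involutions);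
* Gauss rings: `levelMap_mem_Vinf_iff` (`V∞(E₂) ∩ F_{E₁} = V∞(E₁)`), `levelMap_mem_Vzero_iff`,
  `levelMap_inW_iff`, `levelMap_inW_comap_iff` (`w₂ V∞(E₂) ∩ F_{E₁} = w₁ V∞(E₁)`, same for `V₀`).
-/

set_option autoImplicit false
set_option linter.unusedSectionVars false
set_option linter.unusedVariables false
set_option linter.style.haveILetI false
set_option synthInstance.maxHeartbeats 400000
set_option maxHeartbeats 1600000

noncomputable section

namespace Fermat.Agent.Ribet.H279.TwoLevel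

open AlgebraicCurve ModularCurve HahnSeries
open Fermat.Agent.A2

variable {E₁ E₂ : IntermediateField ℚ Qb}

/-! ### The inclusion of the constants -/

/-- The inclusion `E₁ → E₂` as a ring homomorphism. -/
def inclE (hle : E₁ ≤ E₂) : E₁ →+* E₂ := (IntermediateField.inclusion hle : E₁ →+* E₂)

@[simp] theorem coe_inclE (hle : E₁ ≤ E₂) (e : E₁) : ((inclE hle e : E₂) : Qb) = (e : Qb) := rfl

theorem algebraMap_inclE (hle : E₁ ≤ E₂) (e : E₁) :
    algebraMap E₂ Qb (inclE hle e) = algebraMap E₁ Qb e := rfl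

theorem algebraMap_comp_inclE (hle : E₁ ≤ E₂) :
    (algebraMap E₂ Qb).comp (inclE hle) = algebraMap E₁ Qb := RingHom.ext fun _ => rfl

theorem inclE_injective (hle : E₁ ≤ E₂) : Function.Injective (inclE hle) :=
  (inclE hle).injective

/-- The inclusion `R_{E₁} → R_{E₂}`. -/
def reMap (P : ValuationSubring Qb) (hle : E₁ ≤ E₂) : RE P E₁ →+* RE P E₂ where
  toFun r := ⟨inclE hle (r : E₁), r.2⟩
  map_one' := Subtype.ext (map_one _)
  map_mul' _ _ := Subtype.ext (map_mul _ _ _)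
  map_zero' := Subtype.ext (map_zero _)
  map_add' _ _ := Subtype.ext (map_add _ _ _)

@[simp] theorem coe_reMap (P : ValuationSubring Qb) (hle : E₁ ≤ E₂) (r : RE P E₁) :
    ((reMap P hle r : RE P E₂) : E₂) = inclE hle (r : E₁) := rfl

theorem reMap_injective (P : ValuationSubring Qb) (hle : E₁ ≤ E₂) :
    Function.Injective (reMap P hle) := by
  intro a b h
  apply Subtype.ext
  apply inclE_injective hle
  exact congrArg Subtype.val h

/-- `R_{E₁} → R_{E₂}` is local. -/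
theorem isUnit_of_reMap (P : ValuationSubring Qb) (hle : E₁ ≤ E₂) {r : RE P E₁}
    (h : IsUnit (reMap P hle r)) : IsUnit r := by
  obtain ⟨s, hs⟩ := isUnit_iff_exists_inv.mp h
  have h1 : (algebraMap E₁ Qb (r : E₁)) * (algebraMap E₂ Qb (s : E₂)) = 1 := by
    have := congrArg (fun z : RE P E₂ => algebraMap E₂ Qb (z : E₂)) hs
    simpa using this
  have hr0 : (r : E₁) ≠ 0 := by
    intro h0
    rw [h0, map_zero, zero_mul] at h1
    exact zero_ne_one h1
  have h2 : algebraMap E₁ Qb ((r : E₁)⁻¹) = algebraMap E₂ Qb (s : E₂) := by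
    rw [map_inv₀]
    exact inv_eq_of_mul_eq_one_right h1
  have hmem : (r : E₁)⁻¹ ∈ RE P E₁ := by
    show algebraMap E₁ Qb ((r : E₁)⁻¹) ∈ P
    rw [h2]
    exact s.2
  refine isUnit_iff_exists_inv.mpr ⟨⟨_, hmem⟩, Subtype.ext ?_⟩
  show (r : E₁) * (r : E₁)⁻¹ = 1
  exact mul_inv_cancel₀ hr0

/-- **`unif`**: a uniformiser of level `1` is a unit times a positive power of a uniformiser of
level `2`. -/
theorem exists_unif (P : ValuationSubring Qb) (hle : E₁ ≤ E₂)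
    (hdvr₂ : IsDiscreteValuationRing (RE P E₂)) {w₁ : RE P E₁} {w₂ : RE P E₂}
    (hw₁ : Irreducible w₁) (hw₂ : Irreducible w₂) :
    ∃ (η : RE P E₂) (e : ℕ), IsUnit η ∧ 0 < e ∧ reMap P hle w₁ = η * w₂ ^ e := by
  haveI := hdvr₂
  have h0 : reMap P hle w₁ ≠ 0 := by
    intro h
    apply hw₁.ne_zero
    apply reMap_injective P hle
    rw [h, map_zero]
  obtain ⟨e, u, hu⟩ := IsDiscreteValuationRing.eq_unit_mul_pow_irreducible h0 hw₂
  refine ⟨u, e, u.isUnit, ?_, hu⟩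
  rcases Nat.eq_zero_or_pos e with he | he
  · exfalso
    rw [he, pow_zero, mul_one] at hu
    apply hw₁.not_isUnit
    apply isUnit_of_reMap P hle
    rw [hu]
    exact u.isUnit
  · exact he

/-! ### The level map -/

/-- **The level map** `F_{E₁}(N) → F_{E₂}(N)`: coefficientwise inclusion. -/
def levelMap (hle : E₁ ≤ E₂) (N : ℕ) : FE E₁ N →+* FE E₂ N where
  toFun x := ⟨coeffMap (inclE hle) (x : LaurentSeries E₁),
    Fermat.Agent.S18.H602.coeffMap_mem_laurentBaseChange (modularFunctionFieldFull N) _ x.2⟩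
  map_one' := Subtype.ext (map_one _)
  map_mul' _ _ := Subtype.ext (map_mul _ _ _)
  map_zero' := Subtype.ext (map_zero _)
  map_add' _ _ := Subtype.ext (map_add _ _ _)

@[simp] theorem coe_levelMap (hle : E₁ ≤ E₂) (N : ℕ) (x : FE E₁ N) :
    ((levelMap hle N x : FE E₂ N) : LaurentSeries E₂) =
      coeffMap (inclE hle) (x : LaurentSeries E₁) := rfl

theorem levelMap_injective (hle : E₁ ≤ E₂) (N : ℕ) : Function.Injective (levelMap hle N) :=
  (levelMap hle N).injective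

/-- `ι₂ ∘ levelMap = ι₁`. -/
theorem iota_levelMap (hle : E₁ ≤ E₂) (N : ℕ) (x : FE E₁ N) :
    T1.H669.iota E₂ (modularFunctionFieldFull N) (levelMap hle N x) =
      T1.H669.iota E₁ (modularFunctionFieldFull N) x := by
  apply Subtype.ext
  show coeffMap (algebraMap E₂ Qb) (coeffMap (inclE hle) (x : LaurentSeries E₁)) =
    coeffMap (algebraMap E₁ Qb) (x : LaurentSeries E₁)
  rw [coeffMap_coeffMap]
  exact coeffMap_congr (algebraMap_comp_inclE hle) _

/-- The level map is the unique ring homomorphism compatible with the embeddings into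
`ℚ̄(X₀(N))`. -/
theorem eq_levelMap_of_iota (hle : E₁ ≤ E₂) (N : ℕ) (φ : FE E₁ N →+* FE E₂ N)
    (h : ∀ x, T1.H669.iota E₂ (modularFunctionFieldFull N) (φ x) =
      T1.H669.iota E₁ (modularFunctionFieldFull N) x) : φ = levelMap hle N := by
  ext x : 1
  apply T1.H669.iota_injective E₂ (modularFunctionFieldFull N)
  rw [h, iota_levelMap]

theorem levelMap_algebraMap (hle : E₁ ≤ E₂) (N : ℕ) (e : E₁) :
    levelMap hle N (algebraMap E₁ (FE E₁ N) e) = algebraMap E₂ (FE E₂ N) (inclE hle e) :=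
  Subtype.ext (Fermat.Agent.S18.H602.coeffMap_algebraMap' (inclE hle) e)

theorem levelMap_cE (P : ValuationSubring Qb) (hle : E₁ ≤ E₂) (N : ℕ) (r : RE P E₁) :
    levelMap hle N (Mod.cE P E₁ N r) = Mod.cE P E₂ N (reMap P hle r) :=
  levelMap_algebraMap hle N (r : E₁)

theorem levelMap_jE (hle : E₁ ≤ E₂) (N : ℕ) (d : ℕ) [NeZero d] (hd : d ∣ N) :
    levelMap hle N (Mod.jE E₁ N d hd) = Mod.jE E₂ N d hd :=
  Subtype.ext (Fermat.Agent.S18.H602.coeffMap_coeffEmb' (inclE hle) _)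

theorem levelMap_xE (hle : E₁ ≤ E₂) (M q : ℕ) [NeZero M] [NeZero q] :
    levelMap hle (M * q) (Mod.xE E₁ M q) = Mod.xE E₂ M q := by
  rw [Mod.xE, Mod.xE, map_mul, levelMap_jE, levelMap_jE]

/-- The level map commutes with the Fricke involutions `H553.wE`. -/
theorem levelMap_wE (hle : E₁ ≤ E₂) (N : ℕ) [NeZero N] (y : FE E₁ N) :
    levelMap hle N (Mod.H553.wE E₁ N y) = Mod.H553.wE E₂ N (levelMap hle N y) := by
  apply T1.H669.iota_injective E₂ (modularFunctionFieldFull N)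
  rw [iota_levelMap, NC.iota_wE', NC.iota_wE', iota_levelMap]

/-- The level map commutes with ANY pair of Fricke involutions. -/
theorem levelMap_fricke (hle : E₁ ≤ E₂) (N : ℕ) [NeZero N]
    {W₁ : FE E₁ N ≃ₐ[E₁] FE E₁ N} {W₂ : FE E₂ N ≃ₐ[E₂] FE E₂ N}
    (hW₁ : Mod.IsFricke E₁ N W₁) (hW₂ : Mod.IsFricke E₂ N W₂) (y : FE E₁ N) :
    levelMap hle N (W₁ y) = W₂ (levelMap hle N y) := by
  rw [Mod.H553.isFricke_unique E₁ (NeZero.ne N) hW₁ (Mod.H553.isFricke_wE E₁ N),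
    Mod.H553.isFricke_unique E₂ (NeZero.ne N) hW₂ (Mod.H553.isFricke_wE E₂ N)]
  exact levelMap_wE hle N y

/-! ### Gauss rings -/

section Gauss

variable {P : ValuationSubring Qb} {N : ℕ} [NeZero N]

/-- `y ∈ V∞(E) ↔ ι y ∈ V∞(ℚ̄)`. -/
theorem mem_Vinf_iff_iota {E : IntermediateField ℚ Qb} {ℓ : ℕ} (hℓ : ℓ ≠ 0)
    (hP : (ℓ : Qb) ∈ P.nonunits) (hdvr : IsDiscreteValuationRing (RE P E))
    {V : ValuationSubring (FE E N)} (hV : Mod.IsVinf P E N V) (y : FE E N) :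
    y ∈ V ↔ T1.H669.iota E (modularFunctionFieldFull N) y ∈ H708.Vinf N P hℓ hP :=
  ⟨fun h => NC.iota_mem_Vinf hℓ hP hV h,
    fun h => H216.gaussDescent P E N hℓ hP hdvr V hV y h⟩

/-- **`V∞(E₂) ∩ F_{E₁} = V∞(E₁)`.** -/
theorem levelMap_mem_Vinf_iff (hle : E₁ ≤ E₂) {ℓ : ℕ} (hℓ : ℓ ≠ 0)
    (hP : (ℓ : Qb) ∈ P.nonunits) (hdvr₁ : IsDiscreteValuationRing (RE P E₁))
    (hdvr₂ : IsDiscreteValuationRing (RE P E₂))
    {V₁ : ValuationSubring (FE E₁ N)} {V₂ : ValuationSubring (FE E₂ N)}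
    (hV₁ : Mod.IsVinf P E₁ N V₁) (hV₂ : Mod.IsVinf P E₂ N V₂) (y : FE E₁ N) :
    levelMap hle N y ∈ V₂ ↔ y ∈ V₁ := by
  rw [mem_Vinf_iff_iota hℓ hP hdvr₂ hV₂, mem_Vinf_iff_iota hℓ hP hdvr₁ hV₁, iota_levelMap]

/-- **`V₀(E₂) ∩ F_{E₁} = V₀(E₁)`.** -/
theorem levelMap_mem_Vzero_iff (hle : E₁ ≤ E₂) {ℓ : ℕ} (hℓ : ℓ ≠ 0)
    (hP : (ℓ : Qb) ∈ P.nonunits) (hdvr₁ : IsDiscreteValuationRing (RE P E₁))
    (hdvr₂ : IsDiscreteValuationRing (RE P E₂))
    {V₁ : ValuationSubring (FE E₁ N)} {V₂ : ValuationSubring (FE E₂ N)}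
    (hV₁ : Mod.IsVinf P E₁ N V₁) (hV₂ : Mod.IsVinf P E₂ N V₂)
    {W₁ : FE E₁ N ≃ₐ[E₁] FE E₁ N} {W₂ : FE E₂ N ≃ₐ[E₂] FE E₂ N}
    (hW₁ : Mod.IsFricke E₁ N W₁) (hW₂ : Mod.IsFricke E₂ N W₂) (y : FE E₁ N) :
    levelMap hle N y ∈ V₂.comap (W₂ : FE E₂ N →+* FE E₂ N) ↔
      y ∈ V₁.comap (W₁ : FE E₁ N →+* FE E₁ N) := by
  show W₂ (levelMap hle N y) ∈ V₂ ↔ W₁ y ∈ V₁
  rw [← levelMap_fricke hle N hW₁ hW₂, levelMap_mem_Vinf_iff hle hℓ hP hdvr₁ hdvr₂ hV₁ hV₂]

/-- In a valuation ring, a nonzero element is a nonunit iff its inverse is not in the ring. -/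
theorem mem_nonunits_iff_inv_not_mem {K : Type*} [Field K] (A : ValuationSubring K) {a : K}
    (ha : a ≠ 0) : a ∈ A.nonunits ↔ a⁻¹ ∉ A := by
  have h := Valuation.one_lt_val_iff A.valuation (inv_ne_zero ha)
  rw [inv_inv] at h
  rw [ValuationSubring.mem_nonunits_iff, ← h, ← not_le, ValuationSubring.valuation_le_one_iff]

theorem zero_mem_nonunits' {K : Type*} [Field K] (A : ValuationSubring K) :
    (0 : K) ∈ A.nonunits := by
  rw [ValuationSubring.mem_nonunits_iff, map_zero]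
  exact zero_lt_one

/-- A valuation ring of `F_{E₂}` whose trace on `F_{E₁}` is `V₁`: same for the maximal ideals. -/
theorem levelMap_mem_nonunits_iff (hle : E₁ ≤ E₂)
    {V₁ : ValuationSubring (FE E₁ N)} {V₂ : ValuationSubring (FE E₂ N)}
    (h : ∀ y : FE E₁ N, levelMap hle N y ∈ V₂ ↔ y ∈ V₁) (y : FE E₁ N) :
    levelMap hle N y ∈ V₂.nonunits ↔ y ∈ V₁.nonunits := by
  by_cases hy : y = 0
  · subst hy
    rw [map_zero]
    exact ⟨fun _ => zero_mem_nonunits' V₁, fun _ => zero_mem_nonunits' V₂⟩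
  · have hy' : levelMap hle N y ≠ 0 := (map_ne_zero_iff _ (levelMap_injective hle N)).2 hy
    rw [mem_nonunits_iff_inv_not_mem V₂ hy', mem_nonunits_iff_inv_not_mem V₁ hy, ← map_inv₀, h]

/-- **`w₂ V∞(E₂) ∩ F_{E₁} = w₁ V∞(E₁)`.** -/
theorem levelMap_inW_iff (hle : E₁ ≤ E₂) {ℓ : ℕ} (hℓ : ℓ ≠ 0)
    (hP : (ℓ : Qb) ∈ P.nonunits) (hdvr₁ : IsDiscreteValuationRing (RE P E₁))
    (hdvr₂ : IsDiscreteValuationRing (RE P E₂))
    {w₁ : RE P E₁} {w₂ : RE P E₂} (hw₁ : Irreducible w₁) (hw₂ : Irreducible w₂)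
    {V₁ : ValuationSubring (FE E₁ N)} {V₂ : ValuationSubring (FE E₂ N)}
    (hV₁ : Mod.IsVinf P E₁ N V₁) (hV₂ : Mod.IsVinf P E₂ N V₂) (y : FE E₁ N) :
    Mod.InW P E₂ N V₂ w₂ (levelMap hle N y) ↔ Mod.InW P E₁ N V₁ w₁ y := by
  haveI := hdvr₁
  haveI := hdvr₂
  have hu₁ := (Mod.H553.vinfBasic P E₁ w₁ N (NeZero.ne N) hdvr₁ hw₁ V₁ hV₁).1
  have hu₂ := (Mod.H553.vinfBasic P E₂ w₂ N (NeZero.ne N) hdvr₂ hw₂ V₂ hV₂).1
  rw [Mod.H13.inW_iff_mem_nonunits hu₂, Mod.H13.inW_iff_mem_nonunits hu₁]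
  exact levelMap_mem_nonunits_iff hle
    (fun z => levelMap_mem_Vinf_iff hle hℓ hP hdvr₁ hdvr₂ hV₁ hV₂ z) y

/-- **`w₂ V₀(E₂) ∩ F_{E₁} = w₁ V₀(E₁)`.** -/
theorem levelMap_inW_comap_iff (hle : E₁ ≤ E₂) {ℓ : ℕ} (hℓ : ℓ ≠ 0)
    (hP : (ℓ : Qb) ∈ P.nonunits) (hdvr₁ : IsDiscreteValuationRing (RE P E₁))
    (hdvr₂ : IsDiscreteValuationRing (RE P E₂))
    {w₁ : RE P E₁} {w₂ : RE P E₂} (hw₁ : Irreducible w₁) (hw₂ : Irreducible w₂)
    {V₁ : ValuationSubring (FE E₁ N)} {V₂ : ValuationSubring (FE E₂ N)}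
    (hV₁ : Mod.IsVinf P E₁ N V₁) (hV₂ : Mod.IsVinf P E₂ N V₂)
    {W₁ : FE E₁ N ≃ₐ[E₁] FE E₁ N} {W₂ : FE E₂ N ≃ₐ[E₂] FE E₂ N}
    (hW₁ : Mod.IsFricke E₁ N W₁) (hW₂ : Mod.IsFricke E₂ N W₂) (y : FE E₁ N) :
    Mod.InW P E₂ N (V₂.comap (W₂ : FE E₂ N →+* FE E₂ N)) w₂ (levelMap hle N y) ↔
      Mod.InW P E₁ N (V₁.comap (W₁ : FE E₁ N →+* FE E₁ N)) w₁ y := by
  haveI := hdvr₁
  haveI := hdvr₂
  have hu₁ := Mod.H13.isUnif_comap
    (Mod.H553.vinfBasic P E₁ w₁ N (NeZero.ne N) hdvr₁ hw₁ V₁ hV₁).1 W₁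
  have hu₂ := Mod.H13.isUnif_comap
    (Mod.H553.vinfBasic P E₂ w₂ N (NeZero.ne N) hdvr₂ hw₂ V₂ hV₂).1 W₂
  rw [Mod.H13.inW_iff_mem_nonunits hu₂, Mod.H13.inW_iff_mem_nonunits hu₁]
  exact levelMap_mem_nonunits_iff hle
    (fun z => levelMap_mem_Vzero_iff hle hℓ hP hdvr₁ hdvr₂ hV₁ hV₂ hW₁ hW₂ z) y

end Gauss

end Fermat.Agent.Ribet.H279.TwoLevel

end
end
-- ===== PACK-END Ribet/H279/LevelMap.lean

-- ===== PACK-BEGIN Ribet/H279/TwoLevelCut.lean
section




/-!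
# Row 38, WALL-p, (S4) CORE-OUT WILD, WildFrame piece **2-LEVEL MODEL**, part 2 (helper279):
# instances, `B₁ → B₂`, components of level `2` over components of level `1`

Levels `E₁ ≤ E₂ ⊆ ℚ̄`, `Oᵢ = R_{Eᵢ}`, `Kᵢ = F_{Eᵢ}(N)`.

* `algO`, `algK`, `algOK` : the instances `Algebra O₁ O₂`, `Algebra K₁ K₂`, `Algebra O₁ K₂`
  (= `reMap`, `levelMap`, composite), `towerOOK`, `towerOKK` : the two scalar towers of
  `H704.CoreOut.WildFrame`; `algebraMap` is `levelMap` / `reMap` by `rfl`;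
* `levelMap_mem_chartAlg` : `B₁ → B₂` (`map_mem`);
* `comp_of_cut_inf`, `comp_of_cut_zero` : `b ∈ B₁ ∩ w₁ V(E₁) ↔ levelMap b ∈ B₂ ∩ w₂ V(E₂)` for the
  cuts by `V∞` and by `V₀` (`comp₁`, `comp₂`).
-/

set_option autoImplicit false
set_option linter.unusedSectionVars false
set_option linter.unusedVariables false
set_option linter.style.haveILetI false
set_option synthInstance.maxHeartbeats 400000
set_option maxHeartbeats 1600000

noncomputable section

namespace Fermat.Agent.Ribet.H279.TwoLevel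

open AlgebraicCurve ModularCurve HahnSeries
open Fermat.Agent.A2

variable {E₁ E₂ : IntermediateField ℚ Qb}

/-! ### Instances -/

/-- `Algebra O₁ O₂`. -/
@[reducible] def algO (P : ValuationSubring Qb) (hle : E₁ ≤ E₂) : Algebra (RE P E₁) (RE P E₂) :=
  (reMap P hle).toAlgebra

/-- `Algebra K₁ K₂`. -/
@[reducible] def algK (hle : E₁ ≤ E₂) (N : ℕ) : Algebra (FE E₁ N) (FE E₂ N) :=
  (levelMap hle N).toAlgebra

/-- `Algebra O₁ K₂`. -/
@[reducible] def algOK (P : ValuationSubring Qb) (hle : E₁ ≤ E₂) (N : ℕ) :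
    Algebra (RE P E₁) (FE E₂ N) :=
  ((algebraMap (RE P E₂) (FE E₂ N)).comp (reMap P hle)).toAlgebra

theorem algebraMap_algO (P : ValuationSubring Qb) (hle : E₁ ≤ E₂) :
    @algebraMap (RE P E₁) (RE P E₂) _ _ (algO P hle) = reMap P hle := rfl

theorem algebraMap_algK (hle : E₁ ≤ E₂) (N : ℕ) :
    @algebraMap (FE E₁ N) (FE E₂ N) _ _ (algK hle N) = levelMap hle N := rfl

theorem algebraMap_algOK (P : ValuationSubring Qb) (hle : E₁ ≤ E₂) (N : ℕ) :
    @algebraMap (RE P E₁) (FE E₂ N) _ _ (algOK P hle N) =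
      (algebraMap (RE P E₂) (FE E₂ N)).comp (reMap P hle) := rfl

/-- The constants: `levelMap ∘ (O₁ → K₁) = (O₂ → K₂) ∘ reMap`. -/
theorem levelMap_algebraMap_RE (P : ValuationSubring Qb) (hle : E₁ ≤ E₂) (N : ℕ) (r : RE P E₁) :
    levelMap hle N (algebraMap (RE P E₁) (FE E₁ N) r) =
      algebraMap (RE P E₂) (FE E₂ N) (reMap P hle r) :=
  levelMap_cE P hle N r

/-- `IsScalarTower O₁ O₂ K₂`. -/
theorem towerOOK (P : ValuationSubring Qb) (hle : E₁ ≤ E₂) (N : ℕ) :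
    letI := algO P hle
    letI := algOK P hle N
    IsScalarTower (RE P E₁) (RE P E₂) (FE E₂ N) := by
  letI := algO P hle
  letI := algOK P hle N
  exact IsScalarTower.of_algebraMap_eq (fun _ => rfl)

/-- `IsScalarTower O₁ K₁ K₂`. -/
theorem towerOKK (P : ValuationSubring Qb) (hle : E₁ ≤ E₂) (N : ℕ) :
    letI := algK hle N
    letI := algOK P hle N
    IsScalarTower (RE P E₁) (FE E₁ N) (FE E₂ N) := by
  letI := algK hle N
  letI := algOK P hle N
  exact IsScalarTower.of_algebraMap_eq (fun r => (levelMap_algebraMap_RE P hle N r).symm)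

/-! ### `B₁ → B₂` -/

theorem levelMap_mem_adjoin (P : ValuationSubring Qb) (hle : E₁ ≤ E₂) (N : ℕ) {x₁ c : FE E₁ N}
    (hc : c ∈ Algebra.adjoin (RE P E₁) ({x₁} : Set (FE E₁ N))) :
    levelMap hle N c ∈ Algebra.adjoin (RE P E₂) ({levelMap hle N x₁} : Set (FE E₂ N)) := by
  induction hc using Algebra.adjoin_induction with
  | mem y hy =>
      rw [Set.mem_singleton_iff.mp hy]
      exact Algebra.subset_adjoin (Set.mem_singleton _)
  | algebraMap r =>
      rw [levelMap_algebraMap_RE]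
      exact Subalgebra.algebraMap_mem _ _
  | add _ _ _ _ h1 h2 => rw [map_add]; exact add_mem h1 h2
  | mul _ _ _ _ h1 h2 => rw [map_mul]; exact mul_mem h1 h2

/-- The level map on `R_{E₁}[x₁] → R_{E₂}[levelMap x₁]`. -/
def adjoinMap (P : ValuationSubring Qb) (hle : E₁ ≤ E₂) (N : ℕ) (x₁ : FE E₁ N) :
    Algebra.adjoin (RE P E₁) ({x₁} : Set (FE E₁ N)) →+*
      Algebra.adjoin (RE P E₂) ({levelMap hle N x₁} : Set (FE E₂ N)) where
  toFun c := ⟨levelMap hle N (c : FE E₁ N), levelMap_mem_adjoin P hle N c.2⟩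
  map_one' := Subtype.ext (map_one _)
  map_mul' _ _ := Subtype.ext (map_mul _ _ _)
  map_zero' := Subtype.ext (map_zero _)
  map_add' _ _ := Subtype.ext (map_add _ _ _)

/-- **`map_mem`** for an arbitrary coordinate. -/
theorem levelMap_mem_chartAlg' (P : ValuationSubring Qb) (hle : E₁ ≤ E₂) (N : ℕ)
    {x₁ b : FE E₁ N} (hb : b ∈ Mod.chartAlg P E₁ N x₁) :
    levelMap hle N b ∈ Mod.chartAlg P E₂ N (levelMap hle N x₁) := by
  rw [Mod.mem_chartAlg] at hb ⊢
  exact IsIntegral.map_of_comp_eq (adjoinMap P hle N x₁) (levelMap hle N)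
    (RingHom.ext fun _ => rfl) hb

/-- **`map_mem`**: the level map sends the finite chart of level `1` into the finite chart of
level `2`. -/
theorem levelMap_mem_chartAlg (P : ValuationSubring Qb) (hle : E₁ ≤ E₂) (M q : ℕ) [NeZero M]
    [NeZero q] {b : FE E₁ (M * q)} (hb : b ∈ Mod.chartAlg P E₁ (M * q) (Mod.xE E₁ M q)) :
    levelMap hle (M * q) b ∈ Mod.chartAlg P E₂ (M * q) (Mod.xE E₂ M q) := by
  have h := levelMap_mem_chartAlg' P hle (M * q) hb
  rwa [levelMap_xE] at h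

/-- The chart at infinity. -/
theorem levelMap_mem_chartAlg_inv (P : ValuationSubring Qb) (hle : E₁ ≤ E₂) (M q : ℕ) [NeZero M]
    [NeZero q] {b : FE E₁ (M * q)} (hb : b ∈ Mod.chartAlg P E₁ (M * q) (Mod.xE E₁ M q)⁻¹) :
    levelMap hle (M * q) b ∈ Mod.chartAlg P E₂ (M * q) (Mod.xE E₂ M q)⁻¹ := by
  have h := levelMap_mem_chartAlg' P hle (M * q) hb
  rwa [map_inv₀, levelMap_xE] at h

/-! ### Components -/

section Comp

variable {P : ValuationSubring Qb} {N : ℕ} [NeZero N]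

/-- **`comp₁`** from the cut data: the cut of `B₂` by `V∞(E₂)` lies over the cut of `B₁` by
`V∞(E₁)`. -/
theorem comp_of_cut_inf (hle : E₁ ≤ E₂) {ℓ : ℕ} (hℓ : ℓ ≠ 0)
    (hP : (ℓ : Qb) ∈ P.nonunits) (hdvr₁ : IsDiscreteValuationRing (RE P E₁))
    (hdvr₂ : IsDiscreteValuationRing (RE P E₂))
    {w₁ : RE P E₁} {w₂ : RE P E₂} (hw₁ : Irreducible w₁) (hw₂ : Irreducible w₂)
    {V₁ : ValuationSubring (FE E₁ N)} {V₂ : ValuationSubring (FE E₂ N)}
    (hV₁ : Mod.IsVinf P E₁ N V₁) (hV₂ : Mod.IsVinf P E₂ N V₂)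
    {B₁ : Subalgebra (RE P E₁) (FE E₁ N)} {B₂ : Subalgebra (RE P E₂) (FE E₂ N)}
    {p₁ : Ideal B₁} {p₂ : Ideal B₂}
    (hc₁ : Mod.IsCut P E₁ N w₁ V₁ B₁ p₁) (hc₂ : Mod.IsCut P E₂ N w₂ V₂ B₂ p₂)
    (b : B₁) (b' : B₂) (hb : (b' : FE E₂ N) = levelMap hle N (b : FE E₁ N)) :
    b' ∈ p₂ ↔ b ∈ p₁ := by
  rw [hc₂ b', hc₁ b, hb]
  exact levelMap_inW_iff hle hℓ hP hdvr₁ hdvr₂ hw₁ hw₂ hV₁ hV₂ _

/-- **`comp₂`** from the cut data: the cut of `B₂` by `V₀(E₂)` lies over the cut of `B₁` by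
`V₀(E₁)`. -/
theorem comp_of_cut_zero (hle : E₁ ≤ E₂) {ℓ : ℕ} (hℓ : ℓ ≠ 0)
    (hP : (ℓ : Qb) ∈ P.nonunits) (hdvr₁ : IsDiscreteValuationRing (RE P E₁))
    (hdvr₂ : IsDiscreteValuationRing (RE P E₂))
    {w₁ : RE P E₁} {w₂ : RE P E₂} (hw₁ : Irreducible w₁) (hw₂ : Irreducible w₂)
    {V₁ : ValuationSubring (FE E₁ N)} {V₂ : ValuationSubring (FE E₂ N)}
    (hV₁ : Mod.IsVinf P E₁ N V₁) (hV₂ : Mod.IsVinf P E₂ N V₂)
    {W₁ : FE E₁ N ≃ₐ[E₁] FE E₁ N} {W₂ : FE E₂ N ≃ₐ[E₂] FE E₂ N}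
    (hW₁ : Mod.IsFricke E₁ N W₁) (hW₂ : Mod.IsFricke E₂ N W₂)
    {B₁ : Subalgebra (RE P E₁) (FE E₁ N)} {B₂ : Subalgebra (RE P E₂) (FE E₂ N)}
    {p₁ : Ideal B₁} {p₂ : Ideal B₂}
    (hc₁ : Mod.IsCut P E₁ N w₁ (V₁.comap (W₁ : FE E₁ N →+* FE E₁ N)) B₁ p₁)
    (hc₂ : Mod.IsCut P E₂ N w₂ (V₂.comap (W₂ : FE E₂ N →+* FE E₂ N)) B₂ p₂)
    (b : B₁) (b' : B₂) (hb : (b' : FE E₂ N) = levelMap hle N (b : FE E₁ N)) :
    b' ∈ p₂ ↔ b ∈ p₁ := by
  rw [hc₂ b', hc₁ b, hb]
  exact levelMap_inW_comap_iff hle hℓ hP hdvr₁ hdvr₂ hw₁ hw₂ hV₁ hV₂ hW₁ hW₂ _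

end Comp

end Fermat.Agent.Ribet.H279.TwoLevel

end
end
-- ===== PACK-END Ribet/H279/TwoLevelCut.lean

-- ===== PACK-BEGIN Ribet/H339/DeepSplit.lean
section
/-
# RIBET row 38, WALL-p, (S4) CORE-OUT WILD, piece DEEP-SPLIT of `f_t`  (helper339)

Second, independent owner (assigned by the row-lead, note 10045).  Hypotheses of WILD on the
class `t` (`IsNewTors`, `EigenAt`, `NonEisAway`, inertia acts through `χ`), a GIVEN good level
`E` (e.g. the tame level `H944.Tame.tameLevel A ζ`), `f_t ∈ F_{M' p, E}` a rational model of a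
Kummer generator of `t` whose leading coefficient is a `p`-th power of `E` (e.g. `1`).

* `deepSplit_val339`  : for every `s` ONE `g ≠ 0` with
                        `f_t / g ^ p ∈ (1 + w ^ s V∞) ∩ (1 + w ^ s V₀)`;
* `divisibleDiv339`   : `A2.DivisibleDiv E p f_t`;
* `splitAt_of_val339` : valuation form ⟹ `H704.I6.SplitAt` along a prime `𝔭` of a chart `B`
                        whose localisation is the valuation ring;
* `deepSplit339`      : `DivisibleDiv` and `I6.SplitAt` at BOTH cuts of the chart of a coordinate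
                        (`H220.cutLoc`).
-/










set_option autoImplicit false
set_option linter.style.haveILetI false
set_option linter.unusedSectionVars false
set_option synthInstance.maxHeartbeats 400000
set_option maxHeartbeats 1600000

noncomputable section

namespace Fermat.Agent.Ribet.H339

open AlgebraicCurve ModularCurve HahnSeries
open Fermat.Agent.S24 Fermat.Agent.A2.H528 Fermat.Agent.S29.H395
open Fermat.Agent.A2 Fermat.Agent.A2.Mod Fermat.Agent.Ribet.H232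
open Fermat.Agent.Ribet.Spec Fermat.Agent.Ribet.H944.Wall Fermat.Agent.Ribet.H884
open Fermat.Agent.Ribet.H704

section Val

variable (p M' : ℕ) [NeZero M'] [NeZero p] [NeZero (p * M')]

/-- **DEEP-SPLIT, valuation form**, at a given good level `E`. -/
theorem deepSplit_val339 (hp : p.Prime) (hp2 : p ≠ 2) (hpM : ¬ p ∣ M')
    (A : ValuationSubring Kbar) (hA : A.LiesOverPrime p)
    (S : Finset ℕ) (a : ℕ → ℤ) (hNE : NonEisAway p a) (t : JZero (p * M'))
    (ht : IsNewTors p M' t) (het : EigenAt (p * M') S a t)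
    (hχ : ∀ σ ∈ A.inertiaSubgroupIn ℚ, ∀ c : ℕ, CycloAt p σ c → σ • t = c • t)
    (E : IntermediateField ℚ Kbar) (hE : GoodField A E) (w : Mod.RE A E)
    (hS : Mod.Setting A E M' p w)
    (V : ValuationSubring (Mod.FE E (M' * p))) (hV : IsVinf A E (M' * p) V)
    (W : Mod.FE E (M' * p) ≃ₐ[E] Mod.FE E (M' * p)) (hW : IsFricke E (M' * p) W)
    (f : FF (p * M')) (hK : IsKummerGen (p * M') p f t) (ft : Mod.FE E (M' * p))
    (hfu : (f : LaurentSeries Kbar) = coeffMap (algebraMap E Kbar) (ft : LaurentSeries E))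
    (c : E) (hlc : (ft : LaurentSeries E).leadingCoeff = c ^ p) (s : ℕ) :
    ∃ g : Mod.FE E (M' * p), g ≠ 0 ∧
      (ft * (g ^ p)⁻¹ - 1) * (cE A E (M' * p) w ^ s)⁻¹ ∈ V ∧
      (ft * (g ^ p)⁻¹ - 1) * (cE A E (M' * p) w ^ s)⁻¹
        ∈ V.comap (W : Mod.FE E (M' * p) →+* Mod.FE E (M' * p)) := by
  haveI : IsDiscreteValuationRing (Mod.RE A E) := hS.dvr
  -- `t` lies in the split part
  have hsplit : t ∈ splitPart p M' A :=
    Fermat.Agent.Ribet.H39.mem_of_cyclo_of_s1For p M' hp hp2 A hA _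
      (Fermat.Agent.Ribet.H884.s1 p M' hp hpM A hA) t ht.1 hχ
  have hset : t ∈ splitSet p M' A :=
    Fermat.Agent.Ribet.H884.splitClosed p M' hp hpM A hA t hsplit
  have hSG : SplitGen p M' A f :=
    ((Fermat.Agent.Ribet.H669.genIndep_of Fermat.Agent.Ribet.H997.redField) p M' hp hpM A hA
      t f hK).2 hset
  -- depth one
  obtain ⟨hd1, -⟩ := depthE_one_of_splitGen_series (N := M' * p) (Nat.mul_comm p M') hp hpM hA
    hE hS.unif hV hfu hSG
  -- a good prime `ℓ`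
  have hN0 : M' * p ≠ 0 := mul_ne_zero (NeZero.ne M') hp.ne_zero
  obtain ⟨ℓ, hℓ, hℓS, hℓNE⟩ := hNE (S ∪ (M' * p).primeFactors)
  have hℓS' : ℓ ∉ S := fun h => hℓS (Finset.mem_union_left _ h)
  have hℓN : ¬ ℓ ∣ M' * p := fun h =>
    hℓS (Finset.mem_union_right _ (Nat.mem_primeFactors.mpr ⟨hℓ, h, hN0⟩))
  haveI : NeZero ℓ := ⟨hℓ.ne_zero⟩
  have hT : heckeOperatorBar (p * M') ⟨ℓ, hℓ⟩ t = a ℓ • t := het ⟨ℓ, hℓ⟩ hℓS'
  -- newness
  have hα : Fermat.Agent.Ribet.H801.alphaPushTo M' p (p * M') (Nat.mul_comm M' p) t = 0 := by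
    rw [← Fermat.Agent.Ribet.H801.alphaL_eq_alphaPushTo]
    exact ht.2.1
  have hβ : Fermat.Agent.Ribet.H801.betaPushTo M' p (p * M') (Nat.mul_comm M' p) t = 0 := by
    rw [← Fermat.Agent.Ribet.H801.betaL_eq_betaPushTo]
    exact ht.2.2
  obtain ⟨VM, hVM⟩ := Fermat.Agent.A2.Mod.H708.vinfExists A E M' (NeZero.ne M') hS.dvr
  exact deepSplit_to339 (N₁ := p * M') (N₂ := M' * p) (Nat.mul_comm M' p) rfl ℓ hS hVM hV hW hp
    hp2 hpM hℓ hℓN t f hK (a ℓ) hT hℓNE hα hβ hfu (Or.inl hd1) c hlc s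

/-- **Horizontal divisibility** of the rational Kummer generator. -/
theorem divisibleDiv339 (t : JZero (p * M')) (E : IntermediateField ℚ Kbar)
    (f : FF (p * M')) (hK : IsKummerGen (p * M') p f t) (ft : Mod.FE E (M' * p))
    (hfu : (f : LaurentSeries Kbar) = coeffMap (algebraMap E Kbar) (ft : LaurentSeries E)) :
    DivisibleDiv E p ft := by
  obtain ⟨hf0, D, -, hD⟩ := hK
  have hft0 : ft ≠ 0 := by
    rintro rfl
    apply hf0
    apply Subtype.ext
    rw [hfu]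
    exact map_zero _
  have key : ∀ {N : ℕ} (hN : p * M' = N) (u : Mod.FE E N),
      (f : LaurentSeries Kbar) = coeffMap (algebraMap E Kbar) (u : LaurentSeries E) → u ≠ 0 →
      DivisibleDiv E p u := by
    intro N hN u hu hu0
    subst hN
    have hfu' : f = T1.H669.iota E (modularFunctionFieldFull (p * M')) u := Subtype.ext hu
    exact T1.H669.divisibleDiv_of_ord E (modularFunctionFieldFull (p * M')) p u hu0
      (fun v => ⟨(D : Divisor Kbar (FF (p * M'))) v, by rw [← hfu']; exact hD v⟩)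
  exact key (Nat.mul_comm p M') ft hfu hft0

end Val

section SplitAt

variable {R K : Type*} [CommRing R] [Field K] [Algebra R K]

/-- Valuation form ⟹ `I6.SplitAt`: if every element of `V` is a fraction `a / b` with
`a, b ∈ B`, `b ∉ 𝔭`, and `u / g ^ p ∈ 1 + w ^ k V` for every `k`, then `u` is a `p`-th power in
the `w`-adic completion of `B_𝔭`. -/
theorem splitAt_of_val339 (B : Subalgebra R K) (𝔭 : Ideal B) (w : R) (V : ValuationSubring K)
    (p : ℕ) (u : K)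
    (hloc : ∀ f ∈ V, ∃ a b : B, b ∉ 𝔭 ∧ f * (b : K) = (a : K))
    (hval : ∀ s : ℕ, ∃ g : K, g ≠ 0 ∧
      (u * (g ^ p)⁻¹ - 1) * (algebraMap R K w ^ s)⁻¹ ∈ V)
    (hw0 : algebraMap R K w ≠ 0) :
    I6.SplitAt K 𝔭 (algebraMap R B w) p u := by
  intro k
  obtain ⟨g, hg0, hmem⟩ := hval k
  obtain ⟨a, b, hb, hab⟩ := hloc _ hmem
  refine ⟨g, b, a, hb, ?_⟩
  have hπ : algebraMap (↥B) K (algebraMap R B w) = algebraMap R K w := rfl
  have hb' : algebraMap (↥B) K b = (b : K) := rfl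
  have ha' : algebraMap (↥B) K a = (a : K) := rfl
  rw [hπ, hb', ha', ← hab]
  have hgp : g ^ p ≠ 0 := pow_ne_zero p hg0
  have hwk : algebraMap R K w ^ k ≠ 0 := pow_ne_zero k hw0
  field_simp
  ring

end SplitAt

section Main

variable (p M' : ℕ) [NeZero M'] [NeZero p] [NeZero (p * M')]

/-- **DEEP-SPLIT of `f_t`** at a given good level `E`, chart form: `f_t` is horizontally
`p`-divisible and `I6.SplitAt` along BOTH cuts `p₁ = B ∩ w V∞`, `p₂ = B ∩ w V₀` of the chart `B`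
of a coordinate `y ∈ {x, x⁻¹}`. -/
theorem deepSplit339 (hp : p.Prime) (hp2 : p ≠ 2) (hpM : ¬ p ∣ M')
    (A : ValuationSubring Kbar) (hA : A.LiesOverPrime p)
    (S : Finset ℕ) (a : ℕ → ℤ) (hNE : NonEisAway p a) (t : JZero (p * M'))
    (ht : IsNewTors p M' t) (het : EigenAt (p * M') S a t)
    (hχ : ∀ σ ∈ A.inertiaSubgroupIn ℚ, ∀ c : ℕ, CycloAt p σ c → σ • t = c • t)
    (E : IntermediateField ℚ Kbar) (hE : GoodField A E) (w : Mod.RE A E)
    (hS : Mod.Setting A E M' p w)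
    (V : ValuationSubring (Mod.FE E (M' * p))) (hV : IsVinf A E (M' * p) V)
    (W : Mod.FE E (M' * p) ≃ₐ[E] Mod.FE E (M' * p)) (hW : IsFricke E (M' * p) W)
    (y : Mod.FE E (M' * p)) (hy : Mod.IsCoord E M' p y)
    (p₁ p₂ : Ideal (Mod.chartAlg A E (M' * p) y))
    (hc₁ : Mod.IsCut A E (M' * p) w V (Mod.chartAlg A E (M' * p) y) p₁)
    (hc₂ : Mod.IsCut A E (M' * p) w (V.comap (W : Mod.FE E (M' * p) →+* Mod.FE E (M' * p)))
      (Mod.chartAlg A E (M' * p) y) p₂)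
    (f : FF (p * M')) (hK : IsKummerGen (p * M') p f t) (ft : Mod.FE E (M' * p))
    (hfu : (f : LaurentSeries Kbar) = coeffMap (algebraMap E Kbar) (ft : LaurentSeries E))
    (c : E) (hlc : (ft : LaurentSeries E).leadingCoeff = c ^ p) :
    DivisibleDiv E p ft ∧
      I6.SplitAt (Mod.FE E (M' * p)) p₁
        (algebraMap (Mod.RE A E) (Mod.chartAlg A E (M' * p) y) w) p ft ∧
      I6.SplitAt (Mod.FE E (M' * p)) p₂
        (algebraMap (Mod.RE A E) (Mod.chartAlg A E (M' * p) y) w) p ft := by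
  have hval := deepSplit_val339 p M' hp hp2 hpM A hA S a hNE t ht het hχ E hE w hS V hV W hW f hK
    ft hfu c hlc
  obtain ⟨hl₁, hl₂⟩ := Fermat.Agent.Ribet.H220.cutLoc A E M' p w hS V W hV hW y hy p₁ p₂ hc₁ hc₂
  have hw0 : algebraMap (Mod.RE A E) (Mod.FE E (M' * p)) w ≠ 0 := by
    have hw0' : (w : E) ≠ 0 := fun h => hS.unif.ne_zero (Subtype.ext h)
    have h1 : algebraMap (Mod.RE A E) (Mod.FE E (M' * p)) w
        = algebraMap E (Mod.FE E (M' * p)) (w : E) := rfl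
    rw [h1]
    exact (map_ne_zero_iff _ (algebraMap E (Mod.FE E (M' * p))).injective).mpr hw0'
  refine ⟨divisibleDiv339 p M' t E f hK ft hfu, ?_, ?_⟩
  · refine splitAt_of_val339 _ p₁ w V p ft hl₁ (fun s => ?_) hw0
    obtain ⟨g, hg0, hg, -⟩ := hval s
    exact ⟨g, hg0, hg⟩
  · refine splitAt_of_val339 _ p₂ w _ p ft hl₂ (fun s => ?_) hw0
    obtain ⟨g, hg0, -, hg⟩ := hval s
    exact ⟨g, hg0, hg⟩

end Main

end Fermat.Agent.Ribet.H339

end

end
-- ===== PACK-END Ribet/H339/DeepSplit.lean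

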